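/-
Programme W56 (target S56), chapter (C2-a), helper8, ARITHMETIC LAYER: for a valuation subring `A`
of `ℚ̄` over `q` and a Frobenius element `φ` at `A`, the decomposition group `D_A` is topologically
generated by `φ` and the inertia group `I_A`: for every finite `F/ℚ`,
`D_A ⊆ ⟨φ⟩ · I_A · Gal(ℚ̄/F)`.
-/
import Mathlib
import Fermat.Prelude.Def_EllipticCurve_FrobeniusTrace
import Fermat.Agent.S13.UnramBridge
import Fermat.Agent.ES.EC.LiftTorsion29
import Fermat.Agent.W56.InertiaConj8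
import Fermat.Agent.Lib.FrobeniusExists

set_option autoImplicit false

namespace Fermat.Agent.W56.FrobGen8

open scoped Pointwise

local notation "Qb" => AlgebraicClosure ℚ
local notation "GQ" => (AlgebraicClosure ℚ ≃ₐ[ℚ] AlgebraicClosure ℚ)

/-! ### Endomorphisms of algebraic extensions of `𝔽_q` -/

/-- An `𝔽_q`-algebra endomorphism of a field acts on finitely many algebraic elements as a power of
the Frobenius. -/
theorem exists_pow_eq (q : ℕ) [Fact q.Prime] {κ : Type*} [Field κ] [Algebra (ZMod q) κ]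
    (ψ : κ →ₐ[ZMod q] κ) (T : Finset κ) (hT : ∀ t ∈ T, IsIntegral (ZMod q) t) :
    ∃ n : ℕ, ∀ t ∈ T, ψ t = t ^ q ^ n := by
  classical
  let L : IntermediateField (ZMod q) κ := IntermediateField.adjoin (ZMod q) (T : Set κ)
  have hfd : FiniteDimensional (ZMod q) L :=
    IntermediateField.finiteDimensional_adjoin fun t ht => hT t ht
  have hfin : Finite L := Module.finite_of_finite (ZMod q)
  obtain ⟨n, hn⟩ := (FiniteField.bijective_frobeniusAlgHom_pow (ZMod q) L).2 (ψ.restrictNormal L)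
  refine ⟨n, fun t ht => ?_⟩
  have htL : t ∈ L := IntermediateField.subset_adjoin _ _ ht
  have h1 := AlgHom.restrictNormal_commutes ψ L ⟨t, htL⟩
  have h2 : (ψ.restrictNormal L) ⟨t, htL⟩ = (⟨t, htL⟩ : L) ^ q ^ (n : ℕ) := by
    have h3 := DFunLike.congr_fun hn ⟨t, htL⟩
    rw [← h3]
    simp only [AlgHom.coe_pow, FiniteField.coe_frobeniusAlgHom, pow_iterate, ZMod.card]
  rw [h2] at h1
  simpa using h1.symm

/-! ### The action of the decomposition group on the residue field -/

section Residue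

variable {q : ℕ} (hq : q.Prime) {A : ValuationSubring Qb} (hA : A.LiesOverPrime q)

/-- Elements of the decomposition group preserve the maximal ideal. -/
theorem apply_mem_nonunits_iff {σ : GQ} (hσ : σ ∈ A.decompositionSubgroup ℚ) (x : Qb) :
    σ x ∈ A.nonunits ↔ x ∈ A.nonunits := by
  rw [ValuationSubring.mem_nonunits_iff, ValuationSubring.mem_nonunits_iff]
  have := Fermat.Agent.S05.Inertia.valuation_apply_lt_iff hσ x 1
  rwa [map_one] at this

/-- The residue of an element of `A`. -/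
noncomputable def res (A : ValuationSubring Qb) (x : Qb) (hx : x ∈ A) : IsLocalRing.ResidueField A :=
  IsLocalRing.residue A ⟨x, hx⟩

theorem res_eq_iff {x y : Qb} (hx : x ∈ A) (hy : y ∈ A) :
    res A x hx = res A y hy ↔ x - y ∈ A.nonunits := by
  unfold res
  rw [← sub_eq_zero, ← map_sub, IsLocalRing.residue_eq_zero_iff,
    ValuationSubring.mem_nonunits_iff_exists_mem_maximalIdeal]
  constructor
  · intro h
    exact ⟨A.sub_mem hx hy, h⟩
  · rintro ⟨_, h⟩
    exact h

theorem res_pow {x : Qb} (hx : x ∈ A) (n : ℕ) :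
    res A (x ^ n) (pow_mem hx n) = res A x hx ^ n := by
  unfold res
  rw [← map_pow]
  rfl

/-- The residue of an algebraic integer is algebraic over `𝔽_q`. -/
theorem isIntegral_res [Fact q.Prime] [Algebra (ZMod q) (IsLocalRing.ResidueField A)] {x : Qb}
    (hx : IsIntegral ℤ x) :
    IsIntegral (ZMod q)
      (res A x (Fermat.Agent.S13.UnramVal.mem_of_isIntegral_int A hx)) := by
  obtain ⟨f, hf, hfx⟩ := hx
  have hxA := Fermat.Agent.S13.UnramVal.mem_of_isIntegral_int A ⟨f, hf, hfx⟩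
  have hcomp : (A.subtype).comp (algebraMap ℤ ↥A) = algebraMap ℤ Qb := RingHom.ext_int _ _
  have h1 : Polynomial.eval₂ (algebraMap ℤ ↥A) (⟨x, hxA⟩ : A) f = 0 := by
    apply Subtype.ext
    have := Polynomial.hom_eval₂ f (algebraMap ℤ ↥A) A.subtype ⟨x, hxA⟩
    rw [hcomp] at this
    exact this.trans hfx
  refine ⟨f.map (Int.castRingHom (ZMod q)), hf.map _, ?_⟩
  rw [Polynomial.eval₂_map]
  have hcomp2 : (algebraMap (ZMod q) (IsLocalRing.ResidueField A)).comp
      (Int.castRingHom (ZMod q)) = (IsLocalRing.residue A).comp (algebraMap ℤ ↥A) :=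
    RingHom.ext_int _ _
  unfold res
  rw [hcomp2, ← Polynomial.hom_eval₂, h1, map_zero]

end Residue

/-! ### Frobenius and inertia generate the decomposition group -/

section Main

open NumberField

variable {q : ℕ} {A : ValuationSubring Qb}

/-- The `𝔽_q`-algebra endomorphism of the residue field induced by an element of `D_A`. -/
noncomputable def resHom [Fact q.Prime] [Algebra (ZMod q) (IsLocalRing.ResidueField A)]
    (g : A.decompositionSubgroup ℚ) :
    IsLocalRing.ResidueField A →ₐ[ZMod q] IsLocalRing.ResidueField A :=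
  { MulSemiringAction.toRingHom (A.decompositionSubgroup ℚ) (IsLocalRing.ResidueField A) g with
    commutes' := fun r => by
      have : (MulSemiringAction.toRingHom (A.decompositionSubgroup ℚ)
          (IsLocalRing.ResidueField A) g).comp (algebraMap (ZMod q) _) =
          algebraMap (ZMod q) _ := Subsingleton.elim _ _
      exact RingHom.congr_fun this r }

theorem resHom_apply [Fact q.Prime] [Algebra (ZMod q) (IsLocalRing.ResidueField A)]
    (g : A.decompositionSubgroup ℚ) (y : IsLocalRing.ResidueField A) :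
    resHom (q := q) g y = g • y := rfl

theorem smul_res (g : A.decompositionSubgroup ℚ) {x : Qb} (hx : x ∈ A) :
    g • res A x hx = res A ((g : GQ) x)
      ((Fermat.Agent.S05.Inertia.apply_mem_iff_of_mem_decomposition g.2 x).2 hx) := by
  unfold res
  rw [← IsLocalRing.ResidueField.residue_smul]
  rfl

theorem frob_pow_smul {φ : GQ} (hφ : A.IsFrobeniusAt φ q) (n : ℕ)
    (y : IsLocalRing.ResidueField A) :
    ((⟨φ, hφ.mem_decompositionSubgroup⟩ : A.decompositionSubgroup ℚ) ^ n) • y = y ^ q ^ n := by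
  induction n generalizing y with
  | zero => simp
  | succ n ih =>
    rw [pow_succ, mul_smul, hφ.smul_residue_eq, ih, ← pow_mul, pow_succ, mul_comm]

/-- **`D_A ⊆ ⟨φ⟩ · I_A · Gal(ℚ̄/F)`** for a Frobenius `φ` at `A` and a finite normal `F/ℚ`. -/
theorem exists_eq_frob_pow_mul (hq : q.Prime) (hA : A.LiesOverPrime q) {φ : GQ}
    (hφ : A.IsFrobeniusAt φ q) (F : IntermediateField ℚ Qb) [FiniteDimensional ℚ F]
    [Normal ℚ F] {σ : GQ} (hσ : σ ∈ A.decompositionSubgroup ℚ) :
    ∃ n : ℕ, ∃ ι ∈ A.inertiaSubgroupIn ℚ, ∃ u ∈ F.fixingSubgroup, σ = φ ^ n * ι * u := by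
  classical
  have : Fact q.Prime := ⟨hq⟩
  have hchar : CharP (IsLocalRing.ResidueField A) q :=
    Fermat.Agent.ES.EC.LiftTorsion29.charP_residueField A hq hA
  let _ : Algebra (ZMod q) (IsLocalRing.ResidueField A) := ZMod.algebra _ q
  have : NumberField ↥F := ⟨⟩
  -- integrality of the elements of `𝓞 F` inside `ℚ̄`
  have hint : ∀ s : 𝓞 ↥F, IsIntegral ℤ (((s : ↥F) : Qb)) := fun s =>
    (isIntegral_algebraMap_iff (FaithfulSMul.algebraMap_injective ↥F Qb)).2
      (RingOfIntegers.isIntegral_coe s)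
  have hmemA : ∀ s : 𝓞 ↥F, (((s : ↥F) : Qb)) ∈ A := fun s =>
    Fermat.Agent.S13.UnramVal.mem_of_isIntegral_int A (hint s)
  obtain ⟨S, hS⟩ : ∃ S : Finset (𝓞 ↥F), Submodule.span ℤ (S : Set (𝓞 ↥F)) = ⊤ :=
    Module.finite_def.1 inferInstance
  -- the power of Frobenius
  obtain ⟨n, hn⟩ := exists_pow_eq q (resHom (q := q) ⟨σ, hσ⟩)
    (S.image fun s : 𝓞 ↥F => res A (((s : ↥F) : Qb)) (hmemA s)) (by
      intro t ht
      obtain ⟨s, -, rfl⟩ := Finset.mem_image.1 ht
      exact isIntegral_res (hint s))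
  set Φ : A.decompositionSubgroup ℚ := ⟨φ, hφ.mem_decompositionSubgroup⟩ with hΦ
  have hΦn : ((Φ ^ n : A.decompositionSubgroup ℚ) : GQ) = φ ^ n := by
    rw [hΦ]; rfl
  have hφnD : φ ^ n ∈ A.decompositionSubgroup ℚ := by rw [← hΦn]; exact (Φ ^ n).2
  have hinvD : (φ ^ n)⁻¹ ∈ A.decompositionSubgroup ℚ := (A.decompositionSubgroup ℚ).inv_mem hφnD
  set τ : GQ := (φ ^ n)⁻¹ * σ with hτ
  -- `τ` moves the generators by elements of the maximal ideal
  have hgen : ∀ s ∈ S, A.valuation (τ (((s : ↥F) : Qb)) - (((s : ↥F) : Qb))) < 1 := by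
    intro s hs
    have h1 := hn _ (Finset.mem_image_of_mem _ hs)
    rw [resHom_apply, smul_res, ← frob_pow_smul hφ n, smul_res, res_eq_iff] at h1
    rw [← ValuationSubring.mem_nonunits_iff, ← apply_mem_nonunits_iff hφnD]
    have h2 : (φ ^ n) (τ (((s : ↥F) : Qb)) - (((s : ↥F) : Qb))) =
        σ (((s : ↥F) : Qb)) - (φ ^ n) (((s : ↥F) : Qb)) := by
      rw [map_sub, hτ, AlgEquiv.mul_apply, ← AlgEquiv.mul_apply (φ ^ n), mul_inv_cancel,
        AlgEquiv.one_apply]
    rw [h2]
    rw [hΦn] at h1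
    exact h1
  -- hence all integers of `F`
  have hall : ∀ s : 𝓞 ↥F, A.valuation (τ (((s : ↥F) : Qb)) - (((s : ↥F) : Qb))) < 1 := by
    intro s
    have hs : s ∈ Submodule.span ℤ (S : Set (𝓞 ↥F)) := by rw [hS]; trivial
    induction hs using Submodule.span_induction with
    | mem x hx => exact hgen x hx
    | zero => simp
    | add x y _ _ hx hy =>
      have h3 : τ ((((x + y : 𝓞 ↥F) : ↥F) : Qb)) - ((((x + y : 𝓞 ↥F) : ↥F) : Qb)) =
          (τ (((x : ↥F) : Qb)) - (((x : ↥F) : Qb))) + (τ (((y : ↥F) : Qb)) - (((y : ↥F) : Qb))) := by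
        push_cast
        rw [map_add]
        ring
      rw [h3]
      exact Valuation.map_add_lt _ hx hy
    | smul a x _ hx =>
      have hx' : ((((a • x : 𝓞 ↥F) : ↥F) : Qb)) = (a : Qb) * (((x : ↥F) : Qb)) := by
        rw [zsmul_eq_mul]
        simp
      have h3 : τ ((((a • x : 𝓞 ↥F) : ↥F) : Qb)) - ((((a • x : 𝓞 ↥F) : ↥F) : Qb)) =
          (a : Qb) * (τ (((x : ↥F) : Qb)) - (((x : ↥F) : Qb))) := by
        rw [hx', map_mul, map_intCast]
        ring
      rw [h3, map_mul]
      calc A.valuation (a : Qb) * A.valuation (τ (((x : ↥F) : Qb)) - (((x : ↥F) : Qb)))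
          ≤ 1 * A.valuation (τ (((x : ↥F) : Qb)) - (((x : ↥F) : Qb))) :=
            mul_le_mul_left (Fermat.Agent.S05.Inertia.valuation_intCast_le_one a) _
        _ < 1 := by rw [one_mul]; exact hx
  -- the restriction of `τ` to `F` lies in the inertia group of the prime below `A`
  set τF : ↥F ≃ₐ[ℚ] ↥F := AlgEquiv.restrictNormalHom ↥F τ with hτF
  have hτFx : ∀ x : ↥F, ((τF x : ↥F) : Qb) = τ (x : Qb) := fun x =>
    AlgEquiv.restrictNormal_commutes τ ↥F x
  obtain ⟨ι, hι, hιF⟩ := Fermat.Agent.S13.UnramBridge.exists_inertia_lift F A hq hA τF (by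
    intro x hx
    obtain ⟨s, rfl⟩ : ∃ s : 𝓞 ↥F, ((s : 𝓞 ↥F) : ↥F) = x := ⟨⟨x, hx⟩, rfl⟩
    rw [hτFx, ValuationSubring.mem_nonunits_iff]
    exact hall s)
  refine ⟨n, ι, hι, ι⁻¹ * τ, ?_, ?_⟩
  · rw [IntermediateField.mem_fixingSubgroup_iff]
    intro x hx
    have h4 := hιF ⟨x, hx⟩
    rw [hτFx] at h4
    rw [AlgEquiv.mul_apply]
    show ι⁻¹ (τ x) = x
    rw [← h4, ← AlgEquiv.mul_apply, inv_mul_cancel, AlgEquiv.one_apply]
  · rw [hτ]
    group

end Main

/-! ### Frobenius elements at an arbitrary valuation subring over `q` -/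

section Conj

variable {q : ℕ} {A : ValuationSubring Qb}

/-- Element-level characterisation of Frobenius elements. -/
theorem isFrobeniusAt_iff {φ : GQ} :
    A.IsFrobeniusAt φ q ↔
      φ ∈ A.decompositionSubgroup ℚ ∧ ∀ x ∈ A, φ x - x ^ q ∈ A.nonunits := by
  constructor
  · intro h
    refine ⟨h.mem_decompositionSubgroup, fun x hx => ?_⟩
    have h1 := h.smul_residue_eq (res A x hx)
    rw [smul_res, ← res_pow hx q, res_eq_iff] at h1
    exact h1
  · rintro ⟨hD, h⟩
    refine ⟨hD, fun y => ?_⟩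
    obtain ⟨a, rfl⟩ := IsLocalRing.residue_surjective y
    have h1 : IsLocalRing.residue A a = res A (a : Qb) a.2 := rfl
    rw [h1, smul_res, ← res_pow a.2 q, res_eq_iff]
    exact h a a.2

/-- Conjugates of Frobenius elements are Frobenius elements at the translated place. -/
theorem isFrobeniusAt_smul {φ : GQ} (h : A.IsFrobeniusAt φ q) (g : GQ) :
    (g • A).IsFrobeniusAt (g * φ * g⁻¹) q := by
  rw [isFrobeniusAt_iff] at h ⊢
  obtain ⟨hD, hx⟩ := h
  refine ⟨?_, fun x hxA => ?_⟩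
  · have hD' : φ • A = A := MulAction.mem_stabilizer_iff.1 hD
    rw [ValuationSubring.decompositionSubgroup, MulAction.mem_stabilizer_iff, mul_smul, mul_smul,
      inv_smul_smul, hD']
  · rw [ValuationSubring.mem_pointwise_smul_iff_inv_smul_mem] at hxA
    have h1 := hx (g⁻¹ x) hxA
    rw [Fermat.Agent.PT.BR.UnramBridge13.mem_smul_nonunits_iff]
    have h2 : g⁻¹ ((g * φ * g⁻¹) x - x ^ q) = φ (g⁻¹ x) - (g⁻¹ x) ^ q := by
      rw [map_sub, map_pow, AlgEquiv.mul_apply, AlgEquiv.mul_apply, ← AlgEquiv.mul_apply g⁻¹ g,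
        inv_mul_cancel, AlgEquiv.one_apply]
    rw [h2]
    exact h1

/-- **Every valuation subring of `ℚ̄` over `q` has a Frobenius element.** -/
theorem exists_isFrobeniusAt (hq : q.Prime) (hA : A.LiesOverPrime q) :
    ∃ φ : GQ, A.IsFrobeniusAt φ q := by
  obtain ⟨A', φ', hA', hφ'⟩ := Fermat.Agent.Lib.exists_isFrobeniusAt q hq
  obtain ⟨g, rfl⟩ := InertiaConj8.exists_smul_eq hq hA' hA
  exact ⟨_, isFrobeniusAt_smul hφ' g⟩

end Conj

end Fermat.Agent.W56.FrobGen8
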