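/-
Programme W56 (target S56, Taylor–Wiles primes), SHARED DEFINITIONS (helper9).

Everything here is a definition or a one-line lemma; no mathematics.  `Γ = Gal(ℚ̄/ℚ)`,
`k` the residue field, `ρ̄ : ResidualGaloisRep k`.

* coefficients: `adRep ρ̄` (conjugation on `End_k V̄`), `sl ρ̄` (trace zero), **`ad0 ρ̄ : Rep k Γ`**
  (`M = ad⁰ρ̄`), `cycloK p : Γ →* kˣ` (the mod `p` cyclotomic character with values in `k`, from the
  Prelude's `ExtCitation.cycloChar`), **`ad0D ρ̄ p = (ad0 ρ̄).dualTwist (cycloK p)`** (`M* = M^∨(1)`,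
  the Prelude's `Rep.dualTwist`, i.e. the shape of `S55`);
* local groups: the Prelude's `primeLocalGaloisGroup q = Gal(ℚ̄_q/ℚ_q)` with
  `locD q = primeLocalToGlobal q`, `inertia q` (preimage of the inertia group of the place
  `primeLocalPlace q`), `locI q : inertia q →* Γ`; `primesOf : Finset ℕ → Finset Nat.Primes`;
* cohomology = level cohomology of `PT/PRO/LevelCoh28` for the bases of `PT/BR/LevelBridge13`:
  `H1g T M` (global, cochains of a level unramified outside `T`), `H1D M q`, `H1I M q` (local at the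
  decomposition / inertia group), `resD`, `resI` (`PT/BR/ShaBridge13.resH1`), `resDI` (local),
  `H1ur M q = ker resDI` (unramified classes);
* Selmer groups: **`Sel T U pp Lp`** (`⊆ H1g T M`: unramified at the primes of `U`, `Lp` at `pp`, no
  condition at the other primes of `T`) and **`SelD T U Q pp Lp'`** (unramified at `U`, TRIVIAL at the
  primes of `Q`, `Lp'` at `pp`);
* the strict-ordinary condition at `p`: `W0 ρ̄ ℓ` (`X` with `im X ≤ ℓ ≤ ker X`, `ℓ` a line of `V̄`),
  **`LpSO ρ̄ ℓ pp`** (classes at `pp` representable by a level cocycle with values in `W0 ρ̄ ℓ`).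
-/
import Mathlib
import Fermat.Prelude.Def_GaloisRep_DeformationRingData
import Fermat.Prelude.Def_GaloisRep_StrictOrdinary
import Fermat.Prelude.Def_GaloisRep_Flat
import Fermat.Agent.PT.BR.ShaBridge13

set_option autoImplicit false

open CategoryTheory ExtCitation

namespace Fermat.Agent.W56.Defs9

open Fermat.Agent.PT.PRO Fermat.Agent.PT.BR

local notation "Γ" => (AlgebraicClosure ℚ ≃ₐ[ℚ] AlgebraicClosure ℚ)

noncomputable section

/-! ### Coefficients -/

section Coeff

variable {k : Type} [Field k] (ρbar : ResidualGaloisRep k)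

theorem rho_mul_inv (σ : Γ) : ρbar.ρ σ * ρbar.ρ σ⁻¹ = 1 := by
  rw [← map_mul, mul_inv_cancel, map_one]

theorem rho_inv_mul (σ : Γ) : ρbar.ρ σ⁻¹ * ρbar.ρ σ = 1 := by
  rw [← map_mul, inv_mul_cancel, map_one]

/-- The adjoint representation of `Γ` on `End_k V̄`: `σ • X = ρ̄(σ) X ρ̄(σ)⁻¹`. -/
def adRep : Representation k Γ (Module.End k ρbar.V) where
  toFun σ :=
    { toFun := fun X => ρbar.ρ σ * X * ρbar.ρ σ⁻¹
      map_add' := fun X Y => by rw [mul_add, add_mul]
      map_smul' := fun c X => by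
        rw [RingHom.id_apply, mul_smul_comm, smul_mul_assoc] }
  map_one' := by
    ext X : 1
    show ρbar.ρ 1 * X * ρbar.ρ 1⁻¹ = X
    rw [inv_one, map_one, one_mul, mul_one]
  map_mul' σ τ := by
    ext X : 1
    show ρbar.ρ (σ * τ) * X * ρbar.ρ (σ * τ)⁻¹ =
      ρbar.ρ σ * (ρbar.ρ τ * X * ρbar.ρ τ⁻¹) * ρbar.ρ σ⁻¹
    rw [mul_inv_rev, map_mul, map_mul]
    simp only [mul_assoc]

theorem adRep_apply (σ : Γ) (X : Module.End k ρbar.V) :
    adRep ρbar σ X = ρbar.ρ σ * X * ρbar.ρ σ⁻¹ := rfl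

/-- Trace-zero endomorphisms of `V̄`. -/
def sl : Submodule k (Module.End k ρbar.V) := LinearMap.ker (LinearMap.trace k ρbar.V)

theorem mem_sl_iff (X : Module.End k ρbar.V) : X ∈ sl ρbar ↔ LinearMap.trace k ρbar.V X = 0 :=
  LinearMap.mem_ker

theorem adRep_mem_sl (σ : Γ) {X : Module.End k ρbar.V} (hX : X ∈ sl ρbar) :
    adRep ρbar σ X ∈ sl ρbar := by
  rw [mem_sl_iff] at hX ⊢
  rw [adRep_apply, LinearMap.trace_mul_comm, ← mul_assoc, rho_inv_mul, one_mul, hX]

/-- The representation `ad⁰ρ̄` on trace-zero endomorphisms. -/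
def ad0Rep : Representation k Γ ↥(sl ρbar) where
  toFun σ := (adRep ρbar σ).restrict fun _ hX => adRep_mem_sl ρbar σ hX
  map_one' := by
    ext X : 2
    show adRep ρbar 1 (X : Module.End k ρbar.V) = X
    rw [map_one, Module.End.one_apply]
  map_mul' σ τ := by
    ext X : 2
    show adRep ρbar (σ * τ) (X : Module.End k ρbar.V) =
      adRep ρbar σ (adRep ρbar τ (X : Module.End k ρbar.V))
    rw [map_mul, Module.End.mul_apply]

theorem coe_ad0Rep (σ : Γ) (X : ↥(sl ρbar)) :
    ((ad0Rep ρbar σ X : ↥(sl ρbar)) : Module.End k ρbar.V) = ρbar.ρ σ * X * ρbar.ρ σ⁻¹ := rfl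

/-- **`M = ad⁰ρ̄`** as an object of `Rep k Γ`. -/
def ad0 : Rep k Γ := Rep.of (ad0Rep ρbar)

variable (p : ℕ) [Fact p.Prime] [CharP k p]

/-- The mod `p` cyclotomic character with values in `kˣ`. -/
def cycloK : Γ →* kˣ :=
  (Units.map ((ZMod.castHom (dvd_refl p) k : ZMod p →+* k) : ZMod p →* k)).comp (cycloChar p)

/-- **`M* = Hom_k(M, k)(1)`**, in the shape of the Prelude's `Rep.dualTwist` (as in `S55`). -/
def ad0D : Rep k Γ := (ad0 ρbar).dualTwist (cycloK (k := k) p)

end Coeff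

/-! ### Local groups -/

/-- The primes of a finite set of natural numbers, as a `Finset Nat.Primes`. -/
def primesOf (T : Finset ℕ) : Finset Nat.Primes := T.subtype Nat.Prime

theorem mem_primesOf {T : Finset ℕ} {q : Nat.Primes} : q ∈ primesOf T ↔ (q : ℕ) ∈ T :=
  Finset.mem_subtype

/-- `Gal(ℚ̄_q/ℚ_q) → Γ` (the Prelude's `primeLocalToGlobal`). -/
abbrev locD (q : Nat.Primes) : primeLocalGaloisGroup q →* Γ := primeLocalToGlobal q

/-- The inertia subgroup of `Gal(ℚ̄_q/ℚ_q)`: the preimage of the inertia group of the place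
`primeLocalPlace q` of `ℚ̄`. -/
def inertia (q : Nat.Primes) : Subgroup (primeLocalGaloisGroup q) :=
  ((primeLocalPlace q).inertiaSubgroupIn ℚ).comap (locD q)

/-- `I_q → Γ`. -/
def locI (q : Nat.Primes) : ↥(inertia q) →* Γ := (locD q).comp (inertia q).subtype

theorem locI_mem (q : Nat.Primes) (σ : ↥(inertia q)) :
    locI q σ ∈ (primeLocalPlace q).inertiaSubgroupIn ℚ := σ.2

/-! ### Level cohomology: global, local, restriction maps -/

section Coh

variable {k : Type} [CommRing k] (T : Finset Nat.Primes) (M : Rep k Γ)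

/-- `H¹(G_T, M)`: level classes of a level unramified outside `T`. -/
abbrev H1g : Type := LevelCoh28.H1 (LevelBridge13.globalBasis T) M

/-- `H¹(Gal(ℚ̄_q/ℚ_q), M)` (level classes). -/
abbrev H1D (q : Nat.Primes) : Type :=
  LevelCoh28.H1 (LevelBridge13.pullBasis (locD q)) (Rep.res (locD q) M)

/-- `H¹(I_q, M)` (level classes). -/
abbrev H1I (q : Nat.Primes) : Type :=
  LevelCoh28.H1 (LevelBridge13.pullBasis (locI q)) (Rep.res (locI q) M)

/-- Restriction to the decomposition group at `q`. -/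
def resD (q : Nat.Primes) : H1g T M →ₗ[k] H1D M q := ShaBridge13.resH1 T (locD q) M

/-- Restriction to the inertia group at `q`. -/
def resI (q : Nat.Primes) : H1g T M →ₗ[k] H1I M q := ShaBridge13.resH1 T (locI q) M

theorem isLevelHom_inertia (q : Nat.Primes) :
    LevelCohRes28.IsLevelHom (inertia q).subtype (LevelBridge13.pullSets (locI q))
      (LevelBridge13.pullSets (locD q)) := by
  rintro _ ⟨F, hF, rfl⟩
  exact ⟨_, ⟨F, hF, rfl⟩, le_rfl⟩

/-- Local restriction `H¹(D_q, M) → H¹(I_q, M)`. -/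
def resDI (q : Nat.Primes) : H1D M q →ₗ[k] H1I M q :=
  LevelCohRes28.ppH1 (𝓑G := LevelBridge13.pullBasis (locI q))
    (𝓑H := LevelBridge13.pullBasis (locD q)) (inertia q).subtype
    (LinearMap.id : Rep.res (locD q) M →ₗ[k] Rep.res (locI q) M) (fun _ _ => rfl)
    (isLevelHom_inertia q)

/-- Unramified local classes. -/
def H1ur (q : Nat.Primes) : Submodule k (H1D M q) := LinearMap.ker (resDI M q)

/-- **The Selmer group** `⊆ H¹(G_T, M)`: unramified at the primes of `U`, the condition `Lp` at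
`pp`; no condition at the remaining primes of `T`. -/
def Sel (U : Finset Nat.Primes) (pp : Nat.Primes) (Lp : Submodule k (H1D M pp)) :
    Submodule k (H1g T M) :=
  (⨅ q ∈ U, LinearMap.ker (resI T M q)) ⊓ Lp.comap (resD T M pp)

/-- **The dual Selmer group** `⊆ H¹(G_T, M')`: unramified at the primes of `U`, TRIVIAL at the
primes of `Q`, the condition `Lp'` at `pp`. -/
def SelD (U Q : Finset Nat.Primes) (pp : Nat.Primes) (Lp' : Submodule k (H1D M pp)) :
    Submodule k (H1g T M) :=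
  (⨅ q ∈ U, LinearMap.ker (resI T M q)) ⊓ (⨅ q ∈ Q, LinearMap.ker (resD T M q)) ⊓
    Lp'.comap (resD T M pp)

theorem mem_Sel_iff {U : Finset Nat.Primes} {pp : Nat.Primes} {Lp : Submodule k (H1D M pp)}
    (x : H1g T M) :
    x ∈ Sel T M U pp Lp ↔ (∀ q ∈ U, resI T M q x = 0) ∧ resD T M pp x ∈ Lp := by
  simp only [Sel, Submodule.mem_inf, Submodule.mem_iInf, LinearMap.mem_ker, Submodule.mem_comap]

theorem mem_SelD_iff {U Q : Finset Nat.Primes} {pp : Nat.Primes} {Lp' : Submodule k (H1D M pp)}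
    (x : H1g T M) :
    x ∈ SelD T M U Q pp Lp' ↔
      (∀ q ∈ U, resI T M q x = 0) ∧ (∀ q ∈ Q, resD T M q x = 0) ∧ resD T M pp x ∈ Lp' := by
  simp only [SelD, Submodule.mem_inf, Submodule.mem_iInf, LinearMap.mem_ker, Submodule.mem_comap,
    and_assoc]

end Coh

/-! ### The strict-ordinary local condition at `p` -/

section SO

variable {k : Type} [Field k] (ρbar : ResidualGaloisRep k)

/-- `W⁰ = Hom(V̄/ℓ, ℓ)` inside `ad⁰ρ̄`: the `X` with `im X ≤ ℓ ≤ ker X`. -/
def W0 (ℓ : Submodule k ρbar.V) : Submodule k ↥(sl ρbar) where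
  carrier := {X | LinearMap.range (X : Module.End k ρbar.V) ≤ ℓ ∧
    ℓ ≤ LinearMap.ker (X : Module.End k ρbar.V)}
  add_mem' := by
    rintro X Y ⟨hX1, hX2⟩ ⟨hY1, hY2⟩
    refine ⟨?_, fun v hv => ?_⟩
    · rintro _ ⟨v, rfl⟩
      exact ℓ.add_mem (hX1 ⟨v, rfl⟩) (hY1 ⟨v, rfl⟩)
    · have h1 : (X : Module.End k ρbar.V) v = 0 := hX2 hv
      have h2 : (Y : Module.End k ρbar.V) v = 0 := hY2 hv
      show ((X : Module.End k ρbar.V) + (Y : Module.End k ρbar.V)) v = 0
      rw [LinearMap.add_apply, h1, h2, add_zero]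
  zero_mem' := by
    refine ⟨?_, fun v _ => rfl⟩
    rintro _ ⟨v, rfl⟩
    exact ℓ.zero_mem
  smul_mem' := by
    rintro c X ⟨hX1, hX2⟩
    refine ⟨?_, fun v hv => ?_⟩
    · rintro _ ⟨v, rfl⟩
      exact ℓ.smul_mem c (hX1 ⟨v, rfl⟩)
    · have h1 : (X : Module.End k ρbar.V) v = 0 := hX2 hv
      show (c • (X : Module.End k ρbar.V)) v = 0
      rw [LinearMap.smul_apply, h1, smul_zero]

/-- **The strict-ordinary local condition**: classes in `H¹(D_pp, ad⁰ρ̄)` representable by a level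
cocycle with values in `W0 ρ̄ ℓ`. -/
def LpSO (ℓ : Submodule k ρbar.V) (pp : Nat.Primes) : Submodule k (H1D (ad0 ρbar) pp) :=
  Submodule.map (LevelCoh28.H1mk (LevelBridge13.pullBasis (locD pp)) (Rep.res (locD pp) (ad0 ρbar)))
    { carrier := {c | ∀ σ, (c : primeLocalGaloisGroup pp → ad0 ρbar) σ ∈ W0 ρbar ℓ}
      add_mem' := fun hc hc' σ => (W0 ρbar ℓ).add_mem (hc σ) (hc' σ)
      zero_mem' := fun _ => (W0 ρbar ℓ).zero_mem
      smul_mem' := fun a _ hc σ => (W0 ρbar ℓ).smul_mem a (hc σ) }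

end SO

end

end Fermat.Agent.W56.Defs9
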