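import Mathlib
import Fermat.Prelude.Def_GaloisRep_CompletionBridge
import Fermat.Prelude.Def_ExtEndgame_ProductionDatum

/-!
# W56, item (D1): the local Galois group maps ONTO the decomposition group (lead)

`Γ_q = Gal(PadicAlgCl q / ℚ_q) → Γ = Gal(ℚ̄ / ℚ)` (the Prelude's `localGaloisToGlobal q`) has image
exactly the decomposition group of the place `padicPlace q` of `ℚ̄`:
the inclusion `⊆` is the Prelude's `localGaloisToGlobal_mem_decompositionSubgroup`, here we prove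
`⊇`.

Proof.  An element `σ` of the decomposition group preserves the `q`-adic norm on `ℚ̄`
(equivalent absolute values which agree at `q`).  Hence the two `ℚ_q`-algebra maps
`ℚ_q ⊗ ℚ̄ → PadicAlgCl q`, `c ⊗ x ↦ c ι(x)` and `c ⊗ x ↦ c ι(σ x)` have the same kernel
(approximate the coefficients by rationals), so `ι x ↦ ι (σ x)` extends to a `ℚ_q`-embedding of
`ℚ_q(ι ℚ̄)` into `PadicAlgCl q`, which extends to an automorphism by normality.

Main statements (namespace `Fermat.Agent.W56.DecompOnto0`):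
* `norm_padicEmbedding_apply_of_mem` : norm preservation.
* `exists_localGaloisToGlobal_eq` : surjectivity onto the decomposition group.
* `range_localGaloisToGlobal` : `range = decompositionSubgroup`.
* `exists_primeLocalToGlobal_eq`, `range_primeLocalToGlobal` : the same for `Nat.Primes`.
-/

set_option autoImplicit false

open scoped TensorProduct Pointwise NNReal

namespace Fermat.Agent.W56.DecompOnto0

local notation "Qbar" => AlgebraicClosure ℚ

variable (q : ℕ) [Fact q.Prime]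

/-- Membership in the decomposition group of `padicPlace q`, unfolded. -/
theorem mem_decomp_iff {σ : Qbar ≃ₐ[ℚ] Qbar}
    (hσ : σ ∈ (padicPlace q).decompositionSubgroup ℚ) (x : Qbar) :
    ‖padicEmbedding q (σ x)‖₊ ≤ 1 ↔ ‖padicEmbedding q x‖₊ ≤ 1 := by
  rw [← mem_padicPlace_iff, ← mem_padicPlace_iff]
  have h := MulAction.mem_stabilizer_iff.mp hσ
  constructor
  · intro hx
    have h1 : σ x ∈ σ • padicPlace q := by rw [h]; exact hx
    rw [ValuationSubring.mem_pointwise_smul_iff_inv_smul_mem, AlgEquiv.smul_def] at h1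
    simpa using h1
  · intro hx
    rw [← h, ValuationSubring.mem_pointwise_smul_iff_inv_smul_mem, AlgEquiv.smul_def]
    simpa using hx

/-- The `q`-adic absolute value of `ℚ̄` attached to `padicEmbedding q`. -/
noncomputable def absQ : AbsoluteValue Qbar ℝ :=
  (NormedField.toAbsoluteValue (PadicAlgCl q)).comp
    (f := (padicEmbedding q : Qbar →+* PadicAlgCl q)) (padicEmbedding q).toRingHom.injective

theorem absQ_apply (x : Qbar) : absQ q x = ‖padicEmbedding q x‖ := rfl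

theorem absQ_natCast_self : absQ q (q : Qbar) = (q : ℝ)⁻¹ := by
  rw [absQ_apply, map_natCast]
  have h1 : ((q : ℚ_[q]) : PadicAlgCl q) = (q : PadicAlgCl q) := by
    exact map_natCast (algebraMap ℚ_[q] (PadicAlgCl q)) q
  rw [← h1, PadicAlgCl.norm_extends]
  exact Padic.norm_p

/-- **Norm preservation.**  An element of the decomposition group of `padicPlace q` preserves the
`q`-adic norm of `ℚ̄`. -/
theorem norm_padicEmbedding_apply_of_mem {σ : Qbar ≃ₐ[ℚ] Qbar}
    (hσ : σ ∈ (padicPlace q).decompositionSubgroup ℚ) (x : Qbar) :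
    ‖padicEmbedding q (σ x)‖ = ‖padicEmbedding q x‖ := by
  set v := absQ q with hv
  set w : AbsoluteValue Qbar ℝ := v.comp (f := ((σ : Qbar ≃+* Qbar) : Qbar →+* Qbar))
    σ.injective with hw
  have hw_apply : ∀ y, w y = v (σ y) := fun _ => rfl
  have hle1 : ∀ y, v y ≤ 1 ↔ w y ≤ 1 := by
    intro y
    rw [hw_apply]
    have := mem_decomp_iff q hσ y
    rw [← NNReal.coe_le_coe, ← NNReal.coe_le_coe] at this
    exact this.symm
  have hvw : v.IsEquiv w := by
    intro a b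
    rcases eq_or_ne b 0 with rfl | hb
    · simp only [map_zero]
      constructor
      · intro h
        have : a = 0 := by
          have h0 : v a = 0 := le_antisymm h (v.nonneg a)
          exact (map_eq_zero v).mp h0
        rw [this, map_zero]
      · intro h
        have : a = 0 := by
          have h0 : w a = 0 := le_antisymm h (w.nonneg a)
          exact (map_eq_zero w).mp h0
        rw [this, map_zero]
    · have hvb : 0 < v b := v.pos hb
      have hwb : 0 < w b := w.pos hb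
      rw [← div_le_one hvb, ← div_le_one hwb, ← map_div₀, ← map_div₀]
      exact hle1 _
  obtain ⟨c, hc, hcw⟩ := AbsoluteValue.isEquiv_iff_exists_rpow_eq.mp hvw
  have hσq : σ (q : Qbar) = (q : Qbar) := map_natCast σ q
  have hq : ((q : ℝ)⁻¹) ^ c = (q : ℝ)⁻¹ := by
    have h1 : v (q : Qbar) ^ c = w (q : Qbar) := congrFun hcw (q : Qbar)
    rw [hw_apply, hσq, hv, absQ_natCast_self] at h1
    exact h1
  have hq1 : (1 : ℝ) < q := by exact_mod_cast (Fact.out : q.Prime).one_lt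
  have hc1 : c = 1 := by
    have hpos : (0 : ℝ) < (q : ℝ)⁻¹ := by positivity
    have hlog : Real.log ((q : ℝ)⁻¹) ≠ 0 := by
      rw [Real.log_inv, neg_ne_zero]
      exact (Real.log_pos hq1).ne'
    have := congrArg Real.log hq
    rw [Real.log_rpow hpos] at this
    have h2 : (c - 1) * Real.log ((q : ℝ)⁻¹) = 0 := by linarith
    rcases mul_eq_zero.mp h2 with h | h
    · linarith
    · exact (hlog h).elim
  have hx : v x ^ c = w x := congrFun hcw x
  rw [hc1, Real.rpow_one] at hx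
  exact hx.symm

section Kernel

/-- The `ℚ_q`-algebra map `ℚ_q ⊗ ℚ̄ → PadicAlgCl q`, `c ⊗ x ↦ c g(x)`. -/
noncomputable def tmap (g : Qbar →ₐ[ℚ] PadicAlgCl q) :
    ℚ_[q] ⊗[ℚ] Qbar →ₐ[ℚ_[q]] PadicAlgCl q :=
  Algebra.TensorProduct.productLeftAlgHom (Algebra.ofId ℚ_[q] (PadicAlgCl q)) g

theorem tmap_tmul (g : Qbar →ₐ[ℚ] PadicAlgCl q) (c : ℚ_[q]) (x : Qbar) :
    tmap q g (c ⊗ₜ x) = algebraMap ℚ_[q] (PadicAlgCl q) c * g x := rfl

theorem norm_algebraMap_padic (c : ℚ_[q]) : ‖algebraMap ℚ_[q] (PadicAlgCl q) c‖ = ‖c‖ :=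
  PadicAlgCl.norm_extends q c

/-- **Kernel lemma.**  If two embeddings of `ℚ̄` into `PadicAlgCl q` induce the same norm, the
induced maps from `ℚ_q ⊗ ℚ̄` have the same kernel. -/
theorem tmap_eq_zero_of_norm_eq (g₁ g₂ : Qbar →ₐ[ℚ] PadicAlgCl q)
    (hg : ∀ x, ‖g₁ x‖ = ‖g₂ x‖) (z : ℚ_[q] ⊗[ℚ] Qbar) (hz : tmap q g₁ z = 0) :
    tmap q g₂ z = 0 := by
  obtain ⟨s, rfl⟩ := TensorProduct.exists_finset z
  rw [map_sum] at hz ⊢
  simp only [tmap_tmul] at hz ⊢
  by_contra hne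
  have hN' : 0 < ‖∑ i ∈ s, algebraMap ℚ_[q] (PadicAlgCl q) i.1 * g₂ i.2‖ := norm_pos_iff.mpr hne
  obtain ⟨N, hNdef⟩ : ∃ N : ℝ, N = ‖∑ i ∈ s, algebraMap ℚ_[q] (PadicAlgCl q) i.1 * g₂ i.2‖ :=
    ⟨_, rfl⟩
  have hN : 0 < N := hNdef ▸ hN'
  obtain ⟨B, hB⟩ : ∃ B : ℝ, B = ∑ i ∈ s, ‖g₂ i.2‖ := ⟨_, rfl⟩
  have hB0 : 0 ≤ B := hB ▸ Finset.sum_nonneg fun _ _ => norm_nonneg _
  have hB1 : 0 < 2 * (B + 1) := by linarith
  obtain ⟨δ, hδdef⟩ : ∃ δ : ℝ, δ = N / (2 * (B + 1)) := ⟨_, rfl⟩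
  have hδ : 0 < δ := hδdef ▸ div_pos hN hB1
  choose r hr using fun c : ℚ_[q] => Padic.rat_dense q c hδ
  -- the rational approximation
  obtain ⟨y, hy⟩ : ∃ y : Qbar, y = ∑ i ∈ s, (r i.1) • i.2 := ⟨_, rfl⟩
  have hgy : ∀ g : Qbar →ₐ[ℚ] PadicAlgCl q,
      g y = ∑ i ∈ s, algebraMap ℚ_[q] (PadicAlgCl q) (r i.1 : ℚ_[q]) * g i.2 := by
    intro g
    rw [hy, map_sum]
    refine Finset.sum_congr rfl fun i _ => ?_
    rw [Algebra.smul_def, map_mul, AlgHom.commutes]
    congr 1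
  have hbound : ∀ g : Qbar →ₐ[ℚ] PadicAlgCl q, (∀ x, ‖g x‖ = ‖g₂ x‖) →
      ‖∑ i ∈ s, algebraMap ℚ_[q] (PadicAlgCl q) (i.1 - (r i.1 : ℚ_[q])) * g i.2‖ ≤ δ * B := by
    intro g hgg
    refine (norm_sum_le _ _).trans ?_
    rw [hB, Finset.mul_sum]
    refine Finset.sum_le_sum fun i _ => ?_
    rw [norm_mul, norm_algebraMap_padic, hgg]
    exact mul_le_mul_of_nonneg_right (hr i.1).le (norm_nonneg _)
  -- `‖g₁ y‖` is small
  have h1 : ‖g₁ y‖ ≤ δ * B := by
    have e : g₁ y = -(∑ i ∈ s, algebraMap ℚ_[q] (PadicAlgCl q) (i.1 - (r i.1 : ℚ_[q])) * g₁ i.2) := by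
      rw [hgy g₁, eq_neg_iff_add_eq_zero, ← Finset.sum_add_distrib, ← hz]
      refine Finset.sum_congr rfl fun i _ => ?_
      rw [map_sub]
      ring
    rw [e, norm_neg]
    exact hbound g₁ hg
  have h2 : ‖g₂ y‖ ≤ δ * B := by rw [← hg]; exact h1
  have h3 : N ≤ δ * B + δ * B := by
    have e : ∑ i ∈ s, algebraMap ℚ_[q] (PadicAlgCl q) i.1 * g₂ i.2 =
        (∑ i ∈ s, algebraMap ℚ_[q] (PadicAlgCl q) (i.1 - (r i.1 : ℚ_[q])) * g₂ i.2) + g₂ y := by
      rw [hgy g₂, ← Finset.sum_add_distrib]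
      refine Finset.sum_congr rfl fun i _ => ?_
      rw [map_sub]
      ring
    calc N = ‖∑ i ∈ s, algebraMap ℚ_[q] (PadicAlgCl q) i.1 * g₂ i.2‖ := hNdef
      _ = ‖(∑ i ∈ s, algebraMap ℚ_[q] (PadicAlgCl q) (i.1 - (r i.1 : ℚ_[q])) * g₂ i.2) +
            g₂ y‖ := by rw [e]
      _ ≤ _ := (norm_add_le _ _).trans (add_le_add (hbound g₂ fun _ => rfl) h2)
  have h4 : δ * B + δ * B < N := by
    have : δ * B + δ * B = N * (2 * B / (2 * (B + 1))) := by
      rw [hδdef]
      field_simp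
      ring
    rw [this]
    have hlt : 2 * B / (2 * (B + 1)) < 1 := by
      rw [div_lt_one hB1]
      linarith
    calc N * (2 * B / (2 * (B + 1))) < N * 1 := mul_lt_mul_of_pos_left hlt hN
      _ = N := mul_one N
  linarith

end Kernel

section Extend

/-- **Surjectivity onto the decomposition group.** -/
theorem exists_localGaloisToGlobal_eq {σ : Qbar ≃ₐ[ℚ] Qbar}
    (hσ : σ ∈ (padicPlace q).decompositionSubgroup ℚ) :
    ∃ τ : PadicAlgCl q ≃ₐ[ℚ_[q]] PadicAlgCl q, localGaloisToGlobal q τ = σ := by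
  have : Normal ℚ_[q] (PadicAlgCl q) := IsAlgClosure.normal ℚ_[q] (PadicAlgCl q)
  let g₁ : Qbar →ₐ[ℚ] PadicAlgCl q := padicEmbedding q
  let g₂ : Qbar →ₐ[ℚ] PadicAlgCl q := (padicEmbedding q).comp (σ : Qbar →ₐ[ℚ] Qbar)
  have hg : ∀ x, ‖g₁ x‖ = ‖g₂ x‖ := fun x =>
    (norm_padicEmbedding_apply_of_mem q hσ x).symm
  have hker : ∀ z, tmap q g₁ z = 0 → tmap q g₂ z = 0 := tmap_eq_zero_of_norm_eq q g₁ g₂ hg
  have hker' : ∀ z z', tmap q g₁ z = tmap q g₁ z' → tmap q g₂ z = tmap q g₂ z' := by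
    intro z z' h
    have := hker (z - z') (by rw [map_sub, h, sub_self])
    rwa [map_sub, sub_eq_zero] at this
  -- the intermediate field `ℚ_q(ι ℚ̄)`
  let E₀ : IntermediateField ℚ_[q] (PadicAlgCl q) :=
    (tmap q g₁).range.toIntermediateField fun x hx =>
      Subalgebra.inv_mem_of_algebraic (x := ⟨x, hx⟩) _ (Algebra.IsAlgebraic.isAlgebraic x)
  have hE₀ : ∀ e : E₀, ∃ z, tmap q g₁ z = (e : PadicAlgCl q) := fun e => e.2
  choose pre hpre using hE₀
  -- the embedding `ι x ↦ ι (σ x)` of `E₀`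
  let τ₀ : E₀ →ₐ[ℚ_[q]] PadicAlgCl q :=
    { toFun := fun e => tmap q g₂ (pre e)
      map_one' := by
        have : tmap q g₂ (pre 1) = tmap q g₂ 1 := hker' _ _ (by rw [hpre, map_one]; rfl)
        rw [this, map_one]
      map_mul' := fun a b => by
        have : tmap q g₂ (pre (a * b)) = tmap q g₂ (pre a * pre b) :=
          hker' _ _ (by rw [hpre, map_mul, hpre, hpre]; rfl)
        rw [this, map_mul]
      map_zero' := by
        have : tmap q g₂ (pre 0) = tmap q g₂ 0 := hker' _ _ (by rw [hpre, map_zero]; rfl)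
        rw [this, map_zero]
      map_add' := fun a b => by
        have : tmap q g₂ (pre (a + b)) = tmap q g₂ (pre a + pre b) :=
          hker' _ _ (by rw [hpre, map_add, hpre, hpre]; rfl)
        rw [this, map_add]
      commutes' := fun c => by
        have : tmap q g₂ (pre (algebraMap ℚ_[q] E₀ c)) =
            tmap q g₂ (algebraMap ℚ_[q] (ℚ_[q] ⊗[ℚ] Qbar) c) :=
          hker' _ _ (by rw [hpre, AlgHom.commutes]; rfl)
        rw [this, AlgHom.commutes] }
  have hτ₀ : ∀ (x : Qbar) (hx : padicEmbedding q x ∈ E₀),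
      τ₀ ⟨padicEmbedding q x, hx⟩ = padicEmbedding q (σ x) := by
    intro x hx
    have : tmap q g₂ (pre ⟨padicEmbedding q x, hx⟩) = tmap q g₂ ((1 : ℚ_[q]) ⊗ₜ[ℚ] x) :=
      hker' _ _ (by rw [hpre, tmap_tmul, map_one, one_mul])
    show tmap q g₂ (pre ⟨padicEmbedding q x, hx⟩) = _
    rw [this, tmap_tmul, map_one, one_mul]
    rfl
  have hmem : ∀ x : Qbar, padicEmbedding q x ∈ E₀ := fun x =>
    ⟨(1 : ℚ_[q]) ⊗ₜ[ℚ] x, by
      show tmap q g₁ ((1 : ℚ_[q]) ⊗ₜ[ℚ] x) = _
      rw [tmap_tmul, map_one, one_mul]⟩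
  -- extend to an automorphism
  let τ₁ : PadicAlgCl q →ₐ[ℚ_[q]] PadicAlgCl q := τ₀.liftNormal (PadicAlgCl q)
  let τ : PadicAlgCl q ≃ₐ[ℚ_[q]] PadicAlgCl q :=
    AlgEquiv.ofBijective τ₁ (AlgHom.normal_bijective ℚ_[q] (PadicAlgCl q) (PadicAlgCl q) τ₁)
  refine ⟨τ, ?_⟩
  apply AlgEquiv.ext
  intro x
  apply (padicEmbedding q).toRingHom.injective
  show padicEmbedding q (localGaloisToGlobal q τ x) = padicEmbedding q (σ x)
  rw [padicEmbedding_localGaloisToGlobal]
  show τ₁ (padicEmbedding q x) = _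
  have h1 := τ₀.liftNormal_commutes (PadicAlgCl q) ⟨padicEmbedding q x, hmem x⟩
  rw [← hτ₀ x (hmem x)]
  exact h1

/-- The image of the local Galois group is the decomposition group. -/
theorem range_localGaloisToGlobal :
    (localGaloisToGlobal q).range = (padicPlace q).decompositionSubgroup ℚ := by
  apply le_antisymm
  · rintro _ ⟨τ, rfl⟩
    exact localGaloisToGlobal_mem_decompositionSubgroup q τ
  · intro σ hσ
    obtain ⟨τ, hτ⟩ := exists_localGaloisToGlobal_eq q hσ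
    exact ⟨τ, hτ⟩

end Extend

section Primes

/-- Surjectivity onto the decomposition group, in the `Nat.Primes` vocabulary of `ExtCitation`
(= `Defs9.locD`). -/
theorem exists_primeLocalToGlobal_eq (q : Nat.Primes) {σ : Qbar ≃ₐ[ℚ] Qbar}
    (hσ : σ ∈ (ExtCitation.primeLocalPlace q).decompositionSubgroup ℚ) :
    ∃ τ : ExtCitation.primeLocalGaloisGroup q, ExtCitation.primeLocalToGlobal q τ = σ :=
  letI : Fact (q : ℕ).Prime := ⟨q.2⟩
  exists_localGaloisToGlobal_eq (q : ℕ) hσ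

theorem range_primeLocalToGlobal (q : Nat.Primes) :
    (ExtCitation.primeLocalToGlobal q).range =
      (ExtCitation.primeLocalPlace q).decompositionSubgroup ℚ :=
  letI : Fact (q : ℕ).Prime := ⟨q.2⟩
  range_localGaloisToGlobal (q : ℕ)

/-- Elements of the inertia group of `primeLocalPlace q` come from the local Galois group. -/
theorem exists_primeLocalToGlobal_eq_of_mem_inertia (q : Nat.Primes) {σ : Qbar ≃ₐ[ℚ] Qbar}
    (hσ : σ ∈ (ExtCitation.primeLocalPlace q).inertiaSubgroupIn ℚ) :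
    ∃ τ : ExtCitation.primeLocalGaloisGroup q, ExtCitation.primeLocalToGlobal q τ = σ := by
  obtain ⟨σ', -, rfl⟩ := hσ
  exact exists_primeLocalToGlobal_eq q σ'.2

end Primes

end Fermat.Agent.W56.DecompOnto0
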