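/-
Programme W56 (target S56), helper8: the absolute Galois group of `ℚ` acts transitively on the
valuation subrings of `ℚ̄` over a prime `q`; hence "ramified at `q`" can be tested at any one of
them.
-/
import Mathlib
import Fermat.Prelude.Def_GaloisRep_Residual
import Fermat.Agent.S13.UnramBridge
import Fermat.Agent.PT.BR.UnramBridge13

set_option autoImplicit false

namespace Fermat.Agent.W56.InertiaConj8

open Fermat.Agent.S54 Fermat.Agent.S13.UnramVal Fermat.Agent.S13.UnramLift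
open scoped Pointwise

attribute [local instance] topOQ

local notation "Qb" => AlgebraicClosure ℚ
local notation "GQ" => (AlgebraicClosure ℚ ≃ₐ[ℚ] AlgebraicClosure ℚ)

variable {q : ℕ}

/-- The prime of `ℤ` below the prime of `ℤ̄` cut out by a valuation subring over `q`. -/
theorem under_primeQ (hq : q.Prime) {A : ValuationSubring Qb} (hA : A.LiesOverPrime q) :
    (primeQ A).under ℤ = Ideal.span {(q : ℤ)} := by
  ext n
  rw [Ideal.under_def, Ideal.mem_comap, mem_primeQ, Ideal.mem_span_singleton,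
    ValuationSubring.mem_nonunits_iff]
  have h1 : (((algebraMap ℤ OQ n : OQ)) : Qb) = ((n : ℤ) : Qb) := by
    simp
  rw [h1]
  exact Fermat.Agent.S05.Inertia.valuation_intCast_lt_one_iff hq hA n

/-- If `g⁻¹` carries the prime of `ℤ̄` below `A'` to the one below `A`, it carries `A'` into `A`. -/
theorem inv_apply_mem (hq : q.Prime) {A A' : ValuationSubring Qb} (hA' : A'.LiesOverPrime q)
    (g : GQ)
    (h : ∀ y : Qb, IsIntegral ℤ y → (y ∈ A'.nonunits ↔ g⁻¹ y ∈ A.nonunits)) {x : Qb}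
    (hx : x ∈ A') : g⁻¹ x ∈ A := by
  obtain ⟨y, z, hy, hz, hyu, e⟩ := exists_integral_fraction A' hq hA' (isAlgebraic_int_qbar x) hx
  have hgy : IsIntegral ℤ (g⁻¹ y) := map_isIntegral_int (g⁻¹ : GQ) hy
  have hgz : IsIntegral ℤ (g⁻¹ z) := map_isIntegral_int (g⁻¹ : GQ) hz
  have hgyA : g⁻¹ y ∈ A := mem_of_isIntegral_int A hgy
  have hgzA : g⁻¹ z ∈ A := mem_of_isIntegral_int A hgz
  have hgyu : g⁻¹ y ∉ A.nonunits := fun hcon => hyu ((h y hy).2 hcon)
  have hv : A.valuation (g⁻¹ y) = 1 := by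
    refine le_antisymm ((ValuationSubring.valuation_le_one_iff A _).mpr hgyA) ?_
    rw [ValuationSubring.mem_nonunits_iff, not_lt] at hgyu
    exact hgyu
  have hy0 : g⁻¹ y ≠ 0 := by
    intro h0; rw [h0, map_zero] at hv; exact zero_ne_one hv
  have e' : g⁻¹ x * g⁻¹ y = g⁻¹ z := by rw [← map_mul, e]
  have e'' : g⁻¹ x = g⁻¹ z / g⁻¹ y := by rw [← e']; field_simp
  rw [← ValuationSubring.valuation_le_one_iff, e'', map_div₀, hv, div_one]
  exact (ValuationSubring.valuation_le_one_iff A _).mpr hgzA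

/-- **The Galois group acts transitively on the valuation subrings of `ℚ̄` over `q`.** -/
theorem exists_smul_eq (hq : q.Prime) {A A' : ValuationSubring Qb} (hA : A.LiesOverPrime q)
    (hA' : A'.LiesOverPrime q) : ∃ g : GQ, g • A = A' := by
  obtain ⟨g, hg⟩ := Algebra.IsInvariant.exists_smul_of_under_eq_of_profinite
    (A := ℤ) (B := OQ) (G := GQ) (primeQ A) (primeQ A')
    (by rw [under_primeQ hq hA, under_primeQ hq hA'])
  have h : ∀ y : Qb, IsIntegral ℤ y → (y ∈ A'.nonunits ↔ g⁻¹ y ∈ A.nonunits) := by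
    intro y hy
    have h1 : (⟨y, mem_OQ.2 hy⟩ : OQ) ∈ primeQ A' ↔ g⁻¹ • (⟨y, mem_OQ.2 hy⟩ : OQ) ∈ primeQ A := by
      rw [hg, Ideal.mem_pointwise_smul_iff_inv_smul_mem]
    rw [mem_primeQ, mem_primeQ] at h1
    exact h1
  have h' : ∀ y : Qb, IsIntegral ℤ y → (y ∈ A.nonunits ↔ (g⁻¹)⁻¹ y ∈ A'.nonunits) := by
    intro y hy
    have := h (g y) (map_isIntegral_int g hy)
    rw [← AlgEquiv.mul_apply, inv_mul_cancel, AlgEquiv.one_apply] at this
    rw [inv_inv]
    exact this.symm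
  refine ⟨g, ?_⟩
  ext x
  rw [ValuationSubring.mem_pointwise_smul_iff_inv_smul_mem]
  constructor
  · intro hx
    have := inv_apply_mem hq hA g⁻¹ h' hx
    rw [inv_inv, AlgEquiv.smul_def, ← AlgEquiv.mul_apply, mul_inv_cancel,
      AlgEquiv.one_apply] at this
    exact this
  · intro hx
    exact inv_apply_mem hq hA' g h hx

/-- Ramification of a residual representation at `q` can be tested at any valuation subring over
`q`. -/
theorem exists_ne_one_of_not_isUnramifiedAt {k : Type} [Field k] (ρbar : ResidualGaloisRep k)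
    (hq : q.Prime) (h : ¬ ρbar.IsUnramifiedAt q) {A : ValuationSubring Qb}
    (hA : A.LiesOverPrime q) : ∃ σ ∈ A.inertiaSubgroupIn ℚ, ρbar.ρ σ ≠ 1 := by
  unfold ResidualGaloisRep.IsUnramifiedAt at h
  push Not at h
  obtain ⟨A', hA', σ', hσ', hne⟩ := h
  obtain ⟨g, rfl⟩ := exists_smul_eq hq hA' hA
  refine ⟨g * σ' * g⁻¹,
    Fermat.Agent.PT.BR.UnramBridge13.conj_mem_inertiaSubgroupIn hq hA' g hσ', fun h1 => hne ?_⟩
  have h2 : ρbar.ρ σ' = ρbar.ρ g⁻¹ * ρbar.ρ (g * σ' * g⁻¹) * ρbar.ρ g := by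
    rw [← map_mul, ← map_mul]
    congr 1
    group
  rw [h2, h1, mul_one, ← map_mul, inv_mul_cancel, map_one]

end Fermat.Agent.W56.InertiaConj8
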