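/-
Programme W56 (target S56), chapter (C1) (helper8): **tame inertia is cyclic** — abstract form.

`K` a field, `O` a valuation subring of `K` with a uniformiser `π` (every non-zero element has
valuation `v π ^ n`, `n : ℤ`), residue characteristic `q` (a prime), and a group `G` acting on `K`
through `ρ : G →* RingAut K`, preserving the valuation and acting trivially on the residue field
(`hres`), with finite image.

* `rU σ x = σ x / x` (as a unit of `K`), a unit of `O`; `χ σ` = the class of `σ π / π` in `κˣ`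
  (the tame character), a homomorphism `G →* κˣ`;
* `mem_principal_of_chi_eq_one` : `χ σ = 1` implies `σ x / x ≡ 1` for EVERY `x ≠ 0`;
* `eq_one_of_pow_prime` (the trace trick) : `χ σ = 1`, `ℓ ≠ q` prime, `σ ^ ℓ` acts trivially
  ⟹ `σ` acts trivially — the wild inertia group is a `q`-group;
* `map_eq_one_of_chi_eq_one` : a homomorphism `f : G →* H` that kills the kernel of the action and
  whose values have no `q`-power torsion kills `ker χ`;
* **`isCyclic_range`** : the image of such an `f` is cyclic.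
-/
import Mathlib

set_option autoImplicit false

namespace Fermat.Agent.W56.TameCyclic8

open ValuationSubring IsLocalRing

variable {G K : Type*} [Group G] [Field K]

/-- the standing hypotheses. -/
structure Setting (O : ValuationSubring K) (ρ : G →* RingAut K) (π : K) (q : ℕ) : Prop where
  hval : ∀ (σ : G) (x : K), O.valuation (ρ σ x) = O.valuation x
  hres : ∀ (σ : G) (x : K), x ∈ O → ρ σ x - x ∈ O.nonunits
  hπ0 : π ≠ 0
  hπ : ∀ x : K, x ≠ 0 → ∃ n : ℤ, O.valuation x = O.valuation π ^ n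
  hq : q.Prime
  hqO : (q : K) ∈ O.nonunits

variable {O : ValuationSubring K} {ρ : G →* RingAut K} {π : K} {q : ℕ}

/-- the unit `σ x / x`. -/
def rU (ρ : G →* RingAut K) (σ : G) (x : Kˣ) : Kˣ :=
  Units.map (ρ σ : K ≃+* K).toRingHom.toMonoidHom x * x⁻¹

@[simp] theorem coe_rU (σ : G) (x : Kˣ) : ((rU ρ σ x : Kˣ) : K) = ρ σ (x : K) / (x : K) := by
  simp [rU, div_eq_mul_inv]

theorem rU_mul (σ : G) (x y : Kˣ) : rU ρ σ (x * y) = rU ρ σ x * rU ρ σ y := by
  unfold rU
  rw [map_mul, mul_inv]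
  exact mul_mul_mul_comm _ _ _ _

/-- `rU σ` as a homomorphism `Kˣ →* Kˣ`. -/
def rHom (ρ : G →* RingAut K) (σ : G) : Kˣ →* Kˣ where
  toFun := rU ρ σ
  map_one' := by simp [rU]
  map_mul' := rU_mul σ

@[simp] theorem rHom_apply (σ : G) (x : Kˣ) : rHom ρ σ x = rU ρ σ x := rfl

theorem rU_zpow (σ : G) (x : Kˣ) (n : ℤ) : rU ρ σ (x ^ n) = rU ρ σ x ^ n :=
  map_zpow (rHom ρ σ) x n

theorem map_units_eq (σ : G) (x : Kˣ) :
    Units.map (ρ σ : K ≃+* K).toRingHom.toMonoidHom x = x * rU ρ σ x := by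
  unfold rU
  rw [mul_comm x, inv_mul_cancel_right]

theorem rU_mul_left (σ τ : G) (x : Kˣ) :
    rU ρ (σ * τ) x = rU ρ σ x * rU ρ σ (rU ρ τ x) * rU ρ τ x := by
  have h1 : Units.map (ρ (σ * τ) : K ≃+* K).toRingHom.toMonoidHom x =
      Units.map (ρ σ : K ≃+* K).toRingHom.toMonoidHom
        (Units.map (ρ τ : K ≃+* K).toRingHom.toMonoidHom x) := by
    ext
    simp [map_mul, RingAut.mul_apply]
  have h2 : rU ρ (σ * τ) x = Units.map (ρ σ : K ≃+* K).toRingHom.toMonoidHom
        (Units.map (ρ τ : K ≃+* K).toRingHom.toMonoidHom x) * x⁻¹ := by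
    unfold rU; rw [h1]
  rw [h2, map_units_eq τ x, map_mul, map_units_eq σ x, map_units_eq σ (rU ρ τ x)]
  -- x * r σ x * (r τ x * r σ (r τ x)) * x⁻¹
  have : x * rU ρ σ x * (rU ρ τ x * rU ρ σ (rU ρ τ x)) * x⁻¹ =
      rU ρ σ x * rU ρ σ (rU ρ τ x) * rU ρ τ x * (x * x⁻¹) := by
    simp only [mul_comm, mul_left_comm, mul_assoc]
  rw [this, mul_inv_cancel, mul_one]

theorem rU_one (x : Kˣ) : rU ρ (1 : G) x = 1 := by
  ext; simp [rU]

variable (S : Setting O ρ π q)
include S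

theorem rU_mem_unitGroup (σ : G) (x : Kˣ) : rU ρ σ x ∈ O.unitGroup := by
  rw [mem_unitGroup_iff, coe_rU, map_div₀, S.hval, div_self]
  exact (Valuation.ne_zero_iff _).2 x.ne_zero

theorem rU_mem_principal_of_mem_unitGroup (σ : G) {u : Kˣ} (hu : u ∈ O.unitGroup) :
    rU ρ σ u ∈ O.principalUnitGroup := by
  rw [mem_principalUnitGroup_iff, coe_rU]
  have hu1 : O.valuation (u : K) = 1 := hu
  have huO : (u : K) ∈ O := (O.valuation_le_one_iff _).1 hu1.le
  have h1 : ρ σ (u : K) / (u : K) - 1 = (ρ σ (u : K) - (u : K)) / (u : K) := by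
    field_simp
  rw [h1, map_div₀, hu1, div_one]
  exact (O.mem_nonunits_iff).1 (S.hres σ _ huO)

/-- the uniformiser as a unit of `K`. -/
def piU : Kˣ := Units.mk0 π S.hπ0

/-- the class of `σ π / π` in the units of the residue field. -/
noncomputable def chiFun (σ : G) : (ResidueField O)ˣ :=
  O.unitGroupToResidueFieldUnits ⟨rU ρ σ (piU S), rU_mem_unitGroup S σ _⟩

theorem chiFun_eq_one_iff (σ : G) :
    chiFun S σ = 1 ↔ rU ρ σ (piU S) ∈ O.principalUnitGroup := by
  unfold chiFun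
  rw [← MonoidHom.mem_ker, ker_unitGroupToResidueFieldUnits, Subgroup.mem_comap]
  rfl

theorem chiFun_mul (σ τ : G) : chiFun S (σ * τ) = chiFun S σ * chiFun S τ := by
  unfold chiFun
  rw [← map_mul]
  have hk : (⟨rU ρ (σ * τ) (piU S), rU_mem_unitGroup S _ _⟩ : O.unitGroup) =
      (⟨rU ρ σ (piU S), rU_mem_unitGroup S _ _⟩ * ⟨rU ρ τ (piU S), rU_mem_unitGroup S _ _⟩) *
        ⟨rU ρ σ (rU ρ τ (piU S)), rU_mem_unitGroup S _ _⟩ := by
    apply Subtype.ext
    simp only [Subgroup.coe_mul]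
    rw [rU_mul_left]
    simp only [mul_comm, mul_left_comm, mul_assoc]
  rw [hk, map_mul]
  have h1 : O.unitGroupToResidueFieldUnits
      ⟨rU ρ σ (rU ρ τ (piU S)), rU_mem_unitGroup S _ _⟩ = 1 := by
    rw [← MonoidHom.mem_ker, ker_unitGroupToResidueFieldUnits, Subgroup.mem_comap]
    exact rU_mem_principal_of_mem_unitGroup S σ (rU_mem_unitGroup S τ _)
  rw [h1, mul_one]

/-- **the tame character** `σ ↦ [σ π / π]`. -/
noncomputable def chi : G →* (ResidueField O)ˣ where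
  toFun := chiFun S
  map_one' := by
    rw [chiFun_eq_one_iff, rU_one]
    exact one_mem _
  map_mul' := chiFun_mul S

theorem chi_eq_one_iff (σ : G) : chi S σ = 1 ↔ rU ρ σ (piU S) ∈ O.principalUnitGroup :=
  chiFun_eq_one_iff S σ

/-- every unit of `K` is a power of the uniformiser times a unit of `O`. -/
theorem exists_eq_zpow_mul (x : Kˣ) : ∃ (n : ℤ) (w : Kˣ), w ∈ O.unitGroup ∧ x = piU S ^ n * w := by
  obtain ⟨n, hn⟩ := S.hπ (x : K) x.ne_zero
  refine ⟨n, (piU S ^ n)⁻¹ * x, ?_, by rw [mul_inv_cancel_left]⟩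
  rw [mem_unitGroup_iff]
  have : (((piU S ^ n)⁻¹ * x : Kˣ) : K) = (π ^ n)⁻¹ * (x : K) := by
    simp [piU]
  rw [this, map_mul, map_inv₀, map_zpow₀, hn]
  exact inv_mul_cancel₀ (zpow_ne_zero _ ((Valuation.ne_zero_iff _).2 S.hπ0))

/-- `χ σ = 1` implies `σ x / x ≡ 1` for every `x ≠ 0`. -/
theorem mem_principal_of_chi_eq_one {σ : G} (hσ : chi S σ = 1) (x : Kˣ) :
    rU ρ σ x ∈ O.principalUnitGroup := by
  obtain ⟨n, w, hw, rfl⟩ := exists_eq_zpow_mul S x
  rw [rU_mul, rU_zpow]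
  exact mul_mem (zpow_mem ((chi_eq_one_iff S σ).1 hσ) n)
    (rU_mem_principal_of_mem_unitGroup S σ hw)

theorem val_div_sub_one_lt {σ : G} (hσ : chi S σ = 1) {x : K} (hx : x ≠ 0) :
    O.valuation (ρ σ x / x - 1) < 1 := by
  have := mem_principal_of_chi_eq_one S hσ (Units.mk0 x hx)
  rwa [mem_principalUnitGroup_iff, coe_rU] at this

/-! ### the trace trick -/

omit [Group G] S in
theorem val_natCast_le_one (O : ValuationSubring K) (n : ℕ) : O.valuation (n : K) ≤ 1 :=
  (O.valuation_le_one_iff _).2 (natCast_mem O n)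

theorem val_natCast_eq_one {ℓ : ℕ} (hℓ : ℓ.Prime) (hℓq : ℓ ≠ q) : O.valuation (ℓ : K) = 1 := by
  refine le_antisymm (val_natCast_le_one O ℓ) ?_
  by_contra hlt
  rw [not_le] at hlt
  have hcop : Nat.Coprime ℓ q := (Nat.coprime_primes hℓ S.hq).2 hℓq
  have h1 : (1 : K) = ((ℓ.gcdA q : ℤ) : K) * (ℓ : K) + ((ℓ.gcdB q : ℤ) : K) * (q : K) := by
    have := Nat.gcd_eq_gcd_ab ℓ q
    rw [hcop.gcd_eq_one] at this
    have h2 := congrArg (fun z : ℤ => (z : K)) this
    simp only [Nat.cast_one, Int.cast_one, Int.cast_add, Int.cast_mul, Int.cast_natCast] at h2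
    rw [h2]; ring
  have hint : ∀ z : ℤ, O.valuation (z : K) ≤ 1 := fun z =>
    (O.valuation_le_one_iff _).2 (intCast_mem O z)
  have hq1 : O.valuation (q : K) < 1 := (O.mem_nonunits_iff).1 S.hqO
  have h3 : O.valuation (1 : K) < 1 := by
    rw [h1]
    refine lt_of_le_of_lt (Valuation.map_add _ _ _) (max_lt ?_ ?_)
    · rw [map_mul]
      exact mul_lt_one_of_nonneg_of_lt_one_right (hint _) zero_le hlt
    · rw [map_mul]
      exact mul_lt_one_of_nonneg_of_lt_one_right (hint _) zero_le hq1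
  rw [map_one] at h3
  exact lt_irrefl _ h3

theorem chi_pow_eq_one {σ : G} (hσ : chi S σ = 1) (i : ℕ) : chi S (σ ^ i) = 1 := by
  rw [map_pow, hσ, one_pow]

/-- **trace trick**: an element of `ker χ` whose `ℓ`-th power acts trivially (`ℓ ≠ q` prime) acts
trivially. -/
theorem eq_one_of_pow_prime {σ : G} (hσ : chi S σ = 1) {ℓ : ℕ} (hℓ : ℓ.Prime) (hℓq : ℓ ≠ q)
    (hpow : ρ (σ ^ ℓ) = 1) : ρ σ = 1 := by
  classical
  by_contra hne
  obtain ⟨x, hx⟩ : ∃ x : K, ρ σ x ≠ x := by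
    by_contra hall
    push Not at hall
    exact hne (RingEquiv.ext fun x => by rw [hall x]; rfl)
  have hℓ0 : (ℓ : K) ≠ 0 := by
    intro h0
    have := val_natCast_eq_one S hℓ hℓq
    rw [h0, map_zero] at this
    exact zero_ne_one this
  set T : K := ∑ i ∈ Finset.range ℓ, ρ (σ ^ i) x with hT
  -- `T` is fixed by `σ`
  have hTfix : ρ σ T = T := by
    have h1 : ρ σ T = ∑ i ∈ Finset.range ℓ, ρ (σ ^ (i + 1)) x := by
      rw [hT, map_sum]
      refine Finset.sum_congr rfl fun i _ => ?_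
      rw [pow_succ', map_mul, RingAut.mul_apply]
    have h2 := Finset.sum_range_succ' (fun i => ρ (σ ^ i) x) ℓ
    have h3 := Finset.sum_range_succ (fun i => ρ (σ ^ i) x) ℓ
    simp only [pow_zero, map_one, RingAut.one_apply, hpow] at h2 h3
    rw [h1]
    have h4 : ∑ i ∈ Finset.range ℓ, ρ (σ ^ (i + 1)) x + x = T + x := by rw [← h2, h3]
    exact add_right_cancel h4
  have hTfix' : ∀ i : ℕ, ρ (σ ^ i) T = T := by
    intro i
    induction i with
    | zero => simp
    | succ i ih => rw [pow_succ, map_mul, RingAut.mul_apply, hTfix, ih]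
  set y : K := (ℓ : K) * x - T with hy
  have hy0 : y ≠ 0 := by
    intro h0
    have h1 : (ℓ : K) * x = T := sub_eq_zero.1 h0
    have h2 : ρ σ ((ℓ : K) * x) = (ℓ : K) * x := by rw [h1, hTfix]
    rw [map_mul, map_natCast] at h2
    exact hx (mul_left_cancel₀ hℓ0 h2)
  have hsum : ∑ i ∈ Finset.range ℓ, ρ (σ ^ i) y = 0 := by
    have h1 : ∀ i ∈ Finset.range ℓ, ρ (σ ^ i) y = (ℓ : K) * ρ (σ ^ i) x - T := by
      intro i _
      rw [hy, map_sub, map_mul, map_natCast, hTfix']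
    rw [Finset.sum_congr rfl h1, Finset.sum_sub_distrib, ← Finset.mul_sum, ← hT]
    simp
  have hsum' : ∑ i ∈ Finset.range ℓ, (ρ (σ ^ i) y / y - 1) = -(ℓ : K) := by
    rw [Finset.sum_sub_distrib, ← Finset.sum_div, hsum, zero_div]
    simp
  have hlt : O.valuation (∑ i ∈ Finset.range ℓ, (ρ (σ ^ i) y / y - 1)) < 1 := by
    refine Valuation.map_sum_lt _ one_ne_zero fun i _ => ?_
    exact val_div_sub_one_lt S (chi_pow_eq_one S hσ i) hy0
  rw [hsum', Valuation.map_neg, val_natCast_eq_one S hℓ hℓq] at hlt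
  exact lt_irrefl _ hlt

/-! ### homomorphisms without `q`-torsion kill the wild part -/

theorem rho_eq_one_imp_chi (σ : G) (h : ρ σ = 1) : chi S σ = 1 := by
  rw [chi_eq_one_iff]
  have : rU ρ σ (piU S) = 1 := by
    ext; simp [rU, h]
  rw [this]
  exact one_mem _

theorem map_eq_one_of_chi_eq_one [Finite ρ.range] {H : Type*} [Group H] (f : G →* H)
    (hker : ∀ σ : G, ρ σ = 1 → f σ = 1)
    (hH : ∀ (σ : G) (a : ℕ), f σ ^ q ^ a = 1 → f σ = 1)
    {σ : G} (hσ : chi S σ = 1) : f σ = 1 := by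
  classical
  -- the order of `ρ σ`
  set g : ρ.range := ⟨ρ σ, σ, rfl⟩ with hg
  have hn0 : orderOf g ≠ 0 := (orderOf_pos g).ne'
  obtain ⟨a, n', hqn', hn⟩ := Nat.exists_eq_pow_mul_and_not_dvd hn0 q S.hq.ne_one
  have hpowg : ∀ m : ℕ, g ^ m = 1 ↔ ρ (σ ^ m) = 1 := by
    intro m
    rw [map_pow]
    constructor
    · intro h
      have := congrArg (fun z : ρ.range => (z : RingAut K)) h
      simpa [hg] using this
    · intro h
      apply Subtype.ext
      simpa [hg] using h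
  by_cases hn1 : n' = 1
  · -- `σ ^ (q ^ a)` acts trivially
    have h1 : g ^ q ^ a = 1 := by
      rw [← orderOf_dvd_iff_pow_eq_one, hn, hn1, mul_one]
    have h2 : f (σ ^ q ^ a) = 1 := hker _ ((hpowg _).1 h1)
    rw [map_pow] at h2
    exact hH σ a h2
  · exfalso
    obtain ⟨ℓ, hℓ, hℓn⟩ := Nat.exists_prime_and_dvd hn1
    have hℓq : ℓ ≠ q := fun h => hqn' (h ▸ hℓn)
    obtain ⟨m, hm⟩ := hℓn
    set τ : G := σ ^ (q ^ a * m) with hτ
    have hτχ : chi S τ = 1 := chi_pow_eq_one S hσ _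
    have hτℓ : ρ (τ ^ ℓ) = 1 := by
      rw [hτ, ← pow_mul, ← hpowg, ← orderOf_dvd_iff_pow_eq_one, hn, hm]
      exact ⟨1, by ring⟩
    have hτ1 : ρ τ = 1 := eq_one_of_pow_prime S hτχ hℓ hℓq hτℓ
    rw [hτ, ← hpowg, ← orderOf_dvd_iff_pow_eq_one, hn, hm] at hτ1
    -- `q^a * (ℓ * m) ∣ q^a * m` is impossible
    have hm0 : m ≠ 0 := by
      intro h0
      rw [h0, mul_zero] at hm
      rw [hm, mul_zero] at hn
      exact hn0 hn
    have hqa : 0 < q ^ a := pow_pos S.hq.pos a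
    have h3 : ℓ * m ∣ m := Nat.dvd_of_mul_dvd_mul_left hqa hτ1
    have h4 : ℓ * m ≤ m := Nat.le_of_dvd (Nat.pos_of_ne_zero hm0) h3
    have h5 : 2 * m ≤ ℓ * m := Nat.mul_le_mul_right m hℓ.two_le
    omega

/-- **Tame inertia is cyclic**: the image of a homomorphism that kills the kernel of the action and
has no `q`-power torsion is cyclic. -/
theorem isCyclic_range [Finite ρ.range] {H : Type*} [Group H] (f : G →* H)
    (hker : ∀ σ : G, ρ σ = 1 → f σ = 1)
    (hH : ∀ (σ : G) (a : ℕ), f σ ^ q ^ a = 1 → f σ = 1) : IsCyclic f.range := by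
  classical
  have hle : (chi S).ker ≤ f.ker := fun σ hσ =>
    MonoidHom.mem_ker.2 (map_eq_one_of_chi_eq_one S f hker hH (MonoidHom.mem_ker.1 hσ))
  have hle' : ρ.ker ≤ (chi S).ker := fun σ hσ =>
    MonoidHom.mem_ker.2 (rho_eq_one_imp_chi S σ (MonoidHom.mem_ker.1 hσ))
  -- `G ⧸ ker χ` is finite
  have : Finite (G ⧸ ρ.ker) :=
    Finite.of_equiv _ (QuotientGroup.quotientKerEquivRange ρ).symm.toEquiv
  have : Finite (G ⧸ (chi S).ker) :=
    Finite.of_surjective (QuotientGroup.map ρ.ker (chi S).ker (MonoidHom.id G) hle')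
      (fun x => by
        obtain ⟨g, rfl⟩ := QuotientGroup.mk_surjective x
        exact ⟨QuotientGroup.mk g, rfl⟩)
  have : IsCyclic (G ⧸ (chi S).ker) :=
    isCyclic_of_injective_ringHom
      ((Units.coeHom (ResidueField O)).comp (QuotientGroup.kerLift (chi S)))
      (Units.val_injective.comp (QuotientGroup.kerLift_injective (chi S)))
  set F : G ⧸ (chi S).ker →* H := QuotientGroup.lift (chi S).ker f hle with hF
  have hrange : F.range = f.range := by
    ext h
    constructor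
    · rintro ⟨x, rfl⟩
      obtain ⟨g, rfl⟩ := QuotientGroup.mk_surjective x
      exact ⟨g, rfl⟩
    · rintro ⟨g, rfl⟩
      exact ⟨QuotientGroup.mk g, rfl⟩
  rw [← hrange]
  exact isCyclic_of_surjective F.rangeRestrict F.rangeRestrict_surjective

end Fermat.Agent.W56.TameCyclic8
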