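/-
Programme W56 (target S56), chapter (C1) (helper8): **tame inertia is cyclic** — the instance at a
valuation subring `A` of `ℚ̄` over a prime `q`, in the Prelude's language
(`A.inertiaSubgroupIn ℚ`).

* `isCyclic_range_of_inertia` : let `f : I_A →* H` be a homomorphism from the inertia group of `A`
  which is *continuous* (it kills the elements fixing a finite extension `L` of `ℚ` pointwise) and
  whose values have no `q`-power torsion (e.g. the image is a `p`-group, `p ≠ q`).  Then the image
  of `f` is cyclic.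

Route: `K` = the normal closure of `L` in `ℚ̄`, `O = A ∩ K` (a discrete valuation ring,
`RED/DESC/DvrNumberField1`), `I_A` acts on `K` through a finite group, preserves the valuation and
acts trivially on the residue field (`S05/Inertia`); then `TameCyclic8.isCyclic_range`.
-/
import Mathlib
import Fermat.Prelude.Def_FLTPrelim_Ramification
import Fermat.Agent.W56.TameCyclic8
import Fermat.Agent.RED.DESC.DvrNumberField1
import Fermat.Agent.S05.Inertia
import Fermat.Agent.Lib.FrobeniusExists

set_option autoImplicit false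

namespace Fermat.Agent.W56.TameInertia8

open ValuationSubring IsLocalRing

/-- `ℚ̄`. -/
abbrev Qb : Type := AlgebraicClosure ℚ

/-- the absolute Galois group of `ℚ`. -/
abbrev GQ : Type := Qb ≃ₐ[ℚ] Qb

variable (A : ValuationSubring Qb) (K : IntermediateField ℚ Qb)

/-- `A ∩ K`. -/
noncomputable def OK : ValuationSubring K := A.comap (algebraMap K Qb)

theorem mem_OK_iff (x : K) : x ∈ OK A K ↔ (x : Qb) ∈ A := ValuationSubring.mem_comap

theorem mem_nonunits_OK_iff (x : K) : x ∈ (OK A K).nonunits ↔ (x : Qb) ∈ A.nonunits := by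
  rw [mem_nonunits_iff_or, mem_nonunits_iff_or, mem_OK_iff]
  simp

theorem val_OK_eq_one_iff (x : K) : (OK A K).valuation x = 1 ↔ A.valuation (x : Qb) = 1 := by
  constructor
  · intro h
    by_contra hne
    have hle : A.valuation (x : Qb) ≤ 1 :=
      (A.valuation_le_one_iff _).2 ((mem_OK_iff A K x).1 (((OK A K).valuation_le_one_iff _).1 h.le))
    have hlt : A.valuation (x : Qb) < 1 := lt_of_le_of_ne hle hne
    have : x ∈ (OK A K).nonunits := (mem_nonunits_OK_iff A K x).2 ((A.mem_nonunits_iff).2 hlt)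
    rw [ValuationSubring.mem_nonunits_iff, h] at this
    exact lt_irrefl _ this
  · intro h
    by_contra hne
    have hle : (OK A K).valuation x ≤ 1 :=
      ((OK A K).valuation_le_one_iff _).2 ((mem_OK_iff A K x).2 ((A.valuation_le_one_iff _).1 h.le))
    have hlt : (OK A K).valuation x < 1 := lt_of_le_of_ne hle hne
    have : (x : Qb) ∈ A.nonunits :=
      (mem_nonunits_OK_iff A K x).1 (((OK A K).mem_nonunits_iff).2 hlt)
    rw [ValuationSubring.mem_nonunits_iff, h] at this
    exact lt_irrefl _ this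

/-- algebra automorphisms as ring automorphisms. -/
noncomputable def toRingAutHom : (K ≃ₐ[ℚ] K) →* RingAut K where
  toFun e := e.toRingEquiv
  map_one' := rfl
  map_mul' _ _ := rfl

variable [Normal ℚ K]

/-- the action of the inertia group on `K`. -/
noncomputable def rhoK : ↥(A.inertiaSubgroupIn ℚ) →* RingAut K :=
  (toRingAutHom K).comp ((AlgEquiv.restrictNormalHom K).comp (Subgroup.subtype _))

theorem coe_rhoK_apply (σ : ↥(A.inertiaSubgroupIn ℚ)) (x : K) :
    ((rhoK A K σ x : K) : Qb) = (σ : GQ) (x : Qb) :=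
  AlgEquiv.restrictNormal_commutes (σ : GQ) K x

instance [FiniteDimensional ℚ K] : Finite (rhoK A K).range := by
  have h1 : ((rhoK A K).range : Set (RingAut K)) ⊆ Set.range (toRingAutHom K) := by
    rintro _ ⟨σ, rfl⟩
    exact ⟨_, rfl⟩
  exact (Set.finite_range (toRingAutHom K)).subset h1

variable {A K}

omit [Normal ℚ K] in
theorem isAlgClosure_Qb : IsAlgClosure ℚ Qb :=
  Fermat.Agent.Lib.FrobeniusExists.isAlgClosure_Qbar

omit [Normal ℚ K] in
theorem isAlgebraic_Qb : Algebra.IsAlgebraic ℚ Qb :=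
  haveI := isAlgClosure_Qb
  inferInstance

omit [Normal ℚ K] in
theorem normal_Qb : Normal ℚ Qb :=
  haveI := isAlgClosure_Qb
  IsAlgClosure.normal ℚ Qb

omit [Normal ℚ K] in
theorem OK_ne_top {q : ℕ} (hq : q.Prime) (hA : A.LiesOverPrime q) : OK A K ≠ ⊤ := by
  intro h
  have h1 : ((q : K))⁻¹ ∈ OK A K := by rw [h]; exact ValuationSubring.mem_top _
  rw [mem_OK_iff] at h1
  have h2 : (q : Qb) ∈ A.nonunits := hA
  rw [mem_nonunits_iff_or] at h2
  rcases h2 with h0 | h3
  · exact hq.ne_zero (by exact_mod_cast h0)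
  · apply h3
    simpa using h1

/-- the standing hypotheses of `TameCyclic8` hold at `(A ∩ K, I_A)`. -/
theorem exists_setting [FiniteDimensional ℚ K] {q : ℕ} (hq : q.Prime) (hA : A.LiesOverPrime q) :
    ∃ π : K, TameCyclic8.Setting (OK A K) (rhoK A K) π q := by
  have : NumberField K := ⟨⟩
  have := isAlgebraic_Qb
  have hdvr : IsDiscreteValuationRing (OK A K) :=
    Fermat.Agent.RED.DESC.DvrNumberField1.isDiscreteValuationRing (OK A K) (OK_ne_top hq hA)
  obtain ⟨ϖ, hϖ⟩ := IsDiscreteValuationRing.exists_irreducible (OK A K)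
  refine ⟨(ϖ : K), ?_, ?_, ?_, ?_, hq, ?_⟩
  · -- hval
    intro σ x
    by_cases hx : x = 0
    · rw [hx, map_zero]
    have hx' : (x : Qb) ≠ 0 := fun h => hx (by exact_mod_cast h)
    have hσx : rhoK A K σ x ≠ 0 := (map_ne_zero_iff _ (rhoK A K σ).injective).2 hx
    have h1 : A.valuation (((rhoK A K σ x / x : K)) : Qb) = 1 := by
      push_cast
      rw [coe_rhoK_apply, map_div₀, Fermat.Agent.S05.Inertia.valuation_apply σ.2, div_self]
      exact (Valuation.ne_zero_iff _).2 hx'
    have h2 := (val_OK_eq_one_iff A K _).2 h1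
    rw [map_div₀, div_eq_one_iff_eq ((Valuation.ne_zero_iff _).2 hx)] at h2
    exact h2
  · -- hres
    intro σ x hx
    rw [mem_nonunits_OK_iff]
    push_cast
    rw [coe_rhoK_apply]
    exact Fermat.Agent.S05.Inertia.apply_sub_mem_nonunits σ.2 ((mem_OK_iff A K x).1 hx)
  · -- hπ0
    exact fun h => hϖ.ne_zero (Subtype.ext h)
  · -- hπ
    intro x hx
    have hϖv : (OK A K).valuation (ϖ : K) ≠ 0 :=
      (Valuation.ne_zero_iff _).2 fun h => hϖ.ne_zero (Subtype.ext h)
    have key : ∀ y : K, y ≠ 0 → y ∈ OK A K →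
        ∃ n : ℕ, (OK A K).valuation y = (OK A K).valuation (ϖ : K) ^ n := by
      intro y hy hyO
      have hy' : (⟨y, hyO⟩ : OK A K) ≠ 0 := fun h => hy (congrArg Subtype.val h)
      obtain ⟨n, u, hu⟩ := IsDiscreteValuationRing.eq_unit_mul_pow_irreducible hy' hϖ
      refine ⟨n, ?_⟩
      have h1 : y = (u : OK A K) * (ϖ : K) ^ n := by
        have := congrArg Subtype.val hu
        simpa using this
      rw [h1, map_mul, map_pow, (OK A K).valuation_unit u, one_mul]
    rcases (OK A K).mem_or_inv_mem x with h | h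
    · obtain ⟨n, hn⟩ := key x hx h
      exact ⟨n, by rw [hn, zpow_natCast]⟩
    · obtain ⟨n, hn⟩ := key x⁻¹ (inv_ne_zero hx) h
      refine ⟨-n, ?_⟩
      rw [zpow_neg, zpow_natCast, ← hn, map_inv₀, inv_inv]
  · -- hqO
    rw [mem_nonunits_OK_iff]
    have : (q : Qb) ∈ A.nonunits := hA
    simpa using this

/-- **Tame inertia is cyclic.** -/
theorem isCyclic_range_of_inertia {q : ℕ} (hq : q.Prime) {A : ValuationSubring Qb}
    (hA : A.LiesOverPrime q) {H : Type*} [Group H] (f : ↥(A.inertiaSubgroupIn ℚ) →* H)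
    (L : IntermediateField ℚ Qb) [FiniteDimensional ℚ L]
    (hf : ∀ σ : ↥(A.inertiaSubgroupIn ℚ), (∀ x ∈ L, (σ : GQ) x = x) → f σ = 1)
    (hH : ∀ (σ : ↥(A.inertiaSubgroupIn ℚ)) (a : ℕ), f σ ^ q ^ a = 1 → f σ = 1) :
    IsCyclic f.range := by
  set K : IntermediateField ℚ Qb := IntermediateField.normalClosure ℚ L Qb with hK
  have hN := normal_Qb
  have : FiniteDimensional ℚ K := by rw [hK]; infer_instance
  have : Normal ℚ K := by rw [hK]; exact normalClosure.normal ℚ L Qb
  obtain ⟨π, S⟩ := exists_setting (A := A) (K := K) hq hA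
  refine TameCyclic8.isCyclic_range S f (fun σ hσ => hf σ fun x hx => ?_) hH
  have hxK : x ∈ K := IntermediateField.le_normalClosure L hx
  have h1 := coe_rhoK_apply A K σ ⟨x, hxK⟩
  rw [hσ] at h1
  exact h1.symm

end Fermat.Agent.W56.TameInertia8
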