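/-
Programme W56 (target S56), chapter (C1'), helper8: at a prime `q ≠ p` where `ρ̄` is ramified with
unipotent inertia, every "unipotent" infinitesimal deformation is unramified, i.e. its cocycle is
a coboundary on the inertia group.
-/
import Mathlib
import Fermat.Prelude.Def_GaloisRep_Residual
import Fermat.Agent.W56.TameInertia8

set_option autoImplicit false

namespace Fermat.Agent.W56.UnipCobound8

open Module

/-! ### Linear algebra in dimension two -/

section LinAlg

variable {k : Type*} [Field k] {V : Type*} [AddCommGroup V] [Module k V]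

set_option linter.unnecessarySeqFocus false in
/-- The cohomological computation for a nontrivial unipotent `1 + N` in dimension two: every
trace-zero `C` with `tr (C N) = 0` is `(1 + N) X (1 + N)⁻¹ - X` for a trace-zero `X`. -/
theorem exists_conj_sub_eq (hV : Module.finrank k V = 2) (h2 : (2 : k) ≠ 0)
    (N C : Module.End k V) (hN0 : N ≠ 0) (hN2 : N * N = 0)
    (hC0 : LinearMap.trace k V C = 0) (hC1 : LinearMap.trace k V (C * N) = 0) :
    ∃ X : Module.End k V, LinearMap.trace k V X = 0 ∧ (1 + N) * X * (1 - N) - X = C := by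
  obtain ⟨v, hv⟩ : ∃ v, N v ≠ 0 := by
    by_contra h
    push Not at h
    exact hN0 (LinearMap.ext h)
  have hNN : ∀ w, N (N w) = 0 := fun w => by
    have := LinearMap.congr_fun hN2 w
    simpa using this
  have hli : LinearIndependent k ![N v, v] := by
    rw [LinearIndependent.pair_iff]
    intro s t hst
    have h1 := congrArg N hst
    rw [map_add, map_smul, map_smul, hNN, smul_zero, zero_add, map_zero] at h1
    have ht : t = 0 := (smul_eq_zero.1 h1).resolve_right hv
    rw [ht, zero_smul, add_zero] at hst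
    exact ⟨(smul_eq_zero.1 hst).resolve_right hv, ht⟩
  let b : Basis (Fin 2) k V := basisOfLinearIndependentOfCardEqFinrank hli (by simp [hV])
  have hb0 : b 0 = N v := by simp [b]
  have hb1 : b 1 = v := by simp [b]
  let e : Module.End k V ≃ₐ[k] Matrix (Fin 2) (Fin 2) k := LinearMap.toMatrixAlgEquiv b
  have he : ∀ (f : Module.End k V) (i j : Fin 2), e f i j = b.repr (f (b j)) i := fun f i j =>
    LinearMap.toMatrixAlgEquiv_apply b f i j
  have htr : ∀ f : Module.End k V, LinearMap.trace k V f = (e f).trace := fun f =>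
    LinearMap.trace_eq_matrix_trace k b f
  have hNmat : e N = !![0, 1; 0, 0] := by
    ext i j
    rw [he]
    fin_cases j
    · show b.repr (N (b 0)) i = _
      rw [hb0, hNN, map_zero]
      fin_cases i <;> simp
    · show b.repr (N (b 1)) i = _
      rw [hb1, ← hb0, Basis.repr_self]
      fin_cases i <;> simp
  obtain ⟨a, bb, c', d, hCmat⟩ : ∃ a bb c' d : k, e C = !![a, bb; c', d] :=
    ⟨_, _, _, _, (Matrix.eta_fin_two (e C))⟩
  have had : a + d = 0 := by
    have := hC0
    rw [htr, hCmat, Matrix.trace_fin_two_of] at this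
    exact this
  have hc' : c' = 0 := by
    have := hC1
    rw [htr, map_mul, hCmat, hNmat] at this
    simpa [Matrix.trace_fin_two, Matrix.mul_apply, Fin.sum_univ_two] using this
  refine ⟨e.symm !![-(a + bb) / 2, 0; a, (a + bb) / 2], ?_, ?_⟩
  · rw [htr, AlgEquiv.apply_symm_apply, Matrix.trace_fin_two_of]
    ring
  · apply e.injective
    rw [map_sub, map_mul, map_mul, map_add, map_sub, map_one, AlgEquiv.apply_symm_apply, hNmat,
      hCmat]
    have hd : d = -a := by linear_combination had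
    subst hc' hd
    ext i j
    fin_cases i <;> fin_cases j <;>
      simp [Matrix.mul_apply, Fin.sum_univ_two, Matrix.one_apply] <;> field_simp <;> ring

end LinAlg

/-! ### Cocycles with values in `End V` for the conjugation action -/

section Cocycle

variable {k : Type*} [Field k] {V : Type*} [AddCommGroup V] [Module k V]
variable {I : Type*} [Group I] (r : I →* Module.End k V)

theorem r_mul_inv (σ : I) : r σ * r σ⁻¹ = 1 := by rw [← map_mul, mul_inv_cancel, map_one]

theorem r_inv_mul (σ : I) : r σ⁻¹ * r σ = 1 := by rw [← map_mul, inv_mul_cancel, map_one]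

theorem r_mul_inv_left (σ : I) (Y : Module.End k V) : r σ * (r σ⁻¹ * Y) = Y := by
  rw [← mul_assoc, r_mul_inv, one_mul]

theorem r_inv_mul_left (σ : I) (Y : Module.End k V) : r σ⁻¹ * (r σ * Y) = Y := by
  rw [← mul_assoc, r_inv_mul, one_mul]

theorem r_inv_eq_of_eq {σ τ : I} (h : r σ = r τ) : r σ⁻¹ = r τ⁻¹ := by
  have h1 : r σ⁻¹ * (r τ * r τ⁻¹) = r σ⁻¹ := by rw [r_mul_inv, mul_one]
  rw [← h1, ← h, r_inv_mul_left]

variable (c : I → Module.End k V)

theorem c_one (hc : ∀ σ τ, c (σ * τ) = c σ + r σ * c τ * r σ⁻¹) : c 1 = 0 := by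
  have h := hc 1 1
  rw [mul_one, inv_one, map_one, one_mul, mul_one] at h
  exact left_eq_add.1 h

/-- The subgroup on which the cocycle `c` is the coboundary of `X`. -/
def cobSubgroup (hc : ∀ σ τ, c (σ * τ) = c σ + r σ * c τ * r σ⁻¹) (X : Module.End k V) :
    Subgroup I where
  carrier := {σ | c σ = r σ * X * r σ⁻¹ - X}
  one_mem' := by
    show c 1 = r 1 * X * r 1⁻¹ - X
    rw [c_one r c hc, inv_one, map_one, one_mul, mul_one, sub_self]
  mul_mem' := by
    intro σ τ hσ hτ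
    show c (σ * τ) = r (σ * τ) * X * r (σ * τ)⁻¹ - X
    have hσ' : c σ = r σ * X * r σ⁻¹ - X := hσ
    have hτ' : c τ = r τ * X * r τ⁻¹ - X := hτ
    rw [hc, hσ', hτ', mul_inv_rev, map_mul, map_mul]
    simp only [mul_sub, sub_mul, mul_assoc]
    abel
  inv_mem' := by
    intro σ hσ
    show c σ⁻¹ = r σ⁻¹ * X * r σ⁻¹⁻¹ - X
    have hσ' : c σ = r σ * X * r σ⁻¹ - X := hσ
    have h := hc σ⁻¹ σ
    rw [inv_mul_cancel, c_one r c hc, hσ', inv_inv] at h
    rw [inv_inv]
    have h2 : r σ⁻¹ * (r σ * X * r σ⁻¹ - X) * r σ = X - r σ⁻¹ * X * r σ := by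
      simp only [mul_sub, sub_mul, mul_assoc, r_inv_mul_left, r_inv_mul, mul_one]
    rw [h2] at h
    have h3 : c σ⁻¹ = -(X - r σ⁻¹ * X * r σ) := eq_neg_of_add_eq_zero_left h.symm
    rw [h3]
    abel

theorem mem_cobSubgroup (hc : ∀ σ τ, c (σ * τ) = c σ + r σ * c τ * r σ⁻¹) (X : Module.End k V)
    (σ : I) : σ ∈ cobSubgroup r c hc X ↔ c σ = r σ * X * r σ⁻¹ - X := Iff.rfl

/-- **Abstract form**: a cocycle on a group `I` acting on a plane through nontrivial unipotents,
"cyclic" in the sense that the pair `(r, c)` is carried by the powers of one element, and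
"unipotent" (`tr c = 0 = tr (c r)`), is a coboundary. -/
theorem exists_cobound (hV : Module.finrank k V = 2) (h2 : (2 : k) ≠ 0)
    (hc : ∀ σ τ, c (σ * τ) = c σ + r σ * c τ * r σ⁻¹)
    (hcyc : ∃ τ : I, ∀ σ : I, ∃ m : ℤ, r σ = r (τ ^ m) ∧ c σ = c (τ ^ m))
    (hN : ∀ σ, (r σ - 1) * (r σ - 1) = 0)
    (hc0 : ∀ σ, LinearMap.trace k V (c σ) = 0)
    (hc1 : ∀ σ, LinearMap.trace k V (c σ * r σ) = 0)
    (hram : ∃ σ, r σ ≠ 1) :
    ∃ X : Module.End k V, LinearMap.trace k V X = 0 ∧ ∀ σ, c σ = r σ * X * r σ⁻¹ - X := by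
  obtain ⟨τ, hτ⟩ := hcyc
  have hN0 : r τ - 1 ≠ 0 := by
    intro h
    have hτ1 : τ ∈ r.ker := r.mem_ker.2 (sub_eq_zero.1 h)
    obtain ⟨σ, hσ⟩ := hram
    obtain ⟨m, hm, -⟩ := hτ σ
    exact hσ (hm.trans (r.mem_ker.1 (r.ker.zpow_mem hτ1 m)))
  have hC1 : LinearMap.trace k V (c τ * (r τ - 1)) = 0 := by
    rw [mul_sub, mul_one, map_sub, hc0, hc1, sub_zero]
  obtain ⟨X, hX0, hX⟩ := exists_conj_sub_eq hV h2 (r τ - 1) (c τ) hN0 (hN τ) (hc0 τ) hC1
  have h1 : (1 : Module.End k V) + (r τ - 1) = r τ := by abel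
  have h2' : (1 : Module.End k V) - (r τ - 1) = r τ⁻¹ := by
    have h3 : r τ * (1 - (r τ - 1)) = 1 := by
      have := hN τ
      calc r τ * (1 - (r τ - 1)) = 1 - (r τ - 1) * (r τ - 1) := by noncomm_ring
        _ = 1 := by rw [this, sub_zero]
    calc (1 : Module.End k V) - (r τ - 1) = r τ⁻¹ * (r τ * (1 - (r τ - 1))) := by
          rw [r_inv_mul_left]
      _ = r τ⁻¹ := by rw [h3, mul_one]
  rw [h1, h2'] at hX
  refine ⟨X, hX0, fun σ => ?_⟩
  have hτmem : τ ∈ cobSubgroup r c hc X := hX.symm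
  obtain ⟨m, hm1, hm2⟩ := hτ σ
  have := (mem_cobSubgroup r c hc X _).1 ((cobSubgroup r c hc X).zpow_mem hτmem m)
  rw [hm2, this, hm1, r_inv_eq_of_eq r hm1]

end Cocycle

/-! ### The homomorphism to the dual numbers and its order -/

section Dual

variable {k : Type*} [Field k] {V : Type*} [AddCommGroup V] [Module k V]
variable {I : Type*} [Group I] (r : I →* Module.End k V) (c : I → Module.End k V)

/-- `σ ↦ r σ + ε c σ r σ`, a homomorphism to `(End V)[ε]`. -/
def dualHom (hc : ∀ σ τ, c (σ * τ) = c σ + r σ * c τ * r σ⁻¹) :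
    I →* DualNumber (Module.End k V) where
  toFun σ := TrivSqZeroExt.inl (r σ) + TrivSqZeroExt.inr (c σ * r σ)
  map_one' := by
    rw [c_one r c hc, map_one, zero_mul, TrivSqZeroExt.inr_zero, add_zero, TrivSqZeroExt.inl_one]
  map_mul' σ τ := by
    apply TrivSqZeroExt.ext
    · simp
    · simp only [TrivSqZeroExt.snd_add, TrivSqZeroExt.snd_inl, TrivSqZeroExt.snd_inr, zero_add,
        TrivSqZeroExt.snd_mul, TrivSqZeroExt.fst_add, TrivSqZeroExt.fst_inl, TrivSqZeroExt.fst_inr,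
        add_zero, smul_eq_mul, MulOpposite.smul_eq_mul_unop, MulOpposite.unop_op]
      rw [hc, map_mul, add_mul, add_comm]
      congr 1
      simp only [mul_assoc, r_inv_mul_left]

theorem fst_dualHom (hc : ∀ σ τ, c (σ * τ) = c σ + r σ * c τ * r σ⁻¹) (σ : I) :
    (dualHom r c hc σ).fst = r σ := by
  simp [dualHom]

theorem snd_dualHom (hc : ∀ σ τ, c (σ * τ) = c σ + r σ * c τ * r σ⁻¹) (σ : I) :
    (dualHom r c hc σ).snd = c σ * r σ := by
  simp [dualHom]

theorem dualHom_eq_iff (hc : ∀ σ τ, c (σ * τ) = c σ + r σ * c τ * r σ⁻¹) (σ τ : I) :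
    dualHom r c hc σ = dualHom r c hc τ ↔ r σ = r τ ∧ c σ = c τ := by
  constructor
  · intro h
    have h1 : r σ = r τ := by rw [← fst_dualHom r c hc, h, fst_dualHom]
    have h2 : c σ * r σ = c τ * r τ := by rw [← snd_dualHom r c hc, h, snd_dualHom]
    refine ⟨h1, ?_⟩
    have h3 := congrArg (· * r σ⁻¹) h2
    simp only [mul_assoc] at h3
    rw [r_mul_inv, ← h1, r_mul_inv, mul_one, mul_one] at h3
    exact h3
  · rintro ⟨h1, h2⟩
    apply TrivSqZeroExt.ext
    · rw [fst_dualHom, fst_dualHom, h1]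
    · rw [snd_dualHom, snd_dualHom, h1, h2]

/-- In characteristic `p`, the values of `dualHom` on unipotent elements are killed by `p²`. -/
theorem dualHom_pow_eq_one (p : ℕ) [Fact p.Prime] [CharP k p] [Nontrivial V]
    (hc : ∀ σ τ, c (σ * τ) = c σ + r σ * c τ * r σ⁻¹) (σ : I)
    (hN : (r σ - 1) * (r σ - 1) = 0) : dualHom r c hc σ ^ p ^ 2 = 1 := by
  have : CharP (Module.End k V) p := charP_of_injective_algebraMap' k p
  have : CharP (DualNumber (Module.End k V)) p :=
    charP_of_injective_ringHom (f := TrivSqZeroExt.inlHom (Module.End k V) (Module.End k V))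
      TrivSqZeroExt.inl_injective p
  set x := dualHom r c hc σ with hx
  set n := x - 1 with hn
  have hn2 : (n * n).fst = 0 := by
    rw [TrivSqZeroExt.fst_mul, hn, TrivSqZeroExt.fst_sub, TrivSqZeroExt.fst_one, hx, fst_dualHom,
      hN]
  have hn4 : n ^ 4 = 0 := by
    have h1 : ∀ y : DualNumber (Module.End k V), y.fst = 0 → y * y = 0 := by
      intro y hy
      apply TrivSqZeroExt.ext
      · rw [TrivSqZeroExt.fst_mul, hy, zero_mul, TrivSqZeroExt.fst_zero]
      · rw [TrivSqZeroExt.snd_mul, hy, zero_smul, MulOpposite.op_zero, zero_smul, add_zero,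
          TrivSqZeroExt.snd_zero]
    have : n ^ 4 = (n * n) * (n * n) := by noncomm_ring
    rw [this, h1 _ hn2]
  have hp4 : 4 ≤ p ^ 2 := by
    have := (Fact.out : p.Prime).two_le
    nlinarith
  have hnp : n ^ p ^ 2 = 0 := by
    rw [← Nat.sub_add_cancel hp4, pow_add, hn4, mul_zero]
  have hx1 : x = n + 1 := by rw [hn]; abel
  rw [hx1, add_pow_char_pow_of_commute p 2 (Commute.one_right n), hnp, one_pow, zero_add]

end Dual

/-! ### Cayley–Hamilton in dimension two -/

section CH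

variable {k : Type*} [Field k] {V : Type*} [AddCommGroup V] [Module k V]

/-- An endomorphism of a plane with trace `2` and determinant `1` is unipotent. -/
theorem sub_one_mul_self_eq_zero (hV : Module.finrank k V = 2) (f : Module.End k V)
    (htr : LinearMap.trace k V f = 2) (hdet : LinearMap.det f = 1) : (f - 1) * (f - 1) = 0 := by
  have : Module.Finite k V := Module.finite_of_finrank_eq_succ hV
  let b : Basis (Fin 2) k V := Module.finBasisOfFinrankEq k V hV
  let e : Module.End k V ≃ₐ[k] Matrix (Fin 2) (Fin 2) k := LinearMap.toMatrixAlgEquiv b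
  have h1 : (e f).trace = 2 := by
    rw [← htr]; exact (LinearMap.trace_eq_matrix_trace k b f).symm
  have h2 : (e f).det = 1 := by
    rw [← hdet]; exact LinearMap.det_toMatrix b f
  have h3 := Matrix.aeval_self_charpoly (e f)
  rw [Matrix.charpoly_fin_two, h1, h2] at h3
  simp only [map_add, map_sub, map_mul, map_pow, Polynomial.aeval_X,
    map_one, map_ofNat] at h3
  apply e.injective
  rw [map_mul, map_sub, map_one, map_zero]
  rw [← h3]
  noncomm_ring

end CH

/-! ### The Galois statement -/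

section Galois

local notation "Qb" => AlgebraicClosure ℚ
local notation "GQ" => (AlgebraicClosure ℚ ≃ₐ[ℚ] AlgebraicClosure ℚ)

variable {k : Type} [Field k] (ρbar : ResidualGaloisRep k)

/-- **Unipotent deformations are unramified at the ramified unipotent primes.**  Let `q ≠ p` be
a prime, `A` a valuation subring of `ℚ̄` over `q` such that `ρ̄` is ramified at `A`, and let `c`
be a level cocycle of `Γ` in `ad ρ̄` such that `(1 + ε c σ) ρ̄ σ` has characteristic polynomial
`(X - 1)²` over `k[ε]` for all `σ` of the inertia group `I_A` (i.e. `tr ρ̄ σ = 2`, `det ρ̄ σ = 1`,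
`tr c σ = 0`, `tr (c σ ρ̄ σ) = 0`).  Then `c` is, on `I_A`, the coboundary of a trace-zero `X`. -/
theorem isCoboundary_on_inertia (p : ℕ) [Fact p.Prime] [CharP k p] (hp2 : p ≠ 2)
    {q : ℕ} (hq : q.Prime) (hqp : q ≠ p) {A : ValuationSubring Qb} (hA : A.LiesOverPrime q)
    (c : GQ → Module.End k ρbar.V)
    (hc : ∀ σ τ, c (σ * τ) = c σ + ρbar.ρ σ * c τ * ρbar.ρ σ⁻¹)
    (hlev : ∃ L : IntermediateField ℚ Qb, FiniteDimensional ℚ L ∧
      ∀ σ : GQ, ∀ τ ∈ L.fixingSubgroup, c (σ * τ) = c σ)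
    (hI : ∀ σ ∈ A.inertiaSubgroupIn ℚ, LinearMap.trace k ρbar.V (ρbar.ρ σ) = 2 ∧
      LinearMap.det (ρbar.ρ σ) = 1 ∧ LinearMap.trace k ρbar.V (c σ) = 0 ∧
      LinearMap.trace k ρbar.V (c σ * ρbar.ρ σ) = 0)
    (hram : ∃ σ ∈ A.inertiaSubgroupIn ℚ, ρbar.ρ σ ≠ 1) :
    ∃ X : Module.End k ρbar.V, LinearMap.trace k ρbar.V X = 0 ∧
      ∀ σ ∈ A.inertiaSubgroupIn ℚ, c σ = ρbar.ρ σ * X * ρbar.ρ σ⁻¹ - X := by
  have hV := ρbar.finrank_eq
  have : Nontrivial ρbar.V := Module.nontrivial_of_finrank_pos (R := k) (by rw [hV]; norm_num)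
  have h2 : (2 : k) ≠ 0 := by
    intro h
    have h' : ((2 : ℕ) : k) = 0 := by exact_mod_cast h
    rw [CharP.cast_eq_zero_iff k p] at h'
    exact hp2 ((Nat.prime_dvd_prime_iff_eq Fact.out Nat.prime_two).1 h')
  -- the restrictions to the inertia group
  set r' : ↥(A.inertiaSubgroupIn ℚ) →* Module.End k ρbar.V :=
    ρbar.ρ.comp (A.inertiaSubgroupIn ℚ).subtype with hr'
  set c' : ↥(A.inertiaSubgroupIn ℚ) → Module.End k ρbar.V := fun σ => c (σ : GQ) with hc'
  have hcc : ∀ σ τ, c' (σ * τ) = c' σ + r' σ * c' τ * r' σ⁻¹ := fun σ τ => hc σ τ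
  have hN : ∀ σ, (r' σ - 1) * (r' σ - 1) = 0 := fun σ =>
    sub_one_mul_self_eq_zero hV _ (hI σ σ.2).1 (hI σ σ.2).2.1
  -- the homomorphism to the units of the dual numbers
  let f : ↥(A.inertiaSubgroupIn ℚ) →* (DualNumber (Module.End k ρbar.V))ˣ :=
    (dualHom r' c' hcc).toHomUnits
  have hfval : ∀ σ, ((f σ : (DualNumber (Module.End k ρbar.V))ˣ) :
      DualNumber (Module.End k ρbar.V)) = dualHom r' c' hcc σ := fun σ =>
    MonoidHom.coe_toHomUnits _ σ
  obtain ⟨L₁, hL₁, hρL⟩ := ρbar.factorsThroughFiniteLevel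
  obtain ⟨L₂, hL₂, hcL⟩ := hlev
  have : FiniteDimensional ℚ ↥(L₁ ⊔ L₂) := IntermediateField.finiteDimensional_sup L₁ L₂
  have hcyc : IsCyclic f.range := by
    refine TameInertia8.isCyclic_range_of_inertia hq hA f (L₁ ⊔ L₂) ?_ ?_
    · intro σ hσ
      have h1 : r' σ = 1 := hρL σ fun x hx => hσ x ((le_sup_left : L₁ ≤ L₁ ⊔ L₂) hx)
      have h3 : c' σ = 0 := by
        have h4 : (σ : GQ) ∈ L₂.fixingSubgroup := by
          rw [IntermediateField.mem_fixingSubgroup_iff]
          exact fun x hx => hσ x ((le_sup_right : L₂ ≤ L₁ ⊔ L₂) hx)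
        have := hcL 1 σ h4
        rw [one_mul] at this
        show c (σ : GQ) = 0
        rw [this]
        exact c_one ρbar.ρ c hc
      apply Units.ext
      rw [hfval, Units.val_one]
      apply TrivSqZeroExt.ext
      · rw [fst_dualHom, h1, TrivSqZeroExt.fst_one]
      · rw [snd_dualHom, h3, zero_mul, TrivSqZeroExt.snd_one]
    · intro σ a ha
      have h1 : f σ ^ p ^ 2 = 1 := by
        apply Units.ext
        rw [Units.val_pow_eq_pow_val, hfval, Units.val_one]
        exact dualHom_pow_eq_one r' c' p hcc σ (hN σ)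
      have hcop : Nat.Coprime (q ^ a) (p ^ 2) :=
        Nat.Coprime.pow _ _ ((Nat.coprime_primes hq Fact.out).2 hqp)
      have := pow_gcd_eq_one.2 ⟨ha, h1⟩
      rwa [hcop, pow_one] at this
  obtain ⟨g, hg⟩ := hcyc.exists_generator
  obtain ⟨τ, hτ⟩ := g.2
  have hcyc' : ∃ τ : ↥(A.inertiaSubgroupIn ℚ), ∀ σ : ↥(A.inertiaSubgroupIn ℚ), ∃ m : ℤ,
      r' σ = r' (τ ^ m) ∧ c' σ = c' (τ ^ m) := by
    refine ⟨τ, fun σ => ?_⟩
    obtain ⟨m, hm⟩ := Subgroup.mem_zpowers_iff.1 (hg ⟨f σ, σ, rfl⟩)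
    refine ⟨m, ?_⟩
    have h1 : f (τ ^ m) = f σ := by
      have := congrArg Subtype.val hm
      rw [Subgroup.coe_zpow, ← hτ, ← map_zpow] at this
      exact this
    have h2 : dualHom r' c' hcc (τ ^ m) = dualHom r' c' hcc σ := by
      rw [← hfval, ← hfval, h1]
    exact (dualHom_eq_iff r' c' hcc σ (τ ^ m)).1 h2.symm
  obtain ⟨σ₀, hσ₀, hσ₀1⟩ := hram
  obtain ⟨X, hX0, hX⟩ := exists_cobound r' c' hV h2 hcc hcyc' hN
    (fun σ => (hI σ σ.2).2.2.1) (fun σ => (hI σ σ.2).2.2.2) ⟨⟨σ₀, hσ₀⟩, hσ₀1⟩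
  exact ⟨X, hX0, fun σ hσ => hX ⟨σ, hσ⟩⟩

end Galois

end Fermat.Agent.W56.UnipCobound8
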