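/-
Programme W56 (target S56), chapter (C1''), helper8: the Selmer condition at the primes of
`Smin ∖ {p}` in the vocabulary of `W56/Defs9`.

* `liesOverPrime_primeLocalPlace` : the place `primeLocalPlace q` of `ℚ̄` lies over `q`;
* `resI_eq_zero_of_unipotent` : a level cocycle `c ∈ Z¹(G_T, ad⁰ρ̄)` whose associated deformation
  `(1 + ε c) ρ̄` is unipotent on the inertia group at a prime `q ≠ p` where `ρ̄` is ramified has
  trivial restriction to `H¹(I_q, ad⁰ρ̄)`.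
-/
import Mathlib
import Fermat.Agent.W56.Defs9
import Fermat.Agent.W56.UnipCobound8
import Fermat.Agent.W56.InertiaConj8

set_option autoImplicit false

open CategoryTheory ExtCitation

namespace Fermat.Agent.W56.UnipSel8

open Fermat.Agent.PT.PRO Fermat.Agent.PT.BR Fermat.Agent.W56.Defs9

local notation "Qb" => AlgebraicClosure ℚ
local notation "Γ" => (AlgebraicClosure ℚ ≃ₐ[ℚ] AlgebraicClosure ℚ)

/-- The place of `ℚ̄` induced by `ℚ̄ ⊆ ℚ̄_q` lies over `q`. -/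
theorem liesOverPrime_primeLocalPlace (q : Nat.Primes) :
    (primeLocalPlace q).LiesOverPrime (q : ℕ) := by
  have : Fact ((q : ℕ)).Prime := ⟨q.2⟩
  show (((q : ℕ) : ℕ) : Qb) ∈ (padicPlace (q : ℕ)).nonunits
  rw [ValuationSubring.mem_nonunits_iff_or]
  right
  rw [mem_padicPlace_iff, map_inv₀, map_natCast, nnnorm_inv, not_le]
  have h1 : ‖((q : ℕ) : PadicAlgCl (q : ℕ))‖₊ = 1 / ((q : ℕ) : NNReal) := by
    rw [← PadicAlgCl.valuation_def]
    exact PadicAlgCl.valuation_p (q : ℕ)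
  rw [h1, one_div, inv_inv]
  exact_mod_cast q.2.one_lt

variable {k : Type} [Field k] (ρbar : ResidualGaloisRep k)

/-- The underlying endomorphism of an element of `ad⁰ρ̄`. -/
def endOf (x : ad0 ρbar) : Module.End k ρbar.V :=
  @Subtype.val (Module.End k ρbar.V) (fun X => X ∈ sl ρbar) x

theorem endOf_mem (x : ad0 ρbar) : endOf ρbar x ∈ sl ρbar :=
  @Subtype.property (Module.End k ρbar.V) (fun X => X ∈ sl ρbar) x

/-- A trace-zero endomorphism as an element of `ad⁰ρ̄`. -/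
def ofEnd (X : Module.End k ρbar.V) (hX : X ∈ sl ρbar) : ad0 ρbar :=
  (⟨X, hX⟩ : ↥(sl ρbar))

theorem endOf_ofEnd (X : Module.End k ρbar.V) (hX : X ∈ sl ρbar) :
    endOf ρbar (ofEnd ρbar X hX) = X := rfl

theorem endOf_injective : Function.Injective (endOf ρbar) := fun _ _ h => Subtype.ext h

theorem endOf_sub (x y : ad0 ρbar) : endOf ρbar (x - y) = endOf ρbar x - endOf ρbar y := rfl

theorem endOf_add (x y : ad0 ρbar) : endOf ρbar (x + y) = endOf ρbar x + endOf ρbar y := rfl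

theorem endOf_ρ (σ : Γ) (x : ad0 ρbar) :
    endOf ρbar ((ad0 ρbar).ρ σ x) = ρbar.ρ σ * endOf ρbar x * ρbar.ρ σ⁻¹ := rfl

/-- **The Selmer condition at the ramified unipotent primes.** -/
theorem resI_eq_zero_of_unipotent (p : ℕ) [Fact p.Prime] [CharP k p] (hp2 : p ≠ 2)
    (T : Finset Nat.Primes) (q : Nat.Primes) (hqp : (q : ℕ) ≠ p)
    (hram : ¬ ρbar.IsUnramifiedAt (q : ℕ))
    (c : ↥(LevelCoh28.Z1 (LevelBridge13.globalBasis T) (ad0 ρbar)))
    (hI : ∀ σ ∈ (primeLocalPlace q).inertiaSubgroupIn ℚ,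
      LinearMap.trace k ρbar.V (ρbar.ρ σ) = 2 ∧ LinearMap.det (ρbar.ρ σ) = 1 ∧
      LinearMap.trace k ρbar.V (endOf ρbar ((c : Γ → ad0 ρbar) σ) * ρbar.ρ σ) = 0) :
    resI T (ad0 ρbar) q (LevelCoh28.H1mk (LevelBridge13.globalBasis T) (ad0 ρbar) c) = 0 := by
  have hA := liesOverPrime_primeLocalPlace q
  -- the cocycle with values in `End V`
  set c' : Γ → Module.End k ρbar.V := fun σ => endOf ρbar ((c : Γ → ad0 ρbar) σ) with hc'
  have hcz := (LevelCoh28.mem_Z1_iff _ _ _).1 c.2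
  have hcoc : ∀ σ τ, c' (σ * τ) = c' σ + ρbar.ρ σ * c' τ * ρbar.ρ σ⁻¹ := by
    intro σ τ
    have h1 := (groupCohomology.mem_cocycles₁_iff (c : Γ → ad0 ρbar)).1 hcz.1 σ τ
    show endOf ρbar ((c : Γ → ad0 ρbar) (σ * τ)) = _
    rw [h1, endOf_add, endOf_ρ, add_comm]
  have hlev : ∃ L : IntermediateField ℚ Qb, FiniteDimensional ℚ L ∧
      ∀ σ : Γ, ∀ τ ∈ L.fixingSubgroup, c' (σ * τ) = c' σ := by
    obtain ⟨_, ⟨F, hF, rfl⟩, hinv⟩ := hcz.2
    exact ⟨F, hF.1, fun σ τ hτ => by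
      show endOf ρbar ((c : Γ → ad0 ρbar) (σ * τ)) = endOf ρbar ((c : Γ → ad0 ρbar) σ)
      rw [hinv σ τ hτ]⟩
  obtain ⟨X, hX0, hX⟩ := UnipCobound8.isCoboundary_on_inertia ρbar p hp2 q.2 hqp hA c' hcoc hlev
    (fun σ hσ => ⟨(hI σ hσ).1, (hI σ hσ).2.1,
      (mem_sl_iff ρbar _).1 (endOf_mem ρbar ((c : Γ → ad0 ρbar) σ)), (hI σ hσ).2.2⟩)
    (InertiaConj8.exists_ne_one_of_not_isUnramifiedAt ρbar q.2 hram hA)
  -- conclude
  unfold resI
  rw [ShaBridge13.resH1_mk, LevelCoh28.H1mk_eq_zero_iff]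
  refine ⟨ofEnd ρbar X ((mem_sl_iff ρbar X).2 hX0), ?_⟩
  funext σ
  rw [groupCohomology.d₀₁_hom_apply]
  apply endOf_injective ρbar
  show endOf ρbar ((ad0 ρbar).ρ (locI q σ) (ofEnd ρbar X _) - ofEnd ρbar X _) =
    endOf ρbar ((c : Γ → ad0 ρbar) (locI q σ))
  rw [endOf_sub, endOf_ρ, endOf_ofEnd]
  exact (hX _ (locI_mem q σ)).symm

end Fermat.Agent.W56.UnipSel8
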