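/-
Programme W56 (target S56), chapter (C2-a), helper8, ABSTRACT LAYER: the kernel of restriction
`H¹(G, M) → H¹(N, M)` in level cohomology, for a normal subgroup `N` such that `G/N` is
topologically generated by one element `φ`, has at most `#M^G` elements (`M` finite discrete).

Proof: every class of the kernel has a cocycle vanishing on `N`; such cocycles `Z_N` have values in
`M^N` and are determined by their value at `φ`, so `#Z_N ≤ #M^N`; the coboundaries among them are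
`d(M^N) ≅ M^N / M^G`.
-/
import Mathlib
import Fermat.Agent.PT.PRO.LevelCohRes28

set_option autoImplicit false

universe u

open CategoryTheory groupCohomology

namespace Fermat.Agent.W56.UnramCount8

open Fermat.Agent.PT.PRO Fermat.Agent.PT.PRO.LevelCoh28 Fermat.Agent.PT.PRO.LevelCohRes28

variable {k G : Type u} [CommRing k] [Group G]

/-! ### Generalities on 1-cocycles -/

section Cocycle

variable {M : Rep.{u} k G}

theorem coc_mul {c : G → M} (hc : c ∈ cocycles₁ M) (g h : G) :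
    c (g * h) = M.ρ g (c h) + c g :=
  (mem_cocycles₁_iff c).1 hc g h

theorem coc_one {c : G → M} (hc : c ∈ cocycles₁ M) : c 1 = 0 := by
  have h := coc_mul hc 1 1
  rw [mul_one, map_one, Module.End.one_apply] at h
  exact left_eq_add.1 h

/-- The zero set of a 1-cocycle is a subgroup. -/
def zeroSubgroup {c : G → M} (hc : c ∈ cocycles₁ M) : Subgroup G where
  carrier := {g | c g = 0}
  one_mem' := coc_one hc
  mul_mem' := by
    intro g h hg hh
    show c (g * h) = 0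
    have hg' : c g = 0 := hg
    have hh' : c h = 0 := hh
    rw [coc_mul hc, hg', hh', map_zero, add_zero]
  inv_mem' := by
    intro g hg
    show c g⁻¹ = 0
    have hg' : c g = 0 := hg
    have h := coc_mul hc g g⁻¹
    rw [mul_inv_cancel, coc_one hc, hg', add_zero] at h
    have h2 := congrArg (M.ρ g⁻¹) h
    rw [map_zero, ← Module.End.mul_apply, ← map_mul, inv_mul_cancel, map_one,
      Module.End.one_apply] at h2
    exact h2.symm

theorem mem_zeroSubgroup {c : G → M} (hc : c ∈ cocycles₁ M) (g : G) :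
    g ∈ zeroSubgroup hc ↔ c g = 0 := Iff.rfl

end Cocycle

/-! ### The count -/

section Count

variable (𝓑 : LevelBasis G) (N : Subgroup G) (𝓑N : LevelBasis ↥N)
  (hN : IsLevelHom N.subtype 𝓑N.sets 𝓑.sets) (M : Rep.{u} k G) (B : Rep.{u} k ↥N)
  (ι : M →ₗ[k] B) (hι : ∀ (n : ↥N) (a : M), ι (M.ρ (N.subtype n) a) = B.ρ n (ι a))

/-- The `N`-invariants of `M`. -/
def invN : Submodule k M where
  carrier := {m | ∀ n ∈ N, M.ρ n m = m}
  add_mem' := fun ha hb n hn => by rw [map_add, ha n hn, hb n hn]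
  zero_mem' := fun n _ => map_zero _
  smul_mem' := fun a m hm n hn => by rw [map_smul, hm n hn]

/-- Cochains vanishing on `N`. -/
def vanN : Submodule k (G → M) where
  carrier := {c | ∀ n ∈ N, c n = 0}
  add_mem' := fun ha hb n hn => by rw [Pi.add_apply, ha n hn, hb n hn, add_zero]
  zero_mem' := fun _ _ => rfl
  smul_mem' := fun a c hc n hn => by rw [Pi.smul_apply, hc n hn, smul_zero]

/-- Level cocycles vanishing on `N`. -/
def ZN : Submodule k (G → M) := Z1 𝓑 M ⊓ vanN N M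

theorem ZN_le_Z1 : ZN 𝓑 N M ≤ Z1 𝓑 M := inf_le_left

variable {𝓑 N M}

theorem mem_ZN_iff (c : G → M) : c ∈ ZN 𝓑 N M ↔ c ∈ Z1 𝓑 M ∧ ∀ n ∈ N, c n = 0 := Iff.rfl

/-- A cocycle vanishing on `N` has `N`-invariant values. -/
theorem apply_mem_invN [hNn : N.Normal] {c : G → M} (hc : c ∈ ZN 𝓑 N M) (g : G) :
    c g ∈ invN N M := by
  intro n hn
  have hcz := (mem_Z1_iff 𝓑 M _).1 hc.1
  have h1 : g⁻¹ * n * g ∈ N := by
    have := hNn.conj_mem n hn g⁻¹
    simpa using this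
  have h2 : n * g = g * (g⁻¹ * n * g) := by group
  have h3 := coc_mul hcz.1 n g
  have h4 := coc_mul hcz.1 g (g⁻¹ * n * g)
  rw [← h2, h3, hc.2 n hn, add_zero, hc.2 _ h1, map_zero, zero_add] at h4
  exact h4

variable (𝓑 N M) in
/-- Evaluation at `φ` of the cocycles vanishing on `N`. -/
def evN [N.Normal] (φ : G) : ↥(ZN 𝓑 N M) →ₗ[k] ↥(invN N M) where
  toFun c := ⟨(c : G → M) φ, apply_mem_invN c.2 φ⟩
  map_add' _ _ := rfl
  map_smul' _ _ := rfl

/-- **A cocycle vanishing on `N` is determined by its value at a topological generator of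
`G/N`.** -/
theorem evN_injective [N.Normal] (φ : G)
    (hφ : ∀ U ∈ 𝓑.sets, ∀ g : G, ∃ i : ℤ, ∃ n ∈ N, ∃ u ∈ U, g = φ ^ i * n * u) :
    Function.Injective (evN 𝓑 N M φ) := by
  refine LinearMap.ker_eq_bot.1 (LinearMap.ker_eq_bot'.2 fun c hc0 => ?_)
  have hcφ : (c : G → M) φ = 0 := congrArg Subtype.val hc0
  have hcz := (mem_Z1_iff 𝓑 M _).1 c.2.1
  obtain ⟨U, hU, hinv⟩ := hcz.2
  apply Subtype.ext
  funext g
  obtain ⟨i, n, hn, u, hu, rfl⟩ := hφ U hU g
  have h1 : φ ^ i * n ∈ zeroSubgroup hcz.1 :=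
    (zeroSubgroup hcz.1).mul_mem ((zeroSubgroup hcz.1).zpow_mem hcφ i) (c.2.2 n hn)
  rw [hinv _ u hu]
  exact h1

variable (hM : IsDiscrete 𝓑.sets M)

include hM in
/-- The coboundary of an `N`-invariant vector is a level cocycle vanishing on `N`. -/
theorem d_mem_ZN (X : ↥(invN N M)) : (d₀₁ M).hom (X : M) ∈ ZN 𝓑 N M := by
  refine ⟨coboundaries₁_le_Z1 hM ⟨X, rfl⟩, fun n hn => ?_⟩
  rw [d₀₁_hom_apply, X.2 n hn, sub_self]

/-- `X ↦ dX` on the `N`-invariants. -/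
def dN : ↥(invN N M) →ₗ[k] ↥(ZN 𝓑 N M) where
  toFun X := ⟨(d₀₁ M).hom (X : M), d_mem_ZN hM X⟩
  map_add' X Y := by
    apply Subtype.ext
    show (d₀₁ M).hom ((X : M) + (Y : M)) = (d₀₁ M).hom (X : M) + (d₀₁ M).hom (Y : M)
    rw [map_add]
  map_smul' a X := by
    apply Subtype.ext
    show (d₀₁ M).hom (a • (X : M)) = a • (d₀₁ M).hom (X : M)
    rw [map_smul]

theorem mem_ker_dN (X : ↥(invN N M)) :
    X ∈ LinearMap.ker (dN (𝓑 := 𝓑) hM) ↔ (X : M) ∈ M.ρ.invariants := by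
  rw [LinearMap.mem_ker]
  constructor
  · intro h g
    have h1 : (d₀₁ M).hom (X : M) g = 0 := by
      have := congrArg (fun c : ↥(ZN 𝓑 N M) => (c : G → M) g) h
      exact this
    rw [d₀₁_hom_apply, sub_eq_zero] at h1
    exact h1
  · intro h
    apply Subtype.ext
    funext g
    show (d₀₁ M).hom (X : M) g = 0
    rw [d₀₁_hom_apply, h g, sub_self]

variable (𝓑 N M) in
/-- The classes of the cocycles vanishing on `N`. -/
def clN : ↥(ZN 𝓑 N M) →ₗ[k] H1 𝓑 M :=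
  (H1mk 𝓑 M).comp (Submodule.inclusion (ZN_le_Z1 𝓑 N M))

theorem clN_apply (c : ↥(ZN 𝓑 N M)) :
    clN 𝓑 N M c = H1mk 𝓑 M ⟨(c : G → M), c.2.1⟩ := rfl

theorem ker_clN_le_range_dN : LinearMap.ker (clN 𝓑 N M) ≤ LinearMap.range (dN (𝓑 := 𝓑) hM) := by
  intro c hc
  rw [LinearMap.mem_ker, clN_apply] at hc
  have h1 : (c : G → M) ∈ coboundaries₁ M := (H1mk_eq_zero_iff 𝓑 M _).1 hc
  obtain ⟨X, hX⟩ := h1
  have hXN : X ∈ invN N M := by
    intro n hn
    have h2 := congrFun hX n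
    rw [d₀₁_hom_apply, c.2.2 n hn, sub_eq_zero] at h2
    exact h2
  exact ⟨⟨X, hXN⟩, Subtype.ext hX⟩

theorem range_dN_le_ker_clN : LinearMap.range (dN (𝓑 := 𝓑) (N := N) hM) ≤
    LinearMap.ker (clN 𝓑 N M) := by
  rintro _ ⟨X, rfl⟩
  rw [LinearMap.mem_ker, clN_apply, H1mk_eq_zero_iff]
  exact ⟨X, rfl⟩

include hι hM in
/-- **Every class restricting to zero on `N` has a cocycle vanishing on `N`.** -/
theorem ker_res_le_range_clN (hιb : Function.Bijective ι) :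
    LinearMap.ker (ppH1 (𝓑G := 𝓑N) (𝓑H := 𝓑) N.subtype ι hι hN) ≤
      LinearMap.range (clN 𝓑 N M) := by
  intro x hx
  obtain ⟨c, rfl⟩ := H1mk_surjective 𝓑 M x
  rw [LinearMap.mem_ker, ppH1_mk, H1mk_eq_zero_iff] at hx
  obtain ⟨b, hb⟩ := hx
  obtain ⟨X, rfl⟩ := hιb.2 b
  have hX : ∀ n ∈ N, (c : G → M) n = M.ρ n X - X := by
    intro n hn
    have h1 := congrFun hb ⟨n, hn⟩
    rw [d₀₁_hom_apply, coe_ppZ1, pp₁_apply, ← hι, ← map_sub] at h1
    exact (hιb.1 h1).symm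
  have hd : (d₀₁ M).hom X ∈ Z1 𝓑 M := coboundaries₁_le_Z1 hM ⟨X, rfl⟩
  have hmem : (c : G → M) - (d₀₁ M).hom X ∈ ZN 𝓑 N M := by
    refine ⟨(Z1 𝓑 M).sub_mem c.2 hd, fun n hn => ?_⟩
    rw [Pi.sub_apply, d₀₁_hom_apply, hX n hn, sub_self]
  refine ⟨⟨_, hmem⟩, ?_⟩
  rw [clN_apply]
  have h2 : (⟨(c : G → M) - (d₀₁ M).hom X, hmem.1⟩ : ↥(Z1 𝓑 M)) = c - ⟨_, hd⟩ := rfl
  rw [h2, map_sub, sub_eq_self, H1mk_eq_zero_iff]
  exact ⟨X, rfl⟩

include hι hM in
/-- **The unramified classes are at most as many as the invariants.** -/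
theorem card_ker_res_le [N.Normal] [Finite M] (hιb : Function.Bijective ι) (φ : G)
    (hφ : ∀ U ∈ 𝓑.sets, ∀ g : G, ∃ i : ℤ, ∃ n ∈ N, ∃ u ∈ U, g = φ ^ i * n * u) :
    Nat.card ↥(LinearMap.ker (ppH1 (𝓑G := 𝓑N) (𝓑H := 𝓑) N.subtype ι hι hN)) ≤
      Nat.card ↥M.ρ.invariants := by
  classical
  have hfinI : Finite ↥(invN N M) := inferInstance
  have hinj := evN_injective (𝓑 := 𝓑) (N := N) (M := M) φ hφ
  have hfinZ : Finite ↥(ZN 𝓑 N M) := Finite.of_injective _ hinj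
  -- `#Z_N ≤ #M^N`
  have h1 : Nat.card ↥(ZN 𝓑 N M) ≤ Nat.card ↥(invN N M) :=
    Nat.card_le_card_of_injective _ hinj
  -- `#M^N = #M^G · #d(M^N)`
  have h2 : Nat.card ↥(invN N M) =
      Nat.card ↥(LinearMap.ker (dN (𝓑 := 𝓑) (N := N) hM)) *
        Nat.card ↥(LinearMap.range (dN (𝓑 := 𝓑) (N := N) hM)) := by
    rw [Submodule.card_eq_card_quotient_mul_card (LinearMap.ker (dN (𝓑 := 𝓑) (N := N) hM)),
      Nat.card_congr (dN (𝓑 := 𝓑) (N := N) hM).quotKerEquivRange.toEquiv]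
  have h3 : Nat.card ↥(LinearMap.ker (dN (𝓑 := 𝓑) (N := N) hM)) ≤ Nat.card ↥M.ρ.invariants := by
    refine Nat.card_le_card_of_injective
      (fun X => (⟨(X.1 : M), (mem_ker_dN hM X.1).1 X.2⟩ : ↥M.ρ.invariants)) ?_
    intro X Y h
    have h' := congrArg Subtype.val h
    exact Subtype.ext (Subtype.ext h')
  -- `#Z_N = #ker(cl) · #range(cl)`
  have h4 : Nat.card ↥(ZN 𝓑 N M) =
      Nat.card ↥(LinearMap.ker (clN 𝓑 N M)) * Nat.card ↥(LinearMap.range (clN 𝓑 N M)) := by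
    rw [Submodule.card_eq_card_quotient_mul_card (LinearMap.ker (clN 𝓑 N M)),
      Nat.card_congr (clN 𝓑 N M).quotKerEquivRange.toEquiv]
  have hfinR : Finite ↥(LinearMap.range (clN 𝓑 N M)) := Set.finite_range _
  have h5 : Nat.card ↥(LinearMap.ker (ppH1 (𝓑G := 𝓑N) (𝓑H := 𝓑) N.subtype ι hι hN)) ≤
      Nat.card ↥(LinearMap.range (clN 𝓑 N M)) :=
    Nat.card_le_card_of_injective (Set.inclusion (ker_res_le_range_clN 𝓑N hN B ι hι hM hιb))
      (Set.inclusion_injective _)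
  have h6 : Nat.card ↥(LinearMap.range (dN (𝓑 := 𝓑) (N := N) hM)) ≤
      Nat.card ↥(LinearMap.ker (clN 𝓑 N M)) :=
    Nat.card_le_card_of_injective (Set.inclusion (range_dN_le_ker_clN hM))
      (Set.inclusion_injective _)
  have h7 : Nat.card ↥(LinearMap.ker (clN 𝓑 N M)) ≤
      Nat.card ↥(LinearMap.range (dN (𝓑 := 𝓑) (N := N) hM)) :=
    Nat.card_le_card_of_injective (Set.inclusion (ker_clN_le_range_dN hM))
      (Set.inclusion_injective _)
  have h8 := le_antisymm h6 h7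
  have hpos : 0 < Nat.card ↥(LinearMap.range (dN (𝓑 := 𝓑) (N := N) hM)) := Nat.card_pos
  -- assemble
  have h9 : Nat.card ↥(LinearMap.range (dN (𝓑 := 𝓑) (N := N) hM)) *
      Nat.card ↥(LinearMap.range (clN 𝓑 N M)) ≤
      Nat.card ↥(LinearMap.range (dN (𝓑 := 𝓑) (N := N) hM)) * Nat.card ↥M.ρ.invariants := by
    calc _ = Nat.card ↥(ZN 𝓑 N M) := by rw [h4, h8]
      _ ≤ Nat.card ↥(invN N M) := h1
      _ = _ := by rw [h2, mul_comm]
      _ ≤ _ := Nat.mul_le_mul_left _ h3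
  exact h5.trans (Nat.le_of_mul_le_mul_left h9 hpos)

end Count

end Fermat.Agent.W56.UnramCount8
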