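/-
Programme W56 (target S56), chapter (C2-a), helper8: the unramified classes at `q` are at most as
many as the invariants, `#H¹_ur(Γ_q, M) ≤ #H⁰(Γ_q, M)`, in the vocabulary of `W56/Defs9`.

`card_H1ur_le` takes the surjectivity `Γ_q → D_P` of chapter (D1) as a hypothesis `hD1`;
`card_H1ur_le'` is the unconditional form (with the lead's `W56/DecompOnto0`).
-/
import Mathlib
import Fermat.Agent.W56.Defs9
import Fermat.Agent.W56.UnipSel8
import Fermat.Agent.W56.UnramCount8
import Fermat.Agent.W56.FrobGen8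
import Fermat.Agent.W56.DecompOnto0

set_option autoImplicit false

open CategoryTheory ExtCitation

namespace Fermat.Agent.W56.H1urCard8

open Fermat.Agent.PT.PRO Fermat.Agent.PT.BR Fermat.Agent.W56.Defs9
open scoped Pointwise

local notation "Qb" => AlgebraicClosure ℚ
local notation "Γ" => (AlgebraicClosure ℚ ≃ₐ[ℚ] AlgebraicClosure ℚ)

/-- The image of `Γ_q → Γ` lies in the decomposition group of the place `primeLocalPlace q`. -/
theorem locD_mem (q : Nat.Primes) (g : primeLocalGaloisGroup q) :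
    locD q g ∈ (primeLocalPlace q).decompositionSubgroup ℚ := by
  have : Fact ((q : ℕ)).Prime := ⟨q.2⟩
  exact localGaloisToGlobal_mem_decompositionSubgroup (q : ℕ) g

/-- The inertia subgroup of `Γ_q` is normal. -/
instance normal_inertia (q : Nat.Primes) : (inertia q).Normal := by
  refine ⟨fun n hn g => ?_⟩
  have hA := UnipSel8.liesOverPrime_primeLocalPlace q
  have hn' : locD q n ∈ (primeLocalPlace q).inertiaSubgroupIn ℚ := hn
  have h1 := UnramBridge13.conj_mem_inertiaSubgroupIn q.2 hA (locD q g) hn'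
  have h2 : locD q g • primeLocalPlace q = primeLocalPlace q :=
    MulAction.mem_stabilizer_iff.1 (locD_mem q g)
  rw [h2] at h1
  show locD q (g * n * g⁻¹) ∈ (primeLocalPlace q).inertiaSubgroupIn ℚ
  rw [map_mul, map_mul, map_inv]
  exact h1

/-- **`Γ_q` is topologically generated by a Frobenius and the inertia subgroup** (given (D1)). -/
theorem exists_frob_generates (q : Nat.Primes)
    (hD1 : ∀ σ ∈ (primeLocalPlace q).decompositionSubgroup ℚ,
      ∃ τ : primeLocalGaloisGroup q, locD q τ = σ) :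
    ∃ φ : primeLocalGaloisGroup q, (primeLocalPlace q).IsFrobeniusAt (locD q φ) (q : ℕ) ∧
      ∀ U ∈ (LevelBridge13.pullBasis (locD q)).sets, ∀ g : primeLocalGaloisGroup q,
        ∃ i : ℤ, ∃ n ∈ inertia q, ∃ u ∈ U, g = φ ^ i * n * u := by
  have hA := UnipSel8.liesOverPrime_primeLocalPlace q
  obtain ⟨φ₀, hφ₀⟩ := FrobGen8.exists_isFrobeniusAt q.2 hA
  obtain ⟨φ, hφ⟩ := hD1 φ₀ hφ₀.mem_decompositionSubgroup
  refine ⟨φ, by rw [hφ]; exact hφ₀, ?_⟩
  rintro _ ⟨F, hF, rfl⟩ g
  have hN : Normal ℚ ↥(IntermediateField.normalClosure ℚ (↥F) Qb) :=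
    normalClosure.normal ℚ (↥F) Qb
  have hfd : FiniteDimensional ℚ ↥(IntermediateField.normalClosure ℚ (↥F) Qb) :=
    normalClosure.is_finiteDimensional ℚ (↥F) Qb
  obtain ⟨n, ι, hι, u, hu, hσ⟩ := FrobGen8.exists_eq_frob_pow_mul q.2 hA hφ₀
    (IntermediateField.normalClosure ℚ (↥F) Qb) (locD_mem q g)
  obtain ⟨ν, hν⟩ := hD1 ι (Fermat.Agent.S05.Inertia.mem_decompositionSubgroup hι)
  have hνI : ν ∈ inertia q := by
    show locD q ν ∈ (primeLocalPlace q).inertiaSubgroupIn ℚ
    rw [hν]; exact hι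
  refine ⟨(n : ℤ), ν, hνI, (φ ^ n * ν)⁻¹ * g, ?_, ?_⟩
  · show locD q ((φ ^ n * ν)⁻¹ * g) ∈ F.fixingSubgroup
    have h1 : locD q ((φ ^ n * ν)⁻¹ * g) = u := by
      rw [map_mul, map_inv, map_mul, map_pow, hφ, hν, hσ]
      group
    rw [h1]
    exact IntermediateField.fixingSubgroup_antitone (IntermediateField.le_normalClosure F) hu
  · rw [zpow_natCast]
    group

variable {k : Type} [CommRing k]

/-- **`#H¹_ur(Γ_q, M) ≤ #H⁰(Γ_q, M)`** for a finite discrete module (given (D1)). -/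
theorem card_H1ur_le (q : Nat.Primes) (M : Rep k Γ) [Finite M]
    (hM : LevelCoh28.IsDiscrete (LevelBridge13.pullSets (locD q)) (Rep.res (locD q) M))
    (hD1 : ∀ σ ∈ (primeLocalPlace q).decompositionSubgroup ℚ,
      ∃ τ : primeLocalGaloisGroup q, locD q τ = σ) :
    Nat.card ↥(H1ur M q) ≤ Nat.card ↥(Rep.res (locD q) M).ρ.invariants := by
  obtain ⟨φ, -, hφ⟩ := exists_frob_generates q hD1
  have : Finite ↥(Rep.res (locD q) M) := ‹Finite M›
  exact UnramCount8.card_ker_res_le (𝓑 := LevelBridge13.pullBasis (locD q)) (N := inertia q)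
    (LevelBridge13.pullBasis (locI q)) (isLevelHom_inertia q) (Rep.res (locI q) M)
    (LinearMap.id : Rep.res (locD q) M →ₗ[k] Rep.res (locI q) M) (fun _ _ => rfl) hM
    Function.bijective_id φ hφ

/-- (D1), the lead's `DecompOnto0`, in the shape of `hD1`. -/
theorem hD1 (q : Nat.Primes) : ∀ σ ∈ (primeLocalPlace q).decompositionSubgroup ℚ,
    ∃ τ : primeLocalGaloisGroup q, locD q τ = σ :=
  fun _ hσ => DecompOnto0.exists_primeLocalToGlobal_eq q hσ

/-- **`Γ_q` is topologically generated by a Frobenius and the inertia subgroup.** -/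
theorem exists_frob_generates' (q : Nat.Primes) :
    ∃ φ : primeLocalGaloisGroup q, (primeLocalPlace q).IsFrobeniusAt (locD q φ) (q : ℕ) ∧
      ∀ U ∈ (LevelBridge13.pullBasis (locD q)).sets, ∀ g : primeLocalGaloisGroup q,
        ∃ i : ℤ, ∃ n ∈ inertia q, ∃ u ∈ U, g = φ ^ i * n * u :=
  exists_frob_generates q (hD1 q)

/-- **`#H¹_ur(Γ_q, M) ≤ #H⁰(Γ_q, M)`**, unconditional form. -/
theorem card_H1ur_le' (q : Nat.Primes) (M : Rep k Γ) [Finite M]
    (hM : LevelCoh28.IsDiscrete (LevelBridge13.pullSets (locD q)) (Rep.res (locD q) M)) :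
    Nat.card ↥(H1ur M q) ≤ Nat.card ↥(Rep.res (locD q) M).ρ.invariants :=
  card_H1ur_le q M hM (hD1 q)

end Fermat.Agent.W56.H1urCard8
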