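/-
Programme W56 (S56), local finiteness, helper1.

`KummerGen1`: the Kummer-theoretic core of the finiteness of `H¹`, over an ARBITRARY field `K` of
characteristic zero with a Galois closure `Ω` (port of `PT/GLOB/H1Finite15` from `(ℚ, ℚ̄, S-units)`
to `(K, Ω, all units)`).

Let `F₀ ⊂ Ω` be a finite extension of `K` containing a primitive `p`-th root of unity, and let
`Y ⊂ F₀ˣ` be a finite set of representatives of `F₀ˣ / (F₀ˣ)^p`.  Then every function
`χ : Gal(Ω/K) → ℤ/p` which is additive on `Gal(Ω/F₀)` and kills `Gal(Ω/E) ∩ Gal(Ω/F₀)` for SOME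
finite `E` kills `Gal(Ω/F₁)`, `F₁ = F₀(Y^{1/p})`.
-/
import Mathlib

set_option autoImplicit false
set_option linter.style.haveILetI false
set_option linter.unusedSectionVars false

namespace Fermat.Agent.W56.KummerGen1

variable {K Ω : Type*} [Field K] [Field Ω] [Algebra K Ω] [CharZero K] [IsGalois K Ω]

section Main

variable {p : ℕ} (F₀ : IntermediateField K Ω)

/-- The set of `p`-th roots in `Ω` of the elements of a finite set `Y ⊆ F₀ˣ`. -/
def rootSet (p : ℕ) (Y : Finset F₀ˣ) : Set Ω := {x | ∃ y ∈ Y, x ^ p = ((y : F₀) : Ω)}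

theorem finite_rootSet (hp : 0 < p) (Y : Finset F₀ˣ) : (rootSet F₀ p Y).Finite := by
  classical
  have h : rootSet F₀ p Y ⊆ ⋃ y ∈ Y,
      ((Polynomial.X ^ p - Polynomial.C ((y : F₀) : Ω) : Polynomial Ω).rootSet Ω) := by
    rintro x ⟨y, hy, hx⟩
    simp only [Set.mem_iUnion]
    refine ⟨y, hy, ?_⟩
    rw [Polynomial.mem_rootSet]
    refine ⟨Polynomial.X_pow_sub_C_ne_zero hp _, ?_⟩
    simp [hx]
  exact Set.Finite.subset (Set.Finite.biUnion Y.finite_toSet fun y _ =>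
    Polynomial.rootSet_finite _ _) h

/-- The field `F₁ = F₀(Y^{1/p})`. -/
noncomputable def kummerLevel (p : ℕ) (Y : Finset F₀ˣ) : IntermediateField K Ω :=
  F₀ ⊔ IntermediateField.adjoin K (rootSet F₀ p Y)

theorem le_kummerLevel (Y : Finset F₀ˣ) : F₀ ≤ kummerLevel F₀ p Y := le_sup_left

theorem finiteDimensional_kummerLevel [FiniteDimensional K F₀] (hp : 0 < p) (Y : Finset F₀ˣ) :
    FiniteDimensional K (kummerLevel F₀ p Y) := by
  haveI : Finite (rootSet F₀ p Y) := (finite_rootSet F₀ hp Y).to_subtype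
  haveI : Algebra.IsAlgebraic K Ω := inferInstance
  haveI : FiniteDimensional K (IntermediateField.adjoin K (rootSet F₀ p Y)) :=
    IntermediateField.finiteDimensional_adjoin fun x _ =>
      (Algebra.IsAlgebraic.isAlgebraic x).isIntegral
  exact IntermediateField.finiteDimensional_sup _ _

/-- Two elements of `Gal(Ω/F₀)` which agree on `L` have the same value under a function `χ` which is
additive on `Gal(Ω/F₀)` and kills `Gal(Ω/L)`. -/
theorem chi_eq_of_agree {χ : (Ω ≃ₐ[K] Ω) → ZMod p} (L : IntermediateField K Ω)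
    (hadd : ∀ s ∈ F₀.fixingSubgroup, ∀ t ∈ F₀.fixingSubgroup, χ (s * t) = χ s + χ t)
    (hL0 : ∀ s ∈ L.fixingSubgroup, s ∈ F₀.fixingSubgroup → χ s = 0)
    {a b : Ω ≃ₐ[K] Ω} (ha : a ∈ F₀.fixingSubgroup) (hb : b ∈ F₀.fixingSubgroup)
    (hab : ∀ x ∈ L, a x = b x) : χ a = χ b := by
  have hu : a⁻¹ * b ∈ L.fixingSubgroup := by
    rw [IntermediateField.mem_fixingSubgroup_iff]
    intro x hx
    rw [AlgEquiv.mul_apply, ← hab x hx, ← AlgEquiv.mul_apply, inv_mul_cancel, AlgEquiv.one_apply]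
  have hu0 : a⁻¹ * b ∈ F₀.fixingSubgroup := mul_mem (inv_mem ha) hb
  have : b = a * (a⁻¹ * b) := by group
  rw [this, hadd a ha _ hu0, hL0 _ hu hu0, add_zero]

end Main

section Core

variable {p : ℕ} (hp : p.Prime) (F₀ : IntermediateField K Ω) [FiniteDimensional K F₀]

include hp in
/-- **Core of the finiteness of `H¹`.** -/
theorem chi_eq_zero_of_mem_fixingSubgroup {ζ : Ω} (hζ : IsPrimitiveRoot ζ p) (hζF : ζ ∈ F₀)
    (Y : Finset F₀ˣ) (hY : ∀ x : F₀ˣ, ∃ y ∈ Y, ∃ g : F₀ˣ, x = y * g ^ p)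
    (L : IntermediateField K Ω) [FiniteDimensional K L] [IsGalois K L] (hle : F₀ ≤ L)
    (χ : (Ω ≃ₐ[K] Ω) → ZMod p)
    (hadd : ∀ s ∈ F₀.fixingSubgroup, ∀ t ∈ F₀.fixingSubgroup, χ (s * t) = χ s + χ t)
    (hL0 : ∀ s ∈ L.fixingSubgroup, s ∈ F₀.fixingSubgroup → χ s = 0)
    (s : Ω ≃ₐ[K] Ω) (hs : s ∈ (kummerLevel F₀ p Y).fixingSubgroup) : χ s = 0 := by
  classical
  haveI : Fact p.Prime := ⟨hp⟩
  letI : Algebra F₀ L := (IntermediateField.inclusion hle).toRingHom.toAlgebra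
  haveI : IsScalarTower K F₀ L := IsScalarTower.of_algebraMap_eq (fun x => rfl)
  haveI : IsScalarTower F₀ L Ω := IsScalarTower.of_algebraMap_eq (fun x => rfl)
  haveI : FiniteDimensional F₀ L := Module.Finite.of_restrictScalars_finite K F₀ L
  haveI : IsGalois F₀ L := IsGalois.tower_top_of_isGalois K F₀ L
  haveI : Normal F₀ Ω := Normal.tower_top_of_normal K F₀ Ω
  have hsF₀ : s ∈ F₀.fixingSubgroup :=
    IntermediateField.fixingSubgroup_antitone (le_kummerLevel F₀ Y) hs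
  -- lifts of elements of `Gal(L/F₀)` to `Γ`
  let lift : (L ≃ₐ[F₀] L) → (Ω ≃ₐ[K] Ω) := fun σ => (σ.liftNormal Ω).restrictScalars K
  have hlift_apply : ∀ (σ : L ≃ₐ[F₀] L) (x : L), lift σ (x : Ω) = ((σ x : L) : Ω) :=
    fun σ x => AlgEquiv.liftNormal_commutes σ Ω x
  have hlift_mem : ∀ σ : L ≃ₐ[F₀] L, lift σ ∈ F₀.fixingSubgroup := by
    intro σ
    rw [IntermediateField.mem_fixingSubgroup_iff]
    intro x hx
    exact (σ.liftNormal Ω).commutes ⟨x, hx⟩
  -- `χ ∘ lift` is additive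
  have hχmul : ∀ σ τ : L ≃ₐ[F₀] L, χ (lift (σ * τ)) = χ (lift σ) + χ (lift τ) := by
    intro σ τ
    rw [← hadd _ (hlift_mem σ) _ (hlift_mem τ)]
    refine chi_eq_of_agree F₀ L hadd hL0 (hlift_mem _) (mul_mem (hlift_mem σ) (hlift_mem τ)) ?_
    intro x hx
    rw [AlgEquiv.mul_apply, hlift_apply (σ * τ) ⟨x, hx⟩, hlift_apply τ ⟨x, hx⟩, hlift_apply σ]
    rfl
  -- the root of unity in `L`
  have hζ0 : ζ ≠ 0 := hζ.ne_zero hp.ne_zero
  let ζ₀ : F₀ := ⟨ζ, hζF⟩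
  let ζL : Lˣ := Units.mk0 (algebraMap F₀ L ζ₀) (by
    rw [Ne, map_eq_zero]
    intro h
    exact hζ0 (congrArg Subtype.val h))
  have hζLcoe : (((ζL : Lˣ) : L) : Ω) = ζ := rfl
  have hζLpow : ζL ^ p = 1 := by
    apply Units.ext
    apply Subtype.ext
    rw [Units.val_pow_eq_pow_val, Units.val_one]
    show (((ζL : Lˣ) : L) : Ω) ^ p = 1
    rw [hζLcoe, hζ.pow_eq_one]
  have hζLprim : ∀ k : ℕ, ζL ^ k = 1 → p ∣ k := by
    intro k hk
    apply (hζ.pow_eq_one_iff_dvd k).mp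
    have := congrArg (fun u : Lˣ => (((u : Lˣ) : L) : Ω)) hk
    simpa [hζLcoe] using this
  have hfix : ∀ σ : L ≃ₐ[F₀] L, ∀ k : ℕ,
      Units.map (σ : L →* L) (ζL ^ k) = ζL ^ k := by
    intro σ k
    apply Units.ext
    rw [Units.coe_map, MonoidHom.coe_coe, Units.val_pow_eq_pow_val, map_pow]
    congr 1
    exact σ.commutes ζ₀
  -- the cocycle
  let f : (L ≃ₐ[F₀] L) → Lˣ := fun σ => ζL ^ (χ (lift σ)).val
  have hf : @groupCohomology.IsMulCocycle₁ (L ≃ₐ[F₀] L) Lˣ _ _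
      (AlgEquiv.instMulDistribMulActionUnits (R := F₀) (A₁ := L)).toMulAction.toSMul f := by
    intro σ τ
    show ζL ^ (χ (lift (σ * τ))).val =
      Units.map (σ : L →* L) (ζL ^ (χ (lift τ)).val) * ζL ^ (χ (lift σ)).val
    rw [hfix, hχmul, ZMod.val_add, ← pow_add, add_comm (χ (lift τ)).val]
    exact (pow_eq_pow_mod _ hζLpow).symm
  obtain ⟨β, hβ⟩ := groupCohomology.isMulCoboundary₁_of_isMulCocycle₁_of_aut_to_units f hf
  have hβ' : ∀ σ : L ≃ₐ[F₀] L, σ (β : L) = ((f σ : Lˣ) : L) * (β : L) := by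
    intro σ
    have h := hβ σ
    rw [div_eq_iff_eq_mul] at h
    have h2 := congrArg (fun u : Lˣ => (u : L)) h
    simpa using h2
  -- `β ^ p` is fixed by `Gal(L/F₀)`, hence lies in `F₀`
  have hfpow : ∀ σ : L ≃ₐ[F₀] L, ((f σ : Lˣ) : L) ^ p = 1 := by
    intro σ
    show ((ζL ^ (χ (lift σ)).val : Lˣ) : L) ^ p = 1
    rw [← Units.val_pow_eq_pow_val, ← pow_mul, mul_comm, pow_mul, hζLpow, one_pow, Units.val_one]
  have hβp : ∀ σ : L ≃ₐ[F₀] L, σ ((β : L) ^ p) = (β : L) ^ p := by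
    intro σ
    rw [map_pow, hβ', mul_pow, hfpow, one_mul]
  obtain ⟨α₀, hα₀⟩ := (IsGalois.mem_range_algebraMap_iff_fixed ((β : L) ^ p)).mpr hβp
  have hα₀0 : α₀ ≠ 0 := by
    rintro rfl
    rw [map_zero] at hα₀
    exact pow_ne_zero p β.ne_zero hα₀.symm
  have hα₀coe : (((β : L) : Ω)) ^ p = (α₀ : Ω) := by
    have h := congrArg (fun x : L => (x : Ω)) hα₀
    have h2 : ((algebraMap F₀ L α₀ : L) : Ω) = (α₀ : Ω) := rfl
    rw [← h2, h]
    simp
  let α : F₀ˣ := Units.mk0 α₀ hα₀0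
  obtain ⟨y, hyY, g, hg⟩ := hY α
  have hg' : (α₀ : Ω) = ((y : F₀) : Ω) * ((g : F₀) : Ω) ^ p := by
    have := congrArg (fun u : F₀ˣ => (((u : F₀ˣ) : F₀) : Ω)) hg
    simpa [α] using this
  have hg0 : ((g : F₀) : Ω) ≠ 0 := by
    intro h
    exact g.ne_zero (Subtype.ext h)
  let β' : Ω := ((β : L) : Ω) / ((g : F₀) : Ω)
  have hβ'p : β' ^ p = ((y : F₀) : Ω) := by
    show (((β : L) : Ω) / ((g : F₀) : Ω)) ^ p = _
    rw [div_pow, hα₀coe, hg']
    field_simp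
  have hβ'mem : β' ∈ kummerLevel F₀ p Y :=
    (le_sup_right : IntermediateField.adjoin K (rootSet F₀ p Y) ≤ kummerLevel F₀ p Y)
      (IntermediateField.subset_adjoin K _ ⟨y, hyY, hβ'p⟩)
  have hsβ' : s β' = β' := (IntermediateField.mem_fixingSubgroup_iff _ s).mp hs β' hβ'mem
  have hsg : s ((g : F₀) : Ω) = ((g : F₀) : Ω) :=
    (IntermediateField.mem_fixingSubgroup_iff _ s).mp hsF₀ _ (g : F₀).2
  have hsβ : s ((β : L) : Ω) = ((β : L) : Ω) := by
    have : ((β : L) : Ω) = β' * ((g : F₀) : Ω) := by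
      show _ = ((β : L) : Ω) / ((g : F₀) : Ω) * _
      field_simp
    rw [this, map_mul, hsβ', hsg]
  -- the restriction of `s` to `L`
  haveI : Normal F₀ L := Normal.tower_top_of_normal K F₀ L
  let s' : Ω ≃ₐ[F₀] Ω := IntermediateField.fixingSubgroupEquiv F₀ ⟨s, hsF₀⟩
  let σs : L ≃ₐ[F₀] L := AlgEquiv.restrictNormalHom L s'
  have hσs : ∀ x : L, ((σs x : L) : Ω) = s x := fun x =>
    AlgEquiv.restrictNormal_commutes s' L x
  have hσβ : σs (β : L) = β := Subtype.ext (by rw [hσs, hsβ])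
  have hf1 : ((f σs : Lˣ) : L) = 1 := by
    have h := hβ' σs
    rw [hσβ] at h
    exact (mul_right_cancel₀ β.ne_zero (by rw [one_mul]; exact h)).symm
  have hval : (χ (lift σs)).val = 0 := by
    have h1 : ζL ^ (χ (lift σs)).val = 1 := Units.ext hf1
    exact Nat.eq_zero_of_dvd_of_lt (hζLprim _ h1) (ZMod.val_lt _)
  have hχ0 : χ (lift σs) = 0 := (ZMod.val_eq_zero _).mp hval
  rw [← hχ0]
  refine chi_eq_of_agree F₀ L hadd hL0 hsF₀ (hlift_mem σs) fun x hx => ?_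
  rw [hlift_apply σs ⟨x, hx⟩, hσs]

/-- Every finite subextension of `Ω/K` lies in a finite Galois one. -/
theorem exists_isGalois_ge (E : IntermediateField K Ω) [FiniteDimensional K E] :
    ∃ L : IntermediateField K Ω, E ≤ L ∧ FiniteDimensional K L ∧ IsGalois K L := by
  refine ⟨IntermediateField.normalClosure K E Ω, E.le_normalClosure, inferInstance, ?_⟩
  haveI : Normal K (IntermediateField.normalClosure K E Ω) := inferInstance
  haveI : Algebra.IsSeparable K (IntermediateField.normalClosure K E Ω) :=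
    Algebra.IsAlgebraic.isSeparable_of_perfectField
  exact ⟨⟩

include hp in
/-- **Main lemma.** -/
theorem exists_field_forall_hom {ζ : Ω} (hζ : IsPrimitiveRoot ζ p) (hζF : ζ ∈ F₀)
    (Y : Finset F₀ˣ) (hY : ∀ x : F₀ˣ, ∃ y ∈ Y, ∃ g : F₀ˣ, x = y * g ^ p) :
    ∃ F₁ : IntermediateField K Ω, F₀ ≤ F₁ ∧ FiniteDimensional K F₁ ∧
      ∀ χ : (Ω ≃ₐ[K] Ω) → ZMod p,
        (∀ s ∈ F₀.fixingSubgroup, ∀ t ∈ F₀.fixingSubgroup, χ (s * t) = χ s + χ t) →
        (∃ E : IntermediateField K Ω, FiniteDimensional K E ∧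
          ∀ s ∈ E.fixingSubgroup, s ∈ F₀.fixingSubgroup → χ s = 0) →
        ∀ s ∈ F₁.fixingSubgroup, χ s = 0 := by
  refine ⟨kummerLevel F₀ p Y, le_kummerLevel F₀ Y, finiteDimensional_kummerLevel F₀ hp.pos Y,
    fun χ hadd ⟨E, hE, hE0⟩ s hs => ?_⟩
  haveI := hE
  haveI : FiniteDimensional K (E ⊔ F₀ : IntermediateField K Ω) :=
    IntermediateField.finiteDimensional_sup _ _
  obtain ⟨L, hEL, hLfin, hLgal⟩ := exists_isGalois_ge (E ⊔ F₀ : IntermediateField K Ω)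
  haveI := hLfin
  haveI := hLgal
  exact chi_eq_zero_of_mem_fixingSubgroup hp F₀ hζ hζF Y hY L (le_sup_right.trans hEL) χ hadd
    (fun t ht ht0 => hE0 t (IntermediateField.fixingSubgroup_antitone (le_sup_left.trans hEL) ht)
      ht0) s hs

end Core

end Fermat.Agent.W56.KummerGen1
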