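/-
Programme W56 (S56), local finiteness, helper1.

`PthRoot1`: `p`-th roots of principal units by successive approximation in a `π`-adically
separated and complete ring (`LOC/UnitFiltration10.PiAdic`).  If `(p : B) = π^s * w` with `w` a
unit and `c ≥ 2 s + 1`, every `1 + π^c b` is a `p`-th power.
-/
import Mathlib
import Fermat.Agent.PT.LOC.UnitFiltration10

set_option autoImplicit false
set_option linter.unusedSectionVars false

namespace Fermat.Agent.W56.PthRoot1

open Fermat.Agent.PT.LOC.UnitFiltration10 Polynomial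

variable {B : Type*} [CommRing B] {π : B}

/-- Second-order binomial expansion of `(v + y)^p`. -/
theorem exists_add_pow_eq (p : ℕ) (v y : B) :
    ∃ K : B, (v + y) ^ p = v ^ p + (p : B) * v ^ (p - 1) * y + K * y ^ 2 := by
  obtain ⟨K, hK⟩ := Polynomial.binomExpansion (X ^ p : B[X]) v y
  refine ⟨K, ?_⟩
  simpa [Polynomial.derivative_X_pow] using hK

variable (h : PiAdic B π)
include h

/-- One step of the approximation. -/
theorem step (p s : ℕ) (w : B) (hw : IsUnit w) (hp : (p : B) = π ^ s * w) (u : B)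
    (m : ℕ) (hm : 2 * s + 1 ≤ m) (v r : B) (hv : v ^ p = u + π ^ m * r) (hv1 : π ∣ v - 1) :
    ∃ v' r' : B, v' ^ p = u + π ^ (m + 1) * r' ∧ π ∣ v' - 1 ∧ π ^ (m - s) ∣ v' - v := by
  -- `v` is a unit
  obtain ⟨t, ht⟩ := hv1
  have hvu : IsUnit v := by
    have : v = 1 + π * t := by rw [← ht]; ring
    rw [this]
    exact h.isUnit_one_add t
  have hu2 : IsUnit (w * v ^ (p - 1)) := hw.mul (hvu.pow _)
  obtain ⟨e, he⟩ := hu2.exists_right_inv
  set z : B := -(r * e) with hz
  obtain ⟨K, hK⟩ := exists_add_pow_eq p v (π ^ (m - s) * z)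
  have hms : m - s + s = m := Nat.sub_add_cancel (by omega)
  have h2 : 2 * (m - s) = (m + 1) + (m - 2 * s - 1) := by omega
  refine ⟨v + π ^ (m - s) * z, K * z ^ 2 * π ^ (m - 2 * s - 1), ?_, ?_, ⟨z, by ring⟩⟩
  · rw [hK, hv, hp]
    have e1 : π ^ s * w * v ^ (p - 1) * (π ^ (m - s) * z) = π ^ m * (w * v ^ (p - 1) * z) := by
      have e0 : π ^ m = π ^ (m - s) * π ^ s := by rw [← pow_add, hms]
      rw [e0]
      ring
    have e2 : w * v ^ (p - 1) * z = -r := by
      rw [hz, mul_neg, ← mul_assoc, mul_comm (w * v ^ (p - 1)) r, mul_assoc, he, mul_one]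
    have e3 : (π ^ (m - s) * z) ^ 2 = π ^ (m + 1) * (z ^ 2 * π ^ (m - 2 * s - 1)) := by
      rw [mul_pow, ← pow_mul, mul_comm (m - s) 2, h2, pow_add]
      ring
    rw [e1, e2, e3]
    ring
  · have h1 : 1 ≤ m - s := by omega
    obtain ⟨j, hj⟩ : ∃ j, m - s = j + 1 := ⟨m - s - 1, by omega⟩
    refine ⟨t + π ^ j * z, ?_⟩
    rw [hj, pow_succ]
    have : v - 1 = π * t := ht
    linear_combination this

/-- **`p`-th roots of principal units.** -/
theorem exists_pow_eq (p s : ℕ) (w : B) (hw : IsUnit w) (hp : (p : B) = π ^ s * w)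
    (c : ℕ) (hc : 2 * s + 1 ≤ c) (b : B) : ∃ v : B, v ^ p = 1 + π ^ c * b ∧ π ∣ v - 1 := by
  set u : B := 1 + π ^ c * b with hu
  -- the approximating sequence, as a sequence in a subtype
  let T (n : ℕ) : Type _ := {v : B // (∃ r, v ^ p = u + π ^ (c + n) * r) ∧ π ∣ v - 1}
  have hstep : ∀ n (x : T n), ∃ y : T (n + 1), π ^ (c + n - s) ∣ y.1 - x.1 := by
    rintro n ⟨v, ⟨r, hr⟩, hv1⟩
    obtain ⟨v', r', h1, h2, h3⟩ := step h p s w hw hp u (c + n) (by omega) v r hr hv1
    exact ⟨⟨v', ⟨r', h1⟩, h2⟩, h3⟩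
  choose nxt hnxt using hstep
  let x0 : T 0 := ⟨1, ⟨-b, by rw [hu]; ring⟩, by simp⟩
  let sq : ∀ n, T n := fun n => Nat.rec x0 (fun n x => nxt n x) n
  have hsq : ∀ n, sq (n + 1) = nxt n (sq n) := fun n => rfl
  let f : ℕ → B := fun n => (sq n).1
  have hf : ∀ k, π ^ k ∣ f (k + 1) - f k := by
    intro k
    have h1 : π ^ (c + k - s) ∣ f (k + 1) - f k := by
      show π ^ (c + k - s) ∣ (sq (k + 1)).1 - (sq k).1
      rw [hsq]
      exact hnxt k (sq k)
    exact (pow_dvd_pow π (by omega)).trans h1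
  obtain ⟨L, hL⟩ := h.complete f hf
  refine ⟨L, ?_, ?_⟩
  · rw [← sub_eq_zero]
    apply h.sep
    intro k
    obtain ⟨r, hr⟩ := (sq k).2.1
    have h1 : L ^ p - u = (L ^ p - f k ^ p) + π ^ (c + k) * r := by
      show L ^ p - u = (L ^ p - (sq k).1 ^ p) + π ^ (c + k) * r
      rw [hr]; ring
    rw [h1]
    refine dvd_add ((hL k).trans (sub_dvd_pow_sub_pow L (f k) p)) ?_
    exact Dvd.dvd.mul_right (pow_dvd_pow π (by omega)) r
  · have h0 := hL 1
    rw [pow_one] at h0
    have h2 : π ∣ f 1 - 1 := (sq 1).2.2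
    have : L - 1 = (L - f 1) + (f 1 - 1) := by ring
    rw [this]
    exact dvd_add h0 h2

end Fermat.Agent.W56.PthRoot1
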