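/-
Programme W56 (S56), local finiteness, helper1.

`UnitsModP1`: for a finite extension `E` of `ℚ_q` (abstract `LOC` model) and a prime `p`, the group
`Eˣ / (Eˣ)^p` is finite, in the form of a finite set of representatives.
-/
import Mathlib
import Fermat.Agent.PT.LOC.UnitsCoh10
import Fermat.Agent.W56.PthRoot1

set_option autoImplicit false
set_option linter.unusedSectionVars false

open scoped Fermat.Agent.PT.LOC.Interface12
open Fermat.Agent.PT.LOC.Interface12 Fermat.Agent.PT.LOC.Structure14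
  Fermat.Agent.PT.LOC.UnitFiltration10 Fermat.Agent.PT.LOC.IntRingCyclic10
  Fermat.Agent.PT.LOC.UnitsCoh10

namespace Fermat.Agent.W56.UnitsModP1

noncomputable section

variable (q : ℕ) [Fact q.Prime] (E : Type) [Field E] [Algebra ℚ_[q] E]
  [FiniteDimensional ℚ_[q] E] (p : ℕ) [Fact p.Prime]

/-- `p = q^s * w` in the ring of integers, with `w` a unit and `s ≤ 1`. -/
theorem exists_natCast_eq : ∃ (s : ℕ) (w : intRing q E), s ≤ 1 ∧ IsUnit w ∧
    ((p : ℕ) : intRing q E) = ((q : ℕ) : intRing q E) ^ s * w := by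
  by_cases hpq : p = q
  · refine ⟨1, 1, le_refl _, isUnit_one, ?_⟩
    rw [hpq, pow_one, mul_one]
  · refine ⟨0, ((p : ℕ) : intRing q E), Nat.zero_le _, ?_, by rw [pow_zero, one_mul]⟩
    have h1 : IsUnit ((p : ℕ) : ℤ_[q]) := by
      rw [PadicInt.isUnit_iff]
      have hcop : Nat.Coprime p q :=
        (Nat.coprime_primes (Fact.out : p.Prime) (Fact.out : q.Prime)).2 hpq
      exact PadicInt.norm_natCast_eq_one_iff.2 hcop.symm
    have h2 := h1.map (algebraMap ℤ_[q] (intRing q E))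
    rwa [map_natCast] at h2

/-- principal units of level `≥ 3` are `p`-th powers -/
theorem mem_range_pow (u : (intRing q E)ˣ)
    (hu : ((q : ℕ) : intRing q E) ^ 3 ∣ (u : intRing q E) - 1) :
    u ∈ (powMonoidHom p : (intRing q E)ˣ →* (intRing q E)ˣ).range := by
  obtain ⟨s, w, hs, hw, hp⟩ := exists_natCast_eq q E p
  obtain ⟨b, hb⟩ := hu
  obtain ⟨v, hv, -⟩ := Fermat.Agent.W56.PthRoot1.exists_pow_eq (piAdic q E) p s w hw hp 3
    (by omega) b
  have hu' : (u : intRing q E) = 1 + ((q : ℕ) : intRing q E) ^ 3 * b := by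
    rw [← hb]; ring
  have hvu : IsUnit v := by
    have : IsUnit (v ^ p) := by rw [hv, ← hu']; exact u.isUnit
    exact (isUnit_pow_iff (Fact.out : p.Prime).ne_zero).1 this
  refine ⟨hvu.unit, ?_⟩
  apply Units.ext
  rw [powMonoidHom_apply, Units.val_pow_eq_pow_val, IsUnit.unit_spec, hv, hu']

theorem finiteIndex_range_pow :
    (powMonoidHom p : (intRing q E)ˣ →* (intRing q E)ˣ).range.FiniteIndex :=
  finiteIndex_of_principal (E' := E) q _ 3 (mem_range_pow q E p)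

include q in
/-- **`Eˣ / (Eˣ)^p` is finite.** -/
theorem exists_finset_reps :
    ∃ Y : Finset Eˣ, ∀ x : Eˣ, ∃ y ∈ Y, ∃ g : Eˣ, x = y * g ^ p := by
  classical
  have hp0 : p ≠ 0 := (Fact.out : p.Prime).ne_zero
  set V : Subgroup (intRing q E)ˣ := (powMonoidHom p : (intRing q E)ˣ →* (intRing q E)ˣ).range
    with hV
  have hfi : V.FiniteIndex := finiteIndex_range_pow q E p
  have : Finite ((intRing q E)ˣ ⧸ V) := Subgroup.finite_quotient_of_finiteIndex
  have : Fintype ((intRing q E)ˣ ⧸ V) := Fintype.ofFinite _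
  obtain ⟨ϖ, hϖ⟩ := exists_isUniformizer q E
  have hordϖ : ord q E ϖ = 1 := (isUniformizer_iff_ord q E ϖ).1 hϖ
  refine ⟨(Finset.univ : Finset (Fin p × ((intRing q E)ˣ ⧸ V))).image
    (fun rc => ϖ ^ (rc.1 : ℕ) * unitsIncl q E rc.2.out), fun x => ?_⟩
  set n : ℤ := ord q E x with hn
  have hpz : (0 : ℤ) < p := by exact_mod_cast Nat.pos_of_ne_zero hp0
  set r : ℤ := n % p with hr
  set a : ℤ := n / p with ha
  have hr0 : 0 ≤ r := Int.emod_nonneg _ hpz.ne'
  have hrp : r < p := Int.emod_lt_of_pos _ hpz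
  have hna : n = p * a + r := (Int.mul_ediv_add_emod n p).symm
  obtain ⟨y0, hy0⟩ := exists_unitsIncl_eq q E _ (mul_zpow_neg_ord_mem_unitGroup q E ϖ hϖ x)
  obtain ⟨⟨h, hhV⟩, hh⟩ := QuotientGroup.mk_out_eq_mul V y0
  obtain ⟨w, hw⟩ := hhV
  rw [powMonoidHom_apply] at hw
  have hrt : r.toNat < p := by
    have : (r.toNat : ℤ) < p := by rw [Int.toNat_of_nonneg hr0]; exact hrp
    exact_mod_cast this
  refine ⟨_, Finset.mem_image.2 ⟨(⟨r.toNat, hrt⟩, (QuotientGroup.mk y0 : (intRing q E)ˣ ⧸ V)),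
    Finset.mem_univ _, rfl⟩, ϖ ^ a * (unitsIncl q E w)⁻¹, ?_⟩
  have h1 : x = unitsIncl q E y0 * ϖ ^ n := by
    rw [hy0, mul_assoc, ← zpow_add, ← hn, neg_add_cancel, zpow_zero, mul_one]
  have h2 : unitsIncl q E (QuotientGroup.mk y0 : (intRing q E)ˣ ⧸ V).out
      = unitsIncl q E y0 * (unitsIncl q E w) ^ p := by
    rw [hh, map_mul]
    congr 1
    show unitsIncl q E h = _
    rw [← hw, map_pow]
  have h3 : (ϖ ^ (r.toNat : ℕ) : Eˣ) = ϖ ^ r := by
    rw [← zpow_natCast, Int.toNat_of_nonneg hr0]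
  show x = ϖ ^ (r.toNat : ℕ) * unitsIncl q E (QuotientGroup.mk y0 : (intRing q E)ˣ ⧸ V).out
    * (ϖ ^ a * (unitsIncl q E w)⁻¹) ^ p
  rw [h1, h2, h3, hna, mul_pow, inv_pow, zpow_add, ← zpow_natCast (ϖ ^ a), ← zpow_mul,
    mul_comm a (p : ℤ)]
  have hc : ∀ (A B C D : Eˣ), A * (B * C) = C * (A * D) * (B * D⁻¹) := by
    intro A B C D
    rw [mul_comm C, mul_assoc (A * D), mul_comm C, ← mul_assoc (A * D), mul_assoc A D,
      ← mul_assoc D B, mul_comm D B, mul_assoc B D, mul_inv_cancel, mul_one, mul_assoc]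
  exact hc _ _ _ _

end

end Fermat.Agent.W56.UnitsModP1
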