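/-
Programme W56 (S56), local finiteness, helper1.

`LocFin1`: **finiteness of the local level `H¹`**.  For a finite abelian group `A` killed by a
prime `p` with a discrete action `ρ` of `Γ_q = Gal(ℚ̄_q/ℚ_q)` (discrete for `levelLoc q`), the set
of level 1-cocycles `Γ_q → A` is finite, hence so is `Resolved4.Hlev1 _ ρ _`.

Inputs: `KummerGen1` (Kummer theory over an arbitrary field of characteristic zero),
`UnitsModP1` (`Eˣ/(Eˣ)^p` is finite for a `q`-adic field `E`), the dictionary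
`GLUE/LocalSide11.exists_eq_fixingSubgroup_of_mem_levelLoc`, and `PRO/UnitsLocDiv9.zetaLoc`.
-/
import Mathlib
import Fermat.Agent.PT.GLUE.LocalSide11
import Fermat.Agent.PT.PRO.UnitsLocDiv9
import Fermat.Agent.PT.PRO.Resolved4
import Fermat.Agent.W56.KummerGen1
import Fermat.Agent.W56.UnitsModP1

set_option autoImplicit false
set_option linter.unusedSectionVars false
set_option linter.style.haveILetI false

namespace Fermat.Agent.W56.LocFin1

open Function
open Fermat.Agent.PT.PRO Fermat.Agent.PT.PRO.HyperLevel25 Fermat.Agent.PT.GLUE.Objects21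
open Fermat.Agent.W56.KummerGen1

/-! ### Functions constant on the cosets of a subgroup of finite index -/

section Level

variable {G X : Type*} [Group G]

theorem finite_setOf_coset_const (H : Subgroup G) [H.FiniteIndex] [Finite X] :
    {f : G → X | ∀ g, ∀ s ∈ H, f (g * s) = f g}.Finite := by
  haveI : Finite (G ⧸ H) := Subgroup.finite_quotient_of_finiteIndex
  refine Set.Finite.subset
    (Set.finite_range (fun fbar : (G ⧸ H) → X => fun g : G => fbar (QuotientGroup.mk g))) ?_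
  intro f hf
  refine ⟨fun q => f q.out, ?_⟩
  funext g
  obtain ⟨h, hh⟩ := QuotientGroup.mk_out_eq_mul H g
  show f (QuotientGroup.mk g : G ⧸ H).out = f g
  rw [hh, hf g h h.2]

end Level

/-! ### The generic cohomological form -/

section Generic

variable {K Ω : Type*} [Field K] [Field Ω] [Algebra K Ω] [CharZero K] [IsGalois K Ω]
variable {p : ℕ} [hp : Fact p.Prime] {k : Type*} [CommRing k] {A : Type*} [AddCommGroup A]
  [Module k A] (ρ : Representation k (Ω ≃ₐ[K] Ω) A) (hpA : ∀ a : A, p • a = 0)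

/-- linear forms separate the points of an `𝔽_p`-vector space -/
theorem eq_zero_of_forall_hom_aux {B : Type*} [AddCommGroup B] [Module (ZMod p) B] (a : B)
    (h : ∀ lam : B →+ ZMod p, lam a = 0) : a = 0 :=
  (Module.forall_dual_apply_eq_zero_iff (ZMod p) a).1 fun lam => h lam.toAddMonoidHom

include hpA in
/-- additive characters `A → ℤ/p` separate the points of a group killed by `p` -/
theorem eq_zero_of_forall_hom (a : A) (h : ∀ lam : A →+ ZMod p, lam a = 0) : a = 0 := by
  letI : Module (ZMod p) A := AddCommGroup.zmodModule hpA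
  exact eq_zero_of_forall_hom_aux a h

include hpA in
/-- **Every level cocycle has level `F₁`.** -/
theorem exists_field_forall_cocycle (F₀ : IntermediateField K Ω) [FiniteDimensional K F₀]
    {ζ : Ω} (hζ : IsPrimitiveRoot ζ p) (hζF : ζ ∈ F₀)
    (Y : Finset F₀ˣ) (hY : ∀ x : F₀ˣ, ∃ y ∈ Y, ∃ g : F₀ˣ, x = y * g ^ p)
    (htriv : ∀ s ∈ F₀.fixingSubgroup, ∀ a : A, ρ s a = a) :
    ∃ F₁ : IntermediateField K Ω, F₀ ≤ F₁ ∧ FiniteDimensional K F₁ ∧
      ∀ c : (Ω ≃ₐ[K] Ω) → A, dOne ρ c = 0 →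
        (∃ E : IntermediateField K Ω, FiniteDimensional K E ∧
          ∀ g, ∀ s ∈ E.fixingSubgroup, c (g * s) = c g) →
        ∀ g, ∀ s ∈ F₁.fixingSubgroup, c (g * s) = c g := by
  obtain ⟨F₁, h01, hfin, hF₁⟩ := exists_field_forall_hom hp.out F₀ hζ hζF Y hY
  refine ⟨F₁, h01, hfin, fun c hc ⟨E, hE, hcE⟩ g s hs => ?_⟩
  have hcoc : ∀ g h, c (g * h) = ρ g (c h) + c g := by
    intro g h
    have h1 := congrFun hc (g, h)
    rw [dOne_apply, Pi.zero_apply] at h1
    rw [sub_add_eq_add_sub, sub_eq_zero] at h1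
    exact h1.symm
  have hc1 : c 1 = 0 := by
    have := hcoc 1 1
    rw [mul_one, map_one, Module.End.one_apply] at this
    exact left_eq_add.mp this |> fun h => h
  have hcs : c s = 0 := by
    apply eq_zero_of_forall_hom hpA
    intro lam
    refine hF₁ (fun g => lam (c g)) ?_ ⟨E, hE, ?_⟩ s hs
    · intro s hs t _
      show lam (c (s * t)) = lam (c s) + lam (c t)
      rw [hcoc s t, htriv s hs, map_add, add_comm]
    · intro t ht _
      show lam (c t) = 0
      have := hcE 1 t ht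
      rw [one_mul, hc1] at this
      rw [this, map_zero]
  rw [hcoc g s, hcs, map_zero, zero_add]

end Generic

/-! ### The local case -/

section Local

variable (q : ℕ) [Fact q.Prime]

local notation "Ω" => PadicAlgCl q
local notation "Γq" => (PadicAlgCl q ≃ₐ[ℚ_[q]] PadicAlgCl q)

local instance isAlgClosurePadicW1 : IsAlgClosure ℚ_[q] Ω := ⟨inferInstance, inferInstance⟩
local instance isGaloisPadicW1 : IsGalois ℚ_[q] Ω := IsAlgClosure.isGalois ℚ_[q] Ω

/-- The fixing subgroup of a finite extension of `ℚ_q` has finite index in `Γ_q`. -/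
theorem finiteIndex_fixingSubgroup (F : IntermediateField ℚ_[q] Ω) [FiniteDimensional ℚ_[q] F] :
    F.fixingSubgroup.FiniteIndex := by
  refine ⟨?_⟩
  rw [← IntermediateField.finrank_eq_fixingSubgroup_index]
  exact (Module.finrank_pos (R := ℚ_[q]) (M := F)).ne'

variable {k : Type*} [CommRing k] {A : Type*} [AddCommGroup A] [Module k A] [Finite A]
  (ρ : Representation k (PadicAlgCl q ≃ₐ[ℚ_[q]] PadicAlgCl q) A)
  (h𝒰 : IsLevelBasis (levelLoc q).sets)
  (hρ : IsDiscrete (levelLoc q).sets ρ) (p : ℕ) [hp : Fact p.Prime] (hpA : ∀ a : A, p • a = 0)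

include h𝒰 hρ in
/-- A finite discrete module is trivialised by a finite extension. -/
theorem exists_field_triv :
    ∃ E : IntermediateField ℚ_[q] Ω, FiniteDimensional ℚ_[q] E ∧
      ∀ s ∈ E.fixingSubgroup, ∀ a : A, ρ s a = a := by
  have hρ' : ∀ y : A, ∃ U ∈ (levelLoc q).sets, ∀ s ∈ U, ρ s y = y := hρ
  choose V hV hVa using hρ'
  obtain ⟨W, hW, hWle⟩ := h𝒰.exists_le_of_finite V hV
  obtain ⟨E, hE, rfl⟩ := Fermat.Agent.PT.GLUE.LocalSide11.exists_eq_fixingSubgroup_of_mem_levelLoc q hW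
  exact ⟨E, hE, fun s hs a => hVa a s (hWle a hs)⟩

include hpA in
/-- **The level 1-cocycles of `ρ` form a finite set.** -/
theorem finite_Z1_local : Finite (Resolved4.lvl h𝒰 ρ hρ).Z1 := by
  classical
  obtain ⟨E, hE, hEtriv⟩ := exists_field_triv q ρ h𝒰 hρ
  haveI := hE
  -- the field `F₀ = E(ζ_p)`
  set ζ : Ω := ((Fermat.Agent.PT.PRO.UnitsLocDiv9.zetaLoc q p : Ωˣ) : Ω) with hζdef
  have hζ : IsPrimitiveRoot ζ p :=
    IsPrimitiveRoot.coe_units_iff.2 (Fermat.Agent.PT.PRO.UnitsLocDiv9.zetaLoc_spec q p)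
  set F₀ : IntermediateField ℚ_[q] Ω := E ⊔ IntermediateField.adjoin ℚ_[q] {ζ} with hF₀
  haveI : FiniteDimensional ℚ_[q] (IntermediateField.adjoin ℚ_[q] ({ζ} : Set Ω)) :=
    IntermediateField.adjoin.finiteDimensional (Algebra.IsIntegral.isIntegral ζ)
  haveI : FiniteDimensional ℚ_[q] F₀ := IntermediateField.finiteDimensional_sup _ _
  have hζF : ζ ∈ F₀ := (le_sup_right : IntermediateField.adjoin ℚ_[q] {ζ} ≤ F₀)
    (IntermediateField.mem_adjoin_simple_self ℚ_[q] ζ)
  have htriv : ∀ s ∈ F₀.fixingSubgroup, ∀ a : A, ρ s a = a := fun s hs a =>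
    hEtriv s (IntermediateField.fixingSubgroup_antitone (le_sup_left : E ≤ F₀) hs) a
  obtain ⟨Y, hY⟩ := Fermat.Agent.W56.UnitsModP1.exists_finset_reps q F₀ p
  obtain ⟨F₁, -, hfin, hF₁⟩ := exists_field_forall_cocycle ρ hpA F₀ hζ hζF Y hY htriv
  haveI := hfin
  haveI := finiteIndex_fixingSubgroup q F₁
  have hfin1 := finite_setOf_coset_const (X := A) F₁.fixingSubgroup
  haveI : Finite {f : Γq → A | ∀ g, ∀ s ∈ F₁.fixingSubgroup, f (g * s) = f g} := hfin1.to_subtype
  let Φ : (Resolved4.lvl h𝒰 ρ hρ).Z1 →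
      {f : Γq → A | ∀ g, ∀ s ∈ F₁.fixingSubgroup, f (g * s) = f g} := fun c =>
    ⟨fun g => (c : lev₁ k h𝒰 A).1 g, by
      have hc := (Resolved4.mem_lvl_Z1_iff h𝒰 ρ hρ c.1).1 c.2
      obtain ⟨U, hU, hUc⟩ := (c : lev₁ k h𝒰 A).2
      obtain ⟨E', hE', rfl⟩ :=
        Fermat.Agent.PT.GLUE.LocalSide11.exists_eq_fixingSubgroup_of_mem_levelLoc q hU
      exact hF₁ _ hc ⟨E', hE', fun g s hs => hUc g s hs⟩⟩
  refine Finite.of_injective Φ ?_
  intro c c' h
  apply Subtype.ext
  apply Subtype.ext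
  funext g
  exact congrFun (congrArg Subtype.val h) g

include hpA in
/-- **Finiteness of the local level `H¹`.** -/
theorem finite_Hlev1_local : Finite (Resolved4.Hlev1 h𝒰 ρ hρ) := by
  haveI := finite_Z1_local q ρ h𝒰 hρ p hpA
  exact Finite.of_surjective (Resolved4.lvl h𝒰 ρ hρ).π1 (Resolved4.lvl h𝒰 ρ hρ).π1_surjective

end Local

end Fermat.Agent.W56.LocFin1
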