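/-
Programme W56 (S56), local finiteness in the vocabulary of `W56/Defs9`, helper1.

`finite_H1D` : for a finite `M : Rep k Γ` killed by a prime `p` on which `Γ = Gal(ℚ̄/ℚ)` acts
smoothly, the local level cohomology `H1D M q = H¹(Gal(ℚ̄_q/ℚ_q), M)` of `Defs9` is finite, for
EVERY prime `q` (including `q = p`); even the set of level 1-cocycles is finite (`finite_Z1D`).
-/
import Mathlib
import Fermat.Agent.W56.Defs9
import Fermat.Agent.W56.LocFin1
import Fermat.Agent.PT.GLUE.BasisCompare13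
import Fermat.Agent.PT.PRO.LevelCompare13

set_option autoImplicit false
set_option linter.unusedSectionVars false
set_option linter.style.haveILetI false

open CategoryTheory ExtCitation

namespace Fermat.Agent.W56.FinH1D1

open Fermat.Agent.PT.PRO Fermat.Agent.PT.BR Fermat.Agent.PT.GLUE.Objects21
open Fermat.Agent.W56.Defs9

local notation "Γ" => (AlgebraicClosure ℚ ≃ₐ[ℚ] AlgebraicClosure ℚ)
local notation "Qbar" => AlgebraicClosure ℚ

section Nat

variable {k : Type} [CommRing k] (M : Rep k Γ) [Finite M] (p : ℕ) [Fact p.Prime]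
  (hpM : ∀ m : M, p • m = 0)
  (hsm : ∀ m : M, ∃ F : IntermediateField ℚ Qbar, FiniteDimensional ℚ F ∧
    ∀ s ∈ F.fixingSubgroup, M.ρ s m = m)
  (q : ℕ) [Fact q.Prime]

include hsm in
theorem isDiscrete_res :
    HyperLevel25.IsDiscrete (levelLoc q).sets (Rep.res (localGaloisToGlobal q) M).ρ := by
  intro m
  obtain ⟨F, hF, hFm⟩ := hsm m
  refine ⟨F.fixingSubgroup.comap (localGaloisToGlobal q), ?_, fun s hs => ?_⟩
  · rw [← Fermat.Agent.PT.GLUE.BasisCompare13.pullSets_eq]
    exact ⟨F, hF, rfl⟩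
  · exact hFm _ hs

include hpM hsm in
/-- The level 1-cocycles of `Gal(ℚ̄_q/ℚ_q)` with values in `M` form a finite set. -/
theorem finite_Z1_nat :
    Finite ↥(LevelCoh28.Z1 (LevelBridge13.pullBasis (localGaloisToGlobal q))
      (Rep.res (localGaloisToGlobal q) M)) := by
  have h𝒰 : HyperLevel25.IsLevelBasis (levelLoc q).sets :=
    LevelCompare13.isLevelBasis_iff.1 (levelLoc q).isBasis
  have hρ := isDiscrete_res M hsm q
  haveI := Fermat.Agent.W56.LocFin1.finite_Z1_local q (Rep.res (localGaloisToGlobal q) M).ρ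
    h𝒰 hρ p hpM
  let Φ : ↥(LevelCoh28.Z1 (LevelBridge13.pullBasis (localGaloisToGlobal q))
      (Rep.res (localGaloisToGlobal q) M)) →
      (Resolved4.lvl h𝒰 (Rep.res (localGaloisToGlobal q) M).ρ hρ).Z1 := fun c =>
    Resolved4.mkZ1 h𝒰 _ hρ (c : (PadicAlgCl q ≃ₐ[ℚ_[q]] PadicAlgCl q) → M)
      (by
        have h : LevelCoh28.IsLevel₁ (LevelBridge13.pullBasis (localGaloisToGlobal q)).sets
            (c : (PadicAlgCl q ≃ₐ[ℚ_[q]] PadicAlgCl q) → M) := c.2.2
        have h2 : (LevelBridge13.pullBasis (localGaloisToGlobal q)).sets = (levelLoc q).sets :=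
          Fermat.Agent.PT.GLUE.BasisCompare13.pullSets_eq q
        rw [h2] at h
        exact h)
      ((LevelCompare13.mem_cocycles₁_iff _ _).1 c.2.1)
  refine Finite.of_injective Φ ?_
  intro c c' h
  apply Subtype.ext
  have := congrArg (fun z : (Resolved4.lvl h𝒰 (Rep.res (localGaloisToGlobal q) M).ρ hρ).Z1 =>
    ((z : HyperLevel25.lev₁ k h𝒰 M).1 : (PadicAlgCl q ≃ₐ[ℚ_[q]] PadicAlgCl q) → M)) h
  exact this

end Nat

section Primes

variable {k : Type} [CommRing k] (M : Rep k Γ) [Finite M] (p : ℕ) [Fact p.Prime]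
  (hpM : ∀ m : M, p • m = 0)
  (hsm : ∀ m : M, ∃ F : IntermediateField ℚ Qbar, FiniteDimensional ℚ F ∧
    ∀ s ∈ F.fixingSubgroup, M.ρ s m = m)
  (q : Nat.Primes)

include hpM hsm in
/-- **The level 1-cocycles of `D_q` with values in `M` form a finite set** (`Defs9` carriers). -/
theorem finite_Z1D :
    Finite ↥(LevelCoh28.Z1 (LevelBridge13.pullBasis (locD q)) (Rep.res (locD q) M)) := by
  haveI : Fact (q : ℕ).Prime := ⟨q.2⟩
  exact finite_Z1_nat M p hpM hsm (q : ℕ)

include hpM hsm in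
/-- **`H¹(D_q, M)` is finite** (`Defs9.H1D`). -/
theorem finite_H1D : Finite (H1D M q) := by
  haveI := finite_Z1D M p hpM hsm q
  exact Finite.of_surjective _
    (LevelCoh28.H1mk_surjective (LevelBridge13.pullBasis (locD q)) (Rep.res (locD q) M))

end Primes

end Fermat.Agent.W56.FinH1D1
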