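/-
Programme W56 (target S56), chapter (F) FLAT, ramification side (helper7): **two generic tools for
the converse Krasner argument** (Mathlib only).

* `val_root_eisenstein` : a root `β` of `X^e + ∑_{k<e} q_k X^k` with `v q_k ≤ v ϖ < 1`, `v q_0 = v ϖ`,
  has `v β ^ e = v ϖ`;
* `evalSub` : evaluation `R[X] →+* S` at `x ∈ S` for subrings `R ≤ S` of a commutative ring;
* **`exists_quot_hom`** : if `S = R[π]` with `π` a root of the monic `P ∈ R[X]`, and `1, π, …, π^(deg P - 1)`
  are `R`-independent, then for every `β ∈ T ⊇ R` and every ideal `J ∋ P(β)` of `T` there is a ring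
  homomorphism `S → T ⧸ J`, `π ↦ β`, which is the identity on `R`.
-/
import Mathlib

set_option autoImplicit false

namespace Fermat.Agent.W56.RamEis7

open Polynomial Finset

section eisenstein

variable {K : Type*} [Field K] {Γ₀ : Type*} [LinearOrderedCommGroupWithZero Γ₀]

theorem val_root_eisenstein (v : Valuation K Γ₀) {e : ℕ} (he : 0 < e) (q : ℕ → K) {ϖ : K}
    (hϖ0 : v ϖ ≠ 0) (hϖ : v ϖ < 1) (hq : ∀ k, k < e → v (q k) ≤ v ϖ) (hq0 : v (q 0) = v ϖ) {β : K}
    (hβ : β ^ e + ∑ k ∈ Finset.range e, q k * β ^ k = 0) : v β ^ e = v ϖ := by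
  -- `β ≠ 0`
  have hβ0 : β ≠ 0 := by
    rintro rfl
    rw [zero_pow he.ne', zero_add] at hβ
    have h1 : ∑ k ∈ Finset.range e, q k * (0 : K) ^ k = q 0 := by
      rw [Finset.sum_eq_single_of_mem 0 (Finset.mem_range.2 he)]
      · simp
      · intro k _ hk0
        rw [zero_pow hk0, mul_zero]
    rw [h1] at hβ
    rw [hβ, map_zero] at hq0
    exact hϖ0 hq0.symm
  have hvβ0 : v β ≠ 0 := (Valuation.ne_zero_iff v).2 hβ0
  -- `v β < 1`
  have hlt : v β < 1 := by
    by_contra hcon
    rw [not_lt] at hcon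
    have h1 : v (∑ k ∈ Finset.range e, q k * β ^ k) < v (β ^ e) := by
      refine Valuation.map_sum_lt v ((Valuation.ne_zero_iff v).2 (pow_ne_zero e hβ0)) ?_
      intro k hk
      rw [Finset.mem_range] at hk
      rw [map_mul, map_pow, map_pow]
      calc v (q k) * v β ^ k ≤ v ϖ * v β ^ k := mul_le_mul_left (hq k hk) _
        _ < 1 * v β ^ k := by
            exact mul_lt_mul_of_pos_right hϖ (zero_lt_iff.2 (pow_ne_zero k hvβ0))
        _ = v β ^ k := one_mul _
        _ ≤ v β ^ e := pow_le_pow_right₀ hcon hk.le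
    have h2 := Valuation.map_add_eq_of_lt_left v h1
    rw [hβ, map_zero] at h2
    exact (Valuation.ne_zero_iff v).2 (pow_ne_zero e hβ0) h2.symm
  -- the sum has the value of its constant term
  have hsum : v (∑ k ∈ Finset.range e, q k * β ^ k) = v ϖ := by
    rw [← Finset.add_sum_erase _ _ (Finset.mem_range.2 he), pow_zero, mul_one]
    rw [← hq0]
    refine Valuation.map_add_eq_of_lt_left v ?_
    rw [hq0]
    refine Valuation.map_sum_lt v hϖ0 ?_
    intro k hk
    rw [Finset.mem_erase, Finset.mem_range] at hk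
    rw [map_mul, map_pow]
    have hk1 : 1 ≤ k := Nat.one_le_iff_ne_zero.2 hk.1
    calc v (q k) * v β ^ k ≤ v ϖ * v β ^ k := mul_le_mul_left (hq k hk.2) _
      _ ≤ v ϖ * v β := by
          refine mul_le_mul_right ?_ _
          calc v β ^ k ≤ v β ^ 1 := pow_le_pow_of_le_one zero_le hlt.le hk1
            _ = v β := pow_one _
      _ < v ϖ * 1 := by
          exact mul_lt_mul_of_pos_left hlt (zero_lt_iff.2 hϖ0)
      _ = v ϖ := mul_one _
  have h3 : β ^ e = -∑ k ∈ Finset.range e, q k * β ^ k := eq_neg_of_add_eq_zero_left hβ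
  rw [← map_pow, h3, Valuation.map_neg, hsum]

end eisenstein

section hom

variable {K : Type*} [CommRing K]

/-- evaluation at `x ∈ S` of polynomials over a smaller subring. -/
noncomputable def evalSub {R S : Subring K} (hRS : R ≤ S) (x : ↥S) : (↥R)[X] →+* ↥S :=
  Polynomial.eval₂RingHom (Subring.inclusion hRS) x

theorem coe_evalSub {R S : Subring K} (hRS : R ≤ S) (x : ↥S) (g : (↥R)[X]) :
    ((evalSub hRS x g : ↥S) : K) = (g.map R.subtype).eval (x : K) := by
  unfold evalSub
  rw [Polynomial.coe_eval₂RingHom, eval_map]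
  exact Polynomial.hom_eval₂ g (Subring.inclusion hRS) S.subtype x

theorem evalSub_C {R S : Subring K} (hRS : R ≤ S) (x : ↥S) (r : ↥R) :
    evalSub hRS x (C r) = Subring.inclusion hRS r := by
  unfold evalSub
  rw [Polynomial.coe_eval₂RingHom, eval₂_C]

/-- **the homomorphism `R[π] → T ⧸ J`, `π ↦ β`.** -/
theorem exists_quot_hom {R S T : Subring K} (hRS : R ≤ S) (hRT : R ≤ T) (π : ↥S) (β : ↥T)
    (P : (↥R)[X]) (hP : P.Monic) (hP1 : P ≠ 1)
    (hsurj : ∀ y : ↥S, ∃ g : (↥R)[X], (g.map R.subtype).eval (π : K) = y)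
    (hindep : ∀ g : (↥R)[X], g.natDegree < P.natDegree → (g.map R.subtype).eval (π : K) = 0 →
      g = 0)
    (hPπ : (P.map R.subtype).eval (π : K) = 0) (J : Ideal ↥T)
    (hJ : evalSub hRT β P ∈ J) :
    ∃ φ : ↥S →+* ↥T ⧸ J, ∀ (w : K) (hS : w ∈ S) (hT : w ∈ T), w ∈ R →
      φ ⟨w, hS⟩ = Ideal.Quotient.mk J ⟨w, hT⟩ := by
  set f := evalSub hRS π with hf
  set g' : (↥R)[X] →+* ↥T ⧸ J := (Ideal.Quotient.mk J).comp (evalSub hRT β) with hg'
  have hfsurj : Function.Surjective f := by
    intro y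
    obtain ⟨g, hg⟩ := hsurj y
    refine ⟨g, Subtype.ext ?_⟩
    rw [hf, coe_evalSub, hg]
  have hfP : f P = 0 := by
    apply Subtype.ext
    rw [hf, coe_evalSub, hPπ]
    rfl
  have hker : RingHom.ker f ≤ RingHom.ker g' := by
    intro g hg
    rw [RingHom.mem_ker] at hg ⊢
    have hdiv := Polynomial.modByMonic_add_div g P
    have hr : f (g %ₘ P) = 0 := by
      have h1 : f g = f (g %ₘ P) + f P * f (g /ₘ P) := by
        rw [← map_mul, ← map_add, hdiv]
      rw [hg, hfP, zero_mul, add_zero] at h1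
      exact h1.symm
    have hr0 : g %ₘ P = 0 := by
      refine hindep _ (Polynomial.natDegree_modByMonic_lt g hP hP1) ?_
      have := congrArg Subtype.val hr
      rw [hf, coe_evalSub] at this
      exact this
    rw [hr0, zero_add] at hdiv
    rw [← hdiv, map_mul, hg']
    have h2 : (Ideal.Quotient.mk J).comp (evalSub hRT β) P = 0 := by
      rw [RingHom.comp_apply]
      exact Ideal.Quotient.eq_zero_iff_mem.2 hJ
    rw [h2, zero_mul]
  refine ⟨RingHom.liftOfSurjective f hfsurj ⟨g', hker⟩, fun w hS hT hR => ?_⟩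
  have h1 : (⟨w, hS⟩ : ↥S) = f (C ⟨w, hR⟩) := by
    rw [hf, evalSub_C]
    rfl
  rw [h1]
  have h2 := RingHom.liftOfRightInverse_comp_apply f (Function.surjInv hfsurj)
    (Function.rightInverse_surjInv hfsurj) ⟨g', hker⟩ (C ⟨w, hR⟩)
  refine h2.trans ?_
  show (Ideal.Quotient.mk J) (evalSub hRT β (C ⟨w, hR⟩)) = _
  rw [evalSub_C]
  rfl

end hom

end Fermat.Agent.W56.RamEis7
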