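/-
Programme W56 (target S56), chapter (F) FLAT (helper6): **the interface between the Hopf-order side
and the ramification side: Fontaine's property `(P_m)` in group form.**

`A` is a valuation subring of `ℚ̄` (a place over `p`).  For a subgroup `Δ` of `G_ℚ`,
`OFix A Δ = A ∩ ℚ̄^Δ` is the ring of integers of the fixed field, and `idealLe A Δ c` is its ideal
`{x | v(x) ≤ v(c)}` (`v = A.valuation` is multiplicative, so this is `{x | ord x ≥ ord c}`).

`FontaineProp A p Γ` : for every subgroup `Δ` of the inertia group and every `c ∈ OFix A Δ` with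
`ord c > p/(p-1)`, a ring homomorphism `OFix A Γ → OFix A Δ / (c)` which is the identity on
`W₀ = A^I` exists only if `Δ ≤ Γ` (i.e. `ℚ̄^Γ ⊆ ℚ̄^Δ`).  Produced by `W56/Lift6*` for
`Γ = ` the kernel of the inertia action on the points of a finite flat group scheme killed by `p`;
consumed by the converse-Krasner argument of helper7.
-/
import Mathlib
import Fermat.Agent.FF.InertiaWire8

set_option autoImplicit false

namespace Fermat.Agent.W56.FontDef6

open Fermat.Agent.FF.InertiaWire8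

variable (A : ValuationSubring Qb)

/-- the integers of the fixed field of `Δ`. -/
def OFix (Δ : Subgroup GQ) : Subring Qb where
  carrier := {x | x ∈ A ∧ ∀ σ ∈ Δ, σ x = x}
  mul_mem' := by
    rintro a b ⟨ha, ha'⟩ ⟨hb, hb'⟩
    exact ⟨A.mul_mem _ _ ha hb, fun σ hσ => by rw [map_mul, ha' σ hσ, hb' σ hσ]⟩
  one_mem' := ⟨A.one_mem, fun σ _ => map_one σ⟩
  add_mem' := by
    rintro a b ⟨ha, ha'⟩ ⟨hb, hb'⟩
    exact ⟨A.add_mem _ _ ha hb, fun σ hσ => by rw [map_add, ha' σ hσ, hb' σ hσ]⟩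
  zero_mem' := ⟨A.zero_mem, fun σ _ => map_zero σ⟩
  neg_mem' := by
    rintro a ⟨ha, ha'⟩
    exact ⟨A.neg_mem _ ha, fun σ hσ => by rw [map_neg, ha' σ hσ]⟩

variable {A} in
theorem mem_OFix {Δ : Subgroup GQ} {x : Qb} :
    x ∈ OFix A Δ ↔ x ∈ A ∧ ∀ σ ∈ Δ, σ x = x := Iff.rfl

/-- the ideal `{x | v(x) ≤ v(c)}` of `OFix A Δ`. -/
def idealLe (Δ : Subgroup GQ) (c : Qb) : Ideal (OFix A Δ) where
  carrier := {x | A.valuation (x : Qb) ≤ A.valuation c}
  add_mem' := by
    intro a b ha hb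
    show A.valuation ((a : Qb) + (b : Qb)) ≤ A.valuation c
    exact (A.valuation.map_add _ _).trans (max_le ha hb)
  zero_mem' := by
    show A.valuation (0 : Qb) ≤ A.valuation c
    rw [map_zero]; exact zero_le
  smul_mem' := by
    intro r x hx
    show A.valuation ((r : Qb) * (x : Qb)) ≤ A.valuation c
    rw [map_mul]
    have h1 : A.valuation (r : Qb) ≤ 1 := (A.valuation_le_one_iff _).2 r.2.1
    calc A.valuation (r : Qb) * A.valuation (x : Qb) ≤ 1 * A.valuation c :=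
          mul_le_mul' h1 hx
      _ = A.valuation c := one_mul _

variable {A} in
theorem mem_idealLe {Δ : Subgroup GQ} {c : Qb} {x : OFix A Δ} :
    x ∈ idealLe A Δ c ↔ A.valuation (x : Qb) ≤ A.valuation c := Iff.rfl

/-- **Fontaine's property `(P_m)` for all `m > p/(p-1)`, in group form.** -/
def FontaineProp (p : ℕ) (Γ : Subgroup GQ) : Prop :=
  ∀ Δ : Subgroup GQ, Δ ≤ Iner A → ∀ c ∈ OFix A Δ,
    A.valuation c ^ (p - 1) < A.valuation (p : Qb) ^ p →
    (∃ φ : OFix A Γ →+* OFix A Δ ⧸ idealLe A Δ c,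
      ∀ (w : Qb) (hΓ : w ∈ OFix A Γ) (hΔ : w ∈ OFix A Δ), w ∈ W0 A →
        φ ⟨w, hΓ⟩ = Ideal.Quotient.mk _ ⟨w, hΔ⟩) →
    Δ ≤ Γ

end Fermat.Agent.W56.FontDef6
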