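/-
Programme W56 (target S56), chapter (F) FLAT, ramification side (helper7): **discrete valuations in
additive integer form** — the base calculus of the abstract ramification layer (Mathlib only).

* `DVal L` : a map `ord : L → ℤ` (junk value at `0`) with `ord (x y) = ord x + ord y` and
  `min (ord x) (ord y) ≤ ord (x + y)` for nonzero arguments;
* `ord_one`, `ord_neg`, `ord_inv`, `ord_div`, `ord_pow`, `ord_zpow`, `ord_prod`;
* `Ge n x` : `x = 0 ∨ n ≤ ord x` (membership in the fractional ideal `π ^ n O`), closed under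
  sums, products, negation; `ord_add_eq_of_ge` (the strict ultrametric equality);
* `ord_sum_eq_of_distinct` : a finite sum whose nonzero terms have pairwise distinct orders has the
  order of its unique dominant term (in the form: every term is `Ge` the order of the sum).
-/
import Mathlib

set_option autoImplicit false

namespace Fermat.Agent.W56.RamBase7

open Finset

/-- a discrete valuation in additive, integer-valued form (junk value at `0`). -/
structure DVal (L : Type*) [Field L] where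
  /-- the order function -/
  ord : L → ℤ
  ord_mul' : ∀ x y : L, x ≠ 0 → y ≠ 0 → ord (x * y) = ord x + ord y
  ord_add' : ∀ x y : L, x ≠ 0 → y ≠ 0 → x + y ≠ 0 → min (ord x) (ord y) ≤ ord (x + y)

namespace DVal

variable {L : Type*} [Field L] (w : DVal L)

theorem ord_mul {x y : L} (hx : x ≠ 0) (hy : y ≠ 0) : w.ord (x * y) = w.ord x + w.ord y :=
  w.ord_mul' x y hx hy

theorem ord_one : w.ord 1 = 0 := by
  have h := w.ord_mul (one_ne_zero (α := L)) one_ne_zero
  rw [mul_one] at h
  omega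

theorem ord_neg_one : w.ord (-1) = 0 := by
  have h := w.ord_mul (neg_ne_zero.2 (one_ne_zero (α := L))) (neg_ne_zero.2 one_ne_zero)
  rw [neg_mul_neg, mul_one, ord_one] at h
  omega

theorem ord_neg (x : L) : w.ord (-x) = w.ord x := by
  rcases eq_or_ne x 0 with rfl | hx
  · rw [neg_zero]
  · rw [← neg_one_mul, w.ord_mul (neg_ne_zero.2 one_ne_zero) hx, ord_neg_one, zero_add]

theorem ord_sub_comm (x y : L) : w.ord (x - y) = w.ord (y - x) := by
  rw [← neg_sub, ord_neg]

theorem ord_inv {x : L} (hx : x ≠ 0) : w.ord x⁻¹ = -w.ord x := by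
  have h := w.ord_mul hx (inv_ne_zero hx)
  rw [mul_inv_cancel₀ hx, ord_one] at h
  omega

theorem ord_div {x y : L} (hx : x ≠ 0) (hy : y ≠ 0) : w.ord (x / y) = w.ord x - w.ord y := by
  rw [div_eq_mul_inv, w.ord_mul hx (inv_ne_zero hy), w.ord_inv hy]
  ring

theorem ord_pow {x : L} (hx : x ≠ 0) (n : ℕ) : w.ord (x ^ n) = n * w.ord x := by
  induction n with
  | zero => simp [ord_one]
  | succ n ih =>
    rw [pow_succ, w.ord_mul (pow_ne_zero n hx) hx, ih]
    push_cast
    ring

theorem ord_zpow {x : L} (hx : x ≠ 0) (n : ℤ) : w.ord (x ^ n) = n * w.ord x := by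
  cases n with
  | ofNat n => simpa using w.ord_pow hx n
  | negSucc n =>
    rw [zpow_negSucc, w.ord_inv (pow_ne_zero _ hx), w.ord_pow hx]
    rw [Int.negSucc_eq]
    push_cast
    ring

theorem ord_prod {ι : Type*} (s : Finset ι) (f : ι → L) (hf : ∀ i ∈ s, f i ≠ 0) :
    w.ord (∏ i ∈ s, f i) = ∑ i ∈ s, w.ord (f i) := by
  classical
  induction s using Finset.induction_on with
  | empty => simp [ord_one]
  | insert a s ha ih =>
    rw [Finset.prod_insert ha, Finset.sum_insert ha,
      w.ord_mul (hf a (Finset.mem_insert_self a s))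
        (Finset.prod_ne_zero_iff.2 fun i hi => hf i (Finset.mem_insert_of_mem hi)),
      ih fun i hi => hf i (Finset.mem_insert_of_mem hi)]

/-- `x ∈ π ^ n O`. -/
def Ge (n : ℤ) (x : L) : Prop := x = 0 ∨ n ≤ w.ord x

variable {w}

theorem Ge.zero (n : ℤ) : w.Ge n 0 := Or.inl rfl

theorem ge_iff {n : ℤ} {x : L} (hx : x ≠ 0) : w.Ge n x ↔ n ≤ w.ord x :=
  ⟨fun h => h.resolve_left hx, Or.inr⟩

theorem ge_ord (x : L) : w.Ge (w.ord x) x := Or.inr le_rfl

theorem Ge.mono {n m : ℤ} {x : L} (h : w.Ge n x) (hmn : m ≤ n) : w.Ge m x :=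
  h.imp id fun h => hmn.trans h

theorem Ge.neg {n : ℤ} {x : L} (h : w.Ge n x) : w.Ge n (-x) := by
  rcases h with rfl | h
  · rw [neg_zero]; exact Ge.zero n
  · right; rwa [w.ord_neg]

theorem Ge.add {n : ℤ} {x y : L} (hx : w.Ge n x) (hy : w.Ge n y) : w.Ge n (x + y) := by
  rcases hx with rfl | hx
  · rwa [zero_add]
  rcases hy with rfl | hy
  · rw [add_zero]; exact Or.inr hx
  rcases eq_or_ne x 0 with rfl | hx0
  · rw [zero_add]; exact Or.inr hy
  rcases eq_or_ne y 0 with rfl | hy0
  · rw [add_zero]; exact Or.inr hx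
  rcases eq_or_ne (x + y) 0 with h0 | h0
  · exact Or.inl h0
  · right
    exact (le_min hx hy).trans (w.ord_add' x y hx0 hy0 h0)

theorem Ge.sub {n : ℤ} {x y : L} (hx : w.Ge n x) (hy : w.Ge n y) : w.Ge n (x - y) := by
  rw [sub_eq_add_neg]
  exact hx.add hy.neg

theorem Ge.mul {n m : ℤ} {x y : L} (hx : w.Ge n x) (hy : w.Ge m y) : w.Ge (n + m) (x * y) := by
  rcases eq_or_ne x 0 with rfl | hx0
  · rw [zero_mul]; exact Ge.zero _
  rcases eq_or_ne y 0 with rfl | hy0
  · rw [mul_zero]; exact Ge.zero _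
  right
  rw [w.ord_mul hx0 hy0]
  have h1 := (ge_iff hx0).1 hx
  have h2 := (ge_iff hy0).1 hy
  omega

theorem Ge.sum {ι : Type*} {s : Finset ι} {f : ι → L} {n : ℤ} (h : ∀ i ∈ s, w.Ge n (f i)) :
    w.Ge n (∑ i ∈ s, f i) := by
  classical
  induction s using Finset.induction_on with
  | empty => simpa using Ge.zero n
  | insert a s ha ih =>
    rw [Finset.sum_insert ha]
    exact (h a (Finset.mem_insert_self a s)).add (ih fun i hi => h i (Finset.mem_insert_of_mem hi))

theorem Ge.pow {n : ℤ} {x : L} (hx : w.Ge n x) (k : ℕ) : w.Ge (k * n) (x ^ k) := by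
  induction k with
  | zero =>
    simp only [pow_zero, Nat.cast_zero, zero_mul]
    exact Or.inr (by rw [w.ord_one])
  | succ k ih =>
    rw [pow_succ]
    have := ih.mul hx
    convert this using 1
    push_cast
    ring

theorem Ge.one : w.Ge 0 (1 : L) := Or.inr (by rw [w.ord_one])

theorem Ge.natCast (n : ℕ) : w.Ge 0 (n : L) := by
  induction n with
  | zero => simpa using Ge.zero 0
  | succ n ih =>
    rw [Nat.cast_succ]
    exact ih.add Ge.one

theorem Ge.intCast (n : ℤ) : w.Ge 0 (n : L) := by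
  cases n with
  | ofNat n => simpa using Ge.natCast n
  | negSucc n =>
    rw [Int.cast_negSucc]
    exact (Ge.natCast _).neg

/-- the strict ultrametric equality. -/
theorem ord_add_eq_of_ge {x y : L} (hx : x ≠ 0) (hy : w.Ge (w.ord x + 1) y) :
    x + y ≠ 0 ∧ w.ord (x + y) = w.ord x := by
  rcases eq_or_ne y 0 with rfl | hy0
  · rw [add_zero]; exact ⟨hx, rfl⟩
  have hy1 := (ge_iff hy0).1 hy
  have hne : x + y ≠ 0 := by
    intro h
    have : y = -x := by rw [eq_neg_iff_add_eq_zero, add_comm]; exact h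
    rw [this, w.ord_neg] at hy1
    omega
  refine ⟨hne, le_antisymm ?_ ?_⟩
  · by_contra hlt
    rw [not_le] at hlt
    have h0 : w.Ge (w.ord x + 1) (x + y) := Or.inr (by omega)
    have h1 : w.Ge (w.ord x + 1) (x + y - y) := h0.sub hy
    rw [add_sub_cancel_right] at h1
    have := (ge_iff hx).1 h1
    omega
  · have := w.ord_add' x y hx hy0 hne
    have h2 : min (w.ord x) (w.ord y) = w.ord x := min_eq_left (by omega)
    rwa [h2] at this

theorem ord_sub_eq_of_ge {x y : L} (hx : x ≠ 0) (hy : w.Ge (w.ord x + 1) y) :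
    x - y ≠ 0 ∧ w.ord (x - y) = w.ord x := by
  rw [sub_eq_add_neg]
  exact ord_add_eq_of_ge hx hy.neg

/-- if `ord x < ord y` (both nonzero) then `ord (x + y) = ord x`. -/
theorem ord_add_eq_of_lt {x y : L} (hx : x ≠ 0) (h : w.ord x < w.ord y) :
    x + y ≠ 0 ∧ w.ord (x + y) = w.ord x :=
  ord_add_eq_of_ge hx (Or.inr (by omega))

/-- two elements whose difference has larger order have the same order. -/
theorem ord_eq_of_sub_ge {x y : L} (hx : x ≠ 0) (h : w.Ge (w.ord x + 1) (y - x)) :
    y ≠ 0 ∧ w.ord y = w.ord x := by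
  have := ord_add_eq_of_ge hx h
  rwa [add_sub_cancel] at this

/-- a finite sum whose nonzero terms have pairwise distinct orders: every term is `Ge` the order
of the sum, and the sum is nonzero as soon as one term is. -/
theorem ord_sum_of_distinct {ι : Type*} (s : Finset ι) (f : ι → L)
    (hdist : ∀ i ∈ s, ∀ j ∈ s, i ≠ j → f i ≠ 0 → f j ≠ 0 → w.ord (f i) ≠ w.ord (f j))
    (hne : ∃ i ∈ s, f i ≠ 0) :
    ∑ i ∈ s, f i ≠ 0 ∧ ∀ i ∈ s, w.Ge (w.ord (∑ i ∈ s, f i)) (f i) := by
  classical
  -- the index of minimal order among the nonzero terms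
  have hs' : (s.filter fun i => f i ≠ 0).Nonempty := by
    obtain ⟨i, hi, hfi⟩ := hne
    exact ⟨i, Finset.mem_filter.2 ⟨hi, hfi⟩⟩
  obtain ⟨i0, hi0, hmin⟩ := Finset.exists_min_image _ (fun i => w.ord (f i)) hs'
  rw [Finset.mem_filter] at hi0
  have hrest : w.Ge (w.ord (f i0) + 1) (∑ i ∈ s.erase i0, f i) := by
    refine Ge.sum fun i hi => ?_
    rw [Finset.mem_erase] at hi
    rcases eq_or_ne (f i) 0 with h0 | h0
    · exact Or.inl h0
    · right
      have h1 := hmin i (Finset.mem_filter.2 ⟨hi.2, h0⟩)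
      have h2 := hdist i hi.2 i0 hi0.1 hi.1 h0 hi0.2
      omega
  have hsum : ∑ i ∈ s, f i = f i0 + ∑ i ∈ s.erase i0, f i :=
    (Finset.add_sum_erase s f hi0.1).symm
  obtain ⟨h1, h2⟩ := ord_add_eq_of_ge hi0.2 hrest
  rw [← hsum] at h1 h2
  refine ⟨h1, fun i hi => ?_⟩
  rw [h2]
  rcases eq_or_ne (f i) 0 with h0 | h0
  · exact Or.inl h0
  · exact Or.inr (hmin i (Finset.mem_filter.2 ⟨hi, h0⟩))

end DVal

end Fermat.Agent.W56.RamBase7
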