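/-
Programme W56 (target S56), chapter (F) FLAT, ramification side (helper7): **local computations for
Kummer extensions of degree `p`** in a discretely valued field of residue characteristic `p`
(Mathlib only; `DVal` calculus of `RamBase7`).

`w : DVal L`, `p` a prime with `(p : L) ≠ 0` and `0 < ord p`.

* `ord_natCast_of_not_dvd`, `ord_intCast_of_not_dvd` : integers prime to `p` are units;
* `ord_root_of_unity`, `ord_one_sub_pow_eq`, **`ord_zeta_sub_one`** : for a primitive `p`-th root of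
  unity `ξ` : `(p - 1) ord (ξ - 1) = ord p`;
* `ord_one_add_zpow_sub_one` : `ord δ > 0`, `p ∤ A` ⟹ `ord ((1 + δ) ^ A - 1) = ord δ`;
* `ge_one_add_pow` : `(1 + z) ^ p - 1 - z ^ p ∈ p z O` for integral `z`;
* **`ord_pow_root`** : `(1 + y) ^ p = 1 + x`, `0 < ord x < ord p` ⟹ `p ord y = ord x`.
-/
import Mathlib
import Fermat.Agent.W56.RamBase7

set_option autoImplicit false

namespace Fermat.Agent.W56.RamKumA7

open Finset Fermat.Agent.W56.RamBase7 Fermat.Agent.W56.RamBase7.DVal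

variable {L : Type*} [Field L] {w : DVal L} {p : ℕ}

/-- the standing hypotheses on the prime. -/
structure PrimeHyp (w : DVal L) (p : ℕ) : Prop where
  prime : p.Prime
  ne_zero : (p : L) ≠ 0
  pos : 0 < w.ord (p : L)

variable (hp : PrimeHyp w p)
include hp

theorem ord_intCast_of_not_dvd {n : ℤ} (hn : ¬ (p : ℤ) ∣ n) : (n : L) ≠ 0 ∧ w.ord (n : L) = 0 := by
  have hcop : IsCoprime n (p : ℤ) :=
    ((Prime.coprime_iff_not_dvd (Nat.prime_iff_prime_int.1 hp.prime)).2 hn).symm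
  obtain ⟨a, b, hab⟩ := hcop
  have h1 : (a : L) * (n : L) + (b : L) * (p : L) = 1 := by
    have := congrArg (fun z : ℤ => (z : L)) hab
    simpa using this
  have hn0 : (n : L) ≠ 0 := by
    intro h0
    rw [h0, mul_zero, zero_add] at h1
    have h2 : w.Ge (0 + w.ord (p : L)) ((b : L) * (p : L)) := (Ge.intCast b).mul (w.ge_ord _)
    rw [h1, zero_add] at h2
    have := (ge_iff one_ne_zero).1 h2
    rw [w.ord_one] at this
    have := hp.pos
    omega
  refine ⟨hn0, le_antisymm ?_ ((ge_iff hn0).1 (Ge.intCast n))⟩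
  by_contra hcon
  rw [not_le] at hcon
  have h2 : w.Ge 1 ((a : L) * (n : L) + (b : L) * (p : L)) := by
    refine Ge.add ?_ ?_
    · have := (Ge.intCast (w := w) a).mul (Or.inr (show (1 : ℤ) ≤ w.ord (n : L) by omega))
      rwa [zero_add] at this
    · have := (Ge.intCast (w := w) b).mul (Or.inr (show (1 : ℤ) ≤ w.ord (p : L) from hp.pos))
      rwa [zero_add] at this
  rw [h1] at h2
  have := (ge_iff one_ne_zero).1 h2
  rw [w.ord_one] at this
  omega

theorem ord_natCast_of_not_dvd {n : ℕ} (hn : ¬ p ∣ n) : (n : L) ≠ 0 ∧ w.ord (n : L) = 0 := by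
  have := ord_intCast_of_not_dvd hp (n := (n : ℤ)) (by exact_mod_cast hn)
  simpa using this

omit hp in
theorem ord_root_of_unity {ξ : L} {n : ℕ} (hn : n ≠ 0) (hξ : ξ ^ n = 1) : ξ ≠ 0 ∧ w.ord ξ = 0 := by
  have hξ0 : ξ ≠ 0 := by
    intro h0
    rw [h0, zero_pow hn] at hξ
    exact zero_ne_one hξ
  refine ⟨hξ0, ?_⟩
  have := w.ord_pow hξ0 n
  rw [hξ, w.ord_one] at this
  have hn' : (n : ℤ) ≠ 0 := by exact_mod_cast hn
  rcases mul_eq_zero.1 this.symm with h | h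
  · exact absurd h hn'
  · exact h

omit hp in
/-- `1 - ξ ^ k ∈ (1 - ξ) O`. -/
theorem ge_one_sub_pow {ξ : L} (hξ : w.Ge 0 ξ) (k : ℕ) : w.Ge (w.ord (1 - ξ)) (1 - ξ ^ k) := by
  have h1 : 1 - ξ ^ k = (1 - ξ) * ∑ j ∈ Finset.range k, ξ ^ j := by
    rw [mul_comm, geom_sum_mul_neg]
  rw [h1]
  have h2 : w.Ge 0 (∑ j ∈ Finset.range k, ξ ^ j) := Ge.sum fun j _ => by
    have := hξ.pow j
    rwa [mul_zero] at this
  have := (w.ge_ord (1 - ξ)).mul h2
  rwa [add_zero] at this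

/-- for a primitive `p`-th root of unity, `ord (1 - ξ ^ k) = ord (1 - ξ)` when `p ∤ k`. -/
theorem ord_one_sub_pow_eq {ξ : L} (hξ : IsPrimitiveRoot ξ p) {k : ℕ} (hk : ¬ p ∣ k) :
    1 - ξ ^ k ≠ 0 ∧ w.ord (1 - ξ ^ k) = w.ord (1 - ξ) := by
  have hp0 : p ≠ 0 := hp.prime.ne_zero
  have hξge : w.Ge 0 ξ := Or.inr (ord_root_of_unity hp0 hξ.pow_eq_one).2.ge
  have hk1 : 1 - ξ ^ k ≠ 0 := by
    intro h0
    have h1 : ξ ^ k = 1 := (sub_eq_zero.1 h0).symm
    exact hk ((hξ.pow_eq_one_iff_dvd k).1 h1)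
  have h11 : 1 - ξ ≠ 0 := by
    intro h0
    have h1 : ξ = 1 := (sub_eq_zero.1 h0).symm
    have := hξ.unique (h1 ▸ IsPrimitiveRoot.one)
    exact hp.prime.one_lt.ne' this
  refine ⟨hk1, le_antisymm ?_ ((ge_iff hk1).1 (ge_one_sub_pow hξge k))⟩
  -- `ξ = (ξ^k)^k'`
  have hcop : Nat.Coprime k p := ((Nat.Prime.coprime_iff_not_dvd hp.prime).2 hk).symm
  obtain ⟨k', -, hk'⟩ := Nat.exists_mul_mod_eq_one_of_coprime hcop hp.prime.one_lt
  have h2 : (ξ ^ k) ^ k' = ξ := by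
    rw [← pow_mul]
    have : k * k' = p * (k * k' / p) + 1 := by
      have := Nat.div_add_mod (k * k') p
      omega
    rw [this, pow_add, pow_mul, hξ.pow_eq_one, one_pow, one_mul, pow_one]
  have hge : w.Ge 0 (ξ ^ k) := by
    have := hξge.pow k
    rwa [mul_zero] at this
  have h3 := ge_one_sub_pow hge k'
  rw [h2] at h3
  exact (ge_iff h11).1 h3

/-- **`(p - 1) ord (ξ - 1) = ord p`.** -/
theorem ord_zeta_sub_one {ξ : L} (hξ : IsPrimitiveRoot ξ p) :
    ξ - 1 ≠ 0 ∧ ((p : ℤ) - 1) * w.ord (ξ - 1) = w.ord (p : L) := by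
  obtain ⟨n, rfl⟩ : ∃ n, p = n + 1 := ⟨p - 1, by have := hp.prime.pos; omega⟩
  have hprod := hξ.prod_one_sub_pow_eq_order
  have hne : ∀ k ∈ Finset.range n, 1 - ξ ^ (k + 1) ≠ 0 := fun k hk =>
    (ord_one_sub_pow_eq hp hξ (k := k + 1) (by
      intro hdvd
      have := Nat.le_of_dvd (Nat.succ_pos k) hdvd
      have := Finset.mem_range.1 hk
      omega)).1
  have h1 := w.ord_prod (Finset.range n) (fun k => 1 - ξ ^ (k + 1)) hne
  rw [hprod] at h1
  have h2 : ∀ k ∈ Finset.range n, w.ord (1 - ξ ^ (k + 1)) = w.ord (1 - ξ) := fun k hk =>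
    (ord_one_sub_pow_eq hp hξ (k := k + 1) (by
      intro hdvd
      have := Nat.le_of_dvd (Nat.succ_pos k) hdvd
      have := Finset.mem_range.1 hk
      omega)).2
  rw [Finset.sum_congr rfl h2, Finset.sum_const, Finset.card_range, nsmul_eq_mul] at h1
  have h3 := (ord_one_sub_pow_eq hp hξ (k := 1) (by
    intro hdvd
    have := Nat.le_of_dvd Nat.one_pos hdvd
    have := hp.prime.one_lt
    omega)).1
  rw [pow_one] at h3
  refine ⟨by rw [← neg_sub]; exact neg_ne_zero.2 h3, ?_⟩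
  rw [w.ord_sub_comm]
  push_cast at h1 ⊢
  rw [h1]
  ring

/-- `ord δ > 0`, `p ∤ A` ⟹ `ord ((1 + δ) ^ A - 1) = ord δ` (natural exponents). -/
theorem ord_one_add_pow_sub_one {δ : L} (hδ0 : δ ≠ 0) (hδ : 0 < w.ord δ) {A : ℕ} (hA : ¬ p ∣ A) :
    (1 + δ) ^ A - 1 ≠ 0 ∧ w.ord ((1 + δ) ^ A - 1) = w.ord δ := by
  have h1 : (1 + δ) ^ A - 1 = δ * ∑ j ∈ Finset.range A, (1 + δ) ^ j := by
    have := geom_sum_mul (1 + δ) A
    rw [add_sub_cancel_left] at this
    rw [← this, mul_comm]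
  have hge1 : w.Ge 0 (1 + δ) := Ge.one.add (Or.inr hδ.le)
  have hsum : w.Ge 1 (∑ j ∈ Finset.range A, (1 + δ) ^ j - (A : L)) := by
    have : ∑ j ∈ Finset.range A, (1 + δ) ^ j - (A : L) =
        ∑ j ∈ Finset.range A, ((1 + δ) ^ j - 1) := by
      rw [Finset.sum_sub_distrib, Finset.sum_const, Finset.card_range, nsmul_eq_mul, mul_one]
    rw [this]
    refine Ge.sum fun j _ => ?_
    have h2 : w.Ge 1 ((1 + δ) - 1) := by rw [add_sub_cancel_left]; exact Or.inr (by omega)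
    have h3 : ∀ j : ℕ, w.Ge 1 ((1 + δ) ^ j - 1 ^ j) := by
      intro j
      induction j with
      | zero => simpa using Ge.zero 1
      | succ j ih =>
        have h4 : (1 + δ) ^ (j + 1) - 1 ^ (j + 1) = (1 + δ) * ((1 + δ) ^ j - 1 ^ j) + ((1 + δ) - 1) := by
          ring
        rw [h4]
        refine Ge.add ?_ h2
        have := hge1.mul ih
        rwa [zero_add] at this
    have h3' := h3 j
    rwa [one_pow] at h3'
  obtain ⟨hA0, hAord⟩ := ord_natCast_of_not_dvd hp hA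
  have h5 := ord_eq_of_sub_ge hA0 (y := ∑ j ∈ Finset.range A, (1 + δ) ^ j) (by rw [hAord]; exact hsum)
  rw [h1]
  refine ⟨mul_ne_zero hδ0 h5.1, ?_⟩
  rw [w.ord_mul hδ0 h5.1, h5.2, hAord, add_zero]

/-- `ord δ > 0`, `p ∤ A` ⟹ `ord ((1 + δ) ^ A - 1) = ord δ` (integer exponents). -/
theorem ord_one_add_zpow_sub_one {δ : L} (hδ0 : δ ≠ 0) (hδ : 0 < w.ord δ) {A : ℤ}
    (hA : ¬ (p : ℤ) ∣ A) : (1 + δ) ^ A - 1 ≠ 0 ∧ w.ord ((1 + δ) ^ A - 1) = w.ord δ := by
  have hu : 1 + δ ≠ 0 ∧ w.ord (1 + δ) = 0 := by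
    have := ord_add_eq_of_ge (w := w) (x := 1) (y := δ) one_ne_zero
      (Or.inr (by rw [w.ord_one]; omega))
    rwa [w.ord_one] at this
  cases A with
  | ofNat A =>
    have hA' : ¬ p ∣ A := fun hd => hA (by
      rw [Int.ofNat_eq_natCast]; exact_mod_cast hd)
    simpa using ord_one_add_pow_sub_one hp hδ0 hδ hA'
  | negSucc A =>
    have hA' : ¬ p ∣ (A + 1) := fun hd => hA (by
      rw [Int.negSucc_eq]
      exact (dvd_neg).2 (by exact_mod_cast hd))
    obtain ⟨h1, h2⟩ := ord_one_add_pow_sub_one hp hδ0 hδ hA'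
    rw [zpow_negSucc]
    have hpow0 : (1 + δ) ^ (A + 1) ≠ 0 := pow_ne_zero _ hu.1
    have h3 : ((1 + δ) ^ (A + 1))⁻¹ - 1 = -(((1 + δ) ^ (A + 1) - 1) / (1 + δ) ^ (A + 1)) := by
      field_simp
      ring
    rw [h3, w.ord_neg]
    refine ⟨neg_ne_zero.2 (div_ne_zero h1 hpow0), ?_⟩
    rw [w.ord_div h1 hpow0, h2, w.ord_pow hu.1, hu.2, mul_zero, sub_zero]

/-- `(1 + z) ^ p - 1 - z ^ p ∈ p z O` for integral `z`. -/
theorem ge_one_add_pow {z : L} (hz : w.Ge 0 z) :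
    w.Ge (w.ord (p : L) + w.ord z) ((1 + z) ^ p - 1 - z ^ p) := by
  rcases eq_or_ne z 0 with rfl | hz0
  · rw [add_zero, one_pow, zero_pow hp.prime.ne_zero]
    simpa using Ge.zero _
  have h1 := add_pow_prime_eq hp.prime (1 : L) z
  have h2 : (1 + z) ^ p - 1 - z ^ p = (p : L) * z *
      ∑ k ∈ Finset.Ioo 0 p, (1 : L) ^ (k - 1) * z ^ (p - k - 1) * ((p.choose k / p : ℕ) : L) := by
    rw [h1]; ring
  rw [h2]
  have h3 : w.Ge 0 (∑ k ∈ Finset.Ioo 0 p,
      (1 : L) ^ (k - 1) * z ^ (p - k - 1) * ((p.choose k / p : ℕ) : L)) := by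
    refine Ge.sum fun k _ => ?_
    have h4 : w.Ge 0 ((1 : L) ^ (k - 1) * z ^ (p - k - 1)) := by
      rw [one_pow, one_mul]
      have := hz.pow (p - k - 1)
      rwa [mul_zero] at this
    have := h4.mul (Ge.natCast (w := w) (p.choose k / p))
    rwa [add_zero] at this
  have h5 : w.Ge (w.ord (p : L) + w.ord z) ((p : L) * z) := (w.ge_ord _).mul (w.ge_ord _)
  have := h5.mul h3
  rwa [add_zero] at this

/-- **the order of a `p`-th root of `1 + x`**, `0 < ord x < ord p`. -/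
theorem ord_pow_root {x y : L} (hx0 : x ≠ 0) (hx : 0 < w.ord x) (hxp : w.ord x < w.ord (p : L))
    (hxy : (1 + y) ^ p = 1 + x) : y ≠ 0 ∧ (p : ℤ) * w.ord y = w.ord x := by
  have hp0 : p ≠ 0 := hp.prime.ne_zero
  have hy0 : y ≠ 0 := by
    rintro rfl
    rw [add_zero, one_pow] at hxy
    exact hx0 (by linear_combination -hxy)
  -- `1 + y` is a unit
  have h1x : 1 + x ≠ 0 ∧ w.ord (1 + x) = 0 := by
    have := ord_add_eq_of_ge (w := w) (x := 1) (y := x) one_ne_zero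
      (Or.inr (by rw [w.ord_one]; omega))
    rwa [w.ord_one] at this
  have h1y0 : 1 + y ≠ 0 := by
    intro h0
    rw [h0, zero_pow hp0] at hxy
    exact h1x.1 hxy.symm
  have h1y : w.ord (1 + y) = 0 := by
    have := w.ord_pow h1y0 p
    rw [hxy, h1x.2] at this
    have hp' : (p : ℤ) ≠ 0 := by exact_mod_cast hp0
    rcases mul_eq_zero.1 this.symm with h | h
    · exact absurd h hp'
    · exact h
  have hyge : w.Ge 0 y := by
    have : y = (1 + y) - 1 := by ring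
    rw [this]
    have h1yge : w.Ge 0 (1 + y) := Or.inr h1y.ge
    exact h1yge.sub Ge.one
  have hy0' : 0 ≤ w.ord y := (ge_iff hy0).1 hyge
  have hrest := ge_one_add_pow hp hyge
  -- `x = y^p + rest`
  have hxdec : x = y ^ p + ((1 + y) ^ p - 1 - y ^ p) := by rw [hxy]; ring
  have hyp0 : y ^ p ≠ 0 := pow_ne_zero p hy0
  have hordyp : w.ord (y ^ p) = (p : ℤ) * w.ord y := w.ord_pow hy0 p
  refine ⟨hy0, ?_⟩
  rcases lt_or_ge ((p : ℤ) * w.ord y) (w.ord (p : L) + w.ord y) with hlt | hge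
  · have := ord_add_eq_of_ge hyp0 (hrest.mono (by rw [hordyp]; omega))
    rw [← hxdec, hordyp] at this
    exact this.2.symm
  · exfalso
    have h2 : w.Ge (w.ord (p : L)) x := by
      rw [hxdec]
      refine Ge.add (Or.inr ?_) (hrest.mono (by omega))
      rw [hordyp]; omega
    have := (ge_iff hx0).1 h2
    omega

end Fermat.Agent.W56.RamKumA7
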