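/-
Programme W56 (target S56), chapter (F) FLAT, ramification side (helper7): **normal form modulo
`p`-th powers** in a discretely valued field with perfect residue field (Mathlib only).

`w : DVal L`, `p` a prime (`PrimeHyp w p`), `F` a subfield of `L` whose nonzero elements have order
divisible by `n₁ = ord π₀` (`π₀ ∈ F`), with `p`-th roots in the residue field (`hperf`).  Write
`e = ord p`.

* `Good w p n₁ u` : `u ≡ 1 mod p`, or `0 < ord (u - 1) < e` and `p n₁ ∤ ord (u - 1)`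
  (the order of `u - 1` in `F` is prime to `p`);
* `exists_improve` : if `p n₁ ∣ ord (u - 1) < e` then `u = b^p u'` with `ord (u' - 1) > ord (u - 1)`;
* `exists_normal_unit` : every `u ∈ F` with `ord (u - 1) ≥ 1` is `b^p u'` with `Good u'`;
* **`exists_normal_form`** : every nonzero `α ∈ F` is `b^p π₀^j u'`, `j < p`, `Good u'`.
-/
import Mathlib
import Fermat.Agent.W56.RamKumA7

set_option autoImplicit false

namespace Fermat.Agent.W56.RamKumB7

open Finset Fermat.Agent.W56.RamBase7 Fermat.Agent.W56.RamBase7.DVal Fermat.Agent.W56.RamKumA7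

variable {L : Type*} [Field L] {w : DVal L} {p : ℕ}

/-- the terminal shapes of the normal form. -/
def Good (w : DVal L) (p : ℕ) (n₁ : ℤ) (u : L) : Prop :=
  w.Ge (w.ord (p : L)) (u - 1) ∨
    (u - 1 ≠ 0 ∧ 0 < w.ord (u - 1) ∧ w.ord (u - 1) < w.ord (p : L) ∧ ¬ (p : ℤ) * n₁ ∣ w.ord (u - 1))

/-- the hypotheses on the subfield. -/
structure FieldHyp (w : DVal L) (p : ℕ) (F : Subfield L) (π₀ : L) (n₁ : ℤ) : Prop where
  prime : PrimeHyp w p
  hπ₀F : π₀ ∈ F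
  hπ₀0 : π₀ ≠ 0
  hπ₀ : w.ord π₀ = n₁
  hn₁ : 0 < n₁
  dvd : ∀ x ∈ F, x ≠ 0 → n₁ ∣ w.ord x
  perf : ∀ c ∈ F, c ≠ 0 → w.ord c = 0 → ∃ d ∈ F, w.Ge 1 (c - d ^ p)

variable {F : Subfield L} {π₀ : L} {n₁ : ℤ} (hF : FieldHyp w p F π₀ n₁)
include hF

/-- a `p`-th root in the residue field, as a unit. -/
theorem exists_unit_root {c : L} (hcF : c ∈ F) (hc0 : c ≠ 0) (hc : w.ord c = 0) :
    ∃ d ∈ F, d ≠ 0 ∧ w.ord d = 0 ∧ w.Ge 1 (c - d ^ p) := by
  obtain ⟨d, hdF, hd⟩ := hF.perf c hcF hc0 hc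
  have hp0 : p ≠ 0 := hF.prime.prime.ne_zero
  have h1 : d ^ p ≠ 0 ∧ w.ord (d ^ p) = w.ord c := by
    have h2 : w.Ge (w.ord c + 1) (d ^ p - c) := by
      rw [hc, zero_add, ← neg_sub]; exact hd.neg
    exact ord_eq_of_sub_ge hc0 h2
  have hd0 : d ≠ 0 := fun h0 => h1.1 (by rw [h0, zero_pow hp0])
  refine ⟨d, hdF, hd0, ?_, hd⟩
  have h3 := w.ord_pow hd0 p
  rw [h1.2, hc] at h3
  have hp' : (p : ℤ) ≠ 0 := by exact_mod_cast hp0
  rcases mul_eq_zero.1 h3.symm with h | h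
  · exact absurd h hp'
  · exact h

theorem exists_improve {u : L} (huF : u ∈ F) (hu0 : u - 1 ≠ 0) (hpos : 0 < w.ord (u - 1))
    (hlt : w.ord (u - 1) < w.ord (p : L)) (hdvd : (p : ℤ) * n₁ ∣ w.ord (u - 1)) :
    ∃ b ∈ F, b ≠ 0 ∧ ∃ u' ∈ F, u = b ^ p * u' ∧ w.Ge (w.ord (u - 1) + 1) (u' - 1) := by
  have hp0 : p ≠ 0 := hF.prime.prime.ne_zero
  have hppos : (0 : ℤ) < p := by exact_mod_cast hF.prime.prime.pos
  obtain ⟨m, hm⟩ := hdvd
  set x := u - 1 with hx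
  set I := w.ord x with hI
  have hxF : x ∈ F := sub_mem huF (one_mem F)
  have hmpos : 0 < m := by
    by_contra hcon
    rw [not_lt] at hcon
    have : (p : ℤ) * n₁ * m ≤ 0 := mul_nonpos_of_nonneg_of_nonpos (mul_pos hppos hF.hn₁).le hcon
    omega
  -- `c' = x / π₀^(p m)` is a unit of `F`
  obtain ⟨mN, rfl⟩ : ∃ mN : ℕ, m = mN := ⟨m.toNat, (Int.toNat_of_nonneg hmpos.le).symm⟩
  have hπpm0 : π₀ ^ (p * mN) ≠ 0 := pow_ne_zero _ hF.hπ₀0
  have hπpm : w.ord (π₀ ^ (p * mN)) = I := by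
    rw [w.ord_pow hF.hπ₀0, hF.hπ₀, hm]; push_cast; ring
  set c' := x / π₀ ^ (p * mN) with hc'
  have hc'F : c' ∈ F := div_mem hxF (pow_mem hF.hπ₀F _)
  have hc'0 : c' ≠ 0 := div_ne_zero hu0 hπpm0
  have hc'ord : w.ord c' = 0 := by rw [hc', w.ord_div hu0 hπpm0, hπpm]; ring
  obtain ⟨d, hdF, hd0, hdord, hd⟩ := exists_unit_root hF hc'F hc'0 hc'ord
  set z := d * π₀ ^ mN with hz
  have hz0 : z ≠ 0 := mul_ne_zero hd0 (pow_ne_zero _ hF.hπ₀0)
  have hzord : w.ord z = n₁ * mN := by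
    rw [hz, w.ord_mul hd0 (pow_ne_zero _ hF.hπ₀0), hdord, w.ord_pow hF.hπ₀0, hF.hπ₀]; ring
  have hzpos : 0 < w.ord z := by rw [hzord]; exact mul_pos hF.hn₁ hmpos
  have hzF : z ∈ F := mul_mem hdF (pow_mem hF.hπ₀F _)
  have hpz : (p : ℤ) * w.ord z = I := by rw [hzord, hm]; ring
  -- `b = 1 + z`
  set b := 1 + z with hb
  have hbF : b ∈ F := add_mem (one_mem F) hzF
  have hbu : b ≠ 0 ∧ w.ord b = 0 := by
    have := ord_add_eq_of_ge (w := w) (x := 1) (y := z) one_ne_zero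
      (Or.inr (by rw [w.ord_one]; omega))
    rwa [w.ord_one] at this
  have hbp0 : b ^ p ≠ 0 := pow_ne_zero p hbu.1
  have hbpord : w.ord (b ^ p) = 0 := by rw [w.ord_pow hbu.1, hbu.2, mul_zero]
  -- `u - b^p ∈ π^(I+1) O`
  have hrest := ge_one_add_pow hF.prime (z := z) (Or.inr hzpos.le)
  have hzp : z ^ p = d ^ p * π₀ ^ (p * mN) := by rw [hz, mul_pow, ← pow_mul, mul_comm mN p]
  have h1 : w.Ge (I + 1) (x - z ^ p) := by
    have h2 : x - z ^ p = (c' - d ^ p) * π₀ ^ (p * mN) := by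
      rw [hzp, sub_mul, hc', div_mul_cancel₀ _ hπpm0]
    rw [h2]
    have := hd.mul (w.ge_ord (π₀ ^ (p * mN)))
    rw [hπpm] at this
    exact this.mono (by omega)
  have h3 : w.Ge (I + 1) (u - b ^ p) := by
    have h4 : u - b ^ p = (x - z ^ p) - ((1 + z) ^ p - 1 - z ^ p) := by rw [hx, hb]; ring
    rw [h4]
    refine h1.sub (hrest.mono ?_)
    have : 0 ≤ w.ord z := hzpos.le
    omega
  refine ⟨b, hbF, hbu.1, u / b ^ p, div_mem huF (pow_mem hbF p), ?_, ?_⟩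
  · rw [mul_div_cancel₀ _ hbp0]
  · have h5 : u / b ^ p - 1 = (u - b ^ p) * (b ^ p)⁻¹ := by
      field_simp
    rw [h5]
    have h6 : w.Ge 0 ((b ^ p)⁻¹) := Or.inr (by rw [w.ord_inv hbp0, hbpord, neg_zero])
    have := h3.mul h6
    rwa [add_zero] at this

theorem exists_normal_unit (k : ℕ) : ∀ u ∈ F, w.Ge 1 (u - 1) →
    (u - 1 = 0 ∨ w.ord (p : L) - k ≤ w.ord (u - 1)) →
    ∃ b ∈ F, b ≠ 0 ∧ ∃ u' ∈ F, u = b ^ p * u' ∧ Good w p n₁ u' := by
  induction k with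
  | zero =>
    intro u huF _ hk
    refine ⟨1, one_mem F, one_ne_zero, u, huF, by rw [one_pow, one_mul], Or.inl ?_⟩
    rcases hk with h | h
    · exact Or.inl h
    · exact Or.inr (by simpa using h)
  | succ k ih =>
    intro u huF hu1 hk
    rcases eq_or_ne (u - 1) 0 with h0 | h0
    · exact ih u huF hu1 (Or.inl h0)
    have hpos : 0 < w.ord (u - 1) := by
      have := (ge_iff h0).1 hu1; omega
    rcases le_or_gt (w.ord (p : L)) (w.ord (u - 1)) with hge | hlt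
    · exact ih u huF hu1 (Or.inr (by omega))
    by_cases hdvd : (p : ℤ) * n₁ ∣ w.ord (u - 1)
    · obtain ⟨b, hbF, hb0, u', hu'F, huu', hu'⟩ := exists_improve hF huF h0 hpos hlt hdvd
      have hk' : w.ord (p : L) - (k + 1 : ℕ) ≤ w.ord (u - 1) := hk.resolve_left h0
      push_cast at hk'
      obtain ⟨b', hb'F, hb'0, u'', hu''F, hu'u'', hgood⟩ := ih u' hu'F (hu'.mono (by omega))
        (hu'.imp id fun h => by omega)
      refine ⟨b * b', mul_mem hbF hb'F, mul_ne_zero hb0 hb'0, u'', hu''F, ?_, hgood⟩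
      rw [huu', hu'u'', mul_pow]; ring
    · exact ⟨1, one_mem F, one_ne_zero, u, huF, by rw [one_pow, one_mul],
        Or.inr ⟨h0, hpos, hlt, hdvd⟩⟩

/-- **the normal form modulo `p`-th powers.** -/
theorem exists_normal_form {α : L} (hαF : α ∈ F) (hα0 : α ≠ 0) :
    ∃ b ∈ F, b ≠ 0 ∧ ∃ j : ℕ, j < p ∧ ∃ u' ∈ F, α = b ^ p * π₀ ^ j * u' ∧ Good w p n₁ u' := by
  have hp0 : p ≠ 0 := hF.prime.prime.ne_zero
  have hppos : (0 : ℤ) < p := by exact_mod_cast hF.prime.prime.pos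
  obtain ⟨k, hk⟩ := hF.dvd α hαF hα0
  set q := k / (p : ℤ) with hq
  have hj0 : 0 ≤ k % (p : ℤ) := Int.emod_nonneg _ hppos.ne'
  have hjp : k % (p : ℤ) < p := Int.emod_lt_of_pos _ hppos
  set j := (k % (p : ℤ)).toNat with hj
  have hjcast : (j : ℤ) = k % (p : ℤ) := Int.toNat_of_nonneg hj0
  have hjlt : j < p := by
    have : (j : ℤ) < p := by omega
    exact_mod_cast this
  have hkq : k = (p : ℤ) * q + j := by
    rw [hjcast, hq]; exact (Int.mul_ediv_add_emod k p).symm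
  have hden0 : π₀ ^ k ≠ 0 := zpow_ne_zero k hF.hπ₀0
  set c := α / π₀ ^ k with hc
  have hcF : c ∈ F := div_mem hαF (zpow_mem hF.hπ₀F k)
  have hc0 : c ≠ 0 := div_ne_zero hα0 hden0
  have hcord : w.ord c = 0 := by
    rw [hc, w.ord_div hα0 hden0, w.ord_zpow hF.hπ₀0, hF.hπ₀, hk]; ring
  obtain ⟨d, hdF, hd0, hdord, hd⟩ := exists_unit_root hF hcF hc0 hcord
  have hdp0 : d ^ p ≠ 0 := pow_ne_zero p hd0
  have hdpord : w.ord (d ^ p) = 0 := by rw [w.ord_pow hd0, hdord, mul_zero]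
  set u := c / d ^ p with hu
  have huF : u ∈ F := div_mem hcF (pow_mem hdF p)
  have hu1 : w.Ge 1 (u - 1) := by
    have h5 : u - 1 = (c - d ^ p) * (d ^ p)⁻¹ := by
      rw [hu]; field_simp
    rw [h5]
    have h6 : w.Ge 0 ((d ^ p)⁻¹) := Or.inr (by rw [w.ord_inv hdp0, hdpord, neg_zero])
    have := hd.mul h6
    rwa [add_zero] at this
  obtain ⟨b, hbF, hb0, u', hu'F, huu', hgood⟩ :=
    exists_normal_unit hF (w.ord (p : L)).toNat u huF hu1 (by
      rcases eq_or_ne (u - 1) 0 with h0 | h0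
      · exact Or.inl h0
      · right
        have h1 := (ge_iff h0).1 hu1
        have h2 : w.ord (p : L) ≤ ((w.ord (p : L)).toNat : ℤ) := Int.self_le_toNat _
        omega)
  refine ⟨π₀ ^ q * d * b, mul_mem (mul_mem (zpow_mem hF.hπ₀F q) hdF) hbF,
    mul_ne_zero (mul_ne_zero (zpow_ne_zero q hF.hπ₀0) hd0) hb0, j, hjlt, u', hu'F, ?_, hgood⟩
  have h7 : α = π₀ ^ k * c := by rw [hc, mul_div_cancel₀ _ hden0]
  have h8 : c = d ^ p * u := by rw [hu, mul_div_cancel₀ _ hdp0]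
  have h9 : π₀ ^ k = (π₀ ^ q) ^ p * π₀ ^ j := by
    rw [hkq, zpow_add₀ hF.hπ₀0, zpow_natCast, mul_comm (p : ℤ) q, zpow_mul, zpow_natCast]
  rw [h7, h8, huu', h9]
  ring

end Fermat.Agent.W56.RamKumB7
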