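/-
Programme W56 (target S56), chapter (F) FLAT, ramification side (helper7): **the fundamental
equality for a finite group acting on a discretely valued field** (Mathlib only, no completeness,
no trace form, no finiteness of integral closures).

`L` a field with `w : DVal L`, `G` a finite group acting faithfully on `L`, preserving `w`, with a
uniformiser and with *trivial residue extension* (`Ram.res` : every unit of `w` is congruent to a
`G`-fixed element).  For a subgroup `H` of `G` write `Fix H` for the fixed field.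

* `card_dvd_ord` : **`#H ∣ ord x` for every nonzero `x ∈ Fix H`** (the extension `L / L^H` is totally
  ramified of degree `#H`).  Proof: let `m ℤ` be the value group of `L^H` (`m ∣ #H` by the norm of a
  uniformiser).  The `L^H`-span `V` of `1, π, …, π^(m-1)` is dense in `L` (digits, `Ram.res`).  If
  `m < #H` the rows `((σ π)^j)_(j < m)`, `σ ∈ H`, are linearly dependent, which gives a nonzero
  `Λ = ∑ c_σ σ` vanishing on `V`; `Λ` is continuous, so `Λ = 0`, against Dedekind's independence of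
  characters.
* `exists_norm` : `∏_(σ ∈ H) σ π ∈ Fix H` has order `#H`.
-/
import Mathlib
import Fermat.Agent.W56.RamBase7

set_option autoImplicit false

namespace Fermat.Agent.W56.RamFund7

open Finset Fermat.Agent.W56.RamBase7 Fermat.Agent.W56.RamBase7.DVal

variable {L : Type*} [Field L] {G : Type*} [Group G] [MulSemiringAction G L]

/-- the fixed field of a subgroup. -/
def Fix (H : Subgroup G) : Subfield L := FixedPoints.subfield ↥H L

theorem mem_Fix {H : Subgroup G} {x : L} : x ∈ Fix (L := L) H ↔ ∀ σ ∈ H, σ • x = x :=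
  ⟨fun h σ hσ => h ⟨σ, hσ⟩, fun h σ => h σ.1 σ.2⟩

theorem Fix_mono {H H' : Subgroup G} (h : H ≤ H') : Fix (L := L) H' ≤ Fix H :=
  fun _ hx => mem_Fix.2 fun σ hσ => mem_Fix.1 hx σ (h hσ)

/-- the standing hypotheses. -/
structure Ram (w : DVal L) (G : Type*) [Group G] [MulSemiringAction G L] : Prop where
  inv : ∀ (σ : G) (x : L), w.ord (σ • x) = w.ord x
  faithful : ∀ σ : G, (∀ x : L, σ • x = x) → σ = 1
  res : ∀ x : L, x ≠ 0 → w.ord x = 0 → ∃ a : L, (∀ σ : G, σ • a = a) ∧ w.Ge 1 (x - a)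
  unif : ∃ π : L, π ≠ 0 ∧ w.ord π = 1

variable {w : DVal L}

theorem smul_ne_zero' (σ : G) {x : L} (hx : x ≠ 0) : σ • x ≠ 0 :=
  (smul_ne_zero_iff_ne σ).2 hx

theorem Ram.ge_smul (h : Ram w G) (σ : G) {n : ℤ} {x : L} (hx : w.Ge n x) : w.Ge n (σ • x) := by
  rcases hx with rfl | hx
  · rw [smul_zero]; exact Ge.zero n
  · right; rwa [h.inv]

/-- the norm of `x` from `L` to `L^H`. -/
noncomputable def normH (H : Subgroup G) [Fintype ↥H] (x : L) : L := ∏ σ : ↥H, σ • x

theorem normH_mem (H : Subgroup G) [Fintype ↥H] (x : L) : normH H x ∈ Fix (L := L) H := by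
  intro τ
  unfold normH
  rw [smul_prod']
  refine Fintype.prod_equiv (Equiv.mulLeft τ) _ _ fun σ => ?_
  rw [Equiv.coe_mulLeft, mul_smul]

theorem normH_ne_zero (H : Subgroup G) [Fintype ↥H] {x : L} (hx : x ≠ 0) : normH H x ≠ 0 :=
  Finset.prod_ne_zero_iff.2 fun σ _ => smul_ne_zero' (σ : G) hx

theorem Ram.ord_normH (h : Ram w G) (H : Subgroup G) [Fintype ↥H] {x : L} (hx : x ≠ 0) :
    w.ord (normH H x) = Fintype.card ↥H * w.ord x := by
  unfold normH
  rw [w.ord_prod Finset.univ (fun σ : ↥H => σ • x) fun σ _ => smul_ne_zero' (σ : G) hx]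
  have : ∀ σ ∈ (Finset.univ : Finset ↥H), w.ord (σ • x) = w.ord x := fun σ _ => h.inv (σ : G) x
  rw [Finset.sum_congr rfl this, Finset.sum_const, Finset.card_univ, nsmul_eq_mul]

/-! ### density of the span of the first `m` powers of a uniformiser -/

/-- **digits**: if `ϖ ∈ L^H` has order `m > 0`, every element of `L` is approximated to any
precision by an `L^H`-combination of `1, π, …, π^(m-1)`. -/
theorem Ram.exists_approx (h : Ram w G) (H : Subgroup G) {π ϖ : L} (hπ0 : π ≠ 0)
    (hπ : w.ord π = 1) (hϖ0 : ϖ ≠ 0) (hϖH : ϖ ∈ Fix (L := L) H) {m : ℕ} (hm : 0 < m)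
    (hϖ : w.ord ϖ = m) (N : ℕ) (x : L) (k : ℤ) (hx : w.Ge k x) :
    ∃ a : ℕ → L, (∀ j, a j ∈ Fix (L := L) H) ∧
      w.Ge (k + N) (x - ∑ j ∈ Finset.range m, a j * π ^ j) := by
  induction N with
  | zero =>
    refine ⟨fun _ => 0, fun _ => zero_mem _, ?_⟩
    simpa using hx
  | succ N ih =>
    obtain ⟨a, haH, ha⟩ := ih
    set z := x - ∑ j ∈ Finset.range m, a j * π ^ j with hz
    rcases eq_or_ne z 0 with hz0 | hz0
    · exact ⟨a, haH, Or.inl hz0⟩
    have ht : k + N ≤ w.ord z := (ge_iff hz0).1 ha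
    -- `ord z = m q + j`
    set t := w.ord z with htdef
    have hm' : (0 : ℤ) < (m : ℤ) := by exact_mod_cast hm
    set q := t / (m : ℤ) with hq
    set j := (t % (m : ℤ)).toNat with hj
    have hj0 : 0 ≤ t % (m : ℤ) := Int.emod_nonneg _ hm'.ne'
    have hjm : t % (m : ℤ) < m := Int.emod_lt_of_pos _ hm'
    have hjlt : j < m := by
      have : (j : ℤ) = t % (m : ℤ) := Int.toNat_of_nonneg hj0
      omega
    have htq : t = (m : ℤ) * q + j := by
      have : (j : ℤ) = t % (m : ℤ) := Int.toNat_of_nonneg hj0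
      rw [this, hq]
      exact (Int.mul_ediv_add_emod t m).symm
    have hden0 : ϖ ^ q * π ^ j ≠ 0 := mul_ne_zero (zpow_ne_zero q hϖ0) (pow_ne_zero j hπ0)
    have hden : w.ord (ϖ ^ q * π ^ j) = t := by
      rw [w.ord_mul (zpow_ne_zero q hϖ0) (pow_ne_zero j hπ0), w.ord_zpow hϖ0, w.ord_pow hπ0, hϖ, hπ,
        htq]
      ring
    have hu0 : z / (ϖ ^ q * π ^ j) ≠ 0 := div_ne_zero hz0 hden0
    have hu : w.ord (z / (ϖ ^ q * π ^ j)) = 0 := by
      rw [w.ord_div hz0 hden0, hden]
      ring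
    obtain ⟨b, hbG, hb⟩ := h.res _ hu0 hu
    have hbH : b ∈ Fix (L := L) H := mem_Fix.2 fun σ _ => hbG σ
    refine ⟨Function.update a j (a j + b * ϖ ^ q), fun i => ?_, ?_⟩
    · rcases eq_or_ne i j with rfl | hij
      · rw [Function.update_self]
        exact add_mem (haH _) (mul_mem hbH (zpow_mem hϖH q))
      · rw [Function.update_of_ne hij]
        exact haH i
    · have hsum : ∑ i ∈ Finset.range m, Function.update a j (a j + b * ϖ ^ q) i * π ^ i =
          ∑ i ∈ Finset.range m, a i * π ^ i + b * ϖ ^ q * π ^ j := by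
        have hjmem : j ∈ Finset.range m := Finset.mem_range.2 hjlt
        rw [← Finset.add_sum_erase _ _ hjmem, ← Finset.add_sum_erase _ (fun i => a i * π ^ i) hjmem,
          Function.update_self]
        have : ∀ i ∈ (Finset.range m).erase j,
            Function.update a j (a j + b * ϖ ^ q) i * π ^ i = a i * π ^ i := by
          intro i hi
          rw [Function.update_of_ne (Finset.ne_of_mem_erase hi)]
        rw [Finset.sum_congr rfl this]
        ring
      rw [hsum]
      have hdiff : x - (∑ i ∈ Finset.range m, a i * π ^ i + b * ϖ ^ q * π ^ j) =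
          (z / (ϖ ^ q * π ^ j) - b) * (ϖ ^ q * π ^ j) := by
        rw [sub_mul, div_mul_cancel₀ _ hden0, hz]
        ring
      rw [hdiff]
      have := hb.mul (w.ge_ord (ϖ ^ q * π ^ j))
      rw [hden] at this
      refine this.mono ?_
      push_cast
      omega

/-! ### continuity of `∑ c_σ σ` -/

theorem Ram.exists_bound (h : Ram w G) {ι : Type*} [Fintype ι] (c : ι → L) (f : ι → G) :
    ∃ C : ℤ, ∀ (z : L) (k : ℤ), w.Ge k z → w.Ge (C + k) (∑ i, c i * f i • z) := by
  classical
  refine ⟨-∑ i, |w.ord (c i)|, fun z k hz => Ge.sum fun i _ => ?_⟩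
  have h1 : w.Ge (w.ord (c i)) (c i) := w.ge_ord _
  have h2 := h1.mul (h.ge_smul (f i) hz)
  refine h2.mono ?_
  have h3 : |w.ord (c i)| ≤ ∑ i, |w.ord (c i)| :=
    Finset.single_le_sum (f := fun i => |w.ord (c i)|) (fun _ _ => abs_nonneg _) (Finset.mem_univ i)
  have h4 := neg_abs_le (w.ord (c i))
  omega

/-! ### the fundamental equality -/

/-- Dedekind: distinct automorphisms are linearly independent. -/
theorem Ram.sum_smul_eq_zero (h : Ram w G) (H : Subgroup G) [Fintype ↥H] (c : ↥H → L)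
    (hc : ∀ x : L, ∑ σ : ↥H, c σ * (σ : G) • x = 0) (σ : ↥H) : c σ = 0 := by
  let f : ↥H → (L →* L) := fun σ => ((MulSemiringAction.toRingHom G L (σ : G)) : L →* L)
  have hf : Function.Injective f := by
    intro σ τ hστ
    apply Subtype.ext
    have h1 : ∀ x : L, (σ : G) • x = (τ : G) • x := fun x => DFunLike.congr_fun hστ x
    have h2 : (τ : G)⁻¹ * (σ : G) = 1 := by
      apply h.faithful
      intro x
      rw [mul_smul, h1, inv_smul_smul]
    rw [inv_mul_eq_one] at h2
    exact h2.symm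
  have hli := (linearIndependent_monoidHom L L).comp f hf
  rw [Fintype.linearIndependent_iff] at hli
  refine hli c ?_ σ
  funext x
  simp only [Function.comp_apply, Finset.sum_apply, Pi.smul_apply, smul_eq_mul, Pi.zero_apply]
  exact hc x

/-- **the fundamental equality**: the order of a nonzero `H`-fixed element is divisible by `#H`. -/
theorem Ram.card_dvd_ord (h : Ram w G) [Finite G] (H : Subgroup G) {x : L} (hx0 : x ≠ 0)
    (hx : x ∈ Fix (L := L) H) : (Nat.card ↥H : ℤ) ∣ w.ord x := by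
  classical
  let _i : Fintype ↥H := Fintype.ofFinite _
  obtain ⟨π, hπ0, hπ⟩ := h.unif
  rw [Nat.card_eq_fintype_card]
  set n := Fintype.card ↥H with hn
  have hnpos : 0 < n := Fintype.card_pos
  -- the set of orders of nonzero fixed elements has a least positive element `m`
  have hex : ∃ m : ℕ, 0 < m ∧ ∃ y : L, y ≠ 0 ∧ y ∈ Fix (L := L) H ∧ w.ord y = m :=
    ⟨n, hnpos, normH H π, normH_ne_zero H hπ0, normH_mem H π, by rw [h.ord_normH H hπ0, hπ, mul_one]⟩
  set m := Nat.find hex with hmdef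
  obtain ⟨hm, ϖ, hϖ0, hϖH, hϖ⟩ := Nat.find_spec hex
  rw [← hmdef] at hm hϖ
  have hmin : ∀ y : L, y ≠ 0 → y ∈ Fix (L := L) H → (m : ℤ) ∣ w.ord y := by
    intro y hy0 hyH
    -- `y / ϖ ^ q` has order `ord y % m`
    have hm' : (0 : ℤ) < (m : ℤ) := by exact_mod_cast hm
    set q := w.ord y / (m : ℤ) with hq
    have hy' : w.ord (y / ϖ ^ q) = w.ord y % (m : ℤ) := by
      rw [w.ord_div hy0 (zpow_ne_zero q hϖ0), w.ord_zpow hϖ0, hϖ, hq]
      have := Int.mul_ediv_add_emod (w.ord y) m
      linarith [mul_comm (w.ord y / (m : ℤ)) (m : ℤ)]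
    have h0 : 0 ≤ w.ord y % (m : ℤ) := Int.emod_nonneg _ hm'.ne'
    have hlt : w.ord y % (m : ℤ) < m := Int.emod_lt_of_pos _ hm'
    by_contra hdvd
    have hne : w.ord y % (m : ℤ) ≠ 0 := fun h0' => hdvd (Int.dvd_of_emod_eq_zero h0')
    have hpos : 0 < (w.ord y % (m : ℤ)).toNat := by omega
    have : (w.ord y % (m : ℤ)).toNat < m := by omega
    refine Nat.find_min hex this ⟨hpos, y / ϖ ^ q, div_ne_zero hy0 (zpow_ne_zero q hϖ0),
      div_mem hyH (zpow_mem hϖH q), ?_⟩
    rw [hy', Int.toNat_of_nonneg h0]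
  -- `m ∣ n`
  have hmn : (m : ℤ) ∣ (n : ℤ) := by
    have := hmin (normH H π) (normH_ne_zero H hπ0) (normH_mem H π)
    rwa [h.ord_normH H hπ0, hπ, mul_one] at this
  have hmn' : m ≤ n := Nat.le_of_dvd hnpos (by exact_mod_cast hmn)
  -- it suffices to show `m = n`
  suffices hmeq : m = n by
    rw [← hmeq]; exact hmin x hx0 hx
  by_contra hne
  have hlt : m < n := lt_of_le_of_ne hmn' hne
  -- the rows `((σ π)^j)_(j < m)` are linearly dependent
  let r : ↥H → (Fin m → L) := fun σ j => ((σ : G) • π) ^ (j : ℕ)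
  have hdep : ¬ LinearIndependent L r := by
    intro hli
    have := hli.fintype_card_le_finrank
    rw [Module.finrank_fin_fun] at this
    omega
  rw [Fintype.not_linearIndependent_iff] at hdep
  obtain ⟨c, hc, σ0, hσ0⟩ := hdep
  have hc' : ∀ j : ℕ, j < m → ∑ σ : ↥H, c σ * ((σ : G) • π) ^ j = 0 := by
    intro j hj
    have := congrFun hc ⟨j, hj⟩
    simpa [r] using this
  -- `Λ = ∑ c_σ σ` vanishes on the span
  have hΛV : ∀ a : ℕ → L, (∀ j, a j ∈ Fix (L := L) H) →
      ∑ σ : ↥H, c σ * (σ : G) • (∑ j ∈ Finset.range m, a j * π ^ j) = 0 := by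
    intro a ha
    have h1 : ∀ σ : ↥H, c σ * (σ : G) • (∑ j ∈ Finset.range m, a j * π ^ j) =
        ∑ j ∈ Finset.range m, a j * (c σ * ((σ : G) • π) ^ j) := by
      intro σ
      rw [Finset.smul_sum, Finset.mul_sum]
      refine Finset.sum_congr rfl fun j _ => ?_
      rw [smul_mul', smul_pow', mem_Fix.1 (ha j) σ σ.2]
      ring
    rw [Finset.sum_congr rfl fun σ _ => h1 σ, Finset.sum_comm]
    refine Finset.sum_eq_zero fun j hj => ?_
    rw [← Finset.mul_sum, hc' j (Finset.mem_range.1 hj), mul_zero]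
  obtain ⟨C, hC⟩ := h.exists_bound c (fun σ : ↥H => (σ : G))
  -- hence `Λ = 0`
  have hΛ : ∀ z : L, ∑ σ : ↥H, c σ * (σ : G) • z = 0 := by
    intro z
    by_contra hz
    set t := w.ord (∑ σ : ↥H, c σ * (σ : G) • z) with ht
    set N := (t + 1 - C - w.ord z).toNat with hN
    obtain ⟨a, haH, ha⟩ := h.exists_approx H hπ0 hπ hϖ0 hϖH hm hϖ N z (w.ord z) (w.ge_ord z)
    have h1 := hC _ _ ha
    have h2 : ∑ σ : ↥H, c σ * (σ : G) • (z - ∑ j ∈ Finset.range m, a j * π ^ j) =
        ∑ σ : ↥H, c σ * (σ : G) • z := by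
      have : ∀ σ : ↥H, c σ * (σ : G) • (z - ∑ j ∈ Finset.range m, a j * π ^ j) =
          c σ * (σ : G) • z - c σ * (σ : G) • (∑ j ∈ Finset.range m, a j * π ^ j) := by
        intro σ
        rw [smul_sub, mul_sub]
      rw [Finset.sum_congr rfl fun σ _ => this σ, Finset.sum_sub_distrib, hΛV a haH, sub_zero]
    rw [h2] at h1
    have h3 := (ge_iff hz).1 h1
    have h4 : t + 1 - C - w.ord z ≤ N := Int.self_le_toNat _
    omega
  exact hσ0 (h.sum_smul_eq_zero H c hΛ σ0)

end Fermat.Agent.W56.RamFund7
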