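/-
Programme W56 (target S56), chapter (F) FLAT, ramification side (helper7): **Lagrange descent and
integral expansions in powers of a uniformiser** (Mathlib only).

Setting of `RamFund7` (`Ram w G`).

* `exists_poly_of_stab` (pure Galois theory): if every `σ ∈ H` fixing `z` fixes `x`, then `x = g(z)`
  for a polynomial `g` with `H`-fixed coefficients and degree `<` the size of the `H`-orbit of `z`
  (Lagrange interpolation on the orbit; invariance by uniqueness).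
* `stabilizer_eq` : if `π₁ ∈ L^{H₁}` has order `#H₁`, its stabiliser in `G` is exactly `H₁`.
* `ord_term_ne` / `sum_terms` : the terms `a_j π₁^j` (`a_j ∈ L^{H₂}`, `j #H₁ < #H₂`) have
  pairwise distinct orders, so `1, π₁, π₁², …` are linearly independent over `L^{H₂}`.
* **`exists_expansion`** : for `H₁ ≤ H₂`, `π₁ ∈ L^{H₁}` of order `#H₁`, every `x ∈ L^{H₁}` is `g(π₁)`
  with `g ∈ L^{H₂}[X]`, `natDegree g * #H₁ < #H₂`, and if `x` is integral so are the coefficients: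
  `O_{L^{H₁}} = O_{L^{H₂}}[π₁]`.
-/
import Mathlib
import Fermat.Agent.W56.RamFund7

set_option autoImplicit false

namespace Fermat.Agent.W56.RamExp7

open Finset Polynomial Fermat.Agent.W56.RamBase7 Fermat.Agent.W56.RamBase7.DVal
  Fermat.Agent.W56.RamFund7

variable {L : Type*} [Field L] {G : Type*} [Group G] [MulSemiringAction G L]

open scoped Classical in
/-- the orbit of `z` under `H`, as a finset. -/
noncomputable def orb (H : Subgroup G) [Fintype ↥H] (z : L) : Finset L :=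
  Finset.univ.image fun σ : ↥H => (σ : G) • z

theorem mem_orb {H : Subgroup G} [Fintype ↥H] {z y : L} :
    y ∈ orb H z ↔ ∃ σ ∈ H, σ • z = y := by
  classical
  unfold orb
  rw [Finset.mem_image]
  constructor
  · rintro ⟨σ, -, rfl⟩; exact ⟨σ, σ.2, rfl⟩
  · rintro ⟨σ, hσ, rfl⟩; exact ⟨⟨σ, hσ⟩, Finset.mem_univ _, rfl⟩

theorem self_mem_orb (H : Subgroup G) [Fintype ↥H] (z : L) : z ∈ orb H z :=
  mem_orb.2 ⟨1, H.one_mem, one_smul _ _⟩

/-- `#orbit * #stabiliser ≤ #H`. -/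
theorem card_orb_mul_le (H S : Subgroup G) [Fintype ↥H] [Fintype ↥S] (hSH : S ≤ H) (z : L)
    (hS : ∀ σ ∈ S, σ • z = z) : (orb H z).card * Fintype.card ↥S ≤ Fintype.card ↥H := by
  classical
  have hch : ∀ y : ↥(orb H z), ∃ σ : ↥H, (σ : G) • z = y := by
    rintro ⟨y, hy⟩
    obtain ⟨σ, hσ, rfl⟩ := mem_orb.1 hy
    exact ⟨⟨σ, hσ⟩, rfl⟩
  choose rep hrep using hch
  let f : ↥(orb H z) × ↥S → ↥H := fun ys => rep ys.1 * ⟨ys.2.1, hSH ys.2.2⟩
  have hf : Function.Injective f := by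
    rintro ⟨y, s⟩ ⟨y', s'⟩ hff
    have h1 : (rep y : G) * (s : G) = (rep y' : G) * (s' : G) := congrArg Subtype.val hff
    have h2 : (y : L) = (y' : L) := by
      rw [← hrep y, ← hrep y']
      have := congrArg (fun g : G => g • z) h1
      simp only [mul_smul, hS s.1 s.2, hS s'.1 s'.2] at this
      exact this
    have h3 : y = y' := Subtype.ext h2
    subst h3
    have h4 : (s : G) = (s' : G) := mul_left_cancel h1
    rw [Subtype.ext h4]
  have := Fintype.card_le_of_injective f hf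
  rwa [Fintype.card_prod, Fintype.card_coe] at this

/-- **Lagrange descent.** -/
theorem exists_poly_of_stab (H : Subgroup G) [Fintype ↥H] (z x : L)
    (hstab : ∀ σ ∈ H, σ • z = z → σ • x = x) :
    ∃ g : L[X], (∀ j, g.coeff j ∈ Fix (L := L) H) ∧ g.degree < (orb H z).card ∧ g.eval z = x := by
  classical
  let r : L → L := fun y => if hy : ∃ σ : ↥H, (σ : G) • z = y then ((Classical.choose hy : ↥H) : G) • x else 0
  have hr : ∀ σ ∈ H, r (σ • z) = σ • x := by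
    intro σ hσ
    have hy : ∃ σ' : ↥H, (σ' : G) • z = σ • z := ⟨⟨σ, hσ⟩, rfl⟩
    have h1 : r (σ • z) = ((Classical.choose hy : ↥H) : G) • x := dif_pos hy
    have h2 := Classical.choose_spec hy
    set σ' := Classical.choose hy
    have h3 : (σ⁻¹ * (σ' : G)) • z = z := by rw [mul_smul, h2, inv_smul_smul]
    have h4 := hstab _ (H.mul_mem (H.inv_mem hσ) σ'.2) h3
    rw [h1]
    rw [mul_smul, inv_smul_eq_iff] at h4
    exact h4
  have hinj : Set.InjOn (id : L → L) ↑(orb H z) := Function.injective_id.injOn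
  set g := Lagrange.interpolate (orb H z) id r with hg
  have hdeg : g.degree < (orb H z).card := Lagrange.degree_interpolate_lt r hinj
  have heval : ∀ y ∈ orb H z, g.eval y = r y := fun y hy =>
    Lagrange.eval_interpolate_at_node r hinj hy
  refine ⟨g, fun j => ?_, hdeg, ?_⟩
  · rw [mem_Fix]
    intro τ hτ
    have hτg : τ • g = g := by
      refine Lagrange.eq_interpolate_of_eval_eq r hinj ?_ ?_
      · rw [Polynomial.smul_eq_map]
        exact lt_of_le_of_lt degree_map_le hdeg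
      · intro y hy
        obtain ⟨σ, hσ, rfl⟩ := mem_orb.1 hy
        have h1 : σ • z = τ • ((τ⁻¹ * σ) • z) := by rw [mul_smul, smul_inv_smul]
        show eval (σ • z) (τ • g) = r (σ • z)
        rw [h1, Polynomial.smul_eval_smul, heval _ (mem_orb.2 ⟨τ⁻¹ * σ, H.mul_mem (H.inv_mem hτ) hσ, rfl⟩),
          hr _ (H.mul_mem (H.inv_mem hτ) hσ), ← h1, hr σ hσ, mul_smul, smul_inv_smul]
    have h2 : (τ • g).coeff j = τ • g.coeff j := by
      rw [Polynomial.smul_eq_map, coeff_map]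
      rfl
    rw [← h2, hτg]
  · rw [heval z (self_mem_orb H z)]
    have := hr 1 H.one_mem
    rwa [one_smul, one_smul] at this

variable {w : DVal L}

/-- the stabiliser of an element of `L^{H₁}` of order `#H₁` is `H₁`. -/
theorem stabilizer_eq (h : Ram w G) [Finite G] {H₁ : Subgroup G} {π₁ : L} (hπ₁0 : π₁ ≠ 0)
    (hπ₁H : π₁ ∈ Fix (L := L) H₁) (hπ₁ : w.ord π₁ = Nat.card ↥H₁) {σ : G} (hσ : σ • π₁ = π₁) :
    σ ∈ H₁ := by
  set S := MulAction.stabilizer G π₁ with hS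
  have hle : H₁ ≤ S := fun τ hτ => MulAction.mem_stabilizer_iff.2 (mem_Fix.1 hπ₁H τ hτ)
  have hfix : π₁ ∈ Fix (L := L) S := mem_Fix.2 fun τ hτ => MulAction.mem_stabilizer_iff.1 hτ
  have hdvd := h.card_dvd_ord S hπ₁0 hfix
  rw [hπ₁] at hdvd
  have hpos : 0 < Nat.card ↥H₁ := Nat.card_pos
  have hcard : Nat.card ↥S ≤ Nat.card ↥H₁ := Nat.le_of_dvd hpos (by exact_mod_cast hdvd)
  have := Subgroup.eq_of_le_of_card_ge hle hcard
  rw [this]
  exact MulAction.mem_stabilizer_iff.2 hσ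

/-- terms `a π₁^i`, `b π₁^j` with `a, b ∈ L^{H₂}` and `i < j`, `j #H₁ < #H₂` have distinct orders. -/
theorem ord_term_ne (h : Ram w G) [Finite G] {H₁ H₂ : Subgroup G} {π₁ : L} (hπ₁0 : π₁ ≠ 0)
    (hπ₁ : w.ord π₁ = Nat.card ↥H₁) {a b : L} (ha : a ∈ Fix (L := L) H₂) (hb : b ∈ Fix (L := L) H₂)
    (ha0 : a ≠ 0) (hb0 : b ≠ 0) {i j : ℕ} (hij : i < j) (hj : j * Nat.card ↥H₁ < Nat.card ↥H₂) :
    w.ord (a * π₁ ^ i) ≠ w.ord (b * π₁ ^ j) := by
  rw [w.ord_mul ha0 (pow_ne_zero _ hπ₁0), w.ord_mul hb0 (pow_ne_zero _ hπ₁0), w.ord_pow hπ₁0,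
    w.ord_pow hπ₁0, hπ₁]
  obtain ⟨u, hu⟩ := h.card_dvd_ord H₂ ha0 ha
  obtain ⟨v, hv⟩ := h.card_dvd_ord H₂ hb0 hb
  rw [hu, hv]
  intro heq
  have hpos : 0 < Nat.card ↥H₁ := Nat.card_pos
  have h1 : ((j : ℤ) - i) * (Nat.card ↥H₁ : ℤ) = (Nat.card ↥H₂ : ℤ) * (u - v) := by linarith
  have h2 : (0 : ℤ) < ((j : ℤ) - i) * (Nat.card ↥H₁ : ℤ) := by
    apply mul_pos
    · have : (i : ℤ) < j := by exact_mod_cast hij
      omega
    · exact_mod_cast hpos
  have h3 : ((j : ℤ) - i) * (Nat.card ↥H₁ : ℤ) < (Nat.card ↥H₂ : ℤ) := by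
    have h4 : ((j * Nat.card ↥H₁ : ℕ) : ℤ) < (Nat.card ↥H₂ : ℤ) := by exact_mod_cast hj
    push_cast at h4
    have h5 : (0 : ℤ) ≤ (i : ℤ) * (Nat.card ↥H₁ : ℤ) := by positivity
    nlinarith
  rw [h1] at h2 h3
  have h6 : (0 : ℤ) < (Nat.card ↥H₂ : ℤ) := by
    have : 0 < Nat.card ↥H₂ := Nat.card_pos
    exact_mod_cast this
  have h7 : 0 < u - v := by
    by_contra hcon
    rw [not_lt] at hcon
    nlinarith
  nlinarith

/-- the terms of `∑_{j<n} a_j π₁^j` (`a_j ∈ L^{H₂}`, `(n-1) #H₁ < #H₂`): each is `Ge` the order of the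
sum, and the sum is nonzero unless all `a_j` vanish. -/
theorem sum_terms (h : Ram w G) [Finite G] {H₁ H₂ : Subgroup G} {π₁ : L} (hπ₁0 : π₁ ≠ 0)
    (hπ₁ : w.ord π₁ = Nat.card ↥H₁) (a : ℕ → L) (ha : ∀ j, a j ∈ Fix (L := L) H₂) (n : ℕ)
    (hn : ∀ j, j < n → j * Nat.card ↥H₁ < Nat.card ↥H₂) (hne : ∃ j, j < n ∧ a j ≠ 0) :
    ∑ j ∈ Finset.range n, a j * π₁ ^ j ≠ 0 ∧
      ∀ j, j < n → w.Ge (w.ord (∑ j ∈ Finset.range n, a j * π₁ ^ j)) (a j * π₁ ^ j) := by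
  have hdist : ∀ i ∈ Finset.range n, ∀ j ∈ Finset.range n, i ≠ j → a i * π₁ ^ i ≠ 0 →
      a j * π₁ ^ j ≠ 0 → w.ord (a i * π₁ ^ i) ≠ w.ord (a j * π₁ ^ j) := by
    intro i hi j hj hij hi0 hj0
    have hai : a i ≠ 0 := left_ne_zero_of_mul hi0
    have haj : a j ≠ 0 := left_ne_zero_of_mul hj0
    rcases lt_or_gt_of_ne hij with hlt | hlt
    · exact ord_term_ne h hπ₁0 hπ₁ (ha i) (ha j) hai haj hlt (hn j (Finset.mem_range.1 hj))
    · exact (ord_term_ne h hπ₁0 hπ₁ (ha j) (ha i) haj hai hlt (hn i (Finset.mem_range.1 hi))).symm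
  obtain ⟨j0, hj0, haj0⟩ := hne
  obtain ⟨h1, h2⟩ := w.ord_sum_of_distinct (Finset.range n) (fun j => a j * π₁ ^ j) hdist
    ⟨j0, Finset.mem_range.2 hj0, mul_ne_zero haj0 (pow_ne_zero _ hπ₁0)⟩
  exact ⟨h1, fun j hj => h2 j (Finset.mem_range.2 hj)⟩

/-- linear independence of the powers of `π₁` over `L^{H₂}`. -/
theorem eq_zero_of_sum_eq_zero (h : Ram w G) [Finite G] {H₁ H₂ : Subgroup G} {π₁ : L}
    (hπ₁0 : π₁ ≠ 0) (hπ₁ : w.ord π₁ = Nat.card ↥H₁) (a : ℕ → L) (ha : ∀ j, a j ∈ Fix (L := L) H₂)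
    (n : ℕ) (hn : ∀ j, j < n → j * Nat.card ↥H₁ < Nat.card ↥H₂)
    (hsum : ∑ j ∈ Finset.range n, a j * π₁ ^ j = 0) (j : ℕ) (hj : j < n) : a j = 0 := by
  by_contra hne
  exact (sum_terms h hπ₁0 hπ₁ a ha n hn ⟨j, hj, hne⟩).1 hsum

/-- **integral expansions**: `O_{L^{H₁}} = O_{L^{H₂}}[π₁]`. -/
theorem exists_expansion (h : Ram w G) [Finite G] {H₁ H₂ : Subgroup G} (hle : H₁ ≤ H₂) {π₁ : L}
    (hπ₁0 : π₁ ≠ 0) (hπ₁H : π₁ ∈ Fix (L := L) H₁) (hπ₁ : w.ord π₁ = Nat.card ↥H₁) {x : L}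
    (hxH : x ∈ Fix (L := L) H₁) :
    ∃ g : L[X], (∀ j, g.coeff j ∈ Fix (L := L) H₂) ∧
      g.natDegree * Nat.card ↥H₁ < Nat.card ↥H₂ ∧ g.eval π₁ = x ∧
      (w.Ge 0 x → ∀ j, w.Ge 0 (g.coeff j)) := by
  classical
  let _i1 : Fintype ↥H₁ := Fintype.ofFinite _
  let _i2 : Fintype ↥H₂ := Fintype.ofFinite _
  have hstab : ∀ σ ∈ H₂, σ • π₁ = π₁ → σ • x = x := fun σ _ hσ =>
    mem_Fix.1 hxH σ (stabilizer_eq h hπ₁0 hπ₁H hπ₁ hσ)
  obtain ⟨g, hgH, hgdeg, hgx⟩ := exists_poly_of_stab H₂ π₁ x hstab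
  have hcard := card_orb_mul_le H₂ H₁ hle π₁ (fun σ hσ => mem_Fix.1 hπ₁H σ hσ)
  rw [← Nat.card_eq_fintype_card, ← Nat.card_eq_fintype_card] at hcard
  have hpos1 : 0 < Nat.card ↥H₁ := Nat.card_pos
  have hpos2 : 0 < Nat.card ↥H₂ := Nat.card_pos
  have hnat : g.natDegree * Nat.card ↥H₁ < Nat.card ↥H₂ := by
    rcases eq_or_ne g 0 with rfl | hg0
    · simpa using hpos2
    · have h1 : g.natDegree < (orb H₂ π₁).card := by
        rw [degree_eq_natDegree hg0] at hgdeg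
        exact_mod_cast hgdeg
      calc g.natDegree * Nat.card ↥H₁ < (orb H₂ π₁).card * Nat.card ↥H₁ :=
            Nat.mul_lt_mul_of_pos_right h1 hpos1
        _ ≤ Nat.card ↥H₂ := hcard
  refine ⟨g, hgH, hnat, hgx, fun hx j => ?_⟩
  rcases eq_or_ne (g.coeff j) 0 with h0 | h0
  · exact Or.inl h0
  have hjle : j ≤ g.natDegree := le_natDegree_of_ne_zero h0
  set n := g.natDegree + 1 with hn
  have hsum : x = ∑ i ∈ Finset.range n, g.coeff i * π₁ ^ i := by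
    rw [← hgx, eval_eq_sum_range]
  have hnb : ∀ i, i < n → i * Nat.card ↥H₁ < Nat.card ↥H₂ := by
    intro i hi
    have : i ≤ g.natDegree := by omega
    exact lt_of_le_of_lt (Nat.mul_le_mul_right _ this) hnat
  obtain ⟨hs0, hsge⟩ := sum_terms h hπ₁0 hπ₁ g.coeff hgH n hnb ⟨j, by omega, h0⟩
  rw [← hsum] at hs0 hsge
  have hx0 : 0 ≤ w.ord x := (ge_iff hs0).1 hx
  have hterm := hsge j (by omega)
  have hterm0 : g.coeff j * π₁ ^ j ≠ 0 := mul_ne_zero h0 (pow_ne_zero _ hπ₁0)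
  have h1 := (ge_iff hterm0).1 hterm
  rw [w.ord_mul h0 (pow_ne_zero _ hπ₁0), w.ord_pow hπ₁0, hπ₁] at h1
  obtain ⟨u, hu⟩ := h.card_dvd_ord H₂ h0 (hgH j)
  right
  rw [hu] at h1 ⊢
  have h2 : ((j * Nat.card ↥H₁ : ℕ) : ℤ) < (Nat.card ↥H₂ : ℤ) := by
    exact_mod_cast hnb j (by omega)
  push_cast at h2
  have h3 : (0 : ℤ) < (Nat.card ↥H₂ : ℤ) := by exact_mod_cast hpos2
  have h4 : -1 < u := by
    by_contra hcon
    rw [not_lt] at hcon
    nlinarith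
  nlinarith

end Fermat.Agent.W56.RamExp7
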