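/-
Programme W56 (target S56), chapter (F) FLAT, ramification side (helper7): **the lower numbering
function `i_G` and the converse Krasner bound** (Mathlib only).

Setting of `RamFund7` (`Ram w G`), `π` a uniformiser of `L` (`ord π = 1`).

* `iF π σ = ord (σ π - π)` (`σ ≠ 1`): `one_le_iF`, `iF_inv`, `le_iF_mul`;
* `tr d σ = min (d, i(σ))` (`= d` at `σ = 1`), `Hf d = ∑_σ tr d σ`;
* `sum_ord_sub` (the `L`-layer lemma): for `β ∈ L` different from all conjugates of `π`,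
  `∑_σ ord (β - σ π) = Hf d` with `d = max_σ ord (β - σ π)`;
* `CK π P e` : the **conclusion of the converse Krasner argument**, as a hypothesis: every integer
  `N₀` with `p e < (p-1) N₀` is `∑_σ ord (β - σ π)` for some `β ∈ L` (this is what Fontaine's
  property (P_m) delivers, `m > p/(p-1)`);
* `krasner_bound` : under `CK`, `(p-1) (Hf d_max - 1) ≤ p e`, where `d_max = max_{σ ≠ 1} i(σ)`
  (the integers strictly between `Hf (d_max - 1)` and `Hf d_max` are not values of `Hf`);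
* **`ram_bound`** : if moreover `H' ≤ N₁ ≤ G` with `#N₁ = p #H'` and every coset sum
  `∑_{h ∈ H'} i(σ h)`, `σ ∈ N₁ \ H'`, is at least `T`, then
  `(p-1) (#G - #N₁ + p T - 1) ≤ p e`.
-/
import Mathlib
import Fermat.Agent.W56.RamExp7

set_option autoImplicit false

namespace Fermat.Agent.W56.RamKras7

open Finset Fermat.Agent.W56.RamBase7 Fermat.Agent.W56.RamBase7.DVal
  Fermat.Agent.W56.RamFund7 Fermat.Agent.W56.RamExp7

variable {L : Type*} [Field L] {G : Type*} [Group G] [MulSemiringAction G L] {w : DVal L}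

/-- `i_G(σ) = ord (σ π - π)`. -/
def iF (w : DVal L) (π : L) (σ : G) : ℤ := w.ord (σ • π - π)

section basic

variable (h : Ram w G) [Finite G] {π : L} (hπ0 : π ≠ 0) (hπ : w.ord π = 1)
include h hπ0 hπ

theorem smul_sub_ne_zero {σ : G} (hσ : σ ≠ 1) : σ • π - π ≠ 0 := by
  intro h0
  apply hσ
  have h1 : σ • π = π := sub_eq_zero.1 h0
  have h2 : π ∈ Fix (L := L) (⊥ : Subgroup G) := mem_Fix.2 fun τ hτ => by
    rw [Subgroup.mem_bot.1 hτ, one_smul]
  have h3 : w.ord π = Nat.card ↥(⊥ : Subgroup G) := by rw [Subgroup.card_bot, hπ]; rfl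
  exact Subgroup.mem_bot.1 (stabilizer_eq h hπ0 h2 h3 h1)

theorem smul_sub_smul_ne_zero {σ τ : G} (hστ : σ ≠ τ) : σ • π - τ • π ≠ 0 := by
  have h1 : τ⁻¹ * σ ≠ 1 := fun h1 => hστ (by rw [inv_mul_eq_one] at h1; exact h1.symm)
  have h2 := smul_sub_ne_zero h hπ0 hπ h1
  intro h0
  apply h2
  have : (τ⁻¹ * σ) • π - π = τ⁻¹ • (σ • π - τ • π) := by
    rw [smul_sub, mul_smul, inv_smul_smul]
  rw [this, h0, smul_zero]

omit [Finite G] hπ0 hπ in
theorem ord_smul_sub_smul (σ τ : G) : w.ord (σ • π - τ • π) = iF w π (τ⁻¹ * σ) := by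
  unfold iF
  have : (τ⁻¹ * σ) • π - π = τ⁻¹ • (σ • π - τ • π) := by
    rw [smul_sub, mul_smul, inv_smul_smul]
  rw [this, h.inv]

theorem one_le_iF {σ : G} (hσ : σ ≠ 1) : 1 ≤ iF w π σ := by
  have h1 : w.Ge 1 (σ • π - π) :=
    (h.ge_smul σ (Or.inr hπ.ge)).sub (Or.inr hπ.ge)
  exact (ge_iff (smul_sub_ne_zero h hπ0 hπ hσ)).1 h1

omit [Finite G] hπ0 hπ in
theorem iF_inv (σ : G) : iF w π σ⁻¹ = iF w π σ := by
  unfold iF
  have : σ⁻¹ • π - π = -(σ⁻¹ • (σ • π - π)) := by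
    rw [smul_sub, inv_smul_smul]; ring
  rw [this, w.ord_neg, h.inv]

theorem le_iF_mul {σ τ : G} (hστ : σ * τ ≠ 1) :
    min (iF w π σ) (iF w π τ) ≤ iF w π (σ * τ) := by
  unfold iF
  have h1 : (σ * τ) • π - π = σ • (τ • π - π) + (σ • π - π) := by
    rw [smul_sub, mul_smul]; ring
  have h2 : w.Ge (min (w.ord (σ • π - π)) (w.ord (τ • π - π))) ((σ * τ) • π - π) := by
    rw [h1]
    refine Ge.add ?_ ?_
    · refine (h.ge_smul σ (w.ge_ord _)).mono (min_le_right _ _)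
    · exact (w.ge_ord _).mono (min_le_left _ _)
  exact (ge_iff (smul_sub_ne_zero h hπ0 hπ hστ)).1 h2

end basic

open scoped Classical in
/-- `min (d, i(σ))`, with `i(1) = ∞`. -/
noncomputable def tr (w : DVal L) (π : L) (d : ℤ) (σ : G) : ℤ :=
  if σ = 1 then d else min d (iF w π σ)

theorem tr_one (π : L) (d : ℤ) : tr w π d (1 : G) = d := by
  unfold tr; rw [if_pos rfl]

theorem tr_of_ne (π : L) (d : ℤ) {σ : G} (hσ : σ ≠ 1) : tr w π d σ = min d (iF w π σ) := by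
  unfold tr; rw [if_neg hσ]

theorem tr_mono (π : L) {d d' : ℤ} (hd : d ≤ d') (σ : G) : tr w π d σ ≤ tr w π d' σ := by
  classical
  unfold tr
  split_ifs
  · exact hd
  · exact min_le_min_right _ hd

theorem tr_le (π : L) (d : ℤ) (σ : G) : tr w π d σ ≤ d := by
  classical
  unfold tr
  split_ifs
  · exact le_rfl
  · exact min_le_left _ _

/-- `H(d) = ∑_σ min (d, i(σ))`. -/
noncomputable def Hf [Fintype G] (w : DVal L) (π : L) (d : ℤ) : ℤ := ∑ σ : G, tr w π d σ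

theorem Hf_mono [Fintype G] (π : L) {d d' : ℤ} (hd : d ≤ d') :
    Hf (G := G) w π d + (d' - d) ≤ Hf (G := G) w π d' := by
  classical
  unfold Hf
  rw [← Finset.add_sum_erase _ _ (Finset.mem_univ (1 : G)),
    ← Finset.add_sum_erase _ (fun σ => tr w π d' σ) (Finset.mem_univ (1 : G)), tr_one, tr_one]
  have : ∑ σ ∈ Finset.univ.erase (1 : G), tr w π d σ ≤ ∑ σ ∈ Finset.univ.erase (1 : G), tr w π d' σ :=
    Finset.sum_le_sum fun σ _ => tr_mono π hd σ
  linarith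

section layer

variable (h : Ram w G) [Fintype G] {π : L} (hπ0 : π ≠ 0) (hπ : w.ord π = 1)
include h hπ0 hπ

/-- **the `L`-layer lemma.** -/
theorem sum_ord_sub (β : L) (hβ : ∀ σ : G, β ≠ σ • π) :
    ∃ d : ℤ, ∑ σ : G, w.ord (β - σ • π) = Hf (G := G) w π d := by
  classical
  obtain ⟨σ0, -, hmax⟩ := Finset.exists_max_image (Finset.univ : Finset G)
    (fun σ => w.ord (β - σ • π)) ⟨1, Finset.mem_univ _⟩
  set d := w.ord (β - σ0 • π) with hd
  refine ⟨d, ?_⟩
  have hne : ∀ σ : G, β - σ • π ≠ 0 := fun σ => sub_ne_zero.2 (hβ σ)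
  have key : ∀ σ : G, w.ord (β - σ • π) = tr w π d (σ0⁻¹ * σ) := by
    intro σ
    rcases eq_or_ne σ σ0 with rfl | hσ
    · rw [inv_mul_cancel, tr_one]
    have hσ' : σ0⁻¹ * σ ≠ 1 := fun h1 => hσ (by rw [inv_mul_eq_one] at h1; exact h1.symm)
    rw [tr_of_ne π d hσ', ← ord_smul_sub_smul h σ σ0]
    have hle : w.ord (β - σ • π) ≤ d := hmax σ (Finset.mem_univ _)
    have hdec : β - σ • π = (β - σ0 • π) - (σ • π - σ0 • π) := by ring
    have hne2 : σ • π - σ0 • π ≠ 0 := smul_sub_smul_ne_zero h hπ0 hπ hσ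
    set i := w.ord (σ • π - σ0 • π) with hi
    rcases lt_trichotomy i d with hlt | heq | hgt
    · -- the difference of conjugates dominates
      have h1 : β - σ • π = -((σ • π - σ0 • π) - (β - σ0 • π)) := by ring
      rw [h1, w.ord_neg, min_eq_right hlt.le]
      exact (ord_sub_eq_of_ge hne2 (Or.inr (by omega))).2
    · rw [heq, min_self]
      refine le_antisymm hle ?_
      have h1 : w.Ge d (β - σ • π) := by
        rw [hdec]
        exact (w.ge_ord _).sub (Or.inr heq.ge)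
      exact (ge_iff (hne σ)).1 h1
    · rw [hdec, min_eq_left hgt.le]
      exact (ord_sub_eq_of_ge (hne σ0) (Or.inr (by omega))).2
  unfold Hf
  rw [Finset.sum_congr rfl fun σ _ => key σ]
  exact Fintype.sum_equiv (Equiv.mulLeft σ0⁻¹) _ _ fun σ => rfl

/-- the conclusion of the converse Krasner argument. -/
def CK (w : DVal L) (G : Type*) [Group G] [Fintype G] [MulSemiringAction G L] (π : L) (P e : ℤ) :
    Prop :=
  ∀ N₀ : ℤ, P * e < (P - 1) * N₀ →
    ∃ β : L, (∀ σ : G, β ≠ σ • π) ∧ ∑ σ : G, w.ord (β - σ • π) = N₀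

/-- **the converse Krasner bound**: `(p-1) (H(d_max) - 1) ≤ p e`. -/
theorem krasner_bound {P e : ℤ} (hCK : CK w G π P e) {σ1 : G} (hσ1 : σ1 ≠ 1)
    (hmax : ∀ σ : G, σ ≠ 1 → iF w π σ ≤ iF w π σ1) :
    (P - 1) * (Hf (G := G) w π (iF w π σ1) - 1) ≤ P * e := by
  classical
  by_contra hcon
  rw [not_le] at hcon
  obtain ⟨β, hβ, hsum⟩ := hCK _ hcon
  obtain ⟨d, hd⟩ := sum_ord_sub h hπ0 hπ β hβ
  rw [hsum] at hd
  set D := iF w π σ1 with hD
  -- `Hf (D - 1) + 2 ≤ Hf D`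
  have hjump : Hf (G := G) w π (D - 1) + 2 ≤ Hf (G := G) w π D := by
    unfold Hf
    have h1 : ∀ σ : G, tr w π (D - 1) σ + (if σ = 1 ∨ σ = σ1 then 1 else 0) ≤ tr w π D σ := by
      intro σ
      split_ifs with hc
      · rcases hc with rfl | rfl
        · rw [tr_one, tr_one]; omega
        · rw [tr_of_ne π _ hσ1, tr_of_ne π _ hσ1, ← hD, min_self, min_eq_left (by omega)]
          omega
      · rw [add_zero]; exact tr_mono π (by omega) σ
    have h2 := Finset.sum_le_sum fun σ (_ : σ ∈ (Finset.univ : Finset G)) => h1 σ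
    rw [Finset.sum_add_distrib] at h2
    have h3 : ∑ σ : G, (if σ = 1 ∨ σ = σ1 then (1 : ℤ) else 0) = 2 := by
      rw [Finset.sum_ite, Finset.sum_const_zero, add_zero, Finset.sum_const, nsmul_eq_mul, mul_one]
      have : (Finset.univ.filter fun σ : G => σ = 1 ∨ σ = σ1) = {1, σ1} := by
        ext σ; simp
      rw [this, Finset.card_pair (Ne.symm hσ1)]
      rfl
    rw [h3] at h2
    exact h2
  rcases le_or_gt d (D - 1) with hle | hgt
  · have := Hf_mono (G := G) (w := w) π hle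
    omega
  · have := Hf_mono (G := G) (w := w) π (show D ≤ d by omega)
    omega

open scoped Classical in
/-- **the ramification bound**: `(p-1) (#G - #N₁ + p T - 1) ≤ p e`. -/
theorem ram_bound {P e : ℤ} (hP : 1 < P) (hCK : CK w G π P e) (N₁ H' : Subgroup G)
    (hH'N : H' ≤ N₁) (hcard : (Nat.card ↥N₁ : ℤ) = P * Nat.card ↥H') (T : ℤ)
    (hT : ∀ σ ∈ N₁, σ ∉ H' → T ≤ ∑ τ ∈ Finset.univ.filter (· ∈ H'), iF w π (σ * τ)) :
    (P - 1) * ((Fintype.card G : ℤ) - Nat.card ↥N₁ + P * T - 1) ≤ P * e := by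
  classical
  have hH'pos : (0 : ℤ) < Nat.card ↥H' := by
    have : 0 < Nat.card ↥H' := Nat.card_pos
    exact_mod_cast this
  -- an element of `N₁ \ H'`
  have hex : ∃ σ ∈ N₁, σ ∉ H' := by
    by_contra hcon
    push Not at hcon
    have : N₁ = H' := le_antisymm hcon hH'N
    rw [this] at hcard
    nlinarith
  obtain ⟨σa, hσaN, hσaH⟩ := hex
  have hσa1 : σa ≠ 1 := fun h1 => hσaH (h1 ▸ H'.one_mem)
  -- `d_max`
  obtain ⟨σ1, hσ1mem, hmax'⟩ := Finset.exists_max_image (Finset.univ.filter fun σ : G => σ ≠ 1)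
    (fun σ => iF w π σ) ⟨σa, Finset.mem_filter.2 ⟨Finset.mem_univ _, hσa1⟩⟩
  have hσ1 : σ1 ≠ 1 := (Finset.mem_filter.1 hσ1mem).2
  have hmax : ∀ σ : G, σ ≠ 1 → iF w π σ ≤ iF w π σ1 := fun σ hσ =>
    hmax' σ (Finset.mem_filter.2 ⟨Finset.mem_univ _, hσ⟩)
  have hK := krasner_bound h hπ0 hπ hCK hσ1 hmax
  set D := iF w π σ1 with hD
  have hD1 : 1 ≤ D := one_le_iF h hπ0 hπ hσ1
  have htr1 : ∀ σ : G, 1 ≤ tr w π D σ := by
    intro σ
    rcases eq_or_ne σ 1 with rfl | hσ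
    · rw [tr_one]; exact hD1
    · rw [tr_of_ne π _ hσ]; exact le_min hD1 (one_le_iF h hπ0 hπ hσ)
  have htrne : ∀ σ : G, σ ≠ 1 → tr w π D σ = iF w π σ := fun σ hσ => by
    rw [tr_of_ne π _ hσ]; exact min_eq_right (hmax σ hσ)
  set sN := Finset.univ.filter fun σ : G => σ ∈ N₁ with hsN
  set sH := Finset.univ.filter fun σ : G => σ ∈ H' with hsH
  have hsNcard : (sN.card : ℤ) = Nat.card ↥N₁ := by
    rw [hsN, Nat.card_eq_fintype_card, Fintype.card_subtype]
  have hsHcard : (sH.card : ℤ) = Nat.card ↥H' := by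
    rw [hsH, Nat.card_eq_fintype_card, Fintype.card_subtype]
  have hsub : sH ⊆ sN := fun σ hσ =>
    Finset.mem_filter.2 ⟨Finset.mem_univ _, hH'N (Finset.mem_filter.1 hσ).2⟩
  -- (1) `Hf D ≥ (#G - #N₁) + ∑_{N₁} tr`
  have hstep1 : (Fintype.card G : ℤ) - Nat.card ↥N₁ + ∑ σ ∈ sN, tr w π D σ ≤ Hf (G := G) w π D := by
    unfold Hf
    rw [← Finset.sum_filter_add_sum_filter_not Finset.univ (fun σ : G => σ ∈ N₁)]
    have h1 : ((Finset.univ.filter fun σ : G => ¬ σ ∈ N₁).card : ℤ) ≤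
        ∑ σ ∈ Finset.univ.filter (fun σ : G => ¬ σ ∈ N₁), tr w π D σ := by
      have := Finset.card_nsmul_le_sum (Finset.univ.filter fun σ : G => ¬ σ ∈ N₁)
        (fun σ => tr w π D σ) 1 fun σ _ => htr1 σ
      simpa using this
    have h2 : ((Finset.univ.filter fun σ : G => ¬ σ ∈ N₁).card : ℤ) =
        (Fintype.card G : ℤ) - Nat.card ↥N₁ := by
      have := Finset.card_filter_add_card_filter_not (s := (Finset.univ : Finset G))
        (fun σ : G => σ ∈ N₁)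
      rw [Finset.card_univ] at this
      rw [← hsNcard, hsN]
      omega
    linarith
  -- (2) the sum over `N₁ \ H'`
  have hstep2 : (P - 1) * T ≤ ∑ σ ∈ sN \ sH, iF w π σ := by
    have hmemD : ∀ σ : G, σ ∈ sN \ sH ↔ σ ∈ N₁ ∧ σ ∉ H' := by
      intro σ
      rw [Finset.mem_sdiff, hsN, hsH, Finset.mem_filter, Finset.mem_filter]
      simp
    have h1 : ∑ σ ∈ sN \ sH, T ≤ ∑ σ ∈ sN \ sH, ∑ τ ∈ sH, iF w π (σ * τ) :=
      Finset.sum_le_sum fun σ hσ => hT σ ((hmemD σ).1 hσ).1 ((hmemD σ).1 hσ).2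
    rw [Finset.sum_comm] at h1
    have h2 : ∀ τ ∈ sH, ∑ σ ∈ sN \ sH, iF w π (σ * τ) = ∑ σ ∈ sN \ sH, iF w π σ := by
      intro τ hτ
      have hτH : τ ∈ H' := (Finset.mem_filter.1 hτ).2
      refine Finset.sum_bij (fun σ _ => σ * τ) ?_ ?_ ?_ ?_
      · intro σ hσ
        rw [hmemD] at hσ ⊢
        exact ⟨N₁.mul_mem hσ.1 (hH'N hτH), fun hc => hσ.2 ((Subgroup.mul_mem_cancel_right H' hτH).1 hc)⟩
      · intro σ _ σ' _ hss
        exact mul_right_cancel hss
      · intro σ hσ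
        rw [hmemD] at hσ
        refine ⟨σ * τ⁻¹, ?_, by rw [inv_mul_cancel_right]⟩
        rw [hmemD]
        exact ⟨N₁.mul_mem hσ.1 (N₁.inv_mem (hH'N hτH)),
          fun hc => hσ.2 ((Subgroup.mul_mem_cancel_right H' (H'.inv_mem hτH)).1 hc)⟩
      · intro σ _; rfl
    rw [Finset.sum_congr rfl h2, Finset.sum_const, Finset.sum_const, nsmul_eq_mul, nsmul_eq_mul] at h1
    have h3 : ((sN \ sH).card : ℤ) = (P - 1) * Nat.card ↥H' := by
      have := Finset.card_sdiff_add_card_eq_card hsub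
      have h4 : ((sN \ sH).card : ℤ) + sH.card = sN.card := by exact_mod_cast this
      rw [hsNcard, hsHcard, hcard] at h4
      linarith
    rw [h3, hsHcard] at h1
    have h5 : (Nat.card ↥H' : ℤ) * ((P - 1) * T) ≤ (Nat.card ↥H' : ℤ) * ∑ σ ∈ sN \ sH, iF w π σ := by
      linarith
    exact le_of_mul_le_mul_left h5 hH'pos
  -- (3) the sum over `H'`
  have hstep3 : T ≤ ∑ τ ∈ sH, tr w π D τ := by
    -- the element of maximal `i` in the coset `σa H'`
    obtain ⟨τ0, hτ0mem, hτ0max⟩ := Finset.exists_max_image sH (fun τ => iF w π (σa * τ))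
      ⟨1, Finset.mem_filter.2 ⟨Finset.mem_univ _, H'.one_mem⟩⟩
    have hτ0H : τ0 ∈ H' := (Finset.mem_filter.1 hτ0mem).2
    set σb := σa * τ0 with hσb
    have hσbN : σb ∈ N₁ := N₁.mul_mem hσaN (hH'N hτ0H)
    have hσbH : σb ∉ H' := fun hc => hσaH ((Subgroup.mul_mem_cancel_right H' hτ0H).1 hc)
    have hσb1 : σb ≠ 1 := fun h1 => hσbH (h1 ▸ H'.one_mem)
    have hσbmax : ∀ τ ∈ H', iF w π (σb * τ) ≤ iF w π σb := by
      intro τ hτ
      have := hτ0max (τ0 * τ) (Finset.mem_filter.2 ⟨Finset.mem_univ _, H'.mul_mem hτ0H hτ⟩)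
      rw [← mul_assoc] at this
      exact this
    refine (hT σb hσbN hσbH).trans (Finset.sum_le_sum fun τ hτ => ?_)
    have hτH : τ ∈ H' := (Finset.mem_filter.1 hτ).2
    have hστ1 : σb * τ ≠ 1 := fun h1 => hσbH (by
      have : σb = τ⁻¹ := eq_inv_of_mul_eq_one_left h1
      rw [this]; exact H'.inv_mem hτH)
    rcases eq_or_ne τ 1 with rfl | hτ1
    · rw [mul_one, tr_one]; exact hmax σb hσb1
    · rw [htrne τ hτ1]
      -- `i(τ) ≥ min (i(σb⁻¹), i(σb τ)) = i(σb τ)`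
      have h1 := le_iF_mul h hπ0 hπ (σ := σb⁻¹) (τ := σb * τ)
        (by rw [inv_mul_cancel_left]; exact hτ1)
      rw [inv_mul_cancel_left, iF_inv h] at h1
      have h2 := hσbmax τ hτH
      rw [min_eq_right h2] at h1
      exact h1
  -- assemble
  have hsplit : ∑ σ ∈ sN, tr w π D σ = ∑ σ ∈ sH, tr w π D σ + ∑ σ ∈ sN \ sH, iF w π σ := by
    rw [← Finset.sum_sdiff hsub, add_comm]
    congr 1
    refine Finset.sum_congr rfl fun σ hσ => ?_
    have : σ ∉ H' := by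
      rw [Finset.mem_sdiff] at hσ
      intro hc
      exact hσ.2 (Finset.mem_filter.2 ⟨Finset.mem_univ _, hc⟩)
    exact htrne σ fun h1 => this (h1 ▸ H'.one_mem)
  have hP1 : 0 < P - 1 := by omega
  have hfinal : (Fintype.card G : ℤ) - Nat.card ↥N₁ + P * T - 1 ≤ Hf (G := G) w π D - 1 := by
    rw [hsplit] at hstep1
    linarith
  calc (P - 1) * ((Fintype.card G : ℤ) - Nat.card ↥N₁ + P * T - 1)
      ≤ (P - 1) * (Hf (G := G) w π D - 1) := mul_le_mul_of_nonneg_left hfinal hP1.le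
    _ ≤ P * e := hK

end layer

end Fermat.Agent.W56.RamKras7
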