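/-
Programme W56 (target S56), chapter (F) FLAT, ramification side (helper7): **the quotient formula
for the lower numbering, in the direction needed** (Serre, Corps locaux IV §1 Prop. 3; Mathlib
only).

Setting of `RamFund7` (`Ram w G`), `π` a uniformiser of `L`, `H' ≤ N₁ ≤ G`, `π' ∈ L^{H'}` of order
`#H'` (a uniformiser of `L' = L^{H'}`).

* `ge_eval_sub_eval` : `g(a) - g(b) ∈ (a - b) O` for `g ∈ O[X]`, `a, b ∈ O`;
* `ge_smul_sub` : for `c ∈ O_{L'}` and `σ ∈ N₁` : `ord (σ c - c) ≥ ord (σ π' - π')`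
  (because `O_{L'} = O_{L^{N₁}}[π']`, `RamExp7.exists_expansion`);
* **`le_coset_sum`** : for `σ ∈ N₁ \ H'` : `ord (σ π' - π') ≤ ∑_{τ ∈ H'} i_G(σ τ)`
  (with `f = ∏_{τ ∈ H'} (X - τ π)` : `∏_τ (π - σ τ π) = (σ f - f)(π)`, and the coefficients of `f`
  lie in `O_{L'}`).
-/
import Mathlib
import Fermat.Agent.W56.RamKras7

set_option autoImplicit false

namespace Fermat.Agent.W56.RamQuot7

open Finset Polynomial Fermat.Agent.W56.RamBase7 Fermat.Agent.W56.RamBase7.DVal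
  Fermat.Agent.W56.RamFund7 Fermat.Agent.W56.RamExp7 Fermat.Agent.W56.RamKras7

variable {L : Type*} [Field L] {G : Type*} [Group G] [MulSemiringAction G L] {w : DVal L}

theorem ge_pow_sub_pow {n : ℤ} {a b : L} (ha : w.Ge 0 a) (hb : w.Ge 0 b) (hab : w.Ge n (a - b))
    (j : ℕ) : w.Ge n (a ^ j - b ^ j) := by
  induction j with
  | zero => simpa using Ge.zero n
  | succ j ih =>
    have h1 : a ^ (j + 1) - b ^ (j + 1) = a * (a ^ j - b ^ j) + (a - b) * b ^ j := by ring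
    rw [h1]
    refine Ge.add ?_ ?_
    · have := ha.mul ih
      rwa [zero_add] at this
    · have := hab.mul (hb.pow j)
      rwa [mul_zero, add_zero] at this

/-- `g(a) - g(b) ∈ (a - b) O`. -/
theorem ge_eval_sub_eval {n : ℤ} {a b : L} (ha : w.Ge 0 a) (hb : w.Ge 0 b) (hab : w.Ge n (a - b))
    (g : L[X]) (hg : ∀ j, w.Ge 0 (g.coeff j)) : w.Ge n (g.eval a - g.eval b) := by
  rw [eval_eq_sum_range, eval_eq_sum_range, ← Finset.sum_sub_distrib]
  refine Ge.sum fun j _ => ?_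
  rw [← mul_sub]
  have := (hg j).mul (ge_pow_sub_pow ha hb hab j)
  rwa [zero_add] at this

/-- coefficients of a product of polynomials with integral coefficients are integral. -/
theorem ge_coeff_mul {p q : L[X]} (hp : ∀ j, w.Ge 0 (p.coeff j)) (hq : ∀ j, w.Ge 0 (q.coeff j))
    (j : ℕ) : w.Ge 0 ((p * q).coeff j) := by
  rw [coeff_mul]
  refine Ge.sum fun x _ => ?_
  have := (hp x.1).mul (hq x.2)
  rwa [zero_add] at this

theorem ge_coeff_prod {ι : Type*} (s : Finset ι) (p : ι → L[X])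
    (hp : ∀ i ∈ s, ∀ j, w.Ge 0 ((p i).coeff j)) (j : ℕ) : w.Ge 0 ((∏ i ∈ s, p i).coeff j) := by
  classical
  induction s using Finset.induction_on generalizing j with
  | empty =>
    rw [Finset.prod_empty, coeff_one]
    split_ifs
    · exact Ge.one
    · exact Ge.zero 0
  | insert a s ha ih =>
    rw [Finset.prod_insert ha]
    exact ge_coeff_mul (hp a (Finset.mem_insert_self a s))
      (fun j => ih (fun i hi => hp i (Finset.mem_insert_of_mem hi)) j) j

theorem ge_coeff_X_sub_C {a : L} (ha : w.Ge 0 a) (j : ℕ) : w.Ge 0 ((X - C a : L[X]).coeff j) := by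
  rw [coeff_sub, coeff_X, coeff_C]
  split_ifs
  · simpa using Ge.one.sub ha
  · simpa using Ge.one
  · simpa using ha.neg
  · simpa using Ge.zero 0

theorem smul_X_sub_C (σ : G) (a : L) : σ • (X - C a : L[X]) = X - C (σ • a) := by
  rw [Polynomial.smul_eq_map, Polynomial.map_sub, map_X, map_C]
  rfl

theorem smul_poly_eq_self {H : Subgroup G} {g : L[X]} (hg : ∀ j, g.coeff j ∈ Fix (L := L) H)
    {σ : G} (hσ : σ ∈ H) : σ • g = g := by
  ext j
  rw [Polynomial.smul_eq_map, coeff_map]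
  exact mem_Fix.1 (hg j) σ hσ

theorem coeff_smul_poly (σ : G) (g : L[X]) (j : ℕ) : (σ • g).coeff j = σ • g.coeff j := by
  rw [Polynomial.smul_eq_map, coeff_map]
  rfl

section main

variable (h : Ram w G) [Fintype G] {N₁ H' : Subgroup G} (hle : H' ≤ N₁) {π' : L} (hπ'0 : π' ≠ 0)
  (hπ'H : π' ∈ Fix (L := L) H') (hπ' : w.ord π' = Nat.card ↥H')
include h hle hπ'0 hπ'H hπ'

/-- `ord (σ c - c) ≥ ord (σ π' - π')` for `c ∈ O_{L'}`, `σ ∈ N₁`. -/
theorem ge_smul_sub {σ : G} (hσN : σ ∈ N₁) {c : L} (hcH : c ∈ Fix (L := L) H') (hc : w.Ge 0 c) :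
    w.Ge (w.ord (σ • π' - π')) (σ • c - c) := by
  obtain ⟨g, hgN, -, hgc, hgint⟩ := exists_expansion h hle hπ'0 hπ'H hπ' hcH
  have h1 : σ • c = g.eval (σ • π') := by
    rw [← hgc, ← Polynomial.smul_eval_smul, smul_poly_eq_self hgN hσN]
  rw [h1, ← hgc]
  have hπ'ge : w.Ge 0 π' := Or.inr (by rw [hπ']; positivity)
  exact ge_eval_sub_eval (h.ge_smul σ hπ'ge) hπ'ge (w.ge_ord _) g (hgint hc)

open scoped Classical in
/-- **the quotient formula (one inequality).** -/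
theorem le_coset_sum {π : L} (hπ0 : π ≠ 0) (hπ : w.ord π = 1) {σ : G} (hσN : σ ∈ N₁)
    (hσH : σ ∉ H') :
    w.ord (σ • π' - π') ≤ ∑ τ ∈ Finset.univ.filter (· ∈ H'), iF w π (σ * τ) := by
  set sH := Finset.univ.filter fun τ : G => τ ∈ H' with hsH
  have hmem : ∀ τ : G, τ ∈ sH ↔ τ ∈ H' := fun τ => by rw [hsH, Finset.mem_filter]; simp
  set f : L[X] := ∏ τ ∈ sH, (X - C (τ • π)) with hf
  have hπge : w.Ge 0 π := Or.inr (by rw [hπ]; exact zero_le_one)
  -- the coefficients of `f` are integral and `H'`-fixed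
  have hfint : ∀ j, w.Ge 0 (f.coeff j) :=
    ge_coeff_prod sH _ fun τ _ j => ge_coeff_X_sub_C (h.ge_smul τ hπge) j
  have hfsmul : ∀ ρ : G, ρ • f = ∏ τ ∈ sH, (X - C ((ρ * τ) • π)) := by
    intro ρ
    rw [hf, Polynomial.smul_eq_map, Polynomial.map_prod]
    refine Finset.prod_congr rfl fun τ _ => ?_
    rw [← Polynomial.smul_eq_map, smul_X_sub_C, mul_smul]
  have hfH : ∀ j, f.coeff j ∈ Fix (L := L) H' := by
    intro j
    rw [mem_Fix]
    intro ρ hρ
    rw [← coeff_smul_poly, hfsmul ρ]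
    congr 1
    refine Finset.prod_bij (fun τ _ => ρ * τ) ?_ ?_ ?_ ?_
    · intro τ hτ
      exact (hmem _).2 (H'.mul_mem hρ ((hmem τ).1 hτ))
    · intro τ _ τ' _ htt
      exact mul_left_cancel htt
    · intro τ hτ
      exact ⟨ρ⁻¹ * τ, (hmem _).2 (H'.mul_mem (H'.inv_mem hρ) ((hmem τ).1 hτ)),
        by rw [mul_inv_cancel_left]⟩
    · intro τ _; rfl
  -- `f(π) = 0`
  have hfπ : f.eval π = 0 := by
    rw [hf, eval_prod]
    refine Finset.prod_eq_zero ((hmem 1).2 H'.one_mem) ?_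
    rw [eval_sub, eval_X, eval_C, one_smul, sub_self]
  -- `(σ f)(π) = ∏ (π - σ τ π)`
  have hσfπ : (σ • f).eval π = ∏ τ ∈ sH, (π - (σ * τ) • π) := by
    rw [hfsmul σ, eval_prod]
    refine Finset.prod_congr rfl fun τ _ => ?_
    rw [eval_sub, eval_X, eval_C]
  have hfac0 : ∀ τ ∈ sH, π - (σ * τ) • π ≠ 0 := by
    intro τ hτ h0
    have h1 : σ * τ ≠ 1 := fun h1 => hσH (by
      have : σ = τ⁻¹ := eq_inv_of_mul_eq_one_left h1
      rw [this]; exact H'.inv_mem ((hmem τ).1 hτ))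
    apply smul_sub_ne_zero h hπ0 hπ h1
    rw [← neg_sub, h0, neg_zero]
  have hprod0 : ∏ τ ∈ sH, (π - (σ * τ) • π) ≠ 0 := Finset.prod_ne_zero_iff.2 hfac0
  have hordprod : w.ord (∏ τ ∈ sH, (π - (σ * τ) • π)) = ∑ τ ∈ sH, iF w π (σ * τ) := by
    rw [w.ord_prod _ _ hfac0]
    refine Finset.sum_congr rfl fun τ _ => ?_
    unfold iF
    rw [w.ord_sub_comm]
  -- `(σ f)(π) = ∑ (σ c_k - c_k) π^k`
  have hdiff : (σ • f).eval π = ∑ k ∈ Finset.range (f.natDegree + 1),
      (σ • f.coeff k - f.coeff k) * π ^ k := by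
    have h1 : (σ • f).natDegree < f.natDegree + 1 := by
      rw [Polynomial.smul_eq_map]
      exact Nat.lt_succ_of_le natDegree_map_le
    have h2 : f.eval π = ∑ k ∈ Finset.range (f.natDegree + 1), f.coeff k * π ^ k :=
      eval_eq_sum_range π
    have h3 : (σ • f).eval π = (σ • f).eval π - f.eval π := by rw [hfπ, sub_zero]
    rw [h3, eval_eq_sum_range' h1, h2, ← Finset.sum_sub_distrib]
    refine Finset.sum_congr rfl fun k _ => ?_
    rw [coeff_smul_poly, sub_mul]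
  have hge : w.Ge (w.ord (σ • π' - π')) ((σ • f).eval π) := by
    rw [hdiff]
    refine Ge.sum fun k _ => ?_
    have := (ge_smul_sub h hle hπ'0 hπ'H hπ' hσN (hfH k) (hfint k)).mul (hπge.pow k)
    rwa [mul_zero, add_zero] at this
  rw [hσfπ] at hge
  rw [← hordprod]
  exact (ge_iff hprod0).1 hge

end main

end Fermat.Agent.W56.RamQuot7
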