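/-
Programme W56 (target S56), chapter (F) FLAT, ramification side (helper7): **the abstract Kummer
level theorem** (Mathlib only).

Setting of `RamFund7` (`Ram w G`, `G` finite), `π` a uniformiser of `L`, `p` a prime with
`ord p = #G` (the base `L^G` is unramified), the converse Krasner conclusion `CK w G π p #G`
(`RamKras7`), `N₁ ≤ G` a subgroup, `ζ ∈ L^{N₁}` a primitive `p`-th root of unity, `p`-th roots in the
residue field of `L^{N₁}` (`KumHyp`).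

* `chi` : the Kummer character `σ ↦ σ θ₁ / θ₁` of `N₁` for `θ₁ ^ p ∈ L^{N₁}`, `kerH θ₁` its kernel (as a
  subgroup of `G`), `card_eq_mul_card_kerH` : `#N₁ = p #H'` if `θ₁ ∉ L^{N₁}`;
* `bad_bound` : for a Kummer generator `θ₁` (`θ₁ ^ p ∈ L^{N₁}`) and `y ≡ θ₁` modulo `L^{N₁}` whose order
  is new (`#N₁ ∣ p ord y`, `p #N₁ ∤ p ord y`), with `ord ((ζ - 1) θ₁ / y) > 0` :
  `(p-1) (#G + p z₁ + p ord θ₁ - p ord y - 1) ≤ p #G`, `z₁ = ord (ζ - 1)`
  (exact break of `L^{N₁}(θ₁)` via the uniformiser `y^A π₀^B`, `RamQuot7.le_coset_sum`,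
  `RamKras7.ram_bound`);
* **`kummer_abstract`** : every `α ∈ L^{N₁}` with a `p`-th root in `L` is `β ^ p u` with
  `β, u ∈ L^{N₁}`, `u ≡ 1 mod p`.
-/
import Mathlib
import Fermat.Agent.W56.RamQuot7
import Fermat.Agent.W56.RamKumB7

set_option autoImplicit false
set_option linter.style.haveILetI false
set_option linter.unusedSectionVars false

namespace Fermat.Agent.W56.RamKumC7

open Finset Fermat.Agent.W56.RamBase7 Fermat.Agent.W56.RamBase7.DVal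
  Fermat.Agent.W56.RamFund7 Fermat.Agent.W56.RamExp7 Fermat.Agent.W56.RamKras7
  Fermat.Agent.W56.RamQuot7 Fermat.Agent.W56.RamKumA7 Fermat.Agent.W56.RamKumB7

variable {L : Type*} [Field L] {G : Type*} [Group G] [MulSemiringAction G L] {w : DVal L}

/-- the standing hypotheses. -/
structure KumHyp (w : DVal L) (G : Type*) [Group G] [Fintype G] [MulSemiringAction G L] (π : L)
    (p : ℕ) (N₁ : Subgroup G) (ζ : L) : Prop where
  ram : Ram w G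
  hπ0 : π ≠ 0
  hπ : w.ord π = 1
  prime : PrimeHyp w p
  hordp : w.ord (p : L) = Fintype.card G
  hCK : CK w G π p (Fintype.card G)
  hζ : IsPrimitiveRoot ζ p
  hζN : ζ ∈ Fix (L := L) N₁
  perf : ∀ c ∈ Fix (L := L) N₁, c ≠ 0 → w.ord c = 0 → ∃ d ∈ Fix (L := L) N₁, w.Ge 1 (c - d ^ p)

theorem smul_zpow_eq (σ : G) (x : L) (n : ℤ) : σ • x ^ n = (σ • x) ^ n :=
  map_zpow₀ (MulSemiringAction.toRingHom G L σ) x n

section kummer

variable [Fintype G] {π : L} {p : ℕ} {N₁ : Subgroup G} {ζ : L} (hK : KumHyp w G π p N₁ ζ)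
include hK

theorem root_mem_Fix {ξ : L} (hξ : ξ ^ p = 1) : ξ ∈ Fix (L := L) N₁ := by
  have : NeZero p := ⟨hK.prime.prime.ne_zero⟩
  obtain ⟨i, -, rfl⟩ := hK.hζ.eq_pow_of_pow_eq_one hξ
  exact pow_mem hK.hζN i

theorem isPrimitiveRoot_of_ne_one {ξ : L} (hξ : ξ ^ p = 1) (hξ1 : ξ ≠ 1) : IsPrimitiveRoot ξ p := by
  haveI : Fact p.Prime := ⟨hK.prime.prime⟩
  have := orderOf_eq_prime hξ hξ1
  rw [← this]
  exact IsPrimitiveRoot.orderOf ξ

variable {θ₁ : L} (hθ₁0 : θ₁ ≠ 0) (hθ₁p : θ₁ ^ p ∈ Fix (L := L) N₁)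
include hθ₁0 hθ₁p

theorem ratio_pow {σ : G} (hσ : σ ∈ N₁) : (σ • θ₁ / θ₁) ^ p = 1 := by
  rw [div_pow, ← smul_pow', mem_Fix.1 hθ₁p σ hσ, div_self (pow_ne_zero p hθ₁0)]

/-- the Kummer character. -/
noncomputable def chi : ↥N₁ →* Lˣ where
  toFun σ := Units.mk0 ((σ : G) • θ₁ / θ₁) (div_ne_zero (smul_ne_zero' (σ : G) hθ₁0) hθ₁0)
  map_one' := by
    ext
    simp [div_self hθ₁0]
  map_mul' σ τ := by
    ext
    simp only [Subgroup.coe_mul, Units.val_mk0, Units.val_mul]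
    have h1 : ((τ : G) • θ₁ / θ₁) ∈ Fix (L := L) N₁ :=
      root_mem_Fix hK (ratio_pow hK hθ₁0 hθ₁p τ.2)
    have h2 : (σ : G) • ((τ : G) • θ₁ / θ₁) = (τ : G) • θ₁ / θ₁ := mem_Fix.1 h1 σ σ.2
    have h3 : (τ : G) • θ₁ = ((τ : G) • θ₁ / θ₁) * θ₁ := by rw [div_mul_cancel₀ _ hθ₁0]
    rw [mul_smul]
    conv_lhs => rw [h3, smul_mul', h2]
    field_simp

theorem chi_apply (σ : ↥N₁) : ((chi hK hθ₁0 hθ₁p σ : Lˣ) : L) = (σ : G) • θ₁ / θ₁ := rfl

/-- the stabiliser of `θ₁` in `N₁`. -/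
noncomputable def kerH : Subgroup G := (chi hK hθ₁0 hθ₁p).ker.map N₁.subtype

theorem mem_kerH {σ : G} : σ ∈ kerH hK hθ₁0 hθ₁p ↔ σ ∈ N₁ ∧ σ • θ₁ = θ₁ := by
  unfold kerH
  rw [Subgroup.mem_map]
  constructor
  · rintro ⟨τ, hτ, rfl⟩
    refine ⟨τ.2, ?_⟩
    rw [MonoidHom.mem_ker] at hτ
    have := congrArg Units.val hτ
    rw [chi_apply, Units.val_one, div_eq_one_iff_eq hθ₁0] at this
    exact this
  · rintro ⟨hσ, h1⟩
    refine ⟨⟨σ, hσ⟩, ?_, rfl⟩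
    rw [MonoidHom.mem_ker]
    ext
    rw [chi_apply, Units.val_one, div_eq_one_iff_eq hθ₁0]
    exact h1

theorem kerH_le : kerH hK hθ₁0 hθ₁p ≤ N₁ := fun _ hσ => ((mem_kerH hK hθ₁0 hθ₁p).1 hσ).1

theorem card_eq_mul_card_kerH (hθ₁N : θ₁ ∉ Fix (L := L) N₁) :
    Nat.card ↥N₁ = p * Nat.card ↥(kerH hK hθ₁0 hθ₁p) := by
  haveI : NeZero p := ⟨hK.prime.prime.ne_zero⟩
  set χ := chi hK hθ₁0 hθ₁p with hχ
  have h1 : Nat.card ↥(kerH hK hθ₁0 hθ₁p) = Nat.card ↥χ.ker :=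
    Subgroup.card_map_of_injective N₁.subtype_injective
  have h2 : Nat.card ↥χ.ker * χ.ker.index = Nat.card ↥N₁ := Subgroup.card_mul_index _
  rw [Subgroup.index_ker] at h2
  have hle : χ.range ≤ rootsOfUnity p L := by
    rintro _ ⟨σ, rfl⟩
    rw [mem_rootsOfUnity]
    ext
    rw [Units.val_pow_eq_pow_val, chi_apply, Units.val_one]
    exact ratio_pow hK hθ₁0 hθ₁p σ.2
  have h3 : Nat.card ↥χ.range ∣ p := by
    have := Subgroup.card_dvd_of_le hle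
    rwa [hK.hζ.card_rootsOfUnity] at this
  have h4 : Nat.card ↥χ.range ≠ 1 := by
    intro h1'
    apply hθ₁N
    rw [mem_Fix]
    intro σ hσ
    have h5 : χ.range = ⊥ := Subgroup.card_eq_one.1 h1'
    have h6 : χ ⟨σ, hσ⟩ ∈ χ.range := ⟨_, rfl⟩
    rw [h5, Subgroup.mem_bot] at h6
    have := congrArg Units.val h6
    rw [chi_apply, Units.val_one, div_eq_one_iff_eq hθ₁0] at this
    exact this
  have h5 : Nat.card ↥χ.range = p := ((Nat.dvd_prime hK.prime.prime).1 h3).resolve_left h4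
  rw [← h2, h5, h1, mul_comm]

/-- **the bound for a Kummer generator whose order is new.** -/
theorem bad_bound {y : L} (hy0 : y ≠ 0) (hyθ : y - θ₁ ∈ Fix (L := L) N₁)
    (hJ1 : (Nat.card ↥N₁ : ℤ) ∣ p * w.ord y) (hJ2 : ¬ (p : ℤ) * Nat.card ↥N₁ ∣ p * w.ord y)
    {z₁ : ℤ} (hz₁ : ((p : ℤ) - 1) * z₁ = Fintype.card G) (hD : 0 < z₁ + w.ord θ₁ - w.ord y) :
    (p : ℤ) ≤ Nat.card ↥N₁ ∧
    ((p : ℤ) - 1) * ((Fintype.card G : ℤ) + p * z₁ + p * w.ord θ₁ - p * w.ord y - 1) ≤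
      p * Fintype.card G := by
  classical
  have h := hK.ram
  have hpp := hK.prime.prime
  have hppos : (0 : ℤ) < p := by exact_mod_cast hpp.pos
  haveI : Finite G := Finite.of_fintype G
  -- `θ₁ ∉ L^{N₁}`
  have hθ₁N : θ₁ ∉ Fix (L := L) N₁ := by
    intro hmem
    have hyN : y ∈ Fix (L := L) N₁ := by
      have : y = (y - θ₁) + θ₁ := by ring
      rw [this]; exact add_mem hyθ hmem
    obtain ⟨c, hc⟩ := h.card_dvd_ord N₁ hy0 hyN
    exact hJ2 ⟨c, by rw [hc]; ring⟩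
  set H' := kerH hK hθ₁0 hθ₁p with hH'
  have hcard := card_eq_mul_card_kerH hK hθ₁0 hθ₁p hθ₁N
  have hcardZ : (Nat.card ↥N₁ : ℤ) = p * Nat.card ↥H' := by exact_mod_cast hcard
  have hH'pos : (0 : ℤ) < Nat.card ↥H' := by
    have : 0 < Nat.card ↥H' := Nat.card_pos
    exact_mod_cast this
  have hH'le : H' ≤ N₁ := kerH_le hK hθ₁0 hθ₁p
  refine ⟨by rw [hcardZ]; nlinarith, ?_⟩
  -- the uniformiser of `L^{N₁}`
  letI : Fintype ↥N₁ := Fintype.ofFinite _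
  set π₀ := normH N₁ π with hπ₀
  have hπ₀0 : π₀ ≠ 0 := normH_ne_zero N₁ hK.hπ0
  have hπ₀N : π₀ ∈ Fix (L := L) N₁ := normH_mem N₁ π
  have hπ₀ord : w.ord π₀ = Nat.card ↥N₁ := by
    rw [hπ₀, h.ord_normH N₁ hK.hπ0, hK.hπ, mul_one, Nat.card_eq_fintype_card]
  -- `ord y = #H' i`, `p ∤ i`
  obtain ⟨i, hi⟩ := hJ1
  have hordy : w.ord y = Nat.card ↥H' * i := by
    rw [hcardZ] at hi
    have : (p : ℤ) * w.ord y = p * (Nat.card ↥H' * i) := by rw [hi]; ring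
    exact mul_left_cancel₀ hppos.ne' this
  have hpi : ¬ (p : ℤ) ∣ i := by
    rintro ⟨c, hc⟩
    exact hJ2 ⟨c, by rw [hi, hc]; ring⟩
  have hcop : IsCoprime i (p : ℤ) :=
    ((Prime.coprime_iff_not_dvd (Nat.prime_iff_prime_int.1 hpp)).2 hpi).symm
  obtain ⟨A, B, hAB⟩ := hcop
  have hpA : ¬ (p : ℤ) ∣ A := by
    rintro ⟨c, hc⟩
    have : (p : ℤ) ∣ 1 := ⟨c * i + B, by rw [← hAB, hc]; ring⟩
    have := Int.le_of_dvd one_pos this
    have : (1 : ℤ) < p := by exact_mod_cast hpp.one_lt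
    omega
  -- the uniformiser of `L^{H'}`
  have hyH' : y ∈ Fix (L := L) H' := by
    rw [mem_Fix]
    intro σ hσ
    obtain ⟨hσN, hσθ⟩ := (mem_kerH hK hθ₁0 hθ₁p).1 hσ
    have h1 := mem_Fix.1 hyθ σ hσN
    rw [smul_sub, hσθ] at h1
    linear_combination h1
  set π' := y ^ A * π₀ ^ B with hπ'
  have hπ'0 : π' ≠ 0 := mul_ne_zero (zpow_ne_zero A hy0) (zpow_ne_zero B hπ₀0)
  have hπ'H : π' ∈ Fix (L := L) H' :=
    mul_mem (zpow_mem hyH' A) (zpow_mem (Fix_mono hH'le hπ₀N) B)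
  have hπ'ord : w.ord π' = Nat.card ↥H' := by
    rw [hπ', w.ord_mul (zpow_ne_zero A hy0) (zpow_ne_zero B hπ₀0), w.ord_zpow hy0,
      w.ord_zpow hπ₀0, hordy, hπ₀ord, hcardZ]
    have : (A * (Nat.card ↥H' * i) + B * (p * Nat.card ↥H') : ℤ) =
        Nat.card ↥H' * (A * i + B * p) := by ring
    rw [this, hAB, mul_one]
  -- the break
  set T := (Nat.card ↥H' : ℤ) + z₁ + w.ord θ₁ - w.ord y with hT
  have hTle : ∀ σ ∈ N₁, σ ∉ H' → T ≤ ∑ τ ∈ Finset.univ.filter (· ∈ H'), iF w π (σ * τ) := by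
    intro σ hσN hσH
    refine le_trans (le_of_eq ?_) (le_coset_sum h hH'le hπ'0 hπ'H hπ'ord hK.hπ0 hK.hπ hσN hσH)
    -- `σ θ₁ = ξ θ₁`
    set ξ := σ • θ₁ / θ₁ with hξ
    have hξp : ξ ^ p = 1 := ratio_pow hK hθ₁0 hθ₁p hσN
    have hξ1 : ξ ≠ 1 := by
      intro h1
      apply hσH
      rw [hξ, div_eq_one_iff_eq hθ₁0] at h1
      exact (mem_kerH hK hθ₁0 hθ₁p).2 ⟨hσN, h1⟩
    have hξprim := isPrimitiveRoot_of_ne_one hK hξp hξ1
    obtain ⟨hξm0, hξord⟩ := ord_zeta_sub_one hK.prime hξprim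
    rw [hK.hordp] at hξord
    have hp1 : ((p : ℤ) - 1) ≠ 0 := by
      have : (1 : ℤ) < p := by exact_mod_cast hpp.one_lt
      omega
    have hξz : w.ord (ξ - 1) = z₁ := mul_left_cancel₀ hp1 (hξord.trans hz₁.symm)
    have hσθ : σ • θ₁ = ξ * θ₁ := by rw [hξ, div_mul_cancel₀ _ hθ₁0]
    -- `σ y = y (1 + δ)`
    set δ := (ξ - 1) * θ₁ / y with hδ
    have hδ0 : δ ≠ 0 := div_ne_zero (mul_ne_zero hξm0 hθ₁0) hy0
    have hδord : w.ord δ = z₁ + w.ord θ₁ - w.ord y := by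
      rw [hδ, w.ord_div (mul_ne_zero hξm0 hθ₁0) hy0, w.ord_mul hξm0 hθ₁0, hξz]
    have hσy : σ • y = y * (1 + δ) := by
      have h1 := mem_Fix.1 hyθ σ hσN
      rw [smul_sub, hσθ] at h1
      rw [hδ, mul_add, mul_one, mul_div_cancel₀ _ hy0]
      linear_combination h1
    have hσπ' : σ • π' = π' * (1 + δ) ^ A := by
      rw [hπ', smul_mul', smul_zpow_eq, smul_zpow_eq, hσy, mem_Fix.1 hπ₀N σ hσN, mul_zpow]
      ring
    have hdiff : σ • π' - π' = π' * ((1 + δ) ^ A - 1) := by rw [hσπ']; ring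
    obtain ⟨hne, hord⟩ := ord_one_add_zpow_sub_one hK.prime hδ0 (by rw [hδord]; exact hD) hpA
    rw [hdiff, w.ord_mul hπ'0 hne, hπ'ord, hord, hδord, hT]
    ring
  have hbound := ram_bound h hK.hπ0 hK.hπ (P := (p : ℤ)) (e := (Fintype.card G : ℤ))
    (by exact_mod_cast hpp.one_lt) hK.hCK N₁ H' hH'le hcardZ T hTle
  have hrw : (Fintype.card G : ℤ) - Nat.card ↥N₁ + p * T - 1 =
      (Fintype.card G : ℤ) + p * z₁ + p * w.ord θ₁ - p * w.ord y - 1 := by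
    rw [hT, hcardZ]; ring
  rw [hrw] at hbound
  exact hbound

end kummer

/-- **the abstract Kummer level theorem.** -/
theorem kummer_abstract [Fintype G] {π : L} {p : ℕ} {N₁ : Subgroup G} {ζ : L}
    (hK : KumHyp w G π p N₁ ζ) {α θ : L} (hαN : α ∈ Fix (L := L) N₁) (hα0 : α ≠ 0)
    (hθ : θ ^ p = α) :
    ∃ β ∈ Fix (L := L) N₁, β ≠ 0 ∧ ∃ u ∈ Fix (L := L) N₁, α = β ^ p * u ∧
      w.Ge (w.ord (p : L)) (u - 1) := by
  classical
  have h := hK.ram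
  have hpp := hK.prime.prime
  have hp0 : p ≠ 0 := hpp.ne_zero
  have hppos : (0 : ℤ) < p := by exact_mod_cast hpp.pos
  have hp1 : (1 : ℤ) < p := by exact_mod_cast hpp.one_lt
  haveI : Finite G := Finite.of_fintype G
  letI : Fintype ↥N₁ := Fintype.ofFinite _
  set e : ℤ := (Fintype.card G : ℤ) with he
  have hepos : 0 < e := by
    have : 0 < Fintype.card G := Fintype.card_pos
    rw [he]; exact_mod_cast this
  set π₀ := normH N₁ π with hπ₀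
  have hπ₀0 : π₀ ≠ 0 := normH_ne_zero N₁ hK.hπ0
  have hπ₀N : π₀ ∈ Fix (L := L) N₁ := normH_mem N₁ π
  set n₁ : ℤ := (Nat.card ↥N₁ : ℤ) with hn₁
  have hn₁pos : 0 < n₁ := by
    have : 0 < Nat.card ↥N₁ := Nat.card_pos
    rw [hn₁]; exact_mod_cast this
  have hπ₀ord : w.ord π₀ = n₁ := by
    rw [hπ₀, h.ord_normH N₁ hK.hπ0, hK.hπ, mul_one, hn₁, Nat.card_eq_fintype_card]
  have hn₁e : n₁ ∣ e := by
    have := Subgroup.card_subgroup_dvd_card N₁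
    rw [Nat.card_eq_fintype_card (α := G)] at this
    rw [hn₁, he]; exact_mod_cast this
  have hF : FieldHyp w p (Fix (L := L) N₁) π₀ n₁ :=
    { prime := hK.prime
      hπ₀F := hπ₀N
      hπ₀0 := hπ₀0
      hπ₀ := hπ₀ord
      hn₁ := hn₁pos
      dvd := fun x hx hx0 => h.card_dvd_ord N₁ hx0 hx
      perf := hK.perf }
  obtain ⟨b, hbN, hb0, j, hjp, u', hu'N, hα, hgood⟩ := exists_normal_form hF hαN hα0
  -- `z₁ = ord (ζ - 1)`
  obtain ⟨hζ10, hζord⟩ := ord_zeta_sub_one hK.prime hK.hζ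
  rw [hK.hordp] at hζord
  set z₁ := w.ord (ζ - 1) with hz₁
  have hz₁pos : 0 < z₁ := by
    by_contra hcon
    rw [not_lt] at hcon
    have : ((p : ℤ) - 1) * z₁ ≤ 0 := mul_nonpos_of_nonneg_of_nonpos (by omega) hcon
    omega
  -- `θ₁ = θ / b`
  have hbp0 : b ^ p ≠ 0 := pow_ne_zero p hb0
  set θ₁ := θ / b with hθ₁
  have hθ0 : θ ≠ 0 := by
    intro h0
    rw [h0, zero_pow hp0] at hθ
    exact hα0 hθ.symm
  have hθ₁0 : θ₁ ≠ 0 := div_ne_zero hθ0 hb0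
  have hθ₁pow : θ₁ ^ p = π₀ ^ j * u' := by
    rw [hθ₁, div_pow, hθ, hα]
    field_simp
  have hθ₁p : θ₁ ^ p ∈ Fix (L := L) N₁ := by
    rw [hθ₁pow]; exact mul_mem (pow_mem hπ₀N j) hu'N
  -- `u'` is a unit
  have hu'unit : u' ≠ 0 ∧ w.ord u' = 0 := by
    have h1 : w.Ge (w.ord (1 : L) + 1) (u' - 1) := by
      rw [w.ord_one, zero_add]
      rcases hgood with hg | ⟨hg0, hgpos, -, -⟩
      · exact hg.mono (by rw [hK.hordp]; omega)
      · exact Or.inr (by omega)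
    have := ord_eq_of_sub_ge one_ne_zero h1
    rwa [w.ord_one] at this
  rcases Nat.eq_zero_or_pos j with hj0 | hjpos
  · -- `j = 0`
    rw [hj0, pow_zero, one_mul] at hθ₁pow
    rw [hj0, pow_zero, mul_one] at hα
    rcases hgood with hg | ⟨hg0, hgpos, hglt, hgdvd⟩
    · exact ⟨b, hbN, hb0, u', hu'N, hα, hg⟩
    · exfalso
      -- case A
      set x := u' - 1 with hx
      set y := θ₁ - 1 with hy
      have hxy : (1 + y) ^ p = 1 + x := by rw [hy, hx, hθ₁pow.symm]; ring_nf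
      obtain ⟨hy0, hyord⟩ := ord_pow_root hK.prime hg0 hgpos hglt hxy
      have hθ₁ord : w.ord θ₁ = 0 := by
        have := w.ord_pow hθ₁0 p
        rw [hθ₁pow, hu'unit.2] at this
        rcases mul_eq_zero.1 this.symm with h' | h'
        · omega
        · exact h'
      have hyθ : y - θ₁ ∈ Fix (L := L) N₁ := by
        have : y - θ₁ = -1 := by rw [hy]; ring
        rw [this]; exact neg_mem (one_mem _)
      have hxN : x ∈ Fix (L := L) N₁ := sub_mem hu'N (one_mem _)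
      have hJ1 : (Nat.card ↥N₁ : ℤ) ∣ p * w.ord y := by
        rw [hyord]; exact h.card_dvd_ord N₁ hg0 hxN
      have hJ2 : ¬ (p : ℤ) * Nat.card ↥N₁ ∣ p * w.ord y := by rw [hyord]; exact hgdvd
      rw [hK.hordp] at hglt
      have hD : 0 < z₁ + w.ord θ₁ - w.ord y := by
        rw [hθ₁ord]
        nlinarith
      obtain ⟨hpn, hb⟩ := bad_bound hK hθ₁0 hθ₁p hy0 hyθ hJ1 hJ2 hζord hD
      rw [hθ₁ord, hyord] at hb
      -- `e ≤ I + 1`, `n₁ ∣ e`, `n₁ ∣ I`, `I < e`, `n₁ ≥ 2`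
      have h1 : e ≤ w.ord x + 1 := by nlinarith
      obtain ⟨c1, hc1⟩ := hn₁e
      obtain ⟨c2, hc2⟩ := h.card_dvd_ord N₁ hg0 hxN
      rw [← hn₁] at hc2 hpn
      rw [← he] at hglt
      rw [hc2, hc1] at hglt h1
      have h2 : c2 < c1 := by
        by_contra hcon
        rw [not_lt] at hcon
        nlinarith
      nlinarith
  · -- `j ≠ 0` : très ramifié
    exfalso
    have hθ₁ord : (p : ℤ) * w.ord θ₁ = j * n₁ := by
      have := w.ord_pow hθ₁0 p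
      rw [hθ₁pow, w.ord_mul (pow_ne_zero j hπ₀0) hu'unit.1, w.ord_pow hπ₀0, hπ₀ord, hu'unit.2,
        add_zero] at this
      exact this.symm
    have hyθ : θ₁ - θ₁ ∈ Fix (L := L) N₁ := by rw [sub_self]; exact zero_mem _
    have hJ1 : (Nat.card ↥N₁ : ℤ) ∣ p * w.ord θ₁ := ⟨j, by rw [hθ₁ord, hn₁]; ring⟩
    have hJ2 : ¬ (p : ℤ) * Nat.card ↥N₁ ∣ p * w.ord θ₁ := by
      rw [hθ₁ord]
      rintro ⟨c, hc⟩
      have h1 : (j : ℤ) = p * c := by
        have : n₁ * (j : ℤ) = n₁ * (p * c) := by rw [hn₁]; linarith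
        exact mul_left_cancel₀ hn₁pos.ne' this
      have hjpos' : (0 : ℤ) < j := by exact_mod_cast hjpos
      have hjp' : (j : ℤ) < p := by exact_mod_cast hjp
      have hc0 : 0 < c := by
        by_contra hcon
        rw [not_lt] at hcon
        nlinarith
      nlinarith
    have hD : 0 < z₁ + w.ord θ₁ - w.ord θ₁ := by omega
    obtain ⟨hpn, hb⟩ := bad_bound hK hθ₁0 hθ₁p hθ₁0 hyθ hJ1 hJ2 hζord hD
    -- `e ≤ 1` but `e ≥ n₁ ≥ p ≥ 2`
    have h1 : e ≤ 1 := by nlinarith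
    have h2 : n₁ ≤ e := Int.le_of_dvd hepos hn₁e
    rw [← hn₁] at hpn
    omega

end Fermat.Agent.W56.RamKumC7
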