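/-
Programme W56 (target S56), chapter (F) FLAT, ramification side (helper7): **the instantiation at
`(ℚ̄, A, Iner A)`, part A: the field `L = ℚ̄^Γ`, the group `G`, the valuation**.

`A` a valuation subring of `ℚ̄` over `p`, `Γ ≤ Iner A` a subgroup normalised by `Iner A` and of finite
index (`Adm A Γ`).

* `LF Γ` : the fixed field of `Γ` (a subfield of `ℚ̄`), `rho h : Iner A →* RingAut (LF Γ)`,
  `GG h` = its image (a finite group acting faithfully on `LF Γ`);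
* `vL` : the restriction of `A.valuation`; `discr` : `RamVal7.Discr (vL) p [I : Γ]`
  (from `U44/LocInst1B.val_pow_index_of_fixed`); `unif h`, `wL h : DVal (LF Γ)`;
* `exists_teich` : every unit of `A` is congruent to an inertia-fixed root of unity which is a `p`-th
  power of an inertia-fixed root of unity (Teichmüller, `U44/InertDescent1`);
* **`ram h : Ram (wL h) (GG h)`**, `primeHyp`, `ord_p : ord p = #G`, `perf`.
-/
import Mathlib
import Fermat.Agent.W56.RamVal7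
import Fermat.Agent.W56.RamKumC7
import Fermat.Agent.W56.FontDef6
import Fermat.Agent.U44.LocInst1B
import Fermat.Agent.U44.InertDescent1

set_option autoImplicit false
set_option linter.style.haveILetI false
set_option linter.unusedSectionVars false

namespace Fermat.Agent.W56.RamInstA7

open Fermat.Agent.FF.InertiaWire8 Fermat.Agent.U44.LocInst1 Fermat.Agent.U44.LocInst1B
  Fermat.Agent.W56.RamBase7 Fermat.Agent.W56.RamBase7.DVal Fermat.Agent.W56.RamFund7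
  Fermat.Agent.W56.RamVal7 Fermat.Agent.W56.RamKumA7

noncomputable section

variable {A : ValuationSubring Qb} {Γ : Subgroup GQ} {p : ℕ}

/-- the fixed field of `Γ`. -/
def LF (Γ : Subgroup GQ) : Subfield Qb := FixedPoints.subfield ↥Γ Qb

theorem mem_LF {x : Qb} : x ∈ LF Γ ↔ ∀ σ ∈ Γ, σ x = x :=
  ⟨fun h σ hσ => h ⟨σ, hσ⟩, fun h σ => h σ.1 σ.2⟩

/-- admissible subgroups. -/
structure Adm (A : ValuationSubring Qb) (Γ : Subgroup GQ) : Prop where
  le : Γ ≤ Iner A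
  norm : ∀ σ ∈ Iner A, ∀ γ ∈ Γ, σ * γ * σ⁻¹ ∈ Γ
  fin : (Γ.subgroupOf (Iner A)).index ≠ 0

theorem apply_mem_LF (h : Adm A Γ) {σ : GQ} (hσ : σ ∈ Iner A) {x : Qb} (hx : x ∈ LF Γ) :
    σ x ∈ LF Γ := by
  rw [mem_LF] at hx ⊢
  intro γ hγ
  have h1 : σ⁻¹ * γ * σ ∈ Γ := by
    have := h.norm σ⁻¹ (inv_mem hσ) γ hγ
    rwa [inv_inv] at this
  have h2 := hx _ h1
  have h3 : γ (σ x) = σ ((σ⁻¹ * γ * σ) x) := by
    rw [← AlgEquiv.mul_apply, ← AlgEquiv.mul_apply, ← mul_assoc, ← mul_assoc, mul_inv_cancel,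
      one_mul]
  rw [h3, h2]

/-- the action of `σ ∈ Iner A` on `ℚ̄^Γ`. -/
def rhoEquiv (h : Adm A Γ) (σ : ↥(Iner A)) : ↥(LF Γ) ≃+* ↥(LF Γ) where
  toFun x := ⟨(σ : GQ) x, apply_mem_LF h σ.2 x.2⟩
  invFun x := ⟨(σ : GQ)⁻¹ x, apply_mem_LF h (inv_mem σ.2) x.2⟩
  left_inv x := by
    apply Subtype.ext
    show (σ : GQ)⁻¹ ((σ : GQ) (x : Qb)) = x
    rw [← AlgEquiv.mul_apply, inv_mul_cancel, AlgEquiv.one_apply]
  right_inv x := by
    apply Subtype.ext
    show (σ : GQ) ((σ : GQ)⁻¹ (x : Qb)) = x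
    rw [← AlgEquiv.mul_apply, mul_inv_cancel, AlgEquiv.one_apply]
  map_mul' x y := Subtype.ext (map_mul (σ : GQ) (x : Qb) (y : Qb))
  map_add' x y := Subtype.ext (map_add (σ : GQ) (x : Qb) (y : Qb))

/-- `Iner A →* Aut (ℚ̄^Γ)`. -/
def rho (h : Adm A Γ) : ↥(Iner A) →* RingAut ↥(LF Γ) where
  toFun := rhoEquiv h
  map_one' := by
    apply RingEquiv.ext
    intro x
    rfl
  map_mul' σ τ := by
    apply RingEquiv.ext
    intro x
    rfl

theorem coe_rho_apply (h : Adm A Γ) (σ : ↥(Iner A)) (x : ↥(LF Γ)) :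
    ((rho h σ x : ↥(LF Γ)) : Qb) = (σ : GQ) (x : Qb) := rfl

/-- the image of the inertia group in `Aut (ℚ̄^Γ)`. -/
abbrev GG (h : Adm A Γ) : Subgroup (RingAut ↥(LF Γ)) := (rho h).range

theorem smul_def (h : Adm A Γ) (g : ↥(GG h)) (x : ↥(LF Γ)) : g • x = (g : RingAut ↥(LF Γ)) x := rfl

theorem subgroupOf_le_ker (h : Adm A Γ) : Γ.subgroupOf (Iner A) ≤ (rho h).ker := by
  intro σ hσ
  rw [MonoidHom.mem_ker]
  apply RingEquiv.ext
  intro x
  apply Subtype.ext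
  rw [coe_rho_apply]
  exact mem_LF.1 x.2 _ (Subgroup.mem_subgroupOf.1 hσ)

theorem index_ker_ne_zero (h : Adm A Γ) : (rho h).ker.index ≠ 0 := by
  intro h0
  have := Subgroup.index_dvd_of_le (subgroupOf_le_ker h)
  rw [h0, zero_dvd_iff] at this
  exact h.fin this

instance finite_GG (h : Adm A Γ) : Finite ↥(GG h) := by
  have h1 : Nat.card ↥(GG h) ≠ 0 := by
    rw [← Subgroup.index_ker]
    exact index_ker_ne_zero h
  exact Nat.finite_of_card_ne_zero h1

/-- fixed by `G` ⟺ fixed by the inertia group. -/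
theorem mem_Fix_top_iff (h : Adm A Γ) (x : ↥(LF Γ)) :
    x ∈ Fix (L := ↥(LF Γ)) (⊤ : Subgroup ↥(GG h)) ↔ ∀ σ : Iner A, σ • (x : Qb) = x := by
  rw [mem_Fix]
  constructor
  · intro hx σ
    have := hx ⟨rho h σ, σ, rfl⟩ (Subgroup.mem_top _)
    exact congrArg Subtype.val this
  · rintro hx ⟨_, σ, rfl⟩ -
    apply Subtype.ext
    exact hx σ

/-! ### the valuation -/

/-- the restriction of `A.valuation` to `ℚ̄^Γ`. -/
def vL (A : ValuationSubring Qb) (Γ : Subgroup GQ) : Valuation ↥(LF Γ) A.ValueGroup :=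
  A.valuation.comap (LF Γ).subtype

theorem vL_apply (x : ↥(LF Γ)) : vL A Γ x = A.valuation (x : Qb) := rfl

theorem discr (hp : p.Prime) (hA : A.LiesOverPrime p) (h : Adm A Γ) :
    Discr (vL A Γ) (p : ↥(LF Γ)) (Γ.subgroupOf (Iner A)).index where
  hn := Nat.pos_of_ne_zero h.fin
  hϖ0 := by
    intro h0
    have := congrArg Subtype.val h0
    exact Fermat.Agent.T33.WZero2.natCast_ne_zero' hp (by simpa using this)
  hϖ := by
    rw [vL_apply]
    simpa using val_natCast_lt_one (A := A) hA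
  hpow x hx := by
    have hx0 : (x : Qb) ≠ 0 := fun h0 => hx (Subtype.ext h0)
    have hH : ∀ σ ∈ Γ.subgroupOf (Iner A), σ • (x : Qb) = x := fun σ hσ =>
      mem_LF.1 x.2 _ (Subgroup.mem_subgroupOf.1 hσ)
    obtain ⟨m, hm⟩ := val_pow_index_of_fixed hp hA hx0 hH
    refine ⟨m, ?_⟩
    rw [vL_apply, vL_apply, hm]
    simp

/-- a uniformiser of `ℚ̄^Γ`. -/
def unif (hp : p.Prime) (hA : A.LiesOverPrime p) (h : Adm A Γ) : ↥(LF Γ) :=
  Classical.choose (discr hp hA h).exists_unif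

theorem isUnif_unif (hp : p.Prime) (hA : A.LiesOverPrime p) (h : Adm A Γ) :
    IsUnif (vL A Γ) (unif hp hA h) :=
  Classical.choose_spec (discr hp hA h).exists_unif

/-- the discrete valuation of `ℚ̄^Γ`, in integer form. -/
def wL (hp : p.Prime) (hA : A.LiesOverPrime p) (h : Adm A Γ) : DVal ↥(LF Γ) :=
  dvalOf (vL A Γ) (unif hp hA h) (isUnif_unif hp hA h)

/-! ### Teichmüller representatives -/

/-- a root of unity of order prime to `p` is fixed by the inertia group. -/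
theorem smul_rootOfUnity (hp : p.Prime) (hA : A.LiesOverPrime p) {m : ℕ} (hm : ¬ p ∣ m) {ω : Qb}
    (hω : ω ^ m = 1) (σ : Iner A) : σ • ω = ω := by
  have hm0 : m ≠ 0 := fun h0 => hm (h0 ▸ dvd_zero p)
  have hω0 : ω ≠ 0 := by
    intro h0
    rw [h0, zero_pow hm0] at hω
    exact zero_ne_one hω
  have hvω : A.valuation ω = 1 := by
    have h1 : A.valuation ω ^ m = 1 := by rw [← map_pow, hω, map_one]
    exact (pow_eq_one_iff_of_nonneg zero_le hm0).mp h1
  have h1 := val_smul_sub_lt_one σ hvω.le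
  set η := σ • ω / ω with hη
  have hηm : η ^ m = 1 := by
    rw [hη, div_pow, ← smul_pow', hω, smul_one, div_one]
  have hη1 : η - 1 ∈ A.nonunits := by
    rw [A.mem_nonunits_iff]
    have : η - 1 = (σ • ω - ω) / ω := by rw [hη]; field_simp
    rw [this, map_div₀, hvω, div_one]
    exact h1
  have := Fermat.Agent.ES.J.CycloChar8.eq_one_of_sub_one_mem_nonunits hp hA hm hηm hη1
  rw [hη, div_eq_one_iff_eq hω0] at this
  exact this

/-- **Teichmüller**: every unit of `A` is congruent to an inertia-fixed root of unity `ω = d ^ p`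
with `d` inertia-fixed. -/
theorem exists_teich (hp : p.Prime) (hA : A.LiesOverPrime p) {x : Qb} (hx : A.valuation x = 1) :
    ∃ ω d : Qb, (∀ σ : Iner A, σ • ω = ω) ∧ (∀ σ : Iner A, σ • d = d) ∧ d ^ p = ω ∧
      A.valuation (x - ω) < 1 := by
  have hxA : x ∈ A := (A.valuation_le_one_iff x).1 hx.le
  have hc : IsLocalRing.residue ↥A ⟨x, hxA⟩ ≠ 0 := by
    intro h0
    rw [IsLocalRing.residue_eq_zero_iff, A.valuation_lt_one_iff] at h0
    rw [hx] at h0
    exact lt_irrefl _ h0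
  obtain ⟨m, ω, hm, hωm, hωc⟩ := Fermat.Agent.U44.InertDescent1.exists_rootOfUnity_lift hp hA _ hc
  have hm0 : m ≠ 0 := fun h0 => hm (h0 ▸ dvd_zero p)
  have hdiff : A.valuation (x - (ω : Qb)) < 1 := by
    have h1 : IsLocalRing.residue ↥A (⟨x, hxA⟩ - ω) = 0 := by rw [map_sub, hωc, sub_self]
    rw [IsLocalRing.residue_eq_zero_iff, A.valuation_lt_one_iff] at h1
    exact h1
  -- a `p`-th root of `ω` among the powers of `ω`
  obtain ⟨a, ha⟩ : ∃ a : ℕ, ((ω : Qb) ^ a) ^ p = ω := by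
    rcases Nat.lt_or_ge 1 m with hm1 | hm1
    · have hcop : Nat.Coprime p m := (Nat.Prime.coprime_iff_not_dvd hp).2 hm
      obtain ⟨a, -, ha⟩ := Nat.exists_mul_mod_eq_one_of_coprime hcop hm1
      refine ⟨a, ?_⟩
      rw [← pow_mul, mul_comm a p]
      have : p * a = m * (p * a / m) + 1 := by
        have := Nat.div_add_mod (p * a) m
        omega
      rw [this, pow_add, pow_mul, hωm, one_pow, one_mul, pow_one]
    · have hm1' : m = 1 := by omega
      rw [hm1', pow_one] at hωm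
      exact ⟨0, by rw [pow_zero, one_pow, hωm]⟩
  refine ⟨(ω : Qb), (ω : Qb) ^ a, smul_rootOfUnity hp hA hm hωm, fun σ => ?_, ha, hdiff⟩
  rw [smul_pow', smul_rootOfUnity hp hA hm hωm]

/-! ### the hypotheses of the abstract layer -/

theorem coe_smul (h : Adm A Γ) (σ : Iner A) (x : ↥(LF Γ)) :
    (((⟨rho h σ, σ, rfl⟩ : ↥(GG h)) • x : ↥(LF Γ)) : Qb) = σ • (x : Qb) := rfl

theorem vL_smul (h : Adm A Γ) (g : ↥(GG h)) (x : ↥(LF Γ)) : vL A Γ (g • x) = vL A Γ x := by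
  obtain ⟨_, σ, rfl⟩ := g
  rw [vL_apply, vL_apply, coe_smul]
  exact valuation_smul_eq σ (x : Qb)

/-- inertia-fixed elements of `ℚ̄`, as `G`-fixed elements of `ℚ̄^Γ`. -/
def ofKur (h : Adm A Γ) (a : Qb) (ha : ∀ σ : Iner A, σ • a = a) : ↥(LF Γ) :=
  ⟨a, mem_LF.2 fun γ hγ => ha ⟨γ, h.le hγ⟩⟩

theorem ofKur_fixed (h : Adm A Γ) (a : Qb) (ha : ∀ σ : Iner A, σ • a = a) (g : ↥(GG h)) :
    g • ofKur h a ha = ofKur h a ha := by
  obtain ⟨_, σ, rfl⟩ := g
  apply Subtype.ext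
  rw [coe_smul]
  exact ha σ

variable (hp : p.Prime) (hA : A.LiesOverPrime p) (h : Adm A Γ)
include hp hA h

theorem ram : Ram (wL hp hA h) ↥(GG h) where
  inv g x := by
    rcases eq_or_ne x 0 with rfl | hx
    · rw [smul_zero]
    · exact (ord_eq_ord_iff (isUnif_unif hp hA h) (smul_ne_zero' g hx) hx).2 (vL_smul h g x)
  faithful g hg := by
    apply Subtype.ext
    apply RingEquiv.ext
    intro x
    exact hg x
  res x hx0 hx := by
    have hvx : A.valuation (x : Qb) = 1 := (ord_eq_zero_iff (isUnif_unif hp hA h) hx0).1 hx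
    obtain ⟨ω, d, hω, -, -, hlt⟩ := exists_teich hp hA hvx
    refine ⟨ofKur h ω hω, fun g => ofKur_fixed h ω hω g, ?_⟩
    exact (ge_one_iff (isUnif_unif hp hA h)).2 hlt
  unif := ⟨unif hp hA h, (isUnif_unif hp hA h).ne_zero, ord_unif (isUnif_unif hp hA h)⟩

theorem natCast_ne_zero_L : ((p : ℕ) : ↥(LF Γ)) ≠ 0 := (discr hp hA h).hϖ0

theorem primeHyp : PrimeHyp (wL hp hA h) p where
  prime := hp
  ne_zero := natCast_ne_zero_L hp hA h
  pos := by
    have := (one_le_ord_iff (isUnif_unif hp hA h) (natCast_ne_zero_L hp hA h)).2 (discr hp hA h).hϖ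
    exact this

/-- the order of a `G`-fixed element is a multiple of `ord p`. -/
theorem ord_dvd_of_fixed {x : ↥(LF Γ)} (hx0 : x ≠ 0)
    (hx : x ∈ Fix (L := ↥(LF Γ)) (⊤ : Subgroup ↥(GG h))) :
    (wL hp hA h).ord ((p : ℕ) : ↥(LF Γ)) ∣ (wL hp hA h).ord x := by
  have hx0' : (x : Qb) ≠ 0 := fun h0 => hx0 (Subtype.ext h0)
  have hK : (x : Qb) ∈ Kur A := (mem_Fix_top_iff h x).1 hx
  obtain ⟨k, hk⟩ := val_Kur hp hA hK hx0'
  refine ⟨k, ?_⟩
  have hu := isUnif_unif hp hA h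
  apply ordOf_eq_of_v_eq hu hx0
  rw [vL_apply, hk]
  have h1 := v_eq_zpow_ord hu (natCast_ne_zero_L hp hA h)
  rw [vL_apply] at h1
  have h2 : (((p : ℕ) : ↥(LF Γ)) : Qb) = (p : Qb) := by simp
  rw [h2] at h1
  rw [h1, ← zpow_mul]
  rfl

/-- **the base is unramified**: `ord p = #G`. -/
theorem ord_p : (wL hp hA h).ord ((p : ℕ) : ↥(LF Γ)) = Nat.card ↥(GG h) := by
  classical
  have hr := ram hp hA h
  letI : Fintype ↥(⊤ : Subgroup ↥(GG h)) := Fintype.ofFinite _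
  have hp0 := natCast_ne_zero_L hp hA h
  have hpfix : ((p : ℕ) : ↥(LF Γ)) ∈ Fix (L := ↥(LF Γ)) (⊤ : Subgroup ↥(GG h)) := natCast_mem _ p
  have h1 := hr.card_dvd_ord ⊤ hp0 hpfix
  obtain ⟨π, hπ0, hπ⟩ := hr.unif
  have h2 := ord_dvd_of_fixed hp hA h (normH_ne_zero (⊤ : Subgroup ↥(GG h)) hπ0)
    (normH_mem (⊤ : Subgroup ↥(GG h)) π)
  rw [hr.ord_normH ⊤ hπ0, hπ, mul_one, ← Nat.card_eq_fintype_card] at h2
  have hpos := (primeHyp hp hA h).pos
  rw [Subgroup.card_top] at h1 h2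
  have hcpos : (0 : ℤ) < Nat.card ↥(GG h) := by
    have : 0 < Nat.card ↥(GG h) := Nat.card_pos
    exact_mod_cast this
  exact le_antisymm (Int.le_of_dvd hcpos h2) (Int.le_of_dvd hpos h1)

/-- `p`-th roots in the residue field, inside any fixed field. -/
theorem perf (N₁ : Subgroup ↥(GG h)) (c : ↥(LF Γ)) (hc0 : c ≠ 0) (hc : (wL hp hA h).ord c = 0) :
    ∃ d ∈ Fix (L := ↥(LF Γ)) N₁, (wL hp hA h).Ge 1 (c - d ^ p) := by
  have hvc : A.valuation (c : Qb) = 1 := (ord_eq_zero_iff (isUnif_unif hp hA h) hc0).1 hc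
  obtain ⟨ω, d, -, hd, hdω, hlt⟩ := exists_teich hp hA hvc
  refine ⟨ofKur h d hd, mem_Fix.2 fun g _ => ofKur_fixed h d hd g, ?_⟩
  refine (ge_one_iff (isUnif_unif hp hA h)).2 ?_
  rw [vL_apply]
  have : ((c - ofKur h d hd ^ p : ↥(LF Γ)) : Qb) = (c : Qb) - ω := by
    rw [← hdω]; rfl
  rw [this]
  exact hlt

end

end Fermat.Agent.W56.RamInstA7


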