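/-
Programme W56 (target S56), chapter (F) FLAT, ramification side (helper7): **the instantiation at
`(ℚ̄, A, Iner A)`, part B: the Eisenstein polynomial of a uniformiser of `ℚ̄^Γ` and
`O_{ℚ̄^Γ} = W₀[π]`**.

Setting of `RamInstA7` (`h : Adm A Γ`), `π = unif` the chosen uniformiser of `L = ℚ̄^Γ`, `G = GG h`.

* `PQ` : `∏_{g ∈ G} (X - g π) ∈ ℚ̄[X]`; `monic_PQ`, `natDegree_PQ`, `coeff_PQ_mem_W0`,
  `val_coeff_PQ_le` (`v (coeff k) ≤ v p` for `k < #G`), `val_coeff_zero_PQ` (`= v p`) : **`PQ` is an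
  Eisenstein polynomial over `W₀`**; `PW` : the same polynomial in `W₀[X]`;
* `exists_W0_poly` : every element of `OFix A Γ` is `g(π)` with `g ∈ W₀[X]`;
* `eq_zero_of_eval_eq_zero` : `1, π, …, π^(#G-1)` are independent over `W₀`.
-/
import Mathlib
import Fermat.Agent.W56.RamInstA7
import Fermat.Agent.W56.RamEis7

set_option autoImplicit false
set_option linter.style.haveILetI false
set_option linter.unusedSectionVars false

namespace Fermat.Agent.W56.RamInstB7

open Polynomial Fermat.Agent.FF.InertiaWire8 Fermat.Agent.U44.LocInst1 Fermat.Agent.U44.LocInst1B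
  Fermat.Agent.W56.RamBase7 Fermat.Agent.W56.RamBase7.DVal Fermat.Agent.W56.RamFund7
  Fermat.Agent.W56.RamExp7 Fermat.Agent.W56.RamVal7 Fermat.Agent.W56.RamKumA7
  Fermat.Agent.W56.RamInstA7 Fermat.Agent.W56.FontDef6

noncomputable section

variable {A : ValuationSubring Qb} {Γ : Subgroup GQ} {p : ℕ}

instance fintypeGG (h : Adm A Γ) : Fintype ↥(GG h) := Fintype.ofFinite _

variable (hp : p.Prime) (hA : A.LiesOverPrime p) (h : Adm A Γ)

/-- the conjugates of the uniformiser, in `ℚ̄`. -/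
def conj (g : ↥(GG h)) : Qb := ((g • unif hp hA h : ↥(LF Γ)) : Qb)

theorem conj_one : conj hp hA h 1 = (unif hp hA h : Qb) := by
  unfold conj; rw [one_smul]

theorem val_conj (g : ↥(GG h)) : A.valuation (conj hp hA h g) = A.valuation (unif hp hA h : Qb) :=
  vL_smul h g (unif hp hA h)

theorem val_unif_lt_one : A.valuation (unif hp hA h : Qb) < 1 := (isUnif_unif hp hA h).lt_one

theorem conj_mem (g : ↥(GG h)) : conj hp hA h g ∈ A := by
  rw [← A.valuation_le_one_iff, val_conj]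
  exact (val_unif_lt_one hp hA h).le

/-- `σ (g π) = (σ g) π`. -/
theorem smul_conj (σ : Iner A) (g : ↥(GG h)) :
    σ • conj hp hA h g = conj hp hA h ((⟨rho h σ, σ, rfl⟩ : ↥(GG h)) * g) := by
  unfold conj
  rw [mul_smul, coe_smul]

/-- `v π ^ #G = v p`. -/
theorem val_unif_pow : A.valuation (unif hp hA h : Qb) ^ Fintype.card ↥(GG h) =
    A.valuation (p : Qb) := by
  have h1 := v_eq_zpow_ord (isUnif_unif hp hA h) (natCast_ne_zero_L hp hA h)
  have h2 := ord_p hp hA h
  rw [vL_apply] at h1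
  have h3 : (((p : ℕ) : ↥(LF Γ)) : Qb) = (p : Qb) := by simp
  rw [h3] at h1
  rw [h1]
  have h4 : (dvalOf (vL A Γ) (unif hp hA h) (isUnif_unif hp hA h)).ord ((p : ℕ) : ↥(LF Γ)) =
      (Fintype.card ↥(GG h) : ℤ) := by
    rw [← Nat.card_eq_fintype_card]; exact h2
  rw [h4, zpow_natCast]
  rfl

/-- the Eisenstein polynomial of the uniformiser. -/
def PQ : Qb[X] := ∏ g : ↥(GG h), (X - C (conj hp hA h g))

theorem monic_PQ : (PQ hp hA h).Monic := monic_prod_of_monic _ _ fun g _ => monic_X_sub_C _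

theorem natDegree_PQ : (PQ hp hA h).natDegree = Fintype.card ↥(GG h) := by
  unfold PQ
  rw [natDegree_prod_of_monic _ _ fun g _ => monic_X_sub_C _]
  simp

theorem eval_PQ (x : Qb) : (PQ hp hA h).eval x = ∏ g : ↥(GG h), (x - conj hp hA h g) := by
  unfold PQ
  rw [eval_prod]
  refine Finset.prod_congr rfl fun g _ => ?_
  rw [eval_sub, eval_X, eval_C]

theorem eval_PQ_unif : (PQ hp hA h).eval (unif hp hA h : Qb) = 0 := by
  rw [eval_PQ]
  refine Finset.prod_eq_zero (Finset.mem_univ (1 : ↥(GG h))) ?_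
  rw [conj_one, sub_self]

/-- the same polynomial over `A`. -/
def PA : (↥A)[X] := ∏ g : ↥(GG h), (X - C (⟨conj hp hA h g, conj_mem hp hA h g⟩ : ↥A))

theorem map_PA : (PA hp hA h).map A.subtype = PQ hp hA h := by
  unfold PA PQ
  rw [Polynomial.map_prod]
  refine Finset.prod_congr rfl fun g _ => ?_
  rw [Polynomial.map_sub, map_X, map_C]
  rfl

theorem coeff_PQ_mem (k : ℕ) : (PQ hp hA h).coeff k ∈ A := by
  rw [← map_PA, coeff_map]
  exact ((PA hp hA h).coeff k).2

/-- the non-leading coefficients lie in the maximal ideal. -/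
theorem val_coeff_PQ_lt {k : ℕ} (hk : k < Fintype.card ↥(GG h)) :
    A.valuation ((PQ hp hA h).coeff k) < 1 := by
  have h1 : (PA hp hA h).map (IsLocalRing.residue ↥A) = X ^ Fintype.card ↥(GG h) := by
    unfold PA
    rw [Polynomial.map_prod]
    have : ∀ g ∈ (Finset.univ : Finset ↥(GG h)),
        (X - C (⟨conj hp hA h g, conj_mem hp hA h g⟩ : ↥A)).map (IsLocalRing.residue ↥A) = X := by
      intro g _
      rw [Polynomial.map_sub, map_X, map_C]
      have : IsLocalRing.residue ↥A ⟨conj hp hA h g, conj_mem hp hA h g⟩ = 0 := by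
        rw [IsLocalRing.residue_eq_zero_iff, A.valuation_lt_one_iff]
        show A.valuation (conj hp hA h g) < 1
        rw [val_conj]; exact val_unif_lt_one hp hA h
      rw [this, map_zero, sub_zero]
    rw [Finset.prod_congr rfl this, Finset.prod_const, Finset.card_univ]
  have h2 := congrArg (fun q => q.coeff k) h1
  simp only [coeff_map, coeff_X_pow] at h2
  rw [if_neg hk.ne] at h2
  rw [IsLocalRing.residue_eq_zero_iff, A.valuation_lt_one_iff] at h2
  rw [← map_PA, coeff_map]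
  exact h2

/-- the coefficients are inertia-fixed. -/
theorem smul_coeff_PQ (σ : Iner A) (k : ℕ) : σ • (PQ hp hA h).coeff k = (PQ hp hA h).coeff k := by
  have h1 : (PQ hp hA h).map ((σ : GQ) : Qb →+* Qb) = PQ hp hA h := by
    unfold PQ
    rw [Polynomial.map_prod]
    refine Fintype.prod_equiv (Equiv.mulLeft (⟨rho h σ, σ, rfl⟩ : ↥(GG h))) _ _ fun g => ?_
    rw [Polynomial.map_sub, map_X, map_C, Equiv.coe_mulLeft, ← smul_conj]
    rfl
  have h2 := congrArg (fun q => q.coeff k) h1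
  simp only [coeff_map] at h2
  exact h2

theorem coeff_PQ_mem_W0 (k : ℕ) : (PQ hp hA h).coeff k ∈ W0 A :=
  ⟨coeff_PQ_mem hp hA h k, fun σ => smul_coeff_PQ hp hA h σ k⟩

theorem val_coeff_PQ_le {k : ℕ} (hk : k < Fintype.card ↥(GG h)) :
    A.valuation ((PQ hp hA h).coeff k) ≤ A.valuation (p : Qb) := by
  have hp0 : (p : Qb) ≠ 0 := Fermat.Agent.T33.WZero2.natCast_ne_zero' hp
  have h1 := Fermat.Agent.T33.WZero2.div_natCast_mem hp hA (coeff_PQ_mem_W0 hp hA h k)
    (A.mem_nonunits_iff.2 (val_coeff_PQ_lt hp hA h hk))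
  have h2 : A.valuation ((PQ hp hA h).coeff k / (p : Qb)) ≤ 1 := (A.valuation_le_one_iff _).2 h1.1
  rw [map_div₀, div_le_iff₀ (zero_lt_iff.2 ((Valuation.ne_zero_iff _).2 hp0)), one_mul] at h2
  exact h2

theorem val_coeff_zero_PQ : A.valuation ((PQ hp hA h).coeff 0) = A.valuation (p : Qb) := by
  rw [coeff_zero_eq_eval_zero, eval_PQ, map_prod]
  have : ∀ g ∈ (Finset.univ : Finset ↥(GG h)),
      A.valuation (0 - conj hp hA h g) = A.valuation (unif hp hA h : Qb) := by
    intro g _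
    rw [zero_sub, Valuation.map_neg, val_conj]
  rw [Finset.prod_congr rfl this, Finset.prod_const, Finset.card_univ, val_unif_pow]

/-- the Eisenstein polynomial, over `W₀`. -/
def PW : (↥(W0 A))[X] :=
  (PQ hp hA h).toSubring (W0 A) (by
    intro c hc
    obtain ⟨n, -, rfl⟩ := Polynomial.mem_coeffs_iff.1 (Finset.mem_coe.1 hc)
    exact coeff_PQ_mem_W0 hp hA h n)

theorem map_PW : (PW hp hA h).map (W0 A).subtype = PQ hp hA h := Polynomial.map_toSubring _ _ _

theorem monic_PW : (PW hp hA h).Monic := (Polynomial.monic_toSubring _ _ _).2 (monic_PQ hp hA h)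

theorem natDegree_PW : (PW hp hA h).natDegree = Fintype.card ↥(GG h) := by
  unfold PW
  rw [Polynomial.natDegree_toSubring, natDegree_PQ]

theorem PW_ne_one : PW hp hA h ≠ 1 := by
  intro h1
  have := natDegree_PW hp hA h
  rw [h1, natDegree_one] at this
  exact Fintype.card_pos.ne this

/-! ### `O_L = W₀[π]` -/

include h in
theorem W0_le_OFix : W0 A ≤ OFix A Γ := fun x hx =>
  ⟨hx.1, fun γ hγ => hx.2 ⟨γ, h.le hγ⟩⟩

/-- elements of `W₀` as `G`-fixed integral elements of `L`. -/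
theorem ofKur_mem (x : Qb) (hx : x ∈ W0 A) :
    ofKur h x hx.2 ∈ Fix (L := ↥(LF Γ)) (⊤ : Subgroup ↥(GG h)) :=
  mem_Fix.2 fun g _ => ofKur_fixed h x hx.2 g

theorem card_bot_eq : (wL hp hA h).ord (unif hp hA h) = Nat.card ↥(⊥ : Subgroup ↥(GG h)) := by
  rw [Subgroup.card_bot]
  exact ord_unif (isUnif_unif hp hA h)

theorem unif_mem_bot : unif hp hA h ∈ Fix (L := ↥(LF Γ)) (⊥ : Subgroup ↥(GG h)) :=
  mem_Fix.2 fun g hg => by rw [Subgroup.mem_bot.1 hg, one_smul]

/-- every element of `OFix A Γ` is a polynomial in `π` with coefficients in `W₀`. -/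
theorem exists_W0_poly (y : Qb) (hy : y ∈ OFix A Γ) :
    ∃ g : (↥(W0 A))[X], (g.map (W0 A).subtype).eval (unif hp hA h : Qb) = y := by
  have hr := ram hp hA h
  have hu := isUnif_unif hp hA h
  set y' : ↥(LF Γ) := ⟨y, mem_LF.2 hy.2⟩ with hy'
  have hy'fix : y' ∈ Fix (L := ↥(LF Γ)) (⊥ : Subgroup ↥(GG h)) :=
    mem_Fix.2 fun g hg => by rw [Subgroup.mem_bot.1 hg, one_smul]
  have hy'ge : (wL hp hA h).Ge 0 y' := (ge_zero_iff hu).2 ((A.valuation_le_one_iff y).2 hy.1)
  obtain ⟨g, hgfix, -, hgy, hgint⟩ := exists_expansion hr (bot_le (a := (⊤ : Subgroup ↥(GG h))))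
    hu.ne_zero (unif_mem_bot hp hA h) (card_bot_eq hp hA h) hy'fix
  have hcoeff : ∀ k, ((g.coeff k : ↥(LF Γ)) : Qb) ∈ W0 A := by
    intro k
    refine ⟨?_, (mem_Fix_top_iff h _).1 (hgfix k)⟩
    rw [← A.valuation_le_one_iff]
    exact (ge_zero_iff hu).1 (hgint hy'ge k)
  set gQ : Qb[X] := g.map (LF Γ).subtype with hgQ
  have hgQc : (↑gQ.coeffs : Set Qb) ⊆ ↑(W0 A) := by
    intro c hc
    obtain ⟨n, -, rfl⟩ := Polynomial.mem_coeffs_iff.1 (Finset.mem_coe.1 hc)
    rw [hgQ, coeff_map]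
    exact hcoeff n
  refine ⟨gQ.toSubring (W0 A) hgQc, ?_⟩
  rw [Polynomial.map_toSubring, hgQ, eval_map]
  have := Polynomial.hom_eval₂ g (RingHom.id ↥(LF Γ)) (LF Γ).subtype (unif hp hA h)
  rw [RingHom.comp_id, eval₂_id, hgy] at this
  exact this.symm

/-- `1, π, …, π^(#G-1)` are independent over `W₀`. -/
theorem eq_zero_of_eval_eq_zero (g : (↥(W0 A))[X]) (hdeg : g.natDegree < Fintype.card ↥(GG h))
    (hg : (g.map (W0 A).subtype).eval (unif hp hA h : Qb) = 0) : g = 0 := by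
  have hr := ram hp hA h
  have hu := isUnif_unif hp hA h
  set a : ℕ → ↥(LF Γ) := fun k => ofKur h ((g.coeff k : ↥(W0 A)) : Qb) (g.coeff k).2.2 with ha
  have hafix : ∀ k, a k ∈ Fix (L := ↥(LF Γ)) (⊤ : Subgroup ↥(GG h)) := fun k =>
    ofKur_mem h _ (g.coeff k).2
  have hsum : ∑ k ∈ Finset.range (Fintype.card ↥(GG h)), a k * unif hp hA h ^ k = 0 := by
    apply Subtype.ext
    rw [eval_map, eval₂_eq_sum_range' _ hdeg] at hg
    show (LF Γ).subtype (∑ k ∈ Finset.range (Fintype.card ↥(GG h)), a k * unif hp hA h ^ k) = 0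
    rw [map_sum, ← hg]
    refine Finset.sum_congr rfl fun k _ => ?_
    rw [map_mul, map_pow]
    rfl
  have hn : ∀ j, j < Fintype.card ↥(GG h) →
      j * Nat.card ↥(⊥ : Subgroup ↥(GG h)) < Nat.card ↥(⊤ : Subgroup ↥(GG h)) := by
    intro j hj
    rw [Subgroup.card_bot, Subgroup.card_top, mul_one, Nat.card_eq_fintype_card]
    exact hj
  refine Polynomial.ext fun k => ?_
  rw [coeff_zero]
  rcases lt_or_ge k (Fintype.card ↥(GG h)) with hk | hk
  · have := eq_zero_of_sum_eq_zero hr hu.ne_zero (card_bot_eq hp hA h) a hafix _ hn hsum k hk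
    have h2 := congrArg Subtype.val this
    exact Subtype.ext h2
  · exact coeff_eq_zero_of_natDegree_lt (lt_of_lt_of_le hdeg hk)

end

end Fermat.Agent.W56.RamInstB7
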