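/-
Programme W56 (target S56), chapter (F) FLAT, ramification side (helper7): **the instantiation at
`(ℚ̄, A, Iner A)`, part C: the converse Krasner argument from Fontaine's property, and the Kummer
level theorem**.

* `ck` : `FontDef6.FontaineProp A p Γ` implies the conclusion `RamKras7.CK` of the converse Krasner
  argument for `L = ℚ̄^Γ` : for `N₀ = e m + r > e p/(p-1)` take a root `β` of `P - p^m X^r` (`P` the
  Eisenstein polynomial of `π`); `v β = v π`; `π ↦ β` is a `W₀`-homomorphism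
  `O_L = W₀[π] → O_{ℚ̄^Δ} / (P(β))`, `Δ = Stab_I β`; Fontaine's property gives `Δ ≤ Γ`, the orbit count
  gives `β ∈ L`, and `∑_g ord (β - g π) = ord P(β) = N₀`.
* **`kummer_level`** : the deliverable of chapter (F), ramification side.
-/
import Mathlib
import Fermat.Agent.W56.RamInstB7

set_option autoImplicit false
set_option linter.style.haveILetI false
set_option linter.unusedSectionVars false

namespace Fermat.Agent.W56.RamInstC7

open Polynomial Fermat.Agent.FF.InertiaWire8 Fermat.Agent.U44.LocInst1 Fermat.Agent.U44.LocInst1B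
  Fermat.Agent.W56.RamBase7 Fermat.Agent.W56.RamBase7.DVal Fermat.Agent.W56.RamFund7
  Fermat.Agent.W56.RamExp7 Fermat.Agent.W56.RamVal7 Fermat.Agent.W56.RamKumA7
  Fermat.Agent.W56.RamKras7 Fermat.Agent.W56.RamEis7
  Fermat.Agent.W56.RamInstA7 Fermat.Agent.W56.RamInstB7 Fermat.Agent.W56.FontDef6

noncomputable section

variable {A : ValuationSubring Qb} {Γ : Subgroup GQ} {p : ℕ}
  (hp : p.Prime) (hA : A.LiesOverPrime p) (h : Adm A Γ)
include hp hA h

/-- the perturbed Eisenstein polynomial. -/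
def QQ (m r : ℕ) : Qb[X] := PQ hp hA h - C ((p : Qb) ^ m) * X ^ r

theorem natDegree_pert_lt {m r : ℕ} (hr : r < Fintype.card ↥(GG h)) :
    (C ((p : Qb) ^ m) * X ^ r).degree < (PQ hp hA h).degree := by
  rw [degree_eq_natDegree (monic_PQ hp hA h).ne_zero, natDegree_PQ]
  refine lt_of_le_of_lt (degree_C_mul_X_pow_le r _) ?_
  exact_mod_cast hr

theorem monic_QQ {m r : ℕ} (hr : r < Fintype.card ↥(GG h)) : (QQ hp hA h m r).Monic :=
  (monic_PQ hp hA h).sub_of_left (natDegree_pert_lt hp hA h hr)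

theorem natDegree_QQ {m r : ℕ} (hr : r < Fintype.card ↥(GG h)) :
    (QQ hp hA h m r).natDegree = Fintype.card ↥(GG h) := by
  unfold QQ
  rw [natDegree_sub_eq_left_of_natDegree_lt, natDegree_PQ]
  rw [natDegree_PQ]
  exact lt_of_le_of_lt (natDegree_C_mul_X_pow_le _ _) hr

theorem coeff_QQ (m r k : ℕ) : (QQ hp hA h m r).coeff k =
    (PQ hp hA h).coeff k - if k = r then (p : Qb) ^ m else 0 := by
  unfold QQ
  rw [coeff_sub, coeff_C_mul_X_pow]

theorem smul_coeff_QQ (σ : Iner A) (m r k : ℕ) :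
    σ • (QQ hp hA h m r).coeff k = (QQ hp hA h m r).coeff k := by
  rw [coeff_QQ, smul_sub, smul_coeff_PQ]
  congr 1
  split_ifs
  · rw [smul_pow']
    congr 1
    exact map_natCast (MulSemiringAction.toRingHom (Iner A) Qb σ) p
  · rw [smul_zero]

theorem val_p_lt_one : A.valuation (p : Qb) < 1 := val_natCast_lt_one (A := A) hA

theorem val_p_ne_zero : A.valuation (p : Qb) ≠ 0 := val_natCast_ne_zero (A := A) hp

theorem val_p_pow_le {m : ℕ} (hm : 1 ≤ m) : A.valuation ((p : Qb) ^ m) ≤ A.valuation (p : Qb) := by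
  rw [map_pow]
  calc A.valuation (p : Qb) ^ m ≤ A.valuation (p : Qb) ^ 1 :=
        pow_le_pow_of_le_one zero_le (val_p_lt_one hp hA h).le hm
    _ = _ := pow_one _

theorem val_p_pow_lt {m : ℕ} (hm : 2 ≤ m) : A.valuation ((p : Qb) ^ m) < A.valuation (p : Qb) := by
  rw [map_pow]
  calc A.valuation (p : Qb) ^ m ≤ A.valuation (p : Qb) ^ 2 :=
        pow_le_pow_of_le_one zero_le (val_p_lt_one hp hA h).le hm
    _ = A.valuation (p : Qb) * A.valuation (p : Qb) := sq _
    _ < A.valuation (p : Qb) * 1 :=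
        mul_lt_mul_of_pos_left (val_p_lt_one hp hA h) (zero_lt_iff.2 (val_p_ne_zero hp hA h))
    _ = _ := mul_one _

/-- a root of the perturbed polynomial has the valuation of the uniformiser. -/
theorem val_root {m r : ℕ} (hr : r < Fintype.card ↥(GG h)) (hm : 1 ≤ m) (hm2 : r = 0 → 2 ≤ m)
    {β : Qb} (hβ : (QQ hp hA h m r).eval β = 0) :
    A.valuation β = A.valuation (unif hp hA h : Qb) := by
  set e := Fintype.card ↥(GG h) with he
  have hepos : 0 < e := Fintype.card_pos
  have hq : ∀ k, k < e → A.valuation ((QQ hp hA h m r).coeff k) ≤ A.valuation (p : Qb) := by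
    intro k hk
    rw [coeff_QQ]
    refine (Valuation.map_sub _ _ _).trans (max_le (val_coeff_PQ_le hp hA h hk) ?_)
    split_ifs
    · exact val_p_pow_le hp hA h hm
    · rw [map_zero]; exact zero_le
  have hq0 : A.valuation ((QQ hp hA h m r).coeff 0) = A.valuation (p : Qb) := by
    rw [coeff_QQ]
    split_ifs with h0
    · rw [← val_coeff_zero_PQ hp hA h]
      refine Valuation.map_sub_eq_of_lt_left _ ?_
      rw [val_coeff_zero_PQ]
      exact val_p_pow_lt hp hA h (hm2 h0.symm)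
    · rw [sub_zero, val_coeff_zero_PQ]
  have hsum : β ^ e + ∑ k ∈ Finset.range e, (QQ hp hA h m r).coeff k * β ^ k = 0 := by
    rw [eval_eq_sum_range, natDegree_QQ hp hA h hr, Finset.sum_range_succ] at hβ
    have hlead : (QQ hp hA h m r).coeff e = 1 := by
      have := (monic_QQ hp hA h (m := m) hr).coeff_natDegree
      rwa [natDegree_QQ hp hA h hr] at this
    rw [hlead, one_mul] at hβ
    rw [add_comm]; exact hβ
  have h1 := val_root_eisenstein A.valuation hepos (fun k => (QQ hp hA h m r).coeff k)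
    (val_p_ne_zero hp hA h) (val_p_lt_one hp hA h) hq hq0 hsum
  rw [← val_unif_pow hp hA h] at h1
  exact (pow_left_inj₀ zero_le zero_le hepos.ne').1 h1

/-- **the converse Krasner argument from Fontaine's property.** -/
theorem ck (hF : FontaineProp A p Γ) :
    CK (wL hp hA h) ↥(GG h) (unif hp hA h) (p : ℤ) (Fintype.card ↥(GG h) : ℤ) := by
  classical
  intro N₀ hN₀
  set e := Fintype.card ↥(GG h) with he
  have hepos : 0 < e := Fintype.card_pos
  have hp1 : (1 : ℤ) < p := by exact_mod_cast hp.one_lt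
  have heZ : (0 : ℤ) < e := by exact_mod_cast hepos
  -- `N₀ > e`
  have hN₀e : (e : ℤ) < N₀ := by nlinarith
  obtain ⟨N, rfl⟩ : ∃ N : ℕ, N₀ = N := ⟨N₀.toNat, (Int.toNat_of_nonneg (by omega)).symm⟩
  have hNe : e < N := by exact_mod_cast hN₀e
  set m := N / e with hm
  set r := N % e with hr
  have hNmr : N = e * m + r := (Nat.div_add_mod N e).symm
  have hre : r < e := Nat.mod_lt N hepos
  have hm1 : 1 ≤ m := by
    rw [hm]; exact (Nat.one_le_div_iff hepos).2 hNe.le
  have hm2 : r = 0 → 2 ≤ m := by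
    intro hr0
    by_contra hcon
    have : m = 1 := by omega
    rw [this, hr0] at hNmr
    omega
  -- the root
  have hdeg : (QQ hp hA h m r).degree ≠ 0 := by
    rw [degree_eq_natDegree (monic_QQ hp hA h hre).ne_zero, natDegree_QQ hp hA h hre]
    exact_mod_cast hepos.ne'
  obtain ⟨β, hβ⟩ := IsAlgClosed.exists_root (QQ hp hA h m r) hdeg
  have hβ' : (QQ hp hA h m r).eval β = 0 := hβ
  have hvβ := val_root hp hA h hre hm1 hm2 hβ'
  have hu := isUnif_unif hp hA h
  have hβ0 : β ≠ 0 := by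
    intro h0
    rw [h0, map_zero] at hvβ
    exact (Valuation.ne_zero_iff _).2 (Subtype.coe_injective.ne hu.ne_zero) hvβ.symm
  have hβA : β ∈ A := by
    rw [← A.valuation_le_one_iff, hvβ]; exact (val_unif_lt_one hp hA h).le
  -- `P(β) = p^m β^r`
  have hPβ : (PQ hp hA h).eval β = (p : Qb) ^ m * β ^ r := by
    unfold QQ at hβ'
    rw [eval_sub, eval_mul, eval_C, eval_pow, eval_X, sub_eq_zero] at hβ'
    exact hβ'
  set c := (p : Qb) ^ m * β ^ r with hc
  have hp0 : (p : Qb) ≠ 0 := Fermat.Agent.T33.WZero2.natCast_ne_zero' hp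
  have hc0 : c ≠ 0 := mul_ne_zero (pow_ne_zero m hp0) (pow_ne_zero r hβ0)
  -- the stabiliser
  set Δ : Subgroup GQ := MulAction.stabilizer GQ β ⊓ Iner A with hΔ
  have hΔI : Δ ≤ Iner A := inf_le_right
  have hβΔ : β ∈ OFix A Δ := ⟨hβA, fun σ hσ => MulAction.mem_stabilizer_iff.1 hσ.1⟩
  have hpΔ : (p : Qb) ∈ OFix A Δ := natCast_mem _ p
  have hcΔ : c ∈ OFix A Δ := mul_mem (pow_mem hpΔ m) (pow_mem hβΔ r)
  -- the valuation condition
  have hvce : A.valuation c ^ e = A.valuation (p : Qb) ^ N := by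
    have h1 : (A.valuation β ^ r) ^ e = A.valuation (p : Qb) ^ r := by
      rw [← pow_mul, mul_comm, pow_mul, hvβ, val_unif_pow hp hA h]
    rw [hc, map_mul, map_pow, map_pow, mul_pow, h1, ← pow_mul, ← pow_add, hNmr]
    congr 1
    ring
  have hval : A.valuation c ^ (p - 1) < A.valuation (p : Qb) ^ p := by
    rw [← pow_lt_pow_iff_left₀ zero_le zero_le hepos.ne', ← pow_mul, mul_comm, pow_mul, hvce,
      ← pow_mul, ← pow_mul]
    refine pow_lt_pow_right_of_lt_one₀ (zero_lt_iff.2 (val_p_ne_zero hp hA h)) (val_p_lt_one hp hA h) ?_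
    have h1 : ((p * e : ℕ) : ℤ) < ((N * (p - 1) : ℕ) : ℤ) := by
      push_cast
      rw [Nat.cast_sub hp.one_lt.le]
      push_cast
      linarith
    exact_mod_cast h1
  -- the homomorphism
  have hRT : W0 A ≤ OFix A Δ := fun x hx => ⟨hx.1, fun σ hσ => hx.2 ⟨σ, hΔI hσ⟩⟩
  have hπΓ : (unif hp hA h : Qb) ∈ OFix A Γ :=
    ⟨(A.valuation_le_one_iff _).1 (val_unif_lt_one hp hA h).le, mem_LF.1 (unif hp hA h).2⟩
  obtain ⟨φ, hφ⟩ := exists_quot_hom (W0_le_OFix h) hRT ⟨(unif hp hA h : Qb), hπΓ⟩ ⟨β, hβΔ⟩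
    (PW hp hA h) (monic_PW hp hA h) (PW_ne_one hp hA h)
    (fun y => exists_W0_poly hp hA h (y : Qb) y.2)
    (fun g hg hg0 => eq_zero_of_eval_eq_zero hp hA h g (by rwa [natDegree_PW] at hg) hg0)
    (by rw [map_PW]; exact eval_PQ_unif hp hA h) (idealLe A Δ c)
    (by
      rw [mem_idealLe, coe_evalSub, map_PW]
      show A.valuation ((PQ hp hA h).eval β) ≤ A.valuation c
      rw [hPβ])
  have hΔΓ : Δ ≤ Γ := hF Δ hΔI c hcΔ hval ⟨φ, hφ⟩
  -- the orbit count
  set S := MulAction.stabilizer ↥(Iner A) β with hS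
  set K := (rho h).ker with hK
  have hSK : S ≤ K := by
    intro σ hσ
    apply subgroupOf_le_ker h
    rw [Subgroup.mem_subgroupOf]
    apply hΔΓ
    exact ⟨MulAction.mem_stabilizer_iff.2 (MulAction.mem_stabilizer_iff.1 hσ), σ.2⟩
  have hKindex : K.index = e := by
    rw [hK, Subgroup.index_ker, Nat.card_eq_fintype_card]
  have horb : MulAction.orbit ↥(Iner A) β ⊆ ↑(QQ hp hA h m r).roots.toFinset := by
    rintro _ ⟨σ, rfl⟩
    rw [Finset.mem_coe, Multiset.mem_toFinset, mem_roots (monic_QQ hp hA h hre).ne_zero, IsRoot.def]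
    have h1 : (QQ hp hA h m r).map ((σ : GQ) : Qb →+* Qb) = QQ hp hA h m r := by
      refine Polynomial.ext fun k => ?_
      rw [coeff_map]
      exact smul_coeff_QQ hp hA h σ m r k
    have h2 : ((QQ hp hA h m r).map ((σ : GQ) : Qb →+* Qb)).eval (((σ : GQ) : Qb →+* Qb) β) =
        ((σ : GQ) : Qb →+* Qb) ((QQ hp hA h m r).eval β) := by
      rw [eval_map, eval₂_at_apply]
    rw [h1, hβ', map_zero] at h2
    exact h2
  have hSindex : S.index ≤ e := by
    rw [hS, MulAction.index_stabilizer]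
    calc (MulAction.orbit ↥(Iner A) β).ncard ≤ (↑(QQ hp hA h m r).roots.toFinset : Set Qb).ncard :=
          Set.ncard_le_ncard horb (Finset.finite_toSet _)
      _ = (QQ hp hA h m r).roots.toFinset.card := Set.ncard_coe_finset _
      _ ≤ (QQ hp hA h m r).roots.card := Multiset.toFinset_card_le _
      _ ≤ (QQ hp hA h m r).natDegree := card_roots' _
      _ = e := natDegree_QQ hp hA h hre
  have hSpos : 0 < S.index := by
    rw [hS, MulAction.index_stabilizer]
    exact (Set.ncard_pos ((Finset.finite_toSet _).subset horb)).2 ⟨β, MulAction.mem_orbit_self β⟩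
  have hrel := Subgroup.relIndex_mul_index hSK
  rw [hKindex] at hrel
  have hrel1 : S.relIndex K = 1 := by
    have h1 : S.relIndex K * e ≤ 1 * e := by rw [hrel, one_mul]; exact hSindex
    have h2 : S.relIndex K ≤ 1 := le_of_mul_le_mul_right h1 hepos
    have h3 : S.relIndex K ≠ 0 := by
      intro h0
      rw [h0, zero_mul] at hrel
      omega
    omega
  have hKS : K ≤ S := Subgroup.relIndex_eq_one.1 hrel1
  have hβΓ : β ∈ LF Γ := by
    rw [mem_LF]
    intro γ hγ
    have h1 : (⟨γ, h.le hγ⟩ : ↥(Iner A)) ∈ S :=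
      hKS (subgroupOf_le_ker h (Subgroup.mem_subgroupOf.2 hγ))
    exact MulAction.mem_stabilizer_iff.1 h1
  -- conclusion
  set b : ↥(LF Γ) := ⟨β, hβΓ⟩ with hb
  have hb0 : b ≠ 0 := fun h0 => hβ0 (congrArg Subtype.val h0)
  have hne : ∀ g : ↥(GG h), b ≠ g • unif hp hA h := by
    intro g hg
    have h1 : β = conj hp hA h g := congrArg Subtype.val hg
    have h2 : (PQ hp hA h).eval β = 0 := by
      rw [eval_PQ]
      exact Finset.prod_eq_zero (Finset.mem_univ g) (sub_eq_zero.2 h1)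
    rw [hPβ] at h2
    exact hc0 h2
  refine ⟨b, hne, ?_⟩
  have hfac : ∀ g ∈ (Finset.univ : Finset ↥(GG h)), b - g • unif hp hA h ≠ 0 := fun g _ =>
    sub_ne_zero.2 (hne g)
  rw [← (wL hp hA h).ord_prod Finset.univ (fun g => b - g • unif hp hA h) hfac]
  have hprod : ∏ g : ↥(GG h), (b - g • unif hp hA h) = ((p : ℕ) : ↥(LF Γ)) ^ m * b ^ r := by
    apply Subtype.ext
    show (LF Γ).subtype (∏ g : ↥(GG h), (b - g • unif hp hA h)) =
      (LF Γ).subtype (((p : ℕ) : ↥(LF Γ)) ^ m * b ^ r)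
    rw [map_prod, map_mul, map_pow, map_pow, map_natCast]
    have : ∀ g ∈ (Finset.univ : Finset ↥(GG h)),
        (LF Γ).subtype (b - g • unif hp hA h) = β - conj hp hA h g := fun g _ => rfl
    rw [Finset.prod_congr rfl this, ← eval_PQ, hPβ]
    rfl
  rw [hprod]
  have hpL0 := natCast_ne_zero_L hp hA h
  have hordb : (wL hp hA h).ord b = 1 := by
    rw [← ord_unif hu]
    exact (ord_eq_ord_iff hu hb0 hu.ne_zero).2 hvβ
  rw [(wL hp hA h).ord_mul (pow_ne_zero m hpL0) (pow_ne_zero r hb0), (wL hp hA h).ord_pow hpL0,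
    (wL hp hA h).ord_pow hb0, hordb, ord_p hp hA h, Nat.card_eq_fintype_card, hNmr]
  push_cast
  ring

end

end Fermat.Agent.W56.RamInstC7
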