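/-
Programme W56 (target S56), chapter (F) FLAT, ramification side (helper7): **THE KUMMER LEVEL
THEOREM** — the deliverable of the ramification side.

`A` a valuation subring of `ℚ̄` over `p`; `Γ ≤ Γ₀ ≤ Iner A` subgroups, `Γ` normalised by `Iner A` and
of finite index in it; `ζ` a primitive `p`-th root of unity fixed by `Γ₀`; Fontaine's property
`FontDef6.FontaineProp A p Γ` (helper6: it holds when `Γ` is the kernel of the inertia action on the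
points of a finite flat group scheme killed by `p`).

**`kummer_level`** : if `α ≠ 0` is fixed by `Γ₀` and has a `p`-th root `θ` fixed by `Γ`, then
`α = β ^ p * u` with `β ≠ 0`, `u` fixed by `Γ₀` and `(u - 1) / p ∈ A` (the Kummer class of `α` over
`ℚ̄^{Γ₀}` has level `≥ e₀ = ord_{ℚ̄^{Γ₀}} p`).

No hypothesis on `[Iner A : Γ₀]`, on the exponent of `Γ₀ / Γ`, on closedness of `Γ`, nor on `p` odd.

* `exists_unif_fixed` : for `Γ ≤ N ≤ Iner A` there is `π₀` fixed by `N` such that the valuation of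
  every nonzero `N`-fixed element of `ℚ̄^Γ` is an integral power of `v π₀`, and
  `v π₀ ^ e₀ = v p` with `e₀ = #G / #N̄` (`N̄` the image of `N` in `G = Aut`-image of `Iner A`).
-/
import Mathlib
import Fermat.Agent.W56.RamInstC7

set_option autoImplicit false
set_option linter.style.haveILetI false
set_option linter.unusedSectionVars false

namespace Fermat.Agent.W56.KummerLevel7

open Polynomial Fermat.Agent.FF.InertiaWire8 Fermat.Agent.U44.LocInst1 Fermat.Agent.U44.LocInst1B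
  Fermat.Agent.W56.RamBase7 Fermat.Agent.W56.RamBase7.DVal Fermat.Agent.W56.RamFund7
  Fermat.Agent.W56.RamVal7 Fermat.Agent.W56.RamKumA7 Fermat.Agent.W56.RamKumC7
  Fermat.Agent.W56.RamKras7
  Fermat.Agent.W56.RamInstA7 Fermat.Agent.W56.RamInstB7 Fermat.Agent.W56.RamInstC7
  Fermat.Agent.W56.FontDef6

noncomputable section

variable {A : ValuationSubring Qb} {Γ : Subgroup GQ} {p : ℕ}

/-- the image in `G` of a subgroup of `G_ℚ`. -/
def imG (h : Adm A Γ) (N : Subgroup GQ) : Subgroup ↥(GG h) :=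
  (N.subgroupOf (Iner A)).map (rho h).rangeRestrict

theorem mem_Fix_imG (h : Adm A Γ) {N : Subgroup GQ} (hN : N ≤ Iner A) (x : ↥(LF Γ)) :
    x ∈ Fix (L := ↥(LF Γ)) (imG h N) ↔ ∀ σ ∈ N, σ (x : Qb) = x := by
  rw [mem_Fix]
  constructor
  · intro hx σ hσ
    have h1 : (rho h).rangeRestrict ⟨σ, hN hσ⟩ ∈ imG h N :=
      Subgroup.mem_map.2 ⟨⟨σ, hN hσ⟩, Subgroup.mem_subgroupOf.2 hσ, rfl⟩
    have := hx _ h1
    exact congrArg Subtype.val this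
  · intro hx g hg
    obtain ⟨σ, hσ, rfl⟩ := Subgroup.mem_map.1 hg
    apply Subtype.ext
    exact hx _ (Subgroup.mem_subgroupOf.1 hσ)

/-- **THE KUMMER LEVEL THEOREM.** -/
theorem kummer_level (hp : p.Prime) (hA : A.LiesOverPrime p) {Γ₀ : Subgroup GQ} (hle : Γ ≤ Γ₀)
    (hΓ₀ : Γ₀ ≤ Iner A) (hnorm : ∀ σ ∈ Iner A, ∀ γ ∈ Γ, σ * γ * σ⁻¹ ∈ Γ)
    (hfin : (Γ.subgroupOf (Iner A)).index ≠ 0) {ζ : Qb} (hζ : IsPrimitiveRoot ζ p)
    (hζΓ₀ : ∀ σ ∈ Γ₀, σ ζ = ζ) (hF : FontaineProp A p Γ) {α θ : Qb} (hα0 : α ≠ 0)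
    (hαΓ₀ : ∀ σ ∈ Γ₀, σ α = α) (hθ : θ ^ p = α) (hθΓ : ∀ σ ∈ Γ, σ θ = θ) :
    ∃ β u : Qb, β ≠ 0 ∧ (∀ σ ∈ Γ₀, σ β = β) ∧ (∀ σ ∈ Γ₀, σ u = u) ∧ α = β ^ p * u ∧
      (u - 1) / (p : Qb) ∈ A := by
  have h : Adm A Γ := ⟨hle.trans hΓ₀, hnorm, hfin⟩
  have hu := isUnif_unif hp hA h
  set N₁ := imG h Γ₀ with hN₁
  -- the data in `L`
  set ζ' : ↥(LF Γ) := ⟨ζ, mem_LF.2 fun σ hσ => hζΓ₀ σ (hle hσ)⟩ with hζ'
  set α' : ↥(LF Γ) := ⟨α, mem_LF.2 fun σ hσ => hαΓ₀ σ (hle hσ)⟩ with hα'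
  set θ' : ↥(LF Γ) := ⟨θ, mem_LF.2 hθΓ⟩ with hθ'
  have hK : KumHyp (wL hp hA h) ↥(GG h) (unif hp hA h) p N₁ ζ' :=
    { ram := ram hp hA h
      hπ0 := hu.ne_zero
      hπ := ord_unif hu
      prime := primeHyp hp hA h
      hordp := by rw [ord_p hp hA h, Nat.card_eq_fintype_card]
      hCK := ck hp hA h hF
      hζ := by
        have : IsPrimitiveRoot ((LF Γ).subtype ζ') p := hζ
        exact IsPrimitiveRoot.of_map_of_injective (f := (LF Γ).subtype) this Subtype.coe_injective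
      hζN := (mem_Fix_imG h hΓ₀ ζ').2 hζΓ₀
      perf := fun c _ hc0 hc => perf hp hA h N₁ c hc0 hc }
  have hα'N : α' ∈ Fix (L := ↥(LF Γ)) N₁ := (mem_Fix_imG h hΓ₀ α').2 hαΓ₀
  have hα'0 : α' ≠ 0 := fun h0 => hα0 (congrArg Subtype.val h0)
  have hθ'p : θ' ^ p = α' := Subtype.ext hθ
  obtain ⟨β, hβN, hβ0, u, huN, hαβu, hge⟩ := kummer_abstract hK hα'N hα'0 hθ'p
  refine ⟨(β : Qb), (u : Qb), fun h0 => hβ0 (Subtype.ext h0), (mem_Fix_imG h hΓ₀ β).1 hβN,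
    (mem_Fix_imG h hΓ₀ u).1 huN, congrArg Subtype.val hαβu, ?_⟩
  have hpL0 := natCast_ne_zero_L hp hA h
  have h1 := (ge_ord_iff hu hpL0).1 hge
  rw [vL_apply, vL_apply] at h1
  have hp0 : (p : Qb) ≠ 0 := Fermat.Agent.T33.WZero2.natCast_ne_zero' hp
  rw [← A.valuation_le_one_iff, map_div₀,
    div_le_iff₀ (zero_lt_iff.2 ((Valuation.ne_zero_iff _).2 hp0)), one_mul]
  have h2 : ((u - 1 : ↥(LF Γ)) : Qb) = (u : Qb) - 1 := rfl
  have h3 : (((p : ℕ) : ↥(LF Γ)) : Qb) = (p : Qb) := by simp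
  rw [h2, h3] at h1
  exact h1

/-- a uniformiser of the fixed field of `N` in `ℚ̄^Γ` (`Γ ≤ N ≤ Iner A`), with the value group. -/
theorem exists_unif_fixed (hp : p.Prime) (hA : A.LiesOverPrime p) (h : Adm A Γ) {N : Subgroup GQ}
    (hN : N ≤ Iner A) :
    ∃ π₀ : Qb, π₀ ≠ 0 ∧ (∀ σ ∈ N, σ π₀ = π₀) ∧ (∀ σ ∈ Γ, σ π₀ = π₀) ∧
      A.valuation π₀ ^ Nat.card ↥(GG h) = A.valuation (p : Qb) ^ Nat.card ↥(imG h N) ∧
      ∀ x : Qb, x ≠ 0 → (∀ σ ∈ N, σ x = x) → (∀ σ ∈ Γ, σ x = x) →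
        ∃ n : ℤ, A.valuation x = A.valuation π₀ ^ n := by
  classical
  have hu := isUnif_unif hp hA h
  have hr := ram hp hA h
  letI : Fintype ↥(imG h N) := Fintype.ofFinite _
  set π₀ := normH (imG h N) (unif hp hA h) with hπ₀
  have hπ₀0 : π₀ ≠ 0 := normH_ne_zero _ hu.ne_zero
  have hπ₀N : π₀ ∈ Fix (L := ↥(LF Γ)) (imG h N) := normH_mem _ _
  have hπ1 : (wL hp hA h).ord (unif hp hA h) = 1 := ord_unif hu
  have hπ₀ord : (wL hp hA h).ord π₀ = Nat.card ↥(imG h N) := by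
    rw [hπ₀, hr.ord_normH _ hu.ne_zero, hπ1, mul_one, Nat.card_eq_fintype_card]
  have hvπ₀ : A.valuation (π₀ : Qb) = A.valuation (unif hp hA h : Qb) ^ Nat.card ↥(imG h N) := by
    have := v_eq_zpow_ord hu hπ₀0
    rw [vL_apply, vL_apply] at this
    rw [this]
    have h2 : (dvalOf (vL A Γ) (unif hp hA h) hu).ord π₀ = (Nat.card ↥(imG h N) : ℤ) := hπ₀ord
    rw [h2, zpow_natCast]
  refine ⟨(π₀ : Qb), fun h0 => hπ₀0 (Subtype.ext h0), (mem_Fix_imG h hN π₀).1 hπ₀N,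
    mem_LF.1 π₀.2, ?_, ?_⟩
  · rw [hvπ₀, ← pow_mul, mul_comm, pow_mul, Nat.card_eq_fintype_card (α := ↥(GG h)),
      val_unif_pow hp hA h]
  · intro x hx0 hxN hxΓ
    set x' : ↥(LF Γ) := ⟨x, mem_LF.2 hxΓ⟩ with hx'
    have hx'0 : x' ≠ 0 := fun h0 => hx0 (congrArg Subtype.val h0)
    have hx'N : x' ∈ Fix (L := ↥(LF Γ)) (imG h N) := (mem_Fix_imG h hN x').2 hxN
    obtain ⟨n, hn⟩ := hr.card_dvd_ord (imG h N) hx'0 hx'N
    refine ⟨n, ?_⟩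
    have h1 := v_eq_zpow_ord hu hx'0
    rw [vL_apply, vL_apply] at h1
    have h2 : (dvalOf (vL A Γ) (unif hp hA h) hu).ord x' = (Nat.card ↥(imG h N) : ℤ) * n := hn
    rw [show (x' : Qb) = x from rfl] at h1
    rw [h1, h2, hvπ₀, zpow_mul, zpow_natCast]

end

end Fermat.Agent.W56.KummerLevel7
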