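/-
Programme W56 (target S56), chapter (F) FLAT (helper6): **the dual order of a function-model Hopf
order inside the group algebra `K[M]`.**

`pr f h = ∑ w, f(w) h(w)` is the pairing between the group algebra `K[M]` (`AddMonoidAlgebra`) and
the functions `M → K`.  If `h (z + z') = ∑ i, a i z * b i z'` then
`pr (f * g) h = ∑ i, pr f (a i) * pr g (b i)` (`pr_mul`): the convolution product is dual to the
coproduct.  Hence for a coproduct-closed subalgebra `H ⊆ (M → K)` with values in a valuation subring
`A`, `dualRing A H = {f | ∀ h ∈ H, pr f h ∈ A}` is a subring of `K[M]`, stable under `A`-scalars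
and containing the points `single w 1`.
-/
import Mathlib
import Fermat.Agent.FF.HopfOrderC

set_option autoImplicit false

namespace Fermat.Agent.W56.Lift6A

open AddMonoidAlgebra Fermat.Agent.FF.HopfOrderC

section Pairing

variable {K : Type*} [Field K] {M : Type*} [AddCommGroup M]

/-- the pairing with a function, as a linear map on the group algebra. -/
noncomputable def prL (h : M → K) : K[M] →ₗ[K] K :=
  (Finsupp.linearCombination K h) ∘ₗ (coeffLinearEquiv K (S := K) (M := M)).toLinearMap

/-- the pairing `∑ w, f(w) h(w)`. -/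
noncomputable def pr (f : K[M]) (h : M → K) : K := prL h f

@[simp] theorem pr_single (w : M) (a : K) (h : M → K) : pr (single w a) h = a * h w := by
  simp [pr, prL, coeffLinearEquiv]

@[simp] theorem pr_zero_left (h : M → K) : pr (0 : K[M]) h = 0 := map_zero (prL h)

theorem pr_add_left (f g : K[M]) (h : M → K) : pr (f + g) h = pr f h + pr g h :=
  map_add (prL h) f g

theorem pr_sub_left (f g : K[M]) (h : M → K) : pr (f - g) h = pr f h - pr g h :=
  map_sub (prL h) f g

theorem pr_neg_left (f : K[M]) (h : M → K) : pr (-f) h = -pr f h := map_neg (prL h) f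

theorem pr_smul_left (a : K) (f : K[M]) (h : M → K) : pr (a • f) h = a * pr f h := by
  show prL h (a • f) = a * prL h f
  rw [map_smul, smul_eq_mul]

theorem pr_sum_left {ι : Type*} (s : Finset ι) (F : ι → K[M]) (h : M → K) :
    pr (∑ i ∈ s, F i) h = ∑ i ∈ s, pr (F i) h := map_sum (prL h) F s

theorem pr_add_right (f : K[M]) (h h' : M → K) : pr f (h + h') = pr f h + pr f h' := by
  induction f using induction_linear with
  | zero => simp
  | add f g hf hg => rw [pr_add_left, pr_add_left, pr_add_left, hf, hg]; ring
  | single w a => simp [mul_add]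

theorem pr_smul_right (f : K[M]) (a : K) (h : M → K) : pr f (a • h) = a * pr f h := by
  induction f using induction_linear with
  | zero => simp
  | add f g hf hg => rw [pr_add_left, pr_add_left, hf, hg]; ring
  | single w b => simp; ring

@[simp] theorem pr_zero_right (f : K[M]) : pr f (0 : M → K) = 0 := by
  have := pr_smul_right f 0 (0 : M → K)
  simpa using this

theorem pr_neg_right (f : K[M]) (h : M → K) : pr f (-h) = -pr f h := by
  have := pr_smul_right f (-1) h
  simpa using this

theorem pr_sub_right (f : K[M]) (h h' : M → K) : pr f (h - h') = pr f h - pr f h' := by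
  rw [sub_eq_add_neg, pr_add_right, pr_neg_right, sub_eq_add_neg]

theorem pr_sum_right {ι : Type*} (f : K[M]) (s : Finset ι) (g : ι → M → K) :
    pr f (∑ i ∈ s, g i) = ∑ i ∈ s, pr f (g i) := by
  classical
  induction s using Finset.induction_on with
  | empty => simp
  | insert i s hi ih => rw [Finset.sum_insert hi, Finset.sum_insert hi, pr_add_right, ih]

theorem pr_one (h : M → K) : pr (1 : K[M]) h = h 0 := by
  rw [one_def, pr_single, one_mul]

/-- **the convolution product is dual to the coproduct.** -/
theorem pr_mul {ι : Type*} [Fintype ι] (a b : ι → M → K) (h : M → K)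
    (hab : ∀ z z', h (z + z') = ∑ i, a i z * b i z') (f g : K[M]) :
    pr (f * g) h = ∑ i, pr f (a i) * pr g (b i) := by
  induction f using induction_linear with
  | zero => simp
  | add f₁ f₂ h₁ h₂ =>
    rw [add_mul, pr_add_left, h₁, h₂, ← Finset.sum_add_distrib]
    refine Finset.sum_congr rfl fun i _ => ?_
    rw [pr_add_left]; ring
  | single w c =>
    induction g using induction_linear with
    | zero => simp
    | add g₁ g₂ h₁ h₂ =>
      rw [mul_add, pr_add_left, h₁, h₂, ← Finset.sum_add_distrib]
      refine Finset.sum_congr rfl fun i _ => ?_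
      rw [pr_add_left]; ring
    | single w' c' =>
      rw [single_mul_single, pr_single, hab, Finset.mul_sum]
      refine Finset.sum_congr rfl fun i _ => ?_
      rw [pr_single, pr_single]; ring

/-- pairing with a multiplicative function is multiplicative. -/
theorem pr_mul_char (χ : M → K) (hχ : ∀ z z', χ (z + z') = χ z * χ z') (f g : K[M]) :
    pr (f * g) χ = pr f χ * pr g χ := by
  have := pr_mul (ι := Unit) (fun _ => χ) (fun _ => χ) χ (fun z z' => by simp [hχ]) f g
  simpa using this

/-- translation. -/
theorem pr_single_mul (w : M) (c : K) (f : K[M]) (h : M → K) :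
    pr (single w c * f) h = c * pr f (fun z => h (w + z)) := by
  induction f using induction_linear with
  | zero => simp
  | add f₁ f₂ h₁ h₂ => rw [mul_add, pr_add_left, h₁, h₂, pr_add_left]; ring
  | single w' c' => rw [single_mul_single, pr_single, pr_single]; ring

/-- a function-algebra element is determined by its pairings. -/
theorem coeff_eq_pr [DecidableEq M] (f : K[M]) (w : M) :
    f.coeff w = pr f (fun z => if z = w then 1 else 0) := by
  induction f using induction_linear with
  | zero => simp
  | add f₁ f₂ h₁ h₂ => rw [coeff_add, Finsupp.add_apply, h₁, h₂, pr_add_left]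
  | single w' c =>
    rw [pr_single, coeff_single, Finsupp.single_apply]
    split_ifs <;> simp

theorem eq_zero_of_pr_eq_zero (f : K[M]) (hf : ∀ h : M → K, pr f h = 0) : f = 0 := by
  classical
  rw [← coeff_inj]
  ext w
  rw [coeff_eq_pr, hf]
  rfl

/-- the pairing as a sum over a finite group. -/
theorem pr_eq_sum [Fintype M] (f : K[M]) (h : M → K) : pr f h = ∑ w, f.coeff w * h w := by
  classical
  induction f using induction_linear with
  | zero => simp
  | add f₁ f₂ h₁ h₂ =>
    rw [pr_add_left, h₁, h₂, ← Finset.sum_add_distrib]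
    refine Finset.sum_congr rfl fun w _ => ?_
    rw [coeff_add, Finsupp.add_apply]; ring
  | single w c =>
    rw [pr_single, coeff_single]
    simp [Finsupp.single_apply]

end Pairing

section DualRing

variable {K : Type*} [Field K] (A : ValuationSubring K) {M : Type*} [AddCommGroup M]
variable {R : Type*} [CommRing R] [Algebra R K]

/-- the dual order `{f ∈ K[M] | ∀ h ∈ H, ⟨f, h⟩ ∈ A}` of a coproduct-closed order `H`. -/
def dualRing (H : Subalgebra R (M → K)) (hcop : ∀ h ∈ H, HasCoprod H h)
    (h0 : ∀ h ∈ H, h 0 ∈ A) : Subring K[M] where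
  carrier := {f | ∀ h ∈ H, pr f h ∈ A}
  mul_mem' := by
    intro f g hf hg h hh
    obtain ⟨ι, _, a, b, ha, hb, hab⟩ := hcop h hh
    rw [pr_mul a b h hab]
    exact A.toSubring.sum_mem fun i _ => A.mul_mem _ _ (hf _ (ha i)) (hg _ (hb i))
  one_mem' := by
    intro h hh
    rw [pr_one]
    exact h0 h hh
  add_mem' := by
    intro f g hf hg h hh
    rw [pr_add_left]
    exact A.add_mem _ _ (hf h hh) (hg h hh)
  zero_mem' := by
    intro h _
    rw [pr_zero_left]
    exact A.zero_mem
  neg_mem' := by
    intro f hf h hh
    rw [pr_neg_left]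
    exact A.neg_mem _ (hf h hh)

variable {A}
variable {H : Subalgebra R (M → K)} {hcop : ∀ h ∈ H, HasCoprod H h} {h0 : ∀ h ∈ H, h 0 ∈ A}

theorem mem_dualRing {f : K[M]} : f ∈ dualRing A H hcop h0 ↔ ∀ h ∈ H, pr f h ∈ A := Iff.rfl

theorem smul_mem_dualRing {a : K} (ha : a ∈ A) {f : K[M]} (hf : f ∈ dualRing A H hcop h0) :
    a • f ∈ dualRing A H hcop h0 := by
  intro h hh
  rw [pr_smul_left]
  exact A.mul_mem _ _ ha (hf h hh)

theorem single_mem_dualRing (hval : ∀ h ∈ H, ∀ z, h z ∈ A) (w : M) :
    single w (1 : K) ∈ dualRing A H hcop h0 := by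
  intro h hh
  rw [pr_single, one_mul]
  exact hval h hh w

end DualRing

end Fermat.Agent.W56.Lift6A
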