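/-
Programme W56 (target S56), chapter (F) FLAT (helper6): **Newton iteration for `p`-th roots of unity
in an order of a commutative algebra** (abstract core of Fontaine's lifting property).

`A` is a valuation subring of a field `K` (`v = A.valuation`, multiplicative), `𝓓` a commutative
`K`-algebra, `D ⊆ 𝓓` a subring stable under `A`-scalars, `X i : 𝓓 →ₐ[K] K` a family of characters
with `X i (D) ⊆ A` and conductor `n` (`X i F ∈ A` for all `i` implies `n • F ∈ D`).  If `A` has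
rank one, `ord c > p/(p-1)`, `u ∈ D`, `u ^ p ≡ 1 mod c D` and `X i u ≡ 1 mod (c/p)` for all `i`,
then `u ≡ 1 mod (c/p) D` (`newton`).
-/
import Mathlib

set_option autoImplicit false

namespace Fermat.Agent.W56.Lift6B

open Finset

section Binomial

variable {S : Type*} [CommRing S]

/-- `(1 + s) ^ p = 1 + s ^ p + p s (1 + s G)`. -/
theorem one_add_pow_prime {p : ℕ} (hp : p.Prime) (s : S) :
    ∃ G : S, (1 + s) ^ p = 1 + s ^ p + p * s * (1 + s * G) := by
  have h := add_pow_prime_eq hp s (1 : S)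
  have h1 : (1 : ℕ) ∈ Ioo 0 p := by
    rw [mem_Ioo]; exact ⟨Nat.one_pos, hp.one_lt⟩
  rw [← add_sum_erase _ _ h1] at h
  have h2 : ∀ k ∈ (Ioo 0 p).erase 1,
      s ^ (k - 1) * (1 : S) ^ (p - k - 1) * ((p.choose k / p : ℕ) : S) =
        s * (s ^ (k - 2) * ((p.choose k / p : ℕ) : S)) := by
    intro k hk
    rw [mem_erase, mem_Ioo] at hk
    have hk2 : k - 1 = (k - 2) + 1 := by omega
    rw [hk2, pow_succ, one_pow]
    ring
  rw [sum_congr rfl h2, ← mul_sum] at h
  refine ⟨∑ k ∈ (Ioo 0 p).erase 1, s ^ (k - 2) * ((p.choose k / p : ℕ) : S), ?_⟩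
  have h3 : ((p.choose 1 / p : ℕ) : S) = 1 := by
    rw [Nat.choose_one_right, Nat.div_self hp.pos, Nat.cast_one]
  rw [add_comm 1 s, h, h3]
  simp only [Nat.sub_self, pow_zero, one_pow, mul_one]
  ring

/-- the Newton correction: `(1 + p t)(1 - t)^p = 1 + p t² r₁ + t^p r₂`. -/
theorem newton_identity {p : ℕ} (hp : p.Prime) (t : S) :
    ∃ r₁ r₂ : S, (1 + p * t) * (1 - t) ^ p = 1 + p * t ^ 2 * r₁ + t ^ p * r₂ := by
  obtain ⟨G, hG⟩ := one_add_pow_prime hp (-t)
  refine ⟨G - p + p * t * G, (-1) ^ p * (1 + p * t), ?_⟩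
  have h1 : (1 - t) = 1 + -t := by ring
  have h2 : (-t) ^ p = (-1) ^ p * t ^ p := by rw [neg_pow]
  rw [h1, hG, h2]
  ring

end Binomial

section Val

variable {K : Type*} [Field K] (A : ValuationSubring K)

theorem div_mem_of_val_le {x y : K} (hy : y ≠ 0) (h : A.valuation x ≤ A.valuation y) :
    x / y ∈ A := by
  rw [← A.valuation_le_one_iff, map_div₀]
  exact div_le_one_of_le₀ h zero_le

theorem val_le_of_div_mem {x y : K} (hy : y ≠ 0) (h : x / y ∈ A) :
    A.valuation x ≤ A.valuation y := by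
  rw [← A.valuation_le_one_iff, map_div₀] at h
  have hy' : A.valuation y ≠ 0 := (map_ne_zero _).2 hy
  rwa [div_le_one₀ (zero_lt_iff.2 hy')] at h

end Val

section Newton

variable {K : Type*} [Field K] (A : ValuationSubring K)
variable {𝓓 : Type*} [CommRing 𝓓] [Algebra K 𝓓]

/-- `x ∈ a • D`. -/
def DivMem (D : Subring 𝓓) (a : K) (x : 𝓓) : Prop := ∃ y ∈ D, x = a • y

variable {A}
variable {D : Subring 𝓓} (hsm : ∀ a ∈ A, ∀ y ∈ D, a • y ∈ D)
include hsm

omit hsm in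
theorem DivMem.zero (a : K) : DivMem D a (0 : 𝓓) := ⟨0, D.zero_mem, by simp⟩

theorem DivMem.add {a : K} {x y : 𝓓} (hx : DivMem D a x) (hy : DivMem D a y) :
    DivMem D a (x + y) := by
  obtain ⟨x', hx', rfl⟩ := hx
  obtain ⟨y', hy', rfl⟩ := hy
  exact ⟨x' + y', D.add_mem hx' hy', by rw [smul_add]⟩

/-- weakening the modulus. -/
theorem DivMem.mono {a b : K} (hb : b ≠ 0) (hab : A.valuation a ≤ A.valuation b) {x : 𝓓}
    (hx : DivMem D a x) : DivMem D b x := by
  obtain ⟨y, hy, rfl⟩ := hx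
  refine ⟨(a / b) • y, hsm _ (div_mem_of_val_le A hb hab) y hy, ?_⟩
  rw [smul_smul, mul_div_cancel₀ _ hb]

theorem DivMem.mul_right {a : K} {x : 𝓓} (hx : DivMem D a x) {z : 𝓓} (hz : z ∈ D) :
    DivMem D a (x * z) := by
  obtain ⟨y, hy, rfl⟩ := hx
  exact ⟨y * z, D.mul_mem hy hz, by rw [smul_mul_assoc]⟩

omit hsm in
theorem DivMem.smul_mem {a b : K} {y : 𝓓} (hy : y ∈ D) (x : 𝓓) (hx : x = (a * b) • y)
    (hb : b ∈ A) (hsm' : ∀ a ∈ A, ∀ y ∈ D, a • y ∈ D) : DivMem D a x :=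
  ⟨b • y, hsm' b hb y hy, by rw [hx, mul_smul]⟩

variable {p : ℕ} (hp : p.Prime) (hpK : (p : K) ≠ 0) (hpA : A.valuation (p : K) ≤ 1)
variable {c : K} (hc0 : c ≠ 0) (hc : A.valuation c ^ (p - 1) < A.valuation (p : K) ^ p)
include hp hpK hpA hc0 hc

omit hsm hc0 in
theorem val_c_lt_val_p : A.valuation c < A.valuation (p : K) := by
  by_contra hcon
  rw [not_lt] at hcon
  have h1 : A.valuation (p : K) ^ (p - 1) ≤ A.valuation c ^ (p - 1) :=
    pow_le_pow_left₀ zero_le hcon _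
  have h2 : A.valuation (p : K) ^ p ≤ A.valuation (p : K) ^ (p - 1) :=
    pow_le_pow_of_le_one zero_le hpA (Nat.sub_le _ _)
  exact absurd (lt_of_lt_of_le (lt_of_lt_of_le hc h2) h1) (lt_irrefl _)

omit hsm hc0 in
theorem val_c_div_p_lt_one : A.valuation (c / (p : K)) < 1 := by
  rw [map_div₀]
  have hp0 : 0 < A.valuation (p : K) := zero_lt_iff.2 ((map_ne_zero _).2 hpK)
  rw [div_lt_one₀ hp0]
  exact val_c_lt_val_p hp hpK hpA hc

omit hsm hc0 hpA hp in
theorem val_c_pow_div_lt_one : A.valuation (c ^ (p - 1) / (p : K) ^ p) < 1 := by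
  rw [map_div₀, map_pow, map_pow]
  have hp0 : 0 < A.valuation (p : K) ^ p := pow_pos (zero_lt_iff.2 ((map_ne_zero _).2 hpK)) _
  rw [div_lt_one₀ hp0]
  exact hc

/-- **one Newton step.** -/
theorem newton_step {θ : K} (hθ0 : θ ≠ 0)
    (hθ1 : A.valuation (c / (p : K)) ≤ A.valuation θ)
    (hθ2 : A.valuation (c ^ (p - 1) / (p : K) ^ p) ≤ A.valuation θ)
    {a : K} (ha0 : a ≠ 0) (hac : A.valuation a ≤ A.valuation c)
    {u : 𝓓} (hu : u ∈ D) (hup : DivMem D a (u ^ p - 1)) :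
    ∃ u' ∈ D, DivMem D (c / (p : K)) (u' - u) ∧ DivMem D (a * θ) (u' ^ p - 1) := by
  obtain ⟨Y, hY, hYe⟩ := hup
  have hvp0 : A.valuation (p : K) ≠ 0 := (map_ne_zero _).2 hpK
  have hvp : 0 < A.valuation (p : K) := zero_lt_iff.2 hvp0
  have hcp0 : c / (p : K) ≠ 0 := div_ne_zero hc0 hpK
  -- `a' = a / p ∈ A`
  have hva' : A.valuation (a / (p : K)) ≤ A.valuation (c / (p : K)) := by
    rw [map_div₀, map_div₀]
    exact div_le_div_of_nonneg_right hac hvp.le
  have ha'A : a / (p : K) ∈ A := by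
    rw [← A.valuation_le_one_iff]
    exact hva'.trans (val_c_div_p_lt_one hp hpK hpA hc).le
  set t : 𝓓 := (a / (p : K)) • Y with ht
  have htD : t ∈ D := hsm _ ha'A Y hY
  have hpt : (p : 𝓓) * t = a • Y := by
    rw [ht, ← nsmul_eq_mul, ← Nat.cast_smul_eq_nsmul K p, smul_smul, mul_div_cancel₀ _ hpK]
  -- the identity in the ring `D`
  obtain ⟨r₁, r₂, hr⟩ := newton_identity (S := D) hp ⟨t, htD⟩
  have hr' : (1 + (p : 𝓓) * t) * (1 - t) ^ p = 1 + (p : 𝓓) * t ^ 2 * r₁ + t ^ p * r₂ := by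
    have := congrArg (Subtype.val : D → 𝓓) hr
    simpa using this
  refine ⟨u * (1 - t), D.mul_mem hu (D.sub_mem D.one_mem htD), ?_, ?_⟩
  · -- `u' - u = - u t`
    refine ⟨((a / (p : K)) / (c / (p : K))) • (-(u * Y)), hsm _ (div_mem_of_val_le A hcp0 hva') _
      (D.neg_mem (D.mul_mem hu hY)), ?_⟩
    rw [smul_smul, mul_div_cancel₀ _ hcp0, ht]
    rw [smul_neg, ← mul_smul_comm]
    ring
  · -- `u'^p - 1 = p t² r₁ + t^p r₂`
    have hup' : u ^ p = 1 + (p : 𝓓) * t := by rw [hpt, ← hYe]; ring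
    have h1 : (u * (1 - t)) ^ p - 1 = (p : 𝓓) * t ^ 2 * r₁ + t ^ p * r₂ := by
      rw [mul_pow, hup', hr']; ring
    rw [h1]
    apply DivMem.add hsm
    · -- `p t² = (a θ) • ((a/p)/θ) • Y²`
      refine ⟨(((a / (p : K)) / θ) • (Y ^ 2 * r₁)), hsm _ ?_ _ (D.mul_mem (D.pow_mem hY 2) r₁.2), ?_⟩
      · exact div_mem_of_val_le A hθ0 (hva'.trans hθ1)
      · have hk : a * θ * (a / (p : K) / θ) = (p : K) * (a / (p : K)) ^ 2 := by field_simp
        rw [smul_smul, hk, ht, Algebra.smul_def, Algebra.smul_def, map_mul, map_pow, map_natCast]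
        ring
    · refine ⟨(((a ^ (p - 1) / (p : K) ^ p) / θ) • (Y ^ p * r₂)), hsm _ ?_ _
        (D.mul_mem (D.pow_mem hY p) r₂.2), ?_⟩
      · apply div_mem_of_val_le A hθ0
        refine le_trans ?_ hθ2
        rw [map_div₀, map_div₀, map_pow, map_pow, map_pow]
        exact div_le_div_of_nonneg_right (pow_le_pow_left₀ zero_le hac _) (pow_pos hvp _).le
      · have hpp : a ^ p = a * a ^ (p - 1) := by
          rw [← pow_succ', Nat.sub_add_cancel hp.one_lt.le]
        have hk : a * θ * (a ^ (p - 1) / (p : K) ^ p / θ) = (a / (p : K)) ^ p := by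
          rw [div_pow, hpp]
          field_simp
        rw [smul_smul, hk, ht, Algebra.smul_def, Algebra.smul_def, map_pow]
        ring

/-- **iterated Newton steps.** -/
theorem newton_iter {θ : K} (hθ0 : θ ≠ 0) (hθle : A.valuation θ ≤ 1)
    (hθ1 : A.valuation (c / (p : K)) ≤ A.valuation θ)
    (hθ2 : A.valuation (c ^ (p - 1) / (p : K) ^ p) ≤ A.valuation θ)
    {u : 𝓓} (hu : u ∈ D) (hup : DivMem D c (u ^ p - 1)) (k : ℕ) :
    ∃ u' ∈ D, DivMem D (c / (p : K)) (u' - u) ∧ DivMem D (c * θ ^ k) (u' ^ p - 1) := by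
  induction k with
  | zero =>
    refine ⟨u, hu, ?_, ?_⟩
    · rw [sub_self]; exact DivMem.zero _
    · rwa [pow_zero, mul_one]
  | succ k ih =>
    obtain ⟨u₁, hu₁, h1, h2⟩ := ih
    have ha0 : c * θ ^ k ≠ 0 := mul_ne_zero hc0 (pow_ne_zero _ hθ0)
    have hac : A.valuation (c * θ ^ k) ≤ A.valuation c := by
      rw [map_mul, map_pow]
      calc A.valuation c * A.valuation θ ^ k ≤ A.valuation c * 1 :=
            mul_le_mul_right (pow_le_one₀ zero_le hθle) _
        _ = A.valuation c := mul_one _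
    obtain ⟨u₂, hu₂, h3, h4⟩ := newton_step hsm hp hpK hpA hc0 hc hθ0 hθ1 hθ2 ha0 hac hu₁ h2
    refine ⟨u₂, hu₂, ?_, ?_⟩
    · have : u₂ - u = (u₂ - u₁) + (u₁ - u) := by ring
      rw [this]
      exact DivMem.add hsm h3 h1
    · rwa [pow_succ, ← mul_assoc]

omit hsm hc0 in
/-- `v ((1+s)^p - 1) = v s · v p` for `ord s > 1/(p-1)`. -/
theorem val_one_add_pow_sub_one {s : K} (hs : A.valuation s ≤ A.valuation (c / (p : K))) :
    A.valuation ((1 + s) ^ p - 1) = A.valuation s * A.valuation (p : K) := by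
  have hvp0 : A.valuation (p : K) ≠ 0 := (map_ne_zero _).2 hpK
  have hvp : 0 < A.valuation (p : K) := zero_lt_iff.2 hvp0
  have hcp1 := val_c_div_p_lt_one hp hpK hpA hc
  have hs1 : A.valuation s < 1 := lt_of_le_of_lt hs hcp1
  have hsA : s ∈ A := (A.valuation_le_one_iff _).1 hs1.le
  obtain ⟨G, hG⟩ := one_add_pow_prime (S := A) hp ⟨s, hsA⟩
  have hG' : (1 + s) ^ p = 1 + s ^ p + (p : K) * s * (1 + s * (G : K)) := by
    have := congrArg (Subtype.val : A → K) hG
    simpa using this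
  have hsp : s ^ p = s * s ^ (p - 1) := by
    rw [← pow_succ', Nat.sub_add_cancel hp.one_lt.le]
  have h1 : (1 + s) ^ p - 1 = s * (s ^ (p - 1) + (p : K) * (1 + s * (G : K))) := by
    rw [hG', hsp]; ring
  rw [h1, map_mul]
  congr 1
  -- `v (1 + s G) = 1`
  have h2 : A.valuation (s * (G : K)) < 1 := by
    rw [map_mul]
    calc A.valuation s * A.valuation (G : K) ≤ A.valuation s * 1 :=
          mul_le_mul_right ((A.valuation_le_one_iff _).2 G.2) _
      _ = A.valuation s := mul_one _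
      _ < 1 := hs1
  have h3 : A.valuation (1 + s * (G : K)) = 1 := Valuation.map_one_add_of_lt _ h2
  have h4 : A.valuation ((p : K) * (1 + s * (G : K))) = A.valuation (p : K) := by
    rw [map_mul, h3, mul_one]
  -- `v (s^(p-1)) < v p`
  have h5 : A.valuation (s ^ (p - 1)) < A.valuation (p : K) := by
    rw [map_pow]
    have h6 : A.valuation s ^ (p - 1) ≤ A.valuation (c / (p : K)) ^ (p - 1) :=
      pow_le_pow_left₀ zero_le hs _
    refine lt_of_le_of_lt h6 ?_
    rw [map_div₀, div_pow, div_lt_iff₀ (pow_pos hvp _), ← pow_succ', Nat.sub_add_cancel hp.one_lt.le]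
    exact hc
  rw [← h4] at h5
  rw [Valuation.map_add_eq_of_lt_right _ h5, h4]

/-- **Newton's lemma.** If `u ∈ D`, `u ^ p ≡ 1 mod c D` with `ord c > p/(p-1)` and every character
of `u` is `≡ 1 mod c/p`, then `u ≡ 1 mod (c/p) D`. -/
theorem newton {ι : Type*} (X : ι → 𝓓 →ₐ[K] K) (hKL : ∀ i, ∀ y ∈ D, X i y ∈ A)
    {n : K} (hn : n ≠ 0) (hcond : ∀ F : 𝓓, (∀ i, X i F ∈ A) → n • F ∈ D)
    (hrk : ∀ θ b : K, A.valuation θ < 1 → b ≠ 0 → ∃ k : ℕ, A.valuation θ ^ k ≤ A.valuation b)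
    {u : 𝓓} (hu : u ∈ D) (hup : DivMem D c (u ^ p - 1))
    (hX : ∀ i, A.valuation (X i u - 1) ≤ A.valuation (c / (p : K))) :
    DivMem D (c / (p : K)) (u - 1) := by
  have hvp0 : A.valuation (p : K) ≠ 0 := (map_ne_zero _).2 hpK
  have hvp : 0 < A.valuation (p : K) := zero_lt_iff.2 hvp0
  have hcp0 : c / (p : K) ≠ 0 := div_ne_zero hc0 hpK
  have hcp1 := val_c_div_p_lt_one hp hpK hpA hc
  have hcq1 := val_c_pow_div_lt_one (A := A) hpK hc
  have hcq0 : c ^ (p - 1) / (p : K) ^ p ≠ 0 := div_ne_zero (pow_ne_zero _ hc0) (pow_ne_zero _ hpK)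
  -- the rate `θ`
  obtain ⟨θ, hθ0, hθlt, hθ1, hθ2⟩ : ∃ θ : K, θ ≠ 0 ∧ A.valuation θ < 1 ∧
      A.valuation (c / (p : K)) ≤ A.valuation θ ∧
      A.valuation (c ^ (p - 1) / (p : K) ^ p) ≤ A.valuation θ := by
    rcases le_total (A.valuation (c ^ (p - 1) / (p : K) ^ p)) (A.valuation (c / (p : K))) with h | h
    · exact ⟨_, hcp0, hcp1, le_rfl, h⟩
    · exact ⟨_, hcq0, hcq1, h, le_rfl⟩
  obtain ⟨k, hk⟩ := hrk θ n hθlt hn
  obtain ⟨u₁, hu₁, ⟨y, hy, hye⟩, ⟨Y, hY, hYe⟩⟩ :=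
    newton_iter hsm hp hpK hpA hc0 hc hθ0 hθlt.le hθ1 hθ2 hu hup k
  set b : K := c * θ ^ k / (p : K) with hb
  have hb0 : b ≠ 0 := div_ne_zero (mul_ne_zero hc0 (pow_ne_zero _ hθ0)) hpK
  -- the characters of `u₁ - 1`
  have hchar : ∀ i, X i (b⁻¹ • (u₁ - 1)) ∈ A := by
    intro i
    set s : K := X i u₁ - 1 with hs
    have hs1 : A.valuation s ≤ A.valuation (c / (p : K)) := by
      have e : s = (X i u - 1) + (c / (p : K)) * X i y := by
        have : u₁ = u + (c / (p : K)) • y := by rw [← hye]; ring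
        rw [hs, this, map_add, map_smul, smul_eq_mul]; ring
      rw [e]
      refine (A.valuation.map_add _ _).trans (max_le (hX i) ?_)
      rw [map_mul]
      calc A.valuation (c / (p : K)) * A.valuation (X i y) ≤ A.valuation (c / (p : K)) * 1 :=
            mul_le_mul_right ((A.valuation_le_one_iff _).2 (hKL i y hy)) _
        _ = _ := mul_one _
    have hs2 : A.valuation ((1 + s) ^ p - 1) ≤ A.valuation (c * θ ^ k) := by
      have e : (1 + s) ^ p - 1 = (c * θ ^ k) * X i Y := by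
        have : (1 + s) = X i u₁ := by rw [hs]; ring
        rw [this, ← map_pow, ← map_one (X i), ← map_sub, hYe, map_smul, smul_eq_mul]
      rw [e, map_mul]
      calc A.valuation (c * θ ^ k) * A.valuation (X i Y) ≤ A.valuation (c * θ ^ k) * 1 :=
            mul_le_mul_right ((A.valuation_le_one_iff _).2 (hKL i Y hY)) _
        _ = _ := mul_one _
    rw [val_one_add_pow_sub_one hp hpK hpA hc hs1] at hs2
    have hs3 : A.valuation s ≤ A.valuation b := by
      rw [hb, map_div₀, le_div_iff₀ hvp]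
      exact hs2
    have e2 : X i (b⁻¹ • (u₁ - 1)) = s / b := by
      rw [map_smul, map_sub, map_one, smul_eq_mul, hs]; field_simp
    rw [e2]
    exact div_mem_of_val_le A hb0 hs3
  have h1 : DivMem D (b / n) (u₁ - 1) := by
    refine ⟨n • (b⁻¹ • (u₁ - 1)), hcond _ hchar, ?_⟩
    rw [smul_smul, smul_smul]
    have : b / n * n * b⁻¹ = 1 := by field_simp
    rw [this, one_smul]
  have h2 : DivMem D (c / (p : K)) (u₁ - 1) := by
    refine DivMem.mono hsm hcp0 ?_ h1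
    have e : b / n = (c / (p : K)) * (θ ^ k / n) := by rw [hb]; field_simp
    rw [e, map_mul]
    have h3 : A.valuation (θ ^ k / n) ≤ 1 := by
      rw [map_div₀, map_pow]
      exact div_le_one_of_le₀ hk zero_le
    calc A.valuation (c / (p : K)) * A.valuation (θ ^ k / n) ≤ A.valuation (c / (p : K)) * 1 :=
          mul_le_mul_right h3 _
      _ = _ := mul_one _
  have h3 : DivMem D (c / (p : K)) (-(u₁ - u)) :=
    ⟨-y, D.neg_mem hy, by rw [hye, smul_neg]⟩
  have e : u - 1 = (u₁ - 1) + -(u₁ - u) := by ring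
  rw [e]
  exact DivMem.add hsm h2 h3

end Newton

end Fermat.Agent.W56.Lift6B
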