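/-
Programme W56 (target S56), chapter (F) FLAT (helper6): **`p`-th roots of unity in a valued field
and the characters of a finite abelian group.**

* `val_root_sub_root` : two distinct `p`-th roots of unity are at distance exactly `v (ζ - 1)`,
  and `v (ζ - 1) ^ (p - 1) = v p` (`val_zeta_sub_one_pow`);
* `exists_root_close` : if `x ^ p ≡ 1 mod c` there is a `p`-th root of unity `η` with
  `x ≡ η mod c / p`; `root_eq_of_close` : two `p`-th roots of unity congruent modulo something of
  order `> 1/(p-1)` are equal;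
* `chi ψ : M → K` the function attached to a character `ψ : Multiplicative M →* Kˣ`, orthogonality
  `sum_chi`, Fourier inversion `card_mul_coeff` in the group algebra `K[M]`.
-/
import Mathlib
import Fermat.Agent.W56.Lift6A

set_option autoImplicit false

namespace Fermat.Agent.W56.Lift6C

open Finset AddMonoidAlgebra Fermat.Agent.W56.Lift6A

section Roots

variable {K : Type*} [Field K] (A : ValuationSubring K) {p : ℕ}

theorem val_eq_one_of_pow_eq_one {x : K} {n : ℕ} (hn : 0 < n) (hx : x ^ n = 1) :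
    A.valuation x = 1 := by
  have h : A.valuation x ^ n = 1 := by rw [← map_pow, hx, map_one]
  rcases lt_trichotomy (A.valuation x) 1 with hlt | heq | hgt
  · exact absurd h (pow_lt_one₀ zero_le hlt hn.ne').ne
  · exact heq
  · exact absurd h (one_lt_pow₀ hgt hn.ne').ne'

theorem val_geom_sum_le_one {x : K} (hx : A.valuation x = 1) (n : ℕ) :
    A.valuation (∑ i ∈ range n, x ^ i) ≤ 1 := by
  refine Valuation.map_sum_le _ fun i _ => ?_
  rw [map_pow, hx, one_pow]

/-- `v (ζ^k - 1) = v (ζ - 1)` for `p ∤ k`. -/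
theorem val_zeta_pow_sub_one (hp : p.Prime) {ζ : K} (hζ : IsPrimitiveRoot ζ p) {k : ℕ}
    (hk : ¬ p ∣ k) : A.valuation (ζ ^ k - 1) = A.valuation (ζ - 1) := by
  have hζ1 : A.valuation ζ = 1 := val_eq_one_of_pow_eq_one A hp.pos hζ.pow_eq_one
  have hle : ∀ (x : K) (_ : A.valuation x = 1) (n : ℕ),
      A.valuation (x ^ n - 1) ≤ A.valuation (x - 1) := by
    intro x hx n
    rw [← geom_sum_mul, map_mul]
    exact mul_le_of_le_one_left' (val_geom_sum_le_one A hx n)
  refine le_antisymm (hle ζ hζ1 k) ?_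
  have hcop : Nat.Coprime k p := ((Nat.Prime.coprime_iff_not_dvd hp).mpr hk).symm
  obtain ⟨k', -, hk'⟩ := Nat.exists_mul_mod_eq_one_of_coprime hcop hp.one_lt
  have hpow : (ζ ^ k) ^ k' = ζ := by
    rw [← pow_mul, ← Nat.div_add_mod (k * k') p, hk', pow_add, pow_mul, hζ.pow_eq_one, one_pow,
      one_mul, pow_one]
  have hζk1 : A.valuation (ζ ^ k) = 1 := by rw [map_pow, hζ1, one_pow]
  calc A.valuation (ζ - 1) = A.valuation ((ζ ^ k) ^ k' - 1) := by rw [hpow]
    _ ≤ A.valuation (ζ ^ k - 1) := hle _ hζk1 k'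

/-- **`v (ζ - 1)^(p-1) = v p`**. -/
theorem val_zeta_sub_one_pow (hp : p.Prime) {ζ : K} (hζ : IsPrimitiveRoot ζ p) :
    A.valuation (ζ - 1) ^ (p - 1) = A.valuation (p : K) := by
  have hp1 : p - 1 + 1 = p := Nat.sub_add_cancel hp.one_le
  have hζ' : IsPrimitiveRoot ζ (p - 1 + 1) := by rwa [hp1]
  have hprod := hζ'.prod_one_sub_pow_eq_order
  have hcast : ((p - 1 : ℕ) : K) + 1 = (p : K) := by
    rw [← Nat.cast_succ, Nat.succ_eq_add_one, hp1]
  rw [hcast] at hprod
  rw [← hprod, map_prod]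
  rw [Finset.prod_congr rfl (g := fun _ => A.valuation (ζ - 1))]
  · rw [prod_const, card_range]
  · intro k hk
    rw [mem_range] at hk
    rw [Valuation.map_sub_swap]
    refine val_zeta_pow_sub_one A hp hζ fun hdvd => ?_
    have := Nat.le_of_dvd (Nat.succ_pos k) hdvd
    omega

/-- two distinct `p`-th roots of unity are at distance `v (ζ - 1)`. -/
theorem val_root_sub_root (hp : p.Prime) {ζ : K} (hζ : IsPrimitiveRoot ζ p) {η η' : K}
    (hη : η ^ p = 1) (hη' : η' ^ p = 1) (hne : η ≠ η') :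
    A.valuation (η' - η) = A.valuation (ζ - 1) := by
  have hη0 : η ≠ 0 := by
    rintro rfl
    rw [zero_pow hp.ne_zero] at hη
    exact zero_ne_one hη
  have hq : (η' / η) ^ p = 1 := by rw [div_pow, hη, hη', div_one]
  haveI : NeZero p := ⟨hp.ne_zero⟩
  obtain ⟨k, hkp, hk⟩ := hζ.eq_pow_of_pow_eq_one hq
  have hk0 : ¬ p ∣ k := by
    intro hdvd
    have : k = 0 := Nat.eq_zero_of_dvd_of_lt hdvd hkp
    rw [this, pow_zero] at hk
    apply hne
    have := hk.symm
    rw [div_eq_one_iff_eq hη0] at this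
    exact this.symm
  have e : η' - η = η * (ζ ^ k - 1) := by
    rw [hk]; field_simp
  rw [e, map_mul, val_eq_one_of_pow_eq_one A hp.pos hη, one_mul, val_zeta_pow_sub_one A hp hζ hk0]

/-- two `p`-th roots of unity congruent modulo something of order `> 1/(p-1)` are equal. -/
theorem root_eq_of_close (hp : p.Prime) {ζ : K} (hζ : IsPrimitiveRoot ζ p) {η η' : K}
    (hη : η ^ p = 1) (hη' : η' ^ p = 1)
    (h : A.valuation (η' - η) ^ (p - 1) < A.valuation (p : K)) : η = η' := by
  by_contra hne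
  rw [val_root_sub_root A hp hζ hη hη' hne, val_zeta_sub_one_pow A hp hζ] at h
  exact lt_irrefl _ h

/-- if `x ^ p ≡ 1 mod c`, some `p`-th root of unity `η` has `x ≡ η mod c / p`. -/
theorem exists_root_close (hp : p.Prime) {ζ : K} (hζ : IsPrimitiveRoot ζ p) {x c : K}
    (hx : A.valuation (x ^ p - 1) ≤ A.valuation c) :
    ∃ η : K, η ^ p = 1 ∧ A.valuation (x - η) * A.valuation (p : K) ≤ A.valuation c := by
  classical
  set S : Finset K := Polynomial.nthRootsFinset p (1 : K) with hS
  have hmem : ∀ η, η ∈ S ↔ η ^ p = 1 := fun η => Polynomial.mem_nthRootsFinset hp.pos 1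
  have hne : S.Nonempty := ⟨1, (hmem 1).2 (one_pow _)⟩
  obtain ⟨η₀, hη₀, hmin⟩ := Finset.exists_min_image S (fun η => A.valuation (x - η)) hne
  refine ⟨η₀, (hmem η₀).1 hη₀, ?_⟩
  have hfac : x ^ p - 1 = ∏ η ∈ S, (x - η) := by
    have := hζ.pow_sub_pow_eq_prod_sub_mul x 1 hp.pos
    simpa using this
  have hcard : (S.erase η₀).card = p - 1 := by
    rw [Finset.card_erase_of_mem hη₀, hS, hζ.card_nthRootsFinset]
  have hlow : ∀ η ∈ S.erase η₀, A.valuation (ζ - 1) ≤ A.valuation (x - η) := by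
    intro η hη
    rw [Finset.mem_erase] at hη
    have h1 := val_root_sub_root A hp hζ ((hmem η₀).1 hη₀) ((hmem η).1 hη.2) (Ne.symm hη.1)
    rw [← h1]
    have e : η - η₀ = (x - η₀) - (x - η) := by ring
    rw [e]
    refine (Valuation.map_sub _ _ _).trans (max_le (hmin η hη.2) le_rfl)
  have hprod : A.valuation (p : K) ≤ ∏ η ∈ S.erase η₀, A.valuation (x - η) := by
    rw [← val_zeta_sub_one_pow A hp hζ, ← hcard, ← Finset.prod_const]
    exact Finset.prod_le_prod' hlow
  calc A.valuation (x - η₀) * A.valuation (p : K)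
      ≤ A.valuation (x - η₀) * ∏ η ∈ S.erase η₀, A.valuation (x - η) :=
        mul_le_mul_right hprod _
    _ = A.valuation (x ^ p - 1) := by
        rw [hfac, map_prod, Finset.mul_prod_erase S (fun η => A.valuation (x - η)) hη₀]
    _ ≤ A.valuation c := hx

end Roots

section Chars

variable {K : Type*} [Field K] {M : Type*} [AddCommGroup M]

/-- the function on `M` attached to a character of `M`. -/
def chi (ψ : Multiplicative M →* Kˣ) (w : M) : K := ((ψ (Multiplicative.ofAdd w) : Kˣ) : K)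

theorem chi_add (ψ : Multiplicative M →* Kˣ) (w w' : M) :
    chi ψ (w + w') = chi ψ w * chi ψ w' := by
  simp [chi, ofAdd_add]

@[simp] theorem chi_zero (ψ : Multiplicative M →* Kˣ) : chi ψ 0 = 1 := by
  simp [chi]

theorem chi_mul (ψ ψ' : Multiplicative M →* Kˣ) (w : M) :
    chi (ψ * ψ') w = chi ψ w * chi ψ' w := by
  simp [chi]

@[simp] theorem chi_one (w : M) : chi (1 : Multiplicative M →* Kˣ) w = 1 := by
  simp [chi]

theorem chi_ne_zero (ψ : Multiplicative M →* Kˣ) (w : M) : chi ψ w ≠ 0 := Units.ne_zero _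

theorem chi_neg (ψ : Multiplicative M →* Kˣ) (w : M) : chi ψ (-w) = (chi ψ w)⁻¹ := by
  have h : chi ψ (-w) * chi ψ w = 1 := by rw [← chi_add, neg_add_cancel, chi_zero]
  exact eq_inv_of_mul_eq_one_left h

theorem chi_nsmul (ψ : Multiplicative M →* Kˣ) (n : ℕ) (w : M) :
    chi ψ (n • w) = chi ψ w ^ n := by
  induction n with
  | zero => simp
  | succ n ih => rw [succ_nsmul, chi_add, ih, pow_succ]

theorem chi_pow_eq_one (ψ : Multiplicative M →* Kˣ) {n : ℕ} (hn : ∀ z : M, n • z = 0) (w : M) :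
    chi ψ w ^ n = 1 := by
  rw [← chi_nsmul, hn, chi_zero]

variable [Finite M] [HasEnoughRootsOfUnity K (Monoid.exponent (Multiplicative M))]

/-- characters separate the points. -/
theorem exists_chi_ne {w w' : M} (h : w ≠ w') : ∃ ψ : Multiplicative M →* Kˣ, chi ψ w ≠ chi ψ w' := by
  by_contra hcon
  push Not at hcon
  apply h
  have := (CommGroup.forall_apply_eq_apply_iff (G := Multiplicative M) (M := K)
    (g := Multiplicative.ofAdd w) (g' := Multiplicative.ofAdd w')).1
    (fun φ => Units.ext (hcon φ))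
  exact Multiplicative.ofAdd.injective this

/-- **orthogonality of characters.** -/
theorem sum_chi [Fintype (Multiplicative M →* Kˣ)] [DecidableEq M] (w : M) :
    ∑ ψ : Multiplicative M →* Kˣ, chi ψ w = if w = 0 then (Nat.card M : K) else 0 := by
  split_ifs with hw
  · subst hw
    simp only [chi_zero, sum_const, card_univ, nsmul_eq_mul, mul_one]
    rw [← Nat.card_eq_fintype_card,
      CommGroup.card_monoidHom_of_hasEnoughRootsOfUnity (Multiplicative M) K]
    rfl
  · obtain ⟨ψ₀, hψ₀⟩ := exists_chi_ne (K := K) hw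
    rw [chi_zero] at hψ₀
    have h1 : ∑ ψ : Multiplicative M →* Kˣ, chi ψ w =
        chi ψ₀ w * ∑ ψ : Multiplicative M →* Kˣ, chi ψ w := by
      rw [Finset.mul_sum]
      rw [← Fintype.sum_equiv (Equiv.mulLeft ψ₀) (fun ψ => chi (ψ₀ * ψ) w)
        (fun ψ => chi ψ w) (fun ψ => rfl)]
      exact Finset.sum_congr rfl fun ψ _ => chi_mul ψ₀ ψ w
    have h2 : (1 - chi ψ₀ w) * ∑ ψ : Multiplicative M →* Kˣ, chi ψ w = 0 := by
      rw [sub_mul, one_mul, ← h1, sub_self]
    rcases mul_eq_zero.1 h2 with h3 | h3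
    · exact absurd (sub_eq_zero.1 h3).symm hψ₀
    · exact h3

/-- **Fourier inversion in the group algebra.** -/
theorem card_mul_coeff [Fintype (Multiplicative M →* Kˣ)] (f : K[M]) (w : M) :
    (Nat.card M : K) * f.coeff w =
      ∑ ψ : Multiplicative M →* Kˣ, chi ψ (-w) * pr f (chi ψ) := by
  classical
  haveI : Fintype M := Fintype.ofFinite M
  have h1 : ∀ ψ : Multiplicative M →* Kˣ, chi ψ (-w) * pr f (chi ψ) =
      ∑ w' : M, f.coeff w' * chi ψ (w' - w) := by
    intro ψ
    rw [pr_eq_sum, Finset.mul_sum]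
    refine Finset.sum_congr rfl fun w' _ => ?_
    rw [sub_eq_add_neg, chi_add]; ring
  rw [Finset.sum_congr rfl fun ψ _ => h1 ψ, Finset.sum_comm]
  have h2 : ∀ w' : M, ∑ ψ : Multiplicative M →* Kˣ, f.coeff w' * chi ψ (w' - w) =
      if w' = w then f.coeff w' * (Nat.card M : K) else 0 := by
    intro w'
    rw [← Finset.mul_sum, sum_chi]
    by_cases h : w' = w
    · rw [if_pos h, if_pos (sub_eq_zero.2 h)]
    · rw [if_neg h, if_neg (fun h' => h (sub_eq_zero.1 h')), mul_zero]
  rw [Finset.sum_congr rfl fun w' _ => h2 w', Finset.sum_ite_eq' Finset.univ w]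
  simp [mul_comm]

end Chars

end Fermat.Agent.W56.Lift6C
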