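/-
Programme W56 (target S56), chapter (F) FLAT (helper6): **Fontaine's lifting theorem for a
function-model Hopf order** (the Hopf-order half of the ramification bound).

`H ⊆ (M → K)` is a coproduct-closed order with values in the rank-one valuation subring `A` of `K`,
`M` finite and killed by `p`, `b` a `K`-basis of `M → K` consisting of elements of `H` such that the
elements of `H` have their coordinates in `A`.  `D = dualRing A H` is the dual order in `K[M]`.

* `pr_chi_mem` (integrality of characters): `f ∈ D ⇒ ⟨f, χ⟩ ∈ A` for every character `χ` of `M`;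
  hence `χ` lies in the `A`-span of `H` (`repr_chi_mem`);
* `card_smul_mem` (conductor): `⟨F, χ⟩ ∈ A` for all `χ` implies `#M • F ∈ D`;
* `exists_sep` : two distinct points are separated by some `h ∈ H` modulo `ζ - 1`;
* `lifting` : if `f ∈ D` is multiplicative on `H` modulo `c`, `ord c > p/(p-1)`, there is a point
  `z'` of `M` with `⟨f, h⟩ ≡ h z' mod c/p` for all `h ∈ H`.
-/
import Mathlib
import Fermat.Agent.W56.Lift6A
import Fermat.Agent.W56.Lift6B
import Fermat.Agent.W56.Lift6C

set_option autoImplicit false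

namespace Fermat.Agent.W56.Lift6D

open Finset AddMonoidAlgebra Fermat.Agent.FF.HopfOrderC Fermat.Agent.W56.Lift6A
  Fermat.Agent.W56.Lift6B Fermat.Agent.W56.Lift6C

section RankOne

variable {K : Type*} [Field K] {A : ValuationSubring K}

/-- in a rank-one valuation ring, an element with bounded powers is integral. -/
theorem mem_of_pow_bounded
    (hrk : ∀ θ b : K, A.valuation θ < 1 → b ≠ 0 → ∃ k : ℕ, A.valuation θ ^ k ≤ A.valuation b)
    {x B : K} (hB : ∀ k : ℕ, A.valuation (x ^ k) ≤ A.valuation B) : x ∈ A := by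
  rw [← A.valuation_le_one_iff]
  by_contra hcon
  rw [not_le] at hcon
  have hx0 : x ≠ 0 := by
    rintro rfl
    rw [map_zero] at hcon
    exact absurd hcon (not_lt.2 zero_le)
  have hB0 : B ≠ 0 := by
    rintro rfl
    have := hB 1
    rw [map_zero, pow_one] at this
    exact hx0 ((map_eq_zero _).1 (le_antisymm this zero_le))
  have hθ : A.valuation x⁻¹ < 1 := by
    rw [map_inv₀]
    exact inv_lt_one_of_one_lt₀ hcon
  obtain ⟨k, hk⟩ := hrk x⁻¹ B⁻¹ hθ (inv_ne_zero hB0)
  rw [map_inv₀, map_inv₀, inv_pow] at hk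
  have hvB : 0 < A.valuation B := zero_lt_iff.2 ((map_ne_zero _).2 hB0)
  have hvx : 0 < A.valuation x ^ k := pow_pos (zero_lt_iff.2 ((map_ne_zero _).2 hx0)) _
  have h1 : A.valuation B ≤ A.valuation x ^ k := (inv_le_inv₀ hvx hvB).1 hk
  have h2 := hB (k + 1)
  rw [map_pow] at h2
  have h3 : A.valuation x ^ (k + 1) ≤ A.valuation x ^ k := h2.trans h1
  rw [pow_succ] at h3
  have h4 : A.valuation x ^ k * A.valuation x ≤ A.valuation x ^ k * 1 := by rwa [mul_one]
  have h5 := le_of_mul_le_mul_left h4 hvx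
  exact absurd hcon (not_lt.2 h5)

/-- a common bound for finitely many valuations. -/
theorem exists_val_ge {ι : Type*} (s : Finset ι) (β : ι → K) :
    ∃ B : K, ∀ i ∈ s, A.valuation (β i) ≤ A.valuation B := by
  classical
  induction s using Finset.induction_on with
  | empty => exact ⟨0, fun i hi => absurd hi (Finset.notMem_empty i)⟩
  | insert j s hj ih =>
    obtain ⟨B, hB⟩ := ih
    rcases le_total (A.valuation (β j)) (A.valuation B) with h | h
    · refine ⟨B, fun i hi => ?_⟩
      rcases Finset.mem_insert.1 hi with rfl | hi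
      · exact h
      · exact hB i hi
    · refine ⟨β j, fun i hi => ?_⟩
      rcases Finset.mem_insert.1 hi with rfl | hi
      · exact le_rfl
      · exact (hB i hi).trans h

end RankOne

section Dual

variable {K : Type*} [Field K] {A : ValuationSubring K} {M : Type*} [AddCommGroup M] [Finite M]
variable {ι : Type*} [Fintype ι] (b : Module.Basis ι K (M → K))

/-- the dual basis of `b` inside the group algebra. -/
noncomputable def dualB (i : ι) : K[M] :=
  haveI : Fintype M := Fintype.ofFinite M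
  haveI : DecidableEq M := Classical.decEq M
  ∑ w : M, single w (b.repr (Pi.single w 1) i)

theorem pr_dualB (i : ι) (x : M → K) : pr (dualB b i) x = b.repr x i := by
  classical
  haveI : Fintype M := Fintype.ofFinite M
  have hx : x = ∑ w : M, x w • (Pi.single w (1 : K) : M → K) := by
    funext z
    simp [Finset.sum_apply, Pi.single_apply]
  have h1 : dualB b i = ∑ w : M, single w (b.repr (Pi.single w 1) i) := by
    unfold dualB
    congr!
  rw [h1, pr_sum_left]
  conv_rhs => rw [hx, map_sum, Finsupp.coe_finset_sum, Finset.sum_apply]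
  refine Finset.sum_congr rfl fun w _ => ?_
  rw [pr_single, map_smul, Finsupp.smul_apply, smul_eq_mul, mul_comm]

theorem pr_eq_sum_repr (f : K[M]) (x : M → K) :
    pr f x = ∑ i, b.repr x i * pr f (b i) := by
  conv_lhs => rw [← b.sum_repr x]
  rw [pr_sum_right]
  refine Finset.sum_congr rfl fun i _ => ?_
  rw [pr_smul_right]

end Dual

section Main

variable {K : Type*} [Field K] {A : ValuationSubring K} {M : Type*} [AddCommGroup M] [Finite M]
variable [HasEnoughRootsOfUnity K (Monoid.exponent (Multiplicative M))]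
variable {R : Type*} [CommRing R] [Algebra R K]
variable {H : Subalgebra R (M → K)} (hcop : ∀ h ∈ H, HasCoprod H h)
  (hval : ∀ h ∈ H, ∀ z, h z ∈ A)
variable {ι : Type*} [Fintype ι] (b : Module.Basis ι K (M → K)) (hbH : ∀ i, b i ∈ H)
  (hHb : ∀ h ∈ H, ∀ i, b.repr h i ∈ A)
variable (hrk : ∀ θ b : K, A.valuation θ < 1 → b ≠ 0 → ∃ k : ℕ, A.valuation θ ^ k ≤ A.valuation b)

/-- the dual order. -/
abbrev DD : Subring K[M] := dualRing A H hcop (fun h hh => hval h hh 0)

include hHb in
theorem dualB_mem (i : ι) : dualB b i ∈ DD hcop hval := by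
  intro h hh
  rw [pr_dualB]
  exact hHb h hh i

theorem pr_pow_char (χ : M → K) (hχ : ∀ z z', χ (z + z') = χ z * χ z') (hχ0 : χ 0 = 1)
    (f : K[M]) (k : ℕ) : pr (f ^ k) χ = pr f χ ^ k := by
  induction k with
  | zero => rw [pow_zero, pow_zero, pr_one, hχ0]
  | succ k ih => rw [pow_succ, pow_succ, pr_mul_char χ hχ, ih]

include hbH hrk in
/-- **integrality of characters on the dual order.** -/
theorem pr_chi_mem {f : K[M]} (hf : f ∈ DD hcop hval) (ψ : Multiplicative M →* Kˣ) :
    pr f (chi ψ) ∈ A := by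
  obtain ⟨B, hB⟩ := exists_val_ge (A := A) Finset.univ (fun i => b.repr (chi ψ) i)
  refine mem_of_pow_bounded hrk (B := B) fun k => ?_
  rw [← pr_pow_char (chi ψ) (chi_add ψ) (chi_zero ψ), pr_eq_sum_repr b]
  refine Valuation.map_sum_le _ fun i _ => ?_
  rw [map_mul]
  have h1 : pr (f ^ k) (b i) ∈ A := (DD hcop hval).pow_mem hf k (b i) (hbH i)
  calc A.valuation (b.repr (chi ψ) i) * A.valuation (pr (f ^ k) (b i))
      ≤ A.valuation B * 1 := mul_le_mul' (hB i (Finset.mem_univ i)) ((A.valuation_le_one_iff _).2 h1)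
    _ = A.valuation B := mul_one _

include hcop hval hbH hHb hrk in
/-- every character lies in the `A`-span of `H`. -/
theorem repr_chi_mem (ψ : Multiplicative M →* Kˣ) (i : ι) : b.repr (chi ψ) i ∈ A := by
  rw [← pr_dualB]
  exact pr_chi_mem hcop hval b hbH hrk (dualB_mem hcop hval b hHb i) ψ

omit [HasEnoughRootsOfUnity K (Monoid.exponent (Multiplicative M))] in
theorem chi_mem (ψ : Multiplicative M →* Kˣ) (w : M) : chi ψ w ∈ A := by
  rw [← A.valuation_le_one_iff]
  have h := val_eq_one_of_pow_eq_one A (Nat.card_pos (α := M))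
    (chi_pow_eq_one ψ (fun z => card_nsmul_eq_zero') w)
  exact h.le

/-- **the conductor.** -/
theorem card_smul_mem {F : K[M]} (hF : ∀ ψ : Multiplicative M →* Kˣ, pr F (chi ψ) ∈ A) :
    (Nat.card M : K) • F ∈ DD hcop hval := by
  classical
  haveI : Fintype M := Fintype.ofFinite M
  haveI : Fintype (Multiplicative M →* Kˣ) := Fintype.ofFinite _
  intro h hh
  rw [pr_smul_left, pr_eq_sum, Finset.mul_sum]
  refine A.toSubring.sum_mem fun w _ => ?_
  rw [← mul_assoc, card_mul_coeff]
  refine A.mul_mem _ _ (A.toSubring.sum_mem fun ψ _ => ?_) (hval h hh w)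
  exact A.mul_mem _ _ (chi_mem ψ _) (hF ψ)

end Main

section MulMod

variable {K : Type*} [Field K] (A : ValuationSubring K) {M : Type*} [AddCommGroup M]
variable {R : Type*} [CommRing R] [Algebra R K]

/-- `f` is in the dual order of `H` and the functional `⟨f, ·⟩` is multiplicative on `H`
modulo `c`. -/
structure IsMulMod (H : Subalgebra R (M → K)) (c : K) (f : K[M]) : Prop where
  mem : ∀ h ∈ H, pr f h ∈ A
  one : A.valuation (pr f 1 - 1) ≤ A.valuation c
  mul : ∀ h ∈ H, ∀ h' ∈ H, A.valuation (pr f (h * h') - pr f h * pr f h') ≤ A.valuation c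

end MulMod

section Lifting

variable {K : Type*} [Field K] {A : ValuationSubring K} {M : Type*} [AddCommGroup M] [Finite M]
variable [HasEnoughRootsOfUnity K (Monoid.exponent (Multiplicative M))]
variable {R : Type*} [CommRing R] [Algebra R K]
variable {H : Subalgebra R (M → K)} (hcop : ∀ h ∈ H, HasCoprod H h)
  (hval : ∀ h ∈ H, ∀ z, h z ∈ A)
variable {ι : Type*} [Fintype ι] (b : Module.Basis ι K (M → K)) (hbH : ∀ i, b i ∈ H)
  (hHb : ∀ h ∈ H, ∀ i, b.repr h i ∈ A)
variable (hrk : ∀ θ b : K, A.valuation θ < 1 → b ≠ 0 → ∃ k : ℕ, A.valuation θ ^ k ≤ A.valuation b)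
variable {c : K} {f : K[M]} (hf : IsMulMod A H c f)

omit [Finite M] [HasEnoughRootsOfUnity K (Monoid.exponent (Multiplicative M))] in
theorem val_mul_le_of_mem {x y : K} (hx : x ∈ A) (hy : A.valuation y ≤ A.valuation c) :
    A.valuation (x * y) ≤ A.valuation c := by
  rw [map_mul]
  calc A.valuation x * A.valuation y ≤ 1 * A.valuation c :=
        mul_le_mul' ((A.valuation_le_one_iff _).2 hx) hy
    _ = A.valuation c := one_mul _

omit [Finite M] [HasEnoughRootsOfUnity K (Monoid.exponent (Multiplicative M))] in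
include hbH hf in
theorem mul_mod_coeff (cx cy : ι → K) (hcx : ∀ i, cx i ∈ A) (hcy : ∀ i, cy i ∈ A) :
    A.valuation (pr f ((∑ i, cx i • b i) * (∑ j, cy j • b j)) -
      pr f (∑ i, cx i • b i) * pr f (∑ j, cy j • b j)) ≤ A.valuation c := by
  have e : pr f ((∑ i, cx i • b i) * (∑ j, cy j • b j)) -
      pr f (∑ i, cx i • b i) * pr f (∑ j, cy j • b j) =
      ∑ i, ∑ j, (cx i * cy j) * (pr f (b i * b j) - pr f (b i) * pr f (b j)) := by
    rw [Finset.sum_mul_sum, pr_sum_right, pr_sum_right, pr_sum_right, Finset.sum_mul_sum,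
      ← Finset.sum_sub_distrib]
    refine Finset.sum_congr rfl fun i _ => ?_
    rw [pr_sum_right, ← Finset.sum_sub_distrib]
    refine Finset.sum_congr rfl fun j _ => ?_
    rw [smul_mul_smul_comm, pr_smul_right, pr_smul_right, pr_smul_right]
    ring
  rw [e]
  refine Valuation.map_sum_le _ fun i _ => Valuation.map_sum_le _ fun j _ => ?_
  exact val_mul_le_of_mem (A.mul_mem _ _ (hcx i) (hcy j)) (hf.mul _ (hbH i) _ (hbH j))

omit [Finite M] [HasEnoughRootsOfUnity K (Monoid.exponent (Multiplicative M))] in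
include hbH hf in
/-- multiplicativity modulo `c` extends to the `A`-span of `H`. -/
theorem mul_mod_span {x y : M → K} (hx : ∀ i, b.repr x i ∈ A) (hy : ∀ i, b.repr y i ∈ A) :
    A.valuation (pr f (x * y) - pr f x * pr f y) ≤ A.valuation c := by
  have := mul_mod_coeff b hbH hf (fun i => b.repr x i) (fun i => b.repr y i) hx hy
  rwa [b.sum_repr x, b.sum_repr y] at this

omit [Finite M] [HasEnoughRootsOfUnity K (Monoid.exponent (Multiplicative M))] in
include hcop hf in
/-- `⟨f^(k+1), h⟩ ≡ ⟨f, h ∘ [k+1]⟩ mod c`. -/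
theorem pr_pow_nsmul (k : ℕ) : ∀ h ∈ H,
    A.valuation (pr (f ^ (k + 1)) h - pr f (fun w => h ((k + 1) • w))) ≤ A.valuation c := by
  induction k with
  | zero =>
    intro h _
    simp
  | succ k ih =>
    intro h hh
    obtain ⟨κ, _, a, bb, ha, hb, hab⟩ := hcop h hh
    have e1 : pr (f ^ (k + 1 + 1)) h = ∑ i, pr (f ^ (k + 1)) (a i) * pr f (bb i) := by
      rw [pow_succ, pr_mul a bb h hab]
    have e2 : (fun w => h ((k + 1 + 1) • w)) =
        ∑ i, (fun w => a i ((k + 1) • w)) * bb i := by
      funext w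
      rw [succ_nsmul, hab, Finset.sum_apply]
      rfl
    rw [e1, e2, pr_sum_right, ← Finset.sum_sub_distrib]
    refine Valuation.map_sum_le _ fun i _ => ?_
    have hai : (fun w => a i ((k + 1) • w)) ∈ H := comp_nsmul_mem hcop k (a i) (ha i)
    have e3 : pr (f ^ (k + 1)) (a i) * pr f (bb i) - pr f ((fun w => a i ((k + 1) • w)) * bb i) =
        pr f (bb i) * (pr (f ^ (k + 1)) (a i) - pr f (fun w => a i ((k + 1) • w))) +
        -(pr f ((fun w => a i ((k + 1) • w)) * bb i) -
          pr f (fun w => a i ((k + 1) • w)) * pr f (bb i)) := by ring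
    rw [e3]
    refine (A.valuation.map_add _ _).trans (max_le ?_ ?_)
    · exact val_mul_le_of_mem (hf.mem _ (hb i)) (ih (a i) (ha i))
    · rw [Valuation.map_neg]
      exact hf.mul _ hai _ (hb i)

omit [Finite M] [HasEnoughRootsOfUnity K (Monoid.exponent (Multiplicative M))] in
include hf in
/-- `f ^ p ≡ 1 mod c D` when `M` is killed by `p`. -/
theorem pow_sub_one_divMem {p : ℕ} (hp : 0 < p) (hpM : ∀ z : M, p • z = 0) (hc0 : c ≠ 0) :
    DivMem (DD hcop hval) c (f ^ p - 1) := by
  refine ⟨c⁻¹ • (f ^ p - 1), ?_, ?_⟩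
  · intro h hh
    rw [pr_smul_left, pr_sub_left, pr_one, inv_mul_eq_div]
    apply div_mem_of_val_le A hc0
    obtain ⟨k, rfl⟩ := Nat.exists_eq_succ_of_ne_zero hp.ne'
    have h1 := pr_pow_nsmul hcop hf k h hh
    have e2 : (fun w => h ((k + 1) • w)) = (h 0) • (1 : M → K) := by
      funext w
      rw [hpM]
      simp
    rw [e2, pr_smul_right] at h1
    have e3 : pr (f ^ (k + 1)) h - h 0 =
        (pr (f ^ (k + 1)) h - h 0 * pr f 1) + h 0 * (pr f 1 - 1) := by ring
    rw [e3]
    refine (A.valuation.map_add _ _).trans (max_le h1 ?_)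
    exact val_mul_le_of_mem (hval h hh 0) hf.one
  · rw [smul_smul, mul_inv_cancel₀ hc0, one_smul]

end Lifting

end Fermat.Agent.W56.Lift6D
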