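/-
Programme W56 (target S56), chapter (F) FLAT (helper6): **Fontaine's lifting theorem for a
function-model Hopf order, final form.**

Setting of `W56/Lift6D`; moreover `M` is killed by the prime `p`, `ζ` is a primitive `p`-th root of
unity of `K`, `ord c > p/(p-1)`.

* `exists_sep` : two distinct points of `M` are separated by a basis element of `H` modulo `ζ - 1`;
* `eq_of_close` : two points which all `h ∈ H` fail to separate modulo something of order
  `> 1/(p-1)` are equal;
* `lifting` : a functional `⟨f, ·⟩`, `f` in the dual order, which is multiplicative on `H`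
  modulo `c` is congruent modulo `c/p` to the evaluation at a point `z'` of `M`.
-/
import Mathlib
import Fermat.Agent.W56.Lift6D

set_option autoImplicit false

namespace Fermat.Agent.W56.Lift6E

open Finset AddMonoidAlgebra Fermat.Agent.FF.HopfOrderC Fermat.Agent.W56.Lift6A
  Fermat.Agent.W56.Lift6B Fermat.Agent.W56.Lift6C Fermat.Agent.W56.Lift6D

variable {K : Type*} [Field K] {A : ValuationSubring K} {M : Type*} [AddCommGroup M] [Finite M]
variable [HasEnoughRootsOfUnity K (Monoid.exponent (Multiplicative M))]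
variable {R : Type*} [CommRing R] [Algebra R K]
variable {H : Subalgebra R (M → K)} (hcop : ∀ h ∈ H, HasCoprod H h)
  (hval : ∀ h ∈ H, ∀ z, h z ∈ A)
variable {ι : Type*} [Fintype ι] (b : Module.Basis ι K (M → K)) (hbH : ∀ i, b i ∈ H)
  (hHb : ∀ h ∈ H, ∀ i, b.repr h i ∈ A)
variable (hrk : ∀ θ b : K, A.valuation θ < 1 → b ≠ 0 → ∃ k : ℕ, A.valuation θ ^ k ≤ A.valuation b)
variable {p : ℕ} (hp : p.Prime) {ζ : K} (hζ : IsPrimitiveRoot ζ p) (hpM : ∀ z : M, p • z = 0)

include hcop hval hbH hHb hrk hp hζ hpM in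
/-- two distinct points are separated by a basis element modulo `ζ - 1`. -/
theorem exists_sep {z z' : M} (hzz : z ≠ z') :
    ∃ i, A.valuation (ζ - 1) ≤ A.valuation (b i z' - b i z) := by
  obtain ⟨ψ, hψ⟩ := exists_chi_ne (K := K) hzz
  have h1 := val_root_sub_root A hp hζ (chi_pow_eq_one ψ hpM z) (chi_pow_eq_one ψ hpM z') hψ
  by_contra hcon
  push Not at hcon
  have hζ1 : ζ - 1 ≠ 0 := sub_ne_zero.2 (hζ.ne_one hp.one_lt)
  have e : chi ψ z' - chi ψ z = ∑ i, b.repr (chi ψ) i * (b i z' - b i z) := by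
    have h2 : ∀ w : M, chi ψ w = ∑ i, b.repr (chi ψ) i * b i w := by
      intro w
      conv_lhs => rw [← b.sum_repr (chi ψ)]
      simp [Finset.sum_apply]
    rw [h2 z', h2 z, ← Finset.sum_sub_distrib]
    exact Finset.sum_congr rfl fun i _ => by ring
  have h3 : A.valuation (chi ψ z' - chi ψ z) < A.valuation (ζ - 1) := by
    rw [e]
    refine Valuation.map_sum_lt _ ((map_ne_zero _).2 hζ1) fun i _ => ?_
    rw [map_mul]
    calc A.valuation (b.repr (chi ψ) i) * A.valuation (b i z' - b i z)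
        ≤ 1 * A.valuation (b i z' - b i z) :=
          mul_le_mul_left ((A.valuation_le_one_iff _).2
            (repr_chi_mem hcop hval b hbH hHb hrk ψ i)) _
      _ = A.valuation (b i z' - b i z) := one_mul _
      _ < A.valuation (ζ - 1) := hcon i
  rw [h1] at h3
  exact lt_irrefl _ h3

include hcop hval hbH hHb hrk hp hζ hpM in
/-- points which are not separated modulo something of order `> 1/(p-1)` are equal. -/
theorem eq_of_close {c' : K} (hc' : A.valuation c' ^ (p - 1) < A.valuation (p : K)) {z z' : M}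
    (h : ∀ h ∈ H, A.valuation (h z' - h z) ≤ A.valuation c') : z = z' := by
  by_contra hzz
  obtain ⟨i, hi⟩ := exists_sep hcop hval b hbH hHb hrk hp hζ hpM hzz
  have h1 := hi.trans (h (b i) (hbH i))
  have h2 : A.valuation (ζ - 1) ^ (p - 1) ≤ A.valuation c' ^ (p - 1) :=
    pow_le_pow_left₀ zero_le h1 _
  rw [val_zeta_sub_one_pow A hp hζ] at h2
  exact absurd (lt_of_le_of_lt h2 hc') (lt_irrefl _)

variable (hpK : (p : K) ≠ 0) (hpA : A.valuation (p : K) ≤ 1) (hn : (Nat.card M : K) ≠ 0)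
variable {c : K} (hc0 : c ≠ 0) (hc : A.valuation c ^ (p - 1) < A.valuation (p : K) ^ p)
variable {f : K[M]} (hf : IsMulMod A H c f)

omit [Finite M] [HasEnoughRootsOfUnity K (Monoid.exponent (Multiplicative M))] in
include hp hpK hc in
theorem val_c_div_p_pow_lt : A.valuation (c / (p : K)) ^ (p - 1) < A.valuation (p : K) := by
  have hvp : 0 < A.valuation (p : K) := zero_lt_iff.2 ((map_ne_zero _).2 hpK)
  rw [map_div₀, div_pow, div_lt_iff₀ (pow_pos hvp _), ← pow_succ', Nat.sub_add_cancel hp.one_lt.le]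
  exact hc

include hcop hval hbH hHb hrk hp hζ hpM hpK hpA hn hc0 hc hf in
/-- **Fontaine's lifting theorem.** -/
theorem lifting : ∃ z' : M, ∀ h ∈ H, A.valuation (pr f h - h z') ≤ A.valuation (c / (p : K)) := by
  classical
  have hvp : 0 < A.valuation (p : K) := zero_lt_iff.2 ((map_ne_zero _).2 hpK)
  have hcp := val_c_div_p_pow_lt (A := A) hp hpK hc
  have hcle : A.valuation c ≤ A.valuation (c / (p : K)) := by
    rw [map_div₀, le_div_iff₀ hvp]
    calc A.valuation c * A.valuation (p : K) ≤ A.valuation c * 1 := mul_le_mul_right hpA _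
      _ = A.valuation c := mul_one _
  have hcp1 : A.valuation (c / (p : K)) ≤ 1 := (val_c_div_p_lt_one hp hpK hpA hc).le
  have hfD : f ∈ DD hcop hval := hf.mem
  -- the values on the characters
  set x : (Multiplicative M →* Kˣ) → K := fun ψ => pr f (chi ψ) with hx
  have hxA : ∀ ψ, x ψ ∈ A := fun ψ => pr_chi_mem hcop hval b hbH hrk hfD ψ
  have hx1 : A.valuation (x 1 - 1) ≤ A.valuation c := by
    have e : chi (1 : Multiplicative M →* Kˣ) = (1 : M → K) := funext chi_one
    show A.valuation (pr f (chi 1) - 1) ≤ A.valuation c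
    rw [e]
    exact hf.one
  have hxmul : ∀ ψ ψ', A.valuation (x (ψ * ψ') - x ψ * x ψ') ≤ A.valuation c := by
    intro ψ ψ'
    have e : chi (ψ * ψ') = chi ψ * chi ψ' := funext (chi_mul ψ ψ')
    show A.valuation (pr f (chi (ψ * ψ')) - pr f (chi ψ) * pr f (chi ψ')) ≤ A.valuation c
    rw [e]
    exact mul_mod_span b hbH hf (repr_chi_mem hcop hval b hbH hHb hrk ψ)
      (repr_chi_mem hcop hval b hbH hHb hrk ψ')
  have hxpow : ∀ ψ (k : ℕ), A.valuation (x (ψ ^ k) - x ψ ^ k) ≤ A.valuation c := by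
    intro ψ k
    induction k with
    | zero =>
      have e0 : ψ ^ 0 = 1 := pow_zero ψ
      rw [e0, pow_zero]; exact hx1
    | succ k ih =>
      have e : x (ψ ^ (k + 1)) - x ψ ^ (k + 1) =
          (x (ψ ^ k * ψ) - x (ψ ^ k) * x ψ) + x ψ * (x (ψ ^ k) - x ψ ^ k) := by
        rw [pow_succ ψ k]; ring
      rw [e]
      exact (A.valuation.map_add _ _).trans
        (max_le (hxmul _ _) (val_mul_le_of_mem (hxA ψ) ih))
  have hψp : ∀ ψ : Multiplicative M →* Kˣ, ψ ^ p = 1 := by
    intro ψ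
    refine MonoidHom.ext fun m => ?_
    rw [MonoidHom.pow_apply, ← map_pow, MonoidHom.one_apply]
    have : m ^ p = 1 := by
      have := hpM (Multiplicative.toAdd m)
      exact congrArg Multiplicative.ofAdd this
    rw [this, map_one]
  have hxp : ∀ ψ, A.valuation (x ψ ^ p - 1) ≤ A.valuation c := by
    intro ψ
    have h1 := hxpow ψ p
    rw [hψp] at h1
    have e : x ψ ^ p - 1 = -(x 1 - x ψ ^ p) + (x 1 - 1) := by ring
    rw [e]
    refine (A.valuation.map_add _ _).trans (max_le ?_ hx1)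
    rwa [Valuation.map_neg]
  -- the closest roots of unity
  have hroot : ∀ ψ, ∃ η : K, η ^ p = 1 ∧ A.valuation (x ψ - η) ≤ A.valuation (c / (p : K)) := by
    intro ψ
    obtain ⟨η, hη, h⟩ := exists_root_close A hp hζ (hxp ψ)
    refine ⟨η, hη, ?_⟩
    rw [map_div₀, le_div_iff₀ hvp]
    exact h
  choose η hηp hηx using hroot
  have hηA : ∀ ψ, η ψ ∈ A := fun ψ => by
    rw [← A.valuation_le_one_iff]
    exact (val_eq_one_of_pow_eq_one A hp.pos (hηp ψ)).le
  have hη0 : ∀ ψ, η ψ ≠ 0 := fun ψ h0 => by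
    have := hηp ψ
    rw [h0, zero_pow hp.ne_zero] at this
    exact zero_ne_one this
  have hηmul : ∀ ψ ψ', η (ψ * ψ') = η ψ * η ψ' := by
    intro ψ ψ'
    symm
    apply root_eq_of_close A hp hζ (by rw [mul_pow, hηp, hηp, one_mul]) (hηp _)
    refine lt_of_le_of_lt (pow_le_pow_left₀ zero_le ?_ _) hcp
    have e : η (ψ * ψ') - η ψ * η ψ' =
        -(x (ψ * ψ') - η (ψ * ψ')) + ((x (ψ * ψ') - x ψ * x ψ') +
          (x ψ * (x ψ' - η ψ') + η ψ' * (x ψ - η ψ))) := by ring
    rw [e]
    refine (A.valuation.map_add _ _).trans (max_le ?_ ?_)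
    · rw [Valuation.map_neg]; exact hηx _
    · refine (A.valuation.map_add _ _).trans (max_le ((hxmul ψ ψ').trans hcle) ?_)
      refine (A.valuation.map_add _ _).trans (max_le ?_ ?_)
      · exact val_mul_le_of_mem (hxA ψ) (hηx ψ')
      · exact val_mul_le_of_mem (hηA ψ') (hηx ψ)
  have hη1 : η 1 = 1 := by
    have := hηmul 1 1
    rw [mul_one (1 : Multiplicative M →* Kˣ)] at this
    have h2 : η 1 * (η 1 - 1) = 0 := by rw [mul_sub, mul_one, ← this, sub_self]
    rcases mul_eq_zero.1 h2 with h3 | h3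
    · exact absurd h3 (hη0 1)
    · exact sub_eq_zero.1 h3
  -- the point
  let Φ : (Multiplicative M →* Kˣ) →* Kˣ :=
    { toFun := fun ψ => Units.mk0 (η ψ) (hη0 ψ)
      map_one' := Units.ext hη1
      map_mul' := fun ψ ψ' => Units.ext (hηmul ψ ψ') }
  set g : Multiplicative M := CommGroup.monoidHomMonoidHomEquiv (Multiplicative M) K Φ with hg
  have hgΦ : ∀ ψ : Multiplicative M →* Kˣ, ψ g = Φ ψ := fun ψ =>
    CommGroup.apply_monoidHomMonoidHomEquiv K ψ Φ
  set z' : M := Multiplicative.toAdd g with hz'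
  have hchi : ∀ ψ, chi ψ z' = η ψ := by
    intro ψ
    show ((ψ (Multiplicative.ofAdd (Multiplicative.toAdd g)) : Kˣ) : K) = η ψ
    rw [ofAdd_toAdd, hgΦ]
    rfl
  -- the unit `u = f * [-z']`
  have hsm : ∀ a ∈ A, ∀ y ∈ DD hcop hval, a • y ∈ DD hcop hval :=
    fun a ha y hy => smul_mem_dualRing ha hy
  set u : K[M] := f * single (-z') 1 with hu
  have huD : u ∈ DD hcop hval :=
    (DD hcop hval).mul_mem hfD (single_mem_dualRing hval _)
  have hup : DivMem (DD hcop hval) c (u ^ p - 1) := by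
    have e : u ^ p = f ^ p := by
      rw [hu, mul_pow, single_pow, one_pow, hpM, ← one_def, mul_one]
    rw [e]
    exact pow_sub_one_divMem hcop hval hf hp.pos hpM hc0
  let X : (Multiplicative M →* Kˣ) → (K[M] →ₐ[K] K) := fun ψ =>
    AlgHom.ofLinearMap (prL (chi ψ)) (by
      show pr 1 (chi ψ) = 1
      rw [pr_one, chi_zero]) (fun f g => pr_mul_char (chi ψ) (chi_add ψ) f g)
  have hXdef : ∀ ψ g', X ψ g' = pr g' (chi ψ) := fun _ _ => rfl
  have hXu : ∀ ψ, A.valuation (X ψ u - 1) ≤ A.valuation (c / (p : K)) := by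
    intro ψ
    rw [hXdef, hu, pr_mul_char (chi ψ) (chi_add ψ), pr_single, one_mul, chi_neg, hchi]
    have e : x ψ * (η ψ)⁻¹ - 1 = (η ψ)⁻¹ * (x ψ - η ψ) := by
      field_simp [hη0 ψ]
    show A.valuation (x ψ * (η ψ)⁻¹ - 1) ≤ _
    rw [e]
    refine val_mul_le_of_mem ?_ (hηx ψ)
    rw [← A.valuation_le_one_iff, map_inv₀, val_eq_one_of_pow_eq_one A hp.pos (hηp ψ), inv_one]
  obtain ⟨y, hy, hye⟩ := newton (A := A) hsm hp hpK hpA hc0 hc X
    (fun ψ y hy => pr_chi_mem hcop hval b hbH hrk hy ψ) hn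
    (fun F hF => card_smul_mem hcop hval hF) hrk huD hup hXu
  refine ⟨z', fun h hh => ?_⟩
  have e1 : f = u * single z' 1 := by
    rw [hu, mul_assoc, single_mul_single, neg_add_cancel, mul_one, ← one_def, mul_one]
  have e2 : f - single z' 1 = (c / (p : K)) • (y * single z' 1) := by
    rw [← smul_mul_assoc, ← hye, sub_mul, one_mul, ← e1]
  have e3 : pr f h - h z' = (c / (p : K)) * pr (y * single z' 1) h := by
    rw [← pr_smul_left, ← e2, pr_sub_left, pr_single, one_mul]
  rw [e3, mul_comm]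
  refine val_mul_le_of_mem ?_ le_rfl
  exact (DD hcop hval).mul_mem hy (single_mem_dualRing hval _) h hh

end Fermat.Agent.W56.Lift6E
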