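/-
Programme W56 (target S56), chapter (F) FLAT (helper6): **Fontaine's property `(P_m)` for the field
of points of a function-model Hopf order killed by `p`.**

`A` a valuation subring of `ℚ̄` over `p`, `M` a finite abelian group killed by `p` with an action of
the inertia group `Iner A`, `H ⊆ (M → ℚ̄)` a Hopf order over `R` (`R → W₀ A`), free with a basis
which is linearly independent over `ℚ̄`.  If `Γ ≤ Iner A` is the kernel of the action on `M` then
`FontaineProp A p Γ` (`fontaineProp_of_isHopfOrder`): a ring homomorphism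
`O_{ℚ̄^Γ} → O_{ℚ̄^Δ} / (c)`, `ord c > p/(p-1)`, identity on `W₀`, forces `Δ ≤ Γ`.
-/
import Mathlib
import Fermat.Agent.FF.SubOrd1
import Fermat.Agent.FF.HopfOrd1F
import Fermat.Agent.T33.ConnOrd2
import Fermat.Agent.U44.LocInst1
import Fermat.Agent.W56.FontDef6
import Fermat.Agent.W56.Lift6E

set_option autoImplicit false

namespace Fermat.Agent.W56.Lift6F

open Finset AddMonoidAlgebra Fermat.Agent.FF.HopfOrderB Fermat.Agent.FF.HopfOrderC
  Fermat.Agent.FF.SubOrd1 Fermat.Agent.FF.InertiaWire8 Fermat.Agent.W56.FontDef6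
  Fermat.Agent.W56.Lift6A Fermat.Agent.W56.Lift6B Fermat.Agent.W56.Lift6C
  Fermat.Agent.W56.Lift6D Fermat.Agent.W56.Lift6E

variable {A : ValuationSubring Qb} {p : ℕ}

/-- **rank one** in valuation form. -/
theorem rank_one (hp : p.Prime) (hA : A.LiesOverPrime p) (θ b : Qb) (hθ : A.valuation θ < 1)
    (hb : b ≠ 0) : ∃ k : ℕ, A.valuation θ ^ k ≤ A.valuation b := by
  by_cases hbA : b ∈ A
  · have hb' : (⟨b, hbA⟩ : A) ≠ 0 := fun h => hb (congrArg Subtype.val h)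
    obtain ⟨m, hm⟩ := hrank hp hA ⟨b, hbA⟩ hb'
    have hθn : θ ∈ A.nonunits := (ValuationSubring.mem_nonunits_iff A).2 hθ
    rw [ValuationSubring.mem_nonunits_iff_exists_mem_maximalIdeal] at hθn
    obtain ⟨hθA, hθm⟩ := hθn
    obtain ⟨k, hk⟩ := hℓm hp hA ⟨θ, hθA⟩ hθm
    refine ⟨k * m, ?_⟩
    obtain ⟨a1, ha1⟩ := hm
    obtain ⟨a2, ha2⟩ := hk
    have h1 : A.valuation (p : Qb) ^ m ≤ A.valuation b := by
      have := congrArg (Subtype.val : A → Qb) ha1
      push_cast at this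
      rw [← map_pow, this, map_mul]
      exact mul_le_of_le_one_right' ((A.valuation_le_one_iff _).2 a1.2)
    have h2 : A.valuation θ ^ k ≤ A.valuation (p : Qb) := by
      have := congrArg (Subtype.val : A → Qb) ha2
      push_cast at this
      rw [← map_pow, this, map_mul]
      exact mul_le_of_le_one_right' ((A.valuation_le_one_iff _).2 a2.2)
    rw [pow_mul]
    exact (pow_le_pow_left₀ zero_le h2 m).trans h1
  · refine ⟨0, ?_⟩
    rw [pow_zero]
    rw [← A.valuation_le_one_iff, not_le] at hbA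
    exact hbA.le

section Basis

variable {M : Type*} [AddCommGroup M] [Finite M] [DistribMulAction (Iner A) M]
variable {R : Type*} [CommRing R] [Algebra R Qb]
variable {H : Subalgebra R (M → Qb)} (hH : IsHopfOrder (Iner A) H)
variable {n : ℕ} (bH : Module.Basis (Fin n) R H)
  (hli : LinearIndependent Qb (fun i => ((bH i : H) : M → Qb)))

include hH hli in
/-- a basis of a separating order which is linearly independent over `ℚ̄` is a `ℚ̄`-basis of the
space of all functions. -/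
theorem exists_basis : ∃ b : Module.Basis (Fin n) Qb (M → Qb),
    ∀ i, b i = ((bH i : H) : M → Qb) := by
  classical
  haveI : Fintype M := Fintype.ofFinite M
  have h1 : Fintype.card M ≤ Fintype.card (Fin n) :=
    Fermat.Agent.FF.HopfOrd1.card_le_of_separates (K := Qb) H.val bH
      (fun z z' hzz => hH.separates z z' fun h hh => hzz ⟨h, hh⟩)
  have h2 : Fintype.card (Fin n) ≤ Fintype.card M := by
    have := hli.fintype_card_le_finrank
    rwa [Module.finrank_fintype_fun_eq_card] at this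
  have hcard : Fintype.card (Fin n) = Module.finrank Qb (M → Qb) := by
    rw [Module.finrank_fintype_fun_eq_card]
    exact le_antisymm h2 h1
  haveI : Nonempty (Fin n) := by
    rw [← Fin.pos_iff_nonempty]
    have h3 : 0 < Fintype.card M := Fintype.card_pos
    rw [Fintype.card_fin] at h1
    omega
  refine ⟨basisOfLinearIndependentOfCardEqFinrank hli hcard, fun i => ?_⟩
  rw [coe_basisOfLinearIndependentOfCardEqFinrank]

/-- the coordinates of the elements of `H` in such a basis come from `R`. -/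
theorem repr_eq (b : Module.Basis (Fin n) Qb (M → Qb)) (hb : ∀ i, b i = ((bH i : H) : M → Qb))
    {h : M → Qb} (hh : h ∈ H) (i : Fin n) :
    b.repr h i = algebraMap R Qb (bH.repr ⟨h, hh⟩ i) := by
  have h1 : ∑ j, algebraMap R Qb (bH.repr ⟨h, hh⟩ j) • b j = h := by
    have := congrArg (H.val) (bH.sum_repr ⟨h, hh⟩)
    rw [map_sum] at this
    simp only [map_smul, Subalgebra.coe_val] at this
    refine Eq.trans (Finset.sum_congr rfl fun j _ => ?_) this
    rw [hb, algebraMap_smul]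
  have h2 := b.repr_sum_self (fun j => algebraMap R Qb (bH.repr ⟨h, hh⟩ j))
  rw [h1] at h2
  rw [h2]

end Basis

section Core

variable {M : Type*} [AddCommGroup M] [Finite M] [DistribMulAction (Iner A) M]
variable {R : Type*} [CommRing R] [Algebra R Qb]
variable {H : Subalgebra R (M → Qb)}

omit [Finite M] in
/-- the values of an equivariant integral function lie in `O_{ℚ̄^Γ}` when `Γ` acts trivially. -/
theorem apply_mem_OFix {Γ : Subgroup GQ} (hΓI : Γ ≤ Iner A)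
    (hΓ : ∀ σ : Iner A, (σ : GQ) ∈ Γ → ∀ z : M, σ • z = z) {h : M → Qb} (hhA : ∀ z, h z ∈ A)
    (heq : IsEquivariantFun (Iner A) h) (z : M) : h z ∈ OFix A Γ := by
  refine ⟨hhA z, fun σ hσ => ?_⟩
  have h1 := heq ⟨σ, hΓI hσ⟩ z
  rw [hΓ ⟨σ, hΓI hσ⟩ hσ z] at h1
  exact h1.symm

theorem W0_le_OFix {Δ : Subgroup GQ} (hΔI : Δ ≤ Iner A) {w : Qb} (hw : w ∈ W0 A) :
    w ∈ OFix A Δ :=
  ⟨hw.1, fun σ hσ => hw.2 ⟨σ, hΔI hσ⟩⟩

variable {n : ℕ} (b : Module.Basis (Fin n) Qb (M → Qb)) (hbH : ∀ i, b i ∈ H)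
  (hHb : ∀ h ∈ H, ∀ i, b.repr h i ∈ W0 A)
variable {Γ Δ : Subgroup GQ} (hΓI : Γ ≤ Iner A) (hΔI : Δ ≤ Iner A) {c : Qb}
  (φ : OFix A Γ →+* OFix A Δ ⧸ idealLe A Δ c)
  (hφ : ∀ (w : Qb) (hΓ : w ∈ OFix A Γ) (hΔ : w ∈ OFix A Δ), w ∈ W0 A →
    φ ⟨w, hΓ⟩ = Ideal.Quotient.mk _ ⟨w, hΔ⟩)
  (hmem : ∀ h ∈ H, ∀ z, h z ∈ OFix A Γ)

include hbH hHb hΓI hΔI hφ in
/-- a linear lift of `φ ∘ ev_z` to `O_{ℚ̄^Δ}`, as an element of the group algebra. -/
theorem exists_lift (z : M) : ∃ f : Qb[M], (∀ h ∈ H, pr f h ∈ OFix A Δ) ∧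
    ∀ (h : M → Qb) (hh : h ∈ H) (hΔ : pr f h ∈ OFix A Δ),
      φ ⟨h z, hmem h hh z⟩ = Ideal.Quotient.mk _ ⟨pr f h, hΔ⟩ := by
  have hy : ∀ i, ∃ y : OFix A Δ, Ideal.Quotient.mk (idealLe A Δ c) y =
      φ ⟨b i z, hmem _ (hbH i) z⟩ := fun i => Ideal.Quotient.mk_surjective _
  choose y hy using hy
  set f : Qb[M] := ∑ i, ((y i : OFix A Δ) : Qb) • dualB b i with hf
  have hpr : ∀ x : M → Qb, pr f x = ∑ i, ((y i : OFix A Δ) : Qb) * b.repr x i := by
    intro x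
    rw [hf, pr_sum_left]
    refine Finset.sum_congr rfl fun i _ => ?_
    rw [pr_smul_left, pr_dualB]
  -- the value in `O_Δ`
  have hval : ∀ (h : M → Qb) (hh : h ∈ H),
      pr f h = ((∑ i, y i * ⟨b.repr h i, W0_le_OFix hΔI (hHb h hh i)⟩ : OFix A Δ) : Qb) := by
    intro h hh
    rw [hpr]
    push_cast
    rfl
  have hmemΔ : ∀ h ∈ H, pr f h ∈ OFix A Δ := by
    intro h hh
    rw [hval h hh]
    exact Subtype.property _
  refine ⟨f, hmemΔ, fun h hh hΔ => ?_⟩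
  have e1 : (⟨h z, hmem h hh z⟩ : OFix A Γ) =
      ∑ i, ⟨b.repr h i, W0_le_OFix hΓI (hHb h hh i)⟩ * ⟨b i z, hmem _ (hbH i) z⟩ := by
    apply Subtype.ext
    push_cast
    conv_lhs => rw [← b.sum_repr h]
    simp [Finset.sum_apply]
  have e2 : (⟨pr f h, hΔ⟩ : OFix A Δ) =
      ∑ i, y i * ⟨b.repr h i, W0_le_OFix hΔI (hHb h hh i)⟩ := by
    apply Subtype.ext
    exact hval h hh
  rw [e1, e2, map_sum, map_sum]
  refine Finset.sum_congr rfl fun i _ => ?_
  rw [map_mul, map_mul, hy, hφ _ _ (W0_le_OFix hΔI (hHb h hh i)) (hHb h hh i), mul_comm]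

omit [Finite M] [DistribMulAction (Iner A) M] in
include hmem in
/-- such a lift is multiplicative modulo `c`. -/
theorem isMulMod_of_lift (z : M) {f : Qb[M]} (hfΔ : ∀ h ∈ H, pr f h ∈ OFix A Δ)
    (hfφ : ∀ (h : M → Qb) (hh : h ∈ H) (hΔ : pr f h ∈ OFix A Δ),
      φ ⟨h z, hmem h hh z⟩ = Ideal.Quotient.mk _ ⟨pr f h, hΔ⟩) : IsMulMod A H c f := by
  refine ⟨fun h hh => (hfΔ h hh).1, ?_, ?_⟩
  · have h1 := hfφ 1 H.one_mem (hfΔ 1 H.one_mem)
    have e : (⟨(1 : M → Qb) z, hmem 1 H.one_mem z⟩ : OFix A Γ) = 1 := Subtype.ext rfl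
    rw [e, map_one, ← map_one (Ideal.Quotient.mk (idealLe A Δ c)), eq_comm,
      Ideal.Quotient.eq, mem_idealLe] at h1
    exact h1
  · intro h hh h' hh'
    have h1 := hfφ (h * h') (H.mul_mem hh hh') (hfΔ _ (H.mul_mem hh hh'))
    have e : (⟨(h * h') z, hmem _ (H.mul_mem hh hh') z⟩ : OFix A Γ) =
        ⟨h z, hmem h hh z⟩ * ⟨h' z, hmem h' hh' z⟩ := Subtype.ext rfl
    rw [e, map_mul, hfφ h hh (hfΔ h hh), hfφ h' hh' (hfΔ h' hh'), ← map_mul, eq_comm,
      Ideal.Quotient.eq, mem_idealLe] at h1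
    exact h1

end Core

section Main

variable {M : Type*} [AddCommGroup M] [Finite M] [DistribMulAction (Iner A) M]
variable {R : Type*} [CommRing R] [Algebra R Qb]
variable {H : Subalgebra R (M → Qb)}

/-- the core of Fontaine's property, for `c ≠ 0`. -/
theorem fontaine_core (hp : p.Prime) (hA : A.LiesOverPrime p) (hpM : ∀ z : M, p • z = 0)
    (hRW : ∀ r : R, algebraMap R Qb r ∈ W0 A) (hH : IsHopfOrder (Iner A) H)
    {n : ℕ} (bH : Module.Basis (Fin n) R H)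
    (hli : LinearIndependent Qb (fun i => ((bH i : H) : M → Qb)))
    {Γ Δ : Subgroup GQ} (hΓI : Γ ≤ Iner A) (hΔI : Δ ≤ Iner A)
    (hΓ : ∀ σ : Iner A, (σ : GQ) ∈ Γ → ∀ z : M, σ • z = z)
    {c : Qb} (hc0 : c ≠ 0)
    (hc : A.valuation c ^ (p - 1) < A.valuation (p : Qb) ^ p)
    (φ : OFix A Γ →+* OFix A Δ ⧸ idealLe A Δ c)
    (hφ : ∀ (w : Qb) (hΓ : w ∈ OFix A Γ) (hΔ : w ∈ OFix A Δ), w ∈ W0 A →
      φ ⟨w, hΓ⟩ = Ideal.Quotient.mk _ ⟨w, hΔ⟩) :
    ∀ δ : Iner A, (δ : GQ) ∈ Δ → ∀ z : M, δ • z = z := by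
  classical
  haveI := hH.finite
  have hRA : ∀ r : R, algebraMap R Qb r ∈ A := fun r => (hRW r).1
  have hvalH : ∀ h ∈ H, ∀ z, h z ∈ A := fun h hh z =>
    Fermat.Agent.T33.ConnOrd2.apply_mem_of_finite hRA hh z
  have hcop : ∀ h ∈ H, HasCoprod H h := by
    obtain ⟨S, hS, hΔ⟩ := hH.coprod
    exact hasCoprod_of_adjoin hS hΔ
  obtain ⟨b, hb⟩ := exists_basis hH bH hli
  have hbH : ∀ i, b i ∈ H := fun i => by rw [hb]; exact (bH i).2
  have hHbW : ∀ h ∈ H, ∀ i, b.repr h i ∈ W0 A := fun h hh i => by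
    rw [repr_eq bH b hb hh]; exact hRW _
  have hHb : ∀ h ∈ H, ∀ i, b.repr h i ∈ A := fun h hh i => (hHbW h hh i).1
  have hmem : ∀ h ∈ H, ∀ z, h z ∈ OFix A Γ := fun h hh z =>
    apply_mem_OFix hΓI hΓ (hvalH h hh) (hH.equivariant h hh) z
  haveI : NeZero p := ⟨hp.ne_zero⟩
  haveI : NeZero (Monoid.exponent (Multiplicative M)) := ⟨Monoid.exponent_ne_zero_of_finite⟩
  obtain ⟨ζ, hζ⟩ := HasEnoughRootsOfUnity.exists_primitiveRoot Qb p
  have hpK : (p : Qb) ≠ 0 := Nat.cast_ne_zero.2 hp.ne_zero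
  have hpA : A.valuation (p : Qb) ≤ 1 := le_of_lt ((ValuationSubring.mem_nonunits_iff A).1 hA)
  have hn : (Nat.card M : Qb) ≠ 0 := Nat.cast_ne_zero.2 Nat.card_pos.ne'
  have hrk := rank_one hp hA
  have hvp : 0 < A.valuation (p : Qb) := zero_lt_iff.2 ((map_ne_zero _).2 hpK)
  -- the lifts
  have hex := fun z => exists_lift b hbH hHbW hΓI hΔI φ hφ hmem z
  choose f hfΔ hfφ using hex
  have hmm : ∀ z, IsMulMod A H c (f z) := fun z => isMulMod_of_lift φ hmem z (hfΔ z) (hfφ z)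
  have hlift := fun z => lifting hcop hvalH b hbH hHb hrk hp hζ hpM hpK hpA hn hc0 hc (hmm z)
  choose T hT using hlift
  have hcp := val_c_div_p_pow_lt (A := A) hp hpK hc
  -- `T z` is fixed by `Δ`
  have hfix : ∀ z, ∀ δ : Iner A, (δ : GQ) ∈ Δ → δ • T z = T z := by
    intro z δ hδ
    symm
    apply eq_of_close hcop hvalH b hbH hHb hrk hp hζ hpM hcp
    intro h hh
    have h1 : h (δ • T z) = δ • h (T z) := hH.equivariant h hh δ (T z)
    have h2 : δ • pr (f z) h = pr (f z) h := (hfΔ z h hh).2 δ hδ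
    have e : h (δ • T z) - h (T z) =
        -(δ • (pr (f z) h - h (T z))) + (pr (f z) h - h (T z)) := by
      rw [smul_sub, h2, h1]; ring
    rw [e]
    refine (A.valuation.map_add _ _).trans (max_le ?_ (hT z h hh))
    rw [Valuation.map_neg, Fermat.Agent.U44.LocInst1.valuation_smul_eq]
    exact hT z h hh
  -- `T` is injective
  have hinj : Function.Injective T := by
    intro z₁ z₂ hTz
    by_contra hne
    obtain ⟨i, hi⟩ := exists_sep hcop hvalH b hbH hHb hrk hp hζ hpM hne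
    set x : Qb := b i z₂ - b i z₁ with hx
    have hζ1 : ζ - 1 ≠ 0 := sub_ne_zero.2 (hζ.ne_one hp.one_lt)
    have hx0 : x ≠ 0 := by
      intro h0
      rw [h0, map_zero] at hi
      exact hζ1 ((map_eq_zero _).1 (le_antisymm hi zero_le))
    have hxp : A.valuation (p : Qb) ≤ A.valuation x ^ (p - 1) := by
      rw [← val_zeta_sub_one_pow A hp hζ]
      exact pow_le_pow_left₀ zero_le hi _
    have hxΓ : x ∈ OFix A Γ := (OFix A Γ).sub_mem (hmem _ (hbH i) z₂) (hmem _ (hbH i) z₁)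
    -- `y = p / x^(p-1)`
    have hyΓ : (p : Qb) / x ^ (p - 1) ∈ OFix A Γ := by
      refine ⟨?_, fun σ hσ => ?_⟩
      · refine div_mem_of_val_le A (pow_ne_zero _ hx0) ?_
        rw [map_pow]; exact hxp
      · rw [map_div₀, map_pow, hxΓ.2 σ hσ, map_natCast]
    have hXY : (⟨x, hxΓ⟩ : OFix A Γ) ^ (p - 1) * ⟨_, hyΓ⟩ = (p : OFix A Γ) := by
      apply Subtype.ext
      push_cast
      field_simp
    have hφXY := congrArg φ hXY
    rw [map_mul, map_pow, map_natCast] at hφXY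
    -- `φ X = mk t`
    set t : OFix A Δ := ⟨pr (f z₂) (b i), hfΔ z₂ _ (hbH i)⟩ - ⟨pr (f z₁) (b i), hfΔ z₁ _ (hbH i)⟩
      with ht
    have hφX : φ ⟨x, hxΓ⟩ = Ideal.Quotient.mk _ t := by
      have e : (⟨x, hxΓ⟩ : OFix A Γ) =
          ⟨b i z₂, hmem _ (hbH i) z₂⟩ - ⟨b i z₁, hmem _ (hbH i) z₁⟩ := Subtype.ext rfl
      rw [e, map_sub, hfφ z₂ _ (hbH i) (hfΔ z₂ _ (hbH i)), hfφ z₁ _ (hbH i) (hfΔ z₁ _ (hbH i)),
        ht, map_sub]
    have htv : A.valuation (t : Qb) ≤ A.valuation (c / (p : Qb)) := by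
      have e : (t : Qb) = (pr (f z₂) (b i) - b i (T z₂)) - (pr (f z₁) (b i) - b i (T z₁)) := by
        rw [ht, hTz]; push_cast; ring
      rw [e]
      exact (Valuation.map_sub _ _ _).trans (max_le (hT z₂ _ (hbH i)) (hT z₁ _ (hbH i)))
    obtain ⟨y', hy'⟩ := Ideal.Quotient.mk_surjective (φ ⟨_, hyΓ⟩)
    rw [hφX, ← hy', ← map_pow, ← map_mul, ← map_natCast (Ideal.Quotient.mk (idealLe A Δ c)),
      Ideal.Quotient.eq, mem_idealLe] at hφXY
    push_cast at hφXY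
    have h1 : A.valuation ((t : Qb) ^ (p - 1) * (y' : Qb)) < A.valuation (p : Qb) := by
      rw [map_mul, map_pow]
      calc A.valuation (t : Qb) ^ (p - 1) * A.valuation (y' : Qb)
          ≤ A.valuation (c / (p : Qb)) ^ (p - 1) * 1 :=
            mul_le_mul' (pow_le_pow_left₀ zero_le htv _) ((A.valuation_le_one_iff _).2 y'.2.1)
        _ = A.valuation (c / (p : Qb)) ^ (p - 1) := mul_one _
        _ < A.valuation (p : Qb) := hcp
    have h2 : A.valuation ((t : Qb) ^ (p - 1) * (y' : Qb) - (p : Qb)) < A.valuation (p : Qb) :=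
      lt_of_le_of_lt hφXY (val_c_lt_val_p hp hpK hpA hc)
    have e : (p : Qb) = (t : Qb) ^ (p - 1) * (y' : Qb) -
        ((t : Qb) ^ (p - 1) * (y' : Qb) - (p : Qb)) := by ring
    have h3 : A.valuation (p : Qb) < A.valuation (p : Qb) := by
      conv_lhs => rw [e]
      exact lt_of_le_of_lt (Valuation.map_sub _ _ _) (max_lt h1 h2)
    exact lt_irrefl _ h3
  have hsurj := Finite.injective_iff_surjective.1 hinj
  intro δ hδ z
  obtain ⟨z₀, rfl⟩ := hsurj z
  exact hfix z₀ δ hδ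

/-- **Fontaine's property `(P_m)`, `m > p/(p-1)`, for the field of points of a Hopf order killed
by `p`.** -/
theorem fontaineProp_of_isHopfOrder (hp : p.Prime) (hA : A.LiesOverPrime p)
    (hpM : ∀ z : M, p • z = 0) (hRW : ∀ r : R, algebraMap R Qb r ∈ W0 A)
    (hH : IsHopfOrder (Iner A) H) {n : ℕ} (bH : Module.Basis (Fin n) R H)
    (hli : LinearIndependent Qb (fun i => ((bH i : H) : M → Qb)))
    {Γ : Subgroup GQ} (hΓI : Γ ≤ Iner A)
    (hΓ : ∀ σ : Iner A, (σ : GQ) ∈ Γ ↔ ∀ z : M, σ • z = z) : FontaineProp A p Γ := by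
  rintro Δ hΔI c - hc ⟨φ, hφ⟩ δ hδ
  have hpK : (p : Qb) ≠ 0 := Nat.cast_ne_zero.2 hp.ne_zero
  have hvp : 0 < A.valuation (p : Qb) := zero_lt_iff.2 ((map_ne_zero _).2 hpK)
  have hvp1 : A.valuation (p : Qb) < 1 := (ValuationSubring.mem_nonunits_iff A).1 hA
  refine (hΓ ⟨δ, hΔI hδ⟩).2 ?_
  by_cases hc0 : c = 0
  · -- replace `c = 0` by `p ^ 3`
    have hle : idealLe A Δ c ≤ idealLe A Δ ((p : Qb) ^ 3) := by
      intro x hx
      rw [mem_idealLe] at *
      rw [hc0, map_zero] at hx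
      exact hx.trans zero_le
    have hφ₁ : ∀ (w : Qb) (hΓ : w ∈ OFix A Γ) (hΔ : w ∈ OFix A Δ), w ∈ W0 A →
        ((Ideal.Quotient.factor hle).comp φ) ⟨w, hΓ⟩ = Ideal.Quotient.mk _ ⟨w, hΔ⟩ := by
      intro w hΓ' hΔ' hw
      rw [RingHom.comp_apply, hφ w hΓ' hΔ' hw, Ideal.Quotient.factor_mk]
    have hc₁ : A.valuation ((p : Qb) ^ 3) ^ (p - 1) < A.valuation (p : Qb) ^ p := by
      rw [map_pow, ← pow_mul]
      apply pow_lt_pow_right_of_lt_one₀ hvp hvp1
      have := hp.two_le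
      omega
    exact fontaine_core hp hA hpM hRW hH bH hli hΓI hΔI (fun σ hσ => (hΓ σ).1 hσ)
      (pow_ne_zero 3 hpK) hc₁ _ hφ₁ ⟨δ, hΔI hδ⟩ hδ
  · exact fontaine_core hp hA hpM hRW hH bH hli hΓI hΔI (fun σ hσ => (hΓ σ).1 hσ)
      hc0 hc φ hφ ⟨δ, hΔI hδ⟩ hδ

end Main

end Fermat.Agent.W56.Lift6F
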