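/-
Programme W56 (target S56), chapter (K-F), helper8 (delegation A of helper3): **the tame extension
cut out by a character of the inertia group at `p` of order prime to `p`.**

`A` a place of `ℚ̄` over `p`, `I = Iner A`, `f : I →* H` with `H` finite, `p ∤ #f(I)`, `f` trivial
on the elements of `I` fixing a number field `L`, `ζ_p` fixed by `ker f`.  Then `K = ℚ̄^{ker f}` has
a uniformiser `π₀` with `v(ζ_p - 1) = v(π₀)^m`, `v(p) = v(π₀)^((p-1)m)`, and the tame character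
`σ ↦ σ π₀ / π₀ mod 𝔪` has kernel `ker f` and exact order `(p-1)m`.
-/
import Mathlib
import Fermat.Agent.W56.KummerLevel7
import Fermat.Agent.W56.TameCyclic8
import Fermat.Agent.W56.TameInertia8

set_option autoImplicit false
set_option linter.unusedSectionVars false
set_option linter.unusedVariables false

namespace Fermat.Agent.W56.TameData8

open Polynomial Fermat.Agent.FF.InertiaWire8 Fermat.Agent.U44.LocInst1
  Fermat.Agent.W56.RamInstA7 Fermat.Agent.W56.KummerLevel7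

noncomputable section

variable {A : ValuationSubring Qb} {p : ℕ} {H : Type*} [Group H]

/-- the kernel of `f : Iner A →* H`, as a subgroup of `G_ℚ`. -/
def kerG (f : ↥(Iner A) →* H) : Subgroup GQ := f.ker.map (Iner A).subtype

theorem mem_kerG {f : ↥(Iner A) →* H} {σ : GQ} :
    σ ∈ kerG f ↔ ∃ h : σ ∈ Iner A, f ⟨σ, h⟩ = 1 := by
  constructor
  · rintro ⟨τ, hτ, rfl⟩
    exact ⟨τ.2, MonoidHom.mem_ker.1 hτ⟩
  · rintro ⟨h, hf⟩
    exact ⟨⟨σ, h⟩, MonoidHom.mem_ker.2 hf, rfl⟩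

theorem coe_mem_kerG {f : ↥(Iner A) →* H} (σ : ↥(Iner A)) : (σ : GQ) ∈ kerG f ↔ f σ = 1 := by
  rw [mem_kerG]
  constructor
  · rintro ⟨_, hf⟩
    exact hf
  · intro hf
    exact ⟨σ.2, hf⟩

theorem kerG_le (f : ↥(Iner A) →* H) : kerG f ≤ Iner A := by
  intro σ hσ
  obtain ⟨h, -⟩ := mem_kerG.1 hσ
  exact h

theorem subgroupOf_kerG (f : ↥(Iner A) →* H) : (kerG f).subgroupOf (Iner A) = f.ker :=
  Subgroup.comap_map_eq_self_of_injective (Subgroup.subtype_injective _) _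

theorem adm_kerG [Finite H] (f : ↥(Iner A) →* H) : Adm A (kerG f) where
  le := kerG_le f
  norm := by
    intro σ hσ γ hγ
    obtain ⟨hγI, hfγ⟩ := mem_kerG.1 hγ
    refine mem_kerG.2 ⟨mul_mem (mul_mem hσ hγI) (inv_mem hσ), ?_⟩
    have : (⟨σ * γ * σ⁻¹, mul_mem (mul_mem hσ hγI) (inv_mem hσ)⟩ : ↥(Iner A)) =
        ⟨σ, hσ⟩ * ⟨γ, hγI⟩ * ⟨σ, hσ⟩⁻¹ := rfl
    rw [this, map_mul, map_mul, hfγ, mul_one, map_inv, mul_inv_cancel]
  fin := by
    rw [subgroupOf_kerG, Subgroup.index_ker]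
    exact Nat.card_pos.ne'

/-! ### `ker f` is closed -/

/-- **the orbit polynomial**: an automorphism fixing `ℚ̄^N` pointwise moves any `θ` like an element
of `N`. -/
theorem exists_mem_apply_eq (N : Subgroup GQ) (θ : Qb) {σ : GQ} (hσ : ∀ x ∈ LF N, σ x = x) :
    ∃ τ ∈ N, τ θ = σ θ := by
  classical
  have := Fermat.Agent.W56.TameInertia8.isAlgebraic_Qb
  have hθ : IsIntegral ℚ θ := Algebra.IsIntegral.isIntegral θ
  set R : Qb[X] := (minpoly ℚ θ).map (algebraMap ℚ Qb) with hR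
  have hR0 : R ≠ 0 := (Polynomial.map_ne_zero_iff (algebraMap ℚ Qb).injective).2 (minpoly.ne_zero hθ)
  set S : Finset Qb := R.roots.toFinset.filter (fun y => ∃ τ ∈ N, τ θ = y) with hS
  have hmemS : ∀ y, y ∈ S ↔ ∃ τ ∈ N, τ θ = y := by
    intro y
    rw [hS, Finset.mem_filter, Multiset.mem_toFinset, mem_roots hR0]
    constructor
    · exact fun h => h.2
    · rintro ⟨τ, hτ, rfl⟩
      refine ⟨?_, τ, hτ, rfl⟩
      rw [IsRoot.def, hR, eval_map_algebraMap]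
      have h1 := Polynomial.aeval_algHom_apply (τ : Qb →ₐ[ℚ] Qb) θ (minpoly ℚ θ)
      rw [minpoly.aeval, map_zero] at h1
      exact h1
  set P : Qb[X] := ∏ y ∈ S, (X - C y) with hP
  -- `N` permutes `S`
  have himage : ∀ τ ∈ N, S.image (fun y => τ y) = S := by
    intro τ hτ
    apply Finset.eq_of_subset_of_card_le
    · intro z hz
      obtain ⟨y, hy, rfl⟩ := Finset.mem_image.1 hz
      obtain ⟨τ', hτ', rfl⟩ := (hmemS y).1 hy
      exact (hmemS _).2 ⟨τ * τ', mul_mem hτ hτ', rfl⟩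
    · rw [Finset.card_image_of_injective _ τ.injective]
  have hmapτ : ∀ τ : GQ, P.map (τ : Qb →+* Qb) = ∏ y ∈ S.image (fun y => τ y), (X - C y) := by
    intro τ
    rw [hP, Polynomial.map_prod, Finset.prod_image (fun a _ b _ h => τ.injective h)]
    refine Finset.prod_congr rfl fun y _ => ?_
    rw [Polynomial.map_sub, Polynomial.map_X, Polynomial.map_C]
    rfl
  have hPN : ∀ τ ∈ N, P.map (τ : Qb →+* Qb) = P := by
    intro τ hτ
    rw [hmapτ, himage τ hτ]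
  have hcoeff : ∀ i, P.coeff i ∈ LF N := by
    intro i
    rw [mem_LF]
    intro τ hτ
    have := congrArg (fun Q : Qb[X] => Q.coeff i) (hPN τ hτ)
    simpa [Polynomial.coeff_map] using this
  have hPσ : P.map (σ : Qb →+* Qb) = P := by
    ext i
    rw [Polynomial.coeff_map]
    exact hσ _ (hcoeff i)
  have hθS : θ ∈ S := (hmemS θ).2 ⟨1, one_mem N, rfl⟩
  have hPθ : P.eval θ = 0 := by
    rw [hP, eval_prod]
    exact Finset.prod_eq_zero hθS (by simp)
  have h1 : (P.map (σ : Qb →+* Qb)).eval (σ θ) = 0 := by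
    have := Polynomial.eval_map_apply (p := P) (σ : Qb →+* Qb) θ
    rw [hPθ, map_zero] at this
    exact this
  rw [hPσ, hP, eval_prod, Finset.prod_eq_zero_iff] at h1
  obtain ⟨y, hy, hy0⟩ := h1
  rw [eval_sub, eval_X, eval_C, sub_eq_zero] at hy0
  obtain ⟨τ, hτ, hτy⟩ := (hmemS y).1 hy
  exact ⟨τ, hτ, by rw [hτy, hy0]⟩

/-- an automorphism fixing a primitive element of `L` fixes `L`. -/
theorem fixes_of_fixes_gen (L : IntermediateField ℚ Qb) [FiniteDimensional ℚ L] :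
    ∃ θ : Qb, ∀ σ : GQ, σ θ = θ → ∀ x ∈ L, σ x = x := by
  set pb := Field.powerBasisOfFiniteOfSeparable ℚ ↥L with hpb
  refine ⟨(pb.gen : Qb), fun σ hσ x hx => ?_⟩
  have h1 : ((σ : Qb →ₐ[ℚ] Qb).comp L.val) = L.val := by
    apply PowerBasis.algHom_ext pb
    exact hσ
  have := congrArg (fun g : ↥L →ₐ[ℚ] Qb => g ⟨x, hx⟩) h1
  exact this

/-- **`ker f` is closed**: an element of the inertia group fixing `ℚ̄^{ker f}` is in `ker f`. -/
theorem eq_one_of_fixes (f : ↥(Iner A) →* H) (L : IntermediateField ℚ Qb) [FiniteDimensional ℚ L]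
    (hfL : ∀ σ : ↥(Iner A), (∀ x ∈ L, (σ : GQ) x = x) → f σ = 1) {σ : ↥(Iner A)}
    (hσ : ∀ x ∈ LF (kerG f), (σ : GQ) x = x) : f σ = 1 := by
  obtain ⟨θ, hθ⟩ := fixes_of_fixes_gen L
  obtain ⟨τ, hτ, hτθ⟩ := exists_mem_apply_eq (kerG f) θ hσ
  obtain ⟨hτI, hfτ⟩ := mem_kerG.1 hτ
  have h1 : f (⟨τ, hτI⟩⁻¹ * σ) = 1 := by
    apply hfL
    apply hθ
    show (τ⁻¹ * (σ : GQ)) θ = θ
    rw [AlgEquiv.mul_apply, ← hτθ, ← AlgEquiv.mul_apply, inv_mul_cancel, AlgEquiv.one_apply]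
  rw [map_mul, map_inv, hfτ, inv_one, one_mul] at h1
  exact h1

/-! ### the valuation ring of `ℚ̄^Γ` -/

section OL

variable (A) in
/-- `A ∩ ℚ̄^Γ`. -/
def OL (Γ : Subgroup GQ) : ValuationSubring ↥(LF Γ) := A.comap (LF Γ).subtype

variable {Γ : Subgroup GQ}

theorem mem_OL_iff (x : ↥(LF Γ)) : x ∈ OL A Γ ↔ (x : Qb) ∈ A := ValuationSubring.mem_comap

theorem mem_nonunits_OL_iff (x : ↥(LF Γ)) : x ∈ (OL A Γ).nonunits ↔ (x : Qb) ∈ A.nonunits := by
  rw [ValuationSubring.mem_nonunits_iff_or, ValuationSubring.mem_nonunits_iff_or, mem_OL_iff]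
  simp

theorem val_OL_lt_one_iff (x : ↥(LF Γ)) : (OL A Γ).valuation x < 1 ↔ A.valuation (x : Qb) < 1 := by
  rw [← ValuationSubring.mem_nonunits_iff, ← ValuationSubring.mem_nonunits_iff,
    mem_nonunits_OL_iff]

theorem val_OL_le_one_iff (x : ↥(LF Γ)) : (OL A Γ).valuation x ≤ 1 ↔ A.valuation (x : Qb) ≤ 1 := by
  rw [ValuationSubring.valuation_le_one_iff, ValuationSubring.valuation_le_one_iff, mem_OL_iff]

theorem val_OL_eq_one_iff (x : ↥(LF Γ)) : (OL A Γ).valuation x = 1 ↔ A.valuation (x : Qb) = 1 := by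
  constructor
  · intro h
    refine le_antisymm ((val_OL_le_one_iff x).1 h.le) (not_lt.1 fun hlt => ?_)
    have := (val_OL_lt_one_iff x).2 hlt
    rw [h] at this
    exact lt_irrefl _ this
  · intro h
    refine le_antisymm ((val_OL_le_one_iff x).2 h.le) (not_lt.1 fun hlt => ?_)
    have := (val_OL_lt_one_iff x).1 hlt
    rw [h] at this
    exact lt_irrefl _ this

end OL

/-! ### the setting of `TameCyclic8` -/

theorem setting (hp : p.Prime) (hA : A.LiesOverPrime p) {Γ : Subgroup GQ} (h : Adm A Γ)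
    {π₀ : Qb} (hπ₀0 : π₀ ≠ 0) (hπ₀Γ : ∀ σ ∈ Γ, σ π₀ = π₀)
    (hval : ∀ x : Qb, x ≠ 0 → (∀ σ ∈ Γ, σ x = x) → ∃ n : ℤ, A.valuation x = A.valuation π₀ ^ n) :
    TameCyclic8.Setting (OL A Γ) (rho h) (⟨π₀, mem_LF.2 hπ₀Γ⟩ : ↥(LF Γ)) p where
  hval := by
    intro σ x
    by_cases hx : x = 0
    · rw [hx, map_zero]
    have hx' : (x : Qb) ≠ 0 := fun h0 => hx (Subtype.ext h0)
    have hσx : rho h σ x ≠ 0 := (map_ne_zero_iff _ (rho h σ).injective).2 hx
    have h1 : A.valuation (((rho h σ x / x : ↥(LF Γ))) : Qb) = 1 := by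
      have : (((rho h σ x / x : ↥(LF Γ))) : Qb) = (σ : GQ) (x : Qb) / (x : Qb) := rfl
      rw [this, map_div₀, Fermat.Agent.S05.Inertia.valuation_apply_rat σ.2, div_self]
      exact (Valuation.ne_zero_iff _).2 hx'
    have h2 := (val_OL_eq_one_iff _).2 h1
    rw [map_div₀, div_eq_one_iff_eq ((Valuation.ne_zero_iff _).2 hx)] at h2
    exact h2
  hres := by
    intro σ x hx
    rw [mem_nonunits_OL_iff]
    have : (((rho h σ x - x : ↥(LF Γ))) : Qb) = (σ : GQ) (x : Qb) - (x : Qb) := rfl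
    rw [this]
    exact Fermat.Agent.S05.Inertia.apply_sub_mem_nonunits σ.2 ((mem_OL_iff x).1 hx)
  hπ0 := fun h0 => hπ₀0 (congrArg Subtype.val h0)
  hπ := by
    intro x hx
    have hx' : (x : Qb) ≠ 0 := fun h0 => hx (Subtype.ext h0)
    obtain ⟨n, hn⟩ := hval (x : Qb) hx' (mem_LF.1 x.2)
    refine ⟨n, ?_⟩
    set π : ↥(LF Γ) := ⟨π₀, mem_LF.2 hπ₀Γ⟩ with hπ
    have hπ0 : π ≠ 0 := fun h0 => hπ₀0 (congrArg Subtype.val h0)
    have h1 : A.valuation (((x / π ^ n : ↥(LF Γ))) : Qb) = 1 := by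
      have : (((x / π ^ n : ↥(LF Γ))) : Qb) = (x : Qb) / π₀ ^ n := by
        push_cast
        rfl
      rw [this, map_div₀, map_zpow₀, hn, div_self]
      exact zpow_ne_zero _ ((Valuation.ne_zero_iff _).2 hπ₀0)
    have h2 := (val_OL_eq_one_iff _).2 h1
    rw [map_div₀, map_zpow₀,
      div_eq_one_iff_eq (zpow_ne_zero _ ((Valuation.ne_zero_iff _).2 hπ0))] at h2
    exact h2
  hq := hp
  hqO := by
    rw [mem_nonunits_OL_iff]
    have : (p : Qb) ∈ A.nonunits := hA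
    simpa using this

/-! ### the main theorem -/

theorem imG_kerG_eq_bot [Finite H] (f : ↥(Iner A) →* H) (h : Adm A (kerG f)) :
    imG h (kerG f) = ⊥ := by
  rw [eq_bot_iff]
  rintro _ ⟨σ, hσ, rfl⟩
  rw [Subgroup.mem_bot]
  apply Subtype.ext
  exact MonoidHom.mem_ker.1 (subgroupOf_le_ker h hσ)

theorem chi_pow_eq_one_iff {G K : Type*} [Group G] [Field K] {O : ValuationSubring K}
    {ρ : G →* RingAut K} {π : K} {q : ℕ} (S : TameCyclic8.Setting O ρ π q) (σ : G) (d : ℕ) :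
    TameCyclic8.chi S σ ^ d = 1 ↔ O.valuation ((ρ σ π / π) ^ d - 1) < 1 := by
  have h1 : TameCyclic8.chi S σ ^ d = O.unitGroupToResidueFieldUnits
      (⟨TameCyclic8.rU ρ σ (TameCyclic8.piU S), TameCyclic8.rU_mem_unitGroup S σ _⟩ ^ d) := by
    rw [map_pow]
    rfl
  rw [h1, ← MonoidHom.mem_ker, ValuationSubring.ker_unitGroupToResidueFieldUnits,
    Subgroup.mem_comap, ValuationSubring.mem_principalUnitGroup_iff]
  simp [TameCyclic8.piU]

/-- **the tame data attached to a character of inertia of order prime to `p`.** -/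
theorem exists_tame_data {p : ℕ} (hp : p.Prime) (hp2 : p ≠ 2) {A : ValuationSubring Qb}
    (hA : A.LiesOverPrime p) {H : Type*} [Group H] [Finite H]
    (f : ↥(A.inertiaSubgroupIn ℚ) →* H) (hcop : ¬ p ∣ Nat.card ↥f.range)
    (L : IntermediateField ℚ Qb) [FiniteDimensional ℚ L]
    (hfL : ∀ σ : ↥(A.inertiaSubgroupIn ℚ), (∀ x ∈ L, (σ : GQ) x = x) → f σ = 1)
    {ζ : Qb} (hζ : IsPrimitiveRoot ζ p)
    (hζf : ∀ σ : ↥(A.inertiaSubgroupIn ℚ), f σ = 1 → (σ : GQ) ζ = ζ) :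
    ∃ (π₀ : Qb) (m : ℕ), π₀ ≠ 0 ∧ 0 < m ∧ A.valuation π₀ < 1 ∧
      (∀ σ : ↥(A.inertiaSubgroupIn ℚ), f σ = 1 → (σ : GQ) π₀ = π₀) ∧
      A.valuation (ζ - 1) = A.valuation π₀ ^ m ∧
      A.valuation (p : Qb) = A.valuation π₀ ^ ((p - 1) * m) ∧
      (∀ x : Qb, x ≠ 0 → (∀ σ : ↥(A.inertiaSubgroupIn ℚ), f σ = 1 → (σ : GQ) x = x) →
        ∃ n : ℤ, A.valuation x = A.valuation π₀ ^ n) ∧
      (∀ σ : ↥(A.inertiaSubgroupIn ℚ), A.valuation ((σ : GQ) π₀ / π₀ - 1) < 1 → f σ = 1) ∧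
      (∀ d : ℕ, (∀ σ : ↥(A.inertiaSubgroupIn ℚ),
          A.valuation (((σ : GQ) π₀ / π₀) ^ d - 1) < 1) → (p - 1) * m ∣ d) := by
  classical
  have h : Adm A (kerG f) := adm_kerG f
  obtain ⟨π₀, hπ₀0, hπ₀N, -, hcard, hvalgrp⟩ := exists_unif_fixed hp hA h (kerG_le f)
  rw [imG_kerG_eq_bot f h, Subgroup.card_bot, pow_one] at hcard
  have hv0 : A.valuation π₀ ≠ 0 := (Valuation.ne_zero_iff _).2 hπ₀0
  have hvpos : 0 < A.valuation π₀ := zero_lt_iff.2 hv0
  have hvp : A.valuation (p : Qb) < 1 := val_natCast_lt_one hA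
  have hv1 : A.valuation π₀ < 1 := by
    by_contra hcon
    have h1 : 1 ≤ A.valuation π₀ := not_lt.1 hcon
    have h2 : 1 ≤ A.valuation π₀ ^ Nat.card ↥(GG h) := one_le_pow₀ h1
    rw [hcard] at h2
    exact absurd hvp (not_lt.2 h2)
  -- fixed by `ker f` in both languages
  have hfix : ∀ x : Qb, (∀ σ : ↥(Iner A), f σ = 1 → (σ : GQ) x = x) → ∀ σ ∈ kerG f, σ x = x := by
    intro x hx σ hσ
    obtain ⟨hσI, hfσ⟩ := mem_kerG.1 hσ
    exact hx ⟨σ, hσI⟩ hfσ
  have hfix' : ∀ x : Qb, (∀ σ ∈ kerG f, σ x = x) → ∀ σ : ↥(Iner A), f σ = 1 → (σ : GQ) x = x :=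
    fun x hx σ hσ => hx _ ((coe_mem_kerG σ).2 hσ)
  -- `ζ`
  have hζN : ∀ σ ∈ kerG f, σ (ζ - 1) = ζ - 1 := by
    intro σ hσ
    rw [map_sub, map_one, hfix ζ hζf σ hσ]
  obtain ⟨n, hn⟩ := hvalgrp (ζ - 1) (zeta_sub_one_ne_zero hp hζ) hζN hζN
  have hζlt : A.valuation (ζ - 1) < 1 := val_zeta_sub_one_lt_one hp hA hζ
  have hnpos : 0 < n := by
    by_contra hcon
    have h1 : 1 ≤ A.valuation π₀ ^ n := one_le_zpow_of_nonpos₀ hvpos hv1.le (not_lt.1 hcon)
    rw [← hn] at h1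
    exact absurd hζlt (not_lt.2 h1)
  obtain ⟨m, rfl⟩ := Int.eq_ofNat_of_zero_le hnpos.le
  rw [zpow_natCast] at hn
  have hmpos : 0 < m := by exact_mod_cast hnpos
  have hp' : A.valuation (p : Qb) = A.valuation π₀ ^ ((p - 1) * m) := by
    rw [← val_zeta_sub_one_pow hp hζ, hn, ← pow_mul, mul_comm]
  have hGcard : Nat.card ↥(GG h) = (p - 1) * m := by
    have h1 : A.valuation π₀ ^ Nat.card ↥(GG h) = A.valuation π₀ ^ ((p - 1) * m) := by
      rw [hcard, hp']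
    exact (pow_right_strictAnti₀ hvpos hv1).injective h1
  -- the setting
  have S := setting hp hA h hπ₀0 hπ₀N (fun x hx0 hx => hvalgrp x hx0 hx hx)
  set π : ↥(LF (kerG f)) := ⟨π₀, mem_LF.2 hπ₀N⟩ with hπ
  have hker : ∀ σ : ↥(Iner A), rho h σ = 1 → f σ = 1 := by
    intro σ hσ
    apply eq_one_of_fixes f L hfL
    intro x hx
    have := congrArg (fun e : RingAut ↥(LF (kerG f)) => ((e ⟨x, hx⟩ : ↥(LF (kerG f))) : Qb)) hσ
    exact this
  have hH : ∀ (σ : ↥(Iner A)) (a : ℕ), f σ ^ p ^ a = 1 → f σ = 1 := by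
    intro σ a hσa
    have h1 : orderOf (f σ) ∣ p ^ a := orderOf_dvd_of_pow_eq_one hσa
    have h2 : orderOf (f σ) ∣ Nat.card ↥f.range := by
      have h3 : orderOf (⟨f σ, σ, rfl⟩ : ↥f.range) ∣ Nat.card ↥f.range := orderOf_dvd_natCard _
      rwa [← Subgroup.orderOf_coe] at h3
    have h4 : Nat.Coprime (p ^ a) (Nat.card ↥f.range) :=
      Nat.Coprime.pow_left a ((Nat.Prime.coprime_iff_not_dvd hp).2 hcop)
    have h5 : orderOf (f σ) = 1 := Nat.eq_one_of_dvd_coprimes h4 h1 h2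
    exact orderOf_eq_one_iff.1 h5
  have hchi : ∀ (σ : ↥(Iner A)) (d : ℕ), TameCyclic8.chi S σ ^ d = 1 ↔
      A.valuation (((σ : GQ) π₀ / π₀) ^ d - 1) < 1 := by
    intro σ d
    rw [chi_pow_eq_one_iff S σ d, val_OL_lt_one_iff]
    rfl
  have hT1 : ∀ σ : ↥(Iner A), A.valuation ((σ : GQ) π₀ / π₀ - 1) < 1 → f σ = 1 := by
    intro σ hσ
    apply TameCyclic8.map_eq_one_of_chi_eq_one S f hker hH
    have := (hchi σ 1).2 (by rwa [pow_one])
    rwa [pow_one] at this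
  refine ⟨π₀, m, hπ₀0, hmpos, hv1, hfix' π₀ hπ₀N, hn, hp',
    fun x hx0 hx => hvalgrp x hx0 (hfix x hx) (hfix x hx), hT1, ?_⟩
  -- exact order
  intro d hd
  have hkereq : (TameCyclic8.chi S).ker = (rho h).ker := by
    ext σ
    rw [MonoidHom.mem_ker, MonoidHom.mem_ker]
    constructor
    · intro hσ
      have h1 : f σ = 1 := hT1 σ (by
        have := (hchi σ 1).1 (by rw [pow_one, hσ])
        rwa [pow_one] at this)
      have h2 : σ ∈ (kerG f).subgroupOf (Iner A) := by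
        rw [subgroupOf_kerG]
        exact MonoidHom.mem_ker.2 h1
      exact MonoidHom.mem_ker.1 (subgroupOf_le_ker h h2)
    · exact TameCyclic8.rho_eq_one_imp_chi S σ
  have hcardchi : Nat.card ↥(TameCyclic8.chi S).range = (p - 1) * m := by
    rw [← Subgroup.index_ker, hkereq, Subgroup.index_ker, hGcard]
  have hfin : Finite ↥(TameCyclic8.chi S).range := by
    apply Nat.finite_of_card_ne_zero
    rw [hcardchi]
    exact (Nat.mul_pos (Nat.sub_pos_of_lt hp.one_lt) hmpos).ne'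
  have hcyc : IsCyclic ↥(TameCyclic8.chi S).range := inferInstance
  rw [← hcardchi, ← IsCyclic.exponent_eq_card]
  apply Monoid.exponent_dvd_of_forall_pow_eq_one
  rintro ⟨_, σ, rfl⟩
  apply Subtype.ext
  exact (hchi σ d).2 (hd σ)

end

end Fermat.Agent.W56.TameData8
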