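/-
Programme W56 (target S56), chapter (B) DICTIONARY, part 4 (helper9): the strict-ordinary conjunct.
Matrix form of strict ordinarity (`IsSOmat`), the cocycle of a strict-ordinary lift is strictly
upper triangular on the decomposition group (so its class lies in `LpSO`), the inertia condition
at the primes of `Smin ∖ {p}` (through the contract `C1Statement` of chapter (C)), and the
injection of the tangent homomorphisms of `DQ.R` into the Selmer group.
-/
import Mathlib
import Fermat.Agent.W56.Dict9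
import Fermat.Agent.W56.UnipSel8

set_option autoImplicit false
set_option linter.unusedSectionVars false
set_option linter.unnecessarySeqFocus false
set_option linter.style.haveILetI false

open CategoryTheory groupCohomology IsLocalRing ExtCitation

namespace Fermat.Agent.W56.DictSO9

open Fermat.Agent.S53 Fermat.Agent.S53.MatrixModel Fermat.Agent.W56.Defs9 Fermat.Agent.W56.Lift9
  Fermat.Agent.W56.Dict9 Fermat.Agent.PT.PRO Fermat.Agent.PT.BR

local notation "Qbar" => AlgebraicClosure ℚ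
local notation "Γ" => (AlgebraicClosure ℚ ≃ₐ[ℚ] AlgebraicClosure ℚ)

noncomputable section

/-! ### Strict ordinarity in matrix form -/

section SO

/-- Matrix form of the strict-ordinary structure at the place `P` (the line is spanned by the
first basis vector). -/
def IsSOmat {A : Type} [CommRing A] (P : ValuationSubring Qbar) (p : ℕ) (r : Γ →* M2 A) : Prop :=
  (∀ σ ∈ P.decompositionSubgroup ℚ, r σ 1 0 = 0 ∧
    ∀ n a : ℕ, (∀ μ : Qbar, μ ^ p ^ n = 1 → σ μ = μ ^ a) →
      r σ 0 0 - (a : A) * r σ 1 1 ∈ Ideal.span {((p ^ n : ℕ) : A)}) ∧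
  ∀ σ ∈ P.inertiaSubgroupIn ℚ, r σ 1 1 = 1

theorem exists_basis_isSOmat {A : Type} [CommRing A] [IsLocalRing A] (ρ : GaloisRepAdic A)
    {p : ℕ} (h : ρ.IsStrictOrdinaryAt p) (P : ValuationSubring Qbar) (hP : P.LiesOverPrime p) :
    ∃ b' : Module.Basis (Fin 2) A ρ.V, IsSOmat P p (matrixOf ρ b') := by
  obtain ⟨L, ⟨b', hL⟩, hD, hI, hchar⟩ := h.2 P hP
  have hb0 : b' 0 ∈ L := by rw [hL]; exact Submodule.mem_span_singleton_self _
  refine ⟨b', fun σ hσ => ⟨?_, fun n a ha => ?_⟩, fun σ hσ => ?_⟩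
  · exact matrixOf_one_zero ρ b' (hL ▸ hD σ hσ _ hb0)
  · obtain ⟨x, z, h1, h2, h3⟩ := hchar σ hσ
    rw [matrixOf_zero_zero ρ b' (h1 _ hb0), matrixOf_one_one ρ b' (hL ▸ h2 (b' 1))]
    exact h3 n a ha
  · refine matrixOf_one_one ρ b' ?_
    rw [one_smul, ← hL]
    exact hI σ hσ (b' 1)

theorem IsSOmat.map {A B : Type} [CommRing A] [CommRing B] (f : A →+* B)
    {P : ValuationSubring Qbar} {p : ℕ} {r : Γ →* M2 A} (h : IsSOmat P p r) :
    IsSOmat P p (mapMat f r) := by
  refine ⟨fun σ hσ => ⟨?_, fun n a ha => ?_⟩, fun σ hσ => ?_⟩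
  · rw [mapMat_apply, (h.1 σ hσ).1, map_zero]
  · have h0 := (h.1 σ hσ).2 n a ha
    rw [Ideal.mem_span_singleton] at h0 ⊢
    obtain ⟨c, hc⟩ := h0
    refine ⟨f c, ?_⟩
    rw [mapMat_apply, mapMat_apply, ← map_natCast f a, ← map_mul, ← map_sub, hc, map_mul,
      map_natCast]
  · rw [mapMat_apply, h.2 σ hσ, map_one]

variable {k : Type} [Field k]

/-- The `ε`-part of a strict-ordinary matrix with cyclotomic determinant over `k[ε]` is strictly
upper triangular. -/
theorem sndM_of_isSOmat {P : ValuationSubring Qbar} {p : ℕ} {r : Γ →* M2 (DualNumber k)}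
    (h : IsSOmat P p r) (h2 : (2 : k) ≠ 0) (hp0 : ((p : ℕ) : DualNumber k) = 0)
    {σ : Γ} (hσ : σ ∈ P.decompositionSubgroup ℚ) {a : ℕ}
    (ha : ∀ μ : Qbar, μ ^ p ^ 1 = 1 → σ μ = μ ^ a) (ha0 : (a : k) ≠ 0)
    (hdet : (r σ).det = ((a : ℕ) : DualNumber k)) :
    sndM (r σ) 0 0 = 0 ∧ sndM (r σ) 1 0 = 0 ∧ sndM (r σ) 1 1 = 0 := by
  obtain ⟨h10, hc⟩ := h.1 σ hσ
  have h1 := hc 1 a ha
  rw [pow_one, hp0, Ideal.mem_span_singleton, zero_dvd_iff, sub_eq_zero] at h1
  rw [Matrix.det_fin_two, h10, mul_zero, sub_zero, h1] at hdet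
  -- `a * z * z = a`
  have hcast : ((a : ℕ) : DualNumber k) = TrivSqZeroExt.inl (a : k) :=
    (map_natCast (TrivSqZeroExt.inlHom k k) a).symm
  rw [hcast] at hdet h1
  set z := r σ 1 1 with hz
  have e1 := congrArg TrivSqZeroExt.fst hdet
  have e2 := congrArg TrivSqZeroExt.snd hdet
  simp only [TrivSqZeroExt.fst_mul, TrivSqZeroExt.fst_inl, TrivSqZeroExt.snd_mul,
    TrivSqZeroExt.snd_inl, smul_eq_mul, MulOpposite.smul_eq_mul_unop, MulOpposite.unop_op,
    zero_mul, add_zero] at e1 e2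
  have hz0 : z.fst ≠ 0 := by
    intro h0
    simp only [h0, mul_zero] at e1
    exact ha0 e1.symm
  have hz1 : z.snd = 0 := by
    have e3 : (a : k) * (2 * z.fst * z.snd) = 0 := by linear_combination e2
    rcases mul_eq_zero.1 e3 with h3 | h3
    · exact absurd h3 ha0
    · rcases mul_eq_zero.1 h3 with h4 | h4
      · rcases mul_eq_zero.1 h4 with h5 | h5
        · exact absurd h5 h2
        · exact absurd h5 hz0
      · exact h4
  refine ⟨?_, ?_, ?_⟩
  · rw [sndM_apply, h1]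
    simp [hz1]
  · rw [sndM_apply, h10]; rfl
  · rw [sndM_apply]; exact hz1

/-- The cocycle of a strict-ordinary matrix representation over `k[ε]` is strictly upper
triangular on the decomposition group. -/
theorem cocM_of_isSOmat {P : ValuationSubring Qbar} {p : ℕ} {r : Γ →* M2 (DualNumber k)}
    (h : IsSOmat P p r) (h2 : (2 : k) ≠ 0) (hp0 : ((p : ℕ) : DualNumber k) = 0)
    {σ : Γ} (hσ : σ ∈ P.decompositionSubgroup ℚ) {a : ℕ}
    (ha : ∀ μ : Qbar, μ ^ p ^ 1 = 1 → σ μ = μ ^ a) (ha0 : (a : k) ≠ 0)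
    (hdet : (r σ).det = ((a : ℕ) : DualNumber k)) :
    cocM r σ 0 0 = 0 ∧ cocM r σ 1 0 = 0 ∧ cocM r σ 1 1 = 0 := by
  obtain ⟨s00, s10, s11⟩ := sndM_of_isSOmat h h2 hp0 hσ ha ha0 hdet
  have hinv : σ⁻¹ ∈ P.decompositionSubgroup ℚ := Subgroup.inv_mem _ hσ
  have r10 : redM r σ⁻¹ 1 0 = 0 := by
    rw [redM_apply, fstM_apply, (h.1 σ⁻¹ hinv).1]; rfl
  rw [sndM_apply] at s00 s10 s11
  rw [redM_apply, fstM_apply] at r10
  refine ⟨?_, ?_, ?_⟩ <;>
  · rw [cocM, Matrix.mul_apply, Fin.sum_univ_two]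
    simp [s00, s10, s11, r10]

/-- A strictly upper triangular matrix gives an element of `W0` for the line spanned by the first
basis vector. -/
theorem toLin_range_le_and_le_ker {V : Type} [AddCommGroup V] [Module k V]
    (b : Module.Basis (Fin 2) k V) (C : M2 k) (h00 : C 0 0 = 0) (h10 : C 1 0 = 0)
    (h11 : C 1 1 = 0) :
    LinearMap.range (Matrix.toLin b b C) ≤ Submodule.span k {b 0} ∧
      Submodule.span k {b 0} ≤ LinearMap.ker (Matrix.toLin b b C) := by
  have e0 : Matrix.toLin b b C (b 0) = 0 := by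
    rw [Matrix.toLin_self, Fin.sum_univ_two, h00, h10, zero_smul, zero_smul, add_zero]
  have e1 : Matrix.toLin b b C (b 1) = C 0 1 • b 0 := by
    rw [Matrix.toLin_self, Fin.sum_univ_two, h11, zero_smul, add_zero]
  constructor
  · rintro _ ⟨v, rfl⟩
    rw [← b.sum_repr v, Fin.sum_univ_two, map_add, map_smul, map_smul, e0, e1, smul_zero,
      zero_add]
    exact Submodule.smul_mem _ _ (Submodule.smul_mem _ _ (Submodule.mem_span_singleton_self _))
  · rw [Submodule.span_singleton_le_iff_mem, LinearMap.mem_ker]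
    exact e0

end SO

/-! ### Unipotent matrices over the dual numbers -/

section Unip

open Polynomial

theorem trace_det_of_charpoly {R : Type} [CommRing R] [Nontrivial R] (M : M2 R)
    (h : M.charpoly = (X - 1) ^ 2) : M.trace = 2 ∧ M.det = 1 := by
  rw [Matrix.charpoly_fin_two] at h
  have h1 := congrArg (fun f : R[X] => f.coeff 1) h
  have h0 := congrArg (fun f : R[X] => f.coeff 0) h
  have e : ((X : R[X]) - 1) ^ 2 = X ^ 2 - C 2 * X + C 1 := by
    rw [map_ofNat, map_one]; ring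
  rw [e] at h1 h0
  simp only [coeff_add, coeff_sub, coeff_X_pow, coeff_C_mul, coeff_X_one, coeff_C, coeff_X_zero]
    at h1 h0
  norm_num at h1 h0
  exact ⟨h1, h0⟩

variable {k : Type} [Field k]

theorem fst_trace (M : M2 (DualNumber k)) : M.trace.fst = (fstM M).trace := by
  rw [Matrix.trace_fin_two, Matrix.trace_fin_two]
  simp

theorem snd_trace (M : M2 (DualNumber k)) : M.trace.snd = (sndM M).trace := by
  rw [Matrix.trace_fin_two, Matrix.trace_fin_two]
  simp

theorem fst_det (M : M2 (DualNumber k)) : M.det.fst = (fstM M).det := by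
  rw [Matrix.det_fin_two, Matrix.det_fin_two]
  simp

/-- A matrix representation over `k[ε]` which is unipotent at `σ`: the three equalities consumed
by `UnipSel8.resI_eq_zero_of_unipotent`. -/
theorem unip_of_charpoly {r : Γ →* M2 (DualNumber k)} {σ : Γ}
    (h : (r σ).charpoly = (X - 1) ^ 2) :
    (redM r σ).trace = 2 ∧ (redM r σ).det = 1 ∧ (cocM r σ * redM r σ).trace = 0 := by
  obtain ⟨ht, hd⟩ := trace_det_of_charpoly (r σ) h
  refine ⟨?_, ?_, ?_⟩
  · rw [redM_apply, ← fst_trace, ht]; rfl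
  · rw [redM_apply, ← fst_det, hd]; rfl
  · rw [cocM_mul_redM, ← snd_trace, ht]; rfl

end Unip

/-! ### The strict-ordinary conjunct: injection of the tangent space into the Selmer group -/

section Final

attribute [local instance] dualNumberAlgebra

variable {𝒪 : Type} [CommRing 𝒪] [IsDomain 𝒪] [IsDiscreteValuationRing 𝒪]
  [IsAdicComplete (maximalIdeal 𝒪) 𝒪] [Finite (ResidueField 𝒪)]

theorem locD_mem_decompositionSubgroup (q : Nat.Primes) (τ : primeLocalGaloisGroup q) :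
    locD q τ ∈ (primeLocalPlace q).decompositionSubgroup ℚ := by
  haveI : Fact ((q : ℕ)).Prime := ⟨q.2⟩
  exact localGaloisToGlobal_mem_decompositionSubgroup (q : ℕ) τ

theorem two_ne_zero_of_charP (k : Type) [Field k] (p : ℕ) [Fact p.Prime] [CharP k p]
    (hp2 : p ≠ 2) : (2 : k) ≠ 0 := by
  intro h
  have h' : ((2 : ℕ) : k) = 0 := by exact_mod_cast h
  rw [CharP.cast_eq_zero_iff k p] at h'
  exact hp2 ((Nat.prime_dvd_prime_iff_eq Fact.out Nat.prime_two).1 h')

section DetCyclo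

variable (p : ℕ) [Fact p.Prime] (hp𝒪 : (p : 𝒪) ∈ maximalIdeal 𝒪)
  {ρbar : ResidualGaloisRep (ResidueField 𝒪)}
  {𝒟 : ∀ ⦃A : Type⦄ [CommRing A] [IsLocalRing A] [Algebra 𝒪 A], GaloisRepAdic A → Prop}
  (DQ : GaloisRep.DeformationRingData 𝒪 ρbar 𝒟)
  (b' : Module.Basis (Fin 2) DQ.R DQ.ρ.V) (hD : DQ.ρ.DetIsCyclotomic p)

include hp𝒪 hD in
theorem det_rOf_eq_cycloExp (φ : DQ.R →ₐ[𝒪] DualNumber (ResidueField 𝒪)) (σ : Γ) :
    (rOf DQ b' φ σ).det = ((cycloExp p σ : ℕ) : DualNumber (ResidueField 𝒪)) := by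
  have h1 : (rOf DQ b' φ σ).det = φ ((matrixOf DQ.ρ b' σ).det) := by
    rw [rOf, mapMat_apply']
    exact (RingHom.map_det (φ : DQ.R →+* DualNumber (ResidueField 𝒪)) _).symm
  have h2 := hD.2 1 σ (cycloExp p σ) (apply_eq_pow_cycloExp' p σ)
  rw [← det_matrixOf DQ.ρ b'] at h2
  have h3 := BaseChange9.map_mem_span_natCast (φ : DQ.R →+* DualNumber (ResidueField 𝒪)) h2
  rw [pow_one, natCast_p_dualNumber p hp𝒪, Ideal.mem_span_singleton, zero_dvd_iff, map_sub,
    sub_eq_zero, map_natCast] at h3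
  rw [h1]
  exact h3

end DetCyclo

open Polynomial in
/-- **(K-B), strict-ordinary conjunct.**  For a deformation ring `DQ` of the strict-ordinary
type of S56 (ramification set `Smin ∪ Q`): there is a basis `b` of `V̄` in which `ρ̄` has the
strict-ordinary matrix shape at the place `primeLocalPlace p`, and an INJECTION of the tangent
homomorphisms `DQ.R → k[ε]` into the Selmer group with the local condition `LpSO` for the line
spanned by `b 0`. -/
theorem exists_injective_tangent_SO (p : ℕ) [Fact p.Prime] [CharP (ResidueField 𝒪) p]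
    (hp2 : p ≠ 2) (hp𝒪 : (p : 𝒪) ∈ maximalIdeal 𝒪) (ρbar : ResidualGaloisRep (ResidueField 𝒪))
    (hdetbar : (GaloisRepAdic.ofResidualGaloisRep ρbar).DetIsCyclotomic p)
    (Smin Q : Finset ℕ)
    (hmin : ∀ q ∈ Smin, q.Prime → q ≠ p → ¬ ρbar.IsUnramifiedAt q)
    (DQ : GaloisRep.DeformationRingData 𝒪 ρbar (fun _A _ _ _ ρ =>
      GaloisRep.strictOrdinaryCondition 𝒪 p (Smin ∪ Q) ρ ∧
        ∀ q ∈ Smin, q.Prime → q ≠ p → ρ.IsUnipotentOnInertiaAt q)) :
    ∃ b : Module.Basis (Fin 2) (ResidueField 𝒪) ρbar.V,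
      IsSOmat (primeLocalPlace (pPrime p)) p (rbarOf ρbar b) ∧
      ∃ F : (DQ.R →ₐ[𝒪] DualNumber (ResidueField 𝒪)) →
          ↥(Sel (primesOf (Smin ∪ Q)) (ad0 ρbar) (primesOf (Smin.erase p)) (pPrime p)
            (LpSO ρbar (Submodule.span (ResidueField 𝒪) {b 0}) (pPrime p))),
        Function.Injective F := by
  obtain ⟨⟨hD, hSO, hU⟩, hunip⟩ := DQ.isOfType
  have hP : (primeLocalPlace (pPrime p)).LiesOverPrime p :=
    UnipSel8.liesOverPrime_primeLocalPlace (pPrime p)
  obtain ⟨b', hb'⟩ := exists_basis_isSOmat DQ.ρ hSO (primeLocalPlace (pPrime p)) hP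
  obtain ⟨b, ⟨π, hπ⟩, hb⟩ := exists_basis_strict DQ b'
  refine ⟨b, ?_, ?_⟩
  · rw [hπ]; exact hb'.map π
  have hSOφ : ∀ φ : DQ.R →ₐ[𝒪] DualNumber (ResidueField 𝒪),
      IsSOmat (primeLocalPlace (pPrime p)) p (rOf DQ b' φ) := fun φ => hb'.map _
  have h2 : (2 : ResidueField 𝒪) ≠ 0 := two_ne_zero_of_charP _ p hp2
  have hp0 := natCast_p_dualNumber p hp𝒪
  have hmem : ∀ φ : DQ.R →ₐ[𝒪] DualNumber (ResidueField 𝒪),
      tangentClass p hp𝒪 hdetbar DQ b' b hb (Smin ∪ Q) hD hU φ ∈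
        Sel (primesOf (Smin ∪ Q)) (ad0 ρbar) (primesOf (Smin.erase p)) (pPrime p)
          (LpSO ρbar (Submodule.span (ResidueField 𝒪) {b 0}) (pPrime p)) := by
    intro φ
    rw [mem_Sel_iff]
    constructor
    · intro q hq
      rw [mem_primesOf, Finset.mem_erase] at hq
      obtain ⟨hqp, hqS⟩ := hq
      refine UnipSel8.resI_eq_zero_of_unipotent ρbar p hp2 _ q hqp (hmin q hqS q.2 hqp) _ ?_
      intro σ hσ
      have hch : (rOf DQ b' φ σ).charpoly = (X - 1) ^ 2 := by
        have h1 := hunip q hqS q.2 hqp (primeLocalPlace q)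
          (UnipSel8.liesOverPrime_primeLocalPlace q) σ hσ
        rw [← charpoly_matrixOf DQ.ρ b'] at h1
        rw [rOf, mapMat_apply', Matrix.charpoly_map, h1]
        simp
      obtain ⟨e1, e2, e3⟩ := unip_of_charpoly hch
      rw [hb φ] at e1 e2 e3
      refine ⟨?_, ?_, ?_⟩
      · rw [LinearMap.trace_eq_matrix_trace _ b]; exact e1
      · rw [← LinearMap.det_toMatrix b]; exact e2
      · show LinearMap.trace _ _ (cocEnd ρbar b (rOf DQ b' φ) σ * ρbar.ρ σ) = 0
        rw [LinearMap.trace_eq_matrix_trace _ b, Module.End.mul_eq_comp,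
          LinearMap.toMatrix_comp b b b, toMatrix_cocEnd]
        exact e3
    · refine resD_classOf_mem_LpSO ρbar b _ _ _ _ (pPrime p) _ fun τ => ?_
      have hσ := locD_mem_decompositionSubgroup (pPrime p) τ
      set σ := locD (pPrime p) τ
      have hdet := det_rOf_eq_cycloExp p hp𝒪 DQ b' hD φ σ
      have ha0 : ((cycloExp p σ : ℕ) : ResidueField 𝒪) ≠ 0 := by
        have h3 := det_rOf p hp𝒪 hdetbar DQ b' b hb hD φ σ
        rw [hdet] at h3
        have h4 := congrArg TrivSqZeroExt.fst h3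
        rw [TrivSqZeroExt.fst_inl] at h4
        have h5 : (((cycloExp p σ : ℕ) : DualNumber (ResidueField 𝒪))).fst =
            ((cycloExp p σ : ℕ) : ResidueField 𝒪) := TrivSqZeroExt.fst_natCast _
        rw [h5] at h4
        rw [h4]
        exact det_redM_ne_zero _ σ
      obtain ⟨c00, c10, c11⟩ := cocM_of_isSOmat (hSOφ φ) h2 hp0 hσ
        (apply_eq_pow_cycloExp' p σ) ha0 hdet
      exact toLin_range_le_and_le_ker b _ c00 c10 c11
  refine ⟨fun φ => ⟨_, hmem φ⟩, fun φ ψ h => ?_⟩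
  have h' := congrArg Subtype.val h
  refine eq_of_tangentClass_eq p hp𝒪 hdetbar DQ b' b hb _ hD hU φ ψ h' ⟨⟨?_, ?_, ?_⟩, ?_⟩
  · exact BaseChange9.detIsCyclotomic_baseChangeAlong _ _ _ hD
  · exact BaseChange9.isStrictOrdinaryAt_baseChangeAlong _ _ _ hSO
  · exact fun q hq hqS => BaseChange9.isUnramifiedAt_baseChangeAlong _ _ _ (hU q hq hqS)
  · exact fun q hqS hq hqp =>
      BaseChange9.isUnipotentOnInertiaAt_baseChangeAlong _ _ _ (hunip q hqS hq hqp)

end Final

end

end Fermat.Agent.W56.DictSO9
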