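import Mathlib
import Fermat.Agent.S53.Tangent
import Fermat.Agent.S53.TangentHom
import Fermat.Agent.S53.CompleteQuot
import Fermat.Agent.S53.EvalNilp
import Fermat.Agent.S53.Universal

/-!
# W56, chapter (A): the generator count (lead)

Let `𝒪` be a complete local ring with finite residue field `k`, and let `R` be a complete
Noetherian local `𝒪`-algebra whose residue field is generated by `𝒪`.  If the set of
`𝒪`-algebra homomorphisms `R → k[ε]` injects into a finite set with at most `(#k) ^ r` elements,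
then `R` is a quotient of the power series ring `𝒪⟦X_1, …, X_r⟧`.

Main statements (namespace `Fermat.Agent.W56.GenCount0`):
* `derSub` : the `k`-vector space of derivation-like functionals of a test algebra.
* `derHom_injective` : functionals give pairwise distinct tangent homomorphisms.
* `exists_fun_maximalIdeal_le` : the cotangent space is spanned by `r` elements.
* `exists_surjective_mvPowerSeries` : the main theorem.
* `finite_algHom_dualNumber`, `exists_surjective_mvPowerSeries_of_card_le` : the counting form.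
-/

set_option autoImplicit false
set_option linter.unusedSectionVars false
set_option linter.style.haveILetI false

namespace Fermat.Agent.W56.GenCount0

open IsLocalRing GaloisRep Fermat.Agent.S53

attribute [local instance] Fermat.Agent.S53.dualNumberAlgebra

section Der

variable {𝒪 : Type} [CommRing 𝒪] [IsLocalRing 𝒪]
  {B : Type} [CommRing B] [Algebra 𝒪 B]

/-- The `k`-vector space of derivation-like functionals `B → k` (with respect to `res`). -/
def derSub (res : B →ₐ[𝒪] ResidueField 𝒪) :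
    Submodule (ResidueField 𝒪) (B → ResidueField 𝒪) where
  carrier := {lam | (∀ x y, lam (x + y) = lam x + lam y) ∧
    (∀ x y, lam (x * y) = res x * lam y + res y * lam x) ∧
    ∀ c : 𝒪, lam (algebraMap 𝒪 B c) = 0}
  add_mem' := by
    rintro a b ⟨ha1, ha2, ha3⟩ ⟨hb1, hb2, hb3⟩
    refine ⟨fun x y => ?_, fun x y => ?_, fun c => ?_⟩
    · simp only [Pi.add_apply, ha1, hb1]; ring
    · simp only [Pi.add_apply, ha2, hb2]; ring
    · simp only [Pi.add_apply, ha3, hb3, add_zero]
  zero_mem' := by
    refine ⟨fun x y => ?_, fun x y => ?_, fun c => ?_⟩ <;> simp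
  smul_mem' := by
    rintro t a ⟨ha1, ha2, ha3⟩
    refine ⟨fun x y => ?_, fun x y => ?_, fun c => ?_⟩
    · simp only [Pi.smul_apply, ha1, smul_eq_mul]; ring
    · simp only [Pi.smul_apply, ha2, smul_eq_mul]; ring
    · simp only [Pi.smul_apply, ha3, smul_zero]

variable (res : B →ₐ[𝒪] ResidueField 𝒪)

/-- The tangent homomorphism attached to a derivation-like functional. -/
noncomputable def derHom (lam : derSub res) : B →ₐ[𝒪] DualNumber (ResidueField 𝒪) :=
  TangentHom.homOfDer (fun c => algebraMap_dualNumber_apply c) res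
    (AddMonoidHom.mk' lam.1 lam.2.1) lam.2.2.1 lam.2.2.2

theorem snd_derHom (lam : derSub res) (x : B) :
    TrivSqZeroExt.snd (derHom res lam x) = lam.1 x := by
  unfold derHom
  rw [TangentHom.homOfDer_apply]
  simp

theorem derHom_injective : Function.Injective (derHom res) := by
  intro a b hab
  apply Subtype.ext
  funext x
  rw [← snd_derHom res a x, ← snd_derHom res b x, hab]

end Der

section Test

variable {𝒪 : Type} [CommRing 𝒪] [IsLocalRing 𝒪] [Finite (ResidueField 𝒪)]
  {B : Type} [CommRing B] [IsLocalRing B] [Algebra 𝒪 B]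

/-- The counting step: if the tangent homomorphisms inject into a finite set with at most
`(#k) ^ r` elements, the space of derivation-like functionals has dimension at most `r`. -/
theorem finrank_derSub_le (res : B →ₐ[𝒪] ResidueField 𝒪) {ι : Type*} [Finite ι]
    (F : (B →ₐ[𝒪] DualNumber (ResidueField 𝒪)) → ι) (hF : Function.Injective F) (r : ℕ)
    (hι : Nat.card ι ≤ Nat.card (ResidueField 𝒪) ^ r) :
    Finite (derSub res) ∧ Module.finrank (ResidueField 𝒪) (derSub res) ≤ r := by
  have hinj : Function.Injective (F ∘ derHom res) := hF.comp (derHom_injective res)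
  have hfin : Finite (derSub res) := Finite.of_injective _ hinj
  refine ⟨hfin, ?_⟩
  have h1 : Nat.card (derSub res) ≤ Nat.card ι := Nat.card_le_card_of_injective _ hinj
  have : Module.Finite (ResidueField 𝒪) (derSub res) := Module.Finite.of_finite
  rw [Module.natCard_eq_pow_finrank (K := ResidueField 𝒪)] at h1
  have h2 := h1.trans hι
  exact (Nat.pow_le_pow_iff_right Finite.one_lt_card).mp h2

/-- The cotangent space of a test algebra is spanned by `r` elements as soon as the tangent
homomorphisms inject into a finite set with at most `(#k) ^ r` elements. -/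
theorem exists_fun_maximalIdeal_le_of_test (hB : IsArtinianTestAlgebra 𝒪 B)
    {ι : Type*} [Finite ι]
    (F : (B →ₐ[𝒪] DualNumber (ResidueField 𝒪)) → ι) (hF : Function.Injective F) (r : ℕ)
    (hι : Nat.card ι ≤ Nat.card (ResidueField 𝒪) ^ r) :
    ∃ u : Fin r → B, (∀ i, u i ∈ maximalIdeal B) ∧
      maximalIdeal B ≤ Ideal.span (Set.range u) ⊔ maximalIdeal B ^ 2 ⊔
        (maximalIdeal 𝒪).map (algebraMap 𝒪 B) := by
  classical
  obtain ⟨res, hres⟩ := exists_resk hB
  obtain ⟨hfin, hrk⟩ := finrank_derSub_le res F hF r hι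
  haveI : Module.Finite (ResidueField 𝒪) (derSub res) := Module.Finite.of_finite
  -- the evaluation map
  let ev : B →+ Module.Dual (ResidueField 𝒪) (derSub res) :=
    AddMonoidHom.mk' (fun b =>
      { toFun := fun lam => lam.1 b
        map_add' := fun _ _ => rfl
        map_smul' := fun _ _ => rfl })
      (fun x y => LinearMap.ext fun lam => lam.2.1 x y)
  have ev_apply : ∀ (b : B) (lam : derSub res), ev b lam = lam.1 b := fun _ _ => rfl
  have hresalg : ∀ c : 𝒪, res (algebraMap 𝒪 B c) = residue 𝒪 c := fun c => by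
    rw [AlgHom.commutes]; rfl
  have ev_algmul : ∀ (c : 𝒪) (x : B), ev (algebraMap 𝒪 B c * x) = residue 𝒪 c • ev x := by
    intro c x
    refine LinearMap.ext fun lam => ?_
    rw [LinearMap.smul_apply, ev_apply, ev_apply, lam.2.2.1, lam.2.2.2 c, mul_zero, add_zero,
      hresalg, smul_eq_mul]
  set s : Set (Module.Dual (ResidueField 𝒪) (derSub res)) := ev '' (maximalIdeal B : Set B)
    with hs
  obtain ⟨f, hfs, hfspan, -⟩ := Submodule.exists_fun_fin_finrank_span_eq (ResidueField 𝒪) s
  have hn : Module.finrank (ResidueField 𝒪) (Submodule.span (ResidueField 𝒪) s) ≤ r :=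
    (Submodule.finrank_le _).trans (Subspace.dual_finrank_eq.le.trans hrk)
  -- pad the spanning family to length `r`
  let f' : Fin r → Module.Dual (ResidueField 𝒪) (derSub res) := fun i =>
    if h : (i : ℕ) < Module.finrank (ResidueField 𝒪) (Submodule.span (ResidueField 𝒪) s)
    then f ⟨i, h⟩ else 0
  have hf's : ∀ i, f' i ∈ s := by
    intro i
    by_cases h : (i : ℕ) < Module.finrank (ResidueField 𝒪) (Submodule.span (ResidueField 𝒪) s)
    · simp only [f', h, dite_true]; exact hfs _
    · simp only [f', h, dite_false]; exact ⟨0, Ideal.zero_mem _, map_zero ev⟩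
  have hrange : Set.range f ⊆ Set.range f' := by
    rintro _ ⟨j, rfl⟩
    refine ⟨⟨j, lt_of_lt_of_le j.2 hn⟩, ?_⟩
    simp only [f', j.2, dite_true]
  choose u hum hu using hf's
  refine ⟨u, hum, ?_⟩
  intro w hw
  have hw1 : ev w ∈ Submodule.span (ResidueField 𝒪) (Set.range f') := by
    refine Submodule.span_mono hrange ?_
    rw [hfspan]
    exact Submodule.subset_span ⟨w, hw, rfl⟩
  obtain ⟨a, ha⟩ := (Submodule.mem_span_range_iff_exists_fun (ResidueField 𝒪)).mp hw1
  choose c hc using fun i => IsLocalRing.residue_surjective (a i)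
  -- the error term
  have hsum : ev (∑ i, algebraMap 𝒪 B (c i) * u i) = ev w := by
    rw [map_sum, ← ha]
    refine Finset.sum_congr rfl fun i _ => ?_
    rw [ev_algmul, hc, hu]
  have hsm : ∑ i, algebraMap 𝒪 B (c i) * u i ∈ Ideal.span (Set.range u) :=
    Ideal.sum_mem _ fun i _ => Ideal.mul_mem_left _ _ (Ideal.subset_span ⟨i, rfl⟩)
  have hvm : w - ∑ i, algebraMap 𝒪 B (c i) * u i ∈ maximalIdeal B :=
    Ideal.sub_mem _ hw (Ideal.sum_mem _ fun i _ => Ideal.mul_mem_left _ _ (hum i))
  have hv0 : ev (w - ∑ i, algebraMap 𝒪 B (c i) * u i) = 0 := by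
    rw [map_sub, hsum, sub_self]
  -- the error term lies in `m ^ 2 + m_𝒪 B`
  have hmapm : (maximalIdeal 𝒪).map (algebraMap 𝒪 B) ≤ maximalIdeal B := by
    rw [Ideal.map_le_iff_le_comap]
    intro c hc
    exact (algebraMap_mem_maximalIdeal_iff hB c).mpr hc
  have hvJ : w - ∑ i, algebraMap 𝒪 B (c i) * u i ∈
      maximalIdeal B ^ 2 ⊔ (maximalIdeal 𝒪).map (algebraMap 𝒪 B) := by
    by_contra hvJ
    obtain ⟨lam, -, hconst, hmul, hne⟩ := TangentHom.exists_der hB res hres
      (maximalIdeal B ^ 2 ⊔ (maximalIdeal 𝒪).map (algebraMap 𝒪 B))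
      (sup_le (Ideal.pow_le_self two_ne_zero) hmapm) le_sup_left
      (fun c hc => (le_sup_right : (maximalIdeal 𝒪).map (algebraMap 𝒪 B) ≤ _)
        (Ideal.mem_map_of_mem _ hc)) _ hvm hvJ
    let lam' : derSub res := ⟨lam, fun x y => map_add lam x y, hmul, hconst⟩
    have := congrArg (fun φ => φ lam') hv0
    simp only [ev_apply, LinearMap.zero_apply] at this
    exact hne this
  have : w = (∑ i, algebraMap 𝒪 B (c i) * u i) + (w - ∑ i, algebraMap 𝒪 B (c i) * u i) := by
    ring
  rw [this, sup_assoc]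
  exact Ideal.add_mem _ (Ideal.mem_sup_left hsm) (Ideal.mem_sup_right hvJ)

end Test

section Main

variable {𝒪 : Type} [CommRing 𝒪] [IsLocalRing 𝒪] [Finite (ResidueField 𝒪)]
  {R : Type} [CommRing R] [IsLocalRing R] [IsNoetherianRing R] [Algebra 𝒪 R]

/-- The maximal ideal of `R` is generated by `r` elements and the image of `m_𝒪`, as soon as the
tangent homomorphisms of `R` inject into a finite set with at most `(#k) ^ r` elements. -/
theorem exists_fun_maximalIdeal_le (hloc : IsLocalHom (algebraMap 𝒪 R))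
    (hsurj : Function.Surjective (residue R ∘ algebraMap 𝒪 R))
    {ι : Type*} [Finite ι]
    (F : (R →ₐ[𝒪] DualNumber (ResidueField 𝒪)) → ι) (hF : Function.Injective F) (r : ℕ)
    (hι : Nat.card ι ≤ Nat.card (ResidueField 𝒪) ^ r) :
    ∃ u : Fin r → R, (∀ i, u i ∈ maximalIdeal R) ∧
      maximalIdeal R ≤ Ideal.span (Set.range u) ⊔ (maximalIdeal 𝒪).map (algebraMap 𝒪 R) := by
  have hB := isArtinianTestAlgebra_quotPow (𝒪 := 𝒪) R hloc hsurj 1
  have hFB : Function.Injective
      (fun g : QuotPow R 1 →ₐ[𝒪] DualNumber (ResidueField 𝒪) => F (g.comp (quotPowMk R 1))) := by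
    intro g g' h
    exact (AlgHom.cancel_right (quotPowMk_surjective (𝒪 := 𝒪) R 1)).mp (hF h)
  obtain ⟨uB, huB, hle⟩ := exists_fun_maximalIdeal_le_of_test hB _ hFB r hι
  choose u hu using fun i => Ideal.Quotient.mk_surjective (I := maximalIdeal R ^ (1 + 1)) (uB i)
  have hum : ∀ i, u i ∈ maximalIdeal R := by
    intro i
    by_contra h
    have hunit : IsUnit (u i) := by
      by_contra h'
      exact h ((mem_maximalIdeal _).mpr h')
    have h2 : IsUnit (uB i) := by
      rw [← hu i]
      exact hunit.map _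
    exact (mem_maximalIdeal _).mp (huB i) h2
  refine ⟨u, hum, ?_⟩
  -- first modulo `m ^ 2`
  have hmod : maximalIdeal R ≤ Ideal.span (Set.range u) ⊔ maximalIdeal R ^ 2 ⊔
      (maximalIdeal 𝒪).map (algebraMap 𝒪 R) := by
    intro w hw
    have h1 : Ideal.Quotient.mk (maximalIdeal R ^ (1 + 1)) w ∈ maximalIdeal (QuotPow R 1) := by
      rw [maximalIdeal_quotPow]
      exact Ideal.mem_map_of_mem _ hw
    have h2 := hle h1
    have himg : Ideal.span (Set.range uB) ⊔ maximalIdeal (QuotPow R 1) ^ 2 ⊔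
        (maximalIdeal 𝒪).map (algebraMap 𝒪 (QuotPow R 1)) =
        (Ideal.span (Set.range u) ⊔ maximalIdeal R ^ 2 ⊔
          (maximalIdeal 𝒪).map (algebraMap 𝒪 R)).map
          (Ideal.Quotient.mk (maximalIdeal R ^ (1 + 1))) := by
      have hrange : Set.range uB =
          (Ideal.Quotient.mk (maximalIdeal R ^ (1 + 1))) '' (Set.range u) := by
        rw [← Set.range_comp]
        congr 1
        funext i
        exact (hu i).symm
      rw [Ideal.map_sup, Ideal.map_sup, Ideal.map_span, Ideal.map_pow, ← maximalIdeal_quotPow,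
        Ideal.map_map, ← hrange]
      rfl
    rw [himg] at h2
    have h3 : w ∈ (Ideal.span (Set.range u) ⊔ maximalIdeal R ^ 2 ⊔
          (maximalIdeal 𝒪).map (algebraMap 𝒪 R)) ⊔ maximalIdeal R ^ (1 + 1) := by
      have := Ideal.mem_comap.mpr h2
      rwa [Ideal.comap_map_of_surjective _ Ideal.Quotient.mk_surjective, ← RingHom.ker_eq_comap_bot,
        Ideal.mk_ker] at this
    refine (sup_le le_rfl ?_ : _ ≤ Ideal.span (Set.range u) ⊔ maximalIdeal R ^ 2 ⊔
          (maximalIdeal 𝒪).map (algebraMap 𝒪 R)) h3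
    exact le_sup_of_le_left le_sup_right
  -- Nakayama
  have hnak := maximalIdeal_le_span_of_le_span_sup_sq
    (Set.range u ∪ (algebraMap 𝒪 R) '' (maximalIdeal 𝒪 : Set 𝒪)) (A := R) (by
      rw [Ideal.span_union]
      refine hmod.trans ?_
      rw [sup_right_comm]
      exact le_rfl)
  rw [Ideal.span_union] at hnak
  exact hnak

end Main

section PowerSeries

variable {𝒪 : Type} [CommRing 𝒪]
  {R : Type} [CommRing R] [IsLocalRing R] [Algebra 𝒪 R] [IsAdicComplete (maximalIdeal R) R]

/-- Evaluation of power series at a tuple of elements of the maximal ideal of a complete local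
ring. -/
theorem exists_algHom_X_eq {r : ℕ} (u : Fin r → R) (hu : ∀ i, u i ∈ maximalIdeal R) :
    ∃ γ : MvPowerSeries (Fin r) 𝒪 →ₐ[𝒪] R, ∀ i, γ (MvPowerSeries.X i) = u i := by
  have hnil : ∀ n : ℕ, Ideal.span (Set.range fun i => quotPowMk (𝒪 := 𝒪) R n (u i)) ^ (n + 1)
      = ⊥ := by
    intro n
    rw [eq_bot_iff, ← maximalIdeal_quotPow_pow R n]
    refine Ideal.pow_right_mono ?_ _
    rw [Ideal.span_le]
    rintro _ ⟨i, rfl⟩
    rw [SetLike.mem_coe, maximalIdeal_quotPow]
    exact Ideal.mem_map_of_mem _ (hu i)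
  let f : ∀ n : ℕ, MvPowerSeries (Fin r) 𝒪 →ₐ[𝒪] QuotPow R n := fun n =>
    evalNilp (𝒪 := 𝒪) (fun i => quotPowMk (𝒪 := 𝒪) R n (u i)) (n + 1) (hnil n)
  have hf : ∀ n : ℕ, (quotPowFactor (𝒪 := 𝒪) R (Nat.le_succ n)).comp (f (n + 1)) = f n := by
    intro n
    refine eq_evalNilp _ _ (n + 1) (hnil n) fun i => ?_
    rw [AlgHom.comp_apply]
    show quotPowFactor (𝒪 := 𝒪) R (Nat.le_succ n) (evalNilp _ _ (hnil (n + 1)) _) = _
    rw [evalNilp_X]
    rfl
  obtain ⟨γ, hγ⟩ := exists_lift_of_compatible R f hf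
  refine ⟨γ, fun i => ?_⟩
  have hH : IsHausdorff (maximalIdeal R) R := inferInstance
  rw [← sub_eq_zero]
  refine hH.haus _ fun n => ?_
  rw [SModEq.zero, smul_eq_mul, Ideal.mul_top]
  have h1 : (quotPowMk (𝒪 := 𝒪) R n) (γ (MvPowerSeries.X i)) = quotPowMk (𝒪 := 𝒪) R n (u i) := by
    rw [← AlgHom.comp_apply, hγ n]
    exact evalNilp_X _ _ (hnil n) i
  have h2 : γ (MvPowerSeries.X i) - u i ∈ maximalIdeal R ^ (n + 1) := Ideal.Quotient.eq.mp h1
  exact Ideal.pow_le_pow_right (Nat.le_succ n) h2

end PowerSeries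

section Final

variable {𝒪 : Type} [CommRing 𝒪] [IsLocalRing 𝒪] [IsAdicComplete (maximalIdeal 𝒪) 𝒪]
  [Finite (ResidueField 𝒪)]
  {R : Type} [CommRing R] [IsLocalRing R] [IsNoetherianRing R]
  [IsAdicComplete (maximalIdeal R) R] [Algebra 𝒪 R]

/-- If `m_R = (u_1, …, u_r) + m_𝒪 R` then `X_i ↦ u_i` is a surjection `𝒪⟦X_1, …, X_r⟧ → R`. -/
theorem surjective_of_maximalIdeal_le (hloc : IsLocalHom (algebraMap 𝒪 R))
    (hsurj : Function.Surjective (residue R ∘ algebraMap 𝒪 R))
    {r : ℕ} (u : Fin r → R) (hum : ∀ i, u i ∈ maximalIdeal R)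
    (hle : maximalIdeal R ≤ Ideal.span (Set.range u) ⊔ (maximalIdeal 𝒪).map (algebraMap 𝒪 R))
    (γ : MvPowerSeries (Fin r) 𝒪 →ₐ[𝒪] R) (hγ : ∀ i, γ (MvPowerSeries.X i) = u i) :
    Function.Surjective γ := by
  have hUm : Ideal.span (Set.range u) ≤ maximalIdeal R := by
    rw [Ideal.span_le]
    rintro _ ⟨i, rfl⟩
    exact hum i
  have hUne : Ideal.span (Set.range u) ≠ ⊤ := fun h =>
    (maximalIdeal.isMaximal R).ne_top (top_le_iff.mp (h ▸ hUm))
  -- Step 2: `𝒪 → R ⧸ (u)` is surjective
  have hstep : ∀ a : R, ∃ c : 𝒪, a - algebraMap 𝒪 R c ∈ Ideal.span (Set.range u) := by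
    haveI : Nontrivial (R ⧸ Ideal.span (Set.range u)) := Ideal.Quotient.nontrivial_iff.mpr hUne
    haveI : IsLocalRing (R ⧸ Ideal.span (Set.range u)) :=
      IsLocalRing.of_surjective' (Ideal.Quotient.mk (Ideal.span (Set.range u)))
        Ideal.Quotient.mk_surjective
    let g : 𝒪 →+* R ⧸ Ideal.span (Set.range u) :=
      (Ideal.Quotient.mk (Ideal.span (Set.range u))).comp (algebraMap 𝒪 R)
    have hmapg : (maximalIdeal 𝒪).map g =
        ((maximalIdeal 𝒪).map (algebraMap 𝒪 R)).map
          (Ideal.Quotient.mk (Ideal.span (Set.range u))) := by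
      rw [Ideal.map_map]
    have hmapm : (maximalIdeal 𝒪).map (algebraMap 𝒪 R) ≤ maximalIdeal R := by
      rw [Ideal.map_le_iff_le_comap]
      intro c hc
      rw [Ideal.mem_comap, mem_maximalIdeal, mem_nonunits_iff]
      intro hunit
      exact (mem_maximalIdeal c).mp hc (hloc.map_nonunit c hunit)
    have hgne : (maximalIdeal 𝒪).map g ≠ ⊤ := by
      intro h
      have h1 : (maximalIdeal 𝒪).map g ≤ maximalIdeal (R ⧸ Ideal.span (Set.range u)) := by
        rw [hmapg, ← map_maximalIdeal_of_surjective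
          (Ideal.Quotient.mk (Ideal.span (Set.range u))) Ideal.Quotient.mk_surjective]
        exact Ideal.map_mono hmapm
      exact (maximalIdeal.isMaximal _).ne_top (top_le_iff.mp (h ▸ h1))
    haveI : IsHausdorff ((maximalIdeal 𝒪).map g) (R ⧸ Ideal.span (Set.range u)) :=
      IsHausdorff.of_isLocalRing _ _ hgne
    have hg : Function.Surjective g := by
      apply surjective_of_mk_map_comp_surjective (I := maximalIdeal 𝒪) g
      intro y
      obtain ⟨y', rfl⟩ := Ideal.Quotient.mk_surjective y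
      obtain ⟨a, rfl⟩ := Ideal.Quotient.mk_surjective y'
      obtain ⟨c, hc⟩ := hsurj (residue R a)
      refine ⟨c, ?_⟩
      have h1 : a - algebraMap 𝒪 R c ∈ maximalIdeal R := by
        rw [← residue_eq_zero_iff, map_sub, sub_eq_zero]
        exact hc.symm
      obtain ⟨x, hx, z, hz, hxz⟩ := Submodule.mem_sup.mp (hle h1)
      rw [RingHom.comp_apply, eq_comm, Ideal.Quotient.eq]
      have h2 : Ideal.Quotient.mk (Ideal.span (Set.range u)) a - g c =
          Ideal.Quotient.mk (Ideal.span (Set.range u)) z := by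
        show Ideal.Quotient.mk (Ideal.span (Set.range u)) a -
          Ideal.Quotient.mk (Ideal.span (Set.range u)) (algebraMap 𝒪 R c) = _
        rw [← map_sub, ← hxz, map_add, Ideal.Quotient.eq_zero_iff_mem.mpr hx, zero_add]
      rw [h2, hmapg]
      exact Ideal.mem_map_of_mem _ hz
    intro a
    obtain ⟨c, hc⟩ := hg (Ideal.Quotient.mk _ a)
    exact ⟨c, Ideal.Quotient.eq.mp hc.symm⟩
  -- Step 1: `X`-adic completeness of the power series ring
  have hVmap : (Ideal.span (Set.range (MvPowerSeries.X : Fin r → MvPowerSeries (Fin r) 𝒪))).map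
      (γ : MvPowerSeries (Fin r) 𝒪 →+* R) = Ideal.span (Set.range u) := by
    rw [Ideal.map_span, ← Set.range_comp]
    congr 2
    funext i
    exact hγ i
  haveI : IsHausdorff ((Ideal.span (Set.range
      (MvPowerSeries.X : Fin r → MvPowerSeries (Fin r) 𝒪))).map
      (γ : MvPowerSeries (Fin r) 𝒪 →+* R)) R := by
    rw [hVmap]
    exact IsHausdorff.of_isLocalRing _ _ hUne
  have hfin : Function.Surjective (γ : MvPowerSeries (Fin r) 𝒪 →+* R) := by
    apply surjective_of_mk_map_comp_surjective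
      (I := Ideal.span (Set.range (MvPowerSeries.X : Fin r → MvPowerSeries (Fin r) 𝒪)))
    intro y
    obtain ⟨a, rfl⟩ := Ideal.Quotient.mk_surjective y
    obtain ⟨c, hc⟩ := hstep a
    refine ⟨algebraMap 𝒪 (MvPowerSeries (Fin r) 𝒪) c, ?_⟩
    rw [RingHom.comp_apply, eq_comm, Ideal.Quotient.eq, hVmap]
    have h3 : (γ : MvPowerSeries (Fin r) 𝒪 →+* R) (algebraMap 𝒪 (MvPowerSeries (Fin r) 𝒪) c) =
        algebraMap 𝒪 R c := γ.commutes c
    rw [h3]
    exact hc
  exact hfin

/-- **Chapter (A), main form.**  If the tangent homomorphisms `R → k[ε]` inject into a finite set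
with at most `(#k) ^ r` elements, then `R` is a quotient of `𝒪⟦X_1, …, X_r⟧`. -/
theorem exists_surjective_mvPowerSeries (hloc : IsLocalHom (algebraMap 𝒪 R))
    (hsurj : Function.Surjective (residue R ∘ algebraMap 𝒪 R))
    {ι : Type*} [Finite ι]
    (F : (R →ₐ[𝒪] DualNumber (ResidueField 𝒪)) → ι) (hF : Function.Injective F) (r : ℕ)
    (hι : Nat.card ι ≤ Nat.card (ResidueField 𝒪) ^ r) :
    ∃ γ : MvPowerSeries (Fin r) 𝒪 →ₐ[𝒪] R, Function.Surjective γ := by
  obtain ⟨u, hum, hle⟩ := exists_fun_maximalIdeal_le hloc hsurj F hF r hι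
  obtain ⟨γ, hγ⟩ := exists_algHom_X_eq (𝒪 := 𝒪) u hum
  exact ⟨γ, surjective_of_maximalIdeal_le hloc hsurj u hum hle γ hγ⟩

/-- The set of tangent homomorphisms of `R` is finite. -/
theorem finite_algHom_dualNumber (hloc : IsLocalHom (algebraMap 𝒪 R))
    (hsurj : Function.Surjective (residue R ∘ algebraMap 𝒪 R)) :
    Finite (R →ₐ[𝒪] DualNumber (ResidueField 𝒪)) := by
  -- `R ⧸ m ^ 2` is finite
  haveI : Finite (ResidueField R) := by
    refine Finite.of_surjective (ResidueField.map (algebraMap 𝒪 R)) ?_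
    intro y
    obtain ⟨c, hc⟩ := hsurj y
    exact ⟨residue 𝒪 c, by rw [ResidueField.map_residue]; exact hc⟩
  haveI : Finite (R ⧸ maximalIdeal R) := inferInstanceAs (Finite (ResidueField R))
  haveI : Finite (R ⧸ maximalIdeal R ^ 2) :=
    Ideal.finite_quotient_pow (IsNoetherian.noetherian (maximalIdeal R)) 2
  haveI : Finite (DualNumber (ResidueField 𝒪)) :=
    inferInstanceAs (Finite (ResidueField 𝒪 × ResidueField 𝒪))
  -- every tangent homomorphism kills `m ^ 2`
  have hkill : ∀ (f : R →ₐ[𝒪] DualNumber (ResidueField 𝒪)) (x : R),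
      x ∈ maximalIdeal R ^ 2 → f x = 0 := by
    intro f x hx
    have hT := test_dualNumber (𝒪 := 𝒪)
    have hfl : IsLocalHom (f : R →+* DualNumber (ResidueField 𝒪)) :=
      up_isLocalHom_of_algHom hT.isLocalHom hT.residue_surjective f
    have hfst : ∀ y ∈ maximalIdeal R, TrivSqZeroExt.fst (f y) = 0 := by
      intro y hy
      by_contra hne
      have hu : IsUnit (f y) := by
        rw [TrivSqZeroExt.isUnit_iff_isUnit_fst]
        exact isUnit_iff_ne_zero.mpr hne
      exact (mem_maximalIdeal y).mp hy (hfl.map_nonunit y hu)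
    rw [pow_two] at hx
    refine Submodule.mul_induction_on hx ?_ ?_
    · intro y hy z hz
      rw [map_mul]
      apply TrivSqZeroExt.ext
      · simp [hfst y hy]
      · simp [hfst y hy, hfst z hz]
    · intro y z hy hz
      rw [map_add, hy, hz, add_zero]
  refine Finite.of_injective (fun (f : R →ₐ[𝒪] DualNumber (ResidueField 𝒪))
    (q : R ⧸ maximalIdeal R ^ 2) => f (Quotient.out q)) ?_
  intro f f' h
  apply AlgHom.ext
  intro x
  have hx : ∀ g : R →ₐ[𝒪] DualNumber (ResidueField 𝒪),
      g x = g (Quotient.out (Ideal.Quotient.mk (maximalIdeal R ^ 2) x)) := by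
    intro g
    rw [← sub_eq_zero, ← map_sub]
    apply hkill
    rw [← Ideal.Quotient.eq]
    exact (Ideal.Quotient.mk_out _).symm
  rw [hx f, hx f']
  exact congrFun h _

/-- **Chapter (A), counting form.**  If there are at most `(#k) ^ r` tangent homomorphisms
`R → k[ε]`, then `R` is a quotient of `𝒪⟦X_1, …, X_r⟧`. -/
theorem exists_surjective_mvPowerSeries_of_card_le (hloc : IsLocalHom (algebraMap 𝒪 R))
    (hsurj : Function.Surjective (residue R ∘ algebraMap 𝒪 R)) (r : ℕ)
    (hcard : Nat.card (R →ₐ[𝒪] DualNumber (ResidueField 𝒪)) ≤ Nat.card (ResidueField 𝒪) ^ r) :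
    ∃ γ : MvPowerSeries (Fin r) 𝒪 →ₐ[𝒪] R, Function.Surjective γ := by
  haveI := finite_algHom_dualNumber hloc hsurj
  exact exists_surjective_mvPowerSeries hloc hsurj id Function.injective_id r hcard

end Final

end Fermat.Agent.W56.GenCount0
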