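/-
Programme W56 (target S56, Taylor–Wiles primes), chapter (K-GW), helper4: **THE COUNT**.

The Greenberg–Wiles inequality in the only situation the assembly needs (the dual Selmer group
vanishes, so that the total localisation map in degree 1 is ONTO and `Sha² = 0`), as a statement
about cardinalities, in the vocabulary of `W56/Defs9`:

* `card_sel_mul` (abstract, finite abelian groups): if `H → D_p × ∏_v D_v` is onto then
  `#Sel · #D_p · ∏ #D_v = #H · #L_p · ∏ #L_v`;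
* `chain` (numerical): the chain of inequalities (global Euler characteristic bound, `Sha² = 0`,
  local Euler characteristic inequalities, the bounds on the local conditions);
* `H2g`, `H2D`, `resD2` (degree 2 analogues of `Defs9.H1g`, `H1D`, `resD`), `resI_eq`;
* **`card_Sel_le`**: `Nat.card ↥(Sel T M U pp Lp) ≤ κ ^ #(T ∖ (U ∪ {pp}))` from the contracts
  (PT-mid-onto), (Sha² = 0), (EC), (C2-a), (LEC-v), (LEC-p), (TW-H2) and the bound on `Lp`.
  The sizes `d0 v` of the local `H⁰` are arbitrary numbers: they cancel.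
-/
import Mathlib
import Fermat.Agent.W56.Defs9

set_option autoImplicit false
set_option linter.unusedSectionVars false

open CategoryTheory

namespace Fermat.Agent.W56.GWCount4

open Fermat.Agent.PT.PRO Fermat.Agent.PT.BR Fermat.Agent.W56.Defs9

local notation "Γ" => (AlgebraicClosure ℚ ≃ₐ[ℚ] AlgebraicClosure ℚ)

/-! ### Abstract counting -/

section Abstract

variable {H Dp : Type*} [AddCommGroup H] [AddCommGroup Dp]
  {ι : Type*} [Fintype ι] {D : ι → Type*} [∀ v, AddCommGroup (D v)]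

/-- The total localisation map `H → D_p × ∏ D_v`. -/
def totalLoc (rp : H →+ Dp) (r : ∀ v, H →+ D v) : H →+ Dp × (∀ v, D v) :=
  rp.prod (AddMonoidHom.pi r)

theorem totalLoc_apply (rp : H →+ Dp) (r : ∀ v, H →+ D v) (x : H) :
    totalLoc rp r x = (rp x, fun v => r v x) := rfl

/-- The subgroup of local conditions `L_p × ∏ L_v`. -/
def condSub (Lp : AddSubgroup Dp) (L : ∀ v, AddSubgroup (D v)) : AddSubgroup (Dp × (∀ v, D v)) :=
  Lp.prod (AddSubgroup.pi Set.univ L)

theorem mem_condSub (Lp : AddSubgroup Dp) (L : ∀ v, AddSubgroup (D v)) (w : Dp × (∀ v, D v)) :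
    w ∈ condSub Lp L ↔ w.1 ∈ Lp ∧ ∀ v, w.2 v ∈ L v := by
  simp [condSub, AddSubgroup.mem_prod, AddSubgroup.mem_pi]

theorem card_condSub (Lp : AddSubgroup Dp) (L : ∀ v, AddSubgroup (D v)) :
    Nat.card ↥(condSub Lp L) = Nat.card ↥Lp * ∏ v, Nat.card ↥(L v) := by
  classical
  rw [← Nat.card_pi, ← Nat.card_prod]
  refine Nat.card_congr ?_
  exact
    { toFun := fun w => (⟨w.1.1, ((mem_condSub Lp L w.1).1 w.2).1⟩,
        fun v => ⟨w.1.2 v, ((mem_condSub Lp L w.1).1 w.2).2 v⟩)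
      invFun := fun w => ⟨(w.1.1, fun v => (w.2 v).1),
        (mem_condSub Lp L _).2 ⟨w.1.2, fun v => (w.2 v).2⟩⟩
      left_inv := fun w => rfl
      right_inv := fun w => rfl }

/-- **The Selmer count**: if the total localisation map is onto, then
`#Sel · #D_p · ∏ #D_v = #H · #L_p · ∏ #L_v`. -/
theorem card_sel_mul (rp : H →+ Dp) (r : ∀ v, H →+ D v) (Lp : AddSubgroup Dp)
    (L : ∀ v, AddSubgroup (D v))
    (honto : ∀ (wp : Dp) (w : ∀ v, D v), ∃ x : H, rp x = wp ∧ ∀ v, r v x = w v) :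
    Nat.card {x : H // rp x ∈ Lp ∧ ∀ v, r v x ∈ L v} * (Nat.card Dp * ∏ v, Nat.card (D v)) =
      Nat.card H * (Nat.card ↥Lp * ∏ v, Nat.card ↥(L v)) := by
  classical
  have hsurj : Function.Surjective (totalLoc rp r) := by
    rintro ⟨wp, w⟩
    obtain ⟨x, hx, hx'⟩ := honto wp w
    refine ⟨x, ?_⟩
    rw [totalLoc_apply, hx]
    congr 1
    funext v
    exact hx' v
  have hidx : ((condSub Lp L).comap (totalLoc rp r)).index = (condSub Lp L).index :=
    AddSubgroup.index_comap_of_surjective _ hsurj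
  have h1 : Nat.card ↥((condSub Lp L).comap (totalLoc rp r)) * (condSub Lp L).index =
      Nat.card H := by
    rw [← hidx]
    exact AddSubgroup.card_mul_index _
  have h2 : Nat.card ↥(condSub Lp L) * (condSub Lp L).index = Nat.card (Dp × (∀ v, D v)) :=
    AddSubgroup.card_mul_index _
  have h3 : Nat.card {x : H // rp x ∈ Lp ∧ ∀ v, r v x ∈ L v} =
      Nat.card ↥((condSub Lp L).comap (totalLoc rp r)) := by
    refine Nat.card_congr (Equiv.subtypeEquivRight fun x => ?_)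
    rw [AddSubgroup.mem_comap, mem_condSub, totalLoc_apply]
  rw [Nat.card_prod, Nat.card_pi] at h2
  rw [card_condSub] at h2
  rw [h3, ← h2, ← h1]
  ring

end Abstract

/-! ### The numerical chain -/

section Chain

variable {ι : Type*} [Fintype ι]

/-- The Greenberg–Wiles count, numerical form: `s = #Sel`, `h1, h2 = #H¹, #H²(G_T, M)`,
`κ = #k`, `nQ = #Q`, `dp0, dp1, dp2, lp` the local numbers at `p`, `d0, d1, d2, l` those at the
other primes with a local condition. -/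
theorem chain (s h1 h2 κ nQ dp0 dp1 dp2 lp : ℕ) (d0 d1 d2 l : ι → ℕ)
    (hcount : s * (dp1 * ∏ v, d1 v) = h1 * (lp * ∏ v, l v))
    (hEC : h1 ≤ κ ^ 2 * h2)
    (hsha : h2 ≤ dp2 * (∏ v, d2 v) * κ ^ nQ)
    (hl : ∀ v, l v ≤ d0 v) (hlec : ∀ v, d0 v * d2 v ≤ d1 v)
    (hlp : lp ≤ κ * dp0) (hlecp : dp0 * dp2 * κ ^ 3 ≤ dp1)
    (hpos : 0 < dp1) (hpos' : ∀ v, 0 < d1 v) : s ≤ κ ^ nQ := by
  have hP : 0 < dp1 * ∏ v, d1 v :=
    Nat.mul_pos hpos (Finset.prod_pos fun v _ => hpos' v)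
  have h1' : (∏ v, d2 v * l v) ≤ ∏ v, d1 v :=
    Finset.prod_le_prod (fun _ _ => Nat.zero_le _)
      (fun v _ => le_trans (by rw [mul_comm]; exact Nat.mul_le_mul_right _ (hl v)) (hlec v))
  have h2' : κ ^ 2 * (dp2 * lp) ≤ dp1 := by
    calc κ ^ 2 * (dp2 * lp) ≤ κ ^ 2 * (dp2 * (κ * dp0)) := by gcongr
      _ = dp0 * dp2 * κ ^ 3 := by ring
      _ ≤ dp1 := hlecp
  have key : s * (dp1 * ∏ v, d1 v) ≤ κ ^ nQ * (dp1 * ∏ v, d1 v) := by
    calc s * (dp1 * ∏ v, d1 v) = h1 * (lp * ∏ v, l v) := hcount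
      _ ≤ (κ ^ 2 * (dp2 * (∏ v, d2 v) * κ ^ nQ)) * (lp * ∏ v, l v) := by
          gcongr
          exact le_trans hEC (Nat.mul_le_mul_left _ hsha)
      _ = κ ^ nQ * ((κ ^ 2 * (dp2 * lp)) * ((∏ v, d2 v) * ∏ v, l v)) := by ring
      _ = κ ^ nQ * ((κ ^ 2 * (dp2 * lp)) * ∏ v, d2 v * l v) := by
          rw [Finset.prod_mul_distrib]
      _ ≤ κ ^ nQ * (dp1 * ∏ v, d1 v) := by gcongr
  exact Nat.le_of_mul_le_mul_right key hP

end Chain

/-! ### Degree 2 vocabulary -/

section Coh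

variable {k : Type} [CommRing k] (T : Finset Nat.Primes) (M : Rep k Γ)

/-- `H²(G_T, M)`: level classes of degree 2 of a level unramified outside `T`. -/
abbrev H2g : Type := LevelCoh28.H2 (LevelBridge13.globalBasis T) M

/-- `H²(Gal(ℚ̄_q/ℚ_q), M)` (level classes). -/
abbrev H2D (q : Nat.Primes) : Type :=
  LevelCoh28.H2 (LevelBridge13.pullBasis (locD q)) (Rep.res (locD q) M)

/-- Restriction to the decomposition group at `q` in degree 2. -/
noncomputable def resD2 (q : Nat.Primes) : H2g T M →ₗ[k] H2D M q :=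
  ShaBridge13.resH2 T (locD q) M

/-- Restriction to inertia factors through the decomposition group. -/
theorem resI_eq (q : Nat.Primes) (x : H1g T M) : resI T M q x = resDI M q (resD T M q x) := by
  obtain ⟨c, rfl⟩ := LevelCoh28.H1mk_surjective _ _ x
  rfl

theorem mem_Sel_iff' {U : Finset Nat.Primes} {pp : Nat.Primes} {Lp : Submodule k (H1D M pp)}
    (x : H1g T M) :
    x ∈ Sel T M U pp Lp ↔
      resD T M pp x ∈ Lp.toAddSubgroup ∧ ∀ v : ↥U, resD T M v x ∈ (H1ur M v).toAddSubgroup := by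
  rw [mem_Sel_iff]
  constructor
  · rintro ⟨h1, h2⟩
    refine ⟨h2, fun v => ?_⟩
    show resD T M v x ∈ H1ur M v
    rw [H1ur, LinearMap.mem_ker, ← resI_eq]
    exact h1 v v.2
  · rintro ⟨h1, h2⟩
    refine ⟨fun q hq => ?_, h1⟩
    have := h2 ⟨q, hq⟩
    have h3 : resD T M q x ∈ H1ur M q := this
    rw [H1ur, LinearMap.mem_ker, ← resI_eq] at h3
    exact h3

end Coh

/-! ### The count in `Defs9` vocabulary -/

section Main

variable {k : Type} [CommRing k] (T U : Finset Nat.Primes) (pp : Nat.Primes) (M : Rep k Γ)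
  (Lp : Submodule k (H1D M pp))

/-- `#H²(G_T, M) ≤ ∏_{q ∈ T} #H²(Γ_q, M)` when `Sha² = 0`. -/
theorem card_H2g_le [∀ q : ↥T, Finite (H2D M q)]
    (hinj : ∀ x : H2g T M, (∀ q ∈ T, resD2 T M q x = 0) → x = 0) :
    Nat.card (H2g T M) ≤ ∏ q ∈ T, Nat.card (H2D M q) := by
  classical
  let f : H2g T M →ₗ[k] (∀ q : ↥T, H2D M q) := LinearMap.pi fun q => resD2 T M q
  have hf : Function.Injective f := by
    refine (injective_iff_map_eq_zero f).2 fun x hx => ?_
    exact hinj x fun q hq => congrFun hx ⟨q, hq⟩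
  have h := Nat.card_le_card_of_injective f hf
  rw [Nat.card_pi] at h
  rwa [Finset.prod_coe_sort T fun q => Nat.card (H2D M q)] at h

/-- **The Greenberg–Wiles count** (K-GW): `T` = primes where ramification is allowed, `U ⊆ T` the
primes with the unramified condition, `pp ∈ T ∖ U` the prime with the condition `Lp`; the other
primes of `T` (the Taylor–Wiles primes) carry no condition.  From
* `honto` (PT-mid-onto: the total localisation map to the places of `U ∪ {pp}` is onto),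
* `hinj` (`Sha²_T(M) = 0`),
* `hEC` (global Euler characteristic bound `#H¹ ≤ κ² #H²`),
* `hur` (`#H¹_ur ≤ d0`), `hlec` (`d0 · #H² ≤ #H¹` at `v ∈ U`), `hLp` (`#Lp ≤ κ d0`),
  `hlecp` (`d0 · #H² · κ³ ≤ #H¹` at `pp`), `hTW` (`#H² ≤ κ` at the other primes),
the Selmer group has at most `κ ^ #(T ∖ (U ∪ {pp}))` elements. -/
theorem card_Sel_le (κ : ℕ) (hUT : U ⊆ T) (hppT : pp ∈ T) (hppU : pp ∉ U)
    [Finite (H1D M pp)] [∀ v : ↥U, Finite (H1D M v)] [∀ q : ↥T, Finite (H2D M q)]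
    (honto : ∀ (wp : H1D M pp) (w : ∀ v : ↥U, H1D M v),
      ∃ x : H1g T M, resD T M pp x = wp ∧ ∀ v : ↥U, resD T M v x = w v)
    (hinj : ∀ x : H2g T M, (∀ q ∈ T, resD2 T M q x = 0) → x = 0)
    (hEC : Nat.card (H1g T M) ≤ κ ^ 2 * Nat.card (H2g T M))
    (d0 : Nat.Primes → ℕ)
    (hur : ∀ v ∈ U, Nat.card ↥(H1ur M v) ≤ d0 v)
    (hlec : ∀ v ∈ U, d0 v * Nat.card (H2D M v) ≤ Nat.card (H1D M v))
    (hLp : Nat.card ↥Lp ≤ κ * d0 pp)
    (hlecp : d0 pp * Nat.card (H2D M pp) * κ ^ 3 ≤ Nat.card (H1D M pp))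
    (hTW : ∀ q ∈ T, q ∉ U → q ≠ pp → Nat.card (H2D M q) ≤ κ) :
    Nat.card ↥(Sel T M U pp Lp) ≤ κ ^ (T \ insert pp U).card := by
  classical
  -- the count
  let r : ∀ v : ↥U, H1g T M →+ H1D M v := fun v => (resD T M v).toAddMonoidHom
  have honto' : ∀ (wp : H1D M pp) (w : ∀ v : ↥U, H1D M v),
      ∃ x : H1g T M, (resD T M pp).toAddMonoidHom x = wp ∧ ∀ v : ↥U, r v x = w v := honto
  have hcount := card_sel_mul (H := H1g T M) (Dp := H1D M pp) (ι := ↥U)
    (D := fun v : ↥U => H1D M v)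
    (resD T M pp).toAddMonoidHom r
    Lp.toAddSubgroup (fun v : ↥U => (H1ur M v).toAddSubgroup) honto'
  have hs : Nat.card ↥(Sel T M U pp Lp) =
      Nat.card {x : H1g T M // (resD T M pp).toAddMonoidHom x ∈ Lp.toAddSubgroup ∧
        ∀ v : ↥U, (resD T M v).toAddMonoidHom x ∈ (H1ur M v).toAddSubgroup} :=
    Nat.card_congr (Equiv.subtypeEquivRight fun x => mem_Sel_iff' T M x)
  rw [← hs] at hcount
  -- `Sha² = 0`
  have h2 := card_H2g_le T M hinj
  have hsub : insert pp U ⊆ T := Finset.insert_subset hppT hUT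
  have hsplit : ∏ q ∈ T, Nat.card (H2D M q) =
      (∏ q ∈ T \ insert pp U, Nat.card (H2D M q)) *
        (Nat.card (H2D M pp) * ∏ q ∈ U, Nat.card (H2D M q)) := by
    rw [← Finset.prod_insert (f := fun q => Nat.card (H2D M q)) hppU, Finset.prod_sdiff hsub]
  have hQ : ∏ q ∈ T \ insert pp U, Nat.card (H2D M q) ≤ κ ^ (T \ insert pp U).card := by
    refine Finset.prod_le_pow_card _ _ _ fun q hq => ?_
    rw [Finset.mem_sdiff, Finset.mem_insert, not_or] at hq
    exact hTW q hq.1 hq.2.2 hq.2.1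
  have hsha : Nat.card (H2g T M) ≤
      Nat.card (H2D M pp) * (∏ v : ↥U, Nat.card (H2D M v)) * κ ^ (T \ insert pp U).card := by
    rw [Finset.prod_coe_sort U fun q => Nat.card (H2D M q)]
    calc Nat.card (H2g T M) ≤ ∏ q ∈ T, Nat.card (H2D M q) := h2
      _ = (∏ q ∈ T \ insert pp U, Nat.card (H2D M q)) *
            (Nat.card (H2D M pp) * ∏ q ∈ U, Nat.card (H2D M q)) := hsplit
      _ ≤ κ ^ (T \ insert pp U).card *
            (Nat.card (H2D M pp) * ∏ q ∈ U, Nat.card (H2D M q)) :=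
          Nat.mul_le_mul_right _ hQ
      _ = _ := by ring
  exact chain (ι := ↥U) (Nat.card ↥(Sel T M U pp Lp)) (Nat.card (H1g T M)) (Nat.card (H2g T M)) κ
    (T \ insert pp U).card (d0 pp) (Nat.card (H1D M pp)) (Nat.card (H2D M pp)) (Nat.card ↥Lp)
    (fun v => d0 v) (fun v => Nat.card (H1D M v)) (fun v => Nat.card (H2D M v))
    (fun v => Nat.card ↥(H1ur M v)) hcount hEC hsha (fun v => hur v v.2) (fun v => hlec v v.2)
    hLp hlecp Nat.card_pos (fun v => Nat.card_pos)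

end Main

end Fermat.Agent.W56.GWCount4
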