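/-
Programme W56 (target S56), chapter (K-GW), helper4: **the named local contracts and the adapters
for the count** `GWCount4.card_Sel_le`.

* `d0 M q = #H⁰(Γ_q, M)` (Mathlib's `Representation.invariants` of `Rep.res (locD q) M`);
* `LocalEulerChar` (LEC): Tate's LOCAL Euler characteristic, inequality form
  `#H⁰(Γ_q,M) · #H²(Γ_q,M) · (#M if q = p) ≤ #H¹(Γ_q,M)`, including finiteness of `H²`;
* `LocalH2Bound` (LH2): the left kernel of the local `(2,0)` pairing as a cardinality bound
  `#H²(Γ_q, M) ≤ #H⁰(Γ_q, M^∨(1))`;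
  (both are classical theorems of Tate; NOT proved in the tree: `Prop`-valued definitions, to be used
  as named hypotheses);
* `honto_of_forall`: PT-mid-onto in the shape `∀ w : ∀ q, H1D M q, ∃ x, ∀ q ∈ T₀, res_q x = w q`
  gives the hypothesis `honto` of the count;
* `finite_H2g_of_inj`: `Sha² = 0` and finite local `H²` give `Finite (H2g T M)`;
* **`card_Sel_le_of_contracts`**: the count with `hur` discharged by `H1urCard8.card_H1ur_le'`,
  the finiteness of the local `H¹` by `FinH1D1.finite_H1D`, and `hlec`, `hlecp` by (LEC).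
-/
import Mathlib
import Fermat.Agent.W56.Defs9
import Fermat.Agent.W56.GWCount4
import Fermat.Agent.W56.FinH1D1
import Fermat.Agent.W56.H1urCard8

set_option autoImplicit false
set_option linter.unusedSectionVars false

open CategoryTheory

namespace Fermat.Agent.W56.GWContracts4

open Fermat.Agent.PT.PRO Fermat.Agent.PT.BR Fermat.Agent.W56.Defs9 Fermat.Agent.W56.GWCount4

local notation "Γ" => (AlgebraicClosure ℚ ≃ₐ[ℚ] AlgebraicClosure ℚ)
local notation "Qbar" => AlgebraicClosure ℚ

/-- `#H⁰(Γ_q, M)`. -/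
noncomputable def d0 {k : Type} [CommRing k] (M : Rep k Γ) (q : Nat.Primes) : ℕ :=
  Nat.card ↥(Rep.res (locD q) M).ρ.invariants

/-- `M` is a smooth (discrete) `Γ`-module. -/
def IsSmooth {k : Type} [CommRing k] (M : Rep k Γ) : Prop :=
  ∀ m : M, ∃ F : IntermediateField ℚ Qbar, FiniteDimensional ℚ F ∧
    ∀ s ∈ F.fixingSubgroup, M.ρ s m = m

/-- (LEC) **Tate's local Euler characteristic**, inequality form, for every prime `q`:
`H²(Γ_q, M)` is finite and `#H⁰(Γ_q,M) · #H²(Γ_q,M) · (#M if q = p) ≤ #H¹(Γ_q,M)`. -/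
def LocalEulerChar : Prop :=
  ∀ (k : Type) [Field k] [Finite k] (p : ℕ) [Fact p.Prime] [CharP k p], p ≠ 2 →
  ∀ (M : Rep k Γ) [Module.Finite k M], IsSmooth M → ∀ q : Nat.Primes,
    Finite (H2D M q) ∧
      d0 M q * Nat.card (H2D M q) * (if (q : ℕ) = p then Nat.card M else 1) ≤ Nat.card (H1D M q)

/-- (LH2) **the local `(2,0)` duality as a bound**: `#H²(Γ_q, M) ≤ #H⁰(Γ_q, M^∨(1))`. -/
def LocalH2Bound : Prop :=
  ∀ (k : Type) [Field k] [Finite k] (p : ℕ) [Fact p.Prime] [CharP k p], p ≠ 2 →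
  ∀ (M : Rep k Γ) [Module.Finite k M], IsSmooth M → ∀ q : Nat.Primes,
    Finite (H2D M q) ∧ Nat.card (H2D M q) ≤ d0 (M.dualTwist (cycloK (k := k) p)) q

section Adapters

variable {k : Type} [CommRing k] (T U : Finset Nat.Primes) (pp : Nat.Primes) (M : Rep k Γ)

/-- PT-mid-onto in the shape of `PTDefs2.ptMid_onto` gives the hypothesis `honto` of the count. -/
theorem honto_of_forall (hppU : pp ∉ U)
    (h : ∀ w : (∀ q : Nat.Primes, H1D M q),
      ∃ x : H1g T M, ∀ q ∈ insert pp U, resD T M q x = w q)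
    (wp : H1D M pp) (w : ∀ v : ↥U, H1D M v) :
    ∃ x : H1g T M, resD T M pp x = wp ∧ ∀ v : ↥U, resD T M v x = w v := by
  classical
  let w' : ∀ q : Nat.Primes, H1D M q := fun q =>
    if hq : q = pp then hq ▸ wp else if hU : q ∈ U then w ⟨q, hU⟩ else 0
  obtain ⟨x, hx⟩ := h w'
  refine ⟨x, ?_, fun v => ?_⟩
  · have := hx pp (Finset.mem_insert_self _ _)
    rw [this]
    show (if hq : pp = pp then hq ▸ wp else _) = wp
    rw [dif_pos rfl]
  · have := hx v (Finset.mem_insert_of_mem v.2)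
    rw [this]
    have hv : (v : Nat.Primes) ≠ pp := fun h => hppU (h ▸ v.2)
    show (if hq : (v : Nat.Primes) = pp then hq ▸ wp else
      if hU : (v : Nat.Primes) ∈ U then w ⟨v, hU⟩ else 0) = w v
    rw [dif_neg hv, dif_pos v.2]

/-- `Sha² = 0` and finiteness of the local `H²` give finiteness of `H²(G_T, M)`. -/
theorem finite_H2g_of_inj [∀ q : ↥T, Finite (H2D M q)]
    (hinj : ∀ x : H2g T M, (∀ q ∈ T, resD2 T M q x = 0) → x = 0) : Finite (H2g T M) := by
  let f : H2g T M →ₗ[k] (∀ q : ↥T, H2D M q) := LinearMap.pi fun q => resD2 T M q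
  have hf : Function.Injective f := by
    refine (injective_iff_map_eq_zero f).2 fun x hx => ?_
    exact hinj x fun q hq => congrFun hx ⟨q, hq⟩
  exact Finite.of_injective f hf

end Adapters


section Main

variable {k : Type} [Field k] [Finite k] (p : ℕ) [Fact p.Prime] [CharP k p]
  (T U : Finset Nat.Primes) (pp : Nat.Primes) (M : Rep k Γ) [Module.Finite k M]
  (Lp : Submodule k (H1D M pp))

include p in
theorem nsmul_eq_zero_of_charP (m : M) : p • m = 0 := by
  rw [← Nat.cast_smul_eq_nsmul k, CharP.cast_eq_zero k p, zero_smul]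

/-- **The Greenberg–Wiles count from the named contracts**: `honto` in the shape of PT-mid-onto,
`hinj` (`Sha² = 0`), `hEC` (global Euler characteristic, `EulerAd4.card_H1g_ad0_le`), (LEC), and
the bounds `hLp` on the condition at `p` and `hTW` on the local `H²` at the remaining primes. -/
theorem card_Sel_le_of_contracts (hLEC : LocalEulerChar) (hp2 : p ≠ 2) (hpp : (pp : ℕ) = p)
    (hsm : IsSmooth M) (hUT : U ⊆ T) (hppT : pp ∈ T) (hppU : pp ∉ U)
    (hPT : ∀ w : (∀ q : Nat.Primes, H1D M q),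
      ∃ x : H1g T M, ∀ q ∈ insert pp U, resD T M q x = w q)
    (hinj : ∀ x : H2g T M, (∀ q ∈ T, resD2 T M q x = 0) → x = 0)
    (hEC : Nat.card (H1g T M) ≤ Nat.card k ^ 2 * Nat.card (H2g T M))
    (hM3 : Nat.card M = Nat.card k ^ 3)
    (hLp : Nat.card ↥Lp ≤ Nat.card k * d0 M pp)
    (hTW : ∀ q ∈ T, q ∉ U → q ≠ pp → Nat.card (H2D M q) ≤ Nat.card k) :
    Nat.card ↥(Sel T M U pp Lp) ≤ Nat.card k ^ (T \ insert pp U).card := by
  haveI : Finite M := Module.finite_of_finite k
  have hpM : ∀ m : M, p • m = 0 := nsmul_eq_zero_of_charP p M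
  haveI : Finite (H1D M pp) := FinH1D1.finite_H1D M p hpM hsm pp
  haveI : ∀ v : ↥U, Finite (H1D M v) := fun v => FinH1D1.finite_H1D M p hpM hsm v
  haveI : ∀ q : ↥T, Finite (H2D M q) := fun q => (hLEC k p hp2 M hsm q).1
  refine card_Sel_le T U pp M Lp (Nat.card k) hUT hppT hppU
    (honto_of_forall T U pp M hppU hPT) hinj hEC (d0 M) (fun v _ => ?_) (fun v hv => ?_) hLp ?_ hTW
  · exact H1urCard8.card_H1ur_le' v M (LevelBridge13.isDiscrete_pullSets M (locD v) hsm)
  · have h := (hLEC k p hp2 M hsm v).2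
    have hvp : ((v : Nat.Primes) : ℕ) ≠ p := by
      intro h'
      apply hppU
      have : v = pp := Subtype.ext (h'.trans hpp.symm)
      rw [← this]
      exact hv
    rwa [if_neg hvp, mul_one] at h
  · have h := (hLEC k p hp2 M hsm pp).2
    rwa [if_pos hpp, hM3] at h

end Main

end Fermat.Agent.W56.GWContracts4
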