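/-
Programme W56 (target S56), chapter (H) "assembly", helper9: **the elementary facts on
`M = ad0 ρ̄` and `M* = ad0D ρ̄ p`** consumed by the assembly: smoothness, unramifiedness outside
the ramification set of `ρ̄` (and `p`), `det ρ̄ = cycloK p` and `det ρ̄(c) = -1` from
`DetIsCyclotomic`, `H⁰(G_ℚ, ad⁰ρ̄) = 0` from absolute irreducibility.
-/
import Mathlib
import Fermat.Prelude.Def_GaloisRep_ComplexConjugation
import Fermat.Agent.W56.Defs9
import Fermat.Agent.W56.Dict9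
import Fermat.Agent.W56.GWContracts4
import Fermat.Agent.W56.UnipSel8
import Fermat.Agent.PT.BR.DualTwist7
import Fermat.Agent.ES.J.CycloChar8
import Fermat.Agent.S53.ResidualCore

set_option autoImplicit false

open CategoryTheory ExtCitation

namespace Fermat.Agent.W56.Ad0Facts9

open Fermat.Agent.PT.PRO Fermat.Agent.PT.BR Fermat.Agent.W56.Defs9 Fermat.Agent.W56.GWContracts4
  Fermat.Agent.W56.UnipSel8

local notation "Γ" => (AlgebraicClosure ℚ ≃ₐ[ℚ] AlgebraicClosure ℚ)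
local notation "Qbar" => AlgebraicClosure ℚ

variable {k : Type} [Field k] (ρbar : ResidualGaloisRep k)

theorem rho_inv_eq_one {s : Γ} (hs : ρbar.ρ s = 1) : ρbar.ρ s⁻¹ = 1 := by
  have h := rho_inv_mul ρbar s
  rwa [hs, mul_one] at h

theorem ad0_ρ_eq_one {s : Γ} (hs : ρbar.ρ s = 1) : (ad0 ρbar).ρ s = 1 := by
  refine LinearMap.ext fun X => endOf_injective ρbar ?_
  rw [endOf_ρ, hs, rho_inv_eq_one ρbar hs, one_mul, mul_one]
  rfl

/-- `ρ̄` is trivial on `Gal(ℚ̄/L)` for a finite `L`. -/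
theorem exists_level : ∃ L : IntermediateField ℚ Qbar, FiniteDimensional ℚ L ∧
    ∀ s ∈ L.fixingSubgroup, ρbar.ρ s = 1 := by
  obtain ⟨L, hL, h⟩ := ρbar.factorsThroughFiniteLevel
  refine ⟨L, hL, fun s hs => h s fun x hx => ?_⟩
  exact (IntermediateField.mem_fixingSubgroup_iff L s).1 hs x hx

theorem isSmooth_ad0 : IsSmooth (ad0 ρbar) := by
  obtain ⟨L, hL, h⟩ := exists_level ρbar
  intro m
  refine ⟨L, hL, fun s hs => ?_⟩
  rw [ad0_ρ_eq_one ρbar (h s hs), Module.End.one_apply]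

theorem ad0_unram (Smin : Finset ℕ) (hur : ∀ q : ℕ, q.Prime → q ∉ Smin → ρbar.IsUnramifiedAt q)
    (q : Nat.Primes) (hq : q ∉ primesOf Smin) (A : ValuationSubring Qbar)
    (hA : A.LiesOverPrime (q : ℕ)) (g : Γ) (hg : g ∈ A.inertiaSubgroupIn ℚ) :
    (ad0 ρbar).ρ g = 1 :=
  ad0_ρ_eq_one ρbar (hur q q.2 (fun h => hq (mem_primesOf.2 h)) A hA g hg)

theorem moduleFinite_ad0 : Module.Finite k (ad0 ρbar) := by
  show Module.Finite k ↥(sl ρbar)
  infer_instance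

variable (p : ℕ) [Fact p.Prime] [CharP k p]

theorem cycloK_eq_one {s : Γ} (h : cycloChar p s = 1) : cycloK (k := k) p s = 1 := by
  rw [cycloK, MonoidHom.comp_apply, h, map_one]

theorem ad0D_ρ_eq_one {s : Γ} (hs : ρbar.ρ s = 1) (hc : cycloChar p s = 1) :
    (ad0D ρbar p).ρ s = 1 := by
  refine LinearMap.ext fun f => ?_
  show ((cycloK (k := k) p s : kˣ) : k) • (f ∘ₗ (ad0 ρbar).ρ s⁻¹) = f
  rw [cycloK_eq_one p hc, Units.val_one, one_smul, ad0_ρ_eq_one ρbar (rho_inv_eq_one ρbar hs)]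
  rfl

theorem moduleFinite_ad0D : Module.Finite k (ad0D ρbar p) := by
  show Module.Finite k (Module.Dual k ↥(sl ρbar))
  infer_instance

theorem isSmooth_ad0D : IsSmooth (ad0D ρbar p) := by
  obtain ⟨L, hL, h⟩ := exists_level ρbar
  intro m
  have : FiniteDimensional ℚ L := hL
  refine ⟨L ⊔ Fermat.Agent.S14.Fields.Kz p, IntermediateField.finiteDimensional_sup _ _,
    fun s hs => ?_⟩
  rw [IntermediateField.fixingSubgroup_sup] at hs
  rw [ad0D_ρ_eq_one ρbar p (h s hs.1)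
    (DualTwist7.cycloChar_eq_one_of_mem_fixingSubgroup_Kz p hs.2), Module.End.one_apply]

theorem ad0D_unram (Smin : Finset ℕ) (hp : p ∈ Smin)
    (hur : ∀ q : ℕ, q.Prime → q ∉ Smin → ρbar.IsUnramifiedAt q)
    (q : Nat.Primes) (hq : q ∉ primesOf Smin) (A : ValuationSubring Qbar)
    (hA : A.LiesOverPrime (q : ℕ)) (g : Γ) (hg : g ∈ A.inertiaSubgroupIn ℚ) :
    (ad0D ρbar p).ρ g = 1 := by
  have hqS : (q : ℕ) ∉ Smin := fun h => hq (mem_primesOf.2 h)
  have hqp : (q : ℕ) ≠ p := fun h => hqS (h ▸ hp)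
  exact ad0D_ρ_eq_one ρbar p (hur q q.2 hqS A hA g hg)
    (DualTwist7.cycloChar_eq_one_of_mem_inertia p q.2 hqp A hA hg)

/-- The value of `cycloK p` in `k` is the cyclotomic exponent. -/
theorem coe_cycloK (σ : Γ) : ((cycloK (k := k) p σ : kˣ) : k) = (cycloExp p σ : k) := by
  have : NeZero p := ⟨(Fact.out : p.Prime).ne_zero⟩
  show (ZMod.castHom (dvd_refl p) k) ((cycloChar p σ : (ZMod p)ˣ) : ZMod p) = _
  rw [← val_cycloChar, ← map_natCast (ZMod.castHom (dvd_refl p) k), ZMod.natCast_zmod_val]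

/-- `det ρ̄ = cycloK p`. -/
theorem det_eq_cycloK (hdet : (GaloisRepAdic.ofResidualGaloisRep ρbar).DetIsCyclotomic p) (σ : Γ) :
    LinearMap.det (ρbar.ρ σ) = ((cycloK (k := k) p σ : kˣ) : k) := by
  rw [coe_cycloK]
  exact Dict9.det_eq_cycloExp p (GaloisRepAdic.ofResidualGaloisRep ρbar) (CharP.cast_eq_zero k p)
    hdet σ

omit [Fact p.Prime] in
/-- The determinant hypothesis of `TwDefs5.TwPrimeContract`. -/
theorem det_eq_natCast (hdet : (GaloisRepAdic.ofResidualGaloisRep ρbar).DetIsCyclotomic p) (σ : Γ)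
    (a : ℕ) (ha : ∀ μ : Qbar, μ ^ p = 1 → σ μ = μ ^ a) :
    LinearMap.det (ρbar.ρ σ) = (a : k) := by
  have h1 := hdet.2 1 σ a (fun μ hμ => ha μ (by rwa [pow_one] at hμ))
  rw [pow_one, CharP.cast_eq_zero k p, Ideal.mem_span_singleton, zero_dvd_iff, sub_eq_zero] at h1
  exact h1

/-- `det ρ̄(c) = -1`. -/
theorem det_complexConjugation
    (hdet : (GaloisRepAdic.ofResidualGaloisRep ρbar).DetIsCyclotomic p) :
    LinearMap.det (ρbar.ρ complexConjugation) = -1 := by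
  have hp : p.Prime := Fact.out
  rw [det_eq_natCast ρbar p hdet complexConjugation (p - 1)]
  · rw [Nat.cast_sub hp.one_le, CharP.cast_eq_zero k p, Nat.cast_one, zero_sub]
  · intro μ hμ
    rw [Fermat.Agent.ES.J.CycloChar8.complexConjugation_rootOfUnity hp.ne_zero hμ]
    have hμ0 : μ ≠ 0 := by
      rintro rfl
      rw [zero_pow hp.ne_zero] at hμ
      exact zero_ne_one hμ
    rw [eq_comm, ← mul_right_inj' hμ0, mul_inv_cancel₀ hμ0, ← pow_succ',
      Nat.sub_add_cancel hp.one_le, hμ]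

/-- `H⁰(G_ℚ, ad⁰ρ̄) = 0` (Schur). -/
theorem H0_ad0_eq_zero (habs : ρbar.IsAbsolutelyIrreducible) (h2 : (2 : k) ≠ 0) (m : ad0 ρbar)
    (hm : ∀ g : Γ, (ad0 ρbar).ρ g m = m) : m = 0 := by
  have hcomm : ∀ σ : Γ, endOf ρbar m * ρbar.ρ σ = ρbar.ρ σ * endOf ρbar m := by
    intro σ
    have h1 : ρbar.ρ σ * endOf ρbar m * ρbar.ρ σ⁻¹ = endOf ρbar m := by
      rw [← endOf_ρ, hm σ]
    calc endOf ρbar m * ρbar.ρ σ
        = ρbar.ρ σ * endOf ρbar m * ρbar.ρ σ⁻¹ * ρbar.ρ σ := by rw [h1]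
      _ = ρbar.ρ σ * endOf ρbar m := by rw [mul_assoc, rho_inv_mul, mul_one]
  obtain ⟨c, hc⟩ := Fermat.Agent.S53.schur_end ρbar habs (endOf ρbar m) hcomm
  have htr : LinearMap.trace k ρbar.V (endOf ρbar m) = 0 :=
    (mem_sl_iff ρbar _).1 (endOf_mem ρbar m)
  rw [hc, map_smul, LinearMap.trace_one, ρbar.finrank_eq, smul_eq_mul] at htr
  have hc0 : c = 0 := by
    rcases mul_eq_zero.1 htr with h | h
    · exact h
    · exact absurd (by exact_mod_cast h) h2
  apply endOf_injective ρbar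
  rw [hc, hc0, zero_smul]
  rfl

end Fermat.Agent.W56.Ad0Facts9
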