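/-
Programme W56 (target S56), chapter (G) "Taylor–Wiles primes" (helper5): **definitions and the
contract of the chapter.**

`ρbar : ResidualGaloisRep k`.  The module `ad⁰ ρbar (1)` is realised inside `End_k V` as the
trace-zero endomorphisms with the twisted adjoint action
`σ • A = det (ρbar σ) • (ρbar σ ∘ A ∘ ρbar σ⁻¹)` (under `DetIsCyclotomic` the determinant is the
mod `p` cyclotomic character).  A *twisted cocycle* is a level-constant map
`c : G_ℚ → End_k V` with trace-zero values and `c (σ τ) = c σ + σ • c τ`.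

`TwPrimeContract` is the output of the chapter: for a twisted cocycle which is not a coboundary
there is a Taylor–Wiles prime of any prescribed depth, outside any prescribed finite set, at which
the cocycle is not a coboundary on a Frobenius element.
-/
import Mathlib
import Fermat.Prelude.Def_GaloisRep_Residual
import Fermat.Prelude.Def_FLTPrelim_Ramification

set_option autoImplicit false

noncomputable section

namespace Fermat.Agent.W56.TwDefs5

open Polynomial

/-- the absolute Galois group of `ℚ`. -/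
abbrev GQ : Type := AlgebraicClosure ℚ ≃ₐ[ℚ] AlgebraicClosure ℚ

variable {k : Type} [Field k] (ρbar : ResidualGaloisRep k)

/-- the twisted adjoint action on `End_k V`. -/
def adTw (σ : GQ) (A : Module.End k ρbar.V) : Module.End k ρbar.V :=
  LinearMap.det (ρbar.ρ σ) • (ρbar.ρ σ * A * ρbar.ρ σ⁻¹)

/-- level-constant twisted `1`-cocycles with values in the trace-zero endomorphisms. -/
structure IsTwCocycle (c : GQ → Module.End k ρbar.V) : Prop where
  trace_zero : ∀ σ, LinearMap.trace k ρbar.V (c σ) = 0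
  cocycle : ∀ σ τ, c (σ * τ) = c σ + adTw ρbar σ (c τ)
  level : ∃ L : IntermediateField ℚ (AlgebraicClosure ℚ), FiniteDimensional ℚ L ∧
    ∀ σ τ : GQ, (∀ x ∈ L, σ x = τ x) → c σ = c τ

/-- twisted coboundaries. -/
def IsTwCoboundary (c : GQ → Module.End k ρbar.V) : Prop :=
  ∃ A : Module.End k ρbar.V, LinearMap.trace k ρbar.V A = 0 ∧ ∀ σ, c σ = adTw ρbar σ A - A

/-- the local class of `c` at a single element `φ` is non-trivial. -/
def NonTrivAt (c : GQ → Module.End k ρbar.V) (φ : GQ) : Prop :=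
  ∀ A : Module.End k ρbar.V, LinearMap.trace k ρbar.V A = 0 → c φ ≠ adTw ρbar φ A - A

/-- **the contract of chapter (G).** -/
def TwPrimeContract (p : ℕ) : Prop :=
  (∀ σ : GQ, ∀ a : ℕ, (∀ μ : AlgebraicClosure ℚ, μ ^ p = 1 → σ μ = μ ^ a) →
      LinearMap.det (ρbar.ρ σ) = (a : k)) →
  ρbar.IsAbsolutelyIrreducible →
  (∀ σ : GQ, ∃ α β : k, LinearMap.charpoly (ρbar.ρ σ) = (X - C α) * (X - C β)) →
  (∀ (K : Type) [Field K] [Algebra k K] (G : Subgroup GQ), G.index = 2 →
      ∀ V : Submodule K (ρbar.baseChange K).V,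
        (∀ σ ∈ G, ∀ x ∈ V, (ρbar.baseChange K).ρ σ x ∈ V) → V = ⊥ ∨ V = ⊤) →
  ∀ (S : Finset ℕ) (n : ℕ) (c : GQ → Module.End k ρbar.V),
    IsTwCocycle ρbar c → ¬ IsTwCoboundary ρbar c →
    ∃ q : ℕ, q.Prime ∧ q ∉ S ∧ p ^ (n + 1) ∣ q - 1 ∧
      ∀ P : ValuationSubring (AlgebraicClosure ℚ), P.LiesOverPrime q →
        ∀ φ : GQ, P.IsFrobeniusAt φ q →
          (∃ α β : k, α ≠ β ∧ LinearMap.charpoly (ρbar.ρ φ) = (X - C α) * (X - C β)) ∧
          NonTrivAt ρbar c φ

end Fermat.Agent.W56.TwDefs5
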