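/-
Programme W56 (target S56), chapter (H) "assembly", helper9: **the named contracts of the
conditional theorem** (stage 1), next to `EulerDefs4.EulerCharBoundAd0` (global Euler
characteristic), `GWContracts4.LocalEulerChar` (local Euler characteristic) and
`TwDefs5.TwPrimeContract` (Taylor–Wiles primes).  Each is a `Prop`-valued definition: a classical
theorem whose proof is in progress in another chapter of the programme, consumed here as a
hypothesis.

* `PTMidOnto`: the middle of the Poitou–Tate sequence, "onto" form (chapter (E1), `PTDefs2`);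
* `Sha2Injective`: `Sha¹(M*) = 0 ⟹ Sha²(M) = 0` (chapter (E1));
* `TwH2Bound`: `#H²(Γ_q, ad⁰ρ̄) ≤ #k` at a Taylor–Wiles prime (chapters (C)/(LH2));
* `LpSOBound`: `#L_p ≤ #k · #H⁰(Γ_p, ad⁰ρ̄)` for the strict-ordinary condition (chapter (D2));
* `TwPrimes`: the contract of chapter (G) for every residual representation.
-/
import Mathlib
import Fermat.Agent.W56.Defs9
import Fermat.Agent.W56.GWContracts4
import Fermat.Agent.W56.TwDefs5
import Fermat.Agent.W56.DictSO9

set_option autoImplicit false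

open CategoryTheory ExtCitation Polynomial

namespace Fermat.Agent.W56.Contracts9

open Fermat.Agent.PT.PRO Fermat.Agent.PT.BR Fermat.Agent.W56.Defs9 Fermat.Agent.W56.GWCount4
  Fermat.Agent.W56.GWContracts4

local notation "Γ" => (AlgebraicClosure ℚ ≃ₐ[ℚ] AlgebraicClosure ℚ)
local notation "Qbar" => AlgebraicClosure ℚ

/-- (PT-mid-onto) **the middle of the Poitou–Tate sequence**: if no non-zero class of
`H¹(G_T, M*)` is trivial at all primes of `T \ T₀`, then `H¹(G_T, M) → ∏_{q ∈ T₀} H¹(Γ_q, M)` is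
onto. -/
def PTMidOnto : Prop :=
  ∀ (k : Type) [Field k] [Finite k] (p : ℕ) [Fact p.Prime] [CharP k p], p ≠ 2 →
  ∀ (T : Finset Nat.Primes), pPrime p ∈ T → ∀ (M : Rep k Γ) [FiniteDimensional k M],
    (∀ m : M, ∃ F : IntermediateField ℚ Qbar, FiniteDimensional ℚ F ∧
      ∀ s ∈ F.fixingSubgroup, M.ρ s m = m) →
    (∀ q : Nat.Primes, q ∉ T → ∀ A : ValuationSubring Qbar, A.LiesOverPrime (q : ℕ) →
      ∀ g ∈ A.inertiaSubgroupIn ℚ, M.ρ g = 1) →
    ∀ (T₀ : Finset Nat.Primes), T₀ ⊆ T → (∀ q ∈ T₀, Finite (H1D M q)) →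
    (∀ y : H1g T (M.dualTwist (cycloK (k := k) p)),
      (∀ q ∈ T \ T₀, resD T (M.dualTwist (cycloK (k := k) p)) q y = 0) → y = 0) →
    ∀ w : (∀ q : Nat.Primes, H1D M q), ∃ x : H1g T M, ∀ q ∈ T₀, resD T M q x = w q

/-- (Sha²) **`Sha¹(G_T, M*) = 0` implies `Sha²(G_T, M) = 0`** (Poitou–Tate duality between the
Tate–Shafarevich groups, S55). -/
def Sha2Injective : Prop :=
  ∀ (k : Type) [Field k] [Finite k] (p : ℕ) [Fact p.Prime] [CharP k p], p ≠ 2 →
  ∀ (T : Finset Nat.Primes), pPrime p ∈ T → ∀ (M : Rep k Γ) [FiniteDimensional k M],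
    (∀ m : M, ∃ F : IntermediateField ℚ Qbar, FiniteDimensional ℚ F ∧
      ∀ s ∈ F.fixingSubgroup, M.ρ s m = m) →
    (∀ q : Nat.Primes, q ∉ T → ∀ A : ValuationSubring Qbar, A.LiesOverPrime (q : ℕ) →
      ∀ g ∈ A.inertiaSubgroupIn ℚ, M.ρ g = 1) →
    (∀ y : H1g T (M.dualTwist (cycloK (k := k) p)),
      (∀ q ∈ T, resD T (M.dualTwist (cycloK (k := k) p)) q y = 0) → y = 0) →
    ∀ x : H2g T M, (∀ q ∈ T, resD2 T M q x = 0) → x = 0

/-- (TW-H2) **the local `H²` at a Taylor–Wiles prime**: `q ≡ 1 mod p`, `ρ̄` unramified at `q` with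
distinct Frobenius eigenvalues; then `#H²(Γ_q, ad⁰ρ̄) ≤ #k`. -/
def TwH2Bound : Prop :=
  ∀ (k : Type) [Field k] [Finite k] (p : ℕ) [Fact p.Prime] [CharP k p], p ≠ 2 →
  ∀ (ρbar : ResidualGaloisRep k) (q : Nat.Primes), (q : ℕ) ≠ p → p ∣ (q : ℕ) - 1 →
    ρbar.IsUnramifiedAt q →
    (∀ P : ValuationSubring Qbar, P.LiesOverPrime (q : ℕ) → ∀ φ : Γ, P.IsFrobeniusAt φ (q : ℕ) →
      ∃ α β : k, α ≠ β ∧ LinearMap.charpoly (ρbar.ρ φ) = (X - C α) * (X - C β)) →
    Nat.card (H2D (ad0 ρbar) q) ≤ Nat.card k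

/-- (D2) **the size of the strict-ordinary condition at `p`**: in a basis `b` of `V̄` in which the
decomposition group at `p` is upper triangular with unramified quotient character and cyclotomic
ratio, `#L_p ≤ #k · #H⁰(Γ_p, ad⁰ρ̄)` for `L_p = LpSO ρ̄ (k · b 0)`. -/
def LpSOBound : Prop :=
  ∀ (k : Type) [Field k] [Finite k] (p : ℕ) [Fact p.Prime] [CharP k p], p ≠ 2 →
  ∀ (ρbar : ResidualGaloisRep k) (b : Module.Basis (Fin 2) k ρbar.V),
    DictSO9.IsSOmat (primeLocalPlace (pPrime p)) p (Lift9.rbarOf ρbar b) →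
    Nat.card ↥(LpSO ρbar (Submodule.span k {b 0}) (pPrime p)) ≤
      Nat.card k * d0 (ad0 ρbar) (pPrime p)

/-- (G) **Taylor–Wiles primes**: the contract `TwDefs5.TwPrimeContract` for every residual
representation over a finite field of characteristic `p ≠ 2`. -/
def TwPrimes : Prop :=
  ∀ (k : Type) [Field k] [Finite k] (p : ℕ) [Fact p.Prime] [CharP k p], p ≠ 2 →
  ∀ ρbar : ResidualGaloisRep k, TwDefs5.TwPrimeContract ρbar p

end Fermat.Agent.W56.Contracts9
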