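/-
Programme W56 (target S56, Taylor–Wiles primes), chapter (E2)+(E3), helper4: **the CONTRACT of the
global Euler characteristic**, in the vocabulary of `W56/Defs9` and `W56/GWCount4`.

Tate's formula over `ℚ` (`p` odd): `#H⁰(G_T,M) · #H²(G_T,M) · #M^{c=1} = #H¹(G_T,M) · ...`, i.e.
`χ(G_T, M) = #H⁰(G_ℝ, M) / #M`.  The Greenberg–Wiles count only uses the UPPER bound for `#H¹`:

  `#H¹(G_T, M) · #M^{c=1} ≤ #M · #H⁰(G_T, M) · #H²(G_T, M)`      (`c` = complex conjugation).

Nothing is proved here about it (no proof exists in the tree or in Mathlib: it needs `cd_p G_T ≤ 2`,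
a modular induction theorem and the equivariant unit theorem); these are `Prop`-valued definitions,
to be used as named hypotheses.
-/
import Mathlib
import Fermat.Prelude.Def_GaloisRep_ComplexConjugation
import Fermat.Agent.W56.Defs9
import Fermat.Agent.W56.GWCount4

set_option autoImplicit false

open CategoryTheory

namespace Fermat.Agent.W56.EulerDefs4

open Fermat.Agent.PT.PRO Fermat.Agent.PT.BR Fermat.Agent.W56.Defs9 Fermat.Agent.W56.GWCount4

local notation "Γ" => (AlgebraicClosure ℚ ≃ₐ[ℚ] AlgebraicClosure ℚ)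

/-- (E2) finiteness of `H²(G_T, M)` for a finite discrete module. -/
def FiniteH2 : Prop :=
  ∀ (k : Type) [Field k] [Finite k] (T : Finset Nat.Primes) (M : Rep k Γ) [Module.Finite k M],
    LevelCoh28.IsDiscrete (LevelBridge13.globalBasis T).sets M → Finite (H2g T M)

/-- (EC) the upper-bound half of Tate's global Euler characteristic formula over `ℚ`:
`#H¹(G_T,M) · #M^{c=1} ≤ #M · #H⁰(G_T,M) · #H²(G_T,M)`, `c` the complex conjugation, `p` odd,
`p ∈ T`, `M` a finite-dimensional representation over a finite field of characteristic `p`,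
unramified outside `T` (`IsDiscrete` for the basis of `G_T`). -/
def EulerCharBound : Prop :=
  ∀ (k : Type) [Field k] [Finite k] (p : ℕ) [Fact p.Prime] [CharP k p], p ≠ 2 →
  ∀ (T : Finset Nat.Primes) (pp : Nat.Primes), (pp : ℕ) = p → pp ∈ T →
  ∀ (M : Rep k Γ) [Module.Finite k M], LevelCoh28.IsDiscrete (LevelBridge13.globalBasis T).sets M →
  ∀ [Finite (H2g T M)],
    Nat.card (H1g T M) * Nat.card {m : M // M.ρ complexConjugation m = m} ≤
      Nat.card M * Nat.card {m : M // ∀ g : Γ, M.ρ g m = m} * Nat.card (H2g T M)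

/-- The instance of (EC) that the Greenberg–Wiles count consumes: `M = ad⁰ρ̄`. -/
def EulerCharBoundAd0 : Prop :=
  ∀ (k : Type) [Field k] [Finite k] (p : ℕ) [Fact p.Prime] [CharP k p], p ≠ 2 →
  ∀ (ρbar : ResidualGaloisRep k) (T : Finset Nat.Primes) (pp : Nat.Primes), (pp : ℕ) = p → pp ∈ T →
  LevelCoh28.IsDiscrete (LevelBridge13.globalBasis T).sets (ad0 ρbar) →
  ∀ [Finite (H2g T (ad0 ρbar))],
    Nat.card (H1g T (ad0 ρbar)) *
        Nat.card {m : ad0 ρbar // (ad0 ρbar).ρ complexConjugation m = m} ≤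
      Nat.card (ad0 ρbar) * Nat.card {m : ad0 ρbar // ∀ g : Γ, (ad0 ρbar).ρ g m = m} *
        Nat.card (H2g T (ad0 ρbar))

theorem moduleFinite_ad0 {k : Type} [Field k] (ρbar : ResidualGaloisRep k) :
    Module.Finite k (ad0 ρbar) := by
  show Module.Finite k ↥(sl ρbar)
  infer_instance

theorem eulerCharBoundAd0_of (h : EulerCharBound) : EulerCharBoundAd0 := by
  intro k _ _ p _ _ hp ρbar T pp hpp hT hd _
  have : Module.Finite k (ad0 ρbar) := moduleFinite_ad0 ρbar
  exact h k p hp T pp hpp hT (ad0 ρbar) hd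

end Fermat.Agent.W56.EulerDefs4
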