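/-
Programme W56 (target S56), chapter (K-GW), helper4: the global Euler characteristic bound (EC)
for `M = ad⁰ρ̄` in the form consumed by the count `GWCount4.card_Sel_le`:

  `#H¹(G_T, ad⁰ρ̄) ≤ (#k)² · #H²(G_T, ad⁰ρ̄)`

from the contract `EulerDefs4.EulerCharBoundAd0`, `H⁰(G_ℚ, ad⁰ρ̄) = 0` and `det ρ̄(c) = -1`:
`#ad⁰ρ̄ = (#k)³`, and the fixed space of the complex conjugation `c` contains the line `k·ρ̄(c)`
(`tr ρ̄(c) = 0` by Cayley–Hamilton in rank two).
-/
import Mathlib
import Fermat.Agent.S33x.OrdAlg3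
import Fermat.Agent.W56.UnipSel8
import Fermat.Agent.W56.EulerDefs4

set_option autoImplicit false

open CategoryTheory

namespace Fermat.Agent.W56.EulerAd4

open Fermat.Agent.PT.PRO Fermat.Agent.PT.BR Fermat.Agent.W56.Defs9 Fermat.Agent.W56.GWCount4
  Fermat.Agent.W56.EulerDefs4 Fermat.Agent.W56.UnipSel8

local notation "Γ" => (AlgebraicClosure ℚ ≃ₐ[ℚ] AlgebraicClosure ℚ)

variable {k : Type} [Field k] (ρbar : ResidualGaloisRep k)

/-- `End_k V̄` has dimension 4. -/
theorem finrank_end : Module.finrank k (Module.End k ρbar.V) = 4 := by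
  rw [Module.finrank_linearMap, ρbar.finrank_eq]

/-- The trace is onto (characteristic `≠ 2`). -/
theorem trace_surjective (h2 : (2 : k) ≠ 0) :
    Function.Surjective (LinearMap.trace k ρbar.V) := by
  intro a
  refine ⟨(a / 2) • (1 : Module.End k ρbar.V), ?_⟩
  rw [map_smul, LinearMap.trace_one, ρbar.finrank_eq, smul_eq_mul]
  push_cast
  field_simp

/-- `ad⁰ρ̄` has dimension 3. -/
theorem finrank_sl (h2 : (2 : k) ≠ 0) : Module.finrank k ↥(sl ρbar) = 3 := by
  have h := LinearMap.finrank_range_add_finrank_ker (LinearMap.trace k ρbar.V)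
  rw [LinearMap.range_eq_top.2 (trace_surjective ρbar h2), finrank_top, Module.finrank_self,
    finrank_end] at h
  have : Module.finrank k ↥(sl ρbar) = Module.finrank k ↥(LinearMap.ker (LinearMap.trace k ρbar.V)) :=
    rfl
  omega

/-- `#ad⁰ρ̄ = (#k)³`. -/
theorem card_ad0 [Finite k] (h2 : (2 : k) ≠ 0) : Nat.card (ad0 ρbar) = Nat.card k ^ 3 := by
  have h := Module.natCard_eq_pow_finrank (K := k) (V := ↥(sl ρbar))
  rw [finrank_sl ρbar h2] at h
  exact h

/-- `tr ρ̄(c) = 0` for an involution `c` with `det ρ̄(c) = -1`. -/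
theorem trace_eq_zero_of_involution (c : Γ) (hcc : c * c = 1)
    (hdet : LinearMap.det (ρbar.ρ c) = -1) : LinearMap.trace k ρbar.V (ρbar.ρ c) = 0 := by
  have hV : Nontrivial ρbar.V :=
    Module.nontrivial_of_finrank_pos (R := k) (by rw [ρbar.finrank_eq]; norm_num)
  have h := Fermat.Agent.S33x.OrdAlg3.sq_eq_of_finrank_two ρbar.finrank_eq (ρbar.ρ c)
  rw [← map_mul, hcc, map_one, hdet, neg_smul, one_smul, sub_neg_eq_add] at h
  have h0 : LinearMap.trace k ρbar.V (ρbar.ρ c) • ρbar.ρ c = 0 := by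
    have h5 : LinearMap.trace k ρbar.V (ρbar.ρ c) • ρbar.ρ c + 1 = 0 + 1 := by
      rw [zero_add]; exact h.symm
    exact add_right_cancel h5
  rcases smul_eq_zero.1 h0 with h1 | h1
  · exact h1
  · exfalso
    have h3 : ρbar.ρ c * ρbar.ρ c = 1 := by rw [← map_mul, hcc, map_one]
    rw [h1, mul_zero] at h3
    exact zero_ne_one h3

/-- The fixed space of an involution `c` with `det ρ̄(c) = -1` on `ad⁰ρ̄` has at least `#k`
elements. -/
theorem card_le_card_fixed [Finite k] (c : Γ) (hcc : c * c = 1)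
    (hdet : LinearMap.det (ρbar.ρ c) = -1) :
    Nat.card k ≤ Nat.card {m : ad0 ρbar // (ad0 ρbar).ρ c m = m} := by
  have htr := trace_eq_zero_of_involution ρbar c hcc hdet
  have hcinv : c⁻¹ = c := inv_eq_of_mul_eq_one_right hcc
  have h3 : ρbar.ρ c * ρbar.ρ c = 1 := by rw [← map_mul, hcc, map_one]
  have hne : ρbar.ρ c ≠ 0 := by
    have hV : Nontrivial ρbar.V :=
      Module.nontrivial_of_finrank_pos (R := k) (by rw [ρbar.finrank_eq]; norm_num)
    intro h1
    rw [h1, mul_zero] at h3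
    exact zero_ne_one h3
  have hmem : ∀ a : k, a • ρbar.ρ c ∈ sl ρbar := fun a => by
    rw [mem_sl_iff, map_smul, htr, smul_zero]
  let f : k → {m : ad0 ρbar // (ad0 ρbar).ρ c m = m} := fun a =>
    ⟨ofEnd ρbar (a • ρbar.ρ c) (hmem a), by
      apply endOf_injective ρbar
      rw [endOf_ρ, endOf_ofEnd, hcinv, mul_smul_comm, smul_mul_assoc, h3, one_mul]⟩
  have hf : Function.Injective f := by
    intro a b hab
    have h1 : endOf ρbar (f a).1 = endOf ρbar (f b).1 := by rw [hab]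
    have h2 : a • ρbar.ρ c = b • ρbar.ρ c := h1
    exact smul_left_injective k hne h2
  haveI : Finite {m : ad0 ρbar // (ad0 ρbar).ρ c m = m} := by
    haveI : Module.Finite k (ad0 ρbar) := moduleFinite_ad0 ρbar
    haveI : Finite (ad0 ρbar) := Module.finite_of_finite k
    infer_instance
  exact Nat.card_le_card_of_injective f hf

/-- **(EC) for `ad⁰ρ̄` in the form of the count**: `#H¹(G_T, ad⁰ρ̄) ≤ (#k)² #H²(G_T, ad⁰ρ̄)`. -/
theorem card_H1g_ad0_le (hEC : EulerCharBoundAd0) [Finite k] (p : ℕ) [Fact p.Prime] [CharP k p]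
    (hp2 : p ≠ 2) (T : Finset Nat.Primes) (pp : Nat.Primes) (hpp : (pp : ℕ) = p) (hT : pp ∈ T)
    (hdisc : LevelCoh28.IsDiscrete (LevelBridge13.globalBasis T).sets (ad0 ρbar))
    [Finite (H2g T (ad0 ρbar))]
    (hH0 : ∀ m : ad0 ρbar, (∀ g : Γ, (ad0 ρbar).ρ g m = m) → m = 0)
    (hdetc : LinearMap.det (ρbar.ρ complexConjugation) = -1) :
    Nat.card (H1g T (ad0 ρbar)) ≤ Nat.card k ^ 2 * Nat.card (H2g T (ad0 ρbar)) := by
  have h2 : (2 : k) ≠ 0 := by
    intro h
    have h3 : ((2 : ℕ) : k) = 0 := by exact_mod_cast h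
    rw [CharP.cast_eq_zero_iff k p] at h3
    have hp : p.Prime := Fact.out
    exact hp2 ((Nat.prime_dvd_prime_iff_eq hp Nat.prime_two).1 h3)
  have h := hEC k p hp2 ρbar T pp hpp hT hdisc
  have hinv : Nat.card {m : ad0 ρbar // ∀ g : Γ, (ad0 ρbar).ρ g m = m} = 1 := by
    haveI : Unique {m : ad0 ρbar // ∀ g : Γ, (ad0 ρbar).ρ g m = m} :=
      { default := ⟨0, fun g => map_zero _⟩
        uniq := fun m => Subtype.ext (hH0 m.1 m.2) }
    exact Nat.card_unique
  rw [hinv, mul_one, card_ad0 ρbar h2] at h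
  have hc := card_le_card_fixed ρbar complexConjugation complexConjugation_mul_self hdetc
  have hκ : 0 < Nat.card k := Nat.card_pos
  have h4 : Nat.card (H1g T (ad0 ρbar)) * Nat.card k ≤
      (Nat.card k ^ 2 * Nat.card (H2g T (ad0 ρbar))) * Nat.card k := by
    calc Nat.card (H1g T (ad0 ρbar)) * Nat.card k
        ≤ Nat.card (H1g T (ad0 ρbar)) *
            Nat.card {m : ad0 ρbar // (ad0 ρbar).ρ complexConjugation m = m} :=
          Nat.mul_le_mul_left _ hc
      _ ≤ Nat.card k ^ 3 * Nat.card (H2g T (ad0 ρbar)) := h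
      _ = (Nat.card k ^ 2 * Nat.card (H2g T (ad0 ρbar))) * Nat.card k := by ring
  exact Nat.le_of_mul_le_mul_right h4 hκ

end Fermat.Agent.W56.EulerAd4
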