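/-
Programme W56 (S56), chapter (LH2) (local `H²` bound), helper1.

`CoindEff1`: **effaceability of level `H²`**.  For a normal member `U` of the level basis, the
module `B = Fun(G ⧸ U, M)` with the diagonal action `(g F)(x) = g F(g⁻¹ x)` (`= Coind_U^G M`)
contains `M` as the constant functions, and every 2-cocycle `φ` of `M` of level `U` becomes a
coboundary in `B`:  `const ∘ φ = d¹ ψ`,  `ψ g x = φ (g, g⁻¹ x)`  (`ψ` of level `U`).
-/
import Mathlib
import Fermat.Agent.PT.PRO.HyperLevel25

set_option autoImplicit false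
set_option linter.unusedSectionVars false
set_option linter.style.haveILetI false

namespace Fermat.Agent.W56.CoindEff1

open Function Fermat.Agent.PT.PRO.HyperLevel25

variable {k G : Type*} [CommRing k] [Group G] {𝒰 : Set (Subgroup G)}
variable {M : Type*} [AddCommGroup M] [Module k M]
variable (ρ : Representation k G M) (U : Subgroup G)

/-- The diagonal action on `Fun(G ⧸ U, M)`. -/
def coindRep : Representation k G ((G ⧸ U) → M) where
  toFun g :=
    { toFun := fun F x => ρ g (F (g⁻¹ • x))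
      map_add' := fun F F' => by funext x; simp only [Pi.add_apply, map_add]
      map_smul' := fun r F => by
        funext x; simp only [Pi.smul_apply, map_smul, RingHom.id_apply] }
  map_one' := by
    ext F x
    show ρ 1 (F ((1 : G)⁻¹ • x)) = F x
    rw [inv_one, one_smul, map_one, Module.End.one_apply]
  map_mul' g h := by
    ext F x
    show ρ (g * h) (F ((g * h)⁻¹ • x)) = ρ g (ρ h (F (h⁻¹ • (g⁻¹ • x))))
    rw [mul_inv_rev, mul_smul, map_mul, Module.End.mul_apply]

@[simp] theorem coindRep_apply (g : G) (F : (G ⧸ U) → M) (x : G ⧸ U) :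
    coindRep ρ U g F x = ρ g (F (g⁻¹ • x)) := rfl

variable (k) in
/-- The constant functions. -/
def const : M →ₗ[k] ((G ⧸ U) → M) where
  toFun m _ := m
  map_add' _ _ := rfl
  map_smul' _ _ := rfl

@[simp] theorem const_apply (m : M) (x : G ⧸ U) : const k U m x = m := rfl

theorem const_injective : Injective (const k (M := M) U) := by
  intro m m' h
  exact congrFun h (QuotientGroup.mk 1)

theorem const_comm (g : G) (m : M) : const k U (ρ g m) = coindRep ρ U g (const k U m) := rfl

/-- The submodule of constant functions is stable. -/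
theorem coindRep_mem_range (g : G) (F : (G ⧸ U) → M)
    (hF : F ∈ LinearMap.range (const k (M := M) U)) :
    coindRep ρ U g F ∈ LinearMap.range (const k (M := M) U) := by
  obtain ⟨m, rfl⟩ := hF
  exact ⟨ρ g m, const_comm ρ U g m⟩

section Normal

variable [hn : U.Normal]

/-- A normal subgroup acts trivially on `G ⧸ U`. -/
theorem smul_eq_of_mem {s : G} (hs : s ∈ U) (x : G ⧸ U) : s • x = x := by
  induction x using QuotientGroup.induction_on with
  | H y =>
    show ((s * y : G) : G ⧸ U) = (y : G ⧸ U)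
    rw [QuotientGroup.eq]
    have h1 : (s * y)⁻¹ * y = y⁻¹ * s⁻¹ * y := by group
    rw [h1]
    have := hn.conj_mem s⁻¹ (U.inv_mem hs) y⁻¹
    simpa using this

/-- `Fun(G ⧸ U, M)` is discrete when `M` is. -/
theorem isDiscrete_coindRep (h𝒰 : IsLevelBasis 𝒰) (hU : U ∈ 𝒰) (hρ : IsDiscrete 𝒰 ρ) :
    IsDiscrete 𝒰 (coindRep ρ U) := by
  intro F
  have := h𝒰.finiteIndex U hU
  haveI : Finite (G ⧸ U) := Subgroup.finite_quotient_of_finiteIndex
  have hρ' : ∀ m : M, ∃ V ∈ 𝒰, ∀ s ∈ V, ρ s m = m := hρ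
  choose V hV hVm using hρ'
  obtain ⟨W, hW, hWle⟩ := h𝒰.exists_le_of_finite (fun o : Option (G ⧸ U) =>
    o.elim U (fun x => V (F x))) (fun o => by
      cases o with
      | none => exact hU
      | some x => exact hV (F x))
  refine ⟨W, hW, fun s hs => ?_⟩
  funext x
  have hsU : s ∈ U := hWle none hs
  rw [coindRep_apply, smul_eq_of_mem U (U.inv_mem hsU) x]
  exact hVm (F x) s (hWle (some x) hs)

variable (φ : G × G → M)
  (hinv : ∀ g g' s s', s ∈ U → s' ∈ U → φ (g * s, g' * s') = φ (g, g'))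

/-- The effacing cochain `ψ g x = φ (g, g⁻¹ x)`. -/
noncomputable def eff (g : G) : (G ⧸ U) → M := fun x => φ (g, (g⁻¹ • x).out)

include hinv in
theorem phi_out (g y : G) : φ (g, ((y : G) : G ⧸ U).out) = φ (g, y) := by
  obtain ⟨u, hu⟩ := QuotientGroup.mk_out_eq_mul U y
  rw [hu]
  have := hinv g y 1 u U.one_mem u.2
  rwa [mul_one] at this

include hinv in
/-- `ψ` is of level `U`. -/
theorem eff_mul (g s : G) (hs : s ∈ U) : eff U φ (g * s) = eff U φ g := by
  funext x
  show φ (g * s, ((g * s)⁻¹ • x).out) = φ (g, (g⁻¹ • x).out)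
  rw [mul_inv_rev, mul_smul, smul_eq_of_mem U (U.inv_mem hs)]
  have := hinv g (g⁻¹ • x).out s 1 hs U.one_mem
  rwa [mul_one] at this

include hinv in
/-- **Effaceability**: `const ∘ φ = d¹ ψ` for a 2-cocycle `φ` of level `U`. -/
theorem dOne_eff (hφ : dTwo ρ φ = 0) (g h : G) :
    dOne (coindRep ρ U) (eff U φ) (g, h) = const k U (φ (g, h)) := by
  funext x
  rw [dOne_apply]
  show ρ g (φ (h, (h⁻¹ • (g⁻¹ • x)).out)) - φ (g * h, ((g * h)⁻¹ • x).out) +
    φ (g, (g⁻¹ • x).out) = φ (g, h)
  set j : G := ((g * h)⁻¹ • x).out with hj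
  have hx1 : (g * h)⁻¹ • x = ((j : G) : G ⧸ U) := (QuotientGroup.out_eq' _).symm
  have hx2 : h⁻¹ • (g⁻¹ • x) = ((j : G) : G ⧸ U) := by
    rw [← mul_smul, ← mul_inv_rev]
    exact hx1
  have hx3 : g⁻¹ • x = (((h * j : G)) : G ⧸ U) := by
    have : g⁻¹ • x = h • (h⁻¹ • (g⁻¹ • x)) := by rw [smul_inv_smul]
    rw [this, hx2]
    rfl
  rw [hx2, hx3, phi_out U φ hinv h j, phi_out U φ hinv g (h * j)]
  have hc := congrFun hφ (g, h, j)
  rw [dTwo_apply, Pi.zero_apply] at hc
  rw [← sub_eq_zero, ← hc]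

end Normal

end Fermat.Agent.W56.CoindEff1
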