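/-
Programme W56 (S56), chapter (LH2) (local `H²` bound), helper1.

`QuotRes1`: from a resolved module `R : 0 → P₁ → P₀ → B → 0` and a `G`-stable submodule `A ≤ B`,
the DERIVED resolution of the quotient `B ⧸ A` with the SAME `P₀`:

  `quotRes R A hA : 0 → π⁻¹(A) → P₀ → B ⧸ A → 0`,

together with the sub-representation on `A`, the quotient representation on `B ⧸ A`, the map
`π⁻¹(A) → A` and the inclusion `P₁ → π⁻¹(A)`.  With this choice the connecting homomorphism
`H¹(B ⧸ A) → H²(A)` is visible on lifts: `ι⁻¹ (d x̃)` has values in `π⁻¹(A)` and its image in `A` is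
the connecting cocycle.
-/
import Mathlib
import Fermat.Agent.PT.PRO.Resolved4

set_option autoImplicit false
set_option linter.unusedSectionVars false

namespace Fermat.Agent.W56.QuotRes1

open Function Fermat.Agent.PT.PRO.HyperLevel25 Fermat.Agent.PT.PRO.Resolved4

variable {k G : Type*} [CommRing k] [Group G] {𝒰 : Set (Subgroup G)}
variable {P1 P0 B : Type*} [AddCommGroup P1] [Module k P1] [AddCommGroup P0] [Module k P0]
  [AddCommGroup B] [Module k B]
variable (R : Resolved k 𝒰 P1 P0 B) (A : Submodule k B) (hA : ∀ g, ∀ a ∈ A, R.ρM g a ∈ A)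

/-- The sub-representation on `A`. -/
def subRep : Representation k G ↥A where
  toFun g := (R.ρM g).restrict (hA g)
  map_one' := by
    ext a
    show R.ρM 1 (a : B) = a
    rw [map_one, Module.End.one_apply]
  map_mul' g h := by
    ext a
    show R.ρM (g * h) (a : B) = R.ρM g (R.ρM h (a : B))
    rw [map_mul, Module.End.mul_apply]

@[simp] theorem coe_subRep (g : G) (a : ↥A) : ((subRep R A hA g a : ↥A) : B) = R.ρM g (a : B) := rfl

theorem isDiscrete_subRep : IsDiscrete 𝒰 (subRep R A hA) := by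
  intro a
  obtain ⟨U, hU, h⟩ := R.discM (a : B)
  exact ⟨U, hU, fun s hs => Subtype.ext (h s hs)⟩

/-- The quotient representation on `B ⧸ A`. -/
def quotRep : Representation k G (B ⧸ A) where
  toFun g := A.mapQ A (R.ρM g) (fun a ha => hA g a ha)
  map_one' := by
    apply Submodule.linearMap_qext
    ext b
    simp only [LinearMap.comp_apply, Submodule.mkQ_apply, Submodule.mapQ_apply, map_one,
      Module.End.one_apply]
  map_mul' g h := by
    apply Submodule.linearMap_qext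
    ext b
    simp only [LinearMap.comp_apply, Submodule.mkQ_apply, Submodule.mapQ_apply, map_mul,
      Module.End.mul_apply]

@[simp] theorem quotRep_mk (g : G) (b : B) :
    quotRep R A hA g (A.mkQ b) = A.mkQ (R.ρM g b) := rfl

/-- `Q₁ = π⁻¹(A) ≤ P₀`. -/
def Q1 : Submodule k P0 := A.comap R.π

theorem mem_Q1 (x : P0) : x ∈ Q1 R A ↔ R.π x ∈ A := Iff.rfl

include hA in
theorem ρ0_mem_Q1 (g : G) (x : P0) (hx : x ∈ Q1 R A) : R.ρ0 g x ∈ Q1 R A := by
  rw [mem_Q1, R.π_comm]
  exact hA g _ hx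

/-- The action on `Q₁`. -/
def q1Rep : Representation k G ↥(Q1 R A) where
  toFun g := (R.ρ0 g).restrict (ρ0_mem_Q1 R A hA g)
  map_one' := by
    ext x
    show R.ρ0 1 (x : P0) = x
    rw [map_one, Module.End.one_apply]
  map_mul' g h := by
    ext x
    show R.ρ0 (g * h) (x : P0) = R.ρ0 g (R.ρ0 h (x : P0))
    rw [map_mul, Module.End.mul_apply]

@[simp] theorem coe_q1Rep (g : G) (x : ↥(Q1 R A)) :
    ((q1Rep R A hA g x : ↥(Q1 R A)) : P0) = R.ρ0 g (x : P0) := rfl

/-- **The derived resolution of `B ⧸ A`**, with the same `P₀`. -/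
def quotRes : Resolved k 𝒰 ↥(Q1 R A) P0 (B ⧸ A) where
  ρ1 := q1Rep R A hA
  ρ0 := R.ρ0
  ρM := quotRep R A hA
  ι := (Q1 R A).subtype
  π := A.mkQ ∘ₗ R.π
  ι_comm _ _ := rfl
  π_comm g x := by
    show A.mkQ (R.π (R.ρ0 g x)) = quotRep R A hA g (A.mkQ (R.π x))
    rw [R.π_comm, quotRep_mk]
  ι_inj := Subtype.val_injective
  π_surj := (Submodule.mkQ_surjective A).comp R.π_surj
  exact x := by
    constructor
    · intro hx
      have hx' : A.mkQ (R.π x) = 0 := hx
      rw [Submodule.mkQ_apply, Submodule.Quotient.mk_eq_zero] at hx'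
      exact ⟨⟨x, hx'⟩, rfl⟩
    · rintro ⟨y, rfl⟩
      show A.mkQ (R.π (y : P0)) = 0
      rw [Submodule.mkQ_apply, Submodule.Quotient.mk_eq_zero]
      exact y.2
  disc0 := R.disc0

/-- `P₁ → Q₁`. -/
def inclQ : P1 →ₗ[k] ↥(Q1 R A) :=
  R.ι.codRestrict (Q1 R A) (fun x => by rw [mem_Q1, R.π_ι]; exact A.zero_mem)

@[simp] theorem coe_inclQ (x : P1) : ((inclQ R A x : ↥(Q1 R A)) : P0) = R.ι x := rfl

theorem inclQ_comm (g : G) (x : P1) : inclQ R A (R.ρ1 g x) = q1Rep R A hA g (inclQ R A x) :=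
  Subtype.ext (R.ι_comm g x)

/-- `Q₁ → A`. -/
def toA : ↥(Q1 R A) →ₗ[k] ↥A :=
  (R.π ∘ₗ (Q1 R A).subtype).codRestrict A (fun x => x.2)

@[simp] theorem coe_toA (x : ↥(Q1 R A)) : ((toA R A x : ↥A) : B) = R.π (x : P0) := rfl

theorem toA_surjective : Surjective (toA R A) := by
  intro a
  obtain ⟨x, hx⟩ := R.π_surj (a : B)
  exact ⟨⟨x, by rw [mem_Q1, hx]; exact a.2⟩, Subtype.ext hx⟩

theorem toA_comm (g : G) (x : ↥(Q1 R A)) :
    toA R A (q1Rep R A hA g x) = subRep R A hA g (toA R A x) :=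
  Subtype.ext (R.π_comm g (x : P0))

theorem toA_eq_zero_iff (x : ↥(Q1 R A)) : toA R A x = 0 ↔ ∃ y : P1, inclQ R A y = x := by
  constructor
  · intro h
    have h1 : R.π (x : P0) = 0 := congrArg Subtype.val h
    obtain ⟨y, hy⟩ := (R.exact _).1 h1
    exact ⟨y, Subtype.ext hy⟩
  · rintro ⟨y, rfl⟩
    exact Subtype.ext (R.π_ι y)

variable {X : Type*} [AddCommGroup X] [Module k X]

/-- A linear form on `Q₁` vanishing on `P₁` descends to `A`. -/
theorem exists_descend (e : ↥(Q1 R A) →ₗ[k] X) (he : ∀ y : P1, e (inclQ R A y) = 0) :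
    ∃ f : ↥A →ₗ[k] X, ∀ x, f (toA R A x) = e x := by
  have hker : LinearMap.ker (toA R A) ≤ LinearMap.ker e := by
    intro x hx
    obtain ⟨y, rfl⟩ := (toA_eq_zero_iff R A x).1 (LinearMap.mem_ker.1 hx)
    exact LinearMap.mem_ker.2 (he y)
  refine ⟨(LinearMap.ker (toA R A)).liftQ e hker ∘ₗ
    ((toA R A).quotKerEquivOfSurjective (toA_surjective R A)).symm.toLinearMap, fun x => ?_⟩
  rw [LinearMap.comp_apply, LinearEquiv.coe_coe]
  have h1 : ((toA R A).quotKerEquivOfSurjective (toA_surjective R A)).symm (toA R A x) =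
      (LinearMap.ker (toA R A)).mkQ x := by
    rw [LinearEquiv.symm_apply_eq]
    rfl
  rw [h1, Submodule.mkQ_apply, Submodule.liftQ_apply]

end Fermat.Agent.W56.QuotRes1
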