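/-
Programme W56 (S56), chapter (LH2) (local `H²` bound), helper1.

`Dual20_1`: **the `(2,0)` left kernel from `(1,1)` duality and effaceability** (abstract chase).

Setting: a resolved module `R : 0 → P₁ → P₀ → B → 0`, a `G`-stable submodule `A ≤ B`, the derived
resolution `S = quotRes R A` of `C = B ⧸ A` (`QuotRes1`), a discrete coefficient module `X`.
Hypotheses:
* the LEFT kernel of `pair11 : ℍ¹(K(R; X)) × H¹(B) → H²(X)` is trivial;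
* the RIGHT kernel of `pair11 : ℍ¹(K(S; X)) × H¹(C) → H²(X)` is trivial;
* `H¹(C)` is finite, `p C = 0`, and `τ : H²(X)[p] ↪ 𝔽_p`.
Conclusion (`exists_cobound`): a 2-cocycle `φ` of `A` which becomes a level coboundary in `B`
(`φ = d¹ ψ`) and such that `f ∘ φ` is a level coboundary of `X` for EVERY equivariant
`f : A → X`, is a level coboundary of `A`.
-/
import Mathlib
import Fermat.Agent.W56.QuotRes1
import Fermat.Agent.PT.PRO.ExtPairingB4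
import Fermat.Agent.PT.PRO.PairP4

set_option autoImplicit false
set_option linter.unusedSectionVars false
set_option linter.style.haveILetI false

namespace Fermat.Agent.W56.Dual20_1

open Function Fermat.Agent.PT.PRO.HyperLevel25 Fermat.Agent.PT.PRO.Resolved4
  Fermat.Agent.PT.PRO.ExtPairing4 Fermat.Agent.PT.PRO.ExtPairingB4 Fermat.Agent.PT.PRO.InvP4
  Fermat.Agent.PT.PRO.PairP4 Fermat.Agent.W56.QuotRes1

/-! ## Separation of a point from a subgroup by a character (elementary abelian `p`-groups) -/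

section Sep

variable {p : ℕ} [Fact p.Prime] {H : Type*} [AddCommGroup H]

theorem exists_char_aux [Module (ZMod p) H] (I : Submodule (ZMod p) H) (z : H) (hz : z ∉ I) :
    ∃ l : H →+ ZMod p, (∀ x ∈ I, l x = 0) ∧ l z ≠ 0 := by
  have h1 : I.mkQ z ≠ 0 := by
    rw [Submodule.mkQ_apply, Ne, Submodule.Quotient.mk_eq_zero]
    exact hz
  have h2 : ¬ ∀ ψ : Module.Dual (ZMod p) (H ⧸ I), ψ (I.mkQ z) = 0 := fun h =>
    h1 ((Module.forall_dual_apply_eq_zero_iff (ZMod p) _).1 h)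
  obtain ⟨ψ, hψ⟩ := not_forall.1 h2
  refine ⟨(ψ ∘ₗ I.mkQ).toAddMonoidHom, fun x hx => ?_, hψ⟩
  show ψ (I.mkQ x) = 0
  rw [Submodule.mkQ_apply, (Submodule.Quotient.mk_eq_zero I).2 hx, map_zero]

/-- In an abelian group killed by `p`, a point outside a subgroup is separated from it by a
character with values in `𝔽_p`. -/
theorem exists_char (hH : ∀ x : H, p • x = 0) (I : AddSubgroup H) (z : H) (hz : z ∉ I) :
    ∃ l : H →+ ZMod p, (∀ x ∈ I, l x = 0) ∧ l z ≠ 0 := by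
  letI : Module (ZMod p) H := AddCommGroup.zmodModule hH
  exact exists_char_aux (AddSubgroup.toZModSubmodule p I) z hz

end Sep

variable {k G : Type*} [CommRing k] [Group G] {𝒰 : Set (Subgroup G)}
variable {P1 P0 B X : Type*} [AddCommGroup P1] [Module k P1] [AddCommGroup P0] [Module k P0]
  [AddCommGroup B] [Module k B] [AddCommGroup X] [Module k X]
variable (R : Resolved k 𝒰 P1 P0 B) (A : Submodule k B) (hA : ∀ g, ∀ a ∈ A, R.ρM g a ∈ A)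

/-- The morphism of resolved modules `R → quotRes R A` (identity on `P₀`). -/
def toQuot : Resolved.Hom R (quotRes R A hA) where
  φ1 := inclQ R A
  φ0 := LinearMap.id
  φM := A.mkQ
  comm1 := inclQ_comm R A hA
  comm0 _ _ := rfl
  commι _ := rfl
  commπ _ := rfl

variable [Module.Finite k P0] [Module.Finite k P1] [Module.Finite k ↥(Q1 R A)]
variable (h𝒰 : IsLevelBasis 𝒰) (ρX : Representation k G X) (hX : IsDiscrete 𝒰 ρX)

/-- The induced morphism of evaluation pairings. -/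
def pairHom : PairingHom (evalPairing (quotRes R A hA) h𝒰 ρX hX) (evalPairing R h𝒰 ρX hX) where
  a := (toQuot R A hA).K h𝒰 ρX hX
  b := toQuot R A hA
  γ := LinearMap.id
  hγ _ _ := rfl
  h0 _ _ := rfl
  h1 _ _ := rfl

/-! ## The key step: orthogonality to the image of `H¹(B)` forces orthogonality to `[π ∘ ψ]` -/

theorem pair11_cl1_eq_zero
    (hLK : ∀ ξ : (R.K h𝒰 ρX hX).ℍ1 h𝒰,
      (∀ x, pair11 (evalPairing R h𝒰 ρX hX) h𝒰 hX ξ x = 0) → ξ = 0)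
    (φ : G × G → ↥A) (ψ : G → B) (hψl : IsLevel₁ 𝒰 ψ) (hψ : ∀ q, (φ q : B) = dOne R.ρM ψ q)
    (hH2 : ∀ f : ↥A →ₗ[k] X, (∀ g a, f (subRep R A hA g a) = ρX g (f a)) →
      ∃ u : G → X, IsLevel₁ 𝒰 u ∧ dOne ρX u = ⇑f ∘ φ)
    (hzl : IsLevel₁ 𝒰 (⇑A.mkQ ∘ ψ)) (hzc : dOne (quotRes R A hA).ρM (⇑A.mkQ ∘ ψ) = 0)
    (ξ : ((quotRes R A hA).K h𝒰 ρX hX).ℍ1 h𝒰)
    (hξ : ∀ x' : Hlev1 h𝒰 R.ρM R.discM,
      pair11 (evalPairing (quotRes R A hA) h𝒰 ρX hX) h𝒰 hX ξ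
        ((lvlHom h𝒰 R.discM (quotRes R A hA).discM A.mkQ (toQuot R A hA).commM).mapH1 x') = 0) :
    pair11 (evalPairing (quotRes R A hA) h𝒰 ρX hX) h𝒰 hX ξ
      (cl1 h𝒰 (quotRes R A hA).ρM (quotRes R A hA).discM (⇑A.mkQ ∘ ψ) hzl hzc) = 0 := by
  obtain ⟨ξ', rfl⟩ := HZ1.cls_surjective h𝒰 ξ
  -- Step 1: the restriction of `ξ` to `R` is zero, by the left kernel for `R`.
  have h3 : (pairHom R A hA h𝒰 ρX hX).a.mapℍ1 h𝒰 (ξ'.cls h𝒰) = 0 := by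
    apply hLK
    intro x'
    rw [pair11_natural h𝒰 hX hX (pairHom R A hA h𝒰 ρX hX) (ξ'.cls h𝒰) x']
    have h0 := hξ x'
    refine Eq.trans (congrArg _ h0) (map_zero _)
  -- Step 2: unpack: `c = d⁰ y₀`, `e ∘ incl = y₀ ∘ ι`.
  rw [← cls_hz1Map] at h3
  unfold HZ1.cls at h3
  rw [Cpx.π1_eq_zero_iff] at h3
  obtain ⟨y₀, hy₀⟩ := h3
  have h4 : (R.K h𝒰 ρX hX).D0 y₀ = ((hz1Map (pairHom R A hA h𝒰 ρX hX).a ξ').c,
      (hz1Map (pairHom R A hA h𝒰 ρX hX).a ξ').e) := congrArg Subtype.val hy₀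
  rw [Cx.D0_apply] at h4
  have hc : ∀ g, ξ'.c g = dZero (R.K h𝒰 ρX hX).ρ0 y₀ g := fun g => by
    have h5 : dZero (R.K h𝒰 ρX hX).ρ0 y₀ g = _ := congrFun (congrArg Prod.fst h4) g
    rw [h5]
    rfl
  have he : ∀ y : P1, ξ'.e (inclQ R A y) = y₀ (R.ι y) := fun y => by
    have h5 := congrArg Prod.snd h4
    exact (LinearMap.congr_fun h5 y).symm
  -- Step 3: `e' = e - y₀|_{Q₁}` kills `P₁`, is `G`-equivariant, and descends to `f : A → X`.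
  have he'0 : ∀ y : P1, (ξ'.e - y₀ ∘ₗ (Q1 R A).subtype) (inclQ R A y) = 0 := fun y => by
    rw [LinearMap.sub_apply, he y, LinearMap.comp_apply, Submodule.subtype_apply, coe_inclQ,
      sub_self]
  obtain ⟨f, hf⟩ := exists_descend R A (ξ'.e - y₀ ∘ₗ (Q1 R A).subtype) he'0
  have hinv : ∀ g (x : ↥(Q1 R A)), (ξ'.e - y₀ ∘ₗ (Q1 R A).subtype) (q1Rep R A hA g x) =
      ρX g ((ξ'.e - y₀ ∘ₗ (Q1 R A).subtype) x) := fun g x => by
    have h1 := LinearMap.congr_fun (ξ'.he g) (q1Rep R A hA g x)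
    have h2 := (evalPairing (quotRes R A hA) h𝒰 ρX hX).equiv1 g ξ'.e x
    have h3 := (evalPairing R h𝒰 ρX hX).equiv0 g y₀ (x : P0)
    rw [evalPairing_β0, evalPairing_β0] at h3
    rw [evalPairing_β1, evalPairing_β1] at h2
    rw [dZero_apply, LinearMap.sub_apply] at h1
    have h4 : ((quotRes R A hA).K h𝒰 ρX hX).f (ξ'.c g) (q1Rep R A hA g x) =
        ξ'.c g (R.ρ0 g (x : P0)) := rfl
    rw [h4, hc g, dZero_apply, LinearMap.sub_apply] at h1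
    have h5 : ((R.K h𝒰 ρX hX).ρ0 g y₀) (R.ρ0 g (x : P0)) = ρX g (y₀ (x : P0)) := h3
    have h6 : (((quotRes R A hA).K h𝒰 ρX hX).ρ1 g ξ'.e) (q1Rep R A hA g x) = ρX g (ξ'.e x) := h2
    rw [h5, h6] at h1
    simp only [LinearMap.sub_apply, LinearMap.comp_apply, Submodule.subtype_apply, coe_q1Rep,
      map_sub]
    rw [sub_eq_sub_iff_add_eq_add] at h1 ⊢
    rw [add_comm, ← h1, add_comm]
  have hfeq : ∀ g a, f (subRep R A hA g a) = ρX g (f a) := fun g a => by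
    obtain ⟨x, rfl⟩ := toA_surjective R A a
    rw [← toA_comm, hf, hf, hinv]
  obtain ⟨u, hul, hu⟩ := hH2 f hfeq
  -- Step 4: the lift of `π ∘ ψ` through `P₀`, and the computation of the raw cochain.
  have hπ : ∀ g, R.π (surjInv R.π_surj (ψ g)) = ψ g := fun g => surjInv_eq R.π_surj _
  have hxtl : IsLevel₁ 𝒰 (surjInv R.π_surj ∘ ψ) := hψl.comp _
  have hπd : ∀ q : G × G, R.π (dOne R.ρ0 (surjInv R.π_surj ∘ ψ) q) = (φ q : B) := fun q => by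
    have h1 := congrFun (comp_dOne R.ρ0 R.ρM R.π R.π_comm (surjInv R.π_surj ∘ ψ)) q
    rw [Function.comp_apply] at h1
    have h2 : ⇑R.π ∘ (surjInv R.π_surj ∘ ψ) = ψ := funext hπ
    rw [h1, h2, ← hψ q]
  have hmem : ∀ q : G × G, dOne R.ρ0 (surjInv R.π_surj ∘ ψ) q ∈ Q1 R A := fun q => by
    rw [mem_Q1, hπd]
    exact (φ q).2
  let L : Lift1 (quotRes R A hA) :=
    ⟨surjInv R.π_surj ∘ ψ, fun q => ⟨dOne R.ρ0 (surjInv R.π_surj ∘ ψ) q, hmem q⟩, hxtl,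
      fun g h => rfl⟩
  have hL : L.Lifts (⇑A.mkQ ∘ ψ) := fun g => by
    show A.mkQ (R.π (surjInv R.π_surj (ψ g))) = A.mkQ (ψ g)
    rw [hπ]
  have htoA : ∀ q, toA R A (L.y' q) = φ q := fun q => Subtype.ext (hπd q)
  rw [pair11_eq_zero_iff (evalPairing (quotRes R A hA) h𝒰 ρX hX) h𝒰 hX ξ' _ hzl hzc L hL]
  refine ⟨fun a => y₀ (L.xt a) + u a, h𝒰.isLevel₁_add (L.lev.comp y₀) hul, ?_⟩
  funext ⟨g, h⟩
  have hb := congrFun ((evalPairing (quotRes R A hA) h𝒰 ρX hX).p11_bdry_left y₀ L.hy) (g, h)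
  have hadd : (fun a => y₀ (L.xt a) + u a) = (fun a => y₀ (L.xt a)) + u := rfl
  rw [hadd, map_add, Pi.add_apply, hu, Function.comp_apply, ← htoA, hf]
  have hb' : dOne ρX (fun a => y₀ (L.xt a)) (g, h) =
      (evalPairing (quotRes R A hA) h𝒰 ρX hX).p11 (dZero ((quotRes R A hA).K h𝒰 ρX hX).ρ0 y₀)
        (((quotRes R A hA).K h𝒰 ρX hX).f y₀) L.xt L.y' (g, h) := hb.symm
  rw [hb']
  simp only [Pairing.p11, evalPairing_β0, evalPairing_β1, LinearMap.sub_apply]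
  rw [hc g]
  have h7 : (((quotRes R A hA).K h𝒰 ρX hX).f y₀) (L.y' (g, h)) =
      (y₀ ∘ₗ (Q1 R A).subtype) (L.y' (g, h)) := rfl
  rw [h7]
  have h8 : dZero (R.K h𝒰 ρX hX).ρ0 y₀ g = dZero ((quotRes R A hA).K h𝒰 ρX hX).ρ0 y₀ g := rfl
  rw [h8]
  abel

/-! ## The main statement -/

/-- **The `(2,0)` left kernel**: a 2-cocycle `φ` of `A`, effaced in `B` (`φ = d¹ ψ`), all of whose
push-forwards `f ∘ φ` (`f ∈ Hom_G(A, X)`) are level coboundaries, is a level coboundary. -/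
theorem exists_cobound (p : ℕ) [Fact p.Prime] (hpC : ∀ c : B ⧸ A, p • c = 0)
    [Finite (Hlev1 h𝒰 (quotRes R A hA).ρM (quotRes R A hA).discM)]
    (τ : pTor p (Hlev2 h𝒰 ρX hX) →+ ZMod p) (hτ : Injective τ)
    (hLK : ∀ ξ : (R.K h𝒰 ρX hX).ℍ1 h𝒰,
      (∀ x, pair11 (evalPairing R h𝒰 ρX hX) h𝒰 hX ξ x = 0) → ξ = 0)
    (hRK : ∀ x : Hlev1 h𝒰 (quotRes R A hA).ρM (quotRes R A hA).discM,
      (∀ ξ, pair11 (evalPairing (quotRes R A hA) h𝒰 ρX hX) h𝒰 hX ξ x = 0) → x = 0)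
    (φ : G × G → ↥A) (ψ : G → B) (hψl : IsLevel₁ 𝒰 ψ) (hψ : ∀ q, (φ q : B) = dOne R.ρM ψ q)
    (hH2 : ∀ f : ↥A →ₗ[k] X, (∀ g a, f (subRep R A hA g a) = ρX g (f a)) →
      ∃ u : G → X, IsLevel₁ 𝒰 u ∧ dOne ρX u = ⇑f ∘ φ) :
    ∃ v : G → ↥A, IsLevel₁ 𝒰 v ∧ dOne (subRep R A hA) v = φ := by
  have hzl : IsLevel₁ 𝒰 (⇑A.mkQ ∘ ψ) := hψl.comp _
  have hzc : dOne (quotRes R A hA).ρM (⇑A.mkQ ∘ ψ) = 0 := by
    have h1 := comp_dOne R.ρM (quotRes R A hA).ρM A.mkQ (toQuot R A hA).commM ψ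
    rw [← h1]
    funext q
    rw [Function.comp_apply, ← hψ q, Pi.zero_apply, Submodule.mkQ_apply,
      Submodule.Quotient.mk_eq_zero]
    exact (φ q).2
  -- the class of `π ∘ ψ` comes from `H¹(B)`
  have himg : cl1 h𝒰 (quotRes R A hA).ρM (quotRes R A hA).discM (⇑A.mkQ ∘ ψ) hzl hzc ∈
      ((lvlHom h𝒰 R.discM (quotRes R A hA).discM A.mkQ
        (toQuot R A hA).commM).mapH1).toAddMonoidHom.range := by
    by_contra hnot
    obtain ⟨l, hl0, hlz⟩ := exists_char (p := p)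
      (Fermat.Agent.PT.PRO.DualityAdapter29.nsmul_Hlev1_eq_zero h𝒰 (quotRes R A hA).ρM (quotRes R A hA).discM p hpC) _ _ hnot
    obtain ⟨ξ, hξ⟩ := alphaP_surjective (evalPairing (quotRes R A hA) h𝒰 ρX hX) h𝒰 hX hpC τ hτ
      hRK l
    apply hlz
    rw [← hξ, alphaP_eq_zero_iff (evalPairing (quotRes R A hA) h𝒰 ρX hX) h𝒰 hX hpC τ hτ]
    apply pair11_cl1_eq_zero R A hA h𝒰 ρX hX hLK φ ψ hψl hψ hH2 hzl hzc ξ
    intro x'
    rw [← alphaP_eq_zero_iff (evalPairing (quotRes R A hA) h𝒰 ρX hX) h𝒰 hX hpC τ hτ, hξ]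
    exact hl0 _ ⟨x', rfl⟩
  obtain ⟨x', hx'⟩ := himg
  obtain ⟨w, hwl, hwc, rfl⟩ := cl1_surjective (h𝒰 := h𝒰) (ρC := R.ρM) (hC := R.discM) x'
  have hx2 : (lvlHom h𝒰 R.discM (quotRes R A hA).discM A.mkQ (toQuot R A hA).commM).mapH1
      (cl1 h𝒰 R.ρM R.discM w hwl hwc) =
      cl1 h𝒰 (quotRes R A hA).ρM (quotRes R A hA).discM (⇑A.mkQ ∘ ψ) hzl hzc := hx'
  unfold cl1 at hx2
  rw [Cpx.Hom.mapH1_π1, Cpx.π1_eq_iff] at hx2
  obtain ⟨c₀, hc₀⟩ := hx2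
  have h9 : ∀ g, dZero (quotRes R A hA).ρM c₀ g = A.mkQ (w g) - A.mkQ (ψ g) := fun g =>
    congrFun (congrArg Subtype.val hc₀) g
  obtain ⟨b₀, rfl⟩ := A.mkQ_surjective c₀
  have hb₀ : ∀ g, A.mkQ (dZero R.ρM b₀ g) = A.mkQ (w g) - A.mkQ (ψ g) := fun g => by
    have h1 := congrFun (comp_dZero R.ρM (quotRes R A hA).ρM A.mkQ (toQuot R A hA).commM b₀) g
    rw [Function.comp_apply] at h1
    rw [h1, h9]
  have hmem : ∀ g, ψ g - w g + dZero R.ρM b₀ g ∈ A := fun g => by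
    rw [← Submodule.Quotient.mk_eq_zero, ← Submodule.mkQ_apply, map_add, map_sub, hb₀]
    abel
  have hlev : IsLevel₁ 𝒰 (ψ - w + dZero R.ρM b₀) :=
    h𝒰.isLevel₁_add (h𝒰.isLevel₁_sub hψl hwl) (isLevel₁_dZero R.discM b₀)
  refine ⟨fun g => ⟨ψ g - w g + dZero R.ρM b₀ g, hmem g⟩, ?_, ?_⟩
  · obtain ⟨U, hU, h⟩ := hlev
    exact ⟨U, hU, fun g s hs => Subtype.ext (h g s hs)⟩
  · funext q
    apply Subtype.ext
    have h1 := congrFun (comp_dOne (subRep R A hA) R.ρM A.subtype (fun _ _ => rfl)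
      (fun g => (⟨ψ g - w g + dZero R.ρM b₀ g, hmem g⟩ : ↥A))) q
    rw [Function.comp_apply, Submodule.subtype_apply] at h1
    rw [h1, hψ q]
    have h2 : (⇑A.subtype ∘ fun g => (⟨ψ g - w g + dZero R.ρM b₀ g, hmem g⟩ : ↥A)) =
        ψ - w + dZero R.ρM b₀ := rfl
    rw [h2, map_add, map_sub, hwc, dOne_dZero, sub_zero, add_zero]

end Fermat.Agent.W56.Dual20_1
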