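/-
Programme W56 (S56), chapter (LH2) (local `H²` bound), helper1.

`LH2Loc1`: **the `(2,0)` left kernel of local Tate duality, UNCONDITIONALLY.**
For a finite discrete `Γ_q`-module `M` killed by `p` (any primes `p`, `q`; `q = p` allowed): a level
2-cocycle `φ` of `M` such that `f ∘ φ` is a level coboundary of `ℚ̄_qˣ` for every equivariant
`f : M → ℚ̄_qˣ`, is a level coboundary.  I.e. `H²(Γ_q, M) ↪ Hom(Hom_{Γ_q}(M, ℚ̄_qˣ), H²(Γ_q, ℚ̄_qˣ))`.

Proof: `Dual20_1.exists_cobound` for `B = Fun(Γ_q ⧸ U, M)` (`CoindEff1`: `φ` is effaced in `B`), its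
canonical resolution `ℤ[B] → B` and the derived resolution of `B ⧸ M` (`QuotRes1`); the kernels are
`LocDual1.pair11_left_kernel_local` and `LocalHypR11.pair11_right_kernel_local`, finiteness of
`H¹(Γ_q, B ⧸ M)` is `LocFin1.finite_Hlev1_local`, the invariant map comes from the local
fundamental classes (`LocalFund11.fundFixed_unitsLoc`).
-/
import Mathlib
import Fermat.Agent.W56.CoindEff1
import Fermat.Agent.W56.QuotRes1
import Fermat.Agent.W56.Dual20_1
import Fermat.Agent.W56.LocDual1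
import Fermat.Agent.W56.LocFin1
import Fermat.Agent.PT.PRO.InvFund18
import Fermat.Agent.PT.GLUE.LocalFund11

set_option autoImplicit false
set_option linter.unusedSectionVars false
set_option linter.style.haveILetI false

namespace Fermat.Agent.W56.LH2Loc1

open Function Fermat.Agent.PT.PRO Fermat.Agent.PT.PRO.HyperLevel25 Fermat.Agent.PT.PRO.Resolved4
  Fermat.Agent.PT.PRO.ExtPairing4 Fermat.Agent.PT.PRO.ExtPairingB4 Fermat.Agent.PT.PRO.InvP4
  Fermat.Agent.W56.CoindEff1 Fermat.Agent.W56.QuotRes1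

/-! ## The formal combination of `Dual20_1` and `CoindEff1` (generic `k`) -/

section Generic

variable {k G : Type*} [CommRing k] [Group G] {𝒰 : Set (Subgroup G)}
variable {M X P1 P0 : Type*} [AddCommGroup M] [Module k M] [AddCommGroup X] [Module k X]
  [AddCommGroup P1] [Module k P1] [AddCommGroup P0] [Module k P0]
variable (ρ : Representation k G M) (U : Subgroup G) [hUn : U.Normal]
variable (R : Resolved k 𝒰 P1 P0 ((G ⧸ U) → M)) (hR : R.ρM = coindRep ρ U)

include hR in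
/-- The constants are stable. -/
theorem stable_const : ∀ g, ∀ a ∈ LinearMap.range (const k (M := M) U),
    R.ρM g a ∈ LinearMap.range (const k (M := M) U) := fun g a ha => by
  rw [hR]
  exact coindRep_mem_range ρ U g a ha

variable [Module.Finite k P0] [Module.Finite k P1]
  [Module.Finite k ↥(Q1 R (LinearMap.range (const k (M := M) U)))]
variable (h𝒰 : IsLevelBasis 𝒰) (ρX : Representation k G X) (hX : IsDiscrete 𝒰 ρX)

theorem exists_cobound_coind (hU : U ∈ 𝒰) (p : ℕ) [Fact p.Prime] (hpM : ∀ m : M, p • m = 0)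
    (hfin : Finite (Hlev1 h𝒰 (quotRes R _ (stable_const ρ U R hR)).ρM
      (quotRes R _ (stable_const ρ U R hR)).discM))
    (τ : pTor p (Hlev2 h𝒰 ρX hX) →+ ZMod p) (hτ : Injective τ)
    (hLK : ∀ ξ : (R.K h𝒰 ρX hX).ℍ1 h𝒰,
      (∀ x, pair11 (evalPairing R h𝒰 ρX hX) h𝒰 hX ξ x = 0) → ξ = 0)
    (hRK : ∀ x : Hlev1 h𝒰 (quotRes R _ (stable_const ρ U R hR)).ρM
        (quotRes R _ (stable_const ρ U R hR)).discM,
      (∀ ξ, pair11 (evalPairing (quotRes R _ (stable_const ρ U R hR)) h𝒰 ρX hX) h𝒰 hX ξ x = 0) →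
        x = 0)
    (φ : G × G → M) (hinv : ∀ g g' s s', s ∈ U → s' ∈ U → φ (g * s, g' * s') = φ (g, g'))
    (hφc : dTwo ρ φ = 0)
    (hH2 : ∀ f : M →ₗ[k] X, (∀ g m, f (ρ g m) = ρX g (f m)) →
      ∃ u : G → X, IsLevel₁ 𝒰 u ∧ dOne ρX u = ⇑f ∘ φ) :
    ∃ v : G → M, IsLevel₁ 𝒰 v ∧ dOne ρ v = φ := by
  haveI := hfin
  have hpC : ∀ c : ((G ⧸ U) → M) ⧸ LinearMap.range (const k (M := M) U), p • c = 0 := fun c => by
    obtain ⟨b, rfl⟩ := Submodule.mkQ_surjective _ c
    have hb : p • b = 0 := by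
      funext x
      exact hpM (b x)
    rw [← map_nsmul, hb, map_zero]
  -- the data
  have hψl : IsLevel₁ 𝒰 (eff U φ) := ⟨U, hU, fun g s hs => eff_mul U φ hinv g s hs⟩
  obtain ⟨v, hvl, hv⟩ := Dual20_1.exists_cobound R _ (stable_const ρ U R hR) h𝒰 ρX hX p hpC τ hτ
    hLK hRK (fun q => (const k (M := M) U).rangeRestrict (φ q)) (eff U φ) hψl
    (fun q => by
      rw [hR]
      exact (dOne_eff ρ U φ hinv hφc q.1 q.2).symm)
    (fun f hf => by
      obtain ⟨u, hul, hu⟩ := hH2 (f ∘ₗ (const k (M := M) U).rangeRestrict) (fun g m => by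
        rw [LinearMap.comp_apply, LinearMap.comp_apply, ← hf]
        congr 1
        apply Subtype.ext
        show const k U (ρ g m) = R.ρM g (const k U m)
        rw [hR]
        rfl)
      exact ⟨u, hul, hu⟩)
  -- evaluation at the trivial coset
  have hev : ∀ g (a : ↥(LinearMap.range (const k (M := M) U))),
      (subRep R _ (stable_const ρ U R hR) g a : (G ⧸ U) → M) (QuotientGroup.mk 1) =
        ρ g ((a : (G ⧸ U) → M) (QuotientGroup.mk 1)) := fun g a => by
    obtain ⟨m, hm⟩ := a.2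
    rw [coe_subRep, hR, ← hm]
    rfl
  refine ⟨fun g => (v g : (G ⧸ U) → M) (QuotientGroup.mk 1),
    hvl.comp (fun a : ↥(LinearMap.range (const k (M := M) U)) =>
      (a : (G ⧸ U) → M) (QuotientGroup.mk 1)), ?_⟩
  funext ⟨g, h⟩
  have h1 := congrArg (fun a : ↥(LinearMap.range (const k (M := M) U)) =>
    (a : (G ⧸ U) → M) (QuotientGroup.mk 1)) (congrFun hv (g, h))
  simp only [dOne_apply] at h1 ⊢
  rw [← hev]
  exact h1

end Generic

/-! ## The local case -/

section Local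

open Fermat.Agent.PT.GLUE.Objects21 Fermat.Agent.PT.GLUE.LocalHypR11

variable (q : ℕ) [Fact q.Prime]

local notation "Γq" => (PadicAlgCl q ≃ₐ[ℚ_[q]] PadicAlgCl q)

/-- Make instance search find the `ℤ`-module structure carried by the `Rep`. -/
noncomputable local instance (priority := 5000) instModuleUnitsLocH2 :
    Module ℤ (unitsLoc q).V := (unitsLoc q).hV2

variable {M : Type} [AddCommGroup M] [instM : Module ℤ M] [Finite M]
  (ρ : Representation ℤ (PadicAlgCl q ≃ₐ[ℚ_[q]] PadicAlgCl q) M)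
  (hρ : IsDiscrete (levelLoc q).sets ρ) (p : ℕ) [Fact p.Prime] (hpM : ∀ m : M, p • m = 0)

include hρ hpM in
/-- **The `(2,0)` left kernel of local Tate duality.** -/
theorem exists_cobound_local (φ : Γq × Γq → M) (hφl : IsLevel₂ (levelLoc q).sets φ)
    (hφc : dTwo ρ φ = 0)
    (hH2 : ∀ f : M →ₗ[ℤ] (unitsLoc q).V, (∀ g m, f (ρ g m) = (unitsLoc q).ρ g (f m)) →
      ∃ u : Γq → (unitsLoc q).V, IsLevel₁ (levelLoc q).sets u ∧
        dOne (unitsLoc q).ρ u = ⇑f ∘ φ) :
    ∃ v : Γq → M, IsLevel₁ (levelLoc q).sets v ∧ dOne ρ v = φ := by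
  have hinst : instM = AddCommGroup.toIntModule M := Subsingleton.elim _ _
  subst hinst
  have h𝒰 := isLevelBasis_levelLoc q
  obtain ⟨U₀, hU₀, hinv₀⟩ := hφl
  obtain ⟨U, hU, hUle, hUn⟩ := h𝒰.normal U₀ hU₀
  haveI := hUn
  haveI : U.FiniteIndex := h𝒰.finiteIndex U hU
  haveI : Finite (Γq ⧸ U) := Subgroup.finite_quotient_of_finiteIndex
  have hB := isDiscrete_coindRep ρ U h𝒰 hU hρ
  obtain ⟨τ, hτ⟩ := InvFund18.exists_inv_of_isFundClass (unitsLoc q).ρ h𝒰 (isDiscrete_unitsLoc' q)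
    (Fermat.Agent.PT.GLUE.LocalFund11.fundFixed_unitsLoc q p)
  refine exists_cobound_coind ρ U (Setup20.toResolved (HpAt29.freeRes (coindRep ρ U))
    (FreeRes29.isDiscrete_freeRep h𝒰 hB)) rfl h𝒰 (unitsLoc q).ρ (isDiscrete_unitsLoc' q) hU p hpM
    ?_ τ hτ ?_ ?_ φ (fun g g' s s' hs hs' => hinv₀ g g' s s' (hUle hs) (hUle hs')) hφc hH2
  · haveI : Finite (((Γq ⧸ U) → M) ⧸ LinearMap.range (const ℤ (M := M) U)) :=
      Finite.of_surjective _ (Submodule.mkQ_surjective _)
    refine LocFin1.finite_Hlev1_local q _ h𝒰 _ p (fun c => ?_)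
    obtain ⟨b, rfl⟩ := Submodule.mkQ_surjective _ c
    have hb : p • b = 0 := by
      funext x
      exact hpM (b x)
    rw [← map_nsmul, hb, map_zero]
  · intro ξ hξ
    refine LocDual1.pair11_left_kernel_local q _ p (fun b => ?_) ξ hξ
    funext x
    exact hpM (b x)
  · intro x hx
    refine pair11_right_kernel_local q _ p (fun c => ?_) x hx
    obtain ⟨b, rfl⟩ := Submodule.mkQ_surjective _ c
    have hb : p • b = 0 := by
      funext x
      exact hpM (b x)
    rw [← map_nsmul, hb, map_zero]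

end Local

end Fermat.Agent.W56.LH2Loc1
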