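/-
Programme W56 (S56), chapter (E1) "PT-mid", helper2.

`TraceDual2`: coefficients.  `k` a finite field of characteristic `p`, `N : Rep k G`.

* `resScal p N : Rep (ZMod p) G`: restriction of scalars to the prime field (same carrier, as the
  type synonym `RestrictScalars (ZMod p) k N`; same action).
* `trDual p N : Module.Dual k N →+ Module.Dual (ZMod p) (resScal p N)`, `f ↦ tr_{k/𝔽_p} ∘ f`:
  additive, bijective (`trDual_bijective`: the trace form of a finite field is non-degenerate +
  counting), and equivariant for the twisted dual actions (`trDual_ρ`):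
  `N.dualTwist χ_k → (resScal p N).dualTwist χ`, `χ_k = χ` composed with `𝔽_p ⊆ k`.
* `ddual p N χ : N →+ ((resScal p N).dualTwist χ).dualTwist χ`: evaluation, bijective, equivariant.
-/
import Mathlib
import Fermat.Prelude.Def_GroupCohomology_Selmer

set_option autoImplicit false

namespace Fermat.Agent.W56.TraceDual2

open Function Module

section

variable {k : Type} [Field k] [Finite k] (p : ℕ) [Fact p.Prime] [CharP k p]
variable {G : Type} [Group G]

attribute [local instance] ZMod.algebra

/-- The character `χ` with values in `kˣ`. -/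
def chiK (χ : G →* (ZMod p)ˣ) : G →* kˣ :=
  (Units.map ((ZMod.castHom (dvd_refl p) k : ZMod p →+* k) : ZMod p →* k)).comp χ

omit [Finite k] in
theorem coe_chiK (χ : G →* (ZMod p)ˣ) (g : G) :
    ((chiK (k := k) p χ g : kˣ) : k) = algebraMap (ZMod p) k (χ g : ZMod p) := rfl

variable (N : Rep.{0} k G)

/-- The carrier of `N`, as a type synonym carrying the `ZMod p`-module structure. -/
def RS (_p : ℕ) (N : Rep.{0} k G) : Type := N

noncomputable instance : AddCommGroup (RS p N) := inferInstanceAs (AddCommGroup N)

noncomputable instance : Module (ZMod p) (RS p N) :=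
  Module.compHom N (algebraMap (ZMod p) k)

/-- The identity `N → RS p N`. -/
def toRS : N →+ RS p N := AddMonoidHom.id N

/-- The identity `RS p N → N`. -/
def ofRS : RS p N →+ N := AddMonoidHom.id N

omit [Finite k] in
theorem ofRS_smul (c : ZMod p) (n : RS p N) :
    ofRS p N (c • n) = algebraMap (ZMod p) k c • ofRS p N n := rfl

/-- The action of `G` on `N`, as a `ZMod p`-linear representation on the restriction of scalars. -/
noncomputable def resScalRep : Representation (ZMod p) G (RS p N) where
  toFun g :=
    { toFun := fun n => toRS p N (N.ρ g (ofRS p N n))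
      map_add' := fun n n' => map_add (N.ρ g) (ofRS p N n) (ofRS p N n')
      map_smul' := fun c n => by
        show N.ρ g (algebraMap (ZMod p) k c • ofRS p N n) =
          algebraMap (ZMod p) k c • N.ρ g (ofRS p N n)
        exact map_smul (N.ρ g) _ _ }
  map_one' := by
    ext n
    show N.ρ 1 (ofRS p N n) = n
    rw [map_one]; rfl
  map_mul' g h := by
    ext n
    show N.ρ (g * h) (ofRS p N n) = N.ρ g (N.ρ h (ofRS p N n))
    rw [map_mul]; rfl

/-- Restriction of scalars to the prime field. -/
noncomputable abbrev resScal : Rep.{0} (ZMod p) G := Rep.of (resScalRep p N)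

omit [Finite k] in
theorem resScal_ρ_apply (g : G) (n : RS p N) :
    (resScal p N).ρ g n = toRS p N (N.ρ g (ofRS p N n)) := rfl

/-- `f ↦ tr_{k/𝔽_p} ∘ f`. -/
noncomputable def trDual : Module.Dual k N →+ Module.Dual (ZMod p) (resScal p N) where
  toFun f :=
    { toFun := fun n : RS p N => Algebra.trace (ZMod p) k (f (ofRS p N n))
      map_add' := fun n n' : RS p N => by
        show Algebra.trace (ZMod p) k (f (ofRS p N n + ofRS p N n')) = _
        rw [map_add, map_add]
      map_smul' := fun c (n : RS p N) => by
        rw [RingHom.id_apply]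
        show Algebra.trace (ZMod p) k (f (algebraMap (ZMod p) k c • ofRS p N n)) = _
        rw [map_smul, smul_eq_mul, ← Algebra.smul_def, map_smul] }
  map_zero' := by
    ext n
    show Algebra.trace (ZMod p) k ((0 : Module.Dual k N) (ofRS p N n)) = 0
    rw [LinearMap.zero_apply, map_zero]
  map_add' f f' := by
    ext n
    show Algebra.trace (ZMod p) k ((f + f') (ofRS p N n)) =
      Algebra.trace (ZMod p) k (f (ofRS p N n)) + Algebra.trace (ZMod p) k (f' (ofRS p N n))
    rw [LinearMap.add_apply, map_add]

omit [Finite k] in
theorem trDual_apply (f : Module.Dual k N) (n : RS p N) :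
    trDual p N f n = Algebra.trace (ZMod p) k (f (ofRS p N n)) := rfl

theorem trDual_injective : Injective (trDual p N) := by
  rw [injective_iff_map_eq_zero]
  intro f hf
  by_contra hne
  obtain ⟨n₀, hn₀⟩ : ∃ n₀, f n₀ ≠ 0 := by
    by_contra h
    push Not at h
    exact hne (LinearMap.ext h)
  have : Module.Finite (ZMod p) k := Module.Finite.of_finite
  apply Algebra.trace_ne_zero (ZMod p) k
  ext c
  have h1 : f ((c / f n₀) • n₀) = c := by
    rw [map_smul, smul_eq_mul, div_mul_cancel₀ _ hn₀]
  have h2 : trDual p N f (toRS p N ((c / f n₀) • n₀)) = 0 := by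
    rw [hf]; rfl
  rw [trDual_apply] at h2
  have h3 : ofRS p N (toRS p N ((c / f n₀) • n₀)) = (c / f n₀) • n₀ := rfl
  rw [h3, h1] at h2
  rw [h2, LinearMap.zero_apply]

theorem card_dual_eq {F V : Type} [Field F] [AddCommGroup V] [Module F V] [FiniteDimensional F V] :
    Nat.card (Module.Dual F V) = Nat.card V :=
  Nat.card_congr (Module.finBasis F V).toDualEquiv.symm.toEquiv

theorem finite_of_finiteDimensional [FiniteDimensional k N] : Finite N :=
  Module.finite_of_finite k

theorem finiteDimensional_resScal [FiniteDimensional k N] :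
    FiniteDimensional (ZMod p) (resScal p N) := by
  have : Finite N := finite_of_finiteDimensional N
  have : Finite (RS p N) := this
  exact (Module.Finite.of_finite : Module.Finite (ZMod p) (RS p N))

theorem trDual_bijective [FiniteDimensional k N] : Bijective (trDual p N) := by
  have : Finite N := finite_of_finiteDimensional N
  have := finiteDimensional_resScal p N
  have : Finite (Module.Dual (ZMod p) (resScal p N)) := Module.finite_of_finite (ZMod p)
  apply (trDual_injective p N).bijective_of_nat_card_le
  rw [card_dual_eq, card_dual_eq]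
  exact le_of_eq rfl

section Twist

variable (χ : G →* (ZMod p)ˣ)

omit [Finite k] in
/-- **`trDual` is equivariant** for the twisted dual actions. -/
theorem trDual_ρ (g : G) (f : Module.Dual k N) :
    trDual p N ((N.dualTwist (chiK (k := k) p χ)).ρ g f) =
      ((resScal p N).dualTwist χ).ρ g (trDual p N f) := by
  apply LinearMap.ext
  intro n
  rw [Rep.dualTwist_ρ_apply, Rep.dualTwist_ρ_apply, trDual_apply, LinearMap.smul_apply,
    LinearMap.smul_apply, LinearMap.comp_apply, LinearMap.comp_apply, trDual_apply, coe_chiK,
    smul_eq_mul (a := algebraMap (ZMod p) k _), ← Algebra.smul_def, map_smul]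
  rfl

/-- Evaluation `N → ((N₀)')'`, `N₀ = resScal p N`. -/
noncomputable def ddual : N →+ ((resScal p N).dualTwist χ).dualTwist χ :=
  ((Module.Dual.eval (ZMod p) (RS p N)).toAddMonoidHom).comp (toRS p N)

omit [Finite k] in
theorem ddual_apply (n : N) (φ : Module.Dual (ZMod p) (RS p N)) :
    ddual p N χ n φ = φ (toRS p N n) := rfl

theorem ddual_bijective [FiniteDimensional k N] : Bijective (ddual p N χ) := by
  have : FiniteDimensional (ZMod p) (RS p N) := finiteDimensional_resScal p N
  exact (Module.bijective_dual_eval (ZMod p) (RS p N))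

omit [Finite k] in
/-- **`ddual` is equivariant.** -/
theorem ddual_ρ (g : G) (n : N) :
    ddual p N χ (N.ρ g n) = (((resScal p N).dualTwist χ).dualTwist χ).ρ g (ddual p N χ n) := by
  apply LinearMap.ext
  intro φ
  rw [Rep.dualTwist_ρ_apply, LinearMap.smul_apply, LinearMap.comp_apply, ddual_apply,
    ddual_apply, Rep.dualTwist_ρ_apply, LinearMap.smul_apply, LinearMap.comp_apply, smul_smul,
    inv_inv, map_inv, Units.mul_inv, one_smul]
  rfl

end Twist

end

end Fermat.Agent.W56.TraceDual2
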