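/-
Programme W56 (S56), chapter (LH2) (local `H²` bound), helper1.

`LH2D1`: **(LH2) in the vocabulary of `W56/Defs9` / `GWContracts4`, UNCONDITIONALLY**:
for `k` a finite field of characteristic `p`, `M : Rep k Γ` finite-dimensional and smooth, and EVERY
prime `q` (including `q = p`):

  `Finite (H2D M q) ∧ Nat.card (H2D M q) ≤ d0 (M.dualTwist (cycloK p)) q`,

i.e. `GWContracts4.LocalH2Bound` is a theorem (`localH2Bound`).

Proof: `LH2Loc1.exists_cobound_local` (the `(2,0)` left kernel of local Tate duality) gives an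
injection `H²(Γ_q, M) ↪ Hom(I, 𝔽_p)`, `I = (M^∨(1))^{Γ_q}`, `[φ] ↦ (F ↦ inv [ (j ∘ tr ∘ F) ∘ φ ])`,
because every equivariant `f : M → ℚ̄_qˣ` is `j ∘ tr_{k/𝔽_p} ∘ F` for a unique `F ∈ I`
(`j : 𝔽_p ≅ μ_p(ℚ̄_q)` = `KerIsoGal7.muLoc`, trace duality = helper2's `TraceDual2`).
-/
import Mathlib
import Fermat.Agent.W56.Defs9
import Fermat.Agent.W56.GWContracts4
import Fermat.Agent.W56.LH2Loc1
import Fermat.Agent.W56.TraceDual2
import Fermat.Agent.W56.FinH1D1
import Fermat.Agent.PT.PRO.KerIsoGal7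
import Fermat.Agent.PT.PRO.IntRep20
import Fermat.Agent.PT.GLUE.BasisCompare13
import Fermat.Agent.PT.PRO.LevelCompare13

set_option autoImplicit false
set_option linter.unusedSectionVars false
set_option linter.style.haveILetI false

open CategoryTheory ExtCitation

namespace Fermat.Agent.W56.LH2D1

open Function Fermat.Agent.PT.PRO Fermat.Agent.PT.BR Fermat.Agent.PT.GLUE.Objects21
open Fermat.Agent.W56.Defs9 Fermat.Agent.W56.TraceDual2 Fermat.Agent.PT.PRO.KerIsoGal7

local notation "Γ" => (AlgebraicClosure ℚ ≃ₐ[ℚ] AlgebraicClosure ℚ)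
local notation "Qbar" => AlgebraicClosure ℚ

/-- An additive map as a `ℤ`-linear map, for ARBITRARY `ℤ`-module structures. -/
def toIntLin {A B : Type*} [AddCommGroup A] [AddCommGroup B] [Module ℤ A] [Module ℤ B]
    (f : A →+ B) : A →ₗ[ℤ] B where
  toFun := f
  map_add' := f.map_add
  map_smul' n a := by
    have := map_intCast_smul f ℤ ℤ n a
    simpa using this

@[simp] theorem toIntLin_apply {A B : Type*} [AddCommGroup A] [AddCommGroup B] [Module ℤ A]
    [Module ℤ B] (f : A →+ B) (a : A) : toIntLin f a = f a := rfl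

section Nat

attribute [local instance] ZMod.algebra

variable {k : Type} [Field k] [Finite k] (p : ℕ) [Fact p.Prime] [CharP k p]
variable (M : Rep.{0} k Γ) [Module.Finite k M] (q : ℕ) [Fact q.Prime]

local notation "Γq" => (PadicAlgCl q ≃ₐ[ℚ_[q]] PadicAlgCl q)

/-- Make instance search find the `ℤ`-module structure carried by the `Rep`. -/
noncomputable local instance (priority := 5000) instModuleUnitsLocD :
    Module ℤ (unitsLoc q).V := (unitsLoc q).hV2

omit [Finite k] [Module.Finite k M] in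
theorem coe_cycloK (g : Γ) :
    ((cycloK (k := k) p g : kˣ) : k) = algebraMap (ZMod p) k (cycloChar p g : ZMod p) := rfl

/-- `tr_{k/𝔽_p} ∘ F`, as an additive map. -/
noncomputable def trOf (F : Module.Dual k M) : M →+ ZMod p :=
  (Algebra.trace (ZMod p) k).toAddMonoidHom.comp F.toAddMonoidHom

omit [Finite k] [Module.Finite k M] in
@[simp] theorem trOf_apply (F : Module.Dual k M) (m : M) :
    trOf p M F m = Algebra.trace (ZMod p) k (F m) := rfl

/-- `F ↦ j ∘ tr ∘ F : M → ℚ̄_qˣ`. -/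
noncomputable def homOf (F : Module.Dual k M) : M →ₗ[ℤ] (unitsLoc q).V :=
  toIntLin ((muLoc p q).j.comp (trOf p M F))

omit [Finite k] [Module.Finite k M] in
@[simp] theorem homOf_apply (F : Module.Dual k M) (m : M) :
    homOf p M q F m = (muLoc p q).j (Algebra.trace (ZMod p) k (F m)) := rfl

omit [Finite k] [Module.Finite k M] in
theorem homOf_add (F F' : Module.Dual k M) (m : M) :
    homOf p M q (F + F') m = homOf p M q F m + homOf p M q F' m := by
  simp only [homOf_apply, LinearMap.add_apply, map_add]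

/-- The invariants of `M^∨(1)` under `Γ_q`. -/
noncomputable abbrev Inv : Submodule k (Module.Dual k M) :=
  (Rep.res (localGaloisToGlobal q) (M.dualTwist (cycloK (k := k) p))).ρ.invariants

omit [Finite k] [Module.Finite k M] in
theorem mem_Inv_iff (F : Module.Dual k M) :
    F ∈ Inv p M q ↔ ∀ g : Γq, ((cycloK (k := k) p (localGaloisToGlobal q g) : kˣ) : k) •
      (F ∘ₗ M.ρ (localGaloisToGlobal q g)⁻¹) = F := Iff.rfl

omit [Finite k] [Module.Finite k M] in
theorem apply_of_mem_Inv {F : Module.Dual k M} (hF : F ∈ Inv p M q) (g : Γq) (m : M) :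
    F (M.ρ (localGaloisToGlobal q g) m) =
      ((cycloK (k := k) p (localGaloisToGlobal q g) : kˣ) : k) * F m := by
  have h1 := LinearMap.congr_fun ((mem_Inv_iff p M q F).1 hF g) (M.ρ (localGaloisToGlobal q g) m)
  rw [LinearMap.smul_apply, LinearMap.comp_apply, smul_eq_mul] at h1
  rw [← h1]
  congr 2
  rw [← Module.End.mul_apply, ← map_mul, inv_mul_cancel, map_one, Module.End.one_apply]

omit [Finite k] [Module.Finite k M] in
/-- `homOf F` is equivariant for `F` invariant. -/
theorem homOf_equivariant {F : Module.Dual k M} (hF : F ∈ Inv p M q) (g : Γq) (m : M) :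
    homOf p M q F (M.ρ (localGaloisToGlobal q g) m) = (unitsLoc q).ρ g (homOf p M q F m) := by
  rw [homOf_apply, homOf_apply, apply_of_mem_Inv p M q hF, coe_cycloK, ← Algebra.smul_def,
    map_smul, smul_eq_mul]
  exact ((muLoc p q).equiv g _).symm

omit [Finite k] [Module.Finite k M] in
theorem nsmul_eq_zero (m : M) : p • m = 0 := by
  rw [← Nat.cast_smul_eq_nsmul k, CharP.cast_eq_zero, zero_smul]

/-- **Every equivariant `f : M → ℚ̄_qˣ` is `j ∘ tr ∘ F` for an invariant `F ∈ M^∨(1)`.** -/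
theorem exists_homOf_eq (f : M →ₗ[ℤ] (unitsLoc q).V)
    (hf : ∀ (g : Γq) (m : M), f (M.ρ (localGaloisToGlobal q g) m) = (unitsLoc q).ρ g (f m)) :
    ∃ F ∈ Inv p M q, ∀ m, homOf p M q F m = f m := by
  have hex : ∀ m : M, ∃ a : ZMod p, (muLoc p q).j a = f m := fun m =>
    (muLoc p q).surj (f m) (by rw [← map_nsmul, nsmul_eq_zero p M, map_zero])
  choose a ha using hex
  have hj := (muLoc p q).inj
  have ha_add : ∀ m m', a (m + m') = a m + a m' := fun m m' =>
    hj (by rw [map_add, ha, ha, ha, map_add])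
  have ha_eq : ∀ (g : Γq) (m : M), a (M.ρ (localGaloisToGlobal q g) m) =
      (((cycloChar p).comp (localGaloisToGlobal q) g : (ZMod p)ˣ) : ZMod p) * a m := fun g m =>
    hj (by
      rw [ha, hf, ← ha m]
      exact (muLoc p q).equiv g _)
  have ha_nsmul : ∀ (i : ℕ) (m : M), a (i • m) = (i : ZMod p) * a m := fun i m => by
    have := map_nsmul (AddMonoidHom.mk' a ha_add) i m
    rw [nsmul_eq_mul] at this
    exact this
  let aL : Module.Dual (ZMod p) (resScal p M) :=
    { toFun := fun n : RS p M => a (ofRS p M n)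
      map_add' := fun n n' : RS p M => ha_add (ofRS p M n) (ofRS p M n')
      map_smul' := fun c (n : RS p M) => by
        rw [RingHom.id_apply, smul_eq_mul]
        show a (algebraMap (ZMod p) k c • ofRS p M n) = c * a (ofRS p M n)
        rw [← ZMod.natCast_zmod_val c, map_natCast, Nat.cast_smul_eq_nsmul, ha_nsmul] }
  obtain ⟨F, hF⟩ := (trDual_bijective p M).2 aL
  have hFa : ∀ m : M, Algebra.trace (ZMod p) k (F m) = a m := fun m =>
    LinearMap.congr_fun hF (toRS p M m)
  refine ⟨F, fun g => ?_, fun m => ?_⟩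
  · apply trDual_injective p M
    refine (trDual_ρ p M (cycloChar p) (localGaloisToGlobal q g) F).trans ?_
    rw [hF]
    apply LinearMap.ext
    intro n
    rw [Rep.dualTwist_ρ_apply, LinearMap.smul_apply, LinearMap.comp_apply]
    show ((cycloChar p (localGaloisToGlobal q g) : (ZMod p)ˣ) : ZMod p) •
      a (M.ρ (localGaloisToGlobal q g)⁻¹ (ofRS p M n)) = a (ofRS p M n)
    rw [← map_inv, ha_eq, smul_eq_mul, ← mul_assoc, map_inv, MonoidHom.comp_apply,
      ← Units.val_mul, mul_inv_cancel, Units.val_one, one_mul]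
  · rw [homOf_apply, hFa, ha]

/-! ### The pairing `Z²(Γ_q, M) × (M^∨(1))^{Γ_q} → H²(Γ_q, ℚ̄_qˣ)[p] ↪ 𝔽_p` -/

open Fermat.Agent.PT.PRO.HyperLevel25 Fermat.Agent.PT.PRO.Resolved4 Fermat.Agent.PT.PRO.ExtPairing4
  Fermat.Agent.PT.PRO.InvP4 Fermat.Agent.PT.GLUE.LocalHypR11

/-- The `ℤ`-linear representation of `Γ_q` on `M`. -/
noncomputable abbrev ρN : Representation ℤ Γq M :=
  IntRep20.intRep (Rep.res (localGaloisToGlobal q) M)

omit [Finite k] [Module.Finite k M] in
theorem dTwo_homOf_comp {F : Module.Dual k M} (hF : F ∈ Inv p M q) {φ : Γq × Γq → M}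
    (hc : dTwo (ρN M q) φ = 0) : dTwo (unitsLoc q).ρ (⇑(homOf p M q F) ∘ φ) = 0 := by
  rw [← comp_dTwo (ρN M q) (unitsLoc q).ρ (homOf p M q F)
    (fun g m => homOf_equivariant p M q hF g m) φ, hc]
  funext x
  exact map_zero _

/-- The class of `(j ∘ tr ∘ F) ∘ φ`. -/
noncomputable def cls (φ : Γq × Γq → M) (hl : IsLevel₂ (levelLoc q).sets φ)
    (hc : dTwo (ρN M q) φ = 0) (F : ↥(Inv p M q)) :
    Hlev2 (isLevelBasis_levelLoc q) (unitsLoc q).ρ (isDiscrete_unitsLoc' q) :=
  cl2 (isLevelBasis_levelLoc q) (unitsLoc q).ρ (isDiscrete_unitsLoc' q)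
    (⇑(homOf p M q (F : Module.Dual k M)) ∘ φ) (hl.comp _) (dTwo_homOf_comp p M q F.2 hc)

omit [Finite k] [Module.Finite k M] in
theorem cls_add (φ : Γq × Γq → M) (hl : IsLevel₂ (levelLoc q).sets φ)
    (hc : dTwo (ρN M q) φ = 0) (F F' : ↥(Inv p M q)) :
    cls p M q φ hl hc (F + F') = cls p M q φ hl hc F + cls p M q φ hl hc F' := by
  unfold cls
  rw [← cl2_add]
  · apply cl2_congr
    funext x
    exact homOf_add p M q _ _ _
  · exact (isLevelBasis_levelLoc q).isLevel₂_add (hl.comp _) (hl.comp _)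
  · rw [map_add, dTwo_homOf_comp p M q F.2 hc, dTwo_homOf_comp p M q F'.2 hc, add_zero]

/-- `F ↦ [ (j ∘ tr ∘ F) ∘ φ ]`, additive. -/
noncomputable def clsHom (φ : Γq × Γq → M) (hl : IsLevel₂ (levelLoc q).sets φ)
    (hc : dTwo (ρN M q) φ = 0) :
    ↥(Inv p M q) →+ Hlev2 (isLevelBasis_levelLoc q) (unitsLoc q).ρ (isDiscrete_unitsLoc' q) :=
  AddMonoidHom.mk' (cls p M q φ hl hc) (cls_add p M q φ hl hc)

omit [Finite k] [Module.Finite k M] in
theorem clsHom_mem_pTor (φ : Γq × Γq → M) (hl : IsLevel₂ (levelLoc q).sets φ)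
    (hc : dTwo (ρN M q) φ = 0) (F : ↥(Inv p M q)) :
    clsHom p M q φ hl hc F ∈ pTor p
      (Hlev2 (isLevelBasis_levelLoc q) (unitsLoc q).ρ (isDiscrete_unitsLoc' q)) := by
  show p • clsHom p M q φ hl hc F = 0
  rw [← map_nsmul]
  have : p • F = 0 := by
    rw [← Nat.cast_smul_eq_nsmul k, CharP.cast_eq_zero, zero_smul]
  rw [this, map_zero]

variable (hsm : ∀ m : M, ∃ F : IntermediateField ℚ Qbar, FiniteDimensional ℚ F ∧
    ∀ s ∈ F.fixingSubgroup, M.ρ s m = m)

include hsm in
/-- **Injectivity**: two level 2-cocycles with the same pairings against all of `(M^∨(1))^{Γ_q}`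
differ by a level coboundary. -/
theorem exists_cobound_of_cls_eq (τ : pTor p (Hlev2 (isLevelBasis_levelLoc q) (unitsLoc q).ρ
      (isDiscrete_unitsLoc' q)) →+ ZMod p) (hτ : Injective τ)
    (φ φ' : Γq × Γq → M) (hl : IsLevel₂ (levelLoc q).sets φ) (hc : dTwo (ρN M q) φ = 0)
    (hl' : IsLevel₂ (levelLoc q).sets φ') (hc' : dTwo (ρN M q) φ' = 0)
    (h : ∀ F : ↥(Inv p M q), τ ⟨clsHom p M q φ hl hc F, clsHom_mem_pTor p M q φ hl hc F⟩ =
      τ ⟨clsHom p M q φ' hl' hc' F, clsHom_mem_pTor p M q φ' hl' hc' F⟩) :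
    ∃ v : Γq → M, IsLevel₁ (levelLoc q).sets v ∧ dOne (ρN M q) v = φ - φ' := by
  haveI : Finite M := Module.finite_of_finite k
  refine LH2Loc1.exists_cobound_local q (ρN M q) (FinH1D1.isDiscrete_res M hsm q) p
    (nsmul_eq_zero p M) (φ - φ') (isLevel₂_sub' (isLevelBasis_levelLoc q) hl hl')
    (by rw [map_sub, hc, hc', sub_zero]) (fun f hf => ?_)
  obtain ⟨F, hF, hFf⟩ := exists_homOf_eq p M q f hf
  have h1 := congrArg Subtype.val (hτ (h ⟨F, hF⟩))
  have h2 : cls p M q φ hl hc ⟨F, hF⟩ = cls p M q φ' hl' hc' ⟨F, hF⟩ := h1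
  unfold cls at h2
  rw [cl2_eq_iff] at h2
  obtain ⟨b, hb, hdb⟩ := h2
  refine ⟨b, hb, ?_⟩
  rw [hdb]
  funext x
  simp only [Pi.sub_apply, Function.comp_apply, hFf, map_sub]

include hsm in
/-- **(LH2)** for `Γ_q = Gal(ℚ̄_q/ℚ_q)`, `q : ℕ` prime. -/
theorem finite_and_card_H2_nat :
    Finite (LevelCoh28.H2 (LevelBridge13.pullBasis (localGaloisToGlobal q))
      (Rep.res (localGaloisToGlobal q) M)) ∧
    Nat.card (LevelCoh28.H2 (LevelBridge13.pullBasis (localGaloisToGlobal q))
      (Rep.res (localGaloisToGlobal q) M)) ≤ Nat.card ↥(Inv p M q) := by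
  have h𝒰 := isLevelBasis_levelLoc q
  obtain ⟨τ, hτ⟩ := InvFund18.exists_inv_of_isFundClass (unitsLoc q).ρ h𝒰 (isDiscrete_unitsLoc' q)
    (Fermat.Agent.PT.GLUE.LocalFund11.fundFixed_unitsLoc q p)
  have hsets : (LevelBridge13.pullBasis (localGaloisToGlobal q)).sets = (levelLoc q).sets :=
    Fermat.Agent.PT.GLUE.BasisCompare13.pullSets_eq q
  have hlev : ∀ c : ↥(LevelCoh28.Z2 (LevelBridge13.pullBasis (localGaloisToGlobal q))
      (Rep.res (localGaloisToGlobal q) M)),
      IsLevel₂ (levelLoc q).sets (c : Γq × Γq → M) := fun c => by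
    have h := (LevelCompare13.isLevel₂_iff _).1 c.2.2
    rw [hsets] at h
    exact h
  have hcoc : ∀ c : ↥(LevelCoh28.Z2 (LevelBridge13.pullBasis (localGaloisToGlobal q))
      (Rep.res (localGaloisToGlobal q) M)), dTwo (ρN M q) (c : Γq × Γq → M) = 0 := fun c =>
    (LevelCompare13.mem_cocycles₂_iff _ _).1 c.2.1
  let Θ : ↥(LevelCoh28.Z2 (LevelBridge13.pullBasis (localGaloisToGlobal q))
      (Rep.res (localGaloisToGlobal q) M)) → (↥(Inv p M q) →+ ZMod p) := fun c =>
    τ.comp ((clsHom p M q c (hlev c) (hcoc c)).codRestrict (pTor p _)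
      (clsHom_mem_pTor p M q c (hlev c) (hcoc c)))
  have hΘ : ∀ c c', Θ c = Θ c' →
      LevelCoh28.H2mk (LevelBridge13.pullBasis (localGaloisToGlobal q))
        (Rep.res (localGaloisToGlobal q) M) c =
      LevelCoh28.H2mk (LevelBridge13.pullBasis (localGaloisToGlobal q))
        (Rep.res (localGaloisToGlobal q) M) c' := fun c c' h => by
    obtain ⟨v, hvl, hv⟩ := exists_cobound_of_cls_eq p M q hsm τ hτ c c' (hlev c) (hcoc c)
      (hlev c') (hcoc c') (fun F => DFunLike.congr_fun h F)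
    rw [← sub_eq_zero, ← map_sub, LevelCoh28.H2mk_eq_zero_iff, LevelCoh28.mem_B2_iff]
    refine ⟨v, ?_, ?_⟩
    · rw [hsets]
      exact (LevelCompare13.isLevel₁_iff _).2 hvl
    · rw [← LevelCompare13.dOne_eq]
      exact hv
  haveI : Finite (Module.Dual k M) := Module.finite_of_finite k
  haveI : Finite ↥(Inv p M q) := inferInstance
  haveI : Finite (↥(Inv p M q) →+ ZMod p) := PerfectPairing29.finite_addMonoidHom_zmod
  have hΨ : Injective (fun x : LevelCoh28.H2 (LevelBridge13.pullBasis (localGaloisToGlobal q))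
      (Rep.res (localGaloisToGlobal q) M) =>
      Θ (surjInv (LevelCoh28.H2mk_surjective (LevelBridge13.pullBasis (localGaloisToGlobal q))
        (Rep.res (localGaloisToGlobal q) M)) x)) := fun x y h => by
    have := hΘ _ _ h
    rwa [surjInv_eq (LevelCoh28.H2mk_surjective (LevelBridge13.pullBasis (localGaloisToGlobal q))
        (Rep.res (localGaloisToGlobal q) M)) x,
      surjInv_eq (LevelCoh28.H2mk_surjective (LevelBridge13.pullBasis (localGaloisToGlobal q))
        (Rep.res (localGaloisToGlobal q) M)) y] at this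
  refine ⟨Finite.of_injective _ hΨ, ?_⟩
  calc Nat.card (LevelCoh28.H2 (LevelBridge13.pullBasis (localGaloisToGlobal q))
        (Rep.res (localGaloisToGlobal q) M))
      ≤ Nat.card (↥(Inv p M q) →+ ZMod p) := Nat.card_le_card_of_injective _ hΨ
    _ = Nat.card ↥(Inv p M q) := PerfectPairing29.card_addMonoidHom_zmod (fun x => by
        rw [← Nat.cast_smul_eq_nsmul k, CharP.cast_eq_zero, zero_smul])

end Nat

section Primes

variable {k : Type} [Field k] [Finite k] (p : ℕ) [Fact p.Prime] [CharP k p]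
variable (M : Rep.{0} k Γ) [Module.Finite k M] (hsm : GWContracts4.IsSmooth M) (q : Nat.Primes)

include hsm in
/-- **(LH2) in `Defs9` carriers**: `H²(Γ_q, M)` is finite and `#H²(Γ_q, M) ≤ #H⁰(Γ_q, M^∨(1))`, for
every prime `q` (`q = p` included, `p = 2` included). -/
theorem finite_and_card_H2D :
    Finite (GWCount4.H2D M q) ∧
      Nat.card (GWCount4.H2D M q) ≤ GWContracts4.d0 (M.dualTwist (cycloK (k := k) p)) q := by
  haveI : Fact (q : ℕ).Prime := ⟨q.2⟩
  exact finite_and_card_H2_nat p M (q : ℕ) hsm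

/-- **`GWContracts4.LocalH2Bound` is a theorem.** -/
theorem localH2Bound : GWContracts4.LocalH2Bound := by
  intro k _ _ p _ _ _ M _ hsm q
  exact finite_and_card_H2D p M hsm q

end Primes

end Fermat.Agent.W56.LH2D1
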