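/-
Programme W56 (S56), chapter (LH2) (local `H²` bound), helper1.

`LH2DLoc1`: **(LH2) for ARBITRARY finite discrete `Γ_q`-modules** (not only restrictions of global
modules), requested by helper5 (LEC-v) and helper7 (D4): for `k` a finite field of characteristic
`p`, `q` any prime, `N : Rep k Γ_q` finite and discrete for `pullBasis (locD q)`:

  `Finite (H² (pullBasis (locD q)) N) ∧ #H² ≤ #(N^∨(1))^{Γ_q}`,
  `N^∨(1) = N.dualTwist ((cycloK p).comp (locD q))`,

and the finiteness of the level `H¹` (and `Z¹`) of such `N`.  Same proof as `LH2D1`.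
-/
import Mathlib
import Fermat.Agent.W56.Defs9
import Fermat.Agent.W56.LH2Loc1
import Fermat.Agent.W56.TraceDual2
import Fermat.Agent.W56.LocFin1
import Fermat.Agent.PT.PRO.KerIsoGal7
import Fermat.Agent.PT.PRO.IntRep20
import Fermat.Agent.PT.GLUE.BasisCompare13
import Fermat.Agent.PT.PRO.LevelCompare13

set_option autoImplicit false
set_option linter.unusedSectionVars false
set_option linter.style.haveILetI false

open CategoryTheory ExtCitation

namespace Fermat.Agent.W56.LH2DLoc1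

open Function Fermat.Agent.PT.PRO Fermat.Agent.PT.BR Fermat.Agent.PT.GLUE.Objects21
open Fermat.Agent.W56.Defs9 Fermat.Agent.W56.TraceDual2 Fermat.Agent.PT.PRO.KerIsoGal7

local notation "Γ" => (AlgebraicClosure ℚ ≃ₐ[ℚ] AlgebraicClosure ℚ)
local notation "Qbar" => AlgebraicClosure ℚ

/-- An additive map as a `ℤ`-linear map, for ARBITRARY `ℤ`-module structures. -/
def toIntLin {A B : Type*} [AddCommGroup A] [AddCommGroup B] [Module ℤ A] [Module ℤ B]
    (f : A →+ B) : A →ₗ[ℤ] B where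
  toFun := f
  map_add' := f.map_add
  map_smul' n a := by
    have := map_intCast_smul f ℤ ℤ n a
    simpa using this

@[simp] theorem toIntLin_apply {A B : Type*} [AddCommGroup A] [AddCommGroup B] [Module ℤ A]
    [Module ℤ B] (f : A →+ B) (a : A) : toIntLin f a = f a := rfl

section Nat

attribute [local instance] ZMod.algebra

variable {k : Type} [Field k] [Finite k] (p : ℕ) [Fact p.Prime] [CharP k p]
variable (q : ℕ) [Fact q.Prime]
variable (N : Rep.{0} k (PadicAlgCl q ≃ₐ[ℚ_[q]] PadicAlgCl q)) [Finite N]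

local notation "Γq" => (PadicAlgCl q ≃ₐ[ℚ_[q]] PadicAlgCl q)

/-- Make instance search find the `ℤ`-module structure carried by the `Rep`. -/
noncomputable local instance (priority := 5000) instModuleUnitsLocDL :
    Module ℤ (unitsLoc q).V := (unitsLoc q).hV2

/-- The mod `p` cyclotomic character of `Γ_q`. -/
noncomputable abbrev chiq : Γq →* (ZMod p)ˣ := (cycloChar p).comp (localGaloisToGlobal q)

/-- `tr_{k/𝔽_p} ∘ F`, as an additive map. -/
noncomputable def trOf (F : Module.Dual k N) : N →+ ZMod p :=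
  (Algebra.trace (ZMod p) k).toAddMonoidHom.comp F.toAddMonoidHom

omit [Finite k] [Finite N] in
@[simp] theorem trOf_apply (F : Module.Dual k N) (m : N) :
    trOf p q N F m = Algebra.trace (ZMod p) k (F m) := rfl

/-- `F ↦ j ∘ tr ∘ F : N → ℚ̄_qˣ`. -/
noncomputable def homOf (F : Module.Dual k N) : N →ₗ[ℤ] (unitsLoc q).V :=
  toIntLin ((muLoc p q).j.comp (trOf p q N F))

omit [Finite k] [Finite N] in
@[simp] theorem homOf_apply (F : Module.Dual k N) (m : N) :
    homOf p q N F m = (muLoc p q).j (Algebra.trace (ZMod p) k (F m)) := rfl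

omit [Finite k] [Finite N] in
theorem homOf_add (F F' : Module.Dual k N) (m : N) :
    homOf p q N (F + F') m = homOf p q N F m + homOf p q N F' m := by
  simp only [homOf_apply, LinearMap.add_apply, map_add]

/-- The invariants of `N^∨(1)` under `Γ_q`. -/
noncomputable abbrev Inv : Submodule k (Module.Dual k N) :=
  (N.dualTwist (chiK (k := k) p (chiq p q))).ρ.invariants

omit [Finite k] [Finite N] in
theorem mem_Inv_iff (F : Module.Dual k N) :
    F ∈ Inv p q N ↔ ∀ g : Γq, ((chiK (k := k) p (chiq p q) g : kˣ) : k) •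
      (F ∘ₗ N.ρ g⁻¹) = F := Iff.rfl

omit [Finite k] [Finite N] in
theorem apply_of_mem_Inv {F : Module.Dual k N} (hF : F ∈ Inv p q N) (g : Γq) (m : N) :
    F (N.ρ g m) = ((chiK (k := k) p (chiq p q) g : kˣ) : k) * F m := by
  have h1 := LinearMap.congr_fun ((mem_Inv_iff p q N F).1 hF g) (N.ρ g m)
  rw [LinearMap.smul_apply, LinearMap.comp_apply, smul_eq_mul] at h1
  rw [← h1]
  congr 2
  rw [← Module.End.mul_apply, ← map_mul, inv_mul_cancel, map_one, Module.End.one_apply]

omit [Finite k] [Finite N] in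
/-- `homOf F` is equivariant for `F` invariant. -/
theorem homOf_equivariant {F : Module.Dual k N} (hF : F ∈ Inv p q N) (g : Γq) (m : N) :
    homOf p q N F (N.ρ g m) = (unitsLoc q).ρ g (homOf p q N F m) := by
  rw [homOf_apply, homOf_apply, apply_of_mem_Inv p q N hF, coe_chiK, ← Algebra.smul_def,
    map_smul, smul_eq_mul]
  exact ((muLoc p q).equiv g _).symm

omit [Finite k] [Finite N] in
theorem nsmul_eq_zero (m : N) : p • m = 0 := by
  rw [← Nat.cast_smul_eq_nsmul k, CharP.cast_eq_zero, zero_smul]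

/-- **Every equivariant `f : N → ℚ̄_qˣ` is `j ∘ tr ∘ F` for an invariant `F ∈ N^∨(1)`.** -/
theorem exists_homOf_eq (f : N →ₗ[ℤ] (unitsLoc q).V)
    (hf : ∀ (g : Γq) (m : N), f (N.ρ g m) = (unitsLoc q).ρ g (f m)) :
    ∃ F ∈ Inv p q N, ∀ m, homOf p q N F m = f m := by
  haveI : Module.Finite k N := Module.Finite.of_finite
  have hex : ∀ m : N, ∃ a : ZMod p, (muLoc p q).j a = f m := fun m =>
    (muLoc p q).surj (f m) (by rw [← map_nsmul, nsmul_eq_zero p q N, map_zero])
  choose a ha using hex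
  have hj := (muLoc p q).inj
  have ha_add : ∀ m m', a (m + m') = a m + a m' := fun m m' =>
    hj (by rw [map_add, ha, ha, ha, map_add])
  have ha_eq : ∀ (g : Γq) (m : N), a (N.ρ g m) =
      ((chiq p q g : (ZMod p)ˣ) : ZMod p) * a m := fun g m =>
    hj (by
      rw [ha, hf, ← ha m]
      exact (muLoc p q).equiv g _)
  have ha_nsmul : ∀ (i : ℕ) (m : N), a (i • m) = (i : ZMod p) * a m := fun i m => by
    have := map_nsmul (AddMonoidHom.mk' a ha_add) i m
    rw [nsmul_eq_mul] at this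
    exact this
  let aL : Module.Dual (ZMod p) (resScal p N) :=
    { toFun := fun n : RS p N => a (ofRS p N n)
      map_add' := fun n n' : RS p N => ha_add (ofRS p N n) (ofRS p N n')
      map_smul' := fun c (n : RS p N) => by
        rw [RingHom.id_apply, smul_eq_mul]
        show a (algebraMap (ZMod p) k c • ofRS p N n) = c * a (ofRS p N n)
        rw [← ZMod.natCast_zmod_val c, map_natCast, Nat.cast_smul_eq_nsmul, ha_nsmul] }
  obtain ⟨F, hF⟩ := (trDual_bijective p N).2 aL
  have hFa : ∀ m : N, Algebra.trace (ZMod p) k (F m) = a m := fun m =>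
    LinearMap.congr_fun hF (toRS p N m)
  refine ⟨F, fun g => ?_, fun m => ?_⟩
  · apply trDual_injective p N
    refine (trDual_ρ p N (chiq p q) g F).trans ?_
    rw [hF]
    apply LinearMap.ext
    intro n
    rw [Rep.dualTwist_ρ_apply, LinearMap.smul_apply, LinearMap.comp_apply]
    show ((chiq p q g : (ZMod p)ˣ) : ZMod p) • a (N.ρ g⁻¹ (ofRS p N n)) = a (ofRS p N n)
    rw [ha_eq, smul_eq_mul, ← mul_assoc, map_inv, ← Units.val_mul, mul_inv_cancel,
      Units.val_one, one_mul]
  · rw [homOf_apply, hFa, ha]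

/-! ### The pairing `Z²(Γ_q, N) × (N^∨(1))^{Γ_q} → H²(Γ_q, ℚ̄_qˣ)[p] ↪ 𝔽_p` -/

open Fermat.Agent.PT.PRO.HyperLevel25 Fermat.Agent.PT.PRO.Resolved4 Fermat.Agent.PT.PRO.ExtPairing4
  Fermat.Agent.PT.PRO.InvP4 Fermat.Agent.PT.GLUE.LocalHypR11

/-- The `ℤ`-linear representation of `Γ_q` on `N`. -/
noncomputable abbrev ρN : Representation ℤ Γq N := IntRep20.intRep N

omit [Finite k] [Finite N] in
theorem dTwo_homOf_comp {F : Module.Dual k N} (hF : F ∈ Inv p q N) {φ : Γq × Γq → N}
    (hc : dTwo (ρN q N) φ = 0) : dTwo (unitsLoc q).ρ (⇑(homOf p q N F) ∘ φ) = 0 := by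
  rw [← comp_dTwo (ρN q N) (unitsLoc q).ρ (homOf p q N F)
    (fun g m => homOf_equivariant p q N hF g m) φ, hc]
  funext x
  exact map_zero _

/-- The class of `(j ∘ tr ∘ F) ∘ φ`. -/
noncomputable def cls (φ : Γq × Γq → N) (hl : IsLevel₂ (levelLoc q).sets φ)
    (hc : dTwo (ρN q N) φ = 0) (F : ↥(Inv p q N)) :
    Hlev2 (isLevelBasis_levelLoc q) (unitsLoc q).ρ (isDiscrete_unitsLoc' q) :=
  cl2 (isLevelBasis_levelLoc q) (unitsLoc q).ρ (isDiscrete_unitsLoc' q)
    (⇑(homOf p q N (F : Module.Dual k N)) ∘ φ) (hl.comp _) (dTwo_homOf_comp p q N F.2 hc)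

omit [Finite k] [Finite N] in
theorem cls_add (φ : Γq × Γq → N) (hl : IsLevel₂ (levelLoc q).sets φ)
    (hc : dTwo (ρN q N) φ = 0) (F F' : ↥(Inv p q N)) :
    cls p q N φ hl hc (F + F') = cls p q N φ hl hc F + cls p q N φ hl hc F' := by
  unfold cls
  rw [← cl2_add]
  · apply cl2_congr
    funext x
    exact homOf_add p q N _ _ _
  · exact (isLevelBasis_levelLoc q).isLevel₂_add (hl.comp _) (hl.comp _)
  · rw [map_add, dTwo_homOf_comp p q N F.2 hc, dTwo_homOf_comp p q N F'.2 hc, add_zero]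

/-- `F ↦ [ (j ∘ tr ∘ F) ∘ φ ]`, additive. -/
noncomputable def clsHom (φ : Γq × Γq → N) (hl : IsLevel₂ (levelLoc q).sets φ)
    (hc : dTwo (ρN q N) φ = 0) :
    ↥(Inv p q N) →+ Hlev2 (isLevelBasis_levelLoc q) (unitsLoc q).ρ (isDiscrete_unitsLoc' q) :=
  AddMonoidHom.mk' (cls p q N φ hl hc) (cls_add p q N φ hl hc)

omit [Finite k] [Finite N] in
theorem clsHom_mem_pTor (φ : Γq × Γq → N) (hl : IsLevel₂ (levelLoc q).sets φ)
    (hc : dTwo (ρN q N) φ = 0) (F : ↥(Inv p q N)) :
    clsHom p q N φ hl hc F ∈ pTor p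
      (Hlev2 (isLevelBasis_levelLoc q) (unitsLoc q).ρ (isDiscrete_unitsLoc' q)) := by
  show p • clsHom p q N φ hl hc F = 0
  rw [← map_nsmul]
  have : p • F = 0 := by
    rw [← Nat.cast_smul_eq_nsmul k, CharP.cast_eq_zero, zero_smul]
  rw [this, map_zero]

variable (hN : HyperLevel25.IsDiscrete (levelLoc q).sets N.ρ)

include hN in
/-- **Injectivity**: two level 2-cocycles with the same pairings against all of `(N^∨(1))^{Γ_q}`
differ by a level coboundary. -/
theorem exists_cobound_of_cls_eq (τ : pTor p (Hlev2 (isLevelBasis_levelLoc q) (unitsLoc q).ρ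
      (isDiscrete_unitsLoc' q)) →+ ZMod p) (hτ : Injective τ)
    (φ φ' : Γq × Γq → N) (hl : IsLevel₂ (levelLoc q).sets φ) (hc : dTwo (ρN q N) φ = 0)
    (hl' : IsLevel₂ (levelLoc q).sets φ') (hc' : dTwo (ρN q N) φ' = 0)
    (h : ∀ F : ↥(Inv p q N), τ ⟨clsHom p q N φ hl hc F, clsHom_mem_pTor p q N φ hl hc F⟩ =
      τ ⟨clsHom p q N φ' hl' hc' F, clsHom_mem_pTor p q N φ' hl' hc' F⟩) :
    ∃ v : Γq → N, IsLevel₁ (levelLoc q).sets v ∧ dOne (ρN q N) v = φ - φ' := by
  refine LH2Loc1.exists_cobound_local q (ρN q N) hN p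
    (nsmul_eq_zero p q N) (φ - φ') (isLevel₂_sub' (isLevelBasis_levelLoc q) hl hl')
    (by rw [map_sub, hc, hc', sub_zero]) (fun f hf => ?_)
  obtain ⟨F, hF, hFf⟩ := exists_homOf_eq p q N f hf
  have h1 := congrArg Subtype.val (hτ (h ⟨F, hF⟩))
  have h2 : cls p q N φ hl hc ⟨F, hF⟩ = cls p q N φ' hl' hc' ⟨F, hF⟩ := h1
  unfold cls at h2
  rw [cl2_eq_iff] at h2
  obtain ⟨b, hb, hdb⟩ := h2
  refine ⟨b, hb, ?_⟩
  rw [hdb]
  funext x
  simp only [Pi.sub_apply, Function.comp_apply, hFf, map_sub]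

include hN in
/-- **(LH2)** for a finite discrete `Γ_q`-module `N`, `q : ℕ` prime. -/
theorem finite_and_card_H2_nat :
    Finite (LevelCoh28.H2 (LevelBridge13.pullBasis (localGaloisToGlobal q)) N) ∧
    Nat.card (LevelCoh28.H2 (LevelBridge13.pullBasis (localGaloisToGlobal q)) N) ≤
      Nat.card ↥(Inv p q N) := by
  have h𝒰 := isLevelBasis_levelLoc q
  obtain ⟨τ, hτ⟩ := InvFund18.exists_inv_of_isFundClass (unitsLoc q).ρ h𝒰 (isDiscrete_unitsLoc' q)
    (Fermat.Agent.PT.GLUE.LocalFund11.fundFixed_unitsLoc q p)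
  have hsets : (LevelBridge13.pullBasis (localGaloisToGlobal q)).sets = (levelLoc q).sets :=
    Fermat.Agent.PT.GLUE.BasisCompare13.pullSets_eq q
  have hlev : ∀ c : ↥(LevelCoh28.Z2 (LevelBridge13.pullBasis (localGaloisToGlobal q)) N),
      IsLevel₂ (levelLoc q).sets (c : Γq × Γq → N) := fun c => by
    have h := (LevelCompare13.isLevel₂_iff _).1 c.2.2
    rw [hsets] at h
    exact h
  have hcoc : ∀ c : ↥(LevelCoh28.Z2 (LevelBridge13.pullBasis (localGaloisToGlobal q)) N),
      dTwo (ρN q N) (c : Γq × Γq → N) = 0 := fun c =>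
    (LevelCompare13.mem_cocycles₂_iff _ _).1 c.2.1
  let Θ : ↥(LevelCoh28.Z2 (LevelBridge13.pullBasis (localGaloisToGlobal q)) N) →
      (↥(Inv p q N) →+ ZMod p) := fun c =>
    τ.comp ((clsHom p q N c (hlev c) (hcoc c)).codRestrict (pTor p _)
      (clsHom_mem_pTor p q N c (hlev c) (hcoc c)))
  have hΘ : ∀ c c', Θ c = Θ c' →
      LevelCoh28.H2mk (LevelBridge13.pullBasis (localGaloisToGlobal q)) N c =
      LevelCoh28.H2mk (LevelBridge13.pullBasis (localGaloisToGlobal q)) N c' := fun c c' h => by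
    obtain ⟨v, hvl, hv⟩ := exists_cobound_of_cls_eq p q N hN τ hτ c c' (hlev c) (hcoc c)
      (hlev c') (hcoc c') (fun F => DFunLike.congr_fun h F)
    rw [← sub_eq_zero, ← map_sub, LevelCoh28.H2mk_eq_zero_iff, LevelCoh28.mem_B2_iff]
    refine ⟨v, ?_, ?_⟩
    · rw [hsets]
      exact (LevelCompare13.isLevel₁_iff _).2 hvl
    · rw [← LevelCompare13.dOne_eq]
      exact hv
  haveI : Module.Finite k N := Module.Finite.of_finite
  haveI : Finite (Module.Dual k N) := Module.finite_of_finite k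
  haveI : Finite ↥(Inv p q N) := inferInstance
  haveI : Finite (↥(Inv p q N) →+ ZMod p) := PerfectPairing29.finite_addMonoidHom_zmod
  have hΨ : Injective (fun x : LevelCoh28.H2 (LevelBridge13.pullBasis (localGaloisToGlobal q)) N =>
      Θ (surjInv (LevelCoh28.H2mk_surjective (LevelBridge13.pullBasis (localGaloisToGlobal q))
        N) x)) := fun x y h => by
    have := hΘ _ _ h
    rwa [surjInv_eq (LevelCoh28.H2mk_surjective (LevelBridge13.pullBasis (localGaloisToGlobal q))
        N) x,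
      surjInv_eq (LevelCoh28.H2mk_surjective (LevelBridge13.pullBasis (localGaloisToGlobal q))
        N) y] at this
  refine ⟨Finite.of_injective _ hΨ, ?_⟩
  calc Nat.card (LevelCoh28.H2 (LevelBridge13.pullBasis (localGaloisToGlobal q)) N)
      ≤ Nat.card (↥(Inv p q N) →+ ZMod p) := Nat.card_le_card_of_injective _ hΨ
    _ = Nat.card ↥(Inv p q N) := PerfectPairing29.card_addMonoidHom_zmod (fun x => by
        rw [← Nat.cast_smul_eq_nsmul k, CharP.cast_eq_zero, zero_smul])

include p hN in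
/-- The level 1-cocycles of a finite discrete `Γ_q`-module form a finite set (LevelCoh28 form). -/
theorem finite_Z1_nat :
    Finite ↥(LevelCoh28.Z1 (LevelBridge13.pullBasis (localGaloisToGlobal q)) N) := by
  have h𝒰 := isLevelBasis_levelLoc q
  haveI := Fermat.Agent.W56.LocFin1.finite_Z1_local q N.ρ h𝒰 hN p (nsmul_eq_zero p q N)
  let Φ : ↥(LevelCoh28.Z1 (LevelBridge13.pullBasis (localGaloisToGlobal q)) N) →
      (Resolved4.lvl h𝒰 N.ρ hN).Z1 := fun c =>
    Resolved4.mkZ1 h𝒰 _ hN (c : Γq → N)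
      (by
        have h : LevelCoh28.IsLevel₁ (LevelBridge13.pullBasis (localGaloisToGlobal q)).sets
            (c : Γq → N) := c.2.2
        have h2 : (LevelBridge13.pullBasis (localGaloisToGlobal q)).sets = (levelLoc q).sets :=
          Fermat.Agent.PT.GLUE.BasisCompare13.pullSets_eq q
        rw [h2] at h
        exact h)
      ((LevelCompare13.mem_cocycles₁_iff _ _).1 c.2.1)
  refine Finite.of_injective Φ ?_
  intro c c' h
  apply Subtype.ext
  have := congrArg (fun z : (Resolved4.lvl h𝒰 N.ρ hN).Z1 =>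
    ((z : HyperLevel25.lev₁ k h𝒰 N).1 : Γq → N)) h
  exact this

include p hN in
/-- `H¹(Γ_q, N)` is finite (LevelCoh28 form). -/
theorem finite_H1_nat :
    Finite (LevelCoh28.H1 (LevelBridge13.pullBasis (localGaloisToGlobal q)) N) := by
  haveI := finite_Z1_nat p q N hN
  exact Finite.of_surjective _
    (LevelCoh28.H1mk_surjective (LevelBridge13.pullBasis (localGaloisToGlobal q)) N)

end Nat

section Primes

variable {k : Type} [Field k] [Finite k] (p : ℕ) [Fact p.Prime] [CharP k p]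
variable (q : Nat.Primes) (N : Rep.{0} k (primeLocalGaloisGroup q)) [Finite N]
  (hN : LevelCoh28.IsDiscrete (LevelBridge13.pullSets (locD q)) N)

include hN in
/-- **(LH2) for finite discrete `Γ_q`-modules, in `Defs9` carriers** (helper5's literal shape). -/
theorem finite_and_card_H2 :
    Finite (LevelCoh28.H2 (LevelBridge13.pullBasis (locD q)) N) ∧
      Nat.card (LevelCoh28.H2 (LevelBridge13.pullBasis (locD q)) N) ≤
        Nat.card ↥(N.dualTwist ((cycloK (k := k) p).comp (locD q))).ρ.invariants := by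
  haveI : Fact (q : ℕ).Prime := ⟨q.2⟩
  have hN' : HyperLevel25.IsDiscrete (levelLoc (q : ℕ)).sets N.ρ := by
    rw [← Fermat.Agent.PT.GLUE.BasisCompare13.pullSets_eq]
    exact hN
  exact finite_and_card_H2_nat p (q : ℕ) N hN'

include p hN in
/-- Finiteness of the level 1-cocycles of a finite discrete `Γ_q`-module (`Defs9` carriers). -/
theorem finite_Z1 : Finite ↥(LevelCoh28.Z1 (LevelBridge13.pullBasis (locD q)) N) := by
  haveI : Fact (q : ℕ).Prime := ⟨q.2⟩
  have hN' : HyperLevel25.IsDiscrete (levelLoc (q : ℕ)).sets N.ρ := by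
    rw [← Fermat.Agent.PT.GLUE.BasisCompare13.pullSets_eq]
    exact hN
  exact finite_Z1_nat p (q : ℕ) N hN'

include p hN in
/-- Finiteness of `H¹(Γ_q, N)` for a finite discrete `Γ_q`-module (`Defs9` carriers). -/
theorem finite_H1 : Finite (LevelCoh28.H1 (LevelBridge13.pullBasis (locD q)) N) := by
  haveI := finite_Z1 p q N hN
  exact Finite.of_surjective _
    (LevelCoh28.H1mk_surjective (LevelBridge13.pullBasis (locD q)) N)

end Primes

end Fermat.Agent.W56.LH2DLoc1
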