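/-
Programme W56 (target S56), chapter (LEC-v) (helper5): **Kummer classes of `Gal(ℚ̄_q/ℚ_q)`**.

The Kummer cocycle of `q` is not a coboundary (`X ^ p - q` has no root in `ℚ_q`), and for
`q ≡ 1 mod p` the Kummer homomorphisms of `q` and of a primitive root `u` modulo `q` are linearly
independent (`q ^ i * u ^ j` is a `p`-th power in `ℚ_q` only if `p ∣ i` and `p ∣ j`).
-/
import Mathlib
import Fermat.Prelude.Def_GaloisRep_CompletionBridge
import Fermat.Agent.W56.LecKummer5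

set_option autoImplicit false
set_option linter.unusedSectionVars false

namespace Fermat.Agent.W56.LecLocal5

open ExtCitation Fermat.Agent.S14.Fields Fermat.Agent.W56.LecKummer5

local notation "Qb" => AlgebraicClosure ℚ
local notation "GQ" => (AlgebraicClosure ℚ ≃ₐ[ℚ] AlgebraicClosure ℚ)

variable (q : ℕ) [Fact q.Prime]

local notation "Ω" => PadicAlgCl q
local notation "Γq" => (PadicAlgCl q ≃ₐ[ℚ_[q]] PadicAlgCl q)

/-- **an element of `ℚ̄` fixed by `Gal(ℚ̄_q/ℚ_q)` lies in `ℚ_q`.** -/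
theorem exists_padic_of_fixed (x : Qb) (hx : ∀ g : Γq, localGaloisToGlobal q g x = x) :
    ∃ z : ℚ_[q], padicEmbedding q x = algebraMap ℚ_[q] Ω z := by
  have hG : IsGalois ℚ_[q] Ω := IsAlgClosure.isGalois ℚ_[q] Ω
  have h : ∀ g : Γq, g (padicEmbedding q x) = padicEmbedding q x := fun g => by
    rw [← padicEmbedding_localGaloisToGlobal, hx]
  obtain ⟨z, hz⟩ := (InfiniteGalois.mem_range_algebraMap_iff_fixed (k := ℚ_[q]) (K := Ω) _).2 h
  exact ⟨z, hz.symm⟩

variable {q}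

/-- a fixed `p`-th root of a natural number gives a `p`-th root in `ℚ_q`. -/
theorem exists_padic_pow_eq {p : ℕ} {y : Qb} {n : ℕ} (hy : y ^ p = (n : Qb))
    (hfix : ∀ g : Γq, localGaloisToGlobal q g y = y) : ∃ z : ℚ_[q], z ^ p = (n : ℚ_[q]) := by
  obtain ⟨z, hz⟩ := exists_padic_of_fixed q y hfix
  refine ⟨z, ?_⟩
  apply (algebraMap ℚ_[q] Ω).injective
  rw [map_pow, ← hz, ← map_pow, hy, map_natCast, map_natCast]

/-- **valuations**: `z ^ p = q ^ i * w` with `w` prime to `q` forces `p ∣ i`. -/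
theorem dvd_of_pow_eq {p : ℕ} {z : ℚ_[q]} {i w : ℕ} (hw : q.Coprime w)
    (hz : z ^ p = ((q ^ i * w : ℕ) : ℚ_[q])) : p ∣ i := by
  have hq : q.Prime := Fact.out
  have hq1 : (1 : ℝ) < q := by exact_mod_cast hq.one_lt
  have hq0 : (q : ℝ) ≠ 0 := by positivity
  have hn : ‖((q ^ i * w : ℕ) : ℚ_[q])‖ = (q : ℝ) ^ (-(i : ℤ)) := by
    rw [Nat.cast_mul, Nat.cast_pow, norm_mul, Padic.norm_natCast_eq_one_iff.2 hw, mul_one,
      Padic.norm_p_pow]
  by_cases hz0 : z = 0
  · rw [hz0] at hz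
    rcases Nat.eq_zero_or_pos p with hp | hp
    · rw [hp, pow_zero] at hz
      have h1 := congrArg norm hz
      rw [norm_one, hn] at h1
      have h2 : (q : ℝ) ^ (-(i : ℤ)) = (q : ℝ) ^ (0 : ℤ) := by rw [← h1, zpow_zero]
      have h3 := zpow_right_injective₀ (by positivity) hq1.ne' h2
      have : i = 0 := by omega
      rw [this]
      exact dvd_zero _
    · rw [zero_pow hp.ne'] at hz
      have h1 := congrArg norm hz
      rw [norm_zero, hn] at h1
      exact absurd h1.symm (zpow_ne_zero _ hq0)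
  · have h1 := congrArg norm hz
    rw [norm_pow, hn, Padic.norm_eq_zpow_neg_valuation hz0, ← zpow_natCast, ← zpow_mul] at h1
    have h3 := zpow_right_injective₀ (by positivity) hq1.ne' h1
    have h4 : (i : ℤ) = z.valuation * p := by linarith
    have h5 : (p : ℤ) ∣ (i : ℤ) := ⟨z.valuation, by rw [h4, mul_comm]⟩
    exact Int.natCast_dvd_natCast.1 h5

/-- **reduction**: `z ^ p = u ^ j` with `u` a primitive root modulo `q ≡ 1 mod p` forces
`p ∣ j`. -/
theorem dvd_of_pow_eq_unit {p : ℕ} (hpq : p ∣ q - 1) {z : ℚ_[q]} {u j : ℕ}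
    (hu : orderOf ((u : ℕ) : ZMod q) = q - 1) (hz : z ^ p = ((u ^ j : ℕ) : ℚ_[q])) : p ∣ j := by
  have hq : q.Prime := Fact.out
  have hq1 : 1 ≤ q - 1 := by have := hq.two_le; omega
  have hu0 : ((u : ℕ) : ZMod q) ≠ 0 := by
    intro h
    rw [h, orderOf_zero] at hu
    omega
  have hcop : q.Coprime u := by
    rw [hq.coprime_iff_not_dvd]
    intro h
    exact hu0 ((ZMod.natCast_eq_zero_iff u q).2 h)
  obtain ⟨e, he⟩ := hpq
  have hp0 : p ≠ 0 := by
    rintro rfl
    rw [zero_mul] at he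
    omega
  have he0 : e ≠ 0 := by
    rintro rfl
    rw [mul_zero] at he
    omega
  have hnz : ‖z‖ = 1 := by
    have h1 := congrArg norm hz
    rw [norm_pow, Nat.cast_pow, norm_pow, Padic.norm_natCast_eq_one_iff.2 hcop, one_pow] at h1
    exact (pow_eq_one_iff_of_nonneg (norm_nonneg z) hp0).1 h1
  let z' : ℤ_[q] := ⟨z, hnz.le⟩
  have hz' : z' ^ p = ((u ^ j : ℕ) : ℤ_[q]) := by
    apply Subtype.ext
    rw [PadicInt.coe_pow, PadicInt.coe_natCast]
    exact hz
  have h2 := congrArg (PadicInt.toZMod (p := q)) hz'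
  rw [map_pow, map_natCast, Nat.cast_pow] at h2
  set w : ZMod q := PadicInt.toZMod z' with hw
  have hw0 : w ≠ 0 := by
    intro h
    rw [h, zero_pow hp0] at h2
    exact pow_ne_zero _ hu0 h2.symm
  have h3 : w ^ (q - 1) = 1 := ZMod.pow_card_sub_one_eq_one hw0
  have h4 : ((u : ℕ) : ZMod q) ^ (j * e) = 1 := by
    rw [pow_mul, ← h2, ← pow_mul, ← he, h3]
  have h5 := orderOf_dvd_of_pow_eq_one h4
  rw [hu, he] at h5
  exact Nat.dvd_of_mul_dvd_mul_right (Nat.pos_of_ne_zero he0) h5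

variable (p : ℕ) [Fact p.Prime]

/-- **the Kummer cocycle of `q` is not a coboundary on `Gal(ℚ̄_q/ℚ_q)`.** -/
theorem kum_not_cobound {θ : Qb} (hθ : θ ^ p = (q : Qb)) :
    ¬ ∃ m : ZMod p, ∀ g : Γq, kum p θ (localGaloisToGlobal q g) =
      ((cycloExp p (localGaloisToGlobal q g) : ZMod p) - 1) * m := by
  rintro ⟨m, hm⟩
  have hq : q.Prime := Fact.out
  have hK : IsKum p θ := isKum_of_pow_eq_natCast hq.ne_zero hθ
  set y : Qb := θ * zeta p ^ (-m).val with hy
  have hKy : IsKum p y := hK.mul (isKum_zeta.pow _)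
  have hfix : ∀ g : Γq, localGaloisToGlobal q g y = y := by
    intro g
    rw [← hKy.kum_eq_zero_iff, hy, kum_mul_el hK (isKum_zeta.pow _), kum_pow_el isKum_zeta,
      ZMod.natCast_zmod_val, hm g, ← kum_zeta (p := p) (localGaloisToGlobal q g)]
    ring
  have hyp : y ^ p = (q : Qb) := by
    rw [hy, mul_pow, hθ, ← pow_mul, mul_comm _ p, pow_mul, (zeta_spec p).pow_eq_one, one_pow,
      mul_one]
  obtain ⟨z, hz⟩ := exists_padic_pow_eq hyp hfix
  have h1 : p ∣ 1 := dvd_of_pow_eq (q := q) (z := z) (i := 1) (w := 1) (Nat.coprime_one_right q)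
    (by rw [hz, pow_one, mul_one])
  exact (Fact.out : p.Prime).one_lt.ne' (Nat.dvd_one.1 h1)

/-- **for `q ≡ 1 mod p` the Kummer homomorphisms of `q` and of a primitive root modulo `q` are
independent on `Gal(ℚ̄_q/ℚ_q)`.** -/
theorem kum_indep (hpq : p ∣ q - 1) {θq θu : Qb} {u : ℕ}
    (hu : orderOf ((u : ℕ) : ZMod q) = q - 1)
    (hθq : θq ^ p = (q : Qb)) (hθu : θu ^ p = (u : Qb)) (i j : ZMod p)
    (h : ∀ g : Γq, i * kum p θq (localGaloisToGlobal q g) +
      j * kum p θu (localGaloisToGlobal q g) = 0) : i = 0 ∧ j = 0 := by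
  have hq : q.Prime := Fact.out
  have hu0 : u ≠ 0 := by
    rintro rfl
    rw [Nat.cast_zero, orderOf_zero] at hu
    have := hq.two_le
    omega
  have hcop : q.Coprime u := by
    rw [hq.coprime_iff_not_dvd]
    intro hd
    rw [(ZMod.natCast_eq_zero_iff u q).2 hd, orderOf_zero] at hu
    have := hq.two_le
    omega
  have hKq : IsKum p θq := isKum_of_pow_eq_natCast hq.ne_zero hθq
  have hKu : IsKum p θu := isKum_of_pow_eq_natCast hu0 hθu
  set y : Qb := θq ^ i.val * θu ^ j.val with hy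
  have hKy : IsKum p y := (hKq.pow _).mul (hKu.pow _)
  have hfix : ∀ g : Γq, localGaloisToGlobal q g y = y := by
    intro g
    rw [← hKy.kum_eq_zero_iff, hy, kum_mul_el (hKq.pow _) (hKu.pow _), kum_pow_el hKq,
      kum_pow_el hKu, ZMod.natCast_zmod_val, ZMod.natCast_zmod_val, h g]
  have hyp : y ^ p = ((q ^ i.val * u ^ j.val : ℕ) : Qb) := by
    rw [hy, mul_pow, ← pow_mul, ← pow_mul, mul_comm _ p, mul_comm _ p, pow_mul, pow_mul, hθq, hθu]
    push_cast
    rfl
  obtain ⟨z, hz⟩ := exists_padic_pow_eq hyp hfix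
  have h1 : p ∣ i.val := dvd_of_pow_eq (q := q) (z := z) (Nat.Coprime.pow_right _ hcop)
    (by rw [hz, Nat.cast_mul])
  have hi : i.val = 0 := Nat.eq_zero_of_dvd_of_lt h1 (ZMod.val_lt i)
  have hi0 : i = 0 := (ZMod.val_eq_zero i).1 hi
  refine ⟨hi0, ?_⟩
  rw [hi, pow_zero, one_mul] at hz
  have h2 : p ∣ j.val := dvd_of_pow_eq_unit hpq hu hz
  exact (ZMod.val_eq_zero j).1 (Nat.eq_zero_of_dvd_of_lt h2 (ZMod.val_lt j))

end Fermat.Agent.W56.LecLocal5
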