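/-
Programme W56 (target S56), stage 2, chapter (EC-4), helper4: **the Euler characteristic of level
cohomology and its additivity**.

For a group `G` with a level basis `𝓑` and a representation `A` over a field `k`:
`chiLev 𝓑 A = dim A^G − dim H¹(𝓑; A) + dim H²(𝓑; A) ∈ ℤ` (level cohomology of `PT/PRO/LevelCoh28`).

* `nine_term`: the alternating sum of the dimensions in a nine-term exact sequence vanishes;
* `chiLev_add`: for a short exact sequence `0 → A → B → C → 0` of discrete modules with finite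
  dimensional cohomology, if `H²(B) → H²(C)` is ONTO (i.e. `cd ≤ 2`), then
  `chiLev B = chiLev A + chiLev C` (the nine-term sequence of `LevelCoh28` / `LevelCohRes28`).
-/
import Mathlib
import Fermat.Agent.PT.PRO.LevelCoh28
import Fermat.Agent.PT.PRO.LevelCohRes28

set_option autoImplicit false
set_option linter.unusedSectionVars false

universe u

open CategoryTheory groupCohomology

namespace Fermat.Agent.W56.ChiLev4

open Fermat.Agent.PT.PRO.LevelCoh28 Fermat.Agent.PT.PRO.LevelCohRes28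

/-! ### Nine-term exact sequences -/

section Nine

variable {k : Type*} [Field k]
  {V₁ V₂ V₃ V₄ V₅ V₆ V₇ V₈ V₉ : Type*}
  [AddCommGroup V₁] [Module k V₁] [FiniteDimensional k V₁]
  [AddCommGroup V₂] [Module k V₂] [FiniteDimensional k V₂]
  [AddCommGroup V₃] [Module k V₃] [FiniteDimensional k V₃]
  [AddCommGroup V₄] [Module k V₄] [FiniteDimensional k V₄]
  [AddCommGroup V₅] [Module k V₅] [FiniteDimensional k V₅]
  [AddCommGroup V₆] [Module k V₆] [FiniteDimensional k V₆]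
  [AddCommGroup V₇] [Module k V₇] [FiniteDimensional k V₇]
  [AddCommGroup V₈] [Module k V₈] [FiniteDimensional k V₈]
  [AddCommGroup V₉] [Module k V₉] [FiniteDimensional k V₉]

/-- The alternating sum of the dimensions of a nine-term exact sequence
`0 → V₁ → V₂ → ⋯ → V₉ → 0` is zero. -/
theorem nine_term (f₁ : V₁ →ₗ[k] V₂) (f₂ : V₂ →ₗ[k] V₃) (f₃ : V₃ →ₗ[k] V₄) (f₄ : V₄ →ₗ[k] V₅)
    (f₅ : V₅ →ₗ[k] V₆) (f₆ : V₆ →ₗ[k] V₇) (f₇ : V₇ →ₗ[k] V₈) (f₈ : V₈ →ₗ[k] V₉)
    (h₁ : Function.Injective f₁)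
    (h₁₂ : LinearMap.ker f₂ = LinearMap.range f₁) (h₂₃ : LinearMap.ker f₃ = LinearMap.range f₂)
    (h₃₄ : LinearMap.ker f₄ = LinearMap.range f₃) (h₄₅ : LinearMap.ker f₅ = LinearMap.range f₄)
    (h₅₆ : LinearMap.ker f₆ = LinearMap.range f₅) (h₆₇ : LinearMap.ker f₇ = LinearMap.range f₆)
    (h₇₈ : LinearMap.ker f₈ = LinearMap.range f₇) (h₈ : Function.Surjective f₈) :
    (Module.finrank k V₁ : ℤ) - Module.finrank k V₂ + Module.finrank k V₃ - Module.finrank k V₄ +
      Module.finrank k V₅ - Module.finrank k V₆ + Module.finrank k V₇ - Module.finrank k V₈ +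
      Module.finrank k V₉ = 0 := by
  have e₁ := LinearMap.finrank_range_add_finrank_ker f₁
  have e₂ := LinearMap.finrank_range_add_finrank_ker f₂
  have e₃ := LinearMap.finrank_range_add_finrank_ker f₃
  have e₄ := LinearMap.finrank_range_add_finrank_ker f₄
  have e₅ := LinearMap.finrank_range_add_finrank_ker f₅
  have e₆ := LinearMap.finrank_range_add_finrank_ker f₆
  have e₇ := LinearMap.finrank_range_add_finrank_ker f₇
  have e₈ := LinearMap.finrank_range_add_finrank_ker f₈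
  rw [LinearMap.ker_eq_bot.2 h₁, finrank_bot] at e₁
  rw [h₁₂] at e₂
  rw [h₂₃] at e₃
  rw [h₃₄] at e₄
  rw [h₄₅] at e₅
  rw [h₅₆] at e₆
  rw [h₆₇] at e₇
  rw [h₇₈, LinearMap.range_eq_top.2 h₈, finrank_top] at e₈
  omega

end Nine

/-! ### The Euler characteristic of level cohomology -/

section Chi

variable {k G : Type u} [Field k] [Group G] (𝓑 : LevelBasis G)

/-- `dim A^G − dim H¹(𝓑; A) + dim H²(𝓑; A)`. -/
noncomputable def chiLev (A : Rep.{u} k G) : ℤ :=
  (Module.finrank k ↥A.ρ.invariants : ℤ) - Module.finrank k (H1 𝓑 A) + Module.finrank k (H2 𝓑 A)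

variable {𝓑} {A B C : Rep.{u} k G}

/-- The map induced on invariants by an equivariant linear map. -/
noncomputable def invMap (φ : A →ₗ[k] B) (hφ : ∀ g a, φ (A.ρ g a) = B.ρ g (φ a)) :
    ↥A.ρ.invariants →ₗ[k] ↥B.ρ.invariants :=
  (φ ∘ₗ A.ρ.invariants.subtype).codRestrict B.ρ.invariants fun a g => by
    show B.ρ g (φ a.1) = φ a.1
    rw [← hφ, a.2 g]

@[simp] theorem invMap_coe (φ : A →ₗ[k] B) (hφ : ∀ g a, φ (A.ρ g a) = B.ρ g (φ a))
    (a : ↥A.ρ.invariants) : (invMap φ hφ a : B) = φ a.1 := rfl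

variable (φ : A →ₗ[k] B) (hφ : ∀ g a, φ (A.ρ g a) = B.ρ g (φ a))
  (ψ : B →ₗ[k] C) (hψ : ∀ g b, ψ (B.ρ g b) = C.ρ g (ψ b))
  (hinj : Function.Injective φ) (hsurj : Function.Surjective ψ)
  (hex : ∀ b, ψ b = 0 ↔ ∃ a, φ a = b) (hB : IsDiscrete 𝓑.sets B)

include hinj in
theorem invMap_injective : Function.Injective (invMap φ hφ) := fun _ _ h =>
  Subtype.ext (hinj (congrArg Subtype.val h))

include hinj hex in
theorem ker_invMap : LinearMap.ker (invMap ψ hψ) = LinearMap.range (invMap φ hφ) := by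
  ext b
  rw [LinearMap.mem_ker, LinearMap.mem_range]
  constructor
  · intro h
    have h0 : ψ b.1 = 0 := congrArg Subtype.val h
    obtain ⟨a, ha⟩ := (hex b.1).1 h0
    refine ⟨⟨a, fun g => hinj ?_⟩, Subtype.ext ha⟩
    rw [hφ, ha, b.2 g]
  · rintro ⟨a, rfl⟩
    exact Subtype.ext ((hex _).2 ⟨a.1, rfl⟩)

include hφ hψ hinj hex hB in
theorem ker_delta0 :
    LinearMap.ker (delta0 φ hφ ψ hψ hinj hsurj hex hB) = LinearMap.range (invMap ψ hψ) := by
  ext c
  rw [LinearMap.mem_ker, delta0_eq_zero_iff φ hφ ψ hψ hinj hsurj hex hB, LinearMap.mem_range]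
  constructor
  · rintro ⟨b, hb, hbc⟩
    exact ⟨⟨b, hb⟩, Subtype.ext hbc⟩
  · rintro ⟨b, rfl⟩
    exact ⟨b.1, b.2, rfl⟩

include hφ hψ hinj hsurj hex hB in
/-- **Additivity of the Euler characteristic** on a short exact sequence `0 → A → B → C → 0` of
discrete modules, under right-exactness of `H²` and finiteness. -/
theorem chiLev_add [FiniteDimensional k A] [FiniteDimensional k B] [FiniteDimensional k C]
    [FiniteDimensional k (H1 𝓑 A)] [FiniteDimensional k (H1 𝓑 B)] [FiniteDimensional k (H1 𝓑 C)]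
    [FiniteDimensional k (H2 𝓑 A)] [FiniteDimensional k (H2 𝓑 B)] [FiniteDimensional k (H2 𝓑 C)]
    (hright : Function.Surjective (mapH2 (𝓑 := 𝓑) ψ hψ)) :
    chiLev 𝓑 B = chiLev 𝓑 A + chiLev 𝓑 C := by
  have h := nine_term (invMap φ hφ) (invMap ψ hψ) (delta0 φ hφ ψ hψ hinj hsurj hex hB)
    (mapH1 (𝓑 := 𝓑) φ hφ) (mapH1 (𝓑 := 𝓑) ψ hψ) (delta φ hφ ψ hψ hinj hsurj hex hB)
    (mapH2 (𝓑 := 𝓑) φ hφ) (mapH2 (𝓑 := 𝓑) ψ hψ)
    (invMap_injective φ hφ hinj) (ker_invMap φ hφ ψ hψ hinj hex)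
    (ker_delta0 φ hφ ψ hψ hinj hsurj hex hB)
    (ker_mapH1_eq_range_delta0 φ hφ ψ hψ hinj hsurj hex hB)
    (ker_mapH1 φ hφ ψ hψ hinj hsurj hex hB) (ker_delta φ hφ ψ hψ hinj hsurj hex hB)
    (ker_mapH2 φ hφ ψ hψ hinj hsurj hex hB) (ker_mapH2' φ hφ ψ hψ hinj hsurj hex hB) hright
  unfold chiLev
  linarith

end Chi

end Fermat.Agent.W56.ChiLev4
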