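/-
Programme W56 (target S56), chapter (LEC-v) (helper5): **dévissage for the inequality form of the
Euler characteristic of level cohomology.**

`chiLev 𝓑 N = dim N^G − dim H¹(N) + dim H²(N)` (helper4's `ChiLev4`).  WITHOUT any right-exactness
of `H²`, the nine-term sequence gives `chiLev B ≤ chiLev A + chiLev C` for `0 → A → B → C → 0`;
hence `chiLev N ≤ 0` (i.e. `#H⁰ · #H² ≤ #H¹`) for all finite-dimensional discrete `N` as soon as it
holds for the simple ones.
-/
import Mathlib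
import Fermat.Agent.W56.ChiLev4

set_option autoImplicit false

universe u

open CategoryTheory groupCohomology

namespace Fermat.Agent.W56.LecDev5

open Fermat.Agent.PT.PRO.LevelCoh28 Fermat.Agent.PT.PRO.LevelCohRes28 Fermat.Agent.W56.ChiLev4

variable {k G : Type u} [Field k] [Group G] {𝓑 : LevelBasis G}

section SubAdd

variable {A B C : Rep.{u} k G}
  (φ : A →ₗ[k] B) (hφ : ∀ g a, φ (A.ρ g a) = B.ρ g (φ a))
  (ψ : B →ₗ[k] C) (hψ : ∀ g b, ψ (B.ρ g b) = C.ρ g (ψ b))
  (hinj : Function.Injective φ) (hsurj : Function.Surjective ψ)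
  (hex : ∀ b, ψ b = 0 ↔ ∃ a, φ a = b) (hB : IsDiscrete 𝓑.sets B)

include hφ hψ hinj hsurj hex hB in
/-- **sub-additivity of the Euler characteristic**, no right-exactness needed. -/
theorem chiLev_le [FiniteDimensional k A] [FiniteDimensional k B] [FiniteDimensional k C]
    [FiniteDimensional k (H1 𝓑 A)] [FiniteDimensional k (H1 𝓑 B)] [FiniteDimensional k (H1 𝓑 C)]
    [FiniteDimensional k (H2 𝓑 A)] [FiniteDimensional k (H2 𝓑 B)] [FiniteDimensional k (H2 𝓑 C)] :
    chiLev 𝓑 B ≤ chiLev 𝓑 A + chiLev 𝓑 C := by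
  have h := nine_term (invMap φ hφ) (invMap ψ hψ) (delta0 φ hφ ψ hψ hinj hsurj hex hB)
    (mapH1 (𝓑 := 𝓑) φ hφ) (mapH1 (𝓑 := 𝓑) ψ hψ) (delta φ hφ ψ hψ hinj hsurj hex hB)
    (mapH2 (𝓑 := 𝓑) φ hφ) (mapH2 (𝓑 := 𝓑) ψ hψ).rangeRestrict
    (invMap_injective φ hφ hinj) (ker_invMap φ hφ ψ hψ hinj hex)
    (ker_delta0 φ hφ ψ hψ hinj hsurj hex hB)
    (ker_mapH1_eq_range_delta0 φ hφ ψ hψ hinj hsurj hex hB)
    (ker_mapH1 φ hφ ψ hψ hinj hsurj hex hB) (ker_delta φ hφ ψ hψ hinj hsurj hex hB)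
    (ker_mapH2 φ hφ ψ hψ hinj hsurj hex hB)
    (by rw [LinearMap.ker_rangeRestrict]; exact ker_mapH2' φ hφ ψ hψ hinj hsurj hex hB)
    (LinearMap.surjective_rangeRestrict _)
  have hle : Module.finrank k ↥(LinearMap.range (mapH2 (𝓑 := 𝓑) ψ hψ)) ≤
      Module.finrank k (H2 𝓑 C) := Submodule.finrank_le _
  unfold chiLev
  have hle' : (Module.finrank k ↥(LinearMap.range (mapH2 (𝓑 := 𝓑) ψ hψ)) : ℤ) ≤
      Module.finrank k (H2 𝓑 C) := by exact_mod_cast hle
  linarith

end SubAdd

section Dev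

/-- simple representations. -/
def IsSimpleRep (S : Rep.{u} k G) : Prop :=
  Nontrivial S ∧ ∀ W : Submodule k S, (∀ g, W ≤ W.comap (S.ρ g)) → W = ⊥ ∨ W = ⊤

theorem isDiscrete_sub {N : Rep.{u} k G} (hN : IsDiscrete 𝓑.sets N) (W : Submodule k N)
    (hW : ∀ g, W ≤ W.comap (N.ρ g)) : IsDiscrete 𝓑.sets (N.subrepresentation W hW) := by
  intro a
  obtain ⟨U, hU, h⟩ := hN (a : N)
  exact ⟨U, hU, fun s hs => Subtype.ext (h s hs)⟩

theorem isDiscrete_quot {N : Rep.{u} k G} (hN : IsDiscrete 𝓑.sets N) (W : Submodule k N)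
    (hW : ∀ g, W ≤ W.comap (N.ρ g)) : IsDiscrete 𝓑.sets (N.quotient W hW) := by
  intro a
  obtain ⟨b, rfl⟩ := W.mkQ_surjective a
  obtain ⟨U, hU, h⟩ := hN b
  refine ⟨U, hU, fun s hs => ?_⟩
  show W.mkQ (N.ρ s b) = W.mkQ b
  rw [h s hs]

/-- the Euler characteristic of the zero module. -/
theorem chiLev_of_subsingleton (N : Rep.{u} k G) [Subsingleton N] : chiLev 𝓑 N = 0 := by
  have h0 : Module.finrank k ↥N.ρ.invariants = 0 := Module.finrank_zero_of_subsingleton
  have h1 : Module.finrank k (H1 𝓑 N) = 0 := Module.finrank_zero_of_subsingleton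
  have h2 : Module.finrank k (H2 𝓑 N) = 0 := Module.finrank_zero_of_subsingleton
  unfold chiLev
  rw [h0, h1, h2]
  simp

/-- **dévissage**: the inequality `chiLev ≤ 0` for the simple modules implies it for all finite
dimensional discrete modules. -/
theorem chiLev_nonpos
    (hfin : ∀ A : Rep.{u} k G, FiniteDimensional k A → IsDiscrete 𝓑.sets A →
      FiniteDimensional k (H1 𝓑 A) ∧ FiniteDimensional k (H2 𝓑 A))
    (hsimple : ∀ S : Rep.{u} k G, FiniteDimensional k S → IsDiscrete 𝓑.sets S → IsSimpleRep S →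
      chiLev 𝓑 S ≤ 0) :
    ∀ (n : ℕ) (N : Rep.{u} k G), Module.finrank k N = n → FiniteDimensional k N →
      IsDiscrete 𝓑.sets N → chiLev 𝓑 N ≤ 0 := by
  intro n
  induction n using Nat.strong_induction_on with
  | _ n ih =>
    intro N hn hNfin hN
    by_cases hsub : Subsingleton N
    · rw [chiLev_of_subsingleton]
    have hnt : Nontrivial N := not_subsingleton_iff_nontrivial.1 hsub
    by_cases hs : ∀ W : Submodule k N, (∀ g, W ≤ W.comap (N.ρ g)) → W = ⊥ ∨ W = ⊤
    · exact hsimple N hNfin hN ⟨hnt, hs⟩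
    push Not at hs
    obtain ⟨W, hW, hbot, htop⟩ := hs
    have hWlt : Module.finrank k ↥W < n := by
      rw [← hn]
      exact Submodule.finrank_lt htop
    have hQlt : Module.finrank k (N ⧸ W) < n := by
      have h1 := Submodule.finrank_quotient_add_finrank W
      have h2 : 0 < Module.finrank k ↥W := by
        rw [Module.finrank_pos_iff]
        exact Submodule.nontrivial_iff_ne_bot.2 hbot
      omega
    have hAfin : FiniteDimensional k (N.subrepresentation W hW) :=
      (inferInstance : FiniteDimensional k ↥W)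
    have hCfin : FiniteDimensional k (N.quotient W hW) :=
      (inferInstance : FiniteDimensional k (N ⧸ W))
    have hAd := isDiscrete_sub hN W hW
    have hCd := isDiscrete_quot hN W hW
    have hA := ih _ hWlt (N.subrepresentation W hW) rfl hAfin hAd
    have hC := ih _ hQlt (N.quotient W hW) rfl hCfin hCd
    obtain ⟨hA1, hA2⟩ := hfin _ hAfin hAd
    obtain ⟨hB1, hB2⟩ := hfin _ hNfin hN
    obtain ⟨hC1, hC2⟩ := hfin _ hCfin hCd
    have key := chiLev_le (𝓑 := 𝓑) (A := N.subrepresentation W hW) (B := N)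
      (C := N.quotient W hW) W.subtype (fun _ _ => rfl) W.mkQ (fun _ _ => rfl)
      W.injective_subtype W.mkQ_surjective
      (fun b => by
        rw [Submodule.mkQ_apply, Submodule.Quotient.mk_eq_zero]
        constructor
        · intro hb
          exact ⟨⟨b, hb⟩, rfl⟩
        · rintro ⟨a, rfl⟩
          exact a.2) hN
    linarith

end Dev

end Fermat.Agent.W56.LecDev5
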