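/-
Programme W56 (target S56), chapter (LEC-v) (helper5): **the Euler characteristic inequality for
simple modules**, from the bound `dim H²(N) ≤ dim (N^∨(χ))^G` (the local `(2,0)` duality, (LH2)) and
explicit scalar cocycles.

`G` a group with a level basis `𝓑`, `χ : G →* kˣ` (the cyclotomic character).  A simple discrete
`S` has `S^G = 0 = (S^∨(χ))^G`, or is the trivial line, or is the line `k(χ)`; in the first case
`chiLev S = - dim H¹(S) ≤ 0`, in the other two cases one needs lower bounds for `H¹` of a line,
which are provided by families of scalar level cocycles (`le_finrank_H1`).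
-/
import Mathlib
import Fermat.Prelude.Def_GroupCohomology_Selmer
import Fermat.Agent.W56.LecDev5

set_option autoImplicit false

universe u

open CategoryTheory groupCohomology

namespace Fermat.Agent.W56.LecSimple5

open Fermat.Agent.PT.PRO.LevelCoh28 Fermat.Agent.PT.PRO.LevelCohRes28 Fermat.Agent.W56.ChiLev4
  Fermat.Agent.W56.LecDev5

variable {k G : Type u} [Field k] [Group G] {𝓑 : LevelBasis G}

section Lines

/-- **lower bound for `H¹` of a line** on which `G` acts through `ε`, from a `d`-dimensional family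
of scalar level `ε`-cocycles none of which is a coboundary. -/
theorem le_finrank_H1 (S : Rep.{u} k G) (ε : G → k) (hε : ∀ g s, S.ρ g s = ε g • s)
    (e : S) (he : e ≠ 0) (hspan : ∀ s : S, ∃ c : k, s = c • e)
    {W : Type*} [AddCommGroup W] [Module k W] [FiniteDimensional k W]
    (F : W →ₗ[k] (G → k)) (hlev : ∀ w, IsLevel₁ 𝓑.sets (F w))
    (hcoc : ∀ w g h, F w (g * h) = F w g + ε g * F w h)
    (hncob : ∀ w, (∃ m : k, ∀ g, F w g = (ε g - 1) * m) → w = 0)
    [FiniteDimensional k (H1 𝓑 S)] :
    Module.finrank k W ≤ Module.finrank k (H1 𝓑 S) := by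
  have hmem : ∀ w : W, (fun g => F w g • e) ∈ Z1 𝓑 S := by
    intro w
    rw [mem_Z1_iff]
    refine ⟨?_, (hlev w).comp (fun c : k => c • e)⟩
    rw [mem_cocycles₁_iff]
    intro g h
    show F w (g * h) • e = S.ρ g (F w h • e) + F w g • e
    rw [hcoc, hε, add_smul, smul_smul, add_comm, mul_comm]
  let L : W →ₗ[k] ↥(Z1 𝓑 S) :=
    { toFun := fun w => ⟨fun g => F w g • e, hmem w⟩
      map_add' := fun w w' => by
        apply Subtype.ext
        funext g
        show F (w + w') g • e = F w g • e + F w' g • e
        rw [map_add, Pi.add_apply, add_smul]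
      map_smul' := fun c w => by
        apply Subtype.ext
        funext g
        show F (c • w) g • e = c • F w g • e
        rw [map_smul, Pi.smul_apply, smul_eq_mul, mul_smul] }
  have hinj : Function.Injective ((H1mk 𝓑 S).comp L) := by
    rw [← LinearMap.ker_eq_bot, LinearMap.ker_eq_bot']
    intro w hw
    have h1 : H1mk 𝓑 S (L w) = 0 := hw
    rw [H1mk_eq_zero_iff] at h1
    obtain ⟨m, hm⟩ := h1
    obtain ⟨c, rfl⟩ := hspan m
    apply hncob w
    refine ⟨c, fun g => ?_⟩
    have h2 := congrFun hm g
    have h3 : (d₀₁ S).hom (c • e) g = S.ρ g (c • e) - c • e := rfl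
    have h4 : ((L w : ↥(Z1 𝓑 S)) : G → S) g = F w g • e := rfl
    rw [h3, h4, hε, smul_smul, ← sub_smul] at h2
    have h5 := smul_left_injective k he h2
    rw [← h5]
    ring
  exact LinearMap.finrank_le_finrank_of_injective hinj

end Lines

section Simple

/-- the inputs on `(G, 𝓑, χ)`: finiteness of `H¹`, the bound (LH2) for `H²`, and the scalar
cocycles. -/
structure Inputs (𝓑 : LevelBasis G) (χ : G →* kˣ) : Prop where
  finH1 : ∀ A : Rep.{u} k G, FiniteDimensional k A → IsDiscrete 𝓑.sets A →
    FiniteDimensional k (H1 𝓑 A)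
  lh2 : ∀ A : Rep.{u} k G, FiniteDimensional k A → IsDiscrete 𝓑.sets A →
    FiniteDimensional k (H2 𝓑 A) ∧
      Module.finrank k (H2 𝓑 A) ≤ Module.finrank k ↥(A.dualTwist χ).ρ.invariants
  hom1 : ∃ f : G → k, IsLevel₁ 𝓑.sets f ∧ (∀ g h, f (g * h) = f g + f h) ∧ ∃ g, f g ≠ 0
  hom2 : (∀ g, χ g = 1) → ∃ f₁ f₂ : G → k, IsLevel₁ 𝓑.sets f₁ ∧ IsLevel₁ 𝓑.sets f₂ ∧
    (∀ g h, f₁ (g * h) = f₁ g + f₁ h) ∧ (∀ g h, f₂ (g * h) = f₂ g + f₂ h) ∧
    ∀ a b : k, (∀ g, a * f₁ g + b * f₂ g = 0) → a = 0 ∧ b = 0
  kum : (∃ g, χ g ≠ 1) → ∃ κ : G → k, IsLevel₁ 𝓑.sets κ ∧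
    (∀ g h, κ (g * h) = κ g + (χ g : k) * κ h) ∧
    ¬ ∃ m : k, ∀ g, κ g = ((χ g : k) - 1) * m

variable {χ : G →* kˣ}

/-- a line all of whose subspaces are stable. -/
theorem exists_span_of_simple {S : Rep.{u} k G} (hs : IsSimpleRep S)
    (hst : ∀ (W : Submodule k S) (g : G), W ≤ W.comap (S.ρ g)) :
    ∃ e : S, e ≠ 0 ∧ ∀ s : S, ∃ c : k, s = c • e := by
  obtain ⟨hnt, hsim⟩ := hs
  obtain ⟨e, he⟩ := exists_ne (0 : S)
  refine ⟨e, he, fun s => ?_⟩
  rcases hsim (Submodule.span k {e}) (hst _) with h | h
  · exact absurd (Submodule.span_singleton_eq_bot.1 h) he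
  · have : s ∈ Submodule.span k {e} := by rw [h]; trivial
    obtain ⟨c, hc⟩ := Submodule.mem_span_singleton.1 this
    exact ⟨c, hc.symm⟩

theorem finrank_eq_one_of_span {S : Rep.{u} k G} {e : S} (he : e ≠ 0)
    (hspan : ∀ s : S, ∃ c : k, s = c • e) : Module.finrank k S = 1 := by
  rw [finrank_eq_one_iff_of_nonzero' e he]
  intro s
  obtain ⟨c, hc⟩ := hspan s
  exact ⟨c, hc.symm⟩

/-- **the Euler characteristic inequality for simple modules.** -/
theorem chiLev_simple (I : Inputs 𝓑 χ) (S : Rep.{u} k G) [FiniteDimensional k S]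
    (hS : IsDiscrete 𝓑.sets S) (hs : IsSimpleRep S) : chiLev 𝓑 S ≤ 0 := by
  have hH1 : FiniteDimensional k (H1 𝓑 S) := I.finH1 S inferInstance hS
  obtain ⟨hH2, hh2⟩ := I.lh2 S inferInstance hS
  have hnt : Nontrivial S := hs.1
  have hJle : Module.finrank k ↥(S.dualTwist χ).ρ.invariants ≤ Module.finrank k S := by
    have h1 : Module.finrank k ↥(S.dualTwist χ).ρ.invariants ≤
        Module.finrank k (Module.Dual k S) := Submodule.finrank_le _
    rwa [Subspace.dual_finrank_eq] at h1
  -- the invariants form a stable submodule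
  have hIst : ∀ g, S.ρ.invariants ≤ S.ρ.invariants.comap (S.ρ g) := by
    intro g s hs'
    rw [Submodule.mem_comap]
    have h1 : S.ρ g s = s := hs' g
    rw [h1]
    exact hs'
  unfold chiLev
  rcases hs.2 _ hIst with hbot | htop
  · -- no invariants
    have h0 : Module.finrank k ↥S.ρ.invariants = 0 := by rw [hbot, finrank_bot]
    by_cases hJ : (S.dualTwist χ).ρ.invariants = ⊥
    · rw [hJ, finrank_bot] at hh2
      rw [h0]
      have : Module.finrank k (H2 𝓑 S) = 0 := by omega
      rw [this]
      have : (0 : ℤ) ≤ Module.finrank k (H1 𝓑 S) := Int.natCast_nonneg _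
      simp only [Nat.cast_zero]
      linarith
    · -- `S` is the line `k(χ)`
      obtain ⟨l, hlJ, hl0⟩ := Submodule.exists_mem_ne_zero_of_ne_bot hJ
      have hlinv : ∀ (g : G) (s : S), l (S.ρ g s) = (χ g : k) * l s := by
        intro g s
        have h1 : (S.dualTwist χ).ρ g l = l := hlJ g
        have h2 := LinearMap.congr_fun h1 (S.ρ g s)
        rw [Rep.dualTwist_ρ_apply, LinearMap.smul_apply, LinearMap.comp_apply,
          ← Module.End.mul_apply, ← map_mul, inv_mul_cancel, map_one, Module.End.one_apply,
          smul_eq_mul] at h2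
        exact h2.symm
      have hker : LinearMap.ker l = ⊥ := by
        have hst : ∀ g, LinearMap.ker l ≤ (LinearMap.ker l).comap (S.ρ g) := by
          intro g s hs'
          rw [Submodule.mem_comap, LinearMap.mem_ker, hlinv, LinearMap.mem_ker.1 hs', mul_zero]
        rcases hs.2 _ hst with h | h
        · exact h
        · exact absurd (LinearMap.ker_eq_top.1 h) hl0
      have hlinj : Function.Injective l := LinearMap.ker_eq_bot.1 hker
      have hε : ∀ g s, S.ρ g s = (χ g : k) • s := by
        intro g s
        apply hlinj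
        rw [hlinv, map_smul, smul_eq_mul]
      have hst : ∀ (W : Submodule k S) (g : G), W ≤ W.comap (S.ρ g) := by
        intro W g s hs'
        rw [Submodule.mem_comap, hε]
        exact W.smul_mem _ hs'
      obtain ⟨e, he, hspan⟩ := exists_span_of_simple hs hst
      have hdim : Module.finrank k S = 1 := finrank_eq_one_of_span he hspan
      have hχ : ∃ g, χ g ≠ 1 := by
        by_contra hcon
        push Not at hcon
        have : e ∈ S.ρ.invariants := by
          intro g
          rw [hε, hcon g, Units.val_one, one_smul]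
        rw [hbot] at this
        exact he ((Submodule.mem_bot k).1 this)
      obtain ⟨κ, hκlev, hκcoc, hκn⟩ := I.kum hχ
      have h1 := le_finrank_H1 (𝓑 := 𝓑) S (fun g => (χ g : k)) hε e he hspan
        (W := k) (LinearMap.toSpanSingleton k (G → k) κ)
        (fun w => hκlev.comp (fun c : k => w * c))
        (fun w g h => by
          show (w • κ) (g * h) = (w • κ) g + (χ g : k) * (w • κ) h
          simp only [Pi.smul_apply, smul_eq_mul]
          rw [hκcoc]; ring)
        (fun w hw => by
          obtain ⟨m, hm⟩ := hw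
          by_contra hw0
          apply hκn
          refine ⟨w⁻¹ * m, fun g => ?_⟩
          have h2 := hm g
          have h3 : (LinearMap.toSpanSingleton k (G → k) κ) w g = w * κ g := rfl
          rw [h3] at h2
          calc κ g = w⁻¹ * (w * κ g) := by rw [← mul_assoc, inv_mul_cancel₀ hw0, one_mul]
            _ = ((χ g : k) - 1) * (w⁻¹ * m) := by rw [h2]; ring)
      rw [Module.finrank_self] at h1
      rw [h0]
      have h2 : Module.finrank k (H2 𝓑 S) ≤ 1 := by omega
      have h1' : (1 : ℤ) ≤ Module.finrank k (H1 𝓑 S) := by exact_mod_cast h1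
      have h2' : (Module.finrank k (H2 𝓑 S) : ℤ) ≤ 1 := by exact_mod_cast h2
      simp only [Nat.cast_zero]
      linarith
  · -- trivial action
    have htriv : ∀ g s, S.ρ g s = s := by
      intro g s
      have : s ∈ S.ρ.invariants := by rw [htop]; trivial
      exact this g
    have hst : ∀ (W : Submodule k S) (g : G), W ≤ W.comap (S.ρ g) := by
      intro W g s hs'
      rw [Submodule.mem_comap, htriv]
      exact hs'
    obtain ⟨e, he, hspan⟩ := exists_span_of_simple hs hst
    have hdim : Module.finrank k S = 1 := finrank_eq_one_of_span he hspan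
    have h0 : Module.finrank k ↥S.ρ.invariants = 1 := by rw [htop, finrank_top, hdim]
    have hε : ∀ g s, S.ρ g s = (fun _ : G => (1 : k)) g • s := by
      intro g s
      rw [htriv, one_smul]
    by_cases hχ : ∀ g, χ g = 1
    · -- two independent homomorphisms
      obtain ⟨f₁, f₂, hl₁, hl₂, ha₁, ha₂, hind⟩ := I.hom2 hχ
      have h1 := le_finrank_H1 (𝓑 := 𝓑) S (fun _ => (1 : k)) hε e he hspan
        (W := k × k)
        ((LinearMap.toSpanSingleton k (G → k) f₁).coprod (LinearMap.toSpanSingleton k (G → k) f₂))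
        (fun w => by
          have h3 : ((LinearMap.toSpanSingleton k (G → k) f₁).coprod
              (LinearMap.toSpanSingleton k (G → k) f₂)) w =
              (fun g => w.1 * f₁ g) + (fun g => w.2 * f₂ g) := by
            funext g; rfl
          rw [h3]
          exact (hl₁.comp (fun c : k => w.1 * c)).add 𝓑.isBasis (hl₂.comp (fun c : k => w.2 * c)))
        (fun w g h => by
          show w.1 * f₁ (g * h) + w.2 * f₂ (g * h) =
            w.1 * f₁ g + w.2 * f₂ g + 1 * (w.1 * f₁ h + w.2 * f₂ h)
          rw [ha₁, ha₂]; ring)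
        (fun w hw => by
          obtain ⟨m, hm⟩ := hw
          have h2 : ∀ g, w.1 * f₁ g + w.2 * f₂ g = 0 := by
            intro g
            have := hm g
            rw [sub_self, zero_mul] at this
            exact this
          obtain ⟨h3, h4⟩ := hind w.1 w.2 h2
          exact Prod.ext h3 h4)
      rw [Module.finrank_prod, Module.finrank_self] at h1
      rw [h0]
      have h2 : Module.finrank k (H2 𝓑 S) ≤ 1 := by omega
      have h1' : (2 : ℤ) ≤ Module.finrank k (H1 𝓑 S) := by exact_mod_cast h1
      have h2' : (Module.finrank k (H2 𝓑 S) : ℤ) ≤ 1 := by exact_mod_cast h2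
      push_cast
      linarith
    · push Not at hχ
      obtain ⟨g₁, hg₁⟩ := hχ
      -- the twisted dual has no invariants
      have hJ : (S.dualTwist χ).ρ.invariants = ⊥ := by
        rw [eq_bot_iff]
        intro l hl
        rw [Submodule.mem_bot]
        have h1 : (S.dualTwist χ).ρ g₁ l = l := hl g₁
        apply LinearMap.ext
        intro s
        have h2 := LinearMap.congr_fun h1 s
        rw [Rep.dualTwist_ρ_apply, LinearMap.smul_apply, LinearMap.comp_apply, htriv,
          smul_eq_mul] at h2
        have h3 : ((χ g₁ : k) - 1) * l s = 0 := by linear_combination h2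
        have h4 : (χ g₁ : k) - 1 ≠ 0 := by
          intro h5
          apply hg₁
          apply Units.ext
          rw [Units.val_one]
          linear_combination h5
        rw [LinearMap.zero_apply]
        exact (mul_eq_zero.1 h3).resolve_left h4
      rw [hJ, finrank_bot] at hh2
      obtain ⟨f, hl, ha, g₂, hg₂⟩ := I.hom1
      have h1 := le_finrank_H1 (𝓑 := 𝓑) S (fun _ => (1 : k)) hε e he hspan
        (W := k) (LinearMap.toSpanSingleton k (G → k) f)
        (fun w => hl.comp (fun c : k => w * c))
        (fun w g h => by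
          show (w • f) (g * h) = (w • f) g + 1 * (w • f) h
          simp only [Pi.smul_apply, smul_eq_mul]
          rw [ha]; ring)
        (fun w hw => by
          obtain ⟨m, hm⟩ := hw
          have h2 := hm g₂
          have h3 : (LinearMap.toSpanSingleton k (G → k) f) w g₂ = w * f g₂ := rfl
          rw [h3, sub_self, zero_mul] at h2
          exact (mul_eq_zero.1 h2).resolve_right hg₂)
      rw [Module.finrank_self] at h1
      rw [h0]
      have h2 : Module.finrank k (H2 𝓑 S) = 0 := by omega
      rw [h2]
      have h1' : (1 : ℤ) ≤ Module.finrank k (H1 𝓑 S) := by exact_mod_cast h1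
      push_cast
      linarith

/-- **the Euler characteristic inequality `dim H⁰ + dim H² ≤ dim H¹`** for all finite dimensional
discrete modules. -/
theorem chiLev_nonpos_of_inputs (I : Inputs 𝓑 χ) (N : Rep.{u} k G) [FiniteDimensional k N]
    (hN : IsDiscrete 𝓑.sets N) : chiLev 𝓑 N ≤ 0 :=
  chiLev_nonpos
    (fun A hA hAd => ⟨I.finH1 A hA hAd, (I.lh2 A hA hAd).1⟩)
    (fun S hSfin hSd hSs => by
      have := hSfin
      exact chiLev_simple I S hSd hSs)
    _ N rfl inferInstance hN

end Simple

end Fermat.Agent.W56.LecSimple5
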