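/-
Programme W56 (target S56), chapter (LEC-v) (helper5): **Kummer cocycles on `Gal(ℚ̄/ℚ)`**.

For `θ ∈ ℚ̄ˣ` with `θ ^ p` fixed by every automorphism, `σ θ = ζ ^ (kum θ σ) * θ` defines
`kum θ : Gal(ℚ̄/ℚ) → ℤ/p`, a cocycle for the mod `p` cyclotomic character, of finite level, additive
in `θ`, with `kum θ σ = 0 ↔ σ θ = θ`.
-/
import Mathlib
import Fermat.Agent.S14.Fields

set_option autoImplicit false
set_option linter.unusedSectionVars false

namespace Fermat.Agent.W56.LecKummer5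

open ExtCitation Fermat.Agent.S14.Fields

local notation "Qb" => AlgebraicClosure ℚ
local notation "GQ" => (AlgebraicClosure ℚ ≃ₐ[ℚ] AlgebraicClosure ℚ)

variable (p : ℕ) [Fact p.Prime]

/-- Kummer elements: non-zero with a rational `p`-th power. -/
def IsKum (θ : Qb) : Prop := θ ≠ 0 ∧ ∀ σ : GQ, σ (θ ^ p) = θ ^ p

/-- the exponent `i` with `y = ζ ^ i * θ`. -/
noncomputable def kumAux (y θ : Qb) : ZMod p := by
  classical
  exact if h : ∃ i : ℕ, y = zeta p ^ i * θ then ((h.choose : ℕ) : ZMod p) else 0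

/-- the Kummer exponent of `θ` at `σ`. -/
noncomputable def kum (θ : Qb) (σ : GQ) : ZMod p := kumAux p (σ θ) θ

variable {p}

theorem kum_eq {θ : Qb} (hθ : θ ≠ 0) {σ : GQ} {i : ℕ} (h : σ θ = zeta p ^ i * θ) :
    kum p θ σ = (i : ZMod p) := by
  classical
  have hex : ∃ i : ℕ, σ θ = zeta p ^ i * θ := ⟨i, h⟩
  have h1 : kum p θ σ = ((hex.choose : ℕ) : ZMod p) := by
    unfold kum kumAux
    rw [dif_pos hex]
  rw [h1, ← zeta_pow_eq_pow_iff]
  have h2 := hex.choose_spec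
  exact mul_right_cancel₀ hθ (h2.symm.trans h)

theorem IsKum.exists_pow {θ : Qb} (hθ : IsKum p θ) (σ : GQ) : ∃ i : ℕ, σ θ = zeta p ^ i * θ := by
  have hp0 : 0 < p := (Fact.out : p.Prime).pos
  have h1 : (σ θ / θ) ^ p = 1 := by
    rw [div_pow, ← map_pow, hθ.2 σ, div_self (pow_ne_zero _ hθ.1)]
  obtain ⟨i, -, hi⟩ := (zeta_spec p).eq_pow_of_pow_eq_one h1
  exact ⟨i, by rw [hi, div_mul_cancel₀ _ hθ.1]⟩

theorem zeta_pow_val (a : ZMod p) (i : ℕ) (h : a = (i : ZMod p)) :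
    zeta p ^ a.val = zeta p ^ i := by
  rw [zeta_pow_eq_pow_iff, ZMod.natCast_zmod_val, h]

theorem IsKum.apply_eq {θ : Qb} (hθ : IsKum p θ) (σ : GQ) :
    σ θ = zeta p ^ (kum p θ σ).val * θ := by
  obtain ⟨i, hi⟩ := hθ.exists_pow σ
  rw [zeta_pow_val _ i (kum_eq hθ.1 hi), hi]

theorem IsKum.kum_eq_zero_iff {θ : Qb} (hθ : IsKum p θ) (σ : GQ) :
    kum p θ σ = 0 ↔ σ θ = θ := by
  constructor
  · intro h
    rw [hθ.apply_eq σ, h, ZMod.val_zero, pow_zero, one_mul]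
  · intro h
    have : σ θ = zeta p ^ 0 * θ := by rw [pow_zero, one_mul, h]
    rw [kum_eq hθ.1 this, Nat.cast_zero]

/-- the cocycle relation. -/
theorem IsKum.kum_mul {θ : Qb} (hθ : IsKum p θ) (σ τ : GQ) :
    kum p θ (σ * τ) = kum p θ σ + (cycloExp p σ : ZMod p) * kum p θ τ := by
  have h1 : (σ * τ) θ = zeta p ^ ((kum p θ σ).val + cycloExp p σ * (kum p θ τ).val) * θ := by
    rw [AlgEquiv.mul_apply, hθ.apply_eq τ, map_mul, map_pow, apply_zeta, hθ.apply_eq σ, pow_add,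
      ← pow_mul]
    ring
  rw [kum_eq hθ.1 h1, Nat.cast_add, Nat.cast_mul, ZMod.natCast_zmod_val, ZMod.natCast_zmod_val]

/-- the level of the Kummer exponent: it only depends on `σ θ`. -/
theorem kum_mul_of_fix {θ : Qb} {σ s : GQ} (hs : s θ = θ) : kum p θ (σ * s) = kum p θ σ := by
  show kumAux p ((σ * s) θ) θ = kumAux p (σ θ) θ
  rw [AlgEquiv.mul_apply, hs]

theorem IsKum.mul {θ₁ θ₂ : Qb} (h₁ : IsKum p θ₁) (h₂ : IsKum p θ₂) : IsKum p (θ₁ * θ₂) :=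
  ⟨mul_ne_zero h₁.1 h₂.1, fun σ => by rw [mul_pow, map_mul, h₁.2, h₂.2]⟩

theorem IsKum.pow {θ : Qb} (h : IsKum p θ) (n : ℕ) : IsKum p (θ ^ n) :=
  ⟨pow_ne_zero _ h.1, fun σ => by rw [← pow_mul, mul_comm, pow_mul, map_pow, h.2]⟩

theorem isKum_zeta : IsKum p (zeta p) :=
  ⟨(zeta_spec p).ne_zero (Fact.out : p.Prime).ne_zero, fun σ => by
    rw [(zeta_spec p).pow_eq_one, map_one]⟩

theorem isKum_of_pow_eq_natCast {θ : Qb} {n : ℕ} (hn : n ≠ 0) (h : θ ^ p = (n : Qb)) :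
    IsKum p θ := by
  refine ⟨?_, fun σ => by rw [h, map_natCast]⟩
  rintro rfl
  rw [zero_pow (Fact.out : p.Prime).ne_zero] at h
  exact hn (Nat.cast_eq_zero.1 h.symm)

theorem kum_mul_el {θ₁ θ₂ : Qb} (h₁ : IsKum p θ₁) (h₂ : IsKum p θ₂) (σ : GQ) :
    kum p (θ₁ * θ₂) σ = kum p θ₁ σ + kum p θ₂ σ := by
  have h : σ (θ₁ * θ₂) = zeta p ^ ((kum p θ₁ σ).val + (kum p θ₂ σ).val) * (θ₁ * θ₂) := by
    rw [map_mul, h₁.apply_eq σ, h₂.apply_eq σ, pow_add]
    ring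
  rw [kum_eq (h₁.mul h₂).1 h, Nat.cast_add, ZMod.natCast_zmod_val, ZMod.natCast_zmod_val]

theorem kum_one (σ : GQ) : kum p (1 : Qb) σ = 0 := by
  have h : σ (1 : Qb) = zeta p ^ 0 * 1 := by rw [map_one, pow_zero, one_mul]
  rw [kum_eq one_ne_zero h, Nat.cast_zero]

theorem kum_pow_el {θ : Qb} (h : IsKum p θ) (n : ℕ) (σ : GQ) :
    kum p (θ ^ n) σ = (n : ZMod p) * kum p θ σ := by
  induction n with
  | zero => rw [pow_zero, kum_one, Nat.cast_zero, zero_mul]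
  | succ n ih =>
    rw [pow_succ, kum_mul_el (h.pow n) h, ih, Nat.cast_succ, add_mul, one_mul]

theorem kum_zeta (σ : GQ) : kum p (zeta p) σ + 1 = (cycloExp p σ : ZMod p) := by
  have h1 := isKum_zeta.apply_eq (p := p) σ
  rw [apply_zeta, ← pow_succ, zeta_pow_eq_pow_iff] at h1
  rw [h1, Nat.cast_succ, ZMod.natCast_zmod_val]

/-- the field generated by `θ` is finite over `ℚ`. -/
theorem finiteDimensional_adjoin (θ : Qb) :
    FiniteDimensional ℚ ↥(IntermediateField.adjoin ℚ ({θ} : Set Qb)) :=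
  IntermediateField.adjoin.finiteDimensional (Algebra.IsIntegral.isIntegral θ)

theorem apply_eq_of_mem_fixingSubgroup {θ : Qb} {s : GQ}
    (hs : s ∈ (IntermediateField.adjoin ℚ ({θ} : Set Qb)).fixingSubgroup) : s θ = θ :=
  (IntermediateField.mem_fixingSubgroup_iff _ _).1 hs θ
    (IntermediateField.mem_adjoin_simple_self ℚ θ)

end Fermat.Agent.W56.LecKummer5
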