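/-
Programme W56 (target S56), chapter (LEC-v) (helper5): **the unramified `ℤ/p`-quotient of
`Gal(ℚ̄_q/ℚ_q)`**.

With `m = q ^ p - 1` and `ξ` a primitive `m`-th root of unity, `Gal(ℚ̄_q/ℚ_q)` acts on `ξ` through
the powers of `q` (Frobenius raises `ξ` to the `q`-th power, inertia fixes it), and `q` has order
`p` modulo `m`: `g ξ = ξ ^ (q ^ i)` defines a non-zero level homomorphism `g ↦ i mod p`.
Also: the mod `p` cyclotomic character is trivial on `Gal(ℚ̄_q/ℚ_q)` only if `q ≡ 1 mod p`.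
-/
import Mathlib
import Fermat.Agent.W56.Defs9
import Fermat.Agent.W56.UnipSel8
import Fermat.Agent.W56.H1urCard8
import Fermat.Agent.ES.J.CycloChar8
import Fermat.Agent.S05.Inertia
import Fermat.Agent.S14.Fields
import Fermat.Agent.W56.LecKummer5

set_option autoImplicit false
set_option linter.unusedSectionVars false

open ExtCitation

namespace Fermat.Agent.W56.LecUnram5

open Fermat.Agent.PT.PRO Fermat.Agent.PT.BR Fermat.Agent.W56.Defs9 Fermat.Agent.S14.Fields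

local notation "Qb" => AlgebraicClosure ℚ
local notation "GQ" => (AlgebraicClosure ℚ ≃ₐ[ℚ] AlgebraicClosure ℚ)

/-! ### Roots of unity of order prime to `q` under Frobenius and inertia -/

section Roots

variable {q : ℕ} (hq : q.Prime) {A : ValuationSubring Qb} (hA : A.LiesOverPrime q)
  {m : ℕ} (hm : ¬ q ∣ m)

include hq hA hm

/-- A Frobenius at `q` raises the roots of unity of order prime to `q` to the `q`-th power. -/
theorem frob_apply_root' {φ : GQ} (hφ : A.IsFrobeniusAt φ q) {ξ : Qb} (hξ : ξ ^ m = 1) :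
    φ ξ = ξ ^ q := by
  have hm0 : m ≠ 0 := fun h => hm (h ▸ dvd_zero q)
  have hξ0 : ξ ≠ 0 := fun h => by rw [h, zero_pow hm0] at hξ; exact zero_ne_one hξ
  have hξA : ξ ∈ A := Fermat.Agent.ES.J.CycloChar8.mem_of_pow_eq_one hm0 hξ
  have h1 := Fermat.Agent.ES.J.CycloChar8.frob_apply_sub_pow_mem_nonunits hφ hξA
  have hφξ : (φ ξ) ^ m = 1 := by rw [← map_pow, hξ, map_one]
  have hη : (φ ξ * (ξ ^ q)⁻¹) ^ m = 1 := by
    rw [mul_pow, hφξ, inv_pow, ← pow_mul, mul_comm q, pow_mul, hξ, one_pow, inv_one, mul_one]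
  have hvinv : A.valuation ((ξ ^ q)⁻¹) = 1 := by
    rw [map_inv₀, map_pow, Fermat.Agent.ES.J.CycloChar8.valuation_eq_one_of_pow_eq_one hm0 hξ,
      one_pow, inv_one]
  have hη1 : φ ξ * (ξ ^ q)⁻¹ - 1 ∈ A.nonunits := by
    have e : φ ξ * (ξ ^ q)⁻¹ - 1 = (φ ξ - ξ ^ q) * (ξ ^ q)⁻¹ := by
      rw [sub_mul, mul_inv_cancel₀ (pow_ne_zero _ hξ0)]
    rw [e, ValuationSubring.mem_nonunits_iff, map_mul, hvinv, mul_one]
    exact (ValuationSubring.mem_nonunits_iff (A := A)).mp h1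
  have h2 := Fermat.Agent.ES.J.CycloChar8.eq_one_of_sub_one_mem_nonunits hq hA hm hη hη1
  have := congrArg (· * ξ ^ q) h2
  simpa [mul_assoc, inv_mul_cancel₀ (pow_ne_zero q hξ0)] using this

/-- Inertia at `q` fixes the roots of unity of order prime to `q`. -/
theorem inertia_apply_root {σ : GQ} (hσ : σ ∈ A.inertiaSubgroupIn ℚ) {ξ : Qb} (hξ : ξ ^ m = 1) :
    σ ξ = ξ := by
  have hm0 : m ≠ 0 := fun h => hm (h ▸ dvd_zero q)
  have hξ0 : ξ ≠ 0 := fun h => by rw [h, zero_pow hm0] at hξ; exact zero_ne_one hξ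
  have hξA : ξ ∈ A := Fermat.Agent.ES.J.CycloChar8.mem_of_pow_eq_one hm0 hξ
  have h1 := Fermat.Agent.S05.Inertia.apply_sub_mem_nonunits hσ hξA
  have hσξ : (σ ξ) ^ m = 1 := by rw [← map_pow, hξ, map_one]
  have hη : (σ ξ * ξ⁻¹) ^ m = 1 := by
    rw [mul_pow, hσξ, inv_pow, hξ, inv_one, mul_one]
  have hvinv : A.valuation (ξ⁻¹) = 1 := by
    rw [map_inv₀, Fermat.Agent.ES.J.CycloChar8.valuation_eq_one_of_pow_eq_one hm0 hξ, inv_one]
  have hη1 : σ ξ * ξ⁻¹ - 1 ∈ A.nonunits := by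
    have e : σ ξ * ξ⁻¹ - 1 = (σ ξ - ξ) * ξ⁻¹ := by
      rw [sub_mul, mul_inv_cancel₀ hξ0]
    rw [e, ValuationSubring.mem_nonunits_iff, map_mul, hvinv, mul_one]
    exact (ValuationSubring.mem_nonunits_iff (A := A)).mp h1
  have h2 := Fermat.Agent.ES.J.CycloChar8.eq_one_of_sub_one_mem_nonunits hq hA hm hη hη1
  have := congrArg (· * ξ) h2
  simpa [mul_assoc, inv_mul_cancel₀ hξ0] using this

end Roots

/-! ### The arithmetic of `q` modulo `q ^ p - 1` -/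

section Modulus

variable (p : ℕ) [Fact p.Prime] {q : ℕ} (hq : q.Prime)

include hq

theorem one_lt_pow_p : 1 < q ^ p :=
  Nat.one_lt_pow (Fact.out : p.Prime).ne_zero hq.one_lt

theorem modulus_ne_zero : q ^ p - 1 ≠ 0 := by
  have := one_lt_pow_p p hq
  omega

theorem not_dvd_modulus : ¬ q ∣ q ^ p - 1 := by
  intro h
  have h1 : q ∣ q ^ p := dvd_pow_self q (Fact.out : p.Prime).ne_zero
  have h2 : q ∣ q ^ p - (q ^ p - 1) := Nat.dvd_sub h1 h
  have h3 : q ^ p - (q ^ p - 1) = 1 := by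
    have := one_lt_pow_p p hq
    omega
  rw [h3] at h2
  exact hq.one_lt.ne' (Nat.dvd_one.1 h2)

theorem orderOf_q : orderOf ((q : ℕ) : ZMod (q ^ p - 1)) = p := by
  have hp : p.Prime := Fact.out
  have h1 : ((q : ℕ) : ZMod (q ^ p - 1)) ^ p = 1 := by
    have h2 : q ^ p = (q ^ p - 1) + 1 := by
      have := one_lt_pow_p p hq
      omega
    rw [← Nat.cast_pow, h2, Nat.cast_add, ZMod.natCast_self, zero_add, Nat.cast_one]
  refine orderOf_eq_prime h1 ?_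
  intro h
  have h3 : ((q - 1 : ℕ) : ZMod (q ^ p - 1)) = 0 := by
    rw [Nat.cast_sub hq.one_lt.le, h, Nat.cast_one, sub_self]
  have h4 : q ^ p - 1 ∣ q - 1 := (ZMod.natCast_eq_zero_iff _ _).1 h3
  have h5 : q ^ p - 1 ≤ q - 1 := Nat.le_of_dvd (by have := hq.one_lt; omega) h4
  have h6 : q < q ^ p := by
    calc q = q ^ 1 := (pow_one q).symm
      _ < q ^ p := Nat.pow_lt_pow_right hq.one_lt hp.one_lt
  have h7 := hq.one_lt
  generalize q ^ p = N at h5 h6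
  omega

variable {ξ : Qb} (hξ : IsPrimitiveRoot ξ (q ^ p - 1))

include hξ

theorem pow_pow_eq_iff {i j : ℕ} :
    ξ ^ (q ^ i) = ξ ^ (q ^ j) ↔ ((i : ℕ) : ZMod p) = ((j : ℕ) : ZMod p) := by
  have hord : orderOf ξ = q ^ p - 1 := hξ.eq_orderOf.symm
  have hfin : IsOfFinOrder ξ := by
    rw [← orderOf_pos_iff, hord]
    exact Nat.pos_of_ne_zero (modulus_ne_zero p hq)
  have hfin2 : IsOfFinOrder ((q : ℕ) : ZMod (q ^ p - 1)) := by
    rw [← orderOf_pos_iff, orderOf_q p hq]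
    exact (Fact.out : p.Prime).pos
  rw [hfin.pow_eq_pow_iff_modEq, hord, ← ZMod.natCast_eq_natCast_iff, Nat.cast_pow, Nat.cast_pow,
    hfin2.pow_eq_pow_iff_modEq, orderOf_q p hq, ZMod.natCast_eq_natCast_iff]

theorem pow_qp : ξ ^ (q ^ p) = ξ := by
  have h2 : q ^ p = (q ^ p - 1) + 1 := by
    have := one_lt_pow_p p hq
    omega
  rw [h2, pow_succ, hξ.pow_eq_one, one_mul]

theorem pow_qp_pow (a : ℕ) : ξ ^ ((q ^ p) ^ a) = ξ := by
  induction a with
  | zero => rw [pow_zero, pow_one]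
  | succ a ih => rw [pow_succ, pow_mul, ih, pow_qp p hq hξ]

/-- The automorphisms acting on `ξ` through a power of `q`. -/
def unrSub : Subgroup GQ where
  carrier := {σ | ∃ a : ℕ, σ ξ = ξ ^ (q ^ a)}
  one_mem' := ⟨0, by rw [pow_zero, pow_one]; rfl⟩
  mul_mem' := by
    rintro σ τ ⟨a, ha⟩ ⟨b, hb⟩
    exact ⟨a + b, by rw [AlgEquiv.mul_apply, hb, map_pow, ha, ← pow_mul, ← pow_add]⟩
  inv_mem' := by
    rintro σ ⟨a, ha⟩
    refine ⟨a * (p - 1), ?_⟩
    have h1 : σ (ξ ^ (q ^ (a * (p - 1)))) = ξ := by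
      rw [map_pow, ha, ← pow_mul, ← pow_add]
      have h2 : a + a * (p - 1) = p * a := by
        have := (Fact.out : p.Prime).pos
        obtain ⟨p', rfl⟩ : ∃ p', p = p' + 1 := ⟨p - 1, by omega⟩
        rw [Nat.add_sub_cancel]
        ring
      rw [h2, pow_mul, pow_qp_pow p hq hξ]
    calc σ⁻¹ ξ = σ⁻¹ (σ (ξ ^ (q ^ (a * (p - 1))))) := by rw [h1]
      _ = ξ ^ (q ^ (a * (p - 1))) := by
        show σ.symm (σ (ξ ^ (q ^ (a * (p - 1))))) = _
        rw [AlgEquiv.symm_apply_apply]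

theorem mem_unrSub {σ : GQ} : σ ∈ unrSub p hq hξ ↔ ∃ a : ℕ, σ ξ = ξ ^ (q ^ a) := Iff.rfl

end Modulus

/-- the exponent `a mod p` with `y = ξ ^ (q ^ a)`. -/
noncomputable def unrAux (p q : ℕ) (ξ y : Qb) : ZMod p := by
  classical
  exact if h : ∃ a : ℕ, y = ξ ^ (q ^ a) then ((h.choose : ℕ) : ZMod p) else 0

theorem unrAux_eq (p : ℕ) [Fact p.Prime] {q : ℕ} (hq : q.Prime) {ξ : Qb}
    (hξ : IsPrimitiveRoot ξ (q ^ p - 1)) {y : Qb} {a : ℕ} (h : y = ξ ^ (q ^ a)) :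
    unrAux p q ξ y = (a : ZMod p) := by
  classical
  have hex : ∃ a : ℕ, y = ξ ^ (q ^ a) := ⟨a, h⟩
  have h1 : unrAux p q ξ y = ((hex.choose : ℕ) : ZMod p) := by
    unfold unrAux
    rw [dif_pos hex]
  rw [h1, ← pow_pow_eq_iff p hq hξ]
  exact hex.choose_spec.symm.trans h

/-! ### The local group -/

section Local

variable (p : ℕ) [Fact p.Prime] (q : Nat.Primes)

theorem exists_xi : ∃ ξ : Qb, IsPrimitiveRoot ξ ((q : ℕ) ^ p - 1) := by
  have : NeZero ((((q : ℕ) ^ p - 1 : ℕ) : ℕ) : Qb) :=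
    ⟨Nat.cast_ne_zero.2 (modulus_ne_zero p q.2)⟩
  exact HasEnoughRootsOfUnity.exists_primitiveRoot Qb _

/-- the level subgroup of `Γ_q` attached to `ℚ(x)`. -/
theorem adjoin_mem_sets (x : Qb) :
    (IntermediateField.adjoin ℚ ({x} : Set Qb)).fixingSubgroup.comap (locD q) ∈
      (LevelBridge13.pullBasis (locD q)).sets :=
  ⟨_, LecKummer5.finiteDimensional_adjoin x, rfl⟩

variable {ξ : Qb} (hξ : IsPrimitiveRoot ξ ((q : ℕ) ^ p - 1))

include hξ

/-- **`Γ_q` acts on `ξ` through the powers of `q`.** -/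
theorem locD_mem_unrSub (g : primeLocalGaloisGroup q) : locD q g ∈ unrSub p q.2 hξ := by
  obtain ⟨φ, hφ, hgen⟩ := H1urCard8.exists_frob_generates' q
  have hA := UnipSel8.liesOverPrime_primeLocalPlace q
  obtain ⟨i, n, hn, u, hu, rfl⟩ := hgen _ (adjoin_mem_sets q ξ) g
  rw [map_mul, map_mul, map_zpow]
  refine mul_mem (mul_mem (zpow_mem ?_ i) ?_) ?_
  · exact ⟨1, by
      rw [pow_one]
      exact frob_apply_root' q.2 hA (not_dvd_modulus p q.2) hφ hξ.pow_eq_one⟩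
  · exact ⟨0, by
      rw [pow_zero, pow_one]
      exact inertia_apply_root q.2 hA (not_dvd_modulus p q.2) hn hξ.pow_eq_one⟩
  · exact ⟨0, by
      rw [pow_zero, pow_one]
      exact LecKummer5.apply_eq_of_mem_fixingSubgroup hu⟩

omit hξ in
/-- **the unramified homomorphism `Γ_q → ℤ/p`.** -/
noncomputable def unr (ξ : Qb) (g : primeLocalGaloisGroup q) : ZMod p :=
  unrAux p (q : ℕ) ξ (locD q g ξ)

theorem unr_mul (g h : primeLocalGaloisGroup q) :
    unr p q ξ (g * h) = unr p q ξ g + unr p q ξ h := by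
  obtain ⟨a, ha⟩ := locD_mem_unrSub p q hξ g
  obtain ⟨b, hb⟩ := locD_mem_unrSub p q hξ h
  have hab : locD q (g * h) ξ = ξ ^ ((q : ℕ) ^ (a + b)) := by
    rw [map_mul, AlgEquiv.mul_apply, hb, map_pow, ha, ← pow_mul, ← pow_add]
  unfold unr
  rw [unrAux_eq p q.2 hξ hab, unrAux_eq p q.2 hξ ha, unrAux_eq p q.2 hξ hb, Nat.cast_add]

omit hξ in
theorem unr_level :
    LevelCoh28.IsLevel₁ (LevelBridge13.pullBasis (locD q)).sets (unr p q ξ) := by
  refine ⟨_, adjoin_mem_sets q ξ, fun g s hs => ?_⟩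
  show unrAux p (q : ℕ) ξ (locD q (g * s) ξ) = unrAux p (q : ℕ) ξ (locD q g ξ)
  rw [map_mul, AlgEquiv.mul_apply, LecKummer5.apply_eq_of_mem_fixingSubgroup hs]

theorem exists_unr_eq_one : ∃ g : primeLocalGaloisGroup q, unr p q ξ g = 1 := by
  obtain ⟨φ, hφ, -⟩ := H1urCard8.exists_frob_generates' q
  have hA := UnipSel8.liesOverPrime_primeLocalPlace q
  refine ⟨φ, ?_⟩
  have h1 : locD q φ ξ = ξ ^ ((q : ℕ) ^ 1) := by
    rw [pow_one]
    exact frob_apply_root' q.2 hA (not_dvd_modulus p q.2) hφ hξ.pow_eq_one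
  unfold unr
  rw [unrAux_eq p q.2 hξ h1, Nat.cast_one]

end Local

/-- **a non-zero level homomorphism `Γ_q → ℤ/p`** (every prime `q`). -/
theorem exists_unram_hom (p : ℕ) [Fact p.Prime] (q : Nat.Primes) :
    ∃ f : primeLocalGaloisGroup q → ZMod p, (∀ g h, f (g * h) = f g + f h) ∧
      LevelCoh28.IsLevel₁ (LevelBridge13.pullBasis (locD q)).sets f ∧ ∃ g, f g = 1 := by
  obtain ⟨ξ, hξ⟩ := exists_xi p q
  exact ⟨unr p q ξ, unr_mul p q hξ, unr_level p q, exists_unr_eq_one p q hξ⟩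

/-- **the mod `p` cyclotomic character is trivial on `Γ_q`, `q ≠ p`, only if `q ≡ 1 mod p`.** -/
theorem dvd_sub_one_of_cyclo_trivial (p : ℕ) [Fact p.Prime] (q : Nat.Primes) (hqp : (q : ℕ) ≠ p)
    (h : ∀ g : primeLocalGaloisGroup q, ((cycloExp p (locD q g) : ℕ) : ZMod p) = 1) :
    p ∣ (q : ℕ) - 1 := by
  have hp : p.Prime := Fact.out
  obtain ⟨φ, hφ, -⟩ := H1urCard8.exists_frob_generates' q
  have hA := UnipSel8.liesOverPrime_primeLocalPlace q
  have hqp' : ¬ (q : ℕ) ∣ p := fun hd => hqp ((Nat.prime_dvd_prime_iff_eq q.2 hp).mp hd)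
  have h1 := frob_apply_root' q.2 hA hqp' hφ (zeta_spec p).pow_eq_one
  rw [apply_zeta, zeta_pow_eq_pow_iff, h φ] at h1
  have h2 : (((q : ℕ) - 1 : ℕ) : ZMod p) = 0 := by
    rw [Nat.cast_sub q.2.one_lt.le, ← h1, Nat.cast_one, sub_self]
  exact (ZMod.natCast_eq_zero_iff _ _).1 h2

end Fermat.Agent.W56.LecUnram5
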