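/-
Programme W56 (target S56), chapter (D2), helper8, ABSTRACT LAYER: for a short exact sequence
`0 → A → B → C → 0` of discrete `G`-modules, the image of `H¹(G, A) → H¹(G, B)` in level cohomology
satisfies `#im · #C^G ≤ #H¹(G, A) · #B^G`.
-/
import Mathlib
import Fermat.Agent.PT.PRO.LevelCohRes28

set_option autoImplicit false

universe u

open CategoryTheory groupCohomology

namespace Fermat.Agent.W56.SubQuotCount8

open Fermat.Agent.PT.PRO Fermat.Agent.PT.PRO.LevelCoh28 Fermat.Agent.PT.PRO.LevelCohRes28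

variable {k G : Type u} [CommRing k] [Group G] {𝓑 : LevelBasis G} {A B C : Rep.{u} k G}
  (φ : A →ₗ[k] B) (hφ : ∀ g a, φ (A.ρ g a) = B.ρ g (φ a))
  (ψ : B →ₗ[k] C) (hψ : ∀ g b, ψ (B.ρ g b) = C.ρ g (ψ b))
  (hinj : Function.Injective φ) (hsurj : Function.Surjective ψ)
  (hex : ∀ b, ψ b = 0 ↔ ∃ a, φ a = b) (hB : IsDiscrete 𝓑.sets B)

include hφ hψ hinj hsurj hex hB in
/-- **`#im(H¹(A) → H¹(B)) · #C^G ≤ #H¹(A) · #B^G`.** -/
theorem card_range_mapH1_mul_le [Finite ↥B.ρ.invariants] :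
    Nat.card ↥(LinearMap.range (mapH1 (𝓑 := 𝓑) φ hφ)) * Nat.card ↥C.ρ.invariants ≤
      Nat.card (H1 𝓑 A) * Nat.card ↥B.ρ.invariants := by
  classical
  set δ := delta0 (𝓑 := 𝓑) φ hφ ψ hψ hinj hsurj hex hB with hδ
  -- `#H¹(A) = #ker · #range`
  have h1 : Nat.card (H1 𝓑 A) = Nat.card ↥(LinearMap.ker (mapH1 (𝓑 := 𝓑) φ hφ)) *
      Nat.card ↥(LinearMap.range (mapH1 (𝓑 := 𝓑) φ hφ)) := by
    rw [Submodule.card_eq_card_quotient_mul_card (LinearMap.ker (mapH1 (𝓑 := 𝓑) φ hφ)),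
      Nat.card_congr (mapH1 (𝓑 := 𝓑) φ hφ).quotKerEquivRange.toEquiv]
  -- `#C^G = #ker δ · #range δ`
  have h2 : Nat.card ↥C.ρ.invariants = Nat.card ↥(LinearMap.ker δ) *
      Nat.card ↥(LinearMap.range δ) := by
    rw [Submodule.card_eq_card_quotient_mul_card (LinearMap.ker δ),
      Nat.card_congr δ.quotKerEquivRange.toEquiv]
  have h3 : LinearMap.ker (mapH1 (𝓑 := 𝓑) φ hφ) = LinearMap.range δ :=
    ker_mapH1_eq_range_delta0 φ hφ ψ hψ hinj hsurj hex hB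
  -- `#ker δ ≤ #B^G`
  have h4 : Nat.card ↥(LinearMap.ker δ) ≤ Nat.card ↥B.ρ.invariants := by
    have hsur : ∀ c : ↥(LinearMap.ker δ), ∃ b : ↥B.ρ.invariants, ψ (b : B) = ((c : ↥C.ρ.invariants) : C) := by
      intro c
      obtain ⟨b, hb, hbc⟩ := (delta0_eq_zero_iff φ hφ ψ hψ hinj hsurj hex hB c.1).1 c.2
      exact ⟨⟨b, hb⟩, hbc⟩
    choose f hf using hsur
    refine Nat.card_le_card_of_injective f ?_
    intro c c' h
    apply Subtype.ext
    apply Subtype.ext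
    rw [← hf c, ← hf c', h]
  calc Nat.card ↥(LinearMap.range (mapH1 (𝓑 := 𝓑) φ hφ)) * Nat.card ↥C.ρ.invariants
      = Nat.card (H1 𝓑 A) * Nat.card ↥(LinearMap.ker δ) := by
        rw [h2, h1, h3]; ring
    _ ≤ Nat.card (H1 𝓑 A) * Nat.card ↥B.ρ.invariants := Nat.mul_le_mul_left _ h4

end Fermat.Agent.W56.SubQuotCount8
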