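/-
Programme W56 (target S56), chapter (D2), helper8: the strict-ordinary local condition at `p`,
`#LpSO ≤ #k · #H⁰(Γ_p, ad⁰ρ̄)`, from the Kummer bound `#H¹(Γ_p, k(χ_p)) ≤ (#k)²` (`KummerBound`,
chapter (D2)-core).

`SOLine ρ̄ p pp ℓ`: `ℓ` is a line of `V̄`, stable under the decomposition group at `p`, on which it
acts by `χ_p · ψ`, and acting by `ψ` on `V̄/ℓ` (the residual shape of the Prelude's
`IsStrictOrdinaryAt`).  Then `W0 = Hom(V̄/ℓ, ℓ) ⊆ ad⁰ρ̄` is `Γ_p`-stable, isomorphic to `k(χ_p)`,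
`LpSO` is the image of `H¹(Γ_p, W0)`, and the line `W1/W0` of `(ad⁰/W0)^{Γ_p}` kills one dimension.
-/
import Mathlib
import Fermat.Agent.W56.Defs9
import Fermat.Agent.W56.UnipSel8
import Fermat.Agent.W56.H1urCard8
import Fermat.Agent.W56.SubQuotCount8

set_option autoImplicit false

open CategoryTheory ExtCitation

namespace Fermat.Agent.W56.StrictOrdBound8

open Fermat.Agent.PT.PRO Fermat.Agent.PT.BR Fermat.Agent.W56.Defs9 Fermat.Agent.W56.UnipSel8

local notation "Qb" => AlgebraicClosure ℚ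
local notation "Γ" => (AlgebraicClosure ℚ ≃ₐ[ℚ] AlgebraicClosure ℚ)

variable {k : Type} [Field k] (ρbar : ResidualGaloisRep k) (p : ℕ) [Fact p.Prime] [CharP k p]

/-- The residual strict-ordinary shape at `p` along the line `ℓ`. -/
def SOLine (pp : Nat.Primes) (ℓ : Submodule k ρbar.V) : Prop :=
  Module.finrank k ℓ = 1 ∧
    ∀ σ ∈ (primeLocalPlace pp).decompositionSubgroup ℚ, ∃ x z : k,
      (∀ w ∈ ℓ, ρbar.ρ σ w = x • w) ∧ (∀ v : ρbar.V, ρbar.ρ σ v - z • v ∈ ℓ) ∧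
        x = ((cycloK (k := k) p σ : kˣ) : k) * z

/-- The (D2)-core contract: `#H¹(Γ_p, k(χ_p)) ≤ (#k)²` (Kummer theory over `ℚ_p`). -/
def KummerBound (k : Type) [Field k] (p : ℕ) [Fact p.Prime] [CharP k p] (pp : Nat.Primes) : Prop :=
  ∀ (N : Rep k (primeLocalGaloisGroup pp)), Module.finrank k N = 1 →
    (∀ (g : primeLocalGaloisGroup pp) (n : N),
      N.ρ g n = ((cycloK (k := k) p (locD pp g) : kˣ) : k) • n) →
    Nat.card (LevelCoh28.H1 (LevelBridge13.pullBasis (locD pp)) N) ≤ Nat.card k ^ 2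

section Line

variable {ρbar p} {pp : Nat.Primes} {ℓ : Submodule k ρbar.V}

theorem ne_top_of_finrank (h : Module.finrank k ℓ = 1) : ℓ ≠ ⊤ := by
  intro h'
  rw [h', finrank_top, ρbar.finrank_eq] at h
  exact absurd h (by norm_num)

/-- The character on `V̄/ℓ` is non-zero. -/
theorem z_ne_zero (h : Module.finrank k ℓ = 1) {σ : Γ} {z : k}
    (hz : ∀ v : ρbar.V, ρbar.ρ σ v - z • v ∈ ℓ) : z ≠ 0 := by
  rintro rfl
  apply ne_top_of_finrank h
  rw [eq_top_iff]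
  intro v _
  have h1 := hz (ρbar.ρ σ⁻¹ v)
  rw [zero_smul, sub_zero, ← Module.End.mul_apply, rho_mul_inv, Module.End.one_apply] at h1
  exact h1

/-- **The decomposition group acts on `W0 = Hom(V̄/ℓ, ℓ)` through the cyclotomic character.** -/
theorem conj_eq_smul (h : SOLine ρbar p pp ℓ) {σ : Γ}
    (hσ : σ ∈ (primeLocalPlace pp).decompositionSubgroup ℚ) {X : Module.End k ρbar.V}
    (hX1 : LinearMap.range X ≤ ℓ) (hX2 : ℓ ≤ LinearMap.ker X) :
    ρbar.ρ σ * X * ρbar.ρ σ⁻¹ = ((cycloK (k := k) p σ : kˣ) : k) • X := by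
  obtain ⟨x, z, hx, hz, hxz⟩ := h.2 σ hσ
  have hz0 := z_ne_zero h.1 hz
  ext v
  rw [Module.End.mul_apply, Module.End.mul_apply, LinearMap.smul_apply]
  set u := ρbar.ρ σ⁻¹ v with hu
  have h1 := hz u
  rw [hu, ← Module.End.mul_apply, rho_mul_inv, Module.End.one_apply, ← hu] at h1
  have h2 : X (v - z • u) = 0 := hX2 h1
  rw [map_sub, map_smul, sub_eq_zero] at h2
  have h3 : X u = z⁻¹ • X v := by rw [h2, smul_smul, inv_mul_cancel₀ hz0, one_smul]
  rw [hx (X u) (hX1 ⟨u, rfl⟩), h3, smul_smul, hxz, mul_assoc, mul_inv_cancel₀ hz0, mul_one]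

end Line

/-! ### Linear algebra of a line in the plane `V̄` -/

section LinAlg

variable {ρbar} {ℓ : Submodule k ρbar.V}

theorem exists_notMem (h : Module.finrank k ℓ = 1) : ∃ e : ρbar.V, e ∉ ℓ := by
  by_contra hne
  exact ne_top_of_finrank h (eq_top_iff.2 fun v _ => by_contra fun hv => hne ⟨v, hv⟩)

/-- An endomorphism killing the line `ℓ` and a vector outside `ℓ` is zero. -/
theorem eq_zero_of_apply_eq_zero (h : Module.finrank k ℓ = 1) {X : Module.End k ρbar.V}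
    (hX : ℓ ≤ LinearMap.ker X) {e : ρbar.V} (he : e ∉ ℓ) (hXe : X e = 0) : X = 0 := by
  have hlt : ℓ < LinearMap.ker X :=
    lt_of_le_of_ne hX (fun h' => he (h' ▸ (LinearMap.mem_ker.2 hXe)))
  have h1 := Submodule.finrank_lt_finrank_of_lt hlt
  have h2 : LinearMap.ker X = ⊤ := by
    apply Submodule.eq_top_of_finrank_eq
    have h3 := Submodule.finrank_le (LinearMap.ker X)
    rw [ρbar.finrank_eq] at h3 ⊢
    omega
  exact LinearMap.ker_eq_top.1 h2

theorem trace_eq_zero_of_range_le_ker {X : Module.End k ρbar.V}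
    (hX : LinearMap.range X ≤ LinearMap.ker X) : LinearMap.trace k ρbar.V X = 0 := by
  have hnil : IsNilpotent X := by
    refine ⟨2, ?_⟩
    ext v
    rw [pow_two, Module.End.mul_apply]
    exact hX ⟨v, rfl⟩
  exact (LinearMap.isNilpotent_trace_of_isNilpotent hnil).eq_zero

theorem finrank_W0_le (h : Module.finrank k ℓ = 1) : Module.finrank k ↥(W0 ρbar ℓ) ≤ 1 := by
  obtain ⟨e, he⟩ := exists_notMem h
  let ev : ↥(W0 ρbar ℓ) →ₗ[k] ↥ℓ :=
    { toFun := fun X => ⟨((X : ↥(sl ρbar)) : Module.End k ρbar.V) e, X.2.1 ⟨e, rfl⟩⟩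
      map_add' := fun X Y => rfl
      map_smul' := fun c X => rfl }
  have hinj : Function.Injective ev := by
    intro X Y hXY
    have h0 : ((X : ↥(sl ρbar)) : Module.End k ρbar.V) e = ((Y : ↥(sl ρbar)) : Module.End k ρbar.V) e :=
      congrArg (fun w : ↥ℓ => (w : ρbar.V)) hXY
    have h1 : (((X - Y : ↥(W0 ρbar ℓ)) : ↥(sl ρbar)) : Module.End k ρbar.V) e = 0 := by
      show (((X : ↥(sl ρbar)) : Module.End k ρbar.V) - ((Y : ↥(sl ρbar)) : Module.End k ρbar.V)) e = 0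
      rw [LinearMap.sub_apply, h0, sub_self]
    have h2 := eq_zero_of_apply_eq_zero h (X - Y).2.2 he h1
    have h3 : X - Y = 0 := Subtype.ext (Subtype.ext h2)
    exact sub_eq_zero.1 h3
  have := LinearMap.finrank_le_finrank_of_injective hinj
  rwa [h] at this

theorem exists_ne_zero_W0 (h : Module.finrank k ℓ = 1) : ∃ X : ↥(W0 ρbar ℓ), X ≠ 0 := by
  obtain ⟨f, hf0, hf⟩ :=
    Submodule.exists_le_ker_of_lt_top ℓ (lt_top_iff_ne_top.2 (ne_top_of_finrank h))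
  obtain ⟨e₁, he₁, -⟩ := finrank_eq_one_iff'.1 h
  set X₀ : Module.End k ρbar.V := f.smulRight (e₁ : ρbar.V) with hX₀
  have hr : LinearMap.range X₀ ≤ ℓ := by
    rintro _ ⟨v, rfl⟩
    exact ℓ.smul_mem _ e₁.2
  have hk : ℓ ≤ LinearMap.ker X₀ := fun w hw => by
    rw [LinearMap.mem_ker, hX₀, LinearMap.smulRight_apply, show f w = 0 from hf hw, zero_smul]
  have htr : X₀ ∈ sl ρbar := (mem_sl_iff _ _).2 (trace_eq_zero_of_range_le_ker (hr.trans hk))
  refine ⟨⟨⟨X₀, htr⟩, hr, hk⟩, fun h0 => hf0 ?_⟩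
  ext v
  have h1 : X₀ v = 0 :=
    congrArg (fun X : ↥(W0 ρbar ℓ) => ((X : ↥(sl ρbar)) : Module.End k ρbar.V) v) h0
  rw [hX₀, LinearMap.smulRight_apply] at h1
  rcases smul_eq_zero.1 h1 with h2 | h2
  · exact h2
  · exact absurd (Subtype.ext h2) he₁

/-- `W0 = Hom(V̄/ℓ, ℓ)` is a line. -/
theorem finrank_W0 (h : Module.finrank k ℓ = 1) : Module.finrank k ↥(W0 ρbar ℓ) = 1 := by
  refine le_antisymm (finrank_W0_le h) ?_
  obtain ⟨X, hX⟩ := exists_ne_zero_W0 h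
  exact (Module.finrank_pos_iff_exists_ne_zero (R := k)).2 ⟨X, hX⟩

/-- A trace-zero endomorphism acting by `1` on `ℓ` and by `-1` on `V̄/ℓ`. -/
theorem exists_X1 (h : Module.finrank k ℓ = 1) : ∃ X₁ : Module.End k ρbar.V,
    X₁ ∈ sl ρbar ∧ (∀ w ∈ ℓ, X₁ w = w) ∧ ∀ v, X₁ v + v ∈ ℓ := by
  obtain ⟨q, hq⟩ := Submodule.exists_isCompl ℓ
  set π : Module.End k ρbar.V := ℓ.projection q hq with hπdef
  have hπ : LinearMap.IsProj ℓ π :=
    ⟨fun x => Submodule.projection_apply_mem hq x,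
      fun x hx => Submodule.projection_apply_of_mem_left hq hx⟩
  refine ⟨(2 : k) • π - 1, ?_, fun w hw => ?_, fun v => ?_⟩
  · rw [mem_sl_iff, map_sub, map_smul, hπ.trace, h, LinearMap.trace_one, ρbar.finrank_eq]
    norm_num
  · rw [LinearMap.sub_apply, LinearMap.smul_apply, hπ.map_id w hw, Module.End.one_apply, two_smul,
      add_sub_cancel_right]
  · rw [LinearMap.sub_apply, LinearMap.smul_apply, Module.End.one_apply, sub_add_cancel]
    exact ℓ.smul_mem _ (hπ.map_mem v)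

/-- Conjugation by an element stabilising `ℓ` moves such an `X₁` by an element of `W0`. -/
theorem conj_sub_mem {σ : Γ} {x x' : k} (hx : ∀ w ∈ ℓ, ρbar.ρ σ w = x • w)
    (hx' : ∀ w ∈ ℓ, ρbar.ρ σ⁻¹ w = x' • w) {X₁ : Module.End k ρbar.V}
    (h1 : ∀ w ∈ ℓ, X₁ w = w) (h2 : ∀ v, X₁ v + v ∈ ℓ) :
    LinearMap.range (ρbar.ρ σ * X₁ * ρbar.ρ σ⁻¹ - X₁) ≤ ℓ ∧
      ℓ ≤ LinearMap.ker (ρbar.ρ σ * X₁ * ρbar.ρ σ⁻¹ - X₁) := by
  constructor
  · rintro _ ⟨v, rfl⟩
    rw [LinearMap.sub_apply, Module.End.mul_apply, Module.End.mul_apply]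
    set u := ρbar.ρ σ⁻¹ v with hu
    have h3 : ρbar.ρ σ u = v := by
      rw [hu, ← Module.End.mul_apply, rho_mul_inv, Module.End.one_apply]
    have h4 : ρbar.ρ σ (X₁ u) - X₁ v = x • (X₁ u + u) - (X₁ v + v) := by
      rw [← hx _ (h2 u), map_add, h3]
      abel
    rw [h4]
    exact ℓ.sub_mem (ℓ.smul_mem _ (h2 u)) (h2 v)
  · intro w hw
    rw [LinearMap.mem_ker, LinearMap.sub_apply, Module.End.mul_apply, Module.End.mul_apply,
      hx' w hw, h1 _ (ℓ.smul_mem _ hw), ← hx' w hw, ← Module.End.mul_apply, rho_mul_inv,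
      Module.End.one_apply, h1 w hw, sub_self]

end LinAlg

/-! ### The sub-representation `W0` of `Res_{Γ_p} ad⁰ρ̄` -/

noncomputable section Reps

variable (pp : Nat.Primes) (ℓ : Submodule k ρbar.V)

/-- `B = Res_{Γ_p} ad⁰ρ̄`. -/
abbrev Bp : Rep k (primeLocalGaloisGroup pp) := Rep.res (locD pp) (ad0 ρbar)

/-- `W0 = Hom(V̄/ℓ, ℓ)` as a submodule of `B`. -/
def W0B : Submodule k (Bp ρbar pp) := W0 ρbar ℓ

theorem mem_W0B_iff (X : Bp ρbar pp) :
    X ∈ W0B ρbar pp ℓ ↔ LinearMap.range (endOf ρbar X) ≤ ℓ ∧ ℓ ≤ LinearMap.ker (endOf ρbar X) :=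
  Iff.rfl

variable {ρbar p pp ℓ}

theorem Bp_ρ_apply (g : primeLocalGaloisGroup pp) (X : Bp ρbar pp) :
    endOf ρbar ((Bp ρbar pp).ρ g X) =
      ρbar.ρ (locD pp g) * endOf ρbar X * ρbar.ρ (locD pp g)⁻¹ := rfl

/-- `Γ_p` acts on `W0` through the cyclotomic character. -/
theorem Bp_ρ_eq_smul (h : SOLine ρbar p pp ℓ) (g : primeLocalGaloisGroup pp) {X : Bp ρbar pp}
    (hX : X ∈ W0B ρbar pp ℓ) :
    (Bp ρbar pp).ρ g X = ((cycloK (k := k) p (locD pp g) : kˣ) : k) • X := by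
  apply endOf_injective ρbar
  have hX' := (mem_W0B_iff ρbar pp ℓ X).1 hX
  rw [Bp_ρ_apply, conj_eq_smul h (H1urCard8.locD_mem pp g) (X := endOf ρbar X) hX'.1 hX'.2]
  rfl

theorem W0B_le_comap (h : SOLine ρbar p pp ℓ) (g : primeLocalGaloisGroup pp) :
    W0B ρbar pp ℓ ≤ (W0B ρbar pp ℓ).comap ((Bp ρbar pp).ρ g) := by
  intro X hX
  rw [Submodule.mem_comap, Bp_ρ_eq_smul h g hX]
  exact (W0B ρbar pp ℓ).smul_mem _ hX

/-- `A = W0` as a representation of `Γ_p`. -/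
abbrev Ap (h : SOLine ρbar p pp ℓ) : Rep k (primeLocalGaloisGroup pp) :=
  (Bp ρbar pp).subrepresentation (W0B ρbar pp ℓ) (W0B_le_comap h)

/-- `C = ad⁰/W0` as a representation of `Γ_p`. -/
abbrev Cp (h : SOLine ρbar p pp ℓ) : Rep k (primeLocalGaloisGroup pp) :=
  (Bp ρbar pp).quotient (W0B ρbar pp ℓ) (W0B_le_comap h)

theorem Ap_ρ_eq_smul (h : SOLine ρbar p pp ℓ) (g : primeLocalGaloisGroup pp) (n : Ap h) :
    (Ap h).ρ g n = ((cycloK (k := k) p (locD pp g) : kˣ) : k) • n := by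
  apply Subtype.ext
  exact Bp_ρ_eq_smul h g n.2

theorem finrank_Ap (h : SOLine ρbar p pp ℓ) : Module.finrank k (Ap h) = 1 :=
  finrank_W0 h.1

/-- `ad⁰ρ̄` is a smooth `Γ`-module. -/
theorem ad0_smooth (ρbar : ResidualGaloisRep k) (m : ad0 ρbar) :
    ∃ F : IntermediateField ℚ Qb, FiniteDimensional ℚ F ∧
      ∀ s ∈ F.fixingSubgroup, (ad0 ρbar).ρ s m = m := by
  obtain ⟨L, hL, hρ⟩ := ρbar.factorsThroughFiniteLevel
  refine ⟨L, hL, fun s hs => ?_⟩
  have h1 : ρbar.ρ s = 1 :=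
    hρ s fun x hx => (IntermediateField.mem_fixingSubgroup_iff L s).1 hs x hx
  have h2 : ρbar.ρ s⁻¹ = 1 := by
    have := rho_inv_mul ρbar s
    rwa [h1, mul_one] at this
  apply endOf_injective ρbar
  rw [endOf_ρ, h1, h2, one_mul, mul_one]

theorem isDiscrete_Bp (ρbar : ResidualGaloisRep k) (pp : Nat.Primes) :
    LevelCoh28.IsDiscrete (LevelBridge13.pullBasis (locD pp)).sets (Bp ρbar pp) := by
  have : FiniteDimensional k (ad0 ρbar) := (inferInstance : FiniteDimensional k ↥(sl ρbar))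
  exact LevelBridge13.isDiscrete_pullSets (ad0 ρbar) (locD pp) (ad0_smooth ρbar)

theorem finite_ad0 (ρbar : ResidualGaloisRep k) [Finite k] : Finite (ad0 ρbar) := by
  have : Module.Finite k ↥(sl ρbar) := inferInstance
  exact (Module.finite_of_finite k : Finite ↥(sl ρbar))

/-! ### The exact sequence `0 → W0 → ad⁰ → ad⁰/W0 → 0` of `Γ_p`-modules -/

/-- `φ : W0 → ad⁰`. -/
def φp (h : SOLine ρbar p pp ℓ) : Ap h →ₗ[k] Bp ρbar pp := (W0B ρbar pp ℓ).subtype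

/-- `ψ : ad⁰ → ad⁰/W0`. -/
def ψp (h : SOLine ρbar p pp ℓ) : Bp ρbar pp →ₗ[k] Cp h := (W0B ρbar pp ℓ).mkQ

theorem φp_equiv (h : SOLine ρbar p pp ℓ) (g : primeLocalGaloisGroup pp) (a : Ap h) :
    φp h ((Ap h).ρ g a) = (Bp ρbar pp).ρ g (φp h a) := rfl

theorem ψp_equiv (h : SOLine ρbar p pp ℓ) (g : primeLocalGaloisGroup pp) (b : Bp ρbar pp) :
    ψp h ((Bp ρbar pp).ρ g b) = (Cp h).ρ g (ψp h b) := rfl

theorem φp_injective (h : SOLine ρbar p pp ℓ) : Function.Injective (φp h) :=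
  Subtype.val_injective

theorem ψp_surjective (h : SOLine ρbar p pp ℓ) : Function.Surjective (ψp h) :=
  Submodule.mkQ_surjective _

theorem ψp_eq_zero_iff (h : SOLine ρbar p pp ℓ) (b : Bp ρbar pp) :
    ψp h b = 0 ↔ ∃ a, φp h a = b := by
  rw [ψp, Submodule.mkQ_apply, Submodule.Quotient.mk_eq_zero]
  exact ⟨fun hb => ⟨⟨b, hb⟩, rfl⟩, fun ⟨a, ha⟩ => ha ▸ a.2⟩

/-! ### The trivial line `W1/W0` in `(ad⁰/W0)^{Γ_p}` -/

theorem card_le_card_invariants_Cp (h : SOLine ρbar p pp ℓ) [Finite k] :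
    Nat.card k ≤ Nat.card ↥(Cp h).ρ.invariants := by
  obtain ⟨X₁, hX₁sl, hX₁a, hX₁b⟩ := exists_X1 h.1
  set b₁ : Bp ρbar pp := ofEnd ρbar X₁ hX₁sl with hb₁
  -- `b₁ ∉ W0`
  have hb₁W : b₁ ∉ W0B ρbar pp ℓ := by
    intro hmem
    obtain ⟨w, hw0, -⟩ := finrank_eq_one_iff'.1 h.1
    have h1 : X₁ (w : ρbar.V) = 0 := ((mem_W0B_iff ρbar pp ℓ b₁).1 hmem).2 w.2
    rw [hX₁a _ w.2] at h1
    exact hw0 (Subtype.ext h1)
  -- `g b₁ - b₁ ∈ W0`
  have hinv : ∀ g : primeLocalGaloisGroup pp, (Bp ρbar pp).ρ g b₁ - b₁ ∈ W0B ρbar pp ℓ := by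
    intro g
    obtain ⟨x, z, hx, -, -⟩ := h.2 _ (H1urCard8.locD_mem pp g)
    obtain ⟨x', z', hx', -, -⟩ := h.2 _ (inv_mem (H1urCard8.locD_mem pp g))
    have := conj_sub_mem hx hx' hX₁a hX₁b
    exact (mem_W0B_iff ρbar pp ℓ _).2 this
  have hmem : ∀ c : k, ψp h (c • b₁) ∈ (Cp h).ρ.invariants := by
    intro c g
    rw [← ψp_equiv, ← sub_eq_zero, ← map_sub, ψp_eq_zero_iff]
    refine ⟨⟨(Bp ρbar pp).ρ g (c • b₁) - c • b₁, ?_⟩, rfl⟩
    rw [map_smul, ← smul_sub]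
    exact (W0B ρbar pp ℓ).smul_mem c (hinv g)
  have : Finite (ad0 ρbar) := finite_ad0 ρbar
  have : Finite (Cp h) := Finite.of_surjective _ (ψp_surjective h)
  refine Nat.card_le_card_of_injective (fun c : k => (⟨ψp h (c • b₁), hmem c⟩ :
    ↥(Cp h).ρ.invariants)) ?_
  intro c c' hcc
  have h1 : ψp h (c • b₁) = ψp h (c' • b₁) := congrArg Subtype.val hcc
  rw [← sub_eq_zero, ← map_sub, ← sub_smul, ψp_eq_zero_iff] at h1
  obtain ⟨a, ha⟩ := h1
  by_contra hne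
  apply hb₁W
  have h2 : b₁ = (c - c')⁻¹ • ((c - c') • b₁) := by
    rw [smul_smul, inv_mul_cancel₀ (sub_ne_zero.2 hne), one_smul]
  rw [h2, ← ha]
  exact (W0B ρbar pp ℓ).smul_mem _ a.2

/-! ### `LpSO` is the image of `H¹(Γ_p, W0)` -/

theorem LpSO_le_range (h : SOLine ρbar p pp ℓ) :
    LpSO ρbar ℓ pp ≤ LinearMap.range
      (LevelCoh28.mapH1 (𝓑 := LevelBridge13.pullBasis (locD pp)) (φp h) (φp_equiv h)) := by
  rintro _ ⟨c, hc, rfl⟩
  set c' : primeLocalGaloisGroup pp → Ap h := fun σ => ⟨(c : primeLocalGaloisGroup pp → ad0 ρbar) σ, hc σ⟩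
    with hc'
  have hcomp : (φp h) ∘ c' = (c : primeLocalGaloisGroup pp → Bp ρbar pp) := rfl
  have hZ : c' ∈ LevelCoh28.Z1 (LevelBridge13.pullBasis (locD pp)) (Ap h) := by
    refine LevelCoh28.mem_Z1_of _ _ ?_ ?_
    · have h1 := LevelCoh28.d₁₂_comp (φp h) (φp_equiv h) c'
      rw [hcomp, LevelCoh28.d₁₂_eq_zero_of_mem_Z1 _ _ c.2] at h1
      funext g
      apply φp_injective h
      rw [Pi.zero_apply, map_zero]
      exact (congrFun h1 g).symm
    · refine LevelCoh28.isLevel₁_of_comp (G := primeLocalGaloisGroup pp)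
        (𝓑 := LevelBridge13.pullBasis (locD pp)) (φp h) (φp_injective h) ?_
      rw [hcomp]
      exact c.2.2
  refine ⟨LevelCoh28.H1mk _ _ ⟨c', hZ⟩, ?_⟩
  rw [LevelCoh28.mapH1_mk]
  rfl

/-- A module with a finite kernel and a finite range of a linear map is finite. -/
theorem finite_of_ker_range {M N : Type*} [AddCommGroup M] [AddCommGroup N] [Module k M]
    [Module k N] (f : M →ₗ[k] N) [Finite ↥(LinearMap.ker f)] [Finite ↥(LinearMap.range f)] :
    Finite M := by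
  classical
  have hs : ∀ y : ↥(LinearMap.range f), ∃ x : M, f x = y := fun y => y.2
  choose s hs using hs
  have hk : ∀ x : M, x - s ⟨f x, x, rfl⟩ ∈ LinearMap.ker f := fun x => by
    rw [LinearMap.mem_ker, map_sub, hs, sub_self]
  refine Finite.of_injective (fun x : M => ((⟨f x, x, rfl⟩ : ↥(LinearMap.range f)),
    (⟨x - s ⟨f x, x, rfl⟩, hk x⟩ : ↥(LinearMap.ker f)))) ?_
  intro x y hxy
  have h1 : (⟨f x, x, rfl⟩ : ↥(LinearMap.range f)) = ⟨f y, y, rfl⟩ := congrArg Prod.fst hxy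
  have h2 : x - s ⟨f x, x, rfl⟩ = y - s ⟨f y, y, rfl⟩ :=
    congrArg (fun z : ↥(LinearMap.range f) × ↥(LinearMap.ker f) => (z.2 : M)) hxy
  rw [h1] at h2
  exact sub_left_injective h2

/-- **(D2): `#L_p^{SO} ≤ #k · #H⁰(Γ_p, ad⁰ρ̄)`** from the Kummer bound. -/
theorem card_LpSO_le (h : SOLine ρbar p pp ℓ) (hK : KummerBound k p pp) [Finite k]
    [Finite (H1D (ad0 ρbar) pp)] :
    Nat.card ↥(LpSO ρbar ℓ pp) ≤
      Nat.card k * Nat.card ↥(Rep.res (locD pp) (ad0 ρbar)).ρ.invariants := by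
  have : Finite (ad0 ρbar) := finite_ad0 ρbar
  have : Finite (Bp ρbar pp) := finite_ad0 ρbar
  have : Finite ↥(Bp ρbar pp).ρ.invariants := inferInstance
  have : Finite (Cp h) := Finite.of_surjective _ (ψp_surjective h)
  set f := LevelCoh28.mapH1 (𝓑 := LevelBridge13.pullBasis (locD pp)) (φp h) (φp_equiv h) with hf
  have hmain := SubQuotCount8.card_range_mapH1_mul_le (𝓑 := LevelBridge13.pullBasis (locD pp))
    (φp h) (φp_equiv h) (ψp h) (ψp_equiv h) (φp_injective h) (ψp_surjective h)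
    (ψp_eq_zero_iff h) (isDiscrete_Bp ρbar pp)
  -- `H¹(Γ_p, W0)` is finite
  have : Finite ↥(LinearMap.range f) := inferInstance
  have : Finite ↥(LinearMap.ker f) := by
    rw [hf, LevelCohRes28.ker_mapH1_eq_range_delta0 (φp h) (φp_equiv h) (ψp h) (ψp_equiv h)
      (φp_injective h) (ψp_surjective h) (ψp_eq_zero_iff h) (isDiscrete_Bp ρbar pp)]
    exact Finite.of_surjective _ (LinearMap.surjective_rangeRestrict _)
  have : Finite (LevelCoh28.H1 (LevelBridge13.pullBasis (locD pp)) (Ap h)) :=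
    finite_of_ker_range f
  have hA := hK (Ap h) (finrank_Ap h) (Ap_ρ_eq_smul h)
  have hC := card_le_card_invariants_Cp h
  have hκ : 0 < Nat.card k := Nat.card_pos
  have hle : Nat.card ↥(LpSO ρbar ℓ pp) ≤ Nat.card ↥(LinearMap.range f) :=
    Nat.card_le_card_of_injective (Submodule.inclusion (LpSO_le_range h))
      (Submodule.inclusion_injective _)
  refine hle.trans ?_
  have h4 : Nat.card ↥(LinearMap.range f) * Nat.card k ≤
      (Nat.card k * Nat.card ↥(Bp ρbar pp).ρ.invariants) * Nat.card k := by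
    calc Nat.card ↥(LinearMap.range f) * Nat.card k
        ≤ Nat.card ↥(LinearMap.range f) * Nat.card ↥(Cp h).ρ.invariants :=
          Nat.mul_le_mul_left _ hC
      _ ≤ Nat.card (LevelCoh28.H1 (LevelBridge13.pullBasis (locD pp)) (Ap h)) *
            Nat.card ↥(Bp ρbar pp).ρ.invariants := hmain
      _ ≤ Nat.card k ^ 2 * Nat.card ↥(Bp ρbar pp).ρ.invariants := Nat.mul_le_mul_right _ hA
      _ = (Nat.card k * Nat.card ↥(Bp ρbar pp).ρ.invariants) * Nat.card k := by ring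
  exact Nat.le_of_mul_le_mul_right h4 hκ

end Reps

end Fermat.Agent.W56.StrictOrdBound8
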