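/-
Programme W56 (target S56), chapter (C)/(GW), helper8: **the local `H⁰` of `ad⁰ρ̄(1)` at a
Taylor–Wiles prime.**  For a prime `q ≡ 1 mod p`, `q ≠ p`, at which a Frobenius `φ` has
`ρ̄(φ)` with distinct eigenvalues `α ≠ β` in `k`:

  `#H⁰(Γ_q, (ad⁰ρ̄)^∨(1)) ≤ #k`

(the mod `p` cyclotomic character is trivial at `φ`, and a `φ`-invariant functional on the
trace-zero endomorphisms is determined by its value at `diag(1, -1)` in an eigenbasis).  Together
with the contract `GWContracts4.LocalH2Bound` this is the hypothesis `hTW` of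
`GWContracts4.card_Sel_le_of_contracts`.
-/
import Mathlib
import Fermat.Agent.W56.Defs9
import Fermat.Agent.W56.UnipSel8
import Fermat.Agent.W56.H1urCard8
import Fermat.Agent.W56.GWContracts4
import Fermat.Agent.W56.StrictOrdBound8
import Fermat.Agent.ES.J.CycloChar8
import Fermat.Agent.S14.Fields

set_option autoImplicit false

open CategoryTheory ExtCitation Polynomial

namespace Fermat.Agent.W56.TwH0Bound8

open Fermat.Agent.PT.PRO Fermat.Agent.PT.BR Fermat.Agent.W56.Defs9 Fermat.Agent.W56.UnipSel8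

local notation "Qb" => AlgebraicClosure ℚ
local notation "Γ" => (AlgebraicClosure ℚ ≃ₐ[ℚ] AlgebraicClosure ℚ)

/-! ### Linear algebra in an eigenbasis -/

section LinAlg

variable {k : Type} [Field k] {V : Type} [AddCommGroup V] [Module k V]

/-- An endomorphism of a plane whose characteristic polynomial has two distinct roots has an
eigenbasis. -/
theorem exists_eigenbasis [Module.Finite k V] (hV : Module.finrank k V = 2) (F : Module.End k V)
    {α β : k} (hαβ : α ≠ β) (hch : LinearMap.charpoly F = (X - C α) * (X - C β)) :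
    ∃ b : Module.Basis (Fin 2) k V, F (b 0) = α • b 0 ∧ F (b 1) = β • b 1 := by
  have hα : F.HasEigenvalue α := by
    rw [Module.End.hasEigenvalue_iff_isRoot_charpoly, hch]
    simp
  have hβ : F.HasEigenvalue β := by
    rw [Module.End.hasEigenvalue_iff_isRoot_charpoly, hch]
    simp
  obtain ⟨v, hv⟩ := hα.exists_hasEigenvector
  obtain ⟨w, hw⟩ := hβ.exists_hasEigenvector
  have hFv : F v = α • v := hv.apply_eq_smul
  have hFw : F w = β • w := hw.apply_eq_smul
  have hli : LinearIndependent k ![v, w] := by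
    rw [LinearIndependent.pair_iff]
    intro s t hst
    have h1 : F (s • v + t • w) = 0 := by rw [hst, map_zero]
    rw [map_add, map_smul, map_smul, hFv, hFw] at h1
    have h2 : (s * (α - β)) • v = 0 := by
      have h3 : β • (s • v + t • w) = 0 := by rw [hst, smul_zero]
      have h4 : s • α • v + t • β • w - β • (s • v + t • w) = 0 := by rw [h1, h3, sub_zero]
      rw [← h4]
      simp only [smul_add, smul_smul, mul_sub, sub_smul]
      rw [mul_comm β s, mul_comm β t]
      abel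
    have hs : s = 0 := by
      rcases smul_eq_zero.1 h2 with h | h
      · exact (mul_eq_zero.1 h).resolve_right (sub_ne_zero.2 hαβ)
      · exact absurd h hv.2
    refine ⟨hs, ?_⟩
    rw [hs, zero_smul, zero_add] at hst
    exact (smul_eq_zero.1 hst).resolve_right hw.2
  let b := basisOfLinearIndependentOfCardEqFinrank hli (by rw [hV]; rfl)
  have hb : ⇑b = ![v, w] := coe_basisOfLinearIndependentOfCardEqFinrank hli _
  refine ⟨b, ?_, ?_⟩
  · rw [hb]; exact hFv
  · rw [hb]; exact hFw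

variable (b : Module.Basis (Fin 2) k V)

/-- `diag(1, -1)` in the basis `b`. -/
noncomputable def Hd : Module.End k V := b.constr k ![b 0, -b 1]

/-- The elementary matrix `E₁₂` in the basis `b`. -/
noncomputable def E12 : Module.End k V := b.constr k ![0, b 0]

/-- The elementary matrix `E₂₁` in the basis `b`. -/
noncomputable def E21 : Module.End k V := b.constr k ![b 1, 0]

@[simp] theorem Hd_zero : Hd b (b 0) = b 0 := by rw [Hd, Module.Basis.constr_basis]; rfl
@[simp] theorem Hd_one : Hd b (b 1) = -b 1 := by rw [Hd, Module.Basis.constr_basis]; rfl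
@[simp] theorem E12_zero : E12 b (b 0) = 0 := by rw [E12, Module.Basis.constr_basis]; rfl
@[simp] theorem E12_one : E12 b (b 1) = b 0 := by rw [E12, Module.Basis.constr_basis]; rfl
@[simp] theorem E21_zero : E21 b (b 0) = b 1 := by rw [E21, Module.Basis.constr_basis]; rfl
@[simp] theorem E21_one : E21 b (b 1) = 0 := by rw [E21, Module.Basis.constr_basis]; rfl

theorem trace_eq (X : Module.End k V) :
    LinearMap.trace k V X = b.repr (X (b 0)) 0 + b.repr (X (b 1)) 1 := by
  rw [LinearMap.trace_eq_matrix_trace k b, Matrix.trace_fin_two, LinearMap.toMatrix_apply,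
    LinearMap.toMatrix_apply]

theorem trace_Hd : LinearMap.trace k V (Hd b) = 0 := by
  rw [trace_eq b]; simp

theorem trace_E12 : LinearMap.trace k V (E12 b) = 0 := by
  rw [trace_eq b]; simp

theorem trace_E21 : LinearMap.trace k V (E21 b) = 0 := by
  rw [trace_eq b]; simp

/-- A trace-zero endomorphism in the basis `Hd, E12, E21`. -/
theorem decomp (X : Module.End k V) (hX : LinearMap.trace k V X = 0) :
    X = b.repr (X (b 0)) 0 • Hd b + b.repr (X (b 1)) 0 • E12 b + b.repr (X (b 0)) 1 • E21 b := by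
  rw [trace_eq b] at hX
  have h11 : b.repr (X (b 1)) 1 = -b.repr (X (b 0)) 0 := by
    rw [eq_neg_iff_add_eq_zero, add_comm]; exact hX
  apply b.ext
  intro i
  fin_cases i
  · show X (b 0) = _
    conv_lhs => rw [← b.sum_repr (X (b 0)), Fin.sum_univ_two]
    simp
  · show X (b 1) = _
    conv_lhs => rw [← b.sum_repr (X (b 1)), Fin.sum_univ_two, h11]
    simp [add_comm]

variable {b}

/-- Conjugation by a diagonal automorphism scales `E12`. -/
theorem conj_E12 {F G : Module.End k V} {α β : k} (hα : α ≠ 0) (h0 : F (b 0) = α • b 0)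
    (h1 : F (b 1) = β • b 1) (hGF : G * F = 1) : G * E12 b * F = (β * α⁻¹) • E12 b := by
  have hG0 : G (b 0) = α⁻¹ • b 0 := by
    have h2 : G (F (b 0)) = b 0 := by rw [← Module.End.mul_apply, hGF, Module.End.one_apply]
    rw [h0, map_smul] at h2
    calc G (b 0) = α⁻¹ • (α • G (b 0)) := by rw [smul_smul, inv_mul_cancel₀ hα, one_smul]
      _ = α⁻¹ • b 0 := by rw [h2]
  apply b.ext
  intro i
  fin_cases i
  · show (G * E12 b * F) (b 0) = ((β * α⁻¹) • E12 b) (b 0)
    rw [Module.End.mul_apply, Module.End.mul_apply, h0, map_smul, E12_zero, smul_zero, map_zero,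
      LinearMap.smul_apply, E12_zero, smul_zero]
  · show (G * E12 b * F) (b 1) = ((β * α⁻¹) • E12 b) (b 1)
    rw [Module.End.mul_apply, Module.End.mul_apply, h1, map_smul, E12_one, map_smul, hG0,
      LinearMap.smul_apply, E12_one, smul_smul]

/-- Conjugation by a diagonal automorphism scales `E21`. -/
theorem conj_E21 {F G : Module.End k V} {α β : k} (hβ : β ≠ 0) (h0 : F (b 0) = α • b 0)
    (h1 : F (b 1) = β • b 1) (hGF : G * F = 1) : G * E21 b * F = (α * β⁻¹) • E21 b := by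
  have hG1 : G (b 1) = β⁻¹ • b 1 := by
    have h2 : G (F (b 1)) = b 1 := by rw [← Module.End.mul_apply, hGF, Module.End.one_apply]
    rw [h1, map_smul] at h2
    calc G (b 1) = β⁻¹ • (β • G (b 1)) := by rw [smul_smul, inv_mul_cancel₀ hβ, one_smul]
      _ = β⁻¹ • b 1 := by rw [h2]
  apply b.ext
  intro i
  fin_cases i
  · show (G * E21 b * F) (b 0) = ((α * β⁻¹) • E21 b) (b 0)
    rw [Module.End.mul_apply, Module.End.mul_apply, h0, map_smul, E21_zero, map_smul, hG1,
      LinearMap.smul_apply, E21_zero, smul_smul]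
  · show (G * E21 b * F) (b 1) = ((α * β⁻¹) • E21 b) (b 1)
    rw [Module.End.mul_apply, Module.End.mul_apply, h1, map_smul, E21_one, smul_zero, map_zero,
      LinearMap.smul_apply, E21_one, smul_zero]

theorem eigen_ne_zero {F G : Module.End k V} {α : k} (i : Fin 2) (h0 : F (b i) = α • b i)
    (hGF : G * F = 1) : α ≠ 0 := by
  rintro rfl
  rw [zero_smul] at h0
  have h2 : G (F (b i)) = b i := by rw [← Module.End.mul_apply, hGF, Module.End.one_apply]
  rw [h0, map_zero] at h2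
  exact b.ne_zero i h2.symm

end LinAlg

/-! ### The cyclotomic character at a Frobenius of a prime `q ≡ 1 mod p` -/

section Cyclo

variable (p : ℕ) [Fact p.Prime]

/-- A Frobenius at `q ≠ p` raises the `p`-th roots of unity to the `q`-th power. -/
theorem frob_apply_root {q : ℕ} (hq : q.Prime) (hqp : q ≠ p) {A : ValuationSubring Qb}
    (hA : A.LiesOverPrime q) {φ : Γ} (hφ : A.IsFrobeniusAt φ q) {ζ : Qb} (hζ : ζ ^ p = 1) :
    φ ζ = ζ ^ q := by
  have hp : p.Prime := Fact.out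
  have hp0 : p ≠ 0 := hp.ne_zero
  have hζ0 : ζ ≠ 0 := fun h => by rw [h, zero_pow hp0] at hζ; exact zero_ne_one hζ
  have hζA : ζ ∈ A := Fermat.Agent.ES.J.CycloChar8.mem_of_pow_eq_one hp0 hζ
  have hqp' : ¬ q ∣ p := fun h => hqp ((Nat.prime_dvd_prime_iff_eq hq hp).mp h)
  have h1 := Fermat.Agent.ES.J.CycloChar8.frob_apply_sub_pow_mem_nonunits hφ hζA
  have hφζ : (φ ζ) ^ p = 1 := by rw [← map_pow, hζ, map_one]
  have hη : (φ ζ * (ζ ^ q)⁻¹) ^ p = 1 := by
    rw [mul_pow, hφζ, inv_pow, ← pow_mul, mul_comm q, pow_mul, hζ, one_pow, inv_one, mul_one]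
  have hvinv : A.valuation ((ζ ^ q)⁻¹) = 1 := by
    rw [map_inv₀, map_pow, Fermat.Agent.ES.J.CycloChar8.valuation_eq_one_of_pow_eq_one hp0 hζ,
      one_pow, inv_one]
  have hη1 : φ ζ * (ζ ^ q)⁻¹ - 1 ∈ A.nonunits := by
    have e : φ ζ * (ζ ^ q)⁻¹ - 1 = (φ ζ - ζ ^ q) * (ζ ^ q)⁻¹ := by
      rw [sub_mul, mul_inv_cancel₀ (pow_ne_zero _ hζ0)]
    rw [e, ValuationSubring.mem_nonunits_iff, map_mul, hvinv, mul_one]
    exact (ValuationSubring.mem_nonunits_iff (A := A)).mp h1
  have h2 := Fermat.Agent.ES.J.CycloChar8.eq_one_of_sub_one_mem_nonunits hq hA hqp' hη hη1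
  have := congrArg (· * ζ ^ q) h2
  simpa [mul_assoc, inv_mul_cancel₀ (pow_ne_zero q hζ0)] using this

/-- At a Frobenius of a prime `q ≡ 1 mod p`, `q ≠ p`, the mod `p` cyclotomic exponent is `1`. -/
theorem cycloExp_frob_modEq {q : ℕ} (hq : q.Prime) (hqp : q ≠ p) (hq1 : p ∣ q - 1)
    {A : ValuationSubring Qb} (hA : A.LiesOverPrime q) {φ : Γ} (hφ : A.IsFrobeniusAt φ q) :
    cycloExp p φ ≡ 1 [MOD p] := by
  have hp : p.Prime := Fact.out
  obtain ⟨ζ, hζ⟩ := Fermat.Agent.S14.Fields.exists_zeta p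
  have h1 := frob_apply_root p hq hqp hA hφ hζ.pow_eq_one
  have h2 := Fermat.Agent.S14.Fields.apply_eq_pow_cycloExp p φ hζ.pow_eq_one
  obtain ⟨m, hm⟩ := hq1
  have hq' : q = 1 + p * m := by have := hq.one_lt; omega
  have h3 : ζ ^ q = ζ ^ 1 := by
    rw [hq', pow_add, pow_mul, hζ.pow_eq_one, one_pow, mul_one]
  rw [h1, h3] at h2
  exact (Fermat.Agent.ES.J.CycloChar8.modEq_of_pow_eq_pow hζ hp.ne_zero h2).symm

end Cyclo

/-! ### The bound -/

section Bound

variable {k : Type} [Field k] (ρbar : ResidualGaloisRep k) (p : ℕ) [Fact p.Prime] [CharP k p]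

theorem coe_cycloK (σ : Γ) : ((cycloK (k := k) p σ : kˣ) : k) = ((cycloExp p σ : ℕ) : k) := by
  show (ZMod.castHom (dvd_refl p) k) ((cycloChar p σ : (ZMod p)ˣ) : ZMod p) = _
  rw [coe_cycloChar, map_natCast]

/-- **`#H⁰(Γ_q, (ad⁰ρ̄)^∨(1)) ≤ #k` at a Taylor–Wiles prime.** -/
theorem d0_dualTwist_le [Finite k] (q : Nat.Primes) (hqp : (q : ℕ) ≠ p) (hq1 : p ∣ (q : ℕ) - 1)
    (hF : ∀ φ : Γ, (primeLocalPlace q).IsFrobeniusAt φ (q : ℕ) → ∃ α β : k, α ≠ β ∧
      LinearMap.charpoly (ρbar.ρ φ) = (X - C α) * (X - C β)) :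
    Fermat.Agent.W56.GWContracts4.d0 ((ad0 ρbar).dualTwist (cycloK (k := k) p)) q ≤
      Nat.card k := by
  obtain ⟨φl, hφ, -⟩ := H1urCard8.exists_frob_generates' q
  set φ : Γ := locD q φl with hφdef
  obtain ⟨α, β, hαβ, hch⟩ := hF φ hφ
  obtain ⟨b, hb0, hb1⟩ := exists_eigenbasis ρbar.finrank_eq (ρbar.ρ φ) hαβ hch
  have hGF : ρbar.ρ φ⁻¹ * ρbar.ρ φ = 1 := rho_inv_mul ρbar φ
  have hα0 : α ≠ 0 := eigen_ne_zero 0 hb0 hGF
  have hβ0 : β ≠ 0 := eigen_ne_zero 1 hb1 hGF
  -- the character is trivial at `φ`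
  have hχ : ((cycloK (k := k) p φ : kˣ) : k) = 1 := by
    rw [coe_cycloK, ← Nat.cast_one, CharP.natCast_eq_natCast k p]
    exact cycloExp_frob_modEq p q.2 hqp hq1 (liesOverPrime_primeLocalPlace q) hφ
  -- the three basis elements of `ad⁰`
  set h' : ad0 ρbar := ofEnd ρbar (Hd b) ((mem_sl_iff ρbar _).2 (trace_Hd b)) with hh'
  set e12 : ad0 ρbar := ofEnd ρbar (E12 b) ((mem_sl_iff ρbar _).2 (trace_E12 b)) with he12
  set e21 : ad0 ρbar := ofEnd ρbar (E21 b) ((mem_sl_iff ρbar _).2 (trace_E21 b)) with he21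
  -- invariant functionals
  have hinv : ∀ f : ↥(Rep.res (locD q) ((ad0 ρbar).dualTwist (cycloK (k := k) p))).ρ.invariants,
      ∀ x : ad0 ρbar, (f : Module.Dual k (ad0 ρbar)) ((ad0 ρbar).ρ φ⁻¹ x) =
        (f : Module.Dual k (ad0 ρbar)) x := by
    intro f x
    have h1 := f.2 φl
    have h2 : (Rep.res (locD q) ((ad0 ρbar).dualTwist (cycloK (k := k) p))).ρ φl
        (f : Module.Dual k (ad0 ρbar)) =
        ((cycloK (k := k) p φ : kˣ) : k) • ((f : Module.Dual k (ad0 ρbar)) ∘ₗ (ad0 ρbar).ρ φ⁻¹) :=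
      rfl
    rw [h2, hχ, one_smul] at h1
    exact LinearMap.congr_fun h1 x
  have hconj12 : (ad0 ρbar).ρ φ⁻¹ e12 = (β * α⁻¹) • e12 := by
    apply endOf_injective ρbar
    rw [endOf_ρ, inv_inv]
    exact conj_E12 hα0 hb0 hb1 hGF
  have hconj21 : (ad0 ρbar).ρ φ⁻¹ e21 = (α * β⁻¹) • e21 := by
    apply endOf_injective ρbar
    rw [endOf_ρ, inv_inv]
    exact conj_E21 hβ0 hb0 hb1 hGF
  have hf12 : ∀ f : ↥(Rep.res (locD q) ((ad0 ρbar).dualTwist (cycloK (k := k) p))).ρ.invariants,
      (f : Module.Dual k (ad0 ρbar)) e12 = 0 := by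
    intro f
    have h1 := hinv f e12
    rw [hconj12, map_smul, smul_eq_mul] at h1
    have h2 : (β * α⁻¹ - 1) * (f : Module.Dual k (ad0 ρbar)) e12 = 0 := by
      rw [sub_mul, one_mul, h1, sub_self]
    refine (mul_eq_zero.1 h2).resolve_left ?_
    rw [sub_eq_zero]
    intro h3
    apply hαβ
    have h4 := congrArg (· * α) h3
    simp only [mul_assoc, inv_mul_cancel₀ hα0, mul_one, one_mul] at h4
    exact h4.symm
  have hf21 : ∀ f : ↥(Rep.res (locD q) ((ad0 ρbar).dualTwist (cycloK (k := k) p))).ρ.invariants,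
      (f : Module.Dual k (ad0 ρbar)) e21 = 0 := by
    intro f
    have h1 := hinv f e21
    rw [hconj21, map_smul, smul_eq_mul] at h1
    have h2 : (α * β⁻¹ - 1) * (f : Module.Dual k (ad0 ρbar)) e21 = 0 := by
      rw [sub_mul, one_mul, h1, sub_self]
    refine (mul_eq_zero.1 h2).resolve_left ?_
    rw [sub_eq_zero]
    intro h3
    apply hαβ
    have h4 := congrArg (· * β) h3
    simp only [mul_assoc, inv_mul_cancel₀ hβ0, mul_one, one_mul] at h4
    exact h4
  -- evaluation at `h'` is injective on the invariants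
  refine Nat.card_le_card_of_injective
    (fun f : ↥(Rep.res (locD q) ((ad0 ρbar).dualTwist (cycloK (k := k) p))).ρ.invariants =>
      (f : Module.Dual k (ad0 ρbar)) h') ?_
  intro f g hfg
  apply Subtype.ext
  apply LinearMap.ext
  intro x
  have hx : x = b.repr (endOf ρbar x (b 0)) 0 • h' + b.repr (endOf ρbar x (b 1)) 0 • e12 +
      b.repr (endOf ρbar x (b 0)) 1 • e21 := by
    apply endOf_injective ρbar
    exact decomp b (endOf ρbar x) ((mem_sl_iff ρbar _).1 (endOf_mem ρbar x))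
  have hfg' : (f : Module.Dual k (ad0 ρbar)) h' = (g : Module.Dual k (ad0 ρbar)) h' := hfg
  rw [hx]
  simp only [map_add, map_smul, hf12, hf21, hfg']

/-- **`hTW`**: the bound on the local `H²` at a Taylor–Wiles prime, from the contract (LH2). -/
theorem card_H2D_le_of_LH2 (hLH2 : Fermat.Agent.W56.GWContracts4.LocalH2Bound) [Finite k]
    (hp2 : p ≠ 2) (q : Nat.Primes) (hqp : (q : ℕ) ≠ p) (hq1 : p ∣ (q : ℕ) - 1)
    (hF : ∀ φ : Γ, (primeLocalPlace q).IsFrobeniusAt φ (q : ℕ) → ∃ α β : k, α ≠ β ∧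
      LinearMap.charpoly (ρbar.ρ φ) = (X - C α) * (X - C β)) :
    Nat.card (Fermat.Agent.W56.GWCount4.H2D (ad0 ρbar) q) ≤ Nat.card k := by
  have : Module.Finite k (ad0 ρbar) := (inferInstance : Module.Finite k ↥(sl ρbar))
  exact ((hLH2 k p hp2 (ad0 ρbar) (StrictOrdBound8.ad0_smooth ρbar) q).2).trans
    (d0_dualTwist_le ρbar p q hqp hq1 hF)

end Bound

end Fermat.Agent.W56.TwH0Bound8
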