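/-
Programme W56 (target S56), chapter (LEC-v) (helper5): **Tate's local Euler characteristic
inequality at `q ≠ p`**, `#H⁰(Γ_q, N) · #H²(Γ_q, N) ≤ #H¹(Γ_q, N)` for every finite discrete
`k[Γ_q]`-module `N` (`k` a finite field of characteristic `p`), from the local `(2,0)` duality bound
(LH2) in local-module form.  Dévissage to simple modules (`LecDev5`, `LecSimple5`), the Kummer
classes of `q` and of a primitive root modulo `q` (`LecKummer5`, `LecLocal5`) and the unramified
`ℤ/p`-quotient (`LecUnram5`).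
-/
import Mathlib
import Fermat.Agent.W56.Defs9
import Fermat.Agent.W56.LocFin1
import Fermat.Agent.W56.GWContracts4
import Fermat.Agent.W56.TwH0Bound8
import Fermat.Agent.PT.GLUE.BasisCompare13
import Fermat.Agent.PT.PRO.LevelCompare13
import Fermat.Agent.W56.LecSimple5
import Fermat.Agent.W56.LecLocal5
import Fermat.Agent.W56.LecUnram5

set_option autoImplicit false
set_option linter.unusedSectionVars false

open CategoryTheory ExtCitation

namespace Fermat.Agent.W56.LecV5

open Fermat.Agent.PT.PRO Fermat.Agent.PT.BR Fermat.Agent.PT.GLUE.Objects21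
open Fermat.Agent.W56.Defs9 Fermat.Agent.W56.LecKummer5 Fermat.Agent.W56.LecSimple5

local notation "Γ" => (AlgebraicClosure ℚ ≃ₐ[ℚ] AlgebraicClosure ℚ)
local notation "Qb" => AlgebraicClosure ℚ

/-! ### Finiteness of the level cocycles of a local module -/

section Fin

variable {k : Type} [CommRing k] (q : ℕ) [Fact q.Prime]
  (N : Rep k (PadicAlgCl q ≃ₐ[ℚ_[q]] PadicAlgCl q)) [Finite N] (p : ℕ) [Fact p.Prime]
  (hpN : ∀ n : N, p • n = 0)
  (hN : LevelCoh28.IsDiscrete (LevelBridge13.pullSets (localGaloisToGlobal q)) N)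

include hpN hN in
/-- The level 1-cocycles of a finite discrete `Γ_q`-module killed by `p` form a finite set. -/
theorem finite_Z1_loc :
    Finite ↥(LevelCoh28.Z1 (LevelBridge13.pullBasis (localGaloisToGlobal q)) N) := by
  have h𝒰 : HyperLevel25.IsLevelBasis (levelLoc q).sets :=
    LevelCompare13.isLevelBasis_iff.1 (levelLoc q).isBasis
  have hρ : HyperLevel25.IsDiscrete (levelLoc q).sets N.ρ := by
    rw [← Fermat.Agent.PT.GLUE.BasisCompare13.pullSets_eq]
    exact hN
  have hfin := Fermat.Agent.W56.LocFin1.finite_Z1_local q N.ρ h𝒰 hρ p hpN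
  let Φ : ↥(LevelCoh28.Z1 (LevelBridge13.pullBasis (localGaloisToGlobal q)) N) →
      (Resolved4.lvl h𝒰 N.ρ hρ).Z1 := fun c =>
    Resolved4.mkZ1 h𝒰 _ hρ (c : (PadicAlgCl q ≃ₐ[ℚ_[q]] PadicAlgCl q) → N)
      (by
        have h : LevelCoh28.IsLevel₁ (LevelBridge13.pullBasis (localGaloisToGlobal q)).sets
            (c : (PadicAlgCl q ≃ₐ[ℚ_[q]] PadicAlgCl q) → N) := c.2.2
        have h2 : (LevelBridge13.pullBasis (localGaloisToGlobal q)).sets = (levelLoc q).sets :=
          Fermat.Agent.PT.GLUE.BasisCompare13.pullSets_eq q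
        rw [h2] at h
        exact h)
      ((LevelCompare13.mem_cocycles₁_iff _ _).1 c.2.1)
  refine Finite.of_injective Φ ?_
  intro c c' h
  apply Subtype.ext
  have := congrArg (fun z : (Resolved4.lvl h𝒰 N.ρ hρ).Z1 =>
    ((z : HyperLevel25.lev₁ k h𝒰 N).1 : (PadicAlgCl q ≃ₐ[ℚ_[q]] PadicAlgCl q) → N)) h
  exact this

end Fin

/-! ### Coefficients: `𝔽_p ⊆ k` -/

section Coeff

variable {k : Type} [Field k] (p : ℕ) [Fact p.Prime] [CharP k p]

/-- `𝔽_p → k`. -/
noncomputable abbrev cst : ZMod p →+* k := ZMod.castHom (dvd_refl p) k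

theorem coe_cycloK' (σ : Γ) :
    ((cycloK (k := k) p σ : kˣ) : k) = cst p ((cycloExp p σ : ℕ) : ZMod p) := by
  show (ZMod.castHom (dvd_refl p) k) ((cycloChar p σ : (ZMod p)ˣ) : ZMod p) = _
  rw [coe_cycloChar]

/-- `𝔽_p`-linear functionals on `k` separate points. -/
theorem exists_functional {a : k} (ha : a ≠ 0) :
    ∃ t : k →+ ZMod p, (∀ (x : ZMod p) (b : k), t (cst p x * b) = x * t b) ∧ t a ≠ 0 := by
  let _ : Algebra (ZMod p) k := ZMod.algebra k p
  by_contra hcon
  push Not at hcon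
  apply ha
  rw [← Module.forall_dual_apply_eq_zero_iff (ZMod p) a]
  intro φ
  refine hcon φ.toAddMonoidHom (fun x b => ?_)
  show φ (cst p x * b) = x * φ b
  have h1 : cst p x * b = x • b := (Algebra.smul_def x b).symm
  rw [h1, map_smul, smul_eq_mul]

end Coeff

/-! ### The inputs of `LecSimple5` for `Γ_q` -/

section Inputs

variable {k : Type} [Field k] (p : ℕ) [Fact p.Prime] [hchar : CharP k p] (q : Nat.Primes)

/-- the mod `p` cyclotomic character of `Γ_q`. -/
noncomputable abbrev chiq : primeLocalGaloisGroup q →* kˣ := (cycloK (k := k) p).comp (locD q)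

include hchar in
theorem hom1_input : ∃ f : primeLocalGaloisGroup q → k,
    LevelCoh28.IsLevel₁ (LevelBridge13.pullBasis (locD q)).sets f ∧
      (∀ g h, f (g * h) = f g + f h) ∧ ∃ g, f g ≠ 0 := by
  obtain ⟨f, hadd, hlev, g, hg⟩ := LecUnram5.exists_unram_hom p q
  refine ⟨fun g => cst p (f g), hlev.comp (cst p), fun g h => ?_, g, ?_⟩
  · show cst p (f (g * h)) = cst p (f g) + cst p (f h)
    rw [hadd, map_add]
  · show cst (k := k) p (f g) ≠ 0
    rw [hg, map_one]
    exact one_ne_zero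

theorem kum_level (θ : Qb) :
    LevelCoh28.IsLevel₁ (LevelBridge13.pullBasis (locD q)).sets
      (fun g : primeLocalGaloisGroup q => kum p θ (locD q g)) :=
  ⟨_, LecUnram5.adjoin_mem_sets q θ, fun g s hs => by
    show kum p θ (locD q (g * s)) = kum p θ (locD q g)
    rw [map_mul, kum_mul_of_fix (apply_eq_of_mem_fixingSubgroup hs)]⟩

theorem kum_input : ∃ κ : primeLocalGaloisGroup q → k,
    LevelCoh28.IsLevel₁ (LevelBridge13.pullBasis (locD q)).sets κ ∧
      (∀ g h, κ (g * h) = κ g + ((chiq (k := k) p q g : kˣ) : k) * κ h) ∧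
      ¬ ∃ m : k, ∀ g, κ g = (((chiq (k := k) p q g : kˣ) : k) - 1) * m := by
  have hqF : Fact ((q : ℕ)).Prime := ⟨q.2⟩
  obtain ⟨θ, hθ⟩ := IsAlgClosed.exists_pow_nat_eq (((q : ℕ) : ℕ) : Qb) (Fact.out : p.Prime).pos
  have hK : IsKum p θ := isKum_of_pow_eq_natCast q.2.ne_zero hθ
  refine ⟨fun g => cst p (kum p θ (locD q g)), (kum_level p q θ).comp (cst p), fun g h => ?_, ?_⟩
  · show cst p (kum p θ (locD q (g * h))) = cst p (kum p θ (locD q g)) +
      ((cycloK (k := k) p (locD q g) : kˣ) : k) * cst p (kum p θ (locD q h))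
    rw [map_mul, hK.kum_mul, map_add, map_mul, ← coe_cycloK']
  · rintro ⟨m, hm⟩
    obtain ⟨t, ht, ht1⟩ := exists_functional (k := k) p (one_ne_zero : (1 : k) ≠ 0)
    apply LecLocal5.kum_not_cobound (q := (q : ℕ)) p hθ
    refine ⟨(t 1)⁻¹ * t m, fun g => ?_⟩
    have h1 : cst p (kum p θ (locD q g)) =
        (((cycloK (k := k) p (locD q g) : kˣ) : k) - 1) * m := hm g
    rw [coe_cycloK', ← map_one (cst (k := k) p), ← map_sub] at h1
    have h2 := congrArg t h1
    rw [ht, ← mul_one (cst p (kum p θ (locD q g))), ht] at h2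
    show kum p θ (locD q g) =
      (((cycloExp p (locD q g) : ℕ) : ZMod p) - 1) * ((t 1)⁻¹ * t m)
    have h3 : kum p θ (locD q g) = kum p θ (locD q g) * t 1 * (t 1)⁻¹ := by
      rw [mul_assoc, mul_inv_cancel₀ ht1, mul_one]
    rw [h3, h2]
    ring

theorem hom2_input (hqp : (q : ℕ) ≠ p) (hχ : ∀ g, chiq (k := k) p q g = 1) :
    ∃ f₁ f₂ : primeLocalGaloisGroup q → k,
      LevelCoh28.IsLevel₁ (LevelBridge13.pullBasis (locD q)).sets f₁ ∧
      LevelCoh28.IsLevel₁ (LevelBridge13.pullBasis (locD q)).sets f₂ ∧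
      (∀ g h, f₁ (g * h) = f₁ g + f₁ h) ∧ (∀ g h, f₂ (g * h) = f₂ g + f₂ h) ∧
      ∀ a b : k, (∀ g, a * f₁ g + b * f₂ g = 0) → a = 0 ∧ b = 0 := by
  have hqF : Fact ((q : ℕ)).Prime := ⟨q.2⟩
  have hq0 : NeZero (q : ℕ) := ⟨q.2.ne_zero⟩
  have hpos : 0 < p := (Fact.out : p.Prime).pos
  have hcyc : ∀ g : primeLocalGaloisGroup q, ((cycloExp p (locD q g) : ℕ) : ZMod p) = 1 := by
    intro g
    apply (cst (k := k) p).injective
    rw [← coe_cycloK', map_one]
    exact congrArg Units.val (hχ g)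
  have hpq : p ∣ (q : ℕ) - 1 := LecUnram5.dvd_sub_one_of_cyclo_trivial p q hqp hcyc
  obtain ⟨γ, hγ⟩ := IsCyclic.exists_generator (α := (ZMod (q : ℕ))ˣ)
  have hu : orderOf (((((γ : (ZMod (q : ℕ))ˣ) : ZMod (q : ℕ)).val : ℕ) : ZMod (q : ℕ))) =
      (q : ℕ) - 1 := by
    rw [ZMod.natCast_zmod_val, orderOf_units, orderOf_eq_card_of_forall_mem_zpowers hγ,
      Nat.card_eq_fintype_card, ZMod.card_units]
  set u : ℕ := ((γ : (ZMod (q : ℕ))ˣ) : ZMod (q : ℕ)).val with hudef
  have hu0 : u ≠ 0 := by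
    intro h
    rw [h, Nat.cast_zero, orderOf_zero] at hu
    have := q.2.two_le
    omega
  obtain ⟨θq, hθq⟩ := IsAlgClosed.exists_pow_nat_eq (((q : ℕ) : ℕ) : Qb) hpos
  obtain ⟨θu, hθu⟩ := IsAlgClosed.exists_pow_nat_eq ((u : ℕ) : Qb) hpos
  have hKq : IsKum p θq := isKum_of_pow_eq_natCast q.2.ne_zero hθq
  have hKu : IsKum p θu := isKum_of_pow_eq_natCast hu0 hθu
  refine ⟨fun g => cst p (kum p θq (locD q g)), fun g => cst p (kum p θu (locD q g)),
    (kum_level p q θq).comp (cst p), (kum_level p q θu).comp (cst p), fun g h => ?_,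
    fun g h => ?_, fun a b hab => ?_⟩
  · show cst p (kum p θq (locD q (g * h))) = cst p (kum p θq (locD q g)) +
      cst p (kum p θq (locD q h))
    rw [map_mul, hKq.kum_mul, hcyc g, one_mul, map_add]
  · show cst p (kum p θu (locD q (g * h))) = cst p (kum p θu (locD q g)) +
      cst p (kum p θu (locD q h))
    rw [map_mul, hKu.kum_mul, hcyc g, one_mul, map_add]
  · have key : ∀ t : k →+ ZMod p, (∀ (x : ZMod p) (c : k), t (cst p x * c) = x * t c) →
        t a = 0 ∧ t b = 0 := by
      intro t ht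
      apply LecLocal5.kum_indep (q := (q : ℕ)) p hpq hu hθq hθu
      intro g
      have h1 : a * cst p (kum p θq (locD q g)) + b * cst p (kum p θu (locD q g)) = 0 := hab g
      have h2 := congrArg t h1
      rw [map_add, map_zero, mul_comm a, mul_comm b, ht, ht] at h2
      rw [mul_comm (t a), mul_comm (t b)]
      exact h2
    constructor
    · by_contra ha
      obtain ⟨t, ht, hta⟩ := exists_functional (k := k) p ha
      exact hta (key t ht).1
    · by_contra hb
      obtain ⟨t, ht, htb⟩ := exists_functional (k := k) p hb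
      exact htb (key t ht).2

end Inputs

/-! ### The Euler characteristic inequality -/

section Main

open Fermat.Agent.W56.ChiLev4 Fermat.Agent.W56.GWContracts4 Fermat.Agent.W56.GWCount4

/-- **(LH2) in local-module form** at `(k, p, q)`: for every finite discrete `k[Γ_q]`-module `N`,
`H²(Γ_q, N)` is finite with at most `#H⁰(Γ_q, N^∨(1))` elements. -/
def LH2At (k : Type) [Field k] (p : ℕ) [Fact p.Prime] [CharP k p] (q : Nat.Primes) : Prop :=
  ∀ (N : Rep k (primeLocalGaloisGroup q)), Module.Finite k N →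
    LevelCoh28.IsDiscrete (LevelBridge13.pullSets (locD q)) N →
    Finite (LevelCoh28.H2 (LevelBridge13.pullBasis (locD q)) N) ∧
      Nat.card (LevelCoh28.H2 (LevelBridge13.pullBasis (locD q)) N) ≤
        Nat.card ↥(N.dualTwist ((cycloK (k := k) p).comp (locD q))).ρ.invariants

variable {k : Type} [Field k] [Finite k] (p : ℕ) [hpF : Fact p.Prime] [hchar : CharP k p]
  (q : Nat.Primes)

include hpF hchar in
/-- finiteness of `H¹(Γ_q, N)`. -/
theorem finite_H1_loc (N : Rep k (primeLocalGaloisGroup q)) [Module.Finite k N]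
    (hN : LevelCoh28.IsDiscrete (LevelBridge13.pullSets (locD q)) N) :
    Finite (LevelCoh28.H1 (LevelBridge13.pullBasis (locD q)) N) := by
  have hqF : Fact ((q : ℕ)).Prime := ⟨q.2⟩
  have hfinN : Finite N := Module.finite_of_finite k
  have hpN : ∀ n : N, p • n = 0 := fun n => by
    rw [← Nat.cast_smul_eq_nsmul k, CharP.cast_eq_zero, zero_smul]
  have hZ : Finite ↥(LevelCoh28.Z1 (LevelBridge13.pullBasis (locD q)) N) :=
    finite_Z1_loc (q : ℕ) N p hpN hN
  exact Finite.of_surjective _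
    (LevelCoh28.H1mk_surjective (LevelBridge13.pullBasis (locD q)) N)

/-- **the inputs of the dévissage for `Γ_q`, `q ≠ p`.** -/
theorem inputs (hqp : (q : ℕ) ≠ p) (hLH2 : LH2At k p q) :
    Inputs (LevelBridge13.pullBasis (locD q)) (chiq (k := k) p q) where
  finH1 := fun A hA hAd => by
    have := hA
    have := finite_H1_loc p q A hAd
    exact Module.Finite.of_finite
  lh2 := fun A hA hAd => by
    have := hA
    obtain ⟨hfin, hle⟩ := hLH2 A hA hAd
    have hH2 : Module.Finite k (LevelCoh28.H2 (LevelBridge13.pullBasis (locD q)) A) :=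
      Module.Finite.of_finite
    refine ⟨hH2, ?_⟩
    have hD : Module.Finite k ↥(A.dualTwist (chiq (k := k) p q)).ρ.invariants := by
      have : Module.Finite k (Module.Dual k A) := inferInstance
      exact Module.Finite.of_injective
        (A.dualTwist (chiq (k := k) p q)).ρ.invariants.subtype Subtype.val_injective
    rw [Module.natCard_eq_pow_finrank (K := k)
        (V := LevelCoh28.H2 (LevelBridge13.pullBasis (locD q)) A),
      Module.natCard_eq_pow_finrank (K := k)
        (V := ↥(A.dualTwist (chiq (k := k) p q)).ρ.invariants)] at hle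
    exact (Nat.pow_le_pow_iff_right Finite.one_lt_card).1 hle
  hom1 := hom1_input p q
  hom2 := hom2_input p q hqp
  kum := fun _ => kum_input p q

/-- **(LEC-v), local-module form**: `#H⁰ · #H² ≤ #H¹` for every finite discrete `k[Γ_q]`-module,
`q ≠ p`. -/
theorem lec_local (hqp : (q : ℕ) ≠ p) (hLH2 : LH2At k p q)
    (N : Rep k (primeLocalGaloisGroup q)) [Module.Finite k N]
    (hN : LevelCoh28.IsDiscrete (LevelBridge13.pullSets (locD q)) N) :
    Finite (LevelCoh28.H2 (LevelBridge13.pullBasis (locD q)) N) ∧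
      Nat.card ↥N.ρ.invariants * Nat.card (LevelCoh28.H2 (LevelBridge13.pullBasis (locD q)) N) ≤
        Nat.card (LevelCoh28.H1 (LevelBridge13.pullBasis (locD q)) N) := by
  have I := inputs p q hqp hLH2
  have hchi := chiLev_nonpos_of_inputs I N hN
  have hH1 : Module.Finite k (LevelCoh28.H1 (LevelBridge13.pullBasis (locD q)) N) :=
    I.finH1 N inferInstance hN
  obtain ⟨hH2, -⟩ := I.lh2 N inferInstance hN
  have hfin2 : Finite (LevelCoh28.H2 (LevelBridge13.pullBasis (locD q)) N) :=
    Module.finite_of_finite k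
  refine ⟨hfin2, ?_⟩
  rw [Module.natCard_eq_pow_finrank (K := k) (V := ↥N.ρ.invariants),
    Module.natCard_eq_pow_finrank (K := k)
      (V := LevelCoh28.H2 (LevelBridge13.pullBasis (locD q)) N),
    Module.natCard_eq_pow_finrank (K := k)
      (V := LevelCoh28.H1 (LevelBridge13.pullBasis (locD q)) N), ← pow_add]
  refine Nat.pow_le_pow_right Nat.card_pos ?_
  unfold chiLev at hchi
  omega

/-- **(LEC-v)**: Tate's local Euler characteristic inequality at `q ≠ p` for the restriction of a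
smooth finite `k[Gal(ℚ̄/ℚ)]`-module, in the shape of `GWContracts4.LocalEulerChar`. -/
theorem lec_v (hqp : (q : ℕ) ≠ p) (hLH2 : LH2At k p q) (M : Rep k Γ) [Module.Finite k M]
    (hM : IsSmooth M) :
    Finite (H2D M q) ∧
      d0 M q * Nat.card (H2D M q) * (if (q : ℕ) = p then Nat.card M else 1) ≤
        Nat.card (H1D M q) := by
  have hfinM : Module.Finite k ↥(Rep.res (locD q) M) := ‹Module.Finite k M›
  have hdisc : LevelCoh28.IsDiscrete (LevelBridge13.pullSets (locD q)) (Rep.res (locD q) M) := by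
    intro m
    obtain ⟨F, hF, hFm⟩ := hM m
    exact ⟨_, ⟨F, hF, rfl⟩, fun s hs => hFm _ hs⟩
  obtain ⟨h1, h2⟩ := lec_local p q hqp hLH2 (Rep.res (locD q) M) hdisc
  refine ⟨h1, ?_⟩
  rw [if_neg hqp, mul_one]
  exact h2

end Main

end Fermat.Agent.W56.LecV5
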