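/-
Programme W56 (target S56), chapter (LEC-v) (helper5): **Tate's local Euler characteristic inequality
at `q ≠ p`, UNCONDITIONAL** (`LecV5` + helper1's `LH2DLoc1.finite_and_card_H2`), and the
Greenberg–Wiles count `GWContracts4.card_Sel_le_of_contracts` with the contract `LocalEulerChar`
replaced by the single inequality at `p` (`card_Sel_le_of_lecp`).
-/
import Mathlib
import Fermat.Agent.W56.LecV5
import Fermat.Agent.W56.LH2DLoc1
import Fermat.Agent.W56.LH2D1
import Fermat.Agent.W56.GWContracts4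

set_option autoImplicit false
set_option linter.unusedSectionVars false

open CategoryTheory ExtCitation

namespace Fermat.Agent.W56.LecFinal5

open Fermat.Agent.PT.PRO Fermat.Agent.PT.BR Fermat.Agent.W56.Defs9
  Fermat.Agent.W56.GWContracts4 Fermat.Agent.W56.GWCount4 Fermat.Agent.W56.LecV5

local notation "Γ" => (AlgebraicClosure ℚ ≃ₐ[ℚ] AlgebraicClosure ℚ)

variable {k : Type} [Field k] [Finite k] (p : ℕ) [hpF : Fact p.Prime] [hchar : CharP k p]
  (q : Nat.Primes)

/-- (LH2) in local-module form is helper1's theorem. -/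
theorem lh2At : LH2At k p q := fun N hfin hN => by
  have := hfin
  have : Finite N := Module.finite_of_finite k
  exact LH2DLoc1.finite_and_card_H2 p q N hN

/-- **(LEC-v), local-module form, unconditional**: `#H⁰(Γ_q, N) · #H²(Γ_q, N) ≤ #H¹(Γ_q, N)` for
every finite discrete `k[Γ_q]`-module `N`, `q ≠ p`. -/
theorem lec_local (hqp : (q : ℕ) ≠ p) (N : Rep k (primeLocalGaloisGroup q)) [Module.Finite k N]
    (hN : LevelCoh28.IsDiscrete (LevelBridge13.pullSets (locD q)) N) :
    Finite (LevelCoh28.H2 (LevelBridge13.pullBasis (locD q)) N) ∧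
      Nat.card ↥N.ρ.invariants * Nat.card (LevelCoh28.H2 (LevelBridge13.pullBasis (locD q)) N) ≤
        Nat.card (LevelCoh28.H1 (LevelBridge13.pullBasis (locD q)) N) :=
  LecV5.lec_local p q hqp (lh2At p q) N hN

/-- **(LEC-v), unconditional**: the `q ≠ p` half of `GWContracts4.LocalEulerChar`. -/
theorem lec_v (hqp : (q : ℕ) ≠ p) (M : Rep k Γ) [Module.Finite k M] (hM : IsSmooth M) :
    Finite (H2D M q) ∧
      d0 M q * Nat.card (H2D M q) * (if (q : ℕ) = p then Nat.card M else 1) ≤
        Nat.card (H1D M q) :=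
  LecV5.lec_v p q hqp (lh2At p q) M hM

/-- the plain form `#H⁰ · #H² ≤ #H¹` at `q ≠ p`. -/
theorem lec_v' (hqp : (q : ℕ) ≠ p) (M : Rep k Γ) [Module.Finite k M] (hM : IsSmooth M) :
    d0 M q * Nat.card (H2D M q) ≤ Nat.card (H1D M q) := by
  have h := (lec_v p q hqp M hM).2
  rwa [if_neg hqp, mul_one] at h

/-- **what remains of (LEC)**: the inequality at `p` itself.  `LocalEulerChar` follows from it. -/
def LocalEulerCharP : Prop :=
  ∀ (k : Type) [Field k] [Finite k] (p : ℕ) [Fact p.Prime] [CharP k p], p ≠ 2 →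
  ∀ (M : Rep k Γ) [Module.Finite k M], IsSmooth M → ∀ q : Nat.Primes, (q : ℕ) = p →
    d0 M q * Nat.card (H2D M q) * Nat.card M ≤ Nat.card (H1D M q)

theorem localEulerChar_of_p (h : LocalEulerCharP) : LocalEulerChar := by
  intro k _ _ p _ _ hp2 M _ hsm q
  by_cases hqp : (q : ℕ) = p
  · refine ⟨(LH2D1.finite_and_card_H2D p M hsm q).1, ?_⟩
    rw [if_pos hqp]
    exact h k p hp2 M hsm q hqp
  · exact lec_v p q hqp M hsm

section Count

variable (T U : Finset Nat.Primes) (pp : Nat.Primes) (M : Rep k Γ) [Module.Finite k M]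
  (Lp : Submodule k (H1D M pp))

/-- **The Greenberg–Wiles count** `GWContracts4.card_Sel_le_of_contracts` with the contract
`LocalEulerChar` replaced by the inequality `hlecp` at `p` for the module `M` itself. -/
theorem card_Sel_le_of_lecp (hpp : (pp : ℕ) = p)
    (hsm : IsSmooth M) (hUT : U ⊆ T) (hppT : pp ∈ T) (hppU : pp ∉ U)
    (hPT : ∀ w : (∀ q : Nat.Primes, H1D M q),
      ∃ x : H1g T M, ∀ q ∈ insert pp U, resD T M q x = w q)
    (hinj : ∀ x : H2g T M, (∀ q ∈ T, resD2 T M q x = 0) → x = 0)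
    (hEC : Nat.card (H1g T M) ≤ Nat.card k ^ 2 * Nat.card (H2g T M))
    (hM3 : Nat.card M = Nat.card k ^ 3)
    (hLp : Nat.card ↥Lp ≤ Nat.card k * d0 M pp)
    (hTW : ∀ q ∈ T, q ∉ U → q ≠ pp → Nat.card (H2D M q) ≤ Nat.card k)
    (hlecp : d0 M pp * Nat.card (H2D M pp) * Nat.card M ≤ Nat.card (H1D M pp)) :
    Nat.card ↥(Sel T M U pp Lp) ≤ Nat.card k ^ (T \ insert pp U).card := by
  have hfinM : Finite M := Module.finite_of_finite k
  have hpM : ∀ m : M, p • m = 0 := nsmul_eq_zero_of_charP p M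
  have hf1 : Finite (H1D M pp) := FinH1D1.finite_H1D M p hpM hsm pp
  have hf2 : ∀ v : ↥U, Finite (H1D M v) := fun v => FinH1D1.finite_H1D M p hpM hsm v
  have hf3 : ∀ q : ↥T, Finite (H2D M q) := fun q => (LH2D1.finite_and_card_H2D p M hsm q).1
  refine card_Sel_le T U pp M Lp (Nat.card k) hUT hppT hppU
    (honto_of_forall T U pp M hppU hPT) hinj hEC (d0 M) (fun v _ => ?_) (fun v hv => ?_) hLp ?_ hTW
  · exact H1urCard8.card_H1ur_le' v M (LevelBridge13.isDiscrete_pullSets M (locD v) hsm)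
  · have hvp : ((v : Nat.Primes) : ℕ) ≠ p := by
      intro h'
      apply hppU
      have : v = pp := Subtype.ext (h'.trans hpp.symm)
      rw [← this]
      exact hv
    exact lec_v' p v hvp M hsm
  · rwa [hM3] at hlecp

end Count

end Fermat.Agent.W56.LecFinal5
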