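import Mathlib
import Fermat.Agent.W56.Defs9
import Fermat.Agent.PT.GLOB.H1FiniteCoh15
import Fermat.Agent.PT.BR.DualTwist7

/-!
# W56: finiteness of the global level `H¹` with coefficients in a finite field (lead)

For a finite field `k` of characteristic `p`, a finite set `T ∋ p` of primes and a
finite-dimensional `k`-representation `M` of `Γ = Gal(ℚ̄/ℚ)` which is discrete for
`globalBasis T` (i.e. trivialised by a finite extension unramified outside `T`), the set of level
1-cocycles `Z1 (globalBasis T) M` is finite; hence so is `Defs9.H1g T M`.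

Adapter from `PT/GLOB/H1Finite15.exists_field_forall_hom` (Kummer theory + Hermite–Minkowski-free
finiteness of `Hom(G_{K,S}, 𝔽_p)`), which is stated for `ZMod p`-valued characters.
-/

set_option autoImplicit false
set_option linter.unusedSectionVars false
set_option linter.style.haveILetI false

namespace Fermat.Agent.W56.FinH1g0

open groupCohomology ExtCitation
open Fermat.Agent.PT.PRO Fermat.Agent.PT.BR Fermat.Agent.PT.GLOB
open Fermat.Agent.S14.Fields (zeta zeta_spec Kz zeta_mem_Kz)

local notation "Qbar" => AlgebraicClosure ℚ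
local notation "Γ" => (AlgebraicClosure ℚ ≃ₐ[ℚ] AlgebraicClosure ℚ)

set_option warn.classDefReducibility false in
/-- The `𝔽_p`-vector space structure of a `p`-torsion abelian group, as an irreducible definition
(the Mathlib `abbrev` unfolds to a `match` on `p`, which blocks instance resolution). -/
noncomputable def zmodMod {p : ℕ} (M : Type*) [AddCommGroup M] (h : ∀ x : M, p • x = 0) :
    Module (ZMod p) M := AddCommGroup.zmodModule h

variable {k : Type} [Field k] [Finite k] {p : ℕ} [Fact p.Prime] [CharP k p]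

/-- **The level 1-cocycles form a finite set.** -/
theorem finite_Z1_globalBasis (T : Finset Nat.Primes) (hpT : pPrime p ∈ T)
    (M : Rep.{0} k Γ) [Module.Finite k M]
    (hM : LevelCoh28.IsDiscrete (LevelBridge13.globalBasis T).sets M) :
    Finite ↥(LevelCoh28.Z1 (LevelBridge13.globalBasis T) M) := by
  classical
  haveI : Finite M := Module.finite_of_finite k
  -- a trivialising field, unramified outside `T`, containing `ζ_p`
  obtain ⟨U, hU, -, hfix⟩ := hM.exists_fixing (LevelBridge13.globalBasis T).isBasis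
    (T := Set.univ) Set.finite_univ
  obtain ⟨F, hF, rfl⟩ := hU
  have hF₀ : (F ⊔ Kz p).IsUnramifiedOutside T := hF.sup (DualTwist7.isUnramifiedOutside_Kz p hpT)
  haveI := hF₀.1
  have hζ : zeta p ∈ F ⊔ Kz p := (le_sup_right : Kz p ≤ F ⊔ Kz p) (zeta_mem_Kz p)
  have htriv : ∀ s ∈ (F ⊔ Kz p).fixingSubgroup, ∀ a : M, M.ρ s a = a := fun s hs a =>
    hfix s (IntermediateField.fixingSubgroup_antitone le_sup_left hs) a (Set.mem_univ a)
  obtain ⟨F₁, -, hfin, hF₁⟩ :=
    H1Finite15.exists_field_forall_hom (Fact.out : p.Prime) T (F ⊔ Kz p) hF₀ (zeta_spec p) hζ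
  haveI := hfin
  haveI := H1FiniteCoh15.finiteIndex_fixingSubgroup F₁
  -- `M` as an `𝔽_p`-vector space
  have hpM : ∀ x : M, p • x = 0 := by
    intro x
    rw [← Nat.cast_smul_eq_nsmul k, CharP.cast_eq_zero, zero_smul]
  letI : Module (ZMod p) M := zmodMod M hpM
  have hsep : ∀ m : M, (∀ lam : Module.Dual (ZMod p) M, lam m = 0) → m = 0 := fun m h =>
    (Module.forall_dual_apply_eq_zero_iff (ZMod p) m).mp h
  -- every level cocycle has level `F₁`
  have key : ∀ c : ↥(LevelCoh28.Z1 (LevelBridge13.globalBasis T) M),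
      ∀ g, ∀ s ∈ F₁.fixingSubgroup, (c : Γ → M) (g * s) = (c : Γ → M) g := by
    intro c g s hs
    obtain ⟨hcoc, hlev⟩ := (LevelCoh28.mem_Z1_iff _ _ _).mp c.2
    have hcoc' := (mem_cocycles₁_iff (c : Γ → M)).mp hcoc
    have hc1 : (c : Γ → M) 1 = 0 := by
      have := hcoc' 1 1
      rw [one_mul, map_one, Module.End.one_apply] at this
      have h2 : (c : Γ → M) 1 + 0 = (c : Γ → M) 1 + (c : Γ → M) 1 := by rw [add_zero]; exact this
      exact (add_left_cancel h2).symm
    obtain ⟨U', hU', hinv⟩ := hlev
    obtain ⟨E, hE, rfl⟩ := hU'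
    have hcs : (c : Γ → M) s = 0 := by
      refine hsep _ ?_
      intro lam
      refine hF₁ (fun g => lam ((c : Γ → M) g)) ?_ ⟨E, hE, ?_⟩ s hs
      · intro s hs t _
        show lam ((c : Γ → M) (s * t)) = lam ((c : Γ → M) s) + lam ((c : Γ → M) t)
        rw [hcoc' s t, htriv s hs, map_add, add_comm]
      · intro t ht _
        show lam ((c : Γ → M) t) = 0
        have := hinv 1 t ht
        rw [one_mul, hc1] at this
        rw [this, map_zero]
    have := hcoc' g s
    rw [hcs, map_zero, zero_add] at this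
    exact this
  have hfin1 := H1FiniteCoh15.finite_setOf_level (X := M) F₁.fixingSubgroup
  haveI := hfin1.to_subtype
  refine Finite.of_injective
    (fun c : ↥(LevelCoh28.Z1 (LevelBridge13.globalBasis T) M) =>
      (⟨(c : Γ → M), key c⟩ : {f : Γ → M | ∀ g, ∀ s ∈ F₁.fixingSubgroup, f (g * s) = f g})) ?_
  intro c c' h
  have h' : (c : Γ → M) = (c' : Γ → M) := by
    have := Subtype.mk.inj h
    exact this
  exact Subtype.ext h'

/-- **`H¹(G_T, M)` is finite.** -/
theorem finite_H1g (T : Finset Nat.Primes) (hpT : pPrime p ∈ T)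
    (M : Rep.{0} k Γ) [Module.Finite k M]
    (hM : LevelCoh28.IsDiscrete (LevelBridge13.globalBasis T).sets M) :
    Finite (Defs9.H1g T M) := by
  haveI := finite_Z1_globalBasis T hpT M hM
  exact Quotient.finite _

end Fermat.Agent.W56.FinH1g0
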