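/-
Programme W56 (target S56), chapter (H) "assembly", helper9: **the inflation lemma.**

`T₀ ⊆ T` finite sets of primes, `M` a finite-dimensional smooth representation of
`Γ = Gal(ℚ̄/ℚ)` unramified outside `T₀`.  A class `y ∈ H¹(G_T, M)` whose restrictions to the
decomposition groups at the primes of `T \ T₀` vanish comes from `H¹(G_{T₀}, M)`: its cocycles
vanish on every inertia group at the primes outside `T₀`, hence have a level unramified outside
`T₀`.
-/
import Mathlib
import Fermat.Agent.W56.Defs9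
import Fermat.Agent.W56.DecompOnto0
import Fermat.Agent.W56.InertiaConj8
import Fermat.Agent.W56.UnipSel8

set_option autoImplicit false

open CategoryTheory ExtCitation groupCohomology
open scoped Pointwise

namespace Fermat.Agent.W56.Infl9

open Fermat.Agent.PT.PRO Fermat.Agent.PT.BR Fermat.Agent.W56.Defs9

local notation "Γ" => (AlgebraicClosure ℚ ≃ₐ[ℚ] AlgebraicClosure ℚ)
local notation "Qbar" => AlgebraicClosure ℚ

local instance isAlgClosureQbarI9 : IsAlgClosure ℚ Qbar := ⟨inferInstance, inferInstance⟩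
local instance normalQbarI9 : Normal ℚ Qbar := IsAlgClosure.normal ℚ Qbar
local instance isGaloisQbarI9 : IsGalois ℚ Qbar := IsAlgClosure.isGalois ℚ Qbar

variable {k : Type} [Field k]

/-- The subgroup on which a cocycle vanishes and the module is trivial. -/
def vanishingSubgroup (M : Rep k Γ) (z : Γ → M)
    (hz : ∀ g h : Γ, z (g * h) = M.ρ g (z h) + z g) : Subgroup Γ where
  carrier := {s | z s = 0 ∧ M.ρ s = 1}
  mul_mem' := by
    rintro s t ⟨hs, hs'⟩ ⟨ht, ht'⟩
    refine ⟨?_, ?_⟩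
    · rw [hz, ht, hs, map_zero, add_zero]
    · rw [map_mul, hs', ht', one_mul]
  one_mem' := by
    refine ⟨?_, map_one _⟩
    have h := hz 1 1
    rw [mul_one, map_one, Module.End.one_apply] at h
    exact left_eq_add.mp h
  inv_mem' := by
    rintro s ⟨hs, hs'⟩
    have h1 : M.ρ s⁻¹ = 1 := by
      have : M.ρ s⁻¹ * M.ρ s = 1 := by rw [← map_mul, inv_mul_cancel, map_one]
      rwa [hs', mul_one] at this
    refine ⟨?_, h1⟩
    have h := hz s⁻¹ s
    have h0 : z 1 = 0 := by
      have h := hz 1 1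
      rw [mul_one, map_one, Module.End.one_apply] at h
      exact left_eq_add.mp h
    rw [inv_mul_cancel, hs, map_zero, zero_add, h0] at h
    exact h.symm

theorem exists_inflation (T₀ T : Finset Nat.Primes) (M : Rep k Γ) [FiniteDimensional k M]
    (hsm : ∀ m : M, ∃ F : IntermediateField ℚ Qbar, FiniteDimensional ℚ F ∧
      ∀ s ∈ F.fixingSubgroup, M.ρ s m = m)
    (hMur : ∀ q : Nat.Primes, q ∉ T₀ → ∀ A : ValuationSubring Qbar,
      A.LiesOverPrime (q : ℕ) → ∀ g ∈ A.inertiaSubgroupIn ℚ, M.ρ g = 1)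
    (y : H1g T M) (hy : ∀ q ∈ T, q ∉ T₀ → resD T M q y = 0) :
    ∃ y₀ : H1g T₀ M, (∀ q, resD T₀ M q y₀ = resD T M q y) ∧ (y₀ = 0 → y = 0) := by
  obtain ⟨z, rfl⟩ := LevelCoh28.H1mk_surjective _ _ y
  have hzc : ∀ g h : Γ, (z : Γ → M) (g * h) = M.ρ g ((z : Γ → M) h) + (z : Γ → M) g :=
    (mem_cocycles₁_iff _).1 z.2.1
  obtain ⟨_, ⟨F, hF, rfl⟩, hinv⟩ := z.2.2
  obtain ⟨L, hLS, -, hL⟩ := LevelBridge13.exists_isUnramifiedOutside_forall_ρ_eq_one T₀ M hsm hMur
  have hz1 : (z : Γ → M) 1 = 0 := (vanishingSubgroup M _ hzc).one_mem.1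
  set N : Subgroup Γ := vanishingSubgroup M _ hzc with hN
  have hFfix : ∀ s ∈ F.fixingSubgroup, (z : Γ → M) s = 0 := fun s hs => by
    have := hinv 1 s hs
    rwa [one_mul, hz1] at this
  have hFLN : (F ⊔ L).fixingSubgroup ≤ N := by
    intro s hs
    rw [IntermediateField.fixingSubgroup_sup] at hs
    exact ⟨hFfix s hs.1, hL s hs.2⟩
  have : FiniteDimensional ℚ F := hF.1
  have : FiniteDimensional ℚ L := hLS.1
  have : FiniteDimensional ℚ ↥(F ⊔ L) := IntermediateField.finiteDimensional_sup F L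
  have hNopen : IsOpen (N : Set Γ) :=
    Subgroup.isOpen_mono hFLN (F ⊔ L).fixingSubgroup_isOpen
  have hNclosed : IsClosed (N : Set Γ) := Subgroup.isClosed_of_isOpen N hNopen
  let Nc : ClosedSubgroup Γ := ⟨N, hNclosed⟩
  have hfix : (IntermediateField.fixedField N).fixingSubgroup = N :=
    InfiniteGalois.fixingSubgroup_fixedField Nc
  have hle : IntermediateField.fixedField N ≤ F ⊔ L := by
    have h1 := IntermediateField.fixedField_antitone hFLN
    rwa [InfiniteGalois.fixedField_fixingSubgroup] at h1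
  have hF₀ : (IntermediateField.fixedField N).IsUnramifiedOutside T₀ := by
    refine ⟨?_, fun q hq A hA g hg => ?_⟩
    · exact FiniteDimensional.of_injective (IntermediateField.inclusion hle).toLinearMap
        (IntermediateField.inclusion_injective hle)
    · rw [hfix]
      refine ⟨?_, hMur q hq A hA g hg⟩
      by_cases hqT : q ∈ T
      · have h0 := hy q hqT hq
        rw [resD, ShaBridge13.resH1_mk, LevelCoh28.H1mk_eq_zero_iff] at h0
        obtain ⟨m, hm⟩ := h0
        have hP := UnipSel8.liesOverPrime_primeLocalPlace q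
        obtain ⟨γ, rfl⟩ := InertiaConj8.exists_smul_eq q.2 hP hA
        have hi : γ⁻¹ * g * γ⁻¹⁻¹ ∈ (γ⁻¹ • γ • primeLocalPlace q).inertiaSubgroupIn ℚ :=
          UnramBridge13.conj_mem_inertiaSubgroupIn q.2 hA γ⁻¹ hg
        rw [inv_smul_smul, inv_inv] at hi
        obtain ⟨τ, hτ⟩ := DecompOnto0.exists_primeLocalToGlobal_eq_of_mem_inertia q hi
        have h1 := congrFun hm τ
        rw [d₀₁_hom_apply] at h1
        have h2 : (z : Γ → M) (γ⁻¹ * g * γ) = 0 := by
          have h3 : (z : Γ → M) (locD q τ) = (Rep.res (locD q) M).ρ τ m - m := h1.symm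
          have h4 : (Rep.res (locD q) M).ρ τ m = M.ρ (locD q τ) m := rfl
          rw [h4, hτ, hMur q hq _ hP _ hi, Module.End.one_apply, sub_self] at h3
          exact h3
        have h5 : g = γ * ((γ⁻¹ * g * γ) * γ⁻¹) := by group
        have h6 : M.ρ (γ⁻¹ * g * γ) = 1 := hMur q hq _ hP _ hi
        rw [h5, hzc, hzc, h2, add_zero, h6, Module.End.one_apply, ← hzc, mul_inv_cancel, hz1]
      · exact hFfix g (hF.2 q hqT A hA hg)
  have hlev : LevelCoh28.IsLevel₁ (LevelBridge13.globalBasis T₀).sets (z : Γ → M) := by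
    refine ⟨_, ⟨_, hF₀, rfl⟩, fun g s hs => ?_⟩
    rw [hfix] at hs
    rw [hzc, hs.1, map_zero, zero_add]
  let z₀ : ↥(LevelCoh28.Z1 (LevelBridge13.globalBasis T₀) M) := ⟨(z : Γ → M), z.2.1, hlev⟩
  refine ⟨LevelCoh28.H1mk _ _ z₀, fun q => ?_, fun h0 => ?_⟩
  · rw [resD, resD, ShaBridge13.resH1_mk, ShaBridge13.resH1_mk]
    exact congrArg _ (Subtype.ext rfl)
  · rw [LevelCoh28.H1mk_eq_zero_iff] at h0 ⊢
    exact h0

end Fermat.Agent.W56.Infl9
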