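/-
Programme W56 (target S56), chapter (H) "assembly", helper9: **the bridge between the contract of
chapter (G)** (`TwDefs5.TwPrimeContract`: twisted cocycles `c : Γ → End_k V̄`) **and the cohomology
of `M* = ad0D ρ̄ p`** (`Defs9`).

* `trForm : sl ρ̄ →ₗ Dual (sl ρ̄)`, `A ↦ (X ↦ tr (A X))`, injective for `2 ≠ 0`, hence bijective
  (`trEquiv`);
* it intertwines the twisted adjoint action `adTw` with the action on `ad0D ρ̄ p`, when
  `det ρ̄ = cycloK p`;
* `exists_twCocycle`: a non-zero class `y ∈ H¹(G_T, M*)` has a twisted cocycle `c`, not a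
  coboundary, with: `NonTrivAt c φ` for some `φ` in the decomposition group at `q` implies
  `res_q y ≠ 0`.
-/
import Mathlib
import Fermat.Agent.W56.Defs9
import Fermat.Agent.W56.TwDefs5
import Fermat.Agent.W56.DecompOnto0

set_option autoImplicit false

open CategoryTheory ExtCitation groupCohomology

namespace Fermat.Agent.W56.TwBridge9

open Fermat.Agent.PT.PRO Fermat.Agent.PT.BR Fermat.Agent.W56.Defs9 Fermat.Agent.W56.TwDefs5

local notation "Γ" => (AlgebraicClosure ℚ ≃ₐ[ℚ] AlgebraicClosure ℚ)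

noncomputable section

variable {k : Type} [Field k] (ρbar : ResidualGaloisRep k)

/-- The trace form `A ↦ (X ↦ tr (A X))` on trace-zero endomorphisms. -/
def trForm : ↥(sl ρbar) →ₗ[k] Module.Dual k ↥(sl ρbar) :=
  ((LinearMap.mul k (Module.End k ρbar.V)).compr₂ (LinearMap.trace k ρbar.V)).domRestrict₁₂
    (sl ρbar) (sl ρbar)

theorem trForm_apply (A X : ↥(sl ρbar)) :
    trForm ρbar A X = LinearMap.trace k ρbar.V ((A : Module.End k ρbar.V) * X) := rfl

theorem trace_mul_eq_zero_of_forall (A : Module.End k ρbar.V)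
    (h : ∀ Y : Module.End k ρbar.V, LinearMap.trace k ρbar.V (A * Y) = 0) : A = 0 := by
  classical
  let b := Module.finBasis k ρbar.V
  have h1 : LinearMap.toMatrix b b A = 0 := by
    rw [Matrix.ext_iff_trace_mul_right]
    intro N
    have h2 := h (Matrix.toLin b b N)
    rw [LinearMap.trace_eq_matrix_trace k b, Module.End.mul_eq_comp, LinearMap.toMatrix_comp b b b,
      LinearMap.toMatrix_toLin] at h2
    rw [h2, Matrix.zero_mul, Matrix.trace_zero]
  exact (LinearMap.toMatrix b b).injective (by rw [h1, map_zero])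

theorem trForm_injective (h2 : (2 : k) ≠ 0) : Function.Injective (trForm ρbar) := by
  refine (injective_iff_map_eq_zero _).2 fun A hA => ?_
  apply Subtype.ext
  apply trace_mul_eq_zero_of_forall
  intro Y
  have hAtr : LinearMap.trace k ρbar.V (A : Module.End k ρbar.V) = 0 := (mem_sl_iff ρbar _).1 A.2
  set t := LinearMap.trace k ρbar.V Y with ht
  have hY0 : Y - (t / 2) • (1 : Module.End k ρbar.V) ∈ sl ρbar := by
    rw [mem_sl_iff, map_sub, map_smul, LinearMap.trace_one, ρbar.finrank_eq, smul_eq_mul]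
    push_cast
    field_simp
    rw [← ht]; ring
  have h3 : trForm ρbar A ⟨_, hY0⟩ = 0 := by rw [hA]; rfl
  rw [trForm_apply] at h3
  have h4 : (A : Module.End k ρbar.V) * Y =
      (A : Module.End k ρbar.V) * (Y - (t / 2) • (1 : Module.End k ρbar.V)) +
        (t / 2) • (A : Module.End k ρbar.V) := by
    rw [mul_sub, mul_smul_comm, mul_one, sub_add_cancel]
  rw [h4, map_add, h3, map_smul, hAtr, smul_zero, add_zero]

/-- The trace form as an isomorphism `sl ρ̄ ≃ Dual (sl ρ̄)`. -/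
def trEquiv (h2 : (2 : k) ≠ 0) : ↥(sl ρbar) ≃ₗ[k] Module.Dual k ↥(sl ρbar) :=
  LinearEquiv.ofBijective (trForm ρbar)
    ⟨trForm_injective ρbar h2,
      (LinearMap.injective_iff_surjective_of_finrank_eq_finrank
        (Subspace.dual_finrank_eq (K := k) (V := ↥(sl ρbar))).symm).1 (trForm_injective ρbar h2)⟩

theorem trEquiv_apply (h2 : (2 : k) ≠ 0) (A : ↥(sl ρbar)) :
    trEquiv ρbar h2 A = trForm ρbar A := rfl

theorem adTw_mem_sl (σ : Γ) {A : Module.End k ρbar.V} (hA : A ∈ sl ρbar) :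
    adTw ρbar σ A ∈ sl ρbar := by
  rw [mem_sl_iff] at hA ⊢
  rw [adTw, map_smul, LinearMap.trace_mul_comm, ← mul_assoc, rho_inv_mul, one_mul, hA, smul_zero]

variable (p : ℕ) [Fact p.Prime] [CharP k p]

/-- The trace form as an isomorphism `sl ρ̄ ≃ M*` (the carrier of `ad0D ρ̄ p` is
`Dual (sl ρ̄)`). -/
def trD (h2 : (2 : k) ≠ 0) : ↥(sl ρbar) ≃ₗ[k] ↑(ad0D ρbar p) := trEquiv ρbar h2

/-- The twisted adjoint action on `sl ρ̄`. -/
def adTw0 (σ : Γ) (A : ↥(sl ρbar)) : ↥(sl ρbar) := ⟨adTw ρbar σ A, adTw_mem_sl ρbar σ A.2⟩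

theorem coe_adTw0 (σ : Γ) (A : ↥(sl ρbar)) :
    ((adTw0 ρbar σ A : ↥(sl ρbar)) : Module.End k ρbar.V) = adTw ρbar σ A := rfl

/-- The trace form intertwines the twisted adjoint action with the action on `M*`. -/
theorem ρ_trD (h2 : (2 : k) ≠ 0)
    (hdetK : ∀ σ : Γ, LinearMap.det (ρbar.ρ σ) = ((cycloK (k := k) p σ : kˣ) : k))
    (σ : Γ) (A : ↥(sl ρbar)) :
    (ad0D ρbar p).ρ σ (trD ρbar p h2 A) = trD ρbar p h2 (adTw0 ρbar σ A) := by
  show (((cycloK (k := k) p σ : kˣ) : k) • ((trForm ρbar A) ∘ₗ (ad0Rep ρbar σ⁻¹)) :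
    Module.Dual k ↥(sl ρbar)) = trForm ρbar (adTw0 ρbar σ A)
  refine LinearMap.ext fun X => ?_
  rw [LinearMap.smul_apply, LinearMap.comp_apply, trForm_apply, trForm_apply, coe_ad0Rep,
    coe_adTw0, inv_inv, adTw, smul_mul_assoc, map_smul, hdetK σ]
  congr 1
  rw [← mul_assoc, LinearMap.trace_mul_comm]
  simp only [mul_assoc]

/-- The twisted cocycle attached to a level cocycle with values in `M*`. -/
def twOf (h2 : (2 : k) ≠ 0) (z : Γ → ↑(ad0D ρbar p)) (σ : Γ) : Module.End k ρbar.V :=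
  (((trD ρbar p h2).symm (z σ) : ↥(sl ρbar)) : Module.End k ρbar.V)

theorem trD_twOf (h2 : (2 : k) ≠ 0) (z : Γ → ↑(ad0D ρbar p)) (σ : Γ) :
    trD ρbar p h2 ⟨twOf ρbar p h2 z σ, ((trD ρbar p h2).symm (z σ)).2⟩ = z σ :=
  (trD ρbar p h2).apply_symm_apply (z σ)

/-- **The bridge.**  A non-zero class of `H¹(G_T, M*)` is represented by a twisted cocycle in the
sense of chapter (G), which is not a twisted coboundary, and whose non-triviality at an element of
the decomposition group at `q` forces the non-vanishing of the restriction to `Γ_q`. -/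
theorem exists_twCocycle (h2 : (2 : k) ≠ 0)
    (hdetK : ∀ σ : Γ, LinearMap.det (ρbar.ρ σ) = ((cycloK (k := k) p σ : kˣ) : k))
    (T : Finset Nat.Primes) (y : H1g T (ad0D ρbar p)) (hy : y ≠ 0) :
    ∃ c : Γ → Module.End k ρbar.V, IsTwCocycle ρbar c ∧ ¬ IsTwCoboundary ρbar c ∧
      ∀ (q : Nat.Primes) (φ : Γ), φ ∈ (primeLocalPlace q).decompositionSubgroup ℚ →
        NonTrivAt ρbar c φ → resD T (ad0D ρbar p) q y ≠ 0 := by
  obtain ⟨z, rfl⟩ := LevelCoh28.H1mk_surjective _ _ y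
  have hzc : ∀ g h : Γ, (z : Γ → ↑(ad0D ρbar p)) (g * h) =
      (ad0D ρbar p).ρ g ((z : Γ → ↑(ad0D ρbar p)) h) + (z : Γ → ↑(ad0D ρbar p)) g :=
    (mem_cocycles₁_iff _).1 z.2.1
  set c : Γ → Module.End k ρbar.V := twOf ρbar p h2 (z : Γ → ↑(ad0D ρbar p)) with hc
  have hcz : ∀ σ, trD ρbar p h2 ⟨c σ, ((trD ρbar p h2).symm ((z : Γ → ↑(ad0D ρbar p)) σ)).2⟩ =
      (z : Γ → ↑(ad0D ρbar p)) σ := fun σ => trD_twOf ρbar p h2 _ σ
  have hcsl : ∀ σ, c σ ∈ sl ρbar := fun σ =>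
    ((trD ρbar p h2).symm ((z : Γ → ↑(ad0D ρbar p)) σ)).2
  refine ⟨c, ⟨fun σ => (mem_sl_iff ρbar _).1 (hcsl σ), fun σ τ => ?_, ?_⟩, ?_, ?_⟩
  · -- the cocycle identity
    have h1 : trD ρbar p h2 ⟨c (σ * τ), hcsl _⟩ =
        trD ρbar p h2 (⟨c σ, hcsl σ⟩ + adTw0 ρbar σ ⟨c τ, hcsl τ⟩) := by
      rw [map_add, ← ρ_trD ρbar p h2 hdetK, hcz, hcz, hcz, hzc, add_comm]
    have h3 := (trD ρbar p h2).injective h1
    exact congrArg Subtype.val h3
  · -- the level
    obtain ⟨_, ⟨F, hF, rfl⟩, hinv⟩ := z.2.2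
    refine ⟨F, hF.1, fun σ τ hστ => ?_⟩
    have h1 : σ⁻¹ * τ ∈ F.fixingSubgroup := by
      rw [IntermediateField.mem_fixingSubgroup_iff]
      intro x hx
      show (σ⁻¹ * τ) x = x
      rw [AlgEquiv.mul_apply, ← hστ x hx]
      exact σ.symm_apply_apply x
    have h3 := hinv σ _ h1
    rw [mul_inv_cancel_left] at h3
    show twOf ρbar p h2 _ σ = twOf ρbar p h2 _ τ
    rw [twOf, twOf, h3]
  · -- not a coboundary
    rintro ⟨A, hA, hcA⟩
    apply hy
    rw [LevelCoh28.H1mk_eq_zero_iff]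
    refine ⟨trD ρbar p h2 ⟨A, (mem_sl_iff ρbar A).2 hA⟩, ?_⟩
    funext σ
    rw [d₀₁_hom_apply, ρ_trD ρbar p h2 hdetK, ← hcz σ, ← map_sub]
    congr 1
    apply Subtype.ext
    exact (hcA σ).symm
  · -- local non-triviality
    intro q φ hφ hnt h0
    obtain ⟨τ, rfl⟩ := DecompOnto0.exists_primeLocalToGlobal_eq q hφ
    rw [resD, ShaBridge13.resH1_mk, LevelCoh28.H1mk_eq_zero_iff] at h0
    obtain ⟨m, hm⟩ := h0
    have h1 := congrFun hm τ
    rw [d₀₁_hom_apply] at h1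
    have h4 : (z : Γ → ↑(ad0D ρbar p)) (locD q τ) = (ad0D ρbar p).ρ (locD q τ) m - m := h1.symm
    set A : ↥(sl ρbar) := (trD ρbar p h2).symm m with hA
    have hmA : m = trD ρbar p h2 A := ((trD ρbar p h2).apply_symm_apply m).symm
    apply hnt A ((mem_sl_iff ρbar _).1 A.2)
    rw [hmA, ρ_trD ρbar p h2 hdetK, ← map_sub, ← hcz] at h4
    have h5 := (trD ρbar p h2).injective h4
    exact congrArg Subtype.val h5

end

end Fermat.Agent.W56.TwBridge9
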