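/-
Programme W56 (target S56), chapter (H) "assembly", helper9: **the selection of the Taylor–Wiles
primes**, abstract form.  `V` a finite-dimensional vector space, `Z q ≤ V` subspaces indexed by
`q : ι`; if every non-zero vector is outside some `Z q` with `q` good and outside any prescribed
finite set, then there are exactly `dim V` distinct good indices with `⋂ Z q = 0`.
-/
import Mathlib

set_option autoImplicit false

namespace Fermat.Agent.W56.TwSelect9

variable {k V ι : Type*} [Field k] [AddCommGroup V] [Module k V] [FiniteDimensional k V]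
  [DecidableEq ι] (Z : ι → Submodule k V) (good : ι → Prop)

theorem exists_fin_aux
    (h : ∀ (S' : Finset ι) (v : V), v ≠ 0 → ∃ q, q ∉ S' ∧ good q ∧ v ∉ Z q) (m : ℕ) :
    ∀ K : Submodule k V, Module.finrank k K ≤ m → (m = 0 ∨ Nontrivial V) → ∀ S' : Finset ι,
      ∃ qs : Fin m → ι, Function.Injective qs ∧ (∀ i, qs i ∉ S' ∧ good (qs i)) ∧
        ∀ v ∈ K, (∀ i, v ∈ Z (qs i)) → v = 0 := by
  induction m with
  | zero =>
    intro K hK _ S'
    have hK0 : K = ⊥ := Submodule.finrank_eq_zero.1 (Nat.le_zero.1 hK)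
    refine ⟨Fin.elim0, fun i => i.elim0, fun i => i.elim0, fun v hv _ => ?_⟩
    rw [hK0] at hv
    exact (Submodule.mem_bot k).1 hv
  | succ m ih =>
    intro K hK hV S'
    have hVn : Nontrivial V := by
      rcases hV with h0 | h0
      · exact absurd h0 (Nat.succ_ne_zero m)
      · exact h0
    -- choose a non-zero vector, in `K` if possible
    obtain ⟨v₀, hv₀, hv₀K⟩ : ∃ v₀ : V, v₀ ≠ 0 ∧ (K ≠ ⊥ → v₀ ∈ K) := by
      by_cases hK0 : K = ⊥
      · obtain ⟨v₀, hv₀⟩ := exists_ne (0 : V)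
        exact ⟨v₀, hv₀, fun h => absurd hK0 h⟩
      · obtain ⟨v₀, hv₀K, hv₀⟩ := Submodule.exists_mem_ne_zero_of_ne_bot hK0
        exact ⟨v₀, hv₀, fun _ => hv₀K⟩
    obtain ⟨q₀, hq₀S, hq₀g, hq₀Z⟩ := h S' v₀ hv₀
    have hK' : Module.finrank k ↥(K ⊓ Z q₀) ≤ m := by
      by_cases hK0 : K = ⊥
      · rw [hK0, bot_inf_eq, finrank_bot]
        exact Nat.zero_le m
      · have hlt : K ⊓ Z q₀ < K := by
          refine lt_of_le_of_ne inf_le_left fun heq => hq₀Z ?_
          have : v₀ ∈ K ⊓ Z q₀ := by rw [heq]; exact hv₀K hK0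
          exact this.2
        have := Submodule.finrank_lt_finrank_of_lt hlt
        omega
    obtain ⟨qs, hinj, hgood, hker⟩ := ih (K ⊓ Z q₀) hK' (Or.inr hVn) (insert q₀ S')
    refine ⟨Fin.cons q₀ qs, ?_, ?_, ?_⟩
    · rw [Fin.cons_injective_iff]
      refine ⟨?_, hinj⟩
      rintro ⟨i, hi⟩
      exact (hgood i).1 (by rw [hi]; exact Finset.mem_insert_self _ _)
    · intro i
      refine Fin.cases ?_ (fun j => ?_) i
      · exact ⟨hq₀S, hq₀g⟩
      · rw [Fin.cons_succ]
        exact ⟨fun hj => (hgood j).1 (Finset.mem_insert_of_mem hj), (hgood j).2⟩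
    · intro v hvK hvZ
      refine hker v ⟨hvK, ?_⟩ fun i => ?_
      · have := hvZ 0
        rwa [Fin.cons_zero] at this
      · have := hvZ i.succ
        rwa [Fin.cons_succ] at this

/-- **Selection.**  Exactly `dim V` distinct good indices, outside `S'`, with `⋂ Z q = 0`. -/
theorem exists_fin_of_forall_exists
    (h : ∀ (S' : Finset ι) (v : V), v ≠ 0 → ∃ q, q ∉ S' ∧ good q ∧ v ∉ Z q) (S' : Finset ι) :
    ∃ qs : Fin (Module.finrank k V) → ι, Function.Injective qs ∧
      (∀ i, qs i ∉ S' ∧ good (qs i)) ∧ ∀ v : V, (∀ i, v ∈ Z (qs i)) → v = 0 := by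
  have hV : Module.finrank k V = 0 ∨ Nontrivial V := by
    by_cases h0 : Module.finrank k V = 0
    · exact Or.inl h0
    · exact Or.inr (Module.nontrivial_of_finrank_pos (R := k) (Nat.pos_of_ne_zero h0))
  obtain ⟨qs, hinj, hgood, hker⟩ := exists_fin_aux Z good h (Module.finrank k V) ⊤
    (by rw [finrank_top]) hV S'
  exact ⟨qs, hinj, hgood, fun v hv => hker v Submodule.mem_top hv⟩

end Fermat.Agent.W56.TwSelect9
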