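/-
Programme W56 (target S56), chapter (H) "assembly", helper9: **the Taylor–Wiles primes kill the
dual Selmer group.**

From the contract of chapter (G) (`TwDefs5.TwPrimeContract`): with
`r = dim_k H¹(G_{T₀}, M*)`, `T₀` = the primes of `Smin`, `M* = ad0D ρ̄ p`, for every `n` there are
`r` distinct Taylor–Wiles primes `q_i ≡ 1 mod p^(n+1)` outside `S` such that every class of
`H¹(G_{T₀ ∪ Q}, M*)` which is trivial at all `q_i` vanishes (selection `TwSelect9`, bridge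
`TwBridge9`, inflation `Infl9`).
-/
import Mathlib
import Fermat.Agent.W56.Ad0Facts9
import Fermat.Agent.W56.TwBridge9
import Fermat.Agent.W56.TwSelect9
import Fermat.Agent.W56.Infl9
import Fermat.Agent.W56.FinH1g0
import Fermat.Agent.W56.FrobGen8

set_option autoImplicit false
set_option linter.style.haveILetI false
set_option linter.unusedSectionVars false

open CategoryTheory ExtCitation Polynomial

namespace Fermat.Agent.W56.TwMain9

open Fermat.Agent.PT.PRO Fermat.Agent.PT.BR Fermat.Agent.W56.Defs9 Fermat.Agent.W56.TwDefs5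
  Fermat.Agent.W56.Ad0Facts9

local notation "Γ" => (AlgebraicClosure ℚ ≃ₐ[ℚ] AlgebraicClosure ℚ)
local notation "Qbar" => AlgebraicClosure ℚ

variable {k : Type} [Field k] [Finite k] (p : ℕ) [Fact p.Prime] [CharP k p]
  (ρbar : ResidualGaloisRep k)

/-- `2 ≠ 0` in characteristic `p ≠ 2`. -/
theorem two_ne_zero_of_ne_two (hp2 : p ≠ 2) : (2 : k) ≠ 0 := by
  intro h
  have h3 : ((2 : ℕ) : k) = 0 := by exact_mod_cast h
  rw [CharP.cast_eq_zero_iff k p] at h3
  have hp : p.Prime := Fact.out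
  exact hp2 ((Nat.prime_dvd_prime_iff_eq hp Nat.prime_two).1 h3)

/-- `M*` is a discrete `G_{T₀}`-module. -/
theorem isDiscrete_ad0D (Smin : Finset ℕ) (hpSmin : p ∈ Smin)
    (hur : ∀ q : ℕ, q.Prime → q ∉ Smin → ρbar.IsUnramifiedAt q) (T : Finset Nat.Primes)
    (hT : primesOf Smin ⊆ T) :
    LevelCoh28.IsDiscrete (LevelBridge13.globalBasis T).sets (ad0D ρbar p) := by
  haveI := moduleFinite_ad0D ρbar p
  exact LevelBridge13.isDiscrete_globalSets T (ad0D ρbar p) (isSmooth_ad0D ρbar p)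
    (fun q hq A hA g hg => ad0D_unram ρbar p Smin hpSmin hur q (fun h => hq (hT h)) A hA g hg)

/-- `M` is a discrete `G_{T₀}`-module. -/
theorem isDiscrete_ad0 (Smin : Finset ℕ)
    (hur : ∀ q : ℕ, q.Prime → q ∉ Smin → ρbar.IsUnramifiedAt q) (T : Finset Nat.Primes)
    (hT : primesOf Smin ⊆ T) :
    LevelCoh28.IsDiscrete (LevelBridge13.globalBasis T).sets (ad0 ρbar) := by
  haveI := moduleFinite_ad0 ρbar
  exact LevelBridge13.isDiscrete_globalSets T (ad0 ρbar) (isSmooth_ad0 ρbar)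
    (fun q hq A hA g hg => ad0_unram ρbar Smin hur q (fun h => hq (hT h)) A hA g hg)

theorem pPrime_mem_primesOf {Smin : Finset ℕ} (hpSmin : p ∈ Smin) : pPrime p ∈ primesOf Smin :=
  mem_primesOf.2 hpSmin

/-- **The Taylor–Wiles primes.** -/
theorem exists_tw_primes (hp2 : p ≠ 2) (hTwP : TwPrimeContract ρbar p)
    (habs : ρbar.IsAbsolutelyIrreducible)
    (hdet : (GaloisRepAdic.ofResidualGaloisRep ρbar).DetIsCyclotomic p)
    (hsplit : ∀ σ : Γ, ∃ α β : k, LinearMap.charpoly (ρbar.ρ σ) = (X - C α) * (X - C β))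
    (hTW : ∀ (K : Type) [Field K] [Algebra k K] (G : Subgroup Γ), G.index = 2 →
      ∀ V : Submodule K (ρbar.baseChange K).V,
        (∀ σ ∈ G, ∀ x ∈ V, (ρbar.baseChange K).ρ σ x ∈ V) → V = ⊥ ∨ V = ⊤)
    (S Smin : Finset ℕ) (hpSmin : p ∈ Smin) (hSmin : Smin ⊆ S)
    (hur : ∀ q : ℕ, q.Prime → q ∉ Smin → ρbar.IsUnramifiedAt q) (n : ℕ) :
    ∃ qv : Fin (Module.finrank k (H1g (primesOf Smin) (ad0D ρbar p))) → ℕ,
      Function.Injective qv ∧
      (∀ i, (qv i).Prime ∧ qv i ∉ S ∧ p ^ (n + 1) ∣ qv i - 1) ∧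
      (∀ i, ∀ P : ValuationSubring Qbar, P.LiesOverPrime (qv i) →
        ∀ φ : Γ, P.IsFrobeniusAt φ (qv i) →
          ∃ α β : k, α ≠ β ∧ LinearMap.charpoly (ρbar.ρ φ) = (X - C α) * (X - C β)) ∧
      ∀ y : H1g (primesOf (Smin ∪ Finset.univ.image qv)) (ad0D ρbar p),
        (∀ q ∈ primesOf (Smin ∪ Finset.univ.image qv), q ∉ primesOf Smin →
          resD (primesOf (Smin ∪ Finset.univ.image qv)) (ad0D ρbar p) q y = 0) → y = 0 := by
  classical
  have h2 : (2 : k) ≠ 0 := two_ne_zero_of_ne_two p hp2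
  have hdetK := det_eq_cycloK ρbar p hdet
  haveI := moduleFinite_ad0D ρbar p
  have hdisc := isDiscrete_ad0D p ρbar Smin hpSmin hur (primesOf Smin) (Finset.Subset.refl _)
  haveI : Finite (H1g (primesOf Smin) (ad0D ρbar p)) :=
    FinH1g0.finite_H1g (primesOf Smin) (pPrime_mem_primesOf p hpSmin) (ad0D ρbar p) hdisc
  haveI : FiniteDimensional k (H1g (primesOf Smin) (ad0D ρbar p)) := Module.Finite.of_finite
  -- the selection
  let Z : Nat.Primes → Submodule k (H1g (primesOf Smin) (ad0D ρbar p)) := fun q =>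
    LinearMap.ker (resD (primesOf Smin) (ad0D ρbar p) q)
  let good : Nat.Primes → Prop := fun q => (q : ℕ) ∉ S ∧ p ^ (n + 1) ∣ (q : ℕ) - 1 ∧
    ∀ P : ValuationSubring Qbar, P.LiesOverPrime (q : ℕ) → ∀ φ : Γ, P.IsFrobeniusAt φ (q : ℕ) →
      ∃ α β : k, α ≠ β ∧ LinearMap.charpoly (ρbar.ρ φ) = (X - C α) * (X - C β)
  have hsel : ∀ (S' : Finset Nat.Primes) (v : H1g (primesOf Smin) (ad0D ρbar p)), v ≠ 0 →
      ∃ q, q ∉ S' ∧ good q ∧ v ∉ Z q := by
    intro S' v hv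
    obtain ⟨c, hc, hncb, hloc⟩ := TwBridge9.exists_twCocycle ρbar p h2 hdetK (primesOf Smin) v hv
    obtain ⟨q, hq, hqS, hqn, hqφ⟩ := hTwP (det_eq_natCast ρbar p hdet) habs hsplit hTW
      (S ∪ S'.image (fun q : Nat.Primes => (q : ℕ))) n c hc hncb
    refine ⟨⟨q, hq⟩, fun h => hqS ?_, ⟨fun h => hqS (Finset.mem_union_left _ h), hqn,
      fun P hP φ hφ => (hqφ P hP φ hφ).1⟩, fun hZ => ?_⟩
    · exact Finset.mem_union_right _ (Finset.mem_image.2 ⟨⟨q, hq⟩, h, rfl⟩)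
    · have hP := UnipSel8.liesOverPrime_primeLocalPlace ⟨q, hq⟩
      obtain ⟨φ, hφ⟩ := FrobGen8.exists_isFrobeniusAt hq hP
      exact hloc ⟨q, hq⟩ φ hφ.mem_decompositionSubgroup (hqφ _ hP φ hφ).2 (LinearMap.mem_ker.1 hZ)
  obtain ⟨qs, hinj, hgood, hker⟩ := TwSelect9.exists_fin_of_forall_exists Z good hsel ∅
  refine ⟨fun i => (qs i : ℕ), fun i j hij => hinj (Subtype.ext hij),
    fun i => ⟨(qs i).2, (hgood i).2.1, (hgood i).2.2.1⟩, fun i => (hgood i).2.2.2, ?_⟩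
  intro y hy
  haveI : FiniteDimensional k (ad0D ρbar p) := moduleFinite_ad0D ρbar p
  obtain ⟨y₀, hres, hy₀⟩ := Infl9.exists_inflation (primesOf Smin)
    (primesOf (Smin ∪ Finset.univ.image fun i => (qs i : ℕ))) (ad0D ρbar p)
    (isSmooth_ad0D ρbar p) (ad0D_unram ρbar p Smin hpSmin hur) y hy
  apply hy₀
  apply hker
  intro i
  show y₀ ∈ LinearMap.ker (resD (primesOf Smin) (ad0D ρbar p) (qs i))
  rw [LinearMap.mem_ker, hres]
  apply hy
  · rw [mem_primesOf]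
    exact Finset.mem_union_right _ (Finset.mem_image.2 ⟨i, Finset.mem_univ _, rfl⟩)
  · rw [mem_primesOf]
    exact fun h => (hgood i).2.1 (hSmin h)

end Fermat.Agent.W56.TwMain9
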