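/-
Programme W56 (target S56), chapter (H) "assembly", helper9: **the bound of the Selmer group at a
set of Taylor–Wiles primes**, from the named contracts.

`T = primes of (Smin ∪ Q)`, `U = primes of (Smin \ {p})`, `Q = {q_1, …, q_r}` Taylor–Wiles primes
killing the dual Selmer group (`TwMain9.exists_tw_primes`).  Then for every local condition `L_p`
with `#L_p ≤ #k · #H⁰(Γ_p, ad⁰ρ̄)`:  `#Sel(T, ad⁰ρ̄, U, p, L_p) ≤ (#k)^r`
(`LecFinal5.card_Sel_le_of_lecp` = `GWContracts4.card_Sel_le_of_contracts` with the contract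
`LocalEulerChar` replaced by the single inequality at `p` for `ad⁰ρ̄`: the local Euler characteristic
at `q ≠ p` is helper5's theorem `LecFinal5.lec_v`).

`LecPAd0` is the remaining contract: Tate's local Euler characteristic inequality at `p` for `ad⁰ρ̄`.
-/
import Mathlib
import Fermat.Agent.W56.Contracts9
import Fermat.Agent.W56.Ad0Facts9
import Fermat.Agent.W56.TwMain9
import Fermat.Agent.W56.EulerAd4
import Fermat.Agent.W56.LecFinal5

set_option autoImplicit false
set_option linter.style.haveILetI false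
set_option linter.unusedSectionVars false

open CategoryTheory ExtCitation Polynomial

namespace Fermat.Agent.W56.SelBound9

open Fermat.Agent.PT.PRO Fermat.Agent.PT.BR Fermat.Agent.W56.Defs9 Fermat.Agent.W56.GWCount4
  Fermat.Agent.W56.GWContracts4 Fermat.Agent.W56.Contracts9 Fermat.Agent.W56.Ad0Facts9
  Fermat.Agent.W56.EulerDefs4

local notation "Γ" => (AlgebraicClosure ℚ ≃ₐ[ℚ] AlgebraicClosure ℚ)
local notation "Qbar" => AlgebraicClosure ℚ

variable {k : Type} [Field k] [Finite k] (p : ℕ) [Fact p.Prime] [CharP k p]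
  (ρbar : ResidualGaloisRep k)

theorem card_sdiff_le {r : ℕ} (Smin : Finset ℕ) (qv : Fin r → ℕ) :
    (primesOf (Smin ∪ Finset.univ.image qv) \
      insert (pPrime p) (primesOf (Smin.erase p))).card ≤ r := by
  classical
  have h1 : (primesOf (Smin ∪ Finset.univ.image qv) \
      insert (pPrime p) (primesOf (Smin.erase p))).card ≤ (Finset.univ.image qv).card := by
    refine Finset.card_le_card_of_injOn (fun q : Nat.Primes => (q : ℕ)) (fun q hq => ?_)
      (fun a _ b _ hab => Subtype.ext hab)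
    rw [Finset.coe_sdiff, Set.mem_sdiff, Finset.mem_coe, Finset.mem_coe, mem_primesOf,
      Finset.mem_insert, mem_primesOf, not_or] at hq
    obtain ⟨h1, h2, h3⟩ := hq
    rcases Finset.mem_union.1 h1 with h | h
    · exfalso
      apply h3
      rw [Finset.mem_erase]
      exact ⟨fun h' => h2 (Subtype.ext h'), h⟩
    · exact h
  exact h1.trans (Finset.card_image_le.trans (by rw [Finset.card_univ, Fintype.card_fin]))

/-- (LEC-p) **Tate's local Euler characteristic inequality at `p` for `ad⁰ρ̄`**: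
`#H⁰(Γ_p, ad⁰ρ̄) · #H²(Γ_p, ad⁰ρ̄) · #k³ ≤ #H¹(Γ_p, ad⁰ρ̄)`, for an absolutely irreducible `ρ̄` of
cyclotomic determinant all of whose characteristic polynomials split (the hypotheses of S56). -/
def LecPAd0 : Prop :=
  ∀ (k : Type) [Field k] [Finite k] (p : ℕ) [Fact p.Prime] [CharP k p], p ≠ 2 →
  ∀ (ρbar : ResidualGaloisRep k), ρbar.IsAbsolutelyIrreducible →
    (GaloisRepAdic.ofResidualGaloisRep ρbar).DetIsCyclotomic p →
    (∀ σ : Γ, ∃ α β : k, LinearMap.charpoly (ρbar.ρ σ) = (X - C α) * (X - C β)) →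
    d0 (ad0 ρbar) (pPrime p) * Nat.card (H2D (ad0 ρbar) (pPrime p)) * Nat.card k ^ 3 ≤
      Nat.card (H1D (ad0 ρbar) (pPrime p))

/-- The full local Euler characteristic contract implies (LEC-p) for `ad⁰ρ̄`. -/
theorem lecPAd0_of_localEulerChar (hLEC : LocalEulerChar) : LecPAd0 := by
  intro k _ _ p _ _ hp2 ρbar _ _ _
  haveI : Module.Finite k (ad0 ρbar) := Ad0Facts9.moduleFinite_ad0 ρbar
  have h2 : (2 : k) ≠ 0 := TwMain9.two_ne_zero_of_ne_two p hp2
  have h := (hLEC k p hp2 (ad0 ρbar) (isSmooth_ad0 ρbar) (pPrime p)).2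
  rw [if_pos (show ((pPrime p : Nat.Primes) : ℕ) = p from rfl), EulerAd4.card_ad0 ρbar h2] at h
  exact h

/-- **The Selmer bound at a set of Taylor–Wiles primes.** -/
theorem card_Sel_le
    (hlecp : d0 (ad0 ρbar) (pPrime p) * Nat.card (H2D (ad0 ρbar) (pPrime p)) * Nat.card k ^ 3 ≤
      Nat.card (H1D (ad0 ρbar) (pPrime p)))
    (hEC : EulerCharBoundAd0) (hPT : PTMidOnto)
    (hSha : Sha2Injective) (hH2 : TwH2Bound) (hp2 : p ≠ 2)
    (habs : ρbar.IsAbsolutelyIrreducible)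
    (hdet : (GaloisRepAdic.ofResidualGaloisRep ρbar).DetIsCyclotomic p)
    (S Smin : Finset ℕ) (hpSmin : p ∈ Smin) (hSmin : Smin ⊆ S)
    (hur : ∀ q : ℕ, q.Prime → q ∉ Smin → ρbar.IsUnramifiedAt q)
    {r : ℕ} (n : ℕ) (qv : Fin r → ℕ)
    (hqv : ∀ i, (qv i).Prime ∧ qv i ∉ S ∧ p ^ (n + 1) ∣ qv i - 1)
    (hfrob : ∀ i, ∀ P : ValuationSubring Qbar, P.LiesOverPrime (qv i) →
      ∀ φ : Γ, P.IsFrobeniusAt φ (qv i) →
        ∃ α β : k, α ≠ β ∧ LinearMap.charpoly (ρbar.ρ φ) = (X - C α) * (X - C β))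
    (hvan : ∀ y : H1g (primesOf (Smin ∪ Finset.univ.image qv)) (ad0D ρbar p),
      (∀ q ∈ primesOf (Smin ∪ Finset.univ.image qv), q ∉ primesOf Smin →
        resD (primesOf (Smin ∪ Finset.univ.image qv)) (ad0D ρbar p) q y = 0) → y = 0)
    (Lp : Submodule k (H1D (ad0 ρbar) (pPrime p)))
    (hLp : Nat.card ↥Lp ≤ Nat.card k * d0 (ad0 ρbar) (pPrime p)) :
    Nat.card ↥(Sel (primesOf (Smin ∪ Finset.univ.image qv)) (ad0 ρbar)
      (primesOf (Smin.erase p)) (pPrime p) Lp) ≤ Nat.card k ^ r := by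
  classical
  set T := primesOf (Smin ∪ Finset.univ.image qv) with hT
  set U := primesOf (Smin.erase p) with hU
  have h2 : (2 : k) ≠ 0 := TwMain9.two_ne_zero_of_ne_two p hp2
  haveI : Module.Finite k (ad0 ρbar) := Ad0Facts9.moduleFinite_ad0 ρbar
  haveI : Finite (ad0 ρbar) := Module.finite_of_finite k
  have hsm := isSmooth_ad0 ρbar
  have hST : primesOf Smin ⊆ T := fun q hq =>
    mem_primesOf.2 (Finset.mem_union_left _ (mem_primesOf.1 hq))
  have hUS : U ⊆ primesOf Smin := fun q hq =>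
    mem_primesOf.2 (Finset.mem_of_mem_erase (mem_primesOf.1 hq))
  have hUT : U ⊆ T := hUS.trans hST
  have hppS : pPrime p ∈ primesOf Smin := mem_primesOf.2 hpSmin
  have hppT : pPrime p ∈ T := hST hppS
  have hppU : pPrime p ∉ U := fun h => (Finset.mem_erase.1 (mem_primesOf.1 h)).1 rfl
  have hMur : ∀ q : Nat.Primes, q ∉ T → ∀ A : ValuationSubring Qbar, A.LiesOverPrime (q : ℕ) →
      ∀ g ∈ A.inertiaSubgroupIn ℚ, (ad0 ρbar).ρ g = 1 := fun q hq A hA g hg =>
    ad0_unram ρbar Smin hur q (fun h => hq (hST h)) A hA g hg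
  have hpM : ∀ m : ad0 ρbar, p • m = 0 := nsmul_eq_zero_of_charP p (ad0 ρbar)
  -- the dual Selmer group vanishes
  have hvan1 : ∀ y : H1g T ((ad0 ρbar).dualTwist (cycloK (k := k) p)),
      (∀ q ∈ T \ insert (pPrime p) U,
        resD T ((ad0 ρbar).dualTwist (cycloK (k := k) p)) q y = 0) → y = 0 := by
    intro y hy
    refine hvan y fun q hqT hqS => hy q ?_
    rw [Finset.mem_sdiff, Finset.mem_insert, not_or]
    exact ⟨hqT, fun h => hqS (h ▸ hppS), fun h => hqS (hUS h)⟩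
  have hvan2 : ∀ y : H1g T ((ad0 ρbar).dualTwist (cycloK (k := k) p)),
      (∀ q ∈ T, resD T ((ad0 ρbar).dualTwist (cycloK (k := k) p)) q y = 0) → y = 0 :=
    fun y hy => hvan1 y fun q hq => hy q (Finset.mem_sdiff.1 hq).1
  have hinsT : insert (pPrime p) U ⊆ T := Finset.insert_subset hppT hUT
  have hPT' := hPT k p hp2 T hppT (ad0 ρbar) hsm hMur (insert (pPrime p) U) hinsT
    (fun q _ => FinH1D1.finite_H1D (ad0 ρbar) p hpM hsm q) hvan1
  have hinj := hSha k p hp2 T hppT (ad0 ρbar) hsm hMur hvan2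
  haveI : ∀ q : ↥T, Finite (H2D (ad0 ρbar) q) := fun q =>
    (LH2D1.finite_and_card_H2D p (ad0 ρbar) hsm q).1
  haveI : Finite (H2g T (ad0 ρbar)) := finite_H2g_of_inj T (ad0 ρbar) hinj
  have hdisc := TwMain9.isDiscrete_ad0 ρbar Smin hur T hST
  have hECb := EulerAd4.card_H1g_ad0_le ρbar hEC p hp2 T (pPrime p) rfl hppT hdisc
    (H0_ad0_eq_zero ρbar habs h2) (det_complexConjugation ρbar p hdet)
  have hTWq : ∀ q ∈ T, q ∉ U → q ≠ pPrime p → Nat.card (H2D (ad0 ρbar) q) ≤ Nat.card k := by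
    intro q hqT hqU hqp
    have hqQ : (q : ℕ) ∈ Finset.univ.image qv := by
      rcases Finset.mem_union.1 (mem_primesOf.1 hqT) with h | h
      · exfalso
        apply hqU
        rw [hU, mem_primesOf, Finset.mem_erase]
        exact ⟨fun h' => hqp (Subtype.ext h'), h⟩
      · exact h
    obtain ⟨i, -, hi⟩ := Finset.mem_image.1 hqQ
    have hqS : (q : ℕ) ∉ Smin := fun h => (hqv i).2.1 (hi ▸ hSmin h)
    refine hH2 k p hp2 ρbar q (fun h => hqS (h ▸ hpSmin)) ?_ (hur q q.2 hqS) ?_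
    · rw [← hi]
      exact (dvd_pow_self p (Nat.succ_ne_zero n)).trans (hqv i).2.2
    · rw [← hi]
      exact hfrob i
  have hmain := LecFinal5.card_Sel_le_of_lecp p T U (pPrime p) (ad0 ρbar) Lp rfl hsm hUT hppT
    hppU hPT' hinj hECb (EulerAd4.card_ad0 ρbar h2) hLp hTWq
    (by rw [EulerAd4.card_ad0 ρbar h2]; exact hlecp)
  refine hmain.trans (Nat.pow_le_pow_right Nat.card_pos ?_)
  exact card_sdiff_le p Smin qv

end Fermat.Agent.W56.SelBound9
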