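/-
Programme W56 (target S56), chapter (H) "assembly", helper9: **the strict-ordinary conjunct of S56,
conditional on the named contracts** (stage 1).

Contracts: `SelBound9.LecPAd0` (Tate's local Euler characteristic at `p` for `ad⁰ρ̄`), `EulerCharBoundAd0` (Tate's global
Euler characteristic for `ad⁰ρ̄`), `PTMidOnto` and `Sha2Injective` (Poitou–Tate), `TwH2Bound`
(`#H²(Γ_q, ad⁰ρ̄) ≤ #k` at Taylor–Wiles primes), `LpSOBound` (size of the strict-ordinary condition
at `p`), `TwPrimes` (existence of Taylor–Wiles primes).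

`r = dim_k H¹(G_{T₀}, ad⁰ρ̄(1))`; the primes are those of `TwMain9.exists_tw_primes`; the bound of
the tangent space is `SelBound9.card_Sel_le` through the injection
`DictSO9.exists_injective_tangent_SO`; the surjection `𝒪⟦X_1..X_r⟧ → R_Q` is
`GenCount0.exists_surjective_mvPowerSeries`.
-/
import Mathlib
import Fermat.Agent.W56.SelBound9
import Fermat.Agent.W56.DictSO9
import Fermat.Agent.W56.GenCount0

set_option autoImplicit false
set_option linter.style.haveILetI false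
set_option linter.unusedSectionVars false

open CategoryTheory ExtCitation Polynomial IsLocalRing

namespace Fermat.Agent.W56.AssemblySO9

open Fermat.Agent.PT.PRO Fermat.Agent.PT.BR Fermat.Agent.W56.Defs9 Fermat.Agent.W56.GWCount4
  Fermat.Agent.W56.GWContracts4 Fermat.Agent.W56.Contracts9 Fermat.Agent.W56.Ad0Facts9
  Fermat.Agent.W56.EulerDefs4

local notation "Γ" => (AlgebraicClosure ℚ ≃ₐ[ℚ] AlgebraicClosure ℚ)
local notation "Qbar" => AlgebraicClosure ℚ

attribute [local instance] Fermat.Agent.S53.dualNumberAlgebra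

variable {𝒪 : Type} [CommRing 𝒪] [IsDomain 𝒪] [IsDiscreteValuationRing 𝒪]
  [IsAdicComplete (maximalIdeal 𝒪) 𝒪] [Finite (ResidueField 𝒪)]

/-- The residue field has characteristic `p`. -/
theorem charP_residueField (p : ℕ) [Fact p.Prime] (hp𝒪 : (p : 𝒪) ∈ maximalIdeal 𝒪) :
    CharP (ResidueField 𝒪) p :=
  (CharP.charP_iff_prime_eq_zero (Fact.out : p.Prime)).mpr (Dict9.natCast_p_residueField p hp𝒪)

/-- **The strict-ordinary conjunct of S56, from the named contracts.** -/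
theorem strictOrdinary_conjunct (hLECp : SelBound9.LecPAd0) (hEC : EulerCharBoundAd0)
    (hPT : PTMidOnto) (hSha : Sha2Injective) (hH2 : TwH2Bound) (hD2 : LpSOBound)
    (hTwP : TwPrimes)
    (p : ℕ) [Fact p.Prime] (hp2 : p ≠ 2) (hp𝒪 : (p : 𝒪) ∈ maximalIdeal 𝒪)
    (ρbar : ResidualGaloisRep (ResidueField 𝒪))
    (habs : ρbar.IsAbsolutelyIrreducible)
    (hdet : (GaloisRepAdic.ofResidualGaloisRep ρbar).DetIsCyclotomic p)
    (hsplit : ∀ σ : Γ, ∃ α β : ResidueField 𝒪,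
      LinearMap.charpoly (ρbar.ρ σ) = (X - C α) * (X - C β))
    (hTW : ∀ (K : Type) [Field K] [Algebra (ResidueField 𝒪) K] (G : Subgroup Γ), G.index = 2 →
      ∀ V : Submodule K (ρbar.baseChange K).V,
        (∀ σ ∈ G, ∀ x ∈ V, (ρbar.baseChange K).ρ σ x ∈ V) → V = ⊥ ∨ V = ⊤)
    (S Smin : Finset ℕ) (hpSmin : p ∈ Smin) (hSmin : Smin ⊆ S)
    (hmin : ∀ q : ℕ, q.Prime → q ≠ p → (q ∈ Smin ↔ ¬ ρbar.IsUnramifiedAt q)) :
    ∃ r : ℕ, ∀ n : ℕ, ∃ qv : Fin r → ℕ, Function.Injective qv ∧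
      (∀ i, (qv i).Prime ∧ qv i ∉ S ∧ p ^ (n + 1) ∣ qv i - 1) ∧
      (∀ i, ∀ P : ValuationSubring Qbar, P.LiesOverPrime (qv i) →
        ∀ φ : Γ, P.IsFrobeniusAt φ (qv i) →
          ∃ α β : ResidueField 𝒪, α ≠ β ∧
            LinearMap.charpoly (ρbar.ρ φ) = (X - C α) * (X - C β)) ∧
      ∀ DQ : GaloisRep.DeformationRingData 𝒪 ρbar (fun _A _ _ _ ρ =>
          GaloisRep.strictOrdinaryCondition 𝒪 p (Smin ∪ Finset.univ.image qv) ρ ∧
            ∀ q ∈ Smin, q.Prime → q ≠ p → ρ.IsUnipotentOnInertiaAt q),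
        ∃ γ : MvPowerSeries (Fin r) 𝒪 →ₐ[𝒪] DQ.R, Function.Surjective γ := by
  classical
  haveI : CharP (ResidueField 𝒪) p := charP_residueField p hp𝒪
  have hur : ∀ q : ℕ, q.Prime → q ∉ Smin → ρbar.IsUnramifiedAt q := by
    intro q hq hqS
    have hqp : q ≠ p := fun h => hqS (h ▸ hpSmin)
    by_contra hnr
    exact hqS ((hmin q hq hqp).2 hnr)
  have hram : ∀ q ∈ Smin, q.Prime → q ≠ p → ¬ ρbar.IsUnramifiedAt q :=
    fun q hqS hq hqp => (hmin q hq hqp).1 hqS
  refine ⟨Module.finrank (ResidueField 𝒪) (H1g (primesOf Smin) (ad0D ρbar p)), fun n => ?_⟩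
  obtain ⟨qv, hinj, hqv, hfrob, hvan⟩ := TwMain9.exists_tw_primes p ρbar hp2
    (hTwP (ResidueField 𝒪) p hp2 ρbar) habs hdet hsplit hTW S Smin hpSmin hSmin hur n
  refine ⟨qv, hinj, hqv, hfrob, fun DQ => ?_⟩
  obtain ⟨b, hb, F, hF⟩ := DictSO9.exists_injective_tangent_SO p hp2 hp𝒪 ρbar hdet Smin
    (Finset.univ.image qv) hram DQ
  have hLp := hD2 (ResidueField 𝒪) p hp2 ρbar b hb
  have hcard := SelBound9.card_Sel_le p ρbar
    (hLECp (ResidueField 𝒪) p hp2 ρbar habs hdet hsplit) hEC hPT hSha hH2 hp2 habs hdet S Smin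
    hpSmin hSmin hur n qv hqv hfrob hvan _ hLp
  -- finiteness of the Selmer group
  haveI : Module.Finite (ResidueField 𝒪) (ad0 ρbar) := Ad0Facts9.moduleFinite_ad0 ρbar
  have hST : primesOf Smin ⊆ primesOf (Smin ∪ Finset.univ.image qv) := fun q hq =>
    mem_primesOf.2 (Finset.mem_union_left _ (mem_primesOf.1 hq))
  haveI : Finite (H1g (primesOf (Smin ∪ Finset.univ.image qv)) (ad0 ρbar)) :=
    FinH1g0.finite_H1g _ (hST (mem_primesOf.2 hpSmin)) (ad0 ρbar)
      (TwMain9.isDiscrete_ad0 ρbar Smin hur _ hST)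
  exact GenCount0.exists_surjective_mvPowerSeries DQ.instIsLocalHom DQ.residue_surjective F hF _
    hcard

end Fermat.Agent.W56.AssemblySO9
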