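/-
Programme W56 (S56), chapter (E1) "PT-mid", helper2.

`PTBridge2`: the bridge between level cohomology `LevelCoh28.H1 𝓑 A` of a representation over an
ARBITRARY coefficient ring and `Resolved4.Hlev1` of a `ℤ`-linear representation on an additively
isomorphic module: for an additive, equivariant bijection `e : A → Y`,

  `br : LevelCoh28.H1 𝓑 A →+ Hlev1 (basis 𝓑) ρY hY`,   `[c] ↦ [e ∘ c]`

is bijective and commutes with change of group.
-/
import Mathlib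
import Fermat.Agent.PT.PRO.LevelEquiv29
import Fermat.Agent.PT.PRO.PairingRes1
import Fermat.Agent.PT.PRO.LevelCohRes28

set_option autoImplicit false

namespace Fermat.Agent.W56.PTBridge2

open Function
open Fermat.Agent.PT.PRO Fermat.Agent.PT.PRO.HyperLevel25 Fermat.Agent.PT.PRO.Resolved4
open Fermat.Agent.PT.PRO.ExtPairing4 Fermat.Agent.PT.PRO.LevelEquiv29
open Fermat.Agent.PT.PRO.IntRep20

section Bridge

variable {k G : Type} [CommRing k] [Group G] (𝓑 : LevelCoh28.LevelBasis G) (A : Rep.{0} k G)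
variable {Y : Type} [AddCommGroup Y] (ρY : Representation ℤ G Y) (hY : IsDiscrete 𝓑.sets ρY)
variable (e : A →+ Y) (he : ∀ g a, e (A.ρ g a) = ρY g (e a))

include he in
theorem dOne_comp (c : G → A) : dOne ρY (⇑e ∘ c) = ⇑e ∘ dOne (intRep A) c := by
  funext x
  obtain ⟨g, h⟩ := x
  simp only [Function.comp_apply]
  rw [dOne_intRep]
  show ρY g (e (c h)) - e (c (g * h)) + e (c g) = _
  rw [map_add, map_sub, he]

include he in
theorem dZero_comp (a : A) : dZero ρY (e a) = ⇑e ∘ dZero (intRep A) a := by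
  funext g
  simp only [Function.comp_apply]
  rw [dZero_intRep]
  show ρY g (e a) - e a = _
  rw [map_sub, he]

/-- The class `[e ∘ c]` of a level cocycle `c`. -/
noncomputable def brZ (c : ↥(LevelCoh28.Z1 𝓑 A)) : Hlev1 (basis 𝓑) ρY hY :=
  cl1 (basis 𝓑) ρY hY (⇑e ∘ (c : G → A)) (c.2.2.comp _) (by
    rw [dOne_comp A ρY e he]
    have h : dOne (intRep A) (c : G → A) = 0 :=
      (LevelCompare13.mem_cocycles₁_iff A c.1).1 c.2.1
    rw [h]
    funext x
    exact map_zero e)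

theorem brZ_add (c c' : ↥(LevelCoh28.Z1 𝓑 A)) :
    brZ 𝓑 A ρY hY e he (c + c') = brZ 𝓑 A ρY hY e he c + brZ 𝓑 A ρY hY e he c' := by
  unfold brZ cl1
  rw [← map_add]
  congr 1
  apply Subtype.ext
  apply Subtype.ext
  funext g
  exact map_add e _ _

theorem brZ_eq_zero_of_coboundary (c : ↥(LevelCoh28.Z1 𝓑 A))
    (hc : (c : G → A) ∈ groupCohomology.coboundaries₁ A) : brZ 𝓑 A ρY hY e he c = 0 := by
  obtain ⟨a, ha⟩ := (LevelCompare13.mem_coboundaries₁_iff A c.1).1 hc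
  unfold brZ
  rw [cl1_eq_zero_iff]
  refine ⟨e a, ?_⟩
  rw [dZero_comp A ρY e he]
  funext g
  have := congrFun ha g
  simp only [Function.comp_apply]
  rw [← this]
  rfl

/-- **The bridge** `LevelCoh28.H1 𝓑 A →+ Hlev1 (basis 𝓑) ρY hY`, `[c] ↦ [e ∘ c]`. -/
noncomputable def br : LevelCoh28.H1 𝓑 A →+ Hlev1 (basis 𝓑) ρY hY :=
  QuotientAddGroup.lift
    ((groupCohomology.coboundaries₁ A).comap (LevelCoh28.Z1 𝓑 A).subtype).toAddSubgroup
    (AddMonoidHom.mk' (brZ 𝓑 A ρY hY e he) (brZ_add 𝓑 A ρY hY e he))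
    (fun c hc => brZ_eq_zero_of_coboundary 𝓑 A ρY hY e he c hc)

theorem br_mk (c : ↥(LevelCoh28.Z1 𝓑 A)) :
    br 𝓑 A ρY hY e he (LevelCoh28.H1mk 𝓑 A c) = brZ 𝓑 A ρY hY e he c := rfl

theorem br_injective (hinj : Injective e) (hsurj : Surjective e) :
    Injective (br 𝓑 A ρY hY e he) := by
  rw [injective_iff_map_eq_zero]
  intro x hx
  obtain ⟨c, rfl⟩ := LevelCoh28.H1mk_surjective 𝓑 A x
  rw [br_mk] at hx
  unfold brZ at hx
  rw [cl1_eq_zero_iff] at hx
  obtain ⟨y, hy⟩ := hx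
  obtain ⟨a, rfl⟩ := hsurj y
  rw [LevelCoh28.H1mk_eq_zero_iff, LevelCompare13.mem_coboundaries₁_iff]
  refine ⟨a, ?_⟩
  funext g
  apply hinj
  have := congrFun hy g
  rw [dZero_comp A ρY e he] at this
  exact this

theorem br_surjective (hinj : Injective e) (hsurj : Surjective e) :
    Surjective (br 𝓑 A ρY hY e he) := by
  intro w
  obtain ⟨x, hl, hc, rfl⟩ := cl1_surjective w
  have hex : ∀ g, ∃ a, e a = x g := fun g => hsurj (x g)
  choose c hc' using hex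
  have hcx : ⇑e ∘ c = x := funext hc'
  have hlev : LevelCoh28.IsLevel₁ 𝓑.sets c := by
    obtain ⟨U, hU, h⟩ := hl
    refine ⟨U, hU, fun g s hs => ?_⟩
    apply hinj
    rw [hc', hc']
    exact h g s hs
  have hcoc : dOne (intRep A) c = 0 := by
    funext z
    apply hinj
    have h1 := congrFun (dOne_comp A ρY e he c) z
    rw [hcx, hc] at h1
    simp only [Function.comp_apply] at h1
    rw [← h1]
    simp
  refine ⟨LevelCoh28.H1mk 𝓑 A ⟨c, (LevelCompare13.mem_cocycles₁_iff A c).2 hcoc, hlev⟩, ?_⟩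
  rw [br_mk]
  unfold brZ
  congr 1

/-! ### Degree 2 -/

include he in
theorem dTwo_comp (c : G × G → A) : dTwo ρY (⇑e ∘ c) = ⇑e ∘ dTwo (intRep A) c := by
  funext x
  obtain ⟨g, h, j⟩ := x
  simp only [Function.comp_apply]
  rw [dTwo_intRep]
  show ρY g (e (c (h, j))) - e (c (g * h, j)) + e (c (g, h * j)) - e (c (g, h)) = _
  rw [map_sub, map_add, map_sub, he]

/-- The class `[e ∘ c]` of a level 2-cocycle `c`. -/
noncomputable def brZ2 (c : ↥(LevelCoh28.Z2 𝓑 A)) : Hlev2 (basis 𝓑) ρY hY :=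
  cl2 (basis 𝓑) ρY hY (⇑e ∘ (c : G × G → A))
    (((LevelCompare13.isLevel₂_iff (c : G × G → A)).1 c.2.2).comp _) (by
    rw [dTwo_comp A ρY e he]
    have h : dTwo (intRep A) (c : G × G → A) = 0 :=
      (LevelCompare13.mem_cocycles₂_iff A c.1).1 c.2.1
    rw [h]
    funext x
    exact map_zero e)

theorem brZ2_add (c c' : ↥(LevelCoh28.Z2 𝓑 A)) :
    brZ2 𝓑 A ρY hY e he (c + c') = brZ2 𝓑 A ρY hY e he c + brZ2 𝓑 A ρY hY e he c' := by
  unfold brZ2 cl2
  rw [← map_add]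
  congr 1
  apply Subtype.ext
  apply Subtype.ext
  funext g
  exact map_add e _ _

theorem brZ2_eq_zero_of_B2 (c : ↥(LevelCoh28.Z2 𝓑 A))
    (hc : (c : G × G → A) ∈ LevelCoh28.B2 𝓑 A) : brZ2 𝓑 A ρY hY e he c = 0 := by
  obtain ⟨b, hb, hbc⟩ := (LevelCoh28.mem_B2_iff 𝓑 A (c : G × G → A)).1 hc
  unfold brZ2
  rw [cl2_eq_zero_iff]
  refine ⟨⇑e ∘ b, hb.comp _, ?_⟩
  rw [dOne_comp A ρY e he]
  have h : dOne (intRep A) b = (c : G × G → A) := by
    rw [← hbc]
    exact LevelCompare13.dOne_eq A b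
  rw [h]

/-- **The bridge in degree 2** `LevelCoh28.H2 𝓑 A →+ Hlev2 (basis 𝓑) ρY hY`, `[c] ↦ [e ∘ c]`. -/
noncomputable def br2 : LevelCoh28.H2 𝓑 A →+ Hlev2 (basis 𝓑) ρY hY :=
  QuotientAddGroup.lift
    ((LevelCoh28.B2 𝓑 A).comap (LevelCoh28.Z2 𝓑 A).subtype).toAddSubgroup
    (AddMonoidHom.mk' (brZ2 𝓑 A ρY hY e he) (brZ2_add 𝓑 A ρY hY e he))
    (fun c hc => brZ2_eq_zero_of_B2 𝓑 A ρY hY e he c hc)

theorem br2_mk (c : ↥(LevelCoh28.Z2 𝓑 A)) :
    br2 𝓑 A ρY hY e he (LevelCoh28.H2mk 𝓑 A c) = brZ2 𝓑 A ρY hY e he c := rfl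

theorem br2_injective (hinj : Injective e) (hsurj : Surjective e) :
    Injective (br2 𝓑 A ρY hY e he) := by
  rw [injective_iff_map_eq_zero]
  intro x hx
  obtain ⟨c, rfl⟩ := LevelCoh28.H2mk_surjective 𝓑 A x
  rw [br2_mk] at hx
  unfold brZ2 at hx
  rw [cl2_eq_zero_iff] at hx
  obtain ⟨b', hb', hbc⟩ := hx
  have hex : ∀ g, ∃ a, e a = b' g := fun g => hsurj (b' g)
  choose b hb using hex
  have hbb : ⇑e ∘ b = b' := funext hb
  have hlev : LevelCoh28.IsLevel₁ 𝓑.sets b := by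
    obtain ⟨U, hU, h⟩ := hb'
    refine ⟨U, hU, fun g s hs => ?_⟩
    apply hinj
    rw [hb, hb]
    exact h g s hs
  rw [LevelCoh28.H2mk_eq_zero_iff, LevelCoh28.mem_B2_iff]
  refine ⟨b, hlev, ?_⟩
  rw [← LevelCompare13.dOne_eq A b]
  funext z
  apply hinj
  have h1 := congrFun (dOne_comp A ρY e he b) z
  rw [hbb, hbc] at h1
  exact h1.symm

theorem br2_surjective (hinj : Injective e) (hsurj : Surjective e) :
    Surjective (br2 𝓑 A ρY hY e he) := by
  intro w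
  obtain ⟨x, hl, hc, rfl⟩ := cl2_surjective w
  have hex : ∀ g, ∃ a, e a = x g := fun g => hsurj (x g)
  choose c hc' using hex
  have hcx : ⇑e ∘ c = x := funext hc'
  have hlev : HyperLevel25.IsLevel₂ 𝓑.sets c := by
    obtain ⟨U, hU, h⟩ := hl
    refine ⟨U, hU, fun g g' s s' hs hs' => ?_⟩
    apply hinj
    rw [hc', hc']
    exact h g g' s s' hs hs'
  have hcoc : dTwo (intRep A) c = 0 := by
    funext z
    apply hinj
    have h1 := congrFun (dTwo_comp A ρY e he c) z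
    rw [hcx, hc] at h1
    simp only [Function.comp_apply] at h1
    rw [← h1]
    simp
  refine ⟨LevelCoh28.H2mk 𝓑 A ⟨c, (LevelCompare13.mem_cocycles₂_iff A c).2 hcoc,
    (LevelCompare13.isLevel₂_iff c).2 hlev⟩, ?_⟩
  rw [br2_mk]
  unfold brZ2
  congr 1

end Bridge

section Naturality

variable {k G G' : Type} [CommRing k] [Group G] [Group G']
variable (𝓑 : LevelCoh28.LevelBasis G) (𝓑' : LevelCoh28.LevelBasis G') (f : G' →* G)
  (hf : LevelCohRes28.IsLevelHom f 𝓑'.sets 𝓑.sets)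
variable (A : Rep.{0} k G) {Y : Type} [AddCommGroup Y] (ρY : Representation ℤ G Y)
  (hY : IsDiscrete 𝓑.sets ρY) (ρY' : Representation ℤ G' Y) (hY' : IsDiscrete 𝓑'.sets ρY')
  (hρ : ∀ g y, ρY (f g) y = ρY' g y)
variable (e : A →+ Y) (he : ∀ g a, e (A.ρ g a) = ρY g (e a))

/-- **The bridge commutes with change of group.** -/
theorem br_res (he' : ∀ (g : G') (a : (Rep.res f A)), e ((Rep.res f A).ρ g a) = ρY' g (e a))
    (x : LevelCoh28.H1 𝓑 A) :
    br 𝓑' (Rep.res f A) ρY' hY' e he'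
        (LevelCohRes28.ppH1 f (LinearMap.id : A →ₗ[k] Rep.res f A) (fun _ _ => rfl) hf x) =
      PairingRes1.resH1 (isLevelHom_iff.1 hf) (basis 𝓑) (basis 𝓑') hY hY' LinearMap.id
        (fun g y => hρ g y) (br 𝓑 A ρY hY e he x) := by
  obtain ⟨c, rfl⟩ := LevelCoh28.H1mk_surjective 𝓑 A x
  rw [LevelCohRes28.ppH1_mk, br_mk, br_mk]
  unfold brZ
  rw [PairingRes1.resH1_cl1]
  rfl

/-- **The degree 2 bridge commutes with change of group.** -/
theorem br2_res (he' : ∀ (g : G') (a : (Rep.res f A)), e ((Rep.res f A).ρ g a) = ρY' g (e a))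
    (x : LevelCoh28.H2 𝓑 A) :
    br2 𝓑' (Rep.res f A) ρY' hY' e he'
        (LevelCohRes28.ppH2 f (LinearMap.id : A →ₗ[k] Rep.res f A) (fun _ _ => rfl) hf x) =
      PairingRes1.resH2 (isLevelHom_iff.1 hf) (basis 𝓑) (basis 𝓑') hY hY' LinearMap.id
        (fun g y => hρ g y) (br2 𝓑 A ρY hY e he x) := by
  obtain ⟨c, rfl⟩ := LevelCoh28.H2mk_surjective 𝓑 A x
  rw [LevelCohRes28.ppH2_mk, br2_mk, br2_mk]
  unfold brZ2
  rw [PairingRes1.resH2_cl2]
  rfl

end Naturality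

end Fermat.Agent.W56.PTBridge2
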