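/-
Programme W56 (S56), chapter (E1) "PT-mid", helper2.

`PTDefs2`: **(PT-mid-onto), pairing-free consumer form, in the vocabulary of `W56/Defs9`**
(`LevelCoh28.H1` for the bases `LevelBridge13.globalBasis T`, `pullBasis (primeLocalToGlobal q)`),
for coefficients in a finite field `k` of characteristic `p`:

if every class of `H¹(G_T, N^∨(1))` that is trivial at the primes of `T ∖ T₀` vanishes, then
`H¹(G_T, N) → ∏_{q ∈ T₀} H¹(Γ_q, N)` is onto.
-/
import Fermat.Agent.W56.PTMid2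
import Fermat.Agent.W56.PTBridge2
import Fermat.Agent.W56.TraceDual2
import Fermat.Agent.W56.Defs9
import Fermat.Agent.PT.GLUE.BasisCompare13

set_option autoImplicit false
open CategoryTheory Module groupCohomology ExtCitation
open Fermat.Agent.PT Fermat.Agent.PT.PRO Fermat.Agent.PT.GLUE Fermat.Agent.PT.GLUE.Objects21
open Fermat.Agent.PT.PRO.HyperLevel25 Fermat.Agent.PT.PRO.Resolved4
open Fermat.Agent.PT.PRO.HyperRes25 Fermat.Agent.PT.PRO.PairingRes1
open Fermat.Agent.PT.PRO.IntRep20 Fermat.Agent.PT.PRO.LevelEquiv29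
open Fermat.Agent.PT.GLUE.LocS2_29
open Fermat.Agent.PT.PRO.IndRes20 Fermat.Agent.PT.PRO.Setup20 Fermat.Agent.PT.PRO.Objects20
open Fermat.Agent.W56.TraceDual2 Fermat.Agent.W56.PTBridge2

namespace Fermat.Agent.W56.PTDefs2

local notation "Γ" => (AlgebraicClosure ℚ ≃ₐ[ℚ] AlgebraicClosure ℚ)

/-! ### Generic bases -/

section Generic

variable {k : Type} [CommRing k] {G : Type} [Group G] {ι : Type} {Gq : ι → Type}
  [∀ q, Group (Gq q)]
variable (r : ∀ q, Gq q →* G) (𝓑 : LevelCoh28.LevelBasis G)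
  (𝓑q : ∀ q, LevelCoh28.LevelBasis (Gq q))
variable (hf : ∀ q, LevelCohRes28.IsLevelHom (r q) (𝓑q q).sets 𝓑.sets)

/-- Restriction `H¹(G, A) → H¹(G_q, A)` for arbitrary level bases. -/
noncomputable def res1 (A : Rep.{0} k G) (q : ι) :
    LevelCoh28.H1 𝓑 A →ₗ[k] LevelCoh28.H1 (𝓑q q) (Rep.res (r q) A) :=
  LevelCohRes28.ppH1 (𝓑G := 𝓑q q) (𝓑H := 𝓑) (r q)
    (LinearMap.id : A →ₗ[k] Rep.res (r q) A) (fun _ _ => rfl) (hf q)

/-- `H¹(G, A) → ∏_{q ∈ T₀} H¹(G_q, A)` is onto. -/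
def Onto (A : Rep.{0} k G) (T₀ : ι → Prop) : Prop :=
  ∀ w : ∀ q, LevelCoh28.H1 (𝓑q q) (Rep.res (r q) A),
    ∃ x : LevelCoh28.H1 𝓑 A, ∀ q, T₀ q → res1 r 𝓑 𝓑q hf A q x = w q

/-- A class of `H¹(G, A)` that is trivial at all `q ∈ T₁` vanishes. -/
def Van (A : Rep.{0} k G) (T₁ : ι → Prop) : Prop :=
  ∀ y : LevelCoh28.H1 𝓑 A, (∀ q, T₁ q → res1 r 𝓑 𝓑q hf A q y = 0) → y = 0

/-- The local `H¹(G_q, A)`, `q ∈ T₀`, are finite. -/
def FinLoc (A : Rep.{0} k G) (T₀ : ι → Prop) : Prop :=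
  ∀ q, T₀ q → Finite (LevelCoh28.H1 (𝓑q q) (Rep.res (r q) A))

theorem Onto.congr {𝓑 𝓑' : LevelCoh28.LevelBasis G} (e : 𝓑 = 𝓑')
    {𝓑q 𝓑q' : ∀ q, LevelCoh28.LevelBasis (Gq q)} (eq : 𝓑q = 𝓑q')
    (hf : ∀ q, LevelCohRes28.IsLevelHom (r q) (𝓑q q).sets 𝓑.sets)
    (hf' : ∀ q, LevelCohRes28.IsLevelHom (r q) (𝓑q' q).sets 𝓑'.sets)
    (A : Rep.{0} k G) (T₀ : ι → Prop) (h : Onto r 𝓑 𝓑q hf A T₀) : Onto r 𝓑' 𝓑q' hf' A T₀ := by
  subst e
  subst eq
  exact h

theorem Van.congr {𝓑 𝓑' : LevelCoh28.LevelBasis G} (e : 𝓑 = 𝓑')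
    {𝓑q 𝓑q' : ∀ q, LevelCoh28.LevelBasis (Gq q)} (eq : 𝓑q = 𝓑q')
    (hf : ∀ q, LevelCohRes28.IsLevelHom (r q) (𝓑q q).sets 𝓑.sets)
    (hf' : ∀ q, LevelCohRes28.IsLevelHom (r q) (𝓑q' q).sets 𝓑'.sets)
    (A : Rep.{0} k G) (T₁ : ι → Prop) (h : Van r 𝓑 𝓑q hf A T₁) : Van r 𝓑' 𝓑q' hf' A T₁ := by
  subst e
  subst eq
  exact h

theorem FinLoc.congr {𝓑q 𝓑q' : ∀ q, LevelCoh28.LevelBasis (Gq q)} (eq : 𝓑q = 𝓑q')
    (A : Rep.{0} k G) (T₀ : ι → Prop) (h : FinLoc r 𝓑q A T₀) : FinLoc r 𝓑q' A T₀ := by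
  subst eq
  exact h

end Generic

/-! ### The arithmetic case, bases `levelS S`, `levelLoc q` -/

section Arith

variable {k : Type} [Field k] [Finite k] {p : ℕ} [Fact p.Prime] [CharP k p]

/-- The local maps `Γ_q → Γ`, `q ∈ S`. -/
noncomputable abbrev rS (S : Finset Nat.Primes) : ∀ q : ↥S, primeLocalGaloisGroup q.1 →* Γ :=
  fun q => primeLocalToGlobal q.1

/-- The local level bases. -/
noncomputable abbrev locBasis (S : Finset Nat.Primes) :
    ∀ q : ↥S, LevelCoh28.LevelBasis (primeLocalGaloisGroup q.1) :=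
  fun q => (levelLoc ((q : Nat.Primes) : ℕ) :
    LevelCoh28.LevelBasis (primeLocalGaloisGroup q.1))

theorem hfS (S : Finset Nat.Primes) (q : ↥S) :
    LevelCohRes28.IsLevelHom (rS S q) (locBasis S q).sets (levelS S).sets :=
  isLevelHom_iff.2 (isLevelHom_loc S ((q : Nat.Primes) : ℕ))

variable (p) in
/-- `N ↦ N^∨(1)` over `k`. -/
noncomputable abbrev dualK (N : Rep.{0} k Γ) : Rep.{0} k Γ :=
  N.dualTwist (chiK (k := k) p (cycloChar p))

theorem onto_levelS (hp2 : p ≠ 2) (S : Finset Nat.Primes) (hpS : pPrime p ∈ S)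
    (N : Rep.{0} k Γ) [FiniteDimensional k N]
    (hsm : ∀ m : N, ∃ F : IntermediateField ℚ (AlgebraicClosure ℚ), FiniteDimensional ℚ F ∧
      ∀ s ∈ F.fixingSubgroup, N.ρ s m = m)
    (hMur : ∀ q : Nat.Primes, q ∉ S → ∀ A : ValuationSubring (AlgebraicClosure ℚ),
      A.LiesOverPrime (q : ℕ) → ∀ g ∈ A.inertiaSubgroupIn ℚ, N.ρ g = 1)
    (T₀ : ↥S → Prop)
    (hfin : FinLoc (rS S) (locBasis S) N T₀)
    (hvan : Van (rS S) (levelS S) (locBasis S) (hfS S) (dualK p N) (fun q => ¬ T₀ q)) :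
    Onto (rS S) (levelS S) (locBasis S) (hfS S) N T₀ := by
  classical
  intro w
  have hfdN₀ : FiniteDimensional (ZMod p) (resScal p N) := finiteDimensional_resScal p N
  have hsm₀ : ∀ m : resScal p N, ∃ F : IntermediateField ℚ (AlgebraicClosure ℚ),
      FiniteDimensional ℚ F ∧ ∀ s ∈ F.fixingSubgroup, (resScal p N).ρ s m = m := fun m => hsm m
  have hMur₀ : ∀ q : Nat.Primes, q ∉ S → ∀ A : ValuationSubring (AlgebraicClosure ℚ),
      A.LiesOverPrime (q : ℕ) → ∀ g ∈ A.inertiaSubgroupIn ℚ, (resScal p N).ρ g = 1 := by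
    intro q hq A hA g hg
    have h := hMur q hq A hA g hg
    ext n
    show N.ρ g n = n
    rw [h]; rfl
  -- the dual-Selmer-side module `M = (N₀)^∨(1)` over `𝔽_p`
  have hsmM := BR.DualTwist7.smooth_dualTwist (resScal p N) hsm₀
  have hMurM := BR.DualTwist7.unram_dualTwist (resScal p N) hpS hMur₀
  have hfdM : FiniteDimensional (ZMod p) ((resScal p N).dualTwist (cycloChar p)) :=
    BR.DualTwist7.finiteDimensional_dualTwist (resScal p N)
  have hfdA : FiniteDimensional (ZMod p)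
      (((resScal p N).dualTwist (cycloChar p)).dualTwist (cycloChar p)) :=
    BR.DualTwist7.finiteDimensional_dualTwist ((resScal p N).dualTwist (cycloChar p))
  have hfinA : Finite (((resScal p N).dualTwist (cycloChar p)).dualTwist (cycloChar p)) :=
    Module.finite_of_finite (ZMod p)
  have hM : IsDiscrete (levelS S).sets
      (IntRep20.intRep ((resScal p N).dualTwist (cycloChar p))) :=
    FinH1S55_9.isDiscrete_intRep_self S hpS _ hsmM hMurM
  have hA : IsDiscrete (levelS S).sets (IntRep20.intRep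
      (((resScal p N).dualTwist (cycloChar p)).dualTwist (cycloChar p))) :=
    FinH1S55_9.isDiscrete_intRep_dualTwist S hpS _ hsmM hMurM
  have h0 : IsDiscrete (levelS S).sets
      (PTMid2.RA ((resScal p N).dualTwist (cycloChar p))).ρ0 :=
    FreeRes29.isDiscrete_freeRep (basis (levelS S)) hA
  -- bridges, Selmer side
  have heG : ∀ (g : Γ) (a : N), ddual p N (cycloChar p) (N.ρ g a) =
      (toResolved (PTMid2.RA ((resScal p N).dualTwist (cycloChar p))) h0).ρM g
        (ddual p N (cycloChar p) a) := fun g a => ddual_ρ p N (cycloChar p) g a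
  have heL : ∀ (q : ↥S) (g : primeLocalGaloisGroup q.1) (a : Rep.res (rS S q) N),
      ddual p N (cycloChar p) ((Rep.res (rS S q) N).ρ g a) =
      (toResolved ((PTMid2.RA ((resScal p N).dualTwist (cycloChar p))).comap
          (localGaloisToGlobal ((q : Nat.Primes) : ℕ)))
        (comap_disc0 (PTMid2.RA ((resScal p N).dualTwist (cycloChar p))) h0 _
          (isLevelHom_loc S ((q : Nat.Primes) : ℕ)))).ρM g (ddual p N (cycloChar p) a) :=
    fun q g a => ddual_ρ p N (cycloChar p) (rS S q g) a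
  have hbij := ddual_bijective p N (cycloChar p)
  obtain ⟨x', hx'⟩ := PTMid2.ptMid_onto_dual hp2 S hpS ((resScal p N).dualTwist (cycloChar p))
    h0 hM T₀
    (fun q hq => by
      have := hfin q hq
      exact Finite.of_surjective _ (br_surjective (locBasis S q) (Rep.res (rS S q) N) _ _
        (ddual p N (cycloChar p)) (heL q) hbij.1 hbij.2))
    (fun _ => ⊥)
    (by
      intro y h1 _ q hq
      have htr := trDual_bijective p N
      have heG' : ∀ (g : Γ) (a : dualK p N), trDual p N ((dualK p N).ρ g a) =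
          (KerIso7.intRep KerIso7.intSurj_int ((resScal p N).dualTwist (cycloChar p)).ρ) g
            (trDual p N a) := fun g a => trDual_ρ p N (cycloChar p) g a
      have heL' : ∀ (q : ↥S) (g : primeLocalGaloisGroup q.1)
          (a : Rep.res (rS S q) (dualK p N)),
          trDual p N ((Rep.res (rS S q) (dualK p N)).ρ g a) =
          (KerIso7.intRep KerIso7.intSurj_int (((resScal p N).dualTwist (cycloChar p)).ρ.comp
            (localGaloisToGlobal ((q : Nat.Primes) : ℕ)))) g (trDual p N a) :=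
        fun q g a => trDual_ρ p N (cycloChar p) (rS S q g) a
      obtain ⟨y₀, rfl⟩ := br_surjective (levelS S) (dualK p N)
        (KerIso7.intRep KerIso7.intSurj_int ((resScal p N).dualTwist (cycloChar p)).ρ)
        (KerIso7.isDiscrete_intRep KerIso7.intSurj_int hM) (trDual p N) heG' htr.1 htr.2 y
      have hy₀ : y₀ = 0 := hvan y₀ (fun q' hq' => by
        apply br_injective (locBasis S q') (Rep.res (rS S q') (dualK p N))
          (KerIso7.intRep KerIso7.intSurj_int (((resScal p N).dualTwist (cycloChar p)).ρ.comp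
            (localGaloisToGlobal ((q' : Nat.Primes) : ℕ))))
          (KerIso7.isDiscrete_intRep KerIso7.intSurj_int
            (IsLevelHom.isDiscrete (isLevelHom_loc S ((q' : Nat.Primes) : ℕ)) hM))
          (trDual p N) (heL' q') htr.1 htr.2
        rw [map_zero]
        refine (br_res (levelS S) (locBasis S q') (rS S q') (hfS S q') (dualK p N) _
          (KerIso7.isDiscrete_intRep KerIso7.intSurj_int hM) _ _
          (fun _ _ => rfl) _ heG' (heL' q') y₀).trans ?_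
        exact h1 q' hq')
      rw [hy₀, map_zero]
      exact map_zero _)
    (fun q => br (locBasis S q) (Rep.res (rS S q) N) _ _ (ddual p N (cycloChar p)) (heL q) (w q))
  obtain ⟨x, rfl⟩ := br_surjective (levelS S) N _ _ (ddual p N (cycloChar p)) heG hbij.1 hbij.2 x'
  refine ⟨x, fun q hq => ?_⟩
  apply br_injective (locBasis S q) (Rep.res (rS S q) N) _ _ (ddual p N (cycloChar p)) (heL q)
    hbij.1 hbij.2
  have h1 := hx' q hq
  rw [AddSubgroup.mem_bot, sub_eq_zero] at h1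
  rw [← h1]
  exact br_res (levelS S) (locBasis S q) (rS S q) (hfS S q) N _ _ _ _ (fun _ _ => rfl) _ heG
    (heL q) x

open Fermat.Agent.W56.Defs9 Fermat.Agent.PT.BR Fermat.Agent.PT.BR.LevelBridge13 in
/-- **(PT-mid-onto), pairing-free, in `Defs9` vocabulary.**  `k` a finite field of characteristic
`p ≠ 2`, `N` a finite-dimensional representation of `Γ` over `k`, smooth and unramified outside `T`
(`p ∈ T`), `T₀ ⊆ T` with finite local `H¹`.  If every class of `H¹(G_T, N^∨(1))` which is trivial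
at all primes of `T ∖ T₀` vanishes, then `H¹(G_T, N) → ∏_{q ∈ T₀} H¹(Γ_q, N)` is onto. -/
theorem ptMid_onto (hp2 : p ≠ 2) (T : Finset Nat.Primes) (hpT : pPrime p ∈ T)
    (N : Rep.{0} k Γ) [FiniteDimensional k N]
    (hsm : ∀ m : N, ∃ F : IntermediateField ℚ (AlgebraicClosure ℚ), FiniteDimensional ℚ F ∧
      ∀ s ∈ F.fixingSubgroup, N.ρ s m = m)
    (hMur : ∀ q : Nat.Primes, q ∉ T → ∀ A : ValuationSubring (AlgebraicClosure ℚ),
      A.LiesOverPrime (q : ℕ) → ∀ g ∈ A.inertiaSubgroupIn ℚ, N.ρ g = 1)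
    (T₀ : Finset Nat.Primes) (hT₀ : T₀ ⊆ T)
    (hfin : ∀ q ∈ T₀, Finite (H1D N q))
    (hvan : ∀ y : H1g T (N.dualTwist (cycloK (k := k) p)),
      (∀ q ∈ T, q ∉ T₀ → resD T (N.dualTwist (cycloK (k := k) p)) q y = 0) → y = 0)
    (w : ∀ q : Nat.Primes, H1D N q) :
    ∃ x : H1g T N, ∀ q ∈ T₀, resD T N q x = w q := by
  have e1 : levelS T = globalBasis T := (BasisCompare13.globalBasis_eq T).symm
  have e2 : locBasis T = fun q : ↥T => pullBasis (primeLocalToGlobal q.1) :=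
    funext fun q => (BasisCompare13.pullBasis_prime_eq q.1).symm
  have hfin' : FinLoc (rS T) (locBasis T) N (fun q => q.1 ∈ T₀) :=
    FinLoc.congr (rS T) e2.symm N _ (fun q hq => hfin q.1 hq)
  have hvan' : Van (rS T) (levelS T) (locBasis T) (hfS T) (dualK p N) (fun q => ¬ q.1 ∈ T₀) :=
    Van.congr (rS T) e1.symm e2.symm
      (fun q : ↥T => ShaBridge13.isLevelHom_pull T (primeLocalToGlobal q.1)) (hfS T)
      (dualK p N) _ (fun y hy => hvan y (fun q hqT hq => hy ⟨q, hqT⟩ hq))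
  have key := Onto.congr (rS T) e1 e2 (hfS T)
    (fun q : ↥T => ShaBridge13.isLevelHom_pull T (primeLocalToGlobal q.1)) N _
    (onto_levelS hp2 T hpT N hsm hMur _ hfin' hvan')
  obtain ⟨x, hx⟩ := key (fun q => w q.1)
  exact ⟨x, fun q hq => hx ⟨q, hT₀ hq⟩ hq⟩

end Arith

end Fermat.Agent.W56.PTDefs2
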