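/-
Programme W56 (S56), chapter (E1)/(E2), helper2.

`Sha2Van2`: **`Ш²(N) = 0` from `Ш¹(N^∨(1)) = 0`**, in the vocabulary of `W56/Defs9`, coefficients in
a finite field `k` of characteristic `p ≠ 2`: if every class of `H¹(G_T, N^∨(1))` that is trivial
at ALL primes of `T` vanishes, then `H²(G_T, N) → ∏_{q ∈ T} H²(Γ_q, N)` is injective.
(Restriction of scalars to `𝔽_p` + `PT/PRO/MainFinal4.main`, i.e. the count of S55.)
-/
import Fermat.Agent.W56.PTDefs2

set_option autoImplicit false
open CategoryTheory Module groupCohomology ExtCitation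
open Fermat.Agent.PT Fermat.Agent.PT.PRO Fermat.Agent.PT.GLUE Fermat.Agent.PT.GLUE.Objects21
open Fermat.Agent.PT.PRO.HyperLevel25 Fermat.Agent.PT.PRO.Resolved4
open Fermat.Agent.PT.PRO.HyperRes25 Fermat.Agent.PT.PRO.PairingRes1
open Fermat.Agent.PT.PRO.IntRep20 Fermat.Agent.PT.PRO.LevelEquiv29
open Fermat.Agent.PT.BR Fermat.Agent.PT.BR.LevelBridge13
open Fermat.Agent.W56.TraceDual2 Fermat.Agent.W56.PTBridge2 Fermat.Agent.W56.Defs9

namespace Fermat.Agent.W56.Sha2Van2

local notation "Γ" => (AlgebraicClosure ℚ ≃ₐ[ℚ] AlgebraicClosure ℚ)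

variable {k : Type} [Field k] [Finite k] {p : ℕ} [Fact p.Prime] [CharP k p]

/-- **`Ш²(N) = 0` from `Ш¹(N^∨(1)) = 0`.** -/
theorem sha2_injective (hp2 : p ≠ 2) (T : Finset Nat.Primes) (hpT : pPrime p ∈ T)
    (N : Rep.{0} k Γ) [FiniteDimensional k N]
    (hsm : ∀ m : N, ∃ F : IntermediateField ℚ (AlgebraicClosure ℚ), FiniteDimensional ℚ F ∧
      ∀ s ∈ F.fixingSubgroup, N.ρ s m = m)
    (hMur : ∀ q : Nat.Primes, q ∉ T → ∀ A : ValuationSubring (AlgebraicClosure ℚ),
      A.LiesOverPrime (q : ℕ) → ∀ g ∈ A.inertiaSubgroupIn ℚ, N.ρ g = 1)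
    (hvan : ∀ y : H1g T (N.dualTwist (cycloK (k := k) p)),
      (∀ q ∈ T, resD T (N.dualTwist (cycloK (k := k) p)) q y = 0) → y = 0)
    (x : LevelCoh28.H2 (globalBasis T) N)
    (hx : ∀ q ∈ T, ShaBridge13.resH2 T (primeLocalToGlobal q) N x = 0) : x = 0 := by
  classical
  have hfdN₀ : FiniteDimensional (ZMod p) (resScal p N) := finiteDimensional_resScal p N
  have hsm₀ : ∀ m : resScal p N, ∃ F : IntermediateField ℚ (AlgebraicClosure ℚ),
      FiniteDimensional ℚ F ∧ ∀ s ∈ F.fixingSubgroup, (resScal p N).ρ s m = m := fun m => hsm m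
  have hMur₀ : ∀ q : Nat.Primes, q ∉ T → ∀ A : ValuationSubring (AlgebraicClosure ℚ),
      A.LiesOverPrime (q : ℕ) → ∀ g ∈ A.inertiaSubgroupIn ℚ, (resScal p N).ρ g = 1 := by
    intro q hq A hA g hg
    have h := hMur q hq A hA g hg
    ext n
    show N.ρ g n = n
    rw [h]; rfl
  have hfdA : FiniteDimensional (ZMod p) ((resScal p N).dualTwist (cycloChar p)) :=
    BR.DualTwist7.finiteDimensional_dualTwist (resScal p N)
  have hfinA : Finite ((resScal p N).dualTwist (cycloChar p)) :=
    Module.finite_of_finite (ZMod p)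
  obtain ⟨hfd1, hfd2, hrank⟩ := MainFinal4.main hp2 T hpT (resScal p N) hsm₀ hMur₀
    ((resScal p N).dualTwist (cycloChar p)) rfl
    (GLOB.LocalInjMain14.localInjectivity p T)
    (fun h0 q => GLUE.LocHyperFinal13.s1At T _ _ _ _ _ _ _ h0)
    (fun h0 q => GLUE.LocHyperFinal13.s2hAt T _ _ _ _ _ _ _ h0)
  -- discreteness for the basis `globalBasis T`
  have eB : globalBasis T = levelS T := BasisCompare13.globalBasis_eq T
  have hN₀ : IsDiscrete (globalBasis T).sets (IntRep20.intRep (resScal p N)) := by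
    rw [eB]
    exact FinH1S55_9.isDiscrete_intRep_self T hpT _ hsm₀ hMur₀
  have hA : IsDiscrete (globalBasis T).sets
      (IntRep20.intRep ((resScal p N).dualTwist (cycloChar p))) := by
    rw [eB]
    exact FinH1S55_9.isDiscrete_intRep_dualTwist T hpT _ hsm₀ hMur₀
  have hlh : ∀ q : Nat.Primes, HyperRes25.IsLevelHom (primeLocalToGlobal q)
      (pullBasis (primeLocalToGlobal q)).sets (globalBasis T).sets :=
    fun q => isLevelHom_iff.1 (ShaBridge13.isLevelHom_pull T (primeLocalToGlobal q))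
  have htr := trDual_bijective p N
  -- Step 1: `ker locH1 = 0`
  have h1 : ∀ y₀ : LevelCoh28.H1 (globalBasis T) ((resScal p N).dualTwist (cycloChar p)),
      (∀ q : ↥T, ShaBridge13.resH1 T (primeLocalToGlobal q.1)
        ((resScal p N).dualTwist (cycloChar p)) y₀ = 0) → y₀ = 0 := by
    intro y₀ hy₀
    have heD : ∀ (g : Γ) (a : N.dualTwist (cycloK (k := k) p)),
        trDual p N ((N.dualTwist (cycloK (k := k) p)).ρ g a) =
          (IntRep20.intRep ((resScal p N).dualTwist (cycloChar p))) g (trDual p N a) :=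
      fun g a => trDual_ρ p N (cycloChar p) g a
    obtain ⟨y, hy⟩ := br_surjective (globalBasis T) (N.dualTwist (cycloK (k := k) p))
      (IntRep20.intRep ((resScal p N).dualTwist (cycloChar p))) hA (trDual p N) heD htr.1 htr.2
      (br (globalBasis T) ((resScal p N).dualTwist (cycloChar p)) _ hA (AddMonoidHom.id _)
        (fun _ _ => rfl) y₀)
    have hy0 : y = 0 := hvan y (fun q hq => by
      apply br_injective (pullBasis (primeLocalToGlobal q))
        (Rep.res (primeLocalToGlobal q) (N.dualTwist (cycloK (k := k) p)))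
        ((IntRep20.intRep ((resScal p N).dualTwist (cycloChar p))).comp (primeLocalToGlobal q))
        (IsLevelHom.isDiscrete (hlh q) hA) (trDual p N)
        (fun g a => heD (primeLocalToGlobal q g) a) htr.1 htr.2
      rw [map_zero]
      refine (br_res (globalBasis T) (pullBasis (primeLocalToGlobal q)) (primeLocalToGlobal q)
        (ShaBridge13.isLevelHom_pull T (primeLocalToGlobal q)) (N.dualTwist (cycloK (k := k) p))
        _ hA _ (IsLevelHom.isDiscrete (hlh q) hA) (fun _ _ => rfl) (trDual p N) heD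
        (fun g a => heD (primeLocalToGlobal q g) a) y).trans ?_
      rw [hy]
      refine (br_res (globalBasis T) (pullBasis (primeLocalToGlobal q)) (primeLocalToGlobal q)
        (ShaBridge13.isLevelHom_pull T (primeLocalToGlobal q))
        ((resScal p N).dualTwist (cycloChar p))
        _ hA _ (IsLevelHom.isDiscrete (hlh q) hA) (fun _ _ => rfl) (AddMonoidHom.id _)
        (fun _ _ => rfl) (fun _ _ => rfl) y₀).symm.trans ?_
      have := hy₀ ⟨q, hq⟩
      unfold ShaBridge13.resH1 at this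
      rw [this, map_zero])
    rw [hy0, map_zero] at hy
    exact br_injective (globalBasis T) ((resScal p N).dualTwist (cycloChar p)) _ hA
      (AddMonoidHom.id _) (fun _ _ => rfl) (fun _ _ h => h) (fun a => ⟨a, rfl⟩)
      (hy.symm.trans (map_zero _).symm)
  -- Step 2: `ker locH2 = 0` over `𝔽_p`
  have h2 : Subsingleton ↥(LinearMap.ker (ShaBridge13.locH2 T (resScal p N))) := by
    rw [← Module.finrank_zero_iff (R := ZMod p), ← hrank, Module.finrank_zero_iff]
    refine ⟨fun a b => ?_⟩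
    have ha := (ShaBridge13.mem_ker_locH1_iff T _ a.1).1 a.2
    have hb := (ShaBridge13.mem_ker_locH1_iff T _ b.1).1 b.2
    apply Subtype.ext
    rw [h1 a.1 ha, h1 b.1 hb]
  -- Step 3: transport `x` to `𝔽_p`-coefficients
  have heN : ∀ (g : Γ) (a : N), toRS p N (N.ρ g a) =
      (IntRep20.intRep (resScal p N)) g (toRS p N a) := fun _ _ => rfl
  have hbijRS : Function.Bijective (toRS p N) := ⟨fun _ _ h => h, fun a => ⟨a, rfl⟩⟩
  obtain ⟨x₀, hx₀⟩ := br2_surjective (globalBasis T) (resScal p N)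
    (IntRep20.intRep (resScal p N)) hN₀ (AddMonoidHom.id _) (fun _ _ => rfl)
    (fun _ _ h => h) (fun a => ⟨a, rfl⟩)
    (br2 (globalBasis T) N (IntRep20.intRep (resScal p N)) hN₀ (toRS p N) heN x)
  have hx₀ker : x₀ ∈ LinearMap.ker (ShaBridge13.locH2 T (resScal p N)) := by
    rw [ShaBridge13.mem_ker_locH2_iff]
    intro q
    apply br2_injective (pullBasis (primeLocalToGlobal q.1))
      (Rep.res (primeLocalToGlobal q.1) (resScal p N))
      ((IntRep20.intRep (resScal p N)).comp (primeLocalToGlobal q.1))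
      (IsLevelHom.isDiscrete (hlh q.1) hN₀) (AddMonoidHom.id _) (fun _ _ => rfl)
      (fun _ _ h => h) (fun a => ⟨a, rfl⟩)
    rw [map_zero]
    refine (br2_res (globalBasis T) (pullBasis (primeLocalToGlobal q.1))
      (primeLocalToGlobal q.1) (ShaBridge13.isLevelHom_pull T (primeLocalToGlobal q.1))
      (resScal p N) _ hN₀ _ (IsLevelHom.isDiscrete (hlh q.1) hN₀) (fun _ _ => rfl)
      (AddMonoidHom.id _) (fun _ _ => rfl) (fun _ _ => rfl) x₀).trans ?_
    rw [hx₀]
    refine (br2_res (globalBasis T) (pullBasis (primeLocalToGlobal q.1))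
      (primeLocalToGlobal q.1) (ShaBridge13.isLevelHom_pull T (primeLocalToGlobal q.1))
      N _ hN₀ _ (IsLevelHom.isDiscrete (hlh q.1) hN₀) (fun _ _ => rfl)
      (toRS p N) heN (fun g a => heN (primeLocalToGlobal q.1 g) a) x).symm.trans ?_
    have := hx q.1 q.2
    unfold ShaBridge13.resH2 at this
    rw [this, map_zero]
  have hx₀0 : x₀ = 0 := by
    have := Subsingleton.elim (⟨x₀, hx₀ker⟩ : ↥(LinearMap.ker (ShaBridge13.locH2 T (resScal p N))))
      0
    exact congrArg Subtype.val this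
  rw [hx₀0, map_zero] at hx₀
  exact br2_injective (globalBasis T) N (IntRep20.intRep (resScal p N)) hN₀ (toRS p N) heN
    hbijRS.1 hbijRS.2 (hx₀.symm.trans (map_zero _).symm)

end Fermat.Agent.W56.Sha2Van2
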