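/-
Programme W56 (S56), chapter (D2), Kummer part, helper1.

`KummerBound1`: the Kummer bound for `H¹(K, μ_p ⊗ V)` in cocycle form, over an arbitrary field `K`
of characteristic zero with Galois closure `Ω` (NO hypothesis `ζ_p ∈ K`).

`G = Gal(Ω/K)`, `ζ ∈ Ω` a primitive `p`-th root of unity, `e : G → ℕ` with `σ ζ = ζ ^ e σ`
(the cyclotomic character).  A *twisted cocycle* is `c : G → V` with
`c (σ τ) = c σ + e σ • c τ`, `V` an abelian group killed by `p`; it is *level* if it is constant on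
the cosets of `Gal(Ω/E)` for some finite `E/K`.  Given a set `Y` of representatives of
`Kˣ/(Kˣ)^p`:

* `exists_rel` : (scalar case `V = ℤ/p`) there are `y ∈ Y` and `β ∈ Ωˣ` with `σ β = ζ^{c σ} β`,
  `β^p = y` (Hilbert 90 at a finite Galois level);
* `cobound_of_rel` : two scalar cocycles with the same `y` differ by a coboundary;
* `exists_invariant` : for `V` with an `𝔽_p`-basis indexed by `ι`, there is a map
  `κ : {level twisted cocycles} → (ι → Y)` whose fibres consist of cohomologous cocycles.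
-/
import Mathlib
import Fermat.Agent.W56.KummerGen1

set_option autoImplicit false
set_option linter.style.haveILetI false
set_option linter.unusedSectionVars false

namespace Fermat.Agent.W56.KummerBound1

open Fermat.Agent.W56.KummerGen1

/-! ### Powers of an element of order dividing `p`, indexed by `ℤ/p` -/

section PowVal

variable {p : ℕ} [NeZero p] {M : Type*} [Monoid M] {z : M}

theorem pow_val_eq (hz : z ^ p = 1) (x : ZMod p) (n : ℕ) (h : (n : ZMod p) = x) :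
    z ^ x.val = z ^ n := by
  rw [← h, ZMod.val_natCast]
  exact (pow_eq_pow_mod n hz).symm

end PowVal

variable {K Ω : Type*} [Field K] [Field Ω] [Algebra K Ω] [CharZero K] [IsGalois K Ω]

/-- `c` is constant on the cosets of `Gal(Ω/E)` for some finite `E/K`. -/
def IsLev {X : Type*} (c : (Ω ≃ₐ[K] Ω) → X) : Prop :=
  ∃ E : IntermediateField K Ω, FiniteDimensional K E ∧
    ∀ g, ∀ s ∈ E.fixingSubgroup, c (g * s) = c g

/-- Twisted cocycles: `c (σ τ) = c σ + e σ • c τ`. -/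
def IsTwCoc (e : (Ω ≃ₐ[K] Ω) → ℕ) {V : Type*} [AddCommGroup V] (c : (Ω ≃ₐ[K] Ω) → V) : Prop :=
  ∀ σ τ, c (σ * τ) = c σ + e σ • c τ

/-- Twisted coboundaries: `c σ = e σ • a - a`. -/
def IsTwCob (e : (Ω ≃ₐ[K] Ω) → ℕ) {V : Type*} [AddCommGroup V] (c : (Ω ≃ₐ[K] Ω) → V) : Prop :=
  ∃ a : V, ∀ σ, c σ = e σ • a - a

section Scalar

variable {p : ℕ} (hp : p.Prime) {ζ : Ω} (hζ : IsPrimitiveRoot ζ p)
  (e : (Ω ≃ₐ[K] Ω) → ℕ) (he : ∀ σ : Ω ≃ₐ[K] Ω, σ ζ = ζ ^ e σ)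

/-- The Kummer relation between a scalar cocycle and an element of `Kˣ`. -/
def Rel (ζ : Ω) (c : (Ω ≃ₐ[K] Ω) → ZMod p) (y : Kˣ) : Prop :=
  ∃ β : Ω, β ≠ 0 ∧ (∀ σ : Ω ≃ₐ[K] Ω, σ β = ζ ^ (c σ).val * β) ∧
    β ^ p = algebraMap K Ω (y : K)

include hp hζ he in
/-- **Hilbert 90**: every level twisted scalar cocycle is Kummer-related to a representative. -/
theorem exists_rel (Y : Finset Kˣ) (hY : ∀ x : Kˣ, ∃ y ∈ Y, ∃ g : Kˣ, x = y * g ^ p)
    (c : (Ω ≃ₐ[K] Ω) → ZMod p) (hc : IsTwCoc e c) (hl : IsLev c) :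
    ∃ y ∈ Y, Rel ζ c y := by
  classical
  haveI : Fact p.Prime := ⟨hp⟩
  haveI : NeZero p := ⟨hp.ne_zero⟩
  obtain ⟨E, hE, hcE⟩ := hl
  haveI := hE
  haveI : Algebra.IsAlgebraic K Ω := inferInstance
  haveI : FiniteDimensional K (IntermediateField.adjoin K ({ζ} : Set Ω)) :=
    IntermediateField.adjoin.finiteDimensional (Algebra.IsIntegral.isIntegral ζ)
  haveI : FiniteDimensional K (E ⊔ IntermediateField.adjoin K ({ζ} : Set Ω) :
      IntermediateField K Ω) := IntermediateField.finiteDimensional_sup _ _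
  obtain ⟨L, hFL, hLfin, hLgal⟩ :=
    exists_isGalois_ge (E ⊔ IntermediateField.adjoin K ({ζ} : Set Ω) : IntermediateField K Ω)
  haveI := hLfin
  haveI := hLgal
  have hEL : E ≤ L := le_sup_left.trans hFL
  have hζL : ζ ∈ L := hFL ((le_sup_right : IntermediateField.adjoin K ({ζ} : Set Ω) ≤ _)
    (IntermediateField.mem_adjoin_simple_self K ζ))
  have hcL : ∀ g, ∀ s ∈ L.fixingSubgroup, c (g * s) = c g := fun g s hs =>
    hcE g s (IntermediateField.fixingSubgroup_antitone hEL hs)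
  -- two elements agreeing on `L` have the same value
  have hagree : ∀ a b : Ω ≃ₐ[K] Ω, (∀ x ∈ L, a x = b x) → c a = c b := by
    intro a b hab
    have hu : a⁻¹ * b ∈ L.fixingSubgroup := by
      rw [IntermediateField.mem_fixingSubgroup_iff]
      intro x hx
      rw [AlgEquiv.mul_apply, ← hab x hx, ← AlgEquiv.mul_apply, inv_mul_cancel,
        AlgEquiv.one_apply]
    have : b = a * (a⁻¹ * b) := by group
    rw [this, hcL a _ hu]
  -- lifts of elements of `Gal(L/K)`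
  let lift : (L ≃ₐ[K] L) → (Ω ≃ₐ[K] Ω) := fun σ => σ.liftNormal Ω
  have hlift_apply : ∀ (σ : L ≃ₐ[K] L) (x : L), lift σ (x : Ω) = ((σ x : L) : Ω) :=
    fun σ x => AlgEquiv.liftNormal_commutes σ Ω x
  have hcmul : ∀ σ τ : L ≃ₐ[K] L,
      c (lift (σ * τ)) = c (lift σ) + e (lift σ) • c (lift τ) := by
    intro σ τ
    rw [← hc]
    apply hagree
    intro x hx
    rw [AlgEquiv.mul_apply, hlift_apply (σ * τ) ⟨x, hx⟩, hlift_apply τ ⟨x, hx⟩, hlift_apply σ]
    rfl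
  -- the root of unity in `L`
  have hζ0 : ζ ≠ 0 := hζ.ne_zero hp.ne_zero
  let ζ₀ : L := ⟨ζ, hζL⟩
  let ζL : Lˣ := Units.mk0 ζ₀ (by
    intro h
    exact hζ0 (congrArg Subtype.val h))
  have hζLcoe : (((ζL : Lˣ) : L) : Ω) = ζ := rfl
  have hζLpow : ζL ^ p = 1 := by
    apply Units.ext
    apply Subtype.ext
    rw [Units.val_pow_eq_pow_val, Units.val_one]
    show (((ζL : Lˣ) : L) : Ω) ^ p = 1
    rw [hζLcoe, hζ.pow_eq_one]
  have hact : ∀ σ : L ≃ₐ[K] L, ∀ m : ℕ,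
      Units.map (σ : L →* L) (ζL ^ m) = (ζL ^ e (lift σ)) ^ m := by
    intro σ m
    apply Units.ext
    apply Subtype.ext
    rw [Units.coe_map, MonoidHom.coe_coe, Units.val_pow_eq_pow_val, map_pow,
      Units.val_pow_eq_pow_val, Units.val_pow_eq_pow_val]
    show ((σ (ζL : L) : L) : Ω) ^ m = ((((ζL : Lˣ) : L) : Ω) ^ e (lift σ)) ^ m
    rw [← hlift_apply σ (ζL : L), hζLcoe, he]
  -- the cocycle
  let f : (L ≃ₐ[K] L) → Lˣ := fun σ => ζL ^ (c (lift σ)).val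
  have hf : @groupCohomology.IsMulCocycle₁ (L ≃ₐ[K] L) Lˣ _ _
      (AlgEquiv.instMulDistribMulActionUnits (R := K) (A₁ := L)).toMulAction.toSMul f := by
    intro σ τ
    show ζL ^ (c (lift (σ * τ))).val =
      Units.map (σ : L →* L) (ζL ^ (c (lift τ)).val) * ζL ^ (c (lift σ)).val
    rw [hact, hcmul, ← pow_mul, ← pow_add]
    apply pow_val_eq hζLpow
    push_cast
    rw [ZMod.natCast_zmod_val, ZMod.natCast_zmod_val, nsmul_eq_mul]
    ring
  obtain ⟨β, hβ⟩ := groupCohomology.isMulCoboundary₁_of_isMulCocycle₁_of_aut_to_units f hf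
  have hβ' : ∀ σ : L ≃ₐ[K] L, σ (β : L) = ((f σ : Lˣ) : L) * (β : L) := by
    intro σ
    have h := hβ σ
    rw [div_eq_iff_eq_mul] at h
    have h2 := congrArg (fun u : Lˣ => (u : L)) h
    simpa using h2
  -- `β ^ p` is fixed by `Gal(L/K)`, hence lies in `K`
  have hfpow : ∀ σ : L ≃ₐ[K] L, ((f σ : Lˣ) : L) ^ p = 1 := by
    intro σ
    show ((ζL ^ (c (lift σ)).val : Lˣ) : L) ^ p = 1
    rw [← Units.val_pow_eq_pow_val, ← pow_mul, mul_comm, pow_mul, hζLpow, one_pow, Units.val_one]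
  have hβp : ∀ σ : L ≃ₐ[K] L, σ ((β : L) ^ p) = (β : L) ^ p := by
    intro σ
    rw [map_pow, hβ', mul_pow, hfpow, one_mul]
  obtain ⟨α₀, hα₀⟩ := (IsGalois.mem_range_algebraMap_iff_fixed ((β : L) ^ p)).mpr hβp
  have hα₀0 : α₀ ≠ 0 := by
    rintro rfl
    rw [map_zero] at hα₀
    exact pow_ne_zero p β.ne_zero hα₀.symm
  have hα₀coe : (((β : L) : Ω)) ^ p = algebraMap K Ω α₀ := by
    have h := congrArg (fun x : L => (x : Ω)) hα₀
    have h2 : ((algebraMap K L α₀ : L) : Ω) = algebraMap K Ω α₀ := rfl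
    rw [← h2, h]
    simp
  obtain ⟨y, hyY, g, hg⟩ := hY (Units.mk0 α₀ hα₀0)
  have hg' : algebraMap K Ω α₀ = algebraMap K Ω (y : K) * algebraMap K Ω (g : K) ^ p := by
    have := congrArg (fun u : Kˣ => algebraMap K Ω (u : K)) hg
    simpa using this
  have hg0 : algebraMap K Ω (g : K) ≠ 0 := by
    rw [Ne, map_eq_zero]
    exact g.ne_zero
  have hβ0 : ((β : L) : Ω) ≠ 0 := by
    intro h
    exact β.ne_zero (Subtype.ext h)
  refine ⟨y, hyY, ((β : L) : Ω) / algebraMap K Ω (g : K), div_ne_zero hβ0 hg0, fun σ => ?_, ?_⟩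
  · -- the action of `σ`
    let σs : L ≃ₐ[K] L := AlgEquiv.restrictNormalHom L σ
    have hσs : ∀ x : L, ((σs x : L) : Ω) = σ x := fun x =>
      AlgEquiv.restrictNormal_commutes σ L x
    have hcσ : c (lift σs) = c σ := by
      apply hagree
      intro x hx
      rw [hlift_apply σs ⟨x, hx⟩, hσs]
    have h1 : σ ((β : L) : Ω) = ζ ^ (c σ).val * ((β : L) : Ω) := by
      rw [← hσs, hβ' σs]
      show (((f σs : Lˣ) : L) : Ω) * ((β : L) : Ω) = _
      congr 1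
      show (((ζL ^ (c (lift σs)).val : Lˣ) : L) : Ω) = _
      rw [hcσ, Units.val_pow_eq_pow_val]
      rfl
    rw [map_div₀, h1, AlgEquiv.commutes, mul_div_assoc]
  · rw [div_pow, hα₀coe, hg']
    field_simp

include hp hζ he in
/-- Two scalar cocycles with the same Kummer invariant differ by a coboundary. -/
theorem cobound_of_rel (c₁ c₂ : (Ω ≃ₐ[K] Ω) → ZMod p) (y : Kˣ) (h₁ : Rel ζ c₁ y)
    (h₂ : Rel ζ c₂ y) : ∃ a : ZMod p, ∀ σ, c₁ σ - c₂ σ = e σ • a - a := by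
  haveI : Fact p.Prime := ⟨hp⟩
  haveI : NeZero p := ⟨hp.ne_zero⟩
  obtain ⟨β₁, hβ₁0, hβ₁, hβ₁p⟩ := h₁
  obtain ⟨β₂, hβ₂0, hβ₂, hβ₂p⟩ := h₂
  have hq : (β₁ / β₂) ^ p = 1 := by
    rw [div_pow, hβ₁p, hβ₂p, div_self]
    rw [Ne, map_eq_zero]
    exact y.ne_zero
  obtain ⟨a, -, ha⟩ := hζ.eq_pow_of_pow_eq_one hq
  have hβ₁eq : β₁ = ζ ^ a * β₂ := by
    rw [ha]
    field_simp
  refine ⟨(a : ZMod p), fun σ => ?_⟩
  have h1 := hβ₁ σ
  rw [hβ₁eq, map_mul, map_pow, he, hβ₂ σ, ← mul_assoc, ← mul_assoc, ← pow_mul, ← pow_add,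
    ← pow_add] at h1
  have h2 : ζ ^ (e σ * a + (c₂ σ).val) = ζ ^ ((c₁ σ).val + a) := mul_right_cancel₀ hβ₂0 h1
  have h3 : e σ * a + (c₂ σ).val ≡ (c₁ σ).val + a [MOD p] := by
    obtain ⟨u, hu⟩ := hζ.isUnit hp.ne_zero
    have hu' : IsPrimitiveRoot u p := IsPrimitiveRoot.coe_units_iff.1 (hu ▸ hζ)
    have h2' : u ^ (e σ * a + (c₂ σ).val) = u ^ ((c₁ σ).val + a) := by
      apply Units.ext
      rw [Units.val_pow_eq_pow_val, Units.val_pow_eq_pow_val, hu]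
      exact h2
    have := pow_eq_pow_iff_modEq.1 h2'
    rwa [← hu'.eq_orderOf] at this
  have h4 : ((e σ * a + (c₂ σ).val : ℕ) : ZMod p) = (((c₁ σ).val + a : ℕ) : ZMod p) :=
    (ZMod.natCast_eq_natCast_iff _ _ _).2 h3
  push_cast at h4
  rw [ZMod.natCast_zmod_val, ZMod.natCast_zmod_val] at h4
  rw [nsmul_eq_mul]
  linear_combination -h4

end Scalar

/-! ### Vector coefficients -/

section Vector

variable {p : ℕ} (hp : p.Prime) {ζ : Ω} (hζ : IsPrimitiveRoot ζ p)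
  (e : (Ω ≃ₐ[K] Ω) → ℕ) (he : ∀ σ : Ω ≃ₐ[K] Ω, σ ζ = ζ ^ e σ)
  {V : Type*} [AddCommGroup V] [Module (ZMod p) V] {ι : Type*} [Fintype ι]
  (b : Module.Basis ι (ZMod p) V)

theorem isTwCoc_coord {c : (Ω ≃ₐ[K] Ω) → V} (hc : IsTwCoc e c) (i : ι) :
    IsTwCoc e (fun σ => b.repr (c σ) i) := by
  intro σ τ
  show b.repr (c (σ * τ)) i = b.repr (c σ) i + e σ • b.repr (c τ) i
  rw [hc σ τ, map_add, map_nsmul]
  rfl

omit [Fintype ι] in
theorem isLev_coord {c : (Ω ≃ₐ[K] Ω) → V} (hl : IsLev c) (i : ι) :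
    IsLev (fun σ => b.repr (c σ) i) := by
  obtain ⟨E, hE, h⟩ := hl
  refine ⟨E, hE, fun g s hs => ?_⟩
  show b.repr (c (g * s)) i = b.repr (c g) i
  rw [h g s hs]

include hp hζ he b in
/-- **The Kummer invariant**: a map from level twisted cocycles to `ι → Y` whose fibres consist of
cohomologous cocycles. -/
theorem exists_invariant (Y : Finset Kˣ) (hY : ∀ x : Kˣ, ∃ y ∈ Y, ∃ g : Kˣ, x = y * g ^ p) :
    ∃ κ : {c : (Ω ≃ₐ[K] Ω) → V // IsTwCoc e c ∧ IsLev c} → (ι → ↥Y),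
      ∀ c₁ c₂, κ c₁ = κ c₂ → IsTwCob e (fun σ => c₁.1 σ - c₂.1 σ) := by
  classical
  have hex : ∀ (c : {c : (Ω ≃ₐ[K] Ω) → V // IsTwCoc e c ∧ IsLev c}) (i : ι),
      ∃ y : ↥Y, Rel ζ (fun σ => b.repr (c.1 σ) i) (y : Kˣ) := by
    intro c i
    obtain ⟨y, hyY, hy⟩ := exists_rel hp hζ e he Y hY _ (isTwCoc_coord e b c.2.1 i)
      (isLev_coord b c.2.2 i)
    exact ⟨⟨y, hyY⟩, hy⟩
  choose κ hκ using hex
  refine ⟨κ, fun c₁ c₂ h => ?_⟩
  have hcob : ∀ i, ∃ a : ZMod p, ∀ σ,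
      b.repr (c₁.1 σ) i - b.repr (c₂.1 σ) i = e σ • a - a := by
    intro i
    have h2 := hκ c₂ i
    rw [← h] at h2
    exact cobound_of_rel hp hζ e he _ _ _ (hκ c₁ i) h2
  choose a ha using hcob
  refine ⟨∑ i, a i • b i, fun σ => ?_⟩
  apply b.repr.injective
  ext i
  rw [map_sub, map_sub, map_nsmul, Finsupp.sub_apply, Finsupp.sub_apply, Finsupp.smul_apply,
    b.repr_sum_self, ha i σ]

end Vector

/-! ### Counting through an invariant -/

/-- If an invariant `κ : Z → T` with values in a finite type separates the classes of a quotient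
`π : Z → Q`, then `#Q ≤ #T`. -/
theorem card_le_of_invariant {Z Q T : Type*} [Finite T] (π : Z → Q)
    (hπ : Function.Surjective π) (κ : Z → T) (h : ∀ z₁ z₂, κ z₁ = κ z₂ → π z₁ = π z₂) :
    Nat.card Q ≤ Nat.card T := by
  choose rep hrep using hπ
  refine Nat.card_le_card_of_injective (fun x => κ (rep x)) ?_
  intro x₁ x₂ hx
  have := h _ _ hx
  rwa [hrep, hrep] at this

section Count

variable {p : ℕ} (hp : p.Prime) {ζ : Ω} (hζ : IsPrimitiveRoot ζ p)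
  (e : (Ω ≃ₐ[K] Ω) → ℕ) (he : ∀ σ : Ω ≃ₐ[K] Ω, σ ζ = ζ ^ e σ)
  {V : Type*} [AddCommGroup V] [Module (ZMod p) V] [Finite V]

include hp hζ he in
/-- **The Kummer bound**: if `Kˣ/(Kˣ)^p` has at most `p²` elements, a quotient `Q` of a family `Z`
of level twisted cocycles with values in the finite `𝔽_p`-space `V`, in which cohomologous cocycles
are identified, has at most `(#V)²` elements. -/
theorem card_le_sq (Y : Finset Kˣ) (hY : ∀ x : Kˣ, ∃ y ∈ Y, ∃ g : Kˣ, x = y * g ^ p)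
    (hYc : Y.card ≤ p ^ 2) {Z Q : Type*} (j : Z → (Ω ≃ₐ[K] Ω) → V)
    (hZ : ∀ z, IsTwCoc e (j z) ∧ IsLev (j z)) (π : Z → Q) (hπ : Function.Surjective π)
    (h : ∀ z₁ z₂, IsTwCob e (fun σ => j z₁ σ - j z₂ σ) → π z₁ = π z₂) :
    Nat.card Q ≤ Nat.card V ^ 2 := by
  classical
  haveI : Fact p.Prime := ⟨hp⟩
  haveI : Module.Finite (ZMod p) V := Module.Finite.of_finite
  let b := Module.Free.chooseBasis (ZMod p) V
  obtain ⟨κ, hκ⟩ := exists_invariant hp hζ e he b Y hY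
  have hcard := card_le_of_invariant π hπ (fun z => κ ⟨j z, hZ z⟩)
    (fun z₁ z₂ hz => h z₁ z₂ (hκ _ _ hz))
  refine hcard.trans ?_
  rw [Nat.card_fun, Nat.card_eq_fintype_card (α := ↥Y), Fintype.card_coe,
    Module.natCard_eq_pow_finrank (K := ZMod p) (V := V), Nat.card_zmod,
    Module.finrank_eq_card_chooseBasisIndex, ← pow_mul, Nat.card_eq_fintype_card, mul_comm,
    pow_mul]
  exact Nat.pow_le_pow_left hYc _

end Count

end Fermat.Agent.W56.KummerBound1
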