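/-
Programme W56 (S56), chapter (D2), helper1.

`KummerH1D1`: **`#H¹(Gal(ℚ̄_p/ℚ_p), N) ≤ (#N)²`** for `p` odd and a finite module `N` killed by `p`
on which `Γ = Gal(ℚ̄/ℚ)` acts through the mod `p` cyclotomic character (`N = μ_p ⊗ N₀`), in the
carriers of `W56/Defs9` (`H1D N pp`, level cohomology).  Kummer theory directly over `ℚ_p`
(`KummerBound1`) + `#ℚ_pˣ/(ℚ_pˣ)^p ≤ p²` (`QpModP1`).
-/
import Mathlib
import Fermat.Agent.W56.Defs9
import Fermat.Agent.W56.KummerBound1
import Fermat.Agent.W56.QpModP1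
import Fermat.Agent.PT.PRO.UnitsLocDiv9
import Fermat.Agent.PT.PRO.LevelCompare13

set_option autoImplicit false
set_option linter.unusedSectionVars false
set_option linter.style.haveILetI false

open CategoryTheory ExtCitation

namespace Fermat.Agent.W56.KummerH1D1

open Fermat.Agent.PT.PRO Fermat.Agent.PT.BR
open Fermat.Agent.W56.Defs9 Fermat.Agent.W56.KummerBound1

local notation "Γ" => (AlgebraicClosure ℚ ≃ₐ[ℚ] AlgebraicClosure ℚ)
local notation "Qbar" => AlgebraicClosure ℚ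

section Nat

variable (p : ℕ) [hp : Fact p.Prime]

local instance isAlgClosurePadicK1 : IsAlgClosure ℚ_[p] (PadicAlgCl p) :=
  ⟨inferInstance, inferInstance⟩
local instance isGaloisPadicK1 : IsGalois ℚ_[p] (PadicAlgCl p) :=
  IsAlgClosure.isGalois ℚ_[p] (PadicAlgCl p)

/-- the local cyclotomic exponent -/
noncomputable def eLoc (τ : PadicAlgCl p ≃ₐ[ℚ_[p]] PadicAlgCl p) : ℕ :=
  cycloExp p (localGaloisToGlobal p τ)

theorem isPrimitiveRoot_zeta :
    IsPrimitiveRoot ((UnitsLocDiv9.zetaLoc p p : (PadicAlgCl p)ˣ) : PadicAlgCl p) p :=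
  IsPrimitiveRoot.coe_units_iff.2 (UnitsLocDiv9.zetaLoc_spec p p)

theorem apply_zeta (τ : PadicAlgCl p ≃ₐ[ℚ_[p]] PadicAlgCl p) :
    τ ((UnitsLocDiv9.zetaLoc p p : (PadicAlgCl p)ˣ) : PadicAlgCl p) =
      ((UnitsLocDiv9.zetaLoc p p : (PadicAlgCl p)ˣ) : PadicAlgCl p) ^ eLoc p τ := by
  have h := congrArg (fun u : (PadicAlgCl p)ˣ => (u : PadicAlgCl p))
    (UnitsLocDiv9.smul_zetaLoc_eq_pow p p τ)
  simpa [eLoc] using h

section LocalRep

variable {k : Type} [CommRing k] (A : Rep k (PadicAlgCl p ≃ₐ[ℚ_[p]] PadicAlgCl p)) [Finite A]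
  (hpA : ∀ a : A, p • a = 0)
  (hA : ∀ (g : PadicAlgCl p ≃ₐ[ℚ_[p]] PadicAlgCl p) (a : A), A.ρ g a = eLoc p g • a)

include hpA hA in
/-- **The Kummer bound** at `p`, for a representation of the LOCAL Galois group on which it acts
through the cyclotomic character. -/
theorem card_H1_loc_le (hp2 : p ≠ 2) :
    Nat.card (LevelCoh28.H1 (LevelBridge13.pullBasis (localGaloisToGlobal p)) A) ≤
      Nat.card A ^ 2 := by
  classical
  obtain ⟨Y, hYcard, hY⟩ := Fermat.Agent.W56.QpModP1.exists_finset_card_le p hp2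
  letI : Module (ZMod p) A := AddCommGroup.zmodModule hpA
  -- level cocycles are twisted level cocycles
  have hZ : ∀ c : ↥(LevelCoh28.Z1 (LevelBridge13.pullBasis (localGaloisToGlobal p)) A),
      IsTwCoc (eLoc p) (c : (PadicAlgCl p ≃ₐ[ℚ_[p]] PadicAlgCl p) → A) ∧
        IsLev (c : (PadicAlgCl p ≃ₐ[ℚ_[p]] PadicAlgCl p) → A) := by
    intro c
    constructor
    · intro σ τ
      have h1 := (groupCohomology.mem_cocycles₁_iff
        (c : (PadicAlgCl p ≃ₐ[ℚ_[p]] PadicAlgCl p) → A)).1 c.2.1 σ τ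
      rw [h1, add_comm]
      congr 1
      exact hA _ _
    · obtain ⟨U, ⟨F, hF, rfl⟩, hU⟩ := c.2.2
      refine ⟨LocInj13.localField p F, inferInstance, fun g s hs => hU g s ?_⟩
      rw [LevelBridge13.comap_fixingSubgroup_eq]
      exact hs
  exact card_le_sq hp.out (isPrimitiveRoot_zeta p) (eLoc p) (apply_zeta p) Y hY hYcard
    (fun c : ↥(LevelCoh28.Z1 (LevelBridge13.pullBasis (localGaloisToGlobal p)) A) =>
      (c : (PadicAlgCl p ≃ₐ[ℚ_[p]] PadicAlgCl p) → A))
    hZ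
    (LevelCoh28.H1mk (LevelBridge13.pullBasis (localGaloisToGlobal p)) A)
    (LevelCoh28.H1mk_surjective _ _) (fun c₁ c₂ h => by
      obtain ⟨a, ha⟩ := h
      rw [← sub_eq_zero, ← map_sub, LevelCoh28.H1mk_eq_zero_iff,
        LevelCompare13.mem_coboundaries₁_iff]
      refine ⟨a, ?_⟩
      funext σ
      rw [HyperLevel25.dZero_apply, hA]
      exact (ha σ).symm)

end LocalRep

variable {k : Type} [CommRing k] (N : Rep k Γ) [Finite N] (hpN : ∀ n : N, p • n = 0)
  (hN : ∀ (σ : Γ) (n : N), N.ρ σ n = cycloExp p σ • n)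

include hpN hN in
/-- **The Kummer bound** at `p`, for the restriction of a global representation. -/
theorem card_H1_nat_le (hp2 : p ≠ 2) :
    Nat.card (LevelCoh28.H1 (LevelBridge13.pullBasis (localGaloisToGlobal p))
      (Rep.res (localGaloisToGlobal p) N)) ≤ Nat.card N ^ 2 :=
  card_H1_loc_le p (Rep.res (localGaloisToGlobal p) N) hpN (fun _ a => hN _ a) hp2

end Nat

section Primes

variable (pp : Nat.Primes) {k : Type} [CommRing k] (N : Rep k Γ) [Finite N]

/-- **(D2), Kummer bound**: `#H¹(D_p, N) ≤ (#N)²` for `N` killed by `p` with `Γ` acting through the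
mod `p` cyclotomic character; `p` odd. -/
theorem card_H1D_le (hp2 : (pp : ℕ) ≠ 2) (hpN : ∀ n : N, (pp : ℕ) • n = 0)
    (hN : haveI : Fact (pp : ℕ).Prime := ⟨pp.2⟩
      ∀ (σ : Γ) (n : N), N.ρ σ n = cycloExp (pp : ℕ) σ • n) :
    Nat.card (H1D N pp) ≤ Nat.card N ^ 2 := by
  haveI : Fact (pp : ℕ).Prime := ⟨pp.2⟩
  exact card_H1_nat_le (pp : ℕ) N hpN hN hp2

/-- The same with the hypothesis in the `cycloK` form of `Defs9` (`k` a field of characteristic
`p`, `N` a finite `k`-representation on which `Γ` acts through `cycloK p`). -/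
theorem card_H1D_cycloK_le {k : Type} [Field k] (p : ℕ) [Fact p.Prime] [CharP k p] (hp2 : p ≠ 2)
    (pp : Nat.Primes) (hpp : (pp : ℕ) = p) (N : Rep k Γ) [Finite N]
    (hN : ∀ (σ : Γ) (n : N), N.ρ σ n = ((cycloK (k := k) p σ : kˣ) : k) • n) :
    Nat.card (H1D N pp) ≤ Nat.card N ^ 2 := by
  subst hpp
  refine card_H1D_le pp N hp2 (fun n => ?_) (fun σ n => ?_)
  · rw [← Nat.cast_smul_eq_nsmul k, CharP.cast_eq_zero, zero_smul]
  · rw [hN, ← Nat.cast_smul_eq_nsmul k]
    congr 1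
    show (ZMod.castHom (dvd_refl (pp : ℕ)) k) ((cycloChar (pp : ℕ) σ : (ZMod (pp : ℕ))ˣ) :
      ZMod (pp : ℕ)) = _
    rw [coe_cycloChar, map_natCast]

/-- **(D2)-core, literal contract of helper8 (board 687(4))**: `N` a one-dimensional
representation of the LOCAL group `Gal(ℚ̄_p/ℚ_p)` over the finite field `k` of characteristic `p`
on which it acts through `cycloK p`: `#H¹ ≤ (#k)²`. -/
theorem card_H1_cyclo_le {k : Type} [Field k] [Finite k] (p : ℕ) [Fact p.Prime] [CharP k p]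
    (hp2 : p ≠ 2) (pp : Nat.Primes) (hpp : (pp : ℕ) = p) (N : Rep k (primeLocalGaloisGroup pp))
    (hN1 : Module.finrank k N = 1)
    (hχ : ∀ (g : primeLocalGaloisGroup pp) (n : N),
      N.ρ g n = ((cycloK (k := k) p (locD pp g) : kˣ) : k) • n) :
    Nat.card (LevelCoh28.H1 (LevelBridge13.pullBasis (locD pp)) N) ≤ Nat.card k ^ 2 := by
  subst hpp
  haveI : Module.Finite k N := Module.finite_of_finrank_pos (by rw [hN1]; exact one_pos)
  haveI : Finite N := Module.finite_of_finite k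
  have hcard : Nat.card N = Nat.card k := by
    rw [Module.natCard_eq_pow_finrank (K := k) (V := N), hN1, pow_one]
  rw [← hcard]
  haveI : Fact (pp : ℕ).Prime := ⟨pp.2⟩
  refine card_H1_loc_le (pp : ℕ) N (fun n => ?_) (fun g n => ?_) hp2
  · rw [← Nat.cast_smul_eq_nsmul k, CharP.cast_eq_zero, zero_smul]
  · refine (hχ g n).trans ?_
    refine Eq.trans ?_ (Nat.cast_smul_eq_nsmul k _ n)
    congr 1
    show (ZMod.castHom (dvd_refl (pp : ℕ)) k) ((cycloChar (pp : ℕ) (locD pp g) :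
      (ZMod (pp : ℕ))ˣ) : ZMod (pp : ℕ)) = _
    rw [coe_cycloChar, map_natCast]
    rfl

end Primes

end Fermat.Agent.W56.KummerH1D1
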