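/-
Programme W56 (target S56), chapter (D2), helper8, FINAL FORM: for the residual representation in
the strict-ordinary matrix shape of `DictSO9.IsSOmat` (helper9's output of the tangent dictionary),

  `#LpSO ρ̄ (span {b 0}) pp ≤ #k · d0 (ad⁰ρ̄) pp`,

UNCONDITIONALLY: `StrictOrdBound8.card_LpSO_le` + the Kummer bound `KummerH1D1.card_H1_cyclo_le`
(helper1) + the finiteness `FinH1D1.finite_H1D` (helper1).  This is the hypothesis `hLp` of
`GWContracts4.card_Sel_le_of_contracts` (helper4).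
-/
import Mathlib
import Fermat.Agent.W56.StrictOrdBound8
import Fermat.Agent.W56.KummerH1D1
import Fermat.Agent.W56.FinH1D1
import Fermat.Agent.W56.DictSO9
import Fermat.Agent.W56.GWContracts4

set_option autoImplicit false

open CategoryTheory ExtCitation

namespace Fermat.Agent.W56.StrictOrdFinal8

open Fermat.Agent.PT.PRO Fermat.Agent.PT.BR Fermat.Agent.W56.Defs9 Fermat.Agent.W56.UnipSel8
  Fermat.Agent.W56.StrictOrdBound8 Fermat.Agent.W56.DictSO9 Fermat.Agent.W56.Lift9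
  Fermat.Agent.S53 Fermat.Agent.S53.MatrixModel

local notation "Qb" => AlgebraicClosure ℚ
local notation "Γ" => (AlgebraicClosure ℚ ≃ₐ[ℚ] AlgebraicClosure ℚ)

variable {k : Type} [Field k] (ρbar : ResidualGaloisRep k) (p : ℕ) [Fact p.Prime] [CharP k p]

/-- The Kummer bound contract of `StrictOrdBound8` holds (helper1's `card_H1_cyclo_le`). -/
theorem kummerBound [Finite k] (hp2 : p ≠ 2) (pp : Nat.Primes) (hpp : (pp : ℕ) = p) :
    KummerBound k p pp := fun N hN1 hχ =>
  Fermat.Agent.W56.KummerH1D1.card_H1_cyclo_le p hp2 pp hpp N hN1 hχ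

theorem coe_cycloK (σ : Γ) : ((cycloK (k := k) p σ : kˣ) : k) = ((cycloExp p σ : ℕ) : k) := by
  show (ZMod.castHom (dvd_refl p) k) ((cycloChar p σ : (ZMod p)ˣ) : ZMod p) = _
  rw [coe_cycloChar, map_natCast]

variable {ρbar p}

/-- The matrix shape `IsSOmat` gives the line shape `SOLine`. -/
theorem soLine_of_isSOmat (b : Module.Basis (Fin 2) k ρbar.V) (pp : Nat.Primes)
    (h : IsSOmat (primeLocalPlace pp) p (rbarOf ρbar b)) :
    SOLine ρbar p pp (Submodule.span k {b 0}) := by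
  refine ⟨finrank_span_singleton (b.ne_zero 0), fun σ hσ => ?_⟩
  obtain ⟨h10, hchar⟩ := h.1 σ hσ
  have hcol : ∀ j : Fin 2, ρbar.ρ σ (b j) =
      rbarOf ρbar b σ 0 j • b 0 + rbarOf ρbar b σ 1 j • b 1 := by
    intro j
    conv_lhs => rw [← b.sum_repr (ρbar.ρ σ (b j))]
    rw [Fin.sum_univ_two, matrixOfBasisRes_apply, LinearMap.toMatrix_apply,
      LinearMap.toMatrix_apply]
  have h0 : ρbar.ρ σ (b 0) = rbarOf ρbar b σ 0 0 • b 0 := by
    rw [hcol 0, h10, zero_smul, add_zero]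
  refine ⟨rbarOf ρbar b σ 0 0, rbarOf ρbar b σ 1 1, fun w hw => ?_, fun v => ?_, ?_⟩
  · obtain ⟨c, rfl⟩ := Submodule.mem_span_singleton.1 hw
    rw [map_smul, h0, smul_comm]
  · have hv : v = b.repr v 0 • b 0 + b.repr v 1 • b 1 := by
      conv_lhs => rw [← b.sum_repr v]
      rw [Fin.sum_univ_two]
    have h1 : ρbar.ρ σ v - rbarOf ρbar b σ 1 1 • v =
        (b.repr v 0 * rbarOf ρbar b σ 0 0 + b.repr v 1 * rbarOf ρbar b σ 0 1 -
          rbarOf ρbar b σ 1 1 * b.repr v 0) • b 0 := by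
      conv_lhs => rw [hv]
      rw [map_add, map_smul, map_smul, h0, hcol 1]
      simp only [smul_add, smul_smul, sub_smul, add_smul]
      rw [mul_comm (rbarOf ρbar b σ 1 1) (b.repr v 1)]
      abel
    rw [h1]
    exact Submodule.smul_mem _ _ (Submodule.mem_span_singleton_self _)
  · have h1 := hchar 1 (cycloExp p σ) (Dict9.apply_eq_pow_cycloExp' p σ)
    have h2 : ((p ^ 1 : ℕ) : k) = 0 := by rw [pow_one]; exact CharP.cast_eq_zero k p
    rw [h2, Ideal.mem_span_singleton, zero_dvd_iff, sub_eq_zero] at h1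
    rw [h1, coe_cycloK]

/-- **(D2), final form** (`hLp` of `GWContracts4.card_Sel_le_of_contracts`). -/
theorem card_LpSO_le [Finite k] (hp2 : p ≠ 2) (pp : Nat.Primes) (hpp : (pp : ℕ) = p)
    (b : Module.Basis (Fin 2) k ρbar.V)
    (h : IsSOmat (primeLocalPlace pp) p (rbarOf ρbar b)) :
    Nat.card ↥(LpSO ρbar (Submodule.span k {b 0}) pp) ≤
      Nat.card k * Fermat.Agent.W56.GWContracts4.d0 (ad0 ρbar) pp := by
  have : Finite (ad0 ρbar) := finite_ad0 ρbar
  have : Finite (H1D (ad0 ρbar) pp) :=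
    Fermat.Agent.W56.FinH1D1.finite_H1D (ad0 ρbar) p
      (fun m => by rw [← Nat.cast_smul_eq_nsmul k, CharP.cast_eq_zero, zero_smul])
      (ad0_smooth ρbar) pp
  exact StrictOrdBound8.card_LpSO_le (soLine_of_isSOmat b pp h) (kummerBound p hp2 pp hpp)

end Fermat.Agent.W56.StrictOrdFinal8
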