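/-
Programme W56 (target S56), chapter (G) "Taylor–Wiles primes" (helper5): **elementary lemmas on
`1`-cocycles**, in plain cocycle language (no categorical group cohomology).

`ρ : Representation k G M`.  A cocycle is a map `c : G → M` with `c (g * h) = c g + ρ g (c h)`; a
coboundary is `g ↦ ρ g m - m`.

* `IsCoc.one`, `IsCoc.inv`, `IsCoc.conj` (the conjugation formula);
* `isCob_of_scalar` : an element `z` acting by a scalar `s ≠ 1` with `c (z g) = c (g z)` for all
  `g` makes `c` a coboundary;
* `eq_zero_of_trivial` : an element `δ` acting trivially with `c (δ g) = c (g δ)` for all `g` has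
  `c δ = 0` when there are no non-zero invariants;
* `isCob_of_restrict` : a cocycle whose restriction to a subgroup of finite index invertible in `k`
  is a coboundary is a coboundary (injectivity of restriction to a Sylow subgroup);
* `isCob_of_card_invertible` : every cocycle of a finite group of order invertible in `k` is a
  coboundary.
-/
import Mathlib

set_option autoImplicit false

namespace Fermat.Agent.W56.GrpCoh5

variable {k : Type*} [Field k] {G : Type*} [Group G] {M : Type*} [AddCommGroup M] [Module k M]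

/-- `1`-cocycles. -/
def IsCoc (ρ : Representation k G M) (c : G → M) : Prop :=
  ∀ g h, c (g * h) = c g + ρ g (c h)

/-- `1`-coboundaries. -/
def IsCob (ρ : Representation k G M) (c : G → M) : Prop :=
  ∃ m : M, ∀ g, c g = ρ g m - m

variable {ρ : Representation k G M} {c : G → M}

theorem IsCoc.one (hc : IsCoc ρ c) : c 1 = 0 := by
  have h := hc 1 1
  rw [mul_one, map_one, Module.End.one_apply] at h
  exact left_eq_add.1 h

theorem IsCoc.inv (hc : IsCoc ρ c) (g : G) : c g⁻¹ = - ρ g⁻¹ (c g) := by
  have h := hc g⁻¹ g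
  rw [inv_mul_cancel, hc.one] at h
  exact eq_neg_of_add_eq_zero_left h.symm

theorem rho_mul_apply (ρ : Representation k G M) (g h : G) (m : M) :
    ρ (g * h) m = ρ g (ρ h m) := by
  rw [map_mul, Module.End.mul_apply]

theorem rho_inv_apply (ρ : Representation k G M) (g : G) (m : M) : ρ g (ρ g⁻¹ m) = m := by
  rw [← rho_mul_apply, mul_inv_cancel, map_one, Module.End.one_apply]

theorem rho_inv_apply' (ρ : Representation k G M) (g : G) (m : M) : ρ g⁻¹ (ρ g m) = m := by
  rw [← rho_mul_apply, inv_mul_cancel, map_one, Module.End.one_apply]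

/-- the conjugation formula. -/
theorem IsCoc.conj (hc : IsCoc ρ c) (g x : G) :
    c (g * x * g⁻¹) = ρ g (c x) + (c g - ρ (g * x * g⁻¹) (c g)) := by
  rw [hc, hc, hc.inv, map_neg, rho_mul_apply ρ (g * x) g⁻¹]
  abel

/-- the difference of a cocycle and a coboundary is a cocycle. -/
theorem IsCoc.sub_cob (hc : IsCoc ρ c) (m : M) : IsCoc ρ (fun g => c g - (ρ g m - m)) := by
  intro g h
  show c (g * h) - (ρ (g * h) m - m) = c g - (ρ g m - m) + ρ g (c h - (ρ h m - m))
  rw [hc, rho_mul_apply, map_sub, map_sub]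
  abel

theorem isCob_of_sub_cob (m : M) (h : IsCob ρ (fun g => c g - (ρ g m - m))) : IsCob ρ c := by
  obtain ⟨m', hm'⟩ := h
  refine ⟨m' + m, fun g => ?_⟩
  have := hm' g
  simp only at this
  rw [map_add]
  rw [sub_eq_iff_eq_add] at this
  rw [this]
  abel

theorem isCob_of_eq_zero (h : ∀ g, c g = 0) : IsCob ρ c :=
  ⟨0, fun g => by rw [h g, map_zero, sub_zero]⟩

/-- **an element acting by a scalar `≠ 1` which commutes with everything as far as `c` sees makes
`c` a coboundary.** -/
theorem isCob_of_scalar (hc : IsCoc ρ c) (z : G) (s : k) (hs : s ≠ 1)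
    (hz : ∀ m : M, ρ z m = s • m) (hcomm : ∀ g, c (z * g) = c (g * z)) : IsCob ρ c := by
  have hs' : s - 1 ≠ 0 := sub_ne_zero.2 hs
  refine ⟨(s - 1)⁻¹ • c z, fun g => ?_⟩
  have h := hcomm g
  rw [hc, hc, hz] at h
  -- `c z + s • c g = c g + ρ g (c z)`
  have h2 : (s - 1) • c g = ρ g (c z) - c z := by
    rw [sub_smul, one_smul, sub_eq_sub_iff_add_eq_add, add_comm (s • c g), add_comm (ρ g (c z))]
    exact h
  rw [map_smul, ← smul_sub, ← h2, smul_smul, inv_mul_cancel₀ hs', one_smul]

/-- **an element acting trivially, commuting with everything as far as `c` sees, is killed by `c`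
when there are no non-zero invariants.** -/
theorem eq_zero_of_trivial (hc : IsCoc ρ c) (hinv : ∀ m : M, (∀ g, ρ g m = m) → m = 0)
    (δ : G) (hδ : ∀ m : M, ρ δ m = m) (hcomm : ∀ g, c (δ * g) = c (g * δ)) : c δ = 0 := by
  apply hinv
  intro g
  have h := hcomm g
  rw [hc, hc, hδ] at h
  -- `c δ + c g = c g + ρ g (c δ)`
  rw [add_comm] at h
  exact (add_left_cancel h).symm

section Restrict

variable (H : Subgroup G) [Fintype (G ⧸ H)]

/-- **restriction to a subgroup of finite index invertible in `k` is injective.** -/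
theorem isCob_of_restrict (hc : IsCoc ρ c) (hidx : (Fintype.card (G ⧸ H) : k) ≠ 0)
    (hH : ∃ m : M, ∀ h ∈ H, c h = ρ h m - m) : IsCob ρ c := by
  classical
  obtain ⟨m, hm⟩ := hH
  apply isCob_of_sub_cob m
  set c' : G → M := fun g => c g - (ρ g m - m) with hc'
  have hcoc : IsCoc ρ c' := hc.sub_cob m
  have hzero : ∀ h ∈ H, c' h = 0 := fun h hh => by
    show c h - (ρ h m - m) = 0
    rw [hm h hh, sub_self]
  -- `c'` is constant on left cosets of `H`
  have hconst : ∀ g : G, ∀ h ∈ H, c' (g * h) = c' g := fun g h hh => by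
    rw [hcoc, hzero h hh, map_zero, add_zero]
  let f : G ⧸ H → M := Quotient.lift c' (by
    intro a b hab
    have hab' : a⁻¹ * b ∈ H := QuotientGroup.leftRel_apply.1 hab
    have := hconst a (a⁻¹ * b) hab'
    rw [mul_inv_cancel_left] at this
    exact this.symm)
  have hf : ∀ g : G, f (QuotientGroup.mk g) = c' g := fun g => rfl
  set N : k := (Fintype.card (G ⧸ H) : k) with hN
  set T : M := ∑ x : G ⧸ H, f x with hT
  refine ⟨-(N⁻¹ • T), fun g => ?_⟩
  -- `∑ f (g • x) = ∑ f x`
  have hperm : ∑ x : G ⧸ H, f (g • x) = T :=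
    Fintype.sum_equiv (MulAction.toPerm g) _ _ (fun x => rfl)
  have hsum : ∑ x : G ⧸ H, f (g • x) = N • c' g + ρ g T := by
    have : ∀ x : G ⧸ H, f (g • x) = c' g + ρ g (f x) := by
      intro x
      induction x using QuotientGroup.induction_on with
      | H a =>
        show f (QuotientGroup.mk (g * a)) = _
        rw [hf, hf, hcoc]
    rw [Finset.sum_congr rfl (fun x _ => this x), Finset.sum_add_distrib, Finset.sum_const,
      Finset.card_univ, ← map_sum, hN, Nat.cast_smul_eq_nsmul]
  rw [hperm] at hsum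
  -- `T = N • c' g + ρ g T`
  have h3 : N • c' g = T - ρ g T := eq_sub_of_add_eq hsum.symm
  have h4 : c' g = N⁻¹ • (T - ρ g T) := by
    rw [← h3, smul_smul, inv_mul_cancel₀ hidx, one_smul]
  rw [h4, map_neg, map_smul, smul_sub]
  abel

end Restrict

/-- every cocycle of a finite group of order invertible in `k` is a coboundary. -/
theorem isCob_of_card_invertible [Fintype G] (hc : IsCoc ρ c)
    (hcard : (Fintype.card G : k) ≠ 0) : IsCob ρ c := by
  classical
  have : Fintype (G ⧸ (⊥ : Subgroup G)) := Fintype.ofFinite _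
  apply isCob_of_restrict (⊥ : Subgroup G) hc
  · have h1 : Fintype.card (G ⧸ (⊥ : Subgroup G)) = Fintype.card G := by
      rw [← Nat.card_eq_fintype_card, ← Nat.card_eq_fintype_card]
      exact Nat.card_congr (QuotientGroup.quotientBot (G := G)).toEquiv
    rw [h1]
    exact hcard
  · refine ⟨0, fun h hh => ?_⟩
    rw [Subgroup.mem_bot] at hh
    rw [hh, hc.one, map_zero, sub_zero]

end Fermat.Agent.W56.GrpCoh5
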