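/-
Programme W56 (target S56), chapter (G) "Taylor–Wiles primes" (helper5): **the twisted adjoint
representation** `g • A = det (ρ g) • (ρ g * A * ρ g⁻¹)` on `End_k V` of a representation
`ρ : Representation k G V`, and its elementary properties (trace, scalars, coboundaries with
trace-zero values).
-/
import Mathlib
import Fermat.Agent.W56.GrpCoh5

set_option autoImplicit false

noncomputable section

namespace Fermat.Agent.W56.AdTw5

open Fermat.Agent.W56.GrpCoh5

variable {k : Type*} [Field k] {G : Type*} [Group G] {V : Type*} [AddCommGroup V] [Module k V]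

theorem rho_mul_inv (ρ : Representation k G V) (g : G) : ρ g * ρ g⁻¹ = 1 := by
  rw [← map_mul, mul_inv_cancel, map_one]

theorem rho_inv_mul (ρ : Representation k G V) (g : G) : ρ g⁻¹ * ρ g = 1 := by
  rw [← map_mul, inv_mul_cancel, map_one]

/-- the twisted adjoint representation on `End_k V`. -/
def adTw (ρ : Representation k G V) : Representation k G (Module.End k V) where
  toFun g :=
    { toFun := fun A => LinearMap.det (ρ g) • (ρ g * A * ρ g⁻¹)
      map_add' := fun A B => by rw [mul_add, add_mul, smul_add]
      map_smul' := fun a A => by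
        rw [RingHom.id_apply, mul_smul_comm, smul_mul_assoc, smul_comm] }
  map_one' := by
    ext A : 1
    show LinearMap.det (ρ 1) • (ρ 1 * A * ρ 1⁻¹) = A
    rw [inv_one, map_one, map_one, one_smul, one_mul, mul_one]
  map_mul' g h := by
    ext A : 1
    show LinearMap.det (ρ (g * h)) • (ρ (g * h) * A * ρ (g * h)⁻¹) =
      LinearMap.det (ρ g) • (ρ g * (LinearMap.det (ρ h) • (ρ h * A * ρ h⁻¹)) * ρ g⁻¹)
    rw [mul_inv_rev, map_mul, map_mul, map_mul, mul_smul_comm, smul_mul_assoc, smul_smul]
    simp only [mul_assoc]

theorem adTw_apply (ρ : Representation k G V) (g : G) (A : Module.End k V) :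
    adTw ρ g A = LinearMap.det (ρ g) • (ρ g * A * ρ g⁻¹) := rfl

theorem trace_conj (ρ : Representation k G V) (g : G) (A : Module.End k V) :
    LinearMap.trace k V (ρ g * A * ρ g⁻¹) = LinearMap.trace k V A := by
  rw [LinearMap.trace_mul_comm, ← mul_assoc, rho_inv_mul, one_mul]

theorem trace_adTw (ρ : Representation k G V) (g : G) (A : Module.End k V) :
    LinearMap.trace k V (adTw ρ g A) = LinearMap.det (ρ g) * LinearMap.trace k V A := by
  rw [adTw_apply, map_smul, trace_conj, smul_eq_mul]

theorem det_rho_ne_zero (ρ : Representation k G V) (g : G) : LinearMap.det (ρ g) ≠ 0 := by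
  intro h
  have := congrArg LinearMap.det (rho_mul_inv ρ g)
  rw [map_mul, h, zero_mul, map_one] at this
  exact zero_ne_one this

/-- an element acting on `V` by a scalar acts on `End V` by its determinant. -/
theorem adTw_of_scalar (ρ : Representation k G V) (g : G) (a : k) (hg : ρ g = a • 1)
    (A : Module.End k V) : adTw ρ g A = LinearMap.det (ρ g) • A := by
  rw [adTw_apply]
  congr 1
  have h1 : ρ g * A = A * ρ g := by
    rw [hg, smul_mul_assoc, one_mul, mul_smul_comm, mul_one]
  rw [h1, mul_assoc, rho_mul_inv, mul_one]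

/-- the twisted action only depends on `ρ g`. -/
theorem adTw_congr (ρ : Representation k G V) {g h : G} (hgh : ρ g = ρ h) :
    adTw ρ g = adTw ρ h := by
  have hinv : ρ g⁻¹ = ρ h⁻¹ := by
    have h1 : ρ g⁻¹ * (ρ g * ρ h⁻¹) = ρ g⁻¹ := by
      rw [hgh, rho_mul_inv, mul_one]
    rw [← mul_assoc, rho_inv_mul, one_mul] at h1
    exact h1.symm
  ext A : 1
  rw [adTw_apply, adTw_apply, hgh, hinv]

/-- **a coboundary in `End V` with trace-zero values is the coboundary of a trace-zero element**
(characteristic `≠ 2`, `dim V = 2`). -/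
theorem exists_trace_zero_of_isCob (ρ : Representation k G V) (h2 : (2 : k) ≠ 0)
    (hV : Module.finrank k V = 2) {c : G → Module.End k V}
    (htr : ∀ g, LinearMap.trace k V (c g) = 0) (hc : IsCob (adTw ρ) c) :
    ∃ A : Module.End k V, LinearMap.trace k V A = 0 ∧ ∀ g, c g = adTw ρ g A - A := by
  obtain ⟨A, hA⟩ := hc
  have : Module.Finite k V := Module.finite_of_finrank_eq_succ hV
  set a : k := LinearMap.trace k V A / 2 with ha
  have htr1 : LinearMap.trace k V (1 : Module.End k V) = 2 := by
    rw [LinearMap.trace_one, hV]; norm_num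
  refine ⟨A - a • 1, ?_, fun g => ?_⟩
  · rw [map_sub, map_smul, htr1, ha, smul_eq_mul, div_mul_cancel₀ _ h2, sub_self]
  · -- `a * (det g - 1) = 0`
    have h1 := htr g
    rw [hA g, map_sub, trace_adTw] at h1
    have h3 : a * (LinearMap.det (ρ g) - 1) = 0 := by
      have : LinearMap.trace k V A = 2 * a := by rw [ha]; field_simp
      rw [this] at h1
      have h4 : 2 * (a * (LinearMap.det (ρ g) - 1)) = 0 := by linear_combination h1
      exact (mul_eq_zero.1 h4).resolve_left h2
    rw [hA g, map_sub, map_smul]
    have h5 : adTw ρ g (1 : Module.End k V) = LinearMap.det (ρ g) • 1 := by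
      rw [adTw_apply, mul_one, rho_mul_inv]
    rw [h5, smul_smul]
    have h6 : (a * LinearMap.det (ρ g)) • (1 : Module.End k V) = a • 1 := by
      congr 1
      linear_combination h3
    rw [h6]
    abel

end Fermat.Agent.W56.AdTw5
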