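/-
Programme W56 (target S56), chapter (G) "Taylor–Wiles primes" (helper5): **linear algebra of a
two-dimensional vector space** — bases from two non-proportional vectors, the matrix of an
endomorphism having a given eigenvector, Cayley–Hamilton for trace-zero endomorphisms, eigenvectors
from split characteristic polynomials.
-/
import Mathlib

set_option autoImplicit false

noncomputable section

namespace Fermat.Agent.W56.Lin2Dim5

open Module

variable {k : Type*} [Field k] {V : Type*} [AddCommGroup V] [Module k V]

/-- two non-proportional vectors of a plane form a basis. -/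
theorem exists_basis_pair (hV : Module.finrank k V = 2) (v w : V) (hv : v ≠ 0)
    (hw : ∀ a : k, w ≠ a • v) : ∃ b : Basis (Fin 2) k V, b 0 = v ∧ b 1 = w := by
  have hli : LinearIndependent k ![v, w] := by
    rw [linearIndependent_fin2]
    refine ⟨?_, fun a ha => ?_⟩
    · show w ≠ 0
      intro h0
      exact hw 0 (by rw [h0, zero_smul])
    · have ha' : a • w = v := ha
      have ha0 : a ≠ 0 := by
        rintro rfl
        rw [zero_smul] at ha'
        exact hv ha'.symm
      apply hw a⁻¹
      rw [← ha', smul_smul, inv_mul_cancel₀ ha0, one_smul]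
  refine ⟨basisOfLinearIndependentOfCardEqFinrank hli (by rw [hV]; rfl), ?_, ?_⟩
  · rw [coe_basisOfLinearIndependentOfCardEqFinrank]; rfl
  · rw [coe_basisOfLinearIndependentOfCardEqFinrank]; rfl

/-- a non-zero vector of a plane is the first vector of a basis. -/
theorem exists_basis_fst (hV : Module.finrank k V = 2) (v : V) (hv : v ≠ 0) :
    ∃ b : Basis (Fin 2) k V, b 0 = v := by
  by_cases h : ∃ w : V, ∀ a : k, w ≠ a • v
  · obtain ⟨w, hw⟩ := h
    obtain ⟨b, hb, -⟩ := exists_basis_pair hV v w hv hw
    exact ⟨b, hb⟩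
  · exfalso
    push Not at h
    have : Module.Finite k V := Module.finite_of_finrank_eq_succ hV
    -- `V = span {v}` has dimension `≤ 1`
    have htop : (⊤ : Submodule k V) ≤ Submodule.span k {v} := fun w _ => by
      obtain ⟨a, ha⟩ := h w
      rw [ha]
      exact Submodule.smul_mem _ _ (Submodule.subset_span rfl)
    have h1 : Module.finrank k (⊤ : Submodule k V) ≤ 1 :=
      (Submodule.finrank_mono htop).trans (finrank_span_singleton hv).le
    rw [finrank_top, hV] at h1
    omega

theorem decomp_pair (b : Basis (Fin 2) k V) (u : V) :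
    u = b.repr u 0 • b 0 + b.repr u 1 • b 1 := by
  conv_lhs => rw [← b.sum_repr u, Fin.sum_univ_two]

/-- an endomorphism of a plane which is a given scalar on two non-proportional vectors is that
scalar. -/
theorem eq_smul_one_of_pair (hV : Module.finrank k V = 2) (f : Module.End k V) (e : k) (v w : V)
    (hv : v ≠ 0) (hw : ∀ a : k, w ≠ a • v) (h1 : f v = e • v) (h2 : f w = e • w) :
    f = e • 1 := by
  obtain ⟨b, hb0, hb1⟩ := exists_basis_pair hV v w hv hw
  apply b.ext
  intro i
  fin_cases i
  · show f (b 0) = (e • (1 : Module.End k V)) (b 0)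
    rw [hb0, h1, LinearMap.smul_apply, Module.End.one_apply]
  · show f (b 1) = (e • (1 : Module.End k V)) (b 1)
    rw [hb1, h2, LinearMap.smul_apply, Module.End.one_apply]

/-- **Cayley–Hamilton for a trace-zero endomorphism of a plane.** -/
theorem sq_of_trace_zero (hV : Module.finrank k V = 2) (A : Module.End k V)
    (htr : LinearMap.trace k V A = 0) : A * A = (-LinearMap.det A) • 1 := by
  have : Module.Finite k V := Module.finite_of_finrank_eq_succ hV
  let b : Basis (Fin 2) k V := Module.finBasisOfFinrankEq k V hV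
  apply (LinearMap.toMatrixAlgEquiv b).injective
  rw [map_mul, map_smul, map_one]
  have h1 : LinearMap.trace k V A = Matrix.trace (LinearMap.toMatrixAlgEquiv b A) :=
    LinearMap.trace_eq_matrix_trace k b A
  have h2 : LinearMap.det A = Matrix.det (LinearMap.toMatrixAlgEquiv b A) :=
    (LinearMap.det_toMatrix b A).symm
  set M := LinearMap.toMatrixAlgEquiv b A with hM
  rw [htr, Matrix.trace_fin_two] at h1
  have h11 : M 1 1 = - M 0 0 := by linear_combination -h1
  rw [h2, Matrix.det_fin_two, h11]
  ext i j
  fin_cases i <;> fin_cases j <;>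
    simp [Matrix.mul_apply, Fin.sum_univ_two, h11] <;> ring

/-- the trace of a scalar endomorphism of a plane. -/
theorem trace_smul_one (hV : Module.finrank k V = 2) (e : k) :
    LinearMap.trace k V (e • (1 : Module.End k V)) = 2 * e := by
  have : Module.Finite k V := Module.finite_of_finrank_eq_succ hV
  rw [map_smul, LinearMap.trace_one, hV, smul_eq_mul]
  push_cast
  ring

/-- the determinant of a scalar endomorphism of a plane. -/
theorem det_smul_one (hV : Module.finrank k V = 2) (e : k) :
    LinearMap.det (e • (1 : Module.End k V)) = e ^ 2 := by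
  have : Module.Finite k V := Module.finite_of_finrank_eq_succ hV
  rw [LinearMap.det_smul, hV, map_one, mul_one]

/-- a root of the characteristic polynomial gives an eigenvector. -/
theorem exists_eigenvector_of_charpoly [Module.Finite k V] (f : Module.End k V)
    (α β : k)
    (h : LinearMap.charpoly f = (Polynomial.X - Polynomial.C α) * (Polynomial.X - Polynomial.C β)) :
    ∃ v : V, v ≠ 0 ∧ f v = α • v := by
  have hroot : (LinearMap.charpoly f).IsRoot α := by
    rw [h, Polynomial.IsRoot, Polynomial.eval_mul, Polynomial.eval_sub, Polynomial.eval_X,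
      Polynomial.eval_C, sub_self, zero_mul]
  have hev := (Module.End.hasEigenvalue_iff_isRoot_charpoly f α).2 hroot
  obtain ⟨v, hv⟩ := hev.exists_hasEigenvector
  exact ⟨v, hv.2, hv.apply_eq_smul⟩

/-- the matrix of an endomorphism in a basis whose first vector is an eigenvector. -/
theorem toMatrix_of_eigen (b : Basis (Fin 2) k V) (f : Module.End k V) (s : k)
    (h : f (b 0) = s • b 0) :
    LinearMap.toMatrixAlgEquiv b f 0 0 = s ∧ LinearMap.toMatrixAlgEquiv b f 1 0 = 0 := by
  constructor
  · rw [LinearMap.toMatrixAlgEquiv_apply, h, map_smul, Finsupp.smul_apply, b.repr_self,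
      Finsupp.single_eq_same, smul_eq_mul, mul_one]
  · rw [LinearMap.toMatrixAlgEquiv_apply, h, map_smul, Finsupp.smul_apply, b.repr_self,
      Finsupp.single_eq_of_ne (by decide), smul_eq_mul, mul_zero]

/-- conversely the first column of the matrix gives the image of the first basis vector. -/
theorem apply_fst_of_toMatrix (b : Basis (Fin 2) k V) (f : Module.End k V) :
    f (b 0) = LinearMap.toMatrixAlgEquiv b f 0 0 • b 0 + LinearMap.toMatrixAlgEquiv b f 1 0 • b 1 := by
  rw [LinearMap.toMatrixAlgEquiv_apply, LinearMap.toMatrixAlgEquiv_apply]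
  exact decomp_pair b (f (b 0))

theorem apply_snd_of_toMatrix (b : Basis (Fin 2) k V) (f : Module.End k V) :
    f (b 1) = LinearMap.toMatrixAlgEquiv b f 0 1 • b 0 + LinearMap.toMatrixAlgEquiv b f 1 1 • b 1 := by
  rw [LinearMap.toMatrixAlgEquiv_apply, LinearMap.toMatrixAlgEquiv_apply]
  exact decomp_pair b (f (b 1))

/-- trace in a basis. -/
theorem trace_eq_of_basis (b : Basis (Fin 2) k V) (f : Module.End k V) :
    LinearMap.trace k V f =
      LinearMap.toMatrixAlgEquiv b f 0 0 + LinearMap.toMatrixAlgEquiv b f 1 1 := by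
  rw [LinearMap.trace_eq_matrix_trace k b f, Matrix.trace_fin_two]
  rfl

/-- determinant in a basis. -/
theorem det_eq_of_basis (b : Basis (Fin 2) k V) (f : Module.End k V) :
    LinearMap.det f =
      LinearMap.toMatrixAlgEquiv b f 0 0 * LinearMap.toMatrixAlgEquiv b f 1 1 -
        LinearMap.toMatrixAlgEquiv b f 0 1 * LinearMap.toMatrixAlgEquiv b f 1 0 := by
  rw [← LinearMap.det_toMatrix b f, Matrix.det_fin_two]
  rfl

/-- entries of a product in a basis. -/
theorem mat_mul_apply (b : Basis (Fin 2) k V) (f g : Module.End k V) (i j : Fin 2) :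
    LinearMap.toMatrixAlgEquiv b (f * g) i j =
      LinearMap.toMatrixAlgEquiv b f i 0 * LinearMap.toMatrixAlgEquiv b g 0 j +
        LinearMap.toMatrixAlgEquiv b f i 1 * LinearMap.toMatrixAlgEquiv b g 1 j := by
  rw [map_mul, Matrix.mul_apply, Fin.sum_univ_two]

/-- the entries of the matrix of `f` in a basis, from the images of the basis vectors. -/
theorem mat_entries_of_apply (b : Basis (Fin 2) k V) (f : Module.End k V) (a00 a10 a01 a11 : k)
    (h0 : f (b 0) = a00 • b 0 + a10 • b 1) (h1 : f (b 1) = a01 • b 0 + a11 • b 1) :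
    LinearMap.toMatrixAlgEquiv b f 0 0 = a00 ∧ LinearMap.toMatrixAlgEquiv b f 1 0 = a10 ∧
      LinearMap.toMatrixAlgEquiv b f 0 1 = a01 ∧ LinearMap.toMatrixAlgEquiv b f 1 1 = a11 := by
  simp only [LinearMap.toMatrixAlgEquiv_apply, h0, h1, map_add, map_smul, b.repr_self,
    Finsupp.add_apply, Finsupp.smul_apply, smul_eq_mul]
  refine ⟨?_, ?_, ?_, ?_⟩ <;> simp

/-- two endomorphisms with the same matrix are equal. -/
theorem end_ext_of_mat (b : Basis (Fin 2) k V) (f g : Module.End k V)
    (h : ∀ i j, LinearMap.toMatrixAlgEquiv b f i j = LinearMap.toMatrixAlgEquiv b g i j) :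
    f = g :=
  (LinearMap.toMatrixAlgEquiv b).injective (Matrix.ext h)

theorem mat_sub_apply (b : Basis (Fin 2) k V) (f g : Module.End k V) (i j : Fin 2) :
    LinearMap.toMatrixAlgEquiv b (f - g) i j =
      LinearMap.toMatrixAlgEquiv b f i j - LinearMap.toMatrixAlgEquiv b g i j := by
  rw [map_sub, Matrix.sub_apply]

theorem mat_add_apply (b : Basis (Fin 2) k V) (f g : Module.End k V) (i j : Fin 2) :
    LinearMap.toMatrixAlgEquiv b (f + g) i j =
      LinearMap.toMatrixAlgEquiv b f i j + LinearMap.toMatrixAlgEquiv b g i j := by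
  rw [map_add, Matrix.add_apply]

theorem mat_smul_apply (b : Basis (Fin 2) k V) (a : k) (f : Module.End k V) (i j : Fin 2) :
    LinearMap.toMatrixAlgEquiv b (a • f) i j = a * LinearMap.toMatrixAlgEquiv b f i j := by
  rw [map_smul, Matrix.smul_apply, smul_eq_mul]

theorem mat_one_apply (b : Basis (Fin 2) k V) (i j : Fin 2) :
    LinearMap.toMatrixAlgEquiv b (1 : Module.End k V) i j = if i = j then 1 else 0 := by
  rw [map_one, Matrix.one_apply]

/-- coordinates in a basis of a plane are unique. -/
theorem pair_eq_iff (b : Basis (Fin 2) k V) (a₁ a₂ c₁ c₂ : k) :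
    a₁ • b 0 + a₂ • b 1 = c₁ • b 0 + c₂ • b 1 ↔ a₁ = c₁ ∧ a₂ = c₂ := by
  constructor
  · intro h
    have h0 := congrArg (fun z => b.repr z 0) h
    have h1 := congrArg (fun z => b.repr z 1) h
    simp only [map_add, map_smul, b.repr_self, Finsupp.add_apply, Finsupp.smul_apply,
      smul_eq_mul] at h0 h1
    have e1 : (Finsupp.single (1 : Fin 2) (1 : k)) 0 = 0 := Finsupp.single_eq_of_ne (by decide)
    have e2 : (Finsupp.single (0 : Fin 2) (1 : k)) 1 = 0 := Finsupp.single_eq_of_ne (by decide)
    rw [Finsupp.single_eq_same, e1] at h0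
    rw [Finsupp.single_eq_same, e2] at h1
    constructor
    · linear_combination h0
    · linear_combination h1
  · rintro ⟨rfl, rfl⟩
    rfl

end Fermat.Agent.W56.Lin2Dim5
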