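/-
Programme W56 (target S56), chapter (G) "Taylor–Wiles primes" (helper5): **the twisted adjoint
action of upper triangular elements in coordinates.**

`b` a basis of the plane `V`, `g` an element with `ρ g (b 0) ∈ k (b 0)`, i.e. with upper triangular
matrix `[[s₁, b₀], [0, s₂]]`.  Then `det (ρ g) • (ρ g A ρ g⁻¹)` has entries
`(1,0) : s₂² A₁₀`, `(0,0) : s₁ s₂ A₀₀ + s₂ b₀ A₁₀`, `(1,1) : s₁ s₂ A₁₁ - s₂ b₀ A₁₀`,
`(0,1) : s₁² A₀₁ + s₁ b₀ (A₁₁ - A₀₀) - b₀² A₁₀`.
-/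
import Mathlib
import Fermat.Agent.W56.AdTw5
import Fermat.Agent.W56.Lin2Dim5

set_option autoImplicit false

noncomputable section

namespace Fermat.Agent.W56.Borel5

open Fermat.Agent.W56.AdTw5 Fermat.Agent.W56.Lin2Dim5 Module

variable {k : Type*} [Field k] {G : Type*} [Group G] {V : Type*} [AddCommGroup V] [Module k V]
variable (ρ : Representation k G V) (b : Basis (Fin 2) k V)

local notation "mat" => LinearMap.toMatrixAlgEquiv b

/-- the determinant of an upper triangular element. -/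
theorem det_of_upper (g : G) (hup : mat (ρ g) 1 0 = 0) :
    LinearMap.det (ρ g) = mat (ρ g) 0 0 * mat (ρ g) 1 1 := by
  rw [det_eq_of_basis b, hup, mul_zero, sub_zero]

theorem diag_ne_zero_of_upper (g : G) (hup : mat (ρ g) 1 0 = 0) :
    mat (ρ g) 0 0 ≠ 0 ∧ mat (ρ g) 1 1 ≠ 0 := by
  have h := det_rho_ne_zero ρ g
  rw [det_of_upper ρ b g hup] at h
  exact ⟨left_ne_zero_of_mul h, right_ne_zero_of_mul h⟩

/-- **the twisted adjoint action of an upper triangular element, in coordinates.** -/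
theorem adTw_entries_upper (g : G) (hup : mat (ρ g) 1 0 = 0) (A : Module.End k V) :
    mat (adTw ρ g A) 1 0 = mat (ρ g) 1 1 ^ 2 * mat A 1 0 ∧
    mat (adTw ρ g A) 0 0 =
      mat (ρ g) 0 0 * mat (ρ g) 1 1 * mat A 0 0 + mat (ρ g) 1 1 * mat (ρ g) 0 1 * mat A 1 0 ∧
    mat (adTw ρ g A) 1 1 =
      mat (ρ g) 0 0 * mat (ρ g) 1 1 * mat A 1 1 - mat (ρ g) 1 1 * mat (ρ g) 0 1 * mat A 1 0 ∧
    mat (adTw ρ g A) 0 1 =
      mat (ρ g) 0 0 ^ 2 * mat A 0 1 + mat (ρ g) 0 0 * mat (ρ g) 0 1 * (mat A 1 1 - mat A 0 0) -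
        mat (ρ g) 0 1 ^ 2 * mat A 1 0 := by
  obtain ⟨hs1, hs2⟩ := diag_ne_zero_of_upper ρ b g hup
  have hdet := det_of_upper ρ b g hup
  set B := adTw ρ g A with hB
  have hrel : B * ρ g = LinearMap.det (ρ g) • (ρ g * A) := by
    rw [hB, adTw_apply, smul_mul_assoc, mul_assoc, rho_inv_mul, mul_one]
  have e := fun i j => congrArg (fun M => mat M i j) hrel
  have e00 := e 0 0
  have e01 := e 0 1
  have e10 := e 1 0
  have e11 := e 1 1
  simp only [mat_mul_apply, mat_smul_apply, hup, hdet, mul_zero, zero_mul, add_zero,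
    zero_add] at e00 e01 e10 e11
  set s₁ := mat (ρ g) 0 0
  set s₂ := mat (ρ g) 1 1
  set b₀ := mat (ρ g) 0 1
  have h10 : mat B 1 0 = s₂ ^ 2 * mat A 1 0 := by
    apply mul_right_cancel₀ hs1
    linear_combination e10
  have h00 : mat B 0 0 = s₁ * s₂ * mat A 0 0 + s₂ * b₀ * mat A 1 0 := by
    apply mul_right_cancel₀ hs1
    linear_combination e00
  have h11 : mat B 1 1 = s₁ * s₂ * mat A 1 1 - s₂ * b₀ * mat A 1 0 := by
    apply mul_right_cancel₀ hs2
    linear_combination e11 - b₀ * h10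
  have h01 : mat B 0 1 = s₁ ^ 2 * mat A 0 1 + s₁ * b₀ * (mat A 1 1 - mat A 0 0) -
      b₀ ^ 2 * mat A 1 0 := by
    apply mul_right_cancel₀ hs2
    linear_combination e01 - b₀ * h00
  exact ⟨h10, h00, h11, h01⟩

end Fermat.Agent.W56.Borel5
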