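/-
Programme W56 (target S56), chapter (G) "Taylor–Wiles primes" (helper5): **the unipotent group of
a line.**

`b` a basis of the plane `V`.  `unip ρ b` is the subgroup of the `g` with `ρ g (b 0) = b 0` and
`det (ρ g) = 1`; its elements have matrix `[[1, fU g], [0, 1]]`, `fU` is additive and injective on
it (for faithful `ρ`), the stabiliser of the line `k (b 0)` normalises it and acts on it through
`fU (t x t⁻¹) s₂ = s₁ fU x`.
-/
import Mathlib
import Fermat.Agent.W56.Borel5
import Fermat.Agent.W56.StableLine5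

set_option autoImplicit false

noncomputable section

namespace Fermat.Agent.W56.Unip5

open Fermat.Agent.W56.AdTw5 Fermat.Agent.W56.Lin2Dim5 Fermat.Agent.W56.Borel5
  Fermat.Agent.W56.StableLine5 Module

variable {k : Type*} [Field k] {G : Type*} [Group G] {V : Type*} [AddCommGroup V] [Module k V]
variable (ρ : Representation k G V) (b : Basis (Fin 2) k V)

local notation "mat" => LinearMap.toMatrixAlgEquiv b

/-- the unipotent group of the line spanned by `b 0`. -/
def unip : Subgroup G where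
  carrier := {g | ρ g (b 0) = b 0 ∧ LinearMap.det (ρ g) = 1}
  one_mem' := ⟨by rw [map_one, Module.End.one_apply], by rw [map_one, map_one]⟩
  mul_mem' := by
    rintro g h ⟨hg1, hg2⟩ ⟨hh1, hh2⟩
    exact ⟨by rw [map_mul, Module.End.mul_apply, hh1, hg1],
      by rw [map_mul, map_mul, hg2, hh2, one_mul]⟩
  inv_mem' := by
    rintro g ⟨hg1, hg2⟩
    refine ⟨?_, ?_⟩
    · have := congrArg (ρ g⁻¹) hg1
      rw [← Module.End.mul_apply, rho_inv_mul, Module.End.one_apply] at this
      exact this.symm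
    · have := congrArg LinearMap.det (rho_inv_mul ρ g)
      rwa [map_mul, hg2, mul_one, map_one] at this

theorem mem_unip (g : G) :
    g ∈ unip ρ b ↔ ρ g (b 0) = b 0 ∧ LinearMap.det (ρ g) = 1 := Iff.rfl

/-- the upper right entry. -/
def fU (g : G) : k := mat (ρ g) 0 1

/-- the Borel subgroup: the stabiliser of the line spanned by `b 0`. -/
def borel : Subgroup G := lineStab ρ (b 0) (b.ne_zero 0)

theorem mem_borel (g : G) : g ∈ borel ρ b ↔ ∃ a : k, ρ g (b 0) = a • b 0 := Iff.rfl

theorem unip_le_borel : unip ρ b ≤ borel ρ b := fun g hg => ⟨1, by rw [hg.1, one_smul]⟩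

theorem lower_left_of_mem_borel {t : G} (ht : t ∈ borel ρ b) : mat (ρ t) 1 0 = 0 := by
  obtain ⟨a, ha⟩ := ht
  exact (toMatrix_of_eigen b (ρ t) a ha).2

theorem mem_borel_of_lower_left {t : G} (ht : mat (ρ t) 1 0 = 0) : t ∈ borel ρ b := by
  refine ⟨mat (ρ t) 0 0, ?_⟩
  have := apply_fst_of_toMatrix b (ρ t)
  rwa [ht, zero_smul, add_zero] at this

theorem apply_fst_of_mem_borel {t : G} (ht : t ∈ borel ρ b) :
    ρ t (b 0) = mat (ρ t) 0 0 • b 0 := by
  have := apply_fst_of_toMatrix b (ρ t)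
  rwa [lower_left_of_mem_borel ρ b ht, zero_smul, add_zero] at this

variable {ρ b}

theorem mat_of_mem_unip {x : G} (hx : x ∈ unip ρ b) :
    mat (ρ x) 0 0 = 1 ∧ mat (ρ x) 1 0 = 0 ∧ mat (ρ x) 1 1 = 1 := by
  obtain ⟨h00, h10⟩ := toMatrix_of_eigen b (ρ x) 1 (by rw [hx.1, one_smul])
  refine ⟨h00, h10, ?_⟩
  have := hx.2
  rwa [det_eq_of_basis b, h00, h10, mul_zero, sub_zero, one_mul] at this

theorem mem_unip_of_mat {x : G} (h00 : mat (ρ x) 0 0 = 1) (h10 : mat (ρ x) 1 0 = 0)
    (h11 : mat (ρ x) 1 1 = 1) : x ∈ unip ρ b := by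
  refine ⟨?_, ?_⟩
  · have := apply_fst_of_toMatrix b (ρ x)
    rwa [h00, h10, one_smul, zero_smul, add_zero] at this
  · rw [det_eq_of_basis b, h00, h10, h11, mul_zero, sub_zero, one_mul]

theorem fU_mul {x y : G} (hx : x ∈ unip ρ b) (hy : y ∈ unip ρ b) :
    fU ρ b (x * y) = fU ρ b x + fU ρ b y := by
  obtain ⟨hx00, -, -⟩ := mat_of_mem_unip hx
  obtain ⟨-, -, hy11⟩ := mat_of_mem_unip hy
  rw [fU, map_mul, mat_mul_apply, hx00, hy11, one_mul, mul_one, add_comm]
  rfl

theorem fU_one : fU ρ b (1 : G) = 0 := by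
  rw [fU, map_one, mat_one_apply]
  simp

theorem fU_inv {x : G} (hx : x ∈ unip ρ b) : fU ρ b x⁻¹ = -fU ρ b x := by
  have h := fU_mul hx ((unip ρ b).inv_mem hx)
  rw [mul_inv_cancel, fU_one] at h
  linear_combination -h

theorem fU_pow {x : G} (hx : x ∈ unip ρ b) (n : ℕ) : fU ρ b (x ^ n) = n * fU ρ b x := by
  induction n with
  | zero => rw [pow_zero, fU_one, Nat.cast_zero, zero_mul]
  | succ n ih =>
    rw [pow_succ, fU_mul ((unip ρ b).pow_mem hx n) hx, ih]
    push_cast
    ring

/-- for a faithful representation `fU` is injective on the unipotent group. -/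
theorem eq_one_of_fU_eq_zero (hinj : Function.Injective ρ) {x : G} (hx : x ∈ unip ρ b)
    (h : fU ρ b x = 0) : x = 1 := by
  apply hinj
  rw [map_one]
  obtain ⟨h00, h10, h11⟩ := mat_of_mem_unip hx
  apply end_ext_of_mat b
  intro i j
  rw [mat_one_apply]
  fin_cases i <;> fin_cases j
  · simpa using h00
  · simpa [fU] using h
  · simpa using h10
  · simpa using h11

theorem eq_of_fU_eq (hinj : Function.Injective ρ) {x y : G} (hx : x ∈ unip ρ b)
    (hy : y ∈ unip ρ b) (h : fU ρ b x = fU ρ b y) : x = y := by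
  have h1 : x * y⁻¹ = 1 := by
    apply eq_one_of_fU_eq_zero hinj ((unip ρ b).mul_mem hx ((unip ρ b).inv_mem hy))
    rw [fU_mul hx ((unip ρ b).inv_mem hy), fU_inv hy, h, add_neg_cancel]
  exact mul_inv_eq_one.1 h1

/-- the unipotent group is commutative (for a faithful representation). -/
theorem unip_comm (hinj : Function.Injective ρ) {x y : G} (hx : x ∈ unip ρ b)
    (hy : y ∈ unip ρ b) : x * y = y * x := by
  apply eq_of_fU_eq hinj ((unip ρ b).mul_mem hx hy) ((unip ρ b).mul_mem hy hx)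
  rw [fU_mul hx hy, fU_mul hy hx, add_comm]

/-- the Borel subgroup normalises the unipotent group. -/
theorem conj_mem_unip {t x : G} (ht : t ∈ borel ρ b) (hx : x ∈ unip ρ b) :
    t * x * t⁻¹ ∈ unip ρ b := by
  obtain ⟨a, ha⟩ := (borel ρ b).inv_mem ht
  have ha' : ρ t (a • b 0) = b 0 := by
    rw [← ha, ← Module.End.mul_apply, rho_mul_inv, Module.End.one_apply]
  refine ⟨?_, ?_⟩
  · rw [map_mul, map_mul, Module.End.mul_apply, Module.End.mul_apply, ha, map_smul, hx.1, ha']
  · rw [map_mul, map_mul, map_mul, map_mul, hx.2, mul_one, ← map_mul, rho_mul_inv, map_one]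

/-- the action of the Borel subgroup on the unipotent group. -/
theorem fU_conj {t x : G} (ht : t ∈ borel ρ b) (hx : x ∈ unip ρ b) :
    fU ρ b (t * x * t⁻¹) * mat (ρ t) 1 1 = mat (ρ t) 0 0 * fU ρ b x := by
  have hy := conj_mem_unip ht hx
  obtain ⟨hy00, hy10, hy11⟩ := mat_of_mem_unip hy
  obtain ⟨hx00, hx10, hx11⟩ := mat_of_mem_unip hx
  have ht10 := lower_left_of_mem_borel ρ b ht
  have h1 : ρ (t * x * t⁻¹) * ρ t = ρ t * ρ x := by
    rw [← map_mul, ← map_mul, inv_mul_cancel_right]
  have h2 := congrArg (fun M => mat M 0 1) h1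
  simp only [mat_mul_apply, hy00, hx11, one_mul, mul_one] at h2
  rw [fU, fU]
  linear_combination h2

/-- the fixed vectors of a non-trivial unipotent element are the multiples of `b 0`. -/
theorem fixed_of_unip {x : G} (hx : x ∈ unip ρ b) (hf : fU ρ b x ≠ 0) {w : V}
    (hw : ρ x w = w) : ∃ a : k, w = a • b 0 := by
  obtain ⟨h00, h10, h11⟩ := mat_of_mem_unip hx
  have h1 : ρ x (b 1) = fU ρ b x • b 0 + b 1 := by
    have := apply_snd_of_toMatrix b (ρ x)
    rwa [h11, one_smul] at this
  have h2 := decomp_pair b w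
  refine ⟨b.repr w 0, ?_⟩
  have h3 : ρ x w = (b.repr w 0 + b.repr w 1 * fU ρ b x) • b 0 + b.repr w 1 • b 1 := by
    conv_lhs => rw [h2]
    rw [map_add, map_smul, map_smul, hx.1, h1, smul_add, smul_smul, add_smul]
    abel
  rw [hw] at h3
  have h4 := congrArg (fun z => b.repr z 0) h3
  simp only [map_add, map_smul, b.repr_self, Finsupp.add_apply, Finsupp.smul_apply,
    Finsupp.single_eq_same, smul_eq_mul, mul_one] at h4
  have h5 : b.repr w 1 = 0 := by
    have h6 : (Finsupp.single (1 : Fin 2) (1 : k)) 0 = 0 :=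
      Finsupp.single_eq_of_ne (by decide)
    rw [h6, mul_zero, add_zero] at h4
    have : b.repr w 1 * fU ρ b x = 0 := by linear_combination -h4
    exact (mul_eq_zero.1 this).resolve_right hf
  rw [h5, zero_smul, add_zero] at h2
  exact h2

/-- the normaliser of a non-trivial unipotent group lies in the Borel subgroup. -/
theorem mem_borel_of_normalizes {x : G} (hx : x ∈ unip ρ b) (hf : fU ρ b x ≠ 0) {t : G}
    (ht : t⁻¹ * x * t ∈ unip ρ b) : t ∈ borel ρ b := by
  have h1 : ρ x (ρ t (b 0)) = ρ t (b 0) := by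
    have := ht.1
    rw [map_mul, map_mul, Module.End.mul_apply, Module.End.mul_apply] at this
    have h2 := congrArg (ρ t) this
    rwa [← Module.End.mul_apply, rho_mul_inv, Module.End.one_apply] at h2
  exact fixed_of_unip hx hf h1

end Fermat.Agent.W56.Unip5
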