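/-
Programme W56 (target S56), chapter (G) "Taylor–Wiles primes" (helper5): **cocycles on the
unipotent group, in coordinates.**

`c` a trace-zero cocycle for the twisted adjoint representation, `b` a basis of the plane.  On the
unipotent group of `b 0` the entries `(1,0)`, `(0,0)`, `(0,1)` of `c x` satisfy
`γ (x y) = γ x + γ y`, `α (x y) = α x + α y + f x γ y`,
`β (x y) = β x + β y - 2 f x α y - (f x)² γ y`.  Consequences: `γ = κ f`; an element `t` of the Borel
subgroup with `s₁ ≠ s₂³` forces `κ = 0`; when `γ = 0`, `α = μ f`, and subtracting a coboundary makes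
`α = 0`, `β` additive; when moreover `β = ν f` the cocycle is a coboundary on the unipotent group.
-/
import Mathlib
import Fermat.Agent.W56.Unip5

set_option autoImplicit false

noncomputable section

namespace Fermat.Agent.W56.UnipCoc5

open Fermat.Agent.W56.GrpCoh5 Fermat.Agent.W56.AdTw5 Fermat.Agent.W56.Lin2Dim5
  Fermat.Agent.W56.Borel5 Fermat.Agent.W56.StableLine5 Fermat.Agent.W56.Unip5 Module

variable {k : Type*} [Field k] {G : Type*} [Group G] {V : Type*} [AddCommGroup V] [Module k V]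
variable {ρ : Representation k G V} {b : Basis (Fin 2) k V} {c : G → Module.End k V}

local notation "mat" => LinearMap.toMatrixAlgEquiv b

omit [Group G] in
theorem mat11_of_trace (htr : ∀ g, LinearMap.trace k V (c g) = 0) (g : G) :
    mat (c g) 1 1 = -mat (c g) 0 0 := by
  have := htr g
  rw [trace_eq_of_basis b] at this
  linear_combination this

/-- the cocycle relation `c (x y) = c x + x • c y` for unipotent `x`, in coordinates. -/
theorem coc_entries_unip (hc : IsCoc (adTw ρ) c) (htr : ∀ g, LinearMap.trace k V (c g) = 0)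
    {x : G} (hx : x ∈ unip ρ b) (y : G) :
    mat (c (x * y)) 1 0 = mat (c x) 1 0 + mat (c y) 1 0 ∧
    mat (c (x * y)) 0 0 = mat (c x) 0 0 + mat (c y) 0 0 + fU ρ b x * mat (c y) 1 0 ∧
    mat (c (x * y)) 0 1 = mat (c x) 0 1 + mat (c y) 0 1 - 2 * fU ρ b x * mat (c y) 0 0 -
      fU ρ b x ^ 2 * mat (c y) 1 0 := by
  obtain ⟨h00, h10, h11⟩ := mat_of_mem_unip hx
  obtain ⟨e10, e00, -, e01⟩ := adTw_entries_upper ρ b x h10 (c y)
  rw [h00, h11] at e00
  rw [h00] at e01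
  rw [h11] at e10
  have hf : mat (ρ x) 0 1 = fU ρ b x := rfl
  rw [hf] at e00 e01
  rw [mat11_of_trace htr y] at e01
  rw [hc x y]
  refine ⟨?_, ?_, ?_⟩
  · rw [mat_add_apply, e10]; ring
  · rw [mat_add_apply, e00]; ring
  · rw [mat_add_apply, e01]; ring

/-- the conjugation formula for `t` in the Borel subgroup and `x` unipotent, in coordinates. -/
theorem conj_entries (hc : IsCoc (adTw ρ) c) (htr : ∀ g, LinearMap.trace k V (c g) = 0)
    {t x : G} (ht : t ∈ borel ρ b) (hx : x ∈ unip ρ b) :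
    mat (c (t * x * t⁻¹)) 1 0 = mat (ρ t) 1 1 ^ 2 * mat (c x) 1 0 ∧
    mat (c (t * x * t⁻¹)) 0 0 = mat (ρ t) 0 0 * mat (ρ t) 1 1 * mat (c x) 0 0 +
      mat (ρ t) 1 1 * mat (ρ t) 0 1 * mat (c x) 1 0 - fU ρ b (t * x * t⁻¹) * mat (c t) 1 0 ∧
    mat (c (t * x * t⁻¹)) 0 1 = mat (ρ t) 0 0 ^ 2 * mat (c x) 0 1 -
      2 * mat (ρ t) 0 0 * mat (ρ t) 0 1 * mat (c x) 0 0 - mat (ρ t) 0 1 ^ 2 * mat (c x) 1 0 +
      2 * fU ρ b (t * x * t⁻¹) * mat (c t) 0 0 + fU ρ b (t * x * t⁻¹) ^ 2 * mat (c t) 1 0 := by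
  have hy := conj_mem_unip ht hx
  obtain ⟨hy00, hy10, hy11⟩ := mat_of_mem_unip hy
  have ht10 := lower_left_of_mem_borel ρ b ht
  obtain ⟨e10, e00, -, e01⟩ := adTw_entries_upper ρ b t ht10 (c x)
  obtain ⟨d10, d00, -, d01⟩ := adTw_entries_upper ρ b (t * x * t⁻¹) hy10 (c t)
  rw [hy00, hy11] at d00
  rw [hy00] at d01
  rw [hy11] at d10
  have hf : mat (ρ (t * x * t⁻¹)) 0 1 = fU ρ b (t * x * t⁻¹) := rfl
  rw [hf] at d00 d01
  rw [mat11_of_trace htr t] at d01
  rw [mat11_of_trace htr x] at e01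
  rw [hc.conj t x]
  refine ⟨?_, ?_, ?_⟩
  · rw [mat_add_apply, mat_sub_apply, e10, d10]; ring
  · rw [mat_add_apply, mat_sub_apply, e00, d00]; ring
  · rw [mat_add_apply, mat_sub_apply, e01, d01]; ring

section Kappa

variable (hinj : Function.Injective ρ) (hc : IsCoc (adTw ρ) c)
  (htr : ∀ g, LinearMap.trace k V (c g) = 0)

include hinj hc htr

/-- `f x γ y = f y γ x` on the unipotent group. -/
theorem f_mul_gamma_comm {x y : G} (hx : x ∈ unip ρ b) (hy : y ∈ unip ρ b) :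
    fU ρ b x * mat (c y) 1 0 = fU ρ b y * mat (c x) 1 0 := by
  obtain ⟨-, e1, -⟩ := coc_entries_unip hc htr hx y
  obtain ⟨-, e2, -⟩ := coc_entries_unip hc htr hy x
  rw [unip_comm hinj hx hy] at e1
  linear_combination e2 - e1

/-- **an element of the Borel subgroup with `s₁ ≠ s₂³` kills the `(1,0)` entries on the unipotent
group.** -/
theorem gamma_eq_zero_of_torus {t : G} (ht : t ∈ borel ρ b)
    (hs : mat (ρ t) 0 0 ≠ mat (ρ t) 1 1 ^ 3) {x : G} (hx : x ∈ unip ρ b) :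
    mat (c x) 1 0 = 0 := by
  by_cases hfx : fU ρ b x = 0
  · rw [eq_one_of_fU_eq_zero hinj hx hfx, hc.one, map_zero]; rfl
  have hy := conj_mem_unip ht hx
  obtain ⟨e10, -, -⟩ := conj_entries hc htr ht hx
  have h1 := f_mul_gamma_comm hinj hc htr hx hy
  have h2 := fU_conj ht hx
  obtain ⟨-, hs2⟩ := diag_ne_zero_of_upper ρ b t (lower_left_of_mem_borel ρ b ht)
  -- `f x * (s₂² γ x) = f y * γ x` and `f y * s₂ = s₁ * f x`
  rw [e10] at h1
  have h3 : fU ρ b x * mat (c x) 1 0 * (mat (ρ t) 1 1 ^ 3 - mat (ρ t) 0 0) = 0 := by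
    linear_combination mat (ρ t) 1 1 * h1 + mat (c x) 1 0 * h2
  rcases mul_eq_zero.1 h3 with h4 | h4
  · exact (mul_eq_zero.1 h4).resolve_left hfx
  · exact absurd (by linear_combination -h4) hs

end Kappa

section Normalize

variable (b) in
/-- the endomorphism with a given matrix. -/
def ofMat (M : Matrix (Fin 2) (Fin 2) k) : Module.End k V :=
  (LinearMap.toMatrixAlgEquiv b).symm M

omit [Group G] in
theorem mat_ofMat (M : Matrix (Fin 2) (Fin 2) k) (i j : Fin 2) : mat (ofMat b M) i j = M i j := by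
  rw [ofMat, AlgEquiv.apply_symm_apply]

/-- the entries of a coboundary on the unipotent group. -/
theorem cob_entries_unip (m : Module.End k V) {x : G} (hx : x ∈ unip ρ b) :
    mat (adTw ρ x m - m) 1 0 = 0 ∧
    mat (adTw ρ x m - m) 0 0 = fU ρ b x * mat m 1 0 ∧
    mat (adTw ρ x m - m) 1 1 = -(fU ρ b x * mat m 1 0) ∧
    mat (adTw ρ x m - m) 0 1 = fU ρ b x * (mat m 1 1 - mat m 0 0) - fU ρ b x ^ 2 * mat m 1 0 := by
  obtain ⟨h00, h10, h11⟩ := mat_of_mem_unip hx
  obtain ⟨e10, e00, e11, e01⟩ := adTw_entries_upper ρ b x h10 m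
  rw [h00, h11] at e00 e11
  rw [h00] at e01
  rw [h11] at e10
  have hf : mat (ρ x) 0 1 = fU ρ b x := rfl
  rw [hf] at e00 e01 e11
  refine ⟨?_, ?_, ?_, ?_⟩
  · rw [mat_sub_apply, e10]; ring
  · rw [mat_sub_apply, e00]; ring
  · rw [mat_sub_apply, e11]; ring
  · rw [mat_sub_apply, e01]; ring

/-- **cocycles on the unipotent group are coboundaries, given the two structural inputs**:
`hA` (the `(1,0)` entries vanish) and `hB` (for normalised cocycles the `(0,1)` entry is a multiple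
of `fU`). -/
theorem unip_cob (hinj : Function.Injective ρ) (h2 : (2 : k) ≠ 0) (hc : IsCoc (adTw ρ) c)
    (htr : ∀ g, LinearMap.trace k V (c g) = 0) {x₀ : G} (hx₀ : x₀ ∈ unip ρ b)
    (hf₀ : fU ρ b x₀ ≠ 0)
    (hA : ∀ x ∈ unip ρ b, mat (c x) 1 0 = 0)
    (hB : ∀ c' : G → Module.End k V, IsCoc (adTw ρ) c' →
      (∀ g, LinearMap.trace k V (c' g) = 0) → (∀ x ∈ unip ρ b, mat (c' x) 1 0 = 0) →
      (∀ x ∈ unip ρ b, mat (c' x) 0 0 = 0) →
      ∃ ν : k, ∀ x ∈ unip ρ b, mat (c' x) 0 1 = ν * fU ρ b x) :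
    ∃ m : Module.End k V, ∀ x ∈ unip ρ b, c x = adTw ρ x m - m := by
  -- `α = μ f`
  have hcomm : ∀ x ∈ unip ρ b, ∀ y ∈ unip ρ b,
      fU ρ b x * mat (c y) 0 0 = fU ρ b y * mat (c x) 0 0 := by
    intro x hx y hy
    obtain ⟨-, -, e1⟩ := coc_entries_unip hc htr hx y
    obtain ⟨-, -, e2⟩ := coc_entries_unip hc htr hy x
    rw [unip_comm hinj hx hy, hA y hy] at e1
    rw [hA x hx] at e2
    have : 2 * (fU ρ b x * mat (c y) 0 0 - fU ρ b y * mat (c x) 0 0) = 0 := by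
      linear_combination e1 - e2
    have := (mul_eq_zero.1 this).resolve_left h2
    linear_combination this
  set μ : k := mat (c x₀) 0 0 / fU ρ b x₀ with hμ
  have hα : ∀ x ∈ unip ρ b, mat (c x) 0 0 = μ * fU ρ b x := by
    intro x hx
    have := hcomm x₀ hx₀ x hx
    rw [hμ]
    field_simp
    linear_combination this
  set m₁ : Module.End k V := ofMat b !![0, 0; μ, 0] with hm₁
  have hm₁10 : mat m₁ 1 0 = μ := by rw [hm₁, mat_ofMat]; rfl
  have hm₁00 : mat m₁ 0 0 = 0 := by rw [hm₁, mat_ofMat]; rfl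
  have hm₁11 : mat m₁ 1 1 = 0 := by rw [hm₁, mat_ofMat]; rfl
  have hm₁tr : LinearMap.trace k V m₁ = 0 := by
    rw [trace_eq_of_basis b, hm₁00, hm₁11, add_zero]
  set c' : G → Module.End k V := fun g => c g - (adTw ρ g m₁ - m₁) with hc'
  have hc'coc : IsCoc (adTw ρ) c' := hc.sub_cob m₁
  have hc'tr : ∀ g, LinearMap.trace k V (c' g) = 0 := by
    intro g
    show LinearMap.trace k V (c g - (adTw ρ g m₁ - m₁)) = 0
    rw [map_sub, map_sub, htr, trace_adTw, hm₁tr, mul_zero, sub_zero, sub_zero]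
  have hc'10 : ∀ x ∈ unip ρ b, mat (c' x) 1 0 = 0 := by
    intro x hx
    show mat (c x - (adTw ρ x m₁ - m₁)) 1 0 = 0
    rw [mat_sub_apply, hA x hx, (cob_entries_unip m₁ hx).1, sub_zero]
  have hc'00 : ∀ x ∈ unip ρ b, mat (c' x) 0 0 = 0 := by
    intro x hx
    show mat (c x - (adTw ρ x m₁ - m₁)) 0 0 = 0
    rw [mat_sub_apply, hα x hx, (cob_entries_unip m₁ hx).2.1, hm₁10]
    ring
  obtain ⟨ν, hν⟩ := hB c' hc'coc hc'tr hc'10 hc'00
  have hβ : ∀ x ∈ unip ρ b, mat (c x) 0 1 = ν * fU ρ b x - μ * fU ρ b x ^ 2 := by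
    intro x hx
    have := hν x hx
    change mat (c x - (adTw ρ x m₁ - m₁)) 0 1 = ν * fU ρ b x at this
    rw [mat_sub_apply, (cob_entries_unip m₁ hx).2.2.2, hm₁10, hm₁00, hm₁11] at this
    linear_combination this
  set m : Module.End k V := ofMat b !![-(ν / 2), 0; μ, ν / 2] with hm
  have hm10 : mat m 1 0 = μ := by rw [hm, mat_ofMat]; rfl
  have hm00 : mat m 0 0 = -(ν / 2) := by rw [hm, mat_ofMat]; rfl
  have hm11 : mat m 1 1 = ν / 2 := by rw [hm, mat_ofMat]; rfl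
  refine ⟨m, fun x hx => ?_⟩
  obtain ⟨d10, d00, d11, d01⟩ := cob_entries_unip m hx
  apply end_ext_of_mat b
  intro i j
  fin_cases i <;> fin_cases j
  · show mat (c x) 0 0 = mat (adTw ρ x m - m) 0 0
    rw [d00, hα x hx, hm10]; ring
  · show mat (c x) 0 1 = mat (adTw ρ x m - m) 0 1
    rw [d01, hβ x hx, hm10, hm00, hm11]
    field_simp
    ring
  · show mat (c x) 1 0 = mat (adTw ρ x m - m) 1 0
    rw [d10, hA x hx]
  · show mat (c x) 1 1 = mat (adTw ρ x m - m) 1 1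
    rw [d11, mat11_of_trace htr x, hα x hx, hm10]; ring

end Normalize

end Fermat.Agent.W56.UnipCoc5
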