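/-
Programme W56 (target S56), chapter (G) "Taylor–Wiles primes" (helper5): **the two structural
inputs of `UnipCoc5.unip_cob` when the unipotent group has order `p`.**

(A) the `(1,0)` entries of `c` vanish on the unipotent group: otherwise every element
`[[s₁, *], [0, s₂]]` of the Borel subgroup has `s₁ = s₂³`, so its determinant `s₂⁴` is the square of
`s₁ / s₂ = s₂²`, which is an element of the prime field because the unipotent group is cyclic of
order `p`; by Frattini's argument every determinant of `G` is then such a square.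
(B) an additive function on a group of order `p` is a multiple of the coordinate.
-/
import Mathlib
import Fermat.Agent.W56.UnipCoc5

set_option autoImplicit false

noncomputable section

namespace Fermat.Agent.W56.StepCyc5

open Fermat.Agent.W56.GrpCoh5 Fermat.Agent.W56.AdTw5 Fermat.Agent.W56.Lin2Dim5
  Fermat.Agent.W56.Borel5 Fermat.Agent.W56.StableLine5 Fermat.Agent.W56.Unip5
  Fermat.Agent.W56.UnipCoc5 Module

variable {k : Type*} [Field k] {G : Type*} [Group G] {V : Type*} [AddCommGroup V] [Module k V]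
variable {ρ : Representation k G V} {b : Basis (Fin 2) k V} {c : G → Module.End k V}

local notation "mat" => LinearMap.toMatrixAlgEquiv b

/-- additive functions on a subgroup and integer powers. -/
theorem additive_zpow (H : Subgroup G) (φ : G → k)
    (hφ : ∀ x ∈ H, ∀ y ∈ H, φ (x * y) = φ x + φ y) {x : G} (hx : x ∈ H) (j : ℤ) :
    φ (x ^ j) = j * φ x := by
  have h0 : φ 1 = 0 := by
    have := hφ 1 H.one_mem 1 H.one_mem
    rw [mul_one] at this
    linear_combination -this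
  let ψ : H →* Multiplicative k :=
    { toFun := fun y => Multiplicative.ofAdd (φ y)
      map_one' := by
        show Multiplicative.ofAdd (φ ((1 : H) : G)) = 1
        rw [Subgroup.coe_one, h0]; rfl
      map_mul' := fun y z => by
        show Multiplicative.ofAdd (φ ((y * z : H) : G)) = _
        rw [Subgroup.coe_mul, hφ y y.2 z z.2]; rfl }
  have h1 := map_zpow ψ ⟨x, hx⟩ j
  have h2 := congrArg Multiplicative.toAdd h1
  rw [toAdd_zpow] at h2
  have h3 : Multiplicative.toAdd (ψ (⟨x, hx⟩ ^ j)) = φ (x ^ j) := by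
    show φ (((⟨x, hx⟩ : H) ^ j : H) : G) = φ (x ^ j)
    rw [Subgroup.coe_zpow]
  have h4 : Multiplicative.toAdd (ψ ⟨x, hx⟩) = φ x := rfl
  rw [h3, h4, zsmul_eq_mul] at h2
  exact h2

/-- elements of `p`-power order have determinant one in characteristic `p`. -/
theorem det_eq_one_of_pow (p : ℕ) [Fact p.Prime] [CharP k p] (ρ : Representation k G V) (x : G)
    (n : ℕ) (hx : x ^ p ^ n = 1) : LinearMap.det (ρ x) = 1 := by
  have h1 : (LinearMap.det (ρ x)) ^ p ^ n = 1 := by
    rw [← map_pow, ← map_pow, hx, map_one, map_one]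
  have h2 : (LinearMap.det (ρ x) - 1) ^ p ^ n = 0 := by
    rw [sub_pow_char_pow, h1, one_pow, sub_self]
  exact sub_eq_zero.1
    ((pow_eq_zero_iff (pow_ne_zero n (Fact.out : p.Prime).ne_zero)).1 h2)

theorem unip_pow_p (p : ℕ) [CharP k p] (hinj : Function.Injective ρ) {x : G}
    (hx : x ∈ unip ρ b) : x ^ p = 1 := by
  apply eq_one_of_fU_eq_zero hinj ((unip ρ b).pow_mem hx p)
  rw [fU_pow hx, CharP.cast_eq_zero k p, zero_mul]

/-- the unipotent group is a `p`-group. -/
theorem isPGroup_unip (p : ℕ) [CharP k p] (hinj : Function.Injective ρ) :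
    IsPGroup p (unip ρ b) := by
  rintro ⟨x, hx⟩
  refine ⟨1, ?_⟩
  rw [pow_one]
  apply Subtype.ext
  rw [Subgroup.coe_pow, Subgroup.coe_one]
  exact unip_pow_p p hinj hx

theorem fU_zpow {x : G} (hx : x ∈ unip ρ b) (j : ℤ) : fU ρ b (x ^ j) = j * fU ρ b x :=
  additive_zpow (unip ρ b) (fU ρ b) (fun _ hy _ hz => fU_mul hy hz) hx j

/-- every element of a unipotent group of order `p` is a power of a non-trivial element. -/
theorem exists_zpow_of_card (p : ℕ) [Fact p.Prime] (hcard : Nat.card (unip ρ b) = p) {x₀ : G}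
    (hx₀ : x₀ ∈ unip ρ b) (hne : x₀ ≠ 1) {y : G} (hy : y ∈ unip ρ b) : ∃ j : ℤ, x₀ ^ j = y := by
  have hne' : (⟨x₀, hx₀⟩ : unip ρ b) ≠ 1 := fun h => hne (congrArg Subtype.val h)
  have htop := zpowers_eq_top_of_prime_card hcard hne'
  have hmem : (⟨y, hy⟩ : unip ρ b) ∈ Subgroup.zpowers (⟨x₀, hx₀⟩ : unip ρ b) := by
    rw [htop]; trivial
  obtain ⟨j, hj⟩ := Subgroup.mem_zpowers_iff.1 hmem
  refine ⟨j, ?_⟩
  have := congrArg Subtype.val hj
  rwa [Subgroup.coe_zpow] at this

/-- **(A) for a unipotent group of order `p`.** -/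
theorem stepA_cyc (p : ℕ) [Fact p.Prime] [CharP k p] [Finite G]
    (hinj : Function.Injective ρ) (hc : IsCoc (adTw ρ) c)
    (htr : ∀ g, LinearMap.trace k V (c g) = 0) (P : Sylow p G)
    (hP : (P : Subgroup G) = unip ρ b) (hcard : Nat.card (unip ρ b) = p)
    (h3 : ∃ g₀ : G, ∀ a : ℤ, LinearMap.det (ρ g₀) ≠ (a : k) ^ 2) :
    ∀ x ∈ unip ρ b, mat (c x) 1 0 = 0 := by
  by_contra hcon
  push Not at hcon
  obtain ⟨x₀, hx₀, hγ⟩ := hcon
  have hall : ∀ t ∈ borel ρ b, mat (ρ t) 0 0 = mat (ρ t) 1 1 ^ 3 := by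
    intro t ht
    by_contra hs
    exact hγ (gamma_eq_zero_of_torus hinj hc htr ht hs hx₀)
  have hne : x₀ ≠ 1 := by
    rintro rfl
    apply hγ
    rw [hc.one, map_zero]; rfl
  have hf₀ : fU ρ b x₀ ≠ 0 := fun h0 => hne (eq_one_of_fU_eq_zero hinj hx₀ h0)
  obtain ⟨g₀, hg₀⟩ := h3
  -- Frattini
  set K₀ : Subgroup G := MonoidHom.ker ((LinearMap.det : Module.End k V →* k).comp ρ) with hK₀
  have hPK : (P : Subgroup G) ≤ K₀ := by
    intro x hx
    rw [hP] at hx
    rw [hK₀, MonoidHom.mem_ker, MonoidHom.comp_apply]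
    exact hx.2
  have hfr := Sylow.normalizer_sup_eq_top' P hPK
  have hg₀mem : g₀ ∈ Subgroup.normalizer (P : Set G) ⊔ K₀ := by rw [hfr]; trivial
  obtain ⟨t, ht, y, hy, hty⟩ := Subgroup.mem_sup_of_normal_right.1 hg₀mem
  have hdet : LinearMap.det (ρ g₀) = LinearMap.det (ρ t) := by
    rw [← hty, map_mul, map_mul]
    have : LinearMap.det (ρ y) = 1 := by
      have := hy
      rwa [hK₀, MonoidHom.mem_ker, MonoidHom.comp_apply] at this
    rw [this, mul_one]
  -- `t` lies in the Borel subgroup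
  have ht' : t⁻¹ * x₀ * t ∈ unip ρ b := by
    rw [← hP]
    have h1 := (Subgroup.mem_normalizer_iff.1 ht (t⁻¹ * x₀ * t))
    apply h1.2
    have : t * (t⁻¹ * x₀ * t) * t⁻¹ = x₀ := by group
    rw [this, hP]
    exact hx₀
  have htB : t ∈ borel ρ b := mem_borel_of_normalizes hx₀ hf₀ ht'
  -- the conjugate of `x₀` by `t` is a power of `x₀`
  obtain ⟨j, hj⟩ := exists_zpow_of_card p hcard hx₀ hne (conj_mem_unip htB hx₀)
  have h1 := fU_conj htB hx₀
  rw [← hj, fU_zpow hx₀, hall t htB] at h1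
  obtain ⟨-, hs2⟩ := diag_ne_zero_of_upper ρ b t (lower_left_of_mem_borel ρ b htB)
  have h2 : (j : k) = mat (ρ t) 1 1 ^ 2 := by
    have h3 : fU ρ b x₀ * mat (ρ t) 1 1 * ((j : k) - mat (ρ t) 1 1 ^ 2) = 0 := by
      linear_combination h1
    have := (mul_eq_zero.1 h3).resolve_left (mul_ne_zero hf₀ hs2)
    linear_combination this
  apply hg₀ j
  rw [hdet, det_of_upper ρ b t (lower_left_of_mem_borel ρ b htB), hall t htB, h2]
  ring

/-- **(B) for a unipotent group of order `p`.** -/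
theorem stepB_cyc (p : ℕ) [Fact p.Prime]
    (hcard : Nat.card (unip ρ b) = p) {x₀ : G} (hx₀ : x₀ ∈ unip ρ b) (hf₀ : fU ρ b x₀ ≠ 0)
    (c' : G → Module.End k V) (hc' : IsCoc (adTw ρ) c')
    (htr' : ∀ g, LinearMap.trace k V (c' g) = 0) (h10 : ∀ x ∈ unip ρ b, mat (c' x) 1 0 = 0)
    (h00 : ∀ x ∈ unip ρ b, mat (c' x) 0 0 = 0) :
    ∃ ν : k, ∀ x ∈ unip ρ b, mat (c' x) 0 1 = ν * fU ρ b x := by
  have hadd : ∀ x ∈ unip ρ b, ∀ y ∈ unip ρ b,
      mat (c' (x * y)) 0 1 = mat (c' x) 0 1 + mat (c' y) 0 1 := by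
    intro x hx y hy
    obtain ⟨-, -, e⟩ := coc_entries_unip hc' htr' hx y
    rw [e, h10 y hy, h00 y hy]
    ring
  have hne : x₀ ≠ 1 := by
    rintro rfl
    exact hf₀ fU_one
  refine ⟨mat (c' x₀) 0 1 / fU ρ b x₀, fun x hx => ?_⟩
  obtain ⟨j, rfl⟩ := exists_zpow_of_card p hcard hx₀ hne hx
  rw [additive_zpow (unip ρ b) (fun g => mat (c' g) 0 1) hadd hx₀ j, fU_zpow hx₀]
  field_simp

end Fermat.Agent.W56.StepCyc5
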