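/-
Programme W56 (target S56), chapter (G) "Taylor–Wiles primes" (helper5): **case II: vanishing of
`H¹` of a finite irreducible subgroup of `GL₂(k)` with coefficients in the twisted adjoint
representation**, assembled from the Sylow restriction (`GrpCoh5.isCob_of_restrict`), the analysis
of cocycles on the unipotent group (`UnipCoc5.unip_cob`), the cyclic case (`StepCyc5`), and the two
inputs `NonCycA`, `NonCycB` for a non-cyclic Sylow subgroup (proved in `StepNonCyc5` from the
numerical form of Dickson's theorem).  Then the descent from an arbitrary group to its finite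
image.
-/
import Mathlib
import Fermat.Agent.W56.StepCyc5

set_option autoImplicit false

noncomputable section

namespace Fermat.Agent.W56.CaseII5

open Fermat.Agent.W56.GrpCoh5 Fermat.Agent.W56.AdTw5 Fermat.Agent.W56.Lin2Dim5
  Fermat.Agent.W56.Borel5 Fermat.Agent.W56.StableLine5 Fermat.Agent.W56.Unip5
  Fermat.Agent.W56.UnipCoc5 Fermat.Agent.W56.StepCyc5 Module

variable {k : Type*} [Field k] {G : Type*} [Group G] {V : Type*} [AddCommGroup V] [Module k V]

/-- input (A) for a non-cyclic unipotent group. -/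
def NonCycA (ρ : Representation k G V) (c : G → Module.End k V) (p : ℕ) : Prop :=
  ∀ b : Basis (Fin 2) k V, p ^ 2 ≤ Nat.card (unip ρ b) →
    ∀ x ∈ unip ρ b, LinearMap.toMatrixAlgEquiv b (c x) 1 0 = 0

/-- input (B) for a non-cyclic unipotent group. -/
def NonCycB (ρ : Representation k G V) (p : ℕ) : Prop :=
  ∀ b : Basis (Fin 2) k V, p ^ 2 ≤ Nat.card (unip ρ b) →
    ∀ c' : G → Module.End k V, IsCoc (adTw ρ) c' →
      (∀ g, LinearMap.trace k V (c' g) = 0) →
      (∀ x ∈ unip ρ b, LinearMap.toMatrixAlgEquiv b (c' x) 1 0 = 0) →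
      (∀ x ∈ unip ρ b, LinearMap.toMatrixAlgEquiv b (c' x) 0 0 = 0) →
      ∃ ν : k, ∀ x ∈ unip ρ b, LinearMap.toMatrixAlgEquiv b (c' x) 0 1 = ν * fU ρ b x

variable {ρ : Representation k G V} {c : G → Module.End k V}

/-- **case II for a finite group with a faithful representation.** -/
theorem isCob_of_finite (p : ℕ) [Fact p.Prime] [CharP k p] [Finite k] [Finite G]
    (h : Hyp ρ) (hinj : Function.Injective ρ) (hc : IsCoc (adTw ρ) c)
    (htr : ∀ g, LinearMap.trace k V (c g) = 0)
    (h3 : ∃ g₀ : G, ∀ a : ℤ, LinearMap.det (ρ g₀) ≠ (a : k) ^ 2)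
    (hNA : NonCycA ρ c p) (hNB : NonCycB ρ p) : IsCob (adTw ρ) c := by
  classical
  have hp : p.Prime := Fact.out
  have : Fintype G := Fintype.ofFinite G
  by_cases hpG : p ∣ Nat.card G
  swap
  · apply isCob_of_card_invertible hc
    rw [Ne, CharP.cast_eq_zero_iff k p, ← Nat.card_eq_fintype_card]
    exact hpG
  -- a Sylow subgroup and its fixed vector
  obtain ⟨P⟩ : Nonempty (Sylow p G) := inferInstance
  have hPne : (P : Subgroup G) ≠ ⊥ := P.ne_bot_of_dvd_card hpG
  have hfin : Module.Finite k V := Module.finite_of_finrank_eq_succ h.finrank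
  have hVfin : Finite V := Module.finite_of_finite k
  let _ : MulAction (P : Subgroup G) V :=
    MulAction.compHom V ((ρ : G →* Module.End k V).comp (P : Subgroup G).subtype)
  have hsmul : ∀ (x : (P : Subgroup G)) (v : V), x • v = ρ (x : G) v := fun _ _ => rfl
  have hpV : p ∣ Nat.card V := by
    rw [Module.natCard_eq_pow_finrank (K := k), h.finrank]
    have : Fintype k := Fintype.ofFinite k
    have h1 : p ∣ Nat.card k := by
      rw [Nat.card_eq_fintype_card, ← CharP.cast_eq_zero_iff k p]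
      exact Nat.cast_card_eq_zero k
    exact dvd_pow h1 two_ne_zero
  have h0fix : (0 : V) ∈ MulAction.fixedPoints (P : Subgroup G) V := by
    rw [MulAction.mem_fixedPoints]
    intro x
    rw [hsmul, map_zero]
  obtain ⟨v₀, hv₀fix, hv₀ne⟩ :=
    P.isPGroup'.exists_fixed_point_of_prime_dvd_card_of_fixed_point V hpV h0fix
  rw [MulAction.mem_fixedPoints] at hv₀fix
  obtain ⟨b, hb⟩ := exists_basis_fst h.finrank v₀ (Ne.symm hv₀ne)
  -- the Sylow subgroup is the unipotent group of the line
  have hPle : (P : Subgroup G) ≤ unip ρ b := by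
    intro x hx
    refine ⟨?_, ?_⟩
    · rw [hb]
      exact hv₀fix ⟨x, hx⟩
    · obtain ⟨n, hn⟩ := P.isPGroup' ⟨x, hx⟩
      have hn' : x ^ p ^ n = 1 := by
        have := congrArg Subtype.val hn
        rwa [Subgroup.coe_pow] at this
      exact det_eq_one_of_pow p ρ x n hn'
  have hPeq : (P : Subgroup G) = unip ρ b :=
    (P.is_maximal' (isPGroup_unip p hinj) hPle).symm
  obtain ⟨⟨x₀, hx₀P⟩, hx₀ne⟩ := Subgroup.ne_bot_iff_exists_ne_one.1 hPne
  have hx₀ : x₀ ∈ unip ρ b := hPle hx₀P
  have hx₀ne' : x₀ ≠ 1 := fun h1 => hx₀ne (Subtype.ext h1)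
  have hf₀ : fU ρ b x₀ ≠ 0 := fun h0 => hx₀ne' (eq_one_of_fU_eq_zero hinj hx₀ h0)
  -- the index is invertible
  have hidx : ¬ p ∣ (unip ρ b).index := by
    rw [← hPeq]
    exact P.not_dvd_index
  have : Fintype (G ⧸ unip ρ b) := Fintype.ofFinite _
  have hidx' : (Fintype.card (G ⧸ unip ρ b) : k) ≠ 0 := by
    rw [Ne, CharP.cast_eq_zero_iff k p, ← Nat.card_eq_fintype_card, ← Subgroup.index_eq_card]
    exact hidx
  -- the order of the unipotent group
  obtain ⟨n, hn⟩ := (isPGroup_unip (ρ := ρ) (b := b) p hinj).exists_card_eq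
  have hn0 : n ≠ 0 := by
    rintro rfl
    rw [pow_zero] at hn
    have hsub : Subsingleton (unip ρ b) := (Nat.card_eq_one_iff_unique.1 hn).1
    have := hsub.elim ⟨x₀, hx₀⟩ 1
    exact hx₀ne' (congrArg Subtype.val this)
  apply isCob_of_restrict (unip ρ b) hc hidx'
  by_cases hn1 : n = 1
  · -- the cyclic case
    rw [hn1, pow_one] at hn
    exact unip_cob hinj h.two_ne hc htr hx₀ hf₀
      (stepA_cyc p hinj hc htr P hPeq hn h3)
      (fun c' hc' htr' h10 h00 => stepB_cyc p hn hx₀ hf₀ c' hc' htr' h10 h00)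
  · -- the non-cyclic case
    have hn2 : p ^ 2 ≤ Nat.card (unip ρ b) := by
      rw [hn]
      exact Nat.pow_le_pow_right hp.pos (by omega)
    exact unip_cob hinj h.two_ne hc htr hx₀ hf₀ (hNA b hn2) (hNB b hn2)

section Descent

variable (ρ) in
/-- the kernel of the representation. -/
def kerRho : Subgroup G := MonoidHom.ker (ρ : G →* Module.End k V)

instance : (kerRho ρ).Normal := MonoidHom.normal_ker _

variable (ρ) in
/-- the faithful representation of the image. -/
def rhoBar : Representation k (G ⧸ kerRho ρ) V :=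
  QuotientGroup.lift (kerRho ρ) (ρ : G →* Module.End k V) le_rfl

theorem rhoBar_mk (g : G) : rhoBar ρ (g : G ⧸ kerRho ρ) = ρ g :=
  QuotientGroup.lift_mk (kerRho ρ) le_rfl g

theorem rhoBar_injective : Function.Injective (rhoBar ρ) := by
  intro x y
  induction x using QuotientGroup.induction_on with
  | H g =>
    induction y using QuotientGroup.induction_on with
    | H g' =>
      intro hxy
      rw [rhoBar_mk, rhoBar_mk] at hxy
      rw [QuotientGroup.eq]
      show (ρ : G →* Module.End k V) (g⁻¹ * g') = 1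
      rw [map_mul, ← hxy, rho_inv_mul]

theorem adTw_rhoBar_mk (g : G) : adTw (rhoBar ρ) (g : G ⧸ kerRho ρ) = adTw ρ g := by
  ext A : 1
  rw [adTw_apply, adTw_apply, rhoBar_mk]
  have : ((g : G ⧸ kerRho ρ))⁻¹ = ((g⁻¹ : G) : G ⧸ kerRho ρ) := rfl
  rw [this, rhoBar_mk]

/-- the hypotheses descend to the image. -/
theorem hyp_rhoBar (h : Hyp ρ) : Hyp (rhoBar ρ) where
  finrank := h.finrank
  two_ne := h.two_ne
  eigen := by
    intro x
    induction x using QuotientGroup.induction_on with
    | H g =>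
      obtain ⟨v, hv, a, ha⟩ := h.eigen g
      exact ⟨v, hv, a, by rw [rhoBar_mk, ha]⟩
  irr := by
    rintro ⟨v, hv, hall⟩
    apply h.irr
    refine ⟨v, hv, fun g _ => ?_⟩
    obtain ⟨a, ha⟩ := hall (g : G ⧸ kerRho ρ) trivial
    exact ⟨a, by rw [← rhoBar_mk, ha]⟩
  irr2 := by
    rintro H hH ⟨v, hv, hall⟩
    apply h.irr2 (H.comap (QuotientGroup.mk' (kerRho ρ)))
    · rw [Subgroup.index_comap_of_surjective H (QuotientGroup.mk'_surjective _), hH]
    · refine ⟨v, hv, fun g hg => ?_⟩
      obtain ⟨a, ha⟩ := hall (g : G ⧸ kerRho ρ) hg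
      exact ⟨a, by rw [← rhoBar_mk, ha]⟩

/-- **case II for an arbitrary group**: a trace-zero cocycle vanishing on the elements which act
by scalars is a coboundary. -/
theorem isCob_of_vanishing_on_scalars (p : ℕ) [Fact p.Prime] [CharP k p] [Finite k]
    (h : Hyp ρ) (hc : IsCoc (adTw ρ) c) (htr : ∀ g, LinearMap.trace k V (c g) = 0)
    (h3 : ∃ g₀ : G, ∀ a : ℤ, LinearMap.det (ρ g₀) ≠ (a : k) ^ 2)
    (hNA : ∀ c' : G ⧸ kerRho ρ → Module.End k V, IsCoc (adTw (rhoBar ρ)) c' →
      (∀ x, LinearMap.trace k V (c' x) = 0) → NonCycA (rhoBar ρ) c' p)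
    (hNB : NonCycB (rhoBar ρ) p)
    (hz : ∀ z, (∃ a : k, ρ z = a • 1) → c z = 0) : IsCob (adTw ρ) c := by
  have hfin : Module.Finite k V := Module.finite_of_finrank_eq_succ h.finrank
  have hEnd : Finite (Module.End k V) := Module.finite_of_finite k
  have hGfin : Finite (G ⧸ kerRho ρ) := Finite.of_injective _ (rhoBar_injective (ρ := ρ))
  -- the cocycle descends
  have hker : ∀ g n, n ∈ kerRho ρ → c (g * n) = c g := by
    intro g n hn
    have hn' : ρ n = 1 := hn
    rw [hc, hz n ⟨1, by rw [hn', one_smul]⟩, map_zero, add_zero]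
  let cbar : G ⧸ kerRho ρ → Module.End k V := fun x =>
    Quotient.liftOn' x c (by
      intro g g' hgg'
      have h1 : g⁻¹ * g' ∈ kerRho ρ := QuotientGroup.leftRel_apply.1 hgg'
      have := hker g (g⁻¹ * g') h1
      rw [mul_inv_cancel_left] at this
      exact this.symm)
  have hcbar : ∀ g : G, cbar (g : G ⧸ kerRho ρ) = c g := fun g => rfl
  have hcoc : IsCoc (adTw (rhoBar ρ)) cbar := by
    intro x y
    induction x using QuotientGroup.induction_on with
    | H g =>
      induction y using QuotientGroup.induction_on with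
      | H g' =>
        have : ((g : G ⧸ kerRho ρ)) * (g' : G ⧸ kerRho ρ) = ((g * g' : G) : G ⧸ kerRho ρ) := rfl
        rw [this, hcbar, hcbar, hcbar, adTw_rhoBar_mk, hc]
  have htrbar : ∀ x, LinearMap.trace k V (cbar x) = 0 := by
    intro x
    induction x using QuotientGroup.induction_on with
    | H g => rw [hcbar]; exact htr g
  have h3bar : ∃ x₀ : G ⧸ kerRho ρ, ∀ a : ℤ, LinearMap.det (rhoBar ρ x₀) ≠ (a : k) ^ 2 := by
    obtain ⟨g₀, hg₀⟩ := h3
    exact ⟨(g₀ : G ⧸ kerRho ρ), fun a => by rw [rhoBar_mk]; exact hg₀ a⟩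
  obtain ⟨m, hm⟩ := isCob_of_finite p (hyp_rhoBar h) rhoBar_injective hcoc htrbar h3bar
    (hNA cbar hcoc htrbar) hNB
  refine ⟨m, fun g => ?_⟩
  have := hm (g : G ⧸ kerRho ρ)
  rwa [hcbar, adTw_rhoBar_mk] at this

end Descent

end Fermat.Agent.W56.CaseII5
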