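/-
Programme W56 (target S56), chapter (G) "Taylor–Wiles primes" (helper5): **the derivation lemma.**

`k` a finite field, `X ⊆ k` an additive subgroup, `β` additive on `X`, `Λ ⊆ k^*` a finite set of
multipliers of `X` with `β (λ ξ) = λ β ξ + ν_λ ξ` on `X`.  If `#X ≤ 2 #Λ + 1` then `β` is a scalar
multiple of the inclusion `X ⊆ k`.  (The `ν_λ` vanish because a derivation of a finite field is
zero; then the multipliers commuting with `β` form a subgroup with more than `#X / 2` elements.)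
-/
import Mathlib

set_option autoImplicit false

noncomputable section

open Classical

namespace Fermat.Agent.W56.DerivLemma5

variable {k : Type*} [Field k] [Fintype k]

omit [Fintype k] in
/-- the twisted Leibniz rule iterated. -/
theorem iterate_rule (X : AddSubgroup k) (β : k → k) (l ν : k) (hlX : ∀ ξ ∈ X, l * ξ ∈ X)
    (hl : ∀ ξ ∈ X, β (l * ξ) = l * β ξ + ν * ξ) (m : ℕ) :
    (∀ ξ ∈ X, l ^ m * ξ ∈ X) ∧
      ∀ ξ ∈ X, β (l ^ m * ξ) = l ^ m * β ξ + m * l ^ (m - 1) * ν * ξ := by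
  induction m with
  | zero =>
    refine ⟨fun ξ hξ => by rwa [pow_zero, one_mul], fun ξ _ => ?_⟩
    rw [pow_zero, one_mul, one_mul, Nat.cast_zero, zero_mul, zero_mul, zero_mul, add_zero]
  | succ m ih =>
    obtain ⟨ih1, ih2⟩ := ih
    have hmem : ∀ ξ ∈ X, l ^ (m + 1) * ξ ∈ X := fun ξ hξ => by
      rw [pow_succ', mul_assoc]
      exact hlX _ (ih1 ξ hξ)
    refine ⟨hmem, fun ξ hξ => ?_⟩
    have h1 : l ^ (m + 1) * ξ = l * (l ^ m * ξ) := by rw [pow_succ', mul_assoc]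
    rw [h1, hl _ (ih1 ξ hξ), ih2 ξ hξ, Nat.add_sub_cancel]
    rcases Nat.eq_zero_or_pos m with hm | hm
    · subst hm
      simp
    · have h2 : l * l ^ (m - 1) = l ^ m := by
        rw [← pow_succ', Nat.sub_add_cancel hm]
      push_cast
      have h3 : l * ((m : k) * l ^ (m - 1) * ν * ξ) = (m : k) * l ^ m * ν * ξ := by
        rw [← h2]; ring
      rw [mul_add, h3, pow_succ']
      ring

/-- the correction terms vanish. -/
theorem rule_of_twisted (X : AddSubgroup k) (β : k → k) (l ν : k) (hlX : ∀ ξ ∈ X, l * ξ ∈ X)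
    (hl : ∀ ξ ∈ X, β (l * ξ) = l * β ξ + ν * ξ) : ∀ ξ ∈ X, β (l * ξ) = l * β ξ := by
  intro ξ hξ
  have h := (iterate_rule X β l ν hlX hl (Fintype.card k)).2 ξ hξ
  rw [FiniteField.pow_card, Nat.cast_card_eq_zero, zero_mul, zero_mul, zero_mul, add_zero] at h
  exact h

/-- **the derivation lemma.** -/
theorem deriv_lemma (X : AddSubgroup k) (β : k → k)
    (hβ : ∀ ξ ∈ X, ∀ η ∈ X, β (ξ + η) = β ξ + β η) (Λ : Finset k)
    (hΛ : ∀ l ∈ Λ, l ≠ 0 ∧ (∀ ξ ∈ X, l * ξ ∈ X) ∧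
      ∃ ν : k, ∀ ξ ∈ X, β (l * ξ) = l * β ξ + ν * ξ)
    (hcard : Nat.card X ≤ 2 * Λ.card + 1) : ∃ ν : k, ∀ ξ ∈ X, β ξ = ν * ξ := by
  have hβ0 : β 0 = 0 := by
    have := hβ 0 X.zero_mem 0 X.zero_mem
    rw [add_zero] at this
    linear_combination -this
  have hβneg : ∀ ξ ∈ X, β (-ξ) = -β ξ := by
    intro ξ hξ
    have := hβ ξ hξ (-ξ) (X.neg_mem hξ)
    rw [add_neg_cancel, hβ0] at this
    linear_combination -this
  by_cases hX : ∃ ξ₀ ∈ X, ξ₀ ≠ 0
  swap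
  · push Not at hX
    refine ⟨0, fun ξ hξ => ?_⟩
    rw [hX ξ hξ, hβ0, mul_zero]
  obtain ⟨ξ₀, hξ₀X, hξ₀⟩ := hX
  -- the multipliers commuting with `β`
  let F : AddSubgroup k :=
    { carrier := {e | (∀ ξ ∈ X, e * ξ ∈ X) ∧ ∀ ξ ∈ X, β (e * ξ) = e * β ξ}
      zero_mem' := ⟨fun ξ _ => by rw [zero_mul]; exact X.zero_mem,
        fun ξ _ => by rw [zero_mul, zero_mul, hβ0]⟩
      add_mem' := by
        rintro e e' ⟨h1, h2⟩ ⟨h1', h2'⟩
        refine ⟨fun ξ hξ => by rw [add_mul]; exact X.add_mem (h1 ξ hξ) (h1' ξ hξ),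
          fun ξ hξ => ?_⟩
        rw [add_mul, hβ _ (h1 ξ hξ) _ (h1' ξ hξ), h2 ξ hξ, h2' ξ hξ, add_mul]
      neg_mem' := by
        rintro e ⟨h1, h2⟩
        refine ⟨fun ξ hξ => by rw [neg_mul]; exact X.neg_mem (h1 ξ hξ), fun ξ hξ => ?_⟩
        rw [neg_mul, hβneg _ (h1 ξ hξ), h2 ξ hξ, neg_mul] }
  have hFmem : ∀ e, e ∈ F ↔ (∀ ξ ∈ X, e * ξ ∈ X) ∧ ∀ ξ ∈ X, β (e * ξ) = e * β ξ := fun _ => Iff.rfl
  have hΛF : ∀ l ∈ Λ, l ∈ F := by
    intro l hl
    obtain ⟨-, h1, ν, h2⟩ := hΛ l hl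
    exact ⟨h1, rule_of_twisted X β l ν h1 h2⟩
  -- the image of `F` in `X`
  let A : AddSubgroup k := F.map (AddMonoidHom.mulRight ξ₀)
  have hAX : A ≤ X := by
    rintro _ ⟨e, he, rfl⟩
    exact he.1 ξ₀ hξ₀X
  have hinj : Function.Injective (AddMonoidHom.mulRight ξ₀ : k →+ k) := by
    intro e e' h
    exact mul_right_cancel₀ hξ₀ h
  have hcardA : Nat.card A = Nat.card F :=
    Nat.card_congr (F.equivMapOfInjective _ hinj).symm.toEquiv
  -- `#F ≥ #Λ + 1`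
  have hcardF : Λ.card + 1 ≤ Nat.card F := by
    have h0 : (0 : k) ∉ Λ := fun h => (hΛ 0 h).1 rfl
    have h1 : (insert 0 Λ).card = Λ.card + 1 := Finset.card_insert_of_notMem h0
    rw [← h1, Nat.card_eq_fintype_card, Fintype.card_subtype]
    apply Finset.card_le_card
    intro e he
    rw [Finset.mem_filter]
    refine ⟨Finset.mem_univ _, ?_⟩
    rcases Finset.mem_insert.1 he with rfl | he
    · exact F.zero_mem
    · exact hΛF e he
  -- hence `A = X`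
  have hAeq : A = X := by
    apply AddSubgroup.eq_of_le_of_card_ge hAX
    obtain ⟨j, hj⟩ := AddSubgroup.card_dvd_of_le hAX
    have hXpos : 0 < Nat.card X := Nat.card_pos
    have hj1 : j = 1 := by
      have hjpos : 0 < j := by
        rcases Nat.eq_zero_or_pos j with h | h
        · rw [h, mul_zero] at hj; omega
        · exact h
      by_contra hne
      have : 2 ≤ j := by omega
      have : Nat.card A * 2 ≤ Nat.card A * j := Nat.mul_le_mul_left _ this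
      omega
    rw [hj, hj1, mul_one]
  refine ⟨β ξ₀ / ξ₀, fun ξ hξ => ?_⟩
  rw [← hAeq] at hξ
  obtain ⟨e, he, rfl⟩ := hξ
  show β (e * ξ₀) = β ξ₀ / ξ₀ * (e * ξ₀)
  rw [he.2 ξ₀ hξ₀X]
  field_simp

end Fermat.Agent.W56.DerivLemma5
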