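/-
Programme W56 (target S56), chapter (G) "Taylor–Wiles primes" (helper5): **the projective line of
a representation**: `PL ρ` is the projectivisation of `V` with the action of `G` through
`ρ : Representation k G V`; a point `[v]` is fixed by `g` iff `v` is an eigenvector of `ρ g`.
-/
import Mathlib
import Fermat.Agent.W56.AdTw5

set_option autoImplicit false

noncomputable section

namespace Fermat.Agent.W56.ProjLine5

open Fermat.Agent.W56.AdTw5

variable {k : Type*} [Field k] {G : Type*} [Group G] {V : Type*} [AddCommGroup V] [Module k V]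

theorem rho_injective (ρ : Representation k G V) (g : G) : Function.Injective (ρ g) := by
  intro v w h
  have := congrArg (ρ g⁻¹) h
  rwa [← Module.End.mul_apply, ← Module.End.mul_apply, rho_inv_mul, Module.End.one_apply,
    Module.End.one_apply] at this

theorem rho_apply_ne_zero (ρ : Representation k G V) (g : G) {v : V} (hv : v ≠ 0) :
    ρ g v ≠ 0 := fun h => hv (rho_injective ρ g (by rw [h, map_zero]))

/-- the projective line of `V`, with the action of `G` through `ρ`. -/
def PL (_ρ : Representation k G V) : Type _ := Projectivization k V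

namespace PL

variable (ρ : Representation k G V)

/-- the point spanned by a non-zero vector. -/
def mk (v : V) (hv : v ≠ 0) : PL ρ := Projectivization.mk k v hv

theorem mk_eq_mk_iff (v w : V) (hv : v ≠ 0) (hw : w ≠ 0) :
    mk ρ v hv = mk ρ w hw ↔ ∃ a : k, a • w = v :=
  Projectivization.mk_eq_mk_iff' k v w hv hw

theorem ind {P : PL ρ → Prop} (h : ∀ (v : V) (hv : v ≠ 0), P (mk ρ v hv)) : ∀ x, P x :=
  Projectivization.ind h

instance instSMul : SMul G (PL ρ) where
  smul g x := Projectivization.map (ρ g) (rho_injective ρ g) x

theorem smul_mk (g : G) (v : V) (hv : v ≠ 0) :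
    g • mk ρ v hv = mk ρ (ρ g v) (rho_apply_ne_zero ρ g hv) := rfl

instance : MulAction G (PL ρ) where
  one_smul x := by
    induction x using ind with
    | h v hv =>
      rw [smul_mk, mk_eq_mk_iff]
      exact ⟨1, by rw [one_smul, map_one, Module.End.one_apply]⟩
  mul_smul g h x := by
    induction x using ind with
    | h v hv =>
      rw [smul_mk, smul_mk, smul_mk, mk_eq_mk_iff]
      exact ⟨1, by rw [one_smul, map_mul, Module.End.mul_apply]⟩

/-- a point is fixed iff its representatives are eigenvectors. -/
theorem smul_mk_eq_iff (g : G) (v : V) (hv : v ≠ 0) :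
    g • mk ρ v hv = mk ρ v hv ↔ ∃ a : k, ρ g v = a • v := by
  rw [smul_mk, mk_eq_mk_iff]
  constructor
  · rintro ⟨a, ha⟩
    exact ⟨a, ha.symm⟩
  · rintro ⟨a, ha⟩
    exact ⟨a, ha.symm⟩

instance [Finite V] : Finite (PL ρ) := Projectivization.finite_of_finite k V

theorem exists_rep (x : PL ρ) : ∃ (v : V) (hv : v ≠ 0), mk ρ v hv = x :=
  ⟨Projectivization.rep x, Projectivization.rep_nonzero x, Projectivization.mk_rep x⟩

end PL

end Fermat.Agent.W56.ProjLine5
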