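/-
Programme W56 (target S56), chapter (G) "Taylor–Wiles primes" (helper5): **no line of trace-zero
endomorphisms is stable under conjugation** by a two-dimensional representation `ρ` which has no
common eigenvector, no common eigenvector on subgroups of index two, and all of whose elements have
an eigenvector.  Consequently the twisted adjoint representation has no non-zero invariants.
-/
import Mathlib
import Fermat.Agent.W56.AdTw5
import Fermat.Agent.W56.Lin2Dim5

set_option autoImplicit false

noncomputable section

namespace Fermat.Agent.W56.StableLine5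

open Fermat.Agent.W56.AdTw5 Fermat.Agent.W56.Lin2Dim5

variable {k : Type*} [Field k] {G : Type*} [Group G] {V : Type*} [AddCommGroup V] [Module k V]

/-- the elements of `S` have a common eigenvector. -/
def HasCommonEigen (ρ : Representation k G V) (S : Set G) : Prop :=
  ∃ v : V, v ≠ 0 ∧ ∀ g ∈ S, ∃ a : k, ρ g v = a • v

/-- the standing hypotheses on the two-dimensional representation. -/
structure Hyp (ρ : Representation k G V) : Prop where
  finrank : Module.finrank k V = 2
  two_ne : (2 : k) ≠ 0
  eigen : ∀ g, ∃ v : V, v ≠ 0 ∧ ∃ a : k, ρ g v = a • v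
  irr : ¬ HasCommonEigen ρ Set.univ
  irr2 : ∀ H : Subgroup G, H.index = 2 → ¬ HasCommonEigen ρ (H : Set G)

variable {ρ : Representation k G V}

theorem Hyp.nontrivial (h : Hyp ρ) : Nontrivial V :=
  Module.nontrivial_of_finrank_pos (R := k) (by rw [h.finrank]; norm_num)

theorem rho_ne_zero [Nontrivial V] (ρ : Representation k G V) (g : G) : ρ g ≠ 0 := by
  intro h0
  have := rho_mul_inv ρ g
  rw [h0, zero_mul] at this
  exact zero_ne_one this

/-- the centraliser of `A` in `G`. -/
def centralizerOf (ρ : Representation k G V) (A : Module.End k V) : Subgroup G where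
  carrier := {g | ρ g * A = A * ρ g}
  one_mem' := by
    show ρ 1 * A = A * ρ 1
    rw [map_one, one_mul, mul_one]
  mul_mem' := by
    intro g h hg hh
    show ρ (g * h) * A = A * ρ (g * h)
    have hg' : ρ g * A = A * ρ g := hg
    have hh' : ρ h * A = A * ρ h := hh
    rw [map_mul, mul_assoc, hh', ← mul_assoc, hg', mul_assoc]
  inv_mem' := by
    intro g hg
    show ρ g⁻¹ * A = A * ρ g⁻¹
    have hg' : ρ g * A = A * ρ g := hg
    calc ρ g⁻¹ * A = ρ g⁻¹ * A * (ρ g * ρ g⁻¹) := by rw [rho_mul_inv, mul_one]
      _ = ρ g⁻¹ * (A * ρ g) * ρ g⁻¹ := by simp only [mul_assoc]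
      _ = ρ g⁻¹ * (ρ g * A) * ρ g⁻¹ := by rw [hg']
      _ = (ρ g⁻¹ * ρ g) * A * ρ g⁻¹ := by simp only [mul_assoc]
      _ = A * ρ g⁻¹ := by rw [rho_inv_mul, one_mul]

theorem mem_centralizerOf (A : Module.End k V) (g : G) :
    g ∈ centralizerOf ρ A ↔ ρ g * A = A * ρ g := Iff.rfl

/-- **no stable line of trace-zero endomorphisms.** -/
theorem no_stable_line (h : Hyp ρ) (A : Module.End k V) (hA : A ≠ 0)
    (htr : LinearMap.trace k V A = 0) (hst : ∀ g, ∃ μ : k, ρ g * A = μ • (A * ρ g)) : False := by
  have hnt : Nontrivial V := h.nontrivial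
  have hsq := sq_of_trace_zero h.finrank A htr
  set d : k := -LinearMap.det A with hd
  by_cases hd0 : d = 0
  · -- the nilpotent case: the kernel of `A` is a stable line
    rw [hd0, zero_smul] at hsq
    have hex : ∃ v, A v ≠ 0 := by
      by_contra hcon
      push Not at hcon
      exact hA (LinearMap.ext fun v => by rw [hcon v, LinearMap.zero_apply])
    obtain ⟨v, hv⟩ := hex
    have hAw : A (A v) = 0 := by
      have := LinearMap.congr_fun hsq v
      rwa [Module.End.mul_apply, LinearMap.zero_apply] at this
    have hvw : ∀ a : k, v ≠ a • A v := by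
      intro a hva
      apply hv
      rw [hva, map_smul, hAw, smul_zero]
    obtain ⟨b, hb0, hb1⟩ := exists_basis_pair h.finrank (A v) v hv hvw
    apply h.irr
    refine ⟨A v, hv, fun g _ => ?_⟩
    obtain ⟨μ, hμ⟩ := hst g
    have h1 : ρ g (A v) = μ • A (ρ g v) := by
      have := LinearMap.congr_fun hμ v
      rwa [Module.End.mul_apply, LinearMap.smul_apply, Module.End.mul_apply] at this
    have h2 : A (ρ g v) = b.repr (ρ g v) 1 • A v := by
      conv_lhs => rw [decomp_pair b (ρ g v), hb0, hb1]
      rw [map_add, map_smul, map_smul, hAw, smul_zero, zero_add]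
    exact ⟨μ * b.repr (ρ g v) 1, by rw [h1, h2, smul_smul]⟩
  · -- the semisimple case
    have hμ1 : ∀ (g : G) (μ : k), ρ g * A = μ • (A * ρ g) → μ = 1 ∨ μ = -1 := by
      intro g μ hμ
      have h1 : ρ g * (A * A) = (μ * μ) • ((A * A) * ρ g) := by
        calc ρ g * (A * A) = (ρ g * A) * A := by rw [mul_assoc]
          _ = (μ • (A * ρ g)) * A := by rw [hμ]
          _ = μ • (A * (ρ g * A)) := by rw [smul_mul_assoc, mul_assoc]
          _ = μ • (A * (μ • (A * ρ g))) := by rw [hμ]
          _ = (μ * μ) • ((A * A) * ρ g) := by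
            rw [mul_smul_comm, smul_smul, mul_assoc]
      rw [hsq, mul_smul_comm, mul_one, smul_mul_assoc, one_mul, smul_smul] at h1
      have h2 : d = μ * μ * d := smul_left_injective k (rho_ne_zero ρ g) h1
      have h3 : (μ - 1) * (μ + 1) = 0 := by
        have : (μ * μ - 1) * d = 0 := by linear_combination -h2
        have := (mul_eq_zero.1 this).resolve_right hd0
        linear_combination this
      rcases mul_eq_zero.1 h3 with h4 | h4
      · exact Or.inl (by linear_combination h4)
      · exact Or.inr (by linear_combination h4)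
    set H : Subgroup G := centralizerOf ρ A with hH
    have hnot : ∀ g, g ∉ H → ρ g * A = -(A * ρ g) := by
      intro g hg
      obtain ⟨μ, hμ⟩ := hst g
      rcases hμ1 g μ hμ with rfl | rfl
      · exfalso
        apply hg
        rw [hH, mem_centralizerOf, hμ, one_smul]
      · rw [hμ, neg_smul, one_smul]
    -- `H` has a common eigenvector
    have hHeig : HasCommonEigen ρ (H : Set G) := by
      by_cases hev : ∃ v : V, v ≠ 0 ∧ ∃ e : k, A v = e • v
      · obtain ⟨v, hv, e, hev⟩ := hev
        have he : e ≠ 0 := by
          intro he0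
          have := LinearMap.congr_fun hsq v
          rw [Module.End.mul_apply, hev, he0, zero_smul, map_zero, LinearMap.smul_apply,
            Module.End.one_apply] at this
          exact hd0 ((smul_eq_zero.1 this.symm).resolve_right hv)
        refine ⟨v, hv, fun g hg => ?_⟩
        by_contra hne
        push Not at hne
        have hg' : ρ g * A = A * ρ g := hg
        have h1 : A (ρ g v) = e • ρ g v := by
          have := LinearMap.congr_fun hg' v
          rw [Module.End.mul_apply, Module.End.mul_apply, hev, map_smul] at this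
          exact this.symm
        have h2 := eq_smul_one_of_pair h.finrank A e v (ρ g v) hv hne hev h1
        have h3 := htr
        rw [h2, trace_smul_one h.finrank] at h3
        exact he ((mul_eq_zero.1 h3).resolve_left h.two_ne)
      · push Not at hev
        obtain ⟨v₀, hv₀⟩ := exists_ne (0 : V)
        refine ⟨v₀, hv₀, fun g hg => ?_⟩
        have hg' : ρ g * A = A * ρ g := hg
        obtain ⟨v, hv, α, hα⟩ := h.eigen g
        have h1 : ρ g (A v) = α • A v := by
          have := LinearMap.congr_fun hg' v
          rw [Module.End.mul_apply, Module.End.mul_apply, hα, map_smul] at this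
          exact this
        have h2 := eq_smul_one_of_pair h.finrank (ρ g) α v (A v) hv (hev v hv) hα h1
        exact ⟨α, by rw [h2, LinearMap.smul_apply, Module.End.one_apply]⟩
    by_cases htop : H = ⊤
    · apply h.irr
      obtain ⟨v, hv, hvH⟩ := hHeig
      exact ⟨v, hv, fun g _ => hvH g (by rw [htop]; trivial)⟩
    · have hidx : H.index = 2 := by
        obtain ⟨a, ha⟩ : ∃ a, a ∉ H := by
          by_contra hcon
          push Not at hcon
          exact htop (Subgroup.eq_top_iff' H |>.2 hcon)
        rw [Subgroup.index_eq_two_iff]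
        refine ⟨a, fun b => ?_⟩
        have ha' := hnot a ha
        by_cases hb : b ∈ H
        · refine Or.inr ⟨hb, fun hba => ?_⟩
          have hb' : ρ b * A = A * ρ b := hb
          have hba' : ρ (b * a) * A = A * ρ (b * a) := hba
          have h1 : ρ (b * a) * A = -(A * ρ (b * a)) := by
            rw [map_mul, mul_assoc, ha', mul_neg, ← mul_assoc, hb', mul_assoc]
          rw [hba'] at h1
          have h2 : (2 : k) • (A * ρ (b * a)) = 0 := by
            rw [two_smul]
            nth_rewrite 1 [h1]
            rw [neg_add_cancel]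
          have h3 := (smul_eq_zero.1 h2).resolve_left h.two_ne
          apply hA
          have h4 : A * ρ (b * a) * ρ (b * a)⁻¹ = 0 := by rw [h3, zero_mul]
          rwa [mul_assoc, rho_mul_inv, mul_one] at h4
        · refine Or.inl ⟨?_, hb⟩
          have hb' := hnot b hb
          show ρ (b * a) * A = A * ρ (b * a)
          rw [map_mul, mul_assoc, ha', mul_neg, ← mul_assoc, hb', neg_mul, neg_neg, mul_assoc]
      exact h.irr2 H hidx hHeig

/-- **the twisted adjoint representation has no non-zero trace-zero invariants.** -/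
theorem eq_zero_of_invariant (h : Hyp ρ) (A : Module.End k V)
    (htr : LinearMap.trace k V A = 0) (hinv : ∀ g, adTw ρ g A = A) : A = 0 := by
  by_contra hA
  apply no_stable_line h A hA htr
  intro g
  refine ⟨(LinearMap.det (ρ g))⁻¹, ?_⟩
  have h1 := hinv g
  rw [adTw_apply] at h1
  -- `det • (ρ g * A * ρ g⁻¹) = A`
  have h2 : LinearMap.det (ρ g) • (ρ g * A) = A * ρ g := by
    have := congrArg (fun B => B * ρ g) h1
    beta_reduce at this
    rwa [smul_mul_assoc, mul_assoc, rho_inv_mul, mul_one] at this
  rw [← h2, smul_smul, inv_mul_cancel₀ (det_rho_ne_zero ρ g), one_smul]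

/-- the stabiliser of the line spanned by `v`. -/
def lineStab (ρ : Representation k G V) (v : V) (hv : v ≠ 0) : Subgroup G where
  carrier := {g | ∃ a : k, ρ g v = a • v}
  one_mem' := ⟨1, by rw [map_one, Module.End.one_apply, one_smul]⟩
  mul_mem' := by
    rintro g h ⟨a, ha⟩ ⟨b, hb⟩
    exact ⟨b * a, by rw [map_mul, Module.End.mul_apply, hb, map_smul, ha, smul_smul]⟩
  inv_mem' := by
    rintro g ⟨a, ha⟩
    have ha0 : a ≠ 0 := by
      rintro rfl
      rw [zero_smul] at ha
      apply hv
      have := congrArg (ρ g⁻¹) ha
      rwa [← Module.End.mul_apply, rho_inv_mul, Module.End.one_apply, map_zero] at this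
    refine ⟨a⁻¹, ?_⟩
    have h1 : ρ g⁻¹ (ρ g v) = v := by
      rw [← Module.End.mul_apply, rho_inv_mul, Module.End.one_apply]
    rw [ha, map_smul] at h1
    rw [← h1, smul_smul, inv_mul_cancel₀ ha0, one_smul, h1]

theorem mem_lineStab (ρ : Representation k G V) (v : V) (hv : v ≠ 0) (g : G) :
    g ∈ lineStab ρ v hv ↔ ∃ a : k, ρ g v = a • v := Iff.rfl

end Fermat.Agent.W56.StableLine5
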