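/-
Programme W56 (target S56), chapter (G) "Taylor–Wiles primes" (helper5): **existence of a regular
semisimple element in the kernel of a character with cyclic image.**

`ρ : Representation k G V` two-dimensional satisfying `StableLine5.Hyp`, `χ : G →* C` with `C`
cyclic.  Then some `g` with `χ g = 1` has two eigenvectors with distinct eigenvalues (`RegSS`).
-/
import Mathlib
import Fermat.Agent.W56.StableLine5

set_option autoImplicit false

noncomputable section

namespace Fermat.Agent.W56.RegSS5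

open Fermat.Agent.W56.AdTw5 Fermat.Agent.W56.Lin2Dim5 Fermat.Agent.W56.StableLine5 Module

variable {k : Type*} [Field k] {G : Type*} [Group G] {V : Type*} [AddCommGroup V] [Module k V]

/-- the discriminant of the characteristic polynomial. -/
def disc (f : Module.End k V) : k := (LinearMap.trace k V f) ^ 2 - 4 * LinearMap.det f

/-- two eigenvectors with distinct eigenvalues. -/
def RegSS (f : Module.End k V) : Prop :=
  ∃ v w : V, ∃ α β : k, v ≠ 0 ∧ w ≠ 0 ∧ α ≠ β ∧ f v = α • v ∧ f w = β • w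

/-- an endomorphism of a plane with an eigenvector and non-zero discriminant is regular
semisimple. -/
theorem regSS_of_disc_ne_zero (hV : Module.finrank k V = 2) (f : Module.End k V)
    (heig : ∃ v : V, v ≠ 0 ∧ ∃ a : k, f v = a • v) (hd : disc f ≠ 0) : RegSS f := by
  obtain ⟨v, hv, α, hα⟩ := heig
  obtain ⟨b, hb⟩ := exists_basis_fst hV v hv
  have hα' : f (b 0) = α • b 0 := by rw [hb, hα]
  obtain ⟨h00, h10⟩ := toMatrix_of_eigen b f α hα'
  set β' := LinearMap.toMatrixAlgEquiv b f 0 1 with hβ'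
  set δ := LinearMap.toMatrixAlgEquiv b f 1 1 with hδ
  have hne : α ≠ δ := by
    intro heq
    apply hd
    rw [disc, trace_eq_of_basis b, det_eq_of_basis b, h00, h10, ← hδ, ← heq]
    ring
  have hne' : δ - α ≠ 0 := sub_ne_zero.2 (Ne.symm hne)
  have h1 : f (b 1) = β' • b 0 + δ • b 1 := apply_snd_of_toMatrix b f
  refine ⟨v, b 1 + (β' / (δ - α)) • b 0, α, δ, hv, ?_, hne, hα, ?_⟩
  · intro h0
    have := congrArg (fun z => b.repr z 1) h0
    simp at this
  · rw [map_add, map_smul, h1, hα', smul_add, smul_smul, smul_smul, add_comm (β' • b 0),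
      add_assoc, ← add_smul]
    congr 2
    field_simp
    ring

/-- an upper triangular endomorphism with distinct diagonal entries is regular semisimple. -/
theorem regSS_of_diag_ne (b : Basis (Fin 2) k V) (f : Module.End k V) (s : k)
    (h0 : f (b 0) = s • b 0) (hne : LinearMap.toMatrixAlgEquiv b f 1 1 ≠ s) : RegSS f := by
  set β' := LinearMap.toMatrixAlgEquiv b f 0 1 with hβ'
  set δ := LinearMap.toMatrixAlgEquiv b f 1 1 with hδ
  have hne' : δ - s ≠ 0 := sub_ne_zero.2 hne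
  have h1 : f (b 1) = β' • b 0 + δ • b 1 := apply_snd_of_toMatrix b f
  refine ⟨b 0, b 1 + (β' / (δ - s)) • b 0, s, δ, b.ne_zero 0, ?_, Ne.symm hne, h0, ?_⟩
  · intro h0'
    have := congrArg (fun z => b.repr z 1) h0'
    simp at this
  · rw [map_add, map_smul, h1, h0, smul_add, smul_smul, smul_smul, add_comm (β' • b 0),
      add_assoc, ← add_smul]
    congr 2
    field_simp
    ring

/-- the key computation: if `M`, `U M`, `U (U M)` all have discriminant zero, where
`U = [[α₀, β₀], [0, α₀]]` with `α₀ β₀ ≠ 0`, then the lower left entry of `M` vanishes. -/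
theorem lower_left_eq_zero (α₀ β₀ t₀ D₀ c : k) (h2 : (2 : k) ≠ 0) (hα : α₀ ≠ 0) (hβ : β₀ ≠ 0)
    (h0 : t₀ ^ 2 - 4 * D₀ = 0)
    (h1 : (α₀ * t₀ + β₀ * c) ^ 2 - 4 * (α₀ ^ 2 * D₀) = 0)
    (h2' : (α₀ * (α₀ * t₀ + β₀ * c) + β₀ * (α₀ * c)) ^ 2 - 4 * (α₀ ^ 2 * (α₀ ^ 2 * D₀)) = 0) :
    c = 0 := by
  by_contra hc
  have e1 : β₀ * c * (2 * α₀ * t₀ + β₀ * c) = 0 := by linear_combination h1 - α₀ ^ 2 * h0
  have e2 : 4 * α₀ ^ 2 * (β₀ * c) * (α₀ * t₀ + β₀ * c) = 0 := by
    linear_combination h2' - α₀ ^ 4 * h0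
  have hβc : β₀ * c ≠ 0 := mul_ne_zero hβ hc
  have e1' : 2 * α₀ * t₀ + β₀ * c = 0 := (mul_eq_zero.1 e1).resolve_left hβc
  have h4 : (4 : k) ≠ 0 := by
    have : (4 : k) = 2 * 2 := by norm_num
    rw [this]
    exact mul_ne_zero h2 h2
  have e2' : α₀ * t₀ + β₀ * c = 0 :=
    (mul_eq_zero.1 e2).resolve_left (mul_ne_zero (mul_ne_zero h4 (pow_ne_zero 2 hα)) hβc)
  apply hβc
  linear_combination 2 * e2' - e1'

variable {ρ : Representation k G V}

/-- **a regular semisimple element in the kernel of a character with cyclic image.** -/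
theorem exists_regSS (h : Hyp ρ) {C : Type*} [CommGroup C] [IsCyclic C] (χ : G →* C) :
    ∃ g, χ g = 1 ∧ RegSS (ρ g) := by
  by_contra hcon
  push Not at hcon
  have hnt : Nontrivial V := h.nontrivial
  have hdisc : ∀ g, χ g = 1 → disc (ρ g) = 0 := fun g hg => by
    by_contra hd
    exact hcon g hg (regSS_of_disc_ne_zero h.finrank (ρ g) (h.eigen g) hd)
  by_cases hsc : ∀ g, χ g = 1 → ∃ a : k, ρ g = a • 1
  · -- the image is abelian: generated by scalars and one element
    obtain ⟨⟨c₀, hc₀mem⟩, hgen⟩ := IsCyclic.exists_generator (α := χ.range)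
    obtain ⟨g₀, hg₀⟩ := hc₀mem
    obtain ⟨v, hv, a, ha⟩ := h.eigen g₀
    apply h.irr
    refine ⟨v, hv, fun g _ => ?_⟩
    have hg₀mem : g₀ ∈ lineStab ρ v hv := ⟨a, ha⟩
    obtain ⟨j, hj⟩ := Subgroup.mem_zpowers_iff.1 (hgen ⟨χ g, ⟨g, rfl⟩⟩)
    have hj' : c₀ ^ j = χ g := by
      have := congrArg Subtype.val hj
      simpa using this
    have hker : χ (g₀ ^ (-j) * g) = 1 := by
      rw [map_mul, map_zpow, hg₀, ← hj', ← zpow_add, neg_add_cancel, zpow_zero]
    obtain ⟨s, hs⟩ := hsc _ hker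
    have hmem2 : g₀ ^ (-j) * g ∈ lineStab ρ v hv :=
      ⟨s, by rw [hs, LinearMap.smul_apply, Module.End.one_apply]⟩
    have : g = g₀ ^ j * (g₀ ^ (-j) * g) := by
      rw [← mul_assoc, ← zpow_add, add_neg_cancel, zpow_zero, one_mul]
    have hg : g ∈ lineStab ρ v hv := by
      rw [this]
      exact Subgroup.mul_mem _ (Subgroup.zpow_mem _ hg₀mem j) hmem2
    exact hg
  · push Not at hsc
    obtain ⟨h₀, hh₀, hns⟩ := hsc
    obtain ⟨v₀, hv₀, α₀, hα₀⟩ := h.eigen h₀
    obtain ⟨b, hb⟩ := exists_basis_fst h.finrank v₀ hv₀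
    have hα₀' : ρ h₀ (b 0) = α₀ • b 0 := by rw [hb, hα₀]
    obtain ⟨h00, h10⟩ := toMatrix_of_eigen b (ρ h₀) α₀ hα₀'
    set β₀ := LinearMap.toMatrixAlgEquiv b (ρ h₀) 0 1 with hβ₀
    -- the lower right entry is `α₀` since the discriminant vanishes
    have h11 : LinearMap.toMatrixAlgEquiv b (ρ h₀) 1 1 = α₀ := by
      have := hdisc h₀ hh₀
      rw [disc, trace_eq_of_basis b, det_eq_of_basis b, h00, h10] at this
      have h3 : (α₀ - LinearMap.toMatrixAlgEquiv b (ρ h₀) 1 1) ^ 2 = 0 := by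
        linear_combination this
      have := pow_eq_zero_iff (two_ne_zero) |>.1 h3
      linear_combination -this
    have hα₀ne : α₀ ≠ 0 := by
      rintro rfl
      rw [zero_smul] at hα₀
      apply hv₀
      have := congrArg (ρ h₀⁻¹) hα₀
      rwa [← Module.End.mul_apply, rho_inv_mul, Module.End.one_apply, map_zero] at this
    have hβ₀ne : β₀ ≠ 0 := by
      intro hβ0
      apply hns α₀
      apply b.ext
      intro i
      fin_cases i
      · show ρ h₀ (b 0) = (α₀ • (1 : Module.End k V)) (b 0)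
        rw [hα₀', LinearMap.smul_apply, Module.End.one_apply]
      · show ρ h₀ (b 1) = (α₀ • (1 : Module.End k V)) (b 1)
        rw [apply_snd_of_toMatrix b (ρ h₀), ← hβ₀, hβ0, h11, zero_smul, zero_add,
          LinearMap.smul_apply, Module.End.one_apply]
    -- every element of `ker χ` fixes the line of `v₀`
    have hfix : ∀ g, χ g = 1 → ∃ a : k, ρ g v₀ = a • v₀ := by
      intro g hg
      have hc : LinearMap.toMatrixAlgEquiv b (ρ g) 1 0 = 0 := by
        have e0 := hdisc g hg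
        have e1 := hdisc (h₀ * g) (by rw [map_mul, hh₀, hg, one_mul])
        have e2 := hdisc (h₀ * (h₀ * g)) (by rw [map_mul, map_mul, hh₀, hg, one_mul, one_mul])
        rw [disc, trace_eq_of_basis b, det_eq_of_basis b] at e0
        rw [disc, trace_eq_of_basis b, det_eq_of_basis b, map_mul ρ, mat_mul_apply,
          mat_mul_apply, mat_mul_apply, mat_mul_apply, h00, h10, h11, ← hβ₀] at e1
        rw [disc, trace_eq_of_basis b, det_eq_of_basis b, map_mul ρ, map_mul ρ,
          mat_mul_apply b (ρ h₀) (ρ h₀ * ρ g), mat_mul_apply b (ρ h₀) (ρ h₀ * ρ g),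
          mat_mul_apply b (ρ h₀) (ρ h₀ * ρ g), mat_mul_apply b (ρ h₀) (ρ h₀ * ρ g),
          mat_mul_apply b (ρ h₀) (ρ g), mat_mul_apply b (ρ h₀) (ρ g),
          mat_mul_apply b (ρ h₀) (ρ g), mat_mul_apply b (ρ h₀) (ρ g), h00, h10, h11, ← hβ₀] at e2
        refine lower_left_eq_zero α₀ β₀ _ _ _ h.two_ne hα₀ne hβ₀ne e0 ?_ ?_
        · linear_combination e1
        · linear_combination e2
      refine ⟨LinearMap.toMatrixAlgEquiv b (ρ g) 0 0, ?_⟩
      have := apply_fst_of_toMatrix b (ρ g)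
      rw [hc, zero_smul, add_zero, hb] at this
      exact this
    apply h.irr
    refine ⟨v₀, hv₀, fun g _ => ?_⟩
    by_contra hne
    push Not at hne
    obtain ⟨a', ha'⟩ := hfix (g⁻¹ * h₀ * g) (by
      rw [map_mul, map_mul, hh₀, mul_one, ← map_mul, inv_mul_cancel, map_one])
    have heig : ρ h₀ (ρ g v₀) = a' • ρ g v₀ := by
      have := congrArg (ρ g) ha'
      rw [← Module.End.mul_apply, ← map_mul, ← mul_assoc, ← mul_assoc, mul_inv_cancel, one_mul,
        map_mul, Module.End.mul_apply, map_smul] at this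
      exact this
    by_cases haa : a' = α₀
    · rw [haa] at heig
      exact hns α₀ (eq_smul_one_of_pair h.finrank (ρ h₀) α₀ v₀ (ρ g v₀) hv₀ hne hα₀ heig)
    · have hgv : ρ g v₀ ≠ 0 := fun h0 => hne 0 (by rw [h0, zero_smul])
      exact hcon h₀ hh₀ ⟨v₀, ρ g v₀, α₀, a', hv₀, hgv, Ne.symm haa, hα₀, heig⟩

end Fermat.Agent.W56.RegSS5
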