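/-
Programme W56 (target S56), chapter (G) "Taylor–Wiles primes" (helper5): **counting fixed points on
the projective line.**

`ρ : Representation k K V` two-dimensional with `det (ρ x) = 1` and every `ρ x` having an
eigenvector in `V`.  For a non-scalar `x` the number of fixed lines plus the number of lines on which
`x` acts by `±1` is `2`.  Summing over the non-scalar elements of a finite group and exchanging the
order of summation gives the class equation in the form
`∑_ℓ (A₁ ℓ + A₂ ℓ) = 2 · #(non-scalar elements)`.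
-/
import Mathlib
import Fermat.Agent.W56.ProjLine5
import Fermat.Agent.W56.RegSS5

set_option autoImplicit false

noncomputable section

open Classical

namespace Fermat.Agent.W56.FixCount5

open Fermat.Agent.W56.AdTw5 Fermat.Agent.W56.Lin2Dim5 Fermat.Agent.W56.RegSS5
  Fermat.Agent.W56.ProjLine5 Module

variable {k : Type*} [Field k] {K : Type*} [Group K] {V : Type*} [AddCommGroup V] [Module k V]
variable (ρ : Representation k K V)

/-- `x` acts by a scalar. -/
def IsSc (x : K) : Prop := ∃ a : k, ρ x = a • 1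

/-- `x` acts by `±1` on the line `ℓ`. -/
def IsPM (x : K) (ℓ : PL ρ) : Prop :=
  ∃ (v : V) (hv : v ≠ 0), PL.mk ρ v hv = ℓ ∧ (ρ x v = v ∨ ρ x v = -v)

variable {ρ}

theorem isPM_mk_iff (x : K) (v : V) (hv : v ≠ 0) :
    IsPM ρ x (PL.mk ρ v hv) ↔ (ρ x v = v ∨ ρ x v = -v) := by
  constructor
  · rintro ⟨u, hu, huv, h⟩
    obtain ⟨a, ha⟩ := (PL.mk_eq_mk_iff ρ u v hu hv).1 huv
    have ha0 : a ≠ 0 := by
      rintro rfl
      rw [zero_smul] at ha
      exact hu ha.symm
    rw [← ha, map_smul] at h
    rcases h with h | h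
    · left
      have := congrArg (fun z => a⁻¹ • z) h
      simpa [smul_smul, inv_mul_cancel₀ ha0] using this
    · right
      have := congrArg (fun z => a⁻¹ • z) h
      simpa [smul_smul, inv_mul_cancel₀ ha0] using this
  · intro h
    exact ⟨v, hv, rfl, h⟩

theorem fix_of_isPM {x : K} {ℓ : PL ρ} (h : IsPM ρ x ℓ) : x • ℓ = ℓ := by
  obtain ⟨v, hv, rfl, h⟩ := h
  rw [PL.smul_mk_eq_iff]
  rcases h with h | h
  · exact ⟨1, by rw [h, one_smul]⟩
  · exact ⟨-1, by rw [h, neg_smul, one_smul]⟩

/-- the count for a regular semisimple element of determinant one. -/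
theorem count_regSS [Finite V] [Fintype (PL ρ)] (hV : Module.finrank k V = 2) (x : K)
    (hdet : LinearMap.det (ρ x) = 1) (hr : RegSS (ρ x)) :
    (Finset.univ.filter (fun ℓ : PL ρ => x • ℓ = ℓ)).card = 2 ∧
      (Finset.univ.filter (fun ℓ : PL ρ => IsPM ρ x ℓ)).card = 0 := by
  obtain ⟨v, w, α, β, hv, hw, hαβ, hev, hew⟩ := hr
  have hvw : ∀ a : k, w ≠ a • v := by
    intro a hwa
    have h1 : ρ x w = (a * α) • v := by rw [hwa, map_smul, hev, smul_smul]
    have h2 : ρ x w = (β * a) • v := by rw [hew, hwa, smul_smul]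
    have h3 : (a * α - β * a) • v = 0 := by rw [sub_smul, ← h1, ← h2, sub_self]
    have h4 : a * (α - β) = 0 := by
      have := (smul_eq_zero.1 h3).resolve_right hv
      linear_combination this
    have ha : a = 0 := (mul_eq_zero.1 h4).resolve_right (sub_ne_zero.2 hαβ)
    exact hw (by rw [hwa, ha, zero_smul])
  obtain ⟨b, hb0, hb1⟩ := exists_basis_pair hV v w hv hvw
  have hαβ1 : α * β = 1 := by
    obtain ⟨h00, h10, h01, h11⟩ := mat_entries_of_apply b (ρ x) α 0 0 β
      (by rw [hb0, hev, zero_smul, add_zero]) (by rw [hb1, hew, zero_smul, zero_add])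
    rw [det_eq_of_basis b, h00, h10, h01, h11, mul_zero, sub_zero] at hdet
    exact hdet
  have hfix : ∀ ℓ : PL ρ, x • ℓ = ℓ ↔ ℓ = PL.mk ρ v hv ∨ ℓ = PL.mk ρ w hw := by
    intro ℓ
    induction ℓ using PL.ind with
    | h u hu =>
      rw [PL.smul_mk_eq_iff]
      constructor
      · rintro ⟨a, ha⟩
        have hu' := decomp_pair b u
        rw [hb0, hb1] at hu'
        set α₁ := b.repr u 0
        set α₂ := b.repr u 1
        have h1 : ρ x u = (α₁ * α) • b 0 + (α₂ * β) • b 1 := by
          conv_lhs => rw [hu']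
          rw [map_add, map_smul, map_smul, hev, hew, smul_smul, smul_smul, hb0, hb1]
        have h2 : a • u = (a * α₁) • b 0 + (a * α₂) • b 1 := by
          conv_lhs => rw [hu']
          rw [smul_add, smul_smul, smul_smul, hb0, hb1]
        rw [ha, h2] at h1
        obtain ⟨e1, e2⟩ := (pair_eq_iff b _ _ _ _).1 h1
        by_cases h0 : α₂ = 0
        · left
          rw [PL.mk_eq_mk_iff]
          exact ⟨α₁, by rw [hu', h0, zero_smul, add_zero]⟩
        · right
          have haβ : a = β := by
            have : α₂ * (a - β) = 0 := by linear_combination e2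
            have := (mul_eq_zero.1 this).resolve_left h0
            linear_combination this
          have h10 : α₁ = 0 := by
            rw [haβ] at e1
            have : α₁ * (β - α) = 0 := by linear_combination e1
            exact (mul_eq_zero.1 this).resolve_right (sub_ne_zero.2 (Ne.symm hαβ))
          rw [PL.mk_eq_mk_iff]
          exact ⟨α₂, by rw [hu', h10, zero_smul, zero_add]⟩
      · rintro (h | h)
        · obtain ⟨a, ha⟩ := (PL.mk_eq_mk_iff ρ u v hu hv).1 h
          exact ⟨α, by rw [← ha, map_smul, hev, smul_comm]⟩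
        · obtain ⟨a, ha⟩ := (PL.mk_eq_mk_iff ρ u w hu hw).1 h
          exact ⟨β, by rw [← ha, map_smul, hew, smul_comm]⟩
  have hne : PL.mk ρ v hv ≠ PL.mk ρ w hw := by
    intro h
    obtain ⟨a, ha⟩ := (PL.mk_eq_mk_iff ρ v w hv hw).1 h
    have ha0 : a ≠ 0 := by
      rintro rfl
      rw [zero_smul] at ha
      exact hv ha.symm
    apply hvw a⁻¹
    rw [← ha, smul_smul, inv_mul_cancel₀ ha0, one_smul]
  constructor
  · have : Finset.univ.filter (fun ℓ : PL ρ => x • ℓ = ℓ) =
        {PL.mk ρ v hv, PL.mk ρ w hw} := by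
      ext ℓ
      rw [Finset.mem_filter, Finset.mem_insert, Finset.mem_singleton, hfix]
      simp
    rw [this, Finset.card_pair hne]
  · rw [Finset.card_eq_zero, Finset.filter_eq_empty_iff]
    intro ℓ _ hPM
    have hfixℓ := fix_of_isPM hPM
    rcases (hfix ℓ).1 hfixℓ with rfl | rfl
    · rcases (isPM_mk_iff x v hv).1 hPM with h | h
      · have : (α - 1) • v = 0 := by rw [sub_smul, one_smul, ← hev, h, sub_self]
        have hα1 : α = 1 := by
          have := (smul_eq_zero.1 this).resolve_right hv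
          linear_combination this
        apply hαβ
        rw [hα1] at hαβ1 ⊢
        linear_combination -hαβ1
      · have : (α + 1) • v = 0 := by rw [add_smul, one_smul, ← hev, h, neg_add_cancel]
        have hα1 : α = -1 := by
          have := (smul_eq_zero.1 this).resolve_right hv
          linear_combination this
        apply hαβ
        rw [hα1] at hαβ1 ⊢
        linear_combination hαβ1
    · rcases (isPM_mk_iff x w hw).1 hPM with h | h
      · have : (β - 1) • w = 0 := by rw [sub_smul, one_smul, ← hew, h, sub_self]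
        have hβ1 : β = 1 := by
          have := (smul_eq_zero.1 this).resolve_right hw
          linear_combination this
        apply hαβ
        rw [hβ1] at hαβ1 ⊢
        linear_combination hαβ1
      · have : (β + 1) • w = 0 := by rw [add_smul, one_smul, ← hew, h, neg_add_cancel]
        have hβ1 : β = -1 := by
          have := (smul_eq_zero.1 this).resolve_right hw
          linear_combination this
        apply hαβ
        rw [hβ1] at hαβ1 ⊢
        linear_combination -hαβ1

/-- the count for a non-scalar element of determinant one which is not regular semisimple. -/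
theorem count_unip [Finite V] [Fintype (PL ρ)] (hV : Module.finrank k V = 2) (x : K)
    (hdet : LinearMap.det (ρ x) = 1) (hnr : ¬ RegSS (ρ x))
    (heig : ∃ v : V, v ≠ 0 ∧ ∃ a : k, ρ x v = a • v) (hns : ¬ IsSc ρ x) :
    (Finset.univ.filter (fun ℓ : PL ρ => x • ℓ = ℓ)).card = 1 ∧
      (Finset.univ.filter (fun ℓ : PL ρ => IsPM ρ x ℓ)).card = 1 := by
  obtain ⟨v, hv, s, hs⟩ := heig
  obtain ⟨b, hb⟩ := exists_basis_fst hV v hv
  have hs' : ρ x (b 0) = s • b 0 := by rw [hb, hs]
  have h11 : LinearMap.toMatrixAlgEquiv b (ρ x) 1 1 = s := by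
    by_contra hne
    exact hnr (regSS_of_diag_ne b (ρ x) s hs' hne)
  set β := LinearMap.toMatrixAlgEquiv b (ρ x) 0 1 with hβ
  have h1 : ρ x (b 1) = β • b 0 + s • b 1 := by
    have := apply_snd_of_toMatrix b (ρ x)
    rwa [h11] at this
  have hβ0 : β ≠ 0 := by
    intro h0
    apply hns
    refine ⟨s, ?_⟩
    apply b.ext
    intro i
    fin_cases i
    · show ρ x (b 0) = (s • (1 : Module.End k V)) (b 0)
      rw [hs', LinearMap.smul_apply, Module.End.one_apply]
    · show ρ x (b 1) = (s • (1 : Module.End k V)) (b 1)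
      rw [h1, h0, zero_smul, zero_add, LinearMap.smul_apply, Module.End.one_apply]
  have hss : s * s = 1 := by
    obtain ⟨h00, h10⟩ := toMatrix_of_eigen b (ρ x) s hs'
    rw [det_eq_of_basis b, h00, h10, h11, mul_zero, sub_zero] at hdet
    exact hdet
  have hfix : ∀ ℓ : PL ρ, x • ℓ = ℓ ↔ ℓ = PL.mk ρ v hv := by
    intro ℓ
    induction ℓ using PL.ind with
    | h u hu =>
      rw [PL.smul_mk_eq_iff]
      constructor
      · rintro ⟨a, ha⟩
        have hu' := decomp_pair b u
        set α₁ := b.repr u 0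
        set α₂ := b.repr u 1
        have e1 : ρ x u = (α₁ * s + α₂ * β) • b 0 + (α₂ * s) • b 1 := by
          conv_lhs => rw [hu']
          rw [map_add, map_smul, map_smul, hs', h1, smul_add, smul_smul, smul_smul, smul_smul,
            add_smul]
          abel
        have e2 : a • u = (a * α₁) • b 0 + (a * α₂) • b 1 := by
          conv_lhs => rw [hu']
          rw [smul_add, smul_smul, smul_smul]
        rw [ha, e2] at e1
        obtain ⟨c1, c2⟩ := (pair_eq_iff b _ _ _ _).1 e1
        have h0 : α₂ = 0 := by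
          by_contra h0
          have has : a = s := by
            have : α₂ * (a - s) = 0 := by linear_combination c2
            have := (mul_eq_zero.1 this).resolve_left h0
            linear_combination this
          rw [has] at c1
          have : α₂ * β = 0 := by linear_combination -c1
          exact hβ0 ((mul_eq_zero.1 this).resolve_left h0)
        rw [PL.mk_eq_mk_iff]
        exact ⟨α₁, by rw [hu', h0, zero_smul, add_zero, hb]⟩
      · intro h
        obtain ⟨a, ha⟩ := (PL.mk_eq_mk_iff ρ u v hu hv).1 h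
        exact ⟨s, by rw [← ha, map_smul, hs, smul_comm]⟩
  have hpm : ∀ ℓ : PL ρ, IsPM ρ x ℓ ↔ ℓ = PL.mk ρ v hv := by
    intro ℓ
    constructor
    · intro h
      exact (hfix ℓ).1 (fix_of_isPM h)
    · rintro rfl
      rw [isPM_mk_iff]
      have h3 : (s - 1) * (s + 1) = 0 := by linear_combination hss
      rcases mul_eq_zero.1 h3 with h4 | h4
      · left
        have : s = 1 := by linear_combination h4
        rw [hs, this, one_smul]
      · right
        have : s = -1 := by linear_combination h4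
        rw [hs, this, neg_smul, one_smul]
  constructor
  · have : Finset.univ.filter (fun ℓ : PL ρ => x • ℓ = ℓ) = {PL.mk ρ v hv} := by
      ext ℓ
      rw [Finset.mem_filter, Finset.mem_singleton, hfix]
      simp
    rw [this, Finset.card_singleton]
  · have : Finset.univ.filter (fun ℓ : PL ρ => IsPM ρ x ℓ) = {PL.mk ρ v hv} := by
      ext ℓ
      rw [Finset.mem_filter, Finset.mem_singleton, hpm]
      simp
    rw [this, Finset.card_singleton]

/-- **the local count**: for a non-scalar element of determinant one with an eigenvector, the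
number of fixed lines plus the number of lines on which it acts by `±1` is two. -/
theorem count_total [Finite V] [Fintype (PL ρ)] (hV : Module.finrank k V = 2) (x : K)
    (hdet : LinearMap.det (ρ x) = 1)
    (heig : ∃ v : V, v ≠ 0 ∧ ∃ a : k, ρ x v = a • v) (hns : ¬ IsSc ρ x) :
    (Finset.univ.filter (fun ℓ : PL ρ => x • ℓ = ℓ)).card +
      (Finset.univ.filter (fun ℓ : PL ρ => IsPM ρ x ℓ)).card = 2 := by
  by_cases hr : RegSS (ρ x)
  · obtain ⟨h1, h2⟩ := count_regSS hV x hdet hr
    rw [h1, h2]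
  · obtain ⟨h1, h2⟩ := count_unip hV x hdet hr heig hns
    rw [h1, h2]

section Subgroups

variable (ρ) in
/-- the subgroup of elements acting by scalars. -/
def scZ : Subgroup K where
  carrier := {x | IsSc ρ x}
  one_mem' := ⟨1, by rw [map_one, one_smul]⟩
  mul_mem' := by
    rintro x y ⟨a, ha⟩ ⟨b, hb⟩
    exact ⟨a * b, by rw [map_mul, ha, hb, smul_mul_smul_comm, mul_one]⟩
  inv_mem' := by
    rintro x ⟨a, ha⟩
    by_cases ha0 : a = 0
    · have h1 : (1 : Module.End k V) = 0 := by
        have := rho_mul_inv ρ x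
        rw [ha, ha0, zero_smul, zero_mul] at this
        exact this.symm
      refine ⟨0, ?_⟩
      rw [zero_smul]
      calc ρ x⁻¹ = ρ x⁻¹ * 1 := (mul_one _).symm
        _ = 0 := by rw [h1, mul_zero]
    · refine ⟨a⁻¹, ?_⟩
      have h1 := rho_inv_mul ρ x
      rw [ha, mul_smul_comm, mul_one] at h1
      rw [← h1, smul_smul, inv_mul_cancel₀ ha0, one_smul]

theorem mem_scZ (x : K) : x ∈ scZ ρ ↔ IsSc ρ x := Iff.rfl

variable (ρ) in
/-- the subgroup of elements acting by `±1` on a line. -/
def spm (ℓ : PL ρ) : Subgroup K where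
  carrier := {x | IsPM ρ x ℓ}
  one_mem' := by
    obtain ⟨v, hv, rfl⟩ := PL.exists_rep ρ ℓ
    exact (isPM_mk_iff 1 v hv).2 (Or.inl (by rw [map_one, Module.End.one_apply]))
  mul_mem' := by
    intro x y hx hy
    obtain ⟨v, hv, rfl⟩ := PL.exists_rep ρ ℓ
    have hx' := (isPM_mk_iff x v hv).1 hx
    have hy' := (isPM_mk_iff y v hv).1 hy
    apply (isPM_mk_iff (x * y) v hv).2
    rw [map_mul, Module.End.mul_apply]
    rcases hx' with hx' | hx' <;> rcases hy' with hy' | hy'
    · left; rw [hy', hx']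
    · right; rw [hy', map_neg, hx']
    · right; rw [hy', hx']
    · left; rw [hy', map_neg, hx', neg_neg]
  inv_mem' := by
    intro x hx
    obtain ⟨v, hv, rfl⟩ := PL.exists_rep ρ ℓ
    have hx' := (isPM_mk_iff x v hv).1 hx
    apply (isPM_mk_iff x⁻¹ v hv).2
    have h1 : ρ x⁻¹ (ρ x v) = v := by
      rw [← Module.End.mul_apply, rho_inv_mul, Module.End.one_apply]
    rcases hx' with hx' | hx'
    · left; rw [hx'] at h1; exact h1
    · right
      rw [hx', map_neg] at h1
      exact neg_eq_iff_eq_neg.1 h1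

theorem mem_spm (ℓ : PL ρ) (x : K) : x ∈ spm ρ ℓ ↔ IsPM ρ x ℓ := Iff.rfl

theorem spm_le_stabilizer (ℓ : PL ρ) : spm ρ ℓ ≤ MulAction.stabilizer K ℓ :=
  fun _ hx => fix_of_isPM hx

/-- scalars fix every line. -/
theorem smul_eq_of_isSc {x : K} (hx : IsSc ρ x) (ℓ : PL ρ) : x • ℓ = ℓ := by
  obtain ⟨a, ha⟩ := hx
  induction ℓ using PL.ind with
  | h v hv =>
    rw [PL.smul_mk_eq_iff]
    exact ⟨a, by rw [ha, LinearMap.smul_apply, Module.End.one_apply]⟩

/-- scalars of determinant one act by `±1`. -/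
theorem isPM_of_isSc (hV : Module.finrank k V = 2) {x : K} (hx : IsSc ρ x)
    (hdet : LinearMap.det (ρ x) = 1) (ℓ : PL ρ) : IsPM ρ x ℓ := by
  obtain ⟨a, ha⟩ := hx
  rw [ha, det_smul_one hV] at hdet
  obtain ⟨v, hv, rfl⟩ := PL.exists_rep ρ ℓ
  rw [isPM_mk_iff, ha, LinearMap.smul_apply, Module.End.one_apply]
  have h3 : (a - 1) * (a + 1) = 0 := by linear_combination hdet
  rcases mul_eq_zero.1 h3 with h4 | h4
  · left
    have : a = 1 := by linear_combination h4
    rw [this, one_smul]
  · right
    have : a = -1 := by linear_combination h4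
    rw [this, neg_smul, one_smul]

theorem scZ_le_spm (hV : Module.finrank k V = 2) (hdet : ∀ x, LinearMap.det (ρ x) = 1)
    (ℓ : PL ρ) : scZ ρ ≤ spm ρ ℓ :=
  fun x hx => isPM_of_isSc hV hx (hdet x) ℓ

/-- an element acting by `±1` on a line and fixing another line is a scalar. -/
theorem isSc_of_isPM_of_fix (hV : Module.finrank k V = 2) {x : K}
    (hdet : LinearMap.det (ρ x) = 1) {ℓ ℓ' : PL ρ} (hne : ℓ' ≠ ℓ) (hx : IsPM ρ x ℓ)
    (hfix : x • ℓ' = ℓ') : IsSc ρ x := by
  obtain ⟨v, hv, rfl⟩ := PL.exists_rep ρ ℓ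
  obtain ⟨w, hw, rfl⟩ := PL.exists_rep ρ ℓ'
  have hvw : ∀ a : k, w ≠ a • v := by
    intro a hwa
    apply hne
    rw [PL.mk_eq_mk_iff]
    exact ⟨a, hwa.symm⟩
  obtain ⟨a, ha⟩ := (PL.smul_mk_eq_iff ρ x w hw).1 hfix
  obtain ⟨b, hb0, hb1⟩ := exists_basis_pair hV v w hv hvw
  have hx' := (isPM_mk_iff x v hv).1 hx
  have key : ∀ ε : k, ε * ε = 1 → ρ x v = ε • v → IsSc ρ x := by
    intro ε hε hεv
    obtain ⟨h00, h10, h01, h11⟩ := mat_entries_of_apply b (ρ x) ε 0 0 a
      (by rw [hb0, hεv, zero_smul, add_zero]) (by rw [hb1, ha, zero_smul, zero_add])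
    rw [det_eq_of_basis b, h00, h10, h01, h11, mul_zero, sub_zero] at hdet
    have hε0 : ε ≠ 0 := fun h0 => by rw [h0, zero_mul] at hε; exact zero_ne_one hε
    have haε : a = ε := by
      have : ε * (a - ε) = 0 := by linear_combination hdet - hε
      have := (mul_eq_zero.1 this).resolve_left hε0
      linear_combination this
    rw [haε] at ha
    exact ⟨ε, eq_smul_one_of_pair hV (ρ x) ε v w hv hvw hεv ha⟩
  rcases hx' with h | h
  · exact key 1 (one_mul 1) (by rw [h, one_smul])
  · exact key (-1) (by ring) (by rw [h, neg_smul, one_smul])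

end Subgroups

section Global

set_option linter.unusedSectionVars false

variable [Fintype K] [Finite V] [Fintype (PL ρ)]

variable (ρ) in
/-- the non-scalar elements. -/
def nonSc : Finset K := Finset.univ.filter (fun x => ¬ IsSc ρ x)

variable (ρ) in
/-- the number of non-scalar elements fixing a line. -/
def A₁ (ℓ : PL ρ) : ℕ := ((nonSc ρ).filter (fun x => x • ℓ = ℓ)).card

variable (ρ) in
/-- the number of non-scalar elements acting by `±1` on a line. -/
def A₂ (ℓ : PL ρ) : ℕ := ((nonSc ρ).filter (fun x => IsPM ρ x ℓ)).card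

theorem sum_card_filter_comm {α β : Type*} [Fintype β] (s : Finset α) (P : α → β → Prop) :
    ∑ a ∈ s, (Finset.univ.filter (fun b => P a b)).card =
      ∑ b, (s.filter (fun a => P a b)).card := by
  simp only [Finset.card_filter]
  exact Finset.sum_comm

/-- **the class equation on the projective line.** -/
theorem sum_A (hV : Module.finrank k V = 2) (hdet : ∀ x, LinearMap.det (ρ x) = 1)
    (heig : ∀ x, ∃ v : V, v ≠ 0 ∧ ∃ a : k, ρ x v = a • v) :
    ∑ ℓ : PL ρ, (A₁ ρ ℓ + A₂ ρ ℓ) = 2 * (nonSc ρ).card := by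
  rw [Finset.sum_add_distrib]
  unfold A₁ A₂
  rw [← sum_card_filter_comm, ← sum_card_filter_comm, ← Finset.sum_add_distrib]
  rw [Finset.sum_congr rfl (fun x hx => count_total hV x (hdet x) (heig x)
    (by simpa [nonSc] using hx))]
  rw [Finset.sum_const, smul_eq_mul, mul_comm]

theorem card_subgroup (H : Subgroup K) :
    Nat.card H = (Finset.univ.filter (fun x => x ∈ H)).card := by
  rw [Nat.card_eq_fintype_card, Fintype.card_subtype]

theorem card_nonSc : (nonSc ρ).card + Nat.card (scZ ρ) = Fintype.card K := by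
  rw [card_subgroup, nonSc, add_comm]
  exact Finset.card_filter_add_card_filter_not (s := Finset.univ) (fun x => IsSc ρ x)

theorem A₁_add (ℓ : PL ρ) :
    A₁ ρ ℓ + Nat.card (scZ ρ) = Nat.card (MulAction.stabilizer K ℓ) := by
  rw [card_subgroup, card_subgroup, A₁, nonSc, add_comm]
  have h1 : Finset.univ.filter (fun x => x ∈ scZ ρ) =
      (Finset.univ.filter (fun x : K => x ∈ MulAction.stabilizer K ℓ)).filter
        (fun x => IsSc ρ x) := by
    ext x
    simp only [Finset.mem_filter, Finset.mem_univ, true_and, mem_scZ, MulAction.mem_stabilizer_iff]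
    exact ⟨fun h => ⟨smul_eq_of_isSc h ℓ, h⟩, fun h => h.2⟩
  have h2 : (Finset.univ.filter (fun x => ¬ IsSc ρ x)).filter (fun x => x • ℓ = ℓ) =
      (Finset.univ.filter (fun x : K => x ∈ MulAction.stabilizer K ℓ)).filter
        (fun x => ¬ IsSc ρ x) := by
    ext x
    simp only [Finset.mem_filter, Finset.mem_univ, true_and, MulAction.mem_stabilizer_iff]
    exact ⟨fun h => ⟨h.2, h.1⟩, fun h => ⟨h.2, h.1⟩⟩
  rw [h1, h2]
  exact Finset.card_filter_add_card_filter_not _

theorem A₂_add (hV : Module.finrank k V = 2) (hdet : ∀ x, LinearMap.det (ρ x) = 1)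
    (ℓ : PL ρ) : A₂ ρ ℓ + Nat.card (scZ ρ) = Nat.card (spm ρ ℓ) := by
  rw [card_subgroup, card_subgroup, A₂, nonSc, add_comm]
  have h1 : Finset.univ.filter (fun x => x ∈ scZ ρ) =
      (Finset.univ.filter (fun x : K => x ∈ spm ρ ℓ)).filter (fun x => IsSc ρ x) := by
    ext x
    simp only [Finset.mem_filter, Finset.mem_univ, true_and, mem_scZ, mem_spm]
    exact ⟨fun h => ⟨isPM_of_isSc hV h (hdet x) ℓ, h⟩, fun h => h.2⟩
  have h2 : (Finset.univ.filter (fun x => ¬ IsSc ρ x)).filter (fun x => IsPM ρ x ℓ) =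
      (Finset.univ.filter (fun x : K => x ∈ spm ρ ℓ)).filter (fun x => ¬ IsSc ρ x) := by
    ext x
    simp only [Finset.mem_filter, Finset.mem_univ, true_and, mem_spm]
    exact ⟨fun h => ⟨h.2, h.1⟩, fun h => ⟨h.2, h.1⟩⟩
  rw [h1, h2]
  exact Finset.card_filter_add_card_filter_not _

/-- conjugation invariance of `IsSc`. -/
theorem isSc_conj_iff (g x : K) : IsSc ρ (g * x * g⁻¹) ↔ IsSc ρ x := by
  constructor
  · rintro ⟨a, ha⟩
    refine ⟨a, ?_⟩
    have h1 : ρ x = ρ g⁻¹ * ρ (g * x * g⁻¹) * ρ g := by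
      rw [← map_mul, ← map_mul]
      congr 1
      group
    rw [h1, ha, mul_smul_comm, mul_one, smul_mul_assoc, rho_inv_mul]
  · rintro ⟨a, ha⟩
    refine ⟨a, ?_⟩
    rw [map_mul, map_mul, ha, mul_smul_comm, mul_one, smul_mul_assoc, rho_mul_inv]

theorem isPM_conj {g x : K} {ℓ : PL ρ} (h : IsPM ρ x ℓ) : IsPM ρ (g * x * g⁻¹) (g • ℓ) := by
  obtain ⟨v, hv, rfl, h⟩ := h
  rw [PL.smul_mk, isPM_mk_iff]
  have h1 : ρ (g * x * g⁻¹) (ρ g v) = ρ g (ρ x v) := by
    rw [← Module.End.mul_apply, ← map_mul, inv_mul_cancel_right, map_mul, Module.End.mul_apply]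
  rw [h1]
  rcases h with h | h
  · left; rw [h]
  · right; rw [h, map_neg]

theorem isPM_conj_iff (g x : K) (ℓ : PL ρ) : IsPM ρ (g * x * g⁻¹) (g • ℓ) ↔ IsPM ρ x ℓ := by
  constructor
  · intro h
    have := isPM_conj (g := g⁻¹) h
    rw [inv_smul_smul] at this
    have h2 : g⁻¹ * (g * x * g⁻¹) * g⁻¹⁻¹ = x := by group
    rwa [h2] at this
  · exact isPM_conj

theorem fix_conj_iff (g x : K) (ℓ : PL ρ) : (g * x * g⁻¹) • (g • ℓ) = g • ℓ ↔ x • ℓ = ℓ := by
  rw [← mul_smul, inv_mul_cancel_right, mul_smul]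
  exact smul_left_cancel_iff g

theorem A₁_smul (g : K) (ℓ : PL ρ) : A₁ ρ (g • ℓ) = A₁ ρ ℓ := by
  unfold A₁
  symm
  apply Finset.card_equiv (MulAut.conj g).toEquiv
  intro x
  simp only [Finset.mem_filter, nonSc, Finset.mem_univ, true_and, MulEquiv.toEquiv_eq_coe,
    MulEquiv.coe_toEquiv, MulAut.conj_apply, isSc_conj_iff, fix_conj_iff]

theorem A₂_smul (g : K) (ℓ : PL ρ) : A₂ ρ (g • ℓ) = A₂ ρ ℓ := by
  unfold A₂
  symm
  apply Finset.card_equiv (MulAut.conj g).toEquiv
  intro x
  simp only [Finset.mem_filter, nonSc, Finset.mem_univ, true_and, MulEquiv.toEquiv_eq_coe,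
    MulEquiv.coe_toEquiv, MulAut.conj_apply, isSc_conj_iff, isPM_conj_iff]

end Global

end Fermat.Agent.W56.FixCount5
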