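/-
Programme W56 (target S56), chapter (G) "Taylor–Wiles primes" (helper5): **sums of an invariant
function over orbits** of a finite group acting on a finite set.
-/
import Mathlib

set_option autoImplicit false

noncomputable section

open Classical

namespace Fermat.Agent.W56.OrbitSum5

variable (K : Type*) [Group K] {α : Type*} [MulAction K α] [Fintype α]

/-- the orbit of a point as a finset. -/
def orb (x : α) : Finset α := Finset.univ.filter (fun y => y ∈ MulAction.orbit K x)

variable {K}

theorem mem_orb {x y : α} : y ∈ orb K x ↔ y ∈ MulAction.orbit K x := by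
  simp [orb]

theorem self_mem_orb (x : α) : x ∈ orb K x := mem_orb.2 (MulAction.mem_orbit_self x)

theorem smul_mem_orb (g : K) (x : α) : g • x ∈ orb K x := mem_orb.2 (MulAction.mem_orbit x g)

theorem coe_orb (x : α) : (orb K x : Set α) = MulAction.orbit K x := by
  ext y
  simp [orb]

/-- orbit–stabiliser. -/
theorem card_orb_mul (x : α) :
    (orb K x).card * Nat.card (MulAction.stabilizer K x) = Nat.card K := by
  rw [← Set.ncard_coe_finset, coe_orb, ← MulAction.index_stabilizer, mul_comm,
    Subgroup.card_mul_index]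

/-- the sum of an invariant function over an orbit. -/
theorem sum_orb (a : α → ℕ) (ha : ∀ (g : K) (x : α), a (g • x) = a x) (x : α) :
    ∑ y ∈ orb K x, a y = (orb K x).card * a x := by
  apply Finset.sum_const_nat
  intro y hy
  obtain ⟨g, rfl⟩ := MulAction.mem_orbit_iff.1 (mem_orb.1 hy)
  exact ha g x

/-- invariant finsets. -/
def Inv (s : Finset α) : Prop := ∀ (g : K), ∀ y ∈ s, g • y ∈ s

theorem inv_univ : Inv (K := K) (Finset.univ : Finset α) := fun _ _ _ => Finset.mem_univ _

theorem inv_sdiff_orb {s : Finset α} (hs : Inv (K := K) s) (x : α) :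
    Inv (K := K) (s \ orb K x) := by
  intro g y hy
  rw [Finset.mem_sdiff] at hy ⊢
  refine ⟨hs g y hy.1, fun h => hy.2 ?_⟩
  obtain ⟨g', hg'⟩ := MulAction.mem_orbit_iff.1 (mem_orb.1 h)
  rw [mem_orb, MulAction.mem_orbit_iff]
  refine ⟨g⁻¹ * g', ?_⟩
  rw [mul_smul, hg', inv_smul_smul]

theorem orb_subset {s : Finset α} (hs : Inv (K := K) s) {x : α} (hx : x ∈ s) :
    orb K x ⊆ s := by
  intro y hy
  obtain ⟨g, rfl⟩ := MulAction.mem_orbit_iff.1 (mem_orb.1 hy)
  exact hs g x hx

/-- peeling an orbit off an invariant finset. -/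
theorem sum_peel (a : α → ℕ) {s : Finset α} (hs : Inv (K := K) s) {x : α} (hx : x ∈ s) :
    ∑ y ∈ s \ orb K x, a y + ∑ y ∈ orb K x, a y = ∑ y ∈ s, a y :=
  Finset.sum_sdiff (orb_subset hs hx)

end Fermat.Agent.W56.OrbitSum5
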