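/-
Programme W56 (target S56), chapter (G) "Taylor–Wiles primes" (helper5): **the numerical form of
Dickson's theorem.**

`K` a finite group, `ρ : Representation k K V` two-dimensional with `det = 1`, every element having
an eigenvector in `V`.  Let `ℓ₀` be a line not fixed by `K`, `Z` the scalar elements, `S` the
elements acting by `±1` on `ℓ₀` and `B` the stabiliser of `ℓ₀`.  If `#S > 2 #Z` then
`#S (#S - #Z) ≤ 2 #Z #B`, i.e. the torus part `B / S` has at least `(#S/#Z - 1)/2` elements.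

The proof is the class equation on the projective line (`FixCount5.sum_A`) analysed orbit by orbit.
-/
import Mathlib
import Fermat.Agent.W56.FixCount5
import Fermat.Agent.W56.OrbitSum5

set_option autoImplicit false

noncomputable section

open Classical

namespace Fermat.Agent.W56.DicksonNum5

open Fermat.Agent.W56.AdTw5 Fermat.Agent.W56.Lin2Dim5 Fermat.Agent.W56.RegSS5
  Fermat.Agent.W56.ProjLine5 Fermat.Agent.W56.FixCount5 Fermat.Agent.W56.OrbitSum5 Module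

/-- the arithmetic core. -/
theorem core_arith (z n s₀ q₀ n₁ s₁ : ℕ) (hz : 0 < z)
    (hN : n * s₀ = n₁ * s₁) (hzq : z ∣ q₀) (hzs₀ : z ∣ s₀) (hzs₁ : z ∣ s₁)
    (hq : 2 * z < q₀) (hfree : q₀ + z ≤ z * n) (hs₁ : 0 < s₁)
    (hexact : n₁ * z + 2 * z * n = 2 * z + n * q₀) :
    q₀ * (q₀ - z) ≤ 2 * z * s₀ := by
  obtain ⟨q, rfl⟩ := hzq
  obtain ⟨σ₀, rfl⟩ := hzs₀
  obtain ⟨σ₁, rfl⟩ := hzs₁
  have hq3 : 3 ≤ q := by
    by_contra hcon
    push Not at hcon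
    have : z * q ≤ z * 2 := Nat.mul_le_mul_left z (by omega)
    omega
  have hn : q + 1 ≤ n := by
    have h1 : z * (q + 1) ≤ z * n := by rw [mul_add, mul_one]; exact hfree
    exact Nat.le_of_mul_le_mul_left h1 hz
  have hex : n₁ + 2 * n = 2 + n * q := by
    apply Nat.eq_of_mul_eq_mul_left hz
    rw [mul_add, mul_add]
    linarith [hexact, mul_comm z n₁, mul_assoc 2 z n, mul_left_comm z 2 n, mul_left_comm z n q]
  have hN' : n * σ₀ = n₁ * σ₁ := by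
    apply Nat.eq_of_mul_eq_mul_left hz
    linarith [hN, mul_left_comm z n σ₀, mul_left_comm z n₁ σ₁]
  have hσ₁ : 0 < σ₁ := by
    rcases Nat.eq_zero_or_pos σ₁ with h | h
    · rw [h, mul_zero] at hs₁; exact absurd hs₁ (lt_irrefl 0)
    · exact h
  -- pass to the integers
  have key : (q : ℤ) * (q - 1) ≤ 2 * σ₀ := by
    have hq3' : (3 : ℤ) ≤ q := by exact_mod_cast hq3
    have hn' : (q : ℤ) + 1 ≤ n := by exact_mod_cast hn
    have hex' : (n₁ : ℤ) + 2 * n = 2 + n * q := by exact_mod_cast hex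
    have hN'' : (n : ℤ) * σ₀ = n₁ * σ₁ := by exact_mod_cast hN'
    have hσ₁' : (0 : ℤ) < σ₁ := by exact_mod_cast hσ₁
    set δ : ℤ := σ₀ - (q - 2) * σ₁ with hδ
    have hnδ : (n : ℤ) * δ = 2 * σ₁ := by
      have : (n₁ : ℤ) = 2 + n * (q - 2) := by linarith
      rw [hδ, mul_sub, hN'', this]
      ring
    have hn0 : (0 : ℤ) < n := by linarith
    have hδpos : 0 < δ := by
      by_contra hcon
      push Not at hcon
      have : (n : ℤ) * δ ≤ 0 := mul_nonpos_of_nonneg_of_nonpos hn0.le hcon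
      linarith
    have h2σ₀ : 2 * (σ₀ : ℤ) = δ * ((q - 2) * n + 2) := by
      have : (σ₀ : ℤ) = δ + (q - 2) * σ₁ := by rw [hδ]; ring
      rw [this]
      have h3 : 2 * ((q : ℤ) - 2) * σ₁ = (q - 2) * (n * δ) := by rw [hnδ]; ring
      linarith [h3, mul_assoc ((q : ℤ) - 2) n δ, mul_comm δ (((q : ℤ) - 2) * n)]
    have h4 : ((q : ℤ) - 2) * (q + 1) + 2 ≤ (q - 2) * n + 2 := by
      have : ((q : ℤ) - 2) * (q + 1) ≤ (q - 2) * n :=
        mul_le_mul_of_nonneg_left hn' (by linarith)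
      linarith
    have h5 : (q : ℤ) * (q - 1) = (q - 2) * (q + 1) + 2 := by ring
    have h6 : (0 : ℤ) ≤ (q - 2) * n + 2 := by
      have : (0 : ℤ) ≤ (q - 2) * n := mul_nonneg (by linarith) hn0.le
      linarith
    calc (q : ℤ) * (q - 1) = (q - 2) * (q + 1) + 2 := h5
      _ ≤ (q - 2) * n + 2 := h4
      _ = 1 * ((q - 2) * n + 2) := (one_mul _).symm
      _ ≤ δ * ((q - 2) * n + 2) := mul_le_mul_of_nonneg_right (by linarith) h6
      _ = 2 * σ₀ := h2σ₀.symm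
  have hq1 : 1 ≤ q := by omega
  have key' : q * (q - 1) ≤ 2 * σ₀ := by
    have : ((q * (q - 1) : ℕ) : ℤ) ≤ ((2 * σ₀ : ℕ) : ℤ) := by
      push_cast [Nat.cast_sub hq1]
      exact key
    exact_mod_cast this
  have h7 : z * q - z = z * (q - 1) := by rw [Nat.mul_sub, mul_one]
  rw [h7]
  calc z * q * (z * (q - 1)) = z * z * (q * (q - 1)) := by ring
    _ ≤ z * z * (2 * σ₀) := Nat.mul_le_mul_left _ key'
    _ = 2 * z * (z * σ₀) := by ring

set_option linter.unusedSectionVars false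

variable {k : Type*} [Field k] {K : Type*} [Group K] [Fintype K] {V : Type*} [AddCommGroup V]
  [Module k V] [Finite V] {ρ : Representation k K V} [Fintype (PL ρ)]

/-- the elements acting by `±1` on `ℓ₀` act on the other points of its orbit with scalar
stabilisers: `#S + #Z ≤ #Z · #orbit`. -/
theorem card_spm_le (hV : Module.finrank k V = 2) (hdet : ∀ x, LinearMap.det (ρ x) = 1)
    (ℓ₀ : PL ρ) (hmove : ∃ g : K, g • ℓ₀ ≠ ℓ₀) :
    Nat.card (spm ρ ℓ₀) + Nat.card (scZ ρ) ≤ Nat.card (scZ ρ) * (orb K ℓ₀).card := by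
  obtain ⟨g, hg⟩ := hmove
  set ℓ' := g • ℓ₀ with hℓ'
  set S : Finset K := Finset.univ.filter (fun x => x ∈ spm ρ ℓ₀) with hS
  set Zf : Finset K := Finset.univ.filter (fun x => x ∈ scZ ρ) with hZf
  have hcS : Nat.card (spm ρ ℓ₀) = S.card := card_subgroup _
  have hcZ : Nat.card (scZ ρ) = Zf.card := card_subgroup _
  let f : K → PL ρ := fun x => x • ℓ'
  -- the fibres have at most `#Z` elements
  have hfib : ∀ t ∈ Finset.image f S, (S.filter (fun x => f x = t)).card ≤ Zf.card := by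
    intro t ht
    obtain ⟨y₀, hy₀S, hy₀t⟩ := Finset.mem_image.1 ht
    apply Finset.card_le_card_of_injOn (fun x => y₀⁻¹ * x)
    · intro x hx
      rw [Finset.coe_filter] at hx
      obtain ⟨hxS, hxt⟩ := hx
      have hxS' : x ∈ spm ρ ℓ₀ := by simpa [hS] using hxS
      have hy₀S' : y₀ ∈ spm ρ ℓ₀ := by simpa [hS] using hy₀S
      have hmem : y₀⁻¹ * x ∈ spm ρ ℓ₀ := (spm ρ ℓ₀).mul_mem ((spm ρ ℓ₀).inv_mem hy₀S') hxS'
      have hfix : (y₀⁻¹ * x) • ℓ' = ℓ' := by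
        have h1 : x • ℓ' = t := hxt
        have h2 : y₀ • ℓ' = t := hy₀t
        rw [mul_smul, h1, ← h2, inv_smul_smul]
      have : IsSc ρ (y₀⁻¹ * x) := isSc_of_isPM_of_fix hV (hdet _) hg hmem hfix
      simpa [hZf, mem_scZ] using this
    · intro x _ x' _ hxx'
      exact mul_left_cancel hxx'
  have h1 := Finset.card_le_mul_card_image (f := f) S Zf.card hfib
  -- the image avoids `ℓ₀` and lies in the orbit
  have himg : Finset.image f S ⊆ (orb K ℓ₀).erase ℓ₀ := by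
    intro t ht
    obtain ⟨x, hxS, rfl⟩ := Finset.mem_image.1 ht
    have hxS' : x ∈ spm ρ ℓ₀ := by simpa [hS] using hxS
    rw [Finset.mem_erase]
    constructor
    · intro h
      have hx0 : x • ℓ₀ = ℓ₀ := fix_of_isPM hxS'
      have : x • ℓ' = x • ℓ₀ := by rw [hx0]; exact h
      exact hg (smul_left_cancel x this)
    · show x • ℓ' ∈ orb K ℓ₀
      rw [hℓ', ← mul_smul]
      exact smul_mem_orb _ _
  have h2 : (Finset.image f S).card ≤ (orb K ℓ₀).card - 1 := by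
    have := Finset.card_le_card himg
    rwa [Finset.card_erase_of_mem (self_mem_orb ℓ₀)] at this
  have hpos : 1 ≤ (orb K ℓ₀).card := Finset.card_pos.2 ⟨ℓ₀, self_mem_orb ℓ₀⟩
  rw [hcS, hcZ]
  calc S.card + Zf.card ≤ Zf.card * (Finset.image f S).card + Zf.card := by omega
    _ ≤ Zf.card * ((orb K ℓ₀).card - 1) + Zf.card :=
        Nat.add_le_add_right (Nat.mul_le_mul_left _ h2) _
    _ = Zf.card * (orb K ℓ₀).card := by
        obtain ⟨m, hm⟩ := Nat.exists_eq_add_of_le hpos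
        rw [hm, Nat.add_sub_cancel_left]
        ring

/-- **the numerical form of Dickson's theorem.** -/
theorem dickson_num (hV : Module.finrank k V = 2) (hdet : ∀ x, LinearMap.det (ρ x) = 1)
    (heig : ∀ x, ∃ v : V, v ≠ 0 ∧ ∃ a : k, ρ x v = a • v) (ℓ₀ : PL ρ)
    (hq : 2 * Nat.card (scZ ρ) < Nat.card (spm ρ ℓ₀)) (hmove : ∃ g : K, g • ℓ₀ ≠ ℓ₀) :
    Nat.card (spm ρ ℓ₀) * (Nat.card (spm ρ ℓ₀) - Nat.card (scZ ρ)) ≤
      2 * Nat.card (scZ ρ) * Nat.card (MulAction.stabilizer K ℓ₀) := by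
  set z := Nat.card (scZ ρ) with hz
  set N := Fintype.card K with hN
  have hzpos : 0 < z := Nat.card_pos
  obtain ⟨a, ha⟩ : ∃ a : PL ρ → ℕ, a = fun ℓ => A₁ ρ ℓ + A₂ ρ ℓ := ⟨_, rfl⟩
  have hainv : ∀ (g : K) (ℓ : PL ρ), a (g • ℓ) = a ℓ := fun g ℓ => by
    simp only [ha, A₁_smul, A₂_smul]
  have has : ∀ ℓ : PL ρ, a ℓ + 2 * z =
      Nat.card (MulAction.stabilizer K ℓ) + Nat.card (spm ρ ℓ) := fun ℓ => by
    have h1 := A₁_add (ρ := ρ) ℓ
    have h2 := A₂_add hV hdet ℓ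
    simp only [ha]
    omega
  have hT : ∑ ℓ : PL ρ, a ℓ + 2 * z = 2 * N := by
    have h1 := sum_A hV hdet heig
    have h2 := card_nonSc (ρ := ρ)
    have h3 : ∑ ℓ : PL ρ, a ℓ = ∑ ℓ : PL ρ, (A₁ ρ ℓ + A₂ ρ ℓ) := by rw [ha]
    omega
  have hzq : ∀ ℓ : PL ρ, z ∣ Nat.card (spm ρ ℓ) := fun ℓ =>
    Subgroup.card_dvd_of_le (scZ_le_spm hV hdet ℓ)
  have hqs : ∀ ℓ : PL ρ, Nat.card (spm ρ ℓ) ∣ Nat.card (MulAction.stabilizer K ℓ) := fun ℓ =>
    Subgroup.card_dvd_of_le (spm_le_stabilizer ℓ)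
  have hzs : ∀ ℓ : PL ρ, z ∣ Nat.card (MulAction.stabilizer K ℓ) := fun ℓ =>
    dvd_trans (hzq ℓ) (hqs ℓ)
  have hspos : ∀ ℓ : PL ρ, 0 < Nat.card (MulAction.stabilizer K ℓ) := fun ℓ => Nat.card_pos
  have hqpos : ∀ ℓ : PL ρ, 0 < Nat.card (spm ρ ℓ) := fun ℓ => Nat.card_pos
  have hqles : ∀ ℓ : PL ρ, Nat.card (spm ρ ℓ) ≤ Nat.card (MulAction.stabilizer K ℓ) := fun ℓ =>
    Nat.le_of_dvd (hspos ℓ) (hqs ℓ)
  have horb : ∀ ℓ : PL ρ, (orb K ℓ).card * Nat.card (MulAction.stabilizer K ℓ) = N := fun ℓ => by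
    rw [card_orb_mul, Nat.card_eq_fintype_card]
  have hnpos : ∀ ℓ : PL ρ, 0 < (orb K ℓ).card := fun ℓ =>
    Finset.card_pos.2 ⟨ℓ, self_mem_orb ℓ⟩
  -- a multiple of `z` which is `> z` is `≥ 2 z`
  have htwo : ∀ m : ℕ, z ∣ m → z < m → 2 * z ≤ m := by
    rintro m ⟨j, rfl⟩ hlt
    have : 2 ≤ j := by
      by_contra hcon
      push Not at hcon
      have : z * j ≤ z * 1 := Nat.mul_le_mul_left z (by omega)
      omega
    calc 2 * z = z * 2 := by ring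
      _ ≤ z * j := Nat.mul_le_mul_left z this
  -- the orbit of `ℓ₀`
  have hfree := card_spm_le hV hdet ℓ₀ hmove
  have hp0 := sum_peel (K := K) a inv_univ (Finset.mem_univ ℓ₀)
  rw [sum_orb a hainv ℓ₀] at hp0
  have has0 := has ℓ₀
  have horb0 := horb ℓ₀
  have hn0 := hnpos ℓ₀
  have hqles0 := hqles ℓ₀
  set n := (orb K ℓ₀).card with hn
  set s₀ := Nat.card (MulAction.stabilizer K ℓ₀) with hs₀
  set q₀ := Nat.card (spm ρ ℓ₀) with hq₀
  set R₀ := ∑ y ∈ Finset.univ \ orb K ℓ₀, a y with hR₀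
  set T := ∑ ℓ : PL ρ, a ℓ with hTdef
  -- product atoms for `ℓ₀`
  obtain ⟨Pna, hPna⟩ : ∃ P, P = n * a ℓ₀ := ⟨_, rfl⟩
  obtain ⟨Pnz, hPnz⟩ : ∃ P, P = n * z := ⟨_, rfl⟩
  obtain ⟨Pnq, hPnq⟩ : ∃ P, P = n * q₀ := ⟨_, rfl⟩
  have f1 : Pna + 2 * Pnz = N + Pnq := by
    have h1 : n * (a ℓ₀ + 2 * z) = n * (s₀ + q₀) := by rw [has0]
    have h2 : n * (a ℓ₀ + 2 * z) = n * a ℓ₀ + 2 * (n * z) := by ring
    have h3 : n * (s₀ + q₀) = n * s₀ + n * q₀ := by ring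
    rw [h2, h3, horb0, ← hPna, ← hPnq, ← hPnz] at h1
    exact h1
  have f3 : 2 * Pnz + n ≤ Pnq := by
    have h1 : n * (2 * z + 1) ≤ n * q₀ := Nat.mul_le_mul_left n hq
    rw [hPnz, hPnq]
    linarith [h1, mul_left_comm n 2 z]
  have f4 : Pnq ≤ N := by
    rw [hPnq, ← horb0]
    exact Nat.mul_le_mul_left n hqles0
  have ffree : q₀ + z ≤ Pnz := by rw [hPnz, mul_comm]; exact hfree
  rw [← hPna] at hp0
  -- `R₀ ≠ 0`
  have hR₀ne : R₀ ≠ 0 := by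
    intro h0
    omega
  obtain ⟨ℓ₁, hℓ₁mem, hℓ₁a⟩ := Finset.exists_ne_zero_of_sum_ne_zero hR₀ne
  have inv₁ : Inv (K := K) (Finset.univ \ orb K ℓ₀) := inv_sdiff_orb inv_univ ℓ₀
  have hp1 := sum_peel (K := K) a inv₁ hℓ₁mem
  rw [sum_orb a hainv ℓ₁] at hp1
  have has1 := has ℓ₁
  have horb1 := horb ℓ₁
  have hn1 := hnpos ℓ₁
  have hqles1 := hqles ℓ₁
  have hzq1 := hzq ℓ₁
  have hzs1 := hzs ℓ₁
  have hqpos1 := hqpos ℓ₁
  set n₁ := (orb K ℓ₁).card with hn₁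
  set s₁ := Nat.card (MulAction.stabilizer K ℓ₁) with hs₁
  set q₁ := Nat.card (spm ρ ℓ₁) with hq₁
  set R₁ := ∑ y ∈ (Finset.univ \ orb K ℓ₀) \ orb K ℓ₁, a y with hR₁
  obtain ⟨Pn1a, hPn1a⟩ : ∃ P, P = n₁ * a ℓ₁ := ⟨_, rfl⟩
  obtain ⟨Pn1z, hPn1z⟩ : ∃ P, P = n₁ * z := ⟨_, rfl⟩
  obtain ⟨Pn1q, hPn1q⟩ : ∃ P, P = n₁ * q₁ := ⟨_, rfl⟩
  have g1 : Pn1a + 2 * Pn1z = N + Pn1q := by
    have h1 : n₁ * (a ℓ₁ + 2 * z) = n₁ * (s₁ + q₁) := by rw [has1]
    have h2 : n₁ * (a ℓ₁ + 2 * z) = n₁ * a ℓ₁ + 2 * (n₁ * z) := by ring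
    have h3 : n₁ * (s₁ + q₁) = n₁ * s₁ + n₁ * q₁ := by ring
    rw [h2, h3, horb1, ← hPn1a, ← hPn1q, ← hPn1z] at h1
    exact h1
  rw [← hPn1a] at hp1
  -- `q₁ = z`
  have hq1lt : q₁ < 2 * z := by
    by_contra hcon
    push Not at hcon
    have h1 : n₁ * (2 * z) ≤ n₁ * q₁ := Nat.mul_le_mul_left n₁ hcon
    rw [← hPn1q] at h1
    have h2 : n₁ * (2 * z) = 2 * Pn1z := by rw [hPn1z]; ring
    omega
  have hq1z : q₁ = z := by
    obtain ⟨j, hj⟩ := hzq1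
    have hj1 : j = 1 := by
      have hjpos : 0 < j := by
        rcases Nat.eq_zero_or_pos j with h | h
        · rw [h, mul_zero] at hj; omega
        · exact h
      by_contra hne
      have : 2 ≤ j := by omega
      have : z * 2 ≤ z * j := Nat.mul_le_mul_left z this
      omega
    rw [hj, hj1, mul_one]
  have ha1pos : 0 < a ℓ₁ := Nat.pos_of_ne_zero hℓ₁a
  have hs1big : 2 * z ≤ s₁ := htwo s₁ hzs1 (by omega)
  have g2 : Pn1q = Pn1z := by rw [hPn1q, hPn1z, hq1z]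
  have g3 : 2 * Pn1z ≤ N := by
    rw [hPn1z, ← horb1]
    calc 2 * (n₁ * z) = n₁ * (2 * z) := by ring
      _ ≤ n₁ * s₁ := Nat.mul_le_mul_left n₁ hs1big
  -- `R₁ = 0`
  have hR₁0 : R₁ = 0 := by
    by_contra hR₁ne
    obtain ⟨ℓ₂, hℓ₂mem, hℓ₂a⟩ := Finset.exists_ne_zero_of_sum_ne_zero hR₁ne
    have inv₂ : Inv (K := K) ((Finset.univ \ orb K ℓ₀) \ orb K ℓ₁) := inv_sdiff_orb inv₁ ℓ₁
    have hp2 := sum_peel (K := K) a inv₂ hℓ₂mem
    rw [sum_orb a hainv ℓ₂] at hp2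
    have has2 := has ℓ₂
    have horb2 := horb ℓ₂
    have hqles2 := hqles ℓ₂
    have hzq2 := hzq ℓ₂
    have hzs2 := hzs ℓ₂
    have hqpos2 := hqpos ℓ₂
    set n₂ := (orb K ℓ₂).card with hn₂
    set s₂ := Nat.card (MulAction.stabilizer K ℓ₂) with hs₂
    set q₂ := Nat.card (spm ρ ℓ₂) with hq₂
    have ha2pos : 0 < a ℓ₂ := Nat.pos_of_ne_zero hℓ₂a
    have hq2z : z ≤ q₂ := Nat.le_of_dvd hqpos2 hzq2
    have hs2big : 2 * z ≤ s₂ := htwo s₂ hzs2 (by omega)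
    have h2a : s₂ ≤ 2 * a ℓ₂ := by omega
    have h3 : N ≤ 2 * (n₂ * a ℓ₂) := by
      rw [← horb2]
      calc n₂ * s₂ ≤ n₂ * (2 * a ℓ₂) := Nat.mul_le_mul_left n₂ h2a
        _ = 2 * (n₂ * a ℓ₂) := by ring
    omega
  -- the exact relation
  have hexact : n₁ * z + 2 * z * n = 2 * z + n * q₀ := by
    rw [← hPn1z, ← hPnq]
    have : 2 * z * n = 2 * Pnz := by rw [hPnz]; ring
    omega
  have hNN : n * s₀ = n₁ * s₁ := by rw [horb0, horb1]
  exact core_arith z n s₀ q₀ n₁ s₁ hzpos hNN (hzq ℓ₀) (hzs ℓ₀) hzs1 hq hfree (hspos ℓ₁) hexact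

end Fermat.Agent.W56.DicksonNum5
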