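/-
Programme W56 (target S56), chapter (G) "Taylor–Wiles primes" (helper5): **the two inputs (A), (B)
for a non-cyclic unipotent group**, from the numerical form of Dickson's theorem
(`DicksonNum5.dickson_num`) applied to the subgroup of determinant one acting on the projective
line: the stabiliser of the line `k (b 0)` in that subgroup contains so many elements `t` that the
squares `λ = s₁(t)²` of their eigenvalues on the line form a set `Λ` with `#U ≤ 2 #Λ + 1`.  Then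
(A) follows from one `λ` with `λ² ≠ 1` and (B) from the derivation lemma.
-/
import Mathlib
import Fermat.Agent.W56.CaseII5
import Fermat.Agent.W56.DicksonNum5
import Fermat.Agent.W56.DerivLemma5

set_option autoImplicit false

noncomputable section

namespace Fermat.Agent.W56.StepNonCyc5

open Fermat.Agent.W56.GrpCoh5 Fermat.Agent.W56.AdTw5 Fermat.Agent.W56.Lin2Dim5
  Fermat.Agent.W56.Borel5 Fermat.Agent.W56.StableLine5 Fermat.Agent.W56.Unip5
  Fermat.Agent.W56.UnipCoc5 Fermat.Agent.W56.StepCyc5 Fermat.Agent.W56.CaseII5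
  Fermat.Agent.W56.ProjLine5 Fermat.Agent.W56.FixCount5 Fermat.Agent.W56.DicksonNum5
  Fermat.Agent.W56.DerivLemma5 Module

variable {k : Type*} [Field k] {G : Type*} [Group G] {V : Type*} [AddCommGroup V] [Module k V]
variable {ρ : Representation k G V} {b : Basis (Fin 2) k V} {c : G → Module.End k V}

local notation "mat" => LinearMap.toMatrixAlgEquiv b

section DetOne

variable (ρ) in
/-- the subgroup of determinant one. -/
def K0 : Subgroup G :=
  MonoidHom.ker ((LinearMap.det : Module.End k V →* k).comp (ρ : G →* Module.End k V))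

theorem mem_K0 (g : G) : g ∈ K0 ρ ↔ LinearMap.det (ρ g) = 1 := Iff.rfl

variable (ρ) in
/-- the restriction of the representation to the subgroup of determinant one. -/
def rho0 : Representation k (K0 ρ) V := (ρ : G →* Module.End k V).comp (K0 ρ).subtype

theorem rho0_apply (x : K0 ρ) : rho0 ρ x = ρ (x : G) := rfl

theorem det_rho0 (x : K0 ρ) : LinearMap.det (rho0 ρ x) = 1 := x.2

theorem unip_le_K0 : unip ρ b ≤ K0 ρ := fun _ hx => hx.2

theorem conj_mem_K0 {x : G} (hx : x ∈ K0 ρ) (t : G) : t⁻¹ * x * t ∈ K0 ρ := by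
  have hx' : LinearMap.det (ρ x) = 1 := hx
  show LinearMap.det (ρ (t⁻¹ * x * t)) = 1
  rw [map_mul, map_mul, map_mul, map_mul, hx', mul_one, ← map_mul, rho_inv_mul, map_one]

end DetOne

section PElements

theorem rho_pow_apply_of_eigen {y : G} {v : V} {a : k} (hy : ρ y v = a • v) (n : ℕ) :
    ρ (y ^ n) v = a ^ n • v := by
  induction n with
  | zero => rw [pow_zero, pow_zero, map_one, Module.End.one_apply, one_smul]
  | succ n ih =>
    rw [pow_succ, map_mul, Module.End.mul_apply, hy, map_smul, ih, smul_smul, pow_succ, mul_comm]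

/-- an element of order `p` in the Borel subgroup is unipotent. -/
theorem mem_unip_of_pow (p : ℕ) [Fact p.Prime] [CharP k p] {y : G} (hy : y ∈ borel ρ b)
    (hyp : y ^ p = 1) : y ∈ unip ρ b := by
  obtain ⟨a, ha⟩ := hy
  have h1 := rho_pow_apply_of_eigen ha p
  rw [hyp, map_one, Module.End.one_apply] at h1
  have h2 : a ^ p = 1 := by
    have h3 : (a ^ p - 1) • b 0 = 0 := by rw [sub_smul, one_smul, ← h1, sub_self]
    have := (smul_eq_zero.1 h3).resolve_right (b.ne_zero 0)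
    linear_combination this
  have h4 : (a - 1) ^ p = 0 := by rw [sub_pow_char, h2, one_pow, sub_self]
  have h5 : a = 1 := by
    have := (pow_eq_zero_iff (Fact.out : p.Prime).ne_zero).1 h4
    linear_combination this
  refine ⟨by rw [ha, h5, one_smul], ?_⟩
  exact det_eq_one_of_pow p ρ y 1 (by rw [pow_one]; exact hyp)

end PElements

section Move

/-- the subgroup of determinant one moves the line `k (b 0)`. -/
theorem exists_move (p : ℕ) [Fact p.Prime] [CharP k p] (h : Hyp ρ) (hinj : Function.Injective ρ)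
    {x₀ : G} (hx₀ : x₀ ∈ unip ρ b) (hne : x₀ ≠ 1) :
    ∃ g : K0 ρ, g • PL.mk (rho0 ρ) (b 0) (b.ne_zero 0) ≠ PL.mk (rho0 ρ) (b 0) (b.ne_zero 0) := by
  by_contra hcon
  push Not at hcon
  have hK : ∀ y ∈ K0 ρ, y ∈ borel ρ b := by
    intro y hy
    have := hcon ⟨y, hy⟩
    rw [PL.smul_mk_eq_iff] at this
    exact this
  have hf : fU ρ b x₀ ≠ 0 := fun h0 => hne (eq_one_of_fU_eq_zero hinj hx₀ h0)
  apply h.irr
  refine ⟨b 0, b.ne_zero 0, fun t _ => ?_⟩
  have h1 : t⁻¹ * x₀ * t ∈ K0 ρ := conj_mem_K0 (unip_le_K0 hx₀) t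
  have h2 : (t⁻¹ * x₀ * t) ^ p = 1 := by
    have h3 : t⁻¹ * x₀ * t = t⁻¹ * x₀ * (t⁻¹)⁻¹ := by rw [inv_inv]
    rw [h3, conj_pow, unip_pow_p p hinj hx₀, mul_one, mul_inv_cancel]
  exact mem_borel_of_normalizes hx₀ hf (mem_unip_of_pow p (hK _ h1) h2)

end Move

section Large

open Classical in
/-- **the torus of the stabiliser of the line is large**: the squares of the eigenvalues on the
line of the elements of determinant one stabilising the line form a set `Λ` with
`#U ≤ 2 #Λ + 1`. -/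
theorem torus_large (p : ℕ) [Fact p.Prime] [CharP k p] [Finite k] [Finite G] (h : Hyp ρ)
    (hinj : Function.Injective ρ) (hn2 : p ^ 2 ≤ Nat.card (unip ρ b)) :
    ∃ Λ : Finset k,
      (∀ l ∈ Λ, ∃ t ∈ borel ρ b, LinearMap.det (ρ t) = 1 ∧ l = mat (ρ t) 0 0 ^ 2) ∧
      Nat.card (unip ρ b) ≤ 2 * Λ.card + 1 := by
  have hp : p.Prime := Fact.out
  have : Fintype (K0 ρ) := Fintype.ofFinite _
  have hfin : Module.Finite k V := Module.finite_of_finrank_eq_succ h.finrank
  have hVfin : Finite V := Module.finite_of_finite k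
  have : Fintype (PL (rho0 ρ)) := Fintype.ofFinite _
  set ℓ₀ : PL (rho0 ρ) := PL.mk (rho0 ρ) (b 0) (b.ne_zero 0) with hℓ₀
  have hdet : ∀ x : K0 ρ, LinearMap.det (rho0 ρ x) = 1 := det_rho0
  have heig : ∀ x : K0 ρ, ∃ v : V, v ≠ 0 ∧ ∃ a : k, rho0 ρ x v = a • v := fun x => h.eigen x
  -- a non-trivial unipotent element
  have hU4 : 4 ≤ Nat.card (unip ρ b) := by
    have : 2 ^ 2 ≤ p ^ 2 := Nat.pow_le_pow_left hp.two_le 2
    omega
  have hUne : unip ρ b ≠ ⊥ := by
    intro hbot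
    rw [hbot, Subgroup.card_bot] at hU4
    omega
  obtain ⟨⟨x₀, hx₀⟩, hx₀ne⟩ := Subgroup.ne_bot_iff_exists_ne_one.1 hUne
  have hne : x₀ ≠ 1 := fun h1 => hx₀ne (Subtype.ext h1)
  have hmove := exists_move p h hinj hx₀ hne
  -- `#U · #Z ≤ #S`
  have hUS : ∀ u : unip ρ b, (⟨u, unip_le_K0 u.2⟩ : K0 ρ) ∈ spm (rho0 ρ) ℓ₀ := by
    intro u
    rw [mem_spm, hℓ₀, isPM_mk_iff]
    left
    exact u.2.1
  have hZS := scZ_le_spm h.finrank hdet ℓ₀
  have hq1 : Nat.card (unip ρ b) * Nat.card (scZ (rho0 ρ)) ≤ Nat.card (spm (rho0 ρ) ℓ₀) := by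
    rw [← Nat.card_prod]
    apply Nat.card_le_card_of_injective
      (fun ux : unip ρ b × scZ (rho0 ρ) =>
        (⟨⟨ux.1, unip_le_K0 ux.1.2⟩ * ux.2, (spm (rho0 ρ) ℓ₀).mul_mem (hUS ux.1) (hZS ux.2.2)⟩ :
          spm (rho0 ρ) ℓ₀))
    rintro ⟨u, s⟩ ⟨u', s'⟩ hus
    have h1 : (⟨u, unip_le_K0 u.2⟩ : K0 ρ) * s = ⟨u', unip_le_K0 u'.2⟩ * s' :=
      congrArg Subtype.val hus
    -- `d = u'⁻¹ u = s' s⁻¹`
    have h2 : (⟨u', unip_le_K0 u'.2⟩ : K0 ρ)⁻¹ * ⟨u, unip_le_K0 u.2⟩ = (s' : K0 ρ) * (s : K0 ρ)⁻¹ := by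
      rw [eq_mul_inv_iff_mul_eq, mul_assoc, h1, inv_mul_cancel_left]
    have h3 : ((u' : G))⁻¹ * (u : G) ∈ unip ρ b := (unip ρ b).mul_mem ((unip ρ b).inv_mem u'.2) u.2
    have h4 : IsSc (rho0 ρ) ((⟨u', unip_le_K0 u'.2⟩ : K0 ρ)⁻¹ * ⟨u, unip_le_K0 u.2⟩) := by
      rw [h2]
      exact (scZ (rho0 ρ)).mul_mem s'.2 ((scZ (rho0 ρ)).inv_mem s.2)
    obtain ⟨a, ha⟩ := h4
    have ha' : ρ ((u' : G)⁻¹ * (u : G)) = a • 1 := ha
    have ha1 : a = 1 := by
      have h5 := h3.1
      rw [ha', LinearMap.smul_apply, Module.End.one_apply] at h5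
      have h6 : (a - 1) • b 0 = 0 := by rw [sub_smul, one_smul, h5, sub_self]
      have := (smul_eq_zero.1 h6).resolve_right (b.ne_zero 0)
      linear_combination this
    have h7 : (u' : G)⁻¹ * (u : G) = 1 := by
      apply hinj
      rw [ha', ha1, one_smul, map_one]
    have h8 : (u : G) = u' := by
      have := inv_mul_eq_one.1 h7
      exact this.symm
    have h9 : u = u' := Subtype.ext h8
    subst h9
    have h10 : (s : K0 ρ) = s' := mul_left_cancel h1
    rw [Subtype.ext h10]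
  set z := Nat.card (scZ (rho0 ρ)) with hz
  set q' := Nat.card (spm (rho0 ρ) ℓ₀) with hq'
  have hzpos : 0 < z := Nat.card_pos
  have hq : 2 * z < q' := by nlinarith
  have hD := dickson_num h.finrank hdet heig ℓ₀ hq hmove
  -- the stabiliser and the squares of the eigenvalues
  let φ : K0 ρ → k := fun t => mat (ρ (t : G)) 0 0 ^ 2
  set St : Finset (K0 ρ) := Finset.univ.filter (fun t => t ∈ MulAction.stabilizer (K0 ρ) ℓ₀)
    with hSt
  set Sf : Finset (K0 ρ) := Finset.univ.filter (fun t => t ∈ spm (rho0 ρ) ℓ₀) with hSf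
  have hcSt : Nat.card (MulAction.stabilizer (K0 ρ) ℓ₀) = St.card := card_subgroup _
  have hcSf : q' = Sf.card := card_subgroup _
  have hborel : ∀ t ∈ St, (t : G) ∈ borel ρ b := by
    intro t ht
    have ht' : t • ℓ₀ = ℓ₀ := by simpa [hSt] using ht
    rw [hℓ₀, PL.smul_mk_eq_iff] at ht'
    exact ht'
  refine ⟨St.image φ, ?_, ?_⟩
  · intro l hl
    obtain ⟨t, htS, rfl⟩ := Finset.mem_image.1 hl
    exact ⟨t, hborel t htS, t.2, rfl⟩
  · have hfib : ∀ l ∈ St.image φ, (St.filter (fun x => φ x = l)).card ≤ Sf.card := by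
      intro l hl
      obtain ⟨y₀, hy₀S, hy₀l⟩ := Finset.mem_image.1 hl
      apply Finset.card_le_card_of_injOn (fun x => y₀⁻¹ * x)
      · intro x hx
        rw [Finset.coe_filter] at hx
        obtain ⟨hxS, hxl⟩ := hx
        have hx1 := apply_fst_of_mem_borel ρ b (hborel x hxS)
        have hy1 := apply_fst_of_mem_borel ρ b (hborel y₀ hy₀S)
        obtain ⟨hy00, -⟩ := diag_ne_zero_of_upper ρ b (y₀ : G)
          (lower_left_of_mem_borel ρ b (hborel y₀ hy₀S))
        set a := mat (ρ (x : G)) 0 0 with ha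
        set a₀ := mat (ρ (y₀ : G)) 0 0 with ha₀
        have hsq : a ^ 2 = a₀ ^ 2 := by
          have h1 : φ x = a ^ 2 := rfl
          have h2 : φ y₀ = a₀ ^ 2 := rfl
          rw [← h1, ← h2, hxl, hy₀l]
        have hinv : ρ ((y₀ : G)⁻¹) (b 0) = a₀⁻¹ • b 0 := by
          have h1 := congrArg (ρ ((y₀ : G)⁻¹)) hy1
          rw [← Module.End.mul_apply, rho_inv_mul, Module.End.one_apply, map_smul] at h1
          calc ρ ((y₀ : G)⁻¹) (b 0) = (a₀⁻¹ * a₀) • ρ ((y₀ : G)⁻¹) (b 0) := by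
                rw [inv_mul_cancel₀ hy00, one_smul]
            _ = a₀⁻¹ • (a₀ • ρ ((y₀ : G)⁻¹) (b 0)) := by rw [smul_smul]
            _ = a₀⁻¹ • b 0 := by rw [← h1]
        have hprod : ρ ((y₀ : G)⁻¹ * (x : G)) (b 0) = (a₀⁻¹ * a) • b 0 := by
          rw [map_mul, Module.End.mul_apply, hx1, map_smul, hinv, smul_smul, mul_comm]
        have hpm : a₀⁻¹ * a = 1 ∨ a₀⁻¹ * a = -1 := by
          have h1 : (a - a₀) * (a + a₀) = 0 := by linear_combination hsq
          rcases mul_eq_zero.1 h1 with h2 | h2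
          · left
            have : a = a₀ := by linear_combination h2
            rw [this, inv_mul_cancel₀ hy00]
          · right
            have : a = -a₀ := by linear_combination h2
            rw [this, mul_neg, inv_mul_cancel₀ hy00]
        have hmem : y₀⁻¹ * x ∈ spm (rho0 ρ) ℓ₀ := by
          rw [mem_spm, hℓ₀, isPM_mk_iff]
          have h1 : rho0 ρ (y₀⁻¹ * x) (b 0) = (a₀⁻¹ * a) • b 0 := hprod
          rcases hpm with h2 | h2
          · left; rw [h1, h2, one_smul]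
          · right; rw [h1, h2, neg_smul, one_smul]
        simpa [hSf] using hmem
      · intro x _ x' _ hxx'
        exact mul_left_cancel hxx'
    have h1 := Finset.card_le_mul_card_image (f := φ) St Sf.card hfib
    rw [← hcSf, ← hcSt] at h1
    set L := (St.image φ).card with hL
    set s₀ := Nat.card (MulAction.stabilizer (K0 ρ) ℓ₀) with hs₀
    set U := Nat.card (unip ρ b) with hU
    have hq'pos : 0 < q' := Nat.card_pos
    have h2 : q' * (q' - z) ≤ q' * (2 * z * L) := by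
      calc q' * (q' - z) ≤ 2 * z * s₀ := hD
        _ ≤ 2 * z * (q' * L) := Nat.mul_le_mul_left _ h1
        _ = q' * (2 * z * L) := by ring
    have h3 : q' - z ≤ 2 * z * L := Nat.le_of_mul_le_mul_left h2 hq'pos
    have h4 : z * U ≤ z * (2 * L + 1) := by
      have : q' ≤ 2 * z * L + z := by omega
      calc z * U = U * z := mul_comm _ _
        _ ≤ q' := hq1
        _ ≤ 2 * z * L + z := this
        _ = z * (2 * L + 1) := by ring
    exact Nat.le_of_mul_le_mul_left h4 hzpos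

end Large

section Inputs

variable (p : ℕ) [Fact p.Prime] [CharP k p] [Finite k] [Finite G]

include p in
omit [Finite k] [Finite G] [Fact p.Prime] in
theorem three_le_of_hyp (hp : p.Prime) (h : Hyp ρ) : 3 ≤ p := by
  have h2 : p ≠ 2 := by
    rintro rfl
    apply h.two_ne
    have := CharP.cast_eq_zero k 2
    exact_mod_cast this
  have := hp.two_le
  omega

/-- **(A) for a non-cyclic unipotent group.** -/
theorem nonCycA (h : Hyp ρ) (hinj : Function.Injective ρ) (hc : IsCoc (adTw ρ) c)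
    (htr : ∀ g, LinearMap.trace k V (c g) = 0) : NonCycA ρ c p := by
  classical
  intro b hn2 x hx
  have hp : p.Prime := Fact.out
  obtain ⟨Λ, hΛ, hcard⟩ := torus_large p h hinj hn2
  have hp3 : 3 ≤ p := three_le_of_hyp p hp h
  have h9 : 9 ≤ Nat.card (unip ρ b) := by
    have : 3 ^ 2 ≤ p ^ 2 := Nat.pow_le_pow_left hp3 2
    omega
  have hL : 4 ≤ Λ.card := by omega
  obtain ⟨l, hl, hl2⟩ : ∃ l ∈ Λ, l ^ 2 ≠ 1 := by
    by_contra hcon
    push Not at hcon
    have hsub : Λ ⊆ {1, -1} := by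
      intro l hl
      have h1 : (l - 1) * (l + 1) = 0 := by linear_combination hcon l hl
      rw [Finset.mem_insert, Finset.mem_singleton]
      rcases mul_eq_zero.1 h1 with h2 | h2
      · left; linear_combination h2
      · right; linear_combination h2
    have h1 := Finset.card_le_card hsub
    have h2 : ({1, -1} : Finset k).card ≤ 2 := Finset.card_le_two
    omega
  obtain ⟨t, ht, hdet, rfl⟩ := hΛ l hl
  apply gamma_eq_zero_of_torus hinj hc htr ht ?_ hx
  intro hs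
  have hd : LinearMap.toMatrixAlgEquiv b (ρ t) 0 0 * LinearMap.toMatrixAlgEquiv b (ρ t) 1 1 = 1 := by
    have := hdet
    rwa [det_eq_of_basis b, lower_left_of_mem_borel ρ b ht, mul_zero, sub_zero] at this
  apply hl2
  set u := LinearMap.toMatrixAlgEquiv b (ρ t) 0 0
  set w := LinearMap.toMatrixAlgEquiv b (ρ t) 1 1
  linear_combination u ^ 3 * hs + ((u * w) ^ 2 + u * w + 1) * hd

/-- **(B) for a non-cyclic unipotent group.** -/
theorem nonCycB (h : Hyp ρ) (hinj : Function.Injective ρ) : NonCycB ρ p := by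
  classical
  intro b hn2 c' hc' htr' h10 h00
  have hp : p.Prime := Fact.out
  have : Fintype k := Fintype.ofFinite k
  obtain ⟨Λ, hΛ, hcard⟩ := torus_large p h hinj hn2
  -- a non-trivial unipotent element
  have hU4 : 4 ≤ Nat.card (unip ρ b) := by
    have : 2 ^ 2 ≤ p ^ 2 := Nat.pow_le_pow_left hp.two_le 2
    omega
  have hUne : unip ρ b ≠ ⊥ := by
    intro hbot
    rw [hbot, Subgroup.card_bot] at hU4
    omega
  obtain ⟨⟨x₀, hx₀⟩, hx₀ne⟩ := Subgroup.ne_bot_iff_exists_ne_one.1 hUne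
  have hne : x₀ ≠ 1 := fun h1 => hx₀ne (Subtype.ext h1)
  have hf₀ : fU ρ b x₀ ≠ 0 := fun h0 => hne (eq_one_of_fU_eq_zero hinj hx₀ h0)
  -- the additive group of the coordinates
  let X : AddSubgroup k :=
    { carrier := {ξ | ∃ x ∈ unip ρ b, fU ρ b x = ξ}
      zero_mem' := ⟨1, (unip ρ b).one_mem, fU_one⟩
      add_mem' := by
        rintro _ _ ⟨x, hx, rfl⟩ ⟨y, hy, rfl⟩
        exact ⟨x * y, (unip ρ b).mul_mem hx hy, fU_mul hx hy⟩
      neg_mem' := by
        rintro _ ⟨x, hx, rfl⟩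
        exact ⟨x⁻¹, (unip ρ b).inv_mem hx, fU_inv hx⟩ }
  have hX : ∀ ξ, ξ ∈ X ↔ ∃ x ∈ unip ρ b, fU ρ b x = ξ := fun ξ => Iff.rfl
  -- the function `β`
  let β : k → k := fun ξ =>
    if hξ : ∃ x ∈ unip ρ b, fU ρ b x = ξ then
      LinearMap.toMatrixAlgEquiv b (c' (Classical.choose hξ)) 0 1 else 0
  have hβ : ∀ x ∈ unip ρ b, β (fU ρ b x) = LinearMap.toMatrixAlgEquiv b (c' x) 0 1 := by
    intro x hx
    have hξ : ∃ y ∈ unip ρ b, fU ρ b y = fU ρ b x := ⟨x, hx, rfl⟩
    have h1 : β (fU ρ b x) = LinearMap.toMatrixAlgEquiv b (c' (Classical.choose hξ)) 0 1 :=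
      dif_pos hξ
    have h2 := Classical.choose_spec hξ
    rw [h1, eq_of_fU_eq hinj h2.1 hx h2.2]
  have hadd : ∀ ξ ∈ X, ∀ η ∈ X, β (ξ + η) = β ξ + β η := by
    rintro _ ⟨x, hx, rfl⟩ _ ⟨y, hy, rfl⟩
    rw [← fU_mul hx hy, hβ _ ((unip ρ b).mul_mem hx hy), hβ x hx, hβ y hy]
    obtain ⟨-, -, e⟩ := coc_entries_unip hc' htr' hx y
    rw [e, h00 y hy, h10 y hy]
    ring
  have hmult : ∀ l ∈ Λ, l ≠ 0 ∧ (∀ ξ ∈ X, l * ξ ∈ X) ∧
      ∃ ν : k, ∀ ξ ∈ X, β (l * ξ) = l * β ξ + ν * ξ := by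
    intro l hl
    obtain ⟨t, ht, hdet, rfl⟩ := hΛ l hl
    obtain ⟨hs1, hs2⟩ := diag_ne_zero_of_upper ρ b t (lower_left_of_mem_borel ρ b ht)
    have hd : LinearMap.toMatrixAlgEquiv b (ρ t) 0 0 * LinearMap.toMatrixAlgEquiv b (ρ t) 1 1 = 1 := by
      have := hdet
      rwa [det_eq_of_basis b, lower_left_of_mem_borel ρ b ht, mul_zero, sub_zero] at this
    have hconj : ∀ x ∈ unip ρ b,
        fU ρ b (t * x * t⁻¹) = LinearMap.toMatrixAlgEquiv b (ρ t) 0 0 ^ 2 * fU ρ b x := by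
      intro x hx
      have := fU_conj ht hx
      linear_combination LinearMap.toMatrixAlgEquiv b (ρ t) 0 0 * this -
        fU ρ b (t * x * t⁻¹) * hd
    have hγ : LinearMap.toMatrixAlgEquiv b (c' t) 1 0 = 0 := by
      obtain ⟨-, e00, -⟩ := conj_entries hc' htr' ht hx₀
      rw [h00 _ (conj_mem_unip ht hx₀), h00 _ hx₀, h10 _ hx₀] at e00
      have hy₀ : fU ρ b (t * x₀ * t⁻¹) ≠ 0 := by
        rw [hconj x₀ hx₀]
        exact mul_ne_zero (pow_ne_zero 2 hs1) hf₀
      have : fU ρ b (t * x₀ * t⁻¹) * LinearMap.toMatrixAlgEquiv b (c' t) 1 0 = 0 := by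
        linear_combination e00
      exact (mul_eq_zero.1 this).resolve_left hy₀
    refine ⟨pow_ne_zero 2 hs1, ?_,
      2 * LinearMap.toMatrixAlgEquiv b (c' t) 0 0 * LinearMap.toMatrixAlgEquiv b (ρ t) 0 0 ^ 2, ?_⟩
    · rintro _ ⟨x, hx, rfl⟩
      exact ⟨t * x * t⁻¹, conj_mem_unip ht hx, hconj x hx⟩
    · rintro _ ⟨x, hx, rfl⟩
      rw [← hconj x hx, hβ _ (conj_mem_unip ht hx), hβ x hx]
      obtain ⟨-, -, e01⟩ := conj_entries hc' htr' ht hx
      rw [e01, h00 x hx, h10 x hx, hγ, hconj x hx]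
      ring
  have hcardX : Nat.card X ≤ 2 * Λ.card + 1 := by
    refine le_trans ?_ hcard
    apply Nat.card_le_card_of_surjective
      (fun x : unip ρ b => (⟨fU ρ b x, x, x.2, rfl⟩ : X))
    rintro ⟨_, x, hx, rfl⟩
    exact ⟨⟨x, hx⟩, rfl⟩
  obtain ⟨ν, hν⟩ := deriv_lemma X β hadd Λ hmult hcardX
  exact ⟨ν, fun x hx => by rw [← hβ x hx]; exact hν _ ⟨x, hx, rfl⟩⟩

end Inputs

end Fermat.Agent.W56.StepNonCyc5
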