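/-
Programme W56 (target S56), chapter (G) "Taylor–Wiles primes" (helper5): **the group-theoretic
Taylor–Wiles lemma**, modulo the vanishing of `H¹` of the image ("case II").

`ρ : Representation k G V` two-dimensional satisfying `StableLine5.Hyp`, `χ : G →* C` with `C`
cyclic and `χ g = 1 → det (ρ g) = 1`, `c` a trace-zero cocycle for the twisted adjoint
representation which is not a coboundary.  Then there is `g` with `χ g = 1`, `ρ g` regular
semisimple, and `c g ∉ (g - 1) End V`.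

The input `hII` is the statement that a cocycle vanishing on all elements acting by scalars is a
coboundary (proved in the sequel from the structure of the image).
-/
import Mathlib
import Fermat.Agent.W56.RegSS5

set_option autoImplicit false

noncomputable section

namespace Fermat.Agent.W56.TwGroup5

open Fermat.Agent.W56.GrpCoh5 Fermat.Agent.W56.AdTw5 Fermat.Agent.W56.Lin2Dim5
  Fermat.Agent.W56.StableLine5 Fermat.Agent.W56.RegSS5 Module

variable {k : Type*} [Field k] {G : Type*} [Group G] {V : Type*} [AddCommGroup V] [Module k V]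
variable {ρ : Representation k G V} {c : G → Module.End k V}

/-- conjugates of scalar elements are the same scalars. -/
theorem rho_conj_scalar (g ν : G) (a : k) (hν : ρ ν = a • 1) : ρ (g * ν * g⁻¹) = a • 1 := by
  rw [map_mul, map_mul, hν, mul_smul_comm, mul_one, smul_mul_assoc, rho_mul_inv]

theorem rho_conj_scalar' (g ν : G) (a : k) (hν : ρ ν = a • 1) : ρ (g⁻¹ * ν * g) = a • 1 := by
  have := rho_conj_scalar (ρ := ρ) g⁻¹ ν a hν
  rwa [inv_inv] at this

/-- an element acting by a scalar of determinant one acts trivially on `End V`. -/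
theorem adTw_eq_self_of_scalar (ν : G) (a : k) (hν : ρ ν = a • 1)
    (hdet : LinearMap.det (ρ ν) = 1) (A : Module.End k V) : adTw ρ ν A = A := by
  rw [adTw_of_scalar ρ ν a hν, hdet, one_smul]

/-- the commutation property used for scalar elements: `c (z g) = c (g z)` as soon as `c`
vanishes on the scalar elements of determinant one in the kernel of `χ`. -/
theorem c_comm_of_scalar {C : Type*} [CommGroup C] (χ : G →* C) (hc : IsCoc (adTw ρ) c)
    (hN : ∀ ν, χ ν = 1 → (∃ a : k, ρ ν = a • 1) → c ν = 0)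
    (z : G) (a : k) (hz : ρ z = a • 1) (g : G) : c (z * g) = c (g * z) := by
  set n : G := g⁻¹ * z * g * z⁻¹ with hn
  have hχn : χ n = 1 := by
    rw [hn, map_mul, map_mul, map_mul, map_inv, map_inv]
    rw [mul_comm (χ g)⁻¹ (χ z), mul_assoc (χ z) (χ g)⁻¹ (χ g), inv_mul_cancel, mul_one,
      mul_inv_cancel]
  have hρn : ρ n = 1 := by
    rw [hn, map_mul, rho_conj_scalar' g z a hz, ← hz, rho_mul_inv]
  have hcn : c n = 0 := hN n hχn ⟨1, by rw [hρn, one_smul]⟩
  have hzg : z * g = g * (n * z) := by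
    rw [hn]; group
  have h1 : c (n * z) = c z := by
    rw [hc, hcn, zero_add]
    have : adTw ρ n = adTw ρ 1 := adTw_congr ρ (by rw [hρn, map_one])
    rw [this, map_one, Module.End.one_apply]
  rw [hzg, hc, h1, ← hc]

/-- **case I and the reduction to case II.**  If `c` vanishes on the scalar elements of the kernel
of `χ`, then it is a coboundary, provided cocycles vanishing on all scalar elements are
coboundaries. -/
theorem isCob_of_vanishing {C : Type*} [CommGroup C] (χ : G →* C) (h : Hyp ρ)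
    (hc : IsCoc (adTw ρ) c)
    (htr : ∀ g, LinearMap.trace k V (c g) = 0)
    (hII : (∀ z, (∃ a : k, ρ z = a • 1) → c z = 0) → IsCob (adTw ρ) c)
    (hN : ∀ ν, χ ν = 1 → (∃ a : k, ρ ν = a • 1) → c ν = 0) : IsCob (adTw ρ) c := by
  by_cases hI : ∃ z, (∃ a : k, ρ z = a • 1) ∧ LinearMap.det (ρ z) ≠ 1
  · -- case I
    obtain ⟨z, ⟨a, hz⟩, hdet⟩ := hI
    exact isCob_of_scalar hc z (LinearMap.det (ρ z)) hdet
      (fun m => adTw_of_scalar ρ z a hz m) (fun g => c_comm_of_scalar χ hc hN z a hz g)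
  · -- case II
    push Not at hI
    apply hII
    rintro δ ⟨a, hδ⟩
    have hdet : LinearMap.det (ρ δ) = 1 := hI δ ⟨a, hδ⟩
    apply eq_zero_of_invariant h (c δ) (htr δ)
    intro g
    have h1 := c_comm_of_scalar χ hc hN δ a hδ g
    rw [hc, hc, adTw_eq_self_of_scalar δ a hδ hdet, add_comm] at h1
    exact (add_left_cancel h1).symm

/-- the conjugation formula on scalar elements of determinant one. -/
theorem c_conj_of_scalar (hc : IsCoc (adTw ρ) c) (g ν : G) (a : k) (hν : ρ ν = a • 1)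
    (hdet : LinearMap.det (ρ ν) = 1) : c (g * ν * g⁻¹) = adTw ρ g (c ν) := by
  rw [hc.conj]
  have hdet' : LinearMap.det (ρ (g * ν * g⁻¹)) = 1 := by
    rw [rho_conj_scalar g ν a hν, ← hν, hdet]
  rw [adTw_eq_self_of_scalar (g * ν * g⁻¹) a (rho_conj_scalar g ν a hν) hdet', sub_self,
    add_zero]

/-- conjugation by an element which is diagonal in the basis `b` does not change the `(0,0)`
entry. -/
theorem entry00_conj (b : Basis (Fin 2) k V) (g : G) (α' β' : k) (hα' : α' ≠ 0)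
    (h0 : ρ g (b 0) = α' • b 0) (h1 : ρ g (b 1) = β' • b 1) (A : Module.End k V) :
    LinearMap.toMatrixAlgEquiv b (ρ g * A * ρ g⁻¹) 0 0 = LinearMap.toMatrixAlgEquiv b A 0 0 := by
  obtain ⟨h00, h10, h01, h11⟩ := mat_entries_of_apply b (ρ g) α' 0 0 β'
    (by rw [h0, zero_smul, add_zero]) (by rw [h1, zero_smul, zero_add])
  set B := ρ g * A * ρ g⁻¹ with hB
  have h2 : B * ρ g = ρ g * A := by
    rw [hB, mul_assoc, rho_inv_mul, mul_one]
  have h3 := congrArg (fun M => LinearMap.toMatrixAlgEquiv b M 0 0) h2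
  simp only [mat_mul_apply, h00, h10, h01, mul_zero, zero_mul, add_zero] at h3
  have h4 : α' * (LinearMap.toMatrixAlgEquiv b B 0 0 - LinearMap.toMatrixAlgEquiv b A 0 0) = 0 := by
    linear_combination h3
  have := (mul_eq_zero.1 h4).resolve_left hα'
  linear_combination this

/-- the key non-triviality criterion: for `g` diagonal in the basis `b` with determinant one, a
non-zero `(0,0)` entry of `c g` prevents `c g` from being of the form `g • A - A`. -/
theorem nontriv_of_entry00 (b : Basis (Fin 2) k V) (g : G) (α' β' : k) (hα' : α' ≠ 0)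
    (h0 : ρ g (b 0) = α' • b 0) (h1 : ρ g (b 1) = β' • b 1) (hdet : LinearMap.det (ρ g) = 1)
    (hD : LinearMap.toMatrixAlgEquiv b (c g) 0 0 ≠ 0) (A : Module.End k V) :
    c g ≠ adTw ρ g A - A := by
  intro heq
  apply hD
  rw [heq, adTw_apply, hdet, one_smul, mat_sub_apply, entry00_conj b g α' β' hα' h0 h1, sub_self]

/-- a non-zero eigenvalue. -/
theorem eigenvalue_ne_zero (g : G) (v : V) (hv : v ≠ 0) (a : k) (h : ρ g v = a • v) : a ≠ 0 := by
  rintro rfl
  rw [zero_smul] at h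
  apply hv
  have := congrArg (ρ g⁻¹) h
  rwa [← Module.End.mul_apply, rho_inv_mul, Module.End.one_apply, map_zero] at this

/-- **the group-theoretic Taylor–Wiles lemma** (modulo case II). -/
theorem exists_tw_element {C : Type*} [CommGroup C] [IsCyclic C] (χ : G →* C) (h : Hyp ρ)
    (hχ : ∀ g, χ g = 1 → LinearMap.det (ρ g) = 1) (hc : IsCoc (adTw ρ) c)
    (htr : ∀ g, LinearMap.trace k V (c g) = 0)
    (hII : (∀ z, (∃ a : k, ρ z = a • 1) → c z = 0) → IsCob (adTw ρ) c)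
    (hncob : ¬ IsCob (adTw ρ) c) :
    ∃ g, χ g = 1 ∧ RegSS (ρ g) ∧ ∀ A : Module.End k V, c g ≠ adTw ρ g A - A := by
  obtain ⟨σ₀, hσ₀, v, w, α, β, hv, hw, hαβ, hev, hew⟩ := exists_regSS h χ
  have hvw : ∀ a : k, w ≠ a • v := by
    intro a hwa
    have h1 : ρ σ₀ w = (a * α) • v := by rw [hwa, map_smul, hev, smul_smul]
    have h2 : ρ σ₀ w = (β * a) • v := by rw [hew, hwa, smul_smul]
    have h3 : (a * α - β * a) • v = 0 := by rw [sub_smul, ← h1, ← h2, sub_self]
    have h4 : a * (α - β) = 0 := by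
      have := (smul_eq_zero.1 h3).resolve_right hv
      linear_combination this
    have ha : a = 0 := (mul_eq_zero.1 h4).resolve_right (sub_ne_zero.2 hαβ)
    exact hw (by rw [hwa, ha, zero_smul])
  obtain ⟨b, hb0, hb1⟩ := exists_basis_pair h.finrank v w hv hvw
  have hα0 : α ≠ 0 := eigenvalue_ne_zero σ₀ v hv α hev
  have hev' : ρ σ₀ (b 0) = α • b 0 := by rw [hb0, hev]
  have hew' : ρ σ₀ (b 1) = β • b 1 := by rw [hb1, hew]
  by_cases hD0 : LinearMap.toMatrixAlgEquiv b (c σ₀) 0 0 ≠ 0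
  · exact ⟨σ₀, hσ₀, ⟨v, w, α, β, hv, hw, hαβ, hev, hew⟩,
      nontriv_of_entry00 b σ₀ α β hα0 hev' hew' (hχ σ₀ hσ₀) hD0⟩
  push Not at hD0
  by_cases hν : ∃ ν, χ ν = 1 ∧ (∃ a : k, ρ ν = a • 1) ∧
      LinearMap.toMatrixAlgEquiv b (c ν) 0 0 ≠ 0
  · obtain ⟨ν, hχν, ⟨a, hνa⟩, hDν⟩ := hν
    have ha0 : a ≠ 0 := by
      have : ρ ν v = a • v := by rw [hνa, LinearMap.smul_apply, Module.End.one_apply]
      exact eigenvalue_ne_zero ν v hv a this
    have hχg : χ (ν * σ₀) = 1 := by rw [map_mul, hχν, hσ₀, one_mul]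
    have e0 : ρ (ν * σ₀) (b 0) = (a * α) • b 0 := by
      rw [map_mul, Module.End.mul_apply, hev', map_smul, hνa, LinearMap.smul_apply,
        Module.End.one_apply, smul_smul, mul_comm]
    have e1 : ρ (ν * σ₀) (b 1) = (a * β) • b 1 := by
      rw [map_mul, Module.End.mul_apply, hew', map_smul, hνa, LinearMap.smul_apply,
        Module.End.one_apply, smul_smul, mul_comm]
    have hcg : c (ν * σ₀) = c ν + c σ₀ := by
      rw [hc, adTw_eq_self_of_scalar ν a hνa (hχ ν hχν)]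
    refine ⟨ν * σ₀, hχg, ⟨v, w, a * α, a * β, hv, hw, ?_, by rw [← hb0, e0], by rw [← hb1, e1]⟩,
      nontriv_of_entry00 b (ν * σ₀) (a * α) (a * β) (mul_ne_zero ha0 hα0) e0 e1 (hχ _ hχg) ?_⟩
    · intro hab
      exact hαβ (mul_left_cancel₀ ha0 hab)
    · rw [hcg, mat_add_apply, hD0, add_zero]
      exact hDν
  push Not at hν
  exfalso
  apply hncob
  apply isCob_of_vanishing χ h hc htr hII
  intro ν₁ hχν₁ hsc₁
  by_contra hne
  obtain ⟨a₁, hν₁a⟩ := hsc₁
  set A₁ := c ν₁ with hA₁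
  -- the values of `c` on scalar elements of `ker χ` are antidiagonal
  have hanti : ∀ ν, χ ν = 1 → (∃ a : k, ρ ν = a • 1) →
      LinearMap.toMatrixAlgEquiv b (c ν) 0 0 = 0 ∧ LinearMap.toMatrixAlgEquiv b (c ν) 1 1 = 0 := by
    intro ν h1 h2
    have h00 := hν ν h1 h2
    refine ⟨h00, ?_⟩
    have := htr ν
    rw [trace_eq_of_basis b, h00, zero_add] at this
    exact this
  -- conjugates
  have hconjN : ∀ (g ν : G) (a : k), χ ν = 1 → ρ ν = a • 1 →
      χ (g * ν * g⁻¹) = 1 ∧ (∃ a' : k, ρ (g * ν * g⁻¹) = a' • 1) ∧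
        c (g * ν * g⁻¹) = adTw ρ g (c ν) := by
    intro g ν a h1 h2
    refine ⟨?_, ⟨a, rho_conj_scalar g ν a h2⟩, c_conj_of_scalar hc g ν a h2 (hχ ν h1)⟩
    rw [map_mul, map_mul, h1, mul_one, ← map_mul, mul_inv_cancel, map_one]
  -- from `adTw ρ g A = μ • B` to the stable-line form
  have hform : ∀ (g : G) (A B : Module.End k V) (μ : k), adTw ρ g A = μ • B →
      ρ g * A = ((LinearMap.det (ρ g))⁻¹ * μ) • (B * ρ g) := by
    intro g A B μ hAB
    rw [adTw_apply] at hAB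
    have h1 : ρ g * A * ρ g⁻¹ = ((LinearMap.det (ρ g))⁻¹ * μ) • B := by
      rw [mul_smul, ← hAB, smul_smul, inv_mul_cancel₀ (det_rho_ne_zero ρ g), one_smul]
    have h2 := congrArg (fun M => M * ρ g) h1
    beta_reduce at h2
    rwa [mul_assoc, rho_inv_mul, mul_one, smul_mul_assoc] at h2
  by_cases hline : ∀ ν, χ ν = 1 → (∃ a : k, ρ ν = a • 1) → ∃ μ : k, c ν = μ • A₁
  · -- the line spanned by `A₁` is stable
    apply no_stable_line h A₁ hne (htr ν₁)
    intro g
    obtain ⟨h1, h2, h3⟩ := hconjN g ν₁ a₁ hχν₁ hν₁a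
    obtain ⟨μ, hμ⟩ := hline _ h1 h2
    rw [h3] at hμ
    exact ⟨_, hform g A₁ A₁ μ hμ⟩
  · push Not at hline
    obtain ⟨ν₂, hχν₂, ⟨a₂, hν₂a⟩, hA₂⟩ := hline
    set A₂ := c ν₂ with hA₂def
    obtain ⟨hA₁00, hA₁11⟩ : LinearMap.toMatrixAlgEquiv b A₁ 0 0 = 0 ∧
        LinearMap.toMatrixAlgEquiv b A₁ 1 1 = 0 := hanti ν₁ hχν₁ ⟨a₁, hν₁a⟩
    obtain ⟨hA₂00, hA₂11⟩ : LinearMap.toMatrixAlgEquiv b A₂ 0 0 = 0 ∧
        LinearMap.toMatrixAlgEquiv b A₂ 1 1 = 0 := hanti ν₂ hχν₂ ⟨a₂, hν₂a⟩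
    set x₁ := LinearMap.toMatrixAlgEquiv b A₁ 0 1 with hx₁
    set y₁ := LinearMap.toMatrixAlgEquiv b A₁ 1 0 with hy₁
    set x₂ := LinearMap.toMatrixAlgEquiv b A₂ 0 1 with hx₂
    set y₂ := LinearMap.toMatrixAlgEquiv b A₂ 1 0 with hy₂
    have hΔ : x₁ * y₂ - x₂ * y₁ ≠ 0 := by
      intro hΔ0
      by_cases hx : x₁ = 0
      · have hy : y₁ ≠ 0 := by
          intro hy
          apply hne
          apply end_ext_of_mat b
          intro i j
          fin_cases i <;> fin_cases j <;> simp [hA₁00, hA₁11, ← hx₁, ← hy₁, hx, hy]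
        have hx2 : x₂ = 0 := by
          rw [hx, zero_mul, zero_sub, neg_eq_zero] at hΔ0
          exact (mul_eq_zero.1 hΔ0).resolve_right hy
        apply hA₂ (y₂ / y₁)
        apply end_ext_of_mat b
        intro i j
        fin_cases i <;> fin_cases j <;>
          simp [mat_smul_apply, hA₁00, hA₁11, hA₂00, hA₂11, ← hx₁, ← hy₁, ← hx₂, ← hy₂, hx, hx2,
            div_mul_cancel₀ _ hy]
      · apply hA₂ (x₂ / x₁)
        apply end_ext_of_mat b
        intro i j
        fin_cases i <;> fin_cases j <;>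
          simp [mat_smul_apply, hA₁00, hA₁11, hA₂00, hA₂11, ← hx₁, ← hy₁, ← hx₂, ← hy₂,
            div_mul_cancel₀ _ hx]
        field_simp
        linear_combination hΔ0
    -- the commutator spans a stable line
    set H' := A₁ * A₂ - A₂ * A₁ with hH'
    have hH'00 : LinearMap.toMatrixAlgEquiv b H' 0 0 = x₁ * y₂ - x₂ * y₁ := by
      rw [hH', mat_sub_apply, mat_mul_apply, mat_mul_apply, hA₁00, hA₂00]
      ring
    have hH'ne : H' ≠ 0 := by
      intro h0
      rw [h0, map_zero, Matrix.zero_apply] at hH'00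
      exact hΔ hH'00.symm
    have hH'tr : LinearMap.trace k V H' = 0 := by
      rw [hH', map_sub, LinearMap.trace_mul_comm, sub_self]
    apply no_stable_line h H' hH'ne hH'tr
    intro g
    obtain ⟨h1, h2, h3⟩ := hconjN g ν₁ a₁ hχν₁ hν₁a
    obtain ⟨h1', h2', h3'⟩ := hconjN g ν₂ a₂ hχν₂ hν₂a
    set B₁ := adTw ρ g A₁ with hB₁
    set B₂ := adTw ρ g A₂ with hB₂
    obtain ⟨hB₁00, hB₁11⟩ : LinearMap.toMatrixAlgEquiv b B₁ 0 0 = 0 ∧
        LinearMap.toMatrixAlgEquiv b B₁ 1 1 = 0 := by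
      have := hanti _ h1 h2
      rwa [h3] at this
    obtain ⟨hB₂00, hB₂11⟩ : LinearMap.toMatrixAlgEquiv b B₂ 0 0 = 0 ∧
        LinearMap.toMatrixAlgEquiv b B₂ 1 1 = 0 := by
      have := hanti _ h1' h2'
      rwa [h3'] at this
    set Δ' := LinearMap.toMatrixAlgEquiv b B₁ 0 1 * LinearMap.toMatrixAlgEquiv b B₂ 1 0 -
      LinearMap.toMatrixAlgEquiv b B₂ 0 1 * LinearMap.toMatrixAlgEquiv b B₁ 1 0 with hΔ'
    have hcomm : B₁ * B₂ - B₂ * B₁ = (Δ' / (x₁ * y₂ - x₂ * y₁)) • H' := by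
      apply end_ext_of_mat b
      intro i j
      fin_cases i <;> fin_cases j <;>
        simp [mat_smul_apply, mat_sub_apply, mat_mul_apply, hB₁00, hB₁11, hB₂00, hB₂11, hH',
          hA₁00, hA₁11, hA₂00, hA₂11, ← hx₁, ← hy₁, ← hx₂, ← hy₂, hΔ'] <;>
        first | (field_simp; ring) | field_simp
    -- `adTw ρ g H' = det • (B₁ B₂ - B₂ B₁) / det²`
    have hd := det_rho_ne_zero ρ g
    have hAd : adTw ρ g H' = (LinearMap.det (ρ g))⁻¹ • (B₁ * B₂ - B₂ * B₁) := by
      rw [hB₁, hB₂, adTw_apply, adTw_apply, adTw_apply, hH']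
      simp only [smul_mul_assoc, mul_smul_comm, smul_smul, ← smul_sub]
      have e1 : ρ g * A₁ * ρ g⁻¹ * (ρ g * A₂ * ρ g⁻¹) = ρ g * (A₁ * A₂) * ρ g⁻¹ := by
        calc ρ g * A₁ * ρ g⁻¹ * (ρ g * A₂ * ρ g⁻¹)
            = ρ g * A₁ * (ρ g⁻¹ * ρ g) * A₂ * ρ g⁻¹ := by simp only [mul_assoc]
          _ = ρ g * (A₁ * A₂) * ρ g⁻¹ := by rw [rho_inv_mul, mul_one]; simp only [mul_assoc]
      have e2 : ρ g * A₂ * ρ g⁻¹ * (ρ g * A₁ * ρ g⁻¹) = ρ g * (A₂ * A₁) * ρ g⁻¹ := by
        calc ρ g * A₂ * ρ g⁻¹ * (ρ g * A₁ * ρ g⁻¹)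
            = ρ g * A₂ * (ρ g⁻¹ * ρ g) * A₁ * ρ g⁻¹ := by simp only [mul_assoc]
          _ = ρ g * (A₂ * A₁) * ρ g⁻¹ := by rw [rho_inv_mul, mul_one]; simp only [mul_assoc]
      rw [e1, e2, ← sub_mul, ← mul_sub]
      congr 1
      field_simp
    rw [hcomm, smul_smul] at hAd
    exact ⟨_, hform g H' H' _ hAd⟩

end Fermat.Agent.W56.TwGroup5
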