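/-
Programme W56 (target S56), chapter (G) "Taylor–Wiles primes" (helper5): **the group-theoretic
Taylor–Wiles lemma, unconditional form.**

`k` a finite field of odd characteristic `p`, `ρ : G → GL(V)` two-dimensional with: every element
has an eigenvector in `V`, no common eigenvector for `G` nor for its subgroups of index two, and the
determinant takes a value which is not a square of an element of the prime field.  `χ : G → C` a
character with cyclic image whose kernel lies in the kernel of the determinant.  Then for every
trace-zero cocycle `c` of the twisted adjoint representation which is not a coboundary there is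
`g ∈ ker χ` with `ρ g` regular semisimple and `c g ∉ (g - 1) End(V)`.
-/
import Mathlib
import Fermat.Agent.W56.TwGroup5
import Fermat.Agent.W56.StepNonCyc5

set_option autoImplicit false

noncomputable section

namespace Fermat.Agent.W56.TwAbstract5

open Fermat.Agent.W56.GrpCoh5 Fermat.Agent.W56.AdTw5 Fermat.Agent.W56.StableLine5
  Fermat.Agent.W56.RegSS5 Fermat.Agent.W56.TwGroup5 Fermat.Agent.W56.CaseII5
  Fermat.Agent.W56.StepNonCyc5 Module

variable {k : Type*} [Field k] {G : Type*} [Group G] {V : Type*} [AddCommGroup V] [Module k V]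
variable {ρ : Representation k G V} {c : G → Module.End k V}

/-- **`H¹` of the image with coefficients in the twisted adjoint representation vanishes**, in the
form: a trace-zero cocycle vanishing on the elements acting by scalars is a coboundary. -/
theorem isCob_of_vanishing_on_scalars' (p : ℕ) [Fact p.Prime] [CharP k p] [Finite k]
    (h : Hyp ρ) (hc : IsCoc (adTw ρ) c) (htr : ∀ g, LinearMap.trace k V (c g) = 0)
    (h3 : ∃ g₀ : G, ∀ a : ℤ, LinearMap.det (ρ g₀) ≠ (a : k) ^ 2)
    (hz : ∀ z, (∃ a : k, ρ z = a • 1) → c z = 0) : IsCob (adTw ρ) c := by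
  have hfin : Module.Finite k V := Module.finite_of_finrank_eq_succ h.finrank
  have hEnd : Finite (Module.End k V) := Module.finite_of_finite k
  have hGfin : Finite (G ⧸ kerRho ρ) := Finite.of_injective _ (rhoBar_injective (ρ := ρ))
  exact isCob_of_vanishing_on_scalars p h hc htr h3
    (fun c' hc' htr' => nonCycA p (hyp_rhoBar h) rhoBar_injective hc' htr')
    (nonCycB p (hyp_rhoBar h) rhoBar_injective) hz

/-- **the group-theoretic Taylor–Wiles lemma.** -/
theorem exists_tw_element_fin (p : ℕ) [Fact p.Prime] [CharP k p] [Finite k]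
    {C : Type*} [CommGroup C] [IsCyclic C] (χ : G →* C) (h : Hyp ρ)
    (hχ : ∀ g, χ g = 1 → LinearMap.det (ρ g) = 1)
    (h3 : ∃ g₀ : G, ∀ a : ℤ, LinearMap.det (ρ g₀) ≠ (a : k) ^ 2)
    (hc : IsCoc (adTw ρ) c) (htr : ∀ g, LinearMap.trace k V (c g) = 0)
    (hncob : ¬ IsCob (adTw ρ) c) :
    ∃ g, χ g = 1 ∧ RegSS (ρ g) ∧ ∀ A : Module.End k V, c g ≠ adTw ρ g A - A :=
  exists_tw_element χ h hχ hc htr
    (fun hz => isCob_of_vanishing_on_scalars' p h hc htr h3 hz) hncob

end Fermat.Agent.W56.TwAbstract5
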