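/-
Programme W56 (target S56), chapter (G) "Taylor–Wiles primes" (helper5): **invariance of the
Taylor–Wiles conditions** under conjugation and under passage to another generator of the cyclic
group generated by the element — the algebra needed to transport the conditions from the element
`g` of the group-theoretic lemma to an arbitrary Frobenius element at the prime produced by
Chebotarev's theorem (generator form).
-/
import Mathlib
import Fermat.Agent.W56.GrpCoh5
import Fermat.Agent.W56.RegSS5

set_option autoImplicit false

noncomputable section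

namespace Fermat.Agent.W56.TwChebA5

open Fermat.Agent.W56.GrpCoh5 Fermat.Agent.W56.RegSS5 Polynomial

section Coc

variable {k : Type*} [Field k] {G : Type*} [Group G] {M : Type*} [AddCommGroup M] [Module k M]
variable {ρ : Representation k G M} {c : G → M}

/-- the restriction of `c` to the cyclic group generated by `x` is a coboundary. -/
def CobAt (ρ : Representation k G M) (c : G → M) (x : G) : Prop := ∃ m : M, c x = ρ x m - m

theorem cobAt_conj (hc : IsCoc ρ c) (t x : G) (h : CobAt ρ c (t * x * t⁻¹)) : CobAt ρ c x := by
  obtain ⟨m, hm⟩ := h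
  have h1 := hc.conj t x
  rw [hm] at h1
  -- `ρ t (c x) = ρ (t x t⁻¹) (m + c t) - (m + c t)`
  have h2 : ρ t (c x) = ρ (t * x * t⁻¹) (m + c t) - (m + c t) := by
    rw [map_add]
    have h3 : ρ (t * x * t⁻¹) m - m - (c t - ρ (t * x * t⁻¹) (c t)) = ρ t (c x) := by
      rw [h1]; abel
    rw [← h3]; abel
  refine ⟨ρ t⁻¹ (m + c t), ?_⟩
  have h4 := congrArg (ρ t⁻¹) h2
  rw [rho_inv_apply', map_sub, rho_mul_apply, rho_mul_apply, rho_inv_apply'] at h4
  exact h4

theorem cobAt_pow (hc : IsCoc ρ c) (x : G) (h : CobAt ρ c x) (n : ℕ) : CobAt ρ c (x ^ n) := by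
  obtain ⟨m, hm⟩ := h
  refine ⟨m, ?_⟩
  induction n with
  | zero => rw [pow_zero, hc.one, map_one, Module.End.one_apply, sub_self]
  | succ n ih =>
    rw [pow_succ, hc, ih, hm, map_sub, rho_mul_apply]
    abel

end Coc

section Reg

variable {k : Type*} [Field k] {V : Type*} [AddCommGroup V] [Module k V]

/-- a regular semisimple endomorphism whose characteristic polynomial splits has distinct roots. -/
theorem ne_of_regSS_of_charpoly [Module.Finite k V] {f : Module.End k V} (hf : RegSS f) {α β : k}
    (h : LinearMap.charpoly f = (X - C α) * (X - C β)) : α ≠ β := by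
  rintro rfl
  obtain ⟨v, w, a, b', hv, hw, hab, hfv, hfw⟩ := hf
  have h1 := LinearMap.aeval_self_charpoly f
  rw [h, map_mul, map_sub, aeval_X, aeval_C] at h1
  have key : ∀ (u : V) (e : k), u ≠ 0 → f u = e • u → e = α := by
    intro u e hu hfu
    have h2 := LinearMap.congr_fun h1 u
    have h3 : (f - algebraMap k (Module.End k V) α) u = (e - α) • u := by
      rw [LinearMap.sub_apply, hfu, Module.algebraMap_end_apply, sub_smul]
    rw [Module.End.mul_apply, h3, map_smul, h3, smul_smul, LinearMap.zero_apply] at h2
    have h4 := (smul_eq_zero.1 h2).resolve_right hu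
    have h5 := mul_self_eq_zero.1 h4
    linear_combination h5
  exact hab ((key v a hv hfv).trans (key w b' hw hfw).symm)

/-- powers of a regular semisimple endomorphism which can be undone by a further power are
regular semisimple. -/
theorem regSS_pow {f : Module.End k V} (hf : RegSS f) (j i : ℕ) (hji : (f ^ j) ^ i = f) :
    RegSS (f ^ j) := by
  obtain ⟨v, w, a, b', hv, hw, hab, hfv, hfw⟩ := hf
  have hpow : ∀ (u : V) (e : k), f u = e • u → ∀ n : ℕ, (f ^ n) u = e ^ n • u := by
    intro u e hfu n
    induction n with
    | zero => rw [pow_zero, pow_zero, Module.End.one_apply, one_smul]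
    | succ n ih =>
      rw [pow_succ, Module.End.mul_apply, hfu, map_smul, ih, smul_smul, pow_succ, mul_comm]
  refine ⟨v, w, a ^ j, b' ^ j, hv, hw, ?_, hpow v a hfv j, hpow w b' hfw j⟩
  intro hab'
  apply hab
  have key : ∀ (u : V) (e : k), u ≠ 0 → f u = e • u → e = (e ^ j) ^ i := by
    intro u e hu hfu
    have h1 : ((f ^ j) ^ i) u = (e ^ j) ^ i • u := by
      rw [← pow_mul, ← pow_mul]
      exact hpow u e hfu (j * i)
    rw [hji, hfu] at h1
    have h2 : (e - (e ^ j) ^ i) • u = 0 := by rw [sub_smul, h1, sub_self]
    have := (smul_eq_zero.1 h2).resolve_right hu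
    linear_combination this
  rw [key v a hv hfv, key w b' hw hfw, hab']

end Reg

end Fermat.Agent.W56.TwChebA5
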