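/-
Programme W56 (target S56), chapter (G) "Taylor–Wiles primes" (helper5): **the mod `p ^ m`
cyclotomic character** `chi p m : G_ℚ → (ℤ/p^m)ˣ` (cyclic target for `p` odd), its kernel acts
trivially on `μ_p`, it has a finite level, a Frobenius element at `ℓ ≠ p` in its kernel forces
`p ^ m ∣ ℓ - 1`, and (Dirichlet) some Frobenius element acts on `μ_p` through a quadratic
non-residue.
-/
import Mathlib
import Fermat.Agent.ES.J.CycloChar8
import Fermat.Agent.Lib.FrobeniusExists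
import Fermat.Agent.W56.TwDefs5

set_option autoImplicit false

noncomputable section

namespace Fermat.Agent.W56.TwCyclo5

open Fermat.Agent.ES.J.CycloChar8 Fermat.Agent.W56.TwDefs5

local notation "Qb" => AlgebraicClosure ℚ

variable (p : ℕ) [hp : Fact p.Prime]

/-- the mod `p ^ m` cyclotomic character. -/
def chi (m : ℕ) : GQ →* (ZMod (p ^ m))ˣ :=
  (Units.map ((PadicInt.toZModPow m : ℤ_[p] →+* ZMod (p ^ m)) : ℤ_[p] →* ZMod (p ^ m))).comp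
    (cyclo p)

theorem chi_eq_one_iff (m : ℕ) (σ : GQ) :
    chi p m σ = 1 ↔ PadicInt.toZModPow m (cyclo p σ : ℤ_[p]) = 1 := by
  rw [Units.ext_iff]
  rfl

theorem isCyclic_target (hp2 : p ≠ 2) (m : ℕ) : IsCyclic (ZMod (p ^ m))ˣ :=
  ZMod.isCyclic_units_of_prime_pow p hp.out hp2 m

/-- the kernel of `chi p (m + 1)` fixes the `p`-th roots of unity. -/
theorem apply_root_of_chi_eq_one (m : ℕ) {σ : GQ} (h : chi p (m + 1) σ = 1) (μ : Qb)
    (hμ : μ ^ p = 1) : σ μ = μ ^ 1 := by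
  rw [chi_eq_one_iff] at h
  have hμ' : μ ^ p ^ (m + 1) = 1 := by rw [pow_succ', pow_mul, hμ, one_pow]
  have h1 := cyclo_spec p σ μ hμ'
  rw [h] at h1
  have h2 : (1 : ZMod (p ^ (m + 1))).val = 1 := by
    apply ZMod.val_one''
    intro h3
    have : 1 < p ^ (m + 1) := Nat.one_lt_pow (Nat.succ_ne_zero m) hp.out.one_lt
    omega
  rw [h2] at h1
  exact h1

/-- the character has a finite level. -/
theorem exists_level (m : ℕ) : ∃ L : IntermediateField ℚ Qb, FiniteDimensional ℚ L ∧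
    ∀ σ : GQ, (∀ x ∈ L, σ x = x) → chi p m σ = 1 := by
  obtain ⟨L, hL, h⟩ := cyclo_sub_one_mem p m
  refine ⟨L, hL, fun σ hσ => ?_⟩
  rw [chi_eq_one_iff]
  have h1 := h σ hσ
  rw [← PadicInt.ker_toZModPow, RingHom.mem_ker, map_sub, map_one, sub_eq_zero] at h1
  exact h1

/-- a Frobenius element at `ℓ ≠ p` in the kernel of `chi p m`: `p ^ m ∣ ℓ - 1`. -/
theorem dvd_sub_one_of_frobenius (m : ℕ) {ℓ : ℕ} (hℓ : ℓ.Prime) (hℓp : ℓ ≠ p)
    (A : ValuationSubring Qb) (hA : A.LiesOverPrime ℓ) {φ : GQ} (hφ : A.IsFrobeniusAt φ ℓ)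
    (h : chi p m φ = 1) : p ^ m ∣ ℓ - 1 := by
  rw [chi_eq_one_iff, cyclo_of_isFrobeniusAt p hℓ hℓp A hA hφ, map_natCast] at h
  have h1 : ((ℓ : ℕ) : ZMod (p ^ m)) = ((1 : ℕ) : ZMod (p ^ m)) := by rw [h, Nat.cast_one]
  rw [ZMod.natCast_eq_natCast_iff] at h1
  exact (Nat.modEq_iff_dvd' hℓ.one_le).1 h1.symm

/-- a Frobenius element acts on `μ_p` through the residue class of the prime. -/
theorem frobenius_apply_root {ℓ : ℕ} (hℓ : ℓ.Prime) (hℓp : ℓ ≠ p)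
    (A : ValuationSubring Qb) (hA : A.LiesOverPrime ℓ) {φ : GQ} (hφ : A.IsFrobeniusAt φ ℓ)
    (μ : Qb) (hμ : μ ^ p = 1) : φ μ = μ ^ ℓ := by
  have hμ' : μ ^ p ^ 1 = 1 := by rw [pow_one, hμ]
  have h1 := cyclo_spec p φ μ hμ'
  rw [cyclo_of_isFrobeniusAt p hℓ hℓp A hA hφ, map_natCast] at h1
  rw [h1]
  have h2 : ((ℓ : ZMod (p ^ 1))).val = ℓ % p ^ 1 := ZMod.val_natCast _ ℓ
  rw [h2, pow_one]
  conv_rhs => rw [← Nat.mod_add_div ℓ p, pow_add, pow_mul, hμ, one_pow, mul_one]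

/-- **some element of `G_ℚ` acts on `μ_p` through a quadratic non-residue** (`p` odd). -/
theorem exists_nonsquare (hp2 : p ≠ 2) :
    ∃ (g₀ : GQ) (ℓ : ℕ), (∀ μ : Qb, μ ^ p = 1 → g₀ μ = μ ^ ℓ) ∧ ¬ IsSquare (ℓ : ZMod p) := by
  have hchar : ringChar (ZMod p) ≠ 2 := by rw [ZMod.ringChar_zmod_n]; exact hp2
  obtain ⟨a, ha⟩ := FiniteField.exists_nonsquare (F := ZMod p) hchar
  have ha0 : a ≠ 0 := by
    rintro rfl
    exact ha ⟨0, by rw [mul_zero]⟩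
  obtain ⟨ℓ, -, hℓ, hℓa⟩ := Nat.forall_exists_prime_gt_and_eq_mod (q := p) (a := a)
    (IsUnit.mk0 a ha0) 0
  have hℓp : ℓ ≠ p := by
    rintro rfl
    apply ha0
    rw [← hℓa, ZMod.natCast_self]
  obtain ⟨A, φ, hA, hφ⟩ := Fermat.Agent.Lib.exists_isFrobeniusAt ℓ hℓ
  exact ⟨φ, ℓ, fun μ hμ => frobenius_apply_root p hℓ hℓp A hA hφ μ hμ, by rw [hℓa]; exact ha⟩

end Fermat.Agent.W56.TwCyclo5
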