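/-
Programme W56 (target S56), chapter (G) "Taylor–Wiles primes" (helper5): **the standing hypotheses
of the group-theoretic lemma from the hypotheses of the contract**: absolute irreducibility,
irreducibility on the subgroups of index two over every extension of the field of coefficients,
and splitting of all characteristic polynomials give `StableLine5.Hyp ρbar.ρ`.
-/
import Mathlib
import Fermat.Prelude.Def_GaloisRep_Residual
import Fermat.Agent.W56.TwDefs5
import Fermat.Agent.W56.StableLine5

set_option autoImplicit false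

noncomputable section

namespace Fermat.Agent.W56.TwHyp5

open Fermat.Agent.W56.TwDefs5 Fermat.Agent.W56.StableLine5 Fermat.Agent.W56.Lin2Dim5 Polynomial
open scoped TensorProduct

variable {k : Type} [Field k] (ρbar : ResidualGaloisRep k)

/-- the residual representation as a `Representation`. -/
abbrev rep : Representation k GQ ρbar.V := ρbar.ρ

/-- a common eigenvector of a set of elements spans, after any extension of scalars, a line stable
under these elements. -/
theorem stable_line (K : Type) [Field K] [Algebra k K] (H : Set GQ) {v : ρbar.V} (hv : v ≠ 0)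
    (hH : ∀ g ∈ H, ∃ a : k, ρbar.ρ g v = a • v) :
    ∃ W : Submodule K (ρbar.baseChange K).V,
      (∀ σ ∈ H, ∀ x ∈ W, (ρbar.baseChange K).ρ σ x ∈ W) ∧ W ≠ ⊥ ∧ W ≠ ⊤ := by
  have hne : (1 : K) ⊗ₜ[k] v ≠ 0 := by
    intro h0
    apply hv
    have hinj := Module.Flat.tensorProduct_mk_injective (R := k) (S := K) (M := ρbar.V)
    apply hinj
    rw [map_zero]
    exact h0
  refine ⟨Submodule.span K {(1 : K) ⊗ₜ[k] v}, ?_, ?_, ?_⟩
  · intro σ hσ x hx
    obtain ⟨a, ha⟩ := hH σ hσ
    obtain ⟨e, rfl⟩ := Submodule.mem_span_singleton.1 hx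
    rw [map_smul]
    apply Submodule.smul_mem
    have h1 : (ρbar.baseChange K).ρ σ ((1 : K) ⊗ₜ[k] v) = (1 : K) ⊗ₜ[k] (ρbar.ρ σ v) :=
      LinearMap.baseChange_tmul _ _ _
    rw [h1, ha, TensorProduct.tmul_smul]
    have h2 : a • ((1 : K) ⊗ₜ[k] v) = (algebraMap k K a) • ((1 : K) ⊗ₜ[k] v) := by
      rw [algebraMap_smul]
    rw [h2]
    exact Submodule.smul_mem _ _ (Submodule.mem_span_singleton_self _)
  · intro hbot
    apply hne
    have : (1 : K) ⊗ₜ[k] v ∈ Submodule.span K {(1 : K) ⊗ₜ[k] v} :=
      Submodule.mem_span_singleton_self _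
    rw [hbot] at this
    exact (Submodule.mem_bot K).1 this
  · intro htop
    have h1 : Module.finrank K (Submodule.span K {(1 : K) ⊗ₜ[k] v}) = 1 :=
      finrank_span_singleton hne
    rw [htop, finrank_top] at h1
    have h2 : Module.finrank K (ρbar.baseChange K).V = 2 := (ρbar.baseChange K).finrank_eq
    rw [h2] at h1
    exact absurd h1 (by norm_num)

/-- **the hypotheses of the contract give the standing hypotheses of the group-theoretic
lemma.** -/
theorem hyp_of_contract (h2 : (2 : k) ≠ 0) (habs : ρbar.IsAbsolutelyIrreducible)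
    (hsplit : ∀ σ : GQ, ∃ α β : k, LinearMap.charpoly (ρbar.ρ σ) = (X - C α) * (X - C β))
    (hTW : ∀ (K : Type) [Field K] [Algebra k K] (G : Subgroup GQ), G.index = 2 →
      ∀ V : Submodule K (ρbar.baseChange K).V,
        (∀ σ ∈ G, ∀ x ∈ V, (ρbar.baseChange K).ρ σ x ∈ V) → V = ⊥ ∨ V = ⊤) :
    Hyp (rep ρbar) where
  finrank := ρbar.finrank_eq
  two_ne := h2
  eigen := by
    intro g
    obtain ⟨α, β, h⟩ := hsplit g
    obtain ⟨v, hv, hfv⟩ := exists_eigenvector_of_charpoly (ρbar.ρ g) α β h
    exact ⟨v, hv, α, hfv⟩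
  irr := by
    rintro ⟨v, hv, hall⟩
    obtain ⟨W, hW, hbot, htop⟩ := stable_line ρbar (AlgebraicClosure k) Set.univ hv hall
    rcases habs W (fun σ x hx => hW σ trivial x hx) with h | h
    · exact hbot h
    · exact htop h
  irr2 := by
    rintro H hH ⟨v, hv, hall⟩
    obtain ⟨W, hW, hbot, htop⟩ := stable_line ρbar k (H : Set GQ) hv hall
    rcases hTW k H hH W hW with h | h
    · exact hbot h
    · exact htop h

end Fermat.Agent.W56.TwHyp5
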