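/-
Programme W56 (target S56), chapter (G) "Taylor–Wiles primes" (helper5): **a finite Galois level
and its ramification**: every finite extension `L ⊂ ℚ̄` of `ℚ` lies in a finite Galois `N ⊂ ℚ̄`,
and for all primes `q` outside a finite set the inertia groups at the places over `q` act
trivially on `N` (the primes dividing the discriminant of `N` are excluded).
-/
import Mathlib
import Fermat.Agent.PT.BR.UnramBridge13
import Fermat.Agent.PT.GLOB.FrobGenerate19

set_option autoImplicit false

noncomputable section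

open NumberField

namespace Fermat.Agent.W56.TwLevel5

open Fermat.Agent.S13.UnramRam Fermat.Agent.PT.BR.UnramBridge13
  Fermat.Agent.PT.GLOB.FrobGenerate19

local notation "Qb" => AlgebraicClosure ℚ
local notation "GQ" => (AlgebraicClosure ℚ ≃ₐ[ℚ] AlgebraicClosure ℚ)

/-- the inertia groups at the primes not dividing the discriminant act trivially. -/
theorem inertia_fixes (N : IntermediateField ℚ Qb) [FiniteDimensional ℚ N] [IsGalois ℚ N]
    [NumberField N] {q : ℕ} (hq : q.Prime) (hd : ¬ (q : ℤ) ∣ discr N)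
    (A : ValuationSubring Qb) (hA : A.LiesOverPrime q) {σ : GQ}
    (hσ : σ ∈ A.inertiaSubgroupIn ℚ) {x : Qb} (hx : x ∈ N) : σ x = x := by
  have hmem := restrictNormal_mem_inertia N A hσ
  have hqP : ((q : ℕ) : 𝓞 N) ∈ primeBelow N A := by
    rw [mem_primeBelow_iff]
    have : ((((q : ℕ) : 𝓞 N) : N) : Qb) = ((q : ℕ) : Qb) := by simp
    rw [this]
    exact hA
  have hbot := inertia_eq_bot_of_not_dvd_discr (K := ℚ) (primeBelow N A) hq hqP hd
  rw [hbot, Subgroup.mem_bot] at hmem
  have h4 : (((AlgEquiv.restrictNormalHom N σ) (⟨x, hx⟩ : N) : N) : Qb) = σ x :=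
    AlgEquiv.restrictNormal_commutes σ N (⟨x, hx⟩ : N)
  rw [← h4, hmem]
  rfl

/-- **a finite Galois level with its finite set of bad primes.** -/
theorem exists_galois_level (L : IntermediateField ℚ Qb) [FiniteDimensional ℚ L] :
    ∃ N : IntermediateField ℚ Qb, L ≤ N ∧ FiniteDimensional ℚ N ∧ IsGalois ℚ N ∧
      ∃ T : Finset ℕ, ∀ q : ℕ, q.Prime → q ∉ T → ∀ A : ValuationSubring Qb,
        A.LiesOverPrime q → ∀ σ ∈ A.inertiaSubgroupIn ℚ, ∀ x ∈ N, σ x = x := by
  have hfin : FiniteDimensional ℚ (IntermediateField.normalClosure ℚ L Qb) :=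
    normalClosure.is_finiteDimensional ℚ L Qb
  have hnorm : Normal ℚ (IntermediateField.normalClosure ℚ L Qb) := normalClosure.normal ℚ L Qb
  have hgal : IsGalois ℚ (IntermediateField.normalClosure ℚ L Qb) := ⟨⟩
  have hNF : NumberField (IntermediateField.normalClosure ℚ L Qb) := ⟨⟩
  refine ⟨IntermediateField.normalClosure ℚ L Qb, IntermediateField.le_normalClosure L, hfin,
    hgal, (discr (IntermediateField.normalClosure ℚ L Qb)).natAbs.primeFactors, ?_⟩
  intro q hq hqT A hA σ hσ x hx
  have hd0 : (discr (IntermediateField.normalClosure ℚ L Qb)).natAbs ≠ 0 :=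
    Int.natAbs_ne_zero.mpr (discr_ne_zero _)
  have hd : ¬ (q : ℤ) ∣ discr (IntermediateField.normalClosure ℚ L Qb) := by
    intro hdvd
    apply hqT
    rw [Nat.mem_primeFactors]
    exact ⟨hq, Int.natCast_dvd.1 hdvd, hd0⟩
  exact inertia_fixes _ hq hd A hA hσ hx

end Fermat.Agent.W56.TwLevel5
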