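/-
Programme W56 (target S56), chapter (G) "Taylor–Wiles primes" (helper5): **the contract of the
chapter is a theorem**: for a finite field `k` of odd characteristic `p` and every residual
representation `ρbar`, `TwDefs5.TwPrimeContract ρbar p` holds.

The group-theoretic lemma (`TwAbstract5.exists_tw_element_fin`) produces an element `g` in the
kernel of the mod `p ^ (n + 1)` cyclotomic character with `ρbar g` regular semisimple and
`c g ∉ (g - 1) End(V)`; Chebotarev's theorem (generator form, `ChebQbar23`) produces a prime `q`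
outside any finite set and a Frobenius element `φ₀` at some place over `q` whose restriction to a
finite Galois level `N` generates the same cyclic group as `g`; the conditions are invariant under
change of generator and conjugation (`TwChebA5`), all places over `q` are conjugate
(`InertiaConj8`), two Frobenius elements at a place differ by inertia (`FrobFacts12`), and inertia
acts trivially on `N` because `q` does not divide the discriminant (`TwLevel5`).
-/
import Mathlib
import Fermat.Agent.W56.TwDefs5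
import Fermat.Agent.W56.TwAbstract5
import Fermat.Agent.W56.TwChebA5
import Fermat.Agent.W56.TwHyp5
import Fermat.Agent.W56.TwCyclo5
import Fermat.Agent.W56.TwLevel5
import Fermat.Agent.W56.InertiaConj8
import Fermat.Agent.W56.FrobGen8
import Fermat.Agent.ES.GAL.ChebQbar23
import Fermat.Agent.ES.FROB.FrobFacts12

set_option autoImplicit false

noncomputable section

namespace Fermat.Agent.W56.TwCheb5

open Fermat.Agent.W56.TwDefs5 Fermat.Agent.W56.GrpCoh5 Fermat.Agent.W56.RegSS5
  Fermat.Agent.W56.StableLine5 Fermat.Agent.W56.TwChebA5 Fermat.Agent.W56.TwHyp5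
  Fermat.Agent.W56.TwCyclo5 Fermat.Agent.W56.TwLevel5 Fermat.Agent.W56.TwAbstract5 Polynomial
open scoped Pointwise

local notation "Qb" => AlgebraicClosure ℚ

attribute [local instance] Fermat.Agent.Lib.FrobeniusExists.isGalois_Qbar
  Fermat.Agent.Lib.FrobeniusExists.isIntegral_Qbar

section Aux

variable {k : Type*} [Field k] {V : Type*} [AddCommGroup V] [Module k V]

/-- conjugates of regular semisimple endomorphisms are regular semisimple. -/
theorem regSS_conj {f u u' : Module.End k V} (hf : RegSS f) (hu : u' * u = 1) :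
    RegSS (u * f * u') := by
  obtain ⟨v, w, a, b', hv, hw, hab, hfv, hfw⟩ := hf
  have hinj : ∀ x : V, u x = 0 → x = 0 := by
    intro x hx
    have := congrArg u' hx
    rwa [← Module.End.mul_apply, hu, Module.End.one_apply, map_zero] at this
  have hcalc : ∀ (x : V) (e : k), f x = e • x → (u * f * u') (u x) = e • u x := by
    intro x e hfx
    rw [Module.End.mul_apply, ← Module.End.mul_apply u' u, hu, Module.End.one_apply,
      Module.End.mul_apply, hfx, map_smul]
  exact ⟨u v, u w, a, b', fun h0 => hv (hinj v h0), fun h0 => hw (hinj w h0), hab,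
    hcalc v a hfv, hcalc w b' hfw⟩

variable {G : Type*} [Group G] {M : Type*} [AddCommGroup M] [Module k M]
  {ρ : Representation k G M} {c : G → M}

theorem cobAt_congr {x y : G} (h1 : c x = c y) (h2 : ρ x = ρ y) (h : CobAt ρ c x) :
    CobAt ρ c y := by
  obtain ⟨m, hm⟩ := h
  exact ⟨m, by rw [← h1, ← h2, hm]⟩

end Aux

section Restrict

variable (N : IntermediateField ℚ Qb) [Normal ℚ N]

theorem apply_eq_restrict (σ : GQ) {x : Qb} (hx : x ∈ N) :
    σ x = ((AlgEquiv.restrictNormalHom N σ (⟨x, hx⟩ : N) : N) : Qb) :=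
  (AlgEquiv.restrictNormal_commutes σ N (⟨x, hx⟩ : N)).symm

theorem restrict_eq_one_of_fixes {σ : GQ} (h : ∀ x ∈ N, σ x = x) :
    AlgEquiv.restrictNormalHom N σ = 1 := by
  apply AlgEquiv.ext
  intro y
  apply Subtype.ext
  have h1 := apply_eq_restrict N σ y.2
  rw [AlgEquiv.one_apply]
  rw [← h1]
  exact h y y.2

theorem fixes_of_restrict_eq_one {σ : GQ} (h : AlgEquiv.restrictNormalHom N σ = 1) :
    ∀ x ∈ N, σ x = x := by
  intro x hx
  rw [apply_eq_restrict N σ hx, h, AlgEquiv.one_apply]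

theorem agree_of_restrict_eq {σ τ : GQ}
    (h : AlgEquiv.restrictNormalHom N σ = AlgEquiv.restrictNormalHom N τ) :
    ∀ x ∈ N, σ x = τ x := by
  intro x hx
  rw [apply_eq_restrict N σ hx, apply_eq_restrict N τ hx, h]

theorem restrict_inv_mul_eq_one {σ τ : GQ}
    (h : AlgEquiv.restrictNormalHom N σ = AlgEquiv.restrictNormalHom N τ) :
    AlgEquiv.restrictNormalHom N (τ⁻¹ * σ) = 1 := by
  rw [map_mul, map_inv, h, inv_mul_cancel]

end Restrict

section Main

variable {k : Type} [Field k] [Finite k] (p : ℕ) [Fact p.Prime] [CharP k p]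

/-- **the contract of chapter (G) holds.** -/
theorem twPrimeContract (hp2 : p ≠ 2) (ρbar : ResidualGaloisRep k) : TwPrimeContract ρbar p := by
  classical
  intro hdet habs hsplit hTW S n c hc hncob
  have hp : p.Prime := Fact.out
  -- the standing hypotheses
  have h2 : (2 : k) ≠ 0 := by
    intro h0
    have h1 : ((2 : ℕ) : k) = 0 := by exact_mod_cast h0
    rw [CharP.cast_eq_zero_iff k p] at h1
    have := (Nat.prime_dvd_prime_iff_eq hp Nat.prime_two).1 h1
    exact hp2 this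
  have h := hyp_of_contract ρbar h2 habs hsplit hTW
  -- the character
  have hcyc : IsCyclic (ZMod (p ^ (n + 1)))ˣ := isCyclic_target p hp2 (n + 1)
  have hχ : ∀ g : GQ, chi p (n + 1) g = 1 → LinearMap.det (rep ρbar g) = 1 := by
    intro g hg
    have := hdet g 1 (fun μ hμ => apply_root_of_chi_eq_one p n hg μ hμ)
    rwa [Nat.cast_one] at this
  -- the determinant takes a value which is not a square of the prime field
  have h3 : ∃ g₀ : GQ, ∀ a : ℤ, LinearMap.det (rep ρbar g₀) ≠ (a : k) ^ 2 := by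
    obtain ⟨g₀, ℓ, hg₀, hns⟩ := exists_nonsquare p hp2
    refine ⟨g₀, fun a ha => hns ?_⟩
    have hdet₀ : LinearMap.det (rep ρbar g₀) = (ℓ : k) := hdet g₀ ℓ hg₀
    rw [hdet₀] at ha
    have hinj : Function.Injective (ZMod.castHom (dvd_refl p) k) :=
      (ZMod.castHom (dvd_refl p) k).injective
    have : ((ℓ : ZMod p)) = ((a : ZMod p)) ^ 2 := by
      apply hinj
      rw [map_natCast, map_pow, map_intCast]
      exact ha
    exact ⟨(a : ZMod p), by rw [this, sq]⟩
  -- the cocycle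
  have hcoc : IsCoc (AdTw5.adTw (rep ρbar)) c := fun σ τ => hc.cocycle σ τ
  have hncob' : ¬ IsCob (AdTw5.adTw (rep ρbar)) c := by
    intro hcob
    apply hncob
    obtain ⟨A, hA0, hA⟩ := AdTw5.exists_trace_zero_of_isCob (rep ρbar) h2 ρbar.finrank_eq
      hc.trace_zero hcob
    exact ⟨A, hA0, fun σ => hA σ⟩
  obtain ⟨g, hgχ, hgreg, hgc⟩ :=
    exists_tw_element_fin p (chi p (n + 1)) h hχ h3 hcoc hc.trace_zero hncob'
  -- the level
  obtain ⟨L₁, hL₁fin, hL₁⟩ := ρbar.factorsThroughFiniteLevel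
  obtain ⟨L₂, hL₂fin, hL₂⟩ := hc.level
  obtain ⟨L₃, hL₃fin, hL₃⟩ := exists_level p (n + 1)
  have := hL₁fin
  have := hL₂fin
  have := hL₃fin
  have : FiniteDimensional ℚ (L₁ ⊔ L₂ : IntermediateField ℚ Qb) :=
    IntermediateField.finiteDimensional_sup L₁ L₂
  have : FiniteDimensional ℚ (L₁ ⊔ L₂ ⊔ L₃ : IntermediateField ℚ Qb) :=
    IntermediateField.finiteDimensional_sup (L₁ ⊔ L₂) L₃
  obtain ⟨N, hLN, hNfin, hNgal, T, hT⟩ := exists_galois_level (L₁ ⊔ L₂ ⊔ L₃)
  have hL₁N : L₁ ≤ N := le_trans (le_trans le_sup_left le_sup_left) hLN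
  have hL₂N : L₂ ≤ N := le_trans (le_trans le_sup_right le_sup_left) hLN
  have hL₃N : L₃ ≤ N := le_trans le_sup_right hLN
  have : Normal ℚ N := hNgal.to_normal
  -- what factors through the level
  have hρ1 : ∀ σ : GQ, AlgEquiv.restrictNormalHom N σ = 1 → ρbar.ρ σ = 1 := fun σ hσ =>
    hL₁ σ (fun x hx => fixes_of_restrict_eq_one N hσ x (hL₁N hx))
  have hχ1 : ∀ σ : GQ, AlgEquiv.restrictNormalHom N σ = 1 → chi p (n + 1) σ = 1 := fun σ hσ =>
    hL₃ σ (fun x hx => fixes_of_restrict_eq_one N hσ x (hL₃N hx))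
  have hρeq : ∀ σ τ : GQ, AlgEquiv.restrictNormalHom N σ = AlgEquiv.restrictNormalHom N τ →
      ρbar.ρ σ = ρbar.ρ τ := by
    intro σ τ hστ
    have h1 := hρ1 _ (restrict_inv_mul_eq_one N hστ)
    have h4 : ρbar.ρ σ = ρbar.ρ τ * ρbar.ρ (τ⁻¹ * σ) := by
      rw [← map_mul, mul_inv_cancel_left]
    rw [h4, h1, mul_one]
  have hχeq : ∀ σ τ : GQ, AlgEquiv.restrictNormalHom N σ = AlgEquiv.restrictNormalHom N τ →
      chi p (n + 1) σ = chi p (n + 1) τ := by
    intro σ τ hστ
    have h1 := hχ1 _ (restrict_inv_mul_eq_one N hστ)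
    have h4 : chi p (n + 1) σ = chi p (n + 1) τ * chi p (n + 1) (τ⁻¹ * σ) := by
      rw [← map_mul, mul_inv_cancel_left]
    rw [h4, h1, mul_one]
  have hceq : ∀ σ τ : GQ, AlgEquiv.restrictNormalHom N σ = AlgEquiv.restrictNormalHom N τ →
      c σ = c τ := fun σ τ hστ =>
    hL₂ σ τ (fun x hx => agree_of_restrict_eq N hστ x (hL₂N hx))
  -- Chebotarev
  obtain ⟨q, A₀, φ₀, hq, hqT, hA₀, hφ₀, hgen⟩ :=
    Fermat.Agent.ES.GAL.ChebQbar23.exists_frobenius_zpowers_eq N
      (AlgEquiv.restrictNormalHom N g) (T ∪ S ∪ {p})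
  have hqT' : q ∉ T := fun hm => hqT (Finset.mem_union_left _ (Finset.mem_union_left _ hm))
  have hqS : q ∉ S := fun hm => hqT (Finset.mem_union_left _ (Finset.mem_union_right _ hm))
  have hqp : q ≠ p := fun hm => hqT (Finset.mem_union_right _ (Finset.mem_singleton.2 hm))
  -- the two generators are powers of each other
  obtain ⟨i, hi⟩ : ∃ i : ℕ, AlgEquiv.restrictNormalHom N (φ₀ ^ i) =
      AlgEquiv.restrictNormalHom N g := by
    have hmem : AlgEquiv.restrictNormalHom N g ∈
        Subgroup.zpowers (AlgEquiv.restrictNormalHom N φ₀) := by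
      rw [hgen]
      exact Subgroup.mem_zpowers _
    rw [← mem_powers_iff_mem_zpowers] at hmem
    obtain ⟨i, hi⟩ := hmem
    exact ⟨i, by rw [map_pow]; exact hi⟩
  obtain ⟨j, hj⟩ : ∃ j : ℕ, AlgEquiv.restrictNormalHom N (g ^ j) =
      AlgEquiv.restrictNormalHom N φ₀ := by
    have hmem : AlgEquiv.restrictNormalHom N φ₀ ∈
        Subgroup.zpowers (AlgEquiv.restrictNormalHom N g) := by
      rw [← hgen]
      exact Subgroup.mem_zpowers _
    rw [← mem_powers_iff_mem_zpowers] at hmem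
    obtain ⟨j, hj⟩ := hmem
    exact ⟨j, by rw [map_pow]; exact hj⟩
  have hρφ₀ : ρbar.ρ φ₀ = ρbar.ρ g ^ j := by rw [← map_pow]; exact (hρeq _ _ hj).symm
  have hρg : ρbar.ρ φ₀ ^ i = ρbar.ρ g := by rw [← map_pow]; exact hρeq _ _ hi
  have hχφ₀ : chi p (n + 1) φ₀ = 1 := by
    rw [← hχeq _ _ hj, map_pow, hgχ, one_pow]
  have hregφ₀ : RegSS (ρbar.ρ φ₀) := by
    rw [hρφ₀]
    apply regSS_pow hgreg j i
    rw [← hρφ₀]
    exact hρg
  have hncobφ₀ : ¬ CobAt (AdTw5.adTw (rep ρbar)) c φ₀ := by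
    intro hcob
    have h1 := cobAt_pow hcoc φ₀ hcob i
    have h4 : CobAt (AdTw5.adTw (rep ρbar)) c g :=
      cobAt_congr (hceq _ _ hi) (AdTw5.adTw_congr (rep ρbar) (hρeq _ _ hi)) h1
    obtain ⟨A, hA⟩ := h4
    exact hgc A hA
  refine ⟨q, hq, hqS, dvd_sub_one_of_frobenius p (n + 1) hq hqp A₀ hA₀ hφ₀ hχφ₀, ?_⟩
  intro P hP φ hφ
  -- all places over `q` are conjugate
  obtain ⟨τ, hτ⟩ := Fermat.Agent.W56.InertiaConj8.exists_smul_eq hq hA₀ hP
  have hh : P.IsFrobeniusAt (τ * φ₀ * τ⁻¹) q := by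
    have := Fermat.Agent.W56.FrobGen8.isFrobeniusAt_smul hφ₀ τ
    rwa [hτ] at this
  have hin := Fermat.Agent.ES.FROB.FrobFacts12.mul_inv_mem_inertiaSubgroupIn P hh hφ
  have hfix : ∀ x ∈ N, (φ * (τ * φ₀ * τ⁻¹)⁻¹) x = x := hT q hq hqT' P hP _ hin
  have hres : AlgEquiv.restrictNormalHom N φ = AlgEquiv.restrictNormalHom N (τ * φ₀ * τ⁻¹) := by
    have h1 := restrict_eq_one_of_fixes N hfix
    rw [map_mul, map_inv, mul_inv_eq_one] at h1
    exact h1
  have hρφ : ρbar.ρ φ = ρbar.ρ τ * ρbar.ρ φ₀ * ρbar.ρ τ⁻¹ := by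
    rw [hρeq _ _ hres, map_mul, map_mul]
  constructor
  · obtain ⟨α, β, hαβ⟩ := hsplit φ
    refine ⟨α, β, ?_, hαβ⟩
    apply ne_of_regSS_of_charpoly (f := ρbar.ρ φ) ?_ hαβ
    rw [hρφ]
    apply regSS_conj hregφ₀
    rw [← map_mul, inv_mul_cancel, map_one]
  · intro A _ hAφ
    apply hncobφ₀
    apply cobAt_conj hcoc τ φ₀
    apply cobAt_congr (hceq _ _ hres) (AdTw5.adTw_congr (rep ρbar) (hρeq _ _ hres))
    exact ⟨A, hAφ⟩

end Main

end Fermat.Agent.W56.TwCheb5
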