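/-
Programme W56 (target S56), chapter (H) "assembly", helper9: **the contracts of `Contracts9` that
are now theorems**, and the strict-ordinary conjunct of S56 conditional on the THREE remaining
classical theorems only:

* `SelBound9.LecPAd0` (Tate's local Euler characteristic inequality at `p` for `ad⁰ρ̄`),
* `GWContracts4.LocalH2Bound` (the local `(2,0)` duality as a bound),
* `EulerDefs4.EulerCharBoundAd0` (Tate's global Euler characteristic for `ad⁰ρ̄`).

Discharged: `TwPrimes` (chapter (G), `TwCheb5.twPrimeContract`), `PTMidOnto`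
(`PTDefs2.ptMid_onto`), `Sha2Injective` (`Sha2Van2.sha2_injective`), `LpSOBound`
(`StrictOrdFinal8.card_LpSO_le`), and `TwH2Bound` from (LH2) (`TwH0Bound8.card_H2D_le_of_LH2`).
-/
import Mathlib
import Fermat.Agent.W56.AssemblySO9
import Fermat.Agent.W56.TwCheb5
import Fermat.Agent.W56.PTDefs2
import Fermat.Agent.W56.Sha2Van2
import Fermat.Agent.W56.StrictOrdFinal8
import Fermat.Agent.W56.TwH0Bound8

set_option autoImplicit false
set_option linter.style.haveILetI false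
set_option linter.unusedSectionVars false

open CategoryTheory ExtCitation Polynomial IsLocalRing

namespace Fermat.Agent.W56.Discharge9

open Fermat.Agent.PT.PRO Fermat.Agent.PT.BR Fermat.Agent.W56.Defs9 Fermat.Agent.W56.GWCount4
  Fermat.Agent.W56.GWContracts4 Fermat.Agent.W56.Contracts9 Fermat.Agent.W56.EulerDefs4

local notation "Γ" => (AlgebraicClosure ℚ ≃ₐ[ℚ] AlgebraicClosure ℚ)
local notation "Qbar" => AlgebraicClosure ℚ

/-- Chapter (G) is closed. -/
theorem twPrimes : TwPrimes := fun _ _ _ p _ _ hp2 ρbar => TwCheb5.twPrimeContract p hp2 ρbar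

/-- Chapter (E1): PT-mid-onto. -/
theorem ptMidOnto : PTMidOnto := by
  intro k _ _ p _ _ hp2 T hpT M _ hsm hMur T₀ hT₀ hfin hvan w
  refine PTDefs2.ptMid_onto hp2 T hpT M hsm hMur T₀ hT₀ hfin (fun y hy => hvan y fun q hq => ?_) w
  exact hy q (Finset.mem_sdiff.1 hq).1 (Finset.mem_sdiff.1 hq).2

/-- Chapter (E1): `Sha² = 0`. -/
theorem sha2Injective : Sha2Injective := by
  intro k _ _ p _ _ hp2 T hpT M _ hsm hMur hvan x hx
  exact Sha2Van2.sha2_injective hp2 T hpT M hsm hMur hvan x hx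

/-- Chapter (D2): the size of the strict-ordinary condition. -/
theorem lpSOBound : LpSOBound := by
  intro k _ _ p _ _ hp2 ρbar b hb
  exact StrictOrdFinal8.card_LpSO_le hp2 (pPrime p) rfl b hb

/-- (TW-H2) from (LH2). -/
theorem twH2Bound_of_LH2 (hLH2 : LocalH2Bound) : TwH2Bound := by
  intro k _ _ p _ _ hp2 ρbar q hqp hq1 _ hF
  exact TwH0Bound8.card_H2D_le_of_LH2 ρbar p hLH2 hp2 q hqp hq1
    (fun φ hφ => hF _ (UnipSel8.liesOverPrime_primeLocalPlace q) φ hφ)

variable {𝒪 : Type} [CommRing 𝒪] [IsDomain 𝒪] [IsDiscreteValuationRing 𝒪]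
  [IsAdicComplete (maximalIdeal 𝒪) 𝒪] [Finite (ResidueField 𝒪)]

/-- **The strict-ordinary conjunct of S56, conditional on Tate's local Euler characteristic, the
local `(2,0)` duality bound and Tate's global Euler characteristic.** -/
theorem strictOrdinary_conjunct (hLECp : SelBound9.LecPAd0) (hLH2 : LocalH2Bound)
    (hEC : EulerCharBoundAd0)
    (p : ℕ) [Fact p.Prime] (hp2 : p ≠ 2) (hp𝒪 : (p : 𝒪) ∈ maximalIdeal 𝒪)
    (ρbar : ResidualGaloisRep (ResidueField 𝒪))
    (habs : ρbar.IsAbsolutelyIrreducible)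
    (hdet : (GaloisRepAdic.ofResidualGaloisRep ρbar).DetIsCyclotomic p)
    (hsplit : ∀ σ : Γ, ∃ α β : ResidueField 𝒪,
      LinearMap.charpoly (ρbar.ρ σ) = (X - C α) * (X - C β))
    (hTW : ∀ (K : Type) [Field K] [Algebra (ResidueField 𝒪) K] (G : Subgroup Γ), G.index = 2 →
      ∀ V : Submodule K (ρbar.baseChange K).V,
        (∀ σ ∈ G, ∀ x ∈ V, (ρbar.baseChange K).ρ σ x ∈ V) → V = ⊥ ∨ V = ⊤)
    (S Smin : Finset ℕ) (hpSmin : p ∈ Smin) (hSmin : Smin ⊆ S)
    (hmin : ∀ q : ℕ, q.Prime → q ≠ p → (q ∈ Smin ↔ ¬ ρbar.IsUnramifiedAt q)) :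
    ∃ r : ℕ, ∀ n : ℕ, ∃ qv : Fin r → ℕ, Function.Injective qv ∧
      (∀ i, (qv i).Prime ∧ qv i ∉ S ∧ p ^ (n + 1) ∣ qv i - 1) ∧
      (∀ i, ∀ P : ValuationSubring Qbar, P.LiesOverPrime (qv i) →
        ∀ φ : Γ, P.IsFrobeniusAt φ (qv i) →
          ∃ α β : ResidueField 𝒪, α ≠ β ∧
            LinearMap.charpoly (ρbar.ρ φ) = (X - C α) * (X - C β)) ∧
      ∀ DQ : GaloisRep.DeformationRingData 𝒪 ρbar (fun _A _ _ _ ρ =>
          GaloisRep.strictOrdinaryCondition 𝒪 p (Smin ∪ Finset.univ.image qv) ρ ∧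
            ∀ q ∈ Smin, q.Prime → q ≠ p → ρ.IsUnipotentOnInertiaAt q),
        ∃ γ : MvPowerSeries (Fin r) 𝒪 →ₐ[𝒪] DQ.R, Function.Surjective γ :=
  AssemblySO9.strictOrdinary_conjunct hLECp hEC ptMidOnto sha2Injective (twH2Bound_of_LH2 hLH2)
    lpSOBound twPrimes p hp2 hp𝒪 ρbar habs hdet hsplit hTW S Smin hpSmin hSmin hmin

end Fermat.Agent.W56.Discharge9
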