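import Fermat.Agent.W56.ArtinInd0A

/-!
# Programme W56, item (EC-3): modular Artin induction, part F

Operations on additive functions: tensoring with a fixed finite module (`AddFun.tensorLeft`) and
coinduction from a subgroup (`AddFun.coindFun`); both are again additive functions (exactness of
`V ⊗ -` over a field, exactness of coinduction from a subgroup).
-/

namespace Fermat.Agent.W56.ArtinInd0

open Representation TensorProduct

section Tensor

variable {p : ℕ} [hp : Fact p.Prime] {G : Type} [Group G]

theorem finite_tensor (V W : Type) [AddCommGroup V] [Module (ZMod p) V] [AddCommGroup W]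
    [Module (ZMod p) W] [Finite V] [Finite W] : Finite (V ⊗[ZMod p] W) := by
  have : Module.Finite (ZMod p) V := Module.Finite.of_finite
  have : Module.Finite (ZMod p) W := Module.Finite.of_finite
  exact Module.finite_of_finite (ZMod p)

theorem lTensor_tprod {V A B : Type} [AddCommGroup V] [Module (ZMod p) V] [AddCommGroup A]
    [Module (ZMod p) A] [AddCommGroup B] [Module (ZMod p) B] (ρ : Representation (ZMod p) G V)
    (ρA : Representation (ZMod p) G A) (ρB : Representation (ZMod p) G B) (φ : A →ₗ[ZMod p] B)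
    (hφ : ∀ g a, φ (ρA g a) = ρB g (φ a)) (g : G) (x : V ⊗[ZMod p] A) :
    φ.lTensor V (ρ.tprod ρA g x) = ρ.tprod ρB g (φ.lTensor V x) := by
  induction x using TensorProduct.induction_on with
  | zero => simp
  | tmul v a => simp [hφ]
  | add x y hx hy => rw [map_add, map_add, hx, hy, map_add, map_add]

/-- Tensoring on the left with a fixed finite module is an operation on additive functions. -/
noncomputable def AddFun.tensorLeft (f : AddFun p G) {V : Type} [AddCommGroup V]
    [Module (ZMod p) V] [Finite V] (ρ : Representation (ZMod p) G V) : AddFun p G where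
  toFun W _ _ σ := f.toFun (V ⊗[ZMod p] W) (ρ.tprod σ)
  iso' W W' _ _ _ _ σ σ' e he := by
    refine f.iso (LinearEquiv.lTensor V e) (fun g x => ?_)
    exact lTensor_tprod ρ σ σ' e.toLinearMap he g x
  add' A B C _ _ _ _ _ _ _ _ _ ρA ρB ρC φ ψ hφ hψ hi hs hex := by
    have := finite_tensor (p := p) V A
    have := finite_tensor (p := p) V B
    have := finite_tensor (p := p) V C
    refine f.add (φ.lTensor V) (ψ.lTensor V) (lTensor_tprod ρ ρA ρB φ hφ)
      (lTensor_tprod ρ ρB ρC ψ hψ)
      (Module.Flat.lTensor_preserves_injective_linearMap φ hi)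
      (LinearMap.lTensor_surjective V hs) ?_
    have hex' : Function.Exact φ ψ := fun b => by
      rw [hex b]
      rfl
    intro b
    rw [lTensor_exact V hex' hs b]
    rfl

@[simp]
theorem AddFun.tensorLeft_val (f : AddFun p G) {V : Type} [AddCommGroup V]
    [Module (ZMod p) V] [Finite V] (ρ : Representation (ZMod p) G V) {W : Type} [AddCommGroup W]
    [Module (ZMod p) W] (σ : Representation (ZMod p) G W) :
    (f.tensorLeft ρ).val σ = f.val (ρ.tprod σ) := rfl

end Tensor

section Coind

variable {p : ℕ} {G : Type} [Group G]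

/-- Postcomposition with an equivariant map, on coinduced modules. -/
def coindPost {H : Type} [Group H] (ι : H →* G) {W W' : Type} [AddCommGroup W]
    [Module (ZMod p) W] [AddCommGroup W'] [Module (ZMod p) W'] (σ : Representation (ZMod p) H W)
    (σ' : Representation (ZMod p) H W') (φ : W →ₗ[ZMod p] W')
    (hφ : ∀ b w, φ (σ b w) = σ' b (φ w)) : coindV ι σ →ₗ[ZMod p] coindV ι σ' :=
  (coindMap ι (φ.intertwiningMap_of_isIntertwiningMap σ σ' hφ)).toLinearMap

@[simp]
theorem coindPost_apply {H : Type} [Group H] (ι : H →* G) {W W' : Type} [AddCommGroup W]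
    [Module (ZMod p) W] [AddCommGroup W'] [Module (ZMod p) W'] (σ : Representation (ZMod p) H W)
    (σ' : Representation (ZMod p) H W') (φ : W →ₗ[ZMod p] W')
    (hφ : ∀ b w, φ (σ b w) = σ' b (φ w)) (F : coindV ι σ) (g : G) :
    (coindPost ι σ σ' φ hφ F).1 g = φ (F.1 g) := rfl

theorem coindPost_coind {H : Type} [Group H] (ι : H →* G) {W W' : Type} [AddCommGroup W]
    [Module (ZMod p) W] [AddCommGroup W'] [Module (ZMod p) W'] (σ : Representation (ZMod p) H W)
    (σ' : Representation (ZMod p) H W') (φ : W →ₗ[ZMod p] W')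
    (hφ : ∀ b w, φ (σ b w) = σ' b (φ w)) (x : G) (F : coindV ι σ) :
    coindPost ι σ σ' φ hφ (coind ι σ x F) = coind ι σ' x (coindPost ι σ σ' φ hφ F) :=
  Subtype.ext (funext fun _ => rfl)

theorem coindPost_injective {H : Type} [Group H] (ι : H →* G) {W W' : Type} [AddCommGroup W]
    [Module (ZMod p) W] [AddCommGroup W'] [Module (ZMod p) W'] (σ : Representation (ZMod p) H W)
    (σ' : Representation (ZMod p) H W') (φ : W →ₗ[ZMod p] W')
    (hφ : ∀ b w, φ (σ b w) = σ' b (φ w)) (hi : Function.Injective φ) :
    Function.Injective (coindPost ι σ σ' φ hφ) := by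
  intro F F' h
  apply Subtype.ext
  funext g
  apply hi
  exact congrFun (congrArg Subtype.val h) g

/-- Exactness of coinduction in the middle. -/
theorem coindPost_exact {H : Type} [Group H] (ι : H →* G) {A B C : Type} [AddCommGroup A]
    [Module (ZMod p) A] [AddCommGroup B] [Module (ZMod p) B] [AddCommGroup C] [Module (ZMod p) C]
    (ρA : Representation (ZMod p) H A) (ρB : Representation (ZMod p) H B)
    (ρC : Representation (ZMod p) H C) (φ : A →ₗ[ZMod p] B) (ψ : B →ₗ[ZMod p] C)
    (hφ : ∀ g a, φ (ρA g a) = ρB g (φ a)) (hψ : ∀ g b, ψ (ρB g b) = ρC g (ψ b))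
    (hi : Function.Injective φ) (hex : ∀ b, ψ b = 0 ↔ ∃ a, φ a = b) (F : coindV ι ρB) :
    coindPost ι ρB ρC ψ hψ F = 0 ↔ ∃ F' : coindV ι ρA, coindPost ι ρA ρB φ hφ F' = F := by
  constructor
  · intro h0
    have h1 : ∀ g, ∃ a, φ a = F.1 g := fun g =>
      (hex _).1 (congrFun (congrArg Subtype.val h0) g)
    choose F' hF' using h1
    refine ⟨⟨F', fun b g => ?_⟩, Subtype.ext (funext hF')⟩
    apply hi
    rw [hF', hφ, hF']
    exact F.2 b g
  · rintro ⟨F', rfl⟩
    apply Subtype.ext
    funext g
    exact (hex _).2 ⟨F'.1 g, rfl⟩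

/-- Coinduction from a subgroup preserves surjections. -/
theorem coindPost_surjective (S : Subgroup G) {W W' : Type} [AddCommGroup W]
    [Module (ZMod p) W] [AddCommGroup W'] [Module (ZMod p) W']
    (σ : Representation (ZMod p) S W) (σ' : Representation (ZMod p) S W') (φ : W →ₗ[ZMod p] W')
    (hφ : ∀ b w, φ (σ b w) = σ' b (φ w)) (hs : Function.Surjective φ) :
    Function.Surjective (coindPost S.subtype σ σ' φ hφ) := by
  intro y
  let _ := QuotientGroup.rightRel S
  choose s hs' using hs
  choose i hi using Quotient.mk'_surjective (α := G)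
  let γ (g : G) : S := ⟨g * (i (Quotient.mk' g))⁻¹,
    (QuotientGroup.rightRel_apply.1 (Quotient.eq'.1 (hi (Quotient.mk' g))))⟩
  have hmk (b : S) (g : G) : (Quotient.mk' (b.1 * g) : Quotient (QuotientGroup.rightRel S)) =
      Quotient.mk' g :=
    Quotient.eq'.2 (QuotientGroup.rightRel_apply.2 (by simp))
  have hγ (b : S) (g : G) : γ (b.1 * g) = b * γ g := by ext; simp [mul_assoc, γ, hmk]
  let x (g : G) : W := σ (γ g) (s (y.1 (i (Quotient.mk' g))))
  refine ⟨⟨x, fun b g => ?_⟩, Subtype.ext <| funext fun g => ?_⟩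
  · simp only [x, Subgroup.coe_subtype, hmk, hγ, map_mul, Module.End.mul_apply]
  · change φ (σ (γ g) (s (y.1 (i (Quotient.mk' g))))) = y.1 g
    rw [hφ, hs', ← y.2 (γ g)]
    simp [γ]

/-- Coinduction from a subgroup of a finite group is an operation on additive functions. -/
noncomputable def AddFun.coindFun [Finite G] (f : AddFun p G) (S : Subgroup G) : AddFun p S where
  toFun W _ _ σ := f.toFun (coindV S.subtype σ) (coind S.subtype σ)
  iso' W W' _ _ _ _ σ σ' e he := by
    have he' : ∀ b w, e.symm (σ' b w) = σ b (e.symm w) := by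
      intro b w
      apply e.injective
      rw [he, e.apply_symm_apply, e.apply_symm_apply]
    refine f.iso (LinearEquiv.ofBijective (coindPost S.subtype σ σ' e.toLinearMap he)
      ⟨coindPost_injective _ _ _ _ he e.injective, ?_⟩)
      (fun g F => coindPost_coind S.subtype σ σ' e.toLinearMap he g F)
    intro F'
    refine ⟨coindPost S.subtype σ' σ e.symm.toLinearMap he' F', Subtype.ext (funext fun g => ?_)⟩
    simp
  add' A B C _ _ _ _ _ _ _ _ _ ρA ρB ρC φ ψ hφ hψ hi hs hex := by
    exact f.add (coindPost S.subtype ρA ρB φ hφ) (coindPost S.subtype ρB ρC ψ hψ)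
      (fun g F => coindPost_coind S.subtype ρA ρB φ hφ g F)
      (fun g F => coindPost_coind S.subtype ρB ρC ψ hψ g F)
      (coindPost_injective _ _ _ _ hφ hi) (coindPost_surjective S ρB ρC ψ hψ hs)
      (coindPost_exact S.subtype ρA ρB ρC φ ψ hφ hψ hi hex)

@[simp]
theorem AddFun.coindFun_val [Finite G] (f : AddFun p G) (S : Subgroup G) {W : Type}
    [AddCommGroup W] [Module (ZMod p) W] (σ : Representation (ZMod p) S W) :
    (f.coindFun S).val σ = f.val (coind S.subtype σ) := rfl

end Coind

end Fermat.Agent.W56.ArtinInd0
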