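import Fermat.Agent.W56.ArtinInd0D
import Fermat.Agent.W56.ArtinInd0F

/-!
# Programme W56, item (EC-3): modular Artin induction, part G

Isomorphisms of representations used in the assembly:
* `exists_tprod_permFun_equiv` (projection formula): `V ⊗ F_p[G/S] ≅ Coind_S^G Res_S V`;
* `exists_coind_coind_equiv` (transitivity): `Coind_B^G Coind_D^B τ ≅ Coind_D^G τ`;
* `exists_coind_range_equiv`: coinduction along an injective homomorphism is coinduction from
  its range.
-/

namespace Fermat.Agent.W56.ArtinInd0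

open Representation TensorProduct

section FunRep

variable {k : Type*} [CommRing k] {G : Type*} [Group G] {V : Type*} [AddCommGroup V] [Module k V]
  (ρ : Representation k G V) (X : Type*) [MulAction G X]

/-- The twisted action on `V`-valued functions on a `G`-set: `(g • h) x = ρ g (h (g⁻¹ • x))`;
a model of `V ⊗ k[X]`. -/
def funRep : Representation k G (X → V) where
  toFun g := (ρ g).compLeft X ∘ₗ LinearMap.funLeft k V (fun x => g⁻¹ • x)
  map_one' := by ext; simp
  map_mul' g h := by ext; simp [mul_smul]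

@[simp]
theorem funRep_apply (g : G) (h : X → V) (x : X) : funRep ρ X g h x = ρ g (h (g⁻¹ • x)) := rfl

/-- `V ⊗ k[X] ≅ (X → V)`, equivariantly. -/
theorem exists_tprod_permFun_equiv_funRep [Finite X] :
    ∃ e : V ⊗[k] (X → k) ≃ₗ[k] (X → V),
      ∀ g x, e (ρ.tprod (permFun k G X) g x) = funRep ρ X g (e x) := by
  classical
  let _ : Fintype X := Fintype.ofFinite X
  refine ⟨TensorProduct.piScalarRight k k V X, fun g x => ?_⟩
  induction x using TensorProduct.induction_on with
  | zero => simp
  | tmul v h =>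
    funext y
    simp [TensorProduct.piScalarRight_apply]
  | add x y hx hy => rw [map_add, map_add, hx, hy, map_add, map_add]

end FunRep

section Projection

variable {k : Type*} [CommRing k] {G : Type*} [Group G] {V : Type*} [AddCommGroup V] [Module k V]
  (ρ : Representation k G V) (S : Subgroup G)

/-- The map `(G ⧸ S → V) → Coind_S^G Res_S V`, `h ↦ (g ↦ ρ g (h (g⁻¹ S)))`. -/
def toCoind : (G ⧸ S → V) →ₗ[k] coindV S.subtype (ρ.comp S.subtype) where
  toFun h := ⟨fun g => ρ g (h ((g⁻¹ : G) : G ⧸ S)), fun s g => by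
    have h1 : (((S.subtype s * g)⁻¹ : G) : G ⧸ S) = ((g⁻¹ : G) : G ⧸ S) := by
      rw [QuotientGroup.eq]
      simp
    simp only [h1, map_mul, Module.End.mul_apply, MonoidHom.comp_apply]⟩
  map_add' h h' := Subtype.ext (funext fun g => by simp)
  map_smul' c h := Subtype.ext (funext fun g => by simp)

@[simp]
theorem toCoind_apply (h : G ⧸ S → V) (g : G) :
    (toCoind ρ S h).1 g = ρ g (h ((g⁻¹ : G) : G ⧸ S)) := rfl

theorem toCoind_bijective : Function.Bijective (toCoind ρ S) := by
  constructor
  · rw [injective_iff_map_eq_zero]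
    intro h h0
    funext q
    obtain ⟨y, rfl⟩ := QuotientGroup.mk_surjective q
    have h1 := congrFun (congrArg Subtype.val h0) y⁻¹
    rw [toCoind_apply, inv_inv] at h1
    have h2 := congrArg (ρ y) h1
    simpa using h2
  · intro F
    have hwd : ∀ a b : G, (QuotientGroup.leftRel S) a b → ρ a (F.1 a⁻¹) = ρ b (F.1 b⁻¹) := by
      intro a b hab
      rw [QuotientGroup.leftRel_apply] at hab
      have h1 := F.2 ⟨a⁻¹ * b, hab⟩⁻¹ a⁻¹
      simp only [Subgroup.coe_subtype, InvMemClass.coe_inv, mul_inv_rev, inv_inv,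
        MonoidHom.comp_apply] at h1
      rw [mul_inv_cancel_right] at h1
      rw [h1, ← Module.End.mul_apply, ← map_mul, mul_inv_cancel_left]
    refine ⟨fun q => Quotient.liftOn' q (fun y => ρ y (F.1 y⁻¹)) hwd, Subtype.ext (funext fun g => ?_)⟩
    change ρ g (ρ g⁻¹ (F.1 (g⁻¹)⁻¹)) = F.1 g
    simp

theorem toCoind_funRep (x : G) (h : G ⧸ S → V) :
    toCoind ρ S (funRep ρ (G ⧸ S) x h) = coind S.subtype (ρ.comp S.subtype) x (toCoind ρ S h) := by
  apply Subtype.ext
  funext g
  change ρ g (ρ x (h (x⁻¹ • ((g⁻¹ : G) : G ⧸ S)))) = ρ (g * x) (h (((g * x)⁻¹ : G) : G ⧸ S))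
  rw [map_mul, Module.End.mul_apply, mul_inv_rev]
  rfl

/-- **Projection formula**: `V ⊗ k[G/S] ≅ Coind_S^G Res_S V`. -/
theorem exists_tprod_permFun_equiv [Finite (G ⧸ S)] :
    ∃ e : V ⊗[k] (G ⧸ S → k) ≃ₗ[k] coindV S.subtype (ρ.comp S.subtype),
      ∀ g x, e (ρ.tprod (permFun k G (G ⧸ S)) g x) =
        coind S.subtype (ρ.comp S.subtype) g (e x) := by
  obtain ⟨e1, he1⟩ := exists_tprod_permFun_equiv_funRep ρ (G ⧸ S)
  refine ⟨e1.trans (LinearEquiv.ofBijective (toCoind ρ S) (toCoind_bijective ρ S)), fun g x => ?_⟩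
  simp only [LinearEquiv.trans_apply, LinearEquiv.ofBijective_apply, he1, toCoind_funRep]

end Projection

section Transitivity

variable {k : Type*} [CommRing k] {D B G : Type*} [Group D] [Group B] [Group G]
  (φ : D →* B) (ψ : B →* G) {W : Type*} [AddCommGroup W] [Module k W]
  (τ : Representation k D W)

/-- Evaluation at `1` of the inner function: `Coind_B^G Coind_D^B τ → Coind_D^G τ`. -/
def coindCoindToCoind : coindV ψ (coind φ τ) →ₗ[k] coindV (ψ.comp φ) τ where
  toFun F := ⟨fun g => (F.1 g).1 1, fun d g => by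
    have h1 := F.2 (φ d) g
    change (F.1 (ψ (φ d) * g)).1 1 = τ d ((F.1 g).1 1)
    rw [h1]
    change (F.1 g).1 (1 * φ d) = _
    rw [one_mul, ← mul_one (φ d)]
    exact (F.1 g).2 d 1⟩
  map_add' F F' := rfl
  map_smul' c F := rfl

@[simp]
theorem coindCoindToCoind_apply (F : coindV ψ (coind φ τ)) (g : G) :
    (coindCoindToCoind φ ψ τ F).1 g = (F.1 g).1 1 := rfl

theorem coindCoindToCoind_bijective : Function.Bijective (coindCoindToCoind φ ψ τ) := by
  constructor
  · rw [injective_iff_map_eq_zero]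
    intro F h0
    apply Subtype.ext
    funext g
    apply Subtype.ext
    funext b
    have h1 := congrFun (congrArg Subtype.val h0) (ψ b * g)
    rw [coindCoindToCoind_apply, F.2 b g] at h1
    change (F.1 g).1 (1 * b) = 0 at h1
    rwa [one_mul] at h1
  · intro F'
    refine ⟨⟨fun g => ⟨fun b => F'.1 (ψ b * g), fun d b => ?_⟩, fun b g => ?_⟩,
      Subtype.ext (funext fun g => ?_)⟩
    · change F'.1 (ψ (φ d * b) * g) = τ d (F'.1 (ψ b * g))
      rw [map_mul, mul_assoc]
      exact F'.2 d (ψ b * g)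
    · apply Subtype.ext
      funext b'
      change F'.1 (ψ b' * (ψ b * g)) = F'.1 (ψ (b' * b) * g)
      rw [map_mul, mul_assoc]
    · change F'.1 (ψ 1 * g) = F'.1 g
      rw [map_one, one_mul]

theorem coindCoindToCoind_coind (x : G) (F : coindV ψ (coind φ τ)) :
    coindCoindToCoind φ ψ τ (coind ψ (coind φ τ) x F) =
      coind (ψ.comp φ) τ x (coindCoindToCoind φ ψ τ F) := rfl

/-- **Transitivity of coinduction.** -/
theorem exists_coind_coind_equiv :
    ∃ e : coindV ψ (coind φ τ) ≃ₗ[k] coindV (ψ.comp φ) τ,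
      ∀ g F, e (coind ψ (coind φ τ) g F) = coind (ψ.comp φ) τ g (e F) :=
  ⟨LinearEquiv.ofBijective _ (coindCoindToCoind_bijective φ ψ τ),
    fun g F => coindCoindToCoind_coind φ ψ τ g F⟩

end Transitivity

section Range

variable {k : Type*} [CommRing k] {C G : Type*} [Group C] [Group G] (ι : C →* G)
  (hι : Function.Injective ι) {W : Type*} [AddCommGroup W] [Module k W]
  (τ : Representation k C W)

/-- Coinduction along an injective homomorphism is coinduction from its range. -/
theorem exists_coind_range_equiv :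
    ∃ e : coindV ι τ ≃ₗ[k]
        coindV ι.range.subtype (τ.comp (MonoidHom.ofInjective hι).symm.toMonoidHom),
      ∀ g F, e (coind ι τ g F) =
        coind ι.range.subtype (τ.comp (MonoidHom.ofInjective hι).symm.toMonoidHom) g (e F) := by
  have hmem : ∀ F : G → W, F ∈ coindV ι τ ↔
      F ∈ coindV ι.range.subtype (τ.comp (MonoidHom.ofInjective hι).symm.toMonoidHom) := by
    intro F
    constructor
    · rintro hF ⟨_, c, rfl⟩ g
      have h1 : (MonoidHom.ofInjective hι).symm ⟨ι c, c, rfl⟩ = c := by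
        apply (MonoidHom.ofInjective hι).injective
        rw [MulEquiv.apply_symm_apply]
        exact Subtype.ext (MonoidHom.ofInjective_apply hι).symm
      change F (ι c * g) = τ ((MonoidHom.ofInjective hι).symm ⟨ι c, c, rfl⟩) (F g)
      rw [h1]
      exact hF c g
    · intro hF c g
      have h1 : (MonoidHom.ofInjective hι).symm ⟨ι c, c, rfl⟩ = c := by
        apply (MonoidHom.ofInjective hι).injective
        rw [MulEquiv.apply_symm_apply]
        exact Subtype.ext (MonoidHom.ofInjective_apply hι).symm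
      have h2 := hF ⟨ι c, c, rfl⟩ g
      change F (ι c * g) = τ ((MonoidHom.ofInjective hι).symm ⟨ι c, c, rfl⟩) (F g) at h2
      rwa [h1] at h2
  exact ⟨LinearEquiv.ofEq _ _ (Submodule.ext hmem), fun g F => rfl⟩

end Range

end Fermat.Agent.W56.ArtinInd0
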