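import Fermat.Agent.W56.ArtinInd0A

/-!
# Programme W56, item (EC-3): modular Artin induction, part H

The unipotent lemma: if `G` acts on the finite `F_p`-module `W` through a `p`-group, then
`ψ(W) = dim W · ψ(F_p)` for every additive function `ψ` (`AddFun.val_of_unipotent`); proof by the
fixed point theorem for `p`-groups and induction on the dimension.
-/

namespace Fermat.Agent.W56.ArtinInd0

open Representation

section Unipotent

variable {p : ℕ} [hp : Fact p.Prime] {G : Type} [Group G]

/-- A `p`-group acting linearly on a non-zero finite `F_p`-module fixes a non-zero vector. -/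
theorem exists_fixed_ne_zero {W : Type} [AddCommGroup W] [Module (ZMod p) W] [Finite W]
    [Nontrivial W] (σ : Representation (ZMod p) G W)
    (hσ : ∀ g : G, ∃ m : ℕ, σ (g ^ (p ^ m)) = 1) : ∃ w : W, w ≠ 0 ∧ ∀ g, σ g w = w := by
  let P : Subgroup (W →ₗ[ZMod p] W)ˣ := σ.asGroupHom.range
  have hP : IsPGroup p P := by
    rintro ⟨_, g, rfl⟩
    obtain ⟨m, hm⟩ := hσ g
    refine ⟨m, Subtype.ext (Units.ext ?_)⟩
    simp only [SubgroupClass.coe_pow, Units.val_pow_eq_pow_val, asGroupHom_apply, OneMemClass.coe_one,
      Units.val_one]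
    rw [← map_pow, hm]
  have hcard : p ∣ Nat.card W := by
    have : Module.Finite (ZMod p) W := Module.Finite.of_finite
    rw [Module.natCard_eq_pow_finrank (K := ZMod p) (V := W), Nat.card_zmod]
    exact dvd_pow_self p (Module.finrank_pos (R := ZMod p) (M := W)).ne'
  have h0 : (0 : W) ∈ MulAction.fixedPoints P W := fun x => smul_zero x
  obtain ⟨w, hw, hw0⟩ := hP.exists_fixed_point_of_prime_dvd_card_of_fixed_point W hcard h0
  refine ⟨w, fun h => hw0 h.symm, fun g => ?_⟩
  exact hw ⟨σ.asGroupHom g, g, rfl⟩

/-- **The unipotent lemma**, with the induction variable exposed. -/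
theorem AddFun.val_of_unipotent_aux (ψ : AddFun p G) (n : ℕ) : ∀ {W : Type} [AddCommGroup W]
    [Module (ZMod p) W] [Finite W] (σ : Representation (ZMod p) G W),
    Module.finrank (ZMod p) W = n → (∀ g : G, ∃ m : ℕ, σ (g ^ (p ^ m)) = 1) →
    ψ.val σ = n * ψ.val (Representation.trivial (ZMod p) G (ZMod p)) := by
  induction n with
  | zero =>
    intro W _ _ _ σ hn _
    have : Module.Finite (ZMod p) W := Module.Finite.of_finite
    have : Subsingleton W := Module.finrank_zero_iff.1 hn
    rw [ψ.eq_zero_of_subsingleton σ]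
    simp
  | succ n ih =>
    intro W _ _ _ σ hn hσ
    have hfin : Module.Finite (ZMod p) W := Module.Finite.of_finite
    have : Nontrivial W := Module.nontrivial_of_finrank_pos (R := ZMod p) (by rw [hn]; omega)
    obtain ⟨w, hw0, hw⟩ := exists_fixed_ne_zero σ hσ
    let L : Submodule (ZMod p) W := Submodule.span (ZMod p) {w}
    have hL : ∀ g, L ≤ L.comap (σ g) := by
      intro g x hx
      obtain ⟨c, rfl⟩ := Submodule.mem_span_singleton.1 hx
      rw [Submodule.mem_comap, map_smul, hw]
      exact Submodule.smul_mem _ _ (Submodule.mem_span_singleton_self w)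
    rw [ψ.sub_add_quot σ L hL]
    have h1 : ψ.val (σ.subrepresentation L hL) =
        ψ.val (Representation.trivial (ZMod p) G (ZMod p)) := by
      symm
      refine ψ.iso (LinearEquiv.toSpanNonzeroSingleton (ZMod p) W w hw0) (fun g c => ?_)
      apply Subtype.ext
      change c • w = σ g (c • w)
      rw [map_smul, hw]
    have hq : Module.finrank (ZMod p) (W ⧸ L) = n := by
      have h2 := Submodule.finrank_quotient_add_finrank L
      rw [hn, finrank_span_singleton hw0] at h2
      omega
    have h3 : ∀ g : G, ∃ m : ℕ, σ.quotient L hL (g ^ (p ^ m)) = 1 := by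
      intro g
      obtain ⟨m, hm⟩ := hσ g
      refine ⟨m, ?_⟩
      ext x
      simp [hm]
    have : Finite (W ⧸ L) := Finite.of_surjective _ L.mkQ_surjective
    rw [h1, ih (σ.quotient L hL) hq h3]
    push_cast
    ring

/-- **The unipotent lemma**: if every element of `G` has a `p`-power which acts trivially on the
finite `F_p`-module `W`, then `ψ(W) = dim W · ψ(F_p)`. -/
theorem AddFun.val_of_unipotent (ψ : AddFun p G) {W : Type} [AddCommGroup W]
    [Module (ZMod p) W] [Finite W] (σ : Representation (ZMod p) G W)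
    (hσ : ∀ g : G, ∃ m : ℕ, σ (g ^ (p ^ m)) = 1) :
    ψ.val σ = (Module.finrank (ZMod p) W : ℤ) *
      ψ.val (Representation.trivial (ZMod p) G (ZMod p)) :=
  ψ.val_of_unipotent_aux _ σ rfl hσ

end Unipotent

end Fermat.Agent.W56.ArtinInd0
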