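import Fermat.Agent.W56.ArtinInd0E
import Fermat.Agent.W56.ArtinInd0G
import Fermat.Agent.W56.ArtinInd0H

/-!
# Programme W56, item (EC-3): modular Artin induction, part I (assembly)

`artin_induction`: an isomorphism-invariant additive integer-valued function on the finite
`F_p[G]`-modules (`G` a finite group) which vanishes on all modules coinduced from cyclic subgroups
of order prime to `p` vanishes identically.  The statement is literally
`Fermat.Agent.W56.EulerSkel4.ArtinInduction` (helper4's contract (EC-3)).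
-/

namespace Fermat.Agent.W56.ArtinInd0

open Representation TensorProduct

section PPrime

/-- The `p'`-part of a finite cyclic group. -/
theorem exists_pprime_subgroup (B : Type*) [Group B] [Finite B] [IsCyclic B] (p : ℕ)
    [hp : Fact p.Prime] : ∃ (D : Subgroup B) (a : ℕ), IsCyclic D ∧ (Nat.card D).Coprime p ∧
      ∀ b : B, b ^ (p ^ a) ∈ D := by
  obtain ⟨b₀, hb₀⟩ := IsCyclic.exists_generator (α := B)
  obtain ⟨a, m, hm, hn⟩ := Nat.exists_eq_pow_mul_and_not_dvd (n := Nat.card B) Nat.card_pos.ne' p
    hp.out.ne_one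
  refine ⟨Subgroup.zpowers (b₀ ^ (p ^ a)), a, Subgroup.isCyclic_zpowers _, ?_, fun b => ?_⟩
  · rw [Nat.card_zpowers, orderOf_pow, orderOf_eq_card_of_forall_mem_zpowers hb₀, hn,
      Nat.gcd_eq_right (dvd_mul_right _ _), Nat.mul_div_cancel_left _ (pow_pos hp.out.pos a)]
    exact ((Nat.Prime.coprime_iff_not_dvd hp.out).2 hm).symm
  · obtain ⟨j, rfl⟩ := Subgroup.mem_zpowers_iff.1 (hb₀ b)
    have h : (b₀ ^ j) ^ (p ^ a) = (b₀ ^ (p ^ a)) ^ j := by
      rw [← zpow_natCast (b₀ ^ j), ← zpow_mul, mul_comm, zpow_mul, zpow_natCast]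
    rw [h]
    exact Subgroup.zpow_mem_zpowers _ _

end PPrime

section Assembly

variable {p : ℕ} [hp : Fact p.Prime] {G : Type} [Group G] [Finite G] (F : AddFun p G)

omit [Finite G] in
/-- The hypothesis of Artin induction, for an arbitrary injective homomorphism from a cyclic group
of order prime to `p`. -/
theorem AddFun.val_coind_of_injective
    (hind : ∀ (C : Subgroup G), IsCyclic ↥C → (Nat.card ↥C).Coprime p →
      ∀ (N : Type) [AddCommGroup N] [Module (ZMod p) N] [Finite N]
        (σ : Representation (ZMod p) ↥C N), F.val (Representation.coind C.subtype σ) = 0)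
    {C : Type} [Group C] [IsCyclic C] (ι : C →* G) (hι : Function.Injective ι)
    (hC : (Nat.card C).Coprime p) {N : Type} [AddCommGroup N] [Module (ZMod p) N] [Finite N]
    (τ : Representation (ZMod p) C N) : F.val (coind ι τ) = 0 := by
  obtain ⟨e, he⟩ := exists_coind_range_equiv ι hι τ
  rw [F.iso e he]
  refine hind ι.range ?_ ?_ N _
  · exact isCyclic_of_surjective (MonoidHom.ofInjective hι) (MonoidHom.ofInjective hι).surjective
  · rwa [← Nat.card_congr (MonoidHom.ofInjective hι).toEquiv]

/-- Under the hypothesis of Artin induction, every module coinduced from a cyclic subgroup has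
value zero. -/
theorem AddFun.val_coind_cyclic
    (hind : ∀ (C : Subgroup G), IsCyclic ↥C → (Nat.card ↥C).Coprime p →
      ∀ (N : Type) [AddCommGroup N] [Module (ZMod p) N] [Finite N]
        (σ : Representation (ZMod p) ↥C N), F.val (Representation.coind C.subtype σ) = 0)
    (B : Subgroup G) [IsCyclic B] {W : Type} [AddCommGroup W] [Module (ZMod p) W] [Finite W]
    (σ : Representation (ZMod p) B W) : F.val (coind B.subtype σ) = 0 := by
  classical
  have hp0 : NeZero p := ⟨hp.out.ne_zero⟩
  obtain ⟨D, a, hDc, hDp, hDa⟩ := exists_pprime_subgroup B p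
  have hcomm : ∀ x y : B, x * y = y * x := fun x y =>
    (IsCyclic.commGroup (α := B)).mul_comm x y
  -- the additive function `W' ↦ F (Coind_B^G (W ⊗ W'))` on `B`-modules
  let Ψ : AddFun p B := (F.coindFun B).tensorLeft σ
  -- the unipotent module `F_p[B/D]`
  have huni : ∀ b : B, ∃ m : ℕ, permFun (ZMod p) B (B ⧸ D) (b ^ (p ^ m)) = 1 := by
    intro b
    refine ⟨a, LinearMap.ext fun h => funext fun q => ?_⟩
    obtain ⟨y, rfl⟩ := QuotientGroup.mk_surjective q
    rw [permFun_apply, Module.End.one_apply, MulAction.Quotient.smul_mk]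
    congr 1
    rw [QuotientGroup.eq, smul_eq_mul, mul_inv_rev, inv_inv, hcomm y⁻¹, mul_assoc,
      inv_mul_cancel, mul_one]
    exact hDa b
  have h1 := Ψ.val_of_unipotent (permFun (ZMod p) B (B ⧸ D)) huni
  -- the left-hand side vanishes
  have h2 : Ψ.val (permFun (ZMod p) B (B ⧸ D)) = 0 := by
    obtain ⟨e1, he1⟩ := exists_tprod_permFun_equiv σ D
    obtain ⟨e2, he2⟩ := exists_coind_coind_equiv D.subtype B.subtype (σ.comp D.subtype)
    change (F.coindFun B).val (σ.tprod (permFun (ZMod p) B (B ⧸ D))) = 0
    rw [(F.coindFun B).iso e1 he1, AddFun.coindFun_val, F.iso e2 he2]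
    have : IsCyclic D := hDc
    exact F.val_coind_of_injective hind (B.subtype.comp D.subtype)
      (B.subtype_injective.comp D.subtype_injective) hDp _
  -- the trivial module gives back `Coind σ`
  have h3 : Ψ.val (Representation.trivial (ZMod p) B (ZMod p)) = F.val (coind B.subtype σ) := by
    change (F.coindFun B).val (σ.tprod (Representation.trivial (ZMod p) B (ZMod p))) = _
    rw [← AddFun.coindFun_val]
    refine (F.coindFun B).iso (TensorProduct.rid (ZMod p) W) (fun g x => ?_)
    induction x using TensorProduct.induction_on with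
    | zero => simp
    | tmul v c => simp
    | add x y hx hy => rw [map_add, map_add, hx, hy, map_add, map_add]
  rw [h2, h3] at h1
  have h4 : (Module.finrank (ZMod p) (B ⧸ D → ZMod p) : ℤ) ≠ 0 := by
    let _ : Fintype (↥B ⧸ D) := Fintype.ofFinite _
    rw [Module.finrank_fintype_fun_eq_card]
    exact_mod_cast Fintype.card_ne_zero
  exact (mul_eq_zero.1 h1.symm).resolve_left h4

/-- Artin induction for an `AddFun`. -/
theorem AddFun.eq_zero_of_coind
    (hind : ∀ (C : Subgroup G), IsCyclic ↥C → (Nat.card ↥C).Coprime p →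
      ∀ (N : Type) [AddCommGroup N] [Module (ZMod p) N] [Finite N]
        (σ : Representation (ZMod p) ↥C N), F.val (Representation.coind C.subtype σ) = 0)
    {V : Type} [AddCommGroup V] [Module (ZMod p) V] [Finite V]
    (ρ : Representation (ZMod p) G V) : F.val ρ = 0 := by
  classical
  let _ : Fintype (Subgroup G) := Fintype.ofFinite _
  let ψ : AddFun p G := F.tensorLeft ρ
  obtain ⟨c, hc0, hc⟩ := ψ.exists_artin_relation
  -- every term of the relation vanishes
  have hterm : ∀ B : Subgroup G, c B * ψ.val (permFun (ZMod p) G (G ⧸ B)) = 0 := by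
    intro B
    by_cases hB : IsCyclic B
    · obtain ⟨e, he⟩ := exists_tprod_permFun_equiv ρ B
      change c B * F.val (ρ.tprod (permFun (ZMod p) G (G ⧸ B))) = 0
      rw [F.iso e he, F.val_coind_cyclic hind B, mul_zero]
    · rw [hc0 B hB, zero_mul]
  rw [Finset.sum_eq_zero (fun B _ => hterm B)] at hc
  have hG : (Nat.card G : ℤ) ≠ 0 := by exact_mod_cast Nat.card_pos.ne'
  have h1 : ψ.val (permFun (ZMod p) G (G ⧸ (⊤ : Subgroup G))) = 0 :=
    (mul_eq_zero.1 hc.symm).resolve_left hG
  -- `F_p[G/G]` is the trivial module, and `V ⊗ F_p = V`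
  have hsub : Subsingleton (G ⧸ (⊤ : Subgroup G)) := QuotientGroup.subsingleton_quotient_top
  let _ : Unique (G ⧸ (⊤ : Subgroup G)) :=
    { default := ((1 : G) : G ⧸ (⊤ : Subgroup G)), uniq := fun _ => Subsingleton.elim _ _ }
  have h2 : ψ.val (permFun (ZMod p) G (G ⧸ (⊤ : Subgroup G))) =
      ψ.val (Representation.trivial (ZMod p) G (ZMod p)) := by
    refine ψ.iso (LinearEquiv.funUnique (G ⧸ (⊤ : Subgroup G)) (ZMod p) (ZMod p)) (fun g h => ?_)
    change h (g⁻¹ • default) = h default
    rw [Subsingleton.elim (g⁻¹ • default) default]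
  have h3 : ψ.val (Representation.trivial (ZMod p) G (ZMod p)) = F.val ρ := by
    change F.val (ρ.tprod (Representation.trivial (ZMod p) G (ZMod p))) = _
    refine F.iso (TensorProduct.rid (ZMod p) V) (fun g x => ?_)
    induction x using TensorProduct.induction_on with
    | zero => simp
    | tmul v c => simp
    | add x y hx hy => rw [map_add, map_add, hx, hy, map_add, map_add]
  rw [← h3, ← h2, h1]

end Assembly

/-- **Modular Artin induction** (contract (EC-3) of programme W56, literally
`Fermat.Agent.W56.EulerSkel4.ArtinInduction`): an isomorphism-invariant additive function on the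
finite `𝔽_p[G]`-modules which vanishes on the modules coinduced from the cyclic subgroups of order
prime to `p` vanishes. -/
theorem artin_induction :
    ∀ (G : Type) [Group G] [Finite G] (p : ℕ) [Fact p.Prime]
    (f : ∀ (V : Type) [AddCommGroup V] [Module (ZMod p) V], Representation (ZMod p) G V → ℤ),
    (∀ (V V' : Type) [AddCommGroup V] [Module (ZMod p) V] [AddCommGroup V'] [Module (ZMod p) V']
      (ρ : Representation (ZMod p) G V) (ρ' : Representation (ZMod p) G V')
      (e : V ≃ₗ[ZMod p] V'), (∀ g v, e (ρ g v) = ρ' g (e v)) → f V ρ = f V' ρ') →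
    (∀ (A B C : Type) [AddCommGroup A] [Module (ZMod p) A] [Finite A]
      [AddCommGroup B] [Module (ZMod p) B] [Finite B] [AddCommGroup C] [Module (ZMod p) C]
      [Finite C] (ρA : Representation (ZMod p) G A) (ρB : Representation (ZMod p) G B)
      (ρC : Representation (ZMod p) G C) (φ : A →ₗ[ZMod p] B) (ψ : B →ₗ[ZMod p] C),
      (∀ g a, φ (ρA g a) = ρB g (φ a)) → (∀ g b, ψ (ρB g b) = ρC g (ψ b)) →
      Function.Injective φ → Function.Surjective ψ → (∀ b, ψ b = 0 ↔ ∃ a, φ a = b) →
      f B ρB = f A ρA + f C ρC) →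
    (∀ (C : Subgroup G), IsCyclic ↥C → (Nat.card ↥C).Coprime p →
      ∀ (N : Type) [AddCommGroup N] [Module (ZMod p) N] [Finite N]
        (σ : Representation (ZMod p) ↥C N), f _ (Representation.coind C.subtype σ) = 0) →
    ∀ (V : Type) [AddCommGroup V] [Module (ZMod p) V] [Finite V]
      (ρ : Representation (ZMod p) G V), f V ρ = 0 := by
  intro G _ _ p _ f hiso hadd hind V _ _ _ ρ
  let F : AddFun p G :=
    { toFun := f
      iso' := hiso
      add' := fun A B C _ _ _ _ _ _ _ _ _ ρA ρB ρC φ ψ hφ hψ hi hs hex =>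
        hadd A B C ρA ρB ρC φ ψ hφ hψ hi hs hex }
  exact F.eq_zero_of_coind hind ρ

end Fermat.Agent.W56.ArtinInd0
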