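/-
Programme W56 (target S56), stage 2, chapter (EC-4), helper4: invariance of the Euler characteristic
of level cohomology under equivariant isomorphisms, and **the archimedean term**
`archTerm c A = dim A − dim A^{c = 1}` of an involution `c` (characteristic `≠ 2`): invariance
under isomorphisms and additivity on short exact sequences.
-/
import Mathlib
import Fermat.Agent.PT.PRO.ShapiroSm28
import Fermat.Agent.W56.ChiLev4

set_option autoImplicit false
set_option linter.unusedSectionVars false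

universe u

open CategoryTheory groupCohomology

namespace Fermat.Agent.W56.ChiArch4

open Fermat.Agent.PT.PRO.LevelCoh28 Fermat.Agent.PT.PRO.LevelCohRes28
  Fermat.Agent.PT.PRO.ShapiroSm28 Fermat.Agent.W56.ChiLev4

/-! ### Short exact sequences of vector spaces -/

section SES

variable {k : Type*} [Field k] {A B C : Type*} [AddCommGroup A] [Module k A]
  [AddCommGroup B] [Module k B] [AddCommGroup C] [Module k C] [FiniteDimensional k B]

theorem finrank_eq_add_of_exact (φ : A →ₗ[k] B) (ψ : B →ₗ[k] C) (hinj : Function.Injective φ)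
    (hsurj : Function.Surjective ψ) (hex : ∀ b, ψ b = 0 ↔ ∃ a, φ a = b) :
    Module.finrank k B = Module.finrank k A + Module.finrank k C := by
  have h := LinearMap.finrank_range_add_finrank_ker ψ
  rw [LinearMap.range_eq_top.2 hsurj, finrank_top] at h
  have hker : LinearMap.ker ψ = LinearMap.range φ := by
    ext b
    rw [LinearMap.mem_ker, LinearMap.mem_range]
    exact hex b
  rw [hker, LinearMap.finrank_range_of_inj hinj] at h
  omega

end SES

/-! ### Invariance of `chiLev` under isomorphisms -/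

section Congr

variable {k G : Type u} [Field k] [Group G] {𝓑 : LevelBasis G} {A B : Rep.{u} k G}
  (Φ : A →ₗ[k] B) (hΦ : ∀ g a, Φ (A.ρ g a) = B.ρ g (Φ a)) (hbij : Function.Bijective Φ)

include hbij in
theorem invMap_bijective : Function.Bijective (invMap Φ hΦ) := by
  refine ⟨invMap_injective Φ hΦ hbij.1, fun b => ?_⟩
  obtain ⟨a, ha⟩ := hbij.2 b.1
  refine ⟨⟨a, fun g => hbij.1 ?_⟩, Subtype.ext ha⟩
  rw [hΦ, ha, b.2 g]

include hΦ hbij in
/-- An equivariant linear bijection preserves the Euler characteristic. -/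
theorem chiLev_congr : chiLev 𝓑 A = chiLev 𝓑 B := by
  unfold chiLev
  rw [(LinearEquiv.ofBijective _ (invMap_bijective Φ hΦ hbij)).finrank_eq,
    (LinearEquiv.ofBijective _ (mapH1_bijective (𝓑 := 𝓑) Φ hΦ hbij)).finrank_eq,
    (LinearEquiv.ofBijective _ (mapH2_bijective (𝓑 := 𝓑) Φ hΦ hbij)).finrank_eq]

end Congr

/-! ### The archimedean term -/

section Arch

variable {k G : Type u} [Field k] [Group G] (c : G)

/-- The fixed space of `c`. -/
def fixedOf (A : Rep.{u} k G) : Submodule k A where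
  carrier := {a | A.ρ c a = a}
  add_mem' := fun {a b} ha hb => by
    show A.ρ c (a + b) = a + b
    rw [map_add, ha, hb]
  zero_mem' := map_zero _
  smul_mem' := fun r a ha => by
    show A.ρ c (r • a) = r • a
    rw [map_smul, ha]

theorem mem_fixedOf {A : Rep.{u} k G} (a : A) : a ∈ fixedOf c A ↔ A.ρ c a = a := Iff.rfl

/-- `dim A − dim A^{c = 1}`. -/
noncomputable def archTerm (A : Rep.{u} k G) : ℤ :=
  (Module.finrank k A : ℤ) - Module.finrank k ↥(fixedOf c A)

variable {c} {A B C : Rep.{u} k G}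

/-- The map induced on `c`-fixed vectors. -/
def fixMap (φ : A →ₗ[k] B) (hφ : ∀ g a, φ (A.ρ g a) = B.ρ g (φ a)) :
    ↥(fixedOf c A) →ₗ[k] ↥(fixedOf c B) :=
  (φ ∘ₗ (fixedOf c A).subtype).codRestrict (fixedOf c B) fun a => by
    show B.ρ c (φ a.1) = φ a.1
    rw [← hφ, a.2]

theorem archTerm_congr (Φ : A →ₗ[k] B) (hΦ : ∀ g a, Φ (A.ρ g a) = B.ρ g (Φ a))
    (hbij : Function.Bijective Φ) : archTerm c A = archTerm c B := by
  unfold archTerm
  have h1 : Module.finrank k A = Module.finrank k B :=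
    (LinearEquiv.ofBijective Φ hbij).finrank_eq
  have h2 : Function.Bijective (fixMap (c := c) Φ hΦ) := by
    refine ⟨fun a a' h => Subtype.ext (hbij.1 (congrArg Subtype.val h)), fun b => ?_⟩
    obtain ⟨a, ha⟩ := hbij.2 b.1
    refine ⟨⟨a, hbij.1 ?_⟩, Subtype.ext ha⟩
    rw [hΦ, ha, b.2]
  rw [h1, (LinearEquiv.ofBijective _ h2).finrank_eq]

/-- **Additivity of the archimedean term** on short exact sequences (`c` an involution,
characteristic `≠ 2`). -/
theorem archTerm_add [FiniteDimensional k B] (h2 : (2 : k) ≠ 0) (hcc : c * c = 1)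
    (φ : A →ₗ[k] B) (hφ : ∀ g a, φ (A.ρ g a) = B.ρ g (φ a))
    (ψ : B →ₗ[k] C) (hψ : ∀ g b, ψ (B.ρ g b) = C.ρ g (ψ b))
    (hinj : Function.Injective φ) (hsurj : Function.Surjective ψ)
    (hex : ∀ b, ψ b = 0 ↔ ∃ a, φ a = b) :
    archTerm c B = archTerm c A + archTerm c C := by
  have e1 := finrank_eq_add_of_exact φ ψ hinj hsurj hex
  have hBcc : ∀ b : B, B.ρ c (B.ρ c b) = b := fun b => by
    rw [← Module.End.mul_apply, ← map_mul, hcc, map_one, Module.End.one_apply]
  have e2 := finrank_eq_add_of_exact (fixMap (c := c) φ hφ) (fixMap (c := c) ψ hψ)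
    (fun a a' h => Subtype.ext (hinj (congrArg Subtype.val h)))
    (by
      intro x
      obtain ⟨b, hb⟩ := hsurj x.1
      have hb2 : ψ (B.ρ c b) = x.1 := by rw [hψ, hb, x.2]
      refine ⟨⟨(2 : k)⁻¹ • (b + B.ρ c b), ?_⟩, Subtype.ext ?_⟩
      · show B.ρ c ((2 : k)⁻¹ • (b + B.ρ c b)) = (2 : k)⁻¹ • (b + B.ρ c b)
        rw [map_smul, map_add, hBcc, add_comm]
      · show ψ ((2 : k)⁻¹ • (b + B.ρ c b)) = x.1
        rw [map_smul, map_add, hb, hb2, ← two_smul k x.1, smul_smul, inv_mul_cancel₀ h2,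
          one_smul])
    (by
      intro b
      constructor
      · intro hb
        have hb0 : ψ b.1 = 0 := congrArg Subtype.val hb
        obtain ⟨a, ha⟩ := (hex b.1).1 hb0
        refine ⟨⟨a, hinj ?_⟩, Subtype.ext ha⟩
        rw [hφ, ha, b.2]
      · rintro ⟨a, rfl⟩
        exact Subtype.ext ((hex _).2 ⟨a.1, rfl⟩))
  unfold archTerm
  omega

end Arch

end Fermat.Agent.W56.ChiArch4
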