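/-
Programme W56 (target S56), stage 2, chapter (EC-4), helper4: **inflation of a coinduced module of
a finite quotient is a smooth coinduced module**.

`G₀` a group with a level basis `𝓑`, `U ∈ 𝓑` normal, `π : G₀ → G₀ ⧸ U`, `C ≤ G₀ ⧸ U`,
`Ĉ = π⁻¹ C`, `σ` a representation of `C` on `N`.  Then, as representations of `G₀`,

  `(coind_C^{G₀/U} σ) ∘ π  ≅  Coind^sm_{Ĉ → G₀} (σ ∘ (Ĉ → C))`       (`F ↦ F ∘ π`),

Mathlib's `Representation.coind` on the left, the tree's `SmoothCoind28.scoind` on the right.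
-/
import Mathlib
import Fermat.Agent.PT.PRO.SmoothCoind28

set_option autoImplicit false
set_option linter.unusedSectionVars false

open CategoryTheory

namespace Fermat.Agent.W56.InflCoind4

open Fermat.Agent.PT.PRO.LevelCoh28 Fermat.Agent.PT.PRO.SmoothCoind28

variable {k G₀ : Type} [CommRing k] [Group G₀] (𝓑 : LevelBasis G₀)
  (U : Subgroup G₀) [hU : U.Normal] (hU𝓑 : U ∈ 𝓑.sets)
  (C : Subgroup (G₀ ⧸ U)) {N : Type} [AddCommGroup N] [Module k N]
  (σ : Representation k ↥C N)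

theorem mk_eq_one {s : G₀} (hs : s ∈ U) : QuotientGroup.mk' U s = 1 :=
  (QuotientGroup.eq_one_iff s).2 hs

/-- The preimage of `C` in `G₀`. -/
def pre : Subgroup G₀ := C.comap (QuotientGroup.mk' U)

/-- `Ĉ → C`. -/
def toC : ↥(pre U C) →* ↥C := (QuotientGroup.mk' U).subgroupComap C

@[simp] theorem coe_toC (h : ↥(pre U C)) : ((toC U C h : ↥C) : G₀ ⧸ U) = QuotientGroup.mk' U h.1 :=
  rfl

/-- The inflation of `σ` to `Ĉ`. -/
noncomputable def inflSub : Rep.{0} k ↥(pre U C) := Rep.of (σ.comp (toC U C))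

/-- The inflation to `G₀` of a representation of `G₀ ⧸ U`. -/
noncomputable def infl {V : Type} [AddCommGroup V] [Module k V]
    (ρ : Representation k (G₀ ⧸ U) V) : Rep.{0} k G₀ :=
  Rep.of (ρ.comp (QuotientGroup.mk' U))

theorem infl_ρ {V : Type} [AddCommGroup V] [Module k V] (ρ : Representation k (G₀ ⧸ U) V)
    (g : G₀) (v : V) : (infl U ρ).ρ g v = ρ (QuotientGroup.mk' U g) v := rfl

theorem inflSub_ρ (h : ↥(pre U C)) (n : N) : (inflSub U C σ).ρ h n = σ (toC U C h) n := rfl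

include hU𝓑 in
/-- Inflated representations are discrete. -/
theorem isDiscrete_infl {V : Type} [AddCommGroup V] [Module k V]
    (ρ : Representation k (G₀ ⧸ U) V) : IsDiscrete 𝓑.sets (infl U ρ) := fun v =>
  ⟨U, hU𝓑, fun s hs => by
    rw [infl_ρ]
    have : QuotientGroup.mk' U s = 1 := (QuotientGroup.eq_one_iff s).2 hs
    rw [this, map_one, Module.End.one_apply]⟩

/-- A function on the quotient, composed with `π`, is a level function. -/
theorem isLevel₁_comp_mk {X : Type*} (F : G₀ ⧸ U → X) (hU𝓑 : U ∈ 𝓑.sets) :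
    IsLevel₁ 𝓑.sets (F ∘ QuotientGroup.mk' U) :=
  ⟨U, hU𝓑, fun g s hs => by
    show F (QuotientGroup.mk' U (g * s)) = F (QuotientGroup.mk' U g)
    rw [map_mul, mk_eq_one U hs, mul_one]⟩

/-- `F ↦ F ∘ π`. -/
noncomputable def toScoind (hU𝓑 : U ∈ 𝓑.sets) :
    infl U (Representation.coind C.subtype σ) →ₗ[k]
      scoind (k := k) (pre U C).subtype 𝓑 (inflSub U C σ) where
  toFun F := ⟨F.1 ∘ QuotientGroup.mk' U, fun h g => by
      show F.1 (QuotientGroup.mk' U (((pre U C).subtype h) * g)) =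
        σ (toC U C h) (F.1 (QuotientGroup.mk' U g))
      rw [map_mul]
      exact F.2 (toC U C h) (QuotientGroup.mk' U g),
    isLevel₁_comp_mk 𝓑 U F.1 hU𝓑⟩
  map_add' _ _ := rfl
  map_smul' _ _ := rfl

theorem toScoind_apply (hU𝓑 : U ∈ 𝓑.sets) (F : infl U (Representation.coind C.subtype σ))
    (g : G₀) : (toScoind 𝓑 U C σ hU𝓑 F).1 g = F.1 (QuotientGroup.mk' U g) := rfl

theorem toScoind_equivariant (hU𝓑 : U ∈ 𝓑.sets) (g : G₀)
    (F : infl U (Representation.coind C.subtype σ)) :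
    toScoind 𝓑 U C σ hU𝓑 ((infl U (Representation.coind C.subtype σ)).ρ g F) =
      (scoind (k := k) (pre U C).subtype 𝓑 (inflSub U C σ)).ρ g (toScoind 𝓑 U C σ hU𝓑 F) := by
  refine Subtype.ext (funext fun x => ?_)
  show F.1 (QuotientGroup.mk' U x * QuotientGroup.mk' U g) = F.1 (QuotientGroup.mk' U (x * g))
  rw [map_mul]

theorem toScoind_injective (hU𝓑 : U ∈ 𝓑.sets) : Function.Injective (toScoind 𝓑 U C σ hU𝓑) := by
  intro F F' h
  refine Subtype.ext (funext fun x => ?_)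
  obtain ⟨g, rfl⟩ := QuotientGroup.mk'_surjective U x
  exact congrFun (congrArg Subtype.val h) g

/-- Elements of the smooth coinduced module of an inflated module are right `U`-invariant. -/
theorem scoind_apply_mul (f : scoind (k := k) (pre U C).subtype 𝓑 (inflSub U C σ)) (g : G₀)
    {u : G₀} (hu : u ∈ U) : f.1 (g * u) = f.1 g := by
  have hmem : g * u * g⁻¹ ∈ pre U C := by
    show QuotientGroup.mk' U (g * u * g⁻¹) ∈ C
    have : QuotientGroup.mk' U (g * u * g⁻¹) = 1 :=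
      (QuotientGroup.eq_one_iff _).2 (hU.conj_mem u hu g)
    rw [this]
    exact C.one_mem
  have h1 := f.2.1 ⟨g * u * g⁻¹, hmem⟩ g
  have h2 : (pre U C).subtype ⟨g * u * g⁻¹, hmem⟩ * g = g * u := by
    show g * u * g⁻¹ * g = g * u
    group
  rw [h2] at h1
  rw [h1, inflSub_ρ]
  have h3 : toC U C ⟨g * u * g⁻¹, hmem⟩ = 1 := by
    apply Subtype.ext
    show QuotientGroup.mk' U (g * u * g⁻¹) = 1
    exact (QuotientGroup.eq_one_iff _).2 (hU.conj_mem u hu g)
  rw [h3, map_one, Module.End.one_apply]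

theorem toScoind_surjective (hU𝓑 : U ∈ 𝓑.sets) : Function.Surjective (toScoind 𝓑 U C σ hU𝓑) := by
  intro f
  have hwd : ∀ a b : G₀, QuotientGroup.leftRel U a b → f.1 a = f.1 b := by
    intro a b hab
    have h1 : a⁻¹ * b ∈ U := QuotientGroup.leftRel_apply.mp hab
    have h2 := scoind_apply_mul 𝓑 U C σ f a h1
    rw [mul_inv_cancel_left] at h2
    exact h2.symm
  let F : G₀ ⧸ U → N := Quotient.lift f.1 hwd
  have hF : ∀ g : G₀, F (QuotientGroup.mk' U g) = f.1 g := fun g => rfl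
  have hFmem : F ∈ Representation.coindV C.subtype σ := by
    intro c x
    obtain ⟨g, rfl⟩ := QuotientGroup.mk'_surjective U x
    obtain ⟨h, hh⟩ := QuotientGroup.mk'_surjective U c.1
    have hmem : h ∈ pre U C := by
      show QuotientGroup.mk' U h ∈ C
      rw [hh]; exact c.2
    have h1 := f.2.1 ⟨h, hmem⟩ g
    have h2 : toC U C ⟨h, hmem⟩ = c := Subtype.ext hh
    show F (C.subtype c * QuotientGroup.mk' U g) = σ c (F (QuotientGroup.mk' U g))
    rw [hF, ← h2]
    have h3 : C.subtype (toC U C ⟨h, hmem⟩) * QuotientGroup.mk' U g =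
        QuotientGroup.mk' U (h * g) := by
      rw [map_mul]; rfl
    rw [h3, hF]
    exact h1
  exact ⟨⟨F, hFmem⟩, Subtype.ext (funext fun g => rfl)⟩

theorem toScoind_bijective (hU𝓑 : U ∈ 𝓑.sets) : Function.Bijective (toScoind 𝓑 U C σ hU𝓑) :=
  ⟨toScoind_injective 𝓑 U C σ hU𝓑, toScoind_surjective 𝓑 U C σ hU𝓑⟩

end Fermat.Agent.W56.InflCoind4
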