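/-
Programme W56 (target S56), stage 2, chapter (EC-4), helper4: **Tate's reduction of the global Euler
characteristic formula** to four named statements:

* `ArtinInduction` (EC-3): modular Artin induction for additive functions on `𝔽_p[G]`-modules
  (the literal statement of `W56/ArtinInd0.artin_induction`, lead);
* `RightExactH2` (EC-2): `H²(G_T, ·)` is right exact on finite modules (`cd_p G_T ≤ 2`);
* `EulerDefs4.FiniteH2` (E2): `H²(G_T, M)` is finite;
* `BaseCase` (EC-5): the formula for the modules of a cyclic quotient of order prime to `p` of an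
  open subgroup `Ĉ = Gal(ℚ̄/E) ⊇ U = Gal(ℚ̄/K)`, `ζ_p ∈ K`.

Result: `chi_add_arch_eq_zero`: for a finite discrete `𝔽_p[G_T]`-module `M` (`p` odd, `p ∈ T`),
`dim H⁰ − dim H¹ + dim H² + dim M − dim M^{c=1} = 0`.
-/
import Mathlib
import Fermat.Prelude.Def_GaloisRep_ComplexConjugation
import Fermat.Agent.PT.BR.DualTwist7
import Fermat.Agent.W56.Defs9
import Fermat.Agent.W56.GWCount4
import Fermat.Agent.W56.EulerDefs4
import Fermat.Agent.W56.FinH1g0
import Fermat.Agent.W56.ChiLev4
import Fermat.Agent.W56.ChiShapiro4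
import Fermat.Agent.W56.ChiArch4
import Fermat.Agent.W56.InflCoind4

set_option autoImplicit false
set_option linter.unusedSectionVars false
set_option linter.style.haveILetI false

open CategoryTheory ExtCitation

namespace Fermat.Agent.W56.EulerSkel4

open Fermat.Agent.PT.PRO Fermat.Agent.PT.BR Fermat.Agent.PT.PRO.LevelCoh28
  Fermat.Agent.PT.PRO.LevelCohRes28 Fermat.Agent.PT.PRO.SmoothCoind28
  Fermat.Agent.W56.Defs9 Fermat.Agent.W56.GWCount4 Fermat.Agent.W56.EulerDefs4
  Fermat.Agent.W56.ChiLev4 Fermat.Agent.W56.ChiShapiro4 Fermat.Agent.W56.ChiArch4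
  Fermat.Agent.W56.InflCoind4
open Fermat.Agent.S14.Fields (zeta zeta_spec Kz zeta_mem_Kz)

local notation "Γ" => (AlgebraicClosure ℚ ≃ₐ[ℚ] AlgebraicClosure ℚ)
local notation "Qbar" => AlgebraicClosure ℚ

/-! ### The four contracts -/

/-- (EC-3) **Modular Artin induction**: an isomorphism-invariant additive function on the finite
`𝔽_p[G]`-modules which vanishes on the modules coinduced from the cyclic subgroups of order prime
to `p` vanishes. -/
def ArtinInduction : Prop :=
  ∀ (G : Type) [Group G] [Finite G] (p : ℕ) [Fact p.Prime]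
    (f : ∀ (V : Type) [AddCommGroup V] [Module (ZMod p) V], Representation (ZMod p) G V → ℤ),
    (∀ (V V' : Type) [AddCommGroup V] [Module (ZMod p) V] [AddCommGroup V'] [Module (ZMod p) V']
      (ρ : Representation (ZMod p) G V) (ρ' : Representation (ZMod p) G V')
      (e : V ≃ₗ[ZMod p] V'), (∀ g v, e (ρ g v) = ρ' g (e v)) → f V ρ = f V' ρ') →
    (∀ (A B C : Type) [AddCommGroup A] [Module (ZMod p) A] [Finite A]
      [AddCommGroup B] [Module (ZMod p) B] [Finite B] [AddCommGroup C] [Module (ZMod p) C]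
      [Finite C] (ρA : Representation (ZMod p) G A) (ρB : Representation (ZMod p) G B)
      (ρC : Representation (ZMod p) G C) (φ : A →ₗ[ZMod p] B) (ψ : B →ₗ[ZMod p] C),
      (∀ g a, φ (ρA g a) = ρB g (φ a)) → (∀ g b, ψ (ρB g b) = ρC g (ψ b)) →
      Function.Injective φ → Function.Surjective ψ → (∀ b, ψ b = 0 ↔ ∃ a, φ a = b) →
      f B ρB = f A ρA + f C ρC) →
    (∀ (C : Subgroup G), IsCyclic ↥C → (Nat.card ↥C).Coprime p →
      ∀ (N : Type) [AddCommGroup N] [Module (ZMod p) N] [Finite N]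
        (σ : Representation (ZMod p) ↥C N), f _ (Representation.coind C.subtype σ) = 0) →
    ∀ (V : Type) [AddCommGroup V] [Module (ZMod p) V] [Finite V]
      (ρ : Representation (ZMod p) G V), f V ρ = 0

/-- (EC-2) **`H²(G_T, ·)` is right exact** on finite discrete `𝔽_p`-modules (`p` odd, `p ∈ T`). -/
def RightExactH2 : Prop :=
  ∀ (p : ℕ) [Fact p.Prime], p ≠ 2 → ∀ (T : Finset Nat.Primes), pPrime p ∈ T →
  ∀ (A B : Rep.{0} (ZMod p) Γ) [Finite A] [Finite B] (ψ : A →ₗ[ZMod p] B)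
    (hψ : ∀ g a, ψ (A.ρ g a) = B.ρ g (ψ a)), Function.Surjective ψ →
    IsDiscrete (LevelBridge13.globalBasis T).sets A →
    Function.Surjective (mapH2 (𝓑 := LevelBridge13.globalBasis T) ψ hψ)

/-- (EC-5) **The base case**: `U = Gal(ℚ̄/K) ◁ Γ`, `K` unramified outside `T`, `ζ_p ∈ K`,
`C ≤ Γ/U` cyclic of order prime to `p`, `Ĉ = Gal(ℚ̄/E)` its preimage, `σ` a finite
`𝔽_p[C]`-module: `χ(G_{E,T}, σ) + (archimedean term of E) = 0`, the archimedean term being that of
the coinduced module. -/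
def BaseCase : Prop :=
  ∀ (p : ℕ) [Fact p.Prime], p ≠ 2 → ∀ (T : Finset Nat.Primes), pPrime p ∈ T →
  ∀ (U : Subgroup Γ) [U.Normal], U ∈ (LevelBridge13.globalBasis T).sets →
    (∀ u ∈ U, u (zeta p) = zeta p) →
  ∀ (C : Subgroup (Γ ⧸ U)), IsCyclic ↥C → (Nat.card ↥C).Coprime p →
  ∀ (N : Type) [AddCommGroup N] [Module (ZMod p) N] [Finite N]
    (σ : Representation (ZMod p) ↥C N),
    chiLev (LevelBridge13.pullBasisS (pre U C).subtype T) (inflSub U C σ) +
      archTerm complexConjugation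
        (scoind (k := ZMod p) (pre U C).subtype (LevelBridge13.globalBasis T) (inflSub U C σ)) = 0

/-! ### The function on the modules of a finite quotient -/

section Quot

variable (p : ℕ) [Fact p.Prime] (T : Finset Nat.Primes) (U : Subgroup Γ) [U.Normal]

/-- `χ(G_T, infl ρ) + dim (infl ρ)^{c = -1}`. -/
noncomputable def fQ (V : Type) [AddCommGroup V] [Module (ZMod p) V]
    (ρ : Representation (ZMod p) (Γ ⧸ U) V) : ℤ :=
  chiLev (LevelBridge13.globalBasis T) (infl U ρ) + archTerm complexConjugation (infl U ρ)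

theorem fQ_iso (V V' : Type) [AddCommGroup V] [Module (ZMod p) V] [AddCommGroup V']
    [Module (ZMod p) V'] (ρ : Representation (ZMod p) (Γ ⧸ U) V)
    (ρ' : Representation (ZMod p) (Γ ⧸ U) V') (e : V ≃ₗ[ZMod p] V')
    (he : ∀ g v, e (ρ g v) = ρ' g (e v)) : fQ p T U V ρ = fQ p T U V' ρ' := by
  unfold fQ
  have hΦ : ∀ (g : Γ) (a : infl U ρ), (e : V →ₗ[ZMod p] V') ((infl U ρ).ρ g a) =
      (infl U ρ').ρ g ((e : V →ₗ[ZMod p] V') a) := fun g a => he _ a
  rw [chiLev_congr (𝓑 := LevelBridge13.globalBasis T) (A := infl U ρ) (B := infl U ρ')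
      (e : V →ₗ[ZMod p] V') hΦ e.bijective,
    archTerm_congr (c := complexConjugation) (A := infl U ρ) (B := infl U ρ')
      (e : V →ₗ[ZMod p] V') hΦ e.bijective]

end Quot


section Quot2

variable (p : ℕ) [Fact p.Prime] (hp2 : p ≠ 2) (T : Finset Nat.Primes) (hpT : pPrime p ∈ T)
  (U : Subgroup Γ) [U.Normal] (hU : U ∈ (LevelBridge13.globalBasis T).sets)

include hp2 in
theorem two_ne_zero_zmod : (2 : ZMod p) ≠ 0 := by
  intro h
  have h3 : ((2 : ℕ) : ZMod p) = 0 := by exact_mod_cast h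
  rw [ZMod.natCast_eq_zero_iff] at h3
  have hp : p.Prime := Fact.out
  exact hp2 ((Nat.prime_dvd_prime_iff_eq hp Nat.prime_two).1 h3)

include hpT hU in
theorem finiteDimensional_H1 (hFin : FiniteH2) (V : Type) [AddCommGroup V] [Module (ZMod p) V]
    [Finite V] (ρ : Representation (ZMod p) (Γ ⧸ U) V) :
    FiniteDimensional (ZMod p) (H1 (LevelBridge13.globalBasis T) (infl U ρ)) ∧
      FiniteDimensional (ZMod p) (H2 (LevelBridge13.globalBasis T) (infl U ρ)) := by
  haveI : Finite (infl U ρ) := ‹Finite V›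
  haveI : Module.Finite (ZMod p) (infl U ρ) := Module.Finite.of_finite
  have hM := isDiscrete_infl (LevelBridge13.globalBasis T) U hU ρ
  haveI : Finite (H1g T (infl U ρ)) := FinH1g0.finite_H1g T hpT (infl U ρ) hM
  haveI : Finite (H2g T (infl U ρ)) := hFin (ZMod p) T (infl U ρ) hM
  exact ⟨Module.Finite.of_finite, Module.Finite.of_finite⟩

include hp2 hpT hU in
theorem fQ_add (hRE : RightExactH2) (hFin : FiniteH2)
    (A B C : Type) [AddCommGroup A] [Module (ZMod p) A] [Finite A]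
    [AddCommGroup B] [Module (ZMod p) B] [Finite B] [AddCommGroup C] [Module (ZMod p) C]
    [Finite C] (ρA : Representation (ZMod p) (Γ ⧸ U) A) (ρB : Representation (ZMod p) (Γ ⧸ U) B)
    (ρC : Representation (ZMod p) (Γ ⧸ U) C) (φ : A →ₗ[ZMod p] B) (ψ : B →ₗ[ZMod p] C)
    (hφ : ∀ g a, φ (ρA g a) = ρB g (φ a)) (hψ : ∀ g b, ψ (ρB g b) = ρC g (ψ b))
    (hinj : Function.Injective φ) (hsurj : Function.Surjective ψ)
    (hex : ∀ b, ψ b = 0 ↔ ∃ a, φ a = b) :
    fQ p T U B ρB = fQ p T U A ρA + fQ p T U C ρC := by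
  unfold fQ
  have hφ' : ∀ (g : Γ) (a : infl U ρA), φ ((infl U ρA).ρ g a) = (infl U ρB).ρ g (φ a) :=
    fun g a => hφ _ a
  have hψ' : ∀ (g : Γ) (b : infl U ρB), ψ ((infl U ρB).ρ g b) = (infl U ρC).ρ g (ψ b) :=
    fun g b => hψ _ b
  have hdB := isDiscrete_infl (LevelBridge13.globalBasis T) U hU ρB
  haveI : Finite (infl U ρA) := ‹Finite A›
  haveI : Finite (infl U ρB) := ‹Finite B›
  haveI : Finite (infl U ρC) := ‹Finite C›
  haveI : FiniteDimensional (ZMod p) (infl U ρA) := Module.Finite.of_finite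
  haveI : FiniteDimensional (ZMod p) (infl U ρB) := Module.Finite.of_finite
  haveI : FiniteDimensional (ZMod p) (infl U ρC) := Module.Finite.of_finite
  obtain ⟨hA1, hA2⟩ := finiteDimensional_H1 p T hpT U hU hFin A ρA
  obtain ⟨hB1, hB2⟩ := finiteDimensional_H1 p T hpT U hU hFin B ρB
  obtain ⟨hC1, hC2⟩ := finiteDimensional_H1 p T hpT U hU hFin C ρC
  have hright := hRE p hp2 T hpT (infl U ρB) (infl U ρC) ψ hψ' hsurj hdB
  have h1 := chiLev_add (𝓑 := LevelBridge13.globalBasis T) (A := infl U ρA) (B := infl U ρB)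
    (C := infl U ρC) φ hφ' ψ hψ' hinj hsurj hex hdB hright
  have h2 := archTerm_add (c := complexConjugation) (A := infl U ρA) (B := infl U ρB)
    (C := infl U ρC) (two_ne_zero_zmod p hp2) complexConjugation_mul_self φ hφ' ψ hψ' hinj hsurj
    hex
  rw [h1, h2]
  ring

end Quot2


section Ind

variable (p : ℕ) [Fact p.Prime] (hp2 : p ≠ 2) (T : Finset Nat.Primes) (hpT : pPrime p ∈ T)
  (U : Subgroup Γ) [U.Normal] (hU : U ∈ (LevelBridge13.globalBasis T).sets)

theorem isLevelHom_subtype (H : Subgroup Γ) :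
    IsLevelHom H.subtype (LevelBridge13.pullBasisS H.subtype T).sets
      (LevelBridge13.globalBasis T).sets := by
  rintro _ ⟨F, hF, rfl⟩
  exact ⟨_, ⟨F, hF, rfl⟩, le_rfl⟩

theorem induced_subtype (H : Subgroup Γ) :
    ∀ V ∈ (LevelBridge13.pullBasisS H.subtype T).sets,
      ∃ W ∈ (LevelBridge13.globalBasis T).sets, W.comap H.subtype ≤ V := by
  rintro _ ⟨F, hF, rfl⟩
  exact ⟨_, ⟨F, hF, rfl⟩, le_rfl⟩

include hU in
theorem isDiscrete_inflSub (C : Subgroup (Γ ⧸ U)) {N : Type} [AddCommGroup N]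
    [Module (ZMod p) N] (σ : Representation (ZMod p) ↥C N) :
    IsDiscrete (LevelBridge13.pullBasisS (pre U C).subtype T).sets (inflSub U C σ) := by
  obtain ⟨F, hF, hUF⟩ := hU
  intro n
  refine ⟨_, ⟨F, hF, rfl⟩, fun s hs => ?_⟩
  rw [inflSub_ρ]
  have hs' : (s : Γ) ∈ U := hUF.symm ▸ (show (s : Γ) ∈ F.fixingSubgroup from hs)
  have h1 : toC U C s = 1 := Subtype.ext (mk_eq_one U hs')
  rw [h1, map_one, Module.End.one_apply]

include hp2 hpT hU in
theorem fQ_ind (hBase : BaseCase) (hζ : ∀ u ∈ U, u (zeta p) = zeta p)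
    (C : Subgroup (Γ ⧸ U)) (hC : IsCyclic ↥C) (hCp : (Nat.card ↥C).Coprime p)
    (N : Type) [AddCommGroup N] [Module (ZMod p) N] [Finite N]
    (σ : Representation (ZMod p) ↥C N) :
    fQ p T U _ (Representation.coind C.subtype σ) = 0 := by
  unfold fQ
  have hbij := toScoind_bijective (LevelBridge13.globalBasis T) U C σ hU
  have heq := toScoind_equivariant (LevelBridge13.globalBasis T) U C σ hU
  rw [chiLev_congr (𝓑 := LevelBridge13.globalBasis T)
      (toScoind (LevelBridge13.globalBasis T) U C σ hU) heq hbij,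
    archTerm_congr (c := complexConjugation)
      (toScoind (LevelBridge13.globalBasis T) U C σ hU) heq hbij,
    chiLev_scoind (pre U C).subtype (LevelBridge13.globalBasis T)
      (LevelBridge13.pullBasisS (pre U C).subtype T) (inflSub U C σ)
      (isLevelHom_subtype T (pre U C)) (induced_subtype T (pre U C))
      (isDiscrete_inflSub p T U hU C σ)]
  exact hBase p hp2 T hpT U hU hζ C hC hCp N σ

end Ind


/-! ### Tate's reduction -/

section Main

variable (p : ℕ) [Fact p.Prime] (hp2 : p ≠ 2) (T : Finset Nat.Primes) (hpT : pPrime p ∈ T)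

include hpT in
/-- A finite discrete module is trivialised by a normal member of the basis fixing `ζ_p`. -/
theorem exists_normal_fixing (M : Rep.{0} (ZMod p) Γ) [Finite M]
    (hM : IsDiscrete (LevelBridge13.globalBasis T).sets M) :
    ∃ U ∈ (LevelBridge13.globalBasis T).sets, U.Normal ∧ (∀ s ∈ U, ∀ a : M, M.ρ s a = a) ∧
      ∀ u ∈ U, u (zeta p) = zeta p := by
  obtain ⟨U₁, hU₁, -, hfix⟩ := hM.exists_fixing (LevelBridge13.globalBasis T).isBasis
    (T := Set.univ) Set.finite_univ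
  obtain ⟨F, hF, rfl⟩ := hU₁
  have hF₀ : (F ⊔ Kz p).IsUnramifiedOutside T :=
    hF.sup (DualTwist7.isUnramifiedOutside_Kz p hpT)
  obtain ⟨V, hV, hVle, hn⟩ := (LevelBridge13.globalBasis T).isBasis.normalCore
    (F ⊔ Kz p).fixingSubgroup ⟨F ⊔ Kz p, hF₀, rfl⟩
  refine ⟨V, hV, hn, fun s hs a => ?_, fun u hu => ?_⟩
  · exact hfix s (IntermediateField.fixingSubgroup_antitone le_sup_left (hVle hs)) a
      (Set.mem_univ a)
  · have h1 : u ∈ (F ⊔ Kz p).fixingSubgroup := hVle hu
    rw [IntermediateField.mem_fixingSubgroup_iff] at h1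
    exact h1 _ ((le_sup_right : Kz p ≤ F ⊔ Kz p) (zeta_mem_Kz p))

include hp2 hpT in
/-- **Tate's global Euler characteristic formula over `ℚ`, reduced to the four contracts**:
`dim H⁰ − dim H¹ + dim H² + dim M − dim M^{c = 1} = 0`. -/
theorem chi_add_arch_eq_zero (hAI : ArtinInduction) (hRE : RightExactH2) (hFin : FiniteH2)
    (hBase : BaseCase) (M : Rep.{0} (ZMod p) Γ) [Finite M]
    (hM : IsDiscrete (LevelBridge13.globalBasis T).sets M) :
    chiLev (LevelBridge13.globalBasis T) M + archTerm complexConjugation M = 0 := by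
  obtain ⟨U, hU, hn, hfix, hζ⟩ := exists_normal_fixing p T hpT M hM
  haveI : U.Normal := hn
  haveI : U.FiniteIndex := (LevelBridge13.globalBasis T).isBasis.finiteIndex U hU
  haveI : Finite (Γ ⧸ U) := Subgroup.finite_quotient_of_finiteIndex
  have hker : U ≤ (M.ρ : Γ →* (M →ₗ[ZMod p] M)).ker := fun s hs => by
    rw [MonoidHom.mem_ker]
    exact LinearMap.ext fun a => hfix s hs a
  let ρbar : Representation (ZMod p) (Γ ⧸ U) M := QuotientGroup.lift U M.ρ hker
  have h0 := hAI (Γ ⧸ U) p (fun V _ _ ρ => fQ p T U V ρ)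
    (fun V V' _ _ _ _ ρ ρ' e he => fQ_iso p T U V V' ρ ρ' e he)
    (fun A B C _ _ _ _ _ _ _ _ _ ρA ρB ρC φ ψ hφ hψ hinj hsurj hex =>
      fQ_add p hp2 T hpT U hU hRE hFin A B C ρA ρB ρC φ ψ hφ hψ hinj hsurj hex)
    (fun C hC hCp N _ _ _ σ => fQ_ind p hp2 T hpT U hU hBase hζ C hC hCp N σ)
    M ρbar
  have hΦ : ∀ (g : Γ) (a : infl U ρbar),
      (LinearMap.id : M →ₗ[ZMod p] M) ((infl U ρbar).ρ g a) =
        M.ρ g ((LinearMap.id : M →ₗ[ZMod p] M) a) := fun g a => rfl
  have hbij : Function.Bijective (LinearMap.id : M →ₗ[ZMod p] M) := Function.bijective_id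
  have h1 := chiLev_congr (𝓑 := LevelBridge13.globalBasis T) (A := infl U ρbar) (B := M)
    (LinearMap.id : M →ₗ[ZMod p] M) hΦ hbij
  have h2 := archTerm_congr (c := complexConjugation) (A := infl U ρbar) (B := M)
    (LinearMap.id : M →ₗ[ZMod p] M) hΦ hbij
  have h3 : fQ p T U M ρbar = 0 := h0
  unfold fQ at h3
  rw [h1, h2] at h3
  exact h3

end Main

end Fermat.Agent.W56.EulerSkel4
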