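/-
Programme W56 (target S56), stage 2, chapter (EC-4), helper4: **from dimensions to cardinalities**.

For a finite discrete `𝔽_p[G_T]`-module `M` with finite `H¹`, `H²`:
`χ(G_T, M) + dim M − dim M^{c=1} = 0` is equivalent to
`#H¹(G_T,M) · #M^{c=1} = #M · #H⁰(G_T,M) · #H²(G_T,M)` (Tate's formula in the shape of the contract
`EulerDefs4.EulerCharBound`).  Together with the restriction of scalars `k → 𝔽_p` (which changes none
of the sets involved) this gives `eulerCharBound_of_contracts`:
`ArtinInduction → RightExactH2 → FiniteH2 → BaseCase → EulerCharBound`.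
-/
import Mathlib
import Fermat.Agent.W56.EulerSkel4

set_option autoImplicit false
set_option linter.unusedSectionVars false
set_option linter.style.haveILetI false

open CategoryTheory ExtCitation groupCohomology

namespace Fermat.Agent.W56.EulerCard4

open Fermat.Agent.PT.PRO Fermat.Agent.PT.BR Fermat.Agent.PT.PRO.LevelCoh28
  Fermat.Agent.W56.Defs9 Fermat.Agent.W56.GWCount4 Fermat.Agent.W56.EulerDefs4
  Fermat.Agent.W56.ChiLev4 Fermat.Agent.W56.ChiArch4 Fermat.Agent.W56.EulerSkel4

local notation "Γ" => (AlgebraicClosure ℚ ≃ₐ[ℚ] AlgebraicClosure ℚ)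

variable (p : ℕ) [Fact p.Prime]

theorem natCard_eq_pow (X : Type*) [AddCommGroup X] [Module (ZMod p) X] [Finite X] :
    Nat.card X = p ^ Module.finrank (ZMod p) X := by
  haveI : Module.Finite (ZMod p) X := Module.Finite.of_finite
  have h := Module.natCard_eq_pow_finrank (K := ZMod p) (V := X)
  rwa [Nat.card_zmod] at h

/-- **Tate's formula in cardinalities**, from the formula in dimensions. -/
theorem card_formula (T : Finset Nat.Primes) (M : Rep.{0} (ZMod p) Γ) [Finite M]
    [Finite (H1g T M)] [Finite (H2g T M)]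
    (h : chiLev (LevelBridge13.globalBasis T) M + archTerm complexConjugation M = 0) :
    Nat.card (H1g T M) * Nat.card {m : M // M.ρ complexConjugation m = m} =
      Nat.card M * Nat.card {m : M // ∀ g : Γ, M.ρ g m = m} * Nat.card (H2g T M) := by
  have e1 : Nat.card {m : M // M.ρ complexConjugation m = m} =
      Nat.card ↥(fixedOf complexConjugation M) := rfl
  have e2 : Nat.card {m : M // ∀ g : Γ, M.ρ g m = m} = Nat.card ↥M.ρ.invariants := rfl
  rw [e1, e2, natCard_eq_pow p (H1g T M), natCard_eq_pow p ↥(fixedOf complexConjugation M),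
    natCard_eq_pow p M, natCard_eq_pow p ↥M.ρ.invariants, natCard_eq_pow p (H2g T M),
    ← pow_add, ← pow_add, ← pow_add]
  congr 1
  unfold chiLev archTerm at h
  have hle : Module.finrank (ZMod p) ↥(fixedOf complexConjugation M) ≤
      Module.finrank (ZMod p) M := Submodule.finrank_le _
  show Module.finrank (ZMod p) (H1 (LevelBridge13.globalBasis T) M) +
      Module.finrank (ZMod p) ↥(fixedOf complexConjugation M) =
    Module.finrank (ZMod p) M + Module.finrank (ZMod p) ↥M.ρ.invariants +
      Module.finrank (ZMod p) (H2 (LevelBridge13.globalBasis T) M)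
  omega

/-! ### Restriction of scalars `k → 𝔽_p` -/

section RS

variable {k G : Type} [Field k] [Group G] (p : ℕ) [Fact p.Prime] [CharP k p]

/-- the `𝔽_p`-structure on a `k`-module, `char k = p`. -/
@[reducible] def zmodModule (M : Rep.{0} k G) : Module (ZMod p) M :=
  AddCommGroup.zmodModule (n := p) (G := M) (fun m => by
    rw [← Nat.cast_smul_eq_nsmul k, CharP.cast_eq_zero, zero_smul])

/-- the action, as `𝔽_p`-linear maps. -/
def resρ (M : Rep.{0} k G) : @Representation (ZMod p) G M _ _ _ (zmodModule p M) :=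
  letI := zmodModule p M
  { toFun := fun g => AddMonoidHom.toZModLinearMap p (M.ρ g).toAddMonoidHom
    map_one' := by
      ext m
      show M.ρ 1 m = m
      rw [map_one, Module.End.one_apply]
    map_mul' := fun g h => by
      ext m
      show M.ρ (g * h) m = M.ρ g (M.ρ h m)
      rw [map_mul, Module.End.mul_apply] }

/-- **Restriction of scalars** `k → 𝔽_p` of a representation. -/
def resRep (M : Rep.{0} k G) : Rep.{0} (ZMod p) G :=
  @Rep.of (ZMod p) G _ _ M _ (zmodModule p M) (resρ p M)

theorem resRep_ρ (M : Rep.{0} k G) (g : G) (m : M) : (resRep p M).ρ g m = M.ρ g m := rfl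

end RS

section RS2

variable {k G : Type} [Field k] [Group G] (p : ℕ) [Fact p.Prime] [CharP k p]
  (𝓑 : LevelBasis G) (M : Rep.{0} k G)

/-- the identity, between the two carriers. -/
def toRes {X : Type} : (X → M) ≃ (X → resRep p M) := Equiv.refl _

theorem toRes_apply {X : Type} (f : X → M) (x : X) : toRes p M f x = f x := rfl

theorem d₀₁_res (m : M) (g : G) : (d₀₁ (resRep p M)).hom m g = (d₀₁ M).hom m g := rfl

theorem d₁₂_res (f : G → M) : (d₁₂ (resRep p M)).hom (toRes p M f) = toRes p M ((d₁₂ M).hom f) :=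
  rfl

theorem mem_cocycles₁_res (f : G → M) :
    toRes p M f ∈ cocycles₁ (resRep p M) ↔ f ∈ cocycles₁ M := by
  rw [mem_cocycles₁_iff, mem_cocycles₁_iff]
  rfl

theorem mem_cocycles₂_res (f : G × G → M) :
    toRes p M f ∈ cocycles₂ (resRep p M) ↔ f ∈ cocycles₂ M := by
  rw [mem_cocycles₂_iff, mem_cocycles₂_iff]
  rfl

theorem mem_coboundaries₁_res (f : G → M) :
    toRes p M f ∈ coboundaries₁ (resRep p M) ↔ f ∈ coboundaries₁ M := by
  unfold coboundaries₁
  rw [LinearMap.mem_range, LinearMap.mem_range]
  rfl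

theorem mem_Z1_res (f : G → M) : toRes p M f ∈ Z1 𝓑 (resRep p M) ↔ f ∈ Z1 𝓑 M := by
  rw [mem_Z1_iff, mem_Z1_iff, mem_cocycles₁_res]
  rfl

theorem mem_Z2_res (f : G × G → M) : toRes p M f ∈ Z2 𝓑 (resRep p M) ↔ f ∈ Z2 𝓑 M := by
  rw [mem_Z2_iff, mem_Z2_iff, mem_cocycles₂_res]
  rfl

theorem mem_B2_res (f : G × G → M) : toRes p M f ∈ B2 𝓑 (resRep p M) ↔ f ∈ B2 𝓑 M := by
  rw [mem_B2_iff, mem_B2_iff]
  rfl

/-- `H¹` does not see the restriction of scalars. -/
def h1Equiv : H1 𝓑 M ≃ H1 𝓑 (resRep p M) :=
  Quotient.congr (Equiv.subtypeEquiv (toRes p M) fun f => (mem_Z1_res p 𝓑 M f).symm) fun a b => by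
    rw [Submodule.quotientRel_def, Submodule.quotientRel_def, Submodule.mem_comap,
      Submodule.mem_comap]
    exact (mem_coboundaries₁_res p M _).symm

/-- `H²` does not see the restriction of scalars. -/
def h2Equiv : H2 𝓑 M ≃ H2 𝓑 (resRep p M) :=
  Quotient.congr (Equiv.subtypeEquiv (toRes p M) fun f => (mem_Z2_res p 𝓑 M f).symm) fun a b => by
    rw [Submodule.quotientRel_def, Submodule.quotientRel_def, Submodule.mem_comap,
      Submodule.mem_comap]
    exact (mem_B2_res p 𝓑 M _).symm

theorem isDiscrete_res (hM : IsDiscrete 𝓑.sets M) : IsDiscrete 𝓑.sets (resRep p M) :=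
  fun a => hM a

end RS2



/-- **(EC) from the four contracts**: Tate's global Euler characteristic bound, in the shape of
`EulerDefs4.EulerCharBound`, follows from modular Artin induction (EC-3), the right exactness of
`H²` (EC-2), the finiteness of `H²` (E2) and the base case (EC-5). -/
theorem eulerCharBound_of_contracts (hAI : ArtinInduction) (hRE : RightExactH2) (hFin : FiniteH2)
    (hBase : BaseCase) : EulerCharBound := by
  intro k _ _ p _ _ hp2 T pp hpp hppT M _ hd _
  have hpT : pPrime p ∈ T := by
    have : pPrime p = pp := Subtype.ext hpp.symm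
    rw [this]
    exact hppT
  haveI : Finite M := Module.finite_of_finite k
  haveI : Finite (resRep p M) := ‹Finite M›
  haveI : Module.Finite (ZMod p) (resRep p M) := Module.Finite.of_finite
  have hd' := isDiscrete_res p (LevelBridge13.globalBasis T) M hd
  haveI : Finite (H1g T (resRep p M)) := FinH1g0.finite_H1g T hpT (resRep p M) hd'
  haveI : Finite (H2g T (resRep p M)) := hFin (ZMod p) T (resRep p M) hd'
  have h := card_formula p T (resRep p M)
    (chi_add_arch_eq_zero p hp2 T hpT hAI hRE hFin hBase (resRep p M) hd')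
  have e1 : Nat.card (H1g T M) = Nat.card (H1g T (resRep p M)) :=
    Nat.card_congr (h1Equiv p (LevelBridge13.globalBasis T) M)
  have e2 : Nat.card (H2g T M) = Nat.card (H2g T (resRep p M)) :=
    Nat.card_congr (h2Equiv p (LevelBridge13.globalBasis T) M)
  rw [e1, e2]
  exact h.le

end Fermat.Agent.W56.EulerCard4
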