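/-
Programme W56 (target S56), stage 2, helper4: **(EC) from (EC-2), (E2), (EC-5)**.

`W56/ArtinInd0I.artin_induction` (lead) is the contract `EulerSkel4.ArtinInduction`; here it is
plugged into Tate's reduction.  At the same time the finiteness contract is weakened to what the
tree can deliver, `FiniteH2p` (`p` odd, `p ∈ T`, coefficients `𝔽_p`): the proofs of
`EulerSkel4.finiteDimensional_H1`, `fQ_add`, `chi_add_arch_eq_zero` and
`EulerCard4.eulerCharBound_of_contracts` are repeated with the weaker hypothesis.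

Result: `eulerCharBound_of_RE_Fin_Base : RightExactH2 → FiniteH2p → BaseCase → EulerCharBound`.
-/
import Mathlib
import Fermat.Agent.W56.EulerCard4
import Fermat.Agent.W56.ArtinInd0I

set_option autoImplicit false
set_option linter.unusedSectionVars false
set_option linter.style.haveILetI false

open CategoryTheory ExtCitation groupCohomology

namespace Fermat.Agent.W56.EulerFinal4

open Fermat.Agent.PT.PRO Fermat.Agent.PT.BR Fermat.Agent.PT.PRO.LevelCoh28
  Fermat.Agent.PT.PRO.LevelCohRes28 Fermat.Agent.PT.PRO.SmoothCoind28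
  Fermat.Agent.W56.Defs9 Fermat.Agent.W56.GWCount4 Fermat.Agent.W56.EulerDefs4
  Fermat.Agent.W56.ChiLev4 Fermat.Agent.W56.ChiShapiro4 Fermat.Agent.W56.ChiArch4
  Fermat.Agent.W56.InflCoind4 Fermat.Agent.W56.EulerSkel4 Fermat.Agent.W56.EulerCard4

local notation "Γ" => (AlgebraicClosure ℚ ≃ₐ[ℚ] AlgebraicClosure ℚ)

/-- (E2), in the generality in which it is provable in the tree: `H²(G_T, M)` is finite for a
finite discrete `𝔽_p[G_T]`-module, `p` odd, `p ∈ T`. -/
def FiniteH2p : Prop :=
  ∀ (p : ℕ) [Fact p.Prime], p ≠ 2 → ∀ (T : Finset Nat.Primes), pPrime p ∈ T →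
  ∀ (M : Rep.{0} (ZMod p) Γ) [Finite M],
    IsDiscrete (LevelBridge13.globalBasis T).sets M → Finite (H2g T M)

theorem finiteH2p_of_finiteH2 (h : FiniteH2) : FiniteH2p := by
  intro p _ _ T _ M _ hM
  haveI : Module.Finite (ZMod p) M := Module.Finite.of_finite
  exact h (ZMod p) T M hM

section Quot2

variable (p : ℕ) [Fact p.Prime] (hp2 : p ≠ 2) (T : Finset Nat.Primes) (hpT : pPrime p ∈ T)
  (U : Subgroup Γ) [U.Normal] (hU : U ∈ (LevelBridge13.globalBasis T).sets)

include hp2 hpT hU in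
theorem finiteDimensional_H1' (hFin : FiniteH2p) (V : Type) [AddCommGroup V] [Module (ZMod p) V]
    [Finite V] (ρ : Representation (ZMod p) (Γ ⧸ U) V) :
    FiniteDimensional (ZMod p) (H1 (LevelBridge13.globalBasis T) (infl U ρ)) ∧
      FiniteDimensional (ZMod p) (H2 (LevelBridge13.globalBasis T) (infl U ρ)) := by
  haveI : Finite (infl U ρ) := ‹Finite V›
  haveI : Module.Finite (ZMod p) (infl U ρ) := Module.Finite.of_finite
  have hM := isDiscrete_infl (LevelBridge13.globalBasis T) U hU ρ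
  haveI : Finite (H1g T (infl U ρ)) := FinH1g0.finite_H1g T hpT (infl U ρ) hM
  haveI : Finite (H2g T (infl U ρ)) := hFin p hp2 T hpT (infl U ρ) hM
  exact ⟨Module.Finite.of_finite, Module.Finite.of_finite⟩

include hp2 hpT hU in
theorem fQ_add' (hRE : RightExactH2) (hFin : FiniteH2p)
    (A B C : Type) [AddCommGroup A] [Module (ZMod p) A] [Finite A]
    [AddCommGroup B] [Module (ZMod p) B] [Finite B] [AddCommGroup C] [Module (ZMod p) C]
    [Finite C] (ρA : Representation (ZMod p) (Γ ⧸ U) A) (ρB : Representation (ZMod p) (Γ ⧸ U) B)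
    (ρC : Representation (ZMod p) (Γ ⧸ U) C) (φ : A →ₗ[ZMod p] B) (ψ : B →ₗ[ZMod p] C)
    (hφ : ∀ g a, φ (ρA g a) = ρB g (φ a)) (hψ : ∀ g b, ψ (ρB g b) = ρC g (ψ b))
    (hinj : Function.Injective φ) (hsurj : Function.Surjective ψ)
    (hex : ∀ b, ψ b = 0 ↔ ∃ a, φ a = b) :
    fQ p T U B ρB = fQ p T U A ρA + fQ p T U C ρC := by
  unfold fQ
  have hφ' : ∀ (g : Γ) (a : infl U ρA), φ ((infl U ρA).ρ g a) = (infl U ρB).ρ g (φ a) :=
    fun g a => hφ _ a
  have hψ' : ∀ (g : Γ) (b : infl U ρB), ψ ((infl U ρB).ρ g b) = (infl U ρC).ρ g (ψ b) :=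
    fun g b => hψ _ b
  have hdB := isDiscrete_infl (LevelBridge13.globalBasis T) U hU ρB
  haveI : Finite (infl U ρA) := ‹Finite A›
  haveI : Finite (infl U ρB) := ‹Finite B›
  haveI : Finite (infl U ρC) := ‹Finite C›
  haveI : FiniteDimensional (ZMod p) (infl U ρA) := Module.Finite.of_finite
  haveI : FiniteDimensional (ZMod p) (infl U ρB) := Module.Finite.of_finite
  haveI : FiniteDimensional (ZMod p) (infl U ρC) := Module.Finite.of_finite
  obtain ⟨hA1, hA2⟩ := finiteDimensional_H1' p hp2 T hpT U hU hFin A ρA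
  obtain ⟨hB1, hB2⟩ := finiteDimensional_H1' p hp2 T hpT U hU hFin B ρB
  obtain ⟨hC1, hC2⟩ := finiteDimensional_H1' p hp2 T hpT U hU hFin C ρC
  have hright := hRE p hp2 T hpT (infl U ρB) (infl U ρC) ψ hψ' hsurj hdB
  have h1 := chiLev_add (𝓑 := LevelBridge13.globalBasis T) (A := infl U ρA) (B := infl U ρB)
    (C := infl U ρC) φ hφ' ψ hψ' hinj hsurj hex hdB hright
  have h2 := archTerm_add (c := complexConjugation) (A := infl U ρA) (B := infl U ρB)
    (C := infl U ρC) (two_ne_zero_zmod p hp2) complexConjugation_mul_self φ hφ' ψ hψ' hinj hsurj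
    hex
  rw [h1, h2]
  ring

end Quot2

section Main

variable (p : ℕ) [Fact p.Prime] (hp2 : p ≠ 2) (T : Finset Nat.Primes) (hpT : pPrime p ∈ T)

include hp2 hpT in
/-- **Tate's global Euler characteristic formula over `ℚ`** from (EC-2), (E2), (EC-5). -/
theorem chi_add_arch_eq_zero' (hRE : RightExactH2) (hFin : FiniteH2p)
    (hBase : BaseCase) (M : Rep.{0} (ZMod p) Γ) [Finite M]
    (hM : IsDiscrete (LevelBridge13.globalBasis T).sets M) :
    chiLev (LevelBridge13.globalBasis T) M + archTerm complexConjugation M = 0 := by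
  obtain ⟨U, hU, hn, hfix, hζ⟩ := exists_normal_fixing p T hpT M hM
  haveI : U.Normal := hn
  haveI : U.FiniteIndex := (LevelBridge13.globalBasis T).isBasis.finiteIndex U hU
  haveI : Finite (Γ ⧸ U) := Subgroup.finite_quotient_of_finiteIndex
  have hker : U ≤ (M.ρ : Γ →* (M →ₗ[ZMod p] M)).ker := fun s hs => by
    rw [MonoidHom.mem_ker]
    exact LinearMap.ext fun a => hfix s hs a
  let ρbar : Representation (ZMod p) (Γ ⧸ U) M := QuotientGroup.lift U M.ρ hker
  have h0 := ArtinInd0.artin_induction (Γ ⧸ U) p (fun V _ _ ρ => fQ p T U V ρ)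
    (fun V V' _ _ _ _ ρ ρ' e he => fQ_iso p T U V V' ρ ρ' e he)
    (fun A B C _ _ _ _ _ _ _ _ _ ρA ρB ρC φ ψ hφ hψ hinj hsurj hex =>
      fQ_add' p hp2 T hpT U hU hRE hFin A B C ρA ρB ρC φ ψ hφ hψ hinj hsurj hex)
    (fun C hC hCp N _ _ _ σ => fQ_ind p hp2 T hpT U hU hBase hζ C hC hCp N σ)
    M ρbar
  have hΦ : ∀ (g : Γ) (a : infl U ρbar),
      (LinearMap.id : M →ₗ[ZMod p] M) ((infl U ρbar).ρ g a) =
        M.ρ g ((LinearMap.id : M →ₗ[ZMod p] M) a) := fun g a => rfl
  have hbij : Function.Bijective (LinearMap.id : M →ₗ[ZMod p] M) := Function.bijective_id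
  have h1 := chiLev_congr (𝓑 := LevelBridge13.globalBasis T) (A := infl U ρbar) (B := M)
    (LinearMap.id : M →ₗ[ZMod p] M) hΦ hbij
  have h2 := archTerm_congr (c := complexConjugation) (A := infl U ρbar) (B := M)
    (LinearMap.id : M →ₗ[ZMod p] M) hΦ hbij
  have h3 : fQ p T U M ρbar = 0 := h0
  unfold fQ at h3
  rw [h1, h2] at h3
  exact h3

end Main

/-- **(EC) from (EC-2), (E2) and (EC-5)**: Tate's global Euler characteristic bound, in the shape of
`EulerDefs4.EulerCharBound`, follows from the right exactness of `H²` (EC-2), the finiteness of `H²`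
(E2, weak form) and the base case (EC-5); modular Artin induction (EC-3) is `ArtinInd0`. -/
theorem eulerCharBound_of_RE_Fin_Base (hRE : RightExactH2) (hFin : FiniteH2p)
    (hBase : BaseCase) : EulerCharBound := by
  intro k _ _ p _ _ hp2 T pp hpp hppT M _ hd _
  have hpT : pPrime p ∈ T := by
    have : pPrime p = pp := Subtype.ext hpp.symm
    rw [this]
    exact hppT
  haveI : Finite M := Module.finite_of_finite k
  haveI : Finite (resRep p M) := ‹Finite M›
  haveI : Module.Finite (ZMod p) (resRep p M) := Module.Finite.of_finite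
  have hd' := isDiscrete_res p (LevelBridge13.globalBasis T) M hd
  haveI : Finite (H1g T (resRep p M)) := FinH1g0.finite_H1g T hpT (resRep p M) hd'
  haveI : Finite (H2g T (resRep p M)) := hFin p hp2 T hpT (resRep p M) hd'
  have h := card_formula p T (resRep p M)
    (chi_add_arch_eq_zero' p hp2 T hpT hRE hFin hBase (resRep p M) hd')
  have e1 : Nat.card (H1g T M) = Nat.card (H1g T (resRep p M)) :=
    Nat.card_congr (h1Equiv p (LevelBridge13.globalBasis T) M)
  have e2 : Nat.card (H2g T M) = Nat.card (H2g T (resRep p M)) :=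
    Nat.card_congr (h2Equiv p (LevelBridge13.globalBasis T) M)
  rw [e1, e2]
  exact h.le

/-- The instance consumed by the Greenberg–Wiles count. -/
theorem eulerCharBoundAd0_of_RE_Fin_Base (hRE : RightExactH2) (hFin : FiniteH2p)
    (hBase : BaseCase) : EulerCharBoundAd0 :=
  eulerCharBoundAd0_of (eulerCharBound_of_RE_Fin_Base hRE hFin hBase)

end Fermat.Agent.W56.EulerFinal4
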