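/-
Programme W56 (target S56), stage 2, item (E2), helper4: **`H²(G_T, M)` is finite**.

For a finite discrete `𝔽_p[G_T]`-module `M` (`p` odd, `p ∈ T`): `Ш²(M) = ker(H²(G_T,M) → ∏_{q∈T}
H²(Γ_q,M))` is finite-dimensional (the count of S55, `PT/PRO/MainFinal4.main`) and the local groups
`H²(Γ_q, M)` are finite (`W56/LH2DLoc1`, helper1).  Hence the contract `EulerFinal4.FiniteH2p`.
-/
import Mathlib
import Fermat.Agent.W56.EulerFinal4
import Fermat.Agent.W56.Sha2Van2
import Fermat.Agent.W56.LH2DLoc1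

set_option autoImplicit false
set_option linter.unusedSectionVars false
set_option linter.style.haveILetI false

open CategoryTheory Module groupCohomology ExtCitation
open Fermat.Agent.PT Fermat.Agent.PT.PRO Fermat.Agent.PT.GLUE Fermat.Agent.PT.GLUE.Objects21
open Fermat.Agent.PT.BR Fermat.Agent.PT.BR.LevelBridge13
open Fermat.Agent.W56.Defs9

namespace Fermat.Agent.W56.FinH2g4

local notation "Γ" => (AlgebraicClosure ℚ ≃ₐ[ℚ] AlgebraicClosure ℚ)

/-- **(E2)** `H²(G_T, M)` is finite for a finite discrete `𝔽_p[G_T]`-module, `p` odd, `p ∈ T`. -/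
theorem finiteH2p : EulerFinal4.FiniteH2p := by
  intro p _ hp2 T hpT M _ hM
  classical
  haveI : FiniteDimensional (ZMod p) M := Module.Finite.of_finite
  have hsm : ∀ m : M, ∃ F : IntermediateField ℚ (AlgebraicClosure ℚ), FiniteDimensional ℚ F ∧
      ∀ s ∈ F.fixingSubgroup, M.ρ s m = m := by
    intro m
    obtain ⟨_, ⟨F, hF, rfl⟩, h⟩ := hM m
    exact ⟨F, hF.1, h⟩
  have hMur : ∀ q : Nat.Primes, q ∉ T → ∀ A : ValuationSubring (AlgebraicClosure ℚ),
      A.LiesOverPrime (q : ℕ) → ∀ g ∈ A.inertiaSubgroupIn ℚ, M.ρ g = 1 := by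
    intro q hq A hA g hg
    ext m
    obtain ⟨_, ⟨F, hF, rfl⟩, h⟩ := hM m
    exact h g (hF.2 q hq A hA hg)
  haveI hfdA : FiniteDimensional (ZMod p) (M.dualTwist (cycloChar p)) :=
    BR.DualTwist7.finiteDimensional_dualTwist M
  haveI hfinA : Finite (M.dualTwist (cycloChar p)) := Module.finite_of_finite (ZMod p)
  obtain ⟨-, hfd2, -⟩ := MainFinal4.main hp2 T hpT M hsm hMur
    (M.dualTwist (cycloChar p)) rfl
    (GLOB.LocalInjMain14.localInjectivity p T)
    (fun h0 q => GLUE.LocHyperFinal13.s1At T _ _ _ _ _ _ _ h0)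
    (fun h0 q => GLUE.LocHyperFinal13.s2hAt T _ _ _ _ _ _ _ h0)
  haveI : Finite ↥(LinearMap.ker (ShaBridge13.locH2 T M)) := Module.finite_of_finite (ZMod p)
  have hloc : ∀ q : ↥T, Finite (LevelCoh28.H2 (pullBasis (primeLocalToGlobal q.1))
      (Rep.res (primeLocalToGlobal q.1) M)) := by
    intro q
    haveI : Finite (Rep.res (primeLocalToGlobal q.1) M) := ‹Finite M›
    have hN : LevelCoh28.IsDiscrete (LevelBridge13.pullSets (locD q.1))
        (Rep.res (primeLocalToGlobal q.1) M) := by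
      intro m
      obtain ⟨_, ⟨F, hF, rfl⟩, h⟩ := hM m
      exact ⟨_, ⟨F, hF.1, rfl⟩, fun s hs => h _ hs⟩
    exact (LH2DLoc1.finite_and_card_H2 p q.1 (Rep.res (primeLocalToGlobal q.1) M) hN).1
  haveI : Finite (∀ q : ↥T, LevelCoh28.H2 (pullBasis (primeLocalToGlobal q.1))
      (Rep.res (primeLocalToGlobal q.1) M)) := by
    haveI := hloc
    exact Pi.finite
  -- `H² ↪ (∏ local H²) × Ш²` as sets
  let f := ShaBridge13.locH2 T M
  have hs : ∀ y : ↥(LinearMap.range f), ∃ x, f x = y.1 := fun y => LinearMap.mem_range.1 y.2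
  choose s hs' using hs
  have hmem : ∀ x, f x ∈ LinearMap.range f := fun x => LinearMap.mem_range.2 ⟨x, rfl⟩
  have hk : ∀ x, x - s ⟨f x, hmem x⟩ ∈ LinearMap.ker f := fun x => by
    rw [LinearMap.mem_ker, map_sub, hs' ⟨f x, hmem x⟩]
    exact sub_self (f x)
  let Φ : LevelCoh28.H2 (globalBasis T) M →
      (∀ q : ↥T, LevelCoh28.H2 (pullBasis (primeLocalToGlobal q.1))
        (Rep.res (primeLocalToGlobal q.1) M)) × ↥(LinearMap.ker f) := fun x =>
    (f x, ⟨x - s ⟨f x, hmem x⟩, hk x⟩)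
  have hΦ : Function.Injective Φ := by
    intro x y h
    have h1 : f x = f y := congrArg Prod.fst h
    have h2 : x - s ⟨f x, hmem x⟩ = y - s ⟨f y, hmem y⟩ :=
      congrArg (fun z => (z.2 : LevelCoh28.H2 (globalBasis T) M)) h
    have h3 : (⟨f x, hmem x⟩ : ↥(LinearMap.range f)) = ⟨f y, hmem y⟩ := Subtype.ext h1
    rw [h3] at h2
    exact sub_left_injective h2
  exact Finite.of_injective Φ hΦ

end Fermat.Agent.W56.FinH2g4
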