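/-
Programme W56 (target S56), chapter (K-B) flat conjunct, helper9: **the Prelude's flatness condition
`GaloisRepAdic.IsFlatAt` is invariant under equivalence and stable under base change along a
SURJECTIVE local homomorphism.**

`IsFlatAt ρ p` says: for every ideal `I` of finite index, the Galois module `V / I V` is the group of
`ℚ̄`-points of a finite flat commutative Hopf algebra over `ℤ_(p)`.  Both statements follow from a
transport lemma along level-wise equivariant additive bijections `V / I V ≃ V' / J V'`: for an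
equivalence take `I = J`; for a surjective `φ : A → B` take `I = φ⁻¹ J`, then
`V / I V ≃ (B ⊗ V) / J (B ⊗ V)`, `v ↦ 1 ⊗ v`.
-/
import Mathlib
import Fermat.Prelude.Def_GaloisRep_Flat

set_option autoImplicit false
set_option linter.style.haveILetI false
set_option linter.unusedSectionVars false

open IsLocalRing TensorProduct

namespace Fermat.Agent.W56.FlatBC9

local notation "Γ" => (AlgebraicClosure ℚ ≃ₐ[ℚ] AlgebraicClosure ℚ)

variable {A B : Type} [CommRing A] [IsLocalRing A] [CommRing B] [IsLocalRing B]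

/-- Transport of flatness along level-wise equivariant additive bijections. -/
theorem isFlatAt_of_levelIso (ρ : GaloisRepAdic A) (ρ' : GaloisRepAdic B) (p : ℕ)
    (hB : Finite (ResidueField B))
    (h : ∀ J : Ideal B, Finite (B ⧸ J) → ∃ I : Ideal A, Finite (A ⧸ I) ∧
      ∃ θ : (ρ.V ⧸ (I • (⊤ : Submodule A ρ.V))) ≃+ (ρ'.V ⧸ (J • (⊤ : Submodule B ρ'.V))),
        ∀ (σ : Γ) (x : ρ.V ⧸ (I • (⊤ : Submodule A ρ.V))),
          θ (ρ.levelAction I σ x) = ρ'.levelAction J σ (θ x))
    (hρ : ρ.IsFlatAt p) : ρ'.IsFlatAt p := by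
  refine ⟨hB, fun J hJ => ?_⟩
  obtain ⟨I, hI, θ, hθ⟩ := h J hJ
  obtain ⟨H, i1, i2, h1, h2, h3, e, he1, he2⟩ := hρ.2 I hI
  refine ⟨H, i1, i2, h1, h2, h3, e.trans θ.toEquiv, fun f g => ?_, fun σ f g hfg => ?_⟩
  · show θ (e (f * g)) = θ (e f) + θ (e g)
    rw [he1, map_add]
  · show θ (e g) = ρ'.levelAction J σ (θ (e f))
    rw [he2 σ f g hfg, hθ]

theorem levelAction_mk (ρ : GaloisRepAdic A) (I : Ideal A) (σ : Γ) (v : ρ.V) :
    ρ.levelAction I σ (Submodule.Quotient.mk v) = Submodule.Quotient.mk (ρ.ρ σ v) := rfl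

/-- **Flatness is invariant under equivalence.** -/
theorem isFlatAt_of_isEquiv {ρ ρ' : GaloisRepAdic A} (p : ℕ) (h : ρ.IsEquiv ρ')
    (hρ : ρ.IsFlatAt p) : ρ'.IsFlatAt p := by
  obtain ⟨e⟩ := h
  refine isFlatAt_of_levelIso ρ ρ' p hρ.1 (fun J hJ => ⟨J, hJ, ?_⟩) hρ
  have hmap : (J • (⊤ : Submodule A ρ.V)).map (e.toLinearEquiv : ρ.V →ₗ[A] ρ'.V) =
      J • (⊤ : Submodule A ρ'.V) := by
    rw [Submodule.map_smul'', Submodule.map_top, LinearEquiv.range]
  refine ⟨(Submodule.Quotient.equiv _ _ e.toLinearEquiv hmap).toAddEquiv, fun σ x => ?_⟩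
  induction x using Submodule.Quotient.induction_on with
  | H v =>
    rw [levelAction_mk]
    show (Submodule.Quotient.mk (e.toLinearEquiv (ρ.ρ σ v)) :
        ρ'.V ⧸ (J • (⊤ : Submodule A ρ'.V))) =
      ρ'.levelAction J σ (Submodule.Quotient.mk (e.toLinearEquiv v))
    rw [levelAction_mk, e.map_apply σ v]

/-- Membership in `I • ⊤` in terms of the coordinates in a basis. -/
theorem mem_smul_top_iff_repr_mem {R M ι : Type*} [CommRing R] [AddCommGroup M] [Module R M]
    (b : Module.Basis ι R M) (I : Ideal R) (x : M) :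
    x ∈ I • (⊤ : Submodule R M) ↔ ∀ i, b.repr x i ∈ I := by
  rw [← b.span_eq, Submodule.mem_ideal_smul_span_iff_exists_sum]
  constructor
  · rintro ⟨a, ha, rfl⟩ i
    have : b.repr (a.sum fun i c => c • b i) = a := by
      have h1 : (a.sum fun i c => c • b i) = Finsupp.linearCombination R b a := rfl
      rw [h1, Module.Basis.repr_linearCombination]
    rw [this]
    exact ha i
  · intro h
    exact ⟨b.repr x, h, b.linearCombination_repr x⟩

section Surj

variable (ρ : GaloisRepAdic A) (φ : A →+* B) (hφ : IsLocalHom φ)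
  (hsurj : Function.Surjective φ)

include hsurj in
/-- For a surjective `φ`, every element of `B ⊗ V` is of the form `1 ⊗ v`. -/
theorem exists_one_tmul :
    letI : Algebra A B := φ.toAlgebra
    ∀ x : B ⊗[A] ρ.V, ∃ v : ρ.V, x = (1 : B) ⊗ₜ[A] v := by
  letI : Algebra A B := φ.toAlgebra
  intro x
  induction x using TensorProduct.induction_on with
  | zero => exact ⟨0, (TensorProduct.tmul_zero _ _).symm⟩
  | tmul b v =>
    obtain ⟨a, rfl⟩ := hsurj b
    refine ⟨a • v, ?_⟩
    rw [TensorProduct.tmul_smul, TensorProduct.smul_tmul', Algebra.smul_def, mul_one]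
    rfl
  | add x y hx hy =>
    obtain ⟨v, rfl⟩ := hx
    obtain ⟨w, rfl⟩ := hy
    exact ⟨v + w, (TensorProduct.tmul_add _ _ _).symm⟩

include hsurj in
/-- **Flatness is stable under base change along a surjective local homomorphism.** -/
theorem isFlatAt_baseChangeAlong_of_surjective (p : ℕ) (hρ : ρ.IsFlatAt p) :
    (ρ.baseChangeAlong φ hφ).IsFlatAt p := by
  letI : Algebra A B := φ.toAlgebra
  have hB : Finite (ResidueField B) := by
    haveI := hρ.1
    haveI := hφ
    refine Finite.of_surjective (ResidueField.map φ) fun y => ?_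
    obtain ⟨b, rfl⟩ := residue_surjective y
    obtain ⟨a, rfl⟩ := hsurj b
    exact ⟨residue A a, ResidueField.map_residue φ a⟩
  refine isFlatAt_of_levelIso ρ _ p hB (fun J hJ => ?_) hρ
  have hI : Finite (A ⧸ J.comap φ) :=
    Finite.of_injective (Ideal.quotientMap J φ le_rfl) (Ideal.quotientMap_injective)
  refine ⟨J.comap φ, hI, ?_⟩
  -- the quotient `(B ⊗ V) / J (B ⊗ V)` as an `A`-module
  let W := (B ⊗[A] ρ.V) ⧸ (J • (⊤ : Submodule B (B ⊗[A] ρ.V)))
  letI : Module A W := Module.compHom W φ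
  let f : ρ.V →ₗ[A] W :=
    { toFun := fun v => Submodule.Quotient.mk ((1 : B) ⊗ₜ[A] v)
      map_add' := fun v w => by
        rw [TensorProduct.tmul_add, Submodule.Quotient.mk_add]
      map_smul' := fun a v => by
        rw [RingHom.id_apply]
        show (Submodule.Quotient.mk ((1 : B) ⊗ₜ[A] (a • v)) : W) =
          φ a • (Submodule.Quotient.mk ((1 : B) ⊗ₜ[A] v) : W)
        rw [← Submodule.Quotient.mk_smul, TensorProduct.tmul_smul, TensorProduct.smul_tmul',
          TensorProduct.smul_tmul', Algebra.smul_def, mul_one, smul_eq_mul, mul_one]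
        rfl }
  have hf : ∀ v, f v = Submodule.Quotient.mk ((1 : B) ⊗ₜ[A] v) := fun _ => rfl
  have hfsurj : Function.Surjective f := by
    intro w
    obtain ⟨x, rfl⟩ := Submodule.Quotient.mk_surjective _ w
    obtain ⟨v, rfl⟩ := exists_one_tmul ρ φ hsurj x
    exact ⟨v, rfl⟩
  have hker : (J.comap φ) • (⊤ : Submodule A ρ.V) = LinearMap.ker f := by
    ext v
    let b := Module.Free.chooseBasis A ρ.V
    rw [LinearMap.mem_ker, hf, Submodule.Quotient.mk_eq_zero,
      mem_smul_top_iff_repr_mem b, mem_smul_top_iff_repr_mem (b.baseChange B)]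
    refine forall_congr' fun i => ?_
    rw [Module.Basis.baseChange_repr_tmul, Ideal.mem_comap, Algebra.smul_def, mul_one]
    rfl
  let θ : (ρ.V ⧸ ((J.comap φ) • (⊤ : Submodule A ρ.V))) ≃ₗ[A] W :=
    (Submodule.quotEquivOfEq _ _ hker).trans (f.quotKerEquivOfSurjective hfsurj)
  have hθ : ∀ v : ρ.V, θ (Submodule.Quotient.mk v) = Submodule.Quotient.mk ((1 : B) ⊗ₜ[A] v) :=
    fun v => rfl
  refine ⟨θ.toAddEquiv, fun σ x => ?_⟩
  induction x using Submodule.Quotient.induction_on with
  | H v =>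
    exact congrArg (Submodule.Quotient.mk (p := J • (⊤ : Submodule B (B ⊗[A] ρ.V))))
      (LinearMap.baseChange_tmul (ρ.ρ σ) (1 : B) v).symm

end Surj

end Fermat.Agent.W56.FlatBC9
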