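/-
Programme W56 (target S56), chapter (B) DICTIONARY, part 5 (helper9): **the flat conjunct.**

For a deformation ring `DQ` of the flat type of S56 and ANY local condition `Lp` at `p` which
contains the local class of every flat lift `Lift9.liftOf ρ̄ c` of `ρ̄` to `k[ε]`, the tangent
homomorphisms `DQ.R → k[ε]` inject into the Selmer group `Sel(T, ad⁰ρ̄, U, p, Lp)`.

* `liftOf_isEquiv`: the lift `liftMat ρ̄ b c` does not depend on the basis `b`, up to equivalence;
* `surjective_or_snd_eq_zero`: a tangent homomorphism is surjective or factors through `k`; the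
  latter is unique (`eq_of_snd_eq_zero`) and has the zero class (`tangentClass_eq_zero`);
* flatness of the specialisation along a surjective tangent homomorphism: `FlatBC9`.
-/
import Mathlib
import Fermat.Agent.W56.DictSO9
import Fermat.Agent.W56.FlatBC9

set_option autoImplicit false
set_option linter.unusedSectionVars false
set_option linter.unnecessarySeqFocus false
set_option linter.style.haveILetI false

open CategoryTheory groupCohomology IsLocalRing ExtCitation

namespace Fermat.Agent.W56.DictFlat9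

open Fermat.Agent.S53 Fermat.Agent.S53.MatrixModel Fermat.Agent.W56.Defs9 Fermat.Agent.W56.Lift9
  Fermat.Agent.W56.Dict9 Fermat.Agent.W56.DictSO9 Fermat.Agent.PT.PRO Fermat.Agent.PT.BR

local notation "Qbar" => AlgebraicClosure ℚ
local notation "Γ" => (AlgebraicClosure ℚ ≃ₐ[ℚ] AlgebraicClosure ℚ)

noncomputable section

/-! ### Independence of the basis -/

section BasisChange

variable {k : Type} [Field k] (ρbar : ResidualGaloisRep k)
  (b b₀ : Module.Basis (Fin 2) k ρbar.V)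
  {T : Finset Nat.Primes} (c : ↥(LevelCoh28.Z1 (LevelBridge13.globalBasis T) (ad0 ρbar)))

theorem toMatrix_mul_toMatrix_end (f : Module.End k ρbar.V) :
    b₀.toMatrix b * LinearMap.toMatrix b b f = LinearMap.toMatrix b₀ b₀ f * b₀.toMatrix b := by
  rw [basis_toMatrix_mul_linearMap_toMatrix, linearMap_toMatrix_mul_basis_toMatrix]

/-- The lifts attached to a cocycle in two bases are equivalent. -/
theorem liftMat_isEquiv :
    (ofMatrix (liftMat ρbar b c) (matCont_liftMat ρbar b c)).IsEquiv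
      (ofMatrix (liftMat ρbar b₀ c) (matCont_liftMat ρbar b₀ c)) := by
  rw [MatrixModel.ofMatrix_isEquiv_iff]
  set P : M2 k := b₀.toMatrix b with hP
  set P' : M2 k := b.toMatrix b₀ with hP'
  have hPP' : P * P' = 1 := Module.Basis.toMatrix_mul_toMatrix_flip b₀ b
  have hP'P : P' * P = 1 := Module.Basis.toMatrix_mul_toMatrix_flip b b₀
  refine ⟨dn P 0, ⟨⟨dn P 0, dn P' 0, ?_, ?_⟩, rfl⟩, fun σ => ?_⟩
  · rw [dn_mul, hPP', mul_zero, zero_mul, add_zero, dn_one]
  · rw [dn_mul, hP'P, mul_zero, zero_mul, add_zero, dn_one]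
  · rw [liftMat_apply, liftMat_apply, dn_mul, dn_mul, zero_mul, add_zero, mul_zero, zero_add]
    have h1 : P * rbarOf ρbar b σ = rbarOf ρbar b₀ σ * P :=
      toMatrix_mul_toMatrix_end ρbar b b₀ (ρbar.ρ σ)
    have h2 : P * cMat ρbar b c σ = cMat ρbar b₀ c σ * P :=
      toMatrix_mul_toMatrix_end ρbar b b₀ (cEnd ρbar c σ)
    rw [h1, ← mul_assoc, h2, mul_assoc, h1, mul_assoc]

/-- `liftMat ρ̄ b c` is equivalent to `liftOf ρ̄ c` (defined through the basis `stdB ρ̄`). -/
theorem liftOf_isEquiv :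
    (ofMatrix (liftMat ρbar b c) (matCont_liftMat ρbar b c)).IsEquiv (liftOf ρbar c) :=
  liftMat_isEquiv ρbar b (stdB ρbar) c

/-- A strict lift (in matrix form, in the basis `b`) is equivalent to `liftOf` of its cocycle. -/
theorem ofMatrix_isEquiv_liftOf {r : Γ →* M2 (DualNumber k)} (hr : MatCont r)
    (hred : redM r = rbarOf ρbar b)
    (hdet : ∀ σ, (r σ).det = TrivSqZeroExt.inl (redM r σ).det)
    (hlev : ∃ L : IntermediateField ℚ Qbar, L.IsUnramifiedOutside T ∧
      ∀ s ∈ L.fixingSubgroup, r s = 1) :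
    (ofMatrix r hr).IsEquiv (liftOf ρbar (cocZ ρbar b T hred hdet hlev)) := by
  refine adicIsEquiv_trans ?_ (liftOf_isEquiv ρbar b (cocZ ρbar b T hred hdet hlev))
  refine isEquiv_of_sub_mem_coboundaries ρbar b hr (matCont_liftMat ρbar b _) hred
    (redM_liftMat ρbar b _) hdet (det_liftMat ρbar b _) ?_
  rw [coc0_liftMat, coe_cocZ, sub_self]
  exact Submodule.zero_mem _

end BasisChange

/-! ### Tangent homomorphisms: surjective, or through the residue field -/

section Tangent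

attribute [local instance] dualNumberAlgebra

variable {𝒪 : Type} [CommRing 𝒪] [IsLocalRing 𝒪] [Finite (ResidueField 𝒪)]
  {R : Type} [CommRing R] [IsLocalRing R] [Algebra 𝒪 R]

/-- A tangent homomorphism is surjective or has no `ε`-component. -/
theorem surjective_or_snd_eq_zero (φ : R →ₐ[𝒪] DualNumber (ResidueField 𝒪)) :
    Function.Surjective φ ∨ ∀ x : R, (φ x).snd = 0 := by
  by_cases h : ∀ x : R, (φ x).snd = 0
  · exact Or.inr h
  left
  push Not at h
  obtain ⟨x₀, hx₀⟩ := h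
  have hlift : ∀ u : ResidueField 𝒪, ∃ a : 𝒪, φ (algebraMap 𝒪 R a) = TrivSqZeroExt.inl u := by
    intro u
    obtain ⟨a, rfl⟩ := IsLocalRing.residue_surjective u
    exact ⟨a, by rw [φ.commutes, algebraMap_dualNumber_apply]⟩
  obtain ⟨a₀, ha₀⟩ := hlift (φ x₀).fst
  set t := (φ x₀).snd with ht
  have hy : φ (x₀ - algebraMap 𝒪 R a₀) = TrivSqZeroExt.inr t := by
    rw [map_sub, ha₀]
    apply TrivSqZeroExt.ext
    · simp
    · simp [ht]
  intro z
  obtain ⟨au, hau⟩ := hlift z.fst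
  obtain ⟨aw, haw⟩ := hlift (z.snd / t)
  refine ⟨algebraMap 𝒪 R au + algebraMap 𝒪 R aw * (x₀ - algebraMap 𝒪 R a₀), ?_⟩
  rw [map_add, map_mul, hau, haw, hy]
  apply TrivSqZeroExt.ext
  · simp
  · simp only [TrivSqZeroExt.snd_add, TrivSqZeroExt.snd_inl, TrivSqZeroExt.snd_mul,
      TrivSqZeroExt.fst_inl, TrivSqZeroExt.snd_inr, TrivSqZeroExt.fst_inr, smul_eq_mul, zero_add]
    simp only [MulOpposite.smul_eq_mul_unop, MulOpposite.unop_op, mul_zero, add_zero]
    field_simp

/-- The tangent homomorphism without `ε`-component is unique. -/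
theorem eq_of_snd_eq_zero [IsLocalHom (algebraMap 𝒪 R)]
    (hsurj : Function.Surjective (residue R ∘ algebraMap 𝒪 R))
    (φ ψ : R →ₐ[𝒪] DualNumber (ResidueField 𝒪)) (hφ : ∀ x : R, (φ x).snd = 0)
    (hψ : ∀ x : R, (ψ x).snd = 0) : φ = ψ := by
  refine AlgHom.ext fun x => TrivSqZeroExt.ext ?_ ?_
  · apply (ResidueField.map (algebraMap 𝒪 R)).injective
    rw [map_fst_tangent hsurj φ x, map_fst_tangent hsurj ψ x]
  · rw [hφ, hψ]

end Tangent

/-! ### The tangent classes of a flat deformation ring -/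

section Main

attribute [local instance] dualNumberAlgebra

variable {𝒪 : Type} [CommRing 𝒪] [IsDomain 𝒪] [IsDiscreteValuationRing 𝒪]
  [IsAdicComplete (maximalIdeal 𝒪) 𝒪] [Finite (ResidueField 𝒪)]
  (p : ℕ) [Fact p.Prime] (hp𝒪 : (p : 𝒪) ∈ maximalIdeal 𝒪)
  {ρbar : ResidualGaloisRep (ResidueField 𝒪)}
  (hdetbar : (GaloisRepAdic.ofResidualGaloisRep ρbar).DetIsCyclotomic p)
  {𝒟 : ∀ ⦃A : Type⦄ [CommRing A] [IsLocalRing A] [Algebra 𝒪 A], GaloisRepAdic A → Prop}
  (DQ : GaloisRep.DeformationRingData 𝒪 ρbar 𝒟)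
  (b' : Module.Basis (Fin 2) DQ.R DQ.ρ.V)
  (b : Module.Basis (Fin 2) (ResidueField 𝒪) ρbar.V)
  (hb : ∀ φ : DQ.R →ₐ[𝒪] DualNumber (ResidueField 𝒪), redM (rOf DQ b' φ) = rbarOf ρbar b)
  (T : Finset ℕ) (hD : DQ.ρ.DetIsCyclotomic p)
  (hU : ∀ q : ℕ, q.Prime → q ∉ T → DQ.ρ.IsUnramifiedAt q)

/-- The class of the tangent homomorphism without `ε`-component is zero. -/
theorem tangentClass_eq_zero (φ : DQ.R →ₐ[𝒪] DualNumber (ResidueField 𝒪))
    (hφ : ∀ x : DQ.R, (φ x).snd = 0) :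
    tangentClass p hp𝒪 hdetbar DQ b' b hb T hD hU φ = 0 := by
  rw [tangentClass, classOf]
  have h0 : cocZ ρbar b (primesOf T) (hb φ) (det_rOf p hp𝒪 hdetbar DQ b' b hb hD φ)
      (lev_rOf DQ b' T hU φ) = 0 := by
    apply Subtype.ext
    funext σ
    apply Subtype.ext
    show cocEnd ρbar b (rOf DQ b' φ) σ = 0
    have h1 : sndM (rOf DQ b' φ σ) = 0 := by
      ext i j
      rw [sndM_apply, rOf_apply, hφ]
      rfl
    rw [cocEnd, cocM, h1, zero_mul, map_zero]
  rw [h0, map_zero]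

/-- **The specialisation of a flat universal deformation along a surjective tangent homomorphism
is (equivalent to) a flat lift `liftOf ρ̄ c`, `c` its cocycle.** -/
theorem isFlatAt_liftOf (hflat : DQ.ρ.IsFlatAt p)
    (φ : DQ.R →ₐ[𝒪] DualNumber (ResidueField 𝒪)) (hφ : Function.Surjective φ) :
    (liftOf ρbar (cocZ ρbar b (primesOf T) (hb φ) (det_rOf p hp𝒪 hdetbar DQ b' b hb hD φ)
      (lev_rOf DQ b' T hU φ))).IsFlatAt p := by
  have h1 : (DQ.ρ.baseChangeAlong (φ : DQ.R →+* DualNumber (ResidueField 𝒪))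
      (isLocalHom_tangent φ)).IsFlatAt p :=
    FlatBC9.isFlatAt_baseChangeAlong_of_surjective DQ.ρ _ (isLocalHom_tangent φ) hφ p hflat
  have h2 := FlatBC9.isFlatAt_of_isEquiv p (baseChangeAlong_isEquiv_rOf DQ b' φ) h1
  exact FlatBC9.isFlatAt_of_isEquiv p
    (ofMatrix_isEquiv_liftOf ρbar b (matCont_rOf DQ b' φ) (hb φ) _ _) h2

end Main

/-! ### The injection into the Selmer group -/

section Final

attribute [local instance] dualNumberAlgebra

variable {𝒪 : Type} [CommRing 𝒪] [IsDomain 𝒪] [IsDiscreteValuationRing 𝒪]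
  [IsAdicComplete (maximalIdeal 𝒪) 𝒪] [Finite (ResidueField 𝒪)]

open Polynomial in
/-- **(K-B), flat conjunct.**  For a deformation ring `DQ` of the flat type of S56 (ramification
set `Smin ∪ Q`) and any local condition `Lp` at `p` containing the local classes of the flat lifts
of `ρ̄` to `k[ε]`: an INJECTION of the tangent homomorphisms `DQ.R → k[ε]` into the Selmer group
with the local condition `Lp`. -/
theorem exists_injective_tangent_flat (p : ℕ) [Fact p.Prime] [CharP (ResidueField 𝒪) p]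
    (hp2 : p ≠ 2) (hp𝒪 : (p : 𝒪) ∈ maximalIdeal 𝒪) (ρbar : ResidualGaloisRep (ResidueField 𝒪))
    (hdetbar : (GaloisRepAdic.ofResidualGaloisRep ρbar).DetIsCyclotomic p)
    (Smin Q : Finset ℕ)
    (hmin : ∀ q ∈ Smin, q.Prime → q ≠ p → ¬ ρbar.IsUnramifiedAt q)
    (DQ : GaloisRep.DeformationRingData 𝒪 ρbar (fun _A _ _ _ ρ =>
      GaloisRep.flatCondition 𝒪 p (Smin ∪ Q) ρ ∧
        ∀ q ∈ Smin, q.Prime → q ≠ p → ρ.IsUnipotentOnInertiaAt q))
    (Lp : Submodule (ResidueField 𝒪) (H1D (ad0 ρbar) (pPrime p)))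
    (hLp : ∀ c : ↥(LevelCoh28.Z1 (LevelBridge13.globalBasis (primesOf (Smin ∪ Q))) (ad0 ρbar)),
      (liftOf ρbar c).IsFlatAt p →
        resD (primesOf (Smin ∪ Q)) (ad0 ρbar) (pPrime p)
          (LevelCoh28.H1mk (LevelBridge13.globalBasis (primesOf (Smin ∪ Q))) (ad0 ρbar) c) ∈ Lp) :
    ∃ F : (DQ.R →ₐ[𝒪] DualNumber (ResidueField 𝒪)) →
        ↥(Sel (primesOf (Smin ∪ Q)) (ad0 ρbar) (primesOf (Smin.erase p)) (pPrime p) Lp),
      Function.Injective F := by
  obtain ⟨⟨hD, hflat, hU⟩, hunip⟩ := DQ.isOfType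
  let b' : Module.Basis (Fin 2) DQ.R DQ.ρ.V :=
    Module.finBasisOfFinrankEq DQ.R DQ.ρ.V DQ.ρ.finrank_eq
  obtain ⟨b, -, hb⟩ := exists_basis_strict DQ b'
  have h𝒟 : ∀ φ : DQ.R →ₐ[𝒪] DualNumber (ResidueField 𝒪), Function.Surjective φ →
      (GaloisRep.flatCondition 𝒪 p (Smin ∪ Q)
        (DQ.ρ.baseChangeAlong (φ : DQ.R →+* DualNumber (ResidueField 𝒪))
          (isLocalHom_tangent φ)) ∧
        ∀ q ∈ Smin, q.Prime → q ≠ p →
          (DQ.ρ.baseChangeAlong (φ : DQ.R →+* DualNumber (ResidueField 𝒪))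
            (isLocalHom_tangent φ)).IsUnipotentOnInertiaAt q) := by
    intro φ hφ
    refine ⟨⟨?_, ?_, ?_⟩, ?_⟩
    · exact BaseChange9.detIsCyclotomic_baseChangeAlong _ _ _ hD
    · exact FlatBC9.isFlatAt_baseChangeAlong_of_surjective DQ.ρ _ (isLocalHom_tangent φ) hφ p hflat
    · exact fun q hq hqS => BaseChange9.isUnramifiedAt_baseChangeAlong _ _ _ (hU q hq hqS)
    · exact fun q hqS hq hqp =>
        BaseChange9.isUnipotentOnInertiaAt_baseChangeAlong _ _ _ (hunip q hqS hq hqp)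
  have hmem : ∀ φ : DQ.R →ₐ[𝒪] DualNumber (ResidueField 𝒪),
      tangentClass p hp𝒪 hdetbar DQ b' b hb (Smin ∪ Q) hD hU φ ∈
        Sel (primesOf (Smin ∪ Q)) (ad0 ρbar) (primesOf (Smin.erase p)) (pPrime p) Lp := by
    intro φ
    rw [mem_Sel_iff]
    constructor
    · intro q hq
      rw [mem_primesOf, Finset.mem_erase] at hq
      obtain ⟨hqp, hqS⟩ := hq
      refine UnipSel8.resI_eq_zero_of_unipotent ρbar p hp2 _ q hqp (hmin q hqS q.2 hqp) _ ?_
      intro σ hσ
      have hch : (rOf DQ b' φ σ).charpoly = (X - 1) ^ 2 := by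
        have h1 := hunip q hqS q.2 hqp (primeLocalPlace q)
          (UnipSel8.liesOverPrime_primeLocalPlace q) σ hσ
        rw [← charpoly_matrixOf DQ.ρ b'] at h1
        rw [rOf, mapMat_apply', Matrix.charpoly_map, h1]
        simp
      obtain ⟨e1, e2, e3⟩ := unip_of_charpoly hch
      rw [hb φ] at e1 e2 e3
      refine ⟨?_, ?_, ?_⟩
      · rw [LinearMap.trace_eq_matrix_trace _ b]; exact e1
      · rw [← LinearMap.det_toMatrix b]; exact e2
      · show LinearMap.trace _ _ (cocEnd ρbar b (rOf DQ b' φ) σ * ρbar.ρ σ) = 0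
        rw [LinearMap.trace_eq_matrix_trace _ b, Module.End.mul_eq_comp,
          LinearMap.toMatrix_comp b b b, toMatrix_cocEnd]
        exact e3
    · rcases surjective_or_snd_eq_zero φ with hs | h0
      · exact hLp _ (isFlatAt_liftOf p hp𝒪 hdetbar DQ b' b hb (Smin ∪ Q) hD hU hflat φ hs)
      · rw [tangentClass_eq_zero p hp𝒪 hdetbar DQ b' b hb (Smin ∪ Q) hD hU φ h0, map_zero]
        exact Lp.zero_mem
  refine ⟨fun φ => ⟨_, hmem φ⟩, fun φ ψ h => ?_⟩
  have h' := congrArg Subtype.val h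
  rcases surjective_or_snd_eq_zero ψ with hs | h0
  · exact eq_of_tangentClass_eq p hp𝒪 hdetbar DQ b' b hb _ hD hU φ ψ h' (h𝒟 ψ hs)
  · rcases surjective_or_snd_eq_zero φ with hs' | h0'
    · exact (eq_of_tangentClass_eq p hp𝒪 hdetbar DQ b' b hb _ hD hU ψ φ h'.symm (h𝒟 φ hs')).symm
    · exact eq_of_snd_eq_zero DQ.residue_surjective φ ψ h0' h0

end Final

end

end Fermat.Agent.W56.DictFlat9
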