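/-
Programme W56 (target S56), chapter (H) "assembly", helper9: **the flat conjunct of S56 and the
full statement of S56, conditional on the named classical contracts** (stage 1).

* `LpFlatBound` (K-F): the flat local condition at `p` — a subspace `Lp ≤ H¹(Γ_p, ad⁰ρ̄)` with
  `#Lp ≤ #k · #H⁰(Γ_p, ad⁰ρ̄)` containing the local class of every flat lift of `ρ̄` to `k[ε]`
  (`Lift9.liftOf ρ̄ c` with `IsFlatAt p`).  Chapter (F) of the programme (Fontaine's bound + the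
  character level counts); consumed here as a named hypothesis;
* `flat_conjunct`: the second conjunct of S56 from `SelBound9.LecPAd0`, `LocalH2Bound`,
  `EulerCharBoundAd0`, `LpFlatBound`;
* **`s56_of_contracts`**: the literal statement of S56 from these four contracts.
-/
import Mathlib
import Fermat.Agent.W56.Discharge9
import Fermat.Agent.W56.DictFlat9

set_option autoImplicit false
set_option linter.style.haveILetI false
set_option linter.unusedSectionVars false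

open CategoryTheory ExtCitation Polynomial IsLocalRing

namespace Fermat.Agent.W56.AssemblyFlat9

open Fermat.Agent.PT.PRO Fermat.Agent.PT.BR Fermat.Agent.W56.Defs9 Fermat.Agent.W56.GWCount4
  Fermat.Agent.W56.GWContracts4 Fermat.Agent.W56.Contracts9 Fermat.Agent.W56.EulerDefs4

local notation "Γ" => (AlgebraicClosure ℚ ≃ₐ[ℚ] AlgebraicClosure ℚ)
local notation "Qbar" => AlgebraicClosure ℚ

attribute [local instance] Fermat.Agent.S53.dualNumberAlgebra

/-- (K-F) **the flat local condition at `p`**: for a residual representation with cyclotomic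
determinant, all of whose characteristic polynomials split, there is a subspace
`Lp ≤ H¹(Γ_p, ad⁰ρ̄)` with `#Lp ≤ #k · #H⁰(Γ_p, ad⁰ρ̄)` which contains the restriction to `Γ_p` of
the class of every level cocycle `c` whose lift `(1 + ε c) ρ̄` to `k[ε]` is flat at `p`. -/
def LpFlatBound : Prop :=
  ∀ (k : Type) [Field k] [Finite k] (p : ℕ) [Fact p.Prime] [CharP k p], p ≠ 2 →
  ∀ (ρbar : ResidualGaloisRep k),
    (GaloisRepAdic.ofResidualGaloisRep ρbar).DetIsCyclotomic p →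
    (∀ σ : Γ, ∃ α β : k, LinearMap.charpoly (ρbar.ρ σ) = (X - C α) * (X - C β)) →
    ∃ Lp : Submodule k (H1D (ad0 ρbar) (pPrime p)),
      Nat.card ↥Lp ≤ Nat.card k * d0 (ad0 ρbar) (pPrime p) ∧
      ∀ (T : Finset Nat.Primes)
        (c : ↥(LevelCoh28.Z1 (LevelBridge13.globalBasis T) (ad0 ρbar))),
        (Lift9.liftOf ρbar c).IsFlatAt p →
          resD T (ad0 ρbar) (pPrime p)
            (LevelCoh28.H1mk (LevelBridge13.globalBasis T) (ad0 ρbar) c) ∈ Lp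

variable {𝒪 : Type} [CommRing 𝒪] [IsDomain 𝒪] [IsDiscreteValuationRing 𝒪]
  [IsAdicComplete (maximalIdeal 𝒪) 𝒪] [Finite (ResidueField 𝒪)]

/-- **The flat conjunct of S56, from the named contracts.** -/
theorem flat_conjunct (hLECp : SelBound9.LecPAd0) (hLH2 : LocalH2Bound) (hEC : EulerCharBoundAd0)
    (hKF : LpFlatBound)
    (p : ℕ) [Fact p.Prime] (hp2 : p ≠ 2) (hp𝒪 : (p : 𝒪) ∈ maximalIdeal 𝒪)
    (ρbar : ResidualGaloisRep (ResidueField 𝒪))
    (habs : ρbar.IsAbsolutelyIrreducible)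
    (hdet : (GaloisRepAdic.ofResidualGaloisRep ρbar).DetIsCyclotomic p)
    (hsplit : ∀ σ : Γ, ∃ α β : ResidueField 𝒪,
      LinearMap.charpoly (ρbar.ρ σ) = (X - C α) * (X - C β))
    (hTW : ∀ (K : Type) [Field K] [Algebra (ResidueField 𝒪) K] (G : Subgroup Γ), G.index = 2 →
      ∀ V : Submodule K (ρbar.baseChange K).V,
        (∀ σ ∈ G, ∀ x ∈ V, (ρbar.baseChange K).ρ σ x ∈ V) → V = ⊥ ∨ V = ⊤)
    (S Smin : Finset ℕ) (hpSmin : p ∈ Smin) (hSmin : Smin ⊆ S)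
    (hmin : ∀ q : ℕ, q.Prime → q ≠ p → (q ∈ Smin ↔ ¬ ρbar.IsUnramifiedAt q)) :
    ∃ r : ℕ, ∀ n : ℕ, ∃ qv : Fin r → ℕ, Function.Injective qv ∧
      (∀ i, (qv i).Prime ∧ qv i ∉ S ∧ p ^ (n + 1) ∣ qv i - 1) ∧
      (∀ i, ∀ P : ValuationSubring Qbar, P.LiesOverPrime (qv i) →
        ∀ φ : Γ, P.IsFrobeniusAt φ (qv i) →
          ∃ α β : ResidueField 𝒪, α ≠ β ∧
            LinearMap.charpoly (ρbar.ρ φ) = (X - C α) * (X - C β)) ∧
      ∀ DQ : GaloisRep.DeformationRingData 𝒪 ρbar (fun _A _ _ _ ρ =>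
          GaloisRep.flatCondition 𝒪 p (Smin ∪ Finset.univ.image qv) ρ ∧
            ∀ q ∈ Smin, q.Prime → q ≠ p → ρ.IsUnipotentOnInertiaAt q),
        ∃ γ : MvPowerSeries (Fin r) 𝒪 →ₐ[𝒪] DQ.R, Function.Surjective γ := by
  classical
  haveI : CharP (ResidueField 𝒪) p := AssemblySO9.charP_residueField p hp𝒪
  have hur : ∀ q : ℕ, q.Prime → q ∉ Smin → ρbar.IsUnramifiedAt q := by
    intro q hq hqS
    have hqp : q ≠ p := fun h => hqS (h ▸ hpSmin)
    by_contra hnr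
    exact hqS ((hmin q hq hqp).2 hnr)
  have hram : ∀ q ∈ Smin, q.Prime → q ≠ p → ¬ ρbar.IsUnramifiedAt q :=
    fun q hqS hq hqp => (hmin q hq hqp).1 hqS
  obtain ⟨Lp, hLpcard, hLpmem⟩ := hKF (ResidueField 𝒪) p hp2 ρbar hdet hsplit
  refine ⟨Module.finrank (ResidueField 𝒪) (H1g (primesOf Smin) (ad0D ρbar p)), fun n => ?_⟩
  obtain ⟨qv, hinj, hqv, hfrob, hvan⟩ := TwMain9.exists_tw_primes p ρbar hp2
    (Discharge9.twPrimes (ResidueField 𝒪) p hp2 ρbar) habs hdet hsplit hTW S Smin hpSmin hSmin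
    hur n
  refine ⟨qv, hinj, hqv, hfrob, fun DQ => ?_⟩
  obtain ⟨F, hF⟩ := DictFlat9.exists_injective_tangent_flat p hp2 hp𝒪 ρbar hdet Smin
    (Finset.univ.image qv) hram DQ Lp (fun c hc => hLpmem _ c hc)
  have hcard := SelBound9.card_Sel_le p ρbar
    (hLECp (ResidueField 𝒪) p hp2 ρbar habs hdet hsplit) hEC Discharge9.ptMidOnto
    Discharge9.sha2Injective (Discharge9.twH2Bound_of_LH2 hLH2) hp2 habs hdet S Smin hpSmin
    hSmin hur n qv hqv hfrob hvan Lp hLpcard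
  haveI : Module.Finite (ResidueField 𝒪) (ad0 ρbar) := Ad0Facts9.moduleFinite_ad0 ρbar
  have hST : primesOf Smin ⊆ primesOf (Smin ∪ Finset.univ.image qv) := fun q hq =>
    mem_primesOf.2 (Finset.mem_union_left _ (mem_primesOf.1 hq))
  haveI : Finite (H1g (primesOf (Smin ∪ Finset.univ.image qv)) (ad0 ρbar)) :=
    FinH1g0.finite_H1g _ (hST (mem_primesOf.2 hpSmin)) (ad0 ρbar)
      (TwMain9.isDiscrete_ad0 ρbar Smin hur _ hST)
  exact GenCount0.exists_surjective_mvPowerSeries DQ.instIsLocalHom DQ.residue_surjective F hF _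
    hcard

/-- **S56, conditional on the four named classical contracts**: Tate's local Euler
characteristic at `p` for `ad⁰ρ̄`, the local `(2,0)` duality bound, Tate's global Euler characteristic for `ad⁰ρ̄`,
and the flat local condition at `p`.  The statement is literally that of `Templates/S56`. -/
theorem s56_of_contracts (hLECp : SelBound9.LecPAd0) (hLH2 : LocalH2Bound) (hEC : EulerCharBoundAd0)
    (hKF : LpFlatBound)
    (p : ℕ) [Fact p.Prime] (hp2 : p ≠ 2) (hp𝒪 : (p : 𝒪) ∈ maximalIdeal 𝒪)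
    (ρbar : ResidualGaloisRep (ResidueField 𝒪))
    (habs : ρbar.IsAbsolutelyIrreducible)
    (hdet : (GaloisRepAdic.ofResidualGaloisRep ρbar).DetIsCyclotomic p)
    (hsplit : ∀ σ : AlgebraicClosure ℚ ≃ₐ[ℚ] AlgebraicClosure ℚ,
      ∃ α β : ResidueField 𝒪, LinearMap.charpoly (ρbar.ρ σ) = (X - C α) * (X - C β))
    (hTW : ∀ (K : Type) [Field K] [Algebra (ResidueField 𝒪) K]
      (G : Subgroup (AlgebraicClosure ℚ ≃ₐ[ℚ] AlgebraicClosure ℚ)), G.index = 2 →
      ∀ V : Submodule K (ρbar.baseChange K).V,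
        (∀ σ ∈ G, ∀ x ∈ V, (ρbar.baseChange K).ρ σ x ∈ V) → V = ⊥ ∨ V = ⊤)
    (S Smin : Finset ℕ) (hpSmin : p ∈ Smin) (hSmin : Smin ⊆ S) (hS : ∀ q ∈ S, q.Prime)
    (hmin : ∀ q : ℕ, q.Prime → q ≠ p → (q ∈ Smin ↔ ¬ ρbar.IsUnramifiedAt q)) :
    (∃ r : ℕ, ∀ n : ℕ, ∃ qv : Fin r → ℕ, Function.Injective qv ∧
      (∀ i, (qv i).Prime ∧ qv i ∉ S ∧ p ^ (n + 1) ∣ qv i - 1) ∧
      (∀ i, ∀ P : ValuationSubring (AlgebraicClosure ℚ), P.LiesOverPrime (qv i) →
        ∀ φ : AlgebraicClosure ℚ ≃ₐ[ℚ] AlgebraicClosure ℚ, P.IsFrobeniusAt φ (qv i) →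
          ∃ α β : ResidueField 𝒪, α ≠ β ∧ LinearMap.charpoly (ρbar.ρ φ) = (X - C α) * (X - C β)) ∧
      ∀ DQ : GaloisRep.DeformationRingData 𝒪 ρbar (fun _A _ _ _ ρ =>
          GaloisRep.strictOrdinaryCondition 𝒪 p (Smin ∪ Finset.univ.image qv) ρ ∧
            ∀ q ∈ Smin, q.Prime → q ≠ p → ρ.IsUnipotentOnInertiaAt q),
        ∃ γ : MvPowerSeries (Fin r) 𝒪 →ₐ[𝒪] DQ.R, Function.Surjective γ) ∧
    (∃ r : ℕ, ∀ n : ℕ, ∃ qv : Fin r → ℕ, Function.Injective qv ∧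
      (∀ i, (qv i).Prime ∧ qv i ∉ S ∧ p ^ (n + 1) ∣ qv i - 1) ∧
      (∀ i, ∀ P : ValuationSubring (AlgebraicClosure ℚ), P.LiesOverPrime (qv i) →
        ∀ φ : AlgebraicClosure ℚ ≃ₐ[ℚ] AlgebraicClosure ℚ, P.IsFrobeniusAt φ (qv i) →
          ∃ α β : ResidueField 𝒪, α ≠ β ∧ LinearMap.charpoly (ρbar.ρ φ) = (X - C α) * (X - C β)) ∧
      ∀ DQ : GaloisRep.DeformationRingData 𝒪 ρbar (fun _A _ _ _ ρ =>
          GaloisRep.flatCondition 𝒪 p (Smin ∪ Finset.univ.image qv) ρ ∧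
            ∀ q ∈ Smin, q.Prime → q ≠ p → ρ.IsUnipotentOnInertiaAt q),
        ∃ γ : MvPowerSeries (Fin r) 𝒪 →ₐ[𝒪] DQ.R, Function.Surjective γ) :=
  ⟨Discharge9.strictOrdinary_conjunct hLECp hLH2 hEC p hp2 hp𝒪 ρbar habs hdet hsplit hTW S Smin
      hpSmin hSmin hmin,
    flat_conjunct hLECp hLH2 hEC hKF p hp2 hp𝒪 ρbar habs hdet hsplit hTW S Smin hpSmin hSmin hmin⟩

end Fermat.Agent.W56.AssemblyFlat9
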