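/-
Programme W56 (target S56), item (D4) = LEC-p (helper7): **the shared vocabulary of the concrete
side** (definitions only).

`q` a prime, `Γ_q = Gal(ℚ̄_q/ℚ_q)` (the Prelude's `primeLocalGaloisGroup q`), `locD q : Γ_q →* Γ`,
`U ≤ Γ_q` a normal subgroup.

* `KU q U : Subfield ℚ̄` : the elements of `ℚ̄` fixed by `U` (through `locD q`), the algebraic part of
  the fixed field of `U`;
* `actHom q U : Γ_q →* RingAut (KU q U)`, trivial on `U`; the induced action of the quotient group
  `Γ_q ⧸ U` on `KU q U` (`instance`), with `mk_smul_coe : ((mk g • x : KU q U) : ℚ̄) = locD q g x`.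
-/
import Mathlib
import Fermat.Agent.W56.Defs9

set_option autoImplicit false

open ExtCitation

namespace Fermat.Agent.W56.LecField7

open Fermat.Agent.W56.Defs9

local notation "Qb" => AlgebraicClosure ℚ

noncomputable section

variable (q : Nat.Primes) (U : Subgroup (primeLocalGaloisGroup q))

/-- the elements of `ℚ̄` fixed by `U`. -/
def KU : Subfield Qb where
  carrier := {x | ∀ u ∈ U, locD q u x = x}
  mul_mem' := fun {x y} hx hy u hu => by rw [map_mul, hx u hu, hy u hu]
  one_mem' := fun u _ => map_one _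
  add_mem' := fun {x y} hx hy u hu => by rw [map_add, hx u hu, hy u hu]
  zero_mem' := fun u _ => map_zero _
  neg_mem' := fun {x} hx u hu => by rw [map_neg, hx u hu]
  inv_mem' := fun x hx u hu => by rw [map_inv₀, hx u hu]

variable {q U}

theorem mem_KU {x : Qb} : x ∈ KU q U ↔ ∀ u ∈ U, locD q u x = x := Iff.rfl

variable [hU : U.Normal]

theorem apply_mem_KU (g : primeLocalGaloisGroup q) {x : Qb} (hx : x ∈ KU q U) :
    locD q g x ∈ KU q U := by
  intro u hu
  have h1 : g⁻¹ * u * g ∈ U := by
    have := hU.conj_mem u hu g⁻¹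
    rwa [inv_inv] at this
  have h2 := hx _ h1
  have h3 : locD q u (locD q g x) = locD q g (locD q (g⁻¹ * u * g) x) := by
    rw [← AlgEquiv.mul_apply, ← AlgEquiv.mul_apply, ← map_mul, ← map_mul, ← mul_assoc,
      ← mul_assoc, mul_inv_cancel, one_mul]
  rw [h3, h2]

variable (q U)

/-- the action of `g ∈ Γ_q` on `KU q U`. -/
def actEquiv (g : primeLocalGaloisGroup q) : ↥(KU q U) ≃+* ↥(KU q U) where
  toFun x := ⟨locD q g x, apply_mem_KU g x.2⟩
  invFun x := ⟨locD q g⁻¹ x, apply_mem_KU g⁻¹ x.2⟩
  left_inv x := by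
    apply Subtype.ext
    show locD q g⁻¹ (locD q g (x : Qb)) = x
    rw [← AlgEquiv.mul_apply, ← map_mul, inv_mul_cancel, map_one, AlgEquiv.one_apply]
  right_inv x := by
    apply Subtype.ext
    show locD q g (locD q g⁻¹ (x : Qb)) = x
    rw [← AlgEquiv.mul_apply, ← map_mul, mul_inv_cancel, map_one, AlgEquiv.one_apply]
  map_mul' x y := Subtype.ext (map_mul (locD q g) (x : Qb) (y : Qb))
  map_add' x y := Subtype.ext (map_add (locD q g) (x : Qb) (y : Qb))

/-- `Γ_q →* Aut (KU q U)`. -/
def actHom : primeLocalGaloisGroup q →* RingAut ↥(KU q U) where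
  toFun := actEquiv q U
  map_one' := by
    apply RingEquiv.ext
    intro x
    apply Subtype.ext
    show locD q 1 (x : Qb) = x
    rw [map_one, AlgEquiv.one_apply]
  map_mul' g h := by
    apply RingEquiv.ext
    intro x
    apply Subtype.ext
    show locD q (g * h) (x : Qb) = locD q g (locD q h (x : Qb))
    rw [map_mul, AlgEquiv.mul_apply]

theorem coe_actHom_apply (g : primeLocalGaloisGroup q) (x : ↥(KU q U)) :
    ((actHom q U g x : ↥(KU q U)) : Qb) = locD q g (x : Qb) := rfl

theorem le_ker_actHom : U ≤ (actHom q U).ker := by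
  intro u hu
  rw [MonoidHom.mem_ker]
  apply RingEquiv.ext
  intro x
  apply Subtype.ext
  rw [coe_actHom_apply]
  exact x.2 u hu

/-- `Γ_q ⧸ U →* Aut (KU q U)`. -/
def quotHom : primeLocalGaloisGroup q ⧸ U →* RingAut ↥(KU q U) :=
  QuotientGroup.lift U (actHom q U) (le_ker_actHom q U)

/-- the action of `Γ_q ⧸ U` on `KU q U`. -/
instance instAction : MulSemiringAction (primeLocalGaloisGroup q ⧸ U) ↥(KU q U) :=
  MulSemiringAction.compHom _ (quotHom q U)

variable {q U}

theorem smul_def (g : primeLocalGaloisGroup q ⧸ U) (x : ↥(KU q U)) :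
    g • x = quotHom q U g x := rfl

theorem mk_smul_coe (g : primeLocalGaloisGroup q) (x : ↥(KU q U)) :
    (((QuotientGroup.mk g : primeLocalGaloisGroup q ⧸ U) • x : ↥(KU q U)) : Qb) =
      locD q g (x : Qb) := rfl

end

end Fermat.Agent.W56.LecField7
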