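/-
Programme W56 (target S56), item (D4) = LEC-p (helper7): **counting equivariant homomorphisms along
a filtration** (Mathlib only).

`k` a field, `G` a finite group whose order is invertible in `k`, `ρP`, `ρX`, `ρZ` representations of
`G` on `k`-vector spaces `P`, `X`, `Z`.

* `HomGin ρP ρX B` : the equivariant linear maps `P → X` with values in the submodule `B`;
  `HomG ρP ρX = HomGin ρP ρX ⊤`;
* **`card_mul_le`** (the step): `A ≤ B` stable submodules of `X`, `s : Z → X` a FUNCTION with values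
  in `B` which is additive, homogeneous and equivariant MODULO `A` and injective modulo `A`
  (`s z ∈ A → z = 0`): then `#HomGin A · #HomG(P, Z) ≤ #HomGin B` (Maschke: lift and average);
* `card_mul_le_zmod` : the same over `k = ZMod p`, homogeneity being automatic;
* `card_homG_congr` : an equivariant linear bijection `Z ≃ Z'` gives `#HomG(P,Z) = #HomG(P,Z')`.
-/
import Mathlib

set_option autoImplicit false
set_option linter.unusedSectionVars false

namespace Fermat.Agent.W56.LecStep7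

open Finset

variable {k G P X Z Z' : Type*} [Field k] [Group G] [AddCommGroup P] [Module k P]
  [AddCommGroup X] [Module k X] [AddCommGroup Z] [Module k Z] [AddCommGroup Z'] [Module k Z']

/-- the equivariant linear maps with values in a submodule. -/
def HomGin (ρP : Representation k G P) (ρX : Representation k G X) (B : Submodule k X) :
    Submodule k (P →ₗ[k] X) where
  carrier := {f | (∀ g x, f (ρP g x) = ρX g (f x)) ∧ ∀ x, f x ∈ B}
  add_mem' := by
    rintro f f' ⟨h1, h2⟩ ⟨h1', h2'⟩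
    refine ⟨fun g x => ?_, fun x => ?_⟩
    · rw [LinearMap.add_apply, LinearMap.add_apply, h1, h1', map_add]
    · exact B.add_mem (h2 x) (h2' x)
  zero_mem' := ⟨fun g x => by rw [LinearMap.zero_apply, LinearMap.zero_apply, map_zero],
    fun x => B.zero_mem⟩
  smul_mem' := by
    rintro c f ⟨h1, h2⟩
    refine ⟨fun g x => ?_, fun x => ?_⟩
    · rw [LinearMap.smul_apply, LinearMap.smul_apply, h1, map_smul]
    · exact B.smul_mem c (h2 x)

/-- the equivariant linear maps. -/
abbrev HomG (ρP : Representation k G P) (ρX : Representation k G X) :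
    Submodule k (P →ₗ[k] X) := HomGin ρP ρX ⊤

variable {ρP : Representation k G P} {ρX : Representation k G X} {ρZ : Representation k G Z}
  {ρZ' : Representation k G Z'}

theorem mem_HomGin {B : Submodule k X} {f : P →ₗ[k] X} :
    f ∈ HomGin ρP ρX B ↔ (∀ g x, f (ρP g x) = ρX g (f x)) ∧ ∀ x, f x ∈ B := Iff.rfl

theorem mem_HomG {f : P →ₗ[k] X} : f ∈ HomG ρP ρX ↔ ∀ g x, f (ρP g x) = ρX g (f x) :=
  ⟨fun h => h.1, fun h => ⟨h, fun _ => Submodule.mem_top⟩⟩

theorem HomGin_mono {A B : Submodule k X} (h : A ≤ B) : HomGin ρP ρX A ≤ HomGin ρP ρX B :=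
  fun _ hf => ⟨hf.1, fun x => h (hf.2 x)⟩

theorem HomGin_le_HomG (B : Submodule k X) : HomGin ρP ρX B ≤ HomG ρP ρX :=
  HomGin_mono le_top

theorem one_le_card_HomGin (B : Submodule k X) [Finite ↥(HomGin ρP ρX B)] :
    1 ≤ Nat.card ↥(HomGin ρP ρX B) :=
  Nat.one_le_iff_ne_zero.2 Nat.card_pos.ne'

theorem card_HomGin_le {A B : Submodule k X} (h : A ≤ B) [Finite ↥(HomGin ρP ρX B)] :
    Nat.card ↥(HomGin ρP ρX A) ≤ Nat.card ↥(HomGin ρP ρX B) :=
  Nat.card_le_card_of_injective (Submodule.inclusion (HomGin_mono h))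
    (Submodule.inclusion_injective _)

theorem finite_HomGin_of_le {A B : Submodule k X} (h : A ≤ B) [Finite ↥(HomGin ρP ρX B)] :
    Finite ↥(HomGin ρP ρX A) :=
  Finite.of_injective (Submodule.inclusion (HomGin_mono h)) (Submodule.inclusion_injective _)

/-- an equivariant linear bijection of the targets gives a bijection of the `HomG`. -/
theorem card_homG_congr (e : Z ≃ₗ[k] Z') (he : ∀ g z, e (ρZ g z) = ρZ' g (e z)) :
    Nat.card ↥(HomG ρP ρZ) = Nat.card ↥(HomG ρP ρZ') := by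
  refine Nat.card_congr
    { toFun := fun f => ⟨(e : Z →ₗ[k] Z') ∘ₗ f.1, mem_HomG.2 fun g x => ?_⟩
      invFun := fun f => ⟨(e.symm : Z' →ₗ[k] Z) ∘ₗ f.1, mem_HomG.2 fun g x => ?_⟩
      left_inv := fun f => ?_
      right_inv := fun f => ?_ }
  · show e (f.1 (ρP g x)) = ρZ' g (e (f.1 x))
    rw [mem_HomG.1 f.2, he]
  · show e.symm (f.1 (ρP g x)) = ρZ g (e.symm (f.1 x))
    rw [mem_HomG.1 f.2]
    apply e.injective
    rw [he, e.apply_symm_apply, e.apply_symm_apply]
  · apply Subtype.ext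
    ext x
    show e.symm (e (f.1 x)) = f.1 x
    rw [e.symm_apply_apply]
  · apply Subtype.ext
    ext x
    show e (e.symm (f.1 x)) = f.1 x
    rw [e.apply_symm_apply]

section Step

variable [Fintype G] (hG : (Fintype.card G : k) ≠ 0)
  {A B : Submodule k X} (hAB : A ≤ B) (hA : ∀ g, ∀ x ∈ A, ρX g x ∈ A)
  (hB : ∀ g, ∀ x ∈ B, ρX g x ∈ B)
  (s : Z → X) (hsB : ∀ z, s z ∈ B) (hadd : ∀ z z', s (z + z') - s z - s z' ∈ A)
  (hsmul : ∀ (c : k) z, s (c • z) - c • s z ∈ A)
  (hequiv : ∀ g z, s (ρZ g z) - ρX g (s z) ∈ A) (hinj : ∀ z, s z ∈ A → z = 0)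

include hadd in
theorem s_zero_mem : s 0 ∈ A := by
  have h := hadd 0 0
  rw [add_zero, sub_self, zero_sub] at h
  exact (A.neg_mem_iff).1 h

include hadd in
theorem s_sub_mem (z z' : Z) : s (z - z') - (s z - s z') ∈ A := by
  have h := hadd (z - z') z'
  rw [sub_add_cancel] at h
  have : s (z - z') - (s z - s z') = -(s z - s (z - z') - s z') := by abel
  rw [this]
  exact A.neg_mem h

/-- the linear map `Z → X ⧸ A` induced by `s`. -/
noncomputable def sbar (hadd : ∀ z z', s (z + z') - s z - s z' ∈ A)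
    (hsmul : ∀ (c : k) z, s (c • z) - c • s z ∈ A) : Z →ₗ[k] X ⧸ A where
  toFun z := A.mkQ (s z)
  map_add' z z' := by
    rw [← map_add, ← sub_eq_zero, ← map_sub]
    have : s (z + z') - (s z + s z') = s (z + z') - s z - s z' := by abel
    rw [this]
    exact (Submodule.Quotient.mk_eq_zero A).2 (hadd z z')
  map_smul' c z := by
    rw [RingHom.id_apply, ← map_smul, ← sub_eq_zero, ← map_sub]
    exact (Submodule.Quotient.mk_eq_zero A).2 (hsmul c z)

include hG hAB hA hB hsB hadd hsmul hequiv in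
/-- **lift and average**: every equivariant `h : P → Z` has an equivariant lift `f : P → B` with
`f ≡ s ∘ h` modulo `A`. -/
theorem exists_lift (h : P →ₗ[k] Z) (hh : ∀ g x, h (ρP g x) = ρZ g (h x)) :
    ∃ f ∈ HomGin ρP ρX B, ∀ x, f x - s (h x) ∈ A := by
  classical
  obtain ⟨σ, hσ⟩ := LinearMap.exists_rightInverse_of_surjective A.mkQ
    (LinearMap.range_eq_top.2 (Submodule.mkQ_surjective A))
  set f₀ : P →ₗ[k] X := σ ∘ₗ sbar s hadd hsmul ∘ₗ h with hf₀
  have h0 : ∀ x, f₀ x - s (h x) ∈ A := by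
    intro x
    rw [← Submodule.Quotient.mk_eq_zero A, Submodule.Quotient.mk_sub, sub_eq_zero]
    have : A.mkQ (σ (sbar s hadd hsmul (h x))) = sbar s hadd hsmul (h x) :=
      LinearMap.congr_fun hσ _
    exact this
  set c : k := (Fintype.card G : k) with hc
  let f : P →ₗ[k] X := c⁻¹ • ∑ g : G, (ρX g) ∘ₗ f₀ ∘ₗ (ρP g⁻¹)
  have hfx : ∀ x, f x = c⁻¹ • ∑ g : G, ρX g (f₀ (ρP g⁻¹ x)) := by
    intro x
    show (c⁻¹ • ∑ g : G, (ρX g) ∘ₗ f₀ ∘ₗ (ρP g⁻¹)) x = _
    rw [LinearMap.smul_apply, LinearMap.sum_apply]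
    rfl
  -- each summand is congruent to `s (h x)`
  have hterm : ∀ (g : G) (x : P), ρX g (f₀ (ρP g⁻¹ x)) - s (h x) ∈ A := by
    intro g x
    have h1 : f₀ (ρP g⁻¹ x) - s (ρZ g⁻¹ (h x)) ∈ A := by
      have := h0 (ρP g⁻¹ x)
      rwa [hh] at this
    have h2 : s (ρZ g⁻¹ (h x)) - ρX g⁻¹ (s (h x)) ∈ A := hequiv g⁻¹ (h x)
    have h3 : f₀ (ρP g⁻¹ x) - ρX g⁻¹ (s (h x)) ∈ A := by
      have := A.add_mem h1 h2
      rwa [sub_add_sub_cancel] at this
    have h4 := hA g _ h3
    rw [map_sub, ← Module.End.mul_apply, ← map_mul, mul_inv_cancel, map_one,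
      Module.End.one_apply] at h4
    exact h4
  refine ⟨f, ⟨fun g x => ?_, fun x => ?_⟩, fun x => ?_⟩
  · -- equivariance
    rw [hfx, hfx, map_smul, map_sum]
    congr 1
    refine Fintype.sum_equiv (Equiv.mulLeft g⁻¹) _ _ fun t => ?_
    rw [Equiv.coe_mulLeft, ← Module.End.mul_apply (ρX g), ← map_mul, mul_inv_cancel_left,
      mul_inv_rev, inv_inv, map_mul, Module.End.mul_apply]
  · -- values in `B`
    rw [hfx]
    refine B.smul_mem _ (B.sum_mem fun g _ => hB g _ ?_)
    have := h0 (ρP g⁻¹ x)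
    have h5 : f₀ (ρP g⁻¹ x) = (f₀ (ρP g⁻¹ x) - s (h (ρP g⁻¹ x))) + s (h (ρP g⁻¹ x)) := by abel
    rw [h5]
    exact B.add_mem (hAB this) (hsB _)
  · -- congruence
    rw [hfx]
    have h6 : c⁻¹ • ∑ g : G, ρX g (f₀ (ρP g⁻¹ x)) - s (h x) =
        c⁻¹ • ∑ g : G, (ρX g (f₀ (ρP g⁻¹ x)) - s (h x)) := by
      rw [Finset.sum_sub_distrib, Finset.sum_const, Finset.card_univ, smul_sub,
        ← Nat.cast_smul_eq_nsmul k, smul_smul, inv_mul_cancel₀ hG, one_smul]
    rw [h6]
    exact A.smul_mem _ (A.sum_mem fun g _ => hterm g x)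

include hG hAB hA hB hsB hadd hsmul hequiv hinj in
/-- **the step of the count.** -/
theorem card_mul_le [Finite ↥(HomGin ρP ρX B)] :
    Nat.card ↥(HomGin ρP ρX A) * Nat.card ↥(HomG ρP ρZ) ≤ Nat.card ↥(HomGin ρP ρX B) := by
  classical
  have hex := fun h : ↥(HomG ρP ρZ) =>
    exists_lift hG hAB hA hB s hsB hadd hsmul hequiv h.1 (mem_HomG.1 h.2)
  choose F hF hFc using hex
  let Φ : ↥(HomGin ρP ρX A) × ↥(HomG ρP ρZ) → ↥(HomGin ρP ρX B) := fun ah =>
    ⟨ah.1.1 + F ah.2, (HomGin ρP ρX B).add_mem (HomGin_mono hAB ah.1.2) (hF ah.2)⟩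
  have hΦ : Function.Injective Φ := by
    rintro ⟨a, h⟩ ⟨a', h'⟩ heq
    have heq' : a.1 + F h = a'.1 + F h' := congrArg Subtype.val heq
    have hh : h = h' := by
      apply Subtype.ext
      ext x
      have h1 : F h x - F h' x = a'.1 x - a.1 x := by
        have := LinearMap.congr_fun heq' x
        rw [LinearMap.add_apply, LinearMap.add_apply] at this
        rw [sub_eq_sub_iff_add_eq_add]
        rw [add_comm, this, add_comm]
      have h2 : F h x - F h' x ∈ A := by
        rw [h1]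
        exact A.sub_mem (a'.2.2 x) (a.2.2 x)
      have h3 : s (h.1 x) - s (h'.1 x) ∈ A := by
        have e : s (h.1 x) - s (h'.1 x) =
            (F h x - F h' x) - (F h x - s (h.1 x)) + (F h' x - s (h'.1 x)) := by abel
        rw [e]
        exact A.add_mem (A.sub_mem h2 (hFc h x)) (hFc h' x)
      have h4 : s (h.1 x - h'.1 x) ∈ A := by
        have := A.add_mem (s_sub_mem s hadd (h.1 x) (h'.1 x)) h3
        rwa [sub_add_cancel] at this
      exact sub_eq_zero.1 (hinj _ h4)
    subst hh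
    have : a.1 = a'.1 := add_right_cancel heq'
    rw [Prod.mk.injEq]
    exact ⟨Subtype.ext this, rfl⟩
  have := Nat.card_le_card_of_injective Φ hΦ
  rwa [Nat.card_prod] at this

end Step

section ZModStep

variable {p : ℕ} [Fact p.Prime] {G P X Z : Type*} [Group G] [Fintype G]
  [AddCommGroup P] [Module (ZMod p) P] [AddCommGroup X] [Module (ZMod p) X]
  [AddCommGroup Z] [Module (ZMod p) Z]
  {ρP : Representation (ZMod p) G P} {ρX : Representation (ZMod p) G X}
  {ρZ : Representation (ZMod p) G Z}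

/-- over `ZMod p` homogeneity modulo `A` follows from additivity modulo `A`. -/
theorem smul_of_add {A : Submodule (ZMod p) X} (s : Z → X)
    (hadd : ∀ z z', s (z + z') - s z - s z' ∈ A) (c : ZMod p) (z : Z) :
    s (c • z) - c • s z ∈ A := by
  have key : ∀ n : ℕ, s (n • z) - n • s z ∈ A := by
    intro n
    induction n with
    | zero =>
      rw [zero_smul, zero_smul, sub_zero]
      exact s_zero_mem s hadd
    | succ n ih =>
      have h1 := hadd (n • z) z
      have e : s ((n + 1) • z) - (n + 1) • s z =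
          (s (n • z + z) - s (n • z) - s z) + (s (n • z) - n • s z) := by
        rw [succ_nsmul, succ_nsmul]
        abel
      rw [e]
      exact A.add_mem h1 ih
  have hc : c = ((c.val : ℕ) : ZMod p) := (ZMod.natCast_zmod_val c).symm
  rw [hc, Nat.cast_smul_eq_nsmul, Nat.cast_smul_eq_nsmul]
  exact key _

/-- **the step of the count over `ZMod p`.** -/
theorem card_mul_le_zmod (hG : (Fintype.card G).Coprime p)
    {A B : Submodule (ZMod p) X} (hAB : A ≤ B) (hA : ∀ g, ∀ x ∈ A, ρX g x ∈ A)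
    (hB : ∀ g, ∀ x ∈ B, ρX g x ∈ B)
    (s : Z → X) (hsB : ∀ z, s z ∈ B) (hadd : ∀ z z', s (z + z') - s z - s z' ∈ A)
    (hequiv : ∀ g z, s (ρZ g z) - ρX g (s z) ∈ A) (hinj : ∀ z, s z ∈ A → z = 0)
    [Finite ↥(HomGin ρP ρX B)] :
    Nat.card ↥(HomGin ρP ρX A) * Nat.card ↥(HomG ρP ρZ) ≤ Nat.card ↥(HomGin ρP ρX B) := by
  have hG' : ((Fintype.card G : ℕ) : ZMod p) ≠ 0 := by
    rw [Ne, ZMod.natCast_eq_zero_iff]
    intro h
    have hp : p.Prime := Fact.out
    exact hp.one_lt.ne' (Nat.Coprime.eq_one_of_dvd hG.symm h)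
  exact card_mul_le hG' hAB hA hB s hsB hadd (smul_of_add s hadd) hequiv hinj

end ZModStep

end Fermat.Agent.W56.LecStep7
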