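/-
Programme W56 (target S56), item (D4) = LEC-p (helper7): **the interface of the units count**
(definitions only).

`K` a field with a discrete valuation `w : DVal K` (integer valued), `G` a finite group of
automorphisms of `K`, `κ` the (finite) residue field, `red : K → κ` the reduction map (a ring
homomorphism on the integers `{x | w.Ge 0 x}`, arbitrary elsewhere).  Think of `K` = a finite Galois
extension of `ℚ_p` (or its algebraic part `K ∩ ℚ̄`: completeness is NOT required), `G = Gal(K/ℚ_p)`.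

* `UField w G p κ red` : the valuation / residue hypotheses;
* `UCl p ρX cl` : `cl : K → X` is a Kummer-type class map into an `𝔽_p[G]`-module `X`
  (`cl (x y) = cl x + cl y`, `cl (σ x) = σ (cl x)`, `cl x = 0 ↔ x` is a `p`-th power in `K`), e.g.
  `X = Kˣ/(Kˣ)^p` or `X = Hom(Gal(K̄/K), 𝔽_p)` with the Kummer map;
* `chiRep χ` : the line `𝔽_p(χ)`;
* `UnitsBound` : the statement of the units count
  `#Hom_G(P, 𝔽_p) · #Hom_G(P, 𝔽_p(χ_cyc)) · #P ≤ #Hom_G(P, X)` (proved in `LecUnits7`).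
-/
import Mathlib
import Fermat.Agent.W56.RamKumA7
import Fermat.Agent.W56.LecStep7

set_option autoImplicit false

namespace Fermat.Agent.W56.LecUData7

open Fermat.Agent.W56.RamBase7 Fermat.Agent.W56.RamBase7.DVal Fermat.Agent.W56.RamKumA7
  Fermat.Agent.W56.LecStep7

/-- the valuation and residue hypotheses on `(K, w, G, κ, red)`. -/
structure UField {K : Type*} [Field K] (w : DVal K) (G : Type*) [Group G] [MulSemiringAction G K]
    (p : ℕ) (κ : Type*) [Field κ] [MulSemiringAction G κ] (red : K → κ) : Prop where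
  prime : PrimeHyp w p
  inv : ∀ (σ : G) (x : K), w.ord (σ • x) = w.ord x
  faithful : ∀ σ : G, (∀ x : K, σ • x = x) → σ = 1
  unif : ∃ π : K, π ≠ 0 ∧ w.ord π = 1
  zeta : ∃ ζ : K, IsPrimitiveRoot ζ p
  red_add : ∀ x y : K, w.Ge 0 x → w.Ge 0 y → red (x + y) = red x + red y
  red_mul : ∀ x y : K, w.Ge 0 x → w.Ge 0 y → red (x * y) = red x * red y
  red_one : red 1 = 1
  red_eq_zero : ∀ x : K, w.Ge 0 x → (red x = 0 ↔ w.Ge 1 x)
  red_surj : ∀ a : κ, ∃ x : K, w.Ge 0 x ∧ red x = a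
  red_smul : ∀ (σ : G) (x : K), w.Ge 0 x → red (σ • x) = σ • red x
  fix : ∀ a : κ, (∀ σ : G, σ • a = a) → a ^ p = a

/-- a Kummer-type class map. -/
structure UCl {K : Type*} [Field K] {G : Type*} [Group G] [MulSemiringAction G K] (p : ℕ)
    {X : Type*} [AddCommGroup X] [Module (ZMod p) X] (ρX : Representation (ZMod p) G X)
    (cl : K → X) : Prop where
  cl_mul : ∀ x y : K, x ≠ 0 → y ≠ 0 → cl (x * y) = cl x + cl y
  cl_smul : ∀ (σ : G) (x : K), x ≠ 0 → cl (σ • x) = ρX σ (cl x)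
  cl_eq_zero : ∀ x : K, x ≠ 0 → (cl x = 0 ↔ ∃ y : K, y ^ p = x)

/-- the line `𝔽_p(χ)`. -/
def chiRep {G : Type*} [Group G] {p : ℕ} (χ : G →* (ZMod p)ˣ) :
    Representation (ZMod p) G (ZMod p) where
  toFun g := ((χ g : (ZMod p)ˣ) : ZMod p) • LinearMap.id
  map_one' := by rw [map_one, Units.val_one, one_smul]; rfl
  map_mul' g h := by
    rw [map_mul, Units.val_mul]
    apply LinearMap.ext
    intro x
    show ((χ g : (ZMod p)ˣ) : ZMod p) * ((χ h : (ZMod p)ˣ) : ZMod p) * x =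
      ((χ g : (ZMod p)ˣ) : ZMod p) * (((χ h : (ZMod p)ˣ) : ZMod p) * x)
    rw [mul_assoc]

@[simp] theorem chiRep_apply {G : Type*} [Group G] {p : ℕ} (χ : G →* (ZMod p)ˣ) (g : G)
    (n : ZMod p) : chiRep χ g n = ((χ g : (ZMod p)ˣ) : ZMod p) * n := rfl

theorem mem_HomG_chiRep {G : Type*} [Group G] {p : ℕ} [Fact p.Prime] (χ : G →* (ZMod p)ˣ) {P : Type*}
    [AddCommGroup P] [Module (ZMod p) P] (ρP : Representation (ZMod p) G P)
    (f : P →ₗ[ZMod p] ZMod p) :
    f ∈ HomG ρP (chiRep χ) ↔ ∀ g x, f (ρP g x) = ((χ g : (ZMod p)ˣ) : ZMod p) * f x :=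
  mem_HomG

theorem mem_HomG_chiRep_one {G : Type*} [Group G] {p : ℕ} [Fact p.Prime] {P : Type*}
    [AddCommGroup P] [Module (ZMod p) P] (ρP : Representation (ZMod p) G P)
    (f : P →ₗ[ZMod p] ZMod p) :
    f ∈ HomG ρP (chiRep (1 : G →* (ZMod p)ˣ)) ↔ ∀ g x, f (ρP g x) = f x := by
  rw [mem_HomG_chiRep]
  simp

/-- **the units count**, as a statement (proved in `LecUnits7.unitsBound`):
`#Hom_G(P, 𝔽_p) · #Hom_G(P, 𝔽_p(χ_cyc)) · #P ≤ #Hom_G(P, X)` for every finite `𝔽_p[G]`-module `P`,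
when `p ∤ #G`. -/
def UnitsBound : Prop :=
  ∀ {K : Type} [Field K] (w : DVal K) {G : Type} [Group G] [Finite G] [MulSemiringAction G K]
    (p : ℕ) [Fact p.Prime] {κ : Type} [Field κ] [Finite κ] [MulSemiringAction G κ] (red : K → κ),
    p ≠ 2 → UField w G p κ red → (Nat.card G).Coprime p →
    ∀ {X : Type} [AddCommGroup X] [Module (ZMod p) X] (ρX : Representation (ZMod p) G X)
      (cl : K → X), UCl p ρX cl →
    ∀ χ : G →* (ZMod p)ˣ,
      (∀ (g : G) (ζ : K), ζ ^ p = 1 → g • ζ = ζ ^ ((χ g : (ZMod p)ˣ) : ZMod p).val) →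
    ∀ {P : Type} [AddCommGroup P] [Module (ZMod p) P] [Finite P]
      (ρP : Representation (ZMod p) G P) [Finite ↥(HomG ρP ρX)],
      Nat.card ↥(HomG ρP (chiRep (1 : G →* (ZMod p)ˣ))) * Nat.card ↥(HomG ρP (chiRep χ)) *
        Nat.card P ≤ Nat.card ↥(HomG ρP ρX)

end Fermat.Agent.W56.LecUData7
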