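/-
Programme W56 (target S56), item (D4) = LEC-p (helper7): **the named statements of the (D4) chain**
(definitions only), so that the three parts can be written in parallel:

* `LecUData7.UnitsBound` (abstract valuation theory, `LecUnits7`);
* `UFieldKU` : the instantiation of `LecUData7.UField` at `K = LecField7.KU pp U`, `G = Γ_p ⧸ U`;
* `LecPBase` : LEC-p for a finite discrete `k[Γ_p]`-module on which an open normal subgroup of index
  prime to `p` acts trivially;
* the goal `SelBound9.LecPAd0` follows from `LecPBase` by the dévissage of `ad⁰ρ̄|Γ_p`.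
-/
import Mathlib
import Fermat.Agent.W56.LecUData7
import Fermat.Agent.W56.LecField7
import Fermat.Agent.W56.LH2DLoc1

set_option autoImplicit false

open ExtCitation

namespace Fermat.Agent.W56.LecContracts7

open Fermat.Agent.W56.Defs9 Fermat.Agent.W56.RamBase7 Fermat.Agent.W56.LecUData7
  Fermat.Agent.W56.LecField7 Fermat.Agent.PT.PRO Fermat.Agent.PT.BR

local notation "Qb" => AlgebraicClosure ℚ

/-- **the instantiation**: for `U ◁ Γ_p` open (w.r.t. `pullSets (locD pp)`), of index prime to `p`,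
fixing the `p`-th roots of unity of `ℚ̄`, the field `KU pp U` with the action of `Γ_p ⧸ U` carries
valuation and residue data satisfying `UField`; the group `Γ_p ⧸ U` is finite. -/
def UFieldKU : Prop :=
  ∀ (p : ℕ) [Fact p.Prime] (pp : Nat.Primes), (pp : ℕ) = p →
  ∀ (U : Subgroup (primeLocalGaloisGroup pp)) [U.Normal],
    (∃ V ∈ LevelBridge13.pullSets (locD pp), V ≤ U) → U.index.Coprime p →
    (∀ u ∈ U, ∀ ζ : Qb, ζ ^ p = 1 → locD pp u ζ = ζ) →
    Finite (primeLocalGaloisGroup pp ⧸ U) ∧
    ∃ (w : DVal ↥(KU pp U)) (κ : Type) (_ : Field κ) (_ : Finite κ)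
      (_ : MulSemiringAction (primeLocalGaloisGroup pp ⧸ U) κ) (red : ↥(KU pp U) → κ),
      UField w (primeLocalGaloisGroup pp ⧸ U) p κ red

/-- **LEC-p, base case**: `#H⁰(Γ_p,N) · #H²(Γ_p,N) · #N ≤ #H¹(Γ_p,N)` for a finite discrete
`k[Γ_p]`-module `N` on which an open normal subgroup of index prime to `p` acts trivially. -/
def LecPBase : Prop :=
  ∀ (k : Type) [Field k] [Finite k] (p : ℕ) [Fact p.Prime] [CharP k p], p ≠ 2 →
  ∀ (pp : Nat.Primes), (pp : ℕ) = p →
  ∀ (N : Rep k (primeLocalGaloisGroup pp)) [Module.Finite k N],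
    LevelCoh28.IsDiscrete (LevelBridge13.pullSets (locD pp)) N →
  ∀ (U : Subgroup (primeLocalGaloisGroup pp)) [U.Normal],
    (∃ V ∈ LevelBridge13.pullSets (locD pp), V ≤ U) → (∀ u ∈ U, ∀ n : N, N.ρ u n = n) →
    U.index.Coprime p →
    Nat.card ↥N.ρ.invariants * Nat.card (LevelCoh28.H2 (LevelBridge13.pullBasis (locD pp)) N) *
      Nat.card N ≤ Nat.card (LevelCoh28.H1 (LevelBridge13.pullBasis (locD pp)) N)

end Fermat.Agent.W56.LecContracts7
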