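/-
Programme W56 (target S56), chapter (F) FLAT, ramification side (helper7): **from a valuation with
discrete values to the integer-valued `DVal` of `RamBase7`** (Mathlib only).

`v : Valuation L Γ₀`, `ϖ ∈ L` with `v ϖ < 1`, and `n > 0` such that `v x ^ n ∈ (v ϖ)^ℤ` for every
nonzero `x` (`Discr v ϖ n`; e.g. `n` = the order of a finite group of isometries whose fixed
elements have values in `(v ϖ)^ℤ`).

* `Discr.exists_unif` : there is a uniformiser `π` : `v π < 1` and `v x ∈ (v π)^ℤ` for all `x ≠ 0`;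
* `IsUnif v π`, `dvalOf v π h : DVal L` with `v x = v π ^ ord x`;
* dictionary : `ord_le_ord_iff`, `ord_eq_ord_iff`, `zero_le_ord_iff`, `one_le_ord_iff`, `ge_iff_le`,
  `ord_unif`.
-/
import Mathlib
import Fermat.Agent.W56.RamBase7

set_option autoImplicit false

namespace Fermat.Agent.W56.RamVal7

open Fermat.Agent.W56.RamBase7 Fermat.Agent.W56.RamBase7.DVal

variable {L : Type*} [Field L] {Γ₀ : Type*} [LinearOrderedCommGroupWithZero Γ₀]
  (v : Valuation L Γ₀)

/-- discreteness data. -/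
structure Discr (ϖ : L) (n : ℕ) : Prop where
  hn : 0 < n
  hϖ0 : ϖ ≠ 0
  hϖ : v ϖ < 1
  hpow : ∀ x : L, x ≠ 0 → ∃ k : ℤ, v x ^ n = v ϖ ^ k

/-- `π` is a uniformiser of `v`. -/
structure IsUnif (π : L) : Prop where
  ne_zero : π ≠ 0
  lt_one : v π < 1
  gen : ∀ x : L, x ≠ 0 → ∃ m : ℤ, v x = v π ^ m

variable {v}

theorem Discr.exists_unif {ϖ : L} {n : ℕ} (h : Discr v ϖ n) : ∃ π : L, IsUnif v π := by
  classical
  have hn0 : n ≠ 0 := h.hn.ne'
  have hvϖ0 : 0 < v ϖ := zero_lt_iff.2 ((Valuation.ne_zero_iff v).2 h.hϖ0)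
  -- the exponent function
  have hk : ∀ x : L, x ≠ 0 → ∃ k : ℤ, v x ^ n = v ϖ ^ k := h.hpow
  -- the least positive exponent
  have hex : ∃ d : ℕ, 0 < d ∧ ∃ x : L, x ≠ 0 ∧ v x ^ n = v ϖ ^ (d : ℤ) :=
    ⟨n, h.hn, ϖ, h.hϖ0, by rw [zpow_natCast]⟩
  set d := Nat.find hex with hd
  obtain ⟨hdpos, π, hπ0, hπ⟩ := Nat.find_spec hex
  rw [← hd] at hdpos hπ
  have hvπ0 : v π ≠ 0 := (Valuation.ne_zero_iff v).2 hπ0
  have hπlt : v π < 1 := by
    rw [← pow_lt_pow_iff_left₀ zero_le zero_le hn0, one_pow, hπ, zpow_natCast]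
    exact pow_lt_one₀ zero_le h.hϖ hdpos.ne'
  refine ⟨π, hπ0, hπlt, fun x hx0 => ?_⟩
  obtain ⟨k, hkx⟩ := hk x hx0
  have hd' : (0 : ℤ) < (d : ℤ) := by exact_mod_cast hdpos
  set q := k / (d : ℤ) with hq
  have hr0 : 0 ≤ k % (d : ℤ) := Int.emod_nonneg _ hd'.ne'
  have hrd : k % (d : ℤ) < d := Int.emod_lt_of_pos _ hd'
  have hkqr : k = (d : ℤ) * q + k % (d : ℤ) := (Int.mul_ediv_add_emod k d).symm
  -- `y = x / π^q` has exponent `k % d`
  have hy0 : x / π ^ q ≠ 0 := div_ne_zero hx0 (zpow_ne_zero q hπ0)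
  have hy : v (x / π ^ q) ^ n = v ϖ ^ (k % (d : ℤ)) := by
    rw [map_div₀, map_zpow₀, div_pow, hkx, ← zpow_natCast (v π ^ q) n, ← zpow_mul, mul_comm q,
      zpow_mul, zpow_natCast (v π) n, hπ, ← zpow_mul, ← zpow_sub₀ hvϖ0.ne']
    congr 1
    linarith
  have hr : k % (d : ℤ) = 0 := by
    by_contra hne
    have hpos : 0 < (k % (d : ℤ)).toNat := by omega
    have hlt : (k % (d : ℤ)).toNat < d := by omega
    exact Nat.find_min hex hlt ⟨hpos, x / π ^ q, hy0, by rw [hy, Int.toNat_of_nonneg hr0]⟩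
  rw [hr, zpow_zero] at hy
  have hy1 : v (x / π ^ q) = 1 := by
    have := (pow_left_inj₀ (a := v (x / π ^ q)) (b := 1) zero_le zero_le hn0).1
      (by rw [hy, one_pow])
    exact this
  refine ⟨q, ?_⟩
  rw [map_div₀, map_zpow₀, div_eq_one_iff_eq (zpow_ne_zero q hvπ0)] at hy1
  exact hy1

variable (v) in
open scoped Classical in
/-- the order function attached to a uniformiser. -/
noncomputable def ordOf (π : L) (h : IsUnif v π) (x : L) : ℤ :=
  if hx : x = 0 then 0 else Classical.choose (h.gen x hx)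

theorem v_eq {π : L} (h : IsUnif v π) {x : L} (hx : x ≠ 0) : v x = v π ^ ordOf v π h x := by
  unfold ordOf
  rw [dif_neg hx]
  exact Classical.choose_spec (h.gen x hx)

theorem IsUnif.pos {π : L} (h : IsUnif v π) : 0 < v π :=
  zero_lt_iff.2 ((Valuation.ne_zero_iff v).2 h.ne_zero)

theorem ordOf_le_iff {π : L} (h : IsUnif v π) {x y : L} (hx : x ≠ 0) (hy : y ≠ 0) :
    ordOf v π h x ≤ ordOf v π h y ↔ v y ≤ v x := by
  rw [v_eq h hx, v_eq h hy, zpow_le_zpow_iff_right_of_lt_one₀ h.pos h.lt_one]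

theorem ordOf_eq_of_v_eq {π : L} (h : IsUnif v π) {x : L} (hx : x ≠ 0) {m : ℤ}
    (hm : v x = v π ^ m) : ordOf v π h x = m := by
  have := v_eq h hx
  rw [hm] at this
  exact (zpow_right_injective₀ h.pos h.lt_one.ne this).symm

variable (v) in
/-- the `DVal` attached to a uniformiser. -/
noncomputable def dvalOf (π : L) (h : IsUnif v π) : DVal L where
  ord := ordOf v π h
  ord_mul' x y hx hy := by
    apply ordOf_eq_of_v_eq h (mul_ne_zero hx hy)
    rw [map_mul, v_eq h hx, v_eq h hy, zpow_add₀ h.pos.ne']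
  ord_add' x y hx hy hxy := by
    rcases le_total (ordOf v π h x) (ordOf v π h y) with hle | hle
    · rw [min_eq_left hle, ordOf_le_iff h hx hxy]
      refine (v.map_add x y).trans (max_le le_rfl ?_)
      exact (ordOf_le_iff h hx hy).1 hle
    · rw [min_eq_right hle, ordOf_le_iff h hy hxy]
      refine (v.map_add x y).trans (max_le ?_ le_rfl)
      exact (ordOf_le_iff h hy hx).1 hle

section dict

variable {π : L} (h : IsUnif v π)

theorem dvalOf_ord (x : L) : (dvalOf v π h).ord x = ordOf v π h x := rfl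

theorem v_eq_zpow_ord {x : L} (hx : x ≠ 0) : v x = v π ^ (dvalOf v π h).ord x := v_eq h hx

theorem ord_le_ord_iff {x y : L} (hx : x ≠ 0) (hy : y ≠ 0) :
    (dvalOf v π h).ord x ≤ (dvalOf v π h).ord y ↔ v y ≤ v x := ordOf_le_iff h hx hy

theorem ord_eq_ord_iff {x y : L} (hx : x ≠ 0) (hy : y ≠ 0) :
    (dvalOf v π h).ord x = (dvalOf v π h).ord y ↔ v x = v y := by
  rw [le_antisymm_iff, ord_le_ord_iff h hx hy, ord_le_ord_iff h hy hx, le_antisymm_iff, and_comm]

theorem ord_unif : (dvalOf v π h).ord π = 1 :=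
  ordOf_eq_of_v_eq h h.ne_zero (zpow_one _).symm

theorem zero_le_ord_iff {x : L} (hx : x ≠ 0) : 0 ≤ (dvalOf v π h).ord x ↔ v x ≤ 1 := by
  have := ord_le_ord_iff h (one_ne_zero (α := L)) hx
  rwa [(dvalOf v π h).ord_one, map_one] at this

theorem ord_eq_zero_iff {x : L} (hx : x ≠ 0) : (dvalOf v π h).ord x = 0 ↔ v x = 1 := by
  have := ord_eq_ord_iff h hx (one_ne_zero (α := L))
  rwa [(dvalOf v π h).ord_one, map_one] at this

theorem one_le_ord_iff {x : L} (hx : x ≠ 0) : 1 ≤ (dvalOf v π h).ord x ↔ v x < 1 := by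
  rw [← not_iff_not, not_le, not_lt]
  constructor
  · intro h1
    have h2 : (dvalOf v π h).ord x ≤ 0 := by omega
    have := (ord_le_ord_iff h hx (one_ne_zero (α := L))).1 (by rwa [(dvalOf v π h).ord_one])
    rwa [map_one] at this
  · intro h1
    have := (ord_le_ord_iff h hx (one_ne_zero (α := L))).2 (by rwa [map_one])
    rw [(dvalOf v π h).ord_one] at this
    omega

/-- `Ge (ord c) x ↔ v x ≤ v c`. -/
theorem ge_ord_iff {c x : L} (hc : c ≠ 0) : (dvalOf v π h).Ge ((dvalOf v π h).ord c) x ↔ v x ≤ v c := by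
  rcases eq_or_ne x 0 with rfl | hx
  · simp [DVal.Ge]
  · rw [ge_iff hx, ord_le_ord_iff h hc hx]

theorem ge_zero_iff {x : L} : (dvalOf v π h).Ge 0 x ↔ v x ≤ 1 := by
  have := ge_ord_iff h (one_ne_zero (α := L)) (x := x)
  rwa [(dvalOf v π h).ord_one, map_one] at this

theorem ge_one_iff {x : L} : (dvalOf v π h).Ge 1 x ↔ v x < 1 := by
  rcases eq_or_ne x 0 with rfl | hx
  · simp [DVal.Ge]
  · rw [ge_iff hx, one_le_ord_iff h hx]

end dict

end Fermat.Agent.W56.RamVal7
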