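/-
Programme W56 (target S56), item (D4) = LEC-p, helper9: **the instantiation `LecContracts7.UFieldKU`**
of helper7's abstract units count at the field `K_U = LecField7.KU pp U` (the elements of `ℚ̄` fixed
by an open normal subgroup `U` of `Γ_p` of index prime to `p`, through `locD pp`), with the action of
the finite group `Γ_p ⧸ U`.
-/
import Mathlib
import Fermat.Agent.W56.LecContracts7
import Fermat.Agent.W56.RamVal7
import Fermat.Agent.W56.LecLocal5

set_option autoImplicit false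
set_option linter.unusedSectionVars false
set_option linter.unusedVariables false
set_option linter.style.haveILetI false

open ExtCitation

namespace Fermat.Agent.W56.LecInst9

open Fermat.Agent.W56.Defs9 Fermat.Agent.W56.RamBase7 Fermat.Agent.W56.LecUData7
  Fermat.Agent.W56.LecField7 Fermat.Agent.W56.RamVal7 Fermat.Agent.W56.RamKumA7
  Fermat.Agent.PT.PRO Fermat.Agent.PT.BR
open scoped NNReal

local notation "Qb" => AlgebraicClosure ℚ

noncomputable section

variable (pp : Nat.Primes)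

local instance factPP : Fact ((pp : ℕ).Prime) := ⟨pp.2⟩

/-- the chosen embedding `ℚ̄ → ℚ̄_p`. -/
def iota : Qb →ₐ[ℚ] PadicAlgCl (pp : ℕ) := padicEmbedding (pp : ℕ)

theorem iota_locD (τ : PadicAlgCl (pp : ℕ) ≃ₐ[ℚ_[(pp : ℕ)]] PadicAlgCl (pp : ℕ)) (x : Qb) :
    iota pp (locD pp τ x) = τ (iota pp x) :=
  padicEmbedding_localGaloisToGlobal (pp : ℕ) τ x

theorem nnnorm_iota_locD (τ : primeLocalGaloisGroup pp) (x : Qb) :
    ‖iota pp (locD pp τ x)‖₊ = ‖iota pp x‖₊ :=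
  (congrArg nnnorm (iota_locD pp τ x)).trans (nnnorm_padicAlgCl_algEquiv (pp : ℕ) τ _)

theorem exists_padic_of_fixed' (x : Qb) (hx : ∀ τ : primeLocalGaloisGroup pp, locD pp τ x = x) :
    ∃ z : ℚ_[(pp : ℕ)], iota pp x = algebraMap ℚ_[(pp : ℕ)] (PadicAlgCl (pp : ℕ)) z :=
  LecLocal5.exists_padic_of_fixed (pp : ℕ) x hx

/-! ### The valuation of `K_U` -/

variable {pp} (U : Subgroup (primeLocalGaloisGroup pp))

/-- the `p`-adic valuation of `K_U`. -/
def vKU : Valuation ↥(KU pp U) ℝ≥0 :=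
  (Valued.v : Valuation (PadicAlgCl (pp : ℕ)) ℝ≥0).comap
    (((iota pp : Qb →ₐ[ℚ] PadicAlgCl (pp : ℕ)) : Qb →+* PadicAlgCl (pp : ℕ)).comp
      (KU pp U).subtype)

theorem vKU_apply (x : ↥(KU pp U)) : vKU U x = ‖iota pp (x : Qb)‖₊ := rfl

theorem vKU_natCast_p : vKU U ((pp : ℕ) : ↥(KU pp U)) = 1 / ((pp : ℕ) : ℝ≥0) := by
  rw [vKU_apply]
  have h : iota pp (((pp : ℕ) : ↥(KU pp U)) : Qb) = ((pp : ℕ) : PadicAlgCl (pp : ℕ)) := by
    rw [SubringClass.coe_natCast, map_natCast]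
  rw [h]
  exact PadicAlgCl.valuation_p (pp : ℕ)

variable [hU : U.Normal]

theorem vKU_smul (g : primeLocalGaloisGroup pp ⧸ U) (x : ↥(KU pp U)) :
    vKU U (g • x) = vKU U x := by
  induction g using QuotientGroup.induction_on with
  | H τ =>
    rw [vKU_apply, vKU_apply, mk_smul_coe]
    exact nnnorm_iota_locD pp τ _

section Norm

variable [Fintype (primeLocalGaloisGroup pp ⧸ U)]

/-- the norm from `K_U` to `ℚ̄ ∩ ℚ_p`. -/
def normG (x : ↥(KU pp U)) : ↥(KU pp U) := ∏ g : primeLocalGaloisGroup pp ⧸ U, g • x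

theorem smul_normG (h : primeLocalGaloisGroup pp ⧸ U) (x : ↥(KU pp U)) :
    h • normG U x = normG U x := by
  unfold normG
  rw [Finset.smul_prod']
  simp only [← mul_smul]
  exact Fintype.prod_equiv (Equiv.mulLeft h) _ _ fun g => rfl

theorem vKU_normG (x : ↥(KU pp U)) :
    vKU U (normG U x) = vKU U x ^ Fintype.card (primeLocalGaloisGroup pp ⧸ U) := by
  unfold normG
  rw [map_prod, Finset.prod_congr rfl fun g _ => vKU_smul U g x, Finset.prod_const,
    Finset.card_univ]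

theorem exists_padic_normG (x : ↥(KU pp U)) :
    ∃ z : ℚ_[(pp : ℕ)],
      iota pp (normG U x : Qb) = algebraMap ℚ_[(pp : ℕ)] (PadicAlgCl (pp : ℕ)) z := by
  refine exists_padic_of_fixed' pp _ fun τ => ?_
  have h := smul_normG U (QuotientGroup.mk τ) x
  have h2 := congrArg (fun y : ↥(KU pp U) => (y : Qb)) h
  simp only [mk_smul_coe] at h2
  exact h2

/-- **discreteness**: `v x ^ #G ∈ (v p)^ℤ`. -/
theorem vKU_pow_card (x : ↥(KU pp U)) (hx : x ≠ 0) :
    ∃ k : ℤ, vKU U x ^ Fintype.card (primeLocalGaloisGroup pp ⧸ U) =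
      vKU U ((pp : ℕ) : ↥(KU pp U)) ^ k := by
  obtain ⟨z, hz⟩ := exists_padic_normG U x
  have hN0 : normG U x ≠ 0 := by
    unfold normG
    rw [Finset.prod_ne_zero_iff]
    intro g _
    exact (smul_ne_zero_iff_ne g).mpr hx
  have hz0 : z ≠ 0 := by
    rintro rfl
    rw [map_zero] at hz
    have : (normG U x : Qb) = 0 := (map_eq_zero_iff _ (iota pp).injective).1 hz
    exact hN0 (Subtype.ext this)
  refine ⟨z.valuation, ?_⟩
  rw [← vKU_normG, vKU_apply, hz, vKU_natCast_p]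
  apply NNReal.eq
  rw [coe_nnnorm]
  have h1 : ‖algebraMap ℚ_[(pp : ℕ)] (PadicAlgCl (pp : ℕ)) z‖ = ‖z‖ :=
    PadicAlgCl.norm_extends (pp : ℕ) z
  rw [h1, Padic.norm_eq_zpow_neg_valuation hz0, NNReal.coe_zpow, one_div, NNReal.coe_inv,
    NNReal.coe_natCast, inv_zpow', ]

end Norm

/-! ### The integer-valued order, the residue field, the reduction map -/

variable [hfin : Finite (primeLocalGaloisGroup pp ⧸ U)]

theorem discrKU : Discr (vKU U) ((pp : ℕ) : ↥(KU pp U)) (Nat.card (primeLocalGaloisGroup pp ⧸ U)) := by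
  letI : Fintype (primeLocalGaloisGroup pp ⧸ U) := Fintype.ofFinite _
  refine ⟨Nat.card_pos, Nat.cast_ne_zero.2 pp.2.ne_zero, ?_, fun x hx => ?_⟩
  · rw [vKU_natCast_p, one_div]
    apply inv_lt_one_of_one_lt₀
    exact_mod_cast pp.2.one_lt
  · rw [Nat.card_eq_fintype_card]
    exact vKU_pow_card U x hx

/-- a uniformiser of `K_U`. -/
def unifKU : ↥(KU pp U) := (discrKU U).exists_unif.choose

theorem isUnif_unifKU : IsUnif (vKU U) (unifKU U) := (discrKU U).exists_unif.choose_spec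

/-- the integer-valued order of `K_U`. -/
def wKU : DVal ↥(KU pp U) := dvalOf (vKU U) (unifKU U) (isUnif_unifKU U)

theorem wKU_ge_zero_iff {x : ↥(KU pp U)} : (wKU U).Ge 0 x ↔ vKU U x ≤ 1 :=
  ge_zero_iff (isUnif_unifKU U)

theorem wKU_ge_one_iff {x : ↥(KU pp U)} : (wKU U).Ge 1 x ↔ vKU U x < 1 :=
  ge_one_iff (isUnif_unifKU U)

/-- the valuation ring of `K_U`. -/
def OKU : ValuationSubring ↥(KU pp U) := (vKU U).valuationSubring

theorem mem_OKU {x : ↥(KU pp U)} : x ∈ OKU U ↔ vKU U x ≤ 1 := Iff.rfl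

/-- the action of `Γ_p ⧸ U` on the valuation ring. -/
instance actOKU : MulSemiringAction (primeLocalGaloisGroup pp ⧸ U) ↥(OKU U) where
  smul g x := ⟨g • (x : ↥(KU pp U)), by rw [mem_OKU, vKU_smul]; exact x.2⟩
  one_smul x := Subtype.ext (one_smul _ _)
  mul_smul g h x := Subtype.ext (mul_smul _ _ _)
  smul_zero g := Subtype.ext (smul_zero _)
  smul_add g x y := Subtype.ext (smul_add _ _ _)
  smul_one g := Subtype.ext (smul_one _)
  smul_mul g x y := Subtype.ext (smul_mul' _ _ _)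

theorem coe_smul_OKU (g : primeLocalGaloisGroup pp ⧸ U) (x : ↥(OKU U)) :
    ((g • x : ↥(OKU U)) : ↥(KU pp U)) = g • (x : ↥(KU pp U)) := rfl

/-- the residue field of `K_U`. -/
abbrev kappaKU : Type := IsLocalRing.ResidueField ↥(OKU U)

open Classical in
/-- the reduction map (zero off the integers). -/
def redKU (x : ↥(KU pp U)) : kappaKU U :=
  if h : vKU U x ≤ 1 then IsLocalRing.residue ↥(OKU U) ⟨x, h⟩ else 0

theorem redKU_of_le {x : ↥(KU pp U)} (h : vKU U x ≤ 1) :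
    redKU U x = IsLocalRing.residue ↥(OKU U) ⟨x, h⟩ := dif_pos h

theorem redKU_eq_zero_iff {x : ↥(KU pp U)} (h : vKU U x ≤ 1) : redKU U x = 0 ↔ vKU U x < 1 := by
  rw [redKU_of_le U h, IsLocalRing.residue_eq_zero_iff]
  exact (Valuation.mem_maximalIdeal_iff (v := vKU U)).trans Iff.rfl

theorem redKU_add {x y : ↥(KU pp U)} (hx : vKU U x ≤ 1) (hy : vKU U y ≤ 1) :
    redKU U (x + y) = redKU U x + redKU U y := by
  have hxy : vKU U (x + y) ≤ 1 := ((OKU U).add_mem _ _ hx hy : x + y ∈ OKU U)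
  rw [redKU_of_le U hx, redKU_of_le U hy, redKU_of_le U hxy, ← map_add]
  rfl

theorem redKU_mul {x y : ↥(KU pp U)} (hx : vKU U x ≤ 1) (hy : vKU U y ≤ 1) :
    redKU U (x * y) = redKU U x * redKU U y := by
  have hxy : vKU U (x * y) ≤ 1 := ((OKU U).mul_mem _ _ hx hy : x * y ∈ OKU U)
  rw [redKU_of_le U hx, redKU_of_le U hy, redKU_of_le U hxy, ← map_mul]
  rfl

theorem redKU_one : redKU U 1 = 1 := by
  have h1 : vKU U 1 ≤ 1 := by rw [map_one]
  rw [redKU_of_le U h1, ← map_one (IsLocalRing.residue ↥(OKU U))]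
  rfl

theorem redKU_smul (σ : primeLocalGaloisGroup pp ⧸ U) {x : ↥(KU pp U)} (hx : vKU U x ≤ 1) :
    redKU U (σ • x) = σ • redKU U x := by
  have hσx : vKU U (σ • x) ≤ 1 := by rw [vKU_smul]; exact hx
  rw [redKU_of_le U hx, redKU_of_le U hσx, ← IsLocalRing.ResidueField.residue_smul]
  rfl

theorem redKU_natCast (m : ℕ) : redKU U (m : ↥(KU pp U)) = (m : kappaKU U) := by
  have hm : vKU U (m : ↥(KU pp U)) ≤ 1 := (natCast_mem (OKU U) m : (m : ↥(KU pp U)) ∈ OKU U)
  rw [redKU_of_le U hm, ← map_natCast (IsLocalRing.residue ↥(OKU U)) m]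
  rfl

/-- the residue field has characteristic `p`. -/
theorem charP_kappaKU : CharP (kappaKU U) (pp : ℕ) := by
  rw [CharP.charP_iff_prime_eq_zero pp.2, ← redKU_natCast]
  have h1 : vKU U ((pp : ℕ) : ↥(KU pp U)) < 1 := (discrKU U).hϖ
  exact (redKU_eq_zero_iff U h1.le).2 h1

/-! ### Roots of unity -/

omit hfin in
theorem exists_zeta (hζ : ∀ u ∈ U, ∀ ζ : Qb, ζ ^ (pp : ℕ) = 1 → locD pp u ζ = ζ) :
    ∃ ζ : ↥(KU pp U), IsPrimitiveRoot ζ (pp : ℕ) := by
  haveI : NeZero (((pp : ℕ) : ℕ) : ℚ) := ⟨Nat.cast_ne_zero.2 pp.2.ne_zero⟩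
  obtain ⟨ζ, hζp⟩ := HasEnoughRootsOfUnity.exists_primitiveRoot Qb (pp : ℕ)
  have hmem : ζ ∈ KU pp U := fun u hu => hζ u hu ζ hζp.pow_eq_one
  refine ⟨⟨ζ, hmem⟩, ?_⟩
  exact IsPrimitiveRoot.of_map_of_injective (f := (KU pp U).subtype) hζp
    (KU pp U).subtype_injective

/-! ### Faithfulness (finite Galois theory in a Galois level) -/

omit hfin in
theorem mem_of_fixes_KU (hV : ∃ V ∈ LevelBridge13.pullSets (locD pp), V ≤ U)
    (τ : primeLocalGaloisGroup pp) (hτ : ∀ x : Qb, x ∈ KU pp U → locD pp τ x = x) : τ ∈ U := by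
  obtain ⟨V, ⟨F, hF, rfl⟩, hVU⟩ := hV
  obtain ⟨L, hFL, hLfin, hLgal⟩ := LevelBridge13.exists_isGalois_ge F
  haveI := hLfin
  haveI := hLgal
  haveI : Normal ℚ L := IsGalois.to_normal
  -- restriction to `L`
  let ρ : primeLocalGaloisGroup pp →* (L ≃ₐ[ℚ] L) :=
    (AlgEquiv.restrictNormalHom (F := ℚ) (K₁ := Qb) L).comp (locD pp)
  have hρ : ∀ (σ : primeLocalGaloisGroup pp) (x : L), ((ρ σ x : L) : Qb) = locD pp σ (x : Qb) :=
    fun σ x => AlgEquiv.restrictNormal_commutes (locD pp σ) L x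
  have hker : ∀ σ : primeLocalGaloisGroup pp, ρ σ = 1 → σ ∈ U := by
    intro σ hσ
    apply hVU
    rw [Subgroup.mem_comap, IntermediateField.mem_fixingSubgroup_iff]
    intro x hx
    have h1 := hρ σ ⟨x, hFL hx⟩
    rw [hσ] at h1
    exact h1.symm
  let H : Subgroup (L ≃ₐ[ℚ] L) := U.map ρ
  have hfix : ρ τ ∈ (IntermediateField.fixedField H).fixingSubgroup := by
    rw [IntermediateField.mem_fixingSubgroup_iff]
    intro x hx
    have hxKU : ((x : L) : Qb) ∈ KU pp U := by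
      intro u hu
      have h1 := hρ u x
      have h2 : ρ u x = x := by
        have := (IntermediateField.mem_fixedField_iff (H := H) x).1 hx (ρ u) ⟨u, hu, rfl⟩
        exact this
      rw [h2] at h1
      exact h1.symm
    have h3 := hτ _ hxKU
    apply Subtype.ext
    rw [hρ, h3]
  rw [IntermediateField.fixingSubgroup_fixedField] at hfix
  obtain ⟨u, hu, huτ⟩ := hfix
  have h4 : ρ (u⁻¹ * τ) = 1 := by rw [map_mul, map_inv, huτ, inv_mul_cancel]
  have h5 := hker _ h4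
  have h6 := U.mul_mem hu h5
  rwa [mul_inv_cancel_left] at h6

omit hfin in
theorem faithfulKU (hV : ∃ V ∈ LevelBridge13.pullSets (locD pp), V ≤ U)
    (σ : primeLocalGaloisGroup pp ⧸ U) (hσ : ∀ x : ↥(KU pp U), σ • x = x) : σ = 1 := by
  induction σ using QuotientGroup.induction_on with
  | H τ =>
    rw [QuotientGroup.eq_one_iff]
    refine mem_of_fixes_KU U hV τ fun x hx => ?_
    have h := congrArg (fun y : ↥(KU pp U) => (y : Qb)) (hσ ⟨x, hx⟩)
    simpa only [mk_smul_coe] using h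

/-! ### The fixed field of the residue field is `𝔽_p`; finiteness -/

theorem natCast_pow_char {R : Type*} [CommRing R] (p : ℕ) [Fact p.Prime] [CharP R p] (m : ℕ) :
    (m : R) ^ p = m := by
  induction m with
  | zero => rw [Nat.cast_zero, zero_pow (Fact.out : p.Prime).ne_zero]
  | succ m ih => rw [Nat.cast_succ, add_pow_char, ih, one_pow]

/-- an integral element of `K_U` fixed by `Γ_p ⧸ U` is congruent to a natural number. -/
theorem exists_nat_of_fixed (y : ↥(OKU U))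
    (hy : ∀ h : primeLocalGaloisGroup pp ⧸ U, h • y = y) :
    ∃ m : ℕ, IsLocalRing.residue ↥(OKU U) y = (m : kappaKU U) := by
  have hyQ : ∀ τ : primeLocalGaloisGroup pp,
      locD pp τ ((y : ↥(KU pp U)) : Qb) = ((y : ↥(KU pp U)) : Qb) := by
    intro τ
    have h := congrArg (fun z : ↥(OKU U) => ((z : ↥(KU pp U)) : Qb)) (hy (QuotientGroup.mk τ))
    simpa only [coe_smul_OKU, mk_smul_coe] using h
  obtain ⟨z, hz⟩ := exists_padic_of_fixed' pp _ hyQ
  have hext : ∀ t : ℚ_[(pp : ℕ)],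
      ‖algebraMap ℚ_[(pp : ℕ)] (PadicAlgCl (pp : ℕ)) t‖ = ‖t‖ := fun t =>
    PadicAlgCl.norm_extends (pp : ℕ) t
  have hz1 : ‖z‖ ≤ 1 := by
    have h1 : vKU U (y : ↥(KU pp U)) ≤ 1 := y.2
    rw [vKU_apply, hz] at h1
    rw [← hext z]
    exact_mod_cast h1
  obtain ⟨m, -, hm⟩ := PadicInt.exists_mem_range (⟨z, hz1⟩ : ℤ_[(pp : ℕ)])
  rw [PadicInt.maximalIdeal_eq_span_p, Ideal.mem_span_singleton,
    ← PadicInt.norm_lt_one_iff_dvd] at hm
  have hm' : ‖z - (m : ℚ_[(pp : ℕ)])‖ < 1 := by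
    have h2 : ((⟨z, hz1⟩ - (m : ℤ_[(pp : ℕ)]) : ℤ_[(pp : ℕ)]) : ℚ_[(pp : ℕ)]) =
        z - (m : ℚ_[(pp : ℕ)]) :=
      (PadicInt.coe_sub _ _).trans (congrArg (fun t => z - t) (PadicInt.coe_natCast m))
    rw [← h2, ← PadicInt.norm_def]
    exact hm
  refine ⟨m, ?_⟩
  have hv : vKU U (((y - (m : ↥(OKU U)) : ↥(OKU U)) : ↥(KU pp U))) < 1 := by
    rw [vKU_apply]
    have h3 : iota pp ((((y - (m : ↥(OKU U)) : ↥(OKU U)) : ↥(KU pp U)) : Qb)) =
        algebraMap ℚ_[(pp : ℕ)] (PadicAlgCl (pp : ℕ)) (z - (m : ℚ_[(pp : ℕ)])) := by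
      have h4 : ((((y - (m : ↥(OKU U)) : ↥(OKU U)) : ↥(KU pp U)) : Qb)) =
          ((y : ↥(KU pp U)) : Qb) - (m : Qb) := rfl
      rw [h4, map_sub, hz, map_natCast, map_sub, map_natCast]
    rw [h3]
    have h5 := hext (z - (m : ℚ_[(pp : ℕ)]))
    have h6 : ‖algebraMap ℚ_[(pp : ℕ)] (PadicAlgCl (pp : ℕ)) (z - (m : ℚ_[(pp : ℕ)]))‖ < 1 := by
      rw [h5]; exact hm'
    exact_mod_cast h6
  have h0 : IsLocalRing.residue ↥(OKU U) (y - (m : ↥(OKU U))) = 0 := by
    rw [IsLocalRing.residue_eq_zero_iff]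
    exact (Valuation.mem_maximalIdeal_iff (v := vKU U)).2 hv
  rw [map_sub, map_natCast, sub_eq_zero] at h0
  exact h0

/-- **the fixed field of the residue field is the prime field.** -/
theorem fixKU (hcop : (Nat.card (primeLocalGaloisGroup pp ⧸ U)).Coprime (pp : ℕ))
    (a : kappaKU U) (ha : ∀ σ : primeLocalGaloisGroup pp ⧸ U, σ • a = a) :
    a ^ (pp : ℕ) = a := by
  letI : Fintype (primeLocalGaloisGroup pp ⧸ U) := Fintype.ofFinite _
  haveI := charP_kappaKU U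
  obtain ⟨x₀, rfl⟩ := IsLocalRing.residue_surjective a
  set y : ↥(OKU U) := ∑ g : primeLocalGaloisGroup pp ⧸ U, g • x₀ with hy
  have hres : IsLocalRing.residue ↥(OKU U) y =
      (Nat.card (primeLocalGaloisGroup pp ⧸ U) : kappaKU U) * IsLocalRing.residue ↥(OKU U) x₀ := by
    rw [hy, map_sum]
    rw [Finset.sum_congr rfl fun g _ =>
      (IsLocalRing.ResidueField.residue_smul _ g x₀).trans (ha g)]
    rw [Finset.sum_const, Finset.card_univ, nsmul_eq_mul, Nat.card_eq_fintype_card]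
  have hyfix : ∀ h : primeLocalGaloisGroup pp ⧸ U, h • y = y := by
    intro h
    rw [hy, Finset.smul_sum]
    simp only [← mul_smul]
    exact Fintype.sum_equiv (Equiv.mulLeft h) _ _ fun g => rfl
  obtain ⟨m, hm⟩ := exists_nat_of_fixed U y hyfix
  have hn0 : (Nat.card (primeLocalGaloisGroup pp ⧸ U) : kappaKU U) ≠ 0 := by
    rw [Ne, CharP.cast_eq_zero_iff (kappaKU U) (pp : ℕ)]
    exact fun h => (Nat.Prime.coprime_iff_not_dvd pp.2).1 hcop.symm h
  have ha' : IsLocalRing.residue ↥(OKU U) x₀ =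
      (m : kappaKU U) * (Nat.card (primeLocalGaloisGroup pp ⧸ U) : kappaKU U)⁻¹ := by
    rw [← hm, hres]
    field_simp
  rw [ha', mul_pow, inv_pow, natCast_pow_char, natCast_pow_char]

theorem finite_kappaKU (hcop : (Nat.card (primeLocalGaloisGroup pp ⧸ U)).Coprime (pp : ℕ)) :
    Finite (kappaKU U) := by
  classical
  let κ₀ := FixedPoints.subfield (primeLocalGaloisGroup pp ⧸ U) (kappaKU U)
  have hsub : (κ₀ : Set (kappaKU U)) ⊆
      {a | Polynomial.IsRoot (Polynomial.X ^ (pp : ℕ) - Polynomial.X : Polynomial (kappaKU U)) a} := by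
    intro a ha
    have h1 := fixKU U hcop a (fun σ => ha σ)
    simp only [Set.mem_ofPred_eq, Polynomial.IsRoot, Polynomial.eval_sub, Polynomial.eval_pow,
      Polynomial.eval_X, h1, sub_self]
  have hfinset := (Polynomial.finite_setOfPred_isRoot
    (FiniteField.X_pow_card_sub_X_ne_zero (kappaKU U) pp.2.one_lt)).subset hsub
  haveI : Finite ↥κ₀ := hfinset.to_subtype
  exact Module.finite_of_finite ↥κ₀

/-! ### The instance -/

theorem ufieldKU_of (hV : ∃ V ∈ LevelBridge13.pullSets (locD pp), V ≤ U)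
    (hcop : (Nat.card (primeLocalGaloisGroup pp ⧸ U)).Coprime (pp : ℕ))
    (hζ : ∀ u ∈ U, ∀ ζ : Qb, ζ ^ (pp : ℕ) = 1 → locD pp u ζ = ζ) :
    UField (wKU U) (primeLocalGaloisGroup pp ⧸ U) (pp : ℕ) (kappaKU U) (redKU U) where
  prime := ⟨pp.2, (discrKU U).hϖ0, by
    have h := (one_le_ord_iff (isUnif_unifKU U) (discrKU U).hϖ0).2 (discrKU U).hϖ
    exact lt_of_lt_of_le zero_lt_one h⟩
  inv σ x := by
    rcases eq_or_ne x 0 with rfl | hx
    · rw [smul_zero]
    · exact (ord_eq_ord_iff (isUnif_unifKU U) ((smul_ne_zero_iff_ne σ).mpr hx) hx).2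
        (vKU_smul U σ x)
  faithful := faithfulKU U hV
  unif := ⟨unifKU U, (isUnif_unifKU U).ne_zero, ord_unif (isUnif_unifKU U)⟩
  zeta := exists_zeta U hζ
  red_add x y hx hy := redKU_add U ((wKU_ge_zero_iff U).1 hx) ((wKU_ge_zero_iff U).1 hy)
  red_mul x y hx hy := redKU_mul U ((wKU_ge_zero_iff U).1 hx) ((wKU_ge_zero_iff U).1 hy)
  red_one := redKU_one U
  red_eq_zero x hx := by
    rw [redKU_eq_zero_iff U ((wKU_ge_zero_iff U).1 hx), wKU_ge_one_iff]
  red_surj a := by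
    obtain ⟨x, rfl⟩ := IsLocalRing.residue_surjective a
    exact ⟨x, (wKU_ge_zero_iff U).2 x.2, redKU_of_le U x.2⟩
  red_smul σ x hx := redKU_smul U σ ((wKU_ge_zero_iff U).1 hx)
  fix := fixKU U hcop

omit hU hfin in
/-- **`LecContracts7.UFieldKU`**: the instantiation of helper7's `UField` at `K_U`. -/
theorem ufieldKU : LecContracts7.UFieldKU := by
  intro p _ pp hpp U hUn hV hcop hζ
  subst hpp
  haveI hfinidx : U.FiniteIndex := by
    obtain ⟨V, hVmem, hVU⟩ := hV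
    haveI := (LevelBridge13.pullBasis (locD pp)).isBasis.finiteIndex V hVmem
    exact Subgroup.finiteIndex_of_le hVU
  haveI : Finite (primeLocalGaloisGroup pp ⧸ U) := Subgroup.finite_quotient_of_finiteIndex
  have hcop' : (Nat.card (primeLocalGaloisGroup pp ⧸ U)).Coprime (pp : ℕ) := by
    rw [← Subgroup.index_eq_card]
    exact hcop
  exact ⟨inferInstance, wKU U, kappaKU U, inferInstance, finite_kappaKU U hcop', inferInstance,
    redKU U, ufieldKU_of U hV hcop' hζ⟩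

end

end Fermat.Agent.W56.LecInst9
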