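/-
Programme W56 (target S56), chapter (K-F), delegation C of helper3 (helper9): **the Borel form of a
cocycle from the vanishing of the "good" equivariant additive functions.**  Abstract, Mathlib only.

`G` a group, `N ≤ I ≤ D` subgroups (`I` normalised by `D`, `N` normalised by `I`, `[I : N]`
invertible in `k`), `rb : G →* GL₂(k)` upper triangular on `D` with diagonal characters
`ψ₁ = rb · 0 0`, `ψ₂ = rb · 1 1`, `N = {τ ∈ I | ψ₁ τ = ψ₂ τ = 1}`, `ψ₁ ≠ ψ₂` somewhere on `I`;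
`c : G → M₂(k)` a trace-zero `Ad rb`-cocycle on `D`.  For `Y : M₂(k)` put
`cTw rb c Y σ = c σ + Y − rb σ * Y * rb σ⁻¹`.  If the additive functions on `N` among the entries
of the `cTw rb c Y` are "good", and good additive functions on `N` which are `ψ₁/ψ₂`-equivariant
(resp. invariant) under conjugation by `I` vanish, then some `cTw rb c Y` (trace `Y` = 0) is upper
triangular on `D` and strictly upper triangular on `I`.
-/
import Mathlib

set_option autoImplicit false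
set_option linter.style.haveILetI false
set_option linter.unusedSectionVars false
set_option linter.unusedVariables false

namespace Fermat.Agent.W56.BorelRam9

open Matrix

local notation "M2" => Matrix (Fin 2) (Fin 2)

variable {k : Type} [Field k]

/-! ### Averaging -/

/-- A twisted homomorphism `f (s t) = χ s f t + f s` vanishing on a subgroup of index invertible
in `k` is a twisted coboundary. -/
theorem exists_cobound_of_vanishing {H : Type*} [Group H] (K : Subgroup H)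
    (hidx : ((K.index : ℕ) : k) ≠ 0) (χ f : H → k)
    (hf : ∀ s t, f (s * t) = χ s * f t + f s) (hK : ∀ n ∈ K, f n = 0) :
    ∃ t₀ : k, ∀ s, f s = (χ s - 1) * t₀ := by
  classical
  have hidx0 : K.index ≠ 0 := fun h => hidx (by rw [h, Nat.cast_zero])
  haveI : K.FiniteIndex := ⟨hidx0⟩
  haveI : Fintype (H ⧸ K) := Subgroup.fintypeQuotientOfFiniteIndex
  -- `f` is constant on left cosets
  have hcoset : ∀ a b : H, a⁻¹ * b ∈ K → f a = f b := by
    intro a b hab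
    have h1 := hf a (a⁻¹ * b)
    rw [mul_inv_cancel_left, hK _ hab, mul_zero, zero_add] at h1
    exact h1.symm
  let fbar : H ⧸ K → k := Quotient.lift f fun a b hab =>
    hcoset a b (QuotientGroup.leftRel_apply.mp hab)
  have hfbar : ∀ a : H, fbar (QuotientGroup.mk a) = f a := fun _ => rfl
  set Sf : k := ∑ q : H ⧸ K, fbar q with hSf
  refine ⟨-(Sf / (K.index : k)), fun s => ?_⟩
  have h1 : ∑ q : H ⧸ K, fbar (s • q) = Sf :=
    Equiv.sum_comp (MulAction.toPerm s : Equiv.Perm (H ⧸ K)) fbar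
  have h2 : ∀ q : H ⧸ K, fbar (s • q) = χ s * fbar q + f s := by
    intro q
    induction q using QuotientGroup.induction_on with
    | H t =>
      show fbar (QuotientGroup.mk (s * t)) = _
      rw [hfbar, hfbar, hf]
  have h3 : Sf = χ s * Sf + (K.index : k) * f s := by
    conv_lhs => rw [← h1]
    rw [Finset.sum_congr rfl fun q _ => h2 q, Finset.sum_add_distrib, ← Finset.mul_sum,
      Finset.sum_const, Finset.card_univ, nsmul_eq_mul]
    congr 2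
    rw [← Nat.card_eq_fintype_card]
    rfl
  have h4 : f s = (Sf - χ s * Sf) / (K.index : k) := by
    rw [eq_div_iff hidx]
    linear_combination -h3
  rw [h4]
  field_simp
  ring

/-! ### Upper triangular conjugation, entry by entry -/

section Entries

variable {G : Type*} [Group G] (rb : G →* M2 k)

/-- The twisted cocycle `c + (1 - Ad rb) Y`. -/
def cTw (c : G → M2 k) (Y : M2 k) (σ : G) : M2 k := c σ + Y - rb σ * Y * rb σ⁻¹

/-- The ratio `ψ₂/ψ₁` of the two diagonal characters. -/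
def chi (σ : G) : k := rb σ 1 1 / rb σ 0 0

theorem cTw_zero (c : G → M2 k) (σ : G) : cTw rb c 0 σ = c σ := by
  rw [cTw, mul_zero, zero_mul, add_zero, sub_zero]

theorem rb_mul_inv (σ : G) : rb σ * rb σ⁻¹ = 1 := by
  rw [← map_mul, mul_inv_cancel, map_one]

theorem rb_inv_mul (σ : G) : rb σ⁻¹ * rb σ = 1 := by
  rw [← map_mul, inv_mul_cancel, map_one]

theorem chi_one : chi rb 1 = 1 := by
  rw [chi, map_one, Matrix.one_apply_eq, Matrix.one_apply_eq, div_one]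

theorem cTw_trace (c : G → M2 k) (htr : ∀ σ, (c σ).trace = 0) (Y : M2 k) (hY : Y.trace = 0)
    (σ : G) : (cTw rb c Y σ).trace = 0 := by
  rw [cTw, Matrix.trace_sub, Matrix.trace_add, htr, hY, Matrix.trace_mul_comm, ← Matrix.mul_assoc,
    rb_inv_mul, Matrix.one_mul, hY, add_zero, sub_zero]

variable {rb} {D : Subgroup G}

omit [Field k] in
theorem cTw_coc_aux {R : Type*} [Ring R] (A B A' B' cτ cσ Y : R) :
    (A * cτ * A' + cσ) + Y - (A * B) * Y * (B' * A')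
      = A * (cτ + Y - B * Y * B') * A' + (cσ + Y - A * Y * A') := by
  noncomm_ring

/-- `cTw rb c Y` is again a cocycle on `D`. -/
theorem cTw_coc {c : G → M2 k}
    (hc : ∀ σ ∈ D, ∀ τ ∈ D, c (σ * τ) = rb σ * c τ * rb σ⁻¹ + c σ) (Y : M2 k) :
    ∀ σ ∈ D, ∀ τ ∈ D,
      cTw rb c Y (σ * τ) = rb σ * cTw rb c Y τ * rb σ⁻¹ + cTw rb c Y σ := by
  intro σ hσ τ hτ
  rw [cTw, cTw, cTw, hc σ hσ τ hτ, _root_.mul_inv_rev, map_mul, map_mul]
  exact cTw_coc_aux _ _ _ _ _ _ _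

theorem coc_one {z : G → M2 k}
    (hz : ∀ σ ∈ D, ∀ τ ∈ D, z (σ * τ) = rb σ * z τ * rb σ⁻¹ + z σ) : z 1 = 0 := by
  have h := hz 1 D.one_mem 1 D.one_mem
  rw [mul_one, inv_one, map_one, one_mul, mul_one] at h
  exact add_eq_left.mp h.symm

variable (hrb : ∀ σ ∈ D, rb σ 1 0 = 0)

include hrb

theorem psi1_mul' {σ τ : G} (hτ : τ ∈ D) : rb (σ * τ) 0 0 = rb σ 0 0 * rb τ 0 0 := by
  rw [map_mul, Matrix.mul_apply, Fin.sum_univ_two, hrb τ hτ, mul_zero, add_zero]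

theorem psi2_mul' {σ τ : G} (hσ : σ ∈ D) : rb (σ * τ) 1 1 = rb σ 1 1 * rb τ 1 1 := by
  rw [map_mul, Matrix.mul_apply, Fin.sum_univ_two, hrb σ hσ, zero_mul, zero_add]

theorem psi1_inv {σ : G} (hσ : σ ∈ D) : rb σ 0 0 * rb σ⁻¹ 0 0 = 1 := by
  have h := psi1_mul' hrb (σ := σ) (τ := σ⁻¹) (D.inv_mem hσ)
  rw [mul_inv_cancel, map_one, Matrix.one_apply_eq] at h
  exact h.symm

theorem psi2_inv {σ : G} (hσ : σ ∈ D) : rb σ 1 1 * rb σ⁻¹ 1 1 = 1 := by
  have h := psi2_mul' hrb (σ := σ) (τ := σ⁻¹) hσ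
  rw [mul_inv_cancel, map_one, Matrix.one_apply_eq] at h
  exact h.symm

theorem psi1_ne {σ : G} (hσ : σ ∈ D) : rb σ 0 0 ≠ 0 := by
  intro h
  have h1 := psi1_inv hrb hσ
  rw [h, zero_mul] at h1
  exact zero_ne_one h1

theorem psi2_ne {σ : G} (hσ : σ ∈ D) : rb σ 1 1 ≠ 0 := by
  intro h
  have h1 := psi2_inv hrb hσ
  rw [h, zero_mul] at h1
  exact zero_ne_one h1

theorem rb_inv00 {σ : G} (hσ : σ ∈ D) : rb σ⁻¹ 0 0 = (rb σ 0 0)⁻¹ :=
  eq_inv_of_mul_eq_one_right (psi1_inv hrb hσ)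

theorem chi_ne {σ : G} (hσ : σ ∈ D) : chi rb σ ≠ 0 :=
  div_ne_zero (psi2_ne hrb hσ) (psi1_ne hrb hσ)

theorem chi_mul {σ τ : G} (hσ : σ ∈ D) (hτ : τ ∈ D) :
    chi rb (σ * τ) = chi rb σ * chi rb τ := by
  rw [chi, chi, chi, psi1_mul' hrb hτ, psi2_mul' hrb hσ, mul_div_mul_comm]

theorem chi_inv {σ : G} (hσ : σ ∈ D) : chi rb σ⁻¹ = (chi rb σ)⁻¹ := by
  have h := chi_mul hrb hσ (D.inv_mem hσ)
  rw [mul_inv_cancel, chi_one] at h
  exact eq_inv_of_mul_eq_one_right h.symm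

/-- The `(1,0)` entry of a conjugate by an upper triangular matrix. -/
theorem conj10 {σ : G} (hσ : σ ∈ D) (X : M2 k) :
    (rb σ * X * rb σ⁻¹) 1 0 = rb σ 1 1 * rb σ⁻¹ 0 0 * X 1 0 := by
  simp only [Matrix.mul_apply, Fin.sum_univ_two, hrb σ hσ, hrb σ⁻¹ (D.inv_mem hσ)]
  ring

theorem conj10' {σ : G} (hσ : σ ∈ D) (X : M2 k) :
    (rb σ * X * rb σ⁻¹) 1 0 = chi rb σ * X 1 0 := by
  rw [conj10 hrb hσ, rb_inv00 hrb hσ, chi, div_eq_mul_inv]

/-- The `(0,0)` entry of a conjugate of an upper triangular matrix by an upper triangular one. -/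
theorem conj00 {σ : G} (hσ : σ ∈ D) (X : M2 k) (hX : X 1 0 = 0) :
    (rb σ * X * rb σ⁻¹) 0 0 = X 0 0 := by
  simp only [Matrix.mul_apply, Fin.sum_univ_two, hrb σ⁻¹ (D.inv_mem hσ), hX]
  have h := psi1_inv hrb hσ
  linear_combination X 0 0 * h

/-! ### Cocycles on `D`, entry by entry -/

variable {z : G → M2 k} (hz : ∀ σ ∈ D, ∀ τ ∈ D, z (σ * τ) = rb σ * z τ * rb σ⁻¹ + z σ)

include hz

theorem coc10 {σ τ : G} (hσ : σ ∈ D) (hτ : τ ∈ D) :
    z (σ * τ) 1 0 = chi rb σ * z τ 1 0 + z σ 1 0 := by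
  rw [hz σ hσ τ hτ, Matrix.add_apply, conj10' hrb hσ]

theorem coc00 {σ τ : G} (hσ : σ ∈ D) (hτ : τ ∈ D) (h0 : z τ 1 0 = 0) :
    z (σ * τ) 0 0 = z τ 0 0 + z σ 0 0 := by
  rw [hz σ hσ τ hτ, Matrix.add_apply, conj00 hrb hσ _ h0]

theorem coc_conj10 {s τ : G} (hs : s ∈ D) (hτ : τ ∈ D) (hχ : chi rb τ = 1) :
    z (s⁻¹ * τ * s) 1 0 = (chi rb s)⁻¹ * z τ 1 0 := by
  have hs' := D.inv_mem hs
  have h1 := coc10 hrb hz (D.mul_mem hs' hτ) hs
  have h2 := coc10 hrb hz hs' hτ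
  have h3 := coc10 hrb hz hs' hs
  rw [inv_mul_cancel, coc_one hz, Matrix.zero_apply] at h3
  have e1 : chi rb (s⁻¹ * τ) = (chi rb s)⁻¹ := by
    rw [chi_mul hrb hs' hτ, hχ, mul_one, chi_inv hrb hs]
  have e2 : chi rb s⁻¹ = (chi rb s)⁻¹ := chi_inv hrb hs
  rw [e1] at h1
  rw [e2] at h2 h3
  linear_combination h1 + h2 - h3

theorem coc_conj00 {s τ : G} (hs : s ∈ D) (hτ : τ ∈ D) (h0s : z s 1 0 = 0) (h0τ : z τ 1 0 = 0) :
    z (s⁻¹ * τ * s) 0 0 = z τ 0 0 := by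
  have hs' := D.inv_mem hs
  have h1 := coc00 hrb hz (D.mul_mem hs' hτ) hs h0s
  have h2 := coc00 hrb hz hs' hτ h0τ
  have h3 := coc00 hrb hz hs' hs h0s
  rw [inv_mul_cancel, coc_one hz, Matrix.zero_apply] at h3
  linear_combination h1 + h2 - h3

end Entries

/-! ### The Borel form -/

/-- **Delegation C.**  The Borel form of a trace-zero cocycle, from the vanishing of the good
equivariant additive functions on `N`. -/
theorem exists_borel_of_vanishing {G : Type*} [Group G] (D I N : Subgroup G)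
    (hID : I ≤ D) (hNI : N ≤ I)
    (hI : ∀ d ∈ D, ∀ s ∈ I, d⁻¹ * s * d ∈ I) (hN : ∀ s ∈ I, ∀ τ ∈ N, s⁻¹ * τ * s ∈ N)
    (hidx : ((N.subgroupOf I).index : k) ≠ 0)
    (rb : G →* M2 k) (hrb : ∀ σ ∈ D, rb σ 1 0 = 0)
    (hNdef : ∀ τ ∈ I, τ ∈ N ↔ rb τ 0 0 = 1 ∧ rb τ 1 1 = 1)
    (hne : ∃ s ∈ I, rb s 0 0 ≠ rb s 1 1)
    (c : G → M2 k) (hc : ∀ σ ∈ D, ∀ τ ∈ D, c (σ * τ) = rb σ * c τ * rb σ⁻¹ + c σ)
    (htr : ∀ σ, (c σ).trace = 0)
    (Good : (↥N → k) → Prop)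
    (hgood : ∀ (Y : M2 k) (i j : Fin 2),
      (∀ σ τ : ↥N, cTw rb c Y ((σ * τ : ↥N) : G) i j
        = cTw rb c Y σ i j + cTw rb c Y τ i j) →
        Good (fun τ : ↥N => cTw rb c Y (τ : G) i j))
    (h10 : ∀ f : ↥N → k, Good f → (∀ σ τ, f (σ * τ) = f σ + f τ) →
      (∀ (s : G) (hs : s ∈ I) (τ : ↥N),
        f ⟨s⁻¹ * τ * s, hN s hs τ τ.2⟩ = rb s 0 0 / rb s 1 1 * f τ) → f = 0)
    (h00 : ∀ f : ↥N → k, Good f → (∀ σ τ, f (σ * τ) = f σ + f τ) →
      (∀ (s : G) (hs : s ∈ I) (τ : ↥N), f ⟨s⁻¹ * τ * s, hN s hs τ τ.2⟩ = f τ) → f = 0) :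
    ∃ Y : M2 k, Y.trace = 0 ∧ ∀ σ : G, (σ ∈ D → cTw rb c Y σ 1 0 = 0) ∧
      (σ ∈ I → cTw rb c Y σ 1 0 = 0 ∧ cTw rb c Y σ 0 0 = 0 ∧ cTw rb c Y σ 1 1 = 0) := by
  classical
  have hND : N ≤ D := hNI.trans hID
  -- `χ = ψ₂/ψ₁` is trivial on `N`
  have hχN : ∀ τ ∈ N, chi rb τ = 1 := by
    intro τ hτ
    obtain ⟨h1, h2⟩ := (hNdef τ (hNI hτ)).mp hτ
    rw [chi, h1, h2, div_one]
  -- the `(1,0)` entry of a `D`-cocycle is additive on `N`
  have hadd10 : ∀ z : G → M2 k,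
      (∀ σ ∈ D, ∀ τ ∈ D, z (σ * τ) = rb σ * z τ * rb σ⁻¹ + z σ) →
      ∀ σ τ : ↥N, z ((σ * τ : ↥N) : G) 1 0 = z σ 1 0 + z τ 1 0 := by
    intro z hz σ τ
    rw [Subgroup.coe_mul, coc10 hrb hz (hND σ.2) (hND τ.2), hχN σ σ.2, one_mul, add_comm]
  -- Step 1: `c₁₀` vanishes on `N`
  have hz₀ := cTw_coc (D := D) hc 0
  have hf₁ : (fun τ : ↥N => cTw rb c 0 (τ : G) 1 0) = 0 := by
    refine h10 _ (hgood 0 1 0 (hadd10 _ hz₀)) (hadd10 _ hz₀) (fun s hs τ => ?_)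
    show cTw rb c 0 (s⁻¹ * (τ : G) * s) 1 0 = _
    rw [coc_conj10 hrb hz₀ (hID hs) (hND τ.2) (hχN τ τ.2), chi, inv_div]
  -- Step 2: `c₁₀` is a twisted coboundary on `I`
  obtain ⟨t₀, ht₀⟩ := exists_cobound_of_vanishing (N.subgroupOf I) hidx
    (fun s : ↥I => chi rb (s : G)) (fun s : ↥I => cTw rb c 0 (s : G) 1 0)
    (fun s t => by
      show cTw rb c 0 ((s * t : ↥I) : G) 1 0 = _
      rw [Subgroup.coe_mul, coc10 hrb hz₀ (hID s.2) (hID t.2)])
    (fun n hn => congrFun hf₁ ⟨(n : G), Subgroup.mem_subgroupOf.mp hn⟩)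
  set Y : M2 k := !![0, 0; t₀, 0] with hYdef
  have hYtr : Y.trace = 0 := by
    rw [hYdef, Matrix.trace_fin_two_of, add_zero]
  have hY10 : Y 1 0 = t₀ := by
    rw [hYdef]; rfl
  have hz := cTw_coc (D := D) hc Y
  have hztr := cTw_trace rb c htr Y hYtr
  have hz10I : ∀ s ∈ I, cTw rb c Y s 1 0 = 0 := by
    intro s hs
    have h := ht₀ ⟨s, hs⟩
    simp only [cTw_zero] at h
    rw [cTw, Matrix.sub_apply, Matrix.add_apply, conj10' hrb (hID hs), h, hY10]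
    ring
  -- Step 3: the `(0,0)` entry vanishes on `N`
  have hadd00 : ∀ σ τ : ↥N, cTw rb c Y ((σ * τ : ↥N) : G) 0 0
      = cTw rb c Y σ 0 0 + cTw rb c Y τ 0 0 := by
    intro σ τ
    rw [Subgroup.coe_mul, coc00 hrb hz (hND σ.2) (hND τ.2) (hz10I τ (hNI τ.2)), add_comm]
  have hg : (fun τ : ↥N => cTw rb c Y (τ : G) 0 0) = 0 := by
    refine h00 _ (hgood Y 0 0 hadd00) hadd00 (fun s hs τ => ?_)
    show cTw rb c Y (s⁻¹ * (τ : G) * s) 0 0 = _
    exact coc_conj00 hrb hz (hID hs) (hND τ.2) (hz10I s hs) (hz10I τ (hNI τ.2))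
  -- Step 4: the `(0,0)` entry vanishes on `I`
  obtain ⟨t₁, ht₁⟩ := exists_cobound_of_vanishing (N.subgroupOf I) hidx
    (fun _ : ↥I => (1 : k)) (fun s : ↥I => cTw rb c Y (s : G) 0 0)
    (fun s t => by
      show cTw rb c Y ((s * t : ↥I) : G) 0 0 = _
      rw [Subgroup.coe_mul, coc00 hrb hz (hID s.2) (hID t.2) (hz10I t t.2), one_mul])
    (fun n hn => congrFun hg ⟨(n : G), Subgroup.mem_subgroupOf.mp hn⟩)
  have hz00I : ∀ s ∈ I, cTw rb c Y s 0 0 = 0 := by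
    intro s hs
    have h := ht₁ ⟨s, hs⟩
    simpa using h
  have hz11I : ∀ s ∈ I, cTw rb c Y s 1 1 = 0 := by
    intro s hs
    have h := hztr s
    rw [Matrix.trace_fin_two, hz00I s hs, zero_add] at h
    exact h
  -- Step 5: the `(1,0)` entry vanishes on `D`
  have hz10D : ∀ d ∈ D, cTw rb c Y d 1 0 = 0 := by
    intro d hd
    obtain ⟨s, hs, hsne⟩ := hne
    have hχs : chi rb s ≠ 1 := by
      intro h
      rw [chi, div_eq_one_iff_eq (psi1_ne hrb (hID hs))] at h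
      exact hsne h.symm
    have hs' : d * s * d⁻¹ ∈ I := by
      have h := hI d⁻¹ (D.inv_mem hd) s hs
      rwa [inv_inv] at h
    have e : d * s = d * s * d⁻¹ * d := by rw [inv_mul_cancel_right]
    have h1 := coc10 hrb hz hd (hID hs)
    rw [hz10I s hs, mul_zero, zero_add] at h1
    have h2 := coc10 hrb hz (hID hs') hd
    rw [hz10I _ hs', add_zero, ← e, h1] at h2
    have e2 : chi rb (d * s * d⁻¹) = chi rb s := by
      rw [chi_mul hrb (D.mul_mem hd (hID hs)) (D.inv_mem hd), chi_mul hrb hd (hID hs),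
        chi_inv hrb hd]
      field_simp [chi_ne hrb hd]
    rw [e2] at h2
    have h3 : (1 - chi rb s) * cTw rb c Y d 1 0 = 0 := by linear_combination h2
    rcases mul_eq_zero.mp h3 with h4 | h4
    · exact absurd (sub_eq_zero.mp h4).symm hχs
    · exact h4
  exact ⟨Y, hYtr, fun σ => ⟨fun hσ => hz10D σ hσ,
    fun hσ => ⟨hz10I σ hσ, hz00I σ hσ, hz11I σ hσ⟩⟩⟩

end Fermat.Agent.W56.BorelRam9
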