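/-
Programme W56 (target S56), chapter (D4) = (LEC-p), cohomological side (helper5):
**relative Kummer theory inside `ℚ̄`**.

Pointwise forms of the rules of `LecKummer5` (`σ θ = ζ ^ (kum θ σ) * θ` as soon as `σ` fixes `θ ^ p`),
the conjugation rule `kum (g θ) (g σ g⁻¹) = χ(g) • kum θ σ`, independence of the chosen root, and
the Kummer character `kumX x σ` of an element `x` (any `p`-th root), with
`kumX (x y) = kumX x + kumX y`, `kumX (g x) (g σ g⁻¹) = χ(g) • kumX x σ`, and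
`kumX x = 0` on a subgroup `Σ` fixing `ζ` and `x` iff `x` is a `p`-th power of a `Σ`-fixed element.
-/
import Mathlib
import Fermat.Agent.W56.LecKummer5

set_option autoImplicit false
set_option linter.unusedSectionVars false

namespace Fermat.Agent.W56.LecKumRel5

open ExtCitation Fermat.Agent.S14.Fields Fermat.Agent.W56.LecKummer5

local notation "Qb" => AlgebraicClosure ℚ
local notation "GQ" => (AlgebraicClosure ℚ ≃ₐ[ℚ] AlgebraicClosure ℚ)

variable {p : ℕ} [Fact p.Prime]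

/-! ### Pointwise rules -/

theorem exists_pow' {θ : Qb} (hθ : θ ≠ 0) {σ : GQ} (h : σ (θ ^ p) = θ ^ p) :
    ∃ i : ℕ, σ θ = zeta p ^ i * θ := by
  have h1 : (σ θ / θ) ^ p = 1 := by
    rw [div_pow, ← map_pow, h, div_self (pow_ne_zero _ hθ)]
  obtain ⟨i, -, hi⟩ := (zeta_spec p).eq_pow_of_pow_eq_one h1
  exact ⟨i, by rw [hi, div_mul_cancel₀ _ hθ]⟩

theorem apply_eq' {θ : Qb} (hθ : θ ≠ 0) {σ : GQ} (h : σ (θ ^ p) = θ ^ p) :
    σ θ = zeta p ^ (kum p θ σ).val * θ := by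
  obtain ⟨i, hi⟩ := exists_pow' hθ h
  rw [zeta_pow_val _ i (kum_eq hθ hi), hi]

theorem kum_eq_zero_iff' {θ : Qb} (hθ : θ ≠ 0) {σ : GQ} (h : σ (θ ^ p) = θ ^ p) :
    kum p θ σ = 0 ↔ σ θ = θ := by
  constructor
  · intro h0
    rw [apply_eq' hθ h, h0, ZMod.val_zero, pow_zero, one_mul]
  · intro h0
    have : σ θ = zeta p ^ 0 * θ := by rw [pow_zero, one_mul, h0]
    rw [kum_eq hθ this, Nat.cast_zero]

theorem kum_mul' {θ : Qb} (hθ : θ ≠ 0) {σ τ : GQ} (hσ : σ (θ ^ p) = θ ^ p)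
    (hτ : τ (θ ^ p) = θ ^ p) :
    kum p θ (σ * τ) = kum p θ σ + (cycloExp p σ : ZMod p) * kum p θ τ := by
  have h1 : (σ * τ) θ = zeta p ^ ((kum p θ σ).val + cycloExp p σ * (kum p θ τ).val) * θ := by
    rw [AlgEquiv.mul_apply, apply_eq' hθ hτ, map_mul, map_pow, apply_zeta, apply_eq' hθ hσ,
      pow_add, ← pow_mul]
    ring
  rw [kum_eq hθ h1, Nat.cast_add, Nat.cast_mul, ZMod.natCast_zmod_val, ZMod.natCast_zmod_val]

theorem kum_mul_el' {θ₁ θ₂ : Qb} (h₁ : θ₁ ≠ 0) (h₂ : θ₂ ≠ 0) {σ : GQ}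
    (hσ₁ : σ (θ₁ ^ p) = θ₁ ^ p) (hσ₂ : σ (θ₂ ^ p) = θ₂ ^ p) :
    kum p (θ₁ * θ₂) σ = kum p θ₁ σ + kum p θ₂ σ := by
  have h : σ (θ₁ * θ₂) = zeta p ^ ((kum p θ₁ σ).val + (kum p θ₂ σ).val) * (θ₁ * θ₂) := by
    rw [map_mul, apply_eq' h₁ hσ₁, apply_eq' h₂ hσ₂, pow_add]
    ring
  rw [kum_eq (mul_ne_zero h₁ h₂) h, Nat.cast_add, ZMod.natCast_zmod_val, ZMod.natCast_zmod_val]

/-- the cyclotomic exponent of an automorphism fixing `ζ` is `1` modulo `p`. -/
theorem cycloExp_eq_one {σ : GQ} (hζ : σ (zeta p) = zeta p) :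
    ((cycloExp p σ : ℕ) : ZMod p) = 1 := by
  have h1 := apply_zeta p σ
  rw [hζ] at h1
  have h2 : zeta p ^ 1 = zeta p ^ cycloExp p σ := by rw [pow_one]; exact h1
  rw [zeta_pow_eq_pow_iff] at h2
  rw [← h2, Nat.cast_one]

/-- **independence of the root**: two `p`-th roots of the same element have the same Kummer
exponent at an automorphism fixing `ζ`. -/
theorem kum_eq_of_pow_eq {θ θ' : Qb} (hθ : θ ≠ 0) (h : θ' ^ p = θ ^ p) {σ : GQ}
    (hζ : σ (zeta p) = zeta p) (hσ : σ (θ ^ p) = θ ^ p) : kum p θ' σ = kum p θ σ := by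
  have hp0 : p ≠ 0 := (Fact.out : p.Prime).ne_zero
  have hθ' : θ' ≠ 0 := by
    rintro rfl
    rw [zero_pow hp0] at h
    exact pow_ne_zero _ hθ h.symm
  have h1 : (θ' / θ) ^ p = 1 := by rw [div_pow, h, div_self (pow_ne_zero _ hθ)]
  obtain ⟨a, -, ha⟩ := (zeta_spec p).eq_pow_of_pow_eq_one h1
  have h2 : θ' = zeta p ^ a * θ := by rw [ha, div_mul_cancel₀ _ hθ]
  have h3 : σ θ' = zeta p ^ (kum p θ σ).val * θ' := by
    rw [h2, map_mul, map_pow, hζ, apply_eq' hθ hσ]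
    ring
  rw [kum_eq hθ' h3, ZMod.natCast_zmod_val]

/-- **the conjugation rule.** -/
theorem kum_conj {θ : Qb} (hθ : θ ≠ 0) {σ : GQ} (hσ : σ (θ ^ p) = θ ^ p) (g : GQ) :
    kum p (g θ) (g * σ * g⁻¹) = (cycloExp p g : ZMod p) * kum p θ σ := by
  have hgθ : g θ ≠ 0 := (map_ne_zero_iff _ g.injective).2 hθ
  have h1 : (g * σ * g⁻¹) (g θ) = zeta p ^ (cycloExp p g * (kum p θ σ).val) * g θ := by
    have h2 : (g * σ * g⁻¹) (g θ) = g (σ θ) := by
      rw [AlgEquiv.mul_apply, AlgEquiv.mul_apply]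
      congr 2
      show g.symm (g θ) = θ
      rw [AlgEquiv.symm_apply_apply]
    rw [h2, apply_eq' hθ hσ, map_mul, map_pow, apply_zeta, ← pow_mul]
  rw [kum_eq hgθ h1, Nat.cast_mul, ZMod.natCast_zmod_val]

/-! ### The Kummer character of an element -/

variable (p)

/-- a chosen `p`-th root. -/
noncomputable def root (x : Qb) : Qb :=
  (IsAlgClosed.exists_pow_nat_eq x (Fact.out : p.Prime).pos).choose

theorem root_pow (x : Qb) : root p x ^ p = x :=
  (IsAlgClosed.exists_pow_nat_eq x (Fact.out : p.Prime).pos).choose_spec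

theorem root_ne_zero {x : Qb} (hx : x ≠ 0) : root p x ≠ 0 := by
  intro h
  have h1 := root_pow p x
  rw [h, zero_pow (Fact.out : p.Prime).ne_zero] at h1
  exact hx h1.symm

/-- **the Kummer character of `x`**: `σ ↦ i` with `σ (x^{1/p}) = ζ ^ i * x^{1/p}`. -/
noncomputable def kumX (x : Qb) (σ : GQ) : ZMod p := kum p (root p x) σ

variable {p}

theorem kumX_eq_kum {x θ : Qb} (hx : x ≠ 0) (hθ : θ ^ p = x) {σ : GQ}
    (hζ : σ (zeta p) = zeta p) (hσ : σ x = x) : kumX p x σ = kum p θ σ := by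
  have hθ0 : θ ≠ 0 := by
    rintro rfl
    rw [zero_pow (Fact.out : p.Prime).ne_zero] at hθ
    exact hx hθ.symm
  exact kum_eq_of_pow_eq hθ0 ((root_pow p x).trans hθ.symm) hζ (by rw [hθ, hσ])

theorem kumX_mul_apply {x : Qb} (hx : x ≠ 0) {σ τ : GQ} (hζ : σ (zeta p) = zeta p)
    (hσ : σ x = x) (hτ : τ x = x) : kumX p x (σ * τ) = kumX p x σ + kumX p x τ := by
  unfold kumX
  rw [kum_mul' (root_ne_zero p hx) (by rw [root_pow, hσ]) (by rw [root_pow, hτ]),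
    cycloExp_eq_one hζ, one_mul]

theorem kumX_mul_el {x y : Qb} (hx : x ≠ 0) (hy : y ≠ 0) {σ : GQ} (hζ : σ (zeta p) = zeta p)
    (hσx : σ x = x) (hσy : σ y = y) : kumX p (x * y) σ = kumX p x σ + kumX p y σ := by
  have h1 : (root p x * root p y) ^ p = x * y := by rw [mul_pow, root_pow, root_pow]
  rw [kumX_eq_kum (mul_ne_zero hx hy) h1 hζ (by rw [map_mul, hσx, hσy])]
  exact kum_mul_el' (root_ne_zero p hx) (root_ne_zero p hy) (by rw [root_pow, hσx])
    (by rw [root_pow, hσy])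

theorem kumX_pow_self {y : Qb} (hy : y ≠ 0) {σ : GQ} (hζ : σ (zeta p) = zeta p)
    (hσ : σ y = y) : kumX p (y ^ p) σ = 0 := by
  rw [kumX_eq_kum (pow_ne_zero _ hy) rfl hζ (by rw [map_pow, hσ]),
    kum_eq_zero_iff' hy (by rw [map_pow, hσ])]
  exact hσ

/-- **the conjugation rule for Kummer characters.** -/
theorem kumX_conj {x : Qb} (hx : x ≠ 0) {σ : GQ} (hζ : σ (zeta p) = zeta p) (hσ : σ x = x)
    (g : GQ) :
    kumX p (g x) (g * σ * g⁻¹) = (cycloExp p g : ZMod p) * kumX p x σ := by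
  have hgx : g x ≠ 0 := (map_ne_zero_iff _ g.injective).2 hx
  have hconj : ∀ y : Qb, σ y = y → (g * σ * g⁻¹) (g y) = g y := by
    intro y hy
    rw [AlgEquiv.mul_apply, AlgEquiv.mul_apply]
    have : g⁻¹ (g y) = y := by
      show g.symm (g y) = y
      rw [AlgEquiv.symm_apply_apply]
    rw [this, hy]
  have hζ' : (g * σ * g⁻¹) (zeta p) = zeta p := by
    have h1 : zeta p = g (g⁻¹ (zeta p)) := by
      show zeta p = g (g.symm (zeta p))
      rw [AlgEquiv.apply_symm_apply]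
    have h2 : σ (g⁻¹ (zeta p)) = g⁻¹ (zeta p) := by
      rw [apply_zeta, map_pow, hζ]
    conv_lhs => rw [h1]
    rw [hconj _ h2, ← h1]
  have h3 : (g (root p x)) ^ p = g x := by rw [← map_pow, root_pow]
  rw [kumX_eq_kum hgx h3 hζ' (hconj x hσ)]
  exact kum_conj (root_ne_zero p hx) (by rw [root_pow, hσ]) g

/-- **Kummer injectivity**: the Kummer character of `x` vanishes on a subgroup `Σ` (fixing `ζ` and
`x`) iff `x` is the `p`-th power of a `Σ`-fixed element. -/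
theorem kumX_eq_zero_iff {S : Subgroup GQ} (hζ : ∀ σ ∈ S, σ (zeta p) = zeta p) {x : Qb}
    (hx : x ≠ 0) (hSx : ∀ σ ∈ S, σ x = x) :
    (∀ σ ∈ S, kumX p x σ = 0) ↔ ∃ y : Qb, y ^ p = x ∧ ∀ σ ∈ S, σ y = y := by
  constructor
  · intro h
    refine ⟨root p x, root_pow p x, fun σ hσ => ?_⟩
    exact (kum_eq_zero_iff' (root_ne_zero p hx) (by rw [root_pow, hSx σ hσ])).1 (h σ hσ)
  · rintro ⟨y, rfl, hy⟩ σ hσ
    have hy0 : y ≠ 0 := fun h0 => hx (by rw [h0, zero_pow (Fact.out : p.Prime).ne_zero])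
    exact kumX_pow_self hy0 (hζ σ hσ) (hy σ hσ)

/-- level of the Kummer character. -/
theorem kumX_mul_of_fix {x : Qb} {σ s : GQ} (hs : s (root p x) = root p x) :
    kumX p x (σ * s) = kumX p x σ :=
  kum_mul_of_fix hs

end Fermat.Agent.W56.LecKumRel5
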