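/-
Programme W56 (target S56), chapter (D4) = (LEC-p), cohomological side (helper5):
**invariant homomorphisms of an open normal subgroup of invertible index extend to cocycles.**

`G` a group with a level basis `𝓑`, `H` a normal subgroup of finite index `m` invertible in `k`,
`N` a `k[G]`-module on which `H` acts trivially.  Every level homomorphism `f : H → N` with
`f (g s g⁻¹) = g • f s` is the restriction to `H` of the level cocycle
`cor f g = m⁻¹ ∑_{t ∈ G/H} r(g t) • f (r(g t)⁻¹ g r(t))` (`r` a section of `G → G/H`), and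
`f ↦ [cor f]` is an injective linear map into `H¹(𝓑; N)`.
-/
import Mathlib
import Fermat.Agent.PT.PRO.LevelCoh28

set_option autoImplicit false
set_option linter.unusedSectionVars false

universe u

open groupCohomology

namespace Fermat.Agent.W56.LecCores5

open Fermat.Agent.PT.PRO.LevelCoh28

variable {k G : Type u} [Field k] [Group G]

section Cross

variable (H : Subgroup G)

/-- `r(g t)⁻¹ g r(t)`, an element of `H`. -/
noncomputable def cross (g : G) (t : G ⧸ H) : G :=
  (Quotient.out (g • t))⁻¹ * g * Quotient.out t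

theorem cross_mem (g : G) (t : G ⧸ H) : cross H g t ∈ H := by
  have h1 : ((Quotient.out (g • t) : G) : G ⧸ H) = ((g * Quotient.out t : G) : G ⧸ H) := by
    rw [QuotientGroup.out_eq']
    conv_lhs => rw [← QuotientGroup.out_eq' t]
    rfl
  have h2 := QuotientGroup.eq.1 h1
  rwa [← mul_assoc] at h2

theorem cross_mul (g g' : G) (t : G ⧸ H) :
    cross H (g * g') t = cross H g (g' • t) * cross H g' t := by
  unfold cross
  rw [mul_smul]
  group

theorem out_smul (g : G) (t : G ⧸ H) :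
    Quotient.out (g • t) = g * Quotient.out t * (cross H g t)⁻¹ := by
  unfold cross
  group

variable [hHn : H.Normal]

theorem smul_eq_of_mem {s : G} (hs : s ∈ H) (t : G ⧸ H) : s • t = t := by
  induction t using QuotientGroup.induction_on with
  | H x =>
    show ((s * x : G) : G ⧸ H) = (x : G ⧸ H)
    rw [QuotientGroup.eq]
    have h1 := hHn.conj_mem s⁻¹ (H.inv_mem hs) x⁻¹
    have h2 : (s * x)⁻¹ * x = x⁻¹ * s⁻¹ * x⁻¹⁻¹ := by group
    rw [h2]
    exact h1

theorem cross_of_mem {s : G} (hs : s ∈ H) (t : G ⧸ H) :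
    cross H s t = (Quotient.out t)⁻¹ * s * Quotient.out t := by
  unfold cross
  rw [smul_eq_of_mem H hs]

end Cross

section Cor

variable {𝓑 : LevelBasis G} (N : Rep.{u} k G) (H : Subgroup G) [hHn : H.Normal]
  [hHf : H.FiniteIndex]

/-- `r(g t)⁻¹ g r(t)` as an element of `H`. -/
noncomputable def crossH (g : G) (t : G ⧸ H) : ↥H := ⟨cross H g t, cross_mem H g t⟩

noncomputable instance fintypeQuot : Fintype (G ⧸ H) := H.fintypeQuotientOfFiniteIndex

/-- the corestriction-type extension of a function on `H`. -/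
noncomputable def cor : (↥H → N) →ₗ[k] (G → N) where
  toFun f g := ((H.index : k))⁻¹ • ∑ t : G ⧸ H, N.ρ (Quotient.out (g • t)) (f (crossH H g t))
  map_add' f f' := by
    funext g
    simp only [Pi.add_apply, map_add, Finset.sum_add_distrib, smul_add]
  map_smul' c f := by
    funext g
    simp only [Pi.smul_apply, map_smul, RingHom.id_apply, ← Finset.smul_sum]
    rw [smul_comm]

theorem cor_apply (f : ↥H → N) (g : G) :
    cor N H f g = ((H.index : k))⁻¹ •
      ∑ t : G ⧸ H, N.ρ (Quotient.out (g • t)) (f (crossH H g t)) := rfl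

variable {N H}

/-- the homomorphisms `H → N`, of level `𝓑`, compatible with conjugation by `G`. -/
structure IsInvHom (𝓑 : LevelBasis G) (f : ↥H → N) : Prop where
  add : ∀ s t : ↥H, f (s * t) = f s + f t
  level : ∃ V ∈ 𝓑.sets, ∀ s v : ↥H, (v : G) ∈ V → f (s * v) = f s
  inv : ∀ (g : G) (s : ↥H), f ⟨g * s * g⁻¹, hHn.conj_mem s s.2 g⟩ = N.ρ g (f s)

variable (htriv : ∀ h ∈ H, ∀ n : N, N.ρ h n = n)

include htriv

theorem rho_out_smul (g : G) (t : G ⧸ H) (n : N) :
    N.ρ (Quotient.out (g • t)) n = N.ρ g (N.ρ (Quotient.out t) n) := by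
  rw [out_smul H g t, map_mul, map_mul, Module.End.mul_apply, Module.End.mul_apply,
    htriv _ (H.inv_mem (cross_mem H g t))]

/-- `cor f` is a cocycle as soon as `f` is additive. -/
theorem cor_mul {f : ↥H → N} (hadd : ∀ s t : ↥H, f (s * t) = f s + f t) (g g' : G) :
    cor N H f (g * g') = N.ρ g (cor N H f g') + cor N H f g := by
  rw [cor_apply, cor_apply, cor_apply, map_smul, ← smul_add, map_sum]
  congr 1
  have h1 : ∀ t : G ⧸ H, N.ρ (Quotient.out ((g * g') • t)) (f (crossH H (g * g') t)) =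
      N.ρ g (N.ρ (Quotient.out (g' • t)) (f (crossH H g' t))) +
        N.ρ (Quotient.out (g • (g' • t))) (f (crossH H g (g' • t))) := by
    intro t
    have h2 : crossH H (g * g') t = crossH H g (g' • t) * crossH H g' t :=
      Subtype.ext (cross_mul H g g' t)
    rw [h2, hadd, map_add, mul_smul, add_comm]
    congr 1
    exact rho_out_smul htriv g (g' • t) _
  rw [Finset.sum_congr rfl (fun t _ => h1 t), Finset.sum_add_distrib]
  congr 1
  exact Equiv.sum_comp (MulAction.toPerm g' : G ⧸ H ≃ G ⧸ H)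
    (fun t => N.ρ (Quotient.out (g • t)) (f (crossH H g t)))

variable (hidx : ((H.index : ℕ) : k) ≠ 0)

include hidx

/-- `cor f` restricts to `f` on `H` when `f` is compatible with conjugation. -/
theorem cor_of_mem {f : ↥H → N}
    (hinv : ∀ (g : G) (s : ↥H), f ⟨g * s * g⁻¹, hHn.conj_mem s s.2 g⟩ = N.ρ g (f s)) (s : ↥H) :
    cor N H f (s : G) = f s := by
  rw [cor_apply]
  have h1 : ∀ t : G ⧸ H, N.ρ (Quotient.out ((s : G) • t)) (f (crossH H (s : G) t)) = f s := by
    intro t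
    have h2 : crossH H (s : G) t =
        ⟨(Quotient.out t)⁻¹ * s * (Quotient.out t)⁻¹⁻¹, hHn.conj_mem s s.2 _⟩ := by
      apply Subtype.ext
      show cross H (s : G) t = (Quotient.out t)⁻¹ * (s : G) * (Quotient.out t)⁻¹⁻¹
      rw [cross_of_mem H s.2, inv_inv]
    rw [h2, hinv, smul_eq_of_mem H s.2, ← Module.End.mul_apply, ← map_mul, mul_inv_cancel,
      map_one, Module.End.one_apply]
  rw [Finset.sum_congr rfl (fun t _ => h1 t), Finset.sum_const, Finset.card_univ,
    ← Nat.cast_smul_eq_nsmul k, smul_smul]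
  have h3 : Fintype.card (G ⧸ H) = H.index := by
    rw [Subgroup.index_eq_card, Nat.card_eq_fintype_card]
  rw [h3, inv_mul_cancel₀ hidx, one_smul]

omit hidx in
/-- `cor f` is a level cochain when `f` is a level homomorphism. -/
theorem isLevel_cor (hH : ∃ V ∈ 𝓑.sets, V ≤ H) {f : ↥H → N}
    (hlev : ∃ V ∈ 𝓑.sets, ∀ s v : ↥H, (v : G) ∈ V → f (s * v) = f s) :
    IsLevel₁ 𝓑.sets (cor N H f) := by
  obtain ⟨V₀, hV₀, hfV⟩ := hlev
  obtain ⟨V₁, hV₁, hV₁H⟩ := hH
  obtain ⟨V, hV, hVle⟩ := 𝓑.isBasis.directed V₀ hV₀ V₁ hV₁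
  have hVH : V ≤ H := hVle.trans (inf_le_right.trans hV₁H)
  obtain ⟨V', hV', hV'V, hV'n⟩ := 𝓑.isBasis.normalCore V hV
  refine ⟨V', hV', fun g v hv => ?_⟩
  have hvH : v ∈ H := hVH (hV'V hv)
  rw [cor_apply, cor_apply]
  congr 1
  refine Finset.sum_congr rfl (fun t _ => ?_)
  have h1 : (g * v) • t = g • t := by rw [mul_smul, smul_eq_of_mem H hvH]
  have h2 : crossH H (g * v) t = crossH H g t *
      ⟨(Quotient.out t)⁻¹ * v * (Quotient.out t)⁻¹⁻¹, hHn.conj_mem v hvH _⟩ := by
    apply Subtype.ext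
    show cross H (g * v) t = cross H g t * ((Quotient.out t)⁻¹ * v * (Quotient.out t)⁻¹⁻¹)
    rw [cross_mul, smul_eq_of_mem H hvH, cross_of_mem H hvH, inv_inv]
  rw [h1, h2]
  congr 1
  refine hfV _ _ ?_
  exact (hVle (hV'V (hV'n.conj_mem v hv _))).1

/-- **invariant level homomorphisms of `H` extend to level cocycles of `G`.** -/
theorem cor_mem_Z1 (hH : ∃ V ∈ 𝓑.sets, V ≤ H) {f : ↥H → N} (hf : IsInvHom 𝓑 f) :
    cor N H f ∈ Z1 𝓑 N := by
  rw [mem_Z1_iff]
  refine ⟨?_, isLevel_cor htriv hH hf.level⟩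
  rw [mem_cocycles₁_iff]
  intro g g'
  exact cor_mul htriv hf.add g g'

omit htriv hidx in
variable (𝓑 N H) in
/-- The `k`-space of invariant level homomorphisms `H → N`. -/
def invHom : Submodule k (↥H → N) where
  carrier := {f | IsInvHom 𝓑 f}
  add_mem' := by
    intro f f' hf hf'
    obtain ⟨V, hV, hfV⟩ := hf.level
    obtain ⟨V', hV', hfV'⟩ := hf'.level
    obtain ⟨W, hW, hWle⟩ := 𝓑.isBasis.directed V hV V' hV'
    refine ⟨fun s t => ?_, ⟨W, hW, fun s v hv => ?_⟩, fun g s => ?_⟩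
    · simp only [Pi.add_apply, hf.add, hf'.add]
      abel
    · simp only [Pi.add_apply, hfV s v (hWle hv).1, hfV' s v (hWle hv).2]
    · simp only [Pi.add_apply, hf.inv, hf'.inv, map_add]
  zero_mem' := by
    obtain ⟨V, hV⟩ := 𝓑.isBasis.nonempty
    exact ⟨fun s t => by simp, ⟨V, hV, fun s v _ => rfl⟩, fun g s => by simp⟩
  smul_mem' := by
    intro c f hf
    obtain ⟨V, hV, hfV⟩ := hf.level
    refine ⟨fun s t => ?_, ⟨V, hV, fun s v hv => ?_⟩, fun g s => ?_⟩
    · simp only [Pi.smul_apply, hf.add, smul_add]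
    · simp only [Pi.smul_apply, hfV s v hv]
    · simp only [Pi.smul_apply, hf.inv, map_smul]

omit htriv hidx in
theorem mem_invHom {f : ↥H → N} : f ∈ invHom 𝓑 N H ↔ IsInvHom 𝓑 f := Iff.rfl

/-- `f ↦ [cor f]`. -/
noncomputable def corH1 (hH : ∃ V ∈ 𝓑.sets, V ≤ H) : ↥(invHom 𝓑 N H) →ₗ[k] H1 𝓑 N :=
  (H1mk 𝓑 N).comp (LinearMap.codRestrict (Z1 𝓑 N) ((cor N H).comp (invHom 𝓑 N H).subtype)
    (fun f => cor_mem_Z1 htriv hidx hH f.2))

/-- **`f ↦ [cor f]` is injective.** -/
theorem corH1_injective (hH : ∃ V ∈ 𝓑.sets, V ≤ H) :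
    Function.Injective (corH1 htriv hidx hH) := by
  rw [← LinearMap.ker_eq_bot, LinearMap.ker_eq_bot']
  intro f hf
  have h1 : H1mk 𝓑 N ⟨cor N H (f : ↥H → N), cor_mem_Z1 htriv hidx hH f.2⟩ = 0 := hf
  rw [H1mk_eq_zero_iff] at h1
  obtain ⟨n, hn⟩ := h1
  apply Subtype.ext
  funext s
  have h2 := congrFun hn (s : G)
  have h3 : (d₀₁ N).hom n (s : G) = N.ρ (s : G) n - n := rfl
  have h4 : cor N H (f : ↥H → N) (s : G) = (f : ↥H → N) s := cor_of_mem htriv hidx f.2.inv s
  show (f : ↥H → N) s = 0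
  rw [← h4]
  have h5 : (⟨cor N H (f : ↥H → N), cor_mem_Z1 htriv hidx hH f.2⟩ : ↥(Z1 𝓑 N)).1 (s : G) =
      cor N H (f : ↥H → N) (s : G) := rfl
  rw [← h5, ← h2, h3, htriv _ s.2, sub_self]

/-- **the lower bound for `H¹`**: `dim {invariant level homomorphisms H → N} ≤ dim H¹(𝓑; N)`. -/
theorem finrank_invHom_le (hH : ∃ V ∈ 𝓑.sets, V ≤ H) [FiniteDimensional k (H1 𝓑 N)] :
    Module.finrank k ↥(invHom 𝓑 N H) ≤ Module.finrank k (H1 𝓑 N) :=
  LinearMap.finrank_le_finrank_of_injective (corH1_injective htriv hidx hH)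

end Cor

end Fermat.Agent.W56.LecCores5
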