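/-
Programme W56 (target S56), chapter (D4) = (LEC-p), helper5: **the abstract Kummer bridge.**

`G` a group with a level basis `𝓑`, `U` a normal subgroup, `ω : G →* 𝔽_pˣ`.  A *Kummer datum*
`D : KumDatum 𝓑 U p ω` is an `𝔽_p[G]`-module `X` (think `K^× / (K^×)^p`, `K` the fixed field of `U`)
with an additive injective map `kum` from `X` to the level homomorphisms `U → 𝔽_p` such that
`kum (g x) (g s g⁻¹) = ω g · kum x s`.

For a `k[G]`-module `N` and a finite `𝔽_p[G]`-module `P` with a perfect pairing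
`b : N × P → 𝔽_p`, `b (g n) (g π) = ω g · b n π`, every equivariant `φ : P → X` defines the invariant
level homomorphism `f_φ : U → N`, `b (f_φ s) π = kum (φ π) s`; `φ ↦ f_φ` is injective.  Hence
`#Hom_G(P, X) ≤ #invHom 𝓑 N U` (`card_eqHom_le`).
-/
import Mathlib
import Fermat.Agent.W56.LecCores5

set_option autoImplicit false
set_option linter.unusedSectionVars false

namespace Fermat.Agent.W56.LecKumBridge5

open Fermat.Agent.PT.PRO.LevelCoh28 Fermat.Agent.W56.LecCores5

/-- the equivariant `𝔽_p`-linear maps `P → Y`. -/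
def EqHom {G : Type} [Group G] (p : ℕ) {P Y : Type} [AddCommGroup P] [Module (ZMod p) P]
    [AddCommGroup Y] [Module (ZMod p) Y] (ρP : Representation (ZMod p) G P)
    (ρY : Representation (ZMod p) G Y) : Type :=
  {φ : P →ₗ[ZMod p] Y // ∀ g π, φ (ρP g π) = ρY g (φ π)}

/-- the representation of `G` on `𝔽_p` through the character `ω` (the module `μ_p`). -/
def omegaRep {G : Type} [Group G] {p : ℕ} (ω : G →* (ZMod p)ˣ) :
    Representation (ZMod p) G (ZMod p) where
  toFun g := ((ω g : (ZMod p)ˣ) : ZMod p) • LinearMap.id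
  map_one' := by
    rw [map_one, Units.val_one, one_smul]
    rfl
  map_mul' g h := by
    ext
    simp only [map_mul, Units.val_mul, LinearMap.smul_apply, LinearMap.id_coe, id_eq,
      smul_eq_mul, Module.End.mul_apply, mul_one]

theorem omegaRep_apply {G : Type} [Group G] {p : ℕ} (ω : G →* (ZMod p)ˣ) (g : G) (c : ZMod p) :
    omegaRep ω g c = ((ω g : (ZMod p)ˣ) : ZMod p) * c := rfl

/-- **A Kummer datum** for `(G, 𝓑, U, ω)`. -/
structure KumDatum {G : Type} [Group G] (𝓑 : LevelBasis G) (U : Subgroup G) [hUn : U.Normal]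
    (p : ℕ) (ω : G →* (ZMod p)ˣ) where
  /-- the module (`K^× / (K^×)^p`) -/
  X : Type
  [acg : AddCommGroup X]
  [mod : Module (ZMod p) X]
  /-- the action of `G` -/
  ρX : Representation (ZMod p) G X
  /-- the Kummer map -/
  kum : X → ↥U → ZMod p
  kum_add : ∀ x y s, kum (x + y) s = kum x s + kum y s
  kum_mul : ∀ x s t, kum x (s * t) = kum x s + kum x t
  kum_level : ∀ x, ∃ V ∈ 𝓑.sets, ∀ s v : ↥U, (v : G) ∈ V → kum x (s * v) = kum x s
  kum_inj : ∀ x, (∀ s, kum x s = 0) → x = 0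
  kum_conj : ∀ (g : G) (x : X) (s : ↥U),
    kum (ρX g x) ⟨g * s * g⁻¹, hUn.conj_mem s s.2 g⟩ = ((ω g : (ZMod p)ˣ) : ZMod p) * kum x s

attribute [instance] KumDatum.acg KumDatum.mod

/-- **the count** for a Kummer datum: `#Hom_G(P, 𝔽_p) · #P · #Hom_G(P, μ_p) ≤ #Hom_G(P, X)` for
every finite `𝔽_p[G]`-module `P` on which `U` acts trivially. -/
def KumDatum.Count {G : Type} [Group G] {𝓑 : LevelBasis G} {U : Subgroup G} [U.Normal]
    {p : ℕ} {ω : G →* (ZMod p)ˣ} (D : KumDatum 𝓑 U p ω) : Prop :=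
  ∀ (P : Type) [AddCommGroup P] [Module (ZMod p) P] [Finite P]
    (ρP : Representation (ZMod p) G P), (∀ u ∈ U, ∀ π, ρP u π = π) →
    Nat.card (EqHom p ρP (Representation.trivial (ZMod p) G (ZMod p))) * Nat.card P *
      Nat.card (EqHom p ρP (omegaRep ω)) ≤ Nat.card (EqHom p ρP D.ρX)

section Common

variable {G : Type} [Group G] (𝓑 : LevelBasis G)

/-- finitely many members of the basis contain a common member. -/
theorem exists_le_of_finite {ι : Type} [Finite ι] (V : ι → Subgroup G)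
    (hV : ∀ i, V i ∈ 𝓑.sets) : ∃ W ∈ 𝓑.sets, ∀ i, W ≤ V i := by
  classical
  have key : ∀ s : Finset ι, ∃ W ∈ 𝓑.sets, ∀ i ∈ s, W ≤ V i := by
    intro s
    induction s using Finset.induction_on with
    | empty =>
      obtain ⟨W, hW⟩ := 𝓑.isBasis.nonempty
      exact ⟨W, hW, fun i hi => absurd hi (Finset.notMem_empty i)⟩
    | insert a s _ ih =>
      obtain ⟨W, hW, hWs⟩ := ih
      obtain ⟨W', hW', hle⟩ := 𝓑.isBasis.directed W hW (V a) (hV a)
      refine ⟨W', hW', fun i hi => ?_⟩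
      rcases Finset.mem_insert.1 hi with rfl | hi
      · exact hle.trans inf_le_right
      · exact (hle.trans inf_le_left).trans (hWs i hi)
  have := Fintype.ofFinite ι
  obtain ⟨W, hW, h⟩ := key Finset.univ
  exact ⟨W, hW, fun i => h i (Finset.mem_univ i)⟩

end Common

section Bridge

variable {G : Type} [Group G] {𝓑 : LevelBasis G} {U : Subgroup G} [hUn : U.Normal]
  [hUf : U.FiniteIndex]
  {p : ℕ} [hp : Fact p.Prime] {ω : G →* (ZMod p)ˣ} (D : KumDatum 𝓑 U p ω)
  {k : Type} [Field k] (N : Rep.{0} k G)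
  {P : Type} [AddCommGroup P] [Module (ZMod p) P] [Finite P]
  (ρP : Representation (ZMod p) G P)
  (b : N →+ (P → ZMod p))
  (hb_surj : ∀ l : P →ₗ[ZMod p] ZMod p, ∃ n : N, ∀ π, b n π = l π)
  (hb_inj : ∀ n : N, (∀ π, b n π = 0) → n = 0)
  (hb_equiv : ∀ (g : G) (n : N) (π : P),
    b (N.ρ g n) (ρP g π) = ((ω g : (ZMod p)ˣ) : ZMod p) * b n π)

theorem KumDatum.kum_zero (s : ↥U) : D.kum 0 s = 0 := by
  have h := D.kum_add 0 0 s
  rw [add_zero] at h
  exact left_eq_add.1 h

theorem KumDatum.kum_neg (x : D.X) (s : ↥U) : D.kum (-x) s = -D.kum x s := by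
  have h := D.kum_add x (-x) s
  rw [add_neg_cancel, D.kum_zero] at h
  exact eq_neg_of_add_eq_zero_right h.symm

theorem KumDatum.kum_sub (x y : D.X) (s : ↥U) : D.kum (x - y) s = D.kum x s - D.kum y s := by
  rw [sub_eq_add_neg, D.kum_add, D.kum_neg, sub_eq_add_neg]

theorem KumDatum.kum_nsmul (n : ℕ) (x : D.X) (s : ↥U) : D.kum (n • x) s = n • D.kum x s := by
  induction n with
  | zero => rw [zero_smul, zero_smul, D.kum_zero]
  | succ n ih => rw [succ_nsmul, succ_nsmul, D.kum_add, ih]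

/-- the functional `π ↦ kum (φ π) s`. -/
noncomputable def kumFun (φ : P →ₗ[ZMod p] D.X) (s : ↥U) : P →ₗ[ZMod p] ZMod p :=
  AddMonoidHom.toZModLinearMap p
    { toFun := fun π => D.kum (φ π) s
      map_zero' := by rw [map_zero, D.kum_zero]
      map_add' := fun π π' => by rw [map_add, D.kum_add] }

theorem kumFun_apply (φ : P →ₗ[ZMod p] D.X) (s : ↥U) (π : P) :
    kumFun D φ s π = D.kum (φ π) s := rfl

include hb_inj in
theorem eq_of_b_eq {n n' : N} (h : ∀ π, b n π = b n' π) : n = n' := by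
  rw [← sub_eq_zero]
  apply hb_inj
  intro π
  rw [map_sub, Pi.sub_apply, h π, sub_self]

/-- `f_φ`. -/
noncomputable def bridgeFun (φ : P →ₗ[ZMod p] D.X) (s : ↥U) : N :=
  (hb_surj (kumFun D φ s)).choose

theorem bridgeFun_spec (φ : P →ₗ[ZMod p] D.X) (s : ↥U) (π : P) :
    b (bridgeFun D N b hb_surj φ s) π = D.kum (φ π) s :=
  (hb_surj (kumFun D φ s)).choose_spec π

include hb_inj hb_equiv in
/-- `f_φ` is an invariant level homomorphism. -/
theorem bridgeFun_mem (φ : P →ₗ[ZMod p] D.X) (hφ : ∀ g π, φ (ρP g π) = D.ρX g (φ π)) :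
    bridgeFun D N b hb_surj φ ∈ invHom 𝓑 N U := by
  rw [mem_invHom]
  refine ⟨fun s t => ?_, ?_, fun g s => ?_⟩
  · apply eq_of_b_eq N b hb_inj
    intro π
    rw [map_add, Pi.add_apply, bridgeFun_spec, bridgeFun_spec, bridgeFun_spec, D.kum_mul]
  · choose V hV hVk using fun π : P => D.kum_level (φ π)
    obtain ⟨W, hW, hWV⟩ := exists_le_of_finite 𝓑 V hV
    refine ⟨W, hW, fun s v hv => ?_⟩
    apply eq_of_b_eq N b hb_inj
    intro π
    rw [bridgeFun_spec, bridgeFun_spec, hVk π s v (hWV π hv)]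
  · apply eq_of_b_eq N b hb_inj
    intro π
    have hπ : π = ρP g (ρP g⁻¹ π) := by
      rw [← Module.End.mul_apply, ← map_mul, mul_inv_cancel, map_one, Module.End.one_apply]
    rw [bridgeFun_spec]
    conv_lhs => rw [hπ]
    conv_rhs => rw [hπ]
    rw [hφ, D.kum_conj, hb_equiv, bridgeFun_spec]

/-- **the bridge**: `Hom_G(P, X) → invHom 𝓑 N U`. -/
noncomputable def bridge (x : EqHom p ρP D.ρX) : ↥(invHom 𝓑 N U) :=
  ⟨bridgeFun D N b hb_surj x.1, bridgeFun_mem D N ρP b hb_surj hb_inj hb_equiv x.1 x.2⟩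

theorem bridge_injective :
    Function.Injective (bridge D N ρP b hb_surj hb_inj hb_equiv) := by
  intro x y h
  apply Subtype.ext
  apply LinearMap.ext
  intro π
  rw [← sub_eq_zero]
  apply D.kum_inj
  intro s
  have h1 : bridgeFun D N b hb_surj x.1 s = bridgeFun D N b hb_surj y.1 s :=
    congrFun (congrArg Subtype.val h) s
  have h2 := bridgeFun_spec D N b hb_surj x.1 s π
  rw [h1, bridgeFun_spec] at h2
  rw [D.kum_sub, h2, sub_self]

include b hb_surj hb_inj hb_equiv in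
/-- **`#Hom_G(P, X) ≤ #invHom 𝓑 N U`.** -/
theorem card_eqHom_le [Finite ↥(invHom 𝓑 N U)] :
    Nat.card (EqHom p ρP D.ρX) ≤ Nat.card ↥(invHom 𝓑 N U) :=
  Nat.card_le_card_of_injective _ (bridge_injective D N ρP b hb_surj hb_inj hb_equiv)

end Bridge

end Fermat.Agent.W56.LecKumBridge5
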