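/-
Programme W56 (target S56), chapter (D4) = (LEC-p), helper5: **the Euler characteristic of a module
with prime-to-`p` image**, from a Kummer datum with the count (`LecKumBridge5`).

`k` a finite field of characteristic `p`, `G` a group with level basis `𝓑`, `U` an open normal
subgroup of index prime to `p`, `ω : G →* 𝔽_pˣ` trivial on `U`, `D : KumDatum 𝓑 U p ω` with
`D.Count`.  For every finite dimensional `k[G]`-module `N` on which `U` acts trivially, with
`dim H²(N) ≤ dim H⁰(N^∨(ω))` (LH2): **`chiLev 𝓑 N ≤ - dim N`** (`chiLev_le_of_count`).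

Proof: `P := Hom_{𝔽_p}(N, 𝔽_p)(ω)`; `Hom_G(P, μ_p) ⊇ N^G` (evaluation), `Hom_G(P, 𝔽_p) ⊇ P^G`
(Maschke: averaging over `G/U`) `⊇ (N^∨(ω))^G` (trace, `TraceDual2`), `#P = #N`; the count and the
bridge give `#N^G · #N · #(N^∨(ω))^G ≤ #invHom 𝓑 N U ≤ #H¹(N)` (`LecCores5`).
-/
import Mathlib
import Fermat.Prelude.Def_GroupCohomology_Selmer
import Fermat.Agent.W56.ChiLev4
import Fermat.Agent.W56.LecKumBridge5
import Fermat.Agent.W56.TraceDual2

set_option autoImplicit false
set_option linter.unusedSectionVars false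

namespace Fermat.Agent.W56.LecTame5

open Fermat.Agent.PT.PRO.LevelCoh28 Fermat.Agent.W56.LecCores5 Fermat.Agent.W56.LecKumBridge5
  Fermat.Agent.W56.TraceDual2 Fermat.Agent.W56.ChiLev4

/-! ### Averaging over `G / U` -/

section Avg

variable {F : Type} [Field F] {G : Type} [Group G] {W : Type} [AddCommGroup W] [Module F W]
  (ρ : Representation F G W) (U : Subgroup G) [hUn : U.Normal] [hUf : U.FiniteIndex]

/-- the averaging operator of a representation trivial on `U`. -/
noncomputable def avg : W →ₗ[F] W :=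
  (((U.index : ℕ) : F))⁻¹ • ∑ t : G ⧸ U, ρ (Quotient.out t)

theorem avg_apply (w : W) :
    avg ρ U w = (((U.index : ℕ) : F))⁻¹ • ∑ t : G ⧸ U, ρ (Quotient.out t) w := by
  unfold avg
  rw [LinearMap.smul_apply, LinearMap.sum_apply]

variable (htriv : ∀ u ∈ U, ∀ w, ρ u w = w)

include htriv

theorem avg_left (g : G) (w : W) : ρ g (avg ρ U w) = avg ρ U w := by
  rw [avg_apply, map_smul, map_sum]
  congr 1
  have h1 : ∀ t : G ⧸ U, ρ g (ρ (Quotient.out t) w) = ρ (Quotient.out (g • t)) w := by
    intro t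
    rw [out_smul U g t, map_mul, map_mul, Module.End.mul_apply, Module.End.mul_apply,
      htriv _ (U.inv_mem (cross_mem U g t))]
  rw [Finset.sum_congr rfl (fun t _ => h1 t)]
  exact Equiv.sum_comp (MulAction.toPerm g : G ⧸ U ≃ G ⧸ U) (fun t => ρ (Quotient.out t) w)

theorem avg_right (g : G) (w : W) : avg ρ U (ρ g w) = avg ρ U w := by
  rw [avg_apply, avg_apply]
  congr 1
  have h1 : ∀ t : G ⧸ U, ρ (Quotient.out t) (ρ g w) =
      ρ (Quotient.out (t * (g : G ⧸ U))) w := by
    intro t
    have hmem : (Quotient.out (t * (g : G ⧸ U)))⁻¹ * (Quotient.out t * g) ∈ U := by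
      apply QuotientGroup.eq.1
      rw [QuotientGroup.out_eq', QuotientGroup.mk_mul, QuotientGroup.out_eq']
    have h2 : Quotient.out t * g = Quotient.out (t * (g : G ⧸ U)) *
        ((Quotient.out (t * (g : G ⧸ U)))⁻¹ * (Quotient.out t * g)) := by group
    rw [← Module.End.mul_apply, ← map_mul, h2, map_mul, Module.End.mul_apply, htriv _ hmem]
  rw [Finset.sum_congr rfl (fun t _ => h1 t)]
  exact Equiv.sum_comp (Equiv.mulRight (g : G ⧸ U)) (fun t => ρ (Quotient.out t) w)

omit htriv in
theorem avg_of_inv (hidx : ((U.index : ℕ) : F) ≠ 0) {w : W} (hw : ∀ g, ρ g w = w) :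
    avg ρ U w = w := by
  have h0 : ∑ t : G ⧸ U, ρ (Quotient.out t) w = ∑ _t : G ⧸ U, w :=
    Finset.sum_congr rfl (fun t _ => hw (Quotient.out t))
  rw [avg_apply, h0, Finset.sum_const,
    Finset.card_univ, ← Nat.cast_smul_eq_nsmul F, smul_smul]
  have h3 : Fintype.card (G ⧸ U) = U.index := by
    rw [Subgroup.index_eq_card, Nat.card_eq_fintype_card]
  rw [h3, inv_mul_cancel₀ hidx, one_smul]

/-- the averaging operator, with values in the invariants. -/
noncomputable def avgInv : W →ₗ[F] ↥ρ.invariants :=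
  (avg ρ U).codRestrict ρ.invariants fun w g => avg_left ρ U htriv g w

/-- **Maschke, dual form**: there are at least as many invariant functionals on `W` as invariant
vectors in `W`. -/
theorem card_invariants_le [Finite F] [Finite W] [FiniteDimensional F W]
    (hidx : ((U.index : ℕ) : F) ≠ 0) :
    Nat.card ↥ρ.invariants ≤
      Nat.card {l : W →ₗ[F] F // ∀ g w, l (ρ g w) = l w} := by
  have hfin : Finite (W →ₗ[F] F) :=
    Finite.of_injective (fun f => (f : W → F)) DFunLike.coe_injective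
  rw [← card_dual_eq (F := F) (V := ↥ρ.invariants)]
  refine Nat.card_le_card_of_injective
    (fun μ : Module.Dual F ↥ρ.invariants =>
      (⟨μ ∘ₗ avgInv ρ U htriv, fun g w => by
        show μ (avgInv ρ U htriv (ρ g w)) = μ (avgInv ρ U htriv w)
        congr 1
        exact Subtype.ext (avg_right ρ U htriv g w)⟩ :
        {l : W →ₗ[F] F // ∀ g w, l (ρ g w) = l w})) ?_
  intro μ μ' h
  apply LinearMap.ext
  intro w
  have h1 := LinearMap.congr_fun (congrArg Subtype.val h) (w : W)
  have h2 : avgInv ρ U htriv (w : W) = w :=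
    Subtype.ext (avg_of_inv ρ U hidx fun g => w.2 g)
  have h3 : μ (avgInv ρ U htriv (w : W)) = μ' (avgInv ρ U htriv (w : W)) := h1
  rwa [h2] at h3

end Avg

/-! ### The module `P = Hom(N, 𝔽_p)(ω)` -/

section Main

variable {k : Type} [Field k] [Finite k] (p : ℕ) [hpF : Fact p.Prime] [hchar : CharP k p]
  {G : Type} [Group G] {𝓑 : LevelBasis G} {U : Subgroup G} [hUn : U.Normal]
  [hUf : U.FiniteIndex] (ω : G →* (ZMod p)ˣ) (N : Rep.{0} k G) [hNfd : FiniteDimensional k N]

/-- the carrier of `P`. -/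
abbrev PP : Type := ↥((resScal p N).dualTwist ω)

/-- the action on `P`. -/
noncomputable abbrev rhoP : Representation (ZMod p) G (PP p ω N) :=
  ((resScal p N).dualTwist ω).ρ

theorem rhoP_apply (g : G) (π : PP p ω N) (n : RS p N) :
    rhoP p ω N g π n = ((ω g : (ZMod p)ˣ) : ZMod p) * π ((resScal p N).ρ g⁻¹ n) := by
  show ((resScal p N).dualTwist ω).ρ g π n = _
  rw [Rep.dualTwist_ρ_apply, LinearMap.smul_apply, LinearMap.comp_apply, smul_eq_mul]

instance finite_PP : Finite (PP p ω N) := by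
  have h1 : FiniteDimensional (ZMod p) (RS p N) := finiteDimensional_resScal p N
  have h2 : Module.Finite (ZMod p) (Module.Dual (ZMod p) (RS p N)) := inferInstance
  exact Module.finite_of_finite (ZMod p) (M := Module.Dual (ZMod p) (RS p N))

theorem card_PP : Nat.card (PP p ω N) = Nat.card N := by
  have h1 : FiniteDimensional (ZMod p) (RS p N) := finiteDimensional_resScal p N
  exact card_dual_eq (F := ZMod p) (V := RS p N)

/-- the evaluation pairing. -/
noncomputable def bb : N →+ (PP p ω N → ZMod p) where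
  toFun n π := π (toRS p N n)
  map_zero' := by
    funext π
    show π (toRS p N 0) = 0
    rw [map_zero, map_zero]
  map_add' n n' := by
    funext π
    show π (toRS p N (n + n')) = π (toRS p N n) + π (toRS p N n')
    rw [map_add, map_add]

theorem bb_apply (n : N) (π : PP p ω N) : bb p ω N n π = π (toRS p N n) := rfl

theorem bb_surj (l : PP p ω N →ₗ[ZMod p] ZMod p) : ∃ n : N, ∀ π, bb p ω N n π = l π := by
  obtain ⟨n, hn⟩ := (ddual_bijective p N ω).2 l
  refine ⟨n, fun π => ?_⟩
  rw [bb_apply, ← hn]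
  rfl

theorem bb_inj (n : N) (h : ∀ π, bb p ω N n π = 0) : n = 0 := by
  apply (ddual_bijective p N ω).1
  rw [map_zero]
  apply LinearMap.ext
  intro π
  exact h π

theorem bb_equiv (g : G) (n : N) (π : PP p ω N) :
    bb p ω N (N.ρ g n) (rhoP p ω N g π) = ((ω g : (ZMod p)ˣ) : ZMod p) * bb p ω N n π := by
  rw [bb_apply, bb_apply, rhoP_apply]
  congr 2
  show toRS p N (N.ρ g⁻¹ (ofRS p N (toRS p N (N.ρ g n)))) = toRS p N n
  congr 1
  show N.ρ g⁻¹ (N.ρ g n) = n
  rw [← Module.End.mul_apply, ← map_mul, inv_mul_cancel, map_one, Module.End.one_apply]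

theorem rhoP_triv (htriv : ∀ h ∈ U, ∀ n : N, N.ρ h n = n) (hω : ∀ u ∈ U, ω u = 1)
    (u : G) (hu : u ∈ U) (π : PP p ω N) : rhoP p ω N u π = π := by
  apply LinearMap.ext
  intro n
  rw [rhoP_apply, hω u hu, Units.val_one, one_mul]
  congr 1
  show toRS p N (N.ρ u⁻¹ (ofRS p N n)) = n
  rw [htriv _ (U.inv_mem hu)]
  rfl

/-- `N^G → Hom_G(P, μ_p)`. -/
noncomputable def evInv (n : ↥N.ρ.invariants) : EqHom p (rhoP p ω N) (omegaRep ω) :=
  ⟨ddual p N ω (n : N), fun g π => by
    rw [omegaRep_apply]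
    show ddual p N ω (n : N) (rhoP p ω N g π) = _ * ddual p N ω (n : N) π
    rw [ddual_apply, ddual_apply, rhoP_apply]
    congr 2
    show toRS p N (N.ρ g⁻¹ (n : N)) = toRS p N (n : N)
    rw [n.2 g⁻¹]⟩

theorem evInv_injective : Function.Injective (evInv p ω N) := by
  intro n n' h
  apply Subtype.ext
  apply (ddual_bijective p N ω).1
  exact congrArg Subtype.val h

theorem finite_eqHom {Y : Type} [AddCommGroup Y] [Module (ZMod p) Y] [Finite Y]
    (ρY : Representation (ZMod p) G Y) : Finite (EqHom p (rhoP p ω N) ρY) := by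
  have hfin : Finite (PP p ω N →ₗ[ZMod p] Y) :=
    Finite.of_injective (fun f => (f : PP p ω N → Y)) DFunLike.coe_injective
  exact Subtype.finite

theorem card_invariants_le_eqHom_omega :
    Nat.card ↥N.ρ.invariants ≤ Nat.card (EqHom p (rhoP p ω N) (omegaRep ω)) := by
  have := finite_eqHom p ω N (omegaRep ω)
  exact Nat.card_le_card_of_injective _ (evInv_injective p ω N)

/-- `(N^∨(ω))^G → P^G` by the trace. -/
noncomputable def trInv (f : ↥(N.dualTwist (chiK (k := k) p ω)).ρ.invariants) :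
    ↥(rhoP p ω N).invariants :=
  ⟨trDual p N (f : Module.Dual k N), fun g => by
    show ((resScal p N).dualTwist ω).ρ g (trDual p N (f : Module.Dual k N)) = _
    rw [← trDual_ρ, f.2 g]⟩

theorem trInv_injective : Function.Injective (trInv p ω N) := by
  intro f f' h
  apply Subtype.ext
  apply trDual_injective p N
  exact congrArg Subtype.val h

theorem card_dualTwist_invariants_le :
    Nat.card ↥(N.dualTwist (chiK (k := k) p ω)).ρ.invariants ≤
      Nat.card ↥(rhoP p ω N).invariants :=
  Nat.card_le_card_of_injective _ (trInv_injective p ω N)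

theorem card_dualTwist_invariants_le_eqHom_triv
    (htriv : ∀ h ∈ U, ∀ n : N, N.ρ h n = n) (hω : ∀ u ∈ U, ω u = 1)
    (hidx : ¬ p ∣ U.index) :
    Nat.card ↥(N.dualTwist (chiK (k := k) p ω)).ρ.invariants ≤
      Nat.card (EqHom p (rhoP p ω N) (Representation.trivial (ZMod p) G (ZMod p))) := by
  refine (card_dualTwist_invariants_le p ω N).trans ?_
  have h1 : FiniteDimensional (ZMod p) (RS p N) := finiteDimensional_resScal p N
  have h2 : FiniteDimensional (ZMod p) (PP p ω N) :=
    (inferInstance : Module.Finite (ZMod p) (Module.Dual (ZMod p) (RS p N)))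
  have hidx' : ((U.index : ℕ) : ZMod p) ≠ 0 := by
    rw [Ne, ZMod.natCast_eq_zero_iff]
    exact hidx
  exact card_invariants_le (rhoP p ω N) U (rhoP_triv p ω N htriv hω) hidx'

/-- **the lower bound for the invariant level homomorphisms.** -/
theorem card_le_card_invHom (D : KumDatum 𝓑 U p ω) (hD : D.Count)
    (htriv : ∀ h ∈ U, ∀ n : N, N.ρ h n = n) (hω : ∀ u ∈ U, ω u = 1)
    (hidx : ¬ p ∣ U.index) [Finite ↥(invHom 𝓑 N U)] :
    Nat.card ↥(N.dualTwist (chiK (k := k) p ω)).ρ.invariants * Nat.card N *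
      Nat.card ↥N.ρ.invariants ≤ Nat.card ↥(invHom 𝓑 N U) := by
  have h1 := hD (PP p ω N) (rhoP p ω N) (rhoP_triv p ω N htriv hω)
  have h2 := card_eqHom_le D N (rhoP p ω N) (bb p ω N) (bb_surj p ω N) (bb_inj p ω N)
    (bb_equiv p ω N)
  refine le_trans ?_ (h1.trans h2)
  rw [card_PP]
  exact Nat.mul_le_mul (Nat.mul_le_mul
    (card_dualTwist_invariants_le_eqHom_triv p ω N htriv hω hidx) le_rfl)
    (card_invariants_le_eqHom_omega p ω N)

/-- **T1: the Euler characteristic of a module with prime-to-`p` image is at most `- dim`.** -/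
theorem chiLev_le_of_count (D : KumDatum 𝓑 U p ω) (hD : D.Count)
    [FiniteDimensional k (H1 𝓑 N)]
    (hH2 : FiniteDimensional k (H2 𝓑 N) ∧
      Module.finrank k (H2 𝓑 N) ≤
        Module.finrank k ↥(N.dualTwist (chiK (k := k) p ω)).ρ.invariants)
    (htriv : ∀ h ∈ U, ∀ n : N, N.ρ h n = n) (hω : ∀ u ∈ U, ω u = 1)
    (hidx : ¬ p ∣ U.index) (hU : ∃ V ∈ 𝓑.sets, V ≤ U) :
    chiLev 𝓑 N ≤ -(Module.finrank k N : ℤ) := by
  obtain ⟨hH2fd, hh2⟩ := hH2
  have hidxk : ((U.index : ℕ) : k) ≠ 0 := by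
    rw [Ne, CharP.cast_eq_zero_iff k p]
    exact hidx
  have hinvfd : FiniteDimensional k ↥(invHom 𝓑 N U) :=
    Module.Finite.of_injective (corH1 htriv hidxk hU) (corH1_injective htriv hidxk hU)
  have hinvfin : Finite ↥(invHom 𝓑 N U) := Module.finite_of_finite k
  have h1 := card_le_card_invHom p ω N D hD htriv hω hidx
  have hdfd : FiniteDimensional k ↥(N.dualTwist (chiK (k := k) p ω)).ρ.invariants := by
    have : Module.Finite k (Module.Dual k N) := inferInstance
    exact Module.Finite.of_injective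
      (N.dualTwist (chiK (k := k) p ω)).ρ.invariants.subtype Subtype.val_injective
  rw [Module.natCard_eq_pow_finrank (K := k)
      (V := ↥(N.dualTwist (chiK (k := k) p ω)).ρ.invariants),
    Module.natCard_eq_pow_finrank (K := k) (V := N),
    Module.natCard_eq_pow_finrank (K := k) (V := ↥N.ρ.invariants),
    Module.natCard_eq_pow_finrank (K := k) (V := ↥(invHom 𝓑 N U)), ← pow_add, ← pow_add] at h1
  have h2 := (Nat.pow_le_pow_iff_right Finite.one_lt_card).1 h1
  have h3 := finrank_invHom_le (𝓑 := 𝓑) htriv hidxk hU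
  unfold chiLev
  have h4 : ((Module.finrank k ↥(N.dualTwist (chiK (k := k) p ω)).ρ.invariants +
      Module.finrank k N + Module.finrank k ↥N.ρ.invariants : ℕ) : ℤ) ≤
      Module.finrank k (H1 𝓑 N) := by exact_mod_cast h2.trans h3
  have h5 : (Module.finrank k (H2 𝓑 N) : ℤ) ≤
      Module.finrank k ↥(N.dualTwist (chiK (k := k) p ω)).ρ.invariants := by
    exact_mod_cast hh2
  push_cast at h4
  linarith

end Main

end Fermat.Agent.W56.LecTame5
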