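/-
Programme W56 (target S56), chapter (D4) = (LEC-p), helper5: **the Euler characteristic at `p` of the
modules with prime-to-`p` image and of the filtered modules**, from the single arithmetic contract
`KumCountP` (for every open normal subgroup `U ≤ Γ_p` of index prime to `p` fixing `ζ_p` there is a
Kummer datum with the count, `LecKumBridge5`).

* `not_dvd_index_of_pow_mem` : `g ^ p ∈ U → g ∈ U` for all `g` implies `p ∤ [G : U]` (Cauchy);
* `chiLev_le_of_ker` (T1'): `N` a finite discrete `k[Γ_p]`-module, `f : Γ_p →* H` of open kernel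
  acting trivially on `N`, without `p`-torsion in its image: `chiLev N ≤ - dim N`;
* `chiLev_line` : a line has `chiLev ≤ -1`;
* `chiLev_step` : `l : N → k` a non-zero functional with `Γ_p`-stable kernel `K`:
  `chiLev N ≤ chiLev K - 1`.
-/
import Mathlib
import Fermat.Agent.W56.LecTame5
import Fermat.Agent.W56.LecFinal5
import Fermat.Agent.W56.LecDev5
import Fermat.Agent.W56.LecKumRel5

set_option autoImplicit false
set_option linter.unusedSectionVars false

open CategoryTheory ExtCitation

namespace Fermat.Agent.W56.LecPTame5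

open Fermat.Agent.PT.PRO Fermat.Agent.PT.BR Fermat.Agent.W56.Defs9
  Fermat.Agent.PT.PRO.LevelCoh28 Fermat.Agent.W56.LecCores5 Fermat.Agent.W56.LecKumBridge5
  Fermat.Agent.W56.TraceDual2 Fermat.Agent.W56.ChiLev4 Fermat.Agent.S14.Fields

local notation "Qb" => AlgebraicClosure ℚ

/-! ### Group theory -/

/-- if `g ^ p ∈ U` implies `g ∈ U`, then `p` does not divide the index of `U`. -/
theorem not_dvd_index_of_pow_mem {G : Type} [Group G] (U : Subgroup G) [U.Normal]
    [U.FiniteIndex] (p : ℕ) [hp : Fact p.Prime] (h : ∀ g : G, g ^ p ∈ U → g ∈ U) :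
    ¬ p ∣ U.index := by
  intro hdvd
  rw [Subgroup.index_eq_card] at hdvd
  have : Finite (G ⧸ U) := Subgroup.finite_quotient_of_finiteIndex
  obtain ⟨x, hx⟩ := exists_prime_orderOf_dvd_card' p hdvd
  obtain ⟨g, rfl⟩ := QuotientGroup.mk_surjective x
  have h1 : ((g ^ p : G) : G ⧸ U) = 1 := by
    rw [QuotientGroup.mk_pow, ← hx, pow_orderOf_eq_one]
  have h2 : g ∈ U := h g ((QuotientGroup.eq_one_iff _).1 h1)
  have h3 : ((g : G) : G ⧸ U) = 1 := (QuotientGroup.eq_one_iff _).2 h2
  rw [h3, orderOf_one] at hx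
  exact hp.out.one_lt.ne hx

/-! ### The contract -/

section Contract

/-- `Γ_p`. -/
abbrev Gp (p : ℕ) [Fact p.Prime] : Type := primeLocalGaloisGroup (pPrime p)

/-- the level basis of `Γ_p`. -/
noncomputable abbrev Bp (p : ℕ) [Fact p.Prime] : LevelCoh28.LevelBasis (Gp p) :=
  LevelBridge13.pullBasis (locD (pPrime p))

/-- the mod `p` cyclotomic character of `Γ_p`, with values in `𝔽_pˣ`. -/
noncomputable def omegaP (p : ℕ) [Fact p.Prime] :
    primeLocalGaloisGroup (pPrime p) →* (ZMod p)ˣ :=
  (cycloChar p).comp (locD (pPrime p))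

/-- **the arithmetic contract of (LEC-p)**: Kummer data with the count for the open normal
subgroups of `Γ_p` of index prime to `p` fixing `ζ_p`. -/
def KumCountP : Prop :=
  ∀ (p : ℕ) [Fact p.Prime], p ≠ 2 →
  ∀ (U : Subgroup (primeLocalGaloisGroup (pPrime p))) [U.Normal],
    (∃ V ∈ (LevelBridge13.pullBasis (locD (pPrime p))).sets, V ≤ U) → ¬ p ∣ U.index →
    (∀ s ∈ U, omegaP p s = 1) →
    ∃ D : KumDatum (LevelBridge13.pullBasis (locD (pPrime p))) U p (omegaP p), D.Count

end Contract

section Main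

variable {k : Type} [Field k] [Finite k] (p : ℕ) [hpF : Fact p.Prime] [hchar : CharP k p]


/-- `ω` is trivial on the level of `ℚ(ζ_p)`. -/
theorem omegaP_eq_one_of_mem {s : Gp p}
    (hs : s ∈ (IntermediateField.adjoin ℚ ({zeta p} : Set Qb)).fixingSubgroup.comap
      (locD (pPrime p))) : omegaP p s = 1 := by
  apply Units.ext
  show ((cycloChar p (locD (pPrime p) s) : (ZMod p)ˣ) : ZMod p) = 1
  rw [coe_cycloChar]
  exact LecKumRel5.cycloExp_eq_one (LecKummer5.apply_eq_of_mem_fixingSubgroup hs)

theorem chiK_omegaP :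
    chiK (k := k) p (omegaP p) = (cycloK (k := k) p).comp (locD (pPrime p)) := rfl

theorem omegaP_eq_one_of_pow (g : Gp p) (h : omegaP p g ^ p = 1) : omegaP p g = 1 := by
  have h1 : omegaP p g ^ (p - 1) = 1 := by
    have := ZMod.units_pow_card_sub_one_eq_one p (omegaP p g)
    exact this
  have hp1 : 1 ≤ p := hpF.out.one_lt.le
  have h2 : omegaP p g ^ p = omegaP p g ^ (p - 1) * omegaP p g := by
    rw [← pow_succ, Nat.sub_add_cancel hp1]
  rw [h2, h1, one_mul] at h
  exact h

variable (N : Rep.{0} k (Gp p)) [hNfin : Module.Finite k N]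
  (hN : LevelCoh28.IsDiscrete (LevelBridge13.pullSets (locD (pPrime p))) N)

include hN in
/-- an open subgroup acting trivially on the finite discrete module `N`. -/
theorem exists_trivial_level : ∃ V ∈ (Bp p).sets, ∀ g ∈ V, ∀ n : N, N.ρ g n = n := by
  have hfinN : Finite N := Module.finite_of_finite k
  choose V hV hVn using hN
  obtain ⟨W, hW, hWV⟩ := exists_le_of_finite (Bp p) V hV
  exact ⟨W, hW, fun g hg n => hVn n g (hWV n hg)⟩

include hN in
/-- the finiteness facts and (LH2) for `N`. -/
theorem fin_facts :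
    FiniteDimensional k (H1 (Bp p) N) ∧ FiniteDimensional k (H2 (Bp p) N) ∧
      Module.finrank k (H2 (Bp p) N) ≤
        Module.finrank k ↥(N.dualTwist (chiK (k := k) p (omegaP p))).ρ.invariants := by
  have h1 : Finite (H1 (Bp p) N) := LecV5.finite_H1_loc p (pPrime p) N hN
  obtain ⟨hfin, hle⟩ := LecFinal5.lh2At (k := k) p (pPrime p) N hNfin hN
  have hH1 : Module.Finite k (H1 (Bp p) N) := Module.Finite.of_finite
  have hH2 : Module.Finite k (H2 (Bp p) N) := Module.Finite.of_finite
  refine ⟨hH1, hH2, ?_⟩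
  rw [chiK_omegaP]
  have hD : Module.Finite k
      ↥(N.dualTwist ((cycloK (k := k) p).comp (locD (pPrime p)))).ρ.invariants := by
    have : Module.Finite k (Module.Dual k N) := inferInstance
    exact Module.Finite.of_injective
      (N.dualTwist ((cycloK (k := k) p).comp (locD (pPrime p)))).ρ.invariants.subtype
      Subtype.val_injective
  rw [Module.natCard_eq_pow_finrank (K := k) (V := H2 (Bp p) N),
    Module.natCard_eq_pow_finrank (K := k)
      (V := ↥(N.dualTwist ((cycloK (k := k) p).comp (locD (pPrime p)))).ρ.invariants)] at hle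
  exact (Nat.pow_le_pow_iff_right Finite.one_lt_card).1 hle

include hN in
/-- **T1'**: a finite discrete `k[Γ_p]`-module on which `Γ_p` acts through a quotient without
`p`-torsion has Euler characteristic at most `- dim`. -/
theorem chiLev_le_of_ker (hK : KumCountP) (hp2 : p ≠ 2) {H : Type} [Monoid H] (f : Gp p →* H)
    (hopen : ∃ V ∈ (Bp p).sets, V ≤ f.ker) (hfN : ∀ g ∈ f.ker, ∀ n : N, N.ρ g n = n)
    (hptf : ∀ g : Gp p, g ^ p ∈ f.ker → g ∈ f.ker) :
    chiLev (Bp p) N ≤ -(Module.finrank k N : ℤ) := by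
  set U : Subgroup (Gp p) := f.ker ⊓ (omegaP p).ker with hU
  have hUn : U.Normal := Subgroup.normal_inf_normal _ _
  -- `U` is open
  obtain ⟨V₁, hV₁, hV₁f⟩ := hopen
  have hV₂ := LecUnram5.adjoin_mem_sets (pPrime p) (zeta p)
  obtain ⟨V, hV, hVle⟩ := (Bp p).isBasis.directed V₁ hV₁ _ hV₂
  have hVU : V ≤ U := by
    intro g hg
    exact ⟨hV₁f (hVle hg).1, MonoidHom.mem_ker.2 (omegaP_eq_one_of_mem p (hVle hg).2)⟩
  have hVfin : V.FiniteIndex := (Bp p).isBasis.finiteIndex V hV
  have hUf : U.FiniteIndex := Subgroup.finiteIndex_of_le hVU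
  -- the index is prime to `p`
  have hidx : ¬ p ∣ U.index := by
    apply not_dvd_index_of_pow_mem U p
    intro g hg
    have h2 : omegaP p (g ^ p) = 1 := MonoidHom.mem_ker.1 hg.2
    rw [map_pow] at h2
    exact ⟨hptf g hg.1, MonoidHom.mem_ker.2 (omegaP_eq_one_of_pow p g h2)⟩
  have hω : ∀ s ∈ U, omegaP p s = 1 := fun s hs => MonoidHom.mem_ker.1 hs.2
  obtain ⟨D, hD⟩ := hK p hp2 U ⟨V, hV, hVU⟩ hidx hω
  obtain ⟨hH1, hH2, hle⟩ := fin_facts p N hN
  exact LecTame5.chiLev_le_of_count p (omegaP p) N D hD ⟨hH2, hle⟩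
    (fun g hg n => hfN g hg.1 n) hω hidx ⟨V, hV, hVU⟩

include hN in
/-- **a line has Euler characteristic at most `-1`.** -/
theorem chiLev_line (hK : KumCountP) (hp2 : p ≠ 2) (h1 : Module.finrank k N = 1) :
    chiLev (Bp p) N ≤ -1 := by
  have hp : p.Prime := hpF.out
  obtain ⟨e, he, hspan⟩ := finrank_eq_one_iff'.1 h1
  obtain ⟨V, hV, hVt⟩ := exists_trivial_level p N hN
  have key := chiLev_le_of_ker p N hN hK hp2 (N.ρ : Gp p →* (N →ₗ[k] N))
    ⟨V, hV, fun g hg => by
      rw [MonoidHom.mem_ker]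
      exact LinearMap.ext fun n => hVt g hg n⟩
    (fun g hg n => by
      rw [MonoidHom.mem_ker] at hg
      rw [hg]
      rfl)
    (fun g hg => by
      rw [MonoidHom.mem_ker] at hg ⊢
      obtain ⟨c, hc⟩ := hspan (N.ρ g e)
      have h2 : (N.ρ g ^ p) e = c ^ p • e := by
        have : ∀ j : ℕ, (N.ρ g ^ j) e = c ^ j • e := by
          intro j
          induction j with
          | zero => simp
          | succ j ih =>
            rw [pow_succ, Module.End.mul_apply, ← hc, map_smul, ih, smul_smul, pow_succ, mul_comm]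
        exact this p
      rw [map_pow] at hg
      rw [hg, Module.End.one_apply] at h2
      have h3 : c ^ p = 1 := by
        have h4 : (c ^ p - 1) • e = 0 := by rw [sub_smul, one_smul, ← h2, sub_self]
        exact sub_eq_zero.1 ((smul_eq_zero.1 h4).resolve_right he)
      have h5 : c = 1 := by
        have h6 : (c - 1) ^ p = 0 := by rw [sub_pow_char, h3, one_pow, sub_self]
        exact sub_eq_zero.1 (pow_eq_zero_iff hp.ne_zero |>.1 h6)
      apply LinearMap.ext
      intro n
      obtain ⟨a, rfl⟩ := hspan n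
      rw [map_smul, ← hc, h5, one_smul]
      rfl)
  rw [h1] at key
  exact key

include hN in
/-- **the step**: a non-zero functional with stable kernel costs `1`. -/
theorem chiLev_step (hK : KumCountP) (hp2 : p ≠ 2) (l : N →ₗ[k] k) (hl : ∃ n, l n ≠ 0)
    (hst : ∀ g, LinearMap.ker l ≤ (LinearMap.ker l).comap (N.ρ g)) :
    chiLev (Bp p) N ≤ chiLev (Bp p) (N.subrepresentation (LinearMap.ker l) hst) - 1 := by
  set W := LinearMap.ker l with hW
  have hAfin : Module.Finite k (N.subrepresentation W hst) :=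
    (inferInstance : Module.Finite k ↥W)
  have hCfin : Module.Finite k (N.quotient W hst) :=
    (inferInstance : Module.Finite k (N ⧸ W))
  have hAd := LecDev5.isDiscrete_sub (𝓑 := Bp p) hN W hst
  have hCd := LecDev5.isDiscrete_quot (𝓑 := Bp p) hN W hst
  obtain ⟨hA1, hA2, -⟩ := fin_facts p (N.subrepresentation W hst) hAd
  obtain ⟨hB1, hB2, -⟩ := fin_facts p N hN
  obtain ⟨hC1, hC2, -⟩ := fin_facts p (N.quotient W hst) hCd
  have key := LecDev5.chiLev_le (𝓑 := Bp p) (A := N.subrepresentation W hst) (B := N)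
    (C := N.quotient W hst) W.subtype (fun _ _ => rfl) W.mkQ (fun _ _ => rfl)
    W.injective_subtype W.mkQ_surjective
    (fun b => by
      rw [Submodule.mkQ_apply, Submodule.Quotient.mk_eq_zero]
      constructor
      · intro hb
        exact ⟨⟨b, hb⟩, rfl⟩
      · rintro ⟨a, rfl⟩
        exact a.2) hN
  have hsurj : Function.Surjective l := by
    obtain ⟨n, hn⟩ := hl
    intro c
    refine ⟨(c / l n) • n, ?_⟩
    rw [map_smul, smul_eq_mul, div_mul_cancel₀ _ hn]
  have hfr : Module.finrank k (N.quotient W hst) = 1 := by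
    have e := l.quotKerEquivOfSurjective hsurj
    have h2 : Module.finrank k (N ⧸ W) = Module.finrank k k := LinearEquiv.finrank_eq e
    rw [Module.finrank_self] at h2
    exact h2
  have hline := chiLev_line p (N.quotient W hst) hCd hK hp2 hfr
  linarith

end Main

end Fermat.Agent.W56.LecPTame5
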