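/-
Programme W56 (target S56), chapter (B) DICTIONARY, part 1 (helper9): lifts of `ρ̄` to the dual
numbers `k[ε]` in MATRIX form, and their cocycles.

* `dn X Y = X + εY` for `X Y : M₂(k)`, `fstM`, `sndM`, multiplication and determinant rules;
* for `r : Γ →* M₂(k[ε])`: `cocM r σ = snd(r σ) · fst(r σ)⁻¹`, so that `r σ = (1 + ε cocM r σ) r̄ σ`
  (`r_eq_dn`), the cocycle identity `cocM_mul`, trace zero from the determinant (`trace_cocM`),
  conjugation by `1 + εY` ⟺ cohomologous (`conj_iff`);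
* with a basis `b` of `V̄` and `rbar = matrixOfBasisRes ρ̄ b`:  `coc0 b r … : ↥(Z1 (globalBasis T)
  (ad0 ρ̄))`, the LEVEL cocycle of a strict lift `r` of `rbar` with the right determinant which is
  trivial on `Gal(ℚ̄/L)`, `L` unramified outside `T`;
* `liftMat b c`, **`liftOf ρ̄ c : GaloisRepAdic k[ε]`** for a level cocycle `c` with values in `ad⁰ρ̄`
  (`V = k[ε]²`, `ρ(σ) = (1 + ε c(σ)) ρ̄(σ)` in the basis `stdBasis ρ̄`), `coc0_liftMat`;
* **`isEquiv_of_H1mk_eq`**: two strict lifts with the same class are equivalent.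
-/
import Mathlib
import Fermat.Agent.W56.Defs9
import Fermat.Agent.S53.MatrixRes

set_option autoImplicit false
set_option linter.unusedSectionVars false
set_option linter.unnecessarySeqFocus false

open CategoryTheory groupCohomology

namespace Fermat.Agent.W56.Lift9

open Fermat.Agent.S53 Fermat.Agent.W56.Defs9 Fermat.Agent.PT.PRO Fermat.Agent.PT.BR

local notation "Qbar" => AlgebraicClosure ℚ
local notation "Γ" => (AlgebraicClosure ℚ ≃ₐ[ℚ] AlgebraicClosure ℚ)

noncomputable section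

/-! ### Matrices over the dual numbers -/

section DualNumberMatrices

variable {k : Type} [Field k]

/-- `X + εY`. -/
def dn (X Y : M2 k) : M2 (DualNumber k) :=
  Matrix.of fun i j => TrivSqZeroExt.inl (X i j) + TrivSqZeroExt.inr (Y i j)

@[simp] theorem dn_apply (X Y : M2 k) (i j : Fin 2) :
    dn X Y i j = TrivSqZeroExt.inl (X i j) + TrivSqZeroExt.inr (Y i j) := rfl

/-- The constant term of a matrix over `k[ε]`. -/
def fstM (M : M2 (DualNumber k)) : M2 k := M.map TrivSqZeroExt.fst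

/-- The `ε`-coefficient of a matrix over `k[ε]`. -/
def sndM (M : M2 (DualNumber k)) : M2 k := M.map TrivSqZeroExt.snd

@[simp] theorem fstM_apply (M : M2 (DualNumber k)) (i j : Fin 2) : fstM M i j = (M i j).fst := rfl

@[simp] theorem sndM_apply (M : M2 (DualNumber k)) (i j : Fin 2) : sndM M i j = (M i j).snd := rfl

@[simp] theorem fstM_dn (X Y : M2 k) : fstM (dn X Y) = X := by
  ext i j; simp

@[simp] theorem sndM_dn (X Y : M2 k) : sndM (dn X Y) = Y := by
  ext i j; simp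

theorem dn_fstM_sndM (M : M2 (DualNumber k)) : dn (fstM M) (sndM M) = M := by
  ext i j <;> simp

theorem dn_injective {X Y X' Y' : M2 k} (h : dn X Y = dn X' Y') : X = X' ∧ Y = Y' := by
  have h1 := congrArg fstM h
  have h2 := congrArg sndM h
  rw [fstM_dn, fstM_dn] at h1
  rw [sndM_dn, sndM_dn] at h2
  exact ⟨h1, h2⟩

theorem dn_mul (X Y X' Y' : M2 k) : dn X Y * dn X' Y' = dn (X * X') (X * Y' + Y * X') := by
  ext i j <;> simp [Matrix.mul_apply, Fin.sum_univ_two] <;> ring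

theorem dn_one : dn (1 : M2 k) 0 = 1 := by
  ext i j <;> fin_cases i <;> fin_cases j <;> simp

@[simp] theorem fstM_one : fstM (1 : M2 (DualNumber k)) = 1 := by
  rw [← dn_one, fstM_dn]

@[simp] theorem sndM_one : sndM (1 : M2 (DualNumber k)) = 0 := by
  rw [← dn_one, sndM_dn]

theorem fstM_mul (M N : M2 (DualNumber k)) : fstM (M * N) = fstM M * fstM N := by
  ext i j; simp [Matrix.mul_apply, Fin.sum_univ_two]

theorem sndM_mul (M N : M2 (DualNumber k)) :
    sndM (M * N) = fstM M * sndM N + sndM M * fstM N := by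
  ext i j; simp [Matrix.mul_apply, Fin.sum_univ_two]; ring

theorem det_dn (X Y : M2 k) :
    (dn X Y).det = TrivSqZeroExt.inl X.det +
      TrivSqZeroExt.inr (X 0 0 * Y 1 1 + Y 0 0 * X 1 1 - X 0 1 * Y 1 0 - Y 0 1 * X 1 0) := by
  rw [Matrix.det_fin_two, Matrix.det_fin_two]
  ext <;> simp <;> ring

theorem det_dn_mul (C X : M2 k) :
    (dn X (C * X)).det = TrivSqZeroExt.inl X.det + TrivSqZeroExt.inr (X.det * C.trace) := by
  rw [det_dn, Matrix.det_fin_two, Matrix.trace_fin_two]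
  congr 2
  simp only [Matrix.mul_apply, Fin.sum_univ_two]
  ring

theorem isUnit_dn_one (Y : M2 k) : IsUnit (dn 1 Y) := by
  refine ⟨⟨dn 1 Y, dn 1 (-Y), ?_, ?_⟩, rfl⟩
  · rw [dn_mul, one_mul, one_mul, mul_one, neg_add_cancel, dn_one]
  · rw [dn_mul, one_mul, one_mul, mul_one, add_neg_cancel, dn_one]

/-- The map `M₂(k) → M₂(k[ε])`, `X ↦ X + ε·0`, agrees with `Matrix.map inl`. -/
theorem dn_zero_eq_map (X : M2 k) : dn X 0 = X.map (TrivSqZeroExt.inl : k → DualNumber k) := by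
  ext i j <;> simp

end DualNumberMatrices

/-! ### The cocycle of a matrix representation over the dual numbers -/

section Cocycle

variable {k : Type} [Field k] (r : Γ →* M2 (DualNumber k))

/-- The reduction `r̄ = r mod ε`. -/
def redM : Γ →* M2 k where
  toFun σ := fstM (r σ)
  map_one' := by rw [map_one, fstM_one]
  map_mul' σ τ := by rw [map_mul, fstM_mul]

@[simp] theorem redM_apply (σ : Γ) : redM r σ = fstM (r σ) := rfl

theorem redM_mul_inv (σ : Γ) : redM r σ * redM r σ⁻¹ = 1 := by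
  rw [← map_mul, mul_inv_cancel, map_one]

theorem redM_inv_mul (σ : Γ) : redM r σ⁻¹ * redM r σ = 1 := by
  rw [← map_mul, inv_mul_cancel, map_one]

/-- The cocycle of `r`: `r σ = (1 + ε · cocM r σ) · r̄ σ`. -/
def cocM (σ : Γ) : M2 k := sndM (r σ) * redM r σ⁻¹

theorem cocM_mul_redM (σ : Γ) : cocM r σ * redM r σ = sndM (r σ) := by
  rw [cocM, mul_assoc, redM_inv_mul, mul_one]

theorem r_eq_dn (σ : Γ) : r σ = dn (redM r σ) (cocM r σ * redM r σ) := by
  rw [cocM_mul_redM, redM_apply, dn_fstM_sndM]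

theorem cocM_one : cocM r 1 = 0 := by
  rw [cocM, map_one, sndM_one, zero_mul]

/-- The cocycle identity. -/
theorem cocM_mul (σ τ : Γ) :
    cocM r (σ * τ) = cocM r σ + redM r σ * cocM r τ * redM r σ⁻¹ := by
  have h1 : sndM (r (σ * τ)) = redM r σ * sndM (r τ) + sndM (r σ) * redM r τ := by
    rw [map_mul, sndM_mul]; rfl
  have h2 : redM r (σ * τ)⁻¹ = redM r τ⁻¹ * redM r σ⁻¹ := by
    rw [mul_inv_rev, map_mul]
  rw [cocM, h1, h2, add_mul, add_comm]
  congr 1
  · rw [cocM, mul_assoc (sndM (r σ)), ← mul_assoc (redM r τ), redM_mul_inv, one_mul]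
  · rw [cocM]; simp only [mul_assoc]

theorem det_redM_ne_zero (σ : Γ) : (redM r σ).det ≠ 0 := by
  intro h
  have h1 := congrArg Matrix.det (redM_mul_inv r σ)
  rw [Matrix.det_mul, h, zero_mul, Matrix.det_one] at h1
  exact zero_ne_one h1

/-- If the determinant of `r` is constant (`= det r̄`), the cocycle has trace zero. -/
theorem trace_cocM {σ : Γ} (h : (r σ).det = TrivSqZeroExt.inl (redM r σ).det) :
    (cocM r σ).trace = 0 := by
  have h1 : (r σ).det = TrivSqZeroExt.inl (redM r σ).det +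
      TrivSqZeroExt.inr ((redM r σ).det * (cocM r σ).trace) := by
    conv_lhs => rw [r_eq_dn r σ]
    exact det_dn_mul _ _
  rw [h] at h1
  have h2 := congrArg TrivSqZeroExt.snd h1
  simp only [TrivSqZeroExt.snd_inl, TrivSqZeroExt.snd_add, TrivSqZeroExt.snd_inr, zero_add] at h2
  rcases mul_eq_zero.1 h2.symm with h3 | h3
  · exact absurd h3 (det_redM_ne_zero r σ)
  · exact h3

variable {r}

/-- Conjugation by `1 + εY` ⟺ the cocycles differ by the coboundary of `-Y`. -/
theorem conj_iff {r' : Γ →* M2 (DualNumber k)} (hred : redM r = redM r') (Y : M2 k) :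
    (∀ σ, dn 1 Y * r σ = r' σ * dn 1 Y) ↔
      ∀ σ, cocM r' σ = cocM r σ + Y - redM r σ * Y * redM r σ⁻¹ := by
  refine forall_congr' fun σ => ?_
  have e1 : dn 1 Y * r σ = dn (redM r σ) (cocM r σ * redM r σ + Y * redM r σ) := by
    conv_lhs => rw [r_eq_dn r σ]
    rw [dn_mul, one_mul, one_mul]
  have e2 : r' σ * dn 1 Y = dn (redM r σ) (redM r σ * Y + cocM r' σ * redM r σ) := by
    conv_lhs => rw [r_eq_dn r' σ]
    rw [dn_mul, mul_one, mul_one, hred]
  rw [e1, e2]
  constructor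
  · intro h
    have h1 := (dn_injective h).2
    have h2 : cocM r' σ * redM r σ = (cocM r σ + Y - redM r σ * Y * redM r σ⁻¹) * redM r σ := by
      rw [sub_mul, add_mul, mul_assoc (redM r σ * Y), redM_inv_mul, mul_one]
      rw [eq_sub_iff_add_eq, add_comm]
      exact h1.symm
    have h3 := congrArg (· * redM r σ⁻¹) h2
    simp only [mul_assoc, redM_mul_inv, mul_one] at h3
    rw [h3]
    simp only [mul_assoc]
  · intro h
    congr 1
    rw [h, sub_mul, add_mul, mul_assoc (redM r σ * Y), redM_inv_mul, mul_one]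
    abel

end Cocycle

/-! ### The `ad⁰ρ̄`-valued level cocycle of a strict lift -/

section WithBasis

variable {k : Type} [Field k] (ρbar : ResidualGaloisRep k) (b : Module.Basis (Fin 2) k ρbar.V)

/-- The matrix of `ρ̄` in the basis `b` (`S53.matrixOfBasisRes`). -/
abbrev rbarOf : Γ →* M2 k := matrixOfBasisRes ρbar b

theorem toLin_rbarOf (σ : Γ) : Matrix.toLin b b (rbarOf ρbar b σ) = ρbar.ρ σ := by
  rw [matrixOfBasisRes_apply, Matrix.toLin_toMatrix]

variable (r : Γ →* M2 (DualNumber k))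

/-- The cocycle of `r` as an endomorphism of `V̄`. -/
def cocEnd (σ : Γ) : Module.End k ρbar.V := Matrix.toLin b b (cocM r σ)

theorem toMatrix_cocEnd (σ : Γ) : LinearMap.toMatrix b b (cocEnd ρbar b r σ) = cocM r σ := by
  rw [cocEnd, LinearMap.toMatrix_toLin]

theorem trace_cocEnd (σ : Γ) :
    LinearMap.trace k ρbar.V (cocEnd ρbar b r σ) = (cocM r σ).trace := by
  rw [LinearMap.trace_eq_matrix_trace k b, toMatrix_cocEnd]

variable {r}

theorem cocEnd_mul (hred : redM r = rbarOf ρbar b) (σ τ : Γ) :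
    cocEnd ρbar b r (σ * τ) =
      cocEnd ρbar b r σ + ρbar.ρ σ * cocEnd ρbar b r τ * ρbar.ρ σ⁻¹ := by
  rw [cocEnd, cocM_mul, map_add, Matrix.toLin_mul b b b, Matrix.toLin_mul b b b, hred,
    toLin_rbarOf, toLin_rbarOf]
  rfl

theorem cocEnd_mem_sl (hdet : ∀ σ, (r σ).det = TrivSqZeroExt.inl (redM r σ).det) (σ : Γ) :
    cocEnd ρbar b r σ ∈ sl ρbar := by
  rw [mem_sl_iff, trace_cocEnd, trace_cocM r (hdet σ)]

/-- The `ad⁰ρ̄`-valued cocycle of a strict lift with constant determinant. -/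
def coc0 (hdet : ∀ σ, (r σ).det = TrivSqZeroExt.inl (redM r σ).det) : Γ → ad0 ρbar :=
  fun σ => (⟨cocEnd ρbar b r σ, cocEnd_mem_sl ρbar b hdet σ⟩ : ↥(sl ρbar))

theorem coe_coc0 (hdet : ∀ σ, (r σ).det = TrivSqZeroExt.inl (redM r σ).det) (σ : Γ) :
    ((show ↥(sl ρbar) from coc0 ρbar b hdet σ) : Module.End k ρbar.V) = cocEnd ρbar b r σ := rfl

theorem coc0_mem_cocycles₁ (hred : redM r = rbarOf ρbar b)
    (hdet : ∀ σ, (r σ).det = TrivSqZeroExt.inl (redM r σ).det) :
    coc0 ρbar b hdet ∈ cocycles₁ (ad0 ρbar) := by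
  rw [mem_cocycles₁_iff]
  intro g h
  apply Subtype.ext
  show cocEnd ρbar b r (g * h) = ρbar.ρ g * cocEnd ρbar b r h * ρbar.ρ g⁻¹ + cocEnd ρbar b r g
  rw [cocEnd_mul ρbar b hred, add_comm]

theorem cocM_mul_of_eq_one {s : Γ} (hs : r s = 1) (g : Γ) : cocM r (g * s) = cocM r g := by
  have h1 : r (g * s) = r g := by rw [map_mul, hs, mul_one]
  have h2 : redM r (g * s)⁻¹ = redM r g⁻¹ := by
    have : r s⁻¹ = 1 := by
      have h3 : r s⁻¹ * r s = 1 := by rw [← map_mul, inv_mul_cancel, map_one]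
      rwa [hs, mul_one] at h3
    rw [mul_inv_rev, redM_apply, map_mul, this, one_mul, redM_apply]
  rw [cocM, h1, h2, cocM]

theorem isLevel₁_coc0 (T : Finset Nat.Primes)
    (hdet : ∀ σ, (r σ).det = TrivSqZeroExt.inl (redM r σ).det)
    {L : IntermediateField ℚ Qbar} (hL : L.IsUnramifiedOutside T)
    (htriv : ∀ s ∈ L.fixingSubgroup, r s = 1) :
    LevelCoh28.IsLevel₁ (LevelBridge13.globalSets T) (coc0 ρbar b hdet) := by
  refine ⟨L.fixingSubgroup, ⟨L, hL, rfl⟩, fun g s hs => ?_⟩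
  apply Subtype.ext
  show cocEnd ρbar b r (g * s) = cocEnd ρbar b r g
  rw [cocEnd, cocM_mul_of_eq_one (htriv s hs), cocEnd]

/-- **The level cocycle of a strict lift** of `rbarOf ρ̄ b` with constant determinant, trivial on
`Gal(ℚ̄/L)` with `L` unramified outside `T`. -/
def coc0Z (T : Finset Nat.Primes) (hred : redM r = rbarOf ρbar b)
    (hdet : ∀ σ, (r σ).det = TrivSqZeroExt.inl (redM r σ).det)
    {L : IntermediateField ℚ Qbar} (hL : L.IsUnramifiedOutside T)
    (htriv : ∀ s ∈ L.fixingSubgroup, r s = 1) :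
    ↥(LevelCoh28.Z1 (LevelBridge13.globalBasis T) (ad0 ρbar)) :=
  ⟨coc0 ρbar b hdet, coc0_mem_cocycles₁ ρbar b hred hdet, isLevel₁_coc0 ρbar b T hdet hL htriv⟩

theorem coe_coc0Z (T : Finset Nat.Primes) (hred : redM r = rbarOf ρbar b)
    (hdet : ∀ σ, (r σ).det = TrivSqZeroExt.inl (redM r σ).det)
    {L : IntermediateField ℚ Qbar} (hL : L.IsUnramifiedOutside T)
    (htriv : ∀ s ∈ L.fixingSubgroup, r s = 1) :
    ((coc0Z ρbar b T hred hdet hL htriv : ↥(LevelCoh28.Z1 (LevelBridge13.globalBasis T)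
      (ad0 ρbar))) : Γ → ad0 ρbar) = coc0 ρbar b hdet := rfl

end WithBasis

/-! ### The lift attached to a level cocycle -/

section LiftOf

variable {k : Type} [Field k] (ρbar : ResidualGaloisRep k) (b : Module.Basis (Fin 2) k ρbar.V)
  {T : Finset Nat.Primes} (c : ↥(LevelCoh28.Z1 (LevelBridge13.globalBasis T) (ad0 ρbar)))

/-- The value of a cocycle as an endomorphism of `V̄`. -/
def cEnd (σ : Γ) : Module.End k ρbar.V :=
  ((show ↥(sl ρbar) from (c : Γ → ad0 ρbar) σ) : Module.End k ρbar.V)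

theorem cEnd_mem_sl (σ : Γ) : cEnd ρbar c σ ∈ sl ρbar :=
  (show ↥(sl ρbar) from (c : Γ → ad0 ρbar) σ).2

theorem cEnd_mul (σ τ : Γ) :
    cEnd ρbar c (σ * τ) = ρbar.ρ σ * cEnd ρbar c τ * ρbar.ρ σ⁻¹ + cEnd ρbar c σ := by
  have h := (mem_cocycles₁_iff (A := ad0 ρbar) (c : Γ → ad0 ρbar)).1 c.2.1 σ τ
  exact congrArg (fun x : ↥(sl ρbar) => (x : Module.End k ρbar.V)) h

theorem cEnd_one : cEnd ρbar c 1 = 0 := by
  have h := cEnd_mul ρbar c 1 1
  rw [mul_one, inv_one, map_one, one_mul, mul_one] at h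
  exact left_eq_add.mp h

/-- The matrix of the value of a cocycle. -/
def cMat (σ : Γ) : M2 k := LinearMap.toMatrix b b (cEnd ρbar c σ)

theorem cMat_mul (σ τ : Γ) :
    cMat ρbar b c (σ * τ) =
      rbarOf ρbar b σ * cMat ρbar b c τ * rbarOf ρbar b σ⁻¹ + cMat ρbar b c σ := by
  rw [cMat, cEnd_mul, map_add, Module.End.mul_eq_comp, Module.End.mul_eq_comp,
    LinearMap.toMatrix_comp b b b, LinearMap.toMatrix_comp b b b]
  rfl

theorem rbarOf_inv_mul (σ : Γ) : rbarOf ρbar b σ⁻¹ * rbarOf ρbar b σ = 1 := by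
  rw [← map_mul, inv_mul_cancel, map_one]

/-- The matrix representation `σ ↦ (1 + ε c(σ)) ρ̄(σ)`. -/
def liftMat : Γ →* M2 (DualNumber k) where
  toFun σ := dn (rbarOf ρbar b σ) (cMat ρbar b c σ * rbarOf ρbar b σ)
  map_one' := by
    rw [cMat, cEnd_one, map_zero, zero_mul, map_one, dn_one]
  map_mul' σ τ := by
    rw [dn_mul, cMat_mul, map_mul]
    congr 1
    have e : rbarOf ρbar b σ * cMat ρbar b c τ * rbarOf ρbar b σ⁻¹ *
        (rbarOf ρbar b σ * rbarOf ρbar b τ) =
        rbarOf ρbar b σ * (cMat ρbar b c τ * rbarOf ρbar b τ) := by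
      simp only [mul_assoc]
      rw [← mul_assoc (rbarOf ρbar b σ⁻¹), rbarOf_inv_mul, one_mul]
    rw [add_mul, e, mul_assoc (cMat ρbar b c σ)]

theorem liftMat_apply (σ : Γ) :
    liftMat ρbar b c σ = dn (rbarOf ρbar b σ) (cMat ρbar b c σ * rbarOf ρbar b σ) := rfl

theorem redM_liftMat : redM (liftMat ρbar b c) = rbarOf ρbar b := by
  ext σ : 1
  rw [redM_apply, liftMat_apply, fstM_dn]

theorem rbarOf_mul_inv (σ : Γ) : rbarOf ρbar b σ * rbarOf ρbar b σ⁻¹ = 1 := by
  rw [← map_mul, mul_inv_cancel, map_one]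

theorem cocM_liftMat (σ : Γ) : cocM (liftMat ρbar b c) σ = cMat ρbar b c σ := by
  rw [cocM, redM_liftMat, liftMat_apply, sndM_dn, mul_assoc, rbarOf_mul_inv, mul_one]

theorem det_liftMat (σ : Γ) :
    (liftMat ρbar b c σ).det = TrivSqZeroExt.inl (redM (liftMat ρbar b c) σ).det := by
  have h0 : (cMat ρbar b c σ).trace = 0 := by
    rw [cMat, ← LinearMap.trace_eq_matrix_trace k b]
    exact (mem_sl_iff ρbar _).1 (cEnd_mem_sl ρbar c σ)
  rw [liftMat_apply, det_dn_mul, h0, mul_zero, TrivSqZeroExt.inr_zero, add_zero, redM_liftMat]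

/-- `liftMat` is trivial on an open subgroup of level `T` intersected with the kernel of `ρ̄`. -/
theorem exists_liftMat_eq_one :
    ∃ L : IntermediateField ℚ Qbar, L.IsUnramifiedOutside T ∧
      ∀ s ∈ L.fixingSubgroup, ρbar.ρ s = 1 → liftMat ρbar b c s = 1 := by
  obtain ⟨U, ⟨L, hL, rfl⟩, hinv⟩ := c.2.2
  refine ⟨L, hL, fun s hs hρ => ?_⟩
  have h1 : (c : Γ → ad0 ρbar) s = (c : Γ → ad0 ρbar) 1 := by
    have := hinv 1 s hs
    rwa [one_mul] at this
  have h2 : cEnd ρbar c s = 0 := by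
    rw [← cEnd_one ρbar c]
    exact congrArg (fun x : ↥(sl ρbar) => (x : Module.End k ρbar.V)) h1
  rw [liftMat_apply, cMat, h2, map_zero, zero_mul, matrixOfBasisRes_apply, hρ,
    LinearMap.toMatrix_one, dn_one]

theorem factors_liftMat : GaloisFactorsThroughFiniteLevel (liftMat ρbar b c) := by
  obtain ⟨L, hL, h⟩ := exists_liftMat_eq_one ρbar b c
  obtain ⟨F, hF, hF1⟩ := ρbar.factorsThroughFiniteLevel
  have := hL.1
  refine ⟨L ⊔ F, IntermediateField.finiteDimensional_sup L F, fun σ hσ => ?_⟩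
  have hσL : σ ∈ L.fixingSubgroup := by
    rw [IntermediateField.mem_fixingSubgroup_iff]
    exact fun x hx => hσ x (le_sup_left (a := L) (b := F) hx)
  exact h σ hσL (hF1 σ fun x hx => hσ x (le_sup_right (a := L) (b := F) hx))

theorem matCont_liftMat : MatCont (liftMat ρbar b c) :=
  matCont_of_factors (factors_liftMat ρbar b c)

/-- The cocycle of `liftMat b c` is `c`. -/
theorem coc0_liftMat : coc0 ρbar b (det_liftMat ρbar b c) = (c : Γ → ad0 ρbar) := by
  funext σ
  apply Subtype.ext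
  show cocEnd ρbar b (liftMat ρbar b c) σ = cEnd ρbar c σ
  rw [cocEnd, cocM_liftMat, cMat, Matrix.toLin_toMatrix]

/-- A fixed basis of `V̄`. -/
def stdB : Module.Basis (Fin 2) k ρbar.V := Module.finBasisOfFinrankEq k ρbar.V ρbar.finrank_eq

/-- **The lift of `ρ̄` to `k[ε]` attached to a level cocycle `c` with values in `ad⁰ρ̄`**:
`V = k[ε]²`, `ρ(σ) = (1 + ε c(σ)) ρ̄(σ)` in the basis `stdB ρ̄`. -/
def liftOf : GaloisRepAdic (DualNumber k) :=
  ofMatrix (liftMat ρbar (stdB ρbar) c) (matCont_liftMat ρbar (stdB ρbar) c)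

end LiftOf

/-! ### Cohomologous cocycles give equivalent lifts -/

section Equiv

variable {k : Type} [Field k] (ρbar : ResidualGaloisRep k) (b : Module.Basis (Fin 2) k ρbar.V)
  {r r' : Γ →* M2 (DualNumber k)}

theorem isEquiv_of_sub_mem_coboundaries (hr : MatCont r) (hr' : MatCont r')
    (hred : redM r = rbarOf ρbar b) (hred' : redM r' = rbarOf ρbar b)
    (hdet : ∀ σ, (r σ).det = TrivSqZeroExt.inl (redM r σ).det)
    (hdet' : ∀ σ, (r' σ).det = TrivSqZeroExt.inl (redM r' σ).det)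
    (h : coc0 ρbar b hdet - coc0 ρbar b hdet' ∈ coboundaries₁ (ad0 ρbar)) :
    (ofMatrix r hr).IsEquiv (ofMatrix r' hr') := by
  obtain ⟨X, hX⟩ := h
  let X' : ↥(sl ρbar) := X
  let Y : M2 k := LinearMap.toMatrix b b (X' : Module.End k ρbar.V)
  rw [MatrixModel.ofMatrix_isEquiv_iff]
  refine ⟨dn 1 Y, isUnit_dn_one Y, (conj_iff (hred.trans hred'.symm) Y).2 fun σ => ?_⟩
  have h1 := congrFun hX σ
  rw [d₀₁_hom_apply] at h1
  have h2 : ρbar.ρ σ * (X' : Module.End k ρbar.V) * ρbar.ρ σ⁻¹ - (X' : Module.End k ρbar.V) =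
      cocEnd ρbar b r σ - cocEnd ρbar b r' σ :=
    congrArg (fun x : ↥(sl ρbar) => (x : Module.End k ρbar.V)) h1
  have h3 := congrArg (LinearMap.toMatrix b b) h2
  rw [map_sub, map_sub, toMatrix_cocEnd, toMatrix_cocEnd, Module.End.mul_eq_comp,
    Module.End.mul_eq_comp, LinearMap.toMatrix_comp b b b, LinearMap.toMatrix_comp b b b] at h3
  have h4 : redM r σ * Y * redM r σ⁻¹ - Y = cocM r σ - cocM r' σ := by
    rw [hred]; exact h3
  have h5 : cocM r' σ = cocM r σ - (redM r σ * Y * redM r σ⁻¹ - Y) := by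
    rw [h4]; abel
  rw [h5]; abel

theorem isEquiv_of_H1mk_eq (T : Finset Nat.Primes) (hr : MatCont r) (hr' : MatCont r')
    (hred : redM r = rbarOf ρbar b) (hred' : redM r' = rbarOf ρbar b)
    (hdet : ∀ σ, (r σ).det = TrivSqZeroExt.inl (redM r σ).det)
    (hdet' : ∀ σ, (r' σ).det = TrivSqZeroExt.inl (redM r' σ).det)
    {L L' : IntermediateField ℚ Qbar} (hL : L.IsUnramifiedOutside T)
    (hL' : L'.IsUnramifiedOutside T) (htriv : ∀ s ∈ L.fixingSubgroup, r s = 1)
    (htriv' : ∀ s ∈ L'.fixingSubgroup, r' s = 1)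
    (h : LevelCoh28.H1mk (LevelBridge13.globalBasis T) (ad0 ρbar)
        (coc0Z ρbar b T hred hdet hL htriv) =
      LevelCoh28.H1mk (LevelBridge13.globalBasis T) (ad0 ρbar)
        (coc0Z ρbar b T hred' hdet' hL' htriv')) :
    (ofMatrix r hr).IsEquiv (ofMatrix r' hr') := by
  rw [← sub_eq_zero, ← map_sub, LevelCoh28.H1mk_eq_zero_iff] at h
  exact isEquiv_of_sub_mem_coboundaries ρbar b hr hr' hred hred' hdet hdet' h

end Equiv

end

end Fermat.Agent.W56.Lift9
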