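/-
Programme W56 (target S56), chapter (K-F)/(C1), helper8: **the wild inertia group** in the abstract
setting of `TameCyclic8` (`O` a valuation subring of `K` with a uniformiser, residue characteristic
`q`, `G` acting through `ρ` with finite image, trivially on the residue field).

* `exists_pow_eq_one` : an element of `ker χ` (the wild inertia group) acts through an element of
  `q`-power order;
* `chi_eq_one_of_val_lt`, `chi_eq_one_iff_val_lt` : `χ σ = 1 ↔ v(σ π / π - 1) < 1`;
* `not_dvd_card_range_chi` : the image of the tame character has order prime to `q`.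
-/
import Mathlib
import Fermat.Agent.W56.TameCyclic8

set_option autoImplicit false

namespace Fermat.Agent.W56.TameWild8

open ValuationSubring IsLocalRing Fermat.Agent.W56.TameCyclic8

variable {G K : Type*} [Group G] [Field K]
variable {O : ValuationSubring K} {ρ : G →* RingAut K} {π : K} {q : ℕ} (S : Setting O ρ π q)

include S

/-- **The wild inertia group acts through a `q`-group.** -/
theorem exists_pow_eq_one [Finite ρ.range] {σ : G} (hσ : chi S σ = 1) :
    ∃ a : ℕ, ρ (σ ^ q ^ a) = 1 := by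
  classical
  set g : ρ.range := ⟨ρ σ, σ, rfl⟩ with hg
  have hn0 : orderOf g ≠ 0 := (orderOf_pos g).ne'
  obtain ⟨a, n', hqn', hn⟩ := Nat.exists_eq_pow_mul_and_not_dvd hn0 q S.hq.ne_one
  have hpowg : ∀ m : ℕ, g ^ m = 1 ↔ ρ (σ ^ m) = 1 := by
    intro m
    rw [map_pow]
    constructor
    · intro h
      have := congrArg (fun z : ρ.range => (z : RingAut K)) h
      simpa [hg] using this
    · intro h
      apply Subtype.ext
      simpa [hg] using h
  by_cases hn1 : n' = 1
  · refine ⟨a, (hpowg _).1 ?_⟩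
    rw [← orderOf_dvd_iff_pow_eq_one, hn, hn1, mul_one]
  · exfalso
    obtain ⟨ℓ, hℓ, hℓn⟩ := Nat.exists_prime_and_dvd hn1
    have hℓq : ℓ ≠ q := fun h => hqn' (h ▸ hℓn)
    obtain ⟨m, hm⟩ := hℓn
    set τ : G := σ ^ (q ^ a * m) with hτ
    have hτχ : chi S τ = 1 := chi_pow_eq_one S hσ _
    have hτℓ : ρ (τ ^ ℓ) = 1 := by
      rw [hτ, ← pow_mul, ← hpowg, ← orderOf_dvd_iff_pow_eq_one, hn, hm]
      exact ⟨1, by ring⟩
    have hτ1 : ρ τ = 1 := eq_one_of_pow_prime S hτχ hℓ hℓq hτℓ
    rw [hτ, ← hpowg, ← orderOf_dvd_iff_pow_eq_one, hn, hm] at hτ1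
    have hm0 : m ≠ 0 := by
      intro h0
      rw [h0, mul_zero] at hm
      rw [hm, mul_zero] at hn
      exact hn0 hn
    have hqa : 0 < q ^ a := pow_pos S.hq.pos a
    have h3 : ℓ * m ∣ m := Nat.dvd_of_mul_dvd_mul_left hqa hτ1
    have h4 : ℓ * m ≤ m := Nat.le_of_dvd (Nat.pos_of_ne_zero hm0) h3
    have h5 : 2 * m ≤ ℓ * m := Nat.mul_le_mul_right m hℓ.two_le
    omega

theorem chi_eq_one_iff_val_lt (σ : G) : chi S σ = 1 ↔ O.valuation (ρ σ π / π - 1) < 1 := by
  rw [chi_eq_one_iff, mem_principalUnitGroup_iff, coe_rU]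
  rfl

/-- `χ σ = 1` iff `σ x / x ≡ 1` for all `x ≠ 0`. -/
theorem chi_eq_one_iff_forall (σ : G) :
    chi S σ = 1 ↔ ∀ x : K, x ≠ 0 → O.valuation (ρ σ x / x - 1) < 1 :=
  ⟨fun h _ hx => val_div_sub_one_lt S h hx, fun h => (chi_eq_one_iff_val_lt S σ).2 (h π S.hπ0)⟩

/-- The residue field has characteristic `q`. -/
theorem natCast_residue_eq_zero : ((q : ℕ) : ResidueField O) = 0 := by
  obtain ⟨h1, h2⟩ := (ValuationSubring.mem_nonunits_iff_exists_mem_maximalIdeal).1 S.hqO
  have h3 : residue O ⟨(q : K), h1⟩ = 0 := (residue_eq_zero_iff _).2 h2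
  have h4 : (⟨(q : K), h1⟩ : O) = ((q : ℕ) : O) := Subtype.ext (by simp)
  rw [h4, map_natCast] at h3
  exact h3

/-- **The image of the tame character has order prime to `q`.** -/
theorem not_dvd_card_range_chi [Finite ρ.range] : ¬ q ∣ Nat.card (chi S).range := by
  classical
  intro hdvd
  have hle' : ρ.ker ≤ (chi S).ker := fun σ hσ =>
    MonoidHom.mem_ker.2 (rho_eq_one_imp_chi S σ (MonoidHom.mem_ker.1 hσ))
  have : Finite (G ⧸ ρ.ker) :=
    Finite.of_equiv _ (QuotientGroup.quotientKerEquivRange ρ).symm.toEquiv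
  have : Finite (G ⧸ (chi S).ker) :=
    Finite.of_surjective (QuotientGroup.map ρ.ker (chi S).ker (MonoidHom.id G) hle')
      (fun x => by
        obtain ⟨g, rfl⟩ := QuotientGroup.mk_surjective x
        exact ⟨(g : G ⧸ ρ.ker), rfl⟩)
  have : Finite (chi S).range :=
    Finite.of_equiv _ (QuotientGroup.quotientKerEquivRange (chi S)).toEquiv
  have : Fact q.Prime := ⟨S.hq⟩
  obtain ⟨x, hx⟩ := exists_prime_orderOf_dvd_card' (G := (chi S).range) q hdvd
  have hxp : x ^ q = 1 := by
    have := pow_orderOf_eq_one x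
    rwa [hx] at this
  have hx1 : x ≠ 1 := by
    intro h
    rw [h, orderOf_one] at hx
    exact S.hq.one_lt.ne hx
  have hcp : CharP (ResidueField O) q :=
    (CharP.charP_iff_prime_eq_zero S.hq).2 (natCast_residue_eq_zero S)
  have h1 : (((x : (chi S).range) : (ResidueField O)ˣ) : ResidueField O) ^ q = 1 := by
    have := congrArg (fun z : (chi S).range => (((z : (ResidueField O)ˣ)) : ResidueField O)) hxp
    simpa using this
  have h2 : ((((x : (chi S).range) : (ResidueField O)ˣ) : ResidueField O) - 1) ^ q = 0 := by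
    rw [sub_pow_char, h1, one_pow, sub_self]
  have h3 := sub_eq_zero.1 (pow_eq_zero_iff S.hq.ne_zero |>.1 h2)
  exact hx1 (Subtype.ext (Units.ext h3))

end Fermat.Agent.W56.TameWild8
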