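/-
Programme W56 (target S56), chapter (K-F), helper8 (delegation B of helper3): **the structure of
`ρ̄` on the inertia group at `p` when all characteristic polynomials split over `k`.**

`k` a finite field of characteristic `p`, `A` a place of `ℚ̄` over `p`, `I = A.inertiaSubgroupIn ℚ`,
`rhoI ρ̄ A : I →* (End_k V̄)ˣ`.  Exactly one of:

* (T) `tame_case` : `p ∤ #ρ̄(I)`; then `ρ̄|I` is diagonal in a basis `b` (two characters `ω₁, ω₂`),
  and if `ω₁ ≠ ω₂` a Frobenius `φ` at `A` is diagonal or anti-diagonal in `b`;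
* (W) `wild_case` : `p ∣ #ρ̄(I)`; then in a basis `b` the decomposition group is upper triangular
  and some `τ ∈ I` is a non-trivial unipotent `(1 x; 0 1)`.
-/
import Mathlib
import Fermat.Agent.W56.TameInertia8
import Fermat.Agent.W56.TameWild8
import Fermat.Agent.W56.Lift9
import Fermat.Agent.W56.Lin2Dim5
import Fermat.Agent.W56.TwH0Bound8
import Fermat.Agent.W56.FrobGen8
import Fermat.Agent.ES.FROB.FrobFacts12

set_option autoImplicit false

open Polynomial

namespace Fermat.Agent.W56.TameDich8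

open Fermat.Agent.W56.TameInertia8 Fermat.Agent.W56.Lift9 Fermat.Agent.W56.Defs9
  Fermat.Agent.S53.MatrixModel

open Fermat.Agent.S53 hiding GQ

/-! ### Linear algebra -/

section LinAlg

variable {k : Type} [Field k] {V : Type} [AddCommGroup V] [Module k V]

/-- `(α + N)^m = α^m + m α^(m-1) N` when `N² = 0`. -/
theorem add_nilp_pow (α : k) (N : Module.End k V) (hN : N * N = 0) (m : ℕ) :
    (α • (1 : Module.End k V) + N) ^ m = (α ^ m) • (1 : Module.End k V) + ((m : k) * α ^ (m - 1)) • N := by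
  induction m with
  | zero => simp
  | succ m ih =>
    rw [pow_succ, ih]
    rcases Nat.eq_zero_or_pos m with h0 | hpos
    · subst h0
      simp
    · have e1 : α ^ (m + 1 - 1) = α ^ (m - 1) * α := by
        rw [Nat.add_sub_cancel, ← pow_succ, Nat.sub_add_cancel hpos]
      have e2 : α ^ m = α ^ (m - 1) * α := by
        rw [← pow_succ, Nat.sub_add_cancel hpos]
      rw [e1]
      simp only [add_mul, mul_add, smul_mul_assoc, mul_smul_comm, one_mul, mul_one, hN, smul_zero,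
        add_zero, smul_smul, smul_add]
      rw [pow_succ, e2]
      push_cast
      module

/-- An endomorphism of a plane of finite order prime to the characteristic, whose characteristic
polynomial splits, is diagonalisable. -/
theorem exists_diag_basis [Module.Finite k V] (hV : Module.finrank k V = 2) (g : Module.End k V)
    {α β : k} (hch : LinearMap.charpoly g = (X - C α) * (X - C β)) {n : ℕ} (hn : (n : k) ≠ 0)
    (hgn : g ^ n = 1) :
    ∃ (b : Module.Basis (Fin 2) k V) (a₀ a₁ : k), g (b 0) = a₀ • b 0 ∧ g (b 1) = a₁ • b 1 := by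
  by_cases hαβ : α = β
  · subst hαβ
    set N : Module.End k V := g - α • 1 with hNdef
    have hNN : N * N = 0 := by
      have h1 := LinearMap.aeval_self_charpoly g
      rw [hch, map_mul, map_sub, aeval_X, aeval_C] at h1
      rw [hNdef, ← Algebra.algebraMap_eq_smul_one]
      exact h1
    have hg : g = α • 1 + N := by rw [hNdef]; abel
    have h2 := add_nilp_pow α N hNN n
    rw [← hg, hgn] at h2
    have hn0 : n ≠ 0 := fun h => hn (by rw [h, Nat.cast_zero])
    have hN0 : N = 0 := by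
      have h3 : ((n : k) * α ^ (n - 1)) • N = (1 - α ^ n) • (1 : Module.End k V) := by
        rw [sub_smul, one_smul, eq_sub_iff_add_eq, add_comm]
        exact h2.symm
      by_cases h4 : α ^ n = 1
      · rw [h4, sub_self, zero_smul] at h3
        have hα0 : α ≠ 0 := by
          rintro rfl
          rw [zero_pow hn0] at h4
          exact zero_ne_one h4
        exact (smul_eq_zero.1 h3).resolve_left (mul_ne_zero hn (pow_ne_zero _ hα0))
      · have h5 : (1 - α ^ n) • N = 0 := by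
          have h6 := congrArg (fun X : Module.End k V => X * N) h3
          simp only [smul_mul_assoc, hNN, smul_zero, one_mul] at h6
          exact h6.symm
        exact (smul_eq_zero.1 h5).resolve_left (sub_ne_zero.2 (Ne.symm h4))
    refine ⟨Module.finBasisOfFinrankEq k V hV, α, α, ?_, ?_⟩ <;>
    · rw [hg, hN0, add_zero, LinearMap.smul_apply, Module.End.one_apply]
  · obtain ⟨b, h0, h1⟩ := Fermat.Agent.W56.TwH0Bound8.exists_eigenbasis hV g hαβ hch
    exact ⟨b, α, β, h0, h1⟩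

/-- Powers of a diagonal endomorphism are diagonal. -/
theorem pow_apply_of_eigen (g : Module.End k V) {v : V} {a : k} (h : g v = a • v) (j : ℕ) :
    (g ^ j) v = a ^ j • v := by
  induction j with
  | zero => simp
  | succ j ih => rw [pow_succ, Module.End.mul_apply, h, map_smul, ih, smul_smul, pow_succ, mul_comm]

end LinAlg

/-! ### `ρ̄` with values in the units, on the inertia group -/

section Rho

variable {k : Type} [Field k] (ρbar : ResidualGaloisRep k)

/-- `ρ̄` with values in the units of `End_k V̄`. -/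
noncomputable def rhoU : GQ →* (Module.End k ρbar.V)ˣ := ρbar.ρ.toHomUnits

theorem coe_rhoU (σ : GQ) :
    ((rhoU ρbar σ : (Module.End k ρbar.V)ˣ) : Module.End k ρbar.V) = ρbar.ρ σ := rfl

/-- `ρ̄` on the inertia group of `A`. -/
noncomputable def rhoI (A : ValuationSubring Qb) :
    ↥(A.inertiaSubgroupIn ℚ) →* (Module.End k ρbar.V)ˣ :=
  (rhoU ρbar).comp (Subgroup.subtype _)

theorem coe_rhoI (A : ValuationSubring Qb) (s : ↥(A.inertiaSubgroupIn ℚ)) :
    ((rhoI ρbar A s : (Module.End k ρbar.V)ˣ) : Module.End k ρbar.V) = ρbar.ρ (s : GQ) := rfl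

instance [Finite k] : Finite (Module.End k ρbar.V) := Module.finite_of_finite k

/-- A finite level of `ρ̄`, seen from the inertia group. -/
theorem exists_level (A : ValuationSubring Qb) :
    ∃ L : IntermediateField ℚ Qb, FiniteDimensional ℚ L ∧
      ∀ σ : ↥(A.inertiaSubgroupIn ℚ), (∀ x ∈ L, (σ : GQ) x = x) → rhoI ρbar A σ = 1 := by
  obtain ⟨L, hL, hρ⟩ := ρbar.factorsThroughFiniteLevel
  exact ⟨L, hL, fun σ hσ => Units.ext (hρ (σ : GQ) hσ)⟩

variable {ρbar}

theorem rbarOf_apply (b : Module.Basis (Fin 2) k ρbar.V) (σ : GQ) (i j : Fin 2) :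
    rbarOf ρbar b σ i j = b.repr (ρbar.ρ σ (b j)) i := by
  rw [matrixOfBasisRes_apply, LinearMap.toMatrix_apply]

end Rho

/-! ### The tame case -/

section Tame

variable {k : Type} [Field k] [Finite k] {ρbar : ResidualGaloisRep k} (p : ℕ) [Fact p.Prime]
  [CharP k p]

/-- **(T)** If `p ∤ #ρ̄(I)`, then `ρ̄|I` is diagonal in a suitable basis. -/
theorem exists_diagonal_basis
    (hsplit : ∀ σ : GQ, ∃ α β : k, LinearMap.charpoly (ρbar.ρ σ) = (X - C α) * (X - C β))
    {A : ValuationSubring Qb} (hA : A.LiesOverPrime p)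
    (hT : ¬ p ∣ Nat.card ↥(rhoI ρbar A).range) :
    ∃ (b : Module.Basis (Fin 2) k ρbar.V), ∀ (s : ↥(A.inertiaSubgroupIn ℚ)) (i : Fin 2),
      ∃ c : k, ρbar.ρ (s : GQ) (b i) = c • b i := by
  classical
  have hp : p.Prime := Fact.out
  obtain ⟨L, hL, hf⟩ := exists_level ρbar A
  -- no `p`-power torsion in the image
  have hH : ∀ (σ : ↥(A.inertiaSubgroupIn ℚ)) (a : ℕ), rhoI ρbar A σ ^ p ^ a = 1 →
      rhoI ρbar A σ = 1 := by
    intro σ a hσ
    set y : (rhoI ρbar A).range := ⟨rhoI ρbar A σ, σ, rfl⟩ with hy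
    have hy1 : y ^ p ^ a = 1 := Subtype.ext (by simpa [hy] using hσ)
    have h1 : orderOf y ∣ p ^ a := orderOf_dvd_of_pow_eq_one hy1
    have h2 : orderOf y ∣ Nat.card ↥(rhoI ρbar A).range := orderOf_dvd_natCard y
    obtain ⟨j, -, hj⟩ := (Nat.dvd_prime_pow hp).1 h1
    have hj0 : j = 0 := by
      by_contra hne
      apply hT
      refine dvd_trans ?_ h2
      rw [hj]
      exact dvd_pow_self p hne
    rw [hj0, pow_zero, orderOf_eq_one_iff] at hj
    exact congrArg Subtype.val hj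
  have hcyc := isCyclic_range_of_inertia hp hA (rhoI ρbar A) L hf hH
  obtain ⟨⟨g₀, s₀, rfl⟩, hgen⟩ := hcyc.exists_generator
  -- diagonalise `ρ̄ s₀`
  obtain ⟨α, β, hch⟩ := hsplit (s₀ : GQ)
  set y₀ : (rhoI ρbar A).range := ⟨rhoI ρbar A s₀, s₀, rfl⟩ with hy₀
  set n := orderOf y₀ with hn
  have hn0 : (n : k) ≠ 0 := by
    rw [Ne, CharP.cast_eq_zero_iff k p]
    intro hpn
    exact hT (dvd_trans hpn (orderOf_dvd_natCard y₀))
  have hgn : ρbar.ρ (s₀ : GQ) ^ n = 1 := by
    have h1 : y₀ ^ n = 1 := pow_orderOf_eq_one y₀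
    have h2 := congrArg (fun z : (rhoI ρbar A).range =>
      ((z : (Module.End k ρbar.V)ˣ) : Module.End k ρbar.V)) h1
    simpa [hy₀, coe_rhoI] using h2
  obtain ⟨b, a₀, a₁, hb0, hb1⟩ := exists_diag_basis ρbar.finrank_eq (ρbar.ρ (s₀ : GQ)) hch hn0 hgn
  refine ⟨b, fun s i => ?_⟩
  -- `ρ̄ s` is a power of `ρ̄ s₀`
  have hs := hgen ⟨rhoI ρbar A s, s, rfl⟩
  rw [← mem_powers_iff_mem_zpowers] at hs
  obtain ⟨j, hj⟩ := hs
  have hj' : ρbar.ρ (s : GQ) = ρbar.ρ (s₀ : GQ) ^ j := by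
    have h2 := congrArg (fun z : (rhoI ρbar A).range =>
      ((z : (Module.End k ρbar.V)ˣ) : Module.End k ρbar.V)) hj
    simpa [hy₀, coe_rhoI] using h2.symm
  fin_cases i
  · exact ⟨a₀ ^ j, by rw [hj']; exact pow_apply_of_eigen _ hb0 j⟩
  · exact ⟨a₁ ^ j, by rw [hj']; exact pow_apply_of_eigen _ hb1 j⟩

end Tame

/-! ### The diagonal characters and the Frobenius -/

section Chars

variable {k : Type} [Field k] {ρbar : ResidualGaloisRep k} {A : ValuationSubring Qb}
  (b : Module.Basis (Fin 2) k ρbar.V)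
  (h : ∀ (s : ↥(A.inertiaSubgroupIn ℚ)) (i : Fin 2), ∃ c : k, ρbar.ρ (s : GQ) (b i) = c • b i)

include h in
theorem apply_eq_repr_smul (s : ↥(A.inertiaSubgroupIn ℚ)) (i : Fin 2) :
    ρbar.ρ (s : GQ) (b i) = b.repr (ρbar.ρ (s : GQ) (b i)) i • b i := by
  obtain ⟨c, hc⟩ := h s i
  rw [hc, map_smul, Module.Basis.repr_self, Finsupp.smul_apply, Finsupp.single_eq_same,
    smul_eq_mul, mul_one]

/-- The character by which the inertia group acts on the `i`-th basis vector. -/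
noncomputable def eigChar (i : Fin 2) : ↥(A.inertiaSubgroupIn ℚ) →* kˣ :=
  MonoidHom.toHomUnits
    { toFun := fun s => b.repr (ρbar.ρ (s : GQ) (b i)) i
      map_one' := by
        show b.repr (ρbar.ρ ((1 : ↥(A.inertiaSubgroupIn ℚ)) : GQ) (b i)) i = 1
        rw [Subgroup.coe_one, map_one, Module.End.one_apply, Module.Basis.repr_self,
          Finsupp.single_eq_same]
      map_mul' := fun s t => by
        show b.repr (ρbar.ρ ((s * t : ↥(A.inertiaSubgroupIn ℚ)) : GQ) (b i)) i =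
          b.repr (ρbar.ρ (s : GQ) (b i)) i * b.repr (ρbar.ρ (t : GQ) (b i)) i
        rw [Subgroup.coe_mul, map_mul, Module.End.mul_apply, apply_eq_repr_smul b h t i, map_smul,
          apply_eq_repr_smul b h s i, smul_smul, map_smul, Module.Basis.repr_self,
          Finsupp.smul_apply, Finsupp.single_eq_same, smul_eq_mul, mul_one, map_smul,
          Module.Basis.repr_self, Finsupp.smul_apply, Finsupp.single_eq_same, smul_eq_mul, mul_one,
          map_smul, Module.Basis.repr_self, Finsupp.smul_apply, Finsupp.single_eq_same, smul_eq_mul,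
          mul_one, mul_comm] }

theorem coe_eigChar (i : Fin 2) (s : ↥(A.inertiaSubgroupIn ℚ)) :
    ((eigChar b h i s : kˣ) : k) = b.repr (ρbar.ρ (s : GQ) (b i)) i := rfl

theorem eigChar_spec (i : Fin 2) (s : ↥(A.inertiaSubgroupIn ℚ)) :
    ρbar.ρ (s : GQ) (b i) = ((eigChar b h i s : kˣ) : k) • b i := by
  rw [coe_eigChar]
  exact apply_eq_repr_smul b h s i

theorem rbarOf_eq_diagonal (s : ↥(A.inertiaSubgroupIn ℚ)) :
    rbarOf ρbar b (s : GQ) =
      Matrix.diagonal ![((eigChar b h 0 s : kˣ) : k), ((eigChar b h 1 s : kˣ) : k)] := by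
  ext i j
  rw [rbarOf_apply, eigChar_spec b h j s, map_smul, Module.Basis.repr_self, Finsupp.smul_apply,
    smul_eq_mul, Matrix.diagonal_apply]
  fin_cases i <;> fin_cases j <;> simp

/-- If the two characters differ, an element normalising the inertia group is diagonal or
anti-diagonal. -/
theorem diag_or_antidiag {φ : GQ}
    (hφ : ∀ s ∈ A.inertiaSubgroupIn ℚ, φ⁻¹ * s * φ ∈ A.inertiaSubgroupIn ℚ)
    (hne : ∃ s, eigChar b h 0 s ≠ eigChar b h 1 s) :
    ∃ u v : k, u ≠ 0 ∧ v ≠ 0 ∧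
      (rbarOf ρbar b φ = !![0, u; v, 0] ∨ rbarOf ρbar b φ = !![u, 0; 0, v]) := by
  obtain ⟨s, hs⟩ := hne
  have hs' : ((eigChar b h 0 s : kˣ) : k) ≠ ((eigChar b h 1 s : kˣ) : k) :=
    fun h' => hs (Units.ext h')
  set t : ↥(A.inertiaSubgroupIn ℚ) := ⟨φ⁻¹ * (s : GQ) * φ, hφ _ s.2⟩ with ht
  -- `ρ̄ s ∘ ρ̄ φ = ρ̄ φ ∘ ρ̄ t`
  have hcomm : ρbar.ρ (s : GQ) * ρbar.ρ φ = ρbar.ρ φ * ρbar.ρ (t : GQ) := by
    rw [← map_mul, ← map_mul, ht]
    congr 1
    group
  -- the columns of `ρ̄ φ` are eigenvectors of `ρ̄ s`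
  have hcol : ∀ j : Fin 2, ρbar.ρ (s : GQ) (ρbar.ρ φ (b j)) =
      ((eigChar b h j t : kˣ) : k) • ρbar.ρ φ (b j) := by
    intro j
    rw [← Module.End.mul_apply, hcomm, Module.End.mul_apply, eigChar_spec b h j t, map_smul]
  -- hence one of the two coordinates of each column vanishes
  have hzero : ∀ j : Fin 2, rbarOf ρbar b φ 0 j = 0 ∨ rbarOf ρbar b φ 1 j = 0 := by
    intro j
    by_contra hcon
    push Not at hcon
    obtain ⟨h0, h1⟩ := hcon
    have hw : ρbar.ρ φ (b j) = rbarOf ρbar b φ 0 j • b 0 + rbarOf ρbar b φ 1 j • b 1 := by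
      conv_lhs => rw [← b.sum_repr (ρbar.ρ φ (b j))]
      rw [Fin.sum_univ_two, rbarOf_apply, rbarOf_apply]
    have h2 := hcol j
    rw [hw, map_add, map_smul, map_smul, eigChar_spec b h 0 s, eigChar_spec b h 1 s] at h2
    have h3 := congrArg (fun w => b.repr w 0) h2
    have h4 := congrArg (fun w => b.repr w 1) h2
    simp only [map_add, map_smul, Module.Basis.repr_self, Finsupp.smul_apply, Finsupp.add_apply,
      Finsupp.single_eq_same, smul_eq_mul, mul_one, smul_add] at h3 h4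
    have e10 : (Finsupp.single (1 : Fin 2) (1 : k)) 0 = 0 := by
      rw [Finsupp.single_apply]; simp
    have e01 : (Finsupp.single (0 : Fin 2) (1 : k)) 1 = 0 := by
      rw [Finsupp.single_apply]; simp
    rw [e10] at h3
    rw [e01] at h4
    simp only [mul_zero, add_zero, zero_add] at h3 h4
    apply hs'
    have h5 : ((eigChar b h 0 s : kˣ) : k) = ((eigChar b h j t : kˣ) : k) :=
      mul_left_cancel₀ h0 (by linear_combination h3)
    have h6 : ((eigChar b h 1 s : kˣ) : k) = ((eigChar b h j t : kˣ) : k) :=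
      mul_left_cancel₀ h1 (by linear_combination h4)
    rw [h5, h6]
  -- the determinant is non-zero
  have hdet : (rbarOf ρbar b φ).det ≠ 0 := by
    have h1 : rbarOf ρbar b φ * rbarOf ρbar b φ⁻¹ = 1 := by
      rw [← map_mul, mul_inv_cancel, map_one]
    intro h0
    have := congrArg Matrix.det h1
    rw [Matrix.det_mul, h0, zero_mul, Matrix.det_one] at this
    exact zero_ne_one this
  rw [Matrix.det_fin_two] at hdet
  have hM : rbarOf ρbar b φ = !![rbarOf ρbar b φ 0 0, rbarOf ρbar b φ 0 1;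
      rbarOf ρbar b φ 1 0, rbarOf ρbar b φ 1 1] := by
    ext i j
    fin_cases i <;> fin_cases j <;> rfl
  rcases hzero 0 with h00 | h10
  · -- anti-diagonal
    have h10 : rbarOf ρbar b φ 1 0 ≠ 0 := fun h' => hdet (by rw [h00, h']; ring)
    have h01 : rbarOf ρbar b φ 0 1 ≠ 0 := fun h' => hdet (by rw [h00, h']; ring)
    have h11 : rbarOf ρbar b φ 1 1 = 0 := (hzero 1).resolve_left h01
    refine ⟨rbarOf ρbar b φ 0 1, rbarOf ρbar b φ 1 0, h01, h10, Or.inl ?_⟩
    ext i j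
    fin_cases i <;> fin_cases j <;> simp [h00, h11]
  · -- diagonal
    have h00 : rbarOf ρbar b φ 0 0 ≠ 0 := fun h' => hdet (by rw [h10, h']; ring)
    have h11 : rbarOf ρbar b φ 1 1 ≠ 0 := fun h' => hdet (by rw [h10, h']; ring)
    have h01 : rbarOf ρbar b φ 0 1 = 0 := (hzero 1).resolve_right h11
    refine ⟨rbarOf ρbar b φ 0 0, rbarOf ρbar b φ 1 1, h00, h11, Or.inr ?_⟩
    ext i j
    fin_cases i <;> fin_cases j <;> simp [h10, h01]

end Chars

/-! ### The dichotomy -/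

section Main

variable {k : Type} [Field k] [Finite k] {ρbar : ResidualGaloisRep k} (p : ℕ) [Fact p.Prime]
  [CharP k p]

/-- **(T) the tame case.** -/
theorem tame_case
    (hsplit : ∀ σ : GQ, ∃ α β : k, LinearMap.charpoly (ρbar.ρ σ) = (X - C α) * (X - C β))
    {A : ValuationSubring Qb} (hA : A.LiesOverPrime p) {φ : GQ} (hφ : A.IsFrobeniusAt φ p)
    (hT : ¬ p ∣ Nat.card ↥(rhoI ρbar A).range) :
    ∃ (b : Module.Basis (Fin 2) k ρbar.V) (ω₁ ω₂ : ↥(A.inertiaSubgroupIn ℚ) →* kˣ),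
      (∀ s : ↥(A.inertiaSubgroupIn ℚ),
        rbarOf ρbar b (s : GQ) = Matrix.diagonal ![((ω₁ s : kˣ) : k), ((ω₂ s : kˣ) : k)]) ∧
      ((∃ s, ω₁ s ≠ ω₂ s) → ∃ u v : k, u ≠ 0 ∧ v ≠ 0 ∧
        (rbarOf ρbar b φ = !![0, u; v, 0] ∨ rbarOf ρbar b φ = !![u, 0; 0, v])) := by
  obtain ⟨b, hb⟩ := exists_diagonal_basis p hsplit hA hT
  refine ⟨b, eigChar b hb 0, eigChar b hb 1, rbarOf_eq_diagonal b hb,
    fun hne => diag_or_antidiag b hb (fun s hs => ?_) hne⟩
  have := Fermat.Agent.ES.FROB.FrobFacts12.conj_mem_inertiaSubgroupIn A (σ0 := φ⁻¹)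
    (inv_mem hφ.mem_decompositionSubgroup) hs
  simpa using this

/-- Powers of an upper triangular `2 × 2` matrix. -/
theorem pow_upper {R : Type*} [CommRing R] (M : Matrix (Fin 2) (Fin 2) R) (h10 : M 1 0 = 0)
    (m : ℕ) : (M ^ m) 1 0 = 0 ∧ (M ^ m) 1 1 = M 1 1 ^ m := by
  induction m with
  | zero => simp
  | succ m ih =>
    rw [pow_succ, Matrix.mul_apply, Matrix.mul_apply, Fin.sum_univ_two, Fin.sum_univ_two, ih.1,
      ih.2, h10]
    constructor
    · ring
    · ring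

/-- **(W) the wild case.** -/
theorem wild_case {A : ValuationSubring Qb} (hA : A.LiesOverPrime p)
    (hW : p ∣ Nat.card ↥(rhoI ρbar A).range) :
    ∃ b : Module.Basis (Fin 2) k ρbar.V,
      (∀ σ ∈ A.decompositionSubgroup ℚ, rbarOf ρbar b σ 1 0 = 0) ∧
      ∃ τ ∈ A.inertiaSubgroupIn ℚ, rbarOf ρbar b τ 0 0 = 1 ∧ rbarOf ρbar b τ 1 1 = 1 ∧
        rbarOf ρbar b τ 0 1 ≠ 0 := by
  classical
  have hp : p.Prime := Fact.out
  obtain ⟨L, hL, hf⟩ := exists_level ρbar A
  set K : IntermediateField ℚ Qb := IntermediateField.normalClosure ℚ L Qb with hK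
  have hN := normal_Qb
  have : FiniteDimensional ℚ K := by rw [hK]; infer_instance
  have : Normal ℚ K := by rw [hK]; exact normalClosure.normal ℚ L Qb
  obtain ⟨π, S⟩ := exists_setting (A := A) (K := K) hp hA
  -- elements acting trivially on `K` are killed by `ρ̄`
  have hker : ∀ σ : ↥(A.inertiaSubgroupIn ℚ), rhoK A K σ = 1 → rhoI ρbar A σ = 1 := by
    intro σ hσ
    refine hf σ fun x hx => ?_
    have hxK : x ∈ K := IntermediateField.le_normalClosure L hx
    have h1 := coe_rhoK_apply A K σ ⟨x, hxK⟩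
    rw [hσ] at h1
    exact h1.symm
  -- the wild inertia group acts through a `p`-group
  have hP : ∀ σ : ↥(A.inertiaSubgroupIn ℚ), TameCyclic8.chi S σ = 1 →
      ∃ a : ℕ, ρbar.ρ (σ : GQ) ^ p ^ a = 1 := by
    intro σ hσ
    obtain ⟨a, ha⟩ := TameWild8.exists_pow_eq_one S hσ
    refine ⟨a, ?_⟩
    have h1 := hker _ ha
    rw [map_pow] at h1
    have h2 := congrArg (fun z : (Module.End k ρbar.V)ˣ => (z : Module.End k ρbar.V)) h1
    simpa [coe_rhoI] using h2
  -- some wild element acts non-trivially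
  have hτ : ∃ τ : ↥(A.inertiaSubgroupIn ℚ), TameCyclic8.chi S τ = 1 ∧ ρbar.ρ (τ : GQ) ≠ 1 := by
    by_contra hcon
    push Not at hcon
    have hle : (TameCyclic8.chi S).ker ≤ (rhoI ρbar A).ker := fun σ hσ =>
      MonoidHom.mem_ker.2 (Units.ext (hcon σ (MonoidHom.mem_ker.1 hσ)))
    have h1 := Subgroup.index_dvd_of_le hle
    rw [Subgroup.index_ker, Subgroup.index_ker] at h1
    exact TameWild8.not_dvd_card_range_chi S (dvd_trans hW h1)
  obtain ⟨τ, hτχ, hτ1⟩ := hτ
  -- the wild inertia group is normalised by the decomposition group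
  have hnorm : ∀ δ ∈ A.decompositionSubgroup ℚ, ∀ σ : ↥(A.inertiaSubgroupIn ℚ),
      TameCyclic8.chi S σ = 1 → ∀ hmem : δ⁻¹ * (σ : GQ) * δ ∈ A.inertiaSubgroupIn ℚ,
        TameCyclic8.chi S ⟨δ⁻¹ * (σ : GQ) * δ, hmem⟩ = 1 := by
    intro δ hδ σ hσ hmem
    rw [TameWild8.chi_eq_one_iff_forall]
    intro x hx
    rw [← (OK A K).mem_nonunits_iff, mem_nonunits_OK_iff]
    -- `x' = δ x ∈ K`
    set x' : K := AlgEquiv.restrictNormal δ K x with hx'
    have hx'c : ((x' : K) : Qb) = δ (x : Qb) := AlgEquiv.restrictNormal_commutes δ K x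
    have hx'0 : x' ≠ 0 := (map_ne_zero_iff _ (AlgEquiv.restrictNormal δ K).injective).2 hx
    have h1 := (TameWild8.chi_eq_one_iff_forall S σ).1 hσ x' hx'0
    rw [← (OK A K).mem_nonunits_iff, mem_nonunits_OK_iff] at h1
    have hδ' : δ⁻¹ ∈ A.decompositionSubgroup ℚ := inv_mem hδ
    have h2 := (Fermat.Agent.W56.FrobGen8.apply_mem_nonunits_iff hδ' _).2 h1
    have hxQ : (x : Qb) ≠ 0 := fun h => hx (by exact_mod_cast h)
    have h3 : (((rhoK A K ⟨δ⁻¹ * (σ : GQ) * δ, hmem⟩ x / x - 1 : K)) : Qb) =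
        δ⁻¹ (((rhoK A K σ x' / x' - 1 : K)) : Qb) := by
      push_cast
      rw [coe_rhoK_apply, coe_rhoK_apply, hx'c, map_sub, map_div₀, map_one]
      show (δ⁻¹ * (σ : GQ) * δ) (x : Qb) / (x : Qb) - 1 = _
      rw [AlgEquiv.mul_apply, AlgEquiv.mul_apply]
      congr 2
      show (x : Qb) = δ⁻¹ (δ (x : Qb))
      rw [← AlgEquiv.mul_apply, inv_mul_cancel, AlgEquiv.one_apply]
    rw [h3]
    exact h2
  -- the fixed vectors of the wild inertia group
  let W : Submodule k ρbar.V :=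
    { carrier := {v | ∀ σ : ↥(A.inertiaSubgroupIn ℚ), TameCyclic8.chi S σ = 1 →
        ρbar.ρ (σ : GQ) v = v}
      add_mem' := fun {v w} hv hw σ hσ => by rw [map_add, hv σ hσ, hw σ hσ]
      zero_mem' := fun σ _ => map_zero _
      smul_mem' := fun c v hv σ hσ => by rw [map_smul, hv σ hσ] }
  have hWmem : ∀ v, v ∈ W ↔ ∀ σ : ↥(A.inertiaSubgroupIn ℚ), TameCyclic8.chi S σ = 1 →
      ρbar.ρ (σ : GQ) v = v := fun v => Iff.rfl
  -- `W` is stable under the decomposition group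
  have hWD : ∀ δ ∈ A.decompositionSubgroup ℚ, ∀ v ∈ W, ρbar.ρ δ v ∈ W := by
    intro δ hδ v hv σ hσ
    have hmem : δ⁻¹ * (σ : GQ) * δ ∈ A.inertiaSubgroupIn ℚ := by
      have := Fermat.Agent.ES.FROB.FrobFacts12.conj_mem_inertiaSubgroupIn A (σ0 := δ⁻¹)
        (inv_mem hδ) σ.2
      simpa using this
    have h1 := hv ⟨δ⁻¹ * (σ : GQ) * δ, hmem⟩ (hnorm δ hδ σ hσ hmem)
    have h2 : ρbar.ρ (σ : GQ) * ρbar.ρ δ = ρbar.ρ δ * ρbar.ρ (δ⁻¹ * (σ : GQ) * δ) := by
      rw [← map_mul, ← map_mul]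
      congr 1
      group
    rw [← Module.End.mul_apply, h2, Module.End.mul_apply]
    exact congrArg _ h1
  -- a non-zero fixed vector: the `p`-group fixed point theorem
  have hW0 : ∃ v ∈ W, v ≠ 0 := by
    set Q : Subgroup (Module.End k ρbar.V)ˣ :=
      Subgroup.map (rhoI ρbar A) (TameCyclic8.chi S).ker with hQ
    have hQp : IsPGroup p ↥Q := by
      rintro ⟨g, σ, hσ, rfl⟩
      obtain ⟨a, ha⟩ := hP σ (MonoidHom.mem_ker.1 hσ)
      refine ⟨a, Subtype.ext (Units.ext ?_)⟩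
      simpa [coe_rhoI] using ha
    have : Finite ρbar.V := Module.finite_of_finite k
    have hcard : p ∣ Nat.card ρbar.V := by
      rw [Module.natCard_eq_pow_finrank (K := k) (V := ρbar.V), ρbar.finrank_eq]
      have h1 : p ∣ Nat.card k := by
        have h2 := addOrderOf_dvd_natCard (1 : k)
        have h3 : addOrderOf (1 : k) = p :=
          CharP.eq k (CharP.addOrderOf_one k) (inferInstance : CharP k p)
        rwa [h3] at h2
      exact dvd_pow h1 two_ne_zero
    have h0 : (0 : ρbar.V) ∈ MulAction.fixedPoints ↥Q ρbar.V := fun g => by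
      show ((g : (Module.End k ρbar.V)ˣ) : Module.End k ρbar.V) 0 = 0
      exact map_zero _
    obtain ⟨v, hv, hv0⟩ := hQp.exists_fixed_point_of_prime_dvd_card_of_fixed_point ρbar.V hcard h0
    refine ⟨v, fun σ hσ => ?_, fun h => hv0 h.symm⟩
    exact hv ⟨rhoI ρbar A σ, σ, MonoidHom.mem_ker.2 hσ, rfl⟩
  obtain ⟨v₀, hv₀W, hv₀⟩ := hW0
  obtain ⟨b, hb0⟩ := Fermat.Agent.W56.Lin2Dim5.exists_basis_fst ρbar.finrank_eq v₀ hv₀
  have hb0W : b 0 ∈ W := hb0 ▸ hv₀W
  -- `W` is the line spanned by `b 0`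
  have hWline : ∀ w ∈ W, b.repr w 1 = 0 := by
    intro w hw
    by_contra hy
    apply hτ1
    have hb1W : b 1 ∈ W := by
      have hw' : w = b.repr w 0 • b 0 + b.repr w 1 • b 1 := by
        conv_lhs => rw [← b.sum_repr w]
        rw [Fin.sum_univ_two]
      have h1 : b 1 = (b.repr w 1)⁻¹ • (w - b.repr w 0 • b 0) := by
        have h2 : w - b.repr w 0 • b 0 = b.repr w 1 • b 1 := by
          rw [sub_eq_iff_eq_add']; exact hw'
        rw [h2, smul_smul, inv_mul_cancel₀ hy, one_smul]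
      rw [h1]
      exact W.smul_mem _ (W.sub_mem hw (W.smul_mem _ hb0W))
    apply b.ext
    intro i
    rw [Module.End.one_apply]
    fin_cases i
    · exact hb0W τ hτχ
    · exact hb1W τ hτχ
  have hτb0 : ρbar.ρ (τ : GQ) (b 0) = b 0 := hb0W τ hτχ
  have h10 : rbarOf ρbar b (τ : GQ) 1 0 = 0 := by
    rw [rbarOf_apply, hτb0, Module.Basis.repr_self, Finsupp.single_apply]
    simp
  have h11 : rbarOf ρbar b (τ : GQ) 1 1 = 1 := by
    obtain ⟨a, ha⟩ := hP τ hτχ
    have h1 : rbarOf ρbar b (τ : GQ) ^ p ^ a = 1 := by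
      rw [← map_pow]
      have h2 : ρbar.ρ ((τ : GQ) ^ p ^ a) = 1 := by rw [map_pow]; exact ha
      rw [matrixOfBasisRes_apply, h2, LinearMap.toMatrix_one]
    have h3 := (pow_upper (rbarOf ρbar b (τ : GQ)) h10 (p ^ a)).2
    rw [h1, Matrix.one_apply_eq] at h3
    have h4 : (rbarOf ρbar b (τ : GQ) 1 1 - 1) ^ p ^ a = 0 := by
      rw [sub_pow_char_pow, ← h3, one_pow, sub_self]
    exact sub_eq_zero.1 (pow_eq_zero_iff (pow_ne_zero _ hp.ne_zero) |>.1 h4)
  refine ⟨b, fun σ hσ => ?_, (τ : GQ), τ.2, ?_, h11, fun h01 => hτ1 ?_⟩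
  · rw [rbarOf_apply]
    exact hWline _ (hWD σ hσ _ hb0W)
  · rw [rbarOf_apply, hτb0, Module.Basis.repr_self, Finsupp.single_eq_same]
  · apply b.ext
    intro i
    rw [Module.End.one_apply]
    fin_cases i
    · exact hτb0
    · show ρbar.ρ (τ : GQ) (b 1) = b 1
      conv_lhs => rw [← b.sum_repr (ρbar.ρ (τ : GQ) (b 1))]
      rw [Fin.sum_univ_two, ← rbarOf_apply, ← rbarOf_apply, h01, h11, zero_smul, one_smul, zero_add]

/-- **The dichotomy** (delegation B of helper3, board 704(5)). -/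
theorem tame_or_wild
    (hsplit : ∀ σ : GQ, ∃ α β : k, LinearMap.charpoly (ρbar.ρ σ) = (X - C α) * (X - C β))
    {A : ValuationSubring Qb} (hA : A.LiesOverPrime p) {φ : GQ} (hφ : A.IsFrobeniusAt φ p) :
    (¬ p ∣ Nat.card ↥(rhoI ρbar A).range ∧
      ∃ (b : Module.Basis (Fin 2) k ρbar.V) (ω₁ ω₂ : ↥(A.inertiaSubgroupIn ℚ) →* kˣ),
        (∀ s : ↥(A.inertiaSubgroupIn ℚ),
          rbarOf ρbar b (s : GQ) = Matrix.diagonal ![((ω₁ s : kˣ) : k), ((ω₂ s : kˣ) : k)]) ∧
        ((∃ s, ω₁ s ≠ ω₂ s) → ∃ u v : k, u ≠ 0 ∧ v ≠ 0 ∧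
          (rbarOf ρbar b φ = !![0, u; v, 0] ∨ rbarOf ρbar b φ = !![u, 0; 0, v]))) ∨
    (p ∣ Nat.card ↥(rhoI ρbar A).range ∧
      ∃ b : Module.Basis (Fin 2) k ρbar.V,
        (∀ σ ∈ A.decompositionSubgroup ℚ, rbarOf ρbar b σ 1 0 = 0) ∧
        ∃ τ ∈ A.inertiaSubgroupIn ℚ, rbarOf ρbar b τ 0 0 = 1 ∧ rbarOf ρbar b τ 1 1 = 1 ∧
          rbarOf ρbar b τ 0 1 ≠ 0) := by
  by_cases h : p ∣ Nat.card ↥(rhoI ρbar A).range
  · exact Or.inr ⟨h, wild_case p hA h⟩
  · exact Or.inl ⟨h, tame_case p hsplit hA hφ h⟩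

end Main

end Fermat.Agent.W56.TameDich8
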