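/-
Programme W56 (target S56), chapter (D4) = (LEC-p), helper5: **the shape of `ρ̄` on `Γ_p`.**

Under `hsplit` (all characteristic polynomials split) there is a basis of `V̄` in which `ρ̄(Γ_p)` is
either upper triangular, or monomial (every element diagonal or anti-diagonal):
`exists_tri_or_mon` (from helper8's `TameDich8.tame_or_wild` and `H1urCard8.exists_frob_generates'`).
A monomial matrix of `p`-power order `p` in characteristic `p ≠ 2` is the identity
(`eq_one_of_isMon_of_pow`).
-/
import Mathlib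
import Fermat.Agent.W56.TameDich8
import Fermat.Agent.W56.H1urCard8
import Fermat.Agent.W56.LecPTame5

set_option autoImplicit false
set_option linter.unusedSectionVars false

open CategoryTheory ExtCitation Polynomial

namespace Fermat.Agent.W56.LecStruct5

open Fermat.Agent.PT.PRO Fermat.Agent.PT.BR Fermat.Agent.W56.Defs9 Fermat.Agent.W56.Lift9
  Fermat.Agent.W56.LecPTame5 Fermat.Agent.S53

local notation "Qb" => AlgebraicClosure ℚ
local notation "M2" => Matrix (Fin 2) (Fin 2)

/-! ### Monomial matrices -/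

section Mon

variable {k : Type} [Field k]

/-- diagonal or anti-diagonal. -/
def IsMon (M : M2 k) : Prop := (M 0 1 = 0 ∧ M 1 0 = 0) ∨ (M 0 0 = 0 ∧ M 1 1 = 0)

theorem isMon_one : IsMon (1 : M2 k) := Or.inl ⟨by simp, by simp⟩

theorem IsMon.mul {M M' : M2 k} (h : IsMon M) (h' : IsMon M') : IsMon (M * M') := by
  rcases h with ⟨h1, h2⟩ | ⟨h1, h2⟩ <;> rcases h' with ⟨h3, h4⟩ | ⟨h3, h4⟩
  · left
    constructor <;> simp [Matrix.mul_apply, Fin.sum_univ_two, h1, h2, h3, h4]
  · right
    constructor <;> simp [Matrix.mul_apply, Fin.sum_univ_two, h1, h2, h3, h4]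
  · right
    constructor <;> simp [Matrix.mul_apply, Fin.sum_univ_two, h1, h2, h3, h4]
  · left
    constructor <;> simp [Matrix.mul_apply, Fin.sum_univ_two, h1, h2, h3, h4]

theorem IsMon.of_mul_eq_one {M M' : M2 k} (h : IsMon M) (hinv : M' * M = 1) : IsMon M' := by
  have e00 := congrFun (congrFun hinv 0) 0
  have e01 := congrFun (congrFun hinv 0) 1
  have e10 := congrFun (congrFun hinv 1) 0
  have e11 := congrFun (congrFun hinv 1) 1
  simp only [Matrix.mul_apply, Fin.sum_univ_two, Matrix.one_apply_eq, Matrix.one_apply_ne,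
    ne_eq, one_ne_zero, zero_ne_one, not_false_eq_true] at e00 e01 e10 e11
  rcases h with ⟨h1, h2⟩ | ⟨h1, h2⟩
  · rw [h2, mul_zero, add_zero] at e00
    rw [h1, mul_zero, zero_add] at e01
    rw [h2, mul_zero, add_zero] at e10
    rw [h1, mul_zero, zero_add] at e11
    have ha : M 0 0 ≠ 0 := fun h0 => by rw [h0, mul_zero] at e00; exact zero_ne_one e00
    have hd : M 1 1 ≠ 0 := fun h0 => by rw [h0, mul_zero] at e11; exact zero_ne_one e11
    left
    exact ⟨(mul_eq_zero.1 e01).resolve_right hd, (mul_eq_zero.1 e10).resolve_right ha⟩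
  · rw [h1, mul_zero, zero_add] at e00
    rw [h2, mul_zero, add_zero] at e01
    rw [h1, mul_zero, zero_add] at e10
    rw [h2, mul_zero, add_zero] at e11
    have hv : M 1 0 ≠ 0 := fun h0 => by rw [h0, mul_zero] at e00; exact zero_ne_one e00
    have hu : M 0 1 ≠ 0 := fun h0 => by rw [h0, mul_zero] at e11; exact zero_ne_one e11
    right
    exact ⟨(mul_eq_zero.1 e01).resolve_right hu, (mul_eq_zero.1 e10).resolve_right hv⟩

/-- **a monomial matrix with `M ^ p = 1` in odd characteristic `p` is the identity.** -/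
theorem eq_one_of_isMon_of_pow (p : ℕ) [hp : Fact p.Prime] [CharP k p] (hp2 : p ≠ 2)
    {M : M2 k} (h : IsMon M) (hM : M ^ p = 1) : M = 1 := by
  rcases h with ⟨h1, h2⟩ | ⟨h1, h2⟩
  · have hMd : M = Matrix.diagonal ![M 0 0, M 1 1] := by
      ext i j
      fin_cases i <;> fin_cases j <;> simp [h1, h2]
    rw [hMd, Matrix.diagonal_pow] at hM
    have e00 := congrFun (congrFun hM 0) 0
    have e11 := congrFun (congrFun hM 1) 1
    simp only [Matrix.diagonal_apply_eq, Pi.pow_apply, Matrix.cons_val_zero, Matrix.cons_val_one,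
      Matrix.one_apply_eq] at e00 e11
    have key : ∀ c : k, c ^ p = 1 → c = 1 := by
      intro c hc
      have h6 : (c - 1) ^ p = 0 := by rw [sub_pow_char, hc, one_pow, sub_self]
      exact sub_eq_zero.1 (pow_eq_zero_iff hp.out.ne_zero |>.1 h6)
    rw [hMd, key _ e00, key _ e11]
    ext i j
    fin_cases i <;> fin_cases j <;> simp
  · exfalso
    have hMM : M * M = (M 0 1 * M 1 0) • (1 : M2 k) := by
      ext i j
      fin_cases i <;> fin_cases j <;>
        simp [Matrix.mul_apply, Fin.sum_univ_two, h1, h2, mul_comm]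
    obtain ⟨j, hj⟩ : ∃ j, p = 2 * j + 1 := by
      rcases hp.out.eq_two_or_odd' with h | h
      · exact absurd h hp2
      · exact h
    have hpow : M ^ p = (M 0 1 * M 1 0) ^ j • M := by
      rw [hj, pow_succ, pow_mul, pow_two, hMM, _root_.smul_pow, one_pow, smul_mul_assoc, one_mul]
    rw [hpow] at hM
    have e00 := congrFun (congrFun hM 0) 0
    rw [Matrix.smul_apply, h1, smul_zero, Matrix.one_apply_eq] at e00
    exact zero_ne_one e00

end Mon

/-! ### The shape of `ρ̄` on `Γ_p` -/

section Shape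

variable {k : Type} [Field k] [Finite k] (p : ℕ) [hpF : Fact p.Prime] [hchar : CharP k p]
  (ρbar : ResidualGaloisRep k)

/-- the matrix of `ρ̄` on `Γ_p` in the basis `b`. -/
noncomputable def rP (b : Module.Basis (Fin 2) k ρbar.V) : Gp p →* M2 k :=
  (rbarOf ρbar b).comp (locD (pPrime p))

theorem rP_apply (b : Module.Basis (Fin 2) k ρbar.V) (g : Gp p) :
    rP p ρbar b g = rbarOf ρbar b (locD (pPrime p) g) := rfl

/-- a level on which `ρ̄` is trivial. -/
theorem exists_level : ∃ V ∈ (Bp p).sets, ∀ u ∈ V, ρbar.ρ (locD (pPrime p) u) = 1 := by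
  obtain ⟨L, hL, hρ⟩ := ρbar.factorsThroughFiniteLevel
  refine ⟨_, ⟨L, hL, rfl⟩, fun u hu => hρ _ fun x hx => ?_⟩
  exact (IntermediateField.mem_fixingSubgroup_iff _ _).1 hu x hx

/-- generation: a subgroup containing a Frobenius, the inertia group and a level is everything. -/
theorem mem_of_gen (S : Subgroup (Gp p)) {φ : Gp p}
    (hgen : ∀ U ∈ (Bp p).sets, ∀ g : Gp p, ∃ i : ℤ, ∃ n ∈ inertia (pPrime p), ∃ u ∈ U,
      g = φ ^ i * n * u)
    (hφ : φ ∈ S) (hI : inertia (pPrime p) ≤ S) (hV : ∃ V ∈ (Bp p).sets, V ≤ S) (g : Gp p) :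
    g ∈ S := by
  obtain ⟨V, hV, hVS⟩ := hV
  obtain ⟨i, n, hn, u, hu, rfl⟩ := hgen V hV g
  exact S.mul_mem (S.mul_mem (S.zpow_mem hφ i) (hI hn)) (hVS hu)

/-- the stabiliser of the line spanned by `v`. -/
def stabLine (v : ρbar.V) (hv : v ≠ 0) : Subgroup (Gp p) where
  carrier := {g | ∃ c : k, ρbar.ρ (locD (pPrime p) g) v = c • v}
  one_mem' := ⟨1, by rw [map_one, map_one, Module.End.one_apply, one_smul]⟩
  mul_mem' := by
    rintro g h ⟨c, hc⟩ ⟨d, hd⟩
    exact ⟨d * c, by rw [map_mul, map_mul, Module.End.mul_apply, hd, map_smul, hc, smul_smul]⟩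
  inv_mem' := by
    rintro g ⟨c, hc⟩
    have h1 : ρbar.ρ (locD (pPrime p) g⁻¹) (ρbar.ρ (locD (pPrime p) g) v) = v := by
      rw [← Module.End.mul_apply, ← map_mul, ← map_mul, inv_mul_cancel, map_one, map_one,
        Module.End.one_apply]
    rw [hc, map_smul] at h1
    have hc0 : c ≠ 0 := by
      rintro rfl
      rw [zero_smul] at h1
      exact hv h1.symm
    refine ⟨c⁻¹, ?_⟩
    have h2 : c • ρbar.ρ (locD (pPrime p) g⁻¹) v = v := h1
    conv_rhs => rw [← h2]
    rw [smul_smul, inv_mul_cancel₀ hc0, one_smul]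

/-- the elements of `Γ_p` with monomial matrix. -/
def monSub (b : Module.Basis (Fin 2) k ρbar.V) : Subgroup (Gp p) where
  carrier := {g | IsMon (rP p ρbar b g)}
  one_mem' := by
    show IsMon (rP p ρbar b 1)
    rw [map_one]
    exact isMon_one
  mul_mem' := by
    intro g h hg hh
    show IsMon (rP p ρbar b (g * h))
    rw [map_mul]
    exact hg.mul hh
  inv_mem' := by
    intro g hg
    show IsMon (rP p ρbar b g⁻¹)
    refine IsMon.of_mul_eq_one hg ?_
    rw [← map_mul, inv_mul_cancel, map_one]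

/-- a basis with prescribed first vector. -/
theorem exists_basis_first {V : Type} [AddCommGroup V] [Module k V] [Module.Finite k V]
    (hV : Module.finrank k V = 2) {v : V} (hv : v ≠ 0) :
    ∃ b : Module.Basis (Fin 2) k V, b 0 = v := by
  have hlt : Module.finrank k ↥(Submodule.span k ({v} : Set V)) < Module.finrank k V := by
    rw [finrank_span_singleton hv, hV]
    norm_num
  obtain ⟨w, hw⟩ : ∃ w : V, w ∉ Submodule.span k ({v} : Set V) := by
    by_contra hcon
    push Not at hcon
    have htop : Submodule.span k ({v} : Set V) = ⊤ := Submodule.eq_top_iff'.2 hcon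
    rw [htop, finrank_top] at hlt
    exact lt_irrefl _ hlt
  have hli : LinearIndependent k ![v, w] := by
    rw [LinearIndependent.pair_iff' hv]
    intro a ha
    apply hw
    rw [← ha]
    exact Submodule.smul_mem _ _ (Submodule.mem_span_singleton_self v)
  refine ⟨basisOfLinearIndependentOfCardEqFinrank hli (by rw [Fintype.card_fin, hV]), ?_⟩
  rw [coe_basisOfLinearIndependentOfCardEqFinrank]
  rfl

/-- **the shape of `ρ̄|Γ_p`**: upper triangular or monomial in a suitable basis. -/
theorem exists_tri_or_mon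
    (hsplit : ∀ σ : GQ, ∃ α β : k, LinearMap.charpoly (ρbar.ρ σ) = (X - C α) * (X - C β)) :
    ∃ b : Module.Basis (Fin 2) k ρbar.V,
      (∀ g : Gp p, rP p ρbar b g 1 0 = 0) ∨ (∀ g : Gp p, IsMon (rP p ρbar b g)) := by
  have hA := UnipSel8.liesOverPrime_primeLocalPlace (pPrime p)
  obtain ⟨φ, hφ, hgen⟩ := H1urCard8.exists_frob_generates' (pPrime p)
  obtain ⟨V₀, hV₀, hV₀ρ⟩ := exists_level p ρbar
  rcases TameDich8.tame_or_wild p hsplit hA hφ with
    ⟨-, b, ω₁, ω₂, hdiag, hφd⟩ | ⟨-, b, hb, -⟩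
  · by_cases hne : ∃ s, ω₁ s ≠ ω₂ s
    · -- monomial
      refine ⟨b, Or.inr fun g => ?_⟩
      refine mem_of_gen p (monSub p ρbar b) hgen ?_ ?_ ⟨V₀, hV₀, ?_⟩ g
      · show IsMon (rbarOf ρbar b (locD (pPrime p) φ))
        obtain ⟨u, v, -, -, h | h⟩ := hφd hne
        · rw [h]
          exact Or.inr ⟨by simp, by simp⟩
        · rw [h]
          exact Or.inl ⟨by simp, by simp⟩
      · intro n hn
        show IsMon (rbarOf ρbar b (locD (pPrime p) n))
        have h := hdiag ⟨locD (pPrime p) n, hn⟩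
        rw [h]
        exact Or.inl ⟨by simp, by simp⟩
      · intro u hu
        show IsMon (rbarOf ρbar b (locD (pPrime p) u))
        rw [matrixOfBasisRes_apply, hV₀ρ u hu, LinearMap.toMatrix_one]
        exact isMon_one
    · -- scalar inertia: a Frobenius eigenvector spans a stable line
      push Not at hne
      obtain ⟨α, β, hch⟩ := hsplit (locD (pPrime p) φ)
      have hα : (ρbar.ρ (locD (pPrime p) φ)).HasEigenvalue α := by
        rw [Module.End.hasEigenvalue_iff_isRoot_charpoly, hch]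
        simp
      obtain ⟨v, hv⟩ := hα.exists_hasEigenvector
      have hv0 : v ≠ 0 := hv.2
      obtain ⟨b', hb'⟩ := exists_basis_first ρbar.finrank_eq hv0
      refine ⟨b', Or.inl fun g => ?_⟩
      have hmem := mem_of_gen p (stabLine p ρbar v hv0) hgen
        ⟨α, hv.apply_eq_smul⟩ ?_ ⟨V₀, hV₀, ?_⟩ g
      · obtain ⟨c, hc⟩ := hmem
        rw [rP_apply, TameDich8.rbarOf_apply, hb', hc, map_smul, ← hb', Module.Basis.repr_self,
          Finsupp.smul_apply, Finsupp.single_apply]
        simp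
      · intro n hn
        have h := hdiag ⟨locD (pPrime p) n, hn⟩
        rw [hne ⟨locD (pPrime p) n, hn⟩] at h
        refine ⟨((ω₂ ⟨locD (pPrime p) n, hn⟩ : kˣ) : k), ?_⟩
        have h2 : ρbar.ρ (locD (pPrime p) n) =
            Matrix.toLin b b (rbarOf ρbar b (locD (pPrime p) n)) := (toLin_rbarOf ρbar b _).symm
        have h3 : Matrix.diagonal ![((ω₂ ⟨locD (pPrime p) n, hn⟩ : kˣ) : k),
            ((ω₂ ⟨locD (pPrime p) n, hn⟩ : kˣ) : k)] =
            ((ω₂ ⟨locD (pPrime p) n, hn⟩ : kˣ) : k) • (1 : M2 k) := by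
          ext i j
          fin_cases i <;> fin_cases j <;> simp
        rw [h2]
        show Matrix.toLin b b (rbarOf ρbar b ((⟨locD (pPrime p) n, hn⟩ :
          ↥((primeLocalPlace (pPrime p)).inertiaSubgroupIn ℚ)) : GQ)) v = _
        rw [h, h3, map_smul, Matrix.toLin_one, LinearMap.smul_apply, LinearMap.id_apply]
      · intro u hu
        exact ⟨1, by rw [hV₀ρ u hu, Module.End.one_apply, one_smul]⟩
  · exact ⟨b, Or.inl fun g => hb _ (H1urCard8.locD_mem (pPrime p) g)⟩

end Shape

end Fermat.Agent.W56.LecStruct5
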