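/-
Programme W56 (target S56), chapter (D4) = (LEC-p), helper5: **`SelBound9.LecPAd0` from the single
arithmetic contract `LecPTame5.KumCountP`.**

`N = ad⁰ρ̄|Γ_p`.  By `LecStruct5.exists_tri_or_mon`, in a suitable basis `ρ̄(Γ_p)` is upper triangular
or monomial.  Triangular: the functionals `X ↦ X₁₀, X₀₀, X₀₁` give a three-step filtration with
graded pieces lines, so `chiLev N ≤ -3` by three applications of `LecPTame5.chiLev_step`.  Monomial:
the image of `Γ_p` has no `p`-torsion and `LecPTame5.chiLev_le_of_ker` gives `chiLev N ≤ -3` directly.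
-/
import Mathlib
import Fermat.Agent.W56.LecStruct5
import Fermat.Agent.W56.BorelRam9
import Fermat.Agent.W56.EulerAd4
import Fermat.Agent.W56.Ad0Facts9
import Fermat.Agent.W56.SelBound9

set_option autoImplicit false
set_option linter.unusedSectionVars false

open CategoryTheory ExtCitation Polynomial

namespace Fermat.Agent.W56.LecAd0P5

open Fermat.Agent.PT.PRO Fermat.Agent.PT.BR Fermat.Agent.W56.Defs9 Fermat.Agent.W56.Lift9
  Fermat.Agent.W56.LecPTame5 Fermat.Agent.W56.LecStruct5 Fermat.Agent.S53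
  Fermat.Agent.PT.PRO.LevelCoh28 Fermat.Agent.W56.ChiLev4 Fermat.Agent.W56.GWContracts4
  Fermat.Agent.W56.GWCount4

local notation "M2" => Matrix (Fin 2) (Fin 2)

/-! ### Three functionals -/

section Three

variable {k : Type} [Field k] [Finite k] (p : ℕ) [hpF : Fact p.Prime] [hchar : CharP k p]
  (N : Rep.{0} k (Gp p)) [hNfin : Module.Finite k N]
  (hN : LevelCoh28.IsDiscrete (LevelBridge13.pullSets (locD (pPrime p))) N)

include hN in
/-- **three functionals cutting out a full flag of stable subspaces give `chiLev ≤ -3`.** -/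
theorem chiLev_le_of_three (hK : KumCountP) (hp2 : p ≠ 2) (l₁ l₂ l₃ : N →ₗ[k] k)
    (h1 : ∃ n, l₁ n ≠ 0) (h2 : ∃ n, l₁ n = 0 ∧ l₂ n ≠ 0)
    (h3 : ∃ n, l₁ n = 0 ∧ l₂ n = 0 ∧ l₃ n ≠ 0)
    (hz : ∀ n, l₁ n = 0 → l₂ n = 0 → l₃ n = 0 → n = 0)
    (hs1 : ∀ g n, l₁ n = 0 → l₁ (N.ρ g n) = 0)
    (hs2 : ∀ g n, l₁ n = 0 → l₂ n = 0 → l₂ (N.ρ g n) = 0) :
    chiLev (Bp p) N ≤ -3 := by
  -- first step
  have hst1 : ∀ g, LinearMap.ker l₁ ≤ (LinearMap.ker l₁).comap (N.ρ g) := fun g n hn => by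
    rw [Submodule.mem_comap, LinearMap.mem_ker]
    exact hs1 g n (LinearMap.mem_ker.1 hn)
  have e1 := chiLev_step p N hN hK hp2 l₁ h1 hst1
  set N₁ := N.subrepresentation (LinearMap.ker l₁) hst1 with hN₁
  have hN₁fin : Module.Finite k N₁ := (inferInstance : Module.Finite k ↥(LinearMap.ker l₁))
  have hN₁d := LecDev5.isDiscrete_sub (𝓑 := Bp p) hN (LinearMap.ker l₁) hst1
  -- second step
  let l₂' : N₁ →ₗ[k] k := l₂ ∘ₗ (LinearMap.ker l₁).subtype
  have hst2 : ∀ g, LinearMap.ker l₂' ≤ (LinearMap.ker l₂').comap (N₁.ρ g) := fun g n hn => by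
    rw [Submodule.mem_comap, LinearMap.mem_ker]
    exact hs2 g (n : N) (LinearMap.mem_ker.1 n.2) (LinearMap.mem_ker.1 hn)
  have h2' : ∃ n : N₁, l₂' n ≠ 0 := by
    obtain ⟨n, hn1, hn2⟩ := h2
    exact ⟨⟨n, LinearMap.mem_ker.2 hn1⟩, hn2⟩
  have e2 := chiLev_step p N₁ hN₁d hK hp2 l₂' h2' hst2
  set N₂ := N₁.subrepresentation (LinearMap.ker l₂') hst2 with hN₂
  have hN₂fin : Module.Finite k N₂ := (inferInstance : Module.Finite k ↥(LinearMap.ker l₂'))
  have hN₂d := LecDev5.isDiscrete_sub (𝓑 := Bp p) hN₁d (LinearMap.ker l₂') hst2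
  -- third step
  let l₃' : N₂ →ₗ[k] k := l₃ ∘ₗ (LinearMap.ker l₁).subtype ∘ₗ (LinearMap.ker l₂').subtype
  have hker3 : ∀ n : N₂, l₃' n = 0 → n = 0 := by
    intro n hn
    have h := hz ((n : N₁) : N) (LinearMap.mem_ker.1 (n : N₁).2) (LinearMap.mem_ker.1 n.2) hn
    exact Subtype.ext (Subtype.ext h)
  have hst3 : ∀ g, LinearMap.ker l₃' ≤ (LinearMap.ker l₃').comap (N₂.ρ g) := fun g n hn => by
    rw [Submodule.mem_comap, LinearMap.mem_ker]
    rw [hker3 n (LinearMap.mem_ker.1 hn), map_zero, map_zero]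
  have h3' : ∃ n : N₂, l₃' n ≠ 0 := by
    obtain ⟨n, hn1, hn2, hn3⟩ := h3
    exact ⟨⟨⟨n, LinearMap.mem_ker.2 hn1⟩, LinearMap.mem_ker.2 hn2⟩, hn3⟩
  have e3 := chiLev_step p N₂ hN₂d hK hp2 l₃' h3' hst3
  have hsub : Subsingleton (N₂.subrepresentation (LinearMap.ker l₃') hst3) := by
    refine ⟨fun a b => Subtype.ext ?_⟩
    rw [hker3 _ (LinearMap.mem_ker.1 a.2), hker3 _ (LinearMap.mem_ker.1 b.2)]
  have e4 := LecDev5.chiLev_of_subsingleton (𝓑 := Bp p)
    (N₂.subrepresentation (LinearMap.ker l₃') hst3)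
  linarith

end Three

/-! ### `ad⁰ρ̄` on `Γ_p` -/

section Ad0

variable {k : Type} [Field k] [Finite k] (p : ℕ) [hpF : Fact p.Prime] [hchar : CharP k p]
  (ρbar : ResidualGaloisRep k) (b : Module.Basis (Fin 2) k ρbar.V)

/-- `ad⁰ρ̄` restricted to `Γ_p`. -/
noncomputable abbrev NP : Rep.{0} k (Gp p) := Rep.res (locD (pPrime p)) (ad0 ρbar)

instance : Module.Finite k (NP p ρbar) := Ad0Facts9.moduleFinite_ad0 ρbar

theorem isDiscrete_NP :
    LevelCoh28.IsDiscrete (LevelBridge13.pullSets (locD (pPrime p))) (NP p ρbar) := by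
  intro m
  obtain ⟨F, hF, hFm⟩ := Ad0Facts9.isSmooth_ad0 ρbar m
  exact ⟨_, ⟨F, hF, rfl⟩, fun s hs => hFm _ hs⟩

/-- the underlying endomorphism of an element of `ad⁰ρ̄`. -/
noncomputable def toEnd : NP p ρbar →ₗ[k] Module.End k ρbar.V := (sl ρbar).subtype

theorem toEnd_rho (g : Gp p) (X : NP p ρbar) :
    toEnd p ρbar ((NP p ρbar).ρ g X) =
      ρbar.ρ (locD (pPrime p) g) * toEnd p ρbar X * ρbar.ρ (locD (pPrime p) g)⁻¹ := rfl

theorem toEnd_injective : Function.Injective (toEnd p ρbar) := Subtype.val_injective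

theorem toEnd_trace (X : NP p ρbar) : LinearMap.trace k ρbar.V (toEnd p ρbar X) = 0 :=
  (mem_sl_iff ρbar _).1 (Subtype.property X)

/-- the matrix of an element of `ad⁰ρ̄`. -/
noncomputable def matOf : NP p ρbar →ₗ[k] M2 k :=
  (LinearMap.toMatrix b b).toLinearMap ∘ₗ toEnd p ρbar

theorem matOf_apply (X : NP p ρbar) :
    matOf p ρbar b X = LinearMap.toMatrix b b (toEnd p ρbar X) := rfl

theorem matOf_rho (g : Gp p) (X : NP p ρbar) :
    matOf p ρbar b ((NP p ρbar).ρ g X) =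
      rP p ρbar b g * matOf p ρbar b X * rP p ρbar b g⁻¹ := by
  have hinv : locD (pPrime p) g⁻¹ = (locD (pPrime p) g)⁻¹ := map_inv _ _
  rw [matOf_apply, matOf_apply, toEnd_rho, rP_apply, rP_apply, matrixOfBasisRes_apply,
    matrixOfBasisRes_apply, ← LinearMap.toMatrix_mul, ← LinearMap.toMatrix_mul, hinv]

theorem matOf_trace (X : NP p ρbar) : (matOf p ρbar b X).trace = 0 := by
  rw [matOf_apply, ← LinearMap.trace_eq_matrix_trace k b]
  exact toEnd_trace p ρbar X

theorem matOf_injective : Function.Injective (matOf p ρbar b) := by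
  intro X Y h
  apply toEnd_injective p ρbar
  exact (LinearMap.toMatrix b b).injective h

/-- a trace zero matrix as an element of `ad⁰ρ̄`. -/
noncomputable def ofMat (M : M2 k) (hM : M.trace = 0) : NP p ρbar :=
  ⟨Matrix.toLin b b M, by
    rw [mem_sl_iff, LinearMap.trace_eq_matrix_trace k b, LinearMap.toMatrix_toLin, hM]⟩

theorem matOf_ofMat (M : M2 k) (hM : M.trace = 0) :
    matOf p ρbar b (ofMat p ρbar b M hM) = M := by
  rw [matOf_apply]
  show LinearMap.toMatrix b b (Matrix.toLin b b M) = M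
  exact LinearMap.toMatrix_toLin b b M

/-- the entry functionals. -/
noncomputable def ent (i j : Fin 2) : NP p ρbar →ₗ[k] k :=
  (Matrix.entryLinearMap k k i j) ∘ₗ matOf p ρbar b

theorem ent_apply (i j : Fin 2) (X : NP p ρbar) : ent p ρbar b i j X = matOf p ρbar b X i j := rfl

/-- **the triangular case.** -/
theorem chiLev_tri (hK : KumCountP) (hp2 : p ≠ 2)
    (htri : ∀ g : Gp p, rP p ρbar b g 1 0 = 0) : chiLev (Bp p) (NP p ρbar) ≤ -3 := by
  have hrb : ∀ σ ∈ (⊤ : Subgroup (Gp p)), rP p ρbar b σ 1 0 = 0 := fun σ _ => htri σ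
  refine chiLev_le_of_three p (NP p ρbar) (isDiscrete_NP p ρbar) hK hp2
    (ent p ρbar b 1 0) (ent p ρbar b 0 0) (ent p ρbar b 0 1) ?_ ?_ ?_ ?_ ?_ ?_
  · refine ⟨ofMat p ρbar b !![0, 0; 1, 0] (by simp [Matrix.trace_fin_two]), ?_⟩
    rw [ent_apply, matOf_ofMat]
    simp
  · refine ⟨ofMat p ρbar b !![1, 0; 0, -1] (by simp [Matrix.trace_fin_two]), ?_, ?_⟩
    · rw [ent_apply, matOf_ofMat]
      simp
    · rw [ent_apply, matOf_ofMat]
      simp
  · refine ⟨ofMat p ρbar b !![0, 1; 0, 0] (by simp [Matrix.trace_fin_two]), ?_, ?_, ?_⟩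
    · rw [ent_apply, matOf_ofMat]
      simp
    · rw [ent_apply, matOf_ofMat]
      simp
    · rw [ent_apply, matOf_ofMat]
      simp
  · intro X h10 h00 h01
    apply matOf_injective p ρbar b
    rw [map_zero]
    rw [ent_apply] at h10 h00 h01
    have htr := matOf_trace p ρbar b X
    rw [Matrix.trace_fin_two, h00, zero_add] at htr
    ext i j
    fin_cases i <;> fin_cases j
    · exact h00
    · exact h01
    · exact h10
    · exact htr
  · intro g X h10
    rw [ent_apply] at h10 ⊢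
    rw [matOf_rho, BorelRam9.conj10' hrb (Subgroup.mem_top g), h10, mul_zero]
  · intro g X h10 h00
    rw [ent_apply] at h10 h00 ⊢
    rw [matOf_rho, BorelRam9.conj00 hrb (Subgroup.mem_top g) _ h10, h00]

/-- **the monomial case.** -/
theorem chiLev_mon (hK : KumCountP) (hp2 : p ≠ 2)
    (hmon : ∀ g : Gp p, IsMon (rP p ρbar b g)) : chiLev (Bp p) (NP p ρbar) ≤ -3 := by
  have h2 : (2 : k) ≠ 0 := TwMain9.two_ne_zero_of_ne_two p hp2
  have hfr : Module.finrank k (NP p ρbar) = 3 := EulerAd4.finrank_sl ρbar h2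
  obtain ⟨V₀, hV₀, hV₀ρ⟩ := exists_level p ρbar
  have key := chiLev_le_of_ker p (NP p ρbar) (isDiscrete_NP p ρbar) hK hp2
    (ρbar.ρ.comp (locD (pPrime p)))
    ⟨V₀, hV₀, fun u hu => MonoidHom.mem_ker.2 (hV₀ρ u hu)⟩
    (fun g hg X => by
      have h1 : ρbar.ρ (locD (pPrime p) g) = 1 := MonoidHom.mem_ker.1 hg
      have h3 : ρbar.ρ (locD (pPrime p) g)⁻¹ = 1 := by
        have := rho_inv_mul ρbar (locD (pPrime p) g)
        rwa [h1, mul_one] at this
      apply toEnd_injective p ρbar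
      rw [toEnd_rho, h1, h3, one_mul, mul_one])
    (fun g hg => by
      rw [MonoidHom.mem_ker] at hg ⊢
      have h1 : rP p ρbar b g ^ p = 1 := by
        rw [← map_pow, rP_apply, matrixOfBasisRes_apply]
        have : ρbar.ρ (locD (pPrime p) (g ^ p)) = 1 := hg
        rw [this, LinearMap.toMatrix_one]
      have h3 := eq_one_of_isMon_of_pow p hp2 (hmon g) h1
      show ρbar.ρ (locD (pPrime p) g) = 1
      rw [← toLin_rbarOf ρbar b]
      have h4 : rbarOf ρbar b (locD (pPrime p) g) = 1 := h3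
      rw [h4, Matrix.toLin_one]
      rfl)
  rw [hfr] at key
  exact key

end Ad0

/-! ### The contract `LecPAd0` -/

/-- **(LEC-p) for `ad⁰ρ̄` from the arithmetic contract.** -/
theorem lecPAd0_of_kumCount (hK : KumCountP) : SelBound9.LecPAd0 := by
  intro k _ _ p _ _ hp2 ρbar _ _ hsplit
  obtain ⟨b, htri | hmon⟩ := exists_tri_or_mon p ρbar hsplit
  all_goals
    have hchi : chiLev (Bp p) (NP p ρbar) ≤ -3 := by
      first
        | exact chiLev_tri p ρbar b hK hp2 htri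
        | exact chiLev_mon p ρbar b hK hp2 hmon
    obtain ⟨hH1, hH2, -⟩ := fin_facts p (NP p ρbar) (isDiscrete_NP p ρbar)
    show Nat.card ↥(NP p ρbar).ρ.invariants * Nat.card (H2 (Bp p) (NP p ρbar)) * Nat.card k ^ 3 ≤
      Nat.card (H1 (Bp p) (NP p ρbar))
    rw [Module.natCard_eq_pow_finrank (K := k) (V := ↥(NP p ρbar).ρ.invariants),
      Module.natCard_eq_pow_finrank (K := k) (V := H2 (Bp p) (NP p ρbar)),
      Module.natCard_eq_pow_finrank (K := k) (V := H1 (Bp p) (NP p ρbar)), ← pow_add, ← pow_add]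
    refine Nat.pow_le_pow_right Nat.card_pos ?_
    unfold chiLev at hchi
    omega

end Fermat.Agent.W56.LecAd0P5
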