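/-
Programme W56 (target S56), chapter (D4) = (LEC-p), helper5: **the concrete Kummer datum of an open
normal subgroup `U ≤ Γ_p` fixing `ζ_p`.**

`K_U = LecField7.KU (pPrime p) U` (the elements of `ℚ̄` fixed by `U`).  `XU p U` is the `𝔽_p`-space of
the Kummer characters `s ↦ kumX p x (locD s)` (`x ∈ K_Uˣ`) of `U` — a copy of `K_Uˣ / (K_Uˣ)^p` by
Kummer theory; `Γ_p` acts by `(g·f)(s) = ω(g) f(g⁻¹ s g)`, `U` acts trivially.

* `rhoXG : Representation (ZMod p) (Γ_p ⧸ U) (XU p U)`, `rhoX = rhoXG ∘ mk`;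
* `cl : K_U → XU p U` with `LecUData7.UCl p rhoXG cl` (`uCl`);
* `kumDatum : KumDatum (Bp p) U p (omegaP p)` (the Kummer map is the inclusion).
-/
import Mathlib
import Fermat.Agent.W56.LecPTame5
import Fermat.Agent.W56.LecField7
import Fermat.Agent.W56.LecUData7

set_option autoImplicit false
set_option linter.unusedSectionVars false

open CategoryTheory ExtCitation

namespace Fermat.Agent.W56.LecKumInst5

open Fermat.Agent.PT.PRO Fermat.Agent.PT.BR Fermat.Agent.W56.Defs9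
  Fermat.Agent.W56.LecKumBridge5 Fermat.Agent.W56.LecPTame5 Fermat.Agent.W56.LecKumRel5
  Fermat.Agent.W56.LecField7 Fermat.Agent.S14.Fields Fermat.Agent.W56.LecUData7

local notation "Qb" => AlgebraicClosure ℚ

variable (p : ℕ) [hpF : Fact p.Prime] (U : Subgroup (Gp p)) [hUn : U.Normal]

/-- `ω = 1` on `U` means that `U` fixes `ζ_p`. -/
theorem apply_zeta_of_omegaP {s : Gp p} (hs : omegaP p s = 1) :
    locD (pPrime p) s (zeta p) = zeta p := by
  have h1 : ((cycloChar p (locD (pPrime p) s) : (ZMod p)ˣ) : ZMod p) = 1 := by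
    have : cycloChar p (locD (pPrime p) s) = 1 := hs
    rw [this, Units.val_one]
  rw [coe_cycloChar] at h1
  rw [apply_zeta]
  conv_rhs => rw [← pow_one (zeta p)]
  rw [zeta_pow_eq_pow_iff, h1, Nat.cast_one]

/-- every `p`-th root of unity is fixed as soon as `ζ_p` is. -/
theorem apply_root_of_unity {σ : Qb ≃ₐ[ℚ] Qb} (hσ : σ (zeta p) = zeta p) {ξ : Qb}
    (hξ : ξ ^ p = 1) : σ ξ = ξ := by
  obtain ⟨i, -, rfl⟩ := (zeta_spec p).eq_pow_of_pow_eq_one hξ
  rw [map_pow, hσ]

/-- the Kummer character of `x` on `U`. -/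
noncomputable def kumF (x : Qb) : ↥U → ZMod p :=
  fun s => kumX p x (locD (pPrime p) (s : Gp p))

variable (hζ : ∀ u ∈ U, locD (pPrime p) u (zeta p) = zeta p)

include hζ

theorem kumF_mul {x y : Qb} (hx : x ≠ 0) (hy : y ≠ 0) (hxK : x ∈ KU (pPrime p) U)
    (hyK : y ∈ KU (pPrime p) U) : kumF p U (x * y) = kumF p U x + kumF p U y := by
  funext s
  exact kumX_mul_el hx hy (hζ s s.2) (hxK s s.2) (hyK s s.2)

theorem kumF_one : kumF p U 1 = 0 := by
  funext s
  have h := kumX_pow_self (p := p) (one_ne_zero : (1 : Qb) ≠ 0) (hζ s s.2) (map_one _)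
  rwa [one_pow] at h

theorem kumF_inv {x : Qb} (hx : x ≠ 0) (hxK : x ∈ KU (pPrime p) U) :
    kumF p U x⁻¹ = -kumF p U x := by
  have h := kumF_mul p U hζ (inv_ne_zero hx) hx ((KU (pPrime p) U).inv_mem hxK) hxK
  rw [inv_mul_cancel₀ hx, kumF_one p U hζ] at h
  exact eq_neg_of_add_eq_zero_left h.symm

/-- the Kummer characters of the elements of `K_Uˣ`, as an additive subgroup. -/
def XUadd : AddSubgroup (↥U → ZMod p) where
  carrier := {f | ∃ x : Qb, x ≠ 0 ∧ x ∈ KU (pPrime p) U ∧ f = kumF p U x}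
  zero_mem' := ⟨1, one_ne_zero, (KU (pPrime p) U).one_mem, (kumF_one p U hζ).symm⟩
  add_mem' := by
    rintro _ _ ⟨x, hx, hxK, rfl⟩ ⟨y, hy, hyK, rfl⟩
    exact ⟨x * y, mul_ne_zero hx hy, (KU (pPrime p) U).mul_mem hxK hyK,
      (kumF_mul p U hζ hx hy hxK hyK).symm⟩
  neg_mem' := by
    rintro _ ⟨x, hx, hxK, rfl⟩
    exact ⟨x⁻¹, inv_ne_zero hx, (KU (pPrime p) U).inv_mem hxK, (kumF_inv p U hζ hx hxK).symm⟩

/-- the `𝔽_p`-space `X_U`. -/
def XU : Submodule (ZMod p) (↥U → ZMod p) := AddSubgroup.toZModSubmodule p (XUadd p U hζ)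

theorem mem_XU {f : ↥U → ZMod p} :
    f ∈ XU p U hζ ↔ ∃ x : Qb, x ≠ 0 ∧ x ∈ KU (pPrime p) U ∧ f = kumF p U x := Iff.rfl

omit hζ in
/-- conjugation on `U`. -/
noncomputable def conjU (g : Gp p) (s : ↥U) : ↥U :=
  ⟨g⁻¹ * s * g, by
    have := hUn.conj_mem s s.2 g⁻¹
    rwa [inv_inv] at this⟩

omit hζ in
/-- the action of `Γ_p` on the functions on `U`: `(g·f)(s) = ω(g) f(g⁻¹ s g)`. -/
noncomputable def actFun : Representation (ZMod p) (Gp p) (↥U → ZMod p) where
  toFun g :=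
    { toFun := fun f s => ((omegaP p g : (ZMod p)ˣ) : ZMod p) * f (conjU p U g s)
      map_add' := fun f f' => by
        funext s
        simp only [Pi.add_apply, mul_add]
      map_smul' := fun c f => by
        funext s
        simp only [Pi.smul_apply, smul_eq_mul, RingHom.id_apply]
        ring }
  map_one' := by
    apply LinearMap.ext
    intro f
    funext s
    show ((omegaP p 1 : (ZMod p)ˣ) : ZMod p) * f (conjU p U 1 s) = f s
    rw [map_one, Units.val_one, one_mul]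
    have h1 : conjU p U 1 s = s := by
      apply Subtype.ext
      show (1 : Gp p)⁻¹ * s * 1 = s
      group
    rw [h1]
  map_mul' g h := by
    apply LinearMap.ext
    intro f
    funext s
    show ((omegaP p (g * h) : (ZMod p)ˣ) : ZMod p) * f (conjU p U (g * h) s) =
      ((omegaP p g : (ZMod p)ˣ) : ZMod p) *
        (((omegaP p h : (ZMod p)ˣ) : ZMod p) * f (conjU p U h (conjU p U g s)))
    rw [map_mul, Units.val_mul, mul_assoc]
    have h1 : conjU p U (g * h) s = conjU p U h (conjU p U g s) := by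
      apply Subtype.ext
      show (g * h)⁻¹ * s * (g * h) = h⁻¹ * (g⁻¹ * s * g) * h
      group
    rw [h1]

omit hζ in
theorem actFun_apply (g : Gp p) (f : ↥U → ZMod p) (s : ↥U) :
    actFun p U g f s = ((omegaP p g : (ZMod p)ˣ) : ZMod p) * f (conjU p U g s) := rfl

/-- **the action on Kummer characters**: `g · kumF x = kumF (g x)`. -/
theorem actFun_kumF (g : Gp p) {x : Qb} (hx : x ≠ 0) (hxK : x ∈ KU (pPrime p) U) :
    actFun p U g (kumF p U x) = kumF p U (locD (pPrime p) g x) := by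
  funext s
  rw [actFun_apply]
  show _ * kumX p x (locD (pPrime p) ((conjU p U g s : ↥U) : Gp p)) =
    kumX p (locD (pPrime p) g x) (locD (pPrime p) (s : Gp p))
  have h1 := kumX_conj (p := p) hx (hζ _ (conjU p U g s).2) (hxK _ (conjU p U g s).2)
    (locD (pPrime p) g)
  have h2 : locD (pPrime p) g * locD (pPrime p) ((conjU p U g s : ↥U) : Gp p) *
      (locD (pPrime p) g)⁻¹ = locD (pPrime p) (s : Gp p) := by
    rw [← map_inv, ← map_mul, ← map_mul]
    congr 1
    show g * (g⁻¹ * s * g) * g⁻¹ = s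
    group
  rw [h2] at h1
  rw [h1]
  congr 1
  show ((cycloChar p (locD (pPrime p) g) : (ZMod p)ˣ) : ZMod p) = _
  rw [coe_cycloChar]

theorem actFun_mem (g : Gp p) :
    XU p U hζ ≤ (XU p U hζ).comap (actFun p U g) := by
  rintro _ ⟨x, hx, hxK, rfl⟩
  rw [Submodule.mem_comap, actFun_kumF p U hζ g hx hxK]
  exact ⟨_, (map_ne_zero_iff _ (locD (pPrime p) g).injective).2 hx, apply_mem_KU g hxK, rfl⟩

/-- the action of `Γ_p` on `X_U`. -/
noncomputable def rhoX : Representation (ZMod p) (Gp p) ↥(XU p U hζ) :=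
  (actFun p U).subrepresentation (XU p U hζ) (actFun_mem p U hζ)

theorem coe_rhoX (g : Gp p) (f : ↥(XU p U hζ)) :
    ((rhoX p U hζ g f : ↥(XU p U hζ)) : ↥U → ZMod p) = actFun p U g (f : ↥U → ZMod p) := rfl

theorem rhoX_of_mem {u : Gp p} (hu : u ∈ U) (f : ↥(XU p U hζ)) : rhoX p U hζ u f = f := by
  obtain ⟨f, x, hx, hxK, rfl⟩ := f
  apply Subtype.ext
  rw [coe_rhoX]
  show actFun p U u (kumF p U x) = kumF p U x
  rw [actFun_kumF p U hζ u hx hxK, hxK u hu]

/-- the action of `Γ_p ⧸ U` on `X_U`. -/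
noncomputable def rhoXG : Representation (ZMod p) (Gp p ⧸ U) ↥(XU p U hζ) :=
  QuotientGroup.lift U (rhoX p U hζ) fun u hu => by
    apply LinearMap.ext
    intro f
    exact rhoX_of_mem p U hζ hu f

theorem rhoXG_mk (g : Gp p) :
    rhoXG p U hζ (QuotientGroup.mk g) = rhoX p U hζ g := rfl

/-- the class map `K_U → X_U`. -/
noncomputable def cl (x : ↥(KU (pPrime p) U)) : ↥(XU p U hζ) := by
  classical
  exact if hx : (x : Qb) = 0 then 0 else ⟨kumF p U (x : Qb), ⟨(x : Qb), hx, x.2, rfl⟩⟩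

theorem cl_of_ne {x : ↥(KU (pPrime p) U)} (hx : x ≠ 0) :
    ((cl p U hζ x : ↥(XU p U hζ)) : ↥U → ZMod p) = kumF p U (x : Qb) := by
  have hx' : (x : Qb) ≠ 0 := fun h => hx (Subtype.ext h)
  unfold cl
  rw [dif_neg hx']

/-- **`cl` is a Kummer-type class map** (helper7's `LecUData7.UCl`). -/
theorem uCl : UCl p (rhoXG p U hζ) (cl p U hζ) where
  cl_mul := by
    intro x y hx hy
    apply Subtype.ext
    have hx' : (x : Qb) ≠ 0 := fun h => hx (Subtype.ext h)
    have hy' : (y : Qb) ≠ 0 := fun h => hy (Subtype.ext h)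
    rw [Submodule.coe_add, cl_of_ne p U hζ (mul_ne_zero hx hy), cl_of_ne p U hζ hx,
      cl_of_ne p U hζ hy]
    exact kumF_mul p U hζ hx' hy' x.2 y.2
  cl_smul := by
    intro σ x hx
    obtain ⟨g, rfl⟩ := QuotientGroup.mk_surjective σ
    have hx' : (x : Qb) ≠ 0 := fun h => hx (Subtype.ext h)
    have hgx : (QuotientGroup.mk g : Gp p ⧸ U) • x ≠ 0 := by
      intro h
      apply hx'
      have h1 := congrArg (fun z : ↥(KU (pPrime p) U) => (z : Qb)) h
      simp only [mk_smul_coe] at h1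
      exact (map_eq_zero_iff _ (locD (pPrime p) g).injective).1 h1
    apply Subtype.ext
    rw [cl_of_ne p U hζ hgx, rhoXG_mk, coe_rhoX, cl_of_ne p U hζ hx,
      actFun_kumF p U hζ g hx' x.2]
    rfl
  cl_eq_zero := by
    intro x hx
    have hx' : (x : Qb) ≠ 0 := fun h => hx (Subtype.ext h)
    have key := kumX_eq_zero_iff (p := p) (S := U.map (locD (pPrime p)))
      (by
        rintro _ ⟨u, hu, rfl⟩
        exact hζ u hu) hx'
      (by
        rintro _ ⟨u, hu, rfl⟩
        exact x.2 u hu)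
    constructor
    · intro h
      have h1 : ∀ σ ∈ U.map (locD (pPrime p)), kumX p (x : Qb) σ = 0 := by
        rintro _ ⟨u, hu, rfl⟩
        have h2 := congrArg (fun z : ↥(XU p U hζ) => (z : ↥U → ZMod p) ⟨u, hu⟩) h
        simp only [cl_of_ne p U hζ hx] at h2
        exact h2
      obtain ⟨y, hy, hyS⟩ := key.1 h1
      refine ⟨⟨y, fun u hu => hyS _ ⟨u, hu, rfl⟩⟩, Subtype.ext ?_⟩
      exact hy
    · rintro ⟨y, rfl⟩
      apply Subtype.ext
      rw [cl_of_ne p U hζ hx]
      funext s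
      have h1 := key.2 ⟨(y : Qb), rfl, by
        rintro _ ⟨u, hu, rfl⟩
        exact y.2 u hu⟩
      exact h1 _ ⟨s, s.2, rfl⟩

/-- **the concrete Kummer datum of `U`.** -/
noncomputable def kumDatum : KumDatum (Bp p) U p (omegaP p) where
  X := ↥(XU p U hζ)
  ρX := rhoX p U hζ
  kum f := (f : ↥U → ZMod p)
  kum_add _ _ _ := rfl
  kum_mul := by
    rintro ⟨_, x, hx, hxK, rfl⟩ s t
    show kumX p x (locD (pPrime p) ((s * t : ↥U) : Gp p)) =
      kumX p x (locD (pPrime p) (s : Gp p)) + kumX p x (locD (pPrime p) (t : Gp p))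
    rw [Subgroup.coe_mul, map_mul]
    exact kumX_mul_apply hx (hζ s s.2) (hxK s s.2) (hxK t t.2)
  kum_level := by
    rintro ⟨_, x, hx, hxK, rfl⟩
    refine ⟨_, LecUnram5.adjoin_mem_sets (pPrime p) (root p x), fun s v hv => ?_⟩
    show kumX p x (locD (pPrime p) ((s * v : ↥U) : Gp p)) = kumX p x (locD (pPrime p) (s : Gp p))
    rw [Subgroup.coe_mul, map_mul]
    exact kumX_mul_of_fix (LecKummer5.apply_eq_of_mem_fixingSubgroup hv)
  kum_inj f h := Subtype.ext (funext h)
  kum_conj g f s := by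
    show actFun p U g (f : ↥U → ZMod p) _ = _
    rw [actFun_apply]
    have h1 : conjU p U g ⟨g * s * g⁻¹, hUn.conj_mem s s.2 g⟩ = s := by
      apply Subtype.ext
      show g⁻¹ * (g * s * g⁻¹) * g = s
      group
    rw [h1]

end Fermat.Agent.W56.LecKumInst5
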