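/-
Programme W56 (target S56), chapter (D4) = (LEC-p), helper5: **the adapter**
`LecUData7.UnitsBound → LecContracts7.UFieldKU → LecPTame5.KumCountP`, hence
`lecPAd0 : UnitsBound → UFieldKU → SelBound9.LecPAd0`.

* `finite_eqHom` : for every Kummer datum of an open normal `U ≤ Γ_p` of index prime to `p`,
  `Hom_{Γ_p}(P, X)` is finite (bridge into `invHom(U, P^∨(1)) ⊆ H¹(Γ_p, P^∨(1))`, finite);
* `card_eqHom_eq` : `Hom_{Γ_p}(P, Y) = Hom_{Γ_p/U}(P, Y)` (helper7's `LecStep7.HomG`);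
* `kumCountP`.
-/
import Mathlib
import Fermat.Agent.W56.LecKumInst5
import Fermat.Agent.W56.LecContracts7
import Fermat.Agent.W56.LecAd0P5

set_option autoImplicit false
set_option linter.unusedSectionVars false

open CategoryTheory ExtCitation

namespace Fermat.Agent.W56.LecKumAdapt5

open Fermat.Agent.PT.PRO Fermat.Agent.PT.BR Fermat.Agent.W56.Defs9
  Fermat.Agent.W56.LecKumBridge5 Fermat.Agent.W56.LecPTame5 Fermat.Agent.W56.LecKumRel5
  Fermat.Agent.W56.LecField7 Fermat.Agent.S14.Fields Fermat.Agent.W56.LecUData7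
  Fermat.Agent.W56.LecKumInst5 Fermat.Agent.W56.LecStep7 Fermat.Agent.W56.LecCores5
  Fermat.Agent.PT.PRO.LevelCoh28

local notation "Qb" => AlgebraicClosure ℚ

variable (p : ℕ) [hpF : Fact p.Prime] (U : Subgroup (Gp p)) [hUn : U.Normal]

/-! ### Finiteness of `Hom_{Γ_p}(P, X)` -/

section Fin

variable {P : Type} [AddCommGroup P] [Module (ZMod p) P] [hPfin : Finite P]
  (ρP : Representation (ZMod p) (Gp p) P)

/-- `P^∨(1)` as a `Γ_p`-module over `𝔽_p`. -/
noncomputable abbrev dualP : Rep.{0} (ZMod p) (Gp p) := (Rep.of ρP).dualTwist (omegaP p)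

theorem dualP_apply (g : Gp p) (n : dualP p ρP) (π : P) :
    (dualP p ρP).ρ g n π = ((omegaP p g : (ZMod p)ˣ) : ZMod p) * n (ρP g⁻¹ π) := by
  show ((Rep.of ρP).dualTwist (omegaP p)).ρ g n π = _
  rw [Rep.dualTwist_ρ_apply, LinearMap.smul_apply, LinearMap.comp_apply, smul_eq_mul]

/-- the evaluation pairing `P^∨(1) × P → 𝔽_p`. -/
noncomputable def evB : dualP p ρP →+ (P → ZMod p) where
  toFun n π := n π
  map_zero' := rfl
  map_add' _ _ := rfl

theorem finite_eqHom (D : KumDatum (Bp p) U p (omegaP p))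
    (hopen : ∃ V ∈ (Bp p).sets, V ≤ U) (hidx : ¬ p ∣ U.index)
    (hω : ∀ s ∈ U, omegaP p s = 1) (htriv : ∀ u ∈ U, ∀ π, ρP u π = π) :
    Finite (EqHom p ρP D.ρX) := by
  obtain ⟨V, hV, hVU⟩ := hopen
  have hVfin : V.FiniteIndex := (Bp p).isBasis.finiteIndex V hV
  have hUf : U.FiniteIndex := Subgroup.finiteIndex_of_le hVU
  have hNfd : Module.Finite (ZMod p) (dualP p ρP) :=
    (inferInstance : Module.Finite (ZMod p) (Module.Dual (ZMod p) P))
  have hNtriv : ∀ h ∈ U, ∀ n : dualP p ρP, (dualP p ρP).ρ h n = n := by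
    intro h hh n
    apply LinearMap.ext
    intro π
    rw [dualP_apply, hω h hh, Units.val_one, one_mul, htriv _ (U.inv_mem hh)]
  have hNd : LevelCoh28.IsDiscrete (LevelBridge13.pullSets (locD (pPrime p))) (dualP p ρP) :=
    fun n => ⟨V, hV, fun s hs => hNtriv s (hVU hs) n⟩
  have hH1 : Finite (H1 (Bp p) (dualP p ρP)) :=
    LecV5.finite_H1_loc (k := ZMod p) p (pPrime p) (dualP p ρP) hNd
  have hidx' : ((U.index : ℕ) : ZMod p) ≠ 0 := by
    rw [Ne, ZMod.natCast_eq_zero_iff]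
    exact hidx
  have hinv : Finite ↥(invHom (Bp p) (dualP p ρP) U) :=
    Finite.of_injective _ (corH1_injective hNtriv hidx' ⟨V, hV, hVU⟩)
  exact Finite.of_injective _
    (bridge_injective D (dualP p ρP) ρP (evB p ρP) (fun l => ⟨l, fun _ => rfl⟩)
      (fun n h => LinearMap.ext h)
      (fun g n π => by
        show (dualP p ρP).ρ g n (ρP g π) = _
        rw [dualP_apply, ← Module.End.mul_apply, ← map_mul, inv_mul_cancel, map_one,
          Module.End.one_apply]
        rfl))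

end Fin

/-! ### Descent to `Γ_p ⧸ U` -/

section Descent

variable {P : Type} [AddCommGroup P] [Module (ZMod p) P]
  (ρP : Representation (ZMod p) (Gp p) P) (htriv : ∀ u ∈ U, ∀ π, ρP u π = π)

/-- the representation of `Γ_p ⧸ U` on `P`. -/
noncomputable def rhoPG : Representation (ZMod p) (Gp p ⧸ U) P :=
  QuotientGroup.lift U ρP fun u hu => LinearMap.ext (htriv u hu)

theorem rhoPG_mk (g : Gp p) : rhoPG p U ρP htriv (QuotientGroup.mk g) = ρP g := rfl

/-- `Hom_{Γ_p}(P, Y) ≃ Hom_{Γ_p/U}(P, Y)`. -/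
theorem card_eqHom_eq {Y : Type} [AddCommGroup Y] [Module (ZMod p) Y]
    (ρY' : Representation (ZMod p) (Gp p) Y) (ρY : Representation (ZMod p) (Gp p ⧸ U) Y)
    (h : ∀ g y, ρY' g y = ρY (QuotientGroup.mk g) y) :
    Nat.card (EqHom p ρP ρY') = Nat.card ↥(HomG (rhoPG p U ρP htriv) ρY) := by
  refine Nat.card_congr (Equiv.subtypeEquivRight fun φ => ?_)
  constructor
  · intro hφ
    refine mem_HomG.2 fun g x => ?_
    obtain ⟨g, rfl⟩ := QuotientGroup.mk_surjective g
    rw [rhoPG_mk, hφ, h]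
  · intro hφ g π
    have := mem_HomG.1 hφ (QuotientGroup.mk g) π
    rw [rhoPG_mk] at this
    rw [this, h]

end Descent

/-! ### The adapter -/

/-- `ω` on `Γ_p ⧸ U`. -/
noncomputable def chiG (hω : ∀ s ∈ U, omegaP p s = 1) : (Gp p ⧸ U) →* (ZMod p)ˣ :=
  QuotientGroup.lift U (omegaP p) fun u hu => hω u hu

theorem chiG_mk (hω : ∀ s ∈ U, omegaP p s = 1) (g : Gp p) :
    chiG p U hω (QuotientGroup.mk g) = omegaP p g := rfl

/-- **the adapter**: the units count and the instantiation of the field data give the contract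
`KumCountP`. -/
theorem kumCountP (hUB : UnitsBound) (hUF : LecContracts7.UFieldKU) : KumCountP := by
  intro p _ hp2 U _ hopen hidx hω
  have hp : p.Prime := Fact.out
  have hζ : ∀ u ∈ U, locD (pPrime p) u (zeta p) = zeta p :=
    fun u hu => apply_zeta_of_omegaP p (hω u hu)
  refine ⟨kumDatum p U hζ, ?_⟩
  intro P _ _ _ ρP htriv
  have hcop : U.index.Coprime p := ((Nat.Prime.coprime_iff_not_dvd hp).2 hidx).symm
  obtain ⟨hfinG, w, κ, iF, iFin, iAct, red, hUField⟩ := hUF p (pPrime p) rfl U hopen hcop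
    (fun u hu ξ hξ => apply_root_of_unity p (hζ u hu) hξ)
  have hcopG : (Nat.card (Gp p ⧸ U)).Coprime p := by
    rw [← Subgroup.index_eq_card]
    exact hcop
  have hfinHom : Finite ↥(HomG (rhoPG p U ρP htriv) (rhoXG p U hζ)) := by
    have h1 := finite_eqHom p U ρP (kumDatum p U hζ) hopen hidx hω htriv
    have h2 := card_eqHom_eq p U ρP htriv (rhoX p U hζ) (rhoXG p U hζ) (fun _ _ => rfl)
    have h3 : Nat.card (EqHom p ρP (rhoX p U hζ)) ≠ 0 := by
      have : Finite (EqHom p ρP (rhoX p U hζ)) := h1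
      have hne : Nonempty (EqHom p ρP (rhoX p U hζ)) :=
        ⟨⟨0, fun g π => by rw [LinearMap.zero_apply, LinearMap.zero_apply, map_zero]⟩⟩
      exact Nat.card_pos.ne'
    rw [h2] at h3
    exact (Nat.card_ne_zero.1 h3).2
  have hχ : ∀ (g : Gp p ⧸ U) (ξ : ↥(KU (pPrime p) U)), ξ ^ p = 1 →
      g • ξ = ξ ^ ((chiG p U hω g : (ZMod p)ˣ) : ZMod p).val := by
    intro g ξ hξ
    obtain ⟨g, rfl⟩ := QuotientGroup.mk_surjective g
    apply Subtype.ext
    rw [mk_smul_coe, SubmonoidClass.coe_pow, chiG_mk]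
    have hξ' : (ξ : Qb) ^ p = 1 := by
      have := congrArg (fun z : ↥(KU (pPrime p) U) => (z : Qb)) hξ
      simpa using this
    obtain ⟨i, -, hi⟩ := (zeta_spec p).eq_pow_of_pow_eq_one hξ'
    rw [← hi, map_pow, apply_zeta, ← pow_mul, ← pow_mul, mul_comm i, pow_mul, pow_mul]
    congr 1
  have key := hUB w p red hp2 hUField hcopG (rhoXG p U hζ) (cl p U hζ) (uCl p U hζ)
    (chiG p U hω) hχ (rhoPG p U ρP htriv)
  have e1 := card_eqHom_eq p U ρP htriv (Representation.trivial (ZMod p) (Gp p) (ZMod p))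
    (chiRep (1 : (Gp p ⧸ U) →* (ZMod p)ˣ)) (fun g y => by
      rw [chiRep_apply, MonoidHom.one_apply, Units.val_one, one_mul]
      rfl)
  have e2 := card_eqHom_eq p U ρP htriv (omegaRep (omegaP p)) (chiRep (chiG p U hω))
    (fun g y => by rw [chiRep_apply, chiG_mk, omegaRep_apply])
  have e3 := card_eqHom_eq p U ρP htriv (rhoX p U hζ) (rhoXG p U hζ) (fun _ _ => rfl)
  show Nat.card (EqHom p ρP (Representation.trivial (ZMod p) (Gp p) (ZMod p))) * Nat.card P *
    Nat.card (EqHom p ρP (omegaRep (omegaP p))) ≤ Nat.card (EqHom p ρP (rhoX p U hζ))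
  rw [e1, e2, e3]
  calc _ = Nat.card ↥(HomG (rhoPG p U ρP htriv) (chiRep (1 : (Gp p ⧸ U) →* (ZMod p)ˣ))) *
        Nat.card ↥(HomG (rhoPG p U ρP htriv) (chiRep (chiG p U hω))) * Nat.card P := by ring
    _ ≤ _ := key

/-- **(LEC-p) for `ad⁰ρ̄`** from the two remaining arithmetic statements. -/
theorem lecPAd0 (hUB : UnitsBound) (hUF : LecContracts7.UFieldKU) : SelBound9.LecPAd0 :=
  LecAd0P5.lecPAd0_of_kumCount (kumCountP hUB hUF)

end Fermat.Agent.W56.LecKumAdapt5
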