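/-
Programme W56 (S56), chapter (EC-2) "right exactness of H²", helper2.

`Coh3Lev2`: **level cochains in degree 3** for the level cohomology of `PT/PRO/LevelCoh28`, and the
property `Triv3 𝓑 A` ("`H³(G, A) = 0`": every level 3-cocycle of `A` is the coboundary of a level
2-cochain), with its formal calculus for a short exact sequence `0 → A → B → C → 0` of discrete
modules:

* `surjective_mapH2_of_triv3`      : `Triv3 A` ⟹ `H²(B) → H²(C)` is onto;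
* `triv3_of_exact`                 : `Triv3 A ∧ Triv3 C` ⟹ `Triv3 B`;
* `triv3_of_retract`               : `π ∘ ι = m` with `m` invertible, `Triv3 B` ⟹ `Triv3 A`;
* `triv3_of_triv3_of_H2_eq_zero`   : `Triv3 B ∧ H²(C) = 0` ⟹ `Triv3 A`;
* `H2_eq_zero_of_triv3`            : `Triv3 A ∧ H²(B) = 0` ⟹ `H²(C) = 0`.
-/
import Mathlib
import Fermat.Agent.PT.PRO.LevelCoh28
import Fermat.Agent.PT.PRO.LevelCohColim28

set_option autoImplicit false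
set_option linter.unusedSectionVars false

universe u

open CategoryTheory groupCohomology

namespace Fermat.Agent.W56.Coh3Lev2

open Fermat.Agent.PT.PRO.LevelCoh28 Fermat.Agent.PT.PRO.LevelCohColim28

variable {k G : Type u} [CommRing k] [Group G]

/-! ### Level functions of three variables -/

/-- `f` is invariant under right translation by `U` in the three variables. -/
def InvOn₃ (U : Subgroup G) {X : Type*} (f : G × G × G → X) : Prop :=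
  ∀ g g' g'', ∀ s ∈ U, ∀ s' ∈ U, ∀ s'' ∈ U, f (g * s, g' * s', g'' * s'') = f (g, g', g'')

/-- A level 3-cochain. -/
def IsLevel₃ (𝓤 : Set (Subgroup G)) {X : Type*} (f : G × G × G → X) : Prop :=
  ∃ U ∈ 𝓤, InvOn₃ U f

theorem InvOn₃.mono {U V : Subgroup G} (h : V ≤ U) {X : Type*} {f : G × G × G → X}
    (hf : InvOn₃ U f) : InvOn₃ V f :=
  fun g g' g'' s hs s' hs' s'' hs'' => hf g g' g'' s (h hs) s' (h hs') s'' (h hs'')

theorem InvOn₃.comp {U : Subgroup G} {X Y : Type*} {f : G × G × G → X} (hf : InvOn₃ U f)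
    (φ : X → Y) : InvOn₃ U (φ ∘ f) :=
  fun g g' g'' s hs s' hs' s'' hs'' => by
    simp only [Function.comp_apply, hf g g' g'' s hs s' hs' s'' hs'']

variable {𝓤 : Set (Subgroup G)}

theorem IsLevel₃.comp {X Y : Type*} {f : G × G × G → X} (hf : IsLevel₃ 𝓤 f) (φ : X → Y) :
    IsLevel₃ 𝓤 (φ ∘ f) := by
  obtain ⟨U, hU, h⟩ := hf
  exact ⟨U, hU, h.comp φ⟩

theorem isLevel₃_const (h𝓤 : IsLevelBasis 𝓤) {X : Type*} (x : X) :
    IsLevel₃ 𝓤 (fun _ : G × G × G => x) := by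
  obtain ⟨U, hU⟩ := h𝓤.nonempty
  exact ⟨U, hU, fun _ _ _ _ _ _ _ _ _ => rfl⟩

theorem IsLevel₃.add (h𝓤 : IsLevelBasis 𝓤) {X : Type*} [Add X] {f f' : G × G × G → X}
    (hf : IsLevel₃ 𝓤 f) (hf' : IsLevel₃ 𝓤 f') : IsLevel₃ 𝓤 (f + f') := by
  obtain ⟨U, hU, h⟩ := hf
  obtain ⟨V, hV, h'⟩ := hf'
  obtain ⟨W, hW, hle⟩ := h𝓤.directed U hU V hV
  refine ⟨W, hW, fun g g' g'' s hs s' hs' s'' hs'' => ?_⟩
  simp only [Pi.add_apply]
  rw [h g g' g'' s (hle hs).1 s' (hle hs').1 s'' (hle hs'').1,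
    h' g g' g'' s (hle hs).2 s' (hle hs').2 s'' (hle hs'').2]

theorem IsLevel₃.sub (h𝓤 : IsLevelBasis 𝓤) {X : Type*} [Sub X] {f f' : G × G × G → X}
    (hf : IsLevel₃ 𝓤 f) (hf' : IsLevel₃ 𝓤 f') : IsLevel₃ 𝓤 (f - f') := by
  obtain ⟨U, hU, h⟩ := hf
  obtain ⟨V, hV, h'⟩ := hf'
  obtain ⟨W, hW, hle⟩ := h𝓤.directed U hU V hV
  refine ⟨W, hW, fun g g' g'' s hs s' hs' s'' hs'' => ?_⟩
  simp only [Pi.sub_apply]
  rw [h g g' g'' s (hle hs).1 s' (hle hs').1 s'' (hle hs'').1,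
    h' g g' g'' s (hle hs).2 s' (hle hs').2 s'' (hle hs'').2]

/-- The coboundary of a level 2-cochain with values in a discrete module is a level 3-cochain. -/
theorem isLevel₃_d₂₃ (h𝓤 : IsLevelBasis 𝓤) {A : Rep.{u} k G} (hA : IsDiscrete 𝓤 A)
    {f : G × G → A} (hf : IsLevel₂ 𝓤 f) : IsLevel₃ 𝓤 ((d₂₃ A).hom f) := by
  obtain ⟨U, hU, hn, hinv, hfix⟩ := isLevel₂_exists_normal_fixing h𝓤 hA hf
  refine ⟨U, hU, fun g g' g'' s hs s' hs' s'' hs'' => ?_⟩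
  simp only [d₂₃_hom_apply]
  have conj : ∀ x : G, ∀ t ∈ U, x⁻¹ * t * x ∈ U := fun x t ht => by
    have := hn.conj_mem t ht x⁻¹
    simpa using this
  have h1 : g * s * (g' * s') = g * g' * (g'⁻¹ * s * g' * s') := by group
  have h2 : g'⁻¹ * s * g' * s' ∈ U := U.mul_mem (conj g' s hs) hs'
  have h3 : g' * s' * (g'' * s'') = g' * g'' * (g''⁻¹ * s' * g'' * s'') := by group
  have h4 : g''⁻¹ * s' * g'' * s'' ∈ U := U.mul_mem (conj g'' s' hs') hs''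
  rw [h1, h3, hinv (g * g') g'' _ h2 s'' hs'', hinv g (g' * g'') s hs _ h4,
    hinv g' g'' s' hs' s'' hs'', hinv g g' s hs s' hs', map_mul, Module.End.mul_apply,
    hfix s hs]

/-! ### The differential `C³ → C⁴` -/

/-- The inhomogeneous differential in degree `3 → 4`. -/
def dThree (A : Rep.{u} k G) : (G × G × G → A) →ₗ[k] (G × G × G × G → A) where
  toFun f x := A.ρ x.1 (f (x.2.1, x.2.2.1, x.2.2.2)) - f (x.1 * x.2.1, x.2.2.1, x.2.2.2)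
    + f (x.1, x.2.1 * x.2.2.1, x.2.2.2) - f (x.1, x.2.1, x.2.2.1 * x.2.2.2)
    + f (x.1, x.2.1, x.2.2.1)
  map_add' f f' := by
    funext x
    simp only [Pi.add_apply, map_add]
    abel
  map_smul' c f := by
    funext x
    simp only [Pi.smul_apply, map_smul, RingHom.id_apply, smul_add, smul_sub]

theorem dThree_apply (A : Rep.{u} k G) (f : G × G × G → A) (a b c d : G) :
    dThree A f (a, b, c, d) = A.ρ a (f (b, c, d)) - f (a * b, c, d) + f (a, b * c, d)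
      - f (a, b, c * d) + f (a, b, c) := rfl

/-- `d ∘ d = 0` in degrees `2 → 3 → 4`. -/
theorem dThree_d₂₃ (A : Rep.{u} k G) (f : G × G → A) : dThree A ((d₂₃ A).hom f) = 0 := by
  funext ⟨a, b, c, d⟩
  simp only [dThree_apply, d₂₃_hom_apply, map_add, map_sub, map_mul, Module.End.mul_apply,
    mul_assoc, Pi.zero_apply]
  abel

variable {A B C : Rep.{u} k G}

theorem dThree_comp (φ : A →ₗ[k] B) (hφ : ∀ g a, φ (A.ρ g a) = B.ρ g (φ a))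
    (f : G × G × G → A) : dThree B (φ ∘ f) = φ ∘ dThree A f := by
  funext ⟨a, b, c, d⟩
  simp only [dThree_apply, Function.comp_apply, map_add, map_sub, hφ]

/-! ### `H³ = 0` -/

/-- **`H³(G, A) = 0`** in the level model: every level 3-cocycle is the coboundary of a level
2-cochain. -/
def Triv3 (𝓑 : LevelBasis G) (A : Rep.{u} k G) : Prop :=
  ∀ f : G × G × G → A, IsLevel₃ 𝓑.sets f → dThree A f = 0 →
    ∃ h : G × G → A, IsLevel₂ 𝓑.sets h ∧ (d₂₃ A).hom h = f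

/-- **`H³(G, A)(p) = 0`** in the level model: every level 3-cocycle whose class is `p`-primary
(`p ^ n • f` is the coboundary of a level 2-cochain) is the coboundary of a level 2-cochain. -/
def Triv3P (p : ℕ) (𝓑 : LevelBasis G) (A : Rep.{u} k G) : Prop :=
  ∀ f : G × G × G → A, IsLevel₃ 𝓑.sets f → dThree A f = 0 →
    (∃ n : ℕ, ∃ b : G × G → A, IsLevel₂ 𝓑.sets b ∧ (d₂₃ A).hom b = (p ^ n) • f) →
    ∃ h : G × G → A, IsLevel₂ 𝓑.sets h ∧ (d₂₃ A).hom h = f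

theorem Triv3.triv3P {𝓑 : LevelBasis G} {A : Rep.{u} k G} (h : Triv3 𝓑 A) (p : ℕ) :
    Triv3P p 𝓑 A := fun f hf hd _ => h f hf hd

variable {𝓑 : LevelBasis G}

section Exact

variable (φ : A →ₗ[k] B) (hφ : ∀ g a, φ (A.ρ g a) = B.ρ g (φ a))
  (ψ : B →ₗ[k] C) (hψ : ∀ g b, ψ (B.ρ g b) = C.ρ g (ψ b))
  (hinj : Function.Injective φ) (hsurj : Function.Surjective ψ)
  (hex : ∀ b, ψ b = 0 ↔ ∃ a, φ a = b)

include hinj in
theorem isLevel₃_of_comp {f : G × G × G → A} (h : IsLevel₃ 𝓑.sets (φ ∘ f)) :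
    IsLevel₃ 𝓑.sets f := by
  obtain ⟨U, hU, h⟩ := h
  exact ⟨U, hU, fun g g' g'' s hs s' hs' s'' hs'' => hinj (h g g' g'' s hs s' hs' s'' hs'')⟩

include hφ hinj hex in
/-- A level 3-cocycle of `B` killed by `ψ` comes from a level 3-cocycle of `A`. -/
theorem exists_pre₃ {F : G × G × G → B} (hF : IsLevel₃ 𝓑.sets F) (hdF : dThree B F = 0)
    (hψF : ψ ∘ F = 0) :
    ∃ F' : G × G × G → A, IsLevel₃ 𝓑.sets F' ∧ dThree A F' = 0 ∧ φ ∘ F' = F := by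
  have h1 : φ ∘ (pre φ ∘ F) = F := by
    funext x
    exact φ_pre φ ψ hex (congrFun hψF x)
  refine ⟨pre φ ∘ F, isLevel₃_of_comp (𝓑 := 𝓑) φ hinj (by rw [h1]; exact hF), ?_, h1⟩
  funext x
  apply hinj
  have h2 := congrFun (dThree_comp φ hφ (pre φ ∘ F)) x
  rw [h1, hdF] at h2
  simp only [Function.comp_apply, Pi.zero_apply] at h2 ⊢
  rw [← h2, map_zero]

include hsurj in
theorem ψ_comp_surjInv₂ (c : G × G → C) : ψ ∘ (Function.surjInv hsurj ∘ c) = c := by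
  funext g
  exact Function.surjInv_eq hsurj (c g)

include hφ hψ hinj hex hsurj in
/-- **`H³(A) = 0` ⟹ level 2-cocycles lift along `ψ`.** -/
theorem exists_lift_Z2 (hB : IsDiscrete 𝓑.sets B) (hT : Triv3 𝓑 A) {c : G × G → C}
    (hc : c ∈ Z2 𝓑 C) : ∃ b : G × G → B, b ∈ Z2 𝓑 B ∧ ψ ∘ b = c := by
  set b₀ : G × G → B := Function.surjInv hsurj ∘ c with hb₀
  have hb₀l : IsLevel₂ 𝓑.sets b₀ := hc.2.comp _
  have hψb₀ : ψ ∘ b₀ = c := ψ_comp_surjInv₂ ψ hsurj c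
  have hψF : ψ ∘ (d₂₃ B).hom b₀ = 0 := by
    rw [← d₂₃_comp ψ hψ, hψb₀]
    exact d₂₃_eq_zero_of_mem_Z2 𝓑 C hc
  obtain ⟨F', hF'l, hF'd, hF'⟩ := exists_pre₃ (𝓑 := 𝓑) φ hφ ψ hinj hex
    (isLevel₃_d₂₃ 𝓑.isBasis hB hb₀l) (dThree_d₂₃ B b₀) hψF
  obtain ⟨h, hhl, hh⟩ := hT F' hF'l hF'd
  refine ⟨b₀ - φ ∘ h, mem_Z2_of 𝓑 B ?_ (hb₀l.sub 𝓑.isBasis (hhl.comp _)), ?_⟩
  · rw [map_sub, d₂₃_comp φ hφ, hh, hF', sub_self]
  · funext x
    have := congrFun hψb₀ x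
    simp only [Function.comp_apply, Pi.sub_apply, map_sub] at this ⊢
    rw [this, ψ_φ φ ψ hex, sub_zero]

include hφ hinj hex hsurj in
/-- **(a)** `H³(A) = 0` ⟹ `H²(B) → H²(C)` is onto. -/
theorem surjective_mapH2_of_triv3 (hB : IsDiscrete 𝓑.sets B) (hT : Triv3 𝓑 A) :
    Function.Surjective (mapH2 (𝓑 := 𝓑) ψ hψ) := by
  intro y
  obtain ⟨c, rfl⟩ := H2mk_surjective 𝓑 C y
  obtain ⟨b, hb, hbc⟩ := exists_lift_Z2 (𝓑 := 𝓑) φ hφ ψ hψ hinj hsurj hex hB hT c.2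
  refine ⟨H2mk 𝓑 B ⟨b, hb⟩, ?_⟩
  rw [mapH2_mk]
  congr 1
  exact Subtype.ext hbc

include hφ hψ hinj hex hsurj in
/-- **(b)** `H³(A) = 0` and `H³(C) = 0` ⟹ `H³(B) = 0`. -/
theorem triv3_of_exact (hB : IsDiscrete 𝓑.sets B) (hTA : Triv3 𝓑 A) (hTC : Triv3 𝓑 C) :
    Triv3 𝓑 B := by
  intro F hF hdF
  have h1 : dThree C (ψ ∘ F) = 0 := by
    rw [dThree_comp ψ hψ, hdF]
    funext x
    simp
  obtain ⟨h'', hh''l, hh''⟩ := hTC (ψ ∘ F) (hF.comp _) h1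
  set h₀ : G × G → B := Function.surjInv hsurj ∘ h'' with hh₀
  have hh₀l : IsLevel₂ 𝓑.sets h₀ := hh''l.comp _
  have hψh₀ : ψ ∘ h₀ = h'' := ψ_comp_surjInv₂ ψ hsurj h''
  have h2 : ψ ∘ (F - (d₂₃ B).hom h₀) = 0 := by
    have e : ψ ∘ (F - (d₂₃ B).hom h₀) = ψ ∘ F - ψ ∘ (d₂₃ B).hom h₀ := by
      funext x
      simp
    rw [e, ← d₂₃_comp ψ hψ, hψh₀, hh'', sub_self]
  have h3 : dThree B (F - (d₂₃ B).hom h₀) = 0 := by
    rw [map_sub, hdF, dThree_d₂₃, sub_self]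
  obtain ⟨F', hF'l, hF'd, hF'⟩ := exists_pre₃ (𝓑 := 𝓑) φ hφ ψ hinj hex
    (hF.sub 𝓑.isBasis (isLevel₃_d₂₃ 𝓑.isBasis hB hh₀l)) h3 h2
  obtain ⟨h', hh'l, hh'⟩ := hTA F' hF'l hF'd
  refine ⟨h₀ + φ ∘ h', hh₀l.add 𝓑.isBasis (hh'l.comp _), ?_⟩
  rw [map_add, d₂₃_comp φ hφ, hh', hF']
  abel

include hφ hψ hinj hex hsurj in
/-- **(d)** `H³(B) = 0` and `H²(C) = 0` ⟹ `H³(A) = 0`. -/
theorem triv3_of_triv3_of_H2_eq_zero (hB : IsDiscrete 𝓑.sets B) (hTB : Triv3 𝓑 B)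
    (hC : ∀ c ∈ Z2 𝓑 C, c ∈ B2 𝓑 C) : Triv3 𝓑 A := by
  intro F hF hdF
  have h1 : dThree B (φ ∘ F) = 0 := by
    rw [dThree_comp φ hφ, hdF]
    funext x
    simp
  obtain ⟨b, hbl, hb⟩ := hTB (φ ∘ F) (hF.comp _) h1
  have h2 : ψ ∘ b ∈ Z2 𝓑 C := by
    refine mem_Z2_of 𝓑 C ?_ (hbl.comp _)
    rw [d₂₃_comp ψ hψ, hb]
    funext x
    simp only [Function.comp_apply]
    exact ψ_φ φ ψ hex _
  obtain ⟨c, hcl, hc⟩ := (mem_B2_iff 𝓑 C _).1 (hC _ h2)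
  set c₀ : G → B := Function.surjInv hsurj ∘ c with hc₀
  have hc₀l : IsLevel₁ 𝓑.sets c₀ := hcl.comp _
  have hψc₀ : ψ ∘ c₀ = c := ψ_comp_surjInv ψ hsurj c
  set b₁ : G × G → B := b - (d₁₂ B).hom c₀ with hb₁
  have hb₁l : IsLevel₂ 𝓑.sets b₁ := hbl.sub 𝓑.isBasis (isLevel₂_d₁₂ 𝓑.isBasis hB hc₀l)
  have h3 : ∀ x, ψ (b₁ x) = 0 := fun x => by
    have e1 := congrFun (d₁₂_comp ψ hψ c₀) x
    rw [hψc₀, hc] at e1
    simp only [Function.comp_apply] at e1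
    simp only [hb₁, Pi.sub_apply, map_sub, ← e1, sub_self]
  have h4 : φ ∘ (pre φ ∘ b₁) = b₁ := by
    funext x
    exact φ_pre φ ψ hex (h3 x)
  refine ⟨pre φ ∘ b₁, isLevel₂_of_comp (𝓑 := 𝓑) φ hinj (by rw [h4]; exact hb₁l), ?_⟩
  funext x
  apply hinj
  have e2 := congrFun (d₂₃_comp φ hφ (pre φ ∘ b₁)) x
  rw [h4] at e2
  simp only [Function.comp_apply] at e2
  rw [← e2, hb₁, map_sub, hb]
  have e3 : (d₂₃ B).hom ((d₁₂ B).hom c₀) = 0 := by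
    have := d₁₂_apply_mem_cocycles₂ c₀
    rwa [cocycles₂, LinearMap.mem_ker] at this
  rw [e3, sub_zero]
  rfl

include hφ hψ hinj hex hsurj in
/-- **(e)** `H³(A) = 0` and `H²(B) = 0` ⟹ `H²(C) = 0`. -/
theorem H2_eq_zero_of_triv3 (hB : IsDiscrete 𝓑.sets B) (hTA : Triv3 𝓑 A)
    (hH2B : ∀ b ∈ Z2 𝓑 B, b ∈ B2 𝓑 B) : ∀ c ∈ Z2 𝓑 C, c ∈ B2 𝓑 C := by
  intro c hc
  obtain ⟨b, hb, hbc⟩ := exists_lift_Z2 (𝓑 := 𝓑) φ hφ ψ hψ hinj hsurj hex hB hTA hc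
  obtain ⟨b₁, hb₁l, hb₁⟩ := (mem_B2_iff 𝓑 B _).1 (hH2B b hb)
  refine (mem_B2_iff 𝓑 C _).2 ⟨ψ ∘ b₁, hb₁l.comp _, ?_⟩
  rw [d₁₂_comp ψ hψ, hb₁, hbc]

end Exact

/-- **(c)** `H³ = 0` passes to a retract up to a unit: `π ∘ ι = m` with `m` invertible. -/
theorem triv3_of_retract (ι : A →ₗ[k] B) (hι : ∀ g a, ι (A.ρ g a) = B.ρ g (ι a))
    (π : B →ₗ[k] A) (hπ : ∀ g b, π (B.ρ g b) = A.ρ g (π b)) (m : k) (hm : IsUnit m)
    (hπι : ∀ a, π (ι a) = m • a) (hTB : Triv3 𝓑 B) : Triv3 𝓑 A := by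
  intro F hF hdF
  have h1 : dThree B (ι ∘ F) = 0 := by
    rw [dThree_comp ι hι, hdF]
    funext x
    simp
  obtain ⟨h, hhl, hh⟩ := hTB (ι ∘ F) (hF.comp _) h1
  obtain ⟨u, rfl⟩ := hm
  refine ⟨(↑u⁻¹ : k) • (π ∘ h), (hhl.comp π).comp ((↑u⁻¹ : k) • ·), ?_⟩
  rw [map_smul, d₂₃_comp π hπ, hh]
  funext x
  simp only [Pi.smul_apply, Function.comp_apply, hπι, smul_smul, Units.inv_mul, one_smul]

end Fermat.Agent.W56.Coh3Lev2
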