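/-
Programme W56 (S56), chapter (EC-2) "right exactness of H²", helper2.

`Shapiro3Lev2`: **Shapiro's lemma in degree 3** for the level cohomology, in the form
`Triv3 𝓑H X ↔ Triv3 𝓑G (scoind i 𝓑G X)` (`H³(H, X) = 0 ↔ H³(G, Coind X) = 0`), by dimension shifting
along `0 → X → smoothFun X → smoothFun X / X → 0` exactly as in `PT/PRO/ShapiroLevel28`
(degrees 1, 2): `smoothFun` and `Coind (smoothFun)` are acyclic in degree 3 by the explicit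
contraction.
-/
import Mathlib
import Fermat.Agent.W56.Coh3Lev2
import Fermat.Agent.PT.PRO.ShapiroLevel28

set_option autoImplicit false
set_option linter.unusedSectionVars false

universe u

open CategoryTheory groupCohomology

namespace Fermat.Agent.W56.Shapiro3Lev2

open Fermat.Agent.PT.PRO.LevelCoh28 Fermat.Agent.PT.PRO.LevelCohRes28
  Fermat.Agent.PT.PRO.SmoothCoind28 Fermat.Agent.PT.PRO.ShapiroLevel28
  Fermat.Agent.W56.Coh3Lev2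

variable {k G H : Type u} [CommRing k] [Group G] [Group H]

/-- "`H²(G, A) = 0`" at cochain level. -/
def Triv2 (𝓑 : LevelBasis G) (A : Rep.{u} k G) : Prop := ∀ c : G × G → A, c ∈ Z2 𝓑 A → c ∈ B2 𝓑 A

theorem triv2_of_subsingleton (𝓑 : LevelBasis G) (A : Rep.{u} k G) [Subsingleton (H2 𝓑 A)] :
    Triv2 𝓑 A := fun c hc =>
  (H2mk_eq_zero_iff 𝓑 A ⟨c, hc⟩).1 (Subsingleton.elim _ _)

theorem subsingleton_H2_of_triv2 {𝓑 : LevelBasis G} {A : Rep.{u} k G} (h : Triv2 𝓑 A) :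
    Subsingleton (H2 𝓑 A) := by
  refine ⟨fun x y => ?_⟩
  obtain ⟨c, rfl⟩ := H2mk_surjective 𝓑 A x
  obtain ⟨c', rfl⟩ := H2mk_surjective 𝓑 A y
  rw [(H2mk_eq_zero_iff 𝓑 A c).2 (h _ c.2), (H2mk_eq_zero_iff 𝓑 A c').2 (h _ c'.2)]

/-! ### `smoothFun` is acyclic in degree 3 -/

section SmoothFun

variable (𝓑 : LevelBasis G) (M : Type u) [AddCommGroup M] [Module k M]

/-- **`smoothFun` is acyclic in degree 3.** -/
theorem smoothFun_triv3 : Triv3 𝓑 (smoothFun (k := k) 𝓑 M) := by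
  intro c hcl hcd
  obtain ⟨U, hU, hinv⟩ := hcl
  have hinv1 : ∀ x g g', ∀ s ∈ U, c (x * s, g, g') = c (x, g, g') := fun x g g' s hs => by
    have := hinv x g g' s hs 1 U.one_mem 1 U.one_mem
    rwa [mul_one, mul_one] at this
  have hinv23 : ∀ x g g', ∀ s ∈ U, ∀ s' ∈ U, c (x, g * s, g' * s') = c (x, g, g') :=
    fun x g g' s hs s' hs' => by
      have := hinv x g g' 1 U.one_mem s hs s' hs'
      rwa [mul_one] at this
  let b : G × G → smoothFun (k := k) 𝓑 M := fun q =>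
    ⟨fun x => (c (x, q.1, q.2)).1 1, U, hU, fun x s hs => by
      show (c (x * s, q.1, q.2)).1 1 = (c (x, q.1, q.2)).1 1
      rw [hinv1 x q.1 q.2 s hs]⟩
  refine ⟨b, ⟨U, hU, fun g g' s hs s' hs' => Subtype.ext (funext fun x => ?_)⟩, ?_⟩
  · show (c (x, g * s, g' * s')).1 1 = (c (x, g, g')).1 1
    rw [hinv23 x g g' s hs s' hs']
  · funext ⟨g₁, g₂, g₃⟩
    refine Subtype.ext (funext fun x => ?_)
    rw [d₂₃_hom_apply]
    show (c (x * g₁, g₂, g₃)).1 1 - (c (x, g₁ * g₂, g₃)).1 1 + (c (x, g₁, g₂ * g₃)).1 1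
      - (c (x, g₁, g₂)).1 1 = (c (g₁, g₂, g₃)).1 x
    have h := congrArg (fun m : smoothFun (k := k) 𝓑 M => m.1 1)
      (congrFun hcd (x, g₁, g₂, g₃))
    rw [dThree_apply] at h
    have e : ((smoothFun (k := k) 𝓑 M).ρ x (c (g₁, g₂, g₃))).1 1 = (c (g₁, g₂, g₃)).1 x := by
      rw [smoothFun_ρ_apply, one_mul]
    have h' : (c (g₁, g₂, g₃)).1 x - (c (x * g₁, g₂, g₃)).1 1 + (c (x, g₁ * g₂, g₃)).1 1
        - (c (x, g₁, g₂ * g₃)).1 1 + (c (x, g₁, g₂)).1 1 = 0 := by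
      rw [← e]
      exact h
    rw [eq_comm, ← sub_eq_zero, ← h']
    abel

end SmoothFun

/-! ### Transport along an equivariant linear bijection -/

section Transport

variable {𝓑 : LevelBasis G} {A B : Rep.{u} k G} (Φ : A →ₗ[k] B)
  (hΦ : ∀ g a, Φ (A.ρ g a) = B.ρ g (Φ a)) (hbij : Function.Bijective Φ)

include hΦ hbij in
theorem triv3_of_bijective (hB : Triv3 𝓑 B) : Triv3 𝓑 A := by
  intro c hcl hcd
  have h1 : dThree B (Φ ∘ c) = 0 := by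
    rw [dThree_comp Φ hΦ, hcd]
    funext x
    simp
  obtain ⟨b, hbl, hb⟩ := hB (Φ ∘ c) (hcl.comp _) h1
  choose r hr using hbij.2
  have hrb : Φ ∘ (r ∘ b) = b := funext fun g => hr (b g)
  refine ⟨r ∘ b, isLevel₂_of_comp (𝓑 := 𝓑) Φ hbij.1 (by rw [hrb]; exact hbl), ?_⟩
  funext x
  apply hbij.1
  have h2 := congrFun (d₂₃_comp Φ hΦ (r ∘ b)) x
  have h3 := congrFun hb x
  rw [hrb] at h2
  simp only [Function.comp_apply] at h2 h3
  rw [← h2, h3]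

end Transport

/-! ### Shapiro in degree 3 -/

section Shapiro

variable (i : H →* G) (𝓑G : LevelBasis G) (𝓑H : LevelBasis H)
  (hcont : IsLevelHom i 𝓑H.sets 𝓑G.sets)
  (hind : ∀ V ∈ 𝓑H.sets, ∃ U ∈ 𝓑G.sets, U.comap i ≤ V)
  (X : Rep.{u} k H) (hX : IsDiscrete 𝓑H.sets X)

include hcont in
/-- `Coind (smoothFun M)` is acyclic in degree 3. -/
theorem scoind_smoothFun_triv3 (M : Type u) [AddCommGroup M] [Module k M] :
    Triv3 𝓑G (scoind (k := k) i 𝓑G (smoothFun (k := k) 𝓑H M)) :=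
  triv3_of_bijective (A := scoind (k := k) i 𝓑G (smoothFun (k := k) 𝓑H M))
    (B := smoothFun (k := k) 𝓑G M)
    (coindSmooth (k := k) i 𝓑G 𝓑H M) (coindSmooth_equivariant i 𝓑G 𝓑H M)
    ⟨coindSmooth_injective (k := k) i 𝓑G 𝓑H M, coindSmooth_surjective (k := k) i 𝓑G 𝓑H hcont M⟩
    (smoothFun_triv3 𝓑G M)

include hcont hind hX in
/-- **Shapiro, degree 3 (⟹)**: `H³(H, X) = 0 ⟹ H³(G, Coind X) = 0`. -/
theorem triv3_scoind (hT : Triv3 𝓑H X) : Triv3 𝓑G (scoind (k := k) i 𝓑G X) := by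
  -- over `H`: `H²(H, smoothFun X / X) = 0`
  have h1 : Triv2 𝓑H (effQ 𝓑H X hX) :=
    H2_eq_zero_of_triv3 (𝓑 := 𝓑H) (emb 𝓑H X hX) (emb_equivariant 𝓑H X hX) (effψ 𝓑H X hX)
      (effψ_equivariant 𝓑H X hX) (emb_injective 𝓑H X hX) (effψ_surjective 𝓑H X hX)
      (eff_exact 𝓑H X hX) (isDiscrete_smoothFun 𝓑H X) hT
      (fun _ h => smoothFun_acyclic₂ 𝓑H X h)
  -- over `G`: `H²(G, Coind (smoothFun X / X)) = 0`
  have h2 : Triv2 𝓑G (scoind (k := k) i 𝓑G (effQ 𝓑H X hX)) := by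
    intro c hc
    have := subsingleton_H2_of_triv2 h1
    have hinj := sh2_injective i 𝓑G 𝓑H hcont hind (effQ 𝓑H X hX) (isDiscrete_effQ 𝓑H X hX)
    refine (H2mk_eq_zero_iff 𝓑G _ ⟨c, hc⟩).1 (hinj ?_)
    exact Subsingleton.elim _ _
  exact triv3_of_triv3_of_H2_eq_zero (𝓑 := 𝓑G)
    (scoindMap i 𝓑G (emb 𝓑H X hX) (emb_equivariant 𝓑H X hX))
    (scoindMap_equivariant i 𝓑G _ _)
    (scoindMap i 𝓑G (effψ 𝓑H X hX) (effψ_equivariant 𝓑H X hX))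
    (scoindMap_equivariant i 𝓑G _ _)
    (scoindMap_injective i 𝓑G _ _ (emb_injective 𝓑H X hX))
    (scoindMap_surjective i 𝓑G 𝓑H hind _ _ (isDiscrete_smoothFun 𝓑H X) (effψ_surjective 𝓑H X hX))
    (scoindMap_exact i 𝓑G _ _ (emb_injective 𝓑H X hX) _ _ (eff_exact 𝓑H X hX))
    (isDiscrete_scoind i 𝓑G _)
    (scoind_smoothFun_triv3 i 𝓑G 𝓑H hcont X) h2

include hcont hind hX in
/-- **Shapiro, degree 3 (⟸)**: `H³(G, Coind X) = 0 ⟹ H³(H, X) = 0`. -/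
theorem triv3_of_triv3_scoind (hT : Triv3 𝓑G (scoind (k := k) i 𝓑G X)) : Triv3 𝓑H X := by
  have h2 : Triv2 𝓑G (scoind (k := k) i 𝓑G (effQ 𝓑H X hX)) :=
    H2_eq_zero_of_triv3 (𝓑 := 𝓑G)
      (scoindMap i 𝓑G (emb 𝓑H X hX) (emb_equivariant 𝓑H X hX))
      (scoindMap_equivariant i 𝓑G _ _)
      (scoindMap i 𝓑G (effψ 𝓑H X hX) (effψ_equivariant 𝓑H X hX))
      (scoindMap_equivariant i 𝓑G _ _)
      (scoindMap_injective i 𝓑G _ _ (emb_injective 𝓑H X hX))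
      (scoindMap_surjective i 𝓑G 𝓑H hind _ _ (isDiscrete_smoothFun 𝓑H X)
        (effψ_surjective 𝓑H X hX))
      (scoindMap_exact i 𝓑G _ _ (emb_injective 𝓑H X hX) _ _ (eff_exact 𝓑H X hX))
      (isDiscrete_scoind i 𝓑G _) hT
      (fun _ h => scoind_smoothFun_acyclic₂ i 𝓑G 𝓑H hcont X h)
  have h1 : Triv2 𝓑H (effQ 𝓑H X hX) := by
    intro c hc
    have := subsingleton_H2_of_triv2 h2
    obtain ⟨y, hy⟩ := sh2_surjective i 𝓑G 𝓑H hcont hind (effQ 𝓑H X hX)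
      (isDiscrete_effQ 𝓑H X hX) (H2mk 𝓑H _ ⟨c, hc⟩)
    refine (H2mk_eq_zero_iff 𝓑H _ ⟨c, hc⟩).1 ?_
    rw [← hy, Subsingleton.elim y 0, map_zero]
  exact triv3_of_triv3_of_H2_eq_zero (𝓑 := 𝓑H) (emb 𝓑H X hX) (emb_equivariant 𝓑H X hX)
    (effψ 𝓑H X hX) (effψ_equivariant 𝓑H X hX) (emb_injective 𝓑H X hX) (effψ_surjective 𝓑H X hX)
    (eff_exact 𝓑H X hX) (isDiscrete_smoothFun 𝓑H X) (smoothFun_triv3 𝓑H X) h1

end Shapiro

end Fermat.Agent.W56.Shapiro3Lev2
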