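/-
Programme W56 (S56), chapter (EC-2) "right exactness of H²", helper2.

`Coh3P2`: the **`p`-primary** calculus of `Coh3Lev2.Triv3P` ("`H³(G, A)(p) = 0`") and
`Triv2P` ("`H²(G, A)(p) = 0`") for level cohomology: short exact sequences, transport along
bijections, finite products, and **Shapiro in degree 3, `p`-primary form**
`Triv3P 𝓑H X ⟹ Triv3P 𝓑G (scoind i 𝓑G X)`.
-/
import Mathlib
import Fermat.Agent.W56.Coh3Lev2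
import Fermat.Agent.W56.Shapiro3Lev2

set_option autoImplicit false
set_option linter.unusedSectionVars false

universe u

open CategoryTheory groupCohomology

namespace Fermat.Agent.W56.Coh3P2

open Fermat.Agent.PT.PRO.LevelCoh28 Fermat.Agent.PT.PRO.LevelCohRes28
  Fermat.Agent.PT.PRO.SmoothCoind28 Fermat.Agent.PT.PRO.ShapiroLevel28
  Fermat.Agent.W56.Coh3Lev2 Fermat.Agent.W56.Shapiro3Lev2

variable {k G H : Type u} [CommRing k] [Group G] [Group H]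

/-- "`H²(G, A)(p) = 0`" at cochain level: a level 2-cocycle whose class is `p`-primary is a
coboundary. -/
def Triv2P (p : ℕ) (𝓑 : LevelBasis G) (A : Rep.{u} k G) : Prop :=
  ∀ c : G × G → A, c ∈ Z2 𝓑 A →
    (∃ n : ℕ, ∃ b : G → A, IsLevel₁ 𝓑.sets b ∧ (d₁₂ A).hom b = (p ^ n) • c) → c ∈ B2 𝓑 A

theorem Triv2.triv2P {𝓑 : LevelBasis G} {A : Rep.{u} k G} (h : Triv2 𝓑 A) (p : ℕ) :
    Triv2P p 𝓑 A := fun c hc _ => h c hc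

variable {𝓑 : LevelBasis G} {A B C : Rep.{u} k G}

theorem comp_nsmul {X : Type*} {M N : Type*} [AddCommMonoid M] [AddCommMonoid N]
    (φ : M →+ N) (n : ℕ) (f : X → M) : ⇑φ ∘ (n • f) = n • (⇑φ ∘ f) := by
  funext x
  simp

section Exact

variable (φ : A →ₗ[k] B) (hφ : ∀ g a, φ (A.ρ g a) = B.ρ g (φ a))
  (ψ : B →ₗ[k] C) (hψ : ∀ g b, ψ (B.ρ g b) = C.ρ g (ψ b))
  (hinj : Function.Injective φ) (hsurj : Function.Surjective ψ)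
  (hex : ∀ b, ψ b = 0 ↔ ∃ a, φ a = b)

include hφ hψ hinj hex hsurj in
/-- If `φ ∘ F = d b` and `ψ ∘ b` is a level coboundary, then `F` is a level coboundary. -/
theorem exists_of_comp_eq_d₂₃ (hB : IsDiscrete 𝓑.sets B) {F : G × G × G → A}
    {b : G × G → B} (hbl : IsLevel₂ 𝓑.sets b) (hb : (d₂₃ B).hom b = φ ∘ F)
    (hψb : ψ ∘ b ∈ B2 𝓑 C) : ∃ h : G × G → A, IsLevel₂ 𝓑.sets h ∧ (d₂₃ A).hom h = F := by
  obtain ⟨c, hcl, hc⟩ := (mem_B2_iff 𝓑 C _).1 hψb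
  set c₀ : G → B := Function.surjInv hsurj ∘ c with hc₀
  have hc₀l : IsLevel₁ 𝓑.sets c₀ := hcl.comp _
  have hψc₀ : ψ ∘ c₀ = c := ψ_comp_surjInv ψ hsurj c
  set b₁ : G × G → B := b - (d₁₂ B).hom c₀ with hb₁
  have hb₁l : IsLevel₂ 𝓑.sets b₁ := hbl.sub 𝓑.isBasis (isLevel₂_d₁₂ 𝓑.isBasis hB hc₀l)
  have h3 : ∀ x, ψ (b₁ x) = 0 := fun x => by
    have e1 := congrFun (d₁₂_comp ψ hψ c₀) x
    rw [hψc₀, hc] at e1
    simp only [Function.comp_apply] at e1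
    simp only [hb₁, Pi.sub_apply, map_sub, ← e1, sub_self]
  have h4 : φ ∘ (pre φ ∘ b₁) = b₁ := by
    funext x
    exact φ_pre φ ψ hex (h3 x)
  refine ⟨pre φ ∘ b₁, isLevel₂_of_comp (𝓑 := 𝓑) φ hinj (by rw [h4]; exact hb₁l), ?_⟩
  funext x
  apply hinj
  have e2 := congrFun (d₂₃_comp φ hφ (pre φ ∘ b₁)) x
  rw [h4] at e2
  simp only [Function.comp_apply] at e2
  rw [← e2, hb₁, map_sub, hb]
  have e3 : (d₂₃ B).hom ((d₁₂ B).hom c₀) = 0 := by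
    have := d₁₂_apply_mem_cocycles₂ c₀
    rwa [cocycles₂, LinearMap.mem_ker] at this
  rw [e3, sub_zero]
  rfl

include hφ hψ hinj hex hsurj in
/-- **(e′)** `H³(A)(p) = 0` and `H²(B) = 0` ⟹ `H²(C)(p) = 0`. -/
theorem triv2P_of_triv3P (p : ℕ) (hB : IsDiscrete 𝓑.sets B) (hTA : Triv3P p 𝓑 A)
    (hH2B : Triv2 𝓑 B) : Triv2P p 𝓑 C := by
  intro c hc ⟨n, b₁, hb₁l, hb₁⟩
  set b : G × G → B := Function.surjInv hsurj ∘ c with hb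
  have hbl : IsLevel₂ 𝓑.sets b := hc.2.comp _
  have hψb : ψ ∘ b = c := ψ_comp_surjInv₂ ψ hsurj c
  have hψF : ψ ∘ (d₂₃ B).hom b = 0 := by
    rw [← d₂₃_comp ψ hψ, hψb]
    exact d₂₃_eq_zero_of_mem_Z2 𝓑 C hc
  obtain ⟨F', hF'l, hF'd, hF'⟩ := exists_pre₃ (𝓑 := 𝓑) φ hφ ψ hinj hex
    (isLevel₃_d₂₃ 𝓑.isBasis hB hbl) (dThree_d₂₃ B b) hψF
  -- the class of `F'` is `p`-primary
  set bt : G → B := Function.surjInv hsurj ∘ b₁ with hbt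
  have hbtl : IsLevel₁ 𝓑.sets bt := hb₁l.comp _
  have hψbt : ψ ∘ bt = b₁ := ψ_comp_surjInv ψ hsurj b₁
  set e : G × G → B := (p ^ n) • b - (d₁₂ B).hom bt with he
  have hel : IsLevel₂ 𝓑.sets e :=
    (hbl.comp ((p ^ n) • ·)).sub 𝓑.isBasis (isLevel₂_d₁₂ 𝓑.isBasis hB hbtl)
  have h3 : ∀ x, ψ (e x) = 0 := fun x => by
    have e1 := congrFun (d₁₂_comp ψ hψ bt) x
    rw [hψbt, hb₁] at e1
    have e2 := congrFun hψb x
    simp only [Function.comp_apply, Pi.smul_apply] at e1 e2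
    simp only [he, Pi.sub_apply, Pi.smul_apply, map_sub, map_nsmul, ← e1, e2, sub_self]
  have h4 : φ ∘ (pre φ ∘ e) = e := by
    funext x
    exact φ_pre φ ψ hex (h3 x)
  have hprim : (d₂₃ A).hom (pre φ ∘ e) = (p ^ n) • F' := by
    funext x
    apply hinj
    have e2 := congrFun (d₂₃_comp φ hφ (pre φ ∘ e)) x
    rw [h4] at e2
    simp only [Function.comp_apply] at e2
    rw [← e2, he, map_sub, map_nsmul]
    have e3 : (d₂₃ B).hom ((d₁₂ B).hom bt) = 0 := by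
      have := d₁₂_apply_mem_cocycles₂ bt
      rwa [cocycles₂, LinearMap.mem_ker] at this
    rw [e3, sub_zero, ← hF']
    simp
  obtain ⟨a', ha'l, ha'⟩ := hTA F' hF'l hF'd
    ⟨n, pre φ ∘ e, isLevel₂_of_comp (𝓑 := 𝓑) φ hinj (by rw [h4]; exact hel), hprim⟩
  have hZ : b - φ ∘ a' ∈ Z2 𝓑 B := by
    refine mem_Z2_of 𝓑 B ?_ (hbl.sub 𝓑.isBasis (ha'l.comp _))
    rw [map_sub, d₂₃_comp φ hφ, ha', hF', sub_self]
  obtain ⟨b₂, hb₂l, hb₂⟩ := (mem_B2_iff 𝓑 B _).1 (hH2B _ hZ)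
  refine (mem_B2_iff 𝓑 C _).2 ⟨ψ ∘ b₂, hb₂l.comp _, ?_⟩
  rw [d₁₂_comp ψ hψ, hb₂]
  funext x
  have := congrFun hψb x
  simp only [Function.comp_apply, Pi.sub_apply, map_sub] at this ⊢
  rw [this, ψ_φ φ ψ hex, sub_zero]

include hφ hψ hinj hex hsurj in
/-- **(d′)** `H³(B) = 0`, `H²(B) = 0` and `H²(C)(p) = 0` ⟹ `H³(A)(p) = 0`. -/
theorem triv3P_of_triv2P (p : ℕ) (hB : IsDiscrete 𝓑.sets B) (hTB : Triv3 𝓑 B)
    (hH2B : Triv2 𝓑 B) (hC : Triv2P p 𝓑 C) : Triv3P p 𝓑 A := by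
  intro F hF hdF ⟨n, h, hhl, hh⟩
  have h1 : dThree B (φ ∘ F) = 0 := by
    rw [dThree_comp φ hφ, hdF]
    funext x
    simp
  obtain ⟨b, hbl, hb⟩ := hTB (φ ∘ F) (hF.comp _) h1
  have hψbZ : ψ ∘ b ∈ Z2 𝓑 C := by
    refine mem_Z2_of 𝓑 C ?_ (hbl.comp _)
    rw [d₂₃_comp ψ hψ, hb]
    funext x
    simp only [Function.comp_apply]
    exact ψ_φ φ ψ hex _
  -- `pⁿ b - φ h` is a cocycle of `B`, hence a coboundary
  have hZ : (p ^ n) • b - φ ∘ h ∈ Z2 𝓑 B := by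
    refine mem_Z2_of 𝓑 B ?_ ((hbl.comp ((p ^ n) • ·)).sub 𝓑.isBasis (hhl.comp _))
    rw [map_sub, map_nsmul, hb, d₂₃_comp φ hφ, hh, sub_eq_zero]
    funext x
    simp
  obtain ⟨b₂, hb₂l, hb₂⟩ := (mem_B2_iff 𝓑 B _).1 (hH2B _ hZ)
  have hprim : (d₁₂ C).hom (ψ ∘ b₂) = (p ^ n) • (ψ ∘ b) := by
    rw [d₁₂_comp ψ hψ, hb₂]
    funext x
    simp only [Function.comp_apply, Pi.sub_apply, Pi.smul_apply, map_sub, map_nsmul]
    rw [ψ_φ φ ψ hex, sub_zero]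
  have hψbB : ψ ∘ b ∈ B2 𝓑 C := hC _ hψbZ ⟨n, ψ ∘ b₂, hb₂l.comp _, hprim⟩
  exact exists_of_comp_eq_d₂₃ (𝓑 := 𝓑) φ hφ ψ hψ hinj hsurj hex hB hbl hb hψbB

end Exact

/-! ### Transport -/

section Transport

variable (Φ : A →ₗ[k] B) (hΦ : ∀ g a, Φ (A.ρ g a) = B.ρ g (Φ a)) (hbij : Function.Bijective Φ)

include hΦ hbij in
theorem triv3P_of_bijective (p : ℕ) (hB : Triv3P p 𝓑 B) : Triv3P p 𝓑 A := by
  intro c hcl hcd ⟨n, b₀, hb₀l, hb₀⟩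
  have h1 : dThree B (Φ ∘ c) = 0 := by
    rw [dThree_comp Φ hΦ, hcd]
    funext x
    simp
  have h0 : (d₂₃ B).hom (Φ ∘ b₀) = (p ^ n) • (Φ ∘ c) := by
    rw [d₂₃_comp Φ hΦ, hb₀]
    funext x
    simp
  obtain ⟨b, hbl, hb⟩ := hB (Φ ∘ c) (hcl.comp _) h1 ⟨n, Φ ∘ b₀, hb₀l.comp _, h0⟩
  choose r hr using hbij.2
  have hrb : Φ ∘ (r ∘ b) = b := funext fun g => hr (b g)
  refine ⟨r ∘ b, isLevel₂_of_comp (𝓑 := 𝓑) Φ hbij.1 (by rw [hrb]; exact hbl), ?_⟩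
  funext x
  apply hbij.1
  have h2 := congrFun (d₂₃_comp Φ hΦ (r ∘ b)) x
  have h3 := congrFun hb x
  rw [hrb] at h2
  simp only [Function.comp_apply] at h2 h3
  rw [← h2, h3]

end Transport

/-! ### `Triv2P` along an injective map on `H²` -/

section Inj

variable {𝓑H : LevelBasis H} {X : Rep.{u} k H}

/-- If `Φ : H²(G; A) → H²(H; X)` is injective (additive) and `H²(H; X)(p) = 0` then
`H²(G; A)(p) = 0`. -/
theorem triv2P_of_injective (p : ℕ) (Φ : H2 𝓑 A →ₗ[k] H2 𝓑H X) (hΦ : Function.Injective Φ)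
    (hX : Triv2P p 𝓑H X) : Triv2P p 𝓑 A := by
  intro c hc ⟨n, b, hbl, hb⟩
  have h0 : (p ^ n) • H2mk 𝓑 A ⟨c, hc⟩ = 0 := by
    rw [← map_nsmul, H2mk_eq_zero_iff]
    exact (mem_B2_iff 𝓑 A _).2 ⟨b, hbl, hb⟩
  obtain ⟨c', hc'⟩ := H2mk_surjective 𝓑H X (Φ (H2mk 𝓑 A ⟨c, hc⟩))
  have h1 : (p ^ n) • H2mk 𝓑H X c' = 0 := by
    rw [hc', ← map_nsmul, h0, map_zero]
  rw [← map_nsmul, H2mk_eq_zero_iff] at h1
  obtain ⟨b', hb'l, hb'⟩ := (mem_B2_iff 𝓑H X _).1 h1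
  have h2 : (c' : H × H → X) ∈ B2 𝓑H X := hX _ c'.2 ⟨n, b', hb'l, hb'⟩
  have h3 : H2mk 𝓑H X c' = 0 := (H2mk_eq_zero_iff 𝓑H X c').2 h2
  rw [hc'] at h3
  exact (H2mk_eq_zero_iff 𝓑 A ⟨c, hc⟩).1 (hΦ (h3.trans (map_zero Φ).symm))

end Inj

/-! ### Shapiro in degree 3, `p`-primary form -/

section Shapiro

variable (i : H →* G) (𝓑G : LevelBasis G) (𝓑H : LevelBasis H)
  (hcont : IsLevelHom i 𝓑H.sets 𝓑G.sets)
  (hind : ∀ V ∈ 𝓑H.sets, ∃ U ∈ 𝓑G.sets, U.comap i ≤ V)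
  (X : Rep.{u} k H) (hX : IsDiscrete 𝓑H.sets X)

include hcont hind hX in
/-- **Shapiro, degree 3, `p`-primary**: `H³(H, X)(p) = 0 ⟹ H³(G, Coind X)(p) = 0`. -/
theorem triv3P_scoind (p : ℕ) (hT : Triv3P p 𝓑H X) :
    Triv3P p 𝓑G (scoind (k := k) i 𝓑G X) := by
  have h1 : Triv2P p 𝓑H (effQ 𝓑H X hX) :=
    triv2P_of_triv3P (𝓑 := 𝓑H) (emb 𝓑H X hX) (emb_equivariant 𝓑H X hX) (effψ 𝓑H X hX)
      (effψ_equivariant 𝓑H X hX) (emb_injective 𝓑H X hX) (effψ_surjective 𝓑H X hX)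
      (eff_exact 𝓑H X hX) p (isDiscrete_smoothFun 𝓑H X) hT
      (fun _ h => smoothFun_acyclic₂ 𝓑H X h)
  have h2 : Triv2P p 𝓑G (scoind (k := k) i 𝓑G (effQ 𝓑H X hX)) :=
    triv2P_of_injective p (sh2 i 𝓑G 𝓑H hcont (effQ 𝓑H X hX))
      (sh2_injective i 𝓑G 𝓑H hcont hind (effQ 𝓑H X hX) (isDiscrete_effQ 𝓑H X hX)) h1
  exact triv3P_of_triv2P (𝓑 := 𝓑G)
    (scoindMap i 𝓑G (emb 𝓑H X hX) (emb_equivariant 𝓑H X hX))
    (scoindMap_equivariant i 𝓑G _ _)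
    (scoindMap i 𝓑G (effψ 𝓑H X hX) (effψ_equivariant 𝓑H X hX))
    (scoindMap_equivariant i 𝓑G _ _)
    (scoindMap_injective i 𝓑G _ _ (emb_injective 𝓑H X hX))
    (scoindMap_surjective i 𝓑G 𝓑H hind _ _ (isDiscrete_smoothFun 𝓑H X) (effψ_surjective 𝓑H X hX))
    (scoindMap_exact i 𝓑G _ _ (emb_injective 𝓑H X hX) _ _ (eff_exact 𝓑H X hX))
    p (isDiscrete_scoind i 𝓑G _)
    (scoind_smoothFun_triv3 i 𝓑G 𝓑H hcont X)
    (fun _ h => scoind_smoothFun_acyclic₂ i 𝓑G 𝓑H hcont X h) h2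

end Shapiro

end Fermat.Agent.W56.Coh3P2
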