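/-
Programme W56 (S56), chapter (EC-2) "right exactness of H²", helper2.

`Decomp2`: level cohomology and finite equivariant decompositions `1 = ∑ᵢ Eᵢ ∘ Rᵢ`
(`Rᵢ : A → Bᵢ`, `Eᵢ : Bᵢ → A` equivariant): `H³(p) = 0` (`Triv3P`) and "`H²` is `p`-divisible"
(`PDivH2`) pass from the `Bᵢ` to `A`.  Used for `I_S = ∏_q I_{S,q}` and for the Mackey
decomposition of a coinduced module restricted to an open subgroup.
-/
import Mathlib
import Fermat.Agent.W56.Coh3P2

set_option autoImplicit false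
set_option linter.unusedSectionVars false

universe u

open CategoryTheory groupCohomology

namespace Fermat.Agent.W56.Decomp2

open Fermat.Agent.PT.PRO.LevelCoh28 Fermat.Agent.W56.Coh3Lev2 Fermat.Agent.W56.Coh3P2

variable {k G : Type u} [CommRing k] [Group G] {𝓑 : LevelBasis G}

/-- "`H²(G, A)` is `p`-divisible" at cochain level. -/
def PDivH2 (p : ℕ) (𝓑 : LevelBasis G) (A : Rep.{u} k G) : Prop :=
  ∀ c : G × G → A, c ∈ Z2 𝓑 A → ∃ c' : G × G → A, c' ∈ Z2 𝓑 A ∧ c - p • c' ∈ B2 𝓑 A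

theorem isLevel₂_sum {ι : Type*} (s : Finset ι) {X : Type*} [AddCommMonoid X]
    (f : ι → G × G → X) (hf : ∀ i ∈ s, IsLevel₂ 𝓑.sets (f i)) :
    IsLevel₂ 𝓑.sets (∑ i ∈ s, f i) := by
  classical
  induction s using Finset.induction_on with
  | empty =>
    rw [Finset.sum_empty]
    exact isLevel₂_const 𝓑.isBasis (0 : X)
  | insert a s ha ih =>
    rw [Finset.sum_insert ha]
    exact (hf a (Finset.mem_insert_self a s)).add 𝓑.isBasis
      (ih fun i hi => hf i (Finset.mem_insert_of_mem hi))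

theorem isLevel₁_sum {ι : Type*} (s : Finset ι) {X : Type*} [AddCommMonoid X]
    (f : ι → G → X) (hf : ∀ i ∈ s, IsLevel₁ 𝓑.sets (f i)) :
    IsLevel₁ 𝓑.sets (∑ i ∈ s, f i) := by
  classical
  induction s using Finset.induction_on with
  | empty =>
    rw [Finset.sum_empty]
    exact isLevel₁_const 𝓑.isBasis (0 : X)
  | insert a s ha ih =>
    rw [Finset.sum_insert ha]
    exact (hf a (Finset.mem_insert_self a s)).add 𝓑.isBasis
      (ih fun i hi => hf i (Finset.mem_insert_of_mem hi))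

section Decomp

variable {ι : Type} [Fintype ι] {A : Rep.{u} k G} {B : ι → Rep.{u} k G}
  (R : ∀ i, A →ₗ[k] B i) (hR : ∀ i g a, R i (A.ρ g a) = (B i).ρ g (R i a))
  (E : ∀ i, B i →ₗ[k] A) (hE : ∀ i g b, E i ((B i).ρ g b) = A.ρ g (E i b))
  (hsum : ∀ a, ∑ i, E i (R i a) = a)

include hR hE hsum in
/-- `H³(p) = 0` passes to a finite equivariant "direct sum". -/
theorem triv3P_of_decomp (p : ℕ) (hT : ∀ i, Triv3P p 𝓑 (B i)) : Triv3P p 𝓑 A := by
  intro F hFl hFd ⟨n, b, hbl, hb⟩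
  have key : ∀ i, ∃ h : G × G → B i, IsLevel₂ 𝓑.sets h ∧ (d₂₃ (B i)).hom h = R i ∘ F := by
    intro i
    refine hT i (R i ∘ F) (hFl.comp _) ?_ ⟨n, R i ∘ b, hbl.comp _, ?_⟩
    · rw [dThree_comp (R i) (hR i), hFd]
      funext x
      simp
    · rw [d₂₃_comp (R i) (hR i), hb]
      funext x
      simp
  choose h hhl hh using key
  refine ⟨∑ i, (E i ∘ h i), isLevel₂_sum _ _ fun i _ => (hhl i).comp _, ?_⟩
  rw [map_sum]
  funext x
  rw [Finset.sum_apply]
  have : ∀ i, (d₂₃ A).hom (E i ∘ h i) x = E i (R i (F x)) := fun i => by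
    rw [d₂₃_comp (E i) (hE i), hh i]
    rfl
  rw [Finset.sum_congr rfl fun i _ => this i]
  exact hsum (F x)

include hR hE hsum in
/-- "`H²` is `p`-divisible" passes to a finite equivariant "direct sum". -/
theorem pDivH2_of_decomp (p : ℕ) (hT : ∀ i, PDivH2 p 𝓑 (B i)) : PDivH2 p 𝓑 A := by
  intro c hc
  have key : ∀ i, ∃ c' : G × G → B i, c' ∈ Z2 𝓑 (B i) ∧ R i ∘ c - p • c' ∈ B2 𝓑 (B i) :=
    fun i => hT i (R i ∘ c) (comp_mem_Z2 (R i) (hR i) hc)
  choose c' hc' hcc' using key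
  have key2 : ∀ i, ∃ x : G → B i, IsLevel₁ 𝓑.sets x ∧ (d₁₂ (B i)).hom x = R i ∘ c - p • c' i :=
    fun i => (mem_B2_iff 𝓑 (B i) _).1 (hcc' i)
  choose x hxl hx using key2
  refine ⟨∑ i, (E i ∘ c' i), ?_, ?_⟩
  · refine Submodule.sum_mem _ fun i _ => comp_mem_Z2 (E i) (hE i) (hc' i)
  · refine (mem_B2_iff 𝓑 A _).2 ⟨∑ i, (E i ∘ x i), isLevel₁_sum _ _ fun i _ => (hxl i).comp _, ?_⟩
    rw [map_sum]
    funext y
    rw [Finset.sum_apply]
    have : ∀ i, (d₁₂ A).hom (E i ∘ x i) y = E i (R i (c y)) - p • E i (c' i y) := fun i => by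
      rw [d₁₂_comp (E i) (hE i), hx i]
      simp
    rw [Finset.sum_congr rfl fun i _ => this i, Finset.sum_sub_distrib, hsum (c y)]
    simp [Finset.sum_apply, Finset.smul_sum]

end Decomp

end Fermat.Agent.W56.Decomp2
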