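/-
Programme W56 (S56), chapter (EC-2) "right exactness of H²", helper2.

`Mackey2`: the **Mackey decomposition** of a smooth coinduced module restricted to an open subgroup.
`i : H →* G`, `X = scoind i 𝓑G Y`, `V ≤ G` open.  For `g : G` let `Hg g = i⁻¹(g V g⁻¹)`,
`jg g : Hg g →* V`, `h ↦ g⁻¹ i(h) g`.  Then
`Rg g : X|_V → scoind (jg g) 𝓑V (Y|_{Hg g})`, `f ↦ (v ↦ f (g v))` and the extension by zero
`Eg g` are `V`-equivariant and `∑_{D ∈ i(H)\G/V} E_{g_D} ∘ R_{g_D} = 1`.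
Consequences (with `Decomp2`, `Coh3P2.triv3P_scoind`): `H³(p) = 0` and `p`-divisibility of `H²`
for `X|_V` from the same for the `Y|_{Hg g}`.
-/
import Mathlib
import Fermat.Agent.W56.Decomp2
import Fermat.Agent.PT.GLUE.Objects21

set_option autoImplicit false
set_option linter.unusedSectionVars false
set_option linter.style.haveILetI false

open CategoryTheory groupCohomology

namespace Fermat.Agent.W56.Mackey2

open Fermat.Agent.PT.PRO.LevelCoh28 Fermat.Agent.PT.PRO.LevelCohRes28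
  Fermat.Agent.PT.PRO.SmoothCoind28 Fermat.Agent.PT.GLUE.Objects21
  Fermat.Agent.W56.Coh3Lev2 Fermat.Agent.W56.Coh3P2 Fermat.Agent.W56.Decomp2

variable {k G H : Type} [CommRing k] [Group G] [Group H]
variable (i : H →* G) (𝓑G : LevelBasis G) (Y : Rep.{0} k H) (V : Subgroup G)

/-- `i⁻¹(g V g⁻¹)`. -/
def Hg (g : G) : Subgroup H where
  carrier := {h | g⁻¹ * i h * g ∈ V}
  mul_mem' {a b} ha hb := by
    have : g⁻¹ * i (a * b) * g = (g⁻¹ * i a * g) * (g⁻¹ * i b * g) := by rw [map_mul]; group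
    show g⁻¹ * i (a * b) * g ∈ V
    rw [this]
    exact V.mul_mem ha hb
  one_mem' := by simp
  inv_mem' {a} ha := by
    have : g⁻¹ * i a⁻¹ * g = (g⁻¹ * i a * g)⁻¹ := by rw [map_inv]; group
    show g⁻¹ * i a⁻¹ * g ∈ V
    rw [this]
    exact V.inv_mem ha

theorem mem_Hg {g : G} {h : H} : h ∈ Hg i V g ↔ g⁻¹ * i h * g ∈ V := Iff.rfl

/-- `h ↦ g⁻¹ i(h) g : Hg g → V`. -/
def jg (g : G) : ↥(Hg i V g) →* ↥V where
  toFun h := ⟨g⁻¹ * i h * g, h.2⟩
  map_one' := Subtype.ext (by simp)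
  map_mul' a b := Subtype.ext (by
    show g⁻¹ * i ((a : H) * (b : H)) * g = (g⁻¹ * i a * g) * (g⁻¹ * i b * g)
    rw [map_mul]; group)

@[simp] theorem coe_jg (g : G) (h : ↥(Hg i V g)) : ((jg i V g h : ↥V) : G) = g⁻¹ * i h * g := rfl

/-- The basis of `V`. -/
abbrev basisV : LevelBasis ↥V := comapBasis V.subtype 𝓑G

/-- The coefficient module at the double coset of `g`. -/
abbrev Yg (g : G) : Rep.{0} k ↥(Hg i V g) := Rep.res (Hg i V g).subtype Y

/-- The Mackey component at `g`. -/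
noncomputable abbrev Sg (g : G) : Rep.{0} k ↥V := scoind (jg i V g) (basisV 𝓑G V) (Yg i Y V g)

/-- The restricted coinduced module. -/
noncomputable abbrev XV : Rep.{0} k ↥V := Rep.res V.subtype (scoind i 𝓑G Y)

/-! ### The restriction maps `R_g` -/

/-- `f ↦ (v ↦ f (g v))`. -/
def Rg (g : G) : XV i 𝓑G Y V →ₗ[k] Sg i 𝓑G Y V g where
  toFun f := ⟨fun v => f.1 (g * v), by
    refine ⟨fun h v => ?_, ?_⟩
    · show f.1 (g * ((g⁻¹ * i h * g) * v)) = Y.ρ h (f.1 (g * v))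
      rw [← f.2.1]
      apply congrArg
      group
    · obtain ⟨U, hU, hinv⟩ := f.2.2
      refine ⟨U.comap V.subtype, ⟨U, hU, rfl⟩, fun v s hs => ?_⟩
      show f.1 (g * ((v : G) * (s : G))) = f.1 (g * v)
      rw [← mul_assoc]
      exact hinv _ _ hs⟩
  map_add' _ _ := rfl
  map_smul' _ _ := rfl

@[simp] theorem Rg_apply (g : G) (f : XV i 𝓑G Y V) (v : ↥V) :
    (Rg i 𝓑G Y V g f).1 v = f.1 (g * v) := rfl

theorem Rg_equivariant (g : G) (v₀ : ↥V) (f : XV i 𝓑G Y V) :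
    Rg i 𝓑G Y V g ((XV i 𝓑G Y V).ρ v₀ f) = (Sg i 𝓑G Y V g).ρ v₀ (Rg i 𝓑G Y V g f) := by
  refine Subtype.ext (funext fun v => ?_)
  show f.1 (g * v * v₀) = f.1 (g * ((v : G) * (v₀ : G)))
  rw [mul_assoc]

/-! ### Extension by zero `E_g` -/

/-- `x` lies in the double coset `i(H) g V`. -/
def InDC (g x : G) : Prop := ∃ (h : H) (v : ↥V), x = i h * g * v

theorem inDC_mul_left {g x : G} (h₀ : H) : InDC i V g (i h₀ * x) ↔ InDC i V g x := by
  constructor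
  · rintro ⟨h, v, e⟩
    refine ⟨h₀⁻¹ * h, v, ?_⟩
    rw [map_mul, map_inv, mul_assoc, mul_assoc, ← mul_assoc (i h), ← e]
    group
  · rintro ⟨h, v, rfl⟩
    exact ⟨h₀ * h, v, by rw [map_mul]; group⟩

theorem inDC_mul_right {g x : G} (v₀ : ↥V) : InDC i V g (x * v₀) ↔ InDC i V g x := by
  constructor
  · rintro ⟨h, v, e⟩
    refine ⟨h, v * v₀⁻¹, ?_⟩
    have : x = x * v₀ * (v₀ : G)⁻¹ := by group
    rw [this, e]
    simp [mul_assoc]
  · rintro ⟨h, v, rfl⟩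
    exact ⟨h, v * v₀, by simp [mul_assoc]⟩

open Classical in
/-- The underlying function of the extension by zero. -/
noncomputable def EgFun (g : G) (φ : Sg i 𝓑G Y V g) (x : G) : Y :=
  if hx : InDC i V g x then Y.ρ hx.choose (φ.1 hx.choose_spec.choose) else 0

theorem EgFun_of_not {g : G} (φ : Sg i 𝓑G Y V g) {x : G} (hx : ¬ InDC i V g x) :
    EgFun i 𝓑G Y V g φ x = 0 := by
  rw [EgFun, dif_neg hx]

theorem EgFun_apply (g : G) (φ : Sg i 𝓑G Y V g) (h : H) (v : ↥V) :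
    EgFun i 𝓑G Y V g φ (i h * g * v) = Y.ρ h (φ.1 v) := by
  have hx : InDC i V g (i h * g * v) := ⟨h, v, rfl⟩
  rw [EgFun, dif_pos hx]
  set h' := hx.choose with hh'
  set v' := hx.choose_spec.choose with hv'
  have e : i h * g * v = i h' * g * v' := hx.choose_spec.choose_spec
  -- `t = h'⁻¹ h ∈ Hg` and `jg t * v = v'`
  have e1 : g⁻¹ * i (h'⁻¹ * h) * g = (v' : G) * (v : G)⁻¹ := by
    have : i h = i h' * g * v' * (v : G)⁻¹ * g⁻¹ := by
      rw [← e]; group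
    rw [map_mul, map_inv, this]
    group
  have ht : h'⁻¹ * h ∈ Hg i V g := by
    rw [mem_Hg, e1]
    exact V.mul_mem v'.2 (V.inv_mem v.2)
  have e2 : jg i V g ⟨h'⁻¹ * h, ht⟩ * v = v' := by
    apply Subtype.ext
    show g⁻¹ * i (h'⁻¹ * h) * g * (v : G) = v'
    rw [e1]
    group
  have e3 := φ.2.1 ⟨h'⁻¹ * h, ht⟩ v
  rw [e2] at e3
  rw [e3]
  show Y.ρ h' (Y.ρ (h'⁻¹ * h) (φ.1 v)) = Y.ρ h (φ.1 v)
  rw [← Module.End.mul_apply, ← map_mul, mul_inv_cancel_left]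

variable (hV : ∃ U₀ ∈ 𝓑G.sets, U₀ ≤ V)

include hV in
theorem EgFun_mem (g : G) (φ : Sg i 𝓑G Y V g) :
    EgFun i 𝓑G Y V g φ ∈ scoindV i 𝓑G Y := by
  refine ⟨fun h₀ x => ?_, ?_⟩
  · by_cases hx : InDC i V g x
    · obtain ⟨h, v, rfl⟩ := hx
      have : i h₀ * (i h * g * v) = i (h₀ * h) * g * v := by rw [map_mul]; group
      rw [this, EgFun_apply, EgFun_apply, map_mul, Module.End.mul_apply]
    · rw [EgFun_of_not i 𝓑G Y V φ hx,
        EgFun_of_not i 𝓑G Y V φ (fun h => hx ((inDC_mul_left i V h₀).1 h)), map_zero]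
  · obtain ⟨W, ⟨U, hU, rfl⟩, hinv⟩ := φ.2.2
    obtain ⟨U₀, hU₀, hU₀V⟩ := hV
    obtain ⟨U', hU', hle⟩ := 𝓑G.isBasis.directed U hU U₀ hU₀
    refine ⟨U', hU', fun x s hs => ?_⟩
    have hsV : s ∈ V := hU₀V (hle hs).2
    by_cases hx : InDC i V g x
    · obtain ⟨h, v, rfl⟩ := hx
      have : i h * g * v * s = i h * g * ((v * ⟨s, hsV⟩ : ↥V) : G) := by
        simp [mul_assoc]
      rw [this, EgFun_apply, EgFun_apply]
      congr 1
      exact hinv v ⟨s, hsV⟩ (hle hs).1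
    · rw [EgFun_of_not i 𝓑G Y V φ hx,
        EgFun_of_not i 𝓑G Y V φ (fun h => hx ((inDC_mul_right i V (⟨s, hsV⟩ : ↥V)).1 h))]

include hV in
/-- Extension by zero from the double coset of `g`. -/
noncomputable def Eg (g : G) : Sg i 𝓑G Y V g →ₗ[k] XV i 𝓑G Y V where
  toFun φ := ⟨EgFun i 𝓑G Y V g φ, EgFun_mem i 𝓑G Y V hV g φ⟩
  map_add' φ φ' := by
    refine Subtype.ext (funext fun x => ?_)
    by_cases hx : InDC i V g x
    · obtain ⟨h, v, rfl⟩ := hx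
      show EgFun i 𝓑G Y V g (φ + φ') _ = EgFun i 𝓑G Y V g φ _ + EgFun i 𝓑G Y V g φ' _
      rw [EgFun_apply, EgFun_apply, EgFun_apply, ← map_add]
      rfl
    · show EgFun i 𝓑G Y V g (φ + φ') x = EgFun i 𝓑G Y V g φ x + EgFun i 𝓑G Y V g φ' x
      rw [EgFun_of_not i 𝓑G Y V _ hx, EgFun_of_not i 𝓑G Y V _ hx, EgFun_of_not i 𝓑G Y V _ hx,
        add_zero]
  map_smul' c φ := by
    refine Subtype.ext (funext fun x => ?_)
    by_cases hx : InDC i V g x
    · obtain ⟨h, v, rfl⟩ := hx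
      show EgFun i 𝓑G Y V g (c • φ) _ = c • EgFun i 𝓑G Y V g φ _
      rw [EgFun_apply, EgFun_apply, ← map_smul]
      rfl
    · show EgFun i 𝓑G Y V g (c • φ) x = c • EgFun i 𝓑G Y V g φ x
      rw [EgFun_of_not i 𝓑G Y V _ hx, EgFun_of_not i 𝓑G Y V _ hx, smul_zero]

theorem Eg_apply (g : G) (φ : Sg i 𝓑G Y V g) (x : G) :
    (Eg i 𝓑G Y V hV g φ).1 x = EgFun i 𝓑G Y V g φ x := rfl

theorem Eg_equivariant (g : G) (v₀ : ↥V) (φ : Sg i 𝓑G Y V g) :
    Eg i 𝓑G Y V hV g ((Sg i 𝓑G Y V g).ρ v₀ φ) = (XV i 𝓑G Y V).ρ v₀ (Eg i 𝓑G Y V hV g φ) := by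
  refine Subtype.ext (funext fun x => ?_)
  show EgFun i 𝓑G Y V g ((Sg i 𝓑G Y V g).ρ v₀ φ) x = EgFun i 𝓑G Y V g φ (x * v₀)
  by_cases hx : InDC i V g x
  · obtain ⟨h, v, rfl⟩ := hx
    have : i h * g * v * v₀ = i h * g * ((v * v₀ : ↥V) : G) := by simp [mul_assoc]
    rw [this, EgFun_apply, EgFun_apply]
    rfl
  · rw [EgFun_of_not i 𝓑G Y V _ hx,
      EgFun_of_not i 𝓑G Y V _ (fun h => hx ((inDC_mul_right i V v₀).1 h))]

/-- `E_g ∘ R_g` is multiplication by the indicator function of the double coset of `g`. -/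
theorem Eg_Rg_apply (g : G) (f : XV i 𝓑G Y V) (x : G) [Decidable (InDC i V g x)] :
    (Eg i 𝓑G Y V hV g (Rg i 𝓑G Y V g f)).1 x = if InDC i V g x then f.1 x else 0 := by
  by_cases hx : InDC i V g x
  · rw [if_pos hx]
    obtain ⟨h, v, rfl⟩ := hx
    rw [Eg_apply, EgFun_apply, Rg_apply, ← f.2.1, mul_assoc]
  · rw [if_neg hx, Eg_apply, EgFun_of_not i 𝓑G Y V _ hx]

/-! ### The set of double cosets -/

/-- The double coset relation `x' ∈ i(H) x V`. -/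
def dcSetoidV : Setoid G where
  r x x' := InDC i V x x'
  iseqv :=
    ⟨fun x => ⟨1, 1, by simp⟩,
      fun {x x'} ⟨h, v, e⟩ => ⟨h⁻¹, v⁻¹, by rw [e, map_inv]; simp [mul_assoc]⟩,
      fun {x x' x''} ⟨h, v, e⟩ ⟨h', v', e'⟩ =>
        ⟨h' * h, v * v', by rw [e', e, map_mul]; simp [mul_assoc]⟩⟩

/-- The double cosets `i(H) \ G / V`. -/
abbrev DC : Type := Quotient (dcSetoidV i V)

include hV in
theorem finite_DC : Finite (DC i V) := by
  obtain ⟨U₀, hU₀, hU₀V⟩ := hV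
  haveI := 𝓑G.isBasis.finiteIndex U₀ hU₀
  haveI : V.FiniteIndex := Subgroup.finiteIndex_of_le hU₀V
  haveI : Finite (G ⧸ V) := Subgroup.finite_quotient_of_finiteIndex
  let π : G ⧸ V → DC i V := Quotient.lift (fun x => Quotient.mk (dcSetoidV i V) x) (by
    intro a b hab
    have hab' : a⁻¹ * b ∈ V := QuotientGroup.leftRel_apply.mp hab
    exact Quotient.sound ⟨1, ⟨a⁻¹ * b, hab'⟩, by simp⟩)
  refine Finite.of_surjective π fun D => ?_
  induction D using Quotient.inductionOn with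
  | h x => exact ⟨QuotientGroup.mk x, rfl⟩

theorem inDC_out_iff (D : DC i V) (x : G) :
    InDC i V D.out x ↔ Quotient.mk (dcSetoidV i V) x = D := by
  constructor
  · intro h
    have : Quotient.mk (dcSetoidV i V) D.out = Quotient.mk (dcSetoidV i V) x := Quotient.sound h
    rw [← this, Quotient.out_eq]
  · intro h
    have : (dcSetoidV i V).r D.out x := Quotient.exact (by rw [Quotient.out_eq, h])
    exact this

/-- **The Mackey decomposition** `∑_D E_D ∘ R_D = 1`. -/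
theorem sum_Eg_Rg [Fintype (DC i V)] (f : XV i 𝓑G Y V) :
    ∑ D : DC i V, Eg i 𝓑G Y V hV D.out (Rg i 𝓑G Y V D.out f) = f := by
  classical
  refine Subtype.ext (funext fun x => ?_)
  have h1 : ((∑ D : DC i V, Eg i 𝓑G Y V hV D.out (Rg i 𝓑G Y V D.out f) : XV i 𝓑G Y V) :
      ↥(scoindV i 𝓑G Y)).1 x =
      ∑ D : DC i V, (Eg i 𝓑G Y V hV D.out (Rg i 𝓑G Y V D.out f)).1 x := by
    have h0 := congrFun (Submodule.coe_sum (scoindV i 𝓑G Y)
      (fun D : DC i V => Eg i 𝓑G Y V hV D.out (Rg i 𝓑G Y V D.out f)) Finset.univ) x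
    rw [Finset.sum_apply] at h0
    exact h0
  rw [h1, Finset.sum_eq_single (Quotient.mk (dcSetoidV i V) x)]
  · rw [Eg_Rg_apply, if_pos ((inDC_out_iff i V _ x).2 rfl)]
  · intro D _ hD
    rw [Eg_Rg_apply, if_neg fun h => hD ((inDC_out_iff i V D x).1 h).symm]
  · intro h
    exact absurd (Finset.mem_univ _) h

/-! ### Consequences -/

include hV in
/-- `H³(p) = 0` for the Mackey components ⟹ `H³(p) = 0` for `X|_V`. -/
theorem triv3P_XV (p : ℕ) (hT : ∀ g, Triv3P p (basisV 𝓑G V) (Sg i 𝓑G Y V g)) :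
    Triv3P p (basisV 𝓑G V) (XV i 𝓑G Y V) := by
  haveI := finite_DC i 𝓑G V hV
  haveI := Fintype.ofFinite (DC i V)
  exact triv3P_of_decomp (B := fun D : DC i V => Sg i 𝓑G Y V D.out)
    (fun D => Rg i 𝓑G Y V D.out) (fun D => Rg_equivariant i 𝓑G Y V D.out)
    (fun D => Eg i 𝓑G Y V hV D.out) (fun D => Eg_equivariant i 𝓑G Y V hV D.out)
    (sum_Eg_Rg i 𝓑G Y V hV) p fun D => hT D.out

include hV in
/-- `p`-divisibility of `H²` for the Mackey components ⟹ the same for `X|_V`. -/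
theorem pDivH2_XV (p : ℕ) (hT : ∀ g, PDivH2 p (basisV 𝓑G V) (Sg i 𝓑G Y V g)) :
    PDivH2 p (basisV 𝓑G V) (XV i 𝓑G Y V) := by
  haveI := finite_DC i 𝓑G V hV
  haveI := Fintype.ofFinite (DC i V)
  exact pDivH2_of_decomp (B := fun D : DC i V => Sg i 𝓑G Y V D.out)
    (fun D => Rg i 𝓑G Y V D.out) (fun D => Rg_equivariant i 𝓑G Y V D.out)
    (fun D => Eg i 𝓑G Y V hV D.out) (fun D => Eg_equivariant i 𝓑G Y V hV D.out)
    (sum_Eg_Rg i 𝓑G Y V hV) p fun D => hT D.out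

end Fermat.Agent.W56.Mackey2
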