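/-
Programme W56 (S56), chapter (EC-2) "right exactness of H²", helper2.

`Retract2`: for a subgroup `V ≤ G` of finite index and a discrete `G`-module `A`, the unit
`ι : A → Coind_V^G (A|_V)`, `a ↦ (g ↦ g a)` and the trace `N : Coind_V^G (A|_V) → A`,
`f ↦ ∑_{gV} g · f(g⁻¹)`, are `G`-equivariant with `N ∘ ι = [G : V]`.  Hence `H³(G, A) = 0` follows
from `H³(V, A|_V) = 0` when `[G : V]` is invertible on `A`.
-/
import Mathlib
import Fermat.Agent.W56.Mackey2

set_option autoImplicit false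
set_option linter.unusedSectionVars false
set_option linter.style.haveILetI false

open CategoryTheory groupCohomology

namespace Fermat.Agent.W56.Retract2

open Fermat.Agent.PT.PRO.LevelCoh28 Fermat.Agent.PT.PRO.LevelCohRes28
  Fermat.Agent.PT.PRO.SmoothCoind28 Fermat.Agent.PT.GLUE.Objects21
  Fermat.Agent.W56.Coh3Lev2 Fermat.Agent.W56.Shapiro3Lev2

variable {k G : Type} [CommRing k] [Group G]
variable (𝓑 : LevelBasis G) (A : Rep.{0} k G) (V : Subgroup G)

/-- `Coind_V^G (A|_V)`. -/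
noncomputable abbrev CoindRes : Rep.{0} k G := scoind V.subtype 𝓑 (Rep.res V.subtype A)

/-! ### The unit -/

/-- `a ↦ (g ↦ g a)`. -/
noncomputable def unit (hA : IsDiscrete 𝓑.sets A) : A →ₗ[k] CoindRes 𝓑 A V where
  toFun a := ⟨fun g => A.ρ g a, by
    refine ⟨fun v g => ?_, ?_⟩
    · show A.ρ ((v : G) * g) a = A.ρ (v : G) (A.ρ g a)
      rw [map_mul, Module.End.mul_apply]
    · obtain ⟨U, hU, h⟩ := hA a
      exact ⟨U, hU, fun g s hs => by
        show A.ρ (g * s) a = A.ρ g a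
        rw [map_mul, Module.End.mul_apply, h s hs]⟩⟩
  map_add' a b := Subtype.ext (funext fun g => map_add _ _ _)
  map_smul' c a := Subtype.ext (funext fun g => map_smul _ _ _)

@[simp] theorem unit_apply (hA : IsDiscrete 𝓑.sets A) (a : A) (g : G) :
    (unit 𝓑 A V hA a).1 g = A.ρ g a := rfl

theorem unit_equivariant (hA : IsDiscrete 𝓑.sets A) (g : G) (a : A) :
    unit 𝓑 A V hA (A.ρ g a) = (CoindRes 𝓑 A V).ρ g (unit 𝓑 A V hA a) := by
  refine Subtype.ext (funext fun y => ?_)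
  show A.ρ y (A.ρ g a) = A.ρ (y * g) a
  rw [map_mul, Module.End.mul_apply]

/-! ### The trace -/

/-- The summand of the trace at the left coset `gV`: `g · f(g⁻¹)`. -/
def traceTerm (f : CoindRes 𝓑 A V) (c : G ⧸ V) : A :=
  Quotient.liftOn' c (fun g => A.ρ g (f.1 g⁻¹)) (by
    intro a b hab
    rw [QuotientGroup.leftRel_apply] at hab
    have h1 : b⁻¹ = (((⟨a⁻¹ * b, hab⟩ : ↥V)⁻¹ : ↥V) : G) * a⁻¹ := by simp
    have h2 := f.2.1 (⟨a⁻¹ * b, hab⟩ : ↥V)⁻¹ a⁻¹
    show A.ρ a (f.1 a⁻¹) = A.ρ b (f.1 b⁻¹)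
    rw [h1]
    erw [h2]
    show A.ρ a (f.1 a⁻¹) = A.ρ b (A.ρ (((⟨a⁻¹ * b, hab⟩ : ↥V)⁻¹ : ↥V) : G) (f.1 a⁻¹))
    rw [← Module.End.mul_apply, ← map_mul]
    congr 2
    simp)

theorem traceTerm_mk (g : G) (f : CoindRes 𝓑 A V) :
    traceTerm 𝓑 A V f (QuotientGroup.mk g) = A.ρ g (f.1 g⁻¹) := rfl

variable [Fintype (G ⧸ V)]

/-- The trace `f ↦ ∑_{gV} g · f(g⁻¹)`. -/
noncomputable def trace : CoindRes 𝓑 A V →ₗ[k] A where
  toFun f := ∑ c : G ⧸ V, traceTerm 𝓑 A V f c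
  map_add' f f' := by
    rw [← Finset.sum_add_distrib]
    refine Finset.sum_congr rfl fun c _ => ?_
    induction c using QuotientGroup.induction_on with
    | H x =>
      rw [traceTerm_mk, traceTerm_mk, traceTerm_mk, ← map_add]
      rfl
  map_smul' r f := by
    rw [Finset.smul_sum]
    refine Finset.sum_congr rfl fun c _ => ?_
    induction c using QuotientGroup.induction_on with
    | H x =>
      rw [traceTerm_mk, traceTerm_mk, RingHom.id_apply, ← map_smul]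
      rfl

theorem trace_apply (f : CoindRes 𝓑 A V) :
    trace 𝓑 A V f = ∑ c : G ⧸ V, traceTerm 𝓑 A V f c := rfl

theorem traceTerm_smul (g : G) (c : G ⧸ V) (f : CoindRes 𝓑 A V) :
    traceTerm 𝓑 A V ((CoindRes 𝓑 A V).ρ g f) c = A.ρ g (traceTerm 𝓑 A V f (g⁻¹ • c)) := by
  induction c using QuotientGroup.induction_on with
  | H x =>
    show traceTerm 𝓑 A V _ (QuotientGroup.mk x) =
      A.ρ g (traceTerm 𝓑 A V f (QuotientGroup.mk (g⁻¹ * x)))
    rw [traceTerm_mk, traceTerm_mk, scoind_ρ_apply, ← Module.End.mul_apply, ← map_mul]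
    simp

theorem trace_equivariant (g : G) (f : CoindRes 𝓑 A V) :
    trace 𝓑 A V ((CoindRes 𝓑 A V).ρ g f) = A.ρ g (trace 𝓑 A V f) := by
  rw [trace_apply, trace_apply, map_sum]
  simp only [traceTerm_smul]
  exact Fintype.sum_equiv (MulAction.toPerm g⁻¹) _ _ (fun c => rfl)

theorem trace_unit (hA : IsDiscrete 𝓑.sets A) (a : A) :
    trace 𝓑 A V (unit 𝓑 A V hA a) = (Fintype.card (G ⧸ V) : k) • a := by
  rw [trace_apply]
  have : ∀ c : G ⧸ V, traceTerm 𝓑 A V (unit 𝓑 A V hA a) c = a := fun c => by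
    induction c using QuotientGroup.induction_on with
    | H x =>
      rw [traceTerm_mk, unit_apply, ← Module.End.mul_apply, ← map_mul, mul_inv_cancel, map_one,
        Module.End.one_apply]
  rw [Finset.sum_congr rfl fun c _ => this c, Finset.sum_const, Finset.card_univ,
    Nat.cast_smul_eq_nsmul]

/-- **`H³(V, A|_V) = 0 ⟹ H³(G, A) = 0`** when `[G : V]` is a unit of `k`. -/
theorem triv3_of_res (hA : IsDiscrete 𝓑.sets A)
    (hunit : IsUnit (Fintype.card (G ⧸ V) : k))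
    (hT : Triv3 (comapBasis V.subtype 𝓑) (Rep.res V.subtype A)) : Triv3 𝓑 A := by
  refine triv3_of_retract (unit 𝓑 A V hA) (unit_equivariant 𝓑 A V hA) (trace 𝓑 A V)
    (trace_equivariant 𝓑 A V) _ hunit (trace_unit 𝓑 A V hA) ?_
  have hcont : IsLevelHom V.subtype (comapBasis V.subtype 𝓑).sets 𝓑.sets :=
    fun U hU => ⟨_, ⟨U, hU, rfl⟩, le_rfl⟩
  have hind : ∀ W ∈ (comapBasis V.subtype 𝓑).sets, ∃ U ∈ 𝓑.sets, U.comap V.subtype ≤ W := by
    rintro _ ⟨U, hU, rfl⟩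
    exact ⟨U, hU, le_rfl⟩
  refine triv3_scoind V.subtype 𝓑 (comapBasis V.subtype 𝓑) hcont hind _ ?_ hT
  intro a
  obtain ⟨U, hU, h⟩ := hA a
  exact ⟨_, ⟨U, hU, rfl⟩, fun s hs => h s hs⟩

end Fermat.Agent.W56.Retract2
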