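/-
Programme W56 (S56), chapter (EC-2) "right exactness of H²", helper2.

`Unip2`: a finite `𝔽_p[V]`-module on which `V` acts through a `p`-group is a successive extension
of trivial modules `𝔽_p`; hence `H³(V, 𝔽_p) = 0 ⟹ H³(V, K) = 0` for all such `K`.
-/
import Mathlib
import Fermat.Agent.W56.Coh3Lev2
import Fermat.Agent.W56.Shapiro3Lev2

set_option autoImplicit false
set_option linter.unusedSectionVars false
set_option linter.style.haveILetI false

open CategoryTheory groupCohomology

namespace Fermat.Agent.W56.Unip2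

open Fermat.Agent.PT.PRO.LevelCoh28 Fermat.Agent.W56.Coh3Lev2 Fermat.Agent.W56.Shapiro3Lev2

variable {p : ℕ} [hp : Fact p.Prime] {V : Type} [Group V]

/-- The action on `K` factors through a `p`-group. -/
def Unip (p : ℕ) (K : Rep.{0} (ZMod p) V) : Prop :=
  ∃ (P : Type) (_ : Group P), IsPGroup p P ∧
    ∃ (π : V →* P) (σ : Representation (ZMod p) P K), ∀ v, K.ρ v = σ (π v)

theorem triv3_of_subsingleton (𝓑 : LevelBasis V) (K : Rep.{0} (ZMod p) V) [Subsingleton K] :
    Triv3 𝓑 K := fun _ _ _ =>
  ⟨0, isLevel₂_const 𝓑.isBasis (0 : K), funext fun _ => Subsingleton.elim _ _⟩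

theorem dvd_card_of_nontrivial (K : Type) [AddCommGroup K] [Module (ZMod p) K] [Finite K]
    [Nontrivial K] : p ∣ Nat.card K := by
  obtain ⟨x, hx⟩ := exists_ne (0 : K)
  have h1 : p • x = 0 := by
    have : ((p : ZMod p)) • x = 0 := by rw [ZMod.natCast_self, zero_smul]
    rwa [Nat.cast_smul_eq_nsmul] at this
  have h2 : addOrderOf x ∣ p := addOrderOf_dvd_of_nsmul_eq_zero h1
  have h3 : addOrderOf x = p := by
    rcases (Nat.dvd_prime hp.out).1 h2 with h | h
    · exact absurd (AddMonoid.addOrderOf_eq_one_iff.1 h) hx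
    · exact h
  rw [← h3]
  exact addOrderOf_dvd_natCard x

variable (𝓑 : LevelBasis V)

/-- **Dévissage along a `p`-group action.** -/
theorem triv3_of_unip (hcore : Triv3 𝓑 (Rep.trivial (ZMod p) V (ZMod p))) :
    ∀ (n : ℕ) (K : Rep.{0} (ZMod p) V) [Finite K], Nat.card K = n →
      IsDiscrete 𝓑.sets K → Unip p K → Triv3 𝓑 K := by
  intro n
  induction n using Nat.strong_induction_on with
  | _ n ih =>
    intro K _ hn hK hU
    by_cases hsub : Subsingleton K
    · exact triv3_of_subsingleton 𝓑 K
    · haveI : Nontrivial K := not_subsingleton_iff_nontrivial.1 hsub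
      obtain ⟨P, _, hP, π, σ, hσ⟩ := hU
      letI : MulAction P K :=
        { smul := fun g x => σ g x
          one_smul := fun x => by show σ 1 x = x; rw [map_one, Module.End.one_apply]
          mul_smul := fun g h x => by
            show σ (g * h) x = σ g (σ h x)
            rw [map_mul, Module.End.mul_apply] }
      have h0 : (0 : K) ∈ MulAction.fixedPoints P K := fun g => by
        show σ g 0 = 0
        exact map_zero _
      obtain ⟨b, hbfix, hb0⟩ :=
        hP.exists_fixed_point_of_prime_dvd_card_of_fixed_point K (dvd_card_of_nontrivial K) h0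
      have hb : b ≠ 0 := fun h => hb0 h.symm
      have hbσ : ∀ g : P, σ g b = b := fun g => hbfix g
      set L : Submodule (ZMod p) K := Submodule.span (ZMod p) {b} with hL
      have hLσ : ∀ g : P, ∀ y ∈ L, σ g y = y := by
        intro g y hy
        obtain ⟨c, rfl⟩ := Submodule.mem_span_singleton.1 hy
        rw [map_smul, hbσ]
      have hLρ : ∀ v : V, ∀ y ∈ L, K.ρ v y = y := fun v y hy => by rw [hσ, hLσ _ y hy]
      have hLc : ∀ v : V, L ≤ L.comap (K.ρ v) := fun v y hy => by
        rw [Submodule.mem_comap, hLρ v y hy]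
        exact hy
      have hLc' : ∀ g : P, L ≤ L.comap (σ g) := fun g y hy => by
        rw [Submodule.mem_comap, hLσ g y hy]
        exact hy
      -- the sub and the quotient
      let A : Rep.{0} (ZMod p) V := Rep.subrepresentation K L hLc
      let C : Rep.{0} (ZMod p) V := Rep.quotient K L hLc
      have hTA : Triv3 𝓑 A := by
        let e := LinearEquiv.toSpanNonzeroSingleton (ZMod p) K b hb
        refine triv3_of_bijective (A := A) (B := Rep.trivial (ZMod p) V (ZMod p))
          (e.symm.toLinearMap : ↥L →ₗ[ZMod p] ZMod p) ?_ e.symm.bijective hcore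
        intro g a
        have : A.ρ g a = a := Subtype.ext (hLρ g a.1 a.2)
        rw [this]
        rfl
      have hTC : Triv3 𝓑 C := by
        haveI : Finite (K ⧸ L) := Finite.of_surjective _ (Submodule.mkQ_surjective L)
        haveI : Finite C := inferInstanceAs (Finite (K ⧸ L))
        refine ih (Nat.card C) ?_ C rfl ?_ ?_
        · have h1 : Nat.card K = Nat.card L * Nat.card (K ⧸ L) :=
            Submodule.card_eq_card_quotient_mul_card L
          have h2 : 1 < Nat.card L := by
            rw [Finite.one_lt_card_iff_nontrivial]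
            exact ⟨⟨⟨b, Submodule.mem_span_singleton_self b⟩, 0, fun h => hb (congrArg Subtype.val h)⟩⟩
          have h3 : 0 < Nat.card (K ⧸ L) := Nat.card_pos
          rw [← hn, h1]
          show Nat.card (K ⧸ L) < _
          nlinarith
        · intro c
          obtain ⟨x, rfl⟩ := Submodule.mkQ_surjective L c
          obtain ⟨U, hU, h⟩ := hK x
          refine ⟨U, hU, fun s hs => ?_⟩
          show L.mkQ (K.ρ s x) = L.mkQ x
          rw [h s hs]
        · refine ⟨P, _, hP, π, σ.quotient L hLc', fun v => ?_⟩
          refine LinearMap.ext fun y => ?_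
          obtain ⟨x, rfl⟩ := Submodule.mkQ_surjective L y
          show L.mkQ (K.ρ v x) = L.mkQ (σ (π v) x)
          rw [hσ]
      exact triv3_of_exact (𝓑 := 𝓑) (A := A) (B := K) (C := C) L.subtype (fun _ _ => rfl) L.mkQ
        (fun _ _ => rfl) L.injective_subtype (Submodule.mkQ_surjective L)
        (fun x => by
          rw [Submodule.mkQ_apply, Submodule.Quotient.mk_eq_zero]
          exact ⟨fun h => ⟨⟨x, h⟩, rfl⟩, fun ⟨a, ha⟩ => ha ▸ a.2⟩)
        hK hTA hTC

end Fermat.Agent.W56.Unip2
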