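/-
Programme W56 (S56), chapter (EC-2) "right exactness of H²", helper2.

`Devissage2`: **the generic dévissage** for `cd_p ≤ 2`.  `G` a group with a level basis `𝓑`,
`χ : G →* X` a character with open kernel into a finite group of order prime to `p`.
If `H³(V, 𝔽_p) = 0` for every open subgroup `V ≤ ker χ` of index prime to `p`, then
`H³(G, K) = 0` for every finite discrete `𝔽_p[G]`-module `K`, and `H²(G, ·)` is right exact on
finite discrete `𝔽_p[G]`-modules.

Proof: `U₀ ◁ G` open acting trivially on `K`, `U₀ ≤ ker χ`; `V` = preimage of a `p`-Sylow of `G/U₀`: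
`K` is a retract up to the unit `[G:V]` of `Coind_V^G K` (`Retract2`), Shapiro in degree 3
(`Shapiro3Lev2`), and `K|_V` is a successive extension of trivial modules (`Unip2`).
-/
import Mathlib
import Fermat.Agent.W56.Retract2
import Fermat.Agent.W56.Unip2

set_option autoImplicit false
set_option linter.unusedSectionVars false
set_option linter.style.haveILetI false

open CategoryTheory groupCohomology

namespace Fermat.Agent.W56.Devissage2

open Fermat.Agent.PT.PRO.LevelCoh28 Fermat.Agent.PT.GLUE.Objects21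
  Fermat.Agent.W56.Coh3Lev2 Fermat.Agent.W56.Retract2 Fermat.Agent.W56.Unip2

variable {p : ℕ} [hp : Fact p.Prime] {G : Type} [Group G] (𝓑 : LevelBasis G)
variable {X : Type} [Group X] [Finite X] (χ : G →* X)

/-- The hypothesis of the dévissage: `H³(V, 𝔽_p) = 0` for the open subgroups `V ≤ ker χ` of index
prime to `p`. -/
def Core (p : ℕ) (𝓑 : LevelBasis G) (χ : G →* X) : Prop :=
  ∀ V : Subgroup G, (∃ U ∈ 𝓑.sets, U ≤ V) → V.index.Coprime p → V ≤ χ.ker →
    Triv3 (comapBasis V.subtype 𝓑) (Rep.trivial (ZMod p) ↥V (ZMod p))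

include hp in
/-- A homomorphism from a `p`-group to a finite group of order prime to `p` is trivial. -/
theorem eq_one_of_isPGroup {P : Type} [Group P] (hP : IsPGroup p P) (f : P →* X)
    (hX : (Nat.card X).Coprime p) (g : P) : f g = 1 := by
  obtain ⟨n, hn⟩ := hP g
  have h1 : orderOf (f g) ∣ p ^ n := by
    apply orderOf_dvd_of_pow_eq_one
    rw [← map_pow, hn, map_one]
  have h2 : orderOf (f g) ∣ Nat.card X := orderOf_dvd_natCard (f g)
  have h3 : orderOf (f g) ∣ Nat.gcd (p ^ n) (Nat.card X) := Nat.dvd_gcd h1 h2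
  have h4 : Nat.gcd (p ^ n) (Nat.card X) = 1 :=
    Nat.Coprime.pow_left n (Nat.Coprime.symm hX)
  rw [h4, Nat.dvd_one] at h3
  exact orderOf_eq_one_iff.1 h3

/-- **`cd_p G ≤ 2` from the core**: `H³(G, K) = 0` for every finite discrete `𝔽_p[G]`-module. -/
theorem triv3_of_core (hX : (Nat.card X).Coprime p) (hχ : ∃ U ∈ 𝓑.sets, U ≤ χ.ker)
    (hcore : Core p 𝓑 χ) (K : Rep.{0} (ZMod p) G) [Finite K] (hK : IsDiscrete 𝓑.sets K) :
    Triv3 𝓑 K := by
  -- an open normal subgroup acting trivially on `K`, inside `ker χ`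
  obtain ⟨U₁, hU₁, -, hfix⟩ := hK.exists_fixing 𝓑.isBasis (Set.finite_univ (α := K))
  obtain ⟨U₂, hU₂, hU₂χ⟩ := hχ
  obtain ⟨W, hW, hWle⟩ := 𝓑.isBasis.directed U₁ hU₁ U₂ hU₂
  obtain ⟨U₀, hU₀, hU₀W, hn⟩ := 𝓑.isBasis.normalCore W hW
  haveI := hn
  haveI := 𝓑.isBasis.finiteIndex U₀ hU₀
  haveI : Finite (G ⧸ U₀) := Subgroup.finite_quotient_of_finiteIndex
  have hfix₀ : ∀ u ∈ U₀, ∀ x : K, K.ρ u x = x := fun u hu x =>
    hfix u ((hU₀W.trans (hWle.trans inf_le_left)) hu) x (Set.mem_univ x)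
  have hχ₀ : U₀ ≤ χ.ker := hU₀W.trans ((hWle.trans inf_le_right).trans hU₂χ)
  -- the preimage of a Sylow subgroup
  let P : Sylow p (G ⧸ U₀) := default
  let V : Subgroup G := (P : Subgroup (G ⧸ U₀)).comap (QuotientGroup.mk' U₀)
  have hU₀V : U₀ ≤ V := fun u hu => by
    show QuotientGroup.mk' U₀ u ∈ (P : Subgroup (G ⧸ U₀))
    have : QuotientGroup.mk' U₀ u = 1 := (QuotientGroup.eq_one_iff u).2 hu
    rw [this]
    exact Subgroup.one_mem _
  have hVopen : ∃ U ∈ 𝓑.sets, U ≤ V := ⟨U₀, hU₀, hU₀V⟩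
  have hindex : V.index = (P : Subgroup (G ⧸ U₀)).index :=
    Subgroup.index_comap_of_surjective _ (QuotientGroup.mk'_surjective U₀)
  have hcop : V.index.Coprime p := by
    rw [hindex, Nat.coprime_comm, Nat.Prime.coprime_iff_not_dvd hp.out]
    exact P.not_dvd_index
  -- `V ≤ ker χ`
  have hVχ : V ≤ χ.ker := by
    intro v hv
    let χbar : G ⧸ U₀ →* X := QuotientGroup.lift U₀ χ hχ₀
    have := eq_one_of_isPGroup (p := p) P.isPGroup' (χbar.comp (P : Subgroup (G ⧸ U₀)).subtype) hX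
      ⟨QuotientGroup.mk' U₀ v, hv⟩
    exact this
  -- `K|_V` is unipotent
  have hker : U₀ ≤ (K.ρ : G →* (K →ₗ[ZMod p] K)).ker := fun s hs => by
    rw [MonoidHom.mem_ker]
    exact LinearMap.ext fun a => hfix₀ s hs a
  let σ : Representation (ZMod p) ↥(P : Subgroup (G ⧸ U₀)) K :=
    (QuotientGroup.lift U₀ K.ρ hker).comp (P : Subgroup (G ⧸ U₀)).subtype
  let π : ↥V →* ↥(P : Subgroup (G ⧸ U₀)) :=
    (QuotientGroup.mk' U₀).subgroupComap (P : Subgroup (G ⧸ U₀))
  have hunip : Unip p (Rep.res V.subtype K) := ⟨_, inferInstance, P.isPGroup', π, σ, fun v => rfl⟩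
  have hKV : IsDiscrete (comapBasis V.subtype 𝓑).sets (Rep.res V.subtype K) := by
    intro a
    obtain ⟨U, hU, h⟩ := hK a
    exact ⟨_, ⟨U, hU, rfl⟩, fun s hs => h s hs⟩
  haveI : Finite (Rep.res V.subtype K) := inferInstanceAs (Finite K)
  have hTV : Triv3 (comapBasis V.subtype 𝓑) (Rep.res V.subtype K) :=
    triv3_of_unip (comapBasis V.subtype 𝓑) (hcore V hVopen hcop hVχ) _ _ rfl hKV hunip
  -- back to `G`
  haveI : V.FiniteIndex := Subgroup.finiteIndex_of_le hU₀V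
  haveI : Finite (G ⧸ V) := Subgroup.finite_quotient_of_finiteIndex
  haveI := Fintype.ofFinite (G ⧸ V)
  refine triv3_of_res 𝓑 K V hK ?_ hTV
  have hcard : Fintype.card (G ⧸ V) = V.index := by
    rw [← Nat.card_eq_fintype_card]
    rfl
  rw [hcard]
  exact (ZMod.isUnit_iff_coprime _ _).2 hcop

/-- **Right exactness of `H²`** on finite discrete `𝔽_p[G]`-modules, from the core. -/
theorem surjective_mapH2_of_core (hX : (Nat.card X).Coprime p) (hχ : ∃ U ∈ 𝓑.sets, U ≤ χ.ker)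
    (hcore : Core p 𝓑 χ) (A B : Rep.{0} (ZMod p) G) [Finite A] (ψ : A →ₗ[ZMod p] B)
    (hψ : ∀ g a, ψ (A.ρ g a) = B.ρ g (ψ a)) (hsurj : Function.Surjective ψ)
    (hA : IsDiscrete 𝓑.sets A) : Function.Surjective (mapH2 (𝓑 := 𝓑) ψ hψ) := by
  have hst : ∀ g, LinearMap.ker ψ ≤ (LinearMap.ker ψ).comap (A.ρ g) := fun g a ha => by
    rw [Submodule.mem_comap, LinearMap.mem_ker, hψ, LinearMap.mem_ker.1 ha, map_zero]
  let K : Rep.{0} (ZMod p) G := Rep.subrepresentation A (LinearMap.ker ψ) hst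
  haveI : Finite K := inferInstanceAs (Finite ↥(LinearMap.ker ψ))
  have hK : IsDiscrete 𝓑.sets K := by
    intro a
    obtain ⟨U, hU, h⟩ := hA a.1
    exact ⟨U, hU, fun s hs => Subtype.ext (h s hs)⟩
  have hT : Triv3 𝓑 K := triv3_of_core 𝓑 χ hX hχ hcore K hK
  exact surjective_mapH2_of_triv3 (𝓑 := 𝓑) (A := K) (LinearMap.ker ψ).subtype (fun _ _ => rfl) ψ hψ
    (LinearMap.ker ψ).injective_subtype hsurj
    (fun b => ⟨fun h => ⟨⟨b, h⟩, rfl⟩, fun ⟨a, ha⟩ => ha ▸ a.2⟩) hA hT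

end Fermat.Agent.W56.Devissage2
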