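/-
Programme W56 (target S56), shared package "class formation over an open subgroup" (helper8):
**restriction of fundamental classes along an injective group homomorphism.**

`isFundClass_of_injective` : for `ι : G' →* G` injective and `φ : Res_ι C ≅ C'`,
`Interface8.IsFundClass p C u → IsFundClass p C' (map ι φ.hom 2 u)` (generalises
`FundClassTransferB2.isFundClass_of_equiv`; in particular fundamental classes restrict to
subgroups: `isFundClass_resSub`).
-/
import Mathlib
import Fermat.Agent.PT.FG.FundClassTransferB2

set_option autoImplicit false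
set_option linter.unusedSectionVars false

open CategoryTheory groupCohomology Rep

universe u

namespace Fermat.Agent.W56.FundSub8

open Fermat.Agent.PT.FG.Transfer2 Fermat.Agent.PT.FG.FundClassTransfer2
  Fermat.Agent.PT.FG.FundClassTransferB2 Fermat.Agent.PT.FG.Interface8

section inj

variable {k G G' : Type u} [CommRing k] [Group G] [Group G'] (ι : G' →* G)
  (hι : Function.Injective ι) (C : Rep.{u} k G) (C' : Rep.{u} k G') (φ : res ι C ≅ C')
  (H' : Subgroup G')

/-- The image subgroup and the restricted group isomorphism. -/
noncomputable abbrev imageEquivI : H' ≃* H'.map ι :=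
  Subgroup.equivMapOfInjective H' ι hι

/-- The restriction of `φ` to `H'`. -/
noncomputable def resIsoI :
    res (imageEquivI ι hι H').toMonoidHom (res (H'.map ι).subtype C) ≅ res H'.subtype C' :=
  (resFunctor H'.subtype).mapIso φ

/-- The comparison map `Hⁿ(ι H', C) → Hⁿ(H', C')` is bijective. -/
theorem map_imageEquivI_bijective (n : ℕ) :
    Function.Bijective (groupCohomology.map (imageEquivI ι hι H').toMonoidHom
      (resIsoI ι hι C C' φ H').hom n).hom :=
  map_equiv_bijective (imageEquivI ι hι H') (res (H'.map ι).subtype C)
    (res H'.subtype C') (resIsoI ι hι C C' φ H') n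

/-- Naturality: transport then restrict = restrict then transport. -/
lemma map_inj_res_comm (n : ℕ) :
    groupCohomology.map ι φ.hom n ≫
        groupCohomology.map H'.subtype (𝟙 (res H'.subtype C')) n =
      groupCohomology.map (H'.map ι).subtype (𝟙 (res (H'.map ι).subtype C)) n ≫
        groupCohomology.map (imageEquivI ι hι H').toMonoidHom (resIsoI ι hι C C' φ H').hom n := by
  rw [← groupCohomology.map_comp, ← groupCohomology.map_comp]
  exact groupCohomology.map_congr rfl rfl n

end inj

section transport

variable {G G' : Type} [Group G] [Group G']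

/-- **Restriction of fundamental classes along an injective homomorphism** `ι : G' →* G` and an
isomorphism of `G'`-modules `φ : Res_ι C ≅ C'`. -/
theorem isFundClass_of_injective (p : ℕ) [Fact p.Prime] (ι : G' →* G) (hι : Function.Injective ι)
    (C : Rep ℤ G) (C' : Rep ℤ G') (φ : Rep.res ι C ≅ C') (u : H2 C) (hu : IsFundClass p C u) :
    IsFundClass p C' (groupCohomology.map ι φ.hom 2 u) := by
  have hP : ∀ H' : Subgroup G', IsPGroup p H' → IsPGroup p (H'.map ι) :=
    fun H' hH' => hH'.map _
  have hcard : ∀ H' : Subgroup G', Nat.card (H'.map ι) = Nat.card H' :=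
    fun H' => (Nat.card_congr (imageEquivI ι hι H').toEquiv).symm
  refine ⟨fun H' hH' => ?_, fun H' hH' => ?_, fun H' hH' => ?_⟩
  · have := hu.h1 _ (hP H' hH')
    exact (map_imageEquivI_bijective ι hι C C' φ H' 1).2.subsingleton
  · rw [← hcard H', ← hu.card _ (hP H' hH')]
    exact (Nat.card_congr (Equiv.ofBijective _ (map_imageEquivI_bijective ι hι C C' φ H' 2))).symm
  · rw [← hcard H', ← hu.order _ (hP H' hH')]
    have hnat := congrArg (fun f => f.hom u) (map_inj_res_comm ι hι C C' φ H' 2)
    simp only [ModuleCat.hom_comp, LinearMap.coe_comp, Function.comp_apply] at hnat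
    show addOrderOf ((groupCohomology.map H'.subtype (𝟙 (res H'.subtype C')) 2).hom
      ((groupCohomology.map ι φ.hom 2).hom u)) = _
    rw [hnat]
    exact addOrderOf_injective
      (groupCohomology.map (imageEquivI ι hι H').toMonoidHom
        (resIsoI ι hι C C' φ H').hom 2).hom.toAddMonoidHom
      (map_imageEquivI_bijective ι hι C C' φ H' 2).1 _

/-- Fundamental classes restrict to subgroups. -/
theorem isFundClass_resSub (p : ℕ) [Fact p.Prime] (C : Rep ℤ G) (Q' : Subgroup G) (u : H2 C)
    (hu : IsFundClass p C u) : IsFundClass p (resSub Q' C) (resMap Q' C 2 u) :=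
  isFundClass_of_injective p Q'.subtype Q'.subtype_injective C (resSub Q' C) (Iso.refl _) u hu

end transport

end Fermat.Agent.W56.FundSub8
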