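/-
Programme W56 (target S56), shared package "class formation over an open subgroup" (helper8):
**fundamental classes at the finite levels pass to an open subgroup, on a cofinal family.**

`(G, 𝒰)` a level group, `ρ : Representation ℤ G C`, `V ≤ G` a subgroup, `W ∈ 𝒰` normal in `G` with
`W ≤ V`.  Then `V ⧸ (W ∩ V) ↪ G ⧸ W` and `C^{W ∩ V} = C^W`, so a fundamental class of
`(G ⧸ W, C^W)` restricts to a fundamental class of `(V ⧸ W ∩ V, C^{W ∩ V})`
(`exists_isFundClass_subgroupOf`).  For `V` open the subgroups `W ∩ V` form a cofinal family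
`famV 𝒰 V` of normal members of the pulled-back basis (`famV_sub`, `famV_normal`, `famV_cofinal`).
-/
import Mathlib
import Fermat.Agent.W56.FundSub8
import Fermat.Agent.PT.PRO.InvFund18
import Fermat.Agent.PT.GLUE.Objects21
import Fermat.Agent.PT.PRO.FundHyp12

set_option autoImplicit false
set_option linter.unusedSectionVars false

open CategoryTheory groupCohomology

namespace Fermat.Agent.W56.OpenSub8

open Fermat.Agent.PT.PRO.HyperLevel25 Fermat.Agent.PT.PRO.HyperColim18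
  Fermat.Agent.PT.PRO.FundRaw18 Fermat.Agent.PT.FG.Interface8
  Fermat.Agent.PT.GLUE.Objects21

/-! ### generic coefficient ring -/

section Generic

variable {k : Type} [CommRing k] {G : Type} [Group G] {C : Type} [AddCommGroup C] [Module k C]
  (ρ : Representation k G C) (V W : Subgroup G)

theorem fixedSub_subgroupOf (hWV : W ≤ V) :
    fixedSub (W.subgroupOf V) (ρ.comp V.subtype) = fixedSub W ρ := by
  ext y
  constructor
  · intro hy s hs
    exact hy ⟨s, hWV hs⟩ (Subgroup.mem_subgroupOf.2 hs)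
  · intro hy s hs
    exact hy s (Subgroup.mem_subgroupOf.1 hs)

/-- `C^W ≃ C^{W ∩ V}`. -/
def fixedEquiv (hWV : W ≤ V) :
    fixedSub W ρ ≃ₗ[k] fixedSub (W.subgroupOf V) (ρ.comp V.subtype) :=
  LinearEquiv.ofEq _ _ (fixedSub_subgroupOf ρ V W hWV).symm

@[simp] theorem coe_fixedEquiv (hWV : W ≤ V) (y : fixedSub W ρ) :
    ((fixedEquiv ρ V W hWV y : fixedSub (W.subgroupOf V) (ρ.comp V.subtype)) : C) = y := rfl

variable [W.Normal]

/-- the injection `V ⧸ (W ∩ V) → G ⧸ W`. -/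
def quotMap : ↥V ⧸ W.subgroupOf V →* G ⧸ W :=
  QuotientGroup.map (W.subgroupOf V) W V.subtype (fun _ hx => hx)

@[simp] theorem quotMap_mk (v : ↥V) : quotMap V W (v : ↥V ⧸ W.subgroupOf V) = ((v : G) : G ⧸ W) :=
  rfl

theorem quotMap_injective : Function.Injective (quotMap V W) := by
  rw [injective_iff_map_eq_one]
  intro q hq
  induction q using QuotientGroup.induction_on with
  | H v =>
    rw [quotMap_mk, QuotientGroup.eq_one_iff] at hq
    rw [QuotientGroup.eq_one_iff]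
    exact Subgroup.mem_subgroupOf.2 hq

/-- `Res (C^W) ≅ C^{W ∩ V}` as modules over `V ⧸ (W ∩ V)`. -/
def fixedIso (hWV : W ≤ V) :
    Rep.res (quotMap V W) (fixedObj W ρ) ≅ fixedObj (W.subgroupOf V) (ρ.comp V.subtype) :=
  Rep.mkIso (Representation.Equiv.mk (fixedEquiv ρ V W hWV) (fun q => by
    induction q using QuotientGroup.induction_on with
    | H v =>
      ext y
      rfl))

end Generic

/-! ### the cofinal family -/

section Family

variable {G : Type} [Group G]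

/-- the subgroups `W ∩ V` of `V`, `W ∈ 𝒰` normal in `G`, `W ≤ V`. -/
def famV (𝒰 : Set (Subgroup G)) (V : Subgroup G) : Set (Subgroup ↥V) :=
  {W' | ∃ W ∈ 𝒰, W.Normal ∧ W ≤ V ∧ W' = W.subgroupOf V}

theorem famV_sub (𝒰 : Set (Subgroup G)) (V : Subgroup G) : famV 𝒰 V ⊆ comapSet V.subtype 𝒰 := by
  rintro _ ⟨W, hW, -, -, rfl⟩
  exact ⟨W, hW, rfl⟩

theorem famV_normal (𝒰 : Set (Subgroup G)) (V : Subgroup G) : ∀ W' ∈ famV 𝒰 V, W'.Normal := by
  rintro _ ⟨W, -, hn, -, rfl⟩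
  have := hn
  exact Subgroup.normal_subgroupOf

theorem famV_cofinal {𝒰 : Set (Subgroup G)} (h𝒰 : IsLevelBasis 𝒰) {V : Subgroup G}
    (hV : ∃ U ∈ 𝒰, U ≤ V) : ∀ U' ∈ comapSet V.subtype 𝒰, ∃ W' ∈ famV 𝒰 V, W' ≤ U' := by
  rintro _ ⟨U, hU, rfl⟩
  obtain ⟨U₀, hU₀, hU₀V⟩ := hV
  obtain ⟨W₁, hW₁, hW₁le⟩ := h𝒰.inf U hU U₀ hU₀
  obtain ⟨W, hW, hWle, hWn⟩ := h𝒰.normal W₁ hW₁
  refine ⟨W.subgroupOf V, ⟨W, hW, hWn, (hWle.trans (hW₁le.trans inf_le_right)).trans hU₀V, rfl⟩, ?_⟩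
  intro v hv
  exact (hWle.trans (hW₁le.trans inf_le_left)) (Subgroup.mem_subgroupOf.1 hv)

end Family

/-! ### `k = ℤ` : fundamental classes -/

section Int

variable {G : Type} [Group G] {C : Type} [AddCommGroup C] [Module ℤ C]
  (ρ : Representation ℤ G C)

/-- **a fundamental class of `(G ⧸ W, C^W)` restricts to `(V ⧸ W ∩ V, C^{W ∩ V})`.** -/
theorem exists_isFundClass_subgroupOf (p : ℕ) [Fact p.Prime] (V W : Subgroup G) [W.Normal]
    (hWV : W ≤ V) (u : H2 (fixedObj W ρ)) (hu : IsFundClass p (fixedObj W ρ) u) :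
    ∃ u' : H2 (fixedObj (W.subgroupOf V) (ρ.comp V.subtype)),
      IsFundClass p (fixedObj (W.subgroupOf V) (ρ.comp V.subtype)) u' :=
  ⟨_, FundSub8.isFundClass_of_injective p (quotMap V W) (quotMap_injective V W) (fixedObj W ρ)
    (fixedObj (W.subgroupOf V) (ρ.comp V.subtype)) (fixedIso ρ V W hWV) u hu⟩

/-- **`FundFixed` passes to a subgroup, on the family `famV`.** -/
theorem fund_famV {𝒰 : Set (Subgroup G)} {p : ℕ} [Fact p.Prime]
    (hfund : Fermat.Agent.PT.PRO.FundHyp12.FundFixed ρ 𝒰 p) (V : Subgroup G) :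
    ∀ W' (hW' : W' ∈ famV 𝒰 V), haveI := famV_normal 𝒰 V W' hW';
      ∃ u' : H2 (fixedObj W' (ρ.comp V.subtype)), IsFundClass p (fixedObj W' (ρ.comp V.subtype)) u' := by
  rintro _ ⟨W, hW, hn, hWV, rfl⟩
  have := hn
  obtain ⟨u, hu⟩ := hfund W hW hn
  exact exists_isFundClass_subgroupOf ρ p V W hWV u hu

end Int

end Fermat.Agent.W56.OpenSub8
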