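/-
Programme W56 (target S56), shared package "class formation over an open subgroup" (helper8):
**exhaustion by finite levels in degree 1** and the first two consequences of fundamental classes
for an open subgroup `V ≤ G`:

* `exists_dZero_of_pow` : if `H¹(G ⧸ W, Y^W)` has no `p`-torsion (raw form) for the `W` of a cofinal
  family of normal members of the basis, a level 1-cocycle `c` with `pⁿ c` a coboundary is a
  coboundary; `hlev1_pPrimary_trivial` (the same in `Hlev1`);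
* `rankLeOne_Hlev2_open`, `hlev1_pPrimary_open` : **PK-2, PK-1** for `(V, comapSet V.subtype 𝒰,
  ρ ∘ V.subtype)` from `FundHyp12.FundFixed ρ 𝒰 p`;
* `rankLeOne_H2_open`, `h1_pPrimary_open` : the same in the `LevelCoh28` vocabulary
  (`Objects21.comapBasis V.subtype 𝓑`, `Rep.res V.subtype Y`).
-/
import Mathlib
import Fermat.Agent.W56.OpenSub8
import Fermat.Agent.PT.PRO.InvP4
import Fermat.Agent.PT.PRO.LevelEquiv29

set_option autoImplicit false
set_option linter.unusedSectionVars false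
set_option linter.style.haveILetI false

open CategoryTheory groupCohomology

namespace Fermat.Agent.W56.LevExh8

open Fermat.Agent.PT.PRO Fermat.Agent.PT.PRO.HyperLevel25 Fermat.Agent.PT.PRO.HyperColim18
  Fermat.Agent.PT.PRO.HyperColimP18 Fermat.Agent.PT.PRO.GlobalDuality20
  Fermat.Agent.PT.PRO.FundRaw18 Fermat.Agent.PT.PRO.Resolved4 Fermat.Agent.PT.PRO.InvP4
  Fermat.Agent.PT.FG.Interface8 Fermat.Agent.PT.GLUE.Objects21 Fermat.Agent.W56.OpenSub8

/-! ### transport of `RankLeOne` -/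

theorem rankLeOne_of_injective {p : ℕ} {T T' : Type*} [AddCommGroup T] [AddCommGroup T']
    (e : T →+ T') (he : Function.Injective e) (h : RankLeOne p T') : RankLeOne p T := by
  intro x y hx hy
  obtain ⟨a, b, hab, hrel⟩ := h (e x) (e y) (by rw [← map_nsmul, hx, map_zero])
    (by rw [← map_nsmul, hy, map_zero])
  refine ⟨a, b, hab, he ?_⟩
  rw [map_add, map_zsmul, map_zsmul, hrel, map_zero]

/-! ### exhaustion in degree 1 -/

section Exh1

variable {k : Type*} [CommRing k] {G : Type*} [Group G] {𝒰 : Set (Subgroup G)}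
variable {Y : Type*} [AddCommGroup Y] [Module k Y]
variable (h𝒰 : IsLevelBasis 𝒰) (ρ : Representation k G Y) (hρ : IsDiscrete 𝒰 ρ)

include h𝒰 hρ in
/-- **Exhaustion in degree 1** (raw form). -/
theorem exists_dZero_of_pow (p : ℕ) {ℱ : Set (Subgroup G)}
    (hnormal : ∀ V ∈ ℱ, V.Normal) (hcof : ∀ U ∈ 𝒰, ∃ V ∈ ℱ, V ≤ U)
    (hfin : ∀ V (hV : V ∈ ℱ), haveI := hnormal V hV; H1NoPTorsion (fixedRep V ρ) ⊤ p)
    {c : G → Y} (hc : IsLevel₁ 𝒰 c) (hcoc : dOne ρ c = 0) {n : ℕ} {y : Y}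
    (hy : dZero ρ y = ((p : k) ^ n) • c) : ∃ y', dZero ρ y' = c := by
  obtain ⟨W₃, hW₃, -, h3a, h3b⟩ := h𝒰.exists_normal_fixing hρ hc
  obtain ⟨W₄, hW₄, h4⟩ := hρ y
  obtain ⟨A, hA, hAle⟩ := h𝒰.inf W₃ hW₃ W₄ hW₄
  obtain ⟨V, hV, hVle⟩ := hcof A hA
  have l3 : V ≤ W₃ := hVle.trans (hAle.trans inf_le_left)
  have l4 : V ≤ W₄ := hVle.trans (hAle.trans inf_le_right)
  have := hnormal V hV
  have hcV : IsLevelAt₁ ρ V c :=
    ⟨fun g s hs => h3a g s (l3 hs), fun g s hs => h3b g s (l3 hs)⟩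
  set cb : G ⧸ V → fixedSub V ρ := desc₁ c hcV with hcb
  set yb : fixedSub V ρ := ⟨y, fun s hs => h4 s (l4 hs)⟩ with hyb
  have hcbval : ∀ g : G, ((cb (g : G ⧸ V) : fixedSub V ρ) : Y) = c g := by
    intro g
    have := congrFun (infl₁_desc₁ c hcV) g
    rwa [infl₁_apply] at this
  have hd : dOne (fixedRep V ρ) cb = 0 := by
    apply infl₂_injective
    rw [infl₂_dOne, infl₁_desc₁, hcoc]
    rfl
  have hcoc' : IsCocycleOn (fixedRep V ρ) ⊤ cb := by
    intro s _ s' _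
    have := congrFun hd (s, s')
    rw [dOne_apply, Pi.zero_apply] at this
    rw [← sub_eq_zero, ← neg_eq_zero, ← this]
    abel
  have hcob : IsCoboundaryOn (fixedRep V ρ) ⊤ (((p : k) ^ n) • cb) := by
    refine ⟨yb, fun s _ => ?_⟩
    induction s using QuotientGroup.induction_on with
    | H g =>
      apply Subtype.ext
      have h1 := congrFun hy g
      rw [dZero_apply, Pi.smul_apply] at h1
      rw [Pi.smul_apply, Submodule.coe_smul, hcbval, Submodule.coe_sub, fixedRep_mk, ← h1]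
  obtain ⟨x, hx⟩ := (hfin V hV).pow n hcoc' hcob
  refine ⟨(x : Y), ?_⟩
  funext g
  have h1 := hx (g : G ⧸ V) (Subgroup.mem_top _)
  have h2 := congrArg (fun z : fixedSub V ρ => (z : Y)) h1
  simp only [Submodule.coe_sub, fixedRep_mk] at h2
  rw [dZero_apply, ← h2, hcbval]

/-- **Exhaustion in degree 1**: no `p`-primary torsion in `H¹_lev`. -/
theorem hlev1_pPrimary_trivial (p : ℕ) {ℱ : Set (Subgroup G)}
    (hnormal : ∀ V ∈ ℱ, V.Normal) (hcof : ∀ U ∈ 𝒰, ∃ V ∈ ℱ, V ≤ U)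
    (hfin : ∀ V (hV : V ∈ ℱ), haveI := hnormal V hV; H1NoPTorsion (fixedRep V ρ) ⊤ p)
    (x : Hlev1 h𝒰 ρ hρ) (n : ℕ) (hx : (p ^ n) • x = 0) : x = 0 := by
  obtain ⟨z, rfl⟩ := (lvl h𝒰 ρ hρ).π1_surjective x
  rw [← map_nsmul, π1_lvl_eq_zero_iff] at hx
  obtain ⟨y, hy⟩ := hx
  rw [π1_lvl_eq_zero_iff]
  have hzl : IsLevel₁ 𝒰 ((z : lev₁ k h𝒰 Y) : G → Y) := (z : lev₁ k h𝒰 Y).2
  have hzc : dOne ρ ((z : lev₁ k h𝒰 Y) : G → Y) = 0 := (mem_lvl_Z1_iff h𝒰 ρ hρ _).1 z.2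
  refine exists_dZero_of_pow h𝒰 ρ hρ p hnormal hcof hfin hzl hzc (n := n) (y := y) ?_
  rw [hy]
  funext g
  show ((p ^ n) • ((z : lev₁ k h𝒰 Y) : G → Y)) g = _
  rw [Pi.smul_apply, Pi.smul_apply, ← Nat.cast_pow, Nat.cast_smul_eq_nsmul]

end Exh1

/-! ### an open subgroup: the pulled-back basis -/

section Basis

variable {k : Type} [CommRing k] {G : Type} [Group G] {𝒰 : Set (Subgroup G)}
variable {Y : Type} [AddCommGroup Y] [Module k Y]

theorem isLevelBasis_comap (h𝒰 : IsLevelBasis 𝒰) (V : Subgroup G) :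
    IsLevelBasis (comapSet V.subtype 𝒰) :=
  LevelCompare13.isLevelBasis_iff.1
    (isLevelBasis_comapSet V.subtype (LevelCompare13.isLevelBasis_iff.2 h𝒰))

theorem isDiscrete_comap {ρ : Representation k G Y} (hρ : IsDiscrete 𝒰 ρ) (V : Subgroup G) :
    IsDiscrete (comapSet V.subtype 𝒰) (ρ.comp V.subtype) := by
  intro y
  obtain ⟨U, hU, h⟩ := hρ y
  exact ⟨U.comap V.subtype, ⟨U, hU, rfl⟩, fun s hs => h _ hs⟩

end Basis

/-! ### PK-1, PK-2 in the `Hlev` vocabulary -/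

section OpenInt

variable {G : Type} [Group G] {C : Type} [AddCommGroup C] [Module ℤ C]
  (ρ : Representation ℤ G C) {𝒰 : Set (Subgroup G)} (h𝒰 : IsLevelBasis 𝒰) (hC : IsDiscrete 𝒰 ρ)
  {p : ℕ} [Fact p.Prime] (hfund : FundHyp12.FundFixed ρ 𝒰 p)
  (V : Subgroup G) (hV : ∃ U ∈ 𝒰, U ≤ V)

include hfund hV in
/-- **PK-2** : `H²_lev(V; C)[p]` has rank `≤ 1`. -/
theorem rankLeOne_Hlev2_open :
    RankLeOne p (Hlev2 (isLevelBasis_comap h𝒰 V) (ρ.comp V.subtype) (isDiscrete_comap hC V)) := by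
  refine rankLeOne_Hlev2 (isLevelBasis_comap h𝒰 V) (ρ.comp V.subtype) (isDiscrete_comap hC V) p
    (famV_sub 𝒰 V) (famV_normal 𝒰 V) (famV_cofinal h𝒰 hV) (fun W' hW' => ?_)
  have := famV_normal 𝒰 V W' hW'
  have hfi := (isLevelBasis_comap h𝒰 V).finiteIndex W' (famV_sub 𝒰 V hW')
  have : Finite (↥V ⧸ W') := Subgroup.finite_quotient_of_finiteIndex
  obtain ⟨u, hu⟩ := fund_famV ρ hfund V W' hW'
  exact InvFund18.finRankLeOneAt_of_isFundClass (ρ.comp V.subtype) W' u hu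

include hfund hV in
/-- **PK-1** : `H¹_lev(V; C)` has no `p`-primary torsion. -/
theorem hlev1_pPrimary_open
    (x : Hlev1 (isLevelBasis_comap h𝒰 V) (ρ.comp V.subtype) (isDiscrete_comap hC V)) (n : ℕ)
    (hx : (p ^ n) • x = 0) : x = 0 := by
  refine hlev1_pPrimary_trivial (isLevelBasis_comap h𝒰 V) (ρ.comp V.subtype)
    (isDiscrete_comap hC V) p (famV_normal 𝒰 V) (famV_cofinal h𝒰 hV) (fun W' hW' => ?_) x n hx
  have := famV_normal 𝒰 V W' hW'
  have hfi := (isLevelBasis_comap h𝒰 V).finiteIndex W' (famV_sub 𝒰 V hW')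
  have : Finite (↥V ⧸ W') := Subgroup.finite_quotient_of_finiteIndex
  obtain ⟨u, hu⟩ := fund_famV ρ hfund V W' hW'
  exact h1NoPTorsion_of_isFundClass' hu ⊤

end OpenInt

/-! ### PK-1, PK-2 in the `LevelCoh28` vocabulary

For `Y : Rep ℤ G` the module structure `Y.hV2` is not the one found by instance search, so the
hypothesis is stated with explicit instances: `FundFixedRep 𝓑 Y p` unfolds to
`FundHyp12.FundFixed Y.ρ 𝓑.sets p`. -/

section OpenRep

variable {G : Type} [Group G]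

/-- `FundHyp12.FundFixed Y.ρ 𝓑.sets p` for the module structure carried by `Y`. -/
def FundFixedRep (𝓑 : LevelCoh28.LevelBasis G) (Y : Rep.{0} ℤ G) (p : ℕ) : Prop :=
  @FundHyp12.FundFixed G _ Y.V _ Y.hV2 Y.ρ 𝓑.sets p

variable (𝓑 : LevelCoh28.LevelBasis G) (Y : Rep.{0} ℤ G)
  (hY : LevelCoh28.IsDiscrete 𝓑.sets Y) {p : ℕ} [Fact p.Prime]
  (hfund : FundFixedRep 𝓑 Y p) (V : Subgroup G) (hV : ∃ U ∈ 𝓑.sets, U ≤ V)

include hY in
theorem isDiscrete_res (V : Subgroup G) :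
    LevelCoh28.IsDiscrete (comapBasis V.subtype 𝓑).sets (Rep.res V.subtype Y) :=
  @isDiscrete_comap ℤ _ G _ 𝓑.sets Y.V _ Y.hV2 Y.ρ hY V

include hY hfund hV in
/-- **PK-2** : `H²_lev(V; Y)[p]` has rank `≤ 1`. -/
theorem rankLeOne_H2_open :
    RankLeOne p (LevelCoh28.H2 (comapBasis V.subtype 𝓑) (Rep.res V.subtype Y)) :=
  rankLeOne_of_injective
    (AddMonoidHom.mk' (LevelEquiv29.h2Equiv (comapBasis V.subtype 𝓑) (Rep.res V.subtype Y)
      (isDiscrete_res 𝓑 Y hY V)) (map_add _))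
    (LevelEquiv29.h2Equiv (comapBasis V.subtype 𝓑) (Rep.res V.subtype Y)
      (isDiscrete_res 𝓑 Y hY V)).injective
    (@rankLeOne_Hlev2_open G _ Y.V _ Y.hV2 Y.ρ 𝓑.sets (LevelEquiv29.basis 𝓑) hY p _ hfund V hV)

include hY hfund hV in
/-- the invariant map on `H²_lev(V; Y)[p]`. -/
theorem exists_inv_open :
    ∃ τ : pTor p (LevelCoh28.H2 (comapBasis V.subtype 𝓑) (Rep.res V.subtype Y)) →+ ZMod p,
      Function.Injective τ :=
  exists_injective_pTor (rankLeOne_H2_open 𝓑 Y hY hfund V hV)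

include hY hfund hV in
/-- **PK-1** : `H¹_lev(V; Y)` has no `p`-primary torsion. -/
theorem h1_pPrimary_open
    (x : LevelCoh28.H1 (comapBasis V.subtype 𝓑) (Rep.res V.subtype Y)) (n : ℕ)
    (hx : (p ^ n) • x = 0) : x = 0 := by
  set e := LevelEquiv29.h1Equiv (comapBasis V.subtype 𝓑) (Rep.res V.subtype Y)
    (isDiscrete_res 𝓑 Y hY V) with he
  have h1 : (p ^ n) • e x = 0 := by rw [← map_nsmul, hx, map_zero]
  have h2 := @hlev1_pPrimary_open G _ Y.V _ Y.hV2 Y.ρ 𝓑.sets (LevelEquiv29.basis 𝓑) hY p _ hfund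
    V hV (e x) n h1
  exact e.injective (h2.trans (map_zero e).symm)

include hY hfund hV in
/-- **PK-1**, cochain form. -/
theorem mem_coboundaries₁_open {c : ↥V → (Rep.res V.subtype Y)}
    (hc : c ∈ LevelCoh28.Z1 (comapBasis V.subtype 𝓑) (Rep.res V.subtype Y)) (n : ℕ)
    (hn : (p ^ n) • c ∈ coboundaries₁ (Rep.res V.subtype Y)) :
    c ∈ coboundaries₁ (Rep.res V.subtype Y) := by
  rw [← LevelCoh28.H1mk_eq_zero_iff _ _ ⟨c, hc⟩]
  apply h1_pPrimary_open 𝓑 Y hY hfund V hV _ n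
  rw [← map_nsmul, LevelCoh28.H1mk_eq_zero_iff]
  exact hn

end OpenRep

end Fermat.Agent.W56.LevExh8
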