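/-
Programme W56 (S56), chapter (EC-2) "right exactness of H²", helper2.

`LocalDatum2`: the local datum of the `q`-component `I_{S,q}` of the `S`-idèles:
`(Γ_q, levelLocS q S, A'_q)` with `A'_q = (ℚ̄_qˣ)^{Nloc}` (`AQ S q`).
* `fundFixed_toInvariants` (generic): fundamental classes at the levels containing a normal
  subgroup `N` pass from `C` to `C^N`;
* `isDiscrete_AQ`, **`fundFixedRep_AQ`** : `(Γ_q, levelLocS q S, A'_q)` has fundamental classes at
  all finite levels;
* **`eISq`** : the equivariant bijection `I_{S,q} ≃ Coind_{Γ_q}^{Γ} A'_q` (`scoind` model).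
-/
import Mathlib
import Fermat.Agent.PT.GLUE.LocI13
import Fermat.Agent.PT.GLUE.LocalFund11
import Fermat.Agent.W56.FundSub8
import Fermat.Agent.W56.LevExh8

set_option autoImplicit false
set_option linter.unusedSectionVars false
set_option linter.style.haveILetI false

open CategoryTheory groupCohomology

namespace Fermat.Agent.W56.LocalDatum2

open Fermat.Agent.PT.PRO Fermat.Agent.PT.GLUE
open Fermat.Agent.PT.PRO.LevelCoh28 Fermat.Agent.PT.PRO.LevelCohRes28
open Fermat.Agent.PT.GLUE.Objects21 Fermat.Agent.PT.BR.InfLocal13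
open Fermat.Agent.PT.PRO.HyperColim18 Fermat.Agent.PT.PRO.FundRaw18
open Fermat.Agent.PT.FG.Interface8

/-! ### Fundamental classes of the invariants -/

section Generic

variable {k : Type} [CommRing k] {G : Type} [Group G] {C : Type} [AddCommGroup C] [Module k C]
  (ρ : Representation k G C) (N : Subgroup G) [N.Normal]

/-- `C^W ≃ (C^N)^W` for `N ≤ W`. -/
def fixedInvEquiv (W : Subgroup G) (hNW : N ≤ W) :
    fixedSub W ρ ≃ₗ[k] fixedSub W (ρ.toInvariants N) where
  toFun y := ⟨⟨y.1, fun n => y.2 n.1 (hNW n.2)⟩, fun s hs => Subtype.ext (y.2 s hs)⟩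
  invFun z := ⟨z.1.1, fun s hs => congrArg Subtype.val (z.2 s hs)⟩
  left_inv _ := rfl
  right_inv _ := rfl
  map_add' _ _ := rfl
  map_smul' _ _ := rfl

/-- `Res_id (C^W) ≅ (C^N)^W` as modules over `G ⧸ W`. -/
noncomputable def fixedInvIso (W : Subgroup G) [W.Normal] (hNW : N ≤ W) :
    Rep.res (MonoidHom.id (G ⧸ W)) (fixedObj W ρ) ≅ fixedObj W (ρ.toInvariants N) :=
  Rep.mkIso (Representation.Equiv.mk (fixedInvEquiv ρ N W hNW) (fun q => by
    induction q using QuotientGroup.induction_on with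
    | H v =>
      ext y
      rfl))

end Generic

section GenericInt

variable {G : Type} [Group G] {C : Type} [AddCommGroup C] [Module ℤ C]
  (ρ : Representation ℤ G C) (N : Subgroup G) [N.Normal]

/-- **Fundamental classes pass to the `N`-invariants** at the levels containing `N`. -/
theorem fundFixed_toInvariants {𝒰 𝒰' : Set (Subgroup G)} (hsub : 𝒰' ⊆ 𝒰)
    (hN : ∀ W ∈ 𝒰', N ≤ W) (p : ℕ) [Fact p.Prime] (hfund : FundHyp12.FundFixed ρ 𝒰 p) :
    @FundHyp12.FundFixed G _ ↥(Representation.invariants (ρ.comp N.subtype)) _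
      (Submodule.module _) (ρ.toInvariants N) 𝒰' p := by
  intro W hW hn
  have := hn
  obtain ⟨u, hu⟩ := hfund W (hsub hW) hn
  exact ⟨_, FundSub8.isFundClass_of_injective p (MonoidHom.id (G ⧸ W)) Function.injective_id
    (fixedObj W ρ) _ (fixedInvIso ρ N W (hN W hW)) u hu⟩

end GenericInt

/-! ### The local datum -/

section Local

variable (S : Finset Nat.Primes) (q : ℕ) [Fact q.Prime]

local notation "Γq" => (PadicAlgCl q ≃ₐ[ℚ_[q]] PadicAlgCl q)
local notation "Γ" => (AlgebraicClosure ℚ ≃ₐ[ℚ] AlgebraicClosure ℚ)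

/-- `A'_q = (ℚ̄_qˣ)^{Nloc}`: the units of the completion of `ℚ_S` at a place over `q`. -/
noncomputable abbrev AQ : Rep.{0} ℤ Γq := (unitsLoc q).toInvariants (Nloc S q)

theorem isDiscrete_AQ : IsDiscrete (levelLocS q S).sets (AQ S q) :=
  CoindCompare13.isDiscrete_of_isInvIncl (isInfData_loc S q)
    (InfLevelRep13.isInvIncl_toInvariants (unitsLoc q) (Nloc S q)) (isDiscrete_unitsLoc q)

theorem levelLocS_subset_levelLoc : (levelLocS q S).sets ⊆ (levelLoc q).sets := by
  rintro _ ⟨U, hU, rfl⟩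
  exact ⟨U, levelSetS_subset_levelSetAll S hU, rfl⟩

/-- **`(Γ_q, levelLocS q S, A'_q)` has fundamental classes at all finite levels.** -/
theorem fundFixedRep_AQ (p : ℕ) [Fact p.Prime] :
    LevExh8.FundFixedRep (levelLocS q S) (AQ S q) p :=
  @fundFixed_toInvariants Γq _ (unitsLoc q).V _ (unitsLoc q).hV2 (unitsLoc q).ρ (Nloc S q) _
    (levelLoc q).sets (levelLocS q S).sets (levelLocS_subset_levelLoc S q)
    (fun W hW => (isInfData_loc S q).N_le W hW) p _ (LocalFund11.fundFixed_unitsLoc q p)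

/-- The equivariant bijection `Coind^{sm} A'_q → I_{S,q}` (inclusion of the invariants). -/
noncomputable abbrev mapAQ :=
  SmCoind21.map (localGaloisToGlobal q) (levelS S) (AQ S q)
    (Representation.invariants ((unitsLoc q).ρ.comp (Nloc S q).subtype)).subtype
    (InfLevelRep13.isInvIncl_toInvariants (unitsLoc q) (Nloc S q)).comm

theorem mapAQ_bijective : Function.Bijective (mapAQ S q) :=
  CoindCompare13.map_bijective_of_isInvIncl (localGaloisToGlobal q) (levelS S)
    (InfLevelRep13.isInvIncl_toInvariants (unitsLoc q) (Nloc S q))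
    (fun _ hU => CoindCompare13.le_comap_of_isInfData (localGaloisToGlobal q) (levelS S)
      (LocI13.isLevelHom_levelLocS S q) (isInfData_loc S q) hU)

theorem mapAQ_ρ (g : Γ) (f : SmCoind21.smCoind (localGaloisToGlobal q) (levelS S) (AQ S q)) :
    mapAQ S q ((SmCoind21.smCoind (localGaloisToGlobal q) (levelS S) (AQ S q)).ρ g f) =
      (ISq S q).ρ g (mapAQ S q f) :=
  SmCoind21.map_ρ _ _ _ _ _ g f

end Local

end Fermat.Agent.W56.LocalDatum2
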