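/-
Programme W56 (S56), chapter (EC-2) "right exactness of H²", helper2.

`Cofinal2`: generic lemmas on level cohomology.
* mutually cofinal level bases have the same level cochains: `isLevel₁_of_cofinal`, …,
  `triv3P_of_cofinal`, `pDivH2_of_cofinal`, `isDiscrete_of_cofinal`;
* level `H²` is torsion (`exists_nsmul_mem_B2`); `pDivH2_iff` (class form of `PDivH2`);
  `pDivH2_of_pPrimary` (if the `p`-primary part of `H²` is `p`-divisible, `H²` is `p`-divisible);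
* `pDivH2_scoind` : Shapiro for "`H²` is `p`-divisible";
* `transport` lemmas along equivariant bijections: `pDivH2_of_bijective`.
-/
import Mathlib
import Fermat.Agent.W56.Decomp2

set_option autoImplicit false
set_option linter.unusedSectionVars false
set_option linter.style.haveILetI false

universe u

open CategoryTheory groupCohomology

namespace Fermat.Agent.W56.Cofinal2

open Fermat.Agent.PT.PRO.LevelCoh28 Fermat.Agent.PT.PRO.LevelCohRes28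
  Fermat.Agent.PT.PRO.SmoothCoind28 Fermat.Agent.PT.PRO.ShapiroLevel28
  Fermat.Agent.W56.Coh3Lev2 Fermat.Agent.W56.Coh3P2 Fermat.Agent.W56.Decomp2

variable {k G H : Type u} [CommRing k] [Group G] [Group H]

/-! ### Cofinal families -/

section Cofinal

variable {𝓤 𝓤' : Set (Subgroup G)} (hle : ∀ U ∈ 𝓤, ∃ U' ∈ 𝓤', U' ≤ U)

include hle

theorem isLevel₁_of_cofinal {X : Type*} {f : G → X} (hf : IsLevel₁ 𝓤 f) : IsLevel₁ 𝓤' f := by
  obtain ⟨U, hU, h⟩ := hf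
  obtain ⟨U', hU', hUU'⟩ := hle U hU
  exact ⟨U', hU', h.mono hUU'⟩

theorem isLevel₂_of_cofinal {X : Type*} {f : G × G → X} (hf : IsLevel₂ 𝓤 f) :
    IsLevel₂ 𝓤' f := by
  obtain ⟨U, hU, h⟩ := hf
  obtain ⟨U', hU', hUU'⟩ := hle U hU
  exact ⟨U', hU', h.mono hUU'⟩

theorem isLevel₃_of_cofinal {X : Type*} {f : G × G × G → X} (hf : IsLevel₃ 𝓤 f) :
    IsLevel₃ 𝓤' f := by
  obtain ⟨U, hU, h⟩ := hf
  obtain ⟨U', hU', hUU'⟩ := hle U hU
  exact ⟨U', hU', h.mono hUU'⟩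

theorem isDiscrete_of_cofinal {A : Rep.{u} k G} (hA : IsDiscrete 𝓤 A) : IsDiscrete 𝓤' A := by
  intro a
  obtain ⟨U, hU, h⟩ := hA a
  obtain ⟨U', hU', hUU'⟩ := hle U hU
  exact ⟨U', hU', fun s hs => h s (hUU' hs)⟩

end Cofinal

section CofinalBases

variable {𝓑 𝓑' : LevelBasis G}
  (hle : ∀ U ∈ 𝓑.sets, ∃ U' ∈ 𝓑'.sets, U' ≤ U) (hle' : ∀ U' ∈ 𝓑'.sets, ∃ U ∈ 𝓑.sets, U ≤ U')
  {A : Rep.{u} k G}

include hle in
theorem Z1_le_of_cofinal : Z1 𝓑 A ≤ Z1 𝓑' A :=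
  fun _ hc => ⟨hc.1, isLevel₁_of_cofinal hle hc.2⟩

include hle in
theorem Z2_le_of_cofinal : Z2 𝓑 A ≤ Z2 𝓑' A :=
  fun _ hc => ⟨hc.1, isLevel₂_of_cofinal hle hc.2⟩

include hle in
theorem B2_le_of_cofinal : B2 𝓑 A ≤ B2 𝓑' A := by
  intro c hc
  obtain ⟨b, hbl, hb⟩ := (mem_B2_iff 𝓑 A c).1 hc
  exact (mem_B2_iff 𝓑' A c).2 ⟨b, isLevel₁_of_cofinal hle hbl, hb⟩

include hle hle' in
/-- `Triv3P` only depends on the cofinality class of the basis. -/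
theorem triv3P_of_cofinal (p : ℕ) (hT : Triv3P p 𝓑 A) : Triv3P p 𝓑' A := by
  intro f hfl hfd ⟨n, b, hbl, hb⟩
  obtain ⟨h, hhl, hh⟩ := hT f (isLevel₃_of_cofinal hle' hfl) hfd
    ⟨n, b, isLevel₂_of_cofinal hle' hbl, hb⟩
  exact ⟨h, isLevel₂_of_cofinal hle hhl, hh⟩

include hle hle' in
/-- `PDivH2` only depends on the cofinality class of the basis. -/
theorem pDivH2_of_cofinal (p : ℕ) (hT : PDivH2 p 𝓑 A) : PDivH2 p 𝓑' A := by
  intro c hc
  obtain ⟨c', hc', hcc'⟩ := hT c (Z2_le_of_cofinal hle' hc)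
  exact ⟨c', Z2_le_of_cofinal hle hc', B2_le_of_cofinal hle hcc'⟩

end CofinalBases

/-! ### Level `H²` is torsion -/

section Tors

variable (𝓑 : LevelBasis G) (A : Rep.{u} k G)

/-- **Level `H²` is torsion.** -/
theorem exists_nsmul_mem_B2 {c : G × G → A} (hc : c ∈ Z2 𝓑 A) :
    ∃ N : ℕ, 0 < N ∧ N • c ∈ B2 𝓑 A := by
  classical
  obtain ⟨U, hU, hinv⟩ := hc.2
  have hcoc : ∀ g h j : G, c (g * h, j) + c (g, h) = A.ρ g (c (h, j)) + c (g, h * j) :=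
    (mem_cocycles₂_iff c).1 hc.1
  haveI := 𝓑.isBasis.finiteIndex U hU
  haveI : Finite (G ⧸ U) := Subgroup.finite_quotient_of_finiteIndex
  haveI : Fintype (G ⧸ U) := Fintype.ofFinite _
  -- `c' g x = c (g, x)` for `x ∈ G ⧸ U`
  let c' : G → G ⧸ U → A := fun g => Quotient.lift (fun h => c (g, h)) (fun a b hab => by
    have hab' : a⁻¹ * b ∈ U := QuotientGroup.leftRel_apply.1 hab
    have := hinv g a 1 (one_mem U) _ hab'
    rw [mul_one, mul_inv_cancel_left] at this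
    exact this.symm)
  have hc' : ∀ g h : G, c' g (QuotientGroup.mk h) = c (g, h) := fun g h => rfl
  set b : G → A := fun g => ∑ x : G ⧸ U, c' g x with hb
  refine ⟨Fintype.card (G ⧸ U), Fintype.card_pos, (mem_B2_iff 𝓑 A _).2 ⟨b, ?_, ?_⟩⟩
  · refine ⟨U, hU, fun g s hs => ?_⟩
    show ∑ x : G ⧸ U, c' (g * s) x = ∑ x : G ⧸ U, c' g x
    refine Finset.sum_congr rfl fun x _ => ?_
    induction x using QuotientGroup.induction_on with
    | H h =>
      rw [hc', hc']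
      have := hinv g h s hs 1 (one_mem U)
      rwa [mul_one] at this
  · funext ⟨g, h⟩
    rw [d₁₂_hom_apply]
    show A.ρ g (b h) - b (g * h) + b g = (Fintype.card (G ⧸ U) • c) (g, h)
    have h1 : A.ρ g (b h) = ∑ x : G ⧸ U, (c' (g * h) x + c (g, h) - c' g (h • x)) := by
      rw [hb, map_sum]
      refine Finset.sum_congr rfl fun x _ => ?_
      induction x using QuotientGroup.induction_on with
      | H j =>
        show A.ρ g (c (h, j)) = c (g * h, j) + c (g, h) - c (g, h * j)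
        rw [hcoc]
        abel
    have h2 : ∑ x : G ⧸ U, c' g (h • x) = b g :=
      Fintype.sum_equiv (MulAction.toPerm h) _ _ (fun x => rfl)
    rw [h1, Finset.sum_sub_distrib, Finset.sum_add_distrib, h2, Finset.sum_const,
      Finset.card_univ]
    simp only [Pi.smul_apply]
    abel

/-- Class form of `PDivH2`. -/
theorem pDivH2_iff (p : ℕ) : PDivH2 p 𝓑 A ↔ ∀ x : H2 𝓑 A, ∃ y : H2 𝓑 A, p • y = x := by
  constructor
  · intro h x
    obtain ⟨c, rfl⟩ := H2mk_surjective 𝓑 A x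
    obtain ⟨c', hc', hcc'⟩ := h c c.2
    refine ⟨H2mk 𝓑 A ⟨c', hc'⟩, ?_⟩
    rw [← map_nsmul, eq_comm, ← sub_eq_zero, ← map_sub, H2mk_eq_zero_iff]
    exact hcc'
  · intro h c hc
    obtain ⟨y, hy⟩ := h (H2mk 𝓑 A ⟨c, hc⟩)
    obtain ⟨c', rfl⟩ := H2mk_surjective 𝓑 A y
    refine ⟨c', c'.2, ?_⟩
    rw [← map_nsmul, eq_comm, ← sub_eq_zero, ← map_sub, H2mk_eq_zero_iff] at hy
    exact hy

variable {𝓑 A}

/-- If the `p`-primary part of level `H²` is `p`-divisible, then level `H²` is `p`-divisible. -/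
theorem pDivH2_of_pPrimary (p : ℕ) (hp : p.Prime)
    (h : ∀ (x : H2 𝓑 A) (a : ℕ), p ^ a • x = 0 → ∃ y : H2 𝓑 A, p • y = x) : PDivH2 p 𝓑 A := by
  rw [pDivH2_iff]
  intro x
  obtain ⟨c, rfl⟩ := H2mk_surjective 𝓑 A x
  obtain ⟨N, hN, hNc⟩ := exists_nsmul_mem_B2 𝓑 A c.2
  have hNx : N • H2mk 𝓑 A c = 0 := by
    rw [← map_nsmul, H2mk_eq_zero_iff]
    exact hNc
  set x := H2mk 𝓑 A c with hx
  obtain ⟨n, m, hm, rfl⟩ := Nat.exists_eq_pow_mul_and_not_dvd hN.ne' p hp.ne_one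
  -- `m • x` is `p`-primary
  obtain ⟨y, hy⟩ := h (m • x) n (by rw [← mul_nsmul']; exact hNx)
  have hcop : Nat.Coprime m p := ((Nat.Prime.coprime_iff_not_dvd hp).2 hm).symm
  have h2 : (Nat.gcd m p : ℤ) = 1 := by
    rw [Nat.Coprime] at hcop
    rw [hcop, Nat.cast_one]
  rw [Nat.gcd_eq_gcd_ab] at h2
  refine ⟨(Nat.gcdA m p) • y + (Nat.gcdB m p) • x, ?_⟩
  have e1 : x = ((m : ℤ) * Nat.gcdA m p + (p : ℤ) * Nat.gcdB m p) • x := by
    rw [h2, one_zsmul]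
  rw [smul_add, smul_comm p (Nat.gcdA m p) y, hy]
  conv_rhs => rw [e1]
  rw [add_zsmul, mul_zsmul', mul_zsmul', natCast_zsmul, natCast_zsmul, smul_comm p]

end Tors

/-! ### Transport along equivariant bijections -/

section Transport

variable {𝓑 : LevelBasis G} {A B : Rep.{u} k G}
  (Φ : A →ₗ[k] B) (hΦ : ∀ g a, Φ (A.ρ g a) = B.ρ g (Φ a)) (hbij : Function.Bijective Φ)

include hΦ hbij in
theorem pDivH2_of_bijective (p : ℕ) (hB : PDivH2 p 𝓑 B) : PDivH2 p 𝓑 A := by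
  intro c hc
  obtain ⟨c', hc', hcc'⟩ := hB (⇑Φ ∘ c) (comp_mem_Z2 Φ hΦ hc)
  obtain ⟨b, hbl, hb⟩ := (mem_B2_iff 𝓑 B _).1 hcc'
  choose r hr using hbij.2
  have hrc' : ⇑Φ ∘ (r ∘ c') = c' := funext fun g => hr (c' g)
  have hrb : ⇑Φ ∘ (r ∘ b) = b := funext fun g => hr (b g)
  have hrc'l : IsLevel₂ 𝓑.sets (r ∘ c') :=
    isLevel₂_of_comp (𝓑 := 𝓑) Φ hbij.1 (by rw [hrc']; exact hc'.2)
  refine ⟨r ∘ c', mem_Z2_of 𝓑 A ?_ hrc'l, (mem_B2_iff 𝓑 A _).2
    ⟨r ∘ b, isLevel₁_of_comp (𝓑 := 𝓑) Φ hbij.1 (by rw [hrb]; exact hbl), ?_⟩⟩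
  · funext x
    apply hbij.1
    have h2 := congrFun (d₂₃_comp Φ hΦ (r ∘ c')) x
    rw [hrc', d₂₃_eq_zero_of_mem_Z2 𝓑 B hc'] at h2
    show Φ ((d₂₃ A).hom (r ∘ c') x) = Φ 0
    rw [map_zero]
    exact h2.symm
  · funext x
    apply hbij.1
    have h2 := congrFun (d₁₂_comp Φ hΦ (r ∘ b)) x
    rw [hrb, hb] at h2
    have h3 : Φ ((r ∘ c') x) = c' x := congrFun hrc' x
    simp only [Function.comp_apply, Pi.sub_apply, Pi.smul_apply] at h2
    simp only [Pi.sub_apply, Pi.smul_apply, map_sub, map_nsmul]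
    rw [h3]
    exact h2.symm

include hΦ hbij in
theorem symm_equivariant (g : G) (b : B) :
    (LinearEquiv.ofBijective Φ hbij).symm (B.ρ g b) =
      A.ρ g ((LinearEquiv.ofBijective Φ hbij).symm b) := by
  apply hbij.1
  have h1 : Φ ((LinearEquiv.ofBijective Φ hbij).symm (B.ρ g b)) = B.ρ g b :=
    (LinearEquiv.ofBijective Φ hbij).apply_symm_apply _
  have h2 : Φ ((LinearEquiv.ofBijective Φ hbij).symm b) = b :=
    (LinearEquiv.ofBijective Φ hbij).apply_symm_apply _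
  rw [h1, hΦ, h2]

include hΦ hbij in
/-- Transport of `Triv3P` in the direction of the bijection. -/
theorem triv3P_of_bijective' (p : ℕ) (hA : Triv3P p 𝓑 A) : Triv3P p 𝓑 B :=
  triv3P_of_bijective (𝓑 := 𝓑) (LinearEquiv.ofBijective Φ hbij).symm.toLinearMap
    (symm_equivariant Φ hΦ hbij) (LinearEquiv.ofBijective Φ hbij).symm.bijective p hA

include hΦ hbij in
/-- Transport of `PDivH2` in the direction of the bijection. -/
theorem pDivH2_of_bijective' (p : ℕ) (hA : PDivH2 p 𝓑 A) : PDivH2 p 𝓑 B :=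
  pDivH2_of_bijective (𝓑 := 𝓑) (LinearEquiv.ofBijective Φ hbij).symm.toLinearMap
    (symm_equivariant Φ hΦ hbij) (LinearEquiv.ofBijective Φ hbij).symm.bijective p hA

end Transport

/-! ### Shapiro for `PDivH2` -/

section Shapiro

variable (i : H →* G) (𝓑G : LevelBasis G) (𝓑H : LevelBasis H)
  (hcont : IsLevelHom i 𝓑H.sets 𝓑G.sets)
  (hind : ∀ V ∈ 𝓑H.sets, ∃ U ∈ 𝓑G.sets, U.comap i ≤ V)
  (X : Rep.{u} k H) (hX : IsDiscrete 𝓑H.sets X)

include hcont hind hX in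
/-- **Shapiro for `PDivH2`.** -/
theorem pDivH2_scoind (p : ℕ) (hT : PDivH2 p 𝓑H X) :
    PDivH2 p 𝓑G (scoind (k := k) i 𝓑G X) := by
  rw [pDivH2_iff] at hT ⊢
  intro x
  obtain ⟨y, hy⟩ := hT (sh2 i 𝓑G 𝓑H hcont X x)
  obtain ⟨y', rfl⟩ := sh2_surjective i 𝓑G 𝓑H hcont hind X hX y
  refine ⟨y', sh2_injective i 𝓑G 𝓑H hcont hind X hX ?_⟩
  rw [map_nsmul, hy]

end Shapiro

end Fermat.Agent.W56.Cofinal2
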