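/-
Programme W56 (S56), chapter (EC-2) "right exactness of H²", helper2.

`CoreChase2`: the abstract diagram chase giving `H³(G, μ_p) = 0` from class field theory.

Data: a group `G` with a level basis, `ℤ[G]`-modules `M` ("`μ_p`"), `E` ("`E_S`"), `I` ("`I_S`"),
`C` ("`C_S`") with `j : M ↪ E` onto `E[p]`, `E` `p`-divisible, `0 → E → I → C → 0` exact.
Inputs:
* (A1) `PDivH2 p 𝓑 I`             : `H²(G, I)` is `p`-divisible;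
* (A2) `TorLift p 𝓑 ψ`            : `H²(G, I)[p] → H²(G, C)[p]` is onto;
* (A3) `Triv3P p 𝓑 I`             : `H³(G, I)(p) = 0`;
* (A4) `PDivH1 p 𝓑 C`             : `H¹(G, C)` is `p`-divisible.
Outputs: `pDivH2_of_chase` (`H²(G, E)` is `p`-divisible), `cobound₃_of_p_smul` (`H³(G, E)[p] = 0`),
`triv3_of_kummer` (Kummer sequence) and the combination **`triv3_of_chase`** : `Triv3 𝓑 M`.
-/
import Mathlib
import Fermat.Agent.W56.Decomp2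

set_option autoImplicit false
set_option linter.unusedSectionVars false

universe u

open CategoryTheory groupCohomology

namespace Fermat.Agent.W56.CoreChase2

open Fermat.Agent.PT.PRO.LevelCoh28 Fermat.Agent.W56.Coh3Lev2 Fermat.Agent.W56.Coh3P2
  Fermat.Agent.W56.Decomp2

variable {k G : Type u} [CommRing k] [Group G]

/-- (A2): every level 2-cocycle of `C` whose class is killed by `p` is, up to a level coboundary,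
the image of a level 2-cocycle of `I` whose class is killed by `p`. -/
def TorLift (p : ℕ) (𝓑 : LevelBasis G) {I C : Rep.{u} k G} (ψ : I →ₗ[k] C) : Prop :=
  ∀ c : G × G → C, c ∈ Z2 𝓑 C → p • c ∈ B2 𝓑 C →
    ∃ h : G × G → I, h ∈ Z2 𝓑 I ∧ p • h ∈ B2 𝓑 I ∧ ⇑ψ ∘ h - c ∈ B2 𝓑 C

/-- (A4): "`H¹(G, C)` is `p`-divisible" at cochain level. -/
def PDivH1 (p : ℕ) (𝓑 : LevelBasis G) (C : Rep.{u} k G) : Prop :=
  ∀ t : G → C, t ∈ Z1 𝓑 C → ∃ t' : G → C, t' ∈ Z1 𝓑 C ∧ t - p • t' ∈ coboundaries₁ C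

variable {𝓑 : LevelBasis G}

theorem comp_nsmul' {X : Type*} {A B : Type*} [AddCommGroup A] [AddCommGroup B] [Module k A] [Module k B]
    (φ : A →ₗ[k] B) (n : ℕ) (f : X → A) : ⇑φ ∘ (n • f) = n • (⇑φ ∘ f) := by
  funext x
  simp

theorem comp_sub' {X : Type*} {A B : Type*} [AddCommGroup A] [AddCommGroup B] [Module k A] [Module k B]
    (φ : A →ₗ[k] B) (f f' : X → A) : ⇑φ ∘ (f - f') = ⇑φ ∘ f - ⇑φ ∘ f' := by
  funext x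
  simp

theorem comp_add' {X : Type*} {A B : Type*} [AddCommGroup A] [AddCommGroup B] [Module k A] [Module k B]
    (φ : A →ₗ[k] B) (f f' : X → A) : ⇑φ ∘ (f + f') = ⇑φ ∘ f + ⇑φ ∘ f' := by
  funext x
  simp

theorem d₂₃_d₁₂ (A : Rep.{u} k G) (u : G → A) : (d₂₃ A).hom ((d₁₂ A).hom u) = 0 := by
  have := d₁₂_apply_mem_cocycles₂ u
  rwa [cocycles₂, LinearMap.mem_ker] at this

theorem d₁₂_d₀₁ (A : Rep.{u} k G) (a : A) : (d₁₂ A).hom ((d₀₁ A).hom a) = 0 := by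
  have := d₀₁_apply_mem_cocycles₁ a
  rwa [cocycles₁, LinearMap.mem_ker] at this

theorem IsLevel₂.nsmul {X : Type*} [AddMonoid X] {f : G × G → X} (hf : IsLevel₂ 𝓑.sets f)
    (n : ℕ) : IsLevel₂ 𝓑.sets (n • f) := hf.comp (n • ·)

theorem IsLevel₁.nsmul {X : Type*} [AddMonoid X] {f : G → X} (hf : IsLevel₁ 𝓑.sets f)
    (n : ℕ) : IsLevel₁ 𝓑.sets (n • f) := hf.comp (n • ·)

section Exact

variable {E I C : Rep.{u} k G} (p : ℕ)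
  (φ : E →ₗ[k] I) (hφ : ∀ g a, φ (E.ρ g a) = I.ρ g (φ a))
  (ψ : I →ₗ[k] C) (hψ : ∀ g b, ψ (I.ρ g b) = C.ρ g (ψ b))
  (hinj : Function.Injective φ) (hsurj : Function.Surjective ψ)
  (hex : ∀ b, ψ b = 0 ↔ ∃ a, φ a = b)

include hφ hψ hinj hsurj hex in
/-- **`H³(G, E)[p] = 0`** from (A1), (A2), (A3). -/
theorem cobound₃_of_p_smul (hI : IsDiscrete 𝓑.sets I)
    (A1 : PDivH2 p 𝓑 I) (A2 : TorLift p 𝓑 ψ) (A3 : Triv3P p 𝓑 I)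
    (f : G × G × G → E) (hfl : IsLevel₃ 𝓑.sets f) (hfd : dThree E f = 0)
    (b : G × G → E) (hbl : IsLevel₂ 𝓑.sets b) (hb : (d₂₃ E).hom b = p • f) :
    ∃ b' : G × G → E, IsLevel₂ 𝓑.sets b' ∧ (d₂₃ E).hom b' = f := by
  have hF : dThree I (⇑φ ∘ f) = 0 := by
    rw [dThree_comp φ hφ, hfd]
    funext x
    simp
  obtain ⟨g, hgl, hg⟩ := A3 (⇑φ ∘ f) (hfl.comp _) hF
    ⟨1, ⇑φ ∘ b, hbl.comp _, by rw [d₂₃_comp φ hφ, hb, pow_one, comp_nsmul']⟩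
  -- the cocycle `z = p g - φ b`
  set z : G × G → I := p • g - ⇑φ ∘ b with hz
  have hzl : IsLevel₂ 𝓑.sets z := (IsLevel₂.nsmul hgl p).sub 𝓑.isBasis (hbl.comp _)
  have hzZ : z ∈ Z2 𝓑 I := by
    refine mem_Z2_of 𝓑 I ?_ hzl
    rw [hz, map_sub, map_nsmul, hg, d₂₃_comp φ hφ, hb, comp_nsmul', sub_self]
  obtain ⟨z', hz'Z, hzz'⟩ := A1 z hzZ
  obtain ⟨u, hul, hu⟩ := (mem_B2_iff 𝓑 I _).1 hzz'
  -- the class `c₁ = ψ g - ψ z'` of `C`, killed by `p`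
  have hψg : (d₂₃ C).hom (⇑ψ ∘ g) = 0 := by
    rw [d₂₃_comp ψ hψ, hg]
    funext x
    exact ψ_φ φ ψ hex _
  have hc₁Z : ⇑ψ ∘ g - ⇑ψ ∘ z' ∈ Z2 𝓑 C :=
    Submodule.sub_mem _ (mem_Z2_of 𝓑 C hψg (hgl.comp _)) (comp_mem_Z2 ψ hψ hz'Z)
  have hpc₁ : p • (⇑ψ ∘ g - ⇑ψ ∘ z') ∈ B2 𝓑 C := by
    refine (mem_B2_iff 𝓑 C _).2 ⟨⇑ψ ∘ u, hul.comp _, ?_⟩
    rw [d₁₂_comp ψ hψ, hu, hz]
    funext x
    simp only [Function.comp_apply, Pi.sub_apply, Pi.smul_apply, map_sub, map_nsmul, smul_sub]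
    rw [ψ_φ φ ψ hex, sub_zero]
  obtain ⟨h, hhZ, -, hhc⟩ := A2 _ hc₁Z hpc₁
  -- `ψ (g - z' - h) = -(ψ h - c₁)` is a level coboundary
  refine exists_of_comp_eq_d₂₃ (𝓑 := 𝓑) φ hφ ψ hψ hinj hsurj hex hI (b := g - z' - h)
    ((hgl.sub 𝓑.isBasis hz'Z.2).sub 𝓑.isBasis hhZ.2) ?_ ?_
  · rw [map_sub, map_sub, hg, d₂₃_eq_zero_of_mem_Z2 𝓑 I hz'Z, d₂₃_eq_zero_of_mem_Z2 𝓑 I hhZ,
      sub_zero, sub_zero]
  · have e : ⇑ψ ∘ (g - z' - h) = -(⇑ψ ∘ h - (⇑ψ ∘ g - ⇑ψ ∘ z')) := by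
      rw [comp_sub', comp_sub']
      abel
    rw [e]
    exact Submodule.neg_mem _ hhc

include hφ hψ hinj hsurj hex in
/-- **`H²(G, E)` is `p`-divisible** from (A1), (A2), (A4). -/
theorem pDivH2_of_chase (hI : IsDiscrete 𝓑.sets I)
    (A1 : PDivH2 p 𝓑 I) (A2 : TorLift p 𝓑 ψ) (A4 : PDivH1 p 𝓑 C) : PDivH2 p 𝓑 E := by
  intro y hy
  have hφy : ⇑φ ∘ y ∈ Z2 𝓑 I := comp_mem_Z2 φ hφ hy
  obtain ⟨g, hgZ, hgy⟩ := A1 _ hφy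
  obtain ⟨u, hul, hu⟩ := (mem_B2_iff 𝓑 I _).1 hgy
  -- `ψ g` is killed by `p`
  have hψgZ : ⇑ψ ∘ g ∈ Z2 𝓑 C := comp_mem_Z2 ψ hψ hgZ
  have hpψg : p • (⇑ψ ∘ g) ∈ B2 𝓑 C := by
    refine (mem_B2_iff 𝓑 C _).2 ⟨-(⇑ψ ∘ u), (hul.comp _).comp (- ·), ?_⟩
    rw [map_neg, d₁₂_comp ψ hψ, hu]
    funext x
    simp only [Function.comp_apply, Pi.sub_apply, Pi.smul_apply, Pi.neg_apply, map_sub, map_nsmul]
    rw [ψ_φ φ ψ hex, zero_sub, neg_neg]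
  obtain ⟨h, hhZ, hph, hhc⟩ := A2 _ hψgZ hpψg
  obtain ⟨v, hvl, hv⟩ := (mem_B2_iff 𝓑 I _).1 hph
  obtain ⟨w', hw'l, hw'⟩ := (mem_B2_iff 𝓑 C _).1 hhc
  set w : G → I := Function.surjInv hsurj ∘ w' with hw
  have hwl : IsLevel₁ 𝓑.sets w := hw'l.comp _
  have hψw : ⇑ψ ∘ w = w' := ψ_comp_surjInv ψ hsurj w'
  -- `g₁ = g - h + d w` comes from `E`
  set g₁ : G × G → I := g - h + (d₁₂ I).hom w with hg₁
  have hg₁l : IsLevel₂ 𝓑.sets g₁ :=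
    (hgZ.2.sub 𝓑.isBasis hhZ.2).add 𝓑.isBasis (isLevel₂_d₁₂ 𝓑.isBasis hI hwl)
  have hg₁d : (d₂₃ I).hom g₁ = 0 := by
    rw [hg₁, map_add, map_sub, d₂₃_eq_zero_of_mem_Z2 𝓑 I hgZ, d₂₃_eq_zero_of_mem_Z2 𝓑 I hhZ,
      d₂₃_d₁₂, sub_zero, add_zero]
  have hψg₁ : ∀ x, ψ (g₁ x) = 0 := fun x => by
    have e1 := congrFun (d₁₂_comp ψ hψ w) x
    rw [hψw, hw'] at e1
    simp only [Function.comp_apply, Pi.sub_apply] at e1
    simp only [hg₁, Pi.add_apply, Pi.sub_apply, map_add, map_sub, ← e1]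
    abel
  have hφy₁ : ⇑φ ∘ (pre φ ∘ g₁) = g₁ := by
    funext x
    exact φ_pre φ ψ hex (hψg₁ x)
  have hy₁l : IsLevel₂ 𝓑.sets (pre φ ∘ g₁) :=
    isLevel₂_of_comp (𝓑 := 𝓑) φ hinj (by rw [hφy₁]; exact hg₁l)
  have hy₁Z : pre φ ∘ g₁ ∈ Z2 𝓑 E := by
    refine mem_Z2_of 𝓑 E ?_ hy₁l
    funext x
    apply hinj
    have e2 := congrFun (d₂₃_comp φ hφ (pre φ ∘ g₁)) x
    rw [hφy₁, hg₁d] at e2
    show φ ((d₂₃ E).hom (pre φ ∘ g₁) x) = φ 0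
    rw [map_zero]
    exact e2.symm
  -- the 1-cochain `t_I = u + v - p w` with `d t_I = φ (y - p y₁)`
  set tI : G → I := u + v - p • w with htI
  have htIl : IsLevel₁ 𝓑.sets tI :=
    (hul.add 𝓑.isBasis hvl).sub 𝓑.isBasis (IsLevel₁.nsmul hwl p)
  have htId : (d₁₂ I).hom tI = ⇑φ ∘ y - p • g₁ := by
    rw [htI, map_sub, map_add, map_nsmul, hu, hv, hg₁]
    funext x
    simp only [Pi.add_apply, Pi.sub_apply, Pi.smul_apply, smul_add, smul_sub]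
    abel
  have hψtI : ⇑ψ ∘ tI ∈ Z1 𝓑 C := by
    refine mem_Z1_of 𝓑 C ?_ (htIl.comp _)
    rw [d₁₂_comp ψ hψ, htId]
    funext x
    simp only [Function.comp_apply, Pi.sub_apply, Pi.smul_apply, map_sub, map_nsmul, hψg₁,
      smul_zero, sub_zero]
    exact ψ_φ φ ψ hex _
  obtain ⟨t', ht'Z, ht'⟩ := A4 _ hψtI
  obtain ⟨c', hc'⟩ := ht'
  -- lifts
  set t'I : G → I := Function.surjInv hsurj ∘ t' with ht'I
  have ht'Il : IsLevel₁ 𝓑.sets t'I := ht'Z.2.comp _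
  have hψt'I : ⇑ψ ∘ t'I = t' := ψ_comp_surjInv ψ hsurj t'
  obtain ⟨cI, hcI⟩ := hsurj c'
  -- `d t'_I = φ y₂`
  have hψdt' : ∀ x, ψ ((d₁₂ I).hom t'I x) = 0 := fun x => by
    have e1 := congrFun (d₁₂_comp ψ hψ t'I) x
    rw [hψt'I, d₁₂_eq_zero_of_mem_Z1 𝓑 C ht'Z] at e1
    simp only [Function.comp_apply] at e1
    exact e1.symm
  have hφy₂ : ⇑φ ∘ (pre φ ∘ (d₁₂ I).hom t'I) = (d₁₂ I).hom t'I := by
    funext x
    exact φ_pre φ ψ hex (hψdt' x)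
  have hy₂l : IsLevel₂ 𝓑.sets (pre φ ∘ (d₁₂ I).hom t'I) :=
    isLevel₂_of_comp (𝓑 := 𝓑) φ hinj (by rw [hφy₂]; exact isLevel₂_d₁₂ 𝓑.isBasis hI ht'Il)
  have hy₂Z : pre φ ∘ (d₁₂ I).hom t'I ∈ Z2 𝓑 E := by
    refine mem_Z2_of 𝓑 E ?_ hy₂l
    funext x
    apply hinj
    have e2 := congrFun (d₂₃_comp φ hφ (pre φ ∘ (d₁₂ I).hom t'I)) x
    rw [hφy₂, d₂₃_d₁₂] at e2
    show φ ((d₂₃ E).hom (pre φ ∘ (d₁₂ I).hom t'I) x) = φ 0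
    rw [map_zero]
    exact e2.symm
  -- `t₂ = t_I - p t'_I - d c_I` comes from `E`
  set t₂ : G → I := tI - p • t'I - (d₀₁ I).hom cI with ht₂
  have ht₂l : IsLevel₁ 𝓑.sets t₂ :=
    (htIl.sub 𝓑.isBasis (IsLevel₁.nsmul ht'Il p)).sub 𝓑.isBasis (isLevel₁_d₀₁ hI cI)
  have hψt₂ : ∀ x, ψ (t₂ x) = 0 := fun x => by
    have e1 := congrFun (d₀₁_comp ψ hψ cI) x
    rw [hcI] at e1
    have e2 := congrFun hc' x
    have e3 := congrFun hψt'I x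
    simp only [Function.comp_apply, Pi.sub_apply, Pi.smul_apply] at e1 e2 e3
    simp only [ht₂, Pi.sub_apply, Pi.smul_apply, map_sub, map_nsmul, ← e1, e3, e2]
    abel
  have hφtE : ⇑φ ∘ (pre φ ∘ t₂) = t₂ := by
    funext x
    exact φ_pre φ ψ hex (hψt₂ x)
  have htEl : IsLevel₁ 𝓑.sets (pre φ ∘ t₂) :=
    isLevel₁_of_comp (𝓑 := 𝓑) φ hinj (by rw [hφtE]; exact ht₂l)
  refine ⟨pre φ ∘ g₁ + pre φ ∘ (d₁₂ I).hom t'I, Submodule.add_mem _ hy₁Z hy₂Z, ?_⟩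
  refine (mem_B2_iff 𝓑 E _).2 ⟨pre φ ∘ t₂, htEl, ?_⟩
  funext x
  apply hinj
  have e4 := congrFun (d₁₂_comp φ hφ (pre φ ∘ t₂)) x
  have e4' : (d₁₂ I).hom t₂ = ⇑φ ∘ y - p • g₁ - p • (d₁₂ I).hom t'I := by
    rw [ht₂, map_sub, map_sub, map_nsmul, htId, d₁₂_d₀₁, sub_zero]
  rw [hφtE, e4'] at e4
  have e5 := congrFun hφy₁ x
  have e6 := congrFun hφy₂ x
  simp only [Function.comp_apply, Pi.sub_apply, Pi.smul_apply] at e4 e5 e6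
  rw [← e4]
  simp only [Pi.sub_apply, Pi.smul_apply, Pi.add_apply, Function.comp_apply, map_sub, map_nsmul,
    map_add, e5, e6, smul_add]
  abel

end Exact

section Kummer

variable {M E : Rep.{u} k G} (p : ℕ)
  (j : M →ₗ[k] E) (hj : ∀ g m, j (M.ρ g m) = E.ρ g (j m)) (hjinj : Function.Injective j)
  (hjim : ∀ e : E, p • e = 0 → ∃ m, j m = e) (hMp : ∀ m : M, p • m = 0)
  (hdiv : ∀ e : E, ∃ e', p • e' = e)

include hj hjinj hjim hMp hdiv in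
/-- **The Kummer sequence** `0 → M → E →ᵖ E → 0`: if `H²(G, E)` is `p`-divisible and
`H³(G, E)[p] = 0`, then `H³(G, M) = 0`. -/
theorem triv3_of_kummer (hE : IsDiscrete 𝓑.sets E) (K1 : PDivH2 p 𝓑 E)
    (K2 : ∀ f : G × G × G → E, IsLevel₃ 𝓑.sets f → dThree E f = 0 →
      ∀ b : G × G → E, IsLevel₂ 𝓑.sets b → (d₂₃ E).hom b = p • f →
      ∃ b' : G × G → E, IsLevel₂ 𝓑.sets b' ∧ (d₂₃ E).hom b' = f) : Triv3 𝓑 M := by
  intro f₀ hf₀l hf₀d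
  have hF : dThree E (⇑j ∘ f₀) = 0 := by
    rw [dThree_comp j hj, hf₀d]
    funext x
    simp
  have hpF : p • (⇑j ∘ f₀) = 0 := by
    funext x
    simp only [Pi.smul_apply, Function.comp_apply, Pi.zero_apply, ← map_nsmul, hMp, map_zero]
  obtain ⟨b', hb'l, hb'⟩ := K2 (⇑j ∘ f₀) (hf₀l.comp _) hF 0 (isLevel₂_const 𝓑.isBasis 0)
    (by rw [map_zero, hpF])
  have hcZ : p • b' ∈ Z2 𝓑 E := by
    refine mem_Z2_of 𝓑 E ?_ (IsLevel₂.nsmul hb'l p)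
    rw [map_nsmul, hb', hpF]
  obtain ⟨c', hc'Z, hcc'⟩ := K1 _ hcZ
  obtain ⟨u, hul, hu⟩ := (mem_B2_iff 𝓑 E _).1 hcc'
  -- divide `u` by `p`
  set s : E → E := fun e => (hdiv e).choose with hs
  have hps : ∀ e, p • s e = e := fun e => (hdiv e).choose_spec
  set u' : G → E := s ∘ u with hu'
  have hu'l : IsLevel₁ 𝓑.sets u' := hul.comp _
  have hpu' : p • u' = u := by
    funext x
    exact hps (u x)
  set e₁ : G × G → E := b' - c' - (d₁₂ E).hom u' with he₁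
  have he₁l : IsLevel₂ 𝓑.sets e₁ :=
    (hb'l.sub 𝓑.isBasis hc'Z.2).sub 𝓑.isBasis (isLevel₂_d₁₂ 𝓑.isBasis hE hu'l)
  have hpe₁ : ∀ x, p • e₁ x = 0 := fun x => by
    have e1 : p • e₁ = 0 := by
      rw [he₁, smul_sub, smul_sub, ← map_nsmul, hpu', hu, sub_self]
    exact congrFun e1 x
  have hje₀ : ⇑j ∘ (pre j ∘ e₁) = e₁ := by
    funext x
    exact φ_pre_of_exists j (hjim _ (hpe₁ x))
  refine ⟨pre j ∘ e₁, isLevel₂_of_comp (𝓑 := 𝓑) j hjinj (by rw [hje₀]; exact he₁l), ?_⟩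
  funext x
  apply hjinj
  have e2 := congrFun (d₂₃_comp j hj (pre j ∘ e₁)) x
  rw [hje₀, he₁, map_sub, map_sub, hb', d₂₃_eq_zero_of_mem_Z2 𝓑 E hc'Z, d₂₃_d₁₂, sub_zero,
    sub_zero] at e2
  simp only [Function.comp_apply] at e2
  exact e2.symm

end Kummer

section Main

variable {M E I C : Rep.{u} k G} (p : ℕ)
  (j : M →ₗ[k] E) (hj : ∀ g m, j (M.ρ g m) = E.ρ g (j m)) (hjinj : Function.Injective j)
  (hjim : ∀ e : E, p • e = 0 → ∃ m, j m = e) (hMp : ∀ m : M, p • m = 0)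
  (hdiv : ∀ e : E, ∃ e', p • e' = e)
  (φ : E →ₗ[k] I) (hφ : ∀ g a, φ (E.ρ g a) = I.ρ g (φ a))
  (ψ : I →ₗ[k] C) (hψ : ∀ g b, ψ (I.ρ g b) = C.ρ g (ψ b))
  (hinj : Function.Injective φ) (hsurj : Function.Surjective ψ)
  (hex : ∀ b, ψ b = 0 ↔ ∃ a, φ a = b)

include hj hjinj hjim hMp hdiv hφ hψ hinj hsurj hex in
/-- **The chase**: `H³(G, M) = 0` from the class field theory inputs (A1)–(A4). -/
theorem triv3_of_chase (hE : IsDiscrete 𝓑.sets E) (hI : IsDiscrete 𝓑.sets I)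
    (A1 : PDivH2 p 𝓑 I) (A2 : TorLift p 𝓑 ψ) (A3 : Triv3P p 𝓑 I) (A4 : PDivH1 p 𝓑 C) :
    Triv3 𝓑 M :=
  triv3_of_kummer (𝓑 := 𝓑) p j hj hjinj hjim hMp hdiv hE
    (pDivH2_of_chase (𝓑 := 𝓑) p φ hφ ψ hψ hinj hsurj hex hI A1 A2 A4)
    (fun f hfl hfd b hbl hb =>
      cobound₃_of_p_smul (𝓑 := 𝓑) p φ hφ ψ hψ hinj hsurj hex hI A1 A2 A3 f hfl hfd b hbl hb)

end Main

end Fermat.Agent.W56.CoreChase2
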