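/-
Programme W56 (S56), chapter (EC-2) "right exactness of H²", helper2.

`ResInj2`: restriction to an open subgroup `V ≤ G` in level cohomology.
* `res₁`, `res₂` (restriction of cochains), `res₂_mem_Z2`, `res₂_mem_B2`;
* **`card_smul_mem_B2`** (PK-6): a level 2-cocycle of `G` whose restriction to `V` is a level
  coboundary has `[G : V] • c` a level coboundary (unit/trace retraction + Shapiro);
  `mem_B2_of_res`: hence `res_V` is injective on `H²(G, A)[p]` for `[G : V]` prime to `p`;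
* **`exists_nsmul_mem_coboundaries₁`**: level `H¹` is torsion; `pDivH1_of_noPTor`: if moreover it has
  no `p`-torsion, it is `p`-divisible (`CoreChase2.PDivH1`);
* **`torLift_of_rankLeOne`**: (A2) of `CoreChase2` from "`H²(G, C)[p]` has rank `≤ 1`" and one
  class of `H²(G, I)[p]` with non-zero image.
-/
import Mathlib
import Fermat.Agent.W56.Retract2
import Fermat.Agent.W56.CoreChase2
import Fermat.Agent.PT.PRO.InvP4

set_option autoImplicit false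
set_option linter.unusedSectionVars false
set_option linter.style.haveILetI false

open CategoryTheory groupCohomology

namespace Fermat.Agent.W56.ResInj2

open Fermat.Agent.PT.PRO.LevelCoh28 Fermat.Agent.PT.PRO.LevelCohRes28
  Fermat.Agent.PT.PRO.SmoothCoind28 Fermat.Agent.PT.PRO.ShapiroLevel28
  Fermat.Agent.PT.GLUE.Objects21
  Fermat.Agent.W56.Coh3Lev2 Fermat.Agent.W56.Retract2 Fermat.Agent.W56.CoreChase2

/-! ### Restriction of cochains -/

section Res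

variable {k G : Type} [CommRing k] [Group G]
variable (𝓑 : LevelBasis G) (A : Rep.{0} k G) (V : Subgroup G)

/-- The identity `A → A|_V`. -/
def resId : A →ₗ[k] (Rep.res V.subtype A) := LinearMap.id

@[simp] theorem resId_apply (a : A) : resId A V a = a := rfl

theorem resId_equivariant (v : ↥V) (a : A) :
    resId A V (A.ρ (V.subtype v) a) = (Rep.res V.subtype A).ρ v (resId A V a) := rfl

theorem isLevelHom_subtype :
    IsLevelHom V.subtype (comapBasis V.subtype 𝓑).sets 𝓑.sets :=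
  fun U hU => ⟨_, ⟨U, hU, rfl⟩, le_rfl⟩

theorem hind_subtype :
    ∀ W ∈ (comapBasis V.subtype 𝓑).sets, ∃ U ∈ 𝓑.sets, U.comap V.subtype ≤ W := by
  rintro _ ⟨U, hU, rfl⟩
  exact ⟨U, hU, le_rfl⟩

theorem isDiscrete_res (hA : IsDiscrete 𝓑.sets A) :
    IsDiscrete (comapBasis V.subtype 𝓑).sets (Rep.res V.subtype A) := by
  intro a
  obtain ⟨U, hU, h⟩ := hA a
  exact ⟨_, ⟨U, hU, rfl⟩, fun s hs => h s hs⟩

/-- Restriction of 1-cochains to `V`. -/
def res₁ : (G → A) →ₗ[k] (↥V → Rep.res V.subtype A) := pp₁ V.subtype (resId A V)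

/-- Restriction of 2-cochains to `V`. -/
def res₂ : (G × G → A) →ₗ[k] (↥V × ↥V → Rep.res V.subtype A) := pp₂ V.subtype (resId A V)

@[simp] theorem res₁_apply (c : G → A) (v : ↥V) : res₁ A V c v = c (v : G) := rfl

@[simp] theorem res₂_apply (c : G × G → A) (v : ↥V × ↥V) :
    res₂ A V c v = c ((v.1 : G), (v.2 : G)) := rfl

variable {A}

theorem res₂_mem_Z2 {c : G × G → A} (hc : c ∈ Z2 𝓑 A) :
    res₂ A V c ∈ Z2 (comapBasis V.subtype 𝓑) (Rep.res V.subtype A) :=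
  pp₂_mem_Z2 V.subtype (resId A V) (resId_equivariant A V) (isLevelHom_subtype 𝓑 V) hc

theorem res₂_mem_B2 {c : G × G → A} (hc : c ∈ B2 𝓑 A) :
    res₂ A V c ∈ B2 (comapBasis V.subtype 𝓑) (Rep.res V.subtype A) :=
  pp₂_mem_B2 V.subtype (resId A V) (resId_equivariant A V) (isLevelHom_subtype 𝓑 V) hc

theorem res₁_mem_Z1 {c : G → A} (hc : c ∈ Z1 𝓑 A) :
    res₁ A V c ∈ Z1 (comapBasis V.subtype 𝓑) (Rep.res V.subtype A) :=
  pp₁_mem_Z1 V.subtype (resId A V) (resId_equivariant A V) (isLevelHom_subtype 𝓑 V) hc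

theorem res₂_comp {B : Rep.{0} k G} (ψ : A →ₗ[k] B) (c : G × G → A) :
    res₂ B V (⇑ψ ∘ c) = ⇑ψ ∘ res₂ A V c := rfl

/-! ### PK-6 -/

variable [Fintype (G ⧸ V)]

/-- **PK-6.**  If the restriction to `V` of a level 2-cocycle `c` of `G` is a level coboundary, then
`[G : V] • c` is a level coboundary. -/
theorem card_smul_mem_B2 (hA : IsDiscrete 𝓑.sets A) {c : G × G → A} (hc : c ∈ Z2 𝓑 A)
    (hres : res₂ A V c ∈ B2 (comapBasis V.subtype 𝓑) (Rep.res V.subtype A)) :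
    Fintype.card (G ⧸ V) • c ∈ B2 𝓑 A := by
  have hιc : ⇑(unit 𝓑 A V hA) ∘ c ∈ Z2 𝓑 (CoindRes 𝓑 A V) :=
    comp_mem_Z2 (unit 𝓑 A V hA) (unit_equivariant 𝓑 A V hA) hc
  have h0 : sh2 V.subtype 𝓑 (comapBasis V.subtype 𝓑) (isLevelHom_subtype 𝓑 V)
      (Rep.res V.subtype A) (H2mk 𝓑 _ ⟨_, hιc⟩) = 0 := by
    rw [sh2_mk, H2mk_eq_zero_iff]
    have e : ((ppZ2 V.subtype (ev V.subtype 𝓑 (Rep.res V.subtype A))
        (ev_equivariant V.subtype 𝓑 (Rep.res V.subtype A)) (isLevelHom_subtype 𝓑 V)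
        ⟨_, hιc⟩ : ↥(Z2 (comapBasis V.subtype 𝓑) (Rep.res V.subtype A))) :
          ↥V × ↥V → Rep.res V.subtype A) = res₂ A V c := by
      funext v
      show A.ρ 1 (c ((v.1 : G), (v.2 : G))) = c ((v.1 : G), (v.2 : G))
      rw [map_one, Module.End.one_apply]
    rw [e]
    exact hres
  have h1 : H2mk 𝓑 (CoindRes 𝓑 A V) ⟨_, hιc⟩ = 0 := by
    apply sh2_injective V.subtype 𝓑 (comapBasis V.subtype 𝓑) (isLevelHom_subtype 𝓑 V)
      (hind_subtype 𝓑 V) (Rep.res V.subtype A) (isDiscrete_res 𝓑 A V hA)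
    rw [h0, map_zero]
  rw [H2mk_eq_zero_iff] at h1
  have h2 := comp_mem_B2 (trace 𝓑 A V) (trace_equivariant 𝓑 A V) h1
  have e2 : ⇑(trace 𝓑 A V) ∘ (⇑(unit 𝓑 A V hA) ∘ c) = Fintype.card (G ⧸ V) • c := by
    funext x
    show trace 𝓑 A V (unit 𝓑 A V hA (c x)) = _
    rw [trace_unit, Nat.cast_smul_eq_nsmul]
    rfl
  rwa [e2] at h2

/-- `res_V` is injective on `H²(G, A)[p]` when `[G : V]` is prime to `p`. -/
theorem mem_B2_of_res (hA : IsDiscrete 𝓑.sets A) (p : ℕ)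
    (hcop : (Fintype.card (G ⧸ V)).Coprime p) {c : G × G → A} (hc : c ∈ Z2 𝓑 A)
    (hpc : p • c ∈ B2 𝓑 A)
    (hres : res₂ A V c ∈ B2 (comapBasis V.subtype 𝓑) (Rep.res V.subtype A)) : c ∈ B2 𝓑 A := by
  have h1 := card_smul_mem_B2 𝓑 V hA hc hres
  have h2 : (Nat.gcd (Fintype.card (G ⧸ V)) p : ℤ) = 1 := by
    rw [Nat.Coprime] at hcop
    rw [hcop, Nat.cast_one]
  rw [Nat.gcd_eq_gcd_ab] at h2
  have e : c = (Nat.gcdA (Fintype.card (G ⧸ V)) p) • (Fintype.card (G ⧸ V) • c) +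
      (Nat.gcdB (Fintype.card (G ⧸ V)) p) • (p • c) := by
    rw [← natCast_zsmul, ← natCast_zsmul, ← mul_zsmul, ← mul_zsmul, ← add_zsmul,
      mul_comm (Nat.gcdA _ _), mul_comm (Nat.gcdB _ _), h2, one_zsmul]
  rw [e]
  exact Submodule.add_mem _ (zsmul_mem h1 _) (zsmul_mem hpc _)

end Res

/-! ### Level `H¹` is torsion -/

section Tors

universe u

variable {k G : Type u} [CommRing k] [Group G] (𝓑 : LevelBasis G) (C : Rep.{u} k G)

/-- **Level `H¹` is torsion.** -/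
theorem exists_nsmul_mem_coboundaries₁ {t : G → C} (ht : t ∈ Z1 𝓑 C) :
    ∃ N : ℕ, 0 < N ∧ N • t ∈ coboundaries₁ C := by
  classical
  obtain ⟨U, hU, hinv⟩ := ht.2
  have hcoc : ∀ g h : G, t (g * h) = C.ρ g (t h) + t g := (mem_cocycles₁_iff t).1 ht.1
  haveI := 𝓑.isBasis.finiteIndex U hU
  haveI : Finite (G ⧸ U) := Subgroup.finite_quotient_of_finiteIndex
  haveI : Fintype (G ⧸ U) := Fintype.ofFinite _
  let t' : G ⧸ U → C := Quotient.lift t (fun a b hab => by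
    have hab' : a⁻¹ * b ∈ U := QuotientGroup.leftRel_apply.1 hab
    have := hinv a _ hab'
    rw [mul_inv_cancel_left] at this
    exact this.symm)
  have ht' : ∀ g : G, t' (QuotientGroup.mk g) = t g := fun g => rfl
  set a : C := ∑ x : G ⧸ U, t' x with ha
  refine ⟨Fintype.card (G ⧸ U), Fintype.card_pos, ?_⟩
  rw [coboundaries₁, LinearMap.mem_range]
  refine ⟨-a, ?_⟩
  funext g
  have h1 : C.ρ g a = ∑ x : G ⧸ U, (t' (g • x) - t g) := by
    rw [ha, map_sum]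
    refine Finset.sum_congr rfl fun x _ => ?_
    induction x using QuotientGroup.induction_on with
    | H h =>
      show C.ρ g (t h) = t (g * h) - t g
      rw [hcoc]
      abel
  have h2 : ∑ x : G ⧸ U, t' (g • x) = a :=
    Fintype.sum_equiv (MulAction.toPerm g) _ _ (fun x => rfl)
  rw [Finset.sum_sub_distrib, h2, Finset.sum_const, Finset.card_univ] at h1
  rw [d₀₁_hom_apply, map_neg, h1]
  simp only [Pi.smul_apply]
  abel

/-- "`H¹(G, C)` has no `p`-torsion" at cochain level. -/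
def NoPTorH1 (p : ℕ) : Prop :=
  ∀ t : G → C, t ∈ Z1 𝓑 C → ∀ n : ℕ, (p ^ n) • t ∈ coboundaries₁ C → t ∈ coboundaries₁ C

variable {𝓑 C}

/-- A torsion group without `p`-torsion is `p`-divisible: (A4) of `CoreChase2` from PK-1. -/
theorem pDivH1_of_noPTor (p : ℕ) (hp : p.Prime) (h : NoPTorH1 𝓑 C p) : PDivH1 p 𝓑 C := by
  intro t ht
  obtain ⟨N, hN, hNt⟩ := exists_nsmul_mem_coboundaries₁ 𝓑 C ht
  -- `N = p ^ n * m` with `m` prime to `p`
  obtain ⟨n, m, hm, rfl⟩ := Nat.exists_eq_pow_mul_and_not_dvd hN.ne' p hp.ne_one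
  have hmt : m • t ∈ coboundaries₁ C := by
    refine h (m • t) (Submodule.smul_of_tower_mem _ m ht) n ?_
    rwa [← mul_nsmul']
  have hcop : Nat.Coprime m p := ((Nat.Prime.coprime_iff_not_dvd hp).2 hm).symm
  have h2 : (Nat.gcd m p : ℤ) = 1 := by
    rw [Nat.Coprime] at hcop
    rw [hcop, Nat.cast_one]
  rw [Nat.gcd_eq_gcd_ab] at h2
  refine ⟨(Nat.gcdB m p) • t, Submodule.smul_of_tower_mem _ _ ht, ?_⟩
  have e : t - p • (Nat.gcdB m p) • t = (Nat.gcdA m p) • (m • t) := by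
    have e1 : t = ((m : ℤ) * Nat.gcdA m p + (p : ℤ) * Nat.gcdB m p) • t := by
      rw [h2, one_zsmul]
    rw [← natCast_zsmul ((Nat.gcdB m p) • t) p, ← natCast_zsmul t m, ← mul_zsmul, ← mul_zsmul]
    conv_lhs => lhs; rw [e1]
    rw [add_zsmul, add_sub_cancel_right, mul_comm]
  rw [e]
  exact zsmul_mem hmt _

end Tors

/-! ### (A2) from rank `≤ 1` -/

section Rank

universe u

variable {k G : Type u} [CommRing k] [Group G] {𝓑 : LevelBasis G} {I C : Rep.{u} k G}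

open Fermat.Agent.PT.PRO.InvP4

/-- **(A2)** from `RankLeOne p (H²(G, C))` and one class of `H²(G, I)[p]` with non-zero image in
`H²(G, C)`. -/
theorem torLift_of_rankLeOne (p : ℕ) (hp : p.Prime) (ψ : I →ₗ[k] C)
    (hψ : ∀ g b, ψ (I.ρ g b) = C.ρ g (ψ b))
    (hrk : RankLeOne p (H2 𝓑 C))
    (h₀ : G × G → I) (hh₀ : h₀ ∈ Z2 𝓑 I) (hph₀ : p • h₀ ∈ B2 𝓑 I)
    (hne : ⇑ψ ∘ h₀ ∉ B2 𝓑 C) : TorLift p 𝓑 ψ := by
  intro c hc hpc
  have hψh₀ : ⇑ψ ∘ h₀ ∈ Z2 𝓑 C := comp_mem_Z2 ψ hψ hh₀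
  have hpψh₀ : p • (⇑ψ ∘ h₀) ∈ B2 𝓑 C := by
    rw [← comp_nsmul']
    exact comp_mem_B2 ψ hψ hph₀
  have hx : p • H2mk 𝓑 C ⟨c, hc⟩ = 0 := by
    rw [← map_nsmul, H2mk_eq_zero_iff]
    exact hpc
  have hy : p • H2mk 𝓑 C ⟨_, hψh₀⟩ = 0 := by
    rw [← map_nsmul, H2mk_eq_zero_iff]
    exact hpψh₀
  obtain ⟨a, b, hab, hrel⟩ := hrk _ _ hx hy
  rw [← map_zsmul, ← map_zsmul, ← map_add, H2mk_eq_zero_iff] at hrel
  have hrel' : a • c + b • (⇑ψ ∘ h₀) ∈ B2 𝓑 C := hrel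
  -- `p ∤ a`
  have hpa : ¬ (p : ℤ) ∣ a := by
    intro hdvd
    obtain ⟨a', rfl⟩ := hdvd
    have hb : ¬ (p : ℤ) ∣ b := fun hb => hab ⟨dvd_mul_right _ _, hb⟩
    -- then `b • ψ h₀ ∈ B2`, so `ψ h₀ ∈ B2`
    have h1 : b • (⇑ψ ∘ h₀) ∈ B2 𝓑 C := by
      have h3 : ((p : ℤ) * a') • c ∈ B2 𝓑 C := by
        rw [mul_comm, mul_zsmul, natCast_zsmul]
        exact zsmul_mem hpc _
      have := Submodule.sub_mem _ hrel' h3
      rwa [add_sub_cancel_left] at this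
    have hcop : IsCoprime b (p : ℤ) :=
      ((Nat.prime_iff_prime_int.1 hp).coprime_iff_not_dvd.2 hb).symm
    obtain ⟨r, s, hrs⟩ := hcop
    apply hne
    have e : ⇑ψ ∘ h₀ = r • (b • (⇑ψ ∘ h₀)) + s • (p • (⇑ψ ∘ h₀)) := by
      rw [← natCast_zsmul (⇑ψ ∘ h₀) p, ← mul_zsmul, ← mul_zsmul, ← add_zsmul, hrs, one_zsmul]
    rw [e]
    exact Submodule.add_mem _ (zsmul_mem h1 _) (zsmul_mem hpψh₀ _)
  have hcop : IsCoprime a (p : ℤ) :=
    ((Nat.prime_iff_prime_int.1 hp).coprime_iff_not_dvd.2 hpa).symm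
  obtain ⟨r, s, hrs⟩ := hcop
  -- `c ≡ -(r b) ψ h₀`
  refine ⟨(-(r * b)) • h₀, zsmul_mem hh₀ _, ?_, ?_⟩
  · rw [smul_comm]
    exact zsmul_mem hph₀ _
  · have e : ⇑ψ ∘ ((-(r * b)) • h₀) - c =
        -(r • (a • c + b • (⇑ψ ∘ h₀)) + s • (p • c)) := by
      have e1 : ⇑ψ ∘ ((-(r * b)) • h₀) = (-(r * b)) • (⇑ψ ∘ h₀) := by
        funext x
        simp
      have e2 : c = (r * a + s * (p : ℤ)) • c := by rw [hrs, one_zsmul]
      rw [e1]
      conv_lhs => rw [e2]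
      rw [← natCast_zsmul c p, smul_add, ← mul_zsmul, ← mul_zsmul, ← mul_zsmul, add_zsmul,
        neg_zsmul]
      abel
    rw [e]
    exact Submodule.neg_mem _ (Submodule.add_mem _ (zsmul_mem hrel' _) (zsmul_mem hpc _))

end Rank

end Fermat.Agent.W56.ResInj2
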