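/-
Programme W56 (S56), chapter (EC-2) "right exactness of H²", helper2.

`MackeyInst2`: Mackey + Shapiro.  For `i : H →* G`, a level basis `𝓑G` of `G`, the induced basis
`basisH = comapBasis i 𝓑G` of `H`, a discrete `H`-module `Y` and an open subgroup `V ≤ G`:
if `H³(H', Y)(p) = 0` (resp. `H²(H', Y)` is `p`-divisible) for every open subgroup `H' ≤ H`, then
the same holds for `(V, (Coind_i Y)|_V)`.
-/
import Mathlib
import Fermat.Agent.W56.Mackey2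
import Fermat.Agent.W56.Cofinal2
import Fermat.Agent.W56.ResInj2

set_option autoImplicit false
set_option linter.unusedSectionVars false

open CategoryTheory groupCohomology

namespace Fermat.Agent.W56.MackeyInst2

open Fermat.Agent.PT.PRO.LevelCoh28 Fermat.Agent.PT.PRO.LevelCohRes28
  Fermat.Agent.PT.PRO.SmoothCoind28 Fermat.Agent.PT.GLUE.Objects21
  Fermat.Agent.W56.Coh3Lev2 Fermat.Agent.W56.Coh3P2 Fermat.Agent.W56.Decomp2
  Fermat.Agent.W56.Mackey2 Fermat.Agent.W56.Cofinal2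

variable {k G H : Type} [CommRing k] [Group G] [Group H]
variable (i : H →* G) (𝓑G : LevelBasis G) (Y : Rep.{0} k H) (V : Subgroup G)

/-- The basis of `H` induced by `𝓑G`. -/
abbrev basisH : LevelBasis H := comapBasis i 𝓑G

/-- The basis of `Hg g` induced from `V` through `jg g`. -/
abbrev basisA (g : G) : LevelBasis ↥(Hg i V g) := comapBasis (jg i V g) (basisV 𝓑G V)

/-- The basis of `Hg g` induced from `H`. -/
abbrev basisB (g : G) : LevelBasis ↥(Hg i V g) := comapBasis (Hg i V g).subtype (basisH i 𝓑G)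

theorem cofinal_AB (g : G) :
    ∀ U ∈ (basisA i 𝓑G V g).sets, ∃ U' ∈ (basisB i 𝓑G V g).sets, U' ≤ U := by
  rintro _ ⟨_, ⟨U, hU, rfl⟩, rfl⟩
  obtain ⟨U', hU', hU'U, hn⟩ := 𝓑G.isBasis.normalCore U hU
  refine ⟨_, ⟨_, ⟨U', hU', rfl⟩, rfl⟩, fun h hh => ?_⟩
  have h1 : i (h : H) ∈ U' := hh
  show g⁻¹ * i (h : H) * g ∈ U
  apply hU'U
  have := hn.conj_mem _ h1 g⁻¹
  rwa [inv_inv] at this

theorem cofinal_BA (g : G) :
    ∀ U' ∈ (basisB i 𝓑G V g).sets, ∃ U ∈ (basisA i 𝓑G V g).sets, U ≤ U' := by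
  rintro _ ⟨_, ⟨U, hU, rfl⟩, rfl⟩
  obtain ⟨U', hU', hU'U, hn⟩ := 𝓑G.isBasis.normalCore U hU
  refine ⟨_, ⟨_, ⟨U', hU', rfl⟩, rfl⟩, fun h hh => ?_⟩
  have h1 : g⁻¹ * i (h : H) * g ∈ U' := hh
  show i (h : H) ∈ U
  apply hU'U
  have := hn.conj_mem _ h1 g
  have e : g * (g⁻¹ * i (h : H) * g) * g⁻¹ = i (h : H) := by group
  rwa [e] at this

theorem hcont_jg (g : G) :
    IsLevelHom (jg i V g) (basisA i 𝓑G V g).sets (basisV 𝓑G V).sets :=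
  fun U hU => ⟨_, ⟨U, hU, rfl⟩, le_rfl⟩

theorem hind_jg (g : G) : ∀ W ∈ (basisA i 𝓑G V g).sets,
    ∃ U ∈ (basisV 𝓑G V).sets, U.comap (jg i V g) ≤ W := by
  rintro _ ⟨U, hU, rfl⟩
  exact ⟨U, hU, le_rfl⟩

variable (hV : ∃ U₀ ∈ 𝓑G.sets, U₀ ≤ V)

include hV in
/-- `Hg g` is open in `H`. -/
theorem open_Hg (g : G) : ∃ U ∈ (basisH i 𝓑G).sets, U ≤ Hg i V g := by
  obtain ⟨U₀, hU₀, hU₀V⟩ := hV
  obtain ⟨U', hU', hU'U, hn⟩ := 𝓑G.isBasis.normalCore U₀ hU₀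
  refine ⟨_, ⟨U', hU', rfl⟩, fun h hh => ?_⟩
  have h1 : i h ∈ U' := hh
  show g⁻¹ * i h * g ∈ V
  apply hU₀V
  apply hU'U
  have := hn.conj_mem _ h1 g⁻¹
  rwa [inv_inv] at this

variable (hY : IsDiscrete (basisH i 𝓑G).sets Y)

include hY in
theorem isDiscrete_Yg (g : G) : IsDiscrete (basisA i 𝓑G V g).sets (Yg i Y V g) :=
  isDiscrete_of_cofinal (cofinal_BA i 𝓑G V g)
    (ResInj2.isDiscrete_res (basisH i 𝓑G) Y (Hg i V g) hY)

include hV hY in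
/-- **Mackey + Shapiro, `H³(p) = 0`.** -/
theorem triv3P_XV_of_local (p : ℕ)
    (hloc : ∀ H' : Subgroup H, (∃ U ∈ (basisH i 𝓑G).sets, U ≤ H') →
      Triv3P p (comapBasis H'.subtype (basisH i 𝓑G)) (Rep.res H'.subtype Y)) :
    Triv3P p (basisV 𝓑G V) (XV i 𝓑G Y V) := by
  refine triv3P_XV i 𝓑G Y V hV p fun g => ?_
  refine triv3P_scoind (jg i V g) (basisV 𝓑G V) (basisA i 𝓑G V g) (hcont_jg i 𝓑G V g)
    (hind_jg i 𝓑G V g) (Yg i Y V g) (isDiscrete_Yg i 𝓑G Y V hY g) p ?_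
  exact triv3P_of_cofinal (cofinal_BA i 𝓑G V g) (cofinal_AB i 𝓑G V g) p
    (hloc (Hg i V g) (open_Hg i 𝓑G V hV g))

include hV hY in
/-- **Mackey + Shapiro, `H²` is `p`-divisible.** -/
theorem pDivH2_XV_of_local (p : ℕ)
    (hloc : ∀ H' : Subgroup H, (∃ U ∈ (basisH i 𝓑G).sets, U ≤ H') →
      PDivH2 p (comapBasis H'.subtype (basisH i 𝓑G)) (Rep.res H'.subtype Y)) :
    PDivH2 p (basisV 𝓑G V) (XV i 𝓑G Y V) := by
  refine pDivH2_XV i 𝓑G Y V hV p fun g => ?_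
  refine pDivH2_scoind (jg i V g) (basisV 𝓑G V) (basisA i 𝓑G V g) (hcont_jg i 𝓑G V g)
    (hind_jg i 𝓑G V g) (Yg i Y V g) (isDiscrete_Yg i 𝓑G Y V hY g) p ?_
  exact pDivH2_of_cofinal (cofinal_BA i 𝓑G V g) (cofinal_AB i 𝓑G V g) p
    (hloc (Hg i V g) (open_Hg i 𝓑G V hV g))

end Fermat.Agent.W56.MackeyInst2
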