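/-
Programme W56 (S56), chapter (EC-2) "right exactness of H²", helper2.

`GlobalCore2`: the hypothesis `Devissage2.Core p (levelS S) (cycloChar p)` of the dévissage
(`H³(V, 𝔽_p) = 0` for the open subgroups `V ≤ Γ` of index prime to `p` fixing `ζ_p`) from the
chase `CoreChase2.triv3_of_chase` applied to `0 → μ_p → E_S → E_S → 0`,
`0 → E_S → I_S → C_S → 0` restricted to `V`, with
* (A4), rank `≤ 1` of `H²(V, C_S)[p]` : the class formation `(Γ, levelS S, C_S)` (`LevExh8`);
* (A2) : one global class (`HNV`) restricted to `V` (`ResInj2`);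
* (A1), (A3) : Mackey + Shapiro (`MackeyInst2`) from the local inputs `HLoc2`, `HLoc3` for the
  local data `(Γ_q, levelLocS q S, A'_q)`, `q ∈ S`.
-/
import Mathlib
import Fermat.Agent.W56.MackeyInst2
import Fermat.Agent.W56.LocalDatum2
import Fermat.Agent.W56.Devissage2
import Fermat.Agent.PT.GLUE.FundLevelFinal2
import Fermat.Agent.PT.GLUE.LevelTheta21
import Fermat.Agent.PT.PRO.ProdDict10
import Fermat.Agent.PT.PRO.KerIsoGal7

set_option autoImplicit false
set_option linter.unusedSectionVars false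
set_option linter.style.haveILetI false

open CategoryTheory groupCohomology

namespace Fermat.Agent.W56.GlobalCore2

open Fermat.Agent.PT.PRO Fermat.Agent.PT.GLUE
open Fermat.Agent.PT.PRO.LevelCoh28 Fermat.Agent.PT.PRO.LevelCohRes28
open Fermat.Agent.PT.GLUE.Objects21 Fermat.Agent.PT.BR.InfLocal13
open Fermat.Agent.W56.Coh3Lev2 Fermat.Agent.W56.Coh3P2 Fermat.Agent.W56.Decomp2
  Fermat.Agent.W56.Cofinal2 Fermat.Agent.W56.CoreChase2 Fermat.Agent.W56.ResInj2
  Fermat.Agent.W56.Mackey2 Fermat.Agent.W56.MackeyInst2 Fermat.Agent.W56.LocalDatum2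
open ExtCitation

local notation "Γ" => (AlgebraicClosure ℚ ≃ₐ[ℚ] AlgebraicClosure ℚ)

/-! ### Transport between coefficient rings -/

section AddEquiv

variable {k k' : Type} [CommRing k] [CommRing k'] {G : Type} [Group G] {𝓑 : LevelBasis G}
  {A : Rep.{0} k G} {B : Rep.{0} k' G}

/-- `H³ = 0` only depends on the underlying additive `G`-module. -/
theorem triv3_of_addEquiv (e : B ≃+ A) (he : ∀ g b, e (B.ρ g b) = A.ρ g (e b))
    (hA : Triv3 𝓑 A) : Triv3 𝓑 B := by
  intro f hfl hfd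
  have h1 : dThree A (⇑e ∘ f) = 0 := by
    funext ⟨a, b, c, d⟩
    have := congrFun hfd (a, b, c, d)
    rw [dThree_apply] at this ⊢
    simp only [Function.comp_apply, ← he, ← map_sub, ← map_add, this]
    exact map_zero e
  obtain ⟨h, hhl, hh⟩ := hA (⇑e ∘ f) (hfl.comp _) h1
  refine ⟨⇑e.symm ∘ h, hhl.comp _, ?_⟩
  funext ⟨a, b, c⟩
  apply e.injective
  have := congrFun hh (a, b, c)
  rw [d₂₃_hom_apply] at this ⊢
  simp only [Function.comp_apply, map_sub, map_add, he, AddEquiv.apply_symm_apply] at this ⊢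
  exact this

end AddEquiv

/-! ### The inputs -/

section Inputs

variable (S : Finset Nat.Primes) (p : ℕ)

/-- Local input: `H³(H', A'_q)(p) = 0` for the open subgroups `H' ≤ Γ_q`, `q ∈ S`. -/
def HLoc3 : Prop :=
  ∀ (q : ↥S) (H' : Subgroup (PadicAlgCl ((q : Nat.Primes) : ℕ) ≃ₐ[ℚ_[((q : Nat.Primes) : ℕ)]]
      PadicAlgCl ((q : Nat.Primes) : ℕ))),
    (∃ U ∈ (levelLocS ((q : Nat.Primes) : ℕ) S).sets, U ≤ H') →
    Triv3P p (comapBasis H'.subtype (levelLocS ((q : Nat.Primes) : ℕ) S))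
      (Rep.res H'.subtype (AQ S ((q : Nat.Primes) : ℕ)))

/-- Local input: `H²(H', A'_q)` is `p`-divisible for the open subgroups `H' ≤ Γ_q`, `q ∈ S`. -/
def HLoc2 : Prop :=
  ∀ (q : ↥S) (H' : Subgroup (PadicAlgCl ((q : Nat.Primes) : ℕ) ≃ₐ[ℚ_[((q : Nat.Primes) : ℕ)]]
      PadicAlgCl ((q : Nat.Primes) : ℕ))),
    (∃ U ∈ (levelLocS ((q : Nat.Primes) : ℕ) S).sets, U ≤ H') →
    PDivH2 p (comapBasis H'.subtype (levelLocS ((q : Nat.Primes) : ℕ) S))
      (Rep.res H'.subtype (AQ S ((q : Nat.Primes) : ℕ)))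

/-- Global input: a class of `H²(Γ, I_S)[p]` with non-zero image in `H²(Γ, C_S)`. -/
def HNV : Prop :=
  ∃ h₀ : Γ × Γ → IS S, h₀ ∈ Z2 (levelS S) (IS S) ∧ p • h₀ ∈ B2 (levelS S) (IS S) ∧
    ⇑(toCS S) ∘ h₀ ∉ B2 (levelS S) (CS S)

end Inputs

/-! ### (A1), (A3) for `I_S` restricted to `V` -/

section Ideles

variable (S : Finset Nat.Primes) (p : ℕ) (V : Subgroup Γ)
  (hV : ∃ U ∈ (levelS S).sets, U ≤ V)

theorem sum_inclq_ISproj [DecidableEq ↥S] (x : IS S) :
    ∑ q : ↥S, LevelTheta21.inclq S q (ProdDict10.ISproj S q x) = x := by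
  apply (ISequiv S).injective
  rw [map_sum]
  funext r
  rw [Finset.sum_apply]
  simp only [LevelTheta21.ISequiv_inclq, ProdDict10.ISproj_apply]
  rw [Finset.sum_eq_single r]
  · exact Pi.single_eq_same (M := fun r : ↥S => ISq S ((r : Nat.Primes) : ℕ)) r _
  · intro q _ hq
    exact Pi.single_eq_of_ne (M := fun r : ↥S => ISq S ((r : Nat.Primes) : ℕ)) hq.symm _
  · intro h
    exact absurd (Finset.mem_univ r) h

include hV in
/-- `H³(V, I_{S,q})(p) = 0` from the local input. -/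
theorem triv3P_ISq (q : ↥S)
    (h3 : ∀ H' : Subgroup (PadicAlgCl ((q : Nat.Primes) : ℕ) ≃ₐ[ℚ_[((q : Nat.Primes) : ℕ)]]
        PadicAlgCl ((q : Nat.Primes) : ℕ)),
      (∃ U ∈ (levelLocS ((q : Nat.Primes) : ℕ) S).sets, U ≤ H') →
      Triv3P p (comapBasis H'.subtype (levelLocS ((q : Nat.Primes) : ℕ) S))
        (Rep.res H'.subtype (AQ S ((q : Nat.Primes) : ℕ)))) :
    Triv3P p (comapBasis V.subtype (levelS S))
      (Rep.res V.subtype (ISq S ((q : Nat.Primes) : ℕ))) := by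
  have h1 : Triv3P p (basisV (levelS S) V)
      (XV (localGaloisToGlobal ((q : Nat.Primes) : ℕ)) (levelS S)
        (AQ S ((q : Nat.Primes) : ℕ)) V) :=
    triv3P_XV_of_local (localGaloisToGlobal ((q : Nat.Primes) : ℕ)) (levelS S)
      (AQ S ((q : Nat.Primes) : ℕ)) V hV (isDiscrete_AQ S ((q : Nat.Primes) : ℕ)) p h3
  have h2 : Triv3P p (comapBasis V.subtype (levelS S))
      (Rep.res V.subtype (SmCoind21.smCoind (localGaloisToGlobal ((q : Nat.Primes) : ℕ))
        (levelS S) (AQ S ((q : Nat.Primes) : ℕ)))) :=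
    triv3P_of_bijective (𝓑 := comapBasis V.subtype (levelS S))
      (A := Rep.res V.subtype (SmCoind21.smCoind (localGaloisToGlobal ((q : Nat.Primes) : ℕ))
        (levelS S) (AQ S ((q : Nat.Primes) : ℕ))))
      (B := XV (localGaloisToGlobal ((q : Nat.Primes) : ℕ)) (levelS S)
        (AQ S ((q : Nat.Primes) : ℕ)) V)
      (CoindCompare13.coindEquiv (localGaloisToGlobal ((q : Nat.Primes) : ℕ)) (levelS S)
        (AQ S ((q : Nat.Primes) : ℕ))).toLinearMap
      (fun v f => CoindCompare13.coindEquiv_ρ _ _ _ (v : Γ) f)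
      (CoindCompare13.coindEquiv _ _ _).bijective p h1
  exact triv3P_of_bijective' (𝓑 := comapBasis V.subtype (levelS S))
    (A := Rep.res V.subtype (SmCoind21.smCoind (localGaloisToGlobal ((q : Nat.Primes) : ℕ))
      (levelS S) (AQ S ((q : Nat.Primes) : ℕ))))
    (B := Rep.res V.subtype (ISq S ((q : Nat.Primes) : ℕ)))
    (mapAQ S ((q : Nat.Primes) : ℕ)) (fun v f => mapAQ_ρ S ((q : Nat.Primes) : ℕ) (v : Γ) f)
    (mapAQ_bijective S ((q : Nat.Primes) : ℕ)) p h2

include hV in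
/-- `H²(V, I_{S,q})` is `p`-divisible from the local input. -/
theorem pDivH2_ISq (q : ↥S)
    (h2 : ∀ H' : Subgroup (PadicAlgCl ((q : Nat.Primes) : ℕ) ≃ₐ[ℚ_[((q : Nat.Primes) : ℕ)]]
        PadicAlgCl ((q : Nat.Primes) : ℕ)),
      (∃ U ∈ (levelLocS ((q : Nat.Primes) : ℕ) S).sets, U ≤ H') →
      PDivH2 p (comapBasis H'.subtype (levelLocS ((q : Nat.Primes) : ℕ) S))
        (Rep.res H'.subtype (AQ S ((q : Nat.Primes) : ℕ)))) :
    PDivH2 p (comapBasis V.subtype (levelS S))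
      (Rep.res V.subtype (ISq S ((q : Nat.Primes) : ℕ))) := by
  have h1 : PDivH2 p (basisV (levelS S) V)
      (XV (localGaloisToGlobal ((q : Nat.Primes) : ℕ)) (levelS S)
        (AQ S ((q : Nat.Primes) : ℕ)) V) :=
    pDivH2_XV_of_local (localGaloisToGlobal ((q : Nat.Primes) : ℕ)) (levelS S)
      (AQ S ((q : Nat.Primes) : ℕ)) V hV (isDiscrete_AQ S ((q : Nat.Primes) : ℕ)) p h2
  have h2' : PDivH2 p (comapBasis V.subtype (levelS S))
      (Rep.res V.subtype (SmCoind21.smCoind (localGaloisToGlobal ((q : Nat.Primes) : ℕ))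
        (levelS S) (AQ S ((q : Nat.Primes) : ℕ)))) :=
    pDivH2_of_bijective (𝓑 := comapBasis V.subtype (levelS S))
      (A := Rep.res V.subtype (SmCoind21.smCoind (localGaloisToGlobal ((q : Nat.Primes) : ℕ))
        (levelS S) (AQ S ((q : Nat.Primes) : ℕ))))
      (B := XV (localGaloisToGlobal ((q : Nat.Primes) : ℕ)) (levelS S)
        (AQ S ((q : Nat.Primes) : ℕ)) V)
      (CoindCompare13.coindEquiv (localGaloisToGlobal ((q : Nat.Primes) : ℕ)) (levelS S)
        (AQ S ((q : Nat.Primes) : ℕ))).toLinearMap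
      (fun v f => CoindCompare13.coindEquiv_ρ _ _ _ (v : Γ) f)
      (CoindCompare13.coindEquiv _ _ _).bijective p h1
  exact pDivH2_of_bijective' (𝓑 := comapBasis V.subtype (levelS S))
    (A := Rep.res V.subtype (SmCoind21.smCoind (localGaloisToGlobal ((q : Nat.Primes) : ℕ))
      (levelS S) (AQ S ((q : Nat.Primes) : ℕ))))
    (B := Rep.res V.subtype (ISq S ((q : Nat.Primes) : ℕ)))
    (mapAQ S ((q : Nat.Primes) : ℕ)) (fun v f => mapAQ_ρ S ((q : Nat.Primes) : ℕ) (v : Γ) f)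
    (mapAQ_bijective S ((q : Nat.Primes) : ℕ)) p h2'

include hV in
/-- **(A3)** for `I_S|_V`. -/
theorem triv3P_IS (h3 : HLoc3 S p) :
    Triv3P p (comapBasis V.subtype (levelS S)) (Rep.res V.subtype (IS S)) := by
  classical
  exact triv3P_of_decomp (𝓑 := comapBasis V.subtype (levelS S))
    (A := Rep.res V.subtype (IS S))
    (B := fun q : ↥S => Rep.res V.subtype (ISq S ((q : Nat.Primes) : ℕ)))
    (fun q => ProdDict10.ISproj S q) (fun q v x => ProdDict10.ISproj_ρ S q (v : Γ) x)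
    (fun q => LevelTheta21.inclq S q) (fun q v x => LevelTheta21.inclq_ρ S q (v : Γ) x)
    (sum_inclq_ISproj S) p (fun q => triv3P_ISq S p V hV q (h3 q))

include hV in
/-- **(A1)** for `I_S|_V`. -/
theorem pDivH2_IS (h2 : HLoc2 S p) :
    PDivH2 p (comapBasis V.subtype (levelS S)) (Rep.res V.subtype (IS S)) := by
  classical
  exact pDivH2_of_decomp (𝓑 := comapBasis V.subtype (levelS S))
    (A := Rep.res V.subtype (IS S))
    (B := fun q : ↥S => Rep.res V.subtype (ISq S ((q : Nat.Primes) : ℕ)))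
    (fun q => ProdDict10.ISproj S q) (fun q v x => ProdDict10.ISproj_ρ S q (v : Γ) x)
    (fun q => LevelTheta21.inclq S q) (fun q v x => LevelTheta21.inclq_ρ S q (v : Γ) x)
    (sum_inclq_ISproj S) p (fun q => pDivH2_ISq S p V hV q (h2 q))

end Ideles

/-! ### The core -/

section Core

variable (S : Finset Nat.Primes) (p : ℕ) [hp : Fact p.Prime]

/-- **The core of the dévissage for `(Γ, levelS S)`**, from the local inputs and one global
class. -/
theorem core (hp2 : p ≠ 2) (hpS : pPrime p ∈ S) (h3 : HLoc3 S p) (h2 : HLoc2 S p)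
    (hnv : HNV S p) : Devissage2.Core p (levelS S) (cycloChar p) := by
  intro V hV hcop hker
  have hS : S.Nonempty := ⟨_, hpS⟩
  have hfund : LevExh8.FundFixedRep (levelS S) (CS S) p :=
    FundLevelFinal2.fundFixed_CS p hp2 hpS
  -- finiteness of the index
  obtain ⟨U₀, hU₀, hU₀V⟩ := hV
  haveI : U₀.FiniteIndex := (levelS S).isBasis.finiteIndex U₀ hU₀
  haveI : V.FiniteIndex := Subgroup.finiteIndex_of_le hU₀V
  haveI : Finite (Γ ⧸ V) := Subgroup.finite_quotient_of_finiteIndex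
  haveI : Fintype (Γ ⧸ V) := Fintype.ofFinite _
  have hV : ∃ U ∈ (levelS S).sets, U ≤ V := ⟨U₀, hU₀, hU₀V⟩
  have hcop' : (Fintype.card (Γ ⧸ V)).Coprime p := by
    rw [← Nat.card_eq_fintype_card, ← Subgroup.index_eq_card]
    exact hcop
  -- (A2)
  obtain ⟨h₀, hh₀Z, hph₀, hne⟩ := hnv
  have hψh₀ : ⇑(toCS S) ∘ h₀ ∈ Z2 (levelS S) (CS S) := comp_mem_Z2 (toCS S) (toCS_ρ S) hh₀Z
  have hpψh₀ : p • (⇑(toCS S) ∘ h₀) ∈ B2 (levelS S) (CS S) := by
    rw [← comp_nsmul']
    exact comp_mem_B2 (toCS S) (toCS_ρ S) hph₀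
  have A2 : TorLift p (comapBasis V.subtype (levelS S))
      (I := Rep.res V.subtype (IS S)) (C := Rep.res V.subtype (CS S)) (toCS S) := by
    refine torLift_of_rankLeOne p hp.out (I := Rep.res V.subtype (IS S))
      (C := Rep.res V.subtype (CS S)) (toCS S) (fun v x => toCS_ρ S (v : Γ) x)
      (LevExh8.rankLeOne_H2_open (levelS S) (CS S) (isDiscrete_CS S) hfund V hV)
      (res₂ (IS S) V h₀) (res₂_mem_Z2 (levelS S) V hh₀Z) ?_ ?_
    · have := res₂_mem_B2 (levelS S) V hph₀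
      rwa [map_nsmul] at this
    · intro hmem
      exact hne (mem_B2_of_res (levelS S) V (isDiscrete_CS S) p hcop' hψh₀ hpψh₀ hmem)
  -- (A4)
  have A4 : PDivH1 p (comapBasis V.subtype (levelS S)) (Rep.res V.subtype (CS S)) :=
    pDivH1_of_noPTor p hp.out (fun t ht n hn =>
      LevExh8.mem_coboundaries₁_open (levelS S) (CS S) (isDiscrete_CS S) hfund V hV ht n hn)
  -- the chase
  have hchase : Triv3 (comapBasis V.subtype (levelS S)) (Rep.trivial ℤ ↥V (ZMod p)) := by
    refine triv3_of_chase (𝓑 := comapBasis V.subtype (levelS S))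
      (M := Rep.trivial ℤ ↥V (ZMod p)) (E := Rep.res V.subtype (ES S))
      (I := Rep.res V.subtype (IS S)) (C := Rep.res V.subtype (CS S)) p
      (KerIso7.mkLin KerIso7.intSurj_int (KerIsoGal7.muES p S hpS).j) ?_
      (KerIsoGal7.muES p S hpS).inj (fun e he => (KerIsoGal7.muES p S hpS).surj e he) ?_ ?_
      (diag S) (fun v x => diag_ρ S (v : Γ) x) (toCS S) (fun v x => toCS_ρ S (v : Γ) x)
      (diag_injective S hS) (toCS_surjective S) (toCS_eq_zero_iff S)
      (isDiscrete_res (levelS S) (ES S) V (isDiscrete_ES S))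
      (isDiscrete_res (levelS S) (IS S) V (isDiscrete_IS S))
      (pDivH2_IS S p V hV h2) A2 (triv3P_IS S p V hV h3) A4
    · intro v m
      have h1 := (KerIsoGal7.muES p S hpS).equiv (v : Γ) m
      have h2 : cycloChar p (v : Γ) = 1 := hker v.2
      rw [h2, Units.val_one, one_mul] at h1
      exact h1.symm
    · intro m
      show p • (m : ZMod p) = 0
      rw [nsmul_eq_mul, ZMod.natCast_self, zero_mul]
    · intro e
      obtain ⟨b, hb⟩ := ESDivisible27.exists_nsmul_eq hp.out hpS e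
      exact ⟨b, hb⟩
  exact triv3_of_addEquiv (A := Rep.trivial ℤ ↥V (ZMod p))
    (B := Rep.trivial (ZMod p) ↥V (ZMod p)) (AddEquiv.refl _) (fun _ _ => rfl) hchase

end Core

end Fermat.Agent.W56.GlobalCore2
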