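/-
Programme W56 (S56), chapter (EC-2) "right exactness of H²", helper2.

`GlobalNV2`: the global input `GlobalCore2.HNV S p` (a class of `H²(Γ, I_S)[p]` with non-zero image
in `H²(Γ, C_S)`) from a non-zero class of `H²(Γ_q, A'_q)[p]` at one place `q ∈ S` (`HLocNV`):
Shapiro (`sh2_surjective`), the comparison `I_{S,q} ≃ Coind A'_q`, and the local–global principle
`LocalGlobalInst27.hLG_inclq` (GLOB's `LocalInjectivity`, unconditional).
-/
import Mathlib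
import Fermat.Agent.W56.GlobalCore2
import Fermat.Agent.PT.GLUE.LocalGlobalInst27
import Fermat.Agent.PT.GLOB.LocalInjMain14
import Fermat.Agent.PT.PRO.LevelEquiv29

set_option autoImplicit false
set_option linter.unusedSectionVars false

open CategoryTheory groupCohomology

namespace Fermat.Agent.W56.GlobalNV2

open Fermat.Agent.PT.PRO Fermat.Agent.PT.GLUE
open Fermat.Agent.PT.PRO.LevelCoh28 Fermat.Agent.PT.PRO.LevelCohRes28
open Fermat.Agent.PT.PRO.ShapiroLevel28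
open Fermat.Agent.PT.GLUE.Objects21 Fermat.Agent.PT.BR.InfLocal13
open Fermat.Agent.W56.CoreChase2 Fermat.Agent.W56.LocalDatum2 Fermat.Agent.W56.GlobalCore2
open ExtCitation

local notation "Γ" => (AlgebraicClosure ℚ ≃ₐ[ℚ] AlgebraicClosure ℚ)

variable (S : Finset Nat.Primes) (p : ℕ) [hp : Fact p.Prime]

/-- Local input: a non-zero class of `H²(Γ_q, A'_q)[p]` at some `q ∈ S`. -/
def HLocNV : Prop :=
  ∃ (q : ↥S) (c : (PadicAlgCl ((q : Nat.Primes) : ℕ) ≃ₐ[ℚ_[((q : Nat.Primes) : ℕ)]]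
      PadicAlgCl ((q : Nat.Primes) : ℕ)) × (PadicAlgCl ((q : Nat.Primes) : ℕ) ≃ₐ[ℚ_[((q : Nat.Primes) : ℕ)]]
      PadicAlgCl ((q : Nat.Primes) : ℕ)) → AQ S ((q : Nat.Primes) : ℕ)),
    c ∈ Z2 (levelLocS ((q : Nat.Primes) : ℕ) S) (AQ S ((q : Nat.Primes) : ℕ)) ∧
    p • c ∈ B2 (levelLocS ((q : Nat.Primes) : ℕ) S) (AQ S ((q : Nat.Primes) : ℕ)) ∧
    c ∉ B2 (levelLocS ((q : Nat.Primes) : ℕ) S) (AQ S ((q : Nat.Primes) : ℕ))

/-- A non-zero class of `H²(levelS S; I_{S,q})[p]` from the local one. -/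
theorem exists_class_ISq (h : HLocNV S p) :
    ∃ (q : ↥S) (w : H2 (levelS S) (ISq S ((q : Nat.Primes) : ℕ))), p • w = 0 ∧ w ≠ 0 := by
  obtain ⟨q, c, hcZ, hpc, hcB⟩ := h
  refine ⟨q, ?_⟩
  -- Shapiro
  obtain ⟨x₁, hx₁⟩ := sh2_surjective (localGaloisToGlobal ((q : Nat.Primes) : ℕ)) (levelS S)
    (levelLocS ((q : Nat.Primes) : ℕ) S) (LocI13.isLevelHom_levelLocS S ((q : Nat.Primes) : ℕ))
    (LocI13.induced_levelLocS S ((q : Nat.Primes) : ℕ)) (AQ S ((q : Nat.Primes) : ℕ))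
    (isDiscrete_AQ S ((q : Nat.Primes) : ℕ))
    (H2mk (levelLocS ((q : Nat.Primes) : ℕ) S) (AQ S ((q : Nat.Primes) : ℕ)) ⟨c, hcZ⟩)
  have hinj := sh2_injective (localGaloisToGlobal ((q : Nat.Primes) : ℕ)) (levelS S)
    (levelLocS ((q : Nat.Primes) : ℕ) S) (LocI13.isLevelHom_levelLocS S ((q : Nat.Primes) : ℕ))
    (LocI13.induced_levelLocS S ((q : Nat.Primes) : ℕ)) (AQ S ((q : Nat.Primes) : ℕ))
    (isDiscrete_AQ S ((q : Nat.Primes) : ℕ))
  have hx₁p : p • x₁ = 0 := by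
    apply hinj
    rw [map_nsmul, hx₁, map_zero, ← map_nsmul, H2mk_eq_zero_iff]
    exact hpc
  have hx₁0 : x₁ ≠ 0 := by
    rintro rfl
    rw [map_zero, eq_comm, H2mk_eq_zero_iff] at hx₁
    exact hcB hx₁
  -- back to `smCoind`
  have hb₁ := CoindCompare13.mapH2_bijective (𝓑 := levelS S)
    (CoindCompare13.coindEquiv (localGaloisToGlobal ((q : Nat.Primes) : ℕ)) (levelS S)
      (AQ S ((q : Nat.Primes) : ℕ)))
    (CoindCompare13.coindEquiv_ρ (localGaloisToGlobal ((q : Nat.Primes) : ℕ)) (levelS S)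
      (AQ S ((q : Nat.Primes) : ℕ)))
  obtain ⟨x₂, hx₂⟩ := hb₁.2 x₁
  have hx₂p : p • x₂ = 0 := by
    apply hb₁.1
    rw [map_nsmul, hx₂, hx₁p, map_zero]
  have hx₂0 : x₂ ≠ 0 := by
    rintro rfl
    rw [map_zero] at hx₂
    exact hx₁0 hx₂.symm
  -- to `I_{S,q}`
  have hb₂ := CoindCompare13.mapH2_bijective (𝓑 := levelS S)
    (LinearEquiv.ofBijective (mapAQ S ((q : Nat.Primes) : ℕ))
      (mapAQ_bijective S ((q : Nat.Primes) : ℕ)))
    (mapAQ_ρ S ((q : Nat.Primes) : ℕ))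
  refine ⟨_, ?_, fun h0 => hx₂0 (hb₂.1 (h0.trans (map_zero _).symm))⟩
  rw [← map_nsmul, hx₂p, map_zero]

/-- **(I3)**: the global class, from the local one and the local–global principle. -/
theorem hNV_of_local (hp2 : p ≠ 2) (hpS : pPrime p ∈ S) (h : HLocNV S p) : HNV S p := by
  classical
  obtain ⟨q, w, hpw, hw0⟩ := exists_class_ISq S p h
  obtain ⟨c, rfl⟩ := H2mk_surjective (levelS S) (ISq S ((q : Nat.Primes) : ℕ)) w
  have hcp : p • (c : Γ × Γ → ISq S ((q : Nat.Primes) : ℕ)) ∈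
      B2 (levelS S) (ISq S ((q : Nat.Primes) : ℕ)) := by
    rw [← map_nsmul, H2mk_eq_zero_iff] at hpw
    exact hpw
  refine ⟨⇑(LevelTheta21.inclq S q) ∘ (c : Γ × Γ → ISq S ((q : Nat.Primes) : ℕ)),
    comp_mem_Z2 (LevelTheta21.inclq S q) (LevelTheta21.inclq_ρ S q) c.2, ?_, ?_⟩
  · rw [← comp_nsmul']
    exact comp_mem_B2 (LevelTheta21.inclq S q) (LevelTheta21.inclq_ρ S q) hcp
  · intro hmem
    apply hw0
    -- translate to the `Hlev2` vocabulary and apply (LG)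
    have hLG := LocalGlobalInst27.hLG_inclq S p hp.out hp2 ⟨pPrime p, hpS, rfl⟩
      (Fermat.Agent.PT.GLOB.LocalInjMain14.localInjectivity p S) (LevelEquiv29.basis (levelS S))
      (fun q => isDiscrete_ISq S ((q : Nat.Primes) : ℕ)) (isDiscrete_IS S) (isDiscrete_CS S) q
      (LevelEquiv29.h2Equiv (levelS S) (ISq S ((q : Nat.Primes) : ℕ))
        (isDiscrete_ISq S ((q : Nat.Primes) : ℕ)) (H2mk (levelS S) _ c))
    apply (LevelEquiv29.h2Equiv (levelS S) (ISq S ((q : Nat.Primes) : ℕ))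
      (isDiscrete_ISq S ((q : Nat.Primes) : ℕ))).injective
    rw [map_zero]
    apply hLG
    · rw [← map_nsmul, hpw, map_zero]
    · rw [← LevelEquiv29.h2Equiv_mapH2 (levelS S) (isDiscrete_ISq S ((q : Nat.Primes) : ℕ))
        (isDiscrete_IS S) (LevelTheta21.inclq S q) (LevelTheta21.inclq_ρ S q),
        ← LevelEquiv29.h2Equiv_mapH2 (levelS S) (isDiscrete_IS S) (isDiscrete_CS S) (toCS S)
          (toCS_ρ S)]
      rw [mapH2_mk, mapH2_mk]
      have : H2mk (levelS S) (CS S) (mapZ2 (toCS S) (toCS_ρ S)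
          (mapZ2 (LevelTheta21.inclq S q) (LevelTheta21.inclq_ρ S q) c)) = 0 := by
        rw [H2mk_eq_zero_iff]
        exact hmem
      rw [this, map_zero]

end Fermat.Agent.W56.GlobalNV2
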