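/-
Programme W56 (target S56), item (EC-2) Ω4 = local `H³` (helper6), part (H3c):
**level 3-cocycles with values in a class formation which are `p`-power torsion modulo level
coboundaries are level coboundaries** (`H³_lev(G, C)(p) = 0`).

Vocabulary of `PT/PRO/HyperLevel25` (raw representations `ρ : Representation k G Y`, `dTwo`,
`IsLevel₂`, `IsLevelBasis`, `IsDiscrete`), continued in degree 3:
* `dThree ρ : (G × G × G → Y) →ₗ[k] (G × G × G × G → Y)`, `dThree_dTwo`;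
* `IsLevel₃ 𝒰 f`, `IsLevelAt₃ ρ U f`, `exists_normal_levelAt₃`, `desc₃`, `infl₃_desc₃`,
  `isLevelAt₃_infl₃`, `dThree_desc₃`, `isLevel₃_dTwo`;
* `FinH3NoTorsion ρ p` (raw finite-level statement), `exists_cobound₃` (exhaustion);
* **`exists_cobound₃_of_fundFixed`**: for `(G, 𝒰, C)` with fundamental classes at all finite levels
  (`FundHyp12.FundFixed ρC 𝒰 p`);
* **`exists_cobound₃_local`**: the local datum `(Γ_q, levelLoc q, ℚ̄_qˣ)`.
-/
import Mathlib
import Fermat.Agent.W56.H3Bridge6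
import Fermat.Agent.PT.PRO.InvP4
import Fermat.Agent.PT.PRO.FundHyp12
import Fermat.Agent.PT.GLUE.LocalFund11
import Fermat.Agent.PT.GLUE.LocalHypR11

set_option autoImplicit false

namespace Fermat.Agent.W56.H3Lev6

open Fermat.Agent.PT.PRO Fermat.Agent.PT.PRO.HyperLevel25 Fermat.Agent.PT.PRO.GlobalDuality20
  Fermat.Agent.PT.PRO.HyperColim18 Fermat.Agent.PT.PRO.InvP4

/-! ### degree 3 cochains -/

section Deg3

variable {k : Type*} [CommRing k] {G : Type*} [Group G]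
variable {Y : Type*} [AddCommGroup Y] [Module k Y]

/-- `d³ f = ((g,h,j,l) ↦ g f(h,j,l) - f(gh,j,l) + f(g,hj,l) - f(g,h,jl) + f(g,h,j))`. -/
def dThree (ρ : Representation k G Y) : (G × G × G → Y) →ₗ[k] (G × G × G × G → Y) where
  toFun f p := ρ p.1 (f (p.2.1, p.2.2.1, p.2.2.2)) - f (p.1 * p.2.1, p.2.2.1, p.2.2.2)
    + f (p.1, p.2.1 * p.2.2.1, p.2.2.2) - f (p.1, p.2.1, p.2.2.1 * p.2.2.2)
    + f (p.1, p.2.1, p.2.2.1)
  map_add' x y := by funext p; simp only [map_add, Pi.add_apply]; abel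
  map_smul' r y := by
    funext p; simp only [map_smul, Pi.smul_apply, RingHom.id_apply, smul_sub, smul_add]

@[simp] lemma dThree_apply (ρ : Representation k G Y) (f : G × G × G → Y) (g h j l : G) :
    dThree ρ f (g, h, j, l) =
      ρ g (f (h, j, l)) - f (g * h, j, l) + f (g, h * j, l) - f (g, h, j * l) + f (g, h, j) :=
  rfl

lemma dThree_dTwo (ρ : Representation k G Y) (c : G × G → Y) : dThree ρ (dTwo ρ c) = 0 := by
  funext ⟨g, h, j, l⟩
  simp only [dThree_apply, dTwo_apply, map_sub, map_add, map_mul, Module.End.mul_apply,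
    Pi.zero_apply, mul_assoc]
  abel

/-- A function on `G × G × G` is level if it is right-invariant under some `U ∈ 𝒰` in each
variable. -/
def IsLevel₃ (𝒰 : Set (Subgroup G)) {X : Type*} (f : G × G × G → X) : Prop :=
  ∃ U ∈ 𝒰, ∀ g g' g'' s s' s'', s ∈ U → s' ∈ U → s'' ∈ U →
    f (g * s, g' * s', g'' * s'') = f (g, g', g'')

/-- A 3-cochain of level `U`. -/
def IsLevelAt₃ (ρ : Representation k G Y) (U : Subgroup G) (f : G × G × G → Y) : Prop :=
  (∀ g g' g'' s s' s'', s ∈ U → s' ∈ U → s'' ∈ U →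
    f (g * s, g' * s', g'' * s'') = f (g, g', g'')) ∧ ∀ q, FixedBy ρ U (f q)

lemma IsLevelAt₃.mono {ρ : Representation k G Y} {U V : Subgroup G} (h : V ≤ U)
    {f : G × G × G → Y} (hf : IsLevelAt₃ ρ U f) : IsLevelAt₃ ρ V f :=
  ⟨fun g g' g'' s s' s'' hs hs' hs'' => hf.1 g g' g'' s s' s'' (h hs) (h hs') (h hs''),
    fun q => (hf.2 q).mono h⟩

variable {𝒰 : Set (Subgroup G)}

/-- A level 3-cochain with values in a discrete module is of level `W` for some normal `W` of the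
basis. -/
lemma exists_normal_levelAt₃ (h𝒰 : IsLevelBasis 𝒰) {ρ : Representation k G Y}
    (hρ : IsDiscrete 𝒰 ρ) {f : G × G × G → Y} (hf : IsLevel₃ 𝒰 f) :
    ∃ W ∈ 𝒰, W.Normal ∧ IsLevelAt₃ ρ W f := by
  obtain ⟨U, hU, hfU⟩ := hf
  have := h𝒰.finiteIndex U hU
  have : Finite (G ⧸ U) := Subgroup.finite_quotient_of_finiteIndex
  choose V hV𝒰 hVP using hρ
  obtain ⟨W₀, hW₀, hW₀le⟩ := h𝒰.exists_le_of_finite
    (fun q : (G ⧸ U) × (G ⧸ U) × (G ⧸ U) => V (f (q.1.out, q.2.1.out, q.2.2.out)))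
    (fun q => hV𝒰 _)
  obtain ⟨W₁, hW₁, hW₁le⟩ := h𝒰.inf W₀ hW₀ U hU
  obtain ⟨W, hW, hWle, hWn⟩ := h𝒰.normal W₁ hW₁
  have hWU : W ≤ U := hWle.trans (hW₁le.trans inf_le_right)
  have hWW₀ : W ≤ W₀ := hWle.trans (hW₁le.trans inf_le_left)
  refine ⟨W, hW, hWn, fun g g' g'' s s' s'' hs hs' hs'' =>
    hfU g g' g'' s s' s'' (hWU hs) (hWU hs') (hWU hs''), ?_⟩
  rintro ⟨g, g', g''⟩ t ht
  obtain ⟨s, hs, h⟩ := out_eq_mul U g
  obtain ⟨s', hs', h'⟩ := out_eq_mul U g'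
  obtain ⟨s'', hs'', h''⟩ := out_eq_mul U g''
  have e : f (g, g', g'') = f ((g : G ⧸ U).out, (g' : G ⧸ U).out, (g'' : G ⧸ U).out) := by
    rw [h, h', h'', hfU g g' g'' s s' s'' hs hs' hs'']
  rw [e]
  exact hVP _ t (hW₀le ((g : G ⧸ U), (g' : G ⧸ U), (g'' : G ⧸ U)) (hWW₀ ht))

/-- Descent of a level-`V` 3-cochain. -/
noncomputable def desc₃ {V : Subgroup G} {ρ : Representation k G Y} (f : G × G × G → Y)
    (hf : IsLevelAt₃ ρ V f) : (G ⧸ V) × (G ⧸ V) × (G ⧸ V) → fixedSub V ρ :=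
  fun q => ⟨f (q.1.out, q.2.1.out, q.2.2.out), hf.2 _⟩

@[simp] lemma infl₃_desc₃ {V : Subgroup G} {ρ : Representation k G Y} (f : G × G × G → Y)
    (hf : IsLevelAt₃ ρ V f) : infl₃ (desc₃ f hf) = f := by
  funext ⟨g, g', g''⟩
  obtain ⟨s, hs, h⟩ := out_eq_mul V g
  obtain ⟨s', hs', h'⟩ := out_eq_mul V g'
  obtain ⟨s'', hs'', h''⟩ := out_eq_mul V g''
  simp only [infl₃, desc₃, h, h', h'', hf.1 g g' g'' s s' s'' hs hs' hs'']

lemma isLevelAt₃_infl₃ {V : Subgroup G} {ρ : Representation k G Y}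
    (f : (G ⧸ V) × (G ⧸ V) × (G ⧸ V) → fixedSub V ρ) : IsLevelAt₃ ρ V (infl₃ f) :=
  ⟨fun g g' g'' s s' s'' hs hs' hs'' => by
    simp only [infl₃, mk_mul_of_mem g hs, mk_mul_of_mem g' hs', mk_mul_of_mem g'' hs''],
    fun q => (f _).2⟩

/-- Descent of the cocycle condition in degree 3. -/
lemma dThree_desc₃ (V : Subgroup G) [V.Normal] (ρ : Representation k G Y) {f : G × G × G → Y}
    (hf : IsLevelAt₃ ρ V f) (h : dThree ρ f = 0) : dThree (fixedRep V ρ) (desc₃ f hf) = 0 := by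
  funext ⟨q, q', q'', q'''⟩
  induction q using QuotientGroup.induction_on with
  | H g =>
    induction q' using QuotientGroup.induction_on with
    | H g' =>
      induction q'' using QuotientGroup.induction_on with
      | H g'' =>
        induction q''' using QuotientGroup.induction_on with
        | H g''' =>
          apply Subtype.ext
          have h1 := congrFun h (g, g', g'', g''')
          have h2 := congrFun (infl₃_desc₃ f hf)
          simp only [infl₃] at h2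
          simp only [dThree_apply, Pi.zero_apply, Submodule.coe_add, Submodule.coe_sub,
            fixedRep_mk, ← QuotientGroup.mk_mul, ZeroMemClass.coe_zero] at h1 ⊢
          rw [h2 (g', g'', g'''), h2 (g * g', g'', g'''), h2 (g, g' * g'', g'''),
            h2 (g, g', g'' * g'''), h2 (g, g', g'')]
          exact h1

/-- `d²` of a level cochain with values in a discrete module is level. -/
lemma isLevel₃_dTwo (h𝒰 : IsLevelBasis 𝒰) {ρ : Representation k G Y} (hρ : IsDiscrete 𝒰 ρ)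
    {c : G × G → Y} (hc : IsLevel₂ 𝒰 c) : IsLevel₃ 𝒰 (dTwo ρ c) := by
  obtain ⟨W, hW, hWn, hcW⟩ := exists_normal_levelAt₂ h𝒰 hρ hc
  have := hWn
  refine ⟨W, hW, ?_⟩
  have e : dTwo ρ c = infl₃ (dTwo (fixedRep W ρ) (desc₂ c hcW)) := by
    rw [infl₃_dTwo, infl₂_desc₂]
  rw [e]
  exact (isLevelAt₃_infl₃ _).1

end Deg3

/-! ### exhaustion -/

section Exhaust

variable {k : Type*} [CommRing k] {G : Type*} [Group G] {𝒰 : Set (Subgroup G)}
variable {Y : Type*} [AddCommGroup Y] [Module k Y]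

/-- RAW finite-level statement "`H³(Q, X)` has no `p`-primary torsion". -/
def FinH3NoTorsion {Q : Type*} [Group Q] {X : Type*} [AddCommGroup X] [Module k X]
    (ρ : Representation k Q X) (p : ℕ) : Prop :=
  ∀ f : Q × Q × Q → X, dThree ρ f = 0 → ∀ (n : ℕ) (e : Q × Q → X), p ^ n • f = dTwo ρ e →
    ∃ e' : Q × Q → X, f = dTwo ρ e'

/-- **Exhaustion in degree 3.**  If `H³(G ⧸ V, Y^V)` has no `p`-primary torsion (raw form) for every
normal member `V` of the basis, then every level 3-cocycle whose `p ^ n`-multiple is a level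
coboundary is a level coboundary. -/
theorem exists_cobound₃ (h𝒰 : IsLevelBasis 𝒰) (ρ : Representation k G Y) (hρ : IsDiscrete 𝒰 ρ)
    (p : ℕ)
    (hfin : ∀ V ∈ 𝒰, ∀ hn : V.Normal, haveI := hn; FinH3NoTorsion (fixedRep V ρ) p)
    (f : G × G × G → Y) (hfl : IsLevel₃ 𝒰 f) (hfc : dThree ρ f = 0) (n : ℕ) (e : G × G → Y)
    (hel : IsLevel₂ 𝒰 e) (he : p ^ n • f = dTwo ρ e) :
    ∃ e' : G × G → Y, IsLevel₂ 𝒰 e' ∧ dTwo ρ e' = f := by
  obtain ⟨W₁, hW₁, -, h1⟩ := exists_normal_levelAt₃ h𝒰 hρ hfl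
  obtain ⟨W₂, hW₂, -, h2⟩ := exists_normal_levelAt₂ h𝒰 hρ hel
  obtain ⟨W₃, hW₃, hW₃le⟩ := h𝒰.inf W₁ hW₁ W₂ hW₂
  obtain ⟨V, hV, hVle, hVn⟩ := h𝒰.normal W₃ hW₃
  have := hVn
  have hfV : IsLevelAt₃ ρ V f := h1.mono (hVle.trans (hW₃le.trans inf_le_left))
  have heV : IsLevelAt₂ ρ V e := h2.mono (hVle.trans (hW₃le.trans inf_le_right))
  obtain ⟨e', he'⟩ := hfin V hV hVn (desc₃ f hfV) (dThree_desc₃ V ρ hfV hfc) n (desc₂ e heV) (by
    apply infl₃_injective
    rw [infl₃_dTwo, infl₂_desc₂, ← he]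
    funext q
    have h3 := congrFun (infl₃_desc₃ f hfV) q
    simp only [infl₃, Pi.smul_apply, Submodule.coe_smul_of_tower] at h3 ⊢
    rw [h3])
  refine ⟨infl₂ e', (isLevelAt₂_infl₂ e').isLevel₂ hV, ?_⟩
  rw [← infl₃_dTwo, ← he', infl₃_desc₃]

end Exhaust

/-! ### class formations -/

section Fund

open Fermat.Agent.PT.FG.Interface8

variable {G : Type} [Group G] {C : Type} [AddCommGroup C] [Module ℤ C]
  (ρC : Representation ℤ G C) {𝒰 : Set (Subgroup G)} {p : ℕ} [Fact p.Prime]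

omit [Module ℤ C] in
/-- A fundamental class gives the raw finite-level vanishing of `H³(p)`. -/
theorem finH3NoTorsion_of_isFundClass {Q : Type} [Group Q] [Finite Q] (A : Rep.{0} ℤ Q)
    (u : groupCohomology.H2 A) (hu : IsFundClass p A u) :
    @FinH3NoTorsion ℤ _ Q _ A.V _ A.hV2 A.ρ p := by
  intro f hf n e he
  obtain ⟨e', he'⟩ := H3Bridge6.exists_eq_d₂₃_of_isFundClass A u hu f
    (fun g h j l => congrFun hf (g, h, j, l)) n e (fun g h j => congrFun he (g, h, j))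
  exact ⟨e', funext fun ⟨g, h, j⟩ => he' g h j⟩

/-- **`H³_lev(G, C)(p) = 0` for a datum with fundamental classes at all finite levels.** -/
theorem exists_cobound₃_of_fundFixed (h𝒰 : IsLevelBasis 𝒰) (hC : IsDiscrete 𝒰 ρC)
    (hfund : FundHyp12.FundFixed ρC 𝒰 p)
    (f : G × G × G → C) (hfl : IsLevel₃ 𝒰 f) (hfc : dThree ρC f = 0) (n : ℕ) (e : G × G → C)
    (hel : IsLevel₂ 𝒰 e) (he : p ^ n • f = dTwo ρC e) :
    ∃ e' : G × G → C, IsLevel₂ 𝒰 e' ∧ dTwo ρC e' = f := by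
  refine exists_cobound₃ h𝒰 ρC hC p (fun V hV hn => ?_) f hfl hfc n e hel he
  have := hn
  have := h𝒰.finiteIndex V hV
  have : Finite (G ⧸ V) := Subgroup.finite_quotient_of_finiteIndex
  obtain ⟨u, hu⟩ := hfund V hV hn
  exact finH3NoTorsion_of_isFundClass (FundRaw18.fixedObj V ρC) u hu

end Fund

/-! ### the local datum -/

section Local

open Fermat.Agent.PT.GLUE.Objects21 Fermat.Agent.PT.GLUE.LocalHypR11

variable (q : ℕ) [Fact q.Prime]

local notation "Γq" => (PadicAlgCl q ≃ₐ[ℚ_[q]] PadicAlgCl q)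

/-- **`H³(Γ_q, ℚ̄_qˣ)(p) = 0` in level form**: a level 3-cocycle of `Γ_q` with values in `ℚ̄_qˣ`
whose `p ^ n`-multiple is a level coboundary is a level coboundary. -/
theorem exists_cobound₃_local (p : ℕ) [Fact p.Prime] (f : Γq × Γq × Γq → (unitsLoc q).V)
    (hfl : IsLevel₃ (levelLoc q).sets f) (hfc : dThree (unitsLoc q).ρ f = 0) (n : ℕ)
    (e : Γq × Γq → (unitsLoc q).V) (hel : IsLevel₂ (levelLoc q).sets e)
    (he : p ^ n • f = dTwo (unitsLoc q).ρ e) :
    ∃ e' : Γq × Γq → (unitsLoc q).V, IsLevel₂ (levelLoc q).sets e' ∧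
      dTwo (unitsLoc q).ρ e' = f :=
  exists_cobound₃_of_fundFixed (unitsLoc q).ρ (isLevelBasis_levelLoc q) (isDiscrete_unitsLoc' q)
    (Fermat.Agent.PT.GLUE.LocalFund11.fundFixed_unitsLoc q p) f hfl hfc n e hel he

end Local

end Fermat.Agent.W56.H3Lev6
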