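/-
Programme W56 (target S56), item (EC-2) Ω4 = local `H³` (helper6), part (H3c) in helper2's literal
shape (board 721):

**`triv3P_of_fundFixed`**: for a datum `(G, 𝓑, Y)` (`Y` a discrete `G`-module) with fundamental
classes at all finite levels (`FundHyp12.FundFixed Y.ρ 𝓑.sets p`) and every OPEN subgroup `V ≤ G`
(`∃ U ∈ 𝓑.sets, U ≤ V`): `Coh3Lev2.Triv3P p (comapBasis V.subtype 𝓑) (Rep.res V.subtype Y)`, i.e.
`H³_lev(V, Y)(p) = 0`.

Ingredients:
* `exists_cobound₃_cofinal`: the exhaustion of `H3Lev6` for a cofinal family of normal members;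
* helper8's `OpenSub8` (`famV`, `fund_famV`): the fundamental classes of `(G ⧸ W, C^W)` restrict to
  the finite layers `(V ⧸ W ∩ V, C^{W ∩ V})` of the open subgroup `V`;
* `H3Lev6.finH3NoTorsion_of_isFundClass` (via `H3Van6`): no `p`-torsion in `H³` of a finite layer.

Variants: `exists_cobound₃_open` (raw vocabulary of `HyperLevel25`), `triv3P_of_fundFixed_of`
(for `Rep.of ρ`), `triv3P_of_fundFixed` (for `Y : Rep ℤ G`; the module structure of `Y` is passed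
explicitly to `FundFixed`, see the ℤ-module diamond), `triv3P_unitsLoc` (the local datum).
-/
import Mathlib
import Fermat.Agent.W56.H3Lev6
import Fermat.Agent.W56.Coh3Lev2
import Fermat.Agent.W56.OpenSub8
import Fermat.Agent.PT.PRO.LevelCompare13
import Fermat.Agent.PT.GLUE.Objects21

set_option autoImplicit false

open CategoryTheory groupCohomology

namespace Fermat.Agent.W56.H3Open6

open Fermat.Agent.PT.PRO Fermat.Agent.PT.PRO.HyperLevel25 Fermat.Agent.PT.PRO.GlobalDuality20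
  Fermat.Agent.PT.PRO.HyperColim18 Fermat.Agent.PT.PRO.InvP4 Fermat.Agent.W56.H3Lev6

/-! ### exhaustion along a cofinal family -/

section Exhaust

variable {k : Type*} [CommRing k] {G : Type*} [Group G] {𝒰 : Set (Subgroup G)}
variable {Y : Type*} [AddCommGroup Y] [Module k Y]

/-- **Exhaustion in degree 3, cofinal form.** -/
theorem exists_cobound₃_cofinal (h𝒰 : IsLevelBasis 𝒰) (ρ : Representation k G Y)
    (hρ : IsDiscrete 𝒰 ρ) (p : ℕ) {ℱ : Set (Subgroup G)} (hsub : ℱ ⊆ 𝒰)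
    (hnormal : ∀ V ∈ ℱ, V.Normal) (hcof : ∀ U ∈ 𝒰, ∃ V ∈ ℱ, V ≤ U)
    (hfin : ∀ V (hV : V ∈ ℱ), haveI := hnormal V hV; FinH3NoTorsion (fixedRep V ρ) p)
    (f : G × G × G → Y) (hfl : IsLevel₃ 𝒰 f) (hfc : dThree ρ f = 0) (n : ℕ) (e : G × G → Y)
    (hel : IsLevel₂ 𝒰 e) (he : p ^ n • f = dTwo ρ e) :
    ∃ e' : G × G → Y, IsLevel₂ 𝒰 e' ∧ dTwo ρ e' = f := by
  obtain ⟨W₁, hW₁, -, h1⟩ := exists_normal_levelAt₃ h𝒰 hρ hfl
  obtain ⟨W₂, hW₂, -, h2⟩ := exists_normal_levelAt₂ h𝒰 hρ hel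
  obtain ⟨W₃, hW₃, hW₃le⟩ := h𝒰.inf W₁ hW₁ W₂ hW₂
  obtain ⟨V, hV, hVle⟩ := hcof W₃ hW₃
  have := hnormal V hV
  have hfV : IsLevelAt₃ ρ V f := h1.mono (hVle.trans (hW₃le.trans inf_le_left))
  have heV : IsLevelAt₂ ρ V e := h2.mono (hVle.trans (hW₃le.trans inf_le_right))
  obtain ⟨e', he'⟩ := hfin V hV (desc₃ f hfV) (dThree_desc₃ V ρ hfV hfc) n (desc₂ e heV) (by
    apply infl₃_injective
    rw [infl₃_dTwo, infl₂_desc₂, ← he]
    funext q
    have h3 := congrFun (infl₃_desc₃ f hfV) q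
    simp only [infl₃, Pi.smul_apply, Submodule.coe_smul_of_tower] at h3 ⊢
    rw [h3])
  refine ⟨infl₂ e', (isLevelAt₂_infl₂ e').isLevel₂ (hsub hV), ?_⟩
  rw [← infl₃_dTwo, ← he', infl₃_desc₃]

end Exhaust

/-! ### the theorem -/

section Main

open Fermat.Agent.PT.FG.Interface8 Fermat.Agent.PT.GLUE.Objects21 Fermat.Agent.W56.OpenSub8

variable {G : Type} [Group G]

/-- **`H³_lev(V, C)(p) = 0` for every open subgroup `V` of a datum with fundamental classes at all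
finite levels** (raw form, vocabulary of `HyperLevel25`). -/
theorem exists_cobound₃_open {C : Type} [AddCommGroup C] [Module ℤ C]
    (ρ : Representation ℤ G C) {𝒰 : Set (Subgroup G)} (h𝒰 : IsLevelBasis 𝒰)
    (hC : IsDiscrete 𝒰 ρ) {p : ℕ} [Fact p.Prime] (hfund : FundHyp12.FundFixed ρ 𝒰 p)
    (V : Subgroup G) (hV : ∃ U ∈ 𝒰, U ≤ V)
    (h𝒰V : IsLevelBasis (comapSet V.subtype 𝒰))
    (f : ↥V × ↥V × ↥V → C) (hfl : IsLevel₃ (comapSet V.subtype 𝒰) f)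
    (hfc : dThree (ρ.comp V.subtype) f = 0) (n : ℕ) (e : ↥V × ↥V → C)
    (hel : IsLevel₂ (comapSet V.subtype 𝒰) e) (he : p ^ n • f = dTwo (ρ.comp V.subtype) e) :
    ∃ e' : ↥V × ↥V → C, IsLevel₂ (comapSet V.subtype 𝒰) e' ∧
      dTwo (ρ.comp V.subtype) e' = f := by
  have hCV : IsDiscrete (comapSet V.subtype 𝒰) (ρ.comp V.subtype) := by
    intro y
    obtain ⟨U, hU, h⟩ := hC y
    exact ⟨_, ⟨U, hU, rfl⟩, fun s hs => h (s : G) hs⟩
  refine exists_cobound₃_cofinal h𝒰V (ρ.comp V.subtype) hCV p (famV_sub 𝒰 V) (famV_normal 𝒰 V)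
    (famV_cofinal h𝒰 hV) ?_ f hfl hfc n e hel he
  intro W' hW'
  have hn' := famV_normal 𝒰 V W' hW'
  obtain ⟨u', hu'⟩ := fund_famV ρ hfund V W' hW'
  have hfi : Finite (↥V ⧸ W') := by
    obtain ⟨W, hW, hWn, hWV, rfl⟩ := hW'
    have := h𝒰V.finiteIndex _ (famV_sub 𝒰 V ⟨W, hW, hWn, hWV, rfl⟩)
    exact Subgroup.finite_quotient_of_finiteIndex
  exact finH3NoTorsion_of_isFundClass (FundRaw18.fixedObj W' (ρ.comp V.subtype)) u' hu'

/-- **(H3c) for `Rep.of ρ`.** -/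
theorem triv3P_of_fundFixed_of (𝓑 : LevelCoh28.LevelBasis G) {C : Type} [AddCommGroup C]
    [Module ℤ C] (ρ : Representation ℤ G C) (hC : IsDiscrete 𝓑.sets ρ) (p : ℕ) [Fact p.Prime]
    (hfund : FundHyp12.FundFixed ρ 𝓑.sets p) (V : Subgroup G) (hV : ∃ U ∈ 𝓑.sets, U ≤ V) :
    Coh3Lev2.Triv3P p (comapBasis V.subtype 𝓑) (Rep.res V.subtype (Rep.of ρ)) := by
  intro f hfl hfc hp
  obtain ⟨n, b, hbl, hb⟩ := hp
  have h𝒰 : IsLevelBasis 𝓑.sets := LevelCompare13.isLevelBasis_iff.1 𝓑.isBasis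
  have h𝒰V : IsLevelBasis (comapSet V.subtype 𝓑.sets) :=
    LevelCompare13.isLevelBasis_iff.1 (comapBasis V.subtype 𝓑).isBasis
  have hfl' : IsLevel₃ (comapSet V.subtype 𝓑.sets) f := by
    obtain ⟨U, hU, h⟩ := hfl
    exact ⟨U, hU, fun g g' g'' s s' s'' hs hs' hs'' => h g g' g'' s hs s' hs' s'' hs''⟩
  have hfc' : dThree (ρ.comp V.subtype) f = 0 := by
    funext ⟨g, h, j, l⟩
    exact congrFun hfc (g, h, j, l)
  have hbl' : IsLevel₂ (comapSet V.subtype 𝓑.sets) b := (LevelCompare13.isLevel₂_iff b).1 hbl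
  have hb' : p ^ n • f = dTwo (ρ.comp V.subtype) b := by
    rw [← hb]
    exact (LevelCompare13.dTwo_eq (Rep.res V.subtype (Rep.of ρ)) b).symm
  obtain ⟨e', he'l, he'⟩ := exists_cobound₃_open ρ h𝒰 hC hfund V hV h𝒰V f hfl' hfc' n b hbl' hb'
  refine ⟨e', (LevelCompare13.isLevel₂_iff e').2 he'l, ?_⟩
  rw [← he']
  exact (LevelCompare13.dTwo_eq (Rep.res V.subtype (Rep.of ρ)) e').symm

/-- **(H3c), helper2's literal target** (board 721).  The `ℤ`-module structure of `Y` is passed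
explicitly to `FundFixed` (for `Y` a variable, instance search would find
`AddCommGroup.toIntModule` instead of `Y.hV2`). -/
theorem triv3P_of_fundFixed (𝓑 : LevelCoh28.LevelBasis G) (Y : Rep.{0} ℤ G)
    (hY : LevelCoh28.IsDiscrete 𝓑.sets Y) (p : ℕ) [Fact p.Prime]
    (hfund : @FundHyp12.FundFixed G _ Y.V Y.hV1 Y.hV2 Y.ρ 𝓑.sets p) (V : Subgroup G)
    (hV : ∃ U ∈ 𝓑.sets, U ≤ V) :
    Coh3Lev2.Triv3P p (comapBasis V.subtype 𝓑) (Rep.res V.subtype Y) :=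
  @triv3P_of_fundFixed_of G _ 𝓑 Y.V Y.hV1 Y.hV2 Y.ρ hY p _ hfund V hV

end Main

/-! ### the local datum -/

section Local

open Fermat.Agent.PT.GLUE.Objects21 Fermat.Agent.PT.GLUE.LocalHypR11

variable (q : ℕ) [Fact q.Prime]

local notation "Γq" => (PadicAlgCl q ≃ₐ[ℚ_[q]] PadicAlgCl q)

/-- **`H³_lev(V, ℚ̄_qˣ)(p) = 0` for every open subgroup `V ≤ Γ_q`.** -/
theorem triv3P_unitsLoc (p : ℕ) [Fact p.Prime] (V : Subgroup Γq)
    (hV : ∃ U ∈ (levelLoc q).sets, U ≤ V) :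
    Coh3Lev2.Triv3P p (comapBasis V.subtype (levelLoc q)) (Rep.res V.subtype (unitsLoc q)) :=
  triv3P_of_fundFixed_of (levelLoc q) (unitsLoc q).ρ (isDiscrete_unitsLoc' q) p
    (Fermat.Agent.PT.GLUE.LocalFund11.fundFixed_unitsLoc q p) V hV

end Local

end Fermat.Agent.W56.H3Open6
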