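/-
Programme W56 (target S56), shared package "class formation over an open subgroup" (helper8):
**PK-5, `p`-divisibility of the `p`-primary part of `H²_lev`.**

Finite level: for a finite group `Q` and `(C, u)` with `IsFundClass p C u`, the `p`-primary part of
`H²(Q, C)` is cyclic of order `|Q|_p`, generated by `n' • u` (`|Q| = p^b n'`); hence a class killed
by `p^a` is a `p`-th multiple as soon as `p^(a+1) ∣ |Q|` (`exists_nsmul_eq_of_isFundClass`).
-/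
import Mathlib
import Fermat.Agent.W56.LevExh8

set_option autoImplicit false
set_option linter.unusedSectionVars false
set_option linter.style.haveILetI false

open CategoryTheory groupCohomology

namespace Fermat.Agent.W56.PDiv8

open Fermat.Agent.PT.FG Fermat.Agent.PT.FG.Interface8

/-! ### finite level, Mathlib group cohomology -/

section Fin

variable {Q : Type} [Group Q] [Finite Q]

/-- **the `p`-primary part of `H²(Q, C)` is `p`-divisible up to the `p`-part of `|Q|`.** -/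
theorem exists_nsmul_eq_of_isFundClass {p : ℕ} [Fact p.Prime] {C : Rep ℤ Q} {u : H2 C}
    (hu : IsFundClass p C u) {a : ℕ} (ha : p ^ (a + 1) ∣ Nat.card Q) (x : H2 C)
    (hx : p ^ a • x = 0) : ∃ y : H2 C, p • y = x := by
  classical
  have hp : p.Prime := Fact.out
  obtain ⟨P⟩ : Nonempty (Sylow p Q) := inferInstance
  have hN0 : Nat.card Q ≠ 0 := Nat.card_pos.ne'
  set b := (Nat.card Q).factorization p with hb
  have hPcard : Nat.card (P : Subgroup Q) = p ^ b := P.card_eq_multiplicity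
  set n' := Nat.card Q / p ^ b with hn'
  have hNeq : p ^ b * n' = Nat.card Q := Nat.ordProj_mul_ordCompl_eq_self (Nat.card Q) p
  have hcop : Nat.Coprime p n' := Nat.coprime_ordCompl hp hN0
  have hab : a + 1 ≤ b := (hp.pow_dvd_iff_le_factorization hN0).1 ha
  -- `H²(P, C)` is finite of order `p ^ b`
  have hcard := hu.card P P.isPGroup'
  rw [hPcard] at hcard
  have hfin : Finite (groupCohomology (Rep.res (P : Subgroup Q).subtype C) 2) :=
    Nat.finite_of_card_ne_zero (by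
      show Nat.card (H2 (resSub (P : Subgroup Q) C)) ≠ 0
      rw [hcard]
      exact (pow_pos hp.pos b).ne')
  obtain ⟨hTfin, hTdvd⟩ := Transfer2.card_primaryTorsion_dvd_sylow (B := C) P 2
  have hTdvd' : Nat.card (Transfer2.primaryTorsion (groupCohomology C 2) p) ∣ p ^ b := by
    have : Nat.card (groupCohomology (Rep.res (P : Subgroup Q).subtype C) 2) = p ^ b := hcard
    rwa [this] at hTdvd
  -- the generator
  set u' : H2 C := n' • u with hu'
  have hu'T : p ^ b • u' = 0 := by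
    rw [hu', smul_smul, hNeq]
    exact Transfer2.card_nsmul_eq_zero C 1 u
  have hord : addOrderOf u' = p ^ b := by
    apply Nat.dvd_antisymm (addOrderOf_dvd_of_nsmul_eq_zero hu'T)
    have h1 : addOrderOf (resMap (P : Subgroup Q) C 2 u') = p ^ b := by
      have h2 : resMap (P : Subgroup Q) C 2 u' = n' • resMap (P : Subgroup Q) C 2 u := by
        rw [hu', map_nsmul]
      rw [h2]
      have h3 := hu.order P P.isPGroup'
      rw [hPcard] at h3
      have h4 : (addOrderOf (resMap (P : Subgroup Q) C 2 u)).Coprime n' := by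
        rw [h3]
        exact Nat.Coprime.pow_left b hcop
      rw [h4.addOrderOf_nsmul, h3]
    rw [← h1]
    exact addOrderOf_map_dvd (resMap (P : Subgroup Q) C 2).hom.toAddMonoidHom u'
  -- the `p`-primary part is generated by `u'`
  have hle : AddSubgroup.zmultiples u' ≤ Transfer2.primaryTorsion (groupCohomology C 2) p := by
    rw [AddSubgroup.zmultiples_le]
    exact ⟨b, hu'T⟩
  have heq : AddSubgroup.zmultiples u' = Transfer2.primaryTorsion (groupCohomology C 2) p := by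
    apply AddSubgroup.eq_of_le_of_card_ge hle
    rw [Nat.card_zmultiples, hord]
    exact Nat.le_of_dvd (pow_pos hp.pos b) hTdvd'
  have hxT : x ∈ Transfer2.primaryTorsion (groupCohomology C 2) p := ⟨a, hx⟩
  rw [← heq] at hxT
  obtain ⟨m, hm⟩ := AddSubgroup.mem_zmultiples_iff.1 hxT
  -- `p ∣ m`
  have h5 : (((p ^ a : ℕ) : ℤ) * m) • u' = 0 := by
    rw [mul_smul, hm, natCast_zsmul, hx]
  have h6 : ((p ^ b : ℕ) : ℤ) ∣ ((p ^ a : ℕ) : ℤ) * m := by
    rw [← hord]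
    exact (addOrderOf_dvd_iff_zsmul_eq_zero).2 h5
  have h7 : (p : ℤ) ∣ m := by
    obtain ⟨c, hc⟩ := Nat.exists_eq_add_of_le hab
    rw [hc] at h6
    have h8 : ((p ^ (a + 1 + c) : ℕ) : ℤ) = ((p ^ a : ℕ) : ℤ) * ((p : ℤ) * (p : ℤ) ^ c) := by
      push_cast
      ring
    rw [h8] at h6
    have hpa : ((p ^ a : ℕ) : ℤ) ≠ 0 := by
      exact_mod_cast (pow_pos hp.pos a).ne'
    have h9 := (mul_dvd_mul_iff_left hpa).1 h6
    exact dvd_trans (dvd_mul_right _ _) h9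
  obtain ⟨m', hm'⟩ := h7
  refine ⟨m' • u', ?_⟩
  rw [← hm, hm', mul_smul, natCast_zsmul]

end Fin

/-! ### finite level, raw cochains -/

open Fermat.Agent.PT.PRO Fermat.Agent.PT.PRO.HyperLevel25 Fermat.Agent.PT.PRO.HyperColim18
  Fermat.Agent.PT.PRO.GlobalDuality20 Fermat.Agent.PT.PRO.FundRaw18 Fermat.Agent.PT.PRO.Resolved4
  Fermat.Agent.PT.PRO.InvP4 Fermat.Agent.PT.GLUE.Objects21 Fermat.Agent.W56.OpenSub8
  Fermat.Agent.W56.LevExh8

/-- RAW finite-level statement: a 2-cocycle of `Q` killed by `p ^ a` in cohomology is `p` times a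
2-cocycle modulo coboundaries, as soon as `p ^ (a + 1) ∣ |Q|`. -/
def FinPDiv {k : Type*} [CommRing k] {Q : Type*} [Group Q] {X : Type*} [AddCommGroup X]
    [Module k X] (ρ : Representation k Q X) (p : ℕ) : Prop :=
  ∀ a : ℕ, p ^ (a + 1) ∣ Nat.card Q → ∀ φ : Q × Q → X, dTwo ρ φ = 0 →
    (∃ v : Q → X, p ^ a • φ = dOne ρ v) →
    ∃ (ψ : Q × Q → X) (w : Q → X), dTwo ρ ψ = 0 ∧ φ = p • ψ + dOne ρ w

section BridgeRaw

variable {k : Type} [CommRing k] {Q : Type} [Group Q] (C : Rep.{0} k Q)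

lemma dTwo_of_mem_cocycles₂ {ψ : Q × Q → C.V} (h : ψ ∈ cocycles₂ C) : dTwo C.ρ ψ = 0 := by
  rw [mem_cocycles₂_iff] at h
  funext ⟨g, h', j⟩
  have := h g h' j
  rw [dTwo_apply, Pi.zero_apply, ← sub_eq_zero.2 this.symm]
  abel

/-- from Mathlib's `H²` to raw cochains. -/
theorem finPDiv_of_H2 (p : ℕ)
    (h : ∀ a : ℕ, p ^ (a + 1) ∣ Nat.card Q → ∀ x : H2 C, p ^ a • x = 0 → ∃ y : H2 C, p • y = x) :
    FinPDiv C.ρ p := by
  rintro a ha φ hφ ⟨v, hv⟩
  have hφc := mem_cocycles₂_of_dTwo C hφ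
  have hx : p ^ a • H2π C ⟨φ, hφc⟩ = 0 := by
    rw [← Nat.cast_smul_eq_nsmul k, ← map_smul]
    refine H2π_eq_zero_of_dOne C ((cocycles₂ C).smul_mem _ hφc) (w := v) ?_
    rw [Nat.cast_smul_eq_nsmul]
    exact hv
  obtain ⟨y, hy⟩ := h a ha _ hx
  induction y using H2_induction_on with
  | h z =>
    obtain ⟨ψ, hψ⟩ := z
    have hmem : φ - (p : k) • ψ ∈ cocycles₂ C :=
      (cocycles₂ C).sub_mem hφc ((cocycles₂ C).smul_mem _ hψ)
    have h0 : H2π C ⟨φ - (p : k) • ψ, hmem⟩ = 0 := by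
      have e1 : (⟨φ - (p : k) • ψ, hmem⟩ : cocycles₂ C) =
          ⟨φ, hφc⟩ - (p : k) • ⟨ψ, hψ⟩ := rfl
      rw [e1, map_sub, map_smul, Nat.cast_smul_eq_nsmul, hy, sub_self]
    obtain ⟨w, hw⟩ := exists_dOne_of_H2π_eq_zero C hmem h0
    refine ⟨ψ, w, dTwo_of_mem_cocycles₂ C hψ, ?_⟩
    rw [← hw, Nat.cast_smul_eq_nsmul]
    abel

end BridgeRaw

/-- a fundamental class gives the raw finite-level divisibility. -/
theorem finPDiv_of_isFundClass {Q : Type} [Group Q] [Finite Q] {p : ℕ} [Fact p.Prime]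
    (A : Rep.{0} ℤ Q) (u : H2 A) (hu : IsFundClass p A u) :
    @FinPDiv ℤ _ Q _ A.V _ A.hV2 A.ρ p :=
  finPDiv_of_H2 A p (fun _ ha x hx => exists_nsmul_eq_of_isFundClass hu ha x hx)

/-! ### exhaustion -/

section Exh

variable {k : Type*} [CommRing k] {G : Type*} [Group G] {𝒰 : Set (Subgroup G)}
variable {Y : Type*} [AddCommGroup Y] [Module k Y]
variable (h𝒰 : IsLevelBasis 𝒰) (ρ : Representation k G Y) (hρ : IsDiscrete 𝒰 ρ)

/-- **Exhaustion**: if the finite layers `(G ⧸ V, Y^V)`, `V` in a cofinal family `ℱ` of normal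
members of the basis, satisfy `FinPDiv` and the `p`-parts of the indices `[G : V]` are unbounded,
then every element of `H²_lev(G, Y)` killed by a power of `p` is a `p`-th multiple. -/
theorem exists_nsmul_eq_Hlev2 (p : ℕ) {ℱ : Set (Subgroup G)} (hsub : ℱ ⊆ 𝒰)
    (hnormal : ∀ V ∈ ℱ, V.Normal) (hcof : ∀ U ∈ 𝒰, ∃ V ∈ ℱ, V ≤ U)
    (hfin : ∀ V (hV : V ∈ ℱ), haveI := hnormal V hV; FinPDiv (fixedRep V ρ) p)
    (hunb : ∀ n : ℕ, ∃ V ∈ ℱ, p ^ n ∣ V.index)
    (x : Hlev2 h𝒰 ρ hρ) (a : ℕ) (hx : p ^ a • x = 0) : ∃ y : Hlev2 h𝒰 ρ hρ, p • y = x := by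
  obtain ⟨z, rfl⟩ := (lvl h𝒰 ρ hρ).π2_surjective x
  rw [← map_nsmul, π2_lvl_eq_zero_iff] at hx
  obtain ⟨u, hu, hux⟩ := hx
  set φ : G × G → Y := ((z : lev₂ k h𝒰 Y) : G × G → Y) with hφdef
  have hφl : IsLevel₂ 𝒰 φ := (z : lev₂ k h𝒰 Y).2
  have hφc : dTwo ρ φ = 0 := (mem_lvl_Z2_iff h𝒰 ρ hρ _).1 z.2
  have hux' : dOne ρ u = p ^ a • φ := hux
  -- the cofinal subfamily of large index
  have hcof' : ∀ U ∈ 𝒰, ∃ V ∈ {V | V ∈ ℱ ∧ p ^ (a + 1) ∣ V.index}, V ≤ U := by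
    intro U hU
    obtain ⟨V₀, hV₀, hV₀p⟩ := hunb (a + 1)
    obtain ⟨W, hW, hWle⟩ := h𝒰.inf U hU V₀ (hsub hV₀)
    obtain ⟨V, hV, hVW⟩ := hcof W hW
    refine ⟨V, ⟨hV, dvd_trans hV₀p (Subgroup.index_dvd_of_le ?_)⟩, hVW.trans (hWle.trans inf_le_left)⟩
    exact hVW.trans (hWle.trans inf_le_right)
  obtain ⟨V, ⟨hV, hVp⟩, hφV, -, huV, -⟩ := exists_common_level h𝒰 ρ hρ hcof' hφl hφl hu hu
  have := hnormal V hV
  obtain ⟨ψb, wb, hψb, hrel⟩ := hfin V hV a (by rwa [Subgroup.index] at hVp) (desc₂ φ hφV)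
    (dTwo_desc₂ V ρ hφV hφc)
    ⟨desc₁ u huV, by
      apply infl₂_injective
      rw [infl₂_dOne, infl₁_desc₁, hux']
      funext q
      simp only [infl₂, Pi.smul_apply, Submodule.coe_smul_of_tower, desc₂]
      obtain ⟨g, g'⟩ := q
      obtain ⟨s, hs, h⟩ := out_eq_mul V g
      obtain ⟨s', hs', h'⟩ := out_eq_mul V g'
      simp only [h, h', hφV.1 g g' s s' hs hs']⟩
  -- inflate
  have hψl : IsLevel₂ 𝒰 (infl₂ ψb) := (isLevelAt₂_infl₂ ψb).isLevel₂ (hsub hV)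
  have hψc : dTwo ρ (infl₂ ψb) = 0 := by
    rw [← infl₃_dTwo, hψb]
    rfl
  refine ⟨(lvl h𝒰 ρ hρ).π2 (mkZ2 h𝒰 ρ hρ (infl₂ ψb) hψl hψc), ?_⟩
  rw [← map_nsmul, π2_lvl_eq_iff]
  refine ⟨-infl₁ wb, ?_, ?_⟩
  · obtain ⟨U, hU, h⟩ := (isLevelAt₁_infl₁ wb).isLevel₁ (hsub hV)
    exact ⟨U, hU, fun g s hs => by simp only [Pi.neg_apply, h g s hs]⟩
  · rw [map_neg, ← infl₂_dOne]
    have h1 : infl₂ (desc₂ φ hφV) = φ := infl₂_desc₂ φ hφV
    have h2 : infl₂ (desc₂ φ hφV) = p • infl₂ ψb + infl₂ (dOne (fixedRep V ρ) wb) := by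
      rw [hrel]
      funext q
      simp only [infl₂, Pi.add_apply, Pi.smul_apply, Submodule.coe_add,
        Submodule.coe_smul_of_tower]
    rw [h1] at h2
    show -infl₂ (dOne (fixedRep V ρ) wb) = p • infl₂ ψb - φ
    rw [h2]
    abel

end Exh

/-! ### PK-5 for an open subgroup -/

section OpenInt

variable {G : Type} [Group G] {C : Type} [AddCommGroup C] [Module ℤ C]
  (ρ : Representation ℤ G C) {𝒰 : Set (Subgroup G)} (h𝒰 : IsLevelBasis 𝒰) (hC : IsDiscrete 𝒰 ρ)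
  {p : ℕ} [Fact p.Prime] (hfund : FundHyp12.FundFixed ρ 𝒰 p)
  (V : Subgroup G) (hV : ∃ U ∈ 𝒰, U ≤ V)

include hfund hV in
/-- **PK-5** (`Hlev` vocabulary): the `p`-primary part of `H²_lev(V; C)` is `p`-divisible when the
`p`-parts of the indices `[V : W ∩ V]` are unbounded. -/
theorem exists_nsmul_eq_Hlev2_open
    (hunb : ∀ n : ℕ, ∃ W ∈ 𝒰, W.Normal ∧ W ≤ V ∧ p ^ n ∣ (W.subgroupOf V).index)
    (x : Hlev2 (isLevelBasis_comap h𝒰 V) (ρ.comp V.subtype) (isDiscrete_comap hC V)) (a : ℕ)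
    (hx : p ^ a • x = 0) :
    ∃ y : Hlev2 (isLevelBasis_comap h𝒰 V) (ρ.comp V.subtype) (isDiscrete_comap hC V),
      p • y = x := by
  refine exists_nsmul_eq_Hlev2 (isLevelBasis_comap h𝒰 V) (ρ.comp V.subtype) (isDiscrete_comap hC V)
    p (famV_sub 𝒰 V) (famV_normal 𝒰 V) (famV_cofinal h𝒰 hV) (fun W' hW' => ?_) (fun n => ?_) x a hx
  · have := famV_normal 𝒰 V W' hW'
    have hfi := (isLevelBasis_comap h𝒰 V).finiteIndex W' (famV_sub 𝒰 V hW')
    have : Finite (↥V ⧸ W') := Subgroup.finite_quotient_of_finiteIndex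
    obtain ⟨u, hu⟩ := fund_famV ρ hfund V W' hW'
    exact finPDiv_of_isFundClass (fixedObj W' (ρ.comp V.subtype)) u hu
  · obtain ⟨W, hW, hn, hWV, hdvd⟩ := hunb n
    exact ⟨W.subgroupOf V, ⟨W, hW, hn, hWV, rfl⟩, hdvd⟩

end OpenInt

section OpenRep

variable {G : Type} [Group G] (𝓑 : LevelCoh28.LevelBasis G) (Y : Rep.{0} ℤ G)
  (hY : LevelCoh28.IsDiscrete 𝓑.sets Y) {p : ℕ} [Fact p.Prime]
  (hfund : FundFixedRep 𝓑 Y p) (V : Subgroup G) (hV : ∃ U ∈ 𝓑.sets, U ≤ V)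

include hY hfund hV in
/-- **PK-5** (`LevelCoh28` vocabulary). -/
theorem exists_nsmul_eq_H2_open
    (hunb : ∀ n : ℕ, ∃ W ∈ 𝓑.sets, W.Normal ∧ W ≤ V ∧ p ^ n ∣ (W.subgroupOf V).index)
    (x : LevelCoh28.H2 (comapBasis V.subtype 𝓑) (Rep.res V.subtype Y)) (a : ℕ)
    (hx : p ^ a • x = 0) :
    ∃ y : LevelCoh28.H2 (comapBasis V.subtype 𝓑) (Rep.res V.subtype Y), p • y = x := by
  set e := LevelEquiv29.h2Equiv (comapBasis V.subtype 𝓑) (Rep.res V.subtype Y)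
    (isDiscrete_res 𝓑 Y hY V) with he
  have h1 : p ^ a • e x = 0 := by rw [← map_nsmul, hx, map_zero]
  obtain ⟨y', hy'⟩ := @exists_nsmul_eq_Hlev2_open G _ Y.V _ Y.hV2 Y.ρ 𝓑.sets
    (LevelEquiv29.basis 𝓑) hY p _ hfund V hV hunb (e x) a h1
  refine ⟨e.symm y', e.injective ?_⟩
  have h2 : e (p • e.symm y') = p • e (e.symm y') := map_nsmul e p _
  have h3 : e (e.symm y') = y' := e.apply_symm_apply y'
  exact h2.trans ((congrArg (fun t => p • t) h3).trans hy')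

end OpenRep

end Fermat.Agent.W56.PDiv8
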