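/-
Programme W56 (S56), chapter (EC-2) "right exactness of H²", helper2.

`LocalInputs2`: the local inputs of `GlobalCore2.core` for the local data
`(Γ_q, levelLocS q S, A'_q)`:
* `hLoc3 : HLoc3 S p` (unconditional): PK-3 (`H3Open6.triv3P_of_fundFixed`) at
  `LocalDatum2.fundFixedRep_AQ`;
* `hLoc2_of_unbounded : Unbounded S p → HLoc2 S p`: PK-5 (`PDiv8.exists_nsmul_eq_H2_open`) +
  `Cofinal2.pDivH2_of_pPrimary`, where `Unbounded S p` is the statement that the `p`-parts of the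
  local degrees of `ℚ_S` are unbounded over every finite layer.
-/
import Mathlib
import Fermat.Agent.W56.GlobalCore2
import Fermat.Agent.W56.H3Open6
import Fermat.Agent.W56.PDiv8

set_option autoImplicit false
set_option linter.unusedSectionVars false

open CategoryTheory groupCohomology

namespace Fermat.Agent.W56.LocalInputs2

open Fermat.Agent.PT.PRO Fermat.Agent.PT.GLUE
open Fermat.Agent.PT.PRO.LevelCoh28
open Fermat.Agent.PT.GLUE.Objects21 Fermat.Agent.PT.BR.InfLocal13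
open Fermat.Agent.W56.Coh3Lev2 Fermat.Agent.W56.Decomp2 Fermat.Agent.W56.Cofinal2
  Fermat.Agent.W56.LocalDatum2 Fermat.Agent.W56.GlobalCore2

variable (S : Finset Nat.Primes) (p : ℕ) [hp : Fact p.Prime]

/-- **(I1)**: `H³(H', A'_q)(p) = 0` for all open `H' ≤ Γ_q`. -/
theorem hLoc3 : HLoc3 S p := fun q H' hH' =>
  H3Open6.triv3P_of_fundFixed (levelLocS ((q : Nat.Primes) : ℕ) S)
    (AQ S ((q : Nat.Primes) : ℕ)) (isDiscrete_AQ S ((q : Nat.Primes) : ℕ)) p
    (fundFixedRep_AQ S ((q : Nat.Primes) : ℕ) p) H' hH'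

/-- The `p`-parts of the local degrees of the `S`-levels are unbounded over every open subgroup. -/
def Unbounded : Prop :=
  ∀ (q : ↥S) (H' : Subgroup (PadicAlgCl ((q : Nat.Primes) : ℕ) ≃ₐ[ℚ_[((q : Nat.Primes) : ℕ)]]
      PadicAlgCl ((q : Nat.Primes) : ℕ))),
    (∃ U ∈ (levelLocS ((q : Nat.Primes) : ℕ) S).sets, U ≤ H') → ∀ n : ℕ,
    ∃ W ∈ (levelLocS ((q : Nat.Primes) : ℕ) S).sets, W.Normal ∧ W ≤ H' ∧
      p ^ n ∣ (W.subgroupOf H').index

/-- **(I2)** from the unboundedness of the local degrees. -/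
theorem hLoc2_of_unbounded (hunb : Unbounded S p) : HLoc2 S p := fun q H' hH' =>
  pDivH2_of_pPrimary p hp.out fun x a hx =>
    PDiv8.exists_nsmul_eq_H2_open (levelLocS ((q : Nat.Primes) : ℕ) S)
      (AQ S ((q : Nat.Primes) : ℕ)) (isDiscrete_AQ S ((q : Nat.Primes) : ℕ))
      (fundFixedRep_AQ S ((q : Nat.Primes) : ℕ) p) H' hH' (hunb q H' hH') x a hx

end Fermat.Agent.W56.LocalInputs2
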