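/-
Programme W56 (S56), chapter (EC-2) "right exactness of H²", helper2.

`RightExactCond2`: `EulerSkel4.RightExactH2` from the three remaining inputs of
`GlobalCore2.core` (`HLoc3`, `HLoc2`, `HNV`): dévissage (`Devissage2.surjective_mapH2_of_core`)
for `χ = cycloChar p : Γ → (ℤ/p)ˣ`.
-/
import Mathlib
import Fermat.Agent.W56.GlobalCore2
import Fermat.Agent.W56.EulerSkel4
import Fermat.Agent.PT.GLUE.BasisCompare13

set_option autoImplicit false
set_option linter.unusedSectionVars false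

open CategoryTheory groupCohomology

namespace Fermat.Agent.W56.RightExactCond2

open Fermat.Agent.PT.PRO Fermat.Agent.PT.GLUE
open Fermat.Agent.PT.PRO.LevelCoh28
open Fermat.Agent.PT.GLUE.Objects21
open Fermat.Agent.W56.GlobalCore2
open ExtCitation

local notation "Γ" => (AlgebraicClosure ℚ ≃ₐ[ℚ] AlgebraicClosure ℚ)

variable (p : ℕ) [hp : Fact p.Prime] (S : Finset Nat.Primes)

/-- `(ℤ/p)ˣ` has order prime to `p`. -/
theorem coprime_card_units : (Nat.card (ZMod p)ˣ).Coprime p := by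
  rw [Nat.card_eq_fintype_card, ZMod.card_units_eq_totient, Nat.totient_prime hp.out]
  have h1 : 1 ≤ p := hp.out.one_lt.le
  refine ((Nat.Prime.coprime_iff_not_dvd hp.out).2 fun h => ?_).symm
  have h2 : 0 < p - 1 := Nat.sub_pos_of_lt hp.out.one_lt
  have := Nat.le_of_dvd h2 h
  omega

/-- The kernel of the mod `p` cyclotomic character is open in `G_S` (`p ∈ S`). -/
theorem exists_le_ker_cycloChar (hpS : pPrime p ∈ S) :
    ∃ U ∈ (levelS S).sets, U ≤ (cycloChar p).ker := by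
  obtain ⟨U, hU, h⟩ := isDiscrete_ES S ((KerIsoGal7.muES p S hpS).j 1)
  refine ⟨U, hU, fun u hu => ?_⟩
  rw [MonoidHom.mem_ker]
  have h1 := (KerIsoGal7.muES p S hpS).equiv u 1
  rw [h u hu, mul_one] at h1
  have h2 := (KerIsoGal7.muES p S hpS).inj h1
  exact Units.ext h2.symm

/-- **(EC-2) from the three inputs.** -/
theorem rightExactH2_of_inputs
    (h3 : ∀ (p : ℕ) [Fact p.Prime], p ≠ 2 → ∀ S : Finset Nat.Primes, pPrime p ∈ S → HLoc3 S p)
    (h2 : ∀ (p : ℕ) [Fact p.Prime], p ≠ 2 → ∀ S : Finset Nat.Primes, pPrime p ∈ S → HLoc2 S p)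
    (hnv : ∀ (p : ℕ) [Fact p.Prime], p ≠ 2 → ∀ S : Finset Nat.Primes, pPrime p ∈ S → HNV S p) :
    EulerSkel4.RightExactH2 := by
  intro p _ hp2 T hpT A B _ _ ψ hψ hsurj hA
  rw [BasisCompare13.globalBasis_eq] at hA ⊢
  exact Devissage2.surjective_mapH2_of_core (levelS T) (cycloChar p) (coprime_card_units p)
    (exists_le_ker_cycloChar p T hpT)
    (core T p hp2 hpT (h3 p hp2 T hpT) (h2 p hp2 T hpT) (hnv p hp2 T hpT)) A B ψ hψ hsurj hA

end Fermat.Agent.W56.RightExactCond2
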