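/-
Programme W56 (S56), chapter (EC-2): **`H²(G_T, ·)` is right exact on finite discrete
`𝔽_p[G_T]`-modules** (`p` odd, `p ∈ T`), UNCONDITIONAL (helper2).

`rightExactH2 : EulerSkel4.RightExactH2`, i.e. `cd_p G_T ≤ 2` in the form used by the Euler
characteristic formula.  Assembly of
* the dévissage `Devissage2` (reduction to `H³(V, 𝔽_p) = 0`, `V ≤ ker ω` open of index prime to
  `p`), the chase `CoreChase2` / `GlobalCore2` over `0 → μ_p → E_S → E_S → 0`,
  `0 → E_S → I_S → C_S → 0` and `RightExactCond2`;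
* the class formation package over open subgroups: PK-1, PK-2, PK-5 (helper8: `LevExh8`, `PDiv8`),
  PK-3 (helper6: `H3Open6`), PK-7 (helper8/helper1: `CardPTor8`, `BrLoc1`);
* the local degrees of `ℚ(ζ_{p^m})` (helper1: `CycloLocDeg1`);
* the local–global principle `LocalGlobalInst27.hLG_inclq` (`GlobalNV2`).
-/
import Mathlib
import Fermat.Agent.W56.RightExactCond2
import Fermat.Agent.W56.LocalInputs2
import Fermat.Agent.W56.GlobalNV2
import Fermat.Agent.W56.BrLoc1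

set_option autoImplicit false
set_option linter.unusedSectionVars false

open CategoryTheory groupCohomology

namespace Fermat.Agent.W56.RightExact2

open Fermat.Agent.PT.PRO Fermat.Agent.PT.GLUE
open Fermat.Agent.PT.PRO.LevelCoh28 Fermat.Agent.PT.PRO.LevelCohRes28
open Fermat.Agent.PT.GLUE.Objects21
open Fermat.Agent.W56.LocalDatum2 Fermat.Agent.W56.GlobalCore2 Fermat.Agent.W56.LocalInputs2
  Fermat.Agent.W56.GlobalNV2 Fermat.Agent.W56.ResInj2
open ExtCitation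

/-! ### Cochains of `⊤ ≤ G` and of `G` -/

section Top

variable {k G : Type} [CommRing k] [Group G] (𝓑 : LevelBasis G) (Y : Rep.{0} k G)

/-- `G → ↥⊤`. -/
def toTop : G →* ↥(⊤ : Subgroup G) where
  toFun g := ⟨g, Subgroup.mem_top g⟩
  map_one' := rfl
  map_mul' _ _ := rfl

theorem isLevelHom_toTop :
    IsLevelHom (toTop (G := G)) 𝓑.sets (comapBasis (⊤ : Subgroup G).subtype 𝓑).sets := by
  rintro _ ⟨U, hU, rfl⟩
  exact ⟨U, hU, fun g hg => hg⟩

/-- A non-split class of `(⊤, Y|_⊤)` gives a non-split class of `(G, Y)`. -/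
theorem exists_Z2_not_B2_of_top (p : ℕ)
    (h : ∃ c ∈ Z2 (comapBasis (⊤ : Subgroup G).subtype 𝓑) (Rep.res (⊤ : Subgroup G).subtype Y),
      p • c ∈ B2 (comapBasis (⊤ : Subgroup G).subtype 𝓑) (Rep.res (⊤ : Subgroup G).subtype Y) ∧
      c ∉ B2 (comapBasis (⊤ : Subgroup G).subtype 𝓑) (Rep.res (⊤ : Subgroup G).subtype Y)) :
    ∃ c ∈ Z2 𝓑 Y, p • c ∈ B2 𝓑 Y ∧ c ∉ B2 𝓑 Y := by
  obtain ⟨c, hcZ, hpc, hcB⟩ := h
  have hφ : ∀ (g : G) (a : (Rep.res (⊤ : Subgroup G).subtype Y)),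
      (LinearMap.id : Y →ₗ[k] Y) ((Rep.res (⊤ : Subgroup G).subtype Y).ρ (toTop g) a) =
        Y.ρ g ((LinearMap.id : Y →ₗ[k] Y) a) := fun _ _ => rfl
  refine ⟨pp₂ (toTop (G := G)) (A := Rep.res (⊤ : Subgroup G).subtype Y) (B := Y)
      (LinearMap.id : Y →ₗ[k] Y) c,
    pp₂_mem_Z2 (toTop (G := G)) _ hφ (isLevelHom_toTop 𝓑) hcZ, ?_, fun hmem => hcB ?_⟩
  · have := pp₂_mem_B2 (toTop (G := G)) (A := Rep.res (⊤ : Subgroup G).subtype Y) (B := Y)
      (LinearMap.id : Y →ₗ[k] Y) hφ (isLevelHom_toTop 𝓑) hpc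
    rwa [map_nsmul] at this
  · have h1 := res₂_mem_B2 𝓑 (⊤ : Subgroup G) hmem
    have e : res₂ Y (⊤ : Subgroup G) (pp₂ (toTop (G := G))
        (A := Rep.res (⊤ : Subgroup G).subtype Y) (B := Y) (LinearMap.id : Y →ₗ[k] Y) c) = c := by
      funext ⟨v, w⟩
      rfl
    rwa [e] at h1

end Top

/-! ### The inputs -/

section Inputs

variable (S : Finset Nat.Primes) (p : ℕ) [hp : Fact p.Prime] (hpS : pPrime p ∈ S)

include hpS in
/-- (R4b), helper1's `CycloLocDeg1.hunb_levelLocS`. -/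
theorem unbounded : Unbounded S p := fun q H' hH' n =>
  CycloLocDeg1.hunb_levelLocS ((q : Nat.Primes) : ℕ) p S hpS H' hH' n

include hpS in
/-- A non-zero class of `H²(Γ_p, A'_p)[p]`. -/
theorem hLocNV : HLocNV S p := by
  obtain ⟨U, hU⟩ := (levelLocS (pPrime p : ℕ) S).isBasis.nonempty
  have hV : ∃ U ∈ (levelLocS (pPrime p : ℕ) S).sets, U ≤ (⊤ : Subgroup _) := ⟨U, hU, le_top⟩
  exact ⟨⟨pPrime p, hpS⟩, exists_Z2_not_B2_of_top (levelLocS (pPrime p : ℕ) S)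
    (AQ S (pPrime p : ℕ)) p
    (BrLoc1.exists_Z2_not_B2 (levelLocS (pPrime p : ℕ) S) (AQ S (pPrime p : ℕ))
      (isDiscrete_AQ S (pPrime p : ℕ)) (fundFixedRep_AQ S (pPrime p : ℕ) p) ⊤ hV
      (CycloLocDeg1.hdiv_levelLocS (pPrime p : ℕ) p S hpS ⊤ hV))⟩

end Inputs

/-- **(EC-2)**: `H²(G_T, ·)` is right exact on finite discrete `𝔽_p[G_T]`-modules
(`p` odd, `p ∈ T`). -/
theorem rightExactH2 : EulerSkel4.RightExactH2 :=
  RightExactCond2.rightExactH2_of_inputs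
    (fun p _ _ S _ => hLoc3 S p)
    (fun p _ _ S hpS => hLoc2_of_unbounded S p (unbounded S p hpS))
    (fun p _ hp2 S hpS => hNV_of_local S p hp2 hpS (hLocNV S p hpS))

end Fermat.Agent.W56.RightExact2
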