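/-
Programme W56 (target S56), chapter (H) "assembly", helper9: **S56 from the TWO remaining named
inputs.**

* `LecUData7.UnitsBound` — the count of the units of `K_U` modulo `p`-th powers as a
  `Γ_p/U`-module (chapter (D4), helper7's `LecUnits7`);
* `EulerSkel4.BaseCase` — the base case `M = μ_p`-twist of Tate's global Euler characteristic
  formula (chapter (EC-5), helper4's `BaseCase4`).

Everything else is discharged by landed theorems:
* contract (1) `SelBound9.LecPAd0` = `LecKumAdapt5.lecPAd0 hUB LecInst9.ufieldKU`;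
* contract (2) `EulerDefs4.EulerCharBoundAd0` =
  `EulerFinal4.eulerCharBoundAd0_of_RE_Fin_Base RightExact2.rightExactH2 FinH2g4.finiteH2p hBase`;
* contract (3) `AssemblyFlat9.LpFlatBound` = `FlatKF3.exists_LpFlat`.
-/
import Mathlib
import Fermat.Agent.W56.Final9
import Fermat.Agent.W56.LecKumAdapt5
import Fermat.Agent.W56.LecInst9
import Fermat.Agent.W56.EulerFinal4
import Fermat.Agent.W56.RightExact2
import Fermat.Agent.W56.FinH2g4
import Fermat.Agent.W56.FlatKF3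

set_option autoImplicit false

open Polynomial IsLocalRing

namespace Fermat.Agent.W56.FinalTwo9

/-- Contract (1), from the units bound alone. -/
theorem lecPAd0_of_unitsBound (hUB : LecUData7.UnitsBound) : SelBound9.LecPAd0 :=
  LecKumAdapt5.lecPAd0 hUB LecInst9.ufieldKU

/-- Contract (2), from the base case alone. -/
theorem eulerCharBoundAd0_of_baseCase (hBase : EulerSkel4.BaseCase) :
    EulerDefs4.EulerCharBoundAd0 :=
  EulerFinal4.eulerCharBoundAd0_of_RE_Fin_Base RightExact2.rightExactH2 FinH2g4.finiteH2p hBase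

/-- Contract (3) is a theorem. -/
theorem lpFlatBound : AssemblyFlat9.LpFlatBound :=
  fun _k _ _ p _ _ hp2 ρbar hdet hsplit => FlatKF3.exists_LpFlat p hp2 ρbar hdet hsplit

variable {𝒪 : Type} [CommRing 𝒪] [IsDomain 𝒪] [IsDiscreteValuationRing 𝒪]
  [IsAdicComplete (maximalIdeal 𝒪) 𝒪] [Finite (ResidueField 𝒪)]

/-- **S56 from the units bound (chapter (D4)) and the base case (chapter (EC-5)).** -/
theorem s56_of_unitsBound_baseCase (hUB : LecUData7.UnitsBound) (hBase : EulerSkel4.BaseCase)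
    (p : ℕ) [Fact p.Prime] (hp2 : p ≠ 2) (hp𝒪 : (p : 𝒪) ∈ maximalIdeal 𝒪)
    (ρbar : ResidualGaloisRep (ResidueField 𝒪))
    (habs : ρbar.IsAbsolutelyIrreducible)
    (hdet : (GaloisRepAdic.ofResidualGaloisRep ρbar).DetIsCyclotomic p)
    (hsplit : ∀ σ : AlgebraicClosure ℚ ≃ₐ[ℚ] AlgebraicClosure ℚ,
      ∃ α β : ResidueField 𝒪, LinearMap.charpoly (ρbar.ρ σ) = (X - C α) * (X - C β))
    (hTW : ∀ (K : Type) [Field K] [Algebra (ResidueField 𝒪) K]
      (G : Subgroup (AlgebraicClosure ℚ ≃ₐ[ℚ] AlgebraicClosure ℚ)), G.index = 2 →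
      ∀ V : Submodule K (ρbar.baseChange K).V,
        (∀ σ ∈ G, ∀ x ∈ V, (ρbar.baseChange K).ρ σ x ∈ V) → V = ⊥ ∨ V = ⊤)
    (S Smin : Finset ℕ) (hpSmin : p ∈ Smin) (hSmin : Smin ⊆ S) (hS : ∀ q ∈ S, q.Prime)
    (hmin : ∀ q : ℕ, q.Prime → q ≠ p → (q ∈ Smin ↔ ¬ ρbar.IsUnramifiedAt q)) :
    (∃ r : ℕ, ∀ n : ℕ, ∃ qv : Fin r → ℕ, Function.Injective qv ∧
      (∀ i, (qv i).Prime ∧ qv i ∉ S ∧ p ^ (n + 1) ∣ qv i - 1) ∧
      (∀ i, ∀ P : ValuationSubring (AlgebraicClosure ℚ), P.LiesOverPrime (qv i) →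
        ∀ φ : AlgebraicClosure ℚ ≃ₐ[ℚ] AlgebraicClosure ℚ, P.IsFrobeniusAt φ (qv i) →
          ∃ α β : ResidueField 𝒪, α ≠ β ∧ LinearMap.charpoly (ρbar.ρ φ) = (X - C α) * (X - C β)) ∧
      ∀ DQ : GaloisRep.DeformationRingData 𝒪 ρbar (fun _A _ _ _ ρ =>
          GaloisRep.strictOrdinaryCondition 𝒪 p (Smin ∪ Finset.univ.image qv) ρ ∧
            ∀ q ∈ Smin, q.Prime → q ≠ p → ρ.IsUnipotentOnInertiaAt q),
        ∃ γ : MvPowerSeries (Fin r) 𝒪 →ₐ[𝒪] DQ.R, Function.Surjective γ) ∧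
    (∃ r : ℕ, ∀ n : ℕ, ∃ qv : Fin r → ℕ, Function.Injective qv ∧
      (∀ i, (qv i).Prime ∧ qv i ∉ S ∧ p ^ (n + 1) ∣ qv i - 1) ∧
      (∀ i, ∀ P : ValuationSubring (AlgebraicClosure ℚ), P.LiesOverPrime (qv i) →
        ∀ φ : AlgebraicClosure ℚ ≃ₐ[ℚ] AlgebraicClosure ℚ, P.IsFrobeniusAt φ (qv i) →
          ∃ α β : ResidueField 𝒪, α ≠ β ∧ LinearMap.charpoly (ρbar.ρ φ) = (X - C α) * (X - C β)) ∧
      ∀ DQ : GaloisRep.DeformationRingData 𝒪 ρbar (fun _A _ _ _ ρ =>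
          GaloisRep.flatCondition 𝒪 p (Smin ∪ Finset.univ.image qv) ρ ∧
            ∀ q ∈ Smin, q.Prime → q ≠ p → ρ.IsUnipotentOnInertiaAt q),
        ∃ γ : MvPowerSeries (Fin r) 𝒪 →ₐ[𝒪] DQ.R, Function.Surjective γ) :=
  Final9.s56_of_three (lecPAd0_of_unitsBound hUB) (eulerCharBoundAd0_of_baseCase hBase)
    lpFlatBound p hp2 hp𝒪 ρbar habs hdet hsplit hTW S Smin hpSmin hSmin hS hmin

end Fermat.Agent.W56.FinalTwo9
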