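/-
Programme W56 (target S56), item (D4) = LEC-p (helper7): **the twisted residue representations and
their count** (Mathlib only).

`κ` a finite field of characteristic `p`, `G` a finite group of order prime to `p` acting on `κ` by
ring automorphisms, `θ : G → κ` a nowhere vanishing crossed homomorphism
(`θ (g h) = θ g · g • θ h`).  For `m : ℕ` the representation `twRep m` of `G` on the `𝔽_p`-space `κ`:
`g ⋆ a = θ g ^ m · g • a` (the graded piece `𝔪^m / 𝔪^(m+1)` of a tamely ramified local field).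

* `card_homG_twRep_mul_p` : `#Hom_G(P, κ⟨m p⟩) = #Hom_G(P, κ⟨m⟩)` (Frobenius);
* **`card_le_prod`** : if `θ` is injective on the inertia subgroup `I = ker (G → Aut κ)`, then for
  every finite `𝔽_p[G]`-module `P` and every `m₀`:
  `#P ≤ ∏_{m < #I} #Hom_G(P, κ⟨m₀ + m⟩)`
  (eigenspaces of `I` on `Hom(P, κ)` + Galois descent for the semilinear action of `G / I`);
* `eq_zero_of_artinSchreier` : `t ^ p - t = n ∈ 𝔽_p`, `κ^G = 𝔽_p` ⟹ `n = 0`.
-/
import Mathlib
import Fermat.Agent.W56.LecStep7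

set_option autoImplicit false
set_option linter.unusedSectionVars false
set_option linter.style.haveILetI false

namespace Fermat.Agent.W56.LecDescent7

open Finset Module Fermat.Agent.W56.LecStep7

variable {p : ℕ} [hp : Fact p.Prime] {κ : Type*} [Field κ] [Algebra (ZMod p) κ]
  {G : Type*} [Group G] [MulSemiringAction G κ]

theorem smul_algebraMap (g : G) (c : ZMod p) :
    g • algebraMap (ZMod p) κ c = algebraMap (ZMod p) κ c := by
  have h := RingHom.congr_fun (Subsingleton.elim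
    ((MulSemiringAction.toRingHom G κ g).comp (algebraMap (ZMod p) κ)) (algebraMap (ZMod p) κ)) c
  exact h

/-- the action of `g` on `κ` as an `𝔽_p`-linear map. -/
def actLin (g : G) : κ →ₗ[ZMod p] κ where
  toFun a := g • a
  map_add' a b := smul_add g a b
  map_smul' c a := by
    rw [RingHom.id_apply, Algebra.smul_def, Algebra.smul_def, smul_mul', smul_algebraMap]

@[simp] theorem actLin_apply (g : G) (a : κ) : actLin (p := p) g a = g • a := rfl

variable (θ : G → κ) (hθ0 : ∀ g, θ g ≠ 0) (hθ : ∀ g h, θ (g * h) = θ g * g • θ h)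

include hθ0 hθ in
theorem theta_one : θ 1 = 1 := by
  have h := hθ 1 1
  rw [mul_one, one_smul] at h
  have h0 := hθ0 1
  field_simp at h
  exact h.symm ▸ rfl

/-! ### the twisted representations -/

/-- `a ↦ θ g ^ m * g • a` as an `𝔽_p`-linear map. -/
def twLin (m : ℕ) (g : G) : κ →ₗ[ZMod p] κ where
  toFun a := θ g ^ m * g • a
  map_add' a b := by rw [smul_add, mul_add]
  map_smul' c a := by
    rw [RingHom.id_apply, Algebra.smul_def, Algebra.smul_def, smul_mul', smul_algebraMap]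
    ring

/-- the representation `κ⟨m⟩`. -/
def twRep (m : ℕ) : Representation (ZMod p) G κ where
  toFun g := twLin θ m g
  map_one' := by
    ext a
    show θ 1 ^ m * (1 : G) • a = a
    rw [theta_one θ hθ0 hθ, one_pow, one_mul, one_smul]
  map_mul' g h := by
    ext a
    show θ (g * h) ^ m * (g * h) • a = θ g ^ m * g • (θ h ^ m * h • a)
    rw [hθ, mul_pow, smul_mul', smul_pow', mul_smul]
    ring

theorem twRep_apply (m : ℕ) (g : G) (a : κ) :
    twRep (p := p) θ hθ0 hθ m g a = θ g ^ m * g • a := rfl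

section Frob

variable [Finite κ]

theorem charP_kappa : CharP κ p :=
  charP_of_injective_algebraMap (algebraMap (ZMod p) κ).injective p

/-- the Frobenius of `κ` as an `𝔽_p`-linear equivalence. -/
noncomputable def frobLin : κ ≃ₗ[ZMod p] κ := by
  haveI : CharP κ p := charP_kappa
  refine LinearEquiv.ofBijective
    { toFun := fun a => a ^ p
      map_add' := fun a b => add_pow_char a b p
      map_smul' := fun c a => ?_ } ?_
  · rw [RingHom.id_apply, Algebra.smul_def, Algebra.smul_def, mul_pow, ← map_pow, ZMod.pow_card]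
  · have hinj : Function.Injective (fun a : κ => a ^ p) := frobenius_inj κ p
    exact ⟨hinj, Finite.surjective_of_injective hinj⟩

theorem frobLin_apply (a : κ) : frobLin (p := p) a = a ^ p := rfl

/-- `κ⟨m⟩ ≅ κ⟨m p⟩` by the Frobenius. -/
theorem card_homG_twRep_mul_p {P : Type*} [AddCommGroup P] [Module (ZMod p) P]
    (ρP : Representation (ZMod p) G P) (m : ℕ) :
    Nat.card ↥(HomG ρP (twRep θ hθ0 hθ m)) = Nat.card ↥(HomG ρP (twRep θ hθ0 hθ (m * p))) := by
  refine card_homG_congr (frobLin (p := p)) fun g a => ?_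
  rw [frobLin_apply, frobLin_apply, twRep_apply, twRep_apply, mul_pow, ← pow_mul, smul_pow']

theorem card_homG_twRep_mul_pow {P : Type*} [AddCommGroup P] [Module (ZMod p) P]
    (ρP : Representation (ZMod p) G P) (m a : ℕ) :
    Nat.card ↥(HomG ρP (twRep θ hθ0 hθ m)) =
      Nat.card ↥(HomG ρP (twRep θ hθ0 hθ (m * p ^ a))) := by
  induction a with
  | zero => rw [pow_zero, mul_one]
  | succ a ih => rw [ih, card_homG_twRep_mul_p θ hθ0 hθ ρP, pow_succ, mul_assoc]

end Frob

/-! ### Dedekind: a separating family of coefficients -/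

section Dedekind

variable [Finite G] [Fintype κ]

omit [Algebra (ZMod p) κ] hp in
open scoped Classical in
/-- there are coefficients `d a` with `∑_a d a · g • a = [g acts trivially on κ]`. -/
theorem exists_coeff : ∃ d : κ → κ, ∀ g : G,
    ∑ a : κ, d a * g • a = if (∀ a : κ, g • a = a) then 1 else 0 := by
  classical
  let act : G → (κ →* κ) := fun g => ((MulSemiringAction.toRingHom G κ g : κ →+* κ) : κ →* κ)
  have hact : ∀ g a, act g a = g • a := fun g a => rfl
  let S : Set (κ →* κ) := Set.range act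
  haveI : Finite ↥S := Set.finite_range act
  letI : Fintype ↥S := Fintype.ofFinite _
  let v : κ → (↥S → κ) := fun a φ => φ.1 a
  have hli : LinearIndependent κ (fun φ : ↥S => ((φ.1 : κ →* κ) : κ → κ)) :=
    (linearIndependent_monoidHom κ κ).comp Subtype.val Subtype.val_injective
  have htop : Submodule.span κ (Set.range v) = ⊤ := by
    by_contra hne
    obtain ⟨lam, hlam0, hle⟩ := Submodule.exists_le_ker_of_lt_top _ (lt_top_iff_ne_top.2 hne)
    apply hlam0
    have hc : ∀ φ : ↥S, lam (fun ψ => if φ = ψ then 1 else 0) = 0 := by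
      have hsum : ∑ φ : ↥S, lam (fun ψ => if φ = ψ then 1 else 0) • ((φ.1 : κ →* κ) : κ → κ) = 0 := by
        funext a
        have h1 : lam (v a) = 0 := hle (Submodule.subset_span ⟨a, rfl⟩)
        rw [LinearMap.pi_apply_eq_sum_univ lam (v a)] at h1
        rw [Finset.sum_apply, Pi.zero_apply]
        refine Eq.trans (Finset.sum_congr rfl fun φ _ => ?_) h1
        rw [Pi.smul_apply, smul_eq_mul, smul_eq_mul, mul_comm]
      exact (Fintype.linearIndependent_iff.1 hli) _ hsum
    refine LinearMap.ext fun u => ?_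
    rw [LinearMap.pi_apply_eq_sum_univ lam u, LinearMap.zero_apply]
    exact Finset.sum_eq_zero fun φ _ => by rw [hc φ, smul_zero]
  let φ1 : ↥S := ⟨act 1, ⟨1, rfl⟩⟩
  have hmem : (fun ψ : ↥S => if φ1 = ψ then (1 : κ) else 0) ∈ Submodule.span κ (Set.range v) := by
    rw [htop]
    exact Submodule.mem_top
  obtain ⟨d, hd⟩ := (Submodule.mem_span_range_iff_exists_fun κ).1 hmem
  refine ⟨d, fun g => ?_⟩
  have h2 := congrFun hd ⟨act g, ⟨g, rfl⟩⟩
  rw [Finset.sum_apply] at h2
  have h3 : ∑ a : κ, d a * g • a = ∑ a : κ, (d a • v a) ⟨act g, ⟨g, rfl⟩⟩ :=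
    Finset.sum_congr rfl fun a _ => rfl
  rw [h3, h2]
  have hiff : (φ1 = ⟨act g, ⟨g, rfl⟩⟩) ↔ ∀ a : κ, g • a = a := by
    constructor
    · intro h a
      have h4 : act 1 = act g := congrArg Subtype.val h
      have h5 := DFunLike.congr_fun h4 a
      rw [hact, hact, one_smul] at h5
      exact h5.symm
    · intro h
      apply Subtype.ext
      apply MonoidHom.ext
      intro a
      show act 1 a = act g a
      rw [hact, hact, one_smul, h a]
  by_cases hg : ∀ a : κ, g • a = a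
  · rw [if_pos hg, if_pos (hiff.2 hg)]
  · rw [if_neg hg, if_neg (fun h => hg (hiff.1 h))]

end Dedekind

/-! ### the count -/

section Count

/-- the inertia subgroup: the kernel of the action on `κ`. -/
def inertia (G κ : Type*) [Group G] [Field κ] [MulSemiringAction G κ] : Subgroup G where
  carrier := {g | ∀ a : κ, g • a = a}
  mul_mem' := fun {g h} hg hh a => by rw [mul_smul, hh, hg]
  one_mem' := fun a => one_smul _ _
  inv_mem' := fun {g} hg a => by rw [inv_smul_eq_iff, hg]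

omit [Algebra (ZMod p) κ] hp in
theorem mem_inertia {g : G} : g ∈ inertia G κ ↔ ∀ a : κ, g • a = a := Iff.rfl

variable {P : Type*} [AddCommGroup P] [Module (ZMod p) P] (ρP : Representation (ZMod p) G P)

/-- the (semilinear) action of `G` on `Hom(P, κ)` whose fixed points are `Hom_G(P, κ⟨m⟩)`. -/
abbrev RR (m : ℕ) : Representation (ZMod p) G (P →ₗ[ZMod p] κ) :=
  Representation.linHom ρP (twRep θ hθ0 hθ m)

theorem RR_apply (m : ℕ) (g : G) (f : P →ₗ[ZMod p] κ) (x : P) :
    RR θ hθ0 hθ ρP m g f x = θ g ^ m * g • f (ρP g⁻¹ x) := by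
  rw [RR, Representation.linHom_apply]
  rfl

theorem mem_HomG_iff_fixed (m : ℕ) (f : P →ₗ[ZMod p] κ) :
    f ∈ HomG ρP (twRep θ hθ0 hθ m) ↔ ∀ g, RR θ hθ0 hθ ρP m g f = f := by
  rw [mem_HomG]
  constructor
  · intro h g
    ext x
    rw [RR_apply, ← twRep_apply (p := p) θ hθ0 hθ, ← h, ← Module.End.mul_apply, ← map_mul, mul_inv_cancel,
      map_one, Module.End.one_apply]
  · intro h g x
    have h1 := LinearMap.congr_fun (h g) (ρP g x)
    rw [RR_apply, ← Module.End.mul_apply, ← map_mul, inv_mul_cancel, map_one,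
      Module.End.one_apply] at h1
    rw [← h1, twRep_apply]

theorem RR_smul (m : ℕ) (g : G) (c : κ) (f : P →ₗ[ZMod p] κ) :
    RR θ hθ0 hθ ρP m g (c • f) = (g • c) • RR θ hθ0 hθ ρP m g f := by
  ext x
  rw [RR_apply, LinearMap.smul_apply, LinearMap.smul_apply, RR_apply, smul_eq_mul, smul_eq_mul,
    smul_mul']
  ring

/-- the fixed points of the inertia subgroup: a `κ`-subspace. -/
def WI (m : ℕ) : Submodule κ (P →ₗ[ZMod p] κ) where
  carrier := {f | ∀ g ∈ inertia G κ, RR θ hθ0 hθ ρP m g f = f}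
  add_mem' := fun {f f'} hf hf' g hg => by rw [map_add, hf g hg, hf' g hg]
  zero_mem' := fun g _ => map_zero _
  smul_mem' := fun c f hf g hg => by rw [RR_smul, hf g hg, hg c]

theorem mem_WI {m : ℕ} {f : P →ₗ[ZMod p] κ} :
    f ∈ WI θ hθ0 hθ ρP m ↔ ∀ g ∈ inertia G κ, RR θ hθ0 hθ ρP m g f = f := Iff.rfl

theorem HomG_le_WI (m : ℕ) {f : P →ₗ[ZMod p] κ} (hf : f ∈ HomG ρP (twRep θ hθ0 hθ m)) :
    f ∈ WI θ hθ0 hθ ρP m := fun g _ => (mem_HomG_iff_fixed θ hθ0 hθ ρP m f).1 hf g

end Count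

/-! ### eigenspaces of the inertia subgroup -/

section Eigen

variable {P : Type*} [AddCommGroup P] [Module (ZMod p) P] (ρP : Representation (ZMod p) G P)

include hθ in
omit [Algebra (ZMod p) κ] hp in
theorem theta_mul_of_mem {g : G} (hg : g ∈ inertia G κ) (h : G) : θ (g * h) = θ g * θ h := by
  rw [hθ, hg]

include hθ0 hθ in
omit [Algebra (ZMod p) κ] hp in
theorem theta_pow_of_mem {g : G} (hg : g ∈ inertia G κ) (n : ℕ) : θ (g ^ n) = θ g ^ n := by
  induction n with
  | zero => rw [pow_zero, pow_zero, theta_one θ hθ0 hθ]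
  | succ n ih => rw [pow_succ', theta_mul_of_mem θ hθ hg, ih, pow_succ']

include hθ0 hθ in
omit [Algebra (ZMod p) κ] hp in
theorem theta_pow_card [Finite G] {g : G} (hg : g ∈ inertia G κ) :
    θ g ^ Nat.card ↥(inertia G κ) = 1 := by
  rw [← theta_pow_of_mem θ hθ0 hθ hg]
  have h1 : (⟨g, hg⟩ : ↥(inertia G κ)) ^ Nat.card ↥(inertia G κ) = 1 := pow_card_eq_one'
  have h2 : g ^ Nat.card ↥(inertia G κ) = 1 := by
    have := congrArg (Subtype.val : ↥(inertia G κ) → G) h1
    rwa [Subgroup.coe_pow, Subgroup.coe_one] at this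
  rw [h2, theta_one θ hθ0 hθ]

theorem RR_apply_of_mem (m : ℕ) {g : G} (hg : g ∈ inertia G κ) (f : P →ₗ[ZMod p] κ) (x : P) :
    RR θ hθ0 hθ ρP m g f x = θ g ^ m * f (ρP g⁻¹ x) := by
  rw [RR_apply, hg]

variable [Fintype G] (hG : (Fintype.card G).Coprime p)
  (hinj : ∀ g ∈ inertia G κ, θ g = 1 → g = 1)

include hG in
theorem card_inertia_ne_zero [Finite κ] : ((Nat.card ↥(inertia G κ) : ℕ) : κ) ≠ 0 := by
  haveI : CharP κ p := charP_kappa
  rw [Ne, CharP.cast_eq_zero_iff κ p]
  intro h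
  have h1 : Nat.card ↥(inertia G κ) ∣ Fintype.card G := by
    rw [← Nat.card_eq_fintype_card]
    exact Subgroup.card_subgroup_dvd_card _
  have hp' : p.Prime := hp.out
  exact hp'.one_lt.ne' (Nat.Coprime.eq_one_of_dvd hG.symm (h.trans h1))

include hθ0 hθ hinj in
omit [Algebra (ZMod p) κ] hp in
open scoped Classical in
theorem sum_theta_pow [Finite G] (m₀ : ℕ) {g : G} (hg : g ∈ inertia G κ) :
    ∑ m ∈ range (Nat.card ↥(inertia G κ)), θ g ^ (m₀ + m) =
      if g = 1 then ((Nat.card ↥(inertia G κ) : ℕ) : κ) else 0 := by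
  by_cases h1 : g = 1
  · rw [if_pos h1, h1, theta_one θ hθ0 hθ]
    simp
  · rw [if_neg h1]
    have hne : θ g - 1 ≠ 0 := sub_ne_zero.2 fun h => h1 (hinj g hg h)
    have h2 : (∑ m ∈ range (Nat.card ↥(inertia G κ)), θ g ^ m) * (θ g - 1) = 0 := by
      rw [geom_sum_mul, theta_pow_card θ hθ0 hθ hg, sub_self]
    have h3 : ∑ m ∈ range (Nat.card ↥(inertia G κ)), θ g ^ m = 0 :=
      (mul_eq_zero.1 h2).resolve_right hne
    have h4 : ∑ m ∈ range (Nat.card ↥(inertia G κ)), θ g ^ (m₀ + m) =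
        θ g ^ m₀ * ∑ m ∈ range (Nat.card ↥(inertia G κ)), θ g ^ m := by
      rw [Finset.mul_sum]
      exact Finset.sum_congr rfl fun m _ => pow_add _ _ _
    rw [h4, h3, mul_zero]

/-- the projector to the `m`-th eigenspace. -/
noncomputable def proj (m : ℕ) (f : P →ₗ[ZMod p] κ) : P →ₗ[ZMod p] κ :=
  letI : Fintype ↥(inertia G κ) := Fintype.ofFinite _
  ((Nat.card ↥(inertia G κ) : ℕ) : κ)⁻¹ • ∑ g : ↥(inertia G κ), RR θ hθ0 hθ ρP m (g : G) f

theorem proj_mem (m : ℕ) (f : P →ₗ[ZMod p] κ) : proj θ hθ0 hθ ρP m f ∈ WI θ hθ0 hθ ρP m := by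
  classical
  letI : Fintype ↥(inertia G κ) := Fintype.ofFinite _
  intro h hh
  unfold proj
  rw [RR_smul, hh, map_sum]
  congr 1
  refine Fintype.sum_equiv (Equiv.mulLeft (⟨h, hh⟩ : ↥(inertia G κ))) _ _ fun g => ?_
  rw [Equiv.coe_mulLeft, Subgroup.coe_mul, map_mul, Module.End.mul_apply]

include hG hinj in
theorem sum_proj [Fintype κ] (m₀ : ℕ) (f : P →ₗ[ZMod p] κ) :
    ∑ m ∈ range (Nat.card ↥(inertia G κ)), proj θ hθ0 hθ ρP (m₀ + m) f = f := by
  classical
  letI : Fintype ↥(inertia G κ) := Fintype.ofFinite _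
  set e' : κ := ((Nat.card ↥(inertia G κ) : ℕ) : κ) with he'
  have he0 : e' ≠ 0 := card_inertia_ne_zero hG
  ext x
  rw [LinearMap.sum_apply]
  have h1 : ∀ m, proj θ hθ0 hθ ρP (m₀ + m) f x =
      e'⁻¹ * ∑ g : ↥(inertia G κ), θ (g : G) ^ (m₀ + m) * f (ρP (g : G)⁻¹ x) := by
    intro m
    unfold proj
    rw [LinearMap.smul_apply, LinearMap.sum_apply, smul_eq_mul]
    congr 1
    exact Finset.sum_congr rfl fun g _ => RR_apply_of_mem θ hθ0 hθ ρP _ g.2 f x
  rw [Finset.sum_congr rfl fun m _ => h1 m, ← Finset.mul_sum, Finset.sum_comm]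
  have h2 : ∀ g : ↥(inertia G κ),
      ∑ m ∈ range (Nat.card ↥(inertia G κ)), θ (g : G) ^ (m₀ + m) * f (ρP (g : G)⁻¹ x) =
        if g = 1 then e' * f x else 0 := by
    intro g
    rw [← Finset.sum_mul, sum_theta_pow θ hθ0 hθ hinj m₀ g.2]
    by_cases hg : g = 1
    · have hg' : (g : G) = 1 := by rw [hg]; rfl
      rw [if_pos hg, if_pos hg', hg', inv_one, map_one, Module.End.one_apply]
    · have hg' : (g : G) ≠ 1 := fun h => hg (Subtype.ext h)
      rw [if_neg hg, if_neg hg', zero_mul]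
  rw [Finset.sum_congr rfl fun g _ => h2 g, Finset.sum_ite_eq' Finset.univ (1 : ↥(inertia G κ)),
    if_pos (Finset.mem_univ _), ← mul_assoc, inv_mul_cancel₀ he0, one_mul]

end Eigen

/-! ### Galois descent and the count -/

section Descent

variable {P : Type*} [AddCommGroup P] [Module (ZMod p) P] (ρP : Representation (ZMod p) G P)
  [Fintype G] (hG : (Fintype.card G).Coprime p)

/-- the trace `∑_g g ⋆ f`. -/
noncomputable def tr (m : ℕ) (f : P →ₗ[ZMod p] κ) : P →ₗ[ZMod p] κ :=
  ∑ g : G, RR θ hθ0 hθ ρP m g f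

theorem tr_mem (m : ℕ) (f : P →ₗ[ZMod p] κ) :
    tr θ hθ0 hθ ρP m f ∈ HomG ρP (twRep θ hθ0 hθ m) := by
  rw [mem_HomG_iff_fixed]
  intro h
  unfold tr
  rw [map_sum]
  refine Fintype.sum_equiv (Equiv.mulLeft h) _ _ fun g => ?_
  rw [Equiv.coe_mulLeft, map_mul, Module.End.mul_apply]

include hG in
open scoped Classical in
/-- every inertia-invariant `F` is a `κ`-combination of `G`-invariant elements. -/
theorem mem_span_of_mem_WI [Fintype κ] (m : ℕ) {F : P →ₗ[ZMod p] κ}
    (hF : F ∈ WI θ hθ0 hθ ρP m) :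
    F ∈ Submodule.span κ ((HomG ρP (twRep θ hθ0 hθ m) : Set (P →ₗ[ZMod p] κ))) := by
  obtain ⟨d, hd⟩ := exists_coeff (G := G) (κ := κ)
  set e' : κ := ((Nat.card ↥(inertia G κ) : ℕ) : κ) with he'
  have he0 : e' ≠ 0 := card_inertia_ne_zero hG
  have key : e' • F = ∑ a : κ, d a • tr θ hθ0 hθ ρP m (a • F) := by
    have h1 : ∀ a : κ, d a • tr θ hθ0 hθ ρP m (a • F) =
        ∑ g : G, (d a * g • a) • RR θ hθ0 hθ ρP m g F := by
      intro a
      unfold tr
      rw [Finset.smul_sum]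
      refine Finset.sum_congr rfl fun g _ => ?_
      rw [RR_smul, smul_smul]
    rw [Finset.sum_congr rfl fun a _ => h1 a, Finset.sum_comm]
    have h2 : ∀ g : G, ∑ a : κ, (d a * g • a) • RR θ hθ0 hθ ρP m g F =
        if g ∈ inertia G κ then F else 0 := by
      intro g
      rw [← Finset.sum_smul, hd g]
      by_cases hg : g ∈ inertia G κ
      · rw [if_pos hg, if_pos (mem_inertia.1 hg), one_smul, hF g hg]
      · rw [if_neg hg, if_neg (fun h => hg (mem_inertia.2 h)), zero_smul]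
    rw [Finset.sum_congr rfl fun g _ => h2 g, Finset.sum_ite, Finset.sum_const_zero, add_zero,
      Finset.sum_const, he', Nat.cast_smul_eq_nsmul]
    congr 1
    rw [Nat.card_eq_fintype_card, Fintype.card_subtype]
  have h3 : F = e'⁻¹ • ∑ a : κ, d a • tr θ hθ0 hθ ρP m (a • F) := by
    rw [← key, smul_smul, inv_mul_cancel₀ he0, one_smul]
  rw [h3]
  refine Submodule.smul_mem _ _ (Submodule.sum_mem _ fun a _ => Submodule.smul_mem _ _ ?_)
  exact Submodule.subset_span (tr_mem θ hθ0 hθ ρP m _)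

include hG in
/-- **descent**: `#(inertia invariants) ≤ #(G-invariants) ^ [κ : 𝔽_p]`. -/
theorem card_WI_le [Fintype κ] [Finite P] (m : ℕ) :
    Nat.card ↥(WI θ hθ0 hθ ρP m) ≤
      Nat.card ↥(HomG ρP (twRep θ hθ0 hθ m)) ^ Module.finrank (ZMod p) κ := by
  classical
  haveI : Finite (P →ₗ[ZMod p] κ) := Finite.of_injective _ DFunLike.coe_injective
  set H := HomG ρP (twRep θ hθ0 hθ m) with hH
  haveI : Module.Finite (ZMod p) ↥H := Module.Finite.of_finite
  haveI : Module.Finite (ZMod p) κ := Module.Finite.of_finite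
  let b := Module.finBasis (ZMod p) ↥H
  let v : Fin (Module.finrank (ZMod p) ↥H) → (P →ₗ[ZMod p] κ) := fun i => (b i : P →ₗ[ZMod p] κ)
  let Λ := Fintype.linearCombination κ v
  have hsub : ((WI θ hθ0 hθ ρP m : Submodule κ (P →ₗ[ZMod p] κ)) : Set (P →ₗ[ZMod p] κ)) ⊆
      Set.range Λ := by
    intro F hF
    have h1 := mem_span_of_mem_WI θ hθ0 hθ ρP hG m hF
    have h2 : Submodule.span κ ((H : Set (P →ₗ[ZMod p] κ))) ≤ LinearMap.range Λ := by
      rw [Submodule.span_le]
      intro h hh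
      rw [Fintype.range_linearCombination]
      have h3 : (⟨h, hh⟩ : ↥H) = ∑ i, b.repr ⟨h, hh⟩ i • b i := (b.sum_repr ⟨h, hh⟩).symm
      have h4 : h = ∑ i, b.repr ⟨h, hh⟩ i • v i := by
        have := congrArg (Subtype.val : ↥H → (P →ₗ[ZMod p] κ)) h3
        rw [Submodule.coe_sum] at this
        exact this.trans (Finset.sum_congr rfl fun i _ => rfl)
      rw [h4]
      refine Submodule.sum_mem _ fun i _ => ?_
      rw [← algebraMap_smul κ (b.repr ⟨h, hh⟩ i) (v i)]
      exact Submodule.smul_mem _ _ (Submodule.subset_span ⟨i, rfl⟩)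
    exact h2 h1
  have hc1 : Nat.card ↥(WI θ hθ0 hθ ρP m) ≤ Nat.card ↥(Set.range Λ) :=
    Nat.card_mono (Set.toFinite _) hsub
  have hc2 : Nat.card ↥(Set.range Λ) ≤ Nat.card (Fin (Module.finrank (ZMod p) ↥H) → κ) :=
    Finite.card_range_le _
  have hc3 : Nat.card (Fin (Module.finrank (ZMod p) ↥H) → κ) =
      Nat.card ↥H ^ Module.finrank (ZMod p) κ := by
    rw [Nat.card_fun, Nat.card_eq_fintype_card (α := Fin _), Fintype.card_fin,
      Module.natCard_eq_pow_finrank (K := ZMod p) (V := κ),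
      Module.natCard_eq_pow_finrank (K := ZMod p) (V := ↥H), Nat.card_zmod, ← pow_mul, ← pow_mul,
      mul_comm]
  exact (hc1.trans hc2).trans hc3.le

end Descent

/-! ### the main count -/

section Final

variable {P : Type*} [AddCommGroup P] [Module (ZMod p) P] [Finite P]
  (ρP : Representation (ZMod p) G P) [Fintype G] [Fintype κ]
  (hG : (Fintype.card G).Coprime p) (hinj : ∀ g ∈ inertia G κ, θ g = 1 → g = 1)

omit [MulSemiringAction G κ] [Group G] [Fintype G] in
theorem card_linearMap :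
    Nat.card (P →ₗ[ZMod p] κ) = Nat.card P ^ Module.finrank (ZMod p) κ := by
  haveI : Module.Finite (ZMod p) P := Module.Finite.of_finite
  haveI : Module.Finite (ZMod p) κ := Module.Finite.of_finite
  have e := ((Module.finBasis (ZMod p) P).constr κ (M' := κ)).toEquiv
  rw [← Nat.card_congr e, Nat.card_fun, Nat.card_eq_fintype_card (α := Fin _), Fintype.card_fin,
    Module.natCard_eq_pow_finrank (K := ZMod p) (V := κ),
    Module.natCard_eq_pow_finrank (K := ZMod p) (V := P), Nat.card_zmod, ← pow_mul, ← pow_mul,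
    mul_comm]

include hG hinj in
/-- **the count**: `#P ≤ ∏_{m < #I} #Hom_G(P, κ⟨m₀ + m⟩)`. -/
theorem card_le_prod (m₀ : ℕ) :
    Nat.card P ≤ ∏ m ∈ range (Nat.card ↥(inertia G κ)),
      Nat.card ↥(HomG ρP (twRep θ hθ0 hθ (m₀ + m))) := by
  classical
  haveI : Finite (P →ₗ[ZMod p] κ) := Finite.of_injective _ DFunLike.coe_injective
  haveI : Module.Finite (ZMod p) κ := Module.Finite.of_finite
  set e' := Nat.card ↥(inertia G κ) with he'
  set f := Module.finrank (ZMod p) κ with hf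
  have hf0 : f ≠ 0 := (Module.finrank_pos (R := ZMod p) (M := κ)).ne'
  -- the sum map from the product of the eigenspaces is onto
  let Ψ : (∀ m : Fin e', ↥(WI θ hθ0 hθ ρP (m₀ + (m : ℕ)))) → (P →ₗ[ZMod p] κ) :=
    fun F => ∑ m : Fin e', (F m : P →ₗ[ZMod p] κ)
  have hΨ : Function.Surjective Ψ := by
    intro F
    refine ⟨fun m => ⟨proj θ hθ0 hθ ρP (m₀ + (m : ℕ)) F, proj_mem θ hθ0 hθ ρP _ F⟩, ?_⟩
    show ∑ m : Fin e', proj θ hθ0 hθ ρP (m₀ + (m : ℕ)) F = F
    rw [Fin.sum_univ_eq_sum_range (fun m => proj θ hθ0 hθ ρP (m₀ + m) F) e']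
    exact sum_proj θ hθ0 hθ ρP hG hinj m₀ F
  have h1 : Nat.card (P →ₗ[ZMod p] κ) ≤
      ∏ m : Fin e', Nat.card ↥(WI θ hθ0 hθ ρP (m₀ + (m : ℕ))) := by
    rw [← Nat.card_pi]
    exact Nat.card_le_card_of_surjective Ψ hΨ
  have h2 : ∏ m : Fin e', Nat.card ↥(WI θ hθ0 hθ ρP (m₀ + (m : ℕ))) ≤
      ∏ m : Fin e', Nat.card ↥(HomG ρP (twRep θ hθ0 hθ (m₀ + (m : ℕ)))) ^ f :=
    Finset.prod_le_prod' fun m _ => card_WI_le θ hθ0 hθ ρP hG _
  rw [Finset.prod_pow, card_linearMap (κ := κ) (P := P)] at *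
  have h3 := h1.trans h2
  rw [← hf] at h3
  have h4 := (Nat.pow_le_pow_iff_left hf0).1 h3
  rwa [Fin.prod_univ_eq_prod_range
    (fun m => Nat.card ↥(HomG ρP (twRep θ hθ0 hθ (m₀ + m)))) e'] at h4

end Final

/-! ### an Artin–Schreier lemma -/

omit [Algebra (ZMod p) κ] in
/-- if `t ^ p - t = n` is fixed by `G`, `#G` is prime to `p` and the fixed field of `G` consists of
roots of `X ^ p - X`, then `n = 0`. -/
theorem eq_zero_of_artinSchreier [CharP κ p] [Fintype G] (hG : (Fintype.card G).Coprime p)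
    (hfix : ∀ a : κ, (∀ g : G, g • a = a) → a ^ p = a) {t n : κ} (hn : ∀ g : G, g • n = n)
    (ht : t ^ p - t = n) : n = 0 := by
  -- `g • t - t` is a root of `X ^ p - X`
  have hroot : ∀ g : G, (g • t - t) ^ p = g • t - t := by
    intro g
    have h1 : (g • t) ^ p - g • t = n := by
      rw [← smul_pow', ← smul_sub, ht, hn]
    rw [sub_pow_char]
    have : (g • t) ^ p - t ^ p = (g • t - t) + (((g • t) ^ p - g • t) - (t ^ p - t)) := by ring
    rw [this, h1, ht, sub_self, add_zero]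
  -- `S = ∑ g • t` is fixed, and `S = #G t + ∑ (g • t - t)`
  have hS : ∀ h : G, h • (∑ g : G, g • t) = ∑ g : G, g • t := by
    intro h
    rw [Finset.smul_sum]
    refine Fintype.sum_equiv (Equiv.mulLeft h) _ _ fun g => ?_
    rw [Equiv.coe_mulLeft, mul_smul]
  have hSp := hfix _ hS
  set c : κ := (Fintype.card G : κ) with hc
  have hc0 : c ≠ 0 := by
    rw [hc, Ne, CharP.cast_eq_zero_iff κ p]
    intro h
    have hp' : p.Prime := hp.out
    exact hp'.one_lt.ne' (Nat.Coprime.eq_one_of_dvd hG.symm h)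
  have hcp : c ^ p = c := by
    rw [hc]
    have := map_natCast (frobenius κ p) (Fintype.card G)
    rwa [frobenius_def] at this
  set D : κ := ∑ g : G, (g • t - t) with hD
  have hDp : D ^ p = D := by
    rw [hD, sum_pow_char]
    exact Finset.sum_congr rfl fun g _ => hroot g
  have hSD : ∑ g : G, g • t = c * t + D := by
    rw [hD, Finset.sum_sub_distrib, Finset.sum_const, Finset.card_univ, nsmul_eq_mul]
    ring
  rw [hSD, add_pow_char, mul_pow, hcp, hDp] at hSp
  have h5 : c * (t ^ p - t) = 0 := by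
    have : c * (t ^ p - t) = (c * t ^ p + D) - (c * t + D) := by ring
    rw [this, hSp, sub_self]
  rw [ht] at h5
  exact (mul_eq_zero.1 h5).resolve_left hc0

end Fermat.Agent.W56.LecDescent7
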