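/-
Programme W56 (target S56), item (D4) = LEC-p (helper7): **the units count**
`LecUData7.UnitsBound` (abstract valuation theory; Mathlib + RamBase7/RamKumA7/RamFund7 +
LecStep7/LecDescent7).

`K` a discretely valued field with a finite group `G` of automorphisms of order prime to `p`,
residue field `κ` finite with `κ^G = 𝔽_p`, `ζ_p ∈ K`, `cl : K → X` a Kummer-type class map.  Filtration
of `X` by the images `XU j` of the unit groups `U_j = 1 + 𝔪^j`; the graded pieces receive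
* `𝔽_p` (trivial action) via `n ↦ cl (π ^ n)` (bottom);
* `κ⟨j⟩` via `a ↦ cl (1 + ã π ^ j)` for `p ∤ j`, `1 ≤ j < p E`, `E = ord (ζ - 1)` (middle);
* `𝔽_p(χ)` via `n ↦ cl (1 + n (ζ - 1) ^ p)` (top, Artin–Schreier),
injectively; `LecStep7.card_mul_le_zmod` along the filtration and `LecDescent7.card_le_prod` give
`#Hom_G(P, 𝔽_p) · #Hom_G(P, 𝔽_p(χ)) · #P ≤ #Hom_G(P, X)`.
-/
import Mathlib
import Fermat.Agent.W56.RamFund7
import Fermat.Agent.W56.RamKumA7
import Fermat.Agent.W56.LecStep7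
import Fermat.Agent.W56.LecDescent7
import Fermat.Agent.W56.LecUData7

set_option autoImplicit false
set_option linter.unusedSectionVars false
set_option linter.style.haveILetI false

namespace Fermat.Agent.W56.LecUnits7

open Finset Fermat.Agent.W56.RamBase7 Fermat.Agent.W56.RamBase7.DVal Fermat.Agent.W56.RamKumA7
  Fermat.Agent.W56.RamFund7 Fermat.Agent.W56.LecStep7 Fermat.Agent.W56.LecDescent7
  Fermat.Agent.W56.LecUData7

variable {K : Type*} [Field K] {w : DVal K} {G : Type*} [Group G] [MulSemiringAction G K]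
  {p : ℕ} [hp : Fact p.Prime] {κ : Type*} [Field κ] [MulSemiringAction G κ] {red : K → κ}

/-! ### the reduction map -/

section Red

variable (hF : UField w G p κ red)
include hF

theorem red_zero : red 0 = 0 := (hF.red_eq_zero 0 (Ge.zero 0)).2 (Ge.zero 1)

theorem red_neg {x : K} (hx : w.Ge 0 x) : red (-x) = -red x := by
  have h := hF.red_add x (-x) hx hx.neg
  rw [add_neg_cancel, red_zero hF] at h
  exact (neg_eq_of_add_eq_zero_right h.symm).symm

theorem red_sub {x y : K} (hx : w.Ge 0 x) (hy : w.Ge 0 y) : red (x - y) = red x - red y := by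
  rw [sub_eq_add_neg, hF.red_add x (-y) hx hy.neg, red_neg hF hy, sub_eq_add_neg]

theorem ge_zero_pow {x : K} (hx : w.Ge 0 x) (n : ℕ) : w.Ge 0 (x ^ n) := by
  have := hx.pow n
  rwa [mul_zero] at this

theorem red_pow {x : K} (hx : w.Ge 0 x) (n : ℕ) : red (x ^ n) = red x ^ n := by
  induction n with
  | zero => rw [pow_zero, pow_zero, hF.red_one]
  | succ n ih => rw [pow_succ, pow_succ, hF.red_mul _ _ (ge_zero_pow hF hx n) hx, ih]

theorem red_natCast (n : ℕ) : red (n : K) = (n : κ) := by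
  induction n with
  | zero => rw [Nat.cast_zero, Nat.cast_zero, red_zero hF]
  | succ n ih =>
    rw [Nat.cast_succ, Nat.cast_succ, hF.red_add _ _ (Ge.natCast n) Ge.one, ih, hF.red_one]

theorem red_eq_iff {x y : K} (hx : w.Ge 0 x) (hy : w.Ge 0 y) :
    red x = red y ↔ w.Ge 1 (x - y) := by
  rw [← hF.red_eq_zero _ (hx.sub hy), red_sub hF hx hy, sub_eq_zero]

theorem natCast_p_eq_zero : (p : κ) = 0 := by
  rw [← red_natCast hF, hF.red_eq_zero _ (Ge.natCast p)]
  exact Or.inr (by have := hF.prime.pos; omega)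

theorem charP_of_uField : CharP κ p :=
  (CharP.charP_iff_prime_eq_zero hp.out).2 (natCast_p_eq_zero hF)

/-- the reduction of a unit is nonzero. -/
theorem red_ne_zero {x : K} (hx0 : x ≠ 0) (hx : w.ord x = 0) : red x ≠ 0 := by
  intro h
  have h1 := (hF.red_eq_zero x (Or.inr hx.ge)).1 h
  have := (ge_iff hx0).1 h1
  omega

/-- an integral element with nonzero reduction is a unit. -/
theorem ord_eq_zero_of_red_ne_zero {x : K} (hx : w.Ge 0 x) (h : red x ≠ 0) :
    x ≠ 0 ∧ w.ord x = 0 := by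
  have hx0 : x ≠ 0 := by
    rintro rfl
    exact h (red_zero hF)
  refine ⟨hx0, le_antisymm ?_ ((ge_iff hx0).1 hx)⟩
  by_contra hlt
  rw [not_le] at hlt
  exact h ((hF.red_eq_zero x hx).2 (Or.inr (by omega)))

/-- a section of the reduction map. -/
noncomputable def lift (a : κ) : K := Classical.choose (hF.red_surj a)

theorem lift_ge (a : κ) : w.Ge 0 (lift hF a) := (Classical.choose_spec (hF.red_surj a)).1

theorem red_lift (a : κ) : red (lift hF a) = a := (Classical.choose_spec (hF.red_surj a)).2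

end Red

/-! ### the unit groups -/

/-- `U_j = {x ≠ 0 | x ≡ 1 mod 𝔪^j}`. -/
def UU (w : DVal K) (j : ℕ) : Set K := {x | x ≠ 0 ∧ w.Ge (j : ℤ) (x - 1)}

theorem mem_UU {j : ℕ} {x : K} : x ∈ UU w j ↔ x ≠ 0 ∧ w.Ge (j : ℤ) (x - 1) := Iff.rfl

theorem UU_anti {j j' : ℕ} (h : j ≤ j') : UU w j' ⊆ UU w j :=
  fun _ hx => ⟨hx.1, hx.2.mono (by exact_mod_cast h)⟩

theorem one_mem_UU (j : ℕ) : (1 : K) ∈ UU w j := ⟨one_ne_zero, by rw [sub_self]; exact Ge.zero _⟩

theorem ge_zero_of_mem_UU {j : ℕ} {x : K} (hx : x ∈ UU w j) : w.Ge 0 x := by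
  have h1 : w.Ge 0 (x - 1) := hx.2.mono (by positivity)
  have := h1.add Ge.one
  rwa [sub_add_cancel] at this

theorem ord_eq_zero_of_mem_UU {j : ℕ} (hj : 1 ≤ j) {x : K} (hx : x ∈ UU w j) : w.ord x = 0 := by
  have h := ord_eq_of_sub_ge (w := w) (x := 1) (y := x) one_ne_zero
    (by rw [w.ord_one]; exact hx.2.mono (by exact_mod_cast (by omega : 0 + 1 ≤ j)))
  rw [h.2, w.ord_one]

theorem one_add_mem_UU {j : ℕ} (hj : 1 ≤ j) {z : K} (hz : w.Ge (j : ℤ) z) : 1 + z ∈ UU w j := by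
  refine ⟨?_, by rwa [add_sub_cancel_left]⟩
  have := ord_add_eq_of_ge (w := w) (x := 1) (y := z) one_ne_zero
    (by rw [w.ord_one]; exact hz.mono (by exact_mod_cast (by omega : 0 + 1 ≤ j)))
  exact this.1

theorem mul_mem_UU {j : ℕ} {x y : K} (hx : x ∈ UU w j) (hy : y ∈ UU w j) : x * y ∈ UU w j := by
  refine ⟨mul_ne_zero hx.1 hy.1, ?_⟩
  have h1 : x * y - 1 = (x - 1) * y + (y - 1) := by ring
  rw [h1]
  have h2 := hx.2.mul (ge_zero_of_mem_UU hy)
  rw [add_zero] at h2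
  exact h2.add hy.2

theorem inv_mem_UU {j : ℕ} (hj : 1 ≤ j) {x : K} (hx : x ∈ UU w j) : x⁻¹ ∈ UU w j := by
  refine ⟨inv_ne_zero hx.1, ?_⟩
  have h1 : x⁻¹ - 1 = -((x - 1) * x⁻¹) := by
    have := hx.1
    field_simp
    ring
  rw [h1]
  have hinv : w.Ge 0 x⁻¹ :=
    Or.inr (by rw [w.ord_inv hx.1, ord_eq_zero_of_mem_UU hj hx, neg_zero])
  have h2 := hx.2.mul hinv
  rw [add_zero] at h2
  exact h2.neg

theorem div_mem_UU {j : ℕ} (hj : 1 ≤ j) {x y : K} (hx : x ∈ UU w j) (hy : y ∈ UU w j) :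
    x / y ∈ UU w j := by
  rw [div_eq_mul_inv]
  exact mul_mem_UU hx (inv_mem_UU hj hy)

theorem pow_mem_UU {j : ℕ} {x : K} (hx : x ∈ UU w j) (n : ℕ) : x ^ n ∈ UU w j := by
  induction n with
  | zero => rw [pow_zero]; exact one_mem_UU j
  | succ n ih => rw [pow_succ]; exact mul_mem_UU ih hx

/-- two elements of `U_j` which are congruent modulo `𝔪^j'` have quotient in `U_j'`. -/
theorem div_mem_UU_of_sub {j j' : ℕ} (hj : 1 ≤ j) {x y : K} (hx : x ∈ UU w j) (hy : y ∈ UU w j)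
    (h : w.Ge (j' : ℤ) (x - y)) : x / y ∈ UU w j' := by
  refine ⟨div_ne_zero hx.1 hy.1, ?_⟩
  have h1 : x / y - 1 = (x - y) * y⁻¹ := by
    field_simp [hy.1]
  rw [h1]
  have hinv : w.Ge 0 y⁻¹ :=
    Or.inr (by rw [w.ord_inv hy.1, ord_eq_zero_of_mem_UU hj hy, neg_zero])
  have h2 := h.mul hinv
  rwa [add_zero] at h2

theorem smul_mem_UU (hF : UField w G p κ red) {j : ℕ} (σ : G) {x : K} (hx : x ∈ UU w j) :
    σ • x ∈ UU w j := by
  refine ⟨(smul_ne_zero_iff_ne σ).2 hx.1, ?_⟩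
  have h1 : σ • x - 1 = σ • (x - 1) := by rw [smul_sub, smul_one]
  rw [h1]
  rcases hx.2 with h0 | h0
  · rw [h0, smul_zero]; exact Ge.zero _
  · right; rwa [hF.inv]

/-! ### the class map -/

section Cl

variable {X : Type*} [AddCommGroup X] [Module (ZMod p) X] {ρX : Representation (ZMod p) G X}
  {cl : K → X} (hC : UCl p ρX cl)
include hC

theorem cl_one : cl 1 = 0 := by
  have h := hC.cl_mul 1 1 one_ne_zero one_ne_zero
  rw [mul_one] at h
  exact left_eq_add.1 h

theorem cl_inv {x : K} (hx : x ≠ 0) : cl x⁻¹ = -cl x := by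
  have h := hC.cl_mul x x⁻¹ hx (inv_ne_zero hx)
  rw [mul_inv_cancel₀ hx, cl_one hC] at h
  exact (neg_eq_of_add_eq_zero_right h.symm).symm

theorem cl_div {x y : K} (hx : x ≠ 0) (hy : y ≠ 0) : cl (x / y) = cl x - cl y := by
  rw [div_eq_mul_inv, hC.cl_mul x y⁻¹ hx (inv_ne_zero hy), cl_inv hC hy, sub_eq_add_neg]

theorem cl_pow {x : K} (hx : x ≠ 0) (n : ℕ) : cl (x ^ n) = n • cl x := by
  induction n with
  | zero => rw [pow_zero, zero_smul, cl_one hC]
  | succ n ih => rw [pow_succ, hC.cl_mul _ _ (pow_ne_zero n hx) hx, ih, succ_nsmul]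

theorem cl_pow_p {y : K} (hy : y ≠ 0) : cl (y ^ p) = 0 :=
  (hC.cl_eq_zero _ (pow_ne_zero p hy)).2 ⟨y, rfl⟩

/-- if `x = v * y ^ p` then `cl x = cl v`. -/
theorem cl_eq_of_eq_mul_pow {x v y : K} (hv : v ≠ 0) (hy : y ≠ 0) (h : x = v * y ^ p) :
    cl x = cl v := by
  rw [h, hC.cl_mul v (y ^ p) hv (pow_ne_zero p hy), cl_pow_p hC hy, add_zero]

/-- if `cl x = cl v` then `x = v * y ^ p`. -/
theorem exists_eq_mul_pow {x v : K} (hx : x ≠ 0) (hv : v ≠ 0) (h : cl x = cl v) :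
    ∃ y : K, y ≠ 0 ∧ x = v * y ^ p := by
  have h1 : cl (x / v) = 0 := by rw [cl_div hC hx hv, h, sub_self]
  obtain ⟨y, hy⟩ := (hC.cl_eq_zero _ (div_ne_zero hx hv)).1 h1
  have hy0 : y ≠ 0 := by
    rintro rfl
    rw [zero_pow hp.out.ne_zero] at hy
    exact div_ne_zero hx hv hy.symm
  refine ⟨y, hy0, ?_⟩
  rw [hy]
  field_simp [hv]

variable (w cl) in
/-- the image of `U_j` in `X`. -/
def XU (j : ℕ) : Submodule (ZMod p) X where
  carrier := {x | ∃ u ∈ UU w j, cl u = x}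
  add_mem' := by
    rintro _ _ ⟨u, hu, rfl⟩ ⟨v, hv, rfl⟩
    exact ⟨u * v, mul_mem_UU hu hv, hC.cl_mul u v hu.1 hv.1⟩
  zero_mem' := ⟨1, one_mem_UU j, cl_one hC⟩
  smul_mem' := by
    rintro c _ ⟨u, hu, rfl⟩
    refine ⟨u ^ c.val, pow_mem_UU hu _, ?_⟩
    rw [cl_pow hC hu.1, ← Nat.cast_smul_eq_nsmul (ZMod p), ZMod.natCast_zmod_val]

theorem mem_XU {j : ℕ} {x : X} : x ∈ XU w cl hC j ↔ ∃ u ∈ UU w j, cl u = x := Iff.rfl

theorem cl_mem_XU {j : ℕ} {u : K} (hu : u ∈ UU w j) : cl u ∈ XU w cl hC j := ⟨u, hu, rfl⟩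

theorem XU_anti {j j' : ℕ} (h : j ≤ j') : XU w cl hC j' ≤ XU w cl hC j := by
  rintro _ ⟨u, hu, rfl⟩
  exact ⟨u, UU_anti h hu, rfl⟩

theorem XU_stable (hF : UField w G p κ red) (j : ℕ) (σ : G) :
    ∀ x ∈ XU w cl hC j, ρX σ x ∈ XU w cl hC j := by
  rintro _ ⟨u, hu, rfl⟩
  exact ⟨σ • u, smul_mem_UU hF σ hu, hC.cl_smul σ u hu.1⟩

/-- two elements of `U_j` congruent modulo `𝔪^j'` have classes congruent modulo `XU j'`. -/
theorem cl_sub_mem_XU {j j' : ℕ} (hj : 1 ≤ j) {x y : K} (hx : x ∈ UU w j) (hy : y ∈ UU w j)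
    (h : w.Ge (j' : ℤ) (x - y)) : cl x - cl y ∈ XU w cl hC j' := by
  rw [← cl_div hC hx.1 hy.1]
  exact cl_mem_XU hC (div_mem_UU_of_sub hj hx hy h)

end Cl

/-! ### binomial estimates -/

section Binom

variable (hw : PrimeHyp w p)
include hw

/-- `(1 + z) ^ p - 1 - z ^ p - p z ∈ p z² O` for integral `z`. -/
theorem ge_one_add_pow' {z : K} (hz : w.Ge 0 z) :
    w.Ge (w.ord (p : K) + w.ord z + w.ord z) ((1 + z) ^ p - 1 - z ^ p - (p : K) * z) := by
  rcases eq_or_ne z 0 with rfl | hz0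
  · rw [add_zero, one_pow, zero_pow hw.prime.ne_zero, mul_zero]
    simpa using Ge.zero _
  have hz0' : 0 ≤ w.ord z := (ge_iff hz0).1 hz
  have hp2 : 2 ≤ p := hw.prime.two_le
  have h1 := add_pow_prime_eq hw.prime (1 : K) z
  set f : ℕ → K := fun k => (1 : K) ^ (k - 1) * z ^ (p - k - 1) * ((p.choose k / p : ℕ) : K)
    with hf
  have hmem : p - 1 ∈ Finset.Ioo 0 p := Finset.mem_Ioo.2 ⟨by omega, by omega⟩
  have hsplit := Finset.add_sum_erase (Finset.Ioo 0 p) f hmem
  have hfp : f (p - 1) = 1 := by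
    have hc : p.choose (p - 1) = p := by
      have := Nat.choose_succ_self_right (p - 1)
      rwa [show p - 1 + 1 = p by omega] at this
    rw [hf]
    simp only
    rw [show p - (p - 1) - 1 = 0 by omega, pow_zero, one_pow, one_mul, hc,
      Nat.div_self hw.prime.pos, Nat.cast_one, mul_one]
  have h2 : (1 + z) ^ p - 1 - z ^ p - (p : K) * z =
      (p : K) * z * ∑ k ∈ (Finset.Ioo 0 p).erase (p - 1), f k := by
    rw [h1, ← hsplit, hfp]
    ring
  rw [h2]
  have h3 : w.Ge (w.ord z) (∑ k ∈ (Finset.Ioo 0 p).erase (p - 1), f k) := by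
    refine Ge.sum fun k hk => ?_
    obtain ⟨hk1, hk2⟩ := Finset.mem_erase.1 hk
    obtain ⟨hk3, hk4⟩ := Finset.mem_Ioo.1 hk2
    have hexp : 1 ≤ p - k - 1 := by omega
    have h4 : w.Ge (w.ord z) (z ^ (p - k - 1)) := by
      have := (w.ge_ord z).pow (p - k - 1)
      refine this.mono ?_
      have : (1 : ℤ) ≤ ((p - k - 1 : ℕ) : ℤ) := by exact_mod_cast hexp
      nlinarith
    have h5 : w.Ge (w.ord z) ((1 : K) ^ (k - 1) * z ^ (p - k - 1)) := by
      rw [one_pow, one_mul]; exact h4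
    have := h5.mul (Ge.natCast (w := w) (p.choose k / p))
    rwa [add_zero] at this
  have h5 : w.Ge (w.ord (p : K) + w.ord z) ((p : K) * z) := (w.ge_ord _).mul (w.ge_ord _)
  exact h5.mul h3

variable {ζ : K} (hζ : IsPrimitiveRoot ζ p)
include hζ

theorem ord_zeta_pos : 0 < w.ord (ζ - 1) := by
  have h := (ord_zeta_sub_one hw hζ).2
  have hpos := hw.pos
  have hp1 : (0 : ℤ) < (p : ℤ) - 1 := by
    have := hw.prime.two_le
    have : (2 : ℤ) ≤ (p : ℤ) := by exact_mod_cast this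
    omega
  by_contra hneg
  rw [not_lt] at hneg
  nlinarith

/-- `p E = e + E`. -/
theorem p_mul_ord_zeta : (p : ℤ) * w.ord (ζ - 1) = w.ord (p : K) + w.ord (ζ - 1) := by
  have h := (ord_zeta_sub_one hw hζ).2
  linarith

/-- `p / (ζ - 1) ^ (p - 1) ≡ -1` modulo `𝔪`. -/
theorem ge_p_div_add_one :
    w.Ge 1 ((p : K) / (ζ - 1) ^ (p - 1) + 1) ∧ w.Ge 0 ((p : K) / (ζ - 1) ^ (p - 1)) := by
  obtain ⟨hl0, hl⟩ := ord_zeta_sub_one hw hζ
  have hEpos := ord_zeta_pos hw hζ
  set l := ζ - 1 with hldef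
  have hlge : w.Ge 0 l := Or.inr hEpos.le
  have h1 := ge_one_add_pow' hw hlge
  have h2 : (1 + l) ^ p = 1 := by
    rw [hldef, add_sub_cancel, hζ.pow_eq_one]
  rw [h2, sub_self, zero_sub] at h1
  -- `l ^ p + p l ∈ 𝔪^(e + 2E)`
  have h3 : w.Ge (w.ord (p : K) + w.ord l + w.ord l) (l ^ p + (p : K) * l) := by
    have := h1.neg
    have e : -(-l ^ p - (p : K) * l) = l ^ p + (p : K) * l := by ring
    rwa [e] at this
  have hp1 : p - 1 + 1 = p := Nat.sub_add_cancel hw.prime.pos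
  have hlp0 : l ^ p ≠ 0 := pow_ne_zero p hl0
  have hlp10 : l ^ (p - 1) ≠ 0 := pow_ne_zero _ hl0
  have hordlp : w.ord (l ^ p) = (p : ℤ) * w.ord l := w.ord_pow hl0 p
  have hordlp1 : w.ord (l ^ (p - 1)) = ((p : ℤ) - 1) * w.ord l := by
    rw [w.ord_pow hl0 (p - 1)]
    congr 1
    have : ((p - 1 : ℕ) : ℤ) = (p : ℤ) - 1 := by
      rw [Nat.cast_sub hw.prime.pos, Nat.cast_one]
    exact this
  have h4 : (p : K) / l ^ (p - 1) + 1 = (l ^ p + (p : K) * l) * (l ^ p)⁻¹ := by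
    have : l ^ p = l ^ (p - 1) * l := by rw [← pow_succ, hp1]
    rw [this]
    field_simp
    ring
  constructor
  · rw [h4]
    have hinv : w.Ge (-((p : ℤ) * w.ord l)) (l ^ p)⁻¹ :=
      Or.inr (by rw [w.ord_inv hlp0, hordlp])
    have := h3.mul hinv
    refine this.mono ?_
    linarith
  · refine Or.inr ?_
    rw [w.ord_div hw.ne_zero hlp10, hordlp1, hl, sub_self]

end Binom

/-! ### `p`-th powers in the unit filtration -/

section Pow

variable (hw : PrimeHyp w p) {ζ : K} (hζ : IsPrimitiveRoot ζ p)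
include hw hζ

/-- `ord z < E` ⟹ `ord ((1 + z) ^ p - 1) = p ord z`. -/
theorem ord_pow_sub_one_of_lt {z : K} (hz0 : z ≠ 0) (hz1 : 1 ≤ w.ord z)
    (hzE : w.ord z < w.ord (ζ - 1)) :
    (1 + z) ^ p - 1 ≠ 0 ∧ w.ord ((1 + z) ^ p - 1) = (p : ℤ) * w.ord z := by
  have hl := (ord_zeta_sub_one hw hζ).2
  have hzge : w.Ge 0 z := Or.inr (by omega)
  have hrest := ge_one_add_pow hw hzge
  have hzp0 : z ^ p ≠ 0 := pow_ne_zero p hz0
  have hordzp : w.ord (z ^ p) = (p : ℤ) * w.ord z := w.ord_pow hz0 p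
  have hp1 : (0 : ℤ) < (p : ℤ) - 1 := by
    have : (2 : ℤ) ≤ (p : ℤ) := by exact_mod_cast hw.prime.two_le
    omega
  have hlt : (p : ℤ) * w.ord z < w.ord (p : K) + w.ord z := by
    have := mul_lt_mul_of_pos_left hzE hp1
    linarith
  have hdec : (1 + z) ^ p - 1 = z ^ p + ((1 + z) ^ p - 1 - z ^ p) := by ring
  rw [hdec]
  have := ord_add_eq_of_ge hzp0 (hrest.mono (by rw [hordzp]; omega))
  rw [hordzp] at this
  exact this

/-- `ord z ≥ E` ⟹ `(1 + z) ^ p ≡ 1` modulo `𝔪^(pE)`. -/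
theorem ge_pow_sub_one_of_ge {z : K} (hz : z = 0 ∨ w.ord (ζ - 1) ≤ w.ord z) :
    w.Ge ((p : ℤ) * w.ord (ζ - 1)) ((1 + z) ^ p - 1) := by
  rcases eq_or_ne z 0 with rfl | hz0
  · rw [add_zero, one_pow, sub_self]; exact Ge.zero _
  have hzE := hz.resolve_left hz0
  have hEpos := ord_zeta_pos hw hζ
  have hpE := p_mul_ord_zeta hw hζ
  have hzge : w.Ge 0 z := Or.inr (by omega)
  have hrest := ge_one_add_pow hw hzge
  have hordzp : w.ord (z ^ p) = (p : ℤ) * w.ord z := w.ord_pow hz0 p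
  have hdec : (1 + z) ^ p - 1 = z ^ p + ((1 + z) ^ p - 1 - z ^ p) := by ring
  rw [hdec]
  refine Ge.add (Or.inr ?_) (hrest.mono (by omega))
  rw [hordzp]
  have hp0 : (0 : ℤ) ≤ (p : ℤ) := by positivity
  exact mul_le_mul_of_nonneg_left hzE hp0

end Pow

section ClaimA

variable (hF : UField w G p κ red) {ζ : K} (hζ : IsPrimitiveRoot ζ p)
include hF

/-- a `p`-th root of a principal unit is a principal unit. -/
theorem mem_UU_one_of_pow {y : K} (hy : y ^ p ∈ UU w 1) : y ∈ UU w 1 := by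
  haveI := charP_of_uField hF
  have hp0 : p ≠ 0 := hp.out.ne_zero
  have hy0 : y ≠ 0 := by
    rintro rfl
    rw [zero_pow hp0] at hy
    exact hy.1 rfl
  have hord : w.ord y = 0 := by
    have h1 := ord_eq_zero_of_mem_UU le_rfl hy
    rw [w.ord_pow hy0 p] at h1
    have hp' : (p : ℤ) ≠ 0 := by exact_mod_cast hp0
    rcases mul_eq_zero.1 h1 with h | h
    · exact absurd h hp'
    · exact h
  have hyge : w.Ge 0 y := Or.inr hord.ge
  have h2 : red (y ^ p) = red 1 :=
    (red_eq_iff hF (ge_zero_pow hF hyge p) Ge.one).2 (by simpa using hy.2)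
  rw [red_pow hF hyge, hF.red_one] at h2
  have h3 : (red y - 1) ^ p = 0 := by rw [sub_pow_char, h2, one_pow, sub_self]
  have h4 : red y = red 1 := by
    rw [hF.red_one]
    exact sub_eq_zero.1 (pow_eq_zero_iff hp0 |>.1 h3)
  exact ⟨hy0, by simpa using (red_eq_iff hF hyge Ge.one).1 h4⟩

include hζ in
/-- **Claim A**: for `p ∤ j`, `1 ≤ j < pE`, a `p`-th power in `U_j` lies in `U_(j+1)`. -/
theorem claimA {j : ℕ} (hj : 1 ≤ j) (hjE : (j : ℤ) < (p : ℤ) * w.ord (ζ - 1)) (hpj : ¬ p ∣ j)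
    {y : K} (hy : y ^ p ∈ UU w j) : y ^ p ∈ UU w (j + 1) := by
  have hw := hF.prime
  have hy1 := mem_UU_one_of_pow hF (UU_anti hj hy)
  refine ⟨hy.1, ?_⟩
  set z := y - 1 with hz
  have hyz : y = 1 + z := by rw [hz]; ring
  rw [hyz] at hy ⊢
  rcases eq_or_ne z 0 with hz0 | hz0
  · rw [hz0, add_zero, one_pow, sub_self]; exact Ge.zero _
  have hm1 : 1 ≤ w.ord z := by
    have := (ge_iff hz0).1 hy1.2
    simpa using this
  rcases lt_or_ge (w.ord z) (w.ord (ζ - 1)) with hlt | hge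
  · obtain ⟨hne, hord⟩ := ord_pow_sub_one_of_lt hw hζ hz0 hm1 hlt
    have h1 := (ge_iff hne).1 hy.2
    rw [hord] at h1
    refine Or.inr ?_
    rw [hord]
    have hne' : (j : ℤ) ≠ (p : ℤ) * w.ord z := by
      intro h
      apply hpj
      have : (p : ℤ) ∣ (j : ℤ) := ⟨w.ord z, h⟩
      exact_mod_cast this
    push_cast
    omega
  · refine (ge_pow_sub_one_of_ge hw hζ (Or.inr hge)).mono ?_
    push_cast
    omega

end ClaimA

/-! ### the pieces -/

section Pieces

variable {X : Type*} [AddCommGroup X] [Module (ZMod p) X] {ρX : Representation (ZMod p) G X}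
  {cl : K → X} (hF : UField w G p κ red) (hC : UCl p ρX cl)

include hC in
/-- `cl (1 + c μ)` modulo `XU (j + 1)` only depends on `c` modulo `𝔪` (`μ ∈ 𝔪^j`). -/
theorem cl_one_add_sub_mem {j : ℕ} (hj : 1 ≤ j) {μ c c' : K} (hμ : w.Ge (j : ℤ) μ)
    (hc : w.Ge 0 c) (hc' : w.Ge 0 c') (h : w.Ge 1 (c - c')) :
    cl (1 + c * μ) - cl (1 + c' * μ) ∈ XU w cl hC (j + 1) := by
  have hx : 1 + c * μ ∈ UU w j := one_add_mem_UU hj (by
    have := hc.mul hμ
    rwa [zero_add] at this)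
  have hy : 1 + c' * μ ∈ UU w j := one_add_mem_UU hj (by
    have := hc'.mul hμ
    rwa [zero_add] at this)
  refine cl_sub_mem_XU hC hj hx hy ?_
  have e : 1 + c * μ - (1 + c' * μ) = (c - c') * μ := by ring
  rw [e]
  refine (h.mul hμ).mono ?_
  push_cast
  omega

variable {π : K} (hπ0 : π ≠ 0) (hπ : w.ord π = 1)

/-- the crossed homomorphism `g ↦ g π / π mod 𝔪`. -/
def theta (red : K → κ) (π : K) (g : G) : κ := red (g • π / π)

include hF hπ0 in
theorem ord_smul_div_self (g : G) : g • π / π ≠ 0 ∧ w.ord (g • π / π) = 0 := by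
  have h1 : g • π ≠ 0 := (smul_ne_zero_iff_ne g).2 hπ0
  refine ⟨div_ne_zero h1 hπ0, ?_⟩
  rw [w.ord_div h1 hπ0, hF.inv, sub_self]

include hF hπ0 in
theorem theta_ne_zero (g : G) : theta red π g ≠ 0 :=
  red_ne_zero hF (ord_smul_div_self hF hπ0 g).1 (ord_smul_div_self hF hπ0 g).2

include hF hπ0 in
theorem theta_mul (g h : G) : theta red π (g * h) = theta red π g * g • theta red π h := by
  unfold theta
  have h1 := ord_smul_div_self hF hπ0 g
  have h2 := ord_smul_div_self hF hπ0 h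
  have hg0 : g • π ≠ 0 := (smul_ne_zero_iff_ne g).2 hπ0
  have e : (g * h) • π / π = (g • π / π) * g • (h • π / π) := by
    rw [smul_div₀', mul_smul]
    field_simp
  rw [e, hF.red_mul _ _ (Or.inr h1.2.ge) (Or.inr (by rw [hF.inv]; exact h2.2.ge)),
    hF.red_smul g _ (Or.inr h2.2.ge)]

include hπ0 hπ in
theorem ge_pi_pow (j : ℕ) : w.Ge (j : ℤ) (π ^ j) :=
  Or.inr (by rw [w.ord_pow hπ0 j, hπ, mul_one])

/-- the middle map `a ↦ cl (1 + ã π ^ j)`. -/
noncomputable def sMid (cl : K → X) (π : K) (j : ℕ) (a : κ) : X := cl (1 + lift hF a * π ^ j)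

include hC hπ0 hπ in
theorem sMid_mem {j : ℕ} (hj : 1 ≤ j) (a : κ) : sMid hF cl π j a ∈ XU w cl hC j := by
  refine cl_mem_XU hC (one_add_mem_UU hj ?_)
  have := (lift_ge hF a).mul (ge_pi_pow hπ0 hπ j)
  rwa [zero_add] at this

include hC hπ0 hπ in
theorem sMid_add {j : ℕ} (hj : 1 ≤ j) (a b : κ) :
    sMid hF cl π j (a + b) - sMid hF cl π j a - sMid hF cl π j b ∈ XU w cl hC (j + 1) := by
  unfold sMid
  have hπj := ge_pi_pow hπ0 hπ j
  have hmem : ∀ c : κ, 1 + lift hF c * π ^ j ∈ UU w j := fun c => one_add_mem_UU hj (by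
    have := (lift_ge hF c).mul hπj
    rwa [zero_add] at this)
  have hy := mul_mem_UU (hmem a) (hmem b)
  have e1 : cl (1 + lift hF (a + b) * π ^ j) - cl (1 + lift hF a * π ^ j) -
      cl (1 + lift hF b * π ^ j) =
      cl (1 + lift hF (a + b) * π ^ j) -
        cl ((1 + lift hF a * π ^ j) * (1 + lift hF b * π ^ j)) := by
    rw [hC.cl_mul _ _ (hmem a).1 (hmem b).1]
    abel
  rw [e1]
  refine cl_sub_mem_XU hC hj (hmem (a + b)) hy ?_
  have e2 : 1 + lift hF (a + b) * π ^ j - (1 + lift hF a * π ^ j) * (1 + lift hF b * π ^ j) =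
      (lift hF (a + b) - lift hF a - lift hF b) * π ^ j -
        lift hF a * lift hF b * (π ^ j * π ^ j) := by ring
  rw [e2]
  have h1 : w.Ge 1 (lift hF (a + b) - lift hF a - lift hF b) := by
    have hge : w.Ge 0 (lift hF (a + b) - lift hF a) := (lift_ge hF _).sub (lift_ge hF _)
    rw [← hF.red_eq_zero _ (hge.sub (lift_ge hF _)), red_sub hF hge (lift_ge hF _),
      red_sub hF (lift_ge hF _) (lift_ge hF _), red_lift hF, red_lift hF, red_lift hF]
    ring
  refine Ge.sub ((h1.mul hπj).mono (by push_cast; omega)) ?_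
  have h2 := ((lift_ge hF a).mul (lift_ge hF b)).mul (hπj.mul hπj)
  refine h2.mono ?_
  push_cast
  have : (1 : ℤ) ≤ (j : ℤ) := by exact_mod_cast hj
  omega

include hC hπ0 hπ in
theorem sMid_equiv {j : ℕ} (hj : 1 ≤ j) (g : G) (a : κ) :
    sMid hF cl π j (theta red π g ^ j * g • a) - ρX g (sMid hF cl π j a) ∈
      XU w cl hC (j + 1) := by
  unfold sMid
  have hπj := ge_pi_pow hπ0 hπ j
  have hmem : ∀ c : κ, 1 + lift hF c * π ^ j ∈ UU w j := fun c => one_add_mem_UU hj (by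
    have := (lift_ge hF c).mul hπj
    rwa [zero_add] at this)
  rw [← hC.cl_smul g _ (hmem a).1]
  have hu := ord_smul_div_self hF hπ0 g
  have huge : w.Ge 0 (g • π / π) := Or.inr hu.2.ge
  have hgl : w.Ge 0 (g • lift hF a) := by
    rcases lift_ge hF a with h0 | h0
    · rw [h0, smul_zero]; exact Ge.zero _
    · right; rwa [hF.inv]
  have e : g • (1 + lift hF a * π ^ j) = 1 + (g • lift hF a * (g • π / π) ^ j) * π ^ j := by
    rw [smul_add, smul_one, smul_mul', smul_pow', div_pow, mul_assoc,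
      div_mul_cancel₀ _ (pow_ne_zero j hπ0)]
  rw [e]
  have hcge : w.Ge 0 (g • lift hF a * (g • π / π) ^ j) := by
    have := hgl.mul (ge_zero_pow hF huge j)
    rwa [add_zero] at this
  refine cl_one_add_sub_mem hC hj hπj (lift_ge hF _) hcge ?_
  rw [← red_eq_iff hF (lift_ge hF _) hcge, red_lift hF,
    hF.red_mul _ _ hgl (ge_zero_pow hF huge j), hF.red_smul g _ (lift_ge hF a), red_lift hF,
    red_pow hF huge]
  unfold theta
  ring

include hC hπ0 hπ in
theorem sMid_inj {ζ : K} (hζ : IsPrimitiveRoot ζ p) {j : ℕ} (hj : 1 ≤ j)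
    (hjE : (j : ℤ) < (p : ℤ) * w.ord (ζ - 1)) (hpj : ¬ p ∣ j) (a : κ)
    (hs : sMid hF cl π j a ∈ XU w cl hC (j + 1)) : a = 0 := by
  unfold sMid at hs
  have hπj := ge_pi_pow hπ0 hπ j
  have hx : 1 + lift hF a * π ^ j ∈ UU w j := one_add_mem_UU hj (by
    have := (lift_ge hF a).mul hπj
    rwa [zero_add] at this)
  obtain ⟨v, hv, hcl⟩ := hs
  obtain ⟨y, hy0, hxy⟩ := exists_eq_mul_pow hC hx.1 hv.1 hcl.symm
  have hvj : v ∈ UU w j := UU_anti (Nat.le_succ j) hv
  have hyp : y ^ p ∈ UU w j := by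
    have : y ^ p = (1 + lift hF a * π ^ j) / v := by
      rw [hxy]
      field_simp [hv.1]
    rw [this]
    exact div_mem_UU hj hx hvj
  have hyp' := claimA hF hζ hj hjE hpj hyp
  have hx' : 1 + lift hF a * π ^ j ∈ UU w (j + 1) := by
    rw [hxy]
    exact mul_mem_UU hv hyp'
  have h1 : w.Ge ((j + 1 : ℕ) : ℤ) (lift hF a * π ^ j) := by
    have := hx'.2
    rwa [add_sub_cancel_left] at this
  have h2 : w.Ge 1 (lift hF a) := by
    rcases eq_or_ne (lift hF a) 0 with h0 | h0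
    · rw [h0]; exact Ge.zero _
    · right
      have h3 := (ge_iff (mul_ne_zero h0 (pow_ne_zero j hπ0))).1 h1
      rw [w.ord_mul h0 (pow_ne_zero j hπ0), w.ord_pow hπ0 j, hπ] at h3
      push_cast at h3
      omega
  have := (hF.red_eq_zero _ (lift_ge hF a)).2 h2
  rwa [red_lift hF] at this

/-! #### the bottom piece -/

include hF hC in
/-- the class of a unit lies in `XU 1` (the residue field is perfect). -/
theorem cl_unit_mem [Finite κ] {u : K} (hu0 : u ≠ 0) (hu : w.ord u = 0) :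
    cl u ∈ XU w cl hC 1 := by
  haveI := charP_of_uField hF
  have hp0 : p ≠ 0 := hp.out.ne_zero
  have hinj : Function.Injective (fun a : κ => a ^ p) := frobenius_inj κ p
  obtain ⟨a, ha⟩ := Finite.surjective_of_injective hinj (red u)
  simp only at ha
  have hru : red u ≠ 0 := red_ne_zero hF hu0 hu
  have ha0 : a ≠ 0 := by
    rintro rfl
    rw [zero_pow hp0] at ha
    exact hru ha.symm
  obtain ⟨hy0, hy⟩ := ord_eq_zero_of_red_ne_zero hF (lift_ge hF a)
    (by rw [red_lift hF]; exact ha0)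
  set y := lift hF a with hydef
  have hyge : w.Ge 0 y := lift_ge hF a
  have hyp0 : y ^ p ≠ 0 := pow_ne_zero p hy0
  have hv0 : u / y ^ p ≠ 0 := div_ne_zero hu0 hyp0
  have hvord : w.ord (u / y ^ p) = 0 := by
    rw [w.ord_div hu0 hyp0, hu, w.ord_pow hy0, hy, mul_zero, sub_zero]
  have hvge : w.Ge 0 (u / y ^ p) := Or.inr hvord.ge
  have hred : red (u / y ^ p) = red 1 := by
    have h1 : red (u / y ^ p) * red (y ^ p) = red u := by
      rw [← hF.red_mul _ _ hvge (ge_zero_pow hF hyge p), div_mul_cancel₀ _ hyp0]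
    rw [red_pow hF hyge, red_lift hF, ha] at h1
    rw [hF.red_one]
    exact mul_right_cancel₀ hru (by rw [h1, one_mul])
  have hv : u / y ^ p ∈ UU w 1 :=
    ⟨hv0, by simpa using (red_eq_iff hF hvge Ge.one).1 hred⟩
  have e : u = u / y ^ p * y ^ p := (div_mul_cancel₀ _ hyp0).symm
  rw [cl_eq_of_eq_mul_pow hC hv0 hy0 e]
  exact cl_mem_XU hC hv

/-- the bottom map `n ↦ cl (π ^ n)`. -/
def sBot (cl : K → X) (π : K) (n : ZMod p) : X := cl (π ^ n.val)

include hC hπ0 in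
theorem sBot_add (n m : ZMod p) : sBot cl π (n + m) - sBot cl π n - sBot cl π m = 0 := by
  unfold sBot
  have h1 : n.val + m.val = (n + m).val + p * ((n.val + m.val) / p) := by
    rw [ZMod.val_add]
    exact (Nat.mod_add_div _ _).symm
  have hc0 : π ^ ((n.val + m.val) / p) ≠ 0 := pow_ne_zero _ hπ0
  have h2 : cl (π ^ n.val) + cl (π ^ m.val) = cl (π ^ (n + m).val) := by
    rw [← hC.cl_mul _ _ (pow_ne_zero _ hπ0) (pow_ne_zero _ hπ0), ← pow_add, h1, pow_add, pow_mul',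
      hC.cl_mul _ _ (pow_ne_zero _ hπ0) (pow_ne_zero _ hc0), cl_pow_p hC hc0, add_zero]
  rw [← h2]
  abel

include hF hC hπ0 in
theorem sBot_equiv [Finite κ] (g : G) (n : ZMod p) :
    sBot cl π n - ρX g (sBot cl π n) ∈ XU w cl hC 1 := by
  unfold sBot
  have hk0 : π ^ n.val ≠ 0 := pow_ne_zero _ hπ0
  obtain ⟨hu0, hu⟩ := ord_smul_div_self hF hπ0 g
  have huk0 : (g • π / π) ^ n.val ≠ 0 := pow_ne_zero _ hu0
  have e : g • π ^ n.val = π ^ n.val * (g • π / π) ^ n.val := by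
    rw [smul_pow', div_pow, mul_div_cancel₀ _ hk0]
  rw [← hC.cl_smul g _ hk0, e, hC.cl_mul _ _ hk0 huk0]
  have h1 : cl (π ^ n.val) - (cl (π ^ n.val) + cl ((g • π / π) ^ n.val)) =
      -cl ((g • π / π) ^ n.val) := by abel
  rw [h1]
  refine (XU w cl hC 1).neg_mem (cl_unit_mem hF hC huk0 ?_)
  rw [w.ord_pow hu0, hu, mul_zero]

include hC hπ0 hπ in
theorem sBot_inj (n : ZMod p) (hs : sBot cl π n ∈ XU w cl hC 1) : n = 0 := by
  unfold sBot at hs
  obtain ⟨v, hv, hcl⟩ := hs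
  have hk0 : π ^ n.val ≠ 0 := pow_ne_zero _ hπ0
  obtain ⟨y, hy0, hxy⟩ := exists_eq_mul_pow hC hk0 hv.1 hcl.symm
  have h1 := congrArg w.ord hxy
  rw [w.ord_pow hπ0, hπ, mul_one, w.ord_mul hv.1 (pow_ne_zero p hy0),
    ord_eq_zero_of_mem_UU le_rfl hv, zero_add, w.ord_pow hy0] at h1
  have h2 : (p : ℤ) ∣ (n.val : ℤ) := ⟨w.ord y, h1⟩
  have h3 : p ∣ n.val := by exact_mod_cast h2
  have h4 : n.val = 0 := Nat.eq_zero_of_dvd_of_lt h3 (ZMod.val_lt n)
  exact (ZMod.val_eq_zero n).1 h4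

/-! #### the top piece -/

omit [MulSemiringAction G κ] in
theorem smul_natCast' (g : G) (n : ℕ) : g • (n : K) = n := by
  rw [← MulSemiringAction.toRingHom_apply, map_natCast]

include hF in
theorem red_sum {ι : Type*} (s : Finset ι) (f : ι → K) (hf : ∀ i ∈ s, w.Ge 0 (f i)) :
    red (∑ i ∈ s, f i) = ∑ i ∈ s, red (f i) := by
  classical
  induction s using Finset.induction_on with
  | empty => rw [Finset.sum_empty, Finset.sum_empty, red_zero hF]
  | insert a s ha ih =>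
    rw [Finset.sum_insert ha, Finset.sum_insert ha,
      hF.red_add _ _ (hf a (Finset.mem_insert_self a s))
        (Ge.sum fun i hi => hf i (Finset.mem_insert_of_mem hi)),
      ih fun i hi => hf i (Finset.mem_insert_of_mem hi)]

variable {ζ : K} (hζ : IsPrimitiveRoot ζ p) {E : ℕ} (hE : (E : ℤ) = w.ord (ζ - 1))

include hF hζ hE in
theorem one_le_E : 1 ≤ E := by
  have := ord_zeta_pos hF.prime hζ
  rw [← hE] at this
  exact_mod_cast this

include hF hζ hE in
theorem ge_lam : w.Ge ((p * E : ℕ) : ℤ) ((ζ - 1) ^ p) := by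
  refine Or.inr ?_
  rw [w.ord_pow (ord_zeta_sub_one hF.prime hζ).1, ← hE]
  push_cast
  exact le_rfl

include hF hζ hE in
theorem ord_lam : (ζ - 1) ^ p ≠ 0 ∧ w.ord ((ζ - 1) ^ p) = ((p * E : ℕ) : ℤ) := by
  refine ⟨pow_ne_zero p (ord_zeta_sub_one hF.prime hζ).1, ?_⟩
  rw [w.ord_pow (ord_zeta_sub_one hF.prime hζ).1, ← hE]
  push_cast
  rfl

include hF hζ hE in
theorem one_le_pE : 1 ≤ p * E :=
  Nat.one_le_iff_ne_zero.2 (Nat.mul_ne_zero hp.out.ne_zero
    (Nat.one_le_iff_ne_zero.1 (one_le_E hF hζ hE)))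

/-- the top map `n ↦ cl (1 + n (ζ - 1) ^ p)`. -/
def sTop (cl : K → X) (ζ : K) (n : ZMod p) : X := cl (1 + (n.val : K) * (ζ - 1) ^ p)

include hF hζ hE in
theorem sTop_arg_mem (k : ℕ) : 1 + (k : K) * (ζ - 1) ^ p ∈ UU w (p * E) :=
  one_add_mem_UU (one_le_pE hF hζ hE) (by
    have := (Ge.natCast (w := w) k).mul (ge_lam hF hζ hE)
    rwa [zero_add] at this)

include hF hC hζ hE in
theorem sTop_mem (n : ZMod p) : sTop cl ζ n ∈ XU w cl hC (p * E) :=
  cl_mem_XU hC (sTop_arg_mem hF hζ hE _)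

include hF hC hζ hE in
theorem sTop_add (n m : ZMod p) :
    sTop cl ζ (n + m) - sTop cl ζ n - sTop cl ζ m ∈ XU w cl hC (p * E + 1) := by
  unfold sTop
  have hlam := ge_lam hF hζ hE
  have hmem := sTop_arg_mem hF hζ hE
  have hy := mul_mem_UU (hmem n.val) (hmem m.val)
  have e1 : cl (1 + ((n + m).val : K) * (ζ - 1) ^ p) - cl (1 + (n.val : K) * (ζ - 1) ^ p) -
      cl (1 + (m.val : K) * (ζ - 1) ^ p) =
      cl (1 + ((n + m).val : K) * (ζ - 1) ^ p) -
        cl ((1 + (n.val : K) * (ζ - 1) ^ p) * (1 + (m.val : K) * (ζ - 1) ^ p)) := by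
    rw [hC.cl_mul _ _ (hmem n.val).1 (hmem m.val).1]
    abel
  rw [e1]
  refine cl_sub_mem_XU hC (one_le_pE hF hζ hE) (hmem _) hy ?_
  have h1 : n.val + m.val = (n + m).val + p * ((n.val + m.val) / p) := by
    rw [ZMod.val_add]
    exact (Nat.mod_add_div _ _).symm
  have h1' : (n.val : K) + (m.val : K) =
      ((n + m).val : K) + (p : K) * (((n.val + m.val) / p : ℕ) : K) := by
    exact_mod_cast congrArg (Nat.cast : ℕ → K) h1
  have e2 : 1 + ((n + m).val : K) * (ζ - 1) ^ p -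
      (1 + (n.val : K) * (ζ - 1) ^ p) * (1 + (m.val : K) * (ζ - 1) ^ p) =
      -((p : K) * (((n.val + m.val) / p : ℕ) : K) * (ζ - 1) ^ p) -
        (n.val : K) * (m.val : K) * ((ζ - 1) ^ p * (ζ - 1) ^ p) := by
    linear_combination (-(ζ - 1) ^ p) * h1'
  rw [e2]
  have hpos := hF.prime.pos
  have hE1 : (1 : ℤ) ≤ ((p * E : ℕ) : ℤ) := by exact_mod_cast one_le_pE hF hζ hE
  refine Ge.sub (Ge.neg ?_) ?_
  · have := ((w.ge_ord (p : K)).mul (Ge.natCast (w := w) ((n.val + m.val) / p))).mul hlam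
    refine this.mono ?_
    push_cast at hE1 ⊢
    omega
  · have := ((Ge.natCast (w := w) n.val).mul (Ge.natCast (w := w) m.val)).mul (hlam.mul hlam)
    refine this.mono ?_
    push_cast at hE1 ⊢
    omega

include hF hC hζ hE in
theorem sTop_equiv [Finite κ] (χ : G →* (ZMod p)ˣ)
    (hχ : ∀ (g : G) (ξ : K), ξ ^ p = 1 → g • ξ = ξ ^ ((χ g : (ZMod p)ˣ) : ZMod p).val)
    (g : G) (n : ZMod p) :
    sTop cl ζ (((χ g : (ZMod p)ˣ) : ZMod p) * n) - ρX g (sTop cl ζ n) ∈
      XU w cl hC (p * E + 1) := by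
  haveI := charP_of_uField hF
  unfold sTop
  have hlam := ge_lam hF hζ hE
  have hmem := sTop_arg_mem hF hζ hE
  have hw := hF.prime
  set c := ((χ g : (ZMod p)ˣ) : ZMod p).val with hc
  rw [← hC.cl_smul g _ (hmem n.val).1]
  set gs : K := ∑ i ∈ Finset.range c, ζ ^ i with hgs
  have hζord := ord_root_of_unity (w := w) hw.prime.ne_zero hζ.pow_eq_one
  have hζge : w.Ge 0 ζ := Or.inr hζord.2.ge
  have hgsge : w.Ge 0 gs := Ge.sum fun i _ => ge_zero_pow hF hζge i
  have e : g • (1 + (n.val : K) * (ζ - 1) ^ p) = 1 + ((n.val : K) * gs ^ p) * (ζ - 1) ^ p := by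
    rw [smul_add, smul_one, smul_mul', smul_natCast', smul_pow', smul_sub, smul_one,
      hχ g ζ hζ.pow_eq_one, ← hc, ← mul_geom_sum, mul_pow]
    ring
  rw [e]
  have hcge : w.Ge 0 ((n.val : K) * gs ^ p) := by
    have := (Ge.natCast (w := w) n.val).mul (ge_zero_pow hF hgsge p)
    rwa [add_zero] at this
  refine cl_one_add_sub_mem hC (one_le_pE hF hζ hE) hlam (Ge.natCast _) hcge ?_
  rw [← red_eq_iff hF (Ge.natCast _) hcge, red_natCast hF,
    hF.red_mul _ _ (Ge.natCast _) (ge_zero_pow hF hgsge p), red_natCast hF, red_pow hF hgsge]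
  -- `red ζ = 1`
  have hζ1 : red ζ = 1 := by
    rw [← hF.red_one]
    refine (red_eq_iff hF hζge Ge.one).2 (Or.inr ?_)
    rw [← hE]
    exact_mod_cast one_le_E hF hζ hE
  have hredgs : red gs = (c : κ) := by
    rw [hgs, red_sum hF _ _ fun i _ => ge_zero_pow hF hζge i]
    simp only [red_pow hF hζge, hζ1, one_pow, Finset.sum_const, Finset.card_range, nsmul_eq_mul,
      mul_one]
  rw [hredgs]
  have hcp : (c : κ) ^ p = (c : κ) := by
    have := map_natCast (frobenius κ p) c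
    rwa [frobenius_def] at this
  rw [hcp, ZMod.val_mul]
  have h2 : c * n.val = c * n.val % p + p * (c * n.val / p) := (Nat.mod_add_div _ _).symm
  have h3 : ((c * n.val : ℕ) : κ) = ((c * n.val % p : ℕ) : κ) := by
    conv_lhs => rw [h2]
    rw [Nat.cast_add, Nat.cast_mul, natCast_p_eq_zero hF, zero_mul, add_zero]
  rw [← h3]
  push_cast
  ring

include hF hC hζ hE in
theorem sTop_inj [Fintype G] (hG : (Fintype.card G).Coprime p) (n : ZMod p)
    (hs : sTop cl ζ n ∈ XU w cl hC (p * E + 1)) : n = 0 := by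
  haveI := charP_of_uField hF
  unfold sTop at hs
  have hw := hF.prime
  have hp0 : p ≠ 0 := hw.prime.ne_zero
  obtain ⟨hl0, hlord⟩ := ord_zeta_sub_one hw hζ
  have hEpos := ord_zeta_pos hw hζ
  have hpE := p_mul_ord_zeta hw hζ
  obtain ⟨hlam0, hlamord⟩ := ord_lam hF hζ hE
  have hpE1 := one_le_pE hF hζ hE
  set l := ζ - 1 with hl
  have hx := sTop_arg_mem hF hζ hE n.val
  obtain ⟨v, hv, hcl⟩ := hs
  obtain ⟨y, hy0, hxy⟩ := exists_eq_mul_pow hC hx.1 hv.1 hcl.symm
  have hvj : v ∈ UU w (p * E) := UU_anti (Nat.le_succ _) hv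
  have hyp : y ^ p ∈ UU w (p * E) := by
    have : y ^ p = (1 + (n.val : K) * l ^ p) / v := by
      rw [hxy]
      field_simp [hv.1]
    rw [this]
    exact div_mem_UU hpE1 hx hvj
  have hy1 := mem_UU_one_of_pow hF (UU_anti hpE1 hyp)
  set z := y - 1 with hz
  have hyz : y = 1 + z := by rw [hz]; ring
  have hzge1 : w.Ge 1 z := by simpa using hy1.2
  have hzge : w.Ge 0 z := hzge1.mono (by norm_num)
  -- `ord z ≥ E`
  have hzE : z = 0 ∨ w.ord l ≤ w.ord z := by
    by_contra hcon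
    rw [not_or, not_le] at hcon
    obtain ⟨hz0, hlt⟩ := hcon
    have hm1 : 1 ≤ w.ord z := (ge_iff hz0).1 hzge1
    obtain ⟨hne, hord⟩ := ord_pow_sub_one_of_lt hw hζ hz0 hm1 hlt
    have h1 := hyp.2
    rw [hyz] at h1
    have h2 := (ge_iff hne).1 h1
    rw [hord] at h2
    push_cast at h2
    rw [hE] at h2
    have hp1 : (0 : ℤ) < (p : ℤ) := by exact_mod_cast hw.prime.pos
    have := mul_lt_mul_of_pos_left hlt hp1
    omega
  -- `t = z / l`
  set t := z / l with ht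
  have hzt : z = t * l := by rw [ht, div_mul_cancel₀ _ hl0]
  have htge : w.Ge 0 t := by
    rcases eq_or_ne z 0 with hz0 | hz0
    · rw [ht, hz0, zero_div]; exact Ge.zero _
    · right
      rw [ht, w.ord_div hz0 hl0]
      have := hzE.resolve_left hz0
      omega
  obtain ⟨hq1, hqge⟩ := ge_p_div_add_one hw hζ
  rw [← hl] at hq1 hqge
  set q := (p : K) / l ^ (p - 1) with hq
  have hp1 : p - 1 + 1 = p := Nat.sub_add_cancel hw.prime.pos
  have hpq : (p : K) = q * l ^ (p - 1) := by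
    rw [hq, div_mul_cancel₀ _ (pow_ne_zero _ hl0)]
  have hlp : l ^ p = l ^ (p - 1) * l := by rw [← pow_succ, hp1]
  -- the remainder
  have hR := ge_one_add_pow' hw hzge
  set R := (1 + z) ^ p - 1 - z ^ p - (p : K) * z with hRdef
  have hRge : w.Ge ((p * E + 1 : ℕ) : ℤ) R := by
    rcases eq_or_ne z 0 with hz0 | hz0
    · have : R = 0 := by
        rw [hRdef, hz0, add_zero, one_pow, zero_pow hp0, mul_zero]
        ring
      rw [this]; exact Ge.zero _
    · refine hR.mono ?_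
      have := hzE.resolve_left hz0
      push_cast
      rw [hE]
      omega
  have hA : z ^ p = t ^ p * l ^ p := by rw [hzt, mul_pow]
  have hB : (p : K) * z = q * t * l ^ p := by
    rw [hpq, hlp]
    conv_lhs => rw [hzt]
    ring
  have hdec : (1 + z) ^ p - 1 = (t ^ p + q * t) * l ^ p + R := by
    rw [hRdef]
    linear_combination hA + hB
  -- `n λ - (t^p + q t) λ ∈ 𝔪^(pE+1)`
  have hypge : w.Ge 0 (y ^ p) := ge_zero_of_mem_UU hyp
  have h3 : w.Ge ((p * E + 1 : ℕ) : ℤ) (((n.val : K) - (t ^ p + q * t)) * l ^ p) := by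
    have e : ((n.val : K) - (t ^ p + q * t)) * l ^ p = (v - 1) * y ^ p + R := by
      have h4 : (n.val : K) * l ^ p = v * y ^ p - 1 := by rw [← hxy]; ring
      have h5 : y ^ p - 1 = (t ^ p + q * t) * l ^ p + R := by rw [hyz]; exact hdec
      linear_combination h4 + h5
    rw [e]
    refine Ge.add ?_ hRge
    have := hv.2.mul hypge
    rwa [add_zero] at this
  have hcge : w.Ge 0 (t ^ p + q * t) := by
    refine Ge.add (ge_zero_pow hF htge p) ?_
    have := hqge.mul htge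
    rwa [add_zero] at this
  have h4 : w.Ge 1 ((n.val : K) - (t ^ p + q * t)) := by
    rcases eq_or_ne ((n.val : K) - (t ^ p + q * t)) 0 with h0 | h0
    · rw [h0]; exact Ge.zero _
    · right
      have h5 := (ge_iff (mul_ne_zero h0 hlam0)).1 h3
      rw [w.ord_mul h0 hlam0, hlamord] at h5
      push_cast at h5
      omega
  have h5 : (n.val : κ) = red t ^ p - red t := by
    have h6 := (red_eq_iff hF (Ge.natCast n.val) hcge).2 h4
    have hq' : red q = -1 := by
      have : red q = red (-1) := (red_eq_iff hF hqge Ge.one.neg).2 (by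
        rw [sub_neg_eq_add]; exact hq1)
      rw [this, red_neg hF Ge.one, hF.red_one]
    have hqt : w.Ge 0 (q * t) := by
      have := hqge.mul htge
      rwa [add_zero] at this
    rw [red_natCast hF, hF.red_add _ _ (ge_zero_pow hF htge p) hqt, red_pow hF htge,
      hF.red_mul _ _ hqge htge, hq'] at h6
    rw [h6]
    ring
  have hfixn : ∀ g : G, g • (n.val : κ) = (n.val : κ) := fun g => by
    rw [← MulSemiringAction.toRingHom_apply, map_natCast]
  have h6 := eq_zero_of_artinSchreier hG hF.fix hfixn h5.symm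
  have h7 : p ∣ n.val := (CharP.cast_eq_zero_iff κ p n.val).1 h6
  have h8 : n.val = 0 := Nat.eq_zero_of_dvd_of_lt h7 (ZMod.val_lt n)
  exact (ZMod.val_eq_zero n).1 h8

end Pieces

/-! ### the inertia subgroup -/

section Inertia

variable (hF : UField w G p κ red) {π : K} (hπ0 : π ≠ 0) (hπ : w.ord π = 1)

include hF hπ0 hπ in
/-- an element of the inertia group with `θ = 1` moves every element by a higher order term. -/
theorem smul_div_mem_UU {g : G} (hg : g ∈ inertia G κ) (hθ : theta red π g = 1) {x : K}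
    (hx0 : x ≠ 0) : g • x / x ∈ UU w 1 := by
  -- the property `S x`
  have hmul : ∀ x y : K, x ≠ 0 → y ≠ 0 → g • x / x ∈ UU w 1 → g • y / y ∈ UU w 1 →
      g • (x * y) / (x * y) ∈ UU w 1 := by
    intro x y hx hy hSx hSy
    have e : g • (x * y) / (x * y) = (g • x / x) * (g • y / y) := by
      rw [smul_mul']
      field_simp
    rw [e]
    exact mul_mem_UU hSx hSy
  have hinv : ∀ x : K, x ≠ 0 → g • x / x ∈ UU w 1 → g • x⁻¹ / x⁻¹ ∈ UU w 1 := by
    intro x hx hSx
    have e : g • x⁻¹ / x⁻¹ = (g • x / x)⁻¹ := by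
      rw [smul_inv'', inv_div, div_eq_mul_inv, inv_inv, mul_comm, div_eq_mul_inv]
    rw [e]
    exact inv_mem_UU le_rfl hSx
  -- `π`
  obtain ⟨hu0, hu⟩ := ord_smul_div_self hF hπ0 g
  have hSπ : g • π / π ∈ UU w 1 := by
    refine ⟨hu0, ?_⟩
    have : red (g • π / π) = red 1 := by rw [hF.red_one]; exact hθ
    simpa using (red_eq_iff hF (Or.inr hu.ge) Ge.one).1 this
  -- units
  have hSu : ∀ u : K, u ≠ 0 → w.ord u = 0 → g • u / u ∈ UU w 1 := by
    intro u hu0 hu
    have hgu0 : g • u ≠ 0 := (smul_ne_zero_iff_ne g).2 hu0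
    have hord : w.ord (g • u / u) = 0 := by rw [w.ord_div hgu0 hu0, hF.inv, sub_self]
    refine ⟨div_ne_zero hgu0 hu0, ?_⟩
    have h1 : red (g • u / u) * red u = red u := by
      rw [← hF.red_mul _ _ (Or.inr hord.ge) (Or.inr hu.ge), div_mul_cancel₀ _ hu0,
        hF.red_smul g u (Or.inr hu.ge), hg]
    have h2 : red (g • u / u) = red 1 := by
      rw [hF.red_one]
      exact mul_right_cancel₀ (red_ne_zero hF hu0 hu) (by rw [h1, one_mul])
    simpa using (red_eq_iff hF (Or.inr hord.ge) Ge.one).1 h2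
  -- powers of `π`
  have hSpow : ∀ k : ℕ, g • π ^ k / π ^ k ∈ UU w 1 := by
    intro k
    induction k with
    | zero => rw [pow_zero, smul_one, div_one]; exact one_mem_UU 1
    | succ k ih => rw [pow_succ]; exact hmul _ _ (pow_ne_zero k hπ0) hπ0 ih hSπ
  have hSzpow : ∀ n : ℤ, g • π ^ n / π ^ n ∈ UU w 1 := by
    intro n
    cases n with
    | ofNat k => rw [Int.ofNat_eq_natCast, zpow_natCast]; exact hSpow k
    | negSucc k =>
      rw [zpow_negSucc]
      exact hinv _ (pow_ne_zero _ hπ0) (hSpow (k + 1))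
  -- general `x`
  set n := w.ord x with hn
  have hπn0 : π ^ n ≠ 0 := zpow_ne_zero n hπ0
  have hu0' : x / π ^ n ≠ 0 := div_ne_zero hx0 hπn0
  have hu' : w.ord (x / π ^ n) = 0 := by
    rw [w.ord_div hx0 hπn0, w.ord_zpow hπ0, hπ, mul_one, sub_self]
  have e : x = x / π ^ n * π ^ n := (div_mul_cancel₀ _ hπn0).symm
  have := hmul _ _ hu0' hπn0 (hSu _ hu0' hu') (hSzpow n)
  rwa [← e] at this

include hF hπ0 hπ in
theorem ge_smul_sub {g : G} (hg : g ∈ inertia G κ) (hθ : theta red π g = 1) {x : K}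
    (hx0 : x ≠ 0) : w.Ge (w.ord x + 1) (g • x - x) := by
  have h := smul_div_mem_UU hF hπ0 hπ hg hθ hx0
  have e : g • x - x = (g • x / x - 1) * x := by
    field_simp
  rw [e]
  have := h.2.mul (w.ge_ord x)
  refine this.mono ?_
  push_cast
  omega

include hF hπ0 hπ in
/-- **`θ` is injective on the inertia subgroup.** -/
theorem theta_inj [Finite G] (hG : (Nat.card G).Coprime p) {g : G} (hg : g ∈ inertia G κ)
    (hθ : theta red π g = 1) : g = 1 := by
  by_contra hne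
  have hex : ∃ x : K, g • x ≠ x := by
    by_contra hall
    push_neg at hall
    exact hne (hF.faithful g hall)
  obtain ⟨x, hx⟩ := hex
  set y := g • x - x with hy
  have hy0 : y ≠ 0 := sub_ne_zero.2 hx
  -- the powers of `g`
  have hpow : ∀ k : ℕ, g ^ k ∈ inertia G κ ∧ theta red π (g ^ k) = 1 := by
    intro k
    induction k with
    | zero =>
      refine ⟨by rw [pow_zero]; exact Subgroup.one_mem _, ?_⟩
      rw [pow_zero]
      unfold theta
      rw [one_smul, div_self hπ0, hF.red_one]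
    | succ k ih =>
      refine ⟨Subgroup.pow_mem _ hg _, ?_⟩
      rw [pow_succ, theta_mul hF hπ0, ih.2, hθ, smul_one, one_mul]
  -- telescoping
  have htel : ∀ N : ℕ, g ^ N • x - x = ∑ k ∈ Finset.range N, g ^ k • y := by
    intro N
    induction N with
    | zero => rw [pow_zero, one_smul, sub_self, Finset.sum_range_zero]
    | succ N ih =>
      rw [Finset.sum_range_succ, ← ih, pow_succ, mul_smul, hy, smul_sub]
      ring
  set N := orderOf g with hN
  have hNpos : 0 < N := orderOf_pos g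
  have hNdvd : N ∣ Nat.card G := orderOf_dvd_natCard g
  have hpN : ¬ p ∣ N := by
    intro h
    have := Nat.Coprime.eq_one_of_dvd hG.symm (h.trans hNdvd)
    exact hp.out.one_lt.ne' this
  obtain ⟨hN0, hNord⟩ := ord_natCast_of_not_dvd hF.prime (n := N) hpN
  have h1 := htel N
  have hgN : g ^ N = 1 := pow_orderOf_eq_one g
  rw [hgN, one_smul, sub_self] at h1
  -- `N y ≡ 0`
  have h2 : w.Ge (w.ord y + 1) ((N : K) * y) := by
    have e : (N : K) * y = -(∑ k ∈ Finset.range N, (g ^ k • y - y)) := by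
      rw [Finset.sum_sub_distrib, Finset.sum_const, Finset.card_range, nsmul_eq_mul, ← h1]
      ring
    rw [e]
    exact (Ge.sum fun k _ => ge_smul_sub hF hπ0 hπ (hpow k).1 (hpow k).2 hy0).neg
  have h3 := (ge_iff (mul_ne_zero hN0 hy0)).1 h2
  rw [w.ord_mul hN0 hy0, hNord] at h3
  omega

include hF in
/-- the inertia subgroup is totally ramified: `#I ∣ ord p`. -/
theorem card_inertia_dvd [Finite G] (hG : (Nat.card G).Coprime p) :
    (Nat.card ↥(inertia G κ) : ℤ) ∣ w.ord (p : K) := by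
  classical
  let _i : Fintype ↥(inertia G κ) := Fintype.ofFinite _
  set c := Fintype.card ↥(inertia G κ) with hc
  have hcdvd : c ∣ Nat.card G := by
    rw [hc, ← Nat.card_eq_fintype_card]
    exact Subgroup.card_subgroup_dvd_card _
  have hpc : ¬ p ∣ c := by
    intro h
    have := Nat.Coprime.eq_one_of_dvd hG.symm (h.trans hcdvd)
    exact hp.out.one_lt.ne' this
  obtain ⟨hc0, hcord⟩ := ord_natCast_of_not_dvd hF.prime (n := c) hpc
  have hram : Ram w ↥(inertia G κ) := by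
    refine ⟨fun σ x => hF.inv σ.1 x, fun σ hσ => ?_, fun x hx0 hx => ?_, hF.unif⟩
    · apply Subtype.ext
      exact hF.faithful σ.1 hσ
    · -- the average of the conjugates
      refine ⟨(c : K)⁻¹ * ∑ σ : ↥(inertia G κ), σ • x, fun τ => ?_, ?_⟩
      · rw [smul_mul', smul_inv'', smul_natCast' (K := K) τ c]
        congr 1
        rw [Finset.smul_sum]
        refine Fintype.sum_equiv (Equiv.mulLeft τ) _ _ fun σ => ?_
        rw [Equiv.coe_mulLeft, mul_smul]
      · have hxge : w.Ge 0 x := Or.inr hx.ge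
        have e : x - (c : K)⁻¹ * ∑ σ : ↥(inertia G κ), σ • x =
            (c : K)⁻¹ * ∑ σ : ↥(inertia G κ), (x - σ • x) := by
          rw [Finset.sum_sub_distrib, Finset.sum_const, Finset.card_univ, nsmul_eq_mul, ← hc,
            mul_sub, ← mul_assoc, inv_mul_cancel₀ hc0, one_mul]
        rw [e]
        have hinv : w.Ge 0 (c : K)⁻¹ := Or.inr (by rw [w.ord_inv hc0, hcord, neg_zero])
        have hsum : w.Ge 1 (∑ σ : ↥(inertia G κ), (x - σ • x)) := by
          refine Ge.sum fun σ _ => ?_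
          have hσx : w.Ge 0 (σ • x) := Or.inr (by
            show 0 ≤ w.ord (σ.1 • x)
            rw [hF.inv]; exact hx.ge)
          rw [← red_eq_iff hF hxge hσx]
          show red x = red (σ.1 • x)
          rw [hF.red_smul σ.1 x hxge, σ.2]
        have := hinv.mul hsum
        rwa [zero_add] at this
  have h := hram.card_dvd_ord (⊤ : Subgroup ↥(inertia G κ)) hF.prime.ne_zero
    (mem_Fix.2 fun σ _ => smul_natCast' (K := K) σ.1 p)
  have hcard : Nat.card ↥(⊤ : Subgroup ↥(inertia G κ)) = Nat.card ↥(inertia G κ) :=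
    Nat.card_congr Subgroup.topEquiv.toEquiv
  rwa [hcard] at h

end Inertia

/-! ### the arithmetic of the indices -/

section Arith

/-- `∏_{j ≤ pE, p ∤ j} c j = ∏_{E < n ≤ pE} c n` when `c (m p) = c m`. -/
theorem prod_not_dvd_eq (q : ℕ) (hq : 2 ≤ q) (c : ℕ → ℕ) (hc : ∀ m, c (m * q) = c m)
    (hpos : ∀ m, 0 < c m) (E : ℕ) :
    ∏ j ∈ Ioc 0 (q * E), (if q ∣ j then 1 else c j) = ∏ n ∈ Ioc E (q * E), c n := by
  induction E with
  | zero => rw [mul_zero, Finset.Ioc_self, Finset.prod_empty, Finset.prod_empty]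
  | succ E ih =>
    have hq1 : q - 1 + 1 = q := by omega
    have h1 : q * (E + 1) = q * E + (q - 1) + 1 := by rw [mul_add, mul_one]; omega
    -- the middle block
    have hM : ∏ j ∈ Ioc (q * E) (q * E + (q - 1)), (if q ∣ j then 1 else c j) =
        ∏ j ∈ Ioc (q * E) (q * E + (q - 1)), c j := by
      refine Finset.prod_congr rfl fun j hj => ?_
      obtain ⟨hj1, hj2⟩ := Finset.mem_Ioc.1 hj
      rw [if_neg]
      intro hdvd
      have h2 : q ∣ j - q * E := Nat.dvd_sub hdvd (dvd_mul_right q E)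
      have h3 : j - q * E = 0 := Nat.eq_zero_of_dvd_of_lt h2 (by omega)
      omega
    have hL : ∏ j ∈ Ioc 0 (q * (E + 1)), (if q ∣ j then 1 else c j) =
        (∏ n ∈ Ioc E (q * E), c n) * ∏ j ∈ Ioc (q * E) (q * E + (q - 1)), c j := by
      rw [h1, Finset.prod_Ioc_succ_top (Nat.zero_le _), if_pos (by rw [← h1]; exact dvd_mul_right _ _),
        mul_one, ← Finset.prod_Ioc_consecutive _ (Nat.zero_le (q * E)) (Nat.le_add_right _ _), ih, hM]
    have hE1 : E ≤ q * E := Nat.le_mul_of_pos_left E (by omega)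
    have hR : c (E + 1) * ∏ n ∈ Ioc (E + 1) (q * (E + 1)), c n =
        c (E + 1) * ((∏ n ∈ Ioc E (q * E), c n) * ∏ j ∈ Ioc (q * E) (q * E + (q - 1)), c j) := by
      have h2 : E + 1 ≤ q * (E + 1) := Nat.le_mul_of_pos_left _ (by omega)
      have h3 : ∏ n ∈ Ioc E (E + 1), c n = c (E + 1) := by
        rw [Nat.Ioc_succ_singleton, Finset.prod_singleton]
      rw [← h3, Finset.prod_Ioc_consecutive _ (Nat.le_succ E) h2, h3, h1,
        Finset.prod_Ioc_succ_top (by omega), ← h1,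
        ← Finset.prod_Ioc_consecutive _ hE1 (Nat.le_add_right _ _),
        show q * (E + 1) = (E + 1) * q by ring, hc]
      ring
    rw [hL]
    exact (Nat.eq_of_mul_eq_mul_left (hpos (E + 1)) hR).symm

/-- the arithmetic step: blocks of length `e'` bound `#P`, hence so does the product over the
indices prime to `p`. -/
theorem le_prod_not_dvd (q : ℕ) (hq : 2 ≤ q) (c : ℕ → ℕ) (hc : ∀ m, c (m * q) = c m)
    (hpos : ∀ m, 0 < c m) (E e' N : ℕ) (he' : E + e' ≤ q * E)
    (hblock : N ≤ ∏ m ∈ range e', c (E + 1 + m)) :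
    N ≤ ∏ j ∈ Ioc 0 (q * E), (if q ∣ j then 1 else c j) := by
  rw [prod_not_dvd_eq q hq c hc hpos E]
  refine hblock.trans ?_
  have h1 : ∏ m ∈ range e', c (E + 1 + m) = ∏ n ∈ Ioc E (E + e'), c n := by
    have : Ioc E (E + e') = Ico (E + 1) (E + e' + 1) := by
      ext n
      rw [Finset.mem_Ioc, Finset.mem_Ico]
      omega
    rw [this, Finset.prod_Ico_eq_prod_range]
    congr 1
    congr 1
    omega
  rw [h1]
  refine Finset.prod_le_prod_of_subset_of_one_le' ?_ fun i _ _ => hpos i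
  intro n hn
  rw [Finset.mem_Ioc] at hn ⊢
  omega

end Arith

/-! ### the count -/

section Final

variable {X : Type*} [AddCommGroup X] [Module (ZMod p) X] {ρX : Representation (ZMod p) G X}
  {cl : K → X} {P : Type*} [AddCommGroup P] [Module (ZMod p) P]

/-- **the units count**, with the auxiliary instances. -/
theorem unitsBound_aux [Algebra (ZMod p) κ] [Fintype G] [Fintype κ] [Finite P]
    (hF : UField w G p κ red) (hG : (Fintype.card G).Coprime p) (hC : UCl p ρX cl)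
    (χ : G →* (ZMod p)ˣ)
    (hχ : ∀ (g : G) (ξ : K), ξ ^ p = 1 → g • ξ = ξ ^ ((χ g : (ZMod p)ˣ) : ZMod p).val)
    (ρP : Representation (ZMod p) G P) [Finite ↥(HomG ρP ρX)] :
    Nat.card ↥(HomG ρP (chiRep (1 : G →* (ZMod p)ˣ))) * Nat.card ↥(HomG ρP (chiRep χ)) *
      Nat.card P ≤ Nat.card ↥(HomG ρP ρX) := by
  classical
  obtain ⟨π, hπ0, hπ⟩ := hF.unif
  obtain ⟨ζ, hζ⟩ := hF.zeta
  have hw := hF.prime
  have hp2 : 2 ≤ p := hw.prime.two_le
  have hG' : (Nat.card G).Coprime p := by rwa [Nat.card_eq_fintype_card]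
  -- `E`
  have hEpos := ord_zeta_pos hw hζ
  obtain ⟨E, hE⟩ : ∃ E : ℕ, (E : ℤ) = w.ord (ζ - 1) :=
    ⟨(w.ord (ζ - 1)).toNat, Int.toNat_of_nonneg hEpos.le⟩
  have hE1 := one_le_E hF hζ hE
  have hpE1 := one_le_pE hF hζ hE
  -- the crossed homomorphism
  set θ : G → κ := theta red π with hθdef
  have hθ0 : ∀ g, θ g ≠ 0 := theta_ne_zero hF hπ0
  have hθ : ∀ g h, θ (g * h) = θ g * g • θ h := theta_mul hF hπ0
  -- finiteness
  haveI hfin : ∀ B : Submodule (ZMod p) X, Finite ↥(HomGin ρP ρX B) := fun B =>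
    finite_HomGin_of_le (le_top : B ≤ ⊤)
  -- notation
  set a : ℕ → ℕ := fun j => Nat.card ↥(HomGin ρP ρX (XU w cl hC j)) with ha
  set c : ℕ → ℕ := fun j => Nat.card ↥(HomG ρP (twRep θ hθ0 hθ j)) with hc
  set gg : ℕ → ℕ := fun j => if p ∣ j then 1 else c j with hgg
  haveI hfinc : ∀ j, Finite ↥(HomG ρP (twRep θ hθ0 hθ j)) := fun j =>
    Finite.of_injective (fun f : ↥(HomG ρP (twRep θ hθ0 hθ j)) => (f.1 : P → κ))
      fun f f' h => Subtype.ext (DFunLike.coe_injective h)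
  have hcpos : ∀ j, 0 < c j := fun j => Nat.card_pos
  have hstab : ∀ j g, ∀ x ∈ XU w cl hC j, ρX g x ∈ XU w cl hC j := fun j g =>
    XU_stable hC hF j g
  -- the middle steps
  have hmid : ∀ j : ℕ, 1 ≤ j → j + 1 ≤ p * E → a (j + 1) * gg j ≤ a j := by
    intro j hj hjE
    by_cases hpj : p ∣ j
    · rw [hgg]
      simp only [if_pos hpj, mul_one]
      exact card_HomGin_le (XU_anti hC (Nat.le_succ j))
    · rw [hgg]
      simp only [if_neg hpj]
      have hjE' : (j : ℤ) < (p : ℤ) * w.ord (ζ - 1) := by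
        rw [← hE]
        exact_mod_cast hjE
      exact card_mul_le_zmod hG (XU_anti hC (Nat.le_succ j)) (hstab (j + 1)) (hstab j)
        (sMid hF cl π j) (sMid_mem hF hC hπ0 hπ hj) (sMid_add hF hC hπ0 hπ hj)
        (fun g z => sMid_equiv hF hC hπ0 hπ hj g z)
        (fun z hz => sMid_inj hF hC hπ0 hπ hζ hj hjE' hpj z hz)
  -- the chain
  have hchain : ∀ n : ℕ, n + 1 ≤ p * E → a (n + 1) * ∏ j ∈ Ioc 0 n, gg j ≤ a 1 := by
    intro n
    induction n with
    | zero => intro _; rw [Finset.Ioc_self, Finset.prod_empty, mul_one]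
    | succ n ih =>
      intro hn
      rw [Finset.prod_Ioc_succ_top (Nat.zero_le n)]
      calc a (n + 1 + 1) * ((∏ j ∈ Ioc 0 n, gg j) * gg (n + 1))
          = (a (n + 1 + 1) * gg (n + 1)) * ∏ j ∈ Ioc 0 n, gg j := by ring
        _ ≤ a (n + 1) * ∏ j ∈ Ioc 0 n, gg j :=
            Nat.mul_le_mul_right _ (hmid (n + 1) (Nat.le_add_left 1 n) hn)
        _ ≤ a 1 := ih (by omega)
  have h1 : a (p * E) * ∏ j ∈ Ioc 0 (p * E), gg j ≤ a 1 := by
    have hpE' : p * E - 1 + 1 = p * E := Nat.sub_add_cancel hpE1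
    have h := hchain (p * E - 1) (by omega)
    rw [hpE'] at h
    have h2 : ∏ j ∈ Ioc 0 (p * E), gg j = ∏ j ∈ Ioc 0 (p * E - 1), gg j := by
      conv_lhs => rw [← hpE']
      rw [Finset.prod_Ioc_succ_top (Nat.zero_le _), hpE']
      have : gg (p * E) = 1 := by
        rw [hgg]
        simp only [if_pos (dvd_mul_right p E)]
      rw [this, mul_one]
    rwa [h2]
  -- the top step
  have htop : Nat.card ↥(HomG ρP (chiRep χ)) ≤ a (p * E) := by
    have h := card_mul_le_zmod (ρP := ρP) (ρZ := chiRep χ) hG (XU_anti hC (Nat.le_succ (p * E)))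
      (hstab (p * E + 1)) (hstab (p * E)) (sTop cl ζ) (sTop_mem hF hC hζ hE)
      (sTop_add hF hC hζ hE) (fun g z => sTop_equiv hF hC hζ hE χ hχ g z)
      (fun z hz => sTop_inj hF hC hζ hE hG z hz)
    have h2 : 1 ≤ Nat.card ↥(HomGin ρP ρX (XU w cl hC (p * E + 1))) := one_le_card_HomGin _
    calc Nat.card ↥(HomG ρP (chiRep χ))
        = 1 * Nat.card ↥(HomG ρP (chiRep χ)) := (one_mul _).symm
      _ ≤ Nat.card ↥(HomGin ρP ρX (XU w cl hC (p * E + 1))) * Nat.card ↥(HomG ρP (chiRep χ)) :=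
          Nat.mul_le_mul_right _ h2
      _ ≤ a (p * E) := h
  -- the bottom step
  have hbot : a 1 * Nat.card ↥(HomG ρP (chiRep (1 : G →* (ZMod p)ˣ))) ≤
      Nat.card ↥(HomG ρP ρX) := by
    refine card_mul_le_zmod (ρP := ρP) (ρZ := chiRep (1 : G →* (ZMod p)ˣ)) hG
      (le_top : XU w cl hC 1 ≤ ⊤) (hstab 1) (fun _ _ _ => Submodule.mem_top)
      (sBot cl π) (fun _ => Submodule.mem_top) (fun z z' => ?_) (fun g z => ?_)
      (fun z hz => sBot_inj hC hπ0 hπ z hz)
    · rw [sBot_add hC hπ0]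
      exact Submodule.zero_mem _
    · have : chiRep (1 : G →* (ZMod p)ˣ) g z = z := by
        rw [chiRep_apply, MonoidHom.one_apply, Units.val_one, one_mul]
      rw [this]
      exact sBot_equiv hF hC hπ0 g z
  -- the arithmetic
  have hinjθ : ∀ g ∈ inertia G κ, θ g = 1 → g = 1 := fun g hg h =>
    theta_inj hF hπ0 hπ hG' hg h
  have hblock : Nat.card P ≤ ∏ m ∈ range (Nat.card ↥(inertia G κ)), c (E + 1 + m) :=
    card_le_prod θ hθ0 hθ ρP hG hinjθ (E + 1)
  have he' : E + Nat.card ↥(inertia G κ) ≤ p * E := by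
    have hdvd := card_inertia_dvd hF hG'
    have hle := Int.le_of_dvd hw.pos hdvd
    have hl := (ord_zeta_sub_one hw hζ).2
    rw [← hE] at hl
    rw [← hl] at hle
    have h3 : ((Nat.card ↥(inertia G κ) : ℕ) : ℤ) ≤ ((p - 1 : ℕ) : ℤ) * (E : ℤ) := by
      rw [Nat.cast_sub hw.prime.pos, Nat.cast_one]
      exact hle
    have h4 : Nat.card ↥(inertia G κ) ≤ (p - 1) * E := by exact_mod_cast h3
    have h5 : p * E = E + (p - 1) * E := by
      have : p = 1 + (p - 1) := by omega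
      conv_lhs => rw [this]
      ring
    omega
  have hcmul : ∀ m, c (m * p) = c m := fun m =>
    (card_homG_twRep_mul_p θ hθ0 hθ ρP m).symm
  have hP := le_prod_not_dvd p hp2 c hcmul hcpos E _ _ he' hblock
  -- assembly
  calc Nat.card ↥(HomG ρP (chiRep (1 : G →* (ZMod p)ˣ))) * Nat.card ↥(HomG ρP (chiRep χ)) *
        Nat.card P
      ≤ Nat.card ↥(HomG ρP (chiRep (1 : G →* (ZMod p)ˣ))) * a (p * E) *
          ∏ j ∈ Ioc 0 (p * E), gg j :=
        Nat.mul_le_mul (Nat.mul_le_mul_left _ htop) hP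
    _ = Nat.card ↥(HomG ρP (chiRep (1 : G →* (ZMod p)ˣ))) *
          (a (p * E) * ∏ j ∈ Ioc 0 (p * E), gg j) := by ring
    _ ≤ Nat.card ↥(HomG ρP (chiRep (1 : G →* (ZMod p)ˣ))) * a 1 := Nat.mul_le_mul_left _ h1
    _ = a 1 * Nat.card ↥(HomG ρP (chiRep (1 : G →* (ZMod p)ˣ))) := by ring
    _ ≤ Nat.card ↥(HomG ρP ρX) := hbot

/-- **the units count** `LecUData7.UnitsBound`. -/
theorem unitsBound : UnitsBound := by
  intro K _ w G _ _ _ p _ κ _ _ _ red _ hF hG X _ _ ρX cl hC χ hχ P _ _ _ ρP _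
  haveI := charP_of_uField hF
  letI : Algebra (ZMod p) κ := ZMod.algebra κ p
  letI : Fintype G := Fintype.ofFinite G
  letI : Fintype κ := Fintype.ofFinite κ
  have hG' : (Fintype.card G).Coprime p := by rwa [← Nat.card_eq_fintype_card]
  exact unitsBound_aux hF hG' hC χ hχ ρP

end Final

end Fermat.Agent.W56.LecUnits7
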