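/-
Programme W56 (target S56), chapter (B) DICTIONARY, part 2 (helper9): the conditions making up the
deformation types of S56 are stable under base change along a local homomorphism
(`DetIsCyclotomic`, `IsUnramifiedAt`, `IsUnipotentOnInertiaAt`, `IsStrictOrdinaryAt`).
-/
import Mathlib
import Fermat.Prelude.Def_GaloisRep_DeformationRingData
import Fermat.Prelude.Def_GaloisRep_StrictOrdinary
import Fermat.Prelude.Def_GaloisRep_Flat

set_option autoImplicit false
set_option linter.unusedSectionVars false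
set_option linter.style.haveILetI false

open scoped TensorProduct

namespace Fermat.Agent.W56.BaseChange9

local notation "Qbar" => AlgebraicClosure ℚ
local notation "Γ" => (AlgebraicClosure ℚ ≃ₐ[ℚ] AlgebraicClosure ℚ)

variable {A B : Type} [CommRing A] [IsLocalRing A] [CommRing B] [IsLocalRing B]
  (φ : A →+* B) (hφ : IsLocalHom φ) (ρ : GaloisRepAdic A)

theorem baseChangeAlong_ρ_tmul (σ : Γ) (b : B) (v : ρ.V) :
    letI : Algebra A B := φ.toAlgebra
    (ρ.baseChangeAlong φ hφ).ρ σ (b ⊗ₜ[A] v) = b ⊗ₜ[A] (ρ.ρ σ v) := by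
  letI : Algebra A B := φ.toAlgebra
  exact LinearMap.baseChange_tmul _ _ _

include hφ in
theorem map_mem_maximalIdeal {a : A} (ha : a ∈ IsLocalRing.maximalIdeal A) :
    φ a ∈ IsLocalRing.maximalIdeal B := by
  haveI := hφ
  exact map_nonunit φ a ha

include φ hφ in
theorem natCast_mem_maximalIdeal {p : ℕ} (hp : (p : A) ∈ IsLocalRing.maximalIdeal A) :
    (p : B) ∈ IsLocalRing.maximalIdeal B := by
  have := map_mem_maximalIdeal φ hφ hp
  rwa [map_natCast] at this

theorem map_mem_span_natCast {a : A} {m : ℕ} (ha : a ∈ Ideal.span {((m : ℕ) : A)}) :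
    φ a ∈ Ideal.span {((m : ℕ) : B)} := by
  rw [Ideal.mem_span_singleton] at ha ⊢
  obtain ⟨c, rfl⟩ := ha
  exact ⟨φ c, by rw [map_mul, map_natCast]⟩

theorem detIsCyclotomic_baseChangeAlong {p : ℕ} (h : ρ.DetIsCyclotomic p) :
    (ρ.baseChangeAlong φ hφ).DetIsCyclotomic p := by
  letI : Algebra A B := φ.toAlgebra
  refine ⟨natCast_mem_maximalIdeal φ hφ h.1, fun n σ a ha => ?_⟩
  have h1 := h.2 n σ a ha
  have h2 : LinearMap.det ((ρ.baseChangeAlong φ hφ).ρ σ) = φ (LinearMap.det (ρ.ρ σ)) :=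
    LinearMap.det_baseChange (ρ.ρ σ)
  rw [h2]
  have h3 := map_mem_span_natCast φ h1
  rwa [map_sub, map_natCast] at h3

theorem isUnramifiedAt_baseChangeAlong {q : ℕ} (h : ρ.IsUnramifiedAt q) :
    (ρ.baseChangeAlong φ hφ).IsUnramifiedAt q := by
  letI : Algebra A B := φ.toAlgebra
  intro P hP σ hσ
  have h1 := h P hP σ hσ
  show (ρ.ρ σ).baseChange B = 1
  rw [h1, LinearMap.baseChange_one]

theorem isUnipotentOnInertiaAt_baseChangeAlong {q : ℕ} (h : ρ.IsUnipotentOnInertiaAt q) :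
    (ρ.baseChangeAlong φ hφ).IsUnipotentOnInertiaAt q := by
  letI : Algebra A B := φ.toAlgebra
  intro P hP σ hσ
  have h1 := h P hP σ hσ
  have h2 : LinearMap.charpoly ((ρ.baseChangeAlong φ hφ).ρ σ) =
      (LinearMap.charpoly (ρ.ρ σ)).map φ := LinearMap.charpoly_baseChange (ρ.ρ σ) B
  rw [h2, h1]
  simp

/-! ### Strict ordinarity -/

section StrictOrdinary

/-- `c ⊗ x` lies in the line spanned by `1 ⊗ v₀` when `x` lies in the line spanned by `v₀`. -/
theorem tmul_mem_span (v₀ : ρ.V) (c : B) {x : ρ.V} (hx : x ∈ Submodule.span A {v₀}) :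
    letI : Algebra A B := φ.toAlgebra
    (c ⊗ₜ[A] x : B ⊗[A] ρ.V) ∈ Submodule.span B {((1 : B) ⊗ₜ[A] v₀ : B ⊗[A] ρ.V)} := by
  letI : Algebra A B := φ.toAlgebra
  obtain ⟨a, rfl⟩ := Submodule.mem_span_singleton.1 hx
  have h1 : (c ⊗ₜ[A] (a • v₀) : B ⊗[A] ρ.V) = (c * φ a) • ((1 : B) ⊗ₜ[A] v₀) := by
    rw [TensorProduct.tmul_smul, TensorProduct.smul_tmul', TensorProduct.smul_tmul',
      Algebra.smul_def, smul_eq_mul, mul_one, mul_comm]
    rfl
  rw [h1]
  exact Submodule.smul_mem _ _ (Submodule.mem_span_singleton_self _)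

theorem smul_one_tmul (a : A) (c : B) (v : ρ.V) :
    letI : Algebra A B := φ.toAlgebra
    (φ a • (c ⊗ₜ[A] v) : B ⊗[A] ρ.V) = c ⊗ₜ[A] (a • v) := by
  letI : Algebra A B := φ.toAlgebra
  rw [TensorProduct.tmul_smul, TensorProduct.smul_tmul', TensorProduct.smul_tmul']
  congr 1

theorem isStrictOrdinaryAt_baseChangeAlong {p : ℕ} (h : ρ.IsStrictOrdinaryAt p) :
    (ρ.baseChangeAlong φ hφ).IsStrictOrdinaryAt p := by
  letI : Algebra A B := φ.toAlgebra
  refine ⟨natCast_mem_maximalIdeal φ hφ h.1, fun P hP => ?_⟩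
  obtain ⟨L, ⟨b, hLb⟩, hD, hI, hchar⟩ := h.2 P hP
  have hb0 : b 0 ∈ L := by rw [hLb]; exact Submodule.mem_span_singleton_self _
  let b' : Module.Basis (Fin 2) B (B ⊗[A] ρ.V) := Algebra.TensorProduct.basis B b
  have hb'0 : b' 0 = (1 : B) ⊗ₜ[A] b 0 := Algebra.TensorProduct.basis_apply b 0
  let L' : Submodule B (B ⊗[A] ρ.V) := Submodule.span B {b' 0}
  have hmem : ∀ (c : B) (x : ρ.V), x ∈ L → (c ⊗ₜ[A] x : B ⊗[A] ρ.V) ∈ L' := by
    intro c x hx
    show _ ∈ Submodule.span B {b' 0}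
    rw [hb'0]
    rw [hLb] at hx
    exact tmul_mem_span φ ρ (b 0) c hx
  have key1 : ∀ σ ∈ P.decompositionSubgroup ℚ, ∀ v ∈ L', (ρ.ρ σ).baseChange B v ∈ L' := by
    intro σ hσ v hv
    obtain ⟨β, rfl⟩ := Submodule.mem_span_singleton.1 hv
    rw [map_smul, hb'0, LinearMap.baseChange_tmul]
    exact Submodule.smul_mem _ _ (hmem 1 _ (hD σ hσ _ hb0))
  have key2 : ∀ σ ∈ P.inertiaSubgroupIn ℚ, ∀ v : B ⊗[A] ρ.V,
      (ρ.ρ σ).baseChange B v - v ∈ L' := by
    intro σ hσ v
    induction v using TensorProduct.induction_on with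
    | zero => rw [map_zero, sub_zero]; exact Submodule.zero_mem _
    | tmul c v =>
      rw [LinearMap.baseChange_tmul, ← TensorProduct.tmul_sub]
      exact hmem c _ (hI σ hσ v)
    | add x y hx hy =>
      rw [map_add, add_sub_add_comm]
      exact Submodule.add_mem _ hx hy
  have key3 : ∀ σ ∈ P.decompositionSubgroup ℚ, ∃ x z : B,
      (∀ w ∈ L', (ρ.ρ σ).baseChange B w = x • w) ∧
      (∀ v : B ⊗[A] ρ.V, (ρ.ρ σ).baseChange B v - z • v ∈ L') ∧
      ∀ (n a : ℕ), (∀ μ : AlgebraicClosure ℚ, μ ^ p ^ n = 1 → σ μ = μ ^ a) →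
        x - (a : B) * z ∈ Ideal.span {((p ^ n : ℕ) : B)} := by
    intro σ hσ
    obtain ⟨x, z, h1, h2, h3⟩ := hchar σ hσ
    refine ⟨φ x, φ z, ?_, ?_, ?_⟩
    · intro w hw
      obtain ⟨β, rfl⟩ := Submodule.mem_span_singleton.1 hw
      rw [map_smul, hb'0, LinearMap.baseChange_tmul, h1 _ hb0, ← smul_one_tmul φ ρ x 1 (b 0),
        smul_comm]
    · intro v
      induction v using TensorProduct.induction_on with
      | zero => rw [map_zero, smul_zero, sub_zero]; exact Submodule.zero_mem _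
      | tmul c v =>
        rw [LinearMap.baseChange_tmul, smul_one_tmul φ ρ z c v, ← TensorProduct.tmul_sub]
        exact hmem c _ (h2 v)
      | add x' y' hx hy =>
        rw [map_add, smul_add, add_sub_add_comm]
        exact Submodule.add_mem _ hx hy
    · intro n a ha
      have h4 := map_mem_span_natCast φ (h3 n a ha)
      rwa [map_sub, map_mul, map_natCast] at h4
  exact ⟨L', ⟨b', rfl⟩, key1, key2, key3⟩

end StrictOrdinary

end Fermat.Agent.W56.BaseChange9
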