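/-
Programme W56 (target S56), stage 2, chapter (EC-5), helper4: **multiplicities**.

`C` a finite group whose order is invertible in the field `k` (Maschke).  For representations
`ρP` on `P` and `ρX` on `X`:

* `dimInv ρX = dim X^C`, additive on short exact sequences (`dimInv_add`: averaging);
* `muP ρP ρX = dim Hom_C(P, X)` (`= dimInv (linHom ρP ρX)`), invariant under isomorphisms
  (`muP_congr`) and additive on short exact sequences in `X` (`muP_add`);
* `muP_four`: for a four term exact sequence `0 → A → B → C' → D → 0`,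
  `μ(A) + μ(C') = μ(B) + μ(D)`.
-/
import Mathlib
import Fermat.Agent.W56.ChiArch4

set_option autoImplicit false
set_option linter.unusedSectionVars false

namespace Fermat.Agent.W56.MuP4

open Fermat.Agent.W56.ChiArch4

variable {k : Type*} [Field k] {C : Type*} [Group C] [Fintype C] [Invertible (Fintype.card C : k)]

section Inv

variable {A B D : Type*} [AddCommGroup A] [Module k A] [AddCommGroup B] [Module k B]
  [AddCommGroup D] [Module k D]
  (ρA : Representation k C A) (ρB : Representation k C B) (ρD : Representation k C D)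

/-- `dim X^C`. -/
noncomputable def dimInv : ℕ := Module.finrank k ρA.invariants

/-- The map induced on invariants by an equivariant map. -/
noncomputable def invMapC (φ : A →ₗ[k] B) (hφ : ∀ c a, φ (ρA c a) = ρB c (φ a)) :
    ρA.invariants →ₗ[k] ρB.invariants where
  toFun a := ⟨φ a.1, fun c => by rw [← hφ, a.2 c]⟩
  map_add' a b := Subtype.ext (map_add φ a.1 b.1)
  map_smul' r a := Subtype.ext (map_smul φ r a.1)

theorem averageMap_comm (φ : A →ₗ[k] B) (hφ : ∀ c a, φ (ρA c a) = ρB c (φ a)) (a : A) :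
    φ (ρA.averageMap a) = ρB.averageMap (φ a) := by
  simp only [Representation.averageMap, GroupAlgebra.average, map_smul, map_sum,
    LinearMap.smul_apply, LinearMap.sum_apply, Representation.asAlgebraHom_of, hφ]

/-- Maschke: an equivariant surjection is surjective on invariants. -/
theorem invMapC_surjective (ψ : B →ₗ[k] D) (hψ : ∀ c b, ψ (ρB c b) = ρD c (ψ b))
    (hsurj : Function.Surjective ψ) : Function.Surjective (invMapC ρB ρD ψ hψ) := by
  intro d
  obtain ⟨b, hb⟩ := hsurj d.1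
  refine ⟨⟨ρB.averageMap b, ρB.averageMap_invariant b⟩, Subtype.ext ?_⟩
  show ψ (ρB.averageMap b) = d.1
  rw [averageMap_comm ρB ρD ψ hψ, hb, ρD.averageMap_id d.1 d.2]

/-- `dim X^C` is additive on short exact sequences. -/
theorem dimInv_add [FiniteDimensional k B] (φ : A →ₗ[k] B) (ψ : B →ₗ[k] D)
    (hφ : ∀ c a, φ (ρA c a) = ρB c (φ a)) (hψ : ∀ c b, ψ (ρB c b) = ρD c (ψ b))
    (hinj : Function.Injective φ) (hsurj : Function.Surjective ψ)
    (hex : ∀ b, ψ b = 0 ↔ ∃ a, φ a = b) : dimInv ρB = dimInv ρA + dimInv ρD := by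
  unfold dimInv
  refine finrank_eq_add_of_exact (invMapC ρA ρB φ hφ) (invMapC ρB ρD ψ hψ) ?_
    (invMapC_surjective ρB ρD ψ hψ hsurj) ?_
  · intro a a' h
    exact Subtype.ext (hinj (congrArg Subtype.val h))
  · intro b
    constructor
    · intro h
      obtain ⟨a, ha⟩ := (hex b.1).1 (congrArg Subtype.val h)
      refine ⟨⟨a, fun c => hinj ?_⟩, Subtype.ext ha⟩
      rw [hφ, ha, b.2 c]
    · rintro ⟨a, rfl⟩
      exact Subtype.ext ((hex _).2 ⟨a.1, rfl⟩)

/-- `dim X^C` is invariant under equivariant isomorphisms. -/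
theorem dimInv_congr (e : A ≃ₗ[k] B) (he : ∀ c a, e (ρA c a) = ρB c (e a)) :
    dimInv ρA = dimInv ρB := by
  unfold dimInv
  refine LinearEquiv.finrank_eq (LinearEquiv.ofBijective (invMapC ρA ρB e.toLinearMap he) ⟨?_, ?_⟩)
  · intro a a' h
    exact Subtype.ext (e.injective (congrArg Subtype.val h))
  · intro b
    refine ⟨⟨e.symm b.1, fun c => e.injective ?_⟩, Subtype.ext (e.apply_symm_apply b.1)⟩
    rw [he, e.apply_symm_apply, b.2 c]

end Inv

section Mu

variable {P A B D : Type*} [AddCommGroup P] [Module k P] [AddCommGroup A] [Module k A]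
  [AddCommGroup B] [Module k B] [AddCommGroup D] [Module k D]
  (ρP : Representation k C P)
  (ρA : Representation k C A) (ρB : Representation k C B) (ρD : Representation k C D)

/-- `μ_P(X) = dim Hom_C(P, X)`. -/
noncomputable def muP : ℕ := dimInv (Representation.linHom ρP ρA)

theorem muP_congr (e : A ≃ₗ[k] B) (he : ∀ c a, e (ρA c a) = ρB c (e a)) :
    muP ρP ρA = muP ρP ρB := by
  unfold muP
  refine dimInv_congr _ _ (LinearEquiv.arrowCongr (LinearEquiv.refl k P) e) fun c f => ?_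
  ext x
  simp only [LinearEquiv.arrowCongr_apply, Representation.linHom_apply, LinearMap.coe_comp,
    Function.comp_apply, LinearEquiv.refl_symm, LinearEquiv.refl_apply]
  exact he c _

/-- `μ_P` is additive on short exact sequences. -/
theorem muP_add [FiniteDimensional k P] [FiniteDimensional k B] (φ : A →ₗ[k] B) (ψ : B →ₗ[k] D)
    (hφ : ∀ c a, φ (ρA c a) = ρB c (φ a)) (hψ : ∀ c b, ψ (ρB c b) = ρD c (ψ b))
    (hinj : Function.Injective φ) (hsurj : Function.Surjective ψ)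
    (hex : ∀ b, ψ b = 0 ↔ ∃ a, φ a = b) : muP ρP ρB = muP ρP ρA + muP ρP ρD := by
  unfold muP
  refine dimInv_add _ _ _ (LinearMap.compRight (M := P) k φ) (LinearMap.compRight (M := P) k ψ)
    ?_ ?_ ?_ ?_ ?_
  · intro c f
    ext x
    simp only [LinearMap.compRight_apply, Representation.linHom_apply, LinearMap.coe_comp,
      Function.comp_apply]
    exact hφ c _
  · intro c f
    ext x
    simp only [LinearMap.compRight_apply, Representation.linHom_apply, LinearMap.coe_comp,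
      Function.comp_apply]
    exact hψ c _
  · intro f g h
    ext x
    exact hinj (LinearMap.congr_fun h x)
  · intro g
    obtain ⟨f, hf⟩ := Module.projective_lifting_property ψ g hsurj
    exact ⟨f, hf⟩
  · intro g
    constructor
    · intro h
      have hg : ∀ x, ψ (g x) = 0 := fun x => LinearMap.congr_fun h x
      have hrange : LinearMap.range g ≤ LinearMap.range φ := by
        rintro _ ⟨x, rfl⟩
        exact (hex _).1 (hg x)
      let e := LinearEquiv.ofInjective φ hinj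
      refine ⟨e.symm.toLinearMap ∘ₗ (LinearMap.codRestrict (LinearMap.range φ) g
        fun x => hrange ⟨x, rfl⟩), ?_⟩
      ext x
      simp only [LinearMap.compRight_apply, LinearMap.coe_comp, Function.comp_apply,
        LinearEquiv.coe_coe]
      have := LinearEquiv.apply_symm_apply e (LinearMap.codRestrict (LinearMap.range φ) g
        (fun x => hrange ⟨x, rfl⟩) x)
      exact congrArg Subtype.val this
    · rintro ⟨f, rfl⟩
      ext x
      exact (hex _).2 ⟨f x, rfl⟩

end Mu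

/-! ### `Hom_C(P, −)` is an exact functor -/

section Exact

variable {P A B D : Type*} [AddCommGroup P] [Module k P] [AddCommGroup A] [Module k A]
  [AddCommGroup B] [Module k B] [AddCommGroup D] [Module k D]
  (ρP : Representation k C P)
  (ρA : Representation k C A) (ρB : Representation k C B) (ρD : Representation k C D)

/-- Averaging: an invariant vector in the image of an equivariant map is the image of an invariant
vector. -/
theorem exists_invariant_preimage (φ : A →ₗ[k] B) (hφ : ∀ c a, φ (ρA c a) = ρB c (φ a))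
    {b : B} (hb : b ∈ ρB.invariants) (a : A) (hab : φ a = b) :
    ∃ a' ∈ ρA.invariants, φ a' = b :=
  ⟨ρA.averageMap a, ρA.averageMap_invariant a, by
    rw [averageMap_comm ρA ρB φ hφ, hab, ρB.averageMap_id b hb]⟩

/-- `Hom_C(P, X)` as a subspace of `Hom_k(P, X)`. -/
noncomputable abbrev homC : Submodule k (P →ₗ[k] A) := (Representation.linHom ρP ρA).invariants

theorem mem_homC_iff (f : P →ₗ[k] A) : f ∈ homC ρP ρA ↔ ∀ c x, f (ρP c x) = ρA c (f x) := by
  constructor
  · intro h c x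
    have h1 := LinearMap.congr_fun (h c) (ρP c x)
    simp only [Representation.linHom_apply, LinearMap.coe_comp, Function.comp_apply] at h1
    rw [← h1]
    congr 2
    rw [← Module.End.mul_apply, ← map_mul, inv_mul_cancel, map_one, Module.End.one_apply]
  · intro h c
    ext x
    simp only [Representation.linHom_apply, LinearMap.coe_comp, Function.comp_apply]
    rw [← h, ← Module.End.mul_apply, ← map_mul, mul_inv_cancel, map_one, Module.End.one_apply]

theorem compRight_equivariant (φ : A →ₗ[k] B) (hφ : ∀ c a, φ (ρA c a) = ρB c (φ a)) (c : C)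
    (f : P →ₗ[k] A) :
    LinearMap.compRight (M := P) k φ (Representation.linHom ρP ρA c f) =
      Representation.linHom ρP ρB c (LinearMap.compRight (M := P) k φ f) := by
  ext x
  simp only [LinearMap.compRight_apply, Representation.linHom_apply, LinearMap.coe_comp,
    Function.comp_apply]
  exact hφ c _

/-- The map `Hom_C(P, A) → Hom_C(P, B)` induced by an equivariant map. -/
noncomputable def homCMap (φ : A →ₗ[k] B) (hφ : ∀ c a, φ (ρA c a) = ρB c (φ a)) :
    homC ρP ρA →ₗ[k] homC ρP ρB :=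
  invMapC _ _ (LinearMap.compRight (M := P) k φ) (compRight_equivariant ρP ρA ρB φ hφ)

theorem homCMap_apply (φ : A →ₗ[k] B) (hφ : ∀ c a, φ (ρA c a) = ρB c (φ a))
    (f : homC ρP ρA) (x : P) : (homCMap ρP ρA ρB φ hφ f).1 x = φ (f.1 x) := rfl

theorem homCMap_injective (φ : A →ₗ[k] B) (hφ : ∀ c a, φ (ρA c a) = ρB c (φ a))
    (hinj : Function.Injective φ) : Function.Injective (homCMap ρP ρA ρB φ hφ) := by
  intro f g h
  refine Subtype.ext (LinearMap.ext fun x => hinj ?_)
  exact LinearMap.congr_fun (congrArg Subtype.val h) x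

/-- Exactness of `Hom_C(P, −)` (Maschke). -/
theorem homCMap_exact (φ : A →ₗ[k] B) (hφ : ∀ c a, φ (ρA c a) = ρB c (φ a))
    (ψ : B →ₗ[k] D) (hψ : ∀ c b, ψ (ρB c b) = ρD c (ψ b))
    (hex : ∀ b, ψ b = 0 ↔ ∃ a, φ a = b) :
    LinearMap.ker (homCMap ρP ρB ρD ψ hψ) = LinearMap.range (homCMap ρP ρA ρB φ hφ) := by
  ext g
  rw [LinearMap.mem_ker, LinearMap.mem_range]
  constructor
  · intro h
    have hg : ∀ x, ψ (g.1 x) = 0 := fun x => LinearMap.congr_fun (congrArg Subtype.val h) x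
    have hrange : LinearMap.range g.1 ≤ LinearMap.range φ := by
      rintro _ ⟨x, rfl⟩
      exact (hex _).1 (hg x)
    -- a linear lift
    obtain ⟨f₀, hf₀⟩ := Module.projective_lifting_property (LinearMap.rangeRestrict φ)
      (LinearMap.codRestrict (LinearMap.range φ) g.1 fun x => hrange ⟨x, rfl⟩)
      (LinearMap.surjective_rangeRestrict φ)
    have hf₀' : LinearMap.compRight (M := P) k φ f₀ = g.1 := by
      ext x
      exact congrArg Subtype.val (LinearMap.congr_fun hf₀ x)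
    obtain ⟨f, hf, hfg⟩ := exists_invariant_preimage (Representation.linHom ρP ρA)
      (Representation.linHom ρP ρB) (LinearMap.compRight (M := P) k φ)
      (compRight_equivariant ρP ρA ρB φ hφ) g.2 f₀ hf₀'
    exact ⟨⟨f, hf⟩, Subtype.ext hfg⟩
  · rintro ⟨f, rfl⟩
    refine Subtype.ext (LinearMap.ext fun x => ?_)
    exact (hex _).2 ⟨f.1 x, rfl⟩

theorem homCMap_surjective (ψ : B →ₗ[k] D) (hψ : ∀ c b, ψ (ρB c b) = ρD c (ψ b))
    (hsurj : Function.Surjective ψ) : Function.Surjective (homCMap ρP ρB ρD ψ hψ) := by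
  intro g
  obtain ⟨f₀, hf₀⟩ := Module.projective_lifting_property ψ g.1 hsurj
  obtain ⟨f, hf, hfg⟩ := exists_invariant_preimage (Representation.linHom ρP ρB)
    (Representation.linHom ρP ρD) (LinearMap.compRight (M := P) k ψ)
    (compRight_equivariant ρP ρB ρD ψ hψ) g.2 f₀ hf₀
  exact ⟨⟨f, hf⟩, Subtype.ext hfg⟩

end Exact

/-! ### Six-term exact sequences -/

section Six

variable {V₁ V₂ V₃ V₄ V₅ V₆ : Type*}
  [AddCommGroup V₁] [Module k V₁] [FiniteDimensional k V₁]
  [AddCommGroup V₂] [Module k V₂] [FiniteDimensional k V₂]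
  [AddCommGroup V₃] [Module k V₃] [FiniteDimensional k V₃]
  [AddCommGroup V₄] [Module k V₄] [FiniteDimensional k V₄]
  [AddCommGroup V₅] [Module k V₅] [FiniteDimensional k V₅]
  [AddCommGroup V₆] [Module k V₆] [FiniteDimensional k V₆]

omit [Fintype C] [Invertible (Fintype.card C : k)] in
/-- The alternating sum of the dimensions of a six-term exact sequence vanishes. -/
theorem six_term (f₁ : V₁ →ₗ[k] V₂) (f₂ : V₂ →ₗ[k] V₃) (f₃ : V₃ →ₗ[k] V₄) (f₄ : V₄ →ₗ[k] V₅)
    (f₅ : V₅ →ₗ[k] V₆) (h₁ : Function.Injective f₁)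
    (h₁₂ : LinearMap.ker f₂ = LinearMap.range f₁) (h₂₃ : LinearMap.ker f₃ = LinearMap.range f₂)
    (h₃₄ : LinearMap.ker f₄ = LinearMap.range f₃) (h₄₅ : LinearMap.ker f₅ = LinearMap.range f₄)
    (h₅ : Function.Surjective f₅) :
    (Module.finrank k V₁ : ℤ) - Module.finrank k V₂ + Module.finrank k V₃ - Module.finrank k V₄ +
      Module.finrank k V₅ - Module.finrank k V₆ = 0 := by
  have e₁ := LinearMap.finrank_range_add_finrank_ker f₁
  have e₂ := LinearMap.finrank_range_add_finrank_ker f₂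
  have e₃ := LinearMap.finrank_range_add_finrank_ker f₃
  have e₄ := LinearMap.finrank_range_add_finrank_ker f₄
  have e₅ := LinearMap.finrank_range_add_finrank_ker f₅
  rw [LinearMap.ker_eq_bot.2 h₁, finrank_bot] at e₁
  rw [h₁₂] at e₂
  rw [h₂₃] at e₃
  rw [h₃₄] at e₄
  rw [h₄₅, LinearMap.range_eq_top.2 h₅, finrank_top] at e₅
  omega

end Six

section SixMu

variable {P X₁ X₂ X₃ X₄ X₅ X₆ : Type*} [AddCommGroup P] [Module k P] [FiniteDimensional k P]
  [AddCommGroup X₁] [Module k X₁] [FiniteDimensional k X₁]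
  [AddCommGroup X₂] [Module k X₂] [FiniteDimensional k X₂]
  [AddCommGroup X₃] [Module k X₃] [FiniteDimensional k X₃]
  [AddCommGroup X₄] [Module k X₄] [FiniteDimensional k X₄]
  [AddCommGroup X₅] [Module k X₅] [FiniteDimensional k X₅]
  [AddCommGroup X₆] [Module k X₆] [FiniteDimensional k X₆]
  (ρP : Representation k C P)
  (ρ₁ : Representation k C X₁) (ρ₂ : Representation k C X₂) (ρ₃ : Representation k C X₃)
  (ρ₄ : Representation k C X₄) (ρ₅ : Representation k C X₅) (ρ₆ : Representation k C X₆)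

/-- `μ_P` on a six-term exact sequence of representations. -/
theorem muP_six (f₁ : X₁ →ₗ[k] X₂) (f₂ : X₂ →ₗ[k] X₃) (f₃ : X₃ →ₗ[k] X₄) (f₄ : X₄ →ₗ[k] X₅)
    (f₅ : X₅ →ₗ[k] X₆)
    (e₁ : ∀ c a, f₁ (ρ₁ c a) = ρ₂ c (f₁ a)) (e₂ : ∀ c a, f₂ (ρ₂ c a) = ρ₃ c (f₂ a))
    (e₃ : ∀ c a, f₃ (ρ₃ c a) = ρ₄ c (f₃ a)) (e₄ : ∀ c a, f₄ (ρ₄ c a) = ρ₅ c (f₄ a))
    (e₅ : ∀ c a, f₅ (ρ₅ c a) = ρ₆ c (f₅ a))
    (h₁ : Function.Injective f₁)
    (h₁₂ : ∀ b, f₂ b = 0 ↔ ∃ a, f₁ a = b) (h₂₃ : ∀ b, f₃ b = 0 ↔ ∃ a, f₂ a = b)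
    (h₃₄ : ∀ b, f₄ b = 0 ↔ ∃ a, f₃ a = b) (h₄₅ : ∀ b, f₅ b = 0 ↔ ∃ a, f₄ a = b)
    (h₅ : Function.Surjective f₅) :
    (muP ρP ρ₁ : ℤ) - muP ρP ρ₂ + muP ρP ρ₃ - muP ρP ρ₄ + muP ρP ρ₅ - muP ρP ρ₆ = 0 :=
  six_term (homCMap ρP ρ₁ ρ₂ f₁ e₁) (homCMap ρP ρ₂ ρ₃ f₂ e₂) (homCMap ρP ρ₃ ρ₄ f₃ e₃)
    (homCMap ρP ρ₄ ρ₅ f₄ e₄) (homCMap ρP ρ₅ ρ₆ f₅ e₅)
    (homCMap_injective ρP ρ₁ ρ₂ f₁ e₁ h₁)
    (homCMap_exact ρP ρ₁ ρ₂ ρ₃ f₁ e₁ f₂ e₂ h₁₂) (homCMap_exact ρP ρ₂ ρ₃ ρ₄ f₂ e₂ f₃ e₃ h₂₃)
    (homCMap_exact ρP ρ₃ ρ₄ ρ₅ f₃ e₃ f₄ e₄ h₃₄) (homCMap_exact ρP ρ₄ ρ₅ ρ₆ f₄ e₄ f₅ e₅ h₄₅)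
    (homCMap_surjective ρP ρ₅ ρ₆ f₅ e₅ h₅)

end SixMu

end Fermat.Agent.W56.MuP4
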