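/-
Programme W56 (target S56), stage 2, chapter (EC-5), helper4: **`p`-torsion, `p`-cotorsion and the
snake lemma for multiplication by `p`**, equivariantly.

`C` a finite group of order prime to `p`, `P` a finite dimensional `𝔽_p[C]`-module.  For an abelian
group `A` with an action `ρ : Representation ℤ C A`:

* `torsP p A = A[p]`, `Cot p A = A / pA` with their `𝔽_p`-structures and the induced actions
  `torsRep`, `cotRep`; functoriality `torsMap`, `cotMap`;
* for a short exact sequence `0 → A' → A → A'' → 0` of `ℤ[C]`-modules the connecting map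
  `snakeδ : A''[p] → A'/p` and the six-term exact sequence, whence (`hP_add`)
  `h_P(A) = h_P(A') + h_P(A'')` for `h_P(A) = μ_P(A/p) − μ_P(A[p])`;
* `hP_eq_zero_of_finite`: `h_P(A) = 0` for finite `A`, i.e. `μ_P(A[p]) = μ_P(A/p)`.
-/
import Mathlib
import Fermat.Agent.W56.MuP4

set_option autoImplicit false
set_option linter.unusedSectionVars false
set_option linter.style.haveILetI false

namespace Fermat.Agent.W56.TorsSnake4

open Fermat.Agent.W56.MuP4

variable (p : ℕ) [hp : Fact p.Prime]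

/-! ### `A[p]` and `A/pA` -/

section Defs

variable (A : Type*) [AddCommGroup A]

/-- `A[p]`. -/
def torsP : AddSubgroup A := (nsmulAddMonoidHom (α := A) p).ker

/-- `pA`. -/
def mulP : AddSubgroup A := (nsmulAddMonoidHom (α := A) p).range

variable {A}

theorem mem_torsP {a : A} : a ∈ torsP p A ↔ p • a = 0 := Iff.rfl

theorem mem_mulP {a : A} : a ∈ mulP p A ↔ ∃ b : A, p • b = a := Iff.rfl

variable (A)

/-- `A/pA`. -/
abbrev Cot : Type _ := A ⧸ mulP p A

instance instModuleTors : Module (ZMod p) (torsP p A) :=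
  AddCommGroup.zmodModule (n := p) fun x => Subtype.ext ((mem_torsP p).1 x.2)

instance instModuleCot : Module (ZMod p) (Cot p A) :=
  QuotientAddGroup.zmodModule (n := p) fun x => (mem_mulP p).2 ⟨x, rfl⟩

variable {A}

/-- The class of `a` in `A/pA`. -/
def cotMk : A →+ Cot p A := QuotientAddGroup.mk' (mulP p A)

theorem cotMk_surjective : Function.Surjective (cotMk p (A := A)) :=
  QuotientAddGroup.mk'_surjective _

theorem cotMk_eq_zero_iff {a : A} : cotMk p a = 0 ↔ ∃ b : A, p • b = a := by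
  unfold cotMk
  rw [QuotientAddGroup.mk'_apply, QuotientAddGroup.eq_zero_iff]
  rfl

theorem cotMk_nsmul (a : A) : cotMk p (p • a) = 0 := (cotMk_eq_zero_iff p).2 ⟨a, rfl⟩

end Defs

/-! ### Functoriality -/

section Funct

variable {A B D : Type*} [AddCommGroup A] [AddCommGroup B] [AddCommGroup D]

/-- `A[p] → B[p]`. -/
def torsMap (φ : A →+ B) : torsP p A →ₗ[ZMod p] torsP p B :=
  AddMonoidHom.toZModLinearMap p
    { toFun := fun a => ⟨φ a.1, by
        rw [mem_torsP, ← map_nsmul, (mem_torsP p).1 a.2, map_zero]⟩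
      map_zero' := Subtype.ext (map_zero φ)
      map_add' := fun a b => Subtype.ext (map_add φ a.1 b.1) }

@[simp] theorem coe_torsMap (φ : A →+ B) (a : torsP p A) : ((torsMap p φ a : torsP p B) : B) = φ a.1 :=
  rfl

/-- `A/p → B/p`. -/
def cotMap (φ : A →+ B) : Cot p A →ₗ[ZMod p] Cot p B :=
  AddMonoidHom.toZModLinearMap p
    (QuotientAddGroup.map (mulP p A) (mulP p B) φ (by
      rintro _ ⟨b, rfl⟩
      exact ⟨φ b, by
        show p • φ b = φ (p • b)
        rw [map_nsmul]⟩))

@[simp] theorem cotMap_mk (φ : A →+ B) (a : A) : cotMap p φ (cotMk p a) = cotMk p (φ a) := rfl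

theorem torsMap_id : torsMap p (AddMonoidHom.id A) = LinearMap.id := by
  ext a
  rfl

theorem torsMap_comp (φ : A →+ B) (ψ : B →+ D) :
    torsMap p (ψ.comp φ) = (torsMap p ψ).comp (torsMap p φ) := by
  ext a
  rfl

theorem cotMap_id : cotMap p (AddMonoidHom.id A) = LinearMap.id := by
  ext x
  obtain ⟨a, rfl⟩ := cotMk_surjective p x
  rfl

theorem cotMap_comp (φ : A →+ B) (ψ : B →+ D) :
    cotMap p (ψ.comp φ) = (cotMap p ψ).comp (cotMap p φ) := by
  ext x
  obtain ⟨a, rfl⟩ := cotMk_surjective p x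
  rfl

end Funct

/-! ### The induced actions -/

section Rep

variable {C : Type*} [Group C] {A : Type*} [AddCommGroup A] (ρ : Representation ℤ C A)

/-- The action on `A[p]`. -/
def torsRep : Representation (ZMod p) C (torsP p A) where
  toFun c := torsMap p (ρ c).toAddMonoidHom
  map_one' := by
    ext a
    show ρ 1 a.1 = a.1
    rw [map_one, Module.End.one_apply]
  map_mul' c d := by
    ext a
    show ρ (c * d) a.1 = ρ c (ρ d a.1)
    rw [map_mul, Module.End.mul_apply]

/-- The action on `A/pA`. -/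
def cotRep : Representation (ZMod p) C (Cot p A) where
  toFun c := cotMap p (ρ c).toAddMonoidHom
  map_one' := by
    ext x
    obtain ⟨a, rfl⟩ := cotMk_surjective p x
    show cotMk p (ρ 1 a) = cotMk p a
    rw [map_one, Module.End.one_apply]
  map_mul' c d := by
    ext x
    obtain ⟨a, rfl⟩ := cotMk_surjective p x
    show cotMk p (ρ (c * d) a) = cotMk p (ρ c (ρ d a))
    rw [map_mul, Module.End.mul_apply]

@[simp] theorem coe_torsRep (c : C) (a : torsP p A) : ((torsRep p ρ c a : torsP p A) : A) = ρ c a.1 :=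
  rfl

@[simp] theorem cotRep_mk (c : C) (a : A) : cotRep p ρ c (cotMk p a) = cotMk p (ρ c a) := rfl

end Rep

/-! ### The snake lemma for multiplication by `p` -/

section Snake

variable {A' A A'' : Type*} [AddCommGroup A'] [AddCommGroup A] [AddCommGroup A'']
  (φ : A' →+ A) (ψ : A →+ A'') (hinj : Function.Injective φ) (hsurj : Function.Surjective ψ)
  (hex : ∀ a, ψ a = 0 ↔ ∃ a', φ a' = a)

include hex in
theorem exists_lift_nsmul (a'' : torsP p A'') (a : A) (ha : ψ a = a''.1) :
    ∃ a' : A', φ a' = p • a :=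
  (hex _).1 (by rw [map_nsmul, ha, (mem_torsP p).1 a''.2])

/-- The connecting map, as a function. -/
noncomputable def snakeFun (a'' : torsP p A'') : Cot p A' :=
  cotMk p (exists_lift_nsmul p φ ψ hex a'' (Function.surjInv hsurj a''.1)
    (Function.surjInv_eq hsurj _)).choose

include hinj in
theorem snakeFun_eq (a'' : torsP p A'') (a : A) (ha : ψ a = a''.1) (a' : A')
    (ha' : φ a' = p • a) : snakeFun p φ ψ hsurj hex a'' = cotMk p a' := by
  unfold snakeFun
  set a₀ := Function.surjInv hsurj a''.1 with ha₀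
  have h₀ : ψ a₀ = a''.1 := Function.surjInv_eq hsurj _
  set a₀' := (exists_lift_nsmul p φ ψ hex a'' a₀ h₀).choose with ha₀'
  have h₀' : φ a₀' = p • a₀ := (exists_lift_nsmul p φ ψ hex a'' a₀ h₀).choose_spec
  obtain ⟨b', hb'⟩ := (hex (a₀ - a)).1 (by rw [map_sub, h₀, ha, sub_self])
  have h1 : a₀' - a' = p • b' := hinj (by
    rw [map_sub, h₀', ha', map_nsmul, hb', smul_sub])
  have h2 : cotMk p (a₀' - a') = 0 := (cotMk_eq_zero_iff p).2 ⟨b', h1.symm⟩
  rw [map_sub, sub_eq_zero] at h2
  exact h2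

/-- The connecting map `A''[p] → A'/p`. -/
noncomputable def snakeδ : torsP p A'' →ₗ[ZMod p] Cot p A' :=
  AddMonoidHom.toZModLinearMap p
    { toFun := snakeFun p φ ψ hsurj hex
      map_zero' := by
        rw [snakeFun_eq p φ ψ hinj hsurj hex 0 0 (map_zero ψ) 0 (by rw [map_zero, smul_zero]),
          map_zero]
      map_add' := fun x y => by
        obtain ⟨a, ha⟩ := hsurj x.1
        obtain ⟨b, hb⟩ := hsurj y.1
        obtain ⟨a', ha'⟩ := exists_lift_nsmul p φ ψ hex x a ha
        obtain ⟨b', hb'⟩ := exists_lift_nsmul p φ ψ hex y b hb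
        rw [snakeFun_eq p φ ψ hinj hsurj hex x a ha a' ha',
          snakeFun_eq p φ ψ hinj hsurj hex y b hb b' hb',
          snakeFun_eq p φ ψ hinj hsurj hex (x + y) (a + b) (by
            rw [map_add, ha, hb]; rfl) (a' + b') (by rw [map_add, ha', hb', smul_add]), map_add] }

include hinj in
theorem snakeδ_eq (a'' : torsP p A'') (a : A) (ha : ψ a = a''.1) (a' : A')
    (ha' : φ a' = p • a) : snakeδ p φ ψ hinj hsurj hex a'' = cotMk p a' :=
  snakeFun_eq p φ ψ hinj hsurj hex a'' a ha a' ha'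

include hinj in
theorem torsMap_injective : Function.Injective (torsMap p φ) := by
  intro a b h
  exact Subtype.ext (hinj (congrArg Subtype.val h))

include hinj hex in
theorem exact_tors (b : torsP p A) : torsMap p ψ b = 0 ↔ ∃ a, torsMap p φ a = b := by
  constructor
  · intro h
    obtain ⟨a', ha'⟩ := (hex b.1).1 (congrArg Subtype.val h)
    refine ⟨⟨a', ?_⟩, Subtype.ext ha'⟩
    rw [mem_torsP]
    apply hinj
    rw [map_nsmul, ha', (mem_torsP p).1 b.2, map_zero]
  · rintro ⟨a, rfl⟩
    exact Subtype.ext ((hex _).2 ⟨a.1, rfl⟩)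

theorem exact_snake_left (b : torsP p A'') :
    snakeδ p φ ψ hinj hsurj hex b = 0 ↔ ∃ a, torsMap p ψ a = b := by
  constructor
  · intro h
    obtain ⟨a, ha⟩ := hsurj b.1
    obtain ⟨a', ha'⟩ := exists_lift_nsmul p φ ψ hex b a ha
    rw [snakeδ_eq p φ ψ hinj hsurj hex b a ha a' ha', cotMk_eq_zero_iff] at h
    obtain ⟨b', hb'⟩ := h
    refine ⟨⟨a - φ b', ?_⟩, Subtype.ext ?_⟩
    · rw [mem_torsP, smul_sub, ← ha', ← map_nsmul, hb', sub_self]
    · show ψ (a - φ b') = b.1
      rw [map_sub, ha, (hex _).2 ⟨b', rfl⟩, sub_zero]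
  · rintro ⟨a, rfl⟩
    rw [snakeδ_eq p φ ψ hinj hsurj hex (torsMap p ψ a) a.1 rfl 0
      (by rw [map_zero, (mem_torsP p).1 a.2]), map_zero]

theorem exact_snake_right (x : Cot p A') :
    cotMap p φ x = 0 ↔ ∃ b, snakeδ p φ ψ hinj hsurj hex b = x := by
  obtain ⟨a', rfl⟩ := cotMk_surjective p x
  rw [cotMap_mk, cotMk_eq_zero_iff]
  constructor
  · rintro ⟨a, ha⟩
    refine ⟨⟨ψ a, ?_⟩, ?_⟩
    · rw [mem_torsP, ← map_nsmul, ha]
      exact (hex _).2 ⟨a', rfl⟩
    · exact snakeδ_eq p φ ψ hinj hsurj hex _ a rfl a' ha.symm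
  · rintro ⟨b, hb⟩
    obtain ⟨a, ha⟩ := hsurj b.1
    obtain ⟨a₁', ha₁'⟩ := exists_lift_nsmul p φ ψ hex b a ha
    rw [snakeδ_eq p φ ψ hinj hsurj hex b a ha a₁' ha₁', ← sub_eq_zero, ← map_sub,
      cotMk_eq_zero_iff] at hb
    obtain ⟨b', hb'⟩ := hb
    refine ⟨a - φ b', ?_⟩
    rw [smul_sub, ← ha₁', ← map_nsmul, hb', map_sub, sub_sub_cancel]

include hsurj hex in
theorem exact_cot (x : Cot p A) : cotMap p ψ x = 0 ↔ ∃ y, cotMap p φ y = x := by
  obtain ⟨a, rfl⟩ := cotMk_surjective p x
  rw [cotMap_mk, cotMk_eq_zero_iff]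
  constructor
  · rintro ⟨b'', hb''⟩
    obtain ⟨b, rfl⟩ := hsurj b''
    obtain ⟨a', ha'⟩ := (hex (a - p • b)).1 (by rw [map_sub, map_nsmul, hb'', sub_self])
    refine ⟨cotMk p a', ?_⟩
    rw [cotMap_mk, ha', map_sub, cotMk_nsmul, sub_zero]
  · rintro ⟨y, hy⟩
    obtain ⟨a', rfl⟩ := cotMk_surjective p y
    rw [cotMap_mk, ← sub_eq_zero, ← map_sub, cotMk_eq_zero_iff] at hy
    obtain ⟨b, hb⟩ := hy
    refine ⟨ψ (-b), ?_⟩
    rw [← map_nsmul, smul_neg, hb, neg_sub, map_sub, (hex _).2 ⟨a', rfl⟩, sub_zero]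

include hsurj in
theorem cotMap_surjective : Function.Surjective (cotMap p ψ) := by
  intro x
  obtain ⟨a'', rfl⟩ := cotMk_surjective p x
  obtain ⟨a, rfl⟩ := hsurj a''
  exact ⟨cotMk p a, rfl⟩

end Snake

/-! ### Additivity of `h_P` -/

section HP

variable {C : Type*} [Group C] [Fintype C] [Invertible (Fintype.card C : ZMod p)]
  {P : Type*} [AddCommGroup P] [Module (ZMod p) P] [FiniteDimensional (ZMod p) P]
  (ρP : Representation (ZMod p) C P)

/-- `h_P(A) = μ_P(A/p) − μ_P(A[p])`. -/
noncomputable def hP {A : Type*} [AddCommGroup A] (ρ : Representation ℤ C A) : ℤ :=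
  (muP ρP (cotRep p ρ) : ℤ) - muP ρP (torsRep p ρ)

variable {A' A A'' : Type*} [AddCommGroup A'] [AddCommGroup A] [AddCommGroup A'']
  (ρ' : Representation ℤ C A') (ρ : Representation ℤ C A) (ρ'' : Representation ℤ C A'')
  (φ : A' →+ A) (ψ : A →+ A'') (hφ : ∀ c a, φ (ρ' c a) = ρ c (φ a))
  (hψ : ∀ c a, ψ (ρ c a) = ρ'' c (ψ a))
  (hinj : Function.Injective φ) (hsurj : Function.Surjective ψ)
  (hex : ∀ a, ψ a = 0 ↔ ∃ a', φ a' = a)

include hφ hψ in
theorem snakeδ_equivariant (c : C) (x : torsP p A'') :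
    snakeδ p φ ψ hinj hsurj hex (torsRep p ρ'' c x) = cotRep p ρ' c (snakeδ p φ ψ hinj hsurj hex x) := by
  obtain ⟨a, ha⟩ := hsurj x.1
  obtain ⟨a', ha'⟩ := exists_lift_nsmul p φ ψ hex x a ha
  rw [snakeδ_eq p φ ψ hinj hsurj hex x a ha a' ha', cotRep_mk]
  refine snakeδ_eq p φ ψ hinj hsurj hex _ (ρ c a) ?_ (ρ' c a') ?_
  · rw [hψ, ha]; rfl
  · rw [hφ, ha', map_nsmul]

include hφ hψ hinj hsurj hex in
/-- **`h_P` is additive on short exact sequences** (snake lemma + Maschke). -/
theorem hP_add [Finite (torsP p A')] [Finite (Cot p A')] [Finite (torsP p A)] [Finite (Cot p A)]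
    [Finite (torsP p A'')] [Finite (Cot p A'')] :
    hP p ρP ρ = hP p ρP ρ' + hP p ρP ρ'' := by
  haveI : FiniteDimensional (ZMod p) (torsP p A') := Module.Finite.of_finite
  haveI : FiniteDimensional (ZMod p) (Cot p A') := Module.Finite.of_finite
  haveI : FiniteDimensional (ZMod p) (torsP p A) := Module.Finite.of_finite
  haveI : FiniteDimensional (ZMod p) (Cot p A) := Module.Finite.of_finite
  haveI : FiniteDimensional (ZMod p) (torsP p A'') := Module.Finite.of_finite
  haveI : FiniteDimensional (ZMod p) (Cot p A'') := Module.Finite.of_finite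
  have h := muP_six ρP (torsRep p ρ') (torsRep p ρ) (torsRep p ρ'') (cotRep p ρ') (cotRep p ρ)
    (cotRep p ρ'') (torsMap p φ) (torsMap p ψ) (snakeδ p φ ψ hinj hsurj hex) (cotMap p φ)
    (cotMap p ψ)
    (fun c a => Subtype.ext (hφ c a.1)) (fun c a => Subtype.ext (hψ c a.1))
    (snakeδ_equivariant p ρ' ρ ρ'' φ ψ hφ hψ hinj hsurj hex)
    (fun c x => by
      obtain ⟨a, rfl⟩ := cotMk_surjective p x
      rw [cotRep_mk, cotMap_mk, cotMap_mk, cotRep_mk, hφ])
    (fun c x => by
      obtain ⟨a, rfl⟩ := cotMk_surjective p x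
      rw [cotRep_mk, cotMap_mk, cotMap_mk, cotRep_mk, hψ])
    (torsMap_injective p φ hinj) (exact_tors p φ ψ hinj hex)
    (exact_snake_left p φ ψ hinj hsurj hex) (exact_snake_right p φ ψ hinj hsurj hex)
    (exact_cot p φ ψ hsurj hex) (cotMap_surjective p ψ hsurj)
  unfold hP
  omega

end HP

/-! ### `h_P` vanishes on finite modules -/

section Fin

universe u

variable {C : Type*} [Group C] [Fintype C] [Invertible (Fintype.card C : ZMod p)]
  {P : Type*} [AddCommGroup P] [Module (ZMod p) P] [FiniteDimensional (ZMod p) P]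
  (ρP : Representation (ZMod p) C P)

/-- The restriction of an action to a stable subgroup. -/
def subRepZ {A : Type*} [AddCommGroup A] (ρ : Representation ℤ C A) (S : AddSubgroup A)
    (hS : ∀ c, ∀ a ∈ S, ρ c a ∈ S) : Representation ℤ C S where
  toFun c := AddMonoidHom.toIntLinearMap
    { toFun := fun a => ⟨ρ c a.1, hS c a.1 a.2⟩
      map_zero' := Subtype.ext (map_zero _)
      map_add' := fun a b => Subtype.ext (map_add _ a.1 b.1) }
  map_one' := by
    ext a
    show ρ 1 a.1 = a.1
    rw [map_one, Module.End.one_apply]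
  map_mul' c d := by
    ext a
    show ρ (c * d) a.1 = ρ c (ρ d a.1)
    rw [map_mul, Module.End.mul_apply]

/-- The action on `A/pA`, as a `ℤ`-representation. -/
def cotRepZ {A : Type*} [AddCommGroup A] (ρ : Representation ℤ C A) :
    Representation ℤ C (Cot p A) where
  toFun c := (cotRep p ρ c).toAddMonoidHom.toIntLinearMap
  map_one' := by
    ext x
    show cotRep p ρ 1 x = x
    rw [map_one, Module.End.one_apply]
  map_mul' c d := by
    ext x
    show cotRep p ρ (c * d) x = cotRep p ρ c (cotRep p ρ d x)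
    rw [map_mul, Module.End.mul_apply]

theorem mulP_stable {A : Type*} [AddCommGroup A] (ρ : Representation ℤ C A) (c : C) :
    ∀ a ∈ mulP p A, ρ c a ∈ mulP p A := by
  rintro _ ⟨b, rfl⟩
  exact ⟨ρ c b, by
    show p • ρ c b = ρ c (p • b)
    rw [map_nsmul]⟩

/-- A module killed by `p` has `h_P = 0`. -/
theorem hP_eq_zero_of_killed {A : Type*} [AddCommGroup A] (ρ : Representation ℤ C A)
    (h : ∀ a : A, p • a = 0) : hP p ρP ρ = 0 := by
  unfold hP
  have hinj : Function.Injective fun a : torsP p A => cotMk p a.1 := by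
    intro a b hab
    have h1 : cotMk p (a.1 - b.1) = 0 := by rw [map_sub, sub_eq_zero]; exact hab
    obtain ⟨d, hd⟩ := (cotMk_eq_zero_iff p).1 h1
    rw [h d] at hd
    exact Subtype.ext (sub_eq_zero.1 hd.symm)
  have hsurj : Function.Surjective fun a : torsP p A => cotMk p a.1 := by
    intro x
    obtain ⟨a, rfl⟩ := cotMk_surjective p x
    exact ⟨⟨a, h a⟩, rfl⟩
  let e₀ : torsP p A →ₗ[ZMod p] Cot p A :=
    AddMonoidHom.toZModLinearMap p ((cotMk p).comp (torsP p A).subtype)
  have he₀ : Function.Bijective e₀ := ⟨hinj, hsurj⟩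
  rw [muP_congr ρP (torsRep p ρ) (cotRep p ρ) (LinearEquiv.ofBijective e₀ he₀) fun c a => rfl]
  exact sub_self _

/-- **`h_P(A) = 0` for a finite `ℤ[C]`-module `A`**, i.e. `μ_P(A[p]) = μ_P(A/pA)`. -/
theorem hP_eq_zero_of_finite (A : Type u) [AddCommGroup A] [Finite A]
    (ρ : Representation ℤ C A) : hP p ρP ρ = 0 := by
  induction hn : Nat.card A using Nat.strong_induction_on generalizing A with
  | _ n ih =>
    by_cases htop : mulP p A = ⊤
    · -- multiplication by `p` is bijective
      have hsurj : Function.Surjective (nsmulAddMonoidHom (α := A) p) := by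
        intro a
        have : a ∈ mulP p A := htop ▸ AddSubgroup.mem_top a
        exact this
      have hinj : Function.Injective (nsmulAddMonoidHom (α := A) p) :=
        Finite.injective_iff_surjective.2 hsurj
      haveI : Subsingleton (torsP p A) := ⟨fun a b => Subtype.ext (hinj (by
        show p • a.1 = p • b.1
        rw [(mem_torsP p).1 a.2, (mem_torsP p).1 b.2]))⟩
      haveI : Subsingleton (Cot p A) := ⟨fun x y => by
        obtain ⟨a, rfl⟩ := cotMk_surjective p x
        obtain ⟨b, rfl⟩ := cotMk_surjective p y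
        rw [← sub_eq_zero, ← map_sub, cotMk_eq_zero_iff]
        exact hsurj (a - b)⟩
      unfold hP muP dimInv
      rw [Module.finrank_zero_of_subsingleton, Module.finrank_zero_of_subsingleton]
      rfl
    · -- `0 → pA → A → A/pA → 0`
      have hlt : Nat.card (mulP p A) < Nat.card A := by
        have hle : Nat.card (mulP p A) ≤ Nat.card A := Nat.card_le_card_of_injective _
          Subtype.val_injective
        rcases hle.lt_or_eq with h | h
        · exact h
        · exact absurd ((AddSubgroup.card_eq_iff_eq_top _).1 h) htop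
      have hB := ih _ (hn ▸ hlt) (mulP p A) (subRepZ ρ (mulP p A) (mulP_stable p ρ)) rfl
      have hQ := hP_eq_zero_of_killed p ρP (cotRepZ p ρ) fun x => by
        obtain ⟨a, rfl⟩ := cotMk_surjective p x
        rw [← map_nsmul]
        exact cotMk_nsmul p a
      have hadd := hP_add p ρP (subRepZ ρ (mulP p A) (mulP_stable p ρ)) ρ (cotRepZ p ρ)
        (mulP p A).subtype (cotMk p) (fun c a => rfl) (fun c a => rfl)
        Subtype.val_injective (cotMk_surjective p) fun a => by
          rw [cotMk_eq_zero_iff]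
          constructor
          · rintro ⟨b, hb⟩
            exact ⟨⟨a, ⟨b, hb⟩⟩, rfl⟩
          · rintro ⟨a', rfl⟩
            exact a'.2
      rw [hadd, hB, hQ, add_zero]

end Fin

end Fermat.Agent.W56.TorsSnake4
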