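/-
W56 / (EC-5) / (A-units): the general algebra for `h_P` (helper4's `TorsSnake4.hP`).

* finitely generated abelian groups have finite `A[p]` and `A/p` (`finite_torsP_of_fg`,
  `finite_cot_of_fg`), stable under subgroups and quotients;
* `quotRepZ` (action on a quotient), `hP_congr` (invariance under equivariant isomorphisms);
* `hP_exact_finite_coker`: for `0 → A' → A → B` exact, equivariant, with `B / im A` finite,
  `h_P(B) = h_P(A) - h_P(A')`;
* `funPerm R C X` (permutation representation on `X → R`) and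
  `hP_funPerm : h_P(ℤ[X]) = μ_P(𝔽_p[X])`.
-/
import Mathlib
import Fermat.Agent.W56.TorsSnake4

set_option autoImplicit false
set_option linter.unusedSectionVars false
set_option linter.style.haveILetI false

namespace Fermat.Agent.W56.EquivUnits0

open Fermat.Agent.W56.MuP4 Fermat.Agent.W56.TorsSnake4

variable (p : ℕ) [hp : Fact p.Prime]


/-! ### Finiteness of `A[p]` and `A/p` for finitely generated `A` -/

section fg

theorem finite_of_fg_of_killed_nat {A : Type*} [AddCommGroup A] [Module.Finite ℤ A]
    (n : ℕ) (hn : n ≠ 0) (h : ∀ a : A, n • a = 0) : Finite A := by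
  refine Module.finite_of_fg_torsion A ?_
  intro a
  refine ⟨⟨(n : ℤ), ?_⟩, ?_⟩
  · exact mem_nonZeroDivisors_of_ne_zero (by exact_mod_cast hn)
  · show (n : ℤ) • a = 0
    rw [natCast_zsmul]; exact h a

theorem finite_of_fg_of_killed {A : Type*} [AddCommGroup A] [Module.Finite ℤ A]
    (h : ∀ a : A, p • a = 0) : Finite A :=
  finite_of_fg_of_killed_nat p hp.out.ne_zero h

theorem fg_addSubgroup {A : Type*} [AddCommGroup A] [Module.Finite ℤ A] (S : AddSubgroup A) :
    Module.Finite ℤ S := by
  have : IsNoetherian ℤ A := isNoetherian_of_isNoetherianRing_of_finite ℤ A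
  have h : Module.Finite ℤ (AddSubgroup.toIntSubmodule S) := Module.IsNoetherian.finite ℤ _
  exact h

theorem fg_quotient {A : Type*} [AddCommGroup A] [Module.Finite ℤ A] (S : AddSubgroup A) :
    Module.Finite ℤ (A ⧸ S) :=
  Module.Finite.of_surjective (QuotientAddGroup.mk' S).toIntLinearMap
    (QuotientAddGroup.mk'_surjective S)

theorem finite_torsP_of_fg (A : Type*) [AddCommGroup A] [Module.Finite ℤ A] :
    Finite (torsP p A) := by
  haveI := fg_addSubgroup (torsP p A)
  exact finite_of_fg_of_killed p fun a => Subtype.ext ((mem_torsP p).1 a.2)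

theorem finite_cot_of_fg (A : Type*) [AddCommGroup A] [Module.Finite ℤ A] :
    Finite (Cot p A) := by
  haveI := fg_quotient (mulP p A)
  exact finite_of_fg_of_killed p fun x => by
    obtain ⟨a, rfl⟩ := cotMk_surjective p x
    rw [← map_nsmul]
    exact cotMk_nsmul p a

end fg



section general

variable {C : Type*} [Group C] [Fintype C] [Invertible (Fintype.card C : ZMod p)]
  {P : Type*} [AddCommGroup P] [Module (ZMod p) P] [FiniteDimensional (ZMod p) P]
  (ρP : Representation (ZMod p) C P)

/-- The action on a quotient by a stable subgroup. -/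
def quotRepZ {A : Type*} [AddCommGroup A] (ρ : Representation ℤ C A) (S : AddSubgroup A)
    (hS : ∀ c, ∀ a ∈ S, ρ c a ∈ S) : Representation ℤ C (A ⧸ S) where
  toFun c := (QuotientAddGroup.map S S (ρ c).toAddMonoidHom (fun a ha => hS c a ha)).toIntLinearMap
  map_one' := by
    ext x
    obtain ⟨a, rfl⟩ := QuotientAddGroup.mk'_surjective S x
    show QuotientAddGroup.mk' S (ρ 1 a) = QuotientAddGroup.mk' S a
    rw [map_one, Module.End.one_apply]
  map_mul' c d := by
    ext x
    obtain ⟨a, rfl⟩ := QuotientAddGroup.mk'_surjective S x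
    show QuotientAddGroup.mk' S (ρ (c * d) a) = QuotientAddGroup.mk' S (ρ c (ρ d a))
    rw [map_mul, Module.End.mul_apply]

theorem quotRepZ_mk {A : Type*} [AddCommGroup A] (ρ : Representation ℤ C A) (S : AddSubgroup A)
    (hS : ∀ c, ∀ a ∈ S, ρ c a ∈ S) (c : C) (a : A) :
    quotRepZ ρ S hS c (QuotientAddGroup.mk' S a) = QuotientAddGroup.mk' S (ρ c a) := rfl

/-- `h_P` is invariant under equivariant isomorphisms. -/
theorem hP_congr {A B : Type*} [AddCommGroup A] [AddCommGroup B]
    (ρA : Representation ℤ C A) (ρB : Representation ℤ C B) (e : A ≃+ B)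
    (he : ∀ c a, e (ρA c a) = ρB c (e a)) : hP p ρP ρA = hP p ρP ρB := by
  unfold hP
  have he' : ∀ c b, e.symm (ρB c b) = ρA c (e.symm b) := by
    intro c b
    apply e.injective
    rw [he, e.apply_symm_apply, e.apply_symm_apply]
  have h1 : muP ρP (cotRep p ρA) = muP ρP (cotRep p ρB) := by
    refine muP_congr ρP _ _ (LinearEquiv.ofLinearMap (cotMap p e.toAddMonoidHom)
      (cotMap p e.symm.toAddMonoidHom) ?_ ?_) ?_
    · rw [← cotMap_comp, ← cotMap_id]
      congr 1
      ext b
      exact e.apply_symm_apply b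
    · rw [← cotMap_comp, ← cotMap_id]
      congr 1
      ext a
      exact e.symm_apply_apply a
    · intro c x
      obtain ⟨a, rfl⟩ := cotMk_surjective p x
      show cotMk p (e (ρA c a)) = cotMk p (ρB c (e a))
      rw [he]
  have h2 : muP ρP (torsRep p ρA) = muP ρP (torsRep p ρB) := by
    refine muP_congr ρP _ _ (LinearEquiv.ofLinearMap (torsMap p e.toAddMonoidHom)
      (torsMap p e.symm.toAddMonoidHom) ?_ ?_) ?_
    · rw [← torsMap_comp, ← torsMap_id]
      congr 1
      ext b
      exact e.apply_symm_apply b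
    · rw [← torsMap_comp, ← torsMap_id]
      congr 1
      ext a
      exact e.symm_apply_apply a
    · intro c a
      apply Subtype.ext
      exact he c a.1
  rw [h1, h2]

/-- For an exact sequence `0 → A' → A → B` of `ℤ[C]`-modules with `A'`, `B` finitely generated and
`B / im A` finite: `h_P(B) = h_P(A) - h_P(A')`; moreover `A` is finitely generated. -/
theorem hP_exact_finite_coker {A' A B : Type} [AddCommGroup A'] [AddCommGroup A] [AddCommGroup B]
    [Module.Finite ℤ A'] [Module.Finite ℤ B]
    (ρA' : Representation ℤ C A') (ρA : Representation ℤ C A) (ρB : Representation ℤ C B)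
    (φ : A' →+ A) (ψ : A →+ B)
    (hφ : ∀ c a, φ (ρA' c a) = ρA c (φ a)) (hψ : ∀ c a, ψ (ρA c a) = ρB c (ψ a))
    (hinj : Function.Injective φ) (hex : ∀ a, ψ a = 0 ↔ ∃ a', φ a' = a)
    (hfin : Finite (B ⧸ ψ.range)) :
    Module.Finite ℤ A ∧ hP p ρP ρB = hP p ρP ρA - hP p ρP ρA' := by
  have hrange : ∀ c, ∀ b ∈ ψ.range, ρB c b ∈ ψ.range := by
    rintro c _ ⟨a, rfl⟩
    exact ⟨ρA c a, hψ c a⟩
  have hexR : ∀ a, ψ.rangeRestrict a = 0 ↔ ∃ a', φ a' = a := by
    intro a
    rw [← hex a]
    constructor
    · intro h; exact congrArg Subtype.val h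
    · intro h; exact Subtype.ext h
  haveI := fg_addSubgroup ψ.range
  haveI := fg_quotient ψ.range
  haveI hA : Module.Finite ℤ A := by
    refine Module.Finite.of_exact (f := φ.toIntLinearMap) (g := ψ.rangeRestrict.toIntLinearMap)
      ?_ ψ.rangeRestrict_surjective
    intro a
    constructor
    · intro h
      obtain ⟨a', ha'⟩ := (hexR a).1 h
      exact ⟨a', ha'⟩
    · rintro ⟨a', ha'⟩
      exact (hexR a).2 ⟨a', ha'⟩
  refine ⟨hA, ?_⟩
  haveI := finite_torsP_of_fg p A
  haveI := finite_cot_of_fg p A
  haveI := finite_torsP_of_fg p B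
  haveI := finite_cot_of_fg p B
  haveI := finite_torsP_of_fg p A'
  haveI := finite_cot_of_fg p A'
  haveI := finite_torsP_of_fg p ψ.range
  haveI := finite_cot_of_fg p ψ.range
  haveI := finite_torsP_of_fg p (B ⧸ ψ.range)
  haveI := finite_cot_of_fg p (B ⧸ ψ.range)
  -- `0 → A' → A → range ψ → 0`
  have h1 := hP_add p ρP ρA' ρA (subRepZ ρB ψ.range hrange)
    φ ψ.rangeRestrict hφ (fun c a => Subtype.ext (hψ c a))
    hinj ψ.rangeRestrict_surjective hexR
  -- `0 → range ψ → B → B / range ψ → 0`
  have h2 := hP_add p ρP (subRepZ ρB ψ.range hrange) ρB (quotRepZ ρB ψ.range hrange)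
    ψ.range.subtype (QuotientAddGroup.mk' ψ.range) (fun c a => rfl) (fun c a => rfl)
    Subtype.val_injective (QuotientAddGroup.mk'_surjective _) (fun b => by
      rw [QuotientAddGroup.mk'_apply, QuotientAddGroup.eq_zero_iff]
      constructor
      · intro h
        exact ⟨⟨b, h⟩, rfl⟩
      · rintro ⟨b', rfl⟩
        exact b'.2)
  have h3 := hP_eq_zero_of_finite p ρP (B ⧸ ψ.range) (quotRepZ ρB ψ.range hrange)
  rw [h2, h3, h1]
  ring

end general



section perm

/-- The permutation representation on the functions `X → R`: `(c • a) x = a (c⁻¹ • x)`. -/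
def funPerm (R : Type*) [CommRing R] (C : Type*) [Group C] (X : Type*) [MulAction C X] :
    Representation R C (X → R) where
  toFun c := LinearMap.funLeft R R (fun x => c⁻¹ • x)
  map_one' := by
    ext a x
    simp [LinearMap.funLeft]
  map_mul' c d := by
    ext a x
    simp [LinearMap.funLeft, mul_smul]

@[simp] theorem funPerm_apply (R : Type*) [CommRing R] (C : Type*) [Group C] (X : Type*)
    [MulAction C X] (c : C) (a : X → R) (x : X) : funPerm R C X c a x = a (c⁻¹ • x) := rfl

variable {C : Type*} [Group C] [Fintype C] [Invertible (Fintype.card C : ZMod p)]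
  {P : Type*} [AddCommGroup P] [Module (ZMod p) P] [FiniteDimensional (ZMod p) P]
  (ρP : Representation (ZMod p) C P)

theorem muP_eq_zero_of_subsingleton {A : Type*} [AddCommGroup A] [Module (ZMod p) A]
    [Subsingleton A] (ρA : Representation (ZMod p) C A) : muP ρP ρA = 0 := by
  unfold muP dimInv
  haveI : Subsingleton (P →ₗ[ZMod p] A) := ⟨fun f g => by ext x; exact Subsingleton.elim _ _⟩
  exact Module.finrank_zero_of_subsingleton

/-- reduction mod `p` of integer valued functions -/
def redFun (X : Type*) : (X → ℤ) →+ (X → ZMod p) where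
  toFun a x := (a x : ZMod p)
  map_zero' := by ext x; simp
  map_add' a b := by ext x; simp

theorem redFun_surjective (X : Type*) : Function.Surjective (redFun p X) := by
  intro b
  refine ⟨fun x => ((b x).val : ℤ), ?_⟩
  ext x
  simp [redFun]

theorem redFun_ker (X : Type*) : (redFun p X).ker = mulP p (X → ℤ) := by
  ext a
  rw [AddMonoidHom.mem_ker, mem_mulP]
  constructor
  · intro h
    have h1 : ∀ x, (p : ℤ) ∣ a x := fun x => by
      have := congrFun h x
      exact (ZMod.intCast_zmod_eq_zero_iff_dvd (a x) p).1 this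
    choose b hb using h1
    refine ⟨b, ?_⟩
    ext x
    rw [Pi.smul_apply, hb x, nsmul_eq_mul]
  · rintro ⟨b, rfl⟩
    ext x
    simp [redFun]

/-- `(X → ℤ)/p ≃ (X → 𝔽_p)`. -/
noncomputable def cotFunEquiv (X : Type*) : Cot p (X → ℤ) ≃ₗ[ZMod p] (X → ZMod p) :=
  LinearEquiv.ofBijective
    (AddMonoidHom.toZModLinearMap p
      (QuotientAddGroup.lift (mulP p (X → ℤ)) (redFun p X) (by
        intro a ha
        rw [← redFun_ker] at ha
        exact ha)))
    (by
      constructor
      · rw [injective_iff_map_eq_zero]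
        intro x hx
        obtain ⟨a, rfl⟩ := cotMk_surjective p x
        have h1 : redFun p X a = 0 := hx
        rw [cotMk_eq_zero_iff]
        have h2 : a ∈ (redFun p X).ker := h1
        rw [redFun_ker] at h2
        exact h2
      · intro b
        obtain ⟨a, rfl⟩ := redFun_surjective p X b
        exact ⟨cotMk p a, rfl⟩)

theorem cotFunEquiv_mk (X : Type*) (a : X → ℤ) (x : X) :
    cotFunEquiv p X (cotMk p a) x = (a x : ZMod p) := rfl

variable (C) in
/-- **`h_P(ℤ[X]) = μ_P(𝔽_p[X])`** for a `C`-set `X`. -/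
theorem hP_funPerm (X : Type*) [MulAction C X] :
    hP p ρP (funPerm ℤ C X) = muP ρP (funPerm (ZMod p) C X) := by
  unfold hP
  haveI : Subsingleton (torsP p (X → ℤ)) := ⟨fun a b => by
    have key : ∀ a : torsP p (X → ℤ), a = 0 := by
      intro a
      apply Subtype.ext
      ext x
      have h1 := congrFun ((mem_torsP p).1 a.2) x
      rw [Pi.smul_apply, nsmul_eq_mul, Pi.zero_apply] at h1
      rcases mul_eq_zero.mp h1 with h | h
      · exact absurd h (by exact_mod_cast hp.out.ne_zero)
      · exact h
    rw [key a, key b]⟩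
  rw [muP_eq_zero_of_subsingleton p ρP (torsRep p (funPerm ℤ C X)), Nat.cast_zero, sub_zero]
  congr 1
  refine muP_congr ρP _ _ (cotFunEquiv p X) ?_
  intro c y
  obtain ⟨a, rfl⟩ := cotMk_surjective p y
  rw [cotRep_mk]
  ext x
  rw [cotFunEquiv_mk, funPerm_apply, funPerm_apply, cotFunEquiv_mk]

end perm

end Fermat.Agent.W56.EquivUnits0
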