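/-
Programme W56 (target S56), stage 2, chapter (EC-5), helper4: **Bockstein counting with operators**.

Pure algebra.  `Q` a finite group of order prime to `p`, `X` an `𝔽_p[Q]`-module, `Y', Y` two
`ℤ[Q]`-modules and equivariant additive maps `Y' --a--> X --b--> Y` with `ker a = pY'`,
`ker b = im a`, `im b = Y[p]` (a piece `0 → Y'/p → X → Y[p] → 0` of the long exact sequence of
`0 → Z → E →p E → 0`).  Then `μ_P(X) = μ_P(Y'/p) + μ_P(Y[p])` (`muP_step`), and for three such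
pieces `Σ (−1)^r μ_P(X_r) = −h_P(Y_0) + h_P(Y_1) + μ_P(Y_2[p])` (`bockstein_count`).
-/
import Mathlib
import Fermat.Agent.W56.MuP4
import Fermat.Agent.W56.TorsSnake4

set_option autoImplicit false
set_option linter.unusedSectionVars false
set_option linter.style.haveILetI false

namespace Fermat.Agent.W56.Bockstein4

open Fermat.Agent.W56.MuP4 Fermat.Agent.W56.TorsSnake4

variable (p : ℕ) [hp : Fact p.Prime]
  {Q : Type*} [Group Q] [Fintype Q] [Invertible (Fintype.card Q : ZMod p)]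
  {P : Type*} [AddCommGroup P] [Module (ZMod p) P] [FiniteDimensional (ZMod p) P]
  (ρP : Representation (ZMod p) Q P)

section Step

variable {X : Type*} [AddCommGroup X] [Module (ZMod p) X]
  (ρX : Representation (ZMod p) Q X)
  {Y' Y : Type*} [AddCommGroup Y'] [AddCommGroup Y]
  (ρY' : Representation ℤ Q Y') (ρY : Representation ℤ Q Y)
  (a : Y' →+ X) (b : X →+ Y)
  (haq : ∀ q y, a (ρY' q y) = ρX q (a y)) (hbq : ∀ q x, b (ρX q x) = ρY q (b x))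
  (ha : ∀ y, a y = 0 ↔ ∃ y', p • y' = y)
  (hbk : ∀ x, b x = 0 ↔ ∃ y, a y = x)
  (hbr : ∀ y, p • y = 0 ↔ ∃ x, b x = y)

/-- `Y'/p → X`. -/
noncomputable def aBar : Cot p Y' →ₗ[ZMod p] X :=
  AddMonoidHom.toZModLinearMap p
    (QuotientAddGroup.lift (mulP p Y') a fun y hy => (ha y).2 ((mem_mulP p).1 hy))

theorem aBar_mk (y : Y') : aBar p a ha (cotMk p y) = a y := rfl

include hbr in
theorem b_mem_tors (x : X) : b x ∈ torsP p Y := (mem_torsP p).2 ((hbr (b x)).2 ⟨x, rfl⟩)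

/-- `X → Y[p]`. -/
noncomputable def bBar : X →ₗ[ZMod p] torsP p Y :=
  AddMonoidHom.toZModLinearMap p (b.codRestrict (torsP p Y) (b_mem_tors p b hbr))

theorem bBar_coe (x : X) : ((bBar p b hbr x : torsP p Y) : Y) = b x := rfl

theorem aBar_injective : Function.Injective (aBar p a ha) := by
  rw [injective_iff_map_eq_zero]
  intro x hx
  obtain ⟨y, rfl⟩ := cotMk_surjective p x
  rw [aBar_mk] at hx
  exact (cotMk_eq_zero_iff p).2 ((ha y).1 hx)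

theorem bBar_surjective : Function.Surjective (bBar p b hbr) := by
  intro y
  obtain ⟨x, hx⟩ := (hbr y.1).1 ((mem_torsP p).1 y.2)
  exact ⟨x, Subtype.ext hx⟩

include hbk in
theorem bBar_exact (x : X) : bBar p b hbr x = 0 ↔ ∃ y, aBar p a ha y = x := by
  constructor
  · intro h
    have h0 : b x = 0 := congrArg Subtype.val h
    obtain ⟨y, hy⟩ := (hbk x).1 h0
    exact ⟨cotMk p y, hy⟩
  · rintro ⟨y, rfl⟩
    obtain ⟨y', rfl⟩ := cotMk_surjective p y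
    exact Subtype.ext ((hbk _).2 ⟨y', rfl⟩)

include haq hbq ha hbk hbr in
/-- **One piece of the Bockstein sequence**: `μ_P(X) = μ_P(Y'/p) + μ_P(Y[p])`. -/
theorem muP_step [Finite X] : muP ρP ρX = muP ρP (cotRep p ρY') + muP ρP (torsRep p ρY) := by
  haveI : FiniteDimensional (ZMod p) X := Module.Finite.of_finite
  refine muP_add ρP (cotRep p ρY') ρX (torsRep p ρY) (aBar p a ha) (bBar p b hbr) ?_ ?_
    (aBar_injective p a ha) (bBar_surjective p b hbr) (bBar_exact p a b ha hbk hbr)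
  · intro q y
    obtain ⟨y', rfl⟩ := cotMk_surjective p y
    rw [cotRep_mk, aBar_mk, aBar_mk, haq]
  · intro q x
    exact Subtype.ext (hbq q x)

end Step

section Zero

variable {X : Type*} [AddCommGroup X] [Module (ZMod p) X]
  (ρX : Representation (ZMod p) Q X)
  {Y : Type*} [AddCommGroup Y] (ρY : Representation ℤ Q Y)
  (b : X →+ Y) (hbq : ∀ q x, b (ρX q x) = ρY q (b x))
  (hbi : Function.Injective b) (hbr : ∀ y, p • y = 0 ↔ ∃ x, b x = y)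

include hbq hbi hbr in
/-- The first piece: `X₀ ≅ Y₀[p]`. -/
theorem muP_zero : muP ρP ρX = muP ρP (torsRep p ρY) := by
  have hbij : Function.Bijective (bBar p b hbr) :=
    ⟨fun x x' h => hbi (congrArg Subtype.val h), bBar_surjective p b hbr⟩
  exact muP_congr ρP ρX (torsRep p ρY) (LinearEquiv.ofBijective (bBar p b hbr) hbij)
    fun q x => Subtype.ext (hbq q x)

end Zero

section Count

variable {X₀ X₁ X₂ : Type*} [AddCommGroup X₀] [Module (ZMod p) X₀]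
  [AddCommGroup X₁] [Module (ZMod p) X₁] [Finite X₁]
  [AddCommGroup X₂] [Module (ZMod p) X₂] [Finite X₂]
  (ρX₀ : Representation (ZMod p) Q X₀) (ρX₁ : Representation (ZMod p) Q X₁)
  (ρX₂ : Representation (ZMod p) Q X₂)
  {Y₀ Y₁ Y₂ : Type*} [AddCommGroup Y₀] [AddCommGroup Y₁] [AddCommGroup Y₂]
  (ρY₀ : Representation ℤ Q Y₀) (ρY₁ : Representation ℤ Q Y₁) (ρY₂ : Representation ℤ Q Y₂)
  (b₀ : X₀ →+ Y₀) (a₀ : Y₀ →+ X₁) (b₁ : X₁ →+ Y₁) (a₁ : Y₁ →+ X₂) (b₂ : X₂ →+ Y₂)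
  (hb₀q : ∀ q x, b₀ (ρX₀ q x) = ρY₀ q (b₀ x)) (ha₀q : ∀ q y, a₀ (ρY₀ q y) = ρX₁ q (a₀ y))
  (hb₁q : ∀ q x, b₁ (ρX₁ q x) = ρY₁ q (b₁ x)) (ha₁q : ∀ q y, a₁ (ρY₁ q y) = ρX₂ q (a₁ y))
  (hb₂q : ∀ q x, b₂ (ρX₂ q x) = ρY₂ q (b₂ x))
  (hb₀i : Function.Injective b₀) (hb₀r : ∀ y, p • y = 0 ↔ ∃ x, b₀ x = y)
  (ha₀ : ∀ y, a₀ y = 0 ↔ ∃ y', p • y' = y)
  (hb₁k : ∀ x, b₁ x = 0 ↔ ∃ y, a₀ y = x) (hb₁r : ∀ y, p • y = 0 ↔ ∃ x, b₁ x = y)
  (ha₁ : ∀ y, a₁ y = 0 ↔ ∃ y', p • y' = y)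
  (hb₂k : ∀ x, b₂ x = 0 ↔ ∃ y, a₁ y = x) (hb₂r : ∀ y, p • y = 0 ↔ ∃ x, b₂ x = y)

include hb₀q ha₀q hb₁q ha₁q hb₂q hb₀i hb₀r ha₀ hb₁k hb₁r ha₁ hb₂k hb₂r in
/-- **The Bockstein count**: `Σ (−1)^r μ_P(X_r) = −h_P(Y₀) + h_P(Y₁) + μ_P(Y₂[p])`. -/
theorem bockstein_count :
    (muP ρP ρX₀ : ℤ) - muP ρP ρX₁ + muP ρP ρX₂ =
      - hP p ρP ρY₀ + hP p ρP ρY₁ + muP ρP (torsRep p ρY₂) := by
  have e0 := muP_zero p ρP ρX₀ ρY₀ b₀ hb₀q hb₀i hb₀r
  have e1 := muP_step p ρP ρX₁ ρY₀ ρY₁ a₀ b₁ ha₀q hb₁q ha₀ hb₁k hb₁r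
  have e2 := muP_step p ρP ρX₂ ρY₁ ρY₂ a₁ b₂ ha₁q hb₂q ha₁ hb₂k hb₂r
  unfold hP
  rw [e0, e1, e2]
  push_cast
  ring

include ha₀ hb₁r ha₁ hb₂r in
/-- finiteness of the pieces, from the finiteness of the `X_r`. -/
theorem finite_pieces :
    Finite (Cot p Y₀) ∧ Finite (torsP p Y₁) ∧ Finite (Cot p Y₁) ∧ Finite (torsP p Y₂) :=
  ⟨Finite.of_injective _ (aBar_injective p a₀ ha₀),
    Finite.of_surjective _ (bBar_surjective p b₁ hb₁r),
    Finite.of_injective _ (aBar_injective p a₁ ha₁),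
    Finite.of_surjective _ (bBar_surjective p b₂ hb₂r)⟩

end Count

end Fermat.Agent.W56.Bockstein4
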