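/-
Programme W56 (target S56), stage 2, chapter (EC-5), helper4: **`k`-linear functors on `G`-modules and
`p′`-descent, formally**.

A `LinFun k G` is a `k`-linear functor from `Rep k G` (equivariant linear maps) to `k`-modules; the
examples are `H⁰`, `H¹`, `H²` of level cohomology (`h0Fun`, `h1Fun`, `h2Fun`).

For such a functor `F`:

* `inducedRep F τ`: a finite group `Q` acting on `V : Rep k G` through equivariant maps acts on `F V`;
* `finrank_eq_dimInv`: if `|Q|` is invertible in `k` and `N → V` is an equivariant injection onto the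
  `Q`-invariants of `V`, then `dim F(N) = dim F(V)^Q`   (averaging idempotent);
* `homIso` / `dimInv_homRep`: for a finite dimensional vector space `P` with a `Q`-action,
  `F(Hom_k(P, W)) ≅ Hom_k(P, F(W))` compatibly with the `Q`-actions, whence
  `dim F(Hom_k(P, W))^Q = μ_P(F(W))`.
-/
import Mathlib
import Fermat.Agent.PT.PRO.LevelCoh28
import Fermat.Agent.W56.ChiLev4
import Fermat.Agent.W56.MuP4

set_option autoImplicit false
set_option linter.unusedSectionVars false

open CategoryTheory

namespace Fermat.Agent.W56.LinFun4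

open Fermat.Agent.PT.PRO.LevelCoh28 Fermat.Agent.W56.ChiLev4 Fermat.Agent.W56.MuP4

/-- A `k`-linear functor on `G`-modules. -/
structure LinFun (k G : Type) [CommRing k] [Group G] where
  /-- on objects -/
  obj : Rep.{0} k G → Type
  /-- additive structure -/
  acg : ∀ A, AddCommGroup (obj A)
  /-- linear structure -/
  mod : ∀ A, Module k (obj A)
  /-- on morphisms -/
  map : ∀ {A B : Rep.{0} k G} (φ : A →ₗ[k] B), (∀ g a, φ (A.ρ g a) = B.ρ g (φ a)) →
    (obj A →ₗ[k] obj B)
  map_id : ∀ (A : Rep.{0} k G) (h : ∀ g a, (LinearMap.id : A →ₗ[k] A) (A.ρ g a) =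
    A.ρ g ((LinearMap.id : A →ₗ[k] A) a)), map LinearMap.id h = LinearMap.id
  map_comp : ∀ {A B D : Rep.{0} k G} (φ : A →ₗ[k] B) (hφ : ∀ g a, φ (A.ρ g a) = B.ρ g (φ a))
    (ψ : B →ₗ[k] D) (hψ : ∀ g a, ψ (B.ρ g a) = D.ρ g (ψ a))
    (h : ∀ g a, (ψ ∘ₗ φ) (A.ρ g a) = D.ρ g ((ψ ∘ₗ φ) a)),
    map (ψ ∘ₗ φ) h = map ψ hψ ∘ₗ map φ hφ
  map_add : ∀ {A B : Rep.{0} k G} (φ : A →ₗ[k] B) (hφ : ∀ g a, φ (A.ρ g a) = B.ρ g (φ a))
    (ψ : A →ₗ[k] B) (hψ : ∀ g a, ψ (A.ρ g a) = B.ρ g (ψ a))
    (h : ∀ g a, (φ + ψ) (A.ρ g a) = B.ρ g ((φ + ψ) a)),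
    map (φ + ψ) h = map φ hφ + map ψ hψ
  map_smul : ∀ {A B : Rep.{0} k G} (r : k) (φ : A →ₗ[k] B)
    (hφ : ∀ g a, φ (A.ρ g a) = B.ρ g (φ a))
    (h : ∀ g a, (r • φ) (A.ρ g a) = B.ρ g ((r • φ) a)),
    map (r • φ) h = r • map φ hφ

attribute [instance] LinFun.acg LinFun.mod

/-! ### Generalities -/

section General

variable {k G : Type} [Field k] [Group G] (F : LinFun k G)

theorem LinFun.map_congr {A B : Rep.{0} k G} {φ φ' : A →ₗ[k] B} (h : φ = φ')
    (hφ : ∀ g a, φ (A.ρ g a) = B.ρ g (φ a)) (hφ' : ∀ g a, φ' (A.ρ g a) = B.ρ g (φ' a)) :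
    F.map φ hφ = F.map φ' hφ' := by
  subst h
  rfl

theorem equivariant_add {A B : Rep.{0} k G} (φ ψ : A →ₗ[k] B)
    (hφ : ∀ g a, φ (A.ρ g a) = B.ρ g (φ a)) (hψ : ∀ g a, ψ (A.ρ g a) = B.ρ g (ψ a)) (g : G)
    (a : A) : (φ + ψ) (A.ρ g a) = B.ρ g ((φ + ψ) a) := by
  rw [LinearMap.add_apply, LinearMap.add_apply, hφ, hψ, map_add]

theorem equivariant_smul {A B : Rep.{0} k G} (r : k) (φ : A →ₗ[k] B)
    (hφ : ∀ g a, φ (A.ρ g a) = B.ρ g (φ a)) (g : G) (a : A) :
    (r • φ) (A.ρ g a) = B.ρ g ((r • φ) a) := by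
  rw [LinearMap.smul_apply, LinearMap.smul_apply, hφ, map_smul]

theorem equivariant_zero {A B : Rep.{0} k G} (g : G) (a : A) :
    (0 : A →ₗ[k] B) (A.ρ g a) = B.ρ g ((0 : A →ₗ[k] B) a) := by
  simp

theorem LinFun.map_zero {A B : Rep.{0} k G} (h : ∀ g a, (0 : A →ₗ[k] B) (A.ρ g a) =
    B.ρ g ((0 : A →ₗ[k] B) a)) : F.map (0 : A →ₗ[k] B) h = 0 := by
  have h1 := F.map_add (0 : A →ₗ[k] B) h (0 : A →ₗ[k] B) h (by intro g a; simp)
  rw [F.map_congr (add_zero (0 : A →ₗ[k] B)) _ h] at h1
  exact left_eq_add.1 h1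

theorem equivariant_sum {A B : Rep.{0} k G} {ι : Type*} (s : Finset ι) (φ : ι → (A →ₗ[k] B))
    (hφ : ∀ i g a, φ i (A.ρ g a) = B.ρ g (φ i a)) (g : G) (a : A) :
    (∑ i ∈ s, φ i) (A.ρ g a) = B.ρ g ((∑ i ∈ s, φ i) a) := by
  simp only [LinearMap.sum_apply, map_sum, hφ]

theorem LinFun.map_sum {A B : Rep.{0} k G} {ι : Type*} (s : Finset ι) (φ : ι → (A →ₗ[k] B))
    (hφ : ∀ i g a, φ i (A.ρ g a) = B.ρ g (φ i a))
    (h : ∀ g a, (∑ i ∈ s, φ i) (A.ρ g a) = B.ρ g ((∑ i ∈ s, φ i) a)) :
    F.map (∑ i ∈ s, φ i) h = ∑ i ∈ s, F.map (φ i) (hφ i) := by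
  classical
  induction s using Finset.induction_on with
  | empty =>
    simp only [Finset.sum_empty]
    exact F.map_zero _
  | insert i s hi ih =>
    have e : ∑ j ∈ insert i s, φ j = φ i + ∑ j ∈ s, φ j := Finset.sum_insert hi
    rw [F.map_congr e h (by
        intro g a
        rw [← e]
        exact h g a),
      F.map_add (φ i) (hφ i) (∑ j ∈ s, φ j) (equivariant_sum s φ hφ), ih (equivariant_sum s φ hφ),
      Finset.sum_insert hi]

/-- A group acting on `V` through equivariant maps acts on `F V`. -/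
def inducedRep {Q : Type*} [Group Q] (V : Rep.{0} k G) (τ : Representation k Q V)
    (hτ : ∀ q g v, τ q (V.ρ g v) = V.ρ g (τ q v)) : Representation k Q (F.obj V) where
  toFun q := F.map (τ q) (hτ q)
  map_one' := by
    rw [F.map_congr (map_one τ) (hτ 1) (fun g a => rfl)]
    exact F.map_id V _
  map_mul' q q' := by
    rw [F.map_congr (map_mul τ q q') (hτ (q * q')) (fun g a => by
      show τ q (τ q' (V.ρ g a)) = V.ρ g (τ q (τ q' a))
      rw [hτ q', hτ q])]
    exact F.map_comp (τ q') (hτ q') (τ q) (hτ q) _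

theorem inducedRep_apply {Q : Type*} [Group Q] (V : Rep.{0} k G) (τ : Representation k Q V)
    (hτ : ∀ q g v, τ q (V.ρ g v) = V.ρ g (τ q v)) (q : Q) :
    inducedRep F V τ hτ q = F.map (τ q) (hτ q) := rfl

end General

/-! ### Descent along a finite group of invertible order acting on the coefficients -/

section Descent

variable {k G : Type} [Field k] [Group G] (F : LinFun k G)
  {Q : Type*} [Group Q] [Fintype Q] [Invertible (Fintype.card Q : k)]

theorem averageMap_eq {V : Type*} [AddCommGroup V] [Module k V] (τ : Representation k Q V) :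
    τ.averageMap = (⅟(Fintype.card Q : k)) • ∑ q : Q, τ q := by
  ext v
  simp only [Representation.averageMap, GroupAlgebra.average, map_smul, map_sum,
    LinearMap.smul_apply, LinearMap.sum_apply, Representation.asAlgebraHom_of]

variable (N V : Rep.{0} k G) (τ : Representation k Q V)
  (hτ : ∀ q g v, τ q (V.ρ g v) = V.ρ g (τ q v))
  (incl : N →ₗ[k] V) (hincl : ∀ g n, incl (N.ρ g n) = V.ρ g (incl n))
  (hinj : Function.Injective incl)
  (hrange : ∀ v, v ∈ τ.invariants ↔ ∃ n, incl n = v)

include hτ in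
theorem averageMap_equivariant (g : G) (v : V) :
    τ.averageMap (V.ρ g v) = V.ρ g (τ.averageMap v) := by
  rw [averageMap_eq]
  simp only [LinearMap.smul_apply, LinearMap.sum_apply, map_smul, map_sum, hτ]

include hrange in
theorem averageMap_mem_range (v : V) : τ.averageMap v ∈ LinearMap.range incl :=
  (hrange _).1 (τ.averageMap_invariant v)

/-- The retraction `V → N`. -/
noncomputable def retr : V →ₗ[k] N :=
  (LinearEquiv.ofInjective incl hinj).symm.toLinearMap ∘ₗ
    (LinearMap.codRestrict (LinearMap.range incl) τ.averageMap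
      (averageMap_mem_range N V τ incl hrange))

theorem incl_retr (v : V) : incl (retr N V τ incl hinj hrange v) = τ.averageMap v := by
  unfold retr
  have := LinearEquiv.apply_symm_apply (LinearEquiv.ofInjective incl hinj)
    (LinearMap.codRestrict (LinearMap.range incl) τ.averageMap
      (averageMap_mem_range N V τ incl hrange) v)
  exact congrArg Subtype.val this

theorem retr_incl (n : N) : retr N V τ incl hinj hrange (incl n) = n := by
  apply hinj
  rw [incl_retr, τ.averageMap_id _ ((hrange _).2 ⟨n, rfl⟩)]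

include hτ hincl in
theorem retr_equivariant (g : G) (v : V) :
    retr N V τ incl hinj hrange (V.ρ g v) = N.ρ g (retr N V τ incl hinj hrange v) := by
  apply hinj
  rw [incl_retr, hincl, incl_retr, averageMap_equivariant V τ hτ]

include hτ in
theorem map_averageMap (h : ∀ g v, τ.averageMap (V.ρ g v) = V.ρ g (τ.averageMap v)) :
    F.map τ.averageMap h = (inducedRep F V τ hτ).averageMap := by
  rw [averageMap_eq (inducedRep F V τ hτ)]
  have e := averageMap_eq τ
  rw [F.map_congr e h (by
      intro g v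
      rw [← e]
      exact h g v),
    F.map_smul (⅟(Fintype.card Q : k)) (∑ q : Q, τ q)
      (equivariant_sum Finset.univ (fun q => τ q) hτ),
    F.map_sum Finset.univ (fun q => τ q) hτ]
  rfl

include hτ hincl hinj hrange in
/-- **Descent**: `dim F(N) = dim F(V)^Q` when `N ≅ V^Q` and `|Q|` is invertible. -/
theorem finrank_eq_dimInv :
    Module.finrank k (F.obj N) = dimInv (inducedRep F V τ hτ) := by
  unfold dimInv
  have hav := averageMap_equivariant V τ hτ
  have hretr := retr_equivariant N V τ hτ incl hincl hinj hrange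
  -- `F(retr) ∘ F(incl) = id`
  have h1 : F.map (retr N V τ incl hinj hrange) hretr ∘ₗ F.map incl hincl = LinearMap.id := by
    rw [← F.map_comp incl hincl _ hretr (by
      intro g n
      simp only [LinearMap.coe_comp, Function.comp_apply, retr_incl])]
    rw [F.map_congr (show retr N V τ incl hinj hrange ∘ₗ incl = LinearMap.id from
      LinearMap.ext fun n => retr_incl N V τ incl hinj hrange n) _ (fun g a => rfl)]
    exact F.map_id N _
  -- `F(incl) ∘ F(retr) = average`
  have h2 : F.map incl hincl ∘ₗ F.map (retr N V τ incl hinj hrange) hretr =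
      (inducedRep F V τ hτ).averageMap := by
    rw [← F.map_comp _ hretr incl hincl (by
      intro g v
      simp only [LinearMap.coe_comp, Function.comp_apply, incl_retr]
      exact hav g v)]
    rw [F.map_congr (show incl ∘ₗ retr N V τ incl hinj hrange = τ.averageMap from
      LinearMap.ext fun v => incl_retr N V τ incl hinj hrange v) _ hav]
    exact map_averageMap F V τ hτ hav
  have hinjF : Function.Injective (F.map incl hincl) := by
    intro x y hxy
    have := congrArg (F.map (retr N V τ incl hinj hrange) hretr) hxy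
    rwa [← LinearMap.comp_apply, ← LinearMap.comp_apply, h1] at this
  have hrangeF : LinearMap.range (F.map incl hincl) = (inducedRep F V τ hτ).invariants := by
    ext y
    constructor
    · rintro ⟨x, rfl⟩
      have : F.map incl hincl x = (inducedRep F V τ hτ).averageMap (F.map incl hincl x) := by
        rw [← h2, LinearMap.comp_apply, ← LinearMap.comp_apply (F.map _ hretr), h1,
          LinearMap.id_apply]
      rw [this]
      exact (inducedRep F V τ hτ).averageMap_invariant _
    · intro hy
      refine ⟨F.map (retr N V τ incl hinj hrange) hretr y, ?_⟩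
      rw [← LinearMap.comp_apply, h2, (inducedRep F V τ hτ).averageMap_id y hy]
  rw [← hrangeF]
  exact (LinearMap.finrank_range_of_inj hinjF).symm

end Descent

/-! ### Invariance under isomorphisms -/

section Congr

variable {k G : Type} [Field k] [Group G] (F : LinFun k G)

/-- `F` maps equivariant bijections to bijections. -/
theorem LinFun.map_bijective {V V' : Rep.{0} k G} (Ξ : V →ₗ[k] V')
    (hΞ : ∀ g v, Ξ (V.ρ g v) = V'.ρ g (Ξ v)) (hbij : Function.Bijective Ξ) :
    Function.Bijective (F.map Ξ hΞ) := by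
  let e := LinearEquiv.ofBijective Ξ hbij
  have hinv : ∀ g v, e.symm.toLinearMap (V'.ρ g v) = V.ρ g (e.symm.toLinearMap v) := by
    intro g v
    apply e.injective
    show e (e.symm (V'.ρ g v)) = Ξ (V.ρ g (e.symm v))
    rw [e.apply_symm_apply, hΞ]
    show _ = V'.ρ g (e (e.symm v))
    rw [e.apply_symm_apply]
  have h1 : F.map e.symm.toLinearMap hinv ∘ₗ F.map Ξ hΞ = LinearMap.id := by
    rw [← F.map_comp Ξ hΞ _ hinv (by
      intro g v
      rw [LinearMap.comp_apply, LinearMap.comp_apply, hΞ, hinv])]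
    rw [F.map_congr (show e.symm.toLinearMap ∘ₗ Ξ = LinearMap.id from
      LinearMap.ext fun v => e.symm_apply_apply v) _ (fun g a => rfl)]
    exact F.map_id V _
  have h2 : F.map Ξ hΞ ∘ₗ F.map e.symm.toLinearMap hinv = LinearMap.id := by
    rw [← F.map_comp _ hinv Ξ hΞ (by
      intro g v
      rw [LinearMap.comp_apply, LinearMap.comp_apply, hinv, hΞ])]
    rw [F.map_congr (show Ξ ∘ₗ e.symm.toLinearMap = LinearMap.id from
      LinearMap.ext fun v => e.apply_symm_apply v) _ (fun g a => rfl)]
    exact F.map_id V' _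
  constructor
  · intro x y hxy
    have := congrArg (F.map e.symm.toLinearMap hinv) hxy
    rwa [← LinearMap.comp_apply, ← LinearMap.comp_apply, h1] at this
  · intro y
    exact ⟨F.map e.symm.toLinearMap hinv y, by rw [← LinearMap.comp_apply, h2]; rfl⟩

variable {Q : Type*} [Group Q] [Fintype Q] [Invertible (Fintype.card Q : k)]

/-- The dimension of the invariants of the induced action is invariant under isomorphisms. -/
theorem dimInv_inducedRep_congr (V V' : Rep.{0} k G) (τ : Representation k Q V)
    (hτ : ∀ q g v, τ q (V.ρ g v) = V.ρ g (τ q v)) (τ' : Representation k Q V')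
    (hτ' : ∀ q g v, τ' q (V'.ρ g v) = V'.ρ g (τ' q v)) (Ξ : V →ₗ[k] V')
    (hΞG : ∀ g v, Ξ (V.ρ g v) = V'.ρ g (Ξ v)) (hΞQ : ∀ q v, Ξ (τ q v) = τ' q (Ξ v))
    (hbij : Function.Bijective Ξ) :
    dimInv (inducedRep F V τ hτ) = dimInv (inducedRep F V' τ' hτ') := by
  refine dimInv_congr _ _ (LinearEquiv.ofBijective (F.map Ξ hΞG) (F.map_bijective Ξ hΞG hbij))
    fun q ξ => ?_
  show F.map Ξ hΞG (F.map (τ q) (hτ q) ξ) = F.map (τ' q) (hτ' q) (F.map Ξ hΞG ξ)
  rw [← LinearMap.comp_apply, ← LinearMap.comp_apply,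
    ← F.map_comp (τ q) (hτ q) Ξ hΞG (by
      intro g v
      rw [LinearMap.comp_apply, LinearMap.comp_apply, hτ, hΞG]),
    ← F.map_comp Ξ hΞG (τ' q) (hτ' q) (by
      intro g v
      rw [LinearMap.comp_apply, LinearMap.comp_apply, hΞG, hτ'])]
  exact LinearMap.congr_fun (F.map_congr (LinearMap.ext fun v => hΞQ q v) _ _) ξ

end Congr

/-! ### `F(Hom_k(P, W)) ≅ Hom_k(P, F(W))` -/

section HomRep

variable {k G : Type} [Field k] [Group G] (F : LinFun k G)
  (P : Type) [AddCommGroup P] [Module k P] (W : Rep.{0} k G)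

/-- The action of `G` on `Hom_k(P, W)` through the values. -/
def valRep : Representation k G (P →ₗ[k] W) where
  toFun g :=
    { toFun := fun f => W.ρ g ∘ₗ f
      map_add' := fun f f' => LinearMap.comp_add _ _ _
      map_smul' := fun r f => LinearMap.comp_smul _ _ _ }
  map_one' := by
    ext f x
    show W.ρ 1 (f x) = f x
    rw [map_one, Module.End.one_apply]
  map_mul' g h := by
    ext f x
    show W.ρ (g * h) (f x) = W.ρ g (W.ρ h (f x))
    rw [map_mul, Module.End.mul_apply]

/-- `Hom_k(P, W)` as a `G`-module (`P` with trivial action). -/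
noncomputable def homRep : Rep.{0} k G := Rep.of (valRep P W)

/-- The carrier of `homRep P W` is `Hom_k(P, W)`. -/
noncomputable def hrEquiv : homRep P W ≃ₗ[k] (P →ₗ[k] W) := LinearEquiv.refl k _

theorem hrEquiv_ρ (g : G) (f : homRep P W) (x : P) :
    hrEquiv P W ((homRep P W).ρ g f) x = W.ρ g (hrEquiv P W f x) := rfl

/-- Evaluation at `x`. -/
noncomputable def evAt (x : P) : homRep P W →ₗ[k] W := LinearMap.applyₗ x ∘ₗ (hrEquiv P W).toLinearMap

theorem evAt_apply (x : P) (f : homRep P W) : evAt P W x f = hrEquiv P W f x := rfl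

theorem evAt_equivariant (x : P) (g : G) (f : homRep P W) :
    evAt P W x ((homRep P W).ρ g f) = W.ρ g (evAt P W x f) := rfl

/-- `w ↦ (x ↦ λ(x) w)`. -/
noncomputable def coordIncl (lam : P →ₗ[k] k) : W →ₗ[k] homRep P W :=
  (hrEquiv P W).symm.toLinearMap ∘ₗ
    { toFun := fun w => LinearMap.smulRight lam w
      map_add' := fun w w' => by
        ext x
        show lam x • (w + w') = lam x • w + lam x • w'
        rw [smul_add]
      map_smul' := fun r w => by
        ext x
        show lam x • (r • w) = r • (lam x • w)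
        rw [smul_comm] }

theorem coordIncl_apply (lam : P →ₗ[k] k) (w : W) (x : P) :
    hrEquiv P W (coordIncl P W lam w) x = lam x • w := rfl

theorem coordIncl_equivariant (lam : P →ₗ[k] k) (g : G) (w : W) :
    coordIncl P W lam (W.ρ g w) = (homRep P W).ρ g (coordIncl P W lam w) := by
  apply (hrEquiv P W).injective
  apply LinearMap.ext
  intro x
  show lam x • W.ρ g w = W.ρ g (lam x • w)
  rw [map_smul]

theorem evAt_add (x y : P) : evAt P W (x + y) = evAt P W x + evAt P W y :=
  LinearMap.ext fun f => map_add (hrEquiv P W f) x y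

theorem evAt_smul (r : k) (x : P) : evAt P W (r • x) = r • evAt P W x :=
  LinearMap.ext fun f => map_smul (hrEquiv P W f) r x

/-- The canonical map `F(Hom_k(P, W)) → Hom_k(P, F(W))`. -/
noncomputable def homIso : F.obj (homRep P W) →ₗ[k] (P →ₗ[k] F.obj W) where
  toFun ξ :=
    { toFun := fun x => F.map (evAt P W x) (evAt_equivariant P W x) ξ
      map_add' := fun x y => by
        rw [F.map_congr (evAt_add P W x y) _ (equivariant_add _ _ (evAt_equivariant P W x)
            (evAt_equivariant P W y)),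
          F.map_add _ (evAt_equivariant P W x) _ (evAt_equivariant P W y)]
        rfl
      map_smul' := fun r x => by
        rw [F.map_congr (evAt_smul P W r x) _ (equivariant_smul r _ (evAt_equivariant P W x)),
          F.map_smul r _ (evAt_equivariant P W x)]
        rfl }
  map_add' ξ ξ' := by
    ext x
    exact map_add (F.map (evAt P W x) (evAt_equivariant P W x)) ξ ξ'
  map_smul' r ξ := by
    ext x
    exact map_smul (F.map (evAt P W x) (evAt_equivariant P W x)) r ξ

theorem homIso_apply (ξ : F.obj (homRep P W)) (x : P) :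
    homIso F P W ξ x = F.map (evAt P W x) (evAt_equivariant P W x) ξ := rfl

variable [FiniteDimensional k P]

theorem sum_coordIncl_evAt :
    ∑ i, coordIncl P W ((Module.finBasis k P).coord i) ∘ₗ evAt P W (Module.finBasis k P i) =
      LinearMap.id := by
  apply LinearMap.ext
  intro f
  apply (hrEquiv P W).injective
  apply LinearMap.ext
  intro x
  rw [LinearMap.sum_apply, map_sum, LinearMap.sum_apply, LinearMap.id_apply]
  have h1 : ∀ i, hrEquiv P W ((coordIncl P W ((Module.finBasis k P).coord i) ∘ₗ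
      evAt P W (Module.finBasis k P i)) f) x =
      (Module.finBasis k P).repr x i • hrEquiv P W f (Module.finBasis k P i) := fun i => rfl
  simp only [h1]
  conv_rhs => rw [← (Module.finBasis k P).sum_repr x]
  rw [map_sum]
  simp only [map_smul]

theorem homIso_bijective : Function.Bijective (homIso F P W) := by
  set b := Module.finBasis k P with hb
  have hcomp : ∀ i g (f : homRep P W),
      (coordIncl P W (b.coord i) ∘ₗ evAt P W (b i)) ((homRep P W).ρ g f) =
        (homRep P W).ρ g ((coordIncl P W (b.coord i) ∘ₗ evAt P W (b i)) f) := fun i g f => by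
    simp only [LinearMap.coe_comp, Function.comp_apply, evAt_equivariant, coordIncl_equivariant]
  have hid : ∀ ξ : F.obj (homRep P W), ξ = ∑ i, F.map (coordIncl P W (b.coord i))
      (coordIncl_equivariant P W (b.coord i)) (homIso F P W ξ (b i)) := by
    intro ξ
    have h1 := F.map_id (homRep P W) (fun g a => rfl)
    rw [← F.map_congr (sum_coordIncl_evAt P W) (equivariant_sum Finset.univ _ hcomp) _,
      F.map_sum Finset.univ _ hcomp] at h1
    have h2 := LinearMap.congr_fun h1 ξ
    rw [LinearMap.id_apply, LinearMap.sum_apply] at h2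
    refine h2.symm.trans (Finset.sum_congr rfl fun i _ => ?_)
    rw [F.map_comp (evAt P W (b i)) (evAt_equivariant P W (b i)) (coordIncl P W (b.coord i))
      (coordIncl_equivariant P W (b.coord i)) (hcomp i)]
    rfl
  constructor
  · intro ξ ξ' h
    rw [hid ξ, hid ξ', h]
  · intro ψ
    refine ⟨∑ i, F.map (coordIncl P W (b.coord i)) (coordIncl_equivariant P W (b.coord i))
      (ψ (b i)), ?_⟩
    apply LinearMap.ext
    intro x
    rw [homIso_apply, map_sum]
    have h3 : ∀ i, F.map (evAt P W x) (evAt_equivariant P W x)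
        (F.map (coordIncl P W (b.coord i)) (coordIncl_equivariant P W (b.coord i)) (ψ (b i))) =
        b.repr x i • ψ (b i) := by
      intro i
      rw [← LinearMap.comp_apply, ← F.map_comp (coordIncl P W (b.coord i))
        (coordIncl_equivariant P W (b.coord i)) (evAt P W x) (evAt_equivariant P W x) (by
          intro g w
          simp only [LinearMap.coe_comp, Function.comp_apply, coordIncl_equivariant,
            evAt_equivariant])]
      rw [F.map_congr (show evAt P W x ∘ₗ coordIncl P W (b.coord i) =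
          b.repr x i • (LinearMap.id : W →ₗ[k] W) from LinearMap.ext fun w => rfl) _
          (equivariant_smul _ _ (fun g a => rfl)),
        F.map_smul (b.repr x i) LinearMap.id (fun g a => rfl), F.map_id W]
      rfl
    simp only [h3]
    conv_rhs => rw [← b.sum_repr x]
    rw [map_sum]
    simp only [map_smul]

end HomRep

/-! ### The action of `Q` on `Hom_k(P, W)` by conjugation -/

section HomQ

variable {k G : Type} [Field k] [Group G] (F : LinFun k G)
  (P : Type) [AddCommGroup P] [Module k P] (W : Rep.{0} k G)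
  {Q : Type*} [Group Q] (ρP : Representation k Q P) (τ : Representation k Q W)
  (hτ : ∀ q g w, τ q (W.ρ g w) = W.ρ g (τ q w))

/-- `Q` acts on `Hom_k(P, W)` by conjugation. -/
noncomputable def homτ : Representation k Q (homRep P W) := Representation.linHom ρP τ

theorem homτ_apply (q : Q) (f : homRep P W) (x : P) :
    hrEquiv P W (homτ P W ρP τ q f) x = τ q (hrEquiv P W f (ρP q⁻¹ x)) := rfl

include hτ in
theorem homτ_comm (q : Q) (g : G) (f : homRep P W) :
    homτ P W ρP τ q ((homRep P W).ρ g f) = (homRep P W).ρ g (homτ P W ρP τ q f) := by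
  apply (hrEquiv P W).injective
  apply LinearMap.ext
  intro x
  rw [homτ_apply, hrEquiv_ρ, hrEquiv_ρ, homτ_apply, hτ]

theorem evAt_comp_homτ (q : Q) (x : P) :
    evAt P W x ∘ₗ homτ P W ρP τ q = τ q ∘ₗ evAt P W (ρP q⁻¹ x) := rfl

/-- `homIso` intertwines the induced action with the conjugation action. -/
theorem homIso_equivariant (q : Q) (ξ : F.obj (homRep P W)) :
    homIso F P W (inducedRep F (homRep P W) (homτ P W ρP τ) (homτ_comm P W ρP τ hτ) q ξ) =
      Representation.linHom ρP (inducedRep F W τ hτ) q (homIso F P W ξ) := by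
  apply LinearMap.ext
  intro x
  rw [homIso_apply, inducedRep_apply, Representation.linHom_apply, LinearMap.comp_apply,
    LinearMap.comp_apply, inducedRep_apply, homIso_apply, ← LinearMap.comp_apply,
    ← LinearMap.comp_apply (F.map (τ q) (hτ q)),
    ← F.map_comp (homτ P W ρP τ q) (homτ_comm P W ρP τ hτ q) (evAt P W x)
      (evAt_equivariant P W x) (by
        intro g f
        rw [LinearMap.comp_apply, LinearMap.comp_apply, homτ_comm P W ρP τ hτ,
          evAt_equivariant]),
    ← F.map_comp (evAt P W (ρP q⁻¹ x)) (evAt_equivariant P W _) (τ q) (hτ q) (by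
        intro g f
        rw [LinearMap.comp_apply, LinearMap.comp_apply, evAt_equivariant, hτ])]
  exact LinearMap.congr_fun (F.map_congr (evAt_comp_homτ P W ρP τ q x) _ _) ξ

variable [FiniteDimensional k P] [Fintype Q] [Invertible (Fintype.card Q : k)]

/-- **`dim F(Hom_k(P, W))^Q = μ_P(F(W))`.** -/
theorem dimInv_homRep :
    dimInv (inducedRep F (homRep P W) (homτ P W ρP τ) (homτ_comm P W ρP τ hτ)) =
      muP ρP (inducedRep F W τ hτ) := by
  unfold muP
  exact dimInv_congr _ _ (LinearEquiv.ofBijective (homIso F P W) (homIso_bijective F P W))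
    (homIso_equivariant F P W ρP τ hτ)

end HomQ

/-! ### The functors `H⁰`, `H¹`, `H²` -/

section Instances

variable {k G : Type} [Field k] [Group G] (𝓑 : LevelBasis G)

/-- `A ↦ A^G`. -/
noncomputable def h0Fun : LinFun k G where
  obj A := ↥A.ρ.invariants
  acg A := inferInstance
  mod A := inferInstance
  map φ hφ := invMap φ hφ
  map_id A h := by
    ext a
    rfl
  map_comp φ hφ ψ hψ h := by
    ext a
    rfl
  map_add φ hφ ψ hψ h := by
    ext a
    rfl
  map_smul r φ hφ h := by
    ext a
    rfl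

/-- `A ↦ H¹(𝓑; A)`. -/
noncomputable def h1Fun : LinFun k G where
  obj A := H1 𝓑 A
  acg A := inferInstance
  mod A := inferInstance
  map φ hφ := mapH1 (𝓑 := 𝓑) φ hφ
  map_id A h := by
    ext x
    rfl
  map_comp φ hφ ψ hψ h := by
    ext x
    rfl
  map_add φ hφ ψ hψ h := by
    ext x
    rfl
  map_smul r φ hφ h := by
    ext x
    rfl

/-- `A ↦ H²(𝓑; A)`. -/
noncomputable def h2Fun : LinFun k G where
  obj A := H2 𝓑 A
  acg A := inferInstance
  mod A := inferInstance
  map φ hφ := mapH2 (𝓑 := 𝓑) φ hφ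
  map_id A h := by
    ext x
    rfl
  map_comp φ hφ ψ hψ h := by
    ext x
    rfl
  map_add φ hφ ψ hψ h := by
    ext x
    rfl
  map_smul r φ hφ h := by
    ext x
    rfl

end Instances

end Fermat.Agent.W56.LinFun4
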