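/-
Programme W56 (target S56), stage 2, chapter (EC-5), helper4: **forgetting the coefficient ring**.

For `M : Rep k G` (any commutative ring `k`) the underlying `ℤ`-linear representation
`intRes M : Rep ℤ G` has literally the same level cocycles and coboundaries, hence additive
identifications `h0EquivZ`, `h1EquivZ`, `h2EquivZ` of the level cohomology groups, natural in `M`.

Also: the actions induced on `H⁰`, `H¹`, `H²` by a group acting on the coefficients through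
equivariant maps, for coefficients over an arbitrary commutative ring (`opH0`, `opH1`, `opH2`; over a
field these are `LinFun4.inducedRep (h0Fun/h1Fun/h2Fun)`).
-/
import Mathlib
import Fermat.Agent.PT.PRO.LevelCoh28
import Fermat.Agent.PT.PRO.LevelCohRes28
import Fermat.Agent.PT.PRO.IntRep20
import Fermat.Agent.W56.ChiLev4
import Fermat.Agent.W56.LinFun4

set_option autoImplicit false
set_option linter.unusedSectionVars false

open CategoryTheory groupCohomology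

namespace Fermat.Agent.W56.IntRes4

open Fermat.Agent.PT.PRO Fermat.Agent.PT.PRO.LevelCoh28 Fermat.Agent.PT.PRO.LevelCohRes28
  Fermat.Agent.W56.ChiLev4

/-! ### Operators on cohomology, any coefficient ring -/

section Op

variable {k G : Type} [CommRing k] [Group G] (𝓑 : LevelBasis G)
  {Q : Type*} [Group Q] (V : Rep.{0} k G) (τ : Representation k Q V)
  (hτ : ∀ q g v, τ q (V.ρ g v) = V.ρ g (τ q v))

/-- The map induced on invariants by an equivariant linear map (any coefficient ring). -/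
noncomputable def invMapR {A B : Rep.{0} k G} (φ : A →ₗ[k] B)
    (hφ : ∀ g a, φ (A.ρ g a) = B.ρ g (φ a)) : ↥A.ρ.invariants →ₗ[k] ↥B.ρ.invariants :=
  (φ ∘ₗ A.ρ.invariants.subtype).codRestrict B.ρ.invariants fun a g => by
    show B.ρ g (φ a.1) = φ a.1
    rw [← hφ, a.2 g]

@[simp] theorem invMapR_coe {A B : Rep.{0} k G} (φ : A →ₗ[k] B)
    (hφ : ∀ g a, φ (A.ρ g a) = B.ρ g (φ a)) (a : ↥A.ρ.invariants) :
    (invMapR φ hφ a : B) = φ a.1 := rfl

/-- the action on `H⁰`. -/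
noncomputable def opH0 : Representation k Q ↥V.ρ.invariants where
  toFun q := invMapR (τ q) (hτ q)
  map_one' := by
    refine LinearMap.ext fun a => Subtype.ext ?_
    show τ 1 a.1 = a.1
    rw [map_one]; rfl
  map_mul' q q' := by
    refine LinearMap.ext fun a => Subtype.ext ?_
    show τ (q * q') a.1 = τ q (τ q' a.1)
    rw [map_mul]; rfl

theorem opH0_coe (q : Q) (a : ↥V.ρ.invariants) :
    ((opH0 V τ hτ q a : ↥V.ρ.invariants) : V) = τ q a.1 := rfl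

/-- the action on `H¹`. -/
noncomputable def opH1 : Representation k Q (H1 𝓑 V) where
  toFun q := mapH1 (𝓑 := 𝓑) (τ q) (hτ q)
  map_one' := by
    refine LinearMap.ext fun x => ?_
    obtain ⟨c, rfl⟩ := H1mk_surjective 𝓑 V x
    show mapH1 (𝓑 := 𝓑) (τ 1) (hτ 1) (H1mk 𝓑 V c) = H1mk 𝓑 V c
    rw [mapH1_mk]
    congr 1
    apply Subtype.ext
    funext g
    show τ 1 ((c : G → V) g) = (c : G → V) g
    rw [map_one]; rfl
  map_mul' q q' := by
    refine LinearMap.ext fun x => ?_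
    obtain ⟨c, rfl⟩ := H1mk_surjective 𝓑 V x
    show mapH1 (𝓑 := 𝓑) (τ (q * q')) (hτ (q * q')) (H1mk 𝓑 V c) =
      mapH1 (𝓑 := 𝓑) (τ q) (hτ q) (mapH1 (𝓑 := 𝓑) (τ q') (hτ q') (H1mk 𝓑 V c))
    rw [mapH1_mk, mapH1_mk, mapH1_mk]
    congr 1
    apply Subtype.ext
    funext g
    show τ (q * q') ((c : G → V) g) = τ q (τ q' ((c : G → V) g))
    rw [map_mul]; rfl

theorem opH1_apply (q : Q) (x : H1 𝓑 V) : opH1 𝓑 V τ hτ q x = mapH1 (𝓑 := 𝓑) (τ q) (hτ q) x := rfl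

/-- the action on `H²`. -/
noncomputable def opH2 : Representation k Q (H2 𝓑 V) where
  toFun q := mapH2 (𝓑 := 𝓑) (τ q) (hτ q)
  map_one' := by
    refine LinearMap.ext fun x => ?_
    obtain ⟨c, rfl⟩ := H2mk_surjective 𝓑 V x
    show mapH2 (𝓑 := 𝓑) (τ 1) (hτ 1) (H2mk 𝓑 V c) = H2mk 𝓑 V c
    rw [mapH2_mk]
    congr 1
    apply Subtype.ext
    funext g
    show τ 1 ((c : G × G → V) g) = (c : G × G → V) g
    rw [map_one]; rfl
  map_mul' q q' := by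
    refine LinearMap.ext fun x => ?_
    obtain ⟨c, rfl⟩ := H2mk_surjective 𝓑 V x
    show mapH2 (𝓑 := 𝓑) (τ (q * q')) (hτ (q * q')) (H2mk 𝓑 V c) =
      mapH2 (𝓑 := 𝓑) (τ q) (hτ q) (mapH2 (𝓑 := 𝓑) (τ q') (hτ q') (H2mk 𝓑 V c))
    rw [mapH2_mk, mapH2_mk, mapH2_mk]
    congr 1
    apply Subtype.ext
    funext g
    show τ (q * q') ((c : G × G → V) g) = τ q (τ q' ((c : G × G → V) g))
    rw [map_mul]; rfl

theorem opH2_apply (q : Q) (x : H2 𝓑 V) : opH2 𝓑 V τ hτ q x = mapH2 (𝓑 := 𝓑) (τ q) (hτ q) x := rfl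

end Op

/-! ### The underlying `ℤ`-representation -/

section Int

variable {k G : Type} [CommRing k] [Group G] (𝓑 : LevelBasis G) (M : Rep.{0} k G)

/-- The underlying `ℤ`-linear representation, as an object of `Rep ℤ G`. -/
noncomputable def intRes : Rep.{0} ℤ G := Rep.of (IntRep20.intRep M)

theorem intRes_ρ (g : G) (m : M) : (intRes M).ρ g m = M.ρ g m := rfl

/-- the identity, between the two carriers. -/
noncomputable def toInt {X : Type} : (X → M) ≃ (X → intRes M) := Equiv.refl _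

theorem toInt_apply {X : Type} (f : X → M) (x : X) : toInt M f x = f x := rfl

theorem mem_cocycles₁_int (f : G → M) :
    toInt M f ∈ cocycles₁ (intRes M) ↔ f ∈ cocycles₁ M := by
  rw [mem_cocycles₁_iff, mem_cocycles₁_iff]
  rfl

theorem mem_cocycles₂_int (f : G × G → M) :
    toInt M f ∈ cocycles₂ (intRes M) ↔ f ∈ cocycles₂ M := by
  rw [mem_cocycles₂_iff, mem_cocycles₂_iff]
  rfl

theorem mem_coboundaries₁_int (f : G → M) :
    toInt M f ∈ coboundaries₁ (intRes M) ↔ f ∈ coboundaries₁ M := by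
  unfold coboundaries₁
  rw [LinearMap.mem_range, LinearMap.mem_range]
  rfl

theorem mem_Z1_int (f : G → M) : toInt M f ∈ Z1 𝓑 (intRes M) ↔ f ∈ Z1 𝓑 M := by
  rw [mem_Z1_iff, mem_Z1_iff, mem_cocycles₁_int]
  rfl

theorem mem_Z2_int (f : G × G → M) : toInt M f ∈ Z2 𝓑 (intRes M) ↔ f ∈ Z2 𝓑 M := by
  rw [mem_Z2_iff, mem_Z2_iff, mem_cocycles₂_int]
  rfl

theorem mem_B2_int (f : G × G → M) : toInt M f ∈ B2 𝓑 (intRes M) ↔ f ∈ B2 𝓑 M := by
  rw [mem_B2_iff, mem_B2_iff]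
  rfl

theorem isDiscrete_intRes (hM : IsDiscrete 𝓑.sets M) : IsDiscrete 𝓑.sets (intRes M) :=
  fun a => hM a

/-- `H⁰` does not see the coefficient ring. -/
noncomputable def h0EquivZ : ↥M.ρ.invariants ≃+ ↥(intRes M).ρ.invariants where
  toFun a := ⟨a.1, fun g => a.2 g⟩
  invFun a := ⟨a.1, fun g => a.2 g⟩
  left_inv _ := rfl
  right_inv _ := rfl
  map_add' _ _ := rfl

theorem h0EquivZ_coe (a : ↥M.ρ.invariants) :
    ((h0EquivZ M a : ↥(intRes M).ρ.invariants) : intRes M) = a.1 := rfl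

/-- the cocycles are the same. -/
noncomputable def z1EquivZ : ↥(Z1 𝓑 M) ≃ ↥(Z1 𝓑 (intRes M)) :=
  Equiv.subtypeEquiv (toInt M) fun f => (mem_Z1_int 𝓑 M f).symm

/-- the cocycles are the same. -/
noncomputable def z2EquivZ : ↥(Z2 𝓑 M) ≃ ↥(Z2 𝓑 (intRes M)) :=
  Equiv.subtypeEquiv (toInt M) fun f => (mem_Z2_int 𝓑 M f).symm

theorem z1EquivZ_coe (c : ↥(Z1 𝓑 M)) (g : G) :
    ((z1EquivZ 𝓑 M c : ↥(Z1 𝓑 (intRes M))) : G → intRes M) g = (c : G → M) g := rfl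

theorem z2EquivZ_coe (c : ↥(Z2 𝓑 M)) (g : G × G) :
    ((z2EquivZ 𝓑 M c : ↥(Z2 𝓑 (intRes M))) : G × G → intRes M) g = (c : G × G → M) g := rfl

/-- `H¹` does not see the coefficient ring (bijection). -/
noncomputable def h1EquivZ₀ : H1 𝓑 M ≃ H1 𝓑 (intRes M) :=
  Quotient.congr (z1EquivZ 𝓑 M) fun a b => by
    rw [Submodule.quotientRel_def, Submodule.quotientRel_def, Submodule.mem_comap,
      Submodule.mem_comap]
    exact (mem_coboundaries₁_int M _).symm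

/-- `H²` does not see the coefficient ring (bijection). -/
noncomputable def h2EquivZ₀ : H2 𝓑 M ≃ H2 𝓑 (intRes M) :=
  Quotient.congr (z2EquivZ 𝓑 M) fun a b => by
    rw [Submodule.quotientRel_def, Submodule.quotientRel_def, Submodule.mem_comap,
      Submodule.mem_comap]
    exact (mem_B2_int 𝓑 M _).symm

theorem h1EquivZ₀_mk (c : ↥(Z1 𝓑 M)) :
    h1EquivZ₀ 𝓑 M (H1mk 𝓑 M c) = H1mk 𝓑 (intRes M) (z1EquivZ 𝓑 M c) := rfl

theorem h2EquivZ₀_mk (c : ↥(Z2 𝓑 M)) :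
    h2EquivZ₀ 𝓑 M (H2mk 𝓑 M c) = H2mk 𝓑 (intRes M) (z2EquivZ 𝓑 M c) := rfl

/-- `H¹` does not see the coefficient ring. -/
noncomputable def h1EquivZ : H1 𝓑 M ≃+ H1 𝓑 (intRes M) where
  toEquiv := h1EquivZ₀ 𝓑 M
  map_add' x y := by
    obtain ⟨c, rfl⟩ := H1mk_surjective 𝓑 M x
    obtain ⟨c', rfl⟩ := H1mk_surjective 𝓑 M y
    show h1EquivZ₀ 𝓑 M (H1mk 𝓑 M c + H1mk 𝓑 M c') = _
    rw [← map_add]
    show h1EquivZ₀ 𝓑 M (H1mk 𝓑 M (c + c')) =
      h1EquivZ₀ 𝓑 M (H1mk 𝓑 M c) + h1EquivZ₀ 𝓑 M (H1mk 𝓑 M c')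
    rw [h1EquivZ₀_mk, h1EquivZ₀_mk, h1EquivZ₀_mk, ← map_add]
    rfl

/-- `H²` does not see the coefficient ring. -/
noncomputable def h2EquivZ : H2 𝓑 M ≃+ H2 𝓑 (intRes M) where
  toEquiv := h2EquivZ₀ 𝓑 M
  map_add' x y := by
    obtain ⟨c, rfl⟩ := H2mk_surjective 𝓑 M x
    obtain ⟨c', rfl⟩ := H2mk_surjective 𝓑 M y
    show h2EquivZ₀ 𝓑 M (H2mk 𝓑 M c + H2mk 𝓑 M c') = _
    rw [← map_add]
    show h2EquivZ₀ 𝓑 M (H2mk 𝓑 M (c + c')) =
      h2EquivZ₀ 𝓑 M (H2mk 𝓑 M c) + h2EquivZ₀ 𝓑 M (H2mk 𝓑 M c')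
    rw [h2EquivZ₀_mk, h2EquivZ₀_mk, h2EquivZ₀_mk, ← map_add]
    rfl

theorem h1EquivZ_mk (c : ↥(Z1 𝓑 M)) :
    h1EquivZ 𝓑 M (H1mk 𝓑 M c) = H1mk 𝓑 (intRes M) (z1EquivZ 𝓑 M c) := rfl

theorem h2EquivZ_mk (c : ↥(Z2 𝓑 M)) :
    h2EquivZ 𝓑 M (H2mk 𝓑 M c) = H2mk 𝓑 (intRes M) (z2EquivZ 𝓑 M c) := rfl

end Int

/-! ### Naturality -/

section Nat

variable {k G : Type} [CommRing k] [Group G] (𝓑 : LevelBasis G) {M M' : Rep.{0} k G}
  (φ : M →ₗ[k] M') (hφ : ∀ g a, φ (M.ρ g a) = M'.ρ g (φ a))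

/-- the same map, `ℤ`-linear. -/
noncomputable def intLin : @LinearMap ℤ ℤ _ _ (RingHom.id ℤ) (intRes M) (intRes M') _ _
    (intRes M).hV2 (intRes M').hV2 :=
  @LinearMap.mk ℤ ℤ _ _ (RingHom.id ℤ) (intRes M) (intRes M') _ _ (intRes M).hV2 (intRes M').hV2
    (AddHom.mk (fun m : intRes M => (φ m : intRes M')) (map_add φ))
    (fun n m => map_zsmul φ.toAddMonoidHom n m)

theorem intLin_apply (m : M) : intLin φ m = φ m := rfl

include hφ in
theorem intLin_equivariant (g : G) (a : intRes M) :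
    intLin φ ((intRes M).ρ g a) = (intRes M').ρ g (intLin φ a) := hφ g a

theorem h1EquivZ_mapH1 (x : H1 𝓑 M) :
    h1EquivZ 𝓑 M' (mapH1 (𝓑 := 𝓑) φ hφ x) =
      mapH1 (𝓑 := 𝓑) (intLin φ) (intLin_equivariant φ hφ) (h1EquivZ 𝓑 M x) := by
  obtain ⟨c, rfl⟩ := H1mk_surjective 𝓑 M x
  rw [mapH1_mk, h1EquivZ_mk, h1EquivZ_mk, mapH1_mk]
  rfl

theorem h2EquivZ_mapH2 (x : H2 𝓑 M) :
    h2EquivZ 𝓑 M' (mapH2 (𝓑 := 𝓑) φ hφ x) =
      mapH2 (𝓑 := 𝓑) (intLin φ) (intLin_equivariant φ hφ) (h2EquivZ 𝓑 M x) := by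
  obtain ⟨c, rfl⟩ := H2mk_surjective 𝓑 M x
  rw [mapH2_mk, h2EquivZ_mk, h2EquivZ_mk, mapH2_mk]
  rfl

end Nat

end Fermat.Agent.W56.IntRes4
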