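/-
Programme W56 (target S56), stage 2, chapter (EC-5), helper4: **the Kummer sequence with operators**.

`G` a group with a level basis `𝓑`, `Z` a discrete `𝔽_p[G]`-module, `E` a discrete `ℤ[G]`-module,
`j : Z → E` an equivariant injection onto `E[p]`, `E` `p`-divisible (`0 → Z → E →p E → 0`), and a
group `Q` acting on `Z` and `E` through `G`-equivariant maps, compatibly with `j`.

The long exact sequence of level cohomology (`LevelCoh28`, over `ℤ`, through `IntRes4`) gives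
`Q`-equivariant maps `b_r : H^r(Z) → H^r(E)`, `a_r : H^r(E) → H^{r+1}(Z)` with
`im b_r = H^r(E)[p]`, `ker a_r = p H^r(E)`, `ker b_{r+1} = im a_r`, `b_0` injective, hence
(`Bockstein4.bockstein_count`), for `Q` finite of order prime to `p` and every `P`:

`μ_P(H⁰Z) − μ_P(H¹Z) + μ_P(H²Z) = −h_P(H⁰E) + h_P(H¹E) + μ_P(H²(E)[p])`   (`kummer_count`).
-/
import Mathlib
import Fermat.Agent.W56.IntRes4
import Fermat.Agent.W56.Bockstein4

set_option autoImplicit false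
set_option linter.unusedSectionVars false
set_option linter.style.haveILetI false

open CategoryTheory groupCohomology

namespace Fermat.Agent.W56.KummerStar4

open Fermat.Agent.PT.PRO Fermat.Agent.PT.PRO.LevelCoh28 Fermat.Agent.PT.PRO.LevelCohRes28
  Fermat.Agent.W56.IntRes4 Fermat.Agent.W56.MuP4 Fermat.Agent.W56.TorsSnake4
  Fermat.Agent.W56.Bockstein4

/-- prefer the module structure carried by a `Rep ℤ G`. -/
local instance (priority := 10000) repModZ {G : Type} [Group G] (E : Rep.{0} ℤ G) : Module ℤ E :=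
  E.hV2

/-! ### Canonical `ℤ`-representations -/

section Canon

variable {Q : Type*} [Group Q] {Y : Type*} [AddCommGroup Y]

/-- A `ℤ`-linear representation for an arbitrary `ℤ`-module structure, as a representation for the
canonical one. -/
def canonRep {inst : Module ℤ Y} (ρ : @Representation ℤ Q Y _ _ _ inst) :
    @Representation ℤ Q Y _ _ _ (AddCommGroup.toIntModule Y) where
  toFun q := (ρ q).toAddMonoidHom.toIntLinearMap
  map_one' := by
    refine DFunLike.ext _ _ fun y => ?_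
    show ρ 1 y = y
    rw [map_one]; rfl
  map_mul' q q' := by
    refine DFunLike.ext _ _ fun y => ?_
    show ρ (q * q') y = ρ q (ρ q' y)
    rw [map_mul]; rfl

theorem canonRep_apply {inst : Module ℤ Y} (ρ : @Representation ℤ Q Y _ _ _ inst) (q : Q) (y : Y) :
    canonRep ρ q y = ρ q y := rfl

end Canon

/-! ### The short exact sequence `0 → Z → E →p E → 0` over `ℤ` -/

section SES

variable {G : Type} [Group G] (𝓑 : LevelBasis G) (p : ℕ) [Fact p.Prime]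
  (Z : Rep.{0} (ZMod p) G) (E : Rep.{0} ℤ G) (hE : IsDiscrete 𝓑.sets E)
  (j : Z →+ E) (hjG : ∀ g z, j (Z.ρ g z) = E.ρ g (j z))
  (hjinj : Function.Injective j) (hjp : ∀ e : E, p • e = 0 ↔ ∃ z, j z = e)
  (hdiv : ∀ e : E, ∃ e', p • e' = e)

/-- `j`, as a `ℤ`-linear map. -/
noncomputable def phi : intRes Z →ₗ[ℤ] E where
  toFun z := j z
  map_add' := map_add j
  map_smul' n z := by
    have h := map_intCast_smul j ℤ ℤ n z
    rw [Int.cast_id] at h
    exact h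

theorem phi_apply (z : Z) : phi p Z E j z = j z := rfl

/-- multiplication by `p`. -/
noncomputable def psi : E →ₗ[ℤ] E := p • LinearMap.id

theorem psi_apply (e : E) : psi p E e = p • e := rfl

include hjG in
theorem phi_equivariant (g : G) (a : intRes Z) :
    phi p Z E j ((intRes Z).ρ g a) = E.ρ g (phi p Z E j a) := hjG g a

theorem psi_equivariant (g : G) (e : E) : psi p E (E.ρ g e) = E.ρ g (psi p E e) := by
  rw [psi_apply, psi_apply, map_nsmul]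

include hjinj in
theorem phi_injective : Function.Injective (phi p Z E j) := hjinj

include hdiv in
theorem psi_surjective : Function.Surjective (psi p E) := fun e => by
  obtain ⟨e', he'⟩ := hdiv e
  exact ⟨e', he'⟩

include hjp in
theorem psi_exact (e : E) : psi p E e = 0 ↔ ∃ z, phi p Z E j z = e := hjp e

theorem mapH1_psi (x : H1 𝓑 E) :
    mapH1 (𝓑 := 𝓑) (psi p E) (psi_equivariant p E) x = p • x := by
  obtain ⟨c, rfl⟩ := H1mk_surjective 𝓑 E x
  rw [mapH1_mk, ← map_nsmul]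
  rfl

theorem mapH2_psi (x : H2 𝓑 E) :
    mapH2 (𝓑 := 𝓑) (psi p E) (psi_equivariant p E) x = p • x := by
  obtain ⟨c, rfl⟩ := H2mk_surjective 𝓑 E x
  rw [mapH2_mk, ← map_nsmul]
  rfl

/-! ### The five maps -/

/-- `b₀ : H⁰(Z) → H⁰(E)`. -/
noncomputable def b0 : ↥Z.ρ.invariants →+ ↥E.ρ.invariants :=
  (invMapR (phi p Z E j) (phi_equivariant p Z E j hjG)).toAddMonoidHom.comp
    (h0EquivZ Z).toAddMonoidHom

/-- `a₀ : H⁰(E) → H¹(Z)`. -/
noncomputable def a0 : ↥E.ρ.invariants →+ H1 𝓑 Z :=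
  (h1EquivZ 𝓑 Z).symm.toAddMonoidHom.comp
    (delta0 (𝓑 := 𝓑) (phi p Z E j) (phi_equivariant p Z E j hjG) (psi p E) (psi_equivariant p E)
      (phi_injective p Z E j hjinj) (psi_surjective p E hdiv) (psi_exact p Z E j hjp)
      hE).toAddMonoidHom

/-- `b₁ : H¹(Z) → H¹(E)`. -/
noncomputable def b1 : H1 𝓑 Z →+ H1 𝓑 E :=
  (mapH1 (𝓑 := 𝓑) (phi p Z E j) (phi_equivariant p Z E j hjG)).toAddMonoidHom.comp
    (h1EquivZ 𝓑 Z).toAddMonoidHom

/-- `a₁ : H¹(E) → H²(Z)`. -/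
noncomputable def a1 : H1 𝓑 E →+ H2 𝓑 Z :=
  (h2EquivZ 𝓑 Z).symm.toAddMonoidHom.comp
    (delta (𝓑 := 𝓑) (phi p Z E j) (phi_equivariant p Z E j hjG) (psi p E) (psi_equivariant p E)
      (phi_injective p Z E j hjinj) (psi_surjective p E hdiv) (psi_exact p Z E j hjp)
      hE).toAddMonoidHom

/-- `b₂ : H²(Z) → H²(E)`. -/
noncomputable def b2 : H2 𝓑 Z →+ H2 𝓑 E :=
  (mapH2 (𝓑 := 𝓑) (phi p Z E j) (phi_equivariant p Z E j hjG)).toAddMonoidHom.comp
    (h2EquivZ 𝓑 Z).toAddMonoidHom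

theorem b0_coe (a : ↥Z.ρ.invariants) : ((b0 p Z E j hjG a : ↥E.ρ.invariants) : E) = j a.1 := rfl

theorem a0_apply (y : ↥E.ρ.invariants) :
    a0 𝓑 p Z E hE j hjG hjinj hjp hdiv y = (h1EquivZ 𝓑 Z).symm
      (delta0 (𝓑 := 𝓑) (phi p Z E j) (phi_equivariant p Z E j hjG) (psi p E)
        (psi_equivariant p E) (phi_injective p Z E j hjinj) (psi_surjective p E hdiv)
        (psi_exact p Z E j hjp) hE y) := rfl

theorem a1_apply (y : H1 𝓑 E) :
    a1 𝓑 p Z E hE j hjG hjinj hjp hdiv y = (h2EquivZ 𝓑 Z).symm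
      (delta (𝓑 := 𝓑) (phi p Z E j) (phi_equivariant p Z E j hjG) (psi p E)
        (psi_equivariant p E) (phi_injective p Z E j hjinj) (psi_surjective p E hdiv)
        (psi_exact p Z E j hjp) hE y) := rfl

theorem b1_apply (x : H1 𝓑 Z) :
    b1 𝓑 p Z E j hjG x =
      mapH1 (𝓑 := 𝓑) (phi p Z E j) (phi_equivariant p Z E j hjG) (h1EquivZ 𝓑 Z x) := rfl

theorem b2_apply (x : H2 𝓑 Z) :
    b2 𝓑 p Z E j hjG x =
      mapH2 (𝓑 := 𝓑) (phi p Z E j) (phi_equivariant p Z E j hjG) (h2EquivZ 𝓑 Z x) := rfl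

/-! ### Exactness -/

include hjinj in
theorem b0_injective : Function.Injective (b0 p Z E j hjG) := fun _ _ h =>
  Subtype.ext (hjinj (congrArg Subtype.val h))

include hjp hjinj in
theorem b0_range (y : ↥E.ρ.invariants) : p • y = 0 ↔ ∃ x, b0 p Z E j hjG x = y := by
  constructor
  · intro h
    have h0 : p • (y : E) = 0 := congrArg Subtype.val h
    obtain ⟨z, hz⟩ := (hjp y.1).1 h0
    refine ⟨⟨z, fun g => hjinj ?_⟩, Subtype.ext hz⟩
    rw [hjG, hz, y.2 g]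
  · rintro ⟨x, rfl⟩
    exact Subtype.ext ((hjp _).2 ⟨x.1, rfl⟩)

theorem a0_ker (y : ↥E.ρ.invariants) :
    a0 𝓑 p Z E hE j hjG hjinj hjp hdiv y = 0 ↔ ∃ y', p • y' = y := by
  have h := delta0_eq_zero_iff (𝓑 := 𝓑) (phi p Z E j) (phi_equivariant p Z E j hjG) (psi p E)
    (psi_equivariant p E) (phi_injective p Z E j hjinj) (psi_surjective p E hdiv)
    (psi_exact p Z E j hjp) hE y
  have e : a0 𝓑 p Z E hE j hjG hjinj hjp hdiv y = (h1EquivZ 𝓑 Z).symm
      (delta0 (𝓑 := 𝓑) (phi p Z E j) (phi_equivariant p Z E j hjG) (psi p E)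
        (psi_equivariant p E) (phi_injective p Z E j hjinj) (psi_surjective p E hdiv)
        (psi_exact p Z E j hjp) hE y) := rfl
  rw [e, AddEquiv.map_eq_zero_iff]
  refine h.trans ⟨?_, ?_⟩
  · rintro ⟨b, hb, hby⟩
    exact ⟨⟨b, hb⟩, Subtype.ext hby⟩
  · rintro ⟨y', rfl⟩
    exact ⟨y'.1, y'.2, rfl⟩

theorem b1_ker (x : H1 𝓑 Z) :
    b1 𝓑 p Z E j hjG x = 0 ↔ ∃ y, a0 𝓑 p Z E hE j hjG hjinj hjp hdiv y = x := by
  have h := ker_mapH1_eq_range_delta0 (𝓑 := 𝓑) (phi p Z E j) (phi_equivariant p Z E j hjG)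
    (psi p E) (psi_equivariant p E) (phi_injective p Z E j hjinj) (psi_surjective p E hdiv)
    (psi_exact p Z E j hjp) hE
  have h' := SetLike.ext_iff.1 h (h1EquivZ 𝓑 Z x)
  refine h'.trans ⟨?_, ?_⟩
  · rintro ⟨y, hy⟩
    refine ⟨y, ?_⟩
    apply (h1EquivZ 𝓑 Z).injective
    rw [a0_apply]
    refine Eq.trans ?_ hy
    exact (h1EquivZ 𝓑 Z).apply_symm_apply _
  · rintro ⟨y, rfl⟩
    refine ⟨y, ?_⟩
    rw [a0_apply]
    exact ((h1EquivZ 𝓑 Z).apply_symm_apply _).symm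

include hE hjinj hjp hdiv in
theorem b1_range (y : H1 𝓑 E) : p • y = 0 ↔ ∃ x, b1 𝓑 p Z E j hjG x = y := by
  have h := ker_mapH1 (𝓑 := 𝓑) (phi p Z E j) (phi_equivariant p Z E j hjG)
    (psi p E) (psi_equivariant p E) (phi_injective p Z E j hjinj) (psi_surjective p E hdiv)
    (psi_exact p Z E j hjp) hE
  have h' := SetLike.ext_iff.1 h y
  have h0 : p • y = 0 ↔ mapH1 (𝓑 := 𝓑) (psi p E) (psi_equivariant p E) y = 0 := by
    rw [mapH1_psi]
  refine (h0.trans h').trans ⟨?_, ?_⟩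
  · rintro ⟨x, hx⟩
    refine ⟨(h1EquivZ 𝓑 Z).symm x, ?_⟩
    refine Eq.trans ?_ hx
    exact congrArg _ ((h1EquivZ 𝓑 Z).apply_symm_apply x)
  · rintro ⟨x, rfl⟩
    exact ⟨h1EquivZ 𝓑 Z x, rfl⟩

theorem a1_ker (y : H1 𝓑 E) :
    a1 𝓑 p Z E hE j hjG hjinj hjp hdiv y = 0 ↔ ∃ y', p • y' = y := by
  have h := ker_delta (𝓑 := 𝓑) (phi p Z E j) (phi_equivariant p Z E j hjG)
    (psi p E) (psi_equivariant p E) (phi_injective p Z E j hjinj) (psi_surjective p E hdiv)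
    (psi_exact p Z E j hjp) hE
  have h' := SetLike.ext_iff.1 h y
  have e : a1 𝓑 p Z E hE j hjG hjinj hjp hdiv y = (h2EquivZ 𝓑 Z).symm
      (delta (𝓑 := 𝓑) (phi p Z E j) (phi_equivariant p Z E j hjG) (psi p E)
        (psi_equivariant p E) (phi_injective p Z E j hjinj) (psi_surjective p E hdiv)
        (psi_exact p Z E j hjp) hE y) := rfl
  rw [e, AddEquiv.map_eq_zero_iff]
  refine h'.trans ⟨?_, ?_⟩
  · rintro ⟨y', hy'⟩
    exact ⟨y', (mapH1_psi 𝓑 p E y').symm.trans hy'⟩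
  · rintro ⟨y', rfl⟩
    exact ⟨y', mapH1_psi 𝓑 p E y'⟩

theorem b2_ker (x : H2 𝓑 Z) :
    b2 𝓑 p Z E j hjG x = 0 ↔ ∃ y, a1 𝓑 p Z E hE j hjG hjinj hjp hdiv y = x := by
  have h := ker_mapH2 (𝓑 := 𝓑) (phi p Z E j) (phi_equivariant p Z E j hjG)
    (psi p E) (psi_equivariant p E) (phi_injective p Z E j hjinj) (psi_surjective p E hdiv)
    (psi_exact p Z E j hjp) hE
  have h' := SetLike.ext_iff.1 h (h2EquivZ 𝓑 Z x)
  refine h'.trans ⟨?_, ?_⟩
  · rintro ⟨y, hy⟩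
    refine ⟨y, ?_⟩
    apply (h2EquivZ 𝓑 Z).injective
    rw [a1_apply]
    refine Eq.trans ?_ hy
    exact (h2EquivZ 𝓑 Z).apply_symm_apply _
  · rintro ⟨y, rfl⟩
    refine ⟨y, ?_⟩
    rw [a1_apply]
    exact ((h2EquivZ 𝓑 Z).apply_symm_apply _).symm

include hE hjinj hjp hdiv in
theorem b2_range (y : H2 𝓑 E) : p • y = 0 ↔ ∃ x, b2 𝓑 p Z E j hjG x = y := by
  have h := ker_mapH2' (𝓑 := 𝓑) (phi p Z E j) (phi_equivariant p Z E j hjG)
    (psi p E) (psi_equivariant p E) (phi_injective p Z E j hjinj) (psi_surjective p E hdiv)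
    (psi_exact p Z E j hjp) hE
  have h' := SetLike.ext_iff.1 h y
  have h0 : p • y = 0 ↔ mapH2 (𝓑 := 𝓑) (psi p E) (psi_equivariant p E) y = 0 := by
    rw [mapH2_psi]
  refine (h0.trans h').trans ⟨?_, ?_⟩
  · rintro ⟨x, hx⟩
    refine ⟨(h2EquivZ 𝓑 Z).symm x, ?_⟩
    refine Eq.trans ?_ hx
    exact congrArg _ ((h2EquivZ 𝓑 Z).apply_symm_apply x)
  · rintro ⟨x, rfl⟩
    exact ⟨h2EquivZ 𝓑 Z x, rfl⟩

/-! ### Operators -/

variable {Q : Type*} [Group Q] (τZ : Representation (ZMod p) Q Z)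
  (hτZ : ∀ q g z, τZ q (Z.ρ g z) = Z.ρ g (τZ q z))
  (τE : Representation ℤ Q E) (hτE : ∀ q g e, τE q (E.ρ g e) = E.ρ g (τE q e))
  (hjQ : ∀ q z, j (τZ q z) = τE q (j z))

include hjQ in
theorem b0_equivariant (q : Q) (x : ↥Z.ρ.invariants) :
    b0 p Z E j hjG (opH0 Z τZ hτZ q x) = opH0 E τE hτE q (b0 p Z E j hjG x) :=
  Subtype.ext (hjQ q x.1)

include hjQ in
theorem b1_equivariant (q : Q) (x : H1 𝓑 Z) :
    b1 𝓑 p Z E j hjG (opH1 𝓑 Z τZ hτZ q x) = opH1 𝓑 E τE hτE q (b1 𝓑 p Z E j hjG x) := by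
  obtain ⟨c, rfl⟩ := H1mk_surjective 𝓑 Z x
  rw [opH1_apply, opH1_apply, b1_apply, b1_apply, mapH1_mk, h1EquivZ_mk, h1EquivZ_mk, mapH1_mk,
    mapH1_mk, mapH1_mk]
  congr 1
  apply Subtype.ext
  funext g
  exact hjQ q _

include hjQ in
theorem b2_equivariant (q : Q) (x : H2 𝓑 Z) :
    b2 𝓑 p Z E j hjG (opH2 𝓑 Z τZ hτZ q x) = opH2 𝓑 E τE hτE q (b2 𝓑 p Z E j hjG x) := by
  obtain ⟨c, rfl⟩ := H2mk_surjective 𝓑 Z x
  rw [opH2_apply, opH2_apply, b2_apply, b2_apply, mapH2_mk, h2EquivZ_mk, h2EquivZ_mk, mapH2_mk,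
    mapH2_mk, mapH2_mk]
  congr 1
  apply Subtype.ext
  funext g
  exact hjQ q _

include hjQ in
theorem a1_equivariant (q : Q) (y : H1 𝓑 E) :
    a1 𝓑 p Z E hE j hjG hjinj hjp hdiv (opH1 𝓑 E τE hτE q y) =
      opH2 𝓑 Z τZ hτZ q (a1 𝓑 p Z E hE j hjG hjinj hjp hdiv y) := by
  apply (h2EquivZ 𝓑 Z).injective
  rw [a1_apply, a1_apply, AddEquiv.apply_symm_apply, opH2_apply, h2EquivZ_mapH2,
    AddEquiv.apply_symm_apply, opH1_apply]
  have h := delta_natural (MonoidHom.id G) (isLevelHom_id 𝓑.sets)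
    (phi p Z E j) (phi_equivariant p Z E j hjG) (psi p E) (psi_equivariant p E)
    (phi_injective p Z E j hjinj) (psi_surjective p E hdiv) (psi_exact p Z E j hjp) hE
    (phi p Z E j) (phi_equivariant p Z E j hjG) (psi p E) (psi_equivariant p E)
    (phi_injective p Z E j hjinj) (psi_surjective p E hdiv) (psi_exact p Z E j hjp) hE
    (intLin (τZ q)) (intLin_equivariant (τZ q) (hτZ q)) (τE q) (hτE q) (τE q) (hτE q)
    (fun z => (hjQ q z).symm) (fun e => by rw [psi_apply, psi_apply, map_nsmul]) y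
  rw [ppH1_id, ppH2_id] at h
  exact h

include hjQ in
theorem a0_equivariant (q : Q) (y : ↥E.ρ.invariants) :
    a0 𝓑 p Z E hE j hjG hjinj hjp hdiv (opH0 E τE hτE q y) =
      opH1 𝓑 Z τZ hτZ q (a0 𝓑 p Z E hE j hjG hjinj hjp hdiv y) := by
  apply (h1EquivZ 𝓑 Z).injective
  rw [a0_apply, a0_apply, AddEquiv.apply_symm_apply, opH1_apply, h1EquivZ_mapH1,
    AddEquiv.apply_symm_apply]
  -- the canonical representative of `δ⁰ y`
  set b : E := Function.surjInv (psi_surjective p E hdiv) (y : E) with hb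
  have hby : psi p E b = (y : E) := Function.surjInv_eq (psi_surjective p E hdiv) (y : E)
  set α : ↥(Z1 𝓑 (intRes Z)) := ⟨delta0Fun (phi p Z E j) (psi p E) (psi_surjective p E hdiv) (y : E),
    delta0Fun_mem_Z1 (phi p Z E j) (phi_equivariant p Z E j hjG) (psi p E) (psi_equivariant p E)
      (phi_injective p Z E j hjinj) (psi_surjective p E hdiv) (psi_exact p Z E j hjp) hE y.2⟩
    with hα
  have hαb : (phi p Z E j) ∘ (α : G → intRes Z) = (d₀₁ E).hom b :=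
    φ_comp_delta0Fun (phi p Z E j) (psi p E) (psi_equivariant p E) (psi_surjective p E hdiv)
      (psi_exact p Z E j hjp) y.2
  have h1 : delta0 (𝓑 := 𝓑) (phi p Z E j) (phi_equivariant p Z E j hjG) (psi p E)
      (psi_equivariant p E) (phi_injective p Z E j hjinj) (psi_surjective p E hdiv)
      (psi_exact p Z E j hjp) hE y = H1mk 𝓑 (intRes Z) α := rfl
  rw [h1, mapH1_mk]
  refine delta0_eq (𝓑 := 𝓑) (phi p Z E j) (phi_equivariant p Z E j hjG) (psi p E)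
    (psi_equivariant p E) (phi_injective p Z E j hjinj) (psi_surjective p E hdiv)
    (psi_exact p Z E j hjp) hE (opH0 E τE hτE q y) (b := τE q b) ?_ _ ?_
  · rw [psi_apply, ← map_nsmul, ← psi_apply, hby]
    rfl
  · funext g
    have h2 := congrFun hαb g
    have h3 := congrFun (d₀₁_comp (τE q) (hτE q) b) g
    simp only [Function.comp_apply] at h2 h3
    rw [h3, ← h2]
    exact hjQ q _

/-! ### The count -/

variable [Fintype Q] [Invertible (Fintype.card Q : ZMod p)]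
  {P : Type*} [AddCommGroup P] [Module (ZMod p) P] [FiniteDimensional (ZMod p) P]
  (ρP : Representation (ZMod p) Q P)

include hE hjG hjinj hjp hdiv hjQ in
/-- **The Kummer count with operators.** -/
theorem kummer_count [Finite (H1 𝓑 Z)] [Finite (H2 𝓑 Z)] :
    (muP ρP (opH0 Z τZ hτZ) : ℤ) - muP ρP (opH1 𝓑 Z τZ hτZ) + muP ρP (opH2 𝓑 Z τZ hτZ) =
      - hP p ρP (canonRep (opH0 E τE hτE)) + hP p ρP (canonRep (opH1 𝓑 E τE hτE)) +
        muP ρP (torsRep p (canonRep (opH2 𝓑 E τE hτE))) :=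
  bockstein_count p ρP (opH0 Z τZ hτZ) (opH1 𝓑 Z τZ hτZ) (opH2 𝓑 Z τZ hτZ)
    (canonRep (opH0 E τE hτE)) (canonRep (opH1 𝓑 E τE hτE)) (canonRep (opH2 𝓑 E τE hτE))
    (b0 p Z E j hjG) (a0 𝓑 p Z E hE j hjG hjinj hjp hdiv) (b1 𝓑 p Z E j hjG)
    (a1 𝓑 p Z E hE j hjG hjinj hjp hdiv) (b2 𝓑 p Z E j hjG)
    (b0_equivariant p Z E j hjG τZ hτZ τE hτE hjQ)
    (a0_equivariant 𝓑 p Z E hE j hjG hjinj hjp hdiv τZ hτZ τE hτE hjQ)
    (b1_equivariant 𝓑 p Z E j hjG τZ hτZ τE hτE hjQ)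
    (a1_equivariant 𝓑 p Z E hE j hjG hjinj hjp hdiv τZ hτZ τE hτE hjQ)
    (b2_equivariant 𝓑 p Z E j hjG τZ hτZ τE hτE hjQ)
    (b0_injective p Z E j hjG hjinj) (b0_range p Z E j hjG hjinj hjp)
    (a0_ker 𝓑 p Z E hE j hjG hjinj hjp hdiv)
    (b1_ker 𝓑 p Z E hE j hjG hjinj hjp hdiv) (b1_range 𝓑 p Z E hE j hjG hjinj hjp hdiv)
    (a1_ker 𝓑 p Z E hE j hjG hjinj hjp hdiv)
    (b2_ker 𝓑 p Z E hE j hjG hjinj hjp hdiv) (b2_range 𝓑 p Z E hE j hjG hjinj hjp hdiv)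

end SES

end Fermat.Agent.W56.KummerStar4
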