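/-
Programme W56 (target S56), stage 2, chapter (EC-5), helper4: **vocabulary and contracts of the
base case** `EulerSkel4.BaseCase`.

* `dcAction`: for `i : L →* G` and `V ◁ G`, the group `G ⧸ V` acts on the double cosets
  `Mackey2.DC i V = i(L) \ G / V` by `(g V) • (i(L) x V) = i(L) x g⁻¹ V`.
* `XT T U = Σ_{q ∈ T} Γ_q \ Γ / U`: the `Γ ⧸ U`-set of "primes above `T`" of the fixed field of `U`.
* `invRep T U`: the `Γ ⧸ U`-module `(E_T)^U` (`T`-units of the fixed field of `U`).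
* `Bridge`: the **arithmetic bridge**: `h_P((E_T)^U) = μ_P(𝔽_p[XT]) + μ_P(𝔽_p[(Γ/U)/⟨c̄⟩]) − μ_P(𝔽_p)`
  for every subgroup `C ≤ Γ ⧸ U` of order prime to `p` and every finite `𝔽_p[C]`-module `P`
  (= `EquivUnits0.hP_sUnitsRep` for the fixed field `K` of `U` + the identifications
  `(E_T)^U ≅ E_T(K)`, `{primes of K above T} ≅ XT`, `InfinitePlace K ≅ (Γ/U)/⟨c̄⟩`).
* `SplitDC`: the group theory of nested double cosets.
-/
import Mathlib
import Fermat.Prelude.Def_GaloisRep_ComplexConjugation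
import Fermat.Agent.W56.Defs9
import Fermat.Agent.W56.Mackey2
import Fermat.Agent.W56.EquivUnits0C
import Fermat.Agent.W56.KummerStar4

set_option autoImplicit false
set_option linter.unusedSectionVars false
set_option linter.style.haveILetI false

open CategoryTheory ExtCitation

namespace Fermat.Agent.W56.BaseDefs4

open Fermat.Agent.PT.PRO Fermat.Agent.PT.BR Fermat.Agent.PT.PRO.LevelCoh28 Fermat.Agent.PT.GLUE.Objects21
  Fermat.Agent.W56.Mackey2 Fermat.Agent.W56.MuP4 Fermat.Agent.W56.TorsSnake4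
  Fermat.Agent.W56.EquivUnits0 Fermat.Agent.W56.KummerStar4

local notation "Γ" => (AlgebraicClosure ℚ ≃ₐ[ℚ] AlgebraicClosure ℚ)

/-! ### The action of `G ⧸ V` on `i(L) \ G / V` -/

section DCAction

variable {G L : Type} [Group G] [Group L] (i : L →* G) (V : Subgroup G) [hVn : V.Normal]

/-- Right translation by `g⁻¹` on the double cosets. -/
def dcMul (g : G) : DC i V → DC i V :=
  Quotient.map (fun x => x * g⁻¹) (by
    rintro x x' ⟨h, v, rfl⟩
    refine ⟨h, ⟨g * v * g⁻¹, hVn.conj_mem _ v.2 g⟩, ?_⟩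
    show i h * x * v * g⁻¹ = i h * (x * g⁻¹) * (g * v * g⁻¹)
    group)

theorem dcMul_mk (g x : G) :
    dcMul i V g (Quotient.mk (dcSetoidV i V) x) = Quotient.mk (dcSetoidV i V) (x * g⁻¹) := rfl

theorem dcMul_one (D : DC i V) : dcMul i V 1 D = D := by
  induction D using Quotient.inductionOn with
  | h x => rw [dcMul_mk, inv_one, mul_one]

theorem dcMul_mul (g g' : G) (D : DC i V) : dcMul i V (g * g') D = dcMul i V g (dcMul i V g' D) := by
  induction D using Quotient.inductionOn with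
  | h x => rw [dcMul_mk, dcMul_mk, dcMul_mk, mul_inv_rev, mul_assoc]

theorem dcMul_of_mem {v : G} (hv : v ∈ V) (D : DC i V) : dcMul i V v D = D := by
  induction D using Quotient.inductionOn with
  | h x =>
    rw [dcMul_mk]
    refine Quotient.sound ?_
    refine ⟨1, ⟨v, hv⟩, ?_⟩
    show x = i 1 * (x * v⁻¹) * v
    rw [map_one, one_mul, inv_mul_cancel_right]

/-- `G` acts on the double cosets by permutations. -/
def dcPerm : G →* Equiv.Perm (DC i V) where
  toFun g :=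
    { toFun := dcMul i V g
      invFun := dcMul i V g⁻¹
      left_inv := fun D => by rw [← dcMul_mul, inv_mul_cancel, dcMul_one]
      right_inv := fun D => by rw [← dcMul_mul, mul_inv_cancel, dcMul_one] }
  map_one' := Equiv.ext fun D => dcMul_one i V D
  map_mul' g g' := Equiv.ext fun D => dcMul_mul i V g g' D

/-- The action of `G ⧸ V` on `i(L) \ G / V`: `(g V) • (i(L) x V) = i(L) x g⁻¹ V`. -/
instance dcAction : MulAction (G ⧸ V) (DC i V) :=
  MulAction.compHom (DC i V) (QuotientGroup.lift V (dcPerm i V) (fun _ hv =>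
    Equiv.ext fun D => dcMul_of_mem i V hv D))

theorem mk_smul_mk (g x : G) :
    (QuotientGroup.mk g : G ⧸ V) • (Quotient.mk (dcSetoidV i V) x : DC i V) =
      Quotient.mk (dcSetoidV i V) (x * g⁻¹) := rfl

end DCAction

/-! ### The sets and modules of the bridge -/

/-- `Σ_{q ∈ T} Γ_q \ Γ / U`, the "primes above `T`" of the fixed field of `U`. -/
def XT (T : Finset Nat.Primes) (U : Subgroup Γ) : Type :=
  Σ q : ↥T, DC (localGaloisToGlobal ((q : Nat.Primes) : ℕ)) U

noncomputable instance xtAction (T : Finset Nat.Primes) (U : Subgroup Γ) [U.Normal] : MulAction (Γ ⧸ U) (XT T U) :=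
  inferInstanceAs (MulAction (Γ ⧸ U) (Σ q : ↥T, DC (localGaloisToGlobal ((q : Nat.Primes) : ℕ)) U))

theorem smul_XT_mk (T : Finset Nat.Primes) (U : Subgroup Γ) [U.Normal] (g : Γ ⧸ U) (q : ↥T)
    (D : DC (localGaloisToGlobal ((q : Nat.Primes) : ℕ)) U) :
    (g • (⟨q, D⟩ : XT T U) : XT T U) = ⟨q, g • D⟩ := rfl

/-- The `Γ ⧸ U`-module `(E_T)^U`. -/
noncomputable def invRep (T : Finset Nat.Primes) (U : Subgroup Γ) [U.Normal] :
    Representation ℤ (Γ ⧸ U) ↥(Representation.invariants ((ES T).ρ.comp U.subtype)) :=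
  (ES T).ρ.quotientToInvariants U

theorem invRep_mk (T : Finset Nat.Primes) (U : Subgroup Γ) [U.Normal] (g : Γ)
    (x : ↥(Representation.invariants ((ES T).ρ.comp U.subtype))) :
    ((invRep T U (QuotientGroup.mk g) x : ↥(Representation.invariants ((ES T).ρ.comp U.subtype))) : ES T) =
      (ES T).ρ g (x : ES T) := rfl

/-- **The arithmetic bridge** (contract): for `U ◁ Γ` open in `G_T`, `C ≤ Γ ⧸ U` of order prime to
`p` and a finite `𝔽_p[C]`-module `P`:
`h_P((E_T)^U) = μ_P(𝔽_p[XT T U]) + μ_P(𝔽_p[(Γ/U)/⟨c̄⟩]) − μ_P(𝔽_p)`. -/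
def Bridge : Prop :=
  ∀ (p : ℕ) [Fact p.Prime] (T : Finset Nat.Primes) (U : Subgroup Γ) [U.Normal],
    U ∈ (LevelBridge13.globalBasis T).sets →
  ∀ (C : Subgroup (Γ ⧸ U)) [Fintype C] [Invertible (Fintype.card C : ZMod p)]
    (P : Type) [AddCommGroup P] [Module (ZMod p) P] [FiniteDimensional (ZMod p) P]
    (ρP : Representation (ZMod p) ↥C P),
    hP p ρP (canonRep ((invRep T U).comp C.subtype)) =
      (muP ρP (funPerm (ZMod p) ↥C (XT T U)) : ℤ) +
        muP ρP (funPerm (ZMod p) ↥C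
          ((Γ ⧸ U) ⧸ Subgroup.zpowers (QuotientGroup.mk complexConjugation : Γ ⧸ U))) -
        muP ρP (funPerm (ZMod p) ↥C PUnit.{1})

/-! ### Nested double cosets -/

/-- **Nested double cosets** (contract, pure group theory): for `V ≤ Ĉ ≤ G`, `V ◁ G`, the
`Ĉ ⧸ V`-set `i(L) \ G / V` is the disjoint union over `w ∈ i(L) \ G / Ĉ` of the
`j_w(L_w) \ Ĉ / V`, `L_w = i⁻¹(g_w Ĉ g_w⁻¹)`, `j_w = g_w⁻¹ i(·) g_w` (`Mackey2.Hg`, `Mackey2.jg` at
the representative `g_w = w.out`). -/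
def SplitDC : Prop :=
  ∀ {G L : Type} [Group G] [Group L] (i : L →* G) (V Ĉ : Subgroup G) [V.Normal], V ≤ Ĉ →
    ∃ f : DC i V ≃ Σ w : DC i Ĉ, DC (jg i Ĉ w.out) (V.subgroupOf Ĉ),
      ∀ (c : ↥Ĉ) (D : DC i V),
        f ((QuotientGroup.mk (c : G) : G ⧸ V) • D) =
          ⟨(f D).1, (QuotientGroup.mk c : ↥Ĉ ⧸ V.subgroupOf Ĉ) • (f D).2⟩

end Fermat.Agent.W56.BaseDefs4
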