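/-
Programme W56 (target S56), stage 2, chapter (EC-5), helper4: **the coinduced module `W(Y)` with its
second action, and `p′`-descent**.

`G` a group with a level basis `𝓑`, `H ◁ G` a normal subgroup, `Y` a discrete `G`-module.
`W(Y) = Coind^sm_{H → G}(Y|_H)` (functions `F : G → Y`, `F(hx) = h F(x)`, locally constant, `G` acting
by right translation) carries the commuting action `(g ⋆ F)(x) = g · F(g⁻¹ x)` of `G`, trivial on `H`,
i.e. an action `star` of `G ⧸ H`; the `⋆`-invariants are the image of `ι : Y → W(Y)`,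
`ι(y)(x) = x · y`.  Hence (`LinFun4.finrank_eq_dimInv`), if `G ⧸ H` is finite of order invertible in
`k`, for every linear functor `F` (`H⁰`, `H¹`, `H²`):

  `dim F(Y) = dim F(W(Y))^{G/H}`        (`finrank_eq_dimInv_star`).
-/
import Mathlib
import Fermat.Agent.PT.PRO.SmoothCoind28
import Fermat.Agent.W56.LinFun4

set_option autoImplicit false
set_option linter.unusedSectionVars false

open CategoryTheory

namespace Fermat.Agent.W56.CoindStar4

open Fermat.Agent.PT.PRO.LevelCoh28 Fermat.Agent.PT.PRO.SmoothCoind28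
  Fermat.Agent.W56.MuP4 Fermat.Agent.W56.LinFun4

section Basic

variable {k G : Type} [CommRing k] [Group G] (𝓑 : LevelBasis G) (H : Subgroup G) [hH : H.Normal]
  (Y : Rep.{0} k G)

/-- The restriction of `Y` to `H`. -/
noncomputable def resH : Rep.{0} k ↥H := Rep.of (Y.ρ.comp H.subtype)

/-- `W(Y) = Coind^sm_{H → G}(Y|_H)`. -/
noncomputable def W : Rep.{0} k G := scoind H.subtype 𝓑 (resH H Y)

/-- The underlying function of an element of `W(Y)`. -/
def val (F : W 𝓑 H Y) : G → Y := F.1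

/-- Constructor. -/
def mkW (f : G → Y) (h1 : ∀ h ∈ H, ∀ x, f (h * x) = Y.ρ h (f x)) (h2 : IsLevel₁ 𝓑.sets f) :
    W 𝓑 H Y := ⟨f, fun h x => h1 h.1 h.2 x, h2⟩

@[simp] theorem val_mkW (f : G → Y) (h1 : ∀ h ∈ H, ∀ x, f (h * x) = Y.ρ h (f x))
    (h2 : IsLevel₁ 𝓑.sets f) : val 𝓑 H Y (mkW 𝓑 H Y f h1 h2) = f := rfl

theorem val_add (F F' : W 𝓑 H Y) (x : G) :
    val 𝓑 H Y (F + F') x = val 𝓑 H Y F x + val 𝓑 H Y F' x := rfl

theorem val_smul (r : k) (F : W 𝓑 H Y) (x : G) :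
    val 𝓑 H Y (r • F) x = r • val 𝓑 H Y F x := rfl

theorem val_ρ (g : G) (F : W 𝓑 H Y) (x : G) :
    val 𝓑 H Y ((W 𝓑 H Y).ρ g F) x = val 𝓑 H Y F (x * g) := rfl

theorem val_equivariant (F : W 𝓑 H Y) {h : G} (hh : h ∈ H) (x : G) :
    val 𝓑 H Y F (h * x) = Y.ρ h (val 𝓑 H Y F x) := F.2.1 ⟨h, hh⟩ x

theorem val_isLevel (F : W 𝓑 H Y) : IsLevel₁ 𝓑.sets (val 𝓑 H Y F) := F.2.2

theorem W_ext {F F' : W 𝓑 H Y} (h : ∀ x, val 𝓑 H Y F x = val 𝓑 H Y F' x) : F = F' :=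
  Subtype.ext (funext h)

/-- The second action `(g ⋆ F)(x) = g · F(g⁻¹ x)`, as a linear map. -/
noncomputable def starG (g : G) : W 𝓑 H Y →ₗ[k] W 𝓑 H Y where
  toFun F := mkW 𝓑 H Y (fun x => Y.ρ g (val 𝓑 H Y F (g⁻¹ * x)))
    (fun h hh x => by
      show Y.ρ g (val 𝓑 H Y F (g⁻¹ * (h * x))) = Y.ρ h (Y.ρ g (val 𝓑 H Y F (g⁻¹ * x)))
      have h1 : g⁻¹ * (h * x) = (g⁻¹ * h * g) * (g⁻¹ * x) := by group
      have h2 : g⁻¹ * h * g ∈ H := by
        have := hH.conj_mem h hh g⁻¹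
        simpa using this
      rw [h1, val_equivariant 𝓑 H Y F h2, ← Module.End.mul_apply, ← map_mul,
        ← Module.End.mul_apply, ← map_mul]
      congr 2
      group)
    (by
      obtain ⟨U, hU, hF⟩ := val_isLevel 𝓑 H Y F
      refine ⟨U, hU, fun x s hs => ?_⟩
      show Y.ρ g (val 𝓑 H Y F (g⁻¹ * (x * s))) = Y.ρ g (val 𝓑 H Y F (g⁻¹ * x))
      rw [← mul_assoc, hF _ s hs])
  map_add' F F' := W_ext 𝓑 H Y fun x => by
    show Y.ρ g (val 𝓑 H Y (F + F') (g⁻¹ * x)) =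
      Y.ρ g (val 𝓑 H Y F (g⁻¹ * x)) + Y.ρ g (val 𝓑 H Y F' (g⁻¹ * x))
    rw [val_add, map_add]
  map_smul' r F := W_ext 𝓑 H Y fun x => by
    show Y.ρ g (val 𝓑 H Y (r • F) (g⁻¹ * x)) = r • Y.ρ g (val 𝓑 H Y F (g⁻¹ * x))
    rw [val_smul, map_smul]

theorem starG_apply (g : G) (F : W 𝓑 H Y) (x : G) :
    val 𝓑 H Y (starG 𝓑 H Y g F) x = Y.ρ g (val 𝓑 H Y F (g⁻¹ * x)) := rfl

/-- `⋆` as a representation of `G`. -/
noncomputable def starRepG : Representation k G (W 𝓑 H Y) where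
  toFun := starG 𝓑 H Y
  map_one' := by
    ext F
    refine W_ext 𝓑 H Y fun x => ?_
    rw [starG_apply, inv_one, one_mul, map_one]
    rfl
  map_mul' g g' := by
    ext F
    refine W_ext 𝓑 H Y fun x => ?_
    rw [Module.End.mul_apply, starG_apply, starG_apply, starG_apply, map_mul,
      Module.End.mul_apply, mul_inv_rev, mul_assoc]

theorem starRepG_of_mem {h : G} (hh : h ∈ H) : starRepG 𝓑 H Y h = 1 := by
  ext F
  refine W_ext 𝓑 H Y fun x => ?_
  show Y.ρ h (val 𝓑 H Y F (h⁻¹ * x)) = val 𝓑 H Y F x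
  rw [val_equivariant 𝓑 H Y F (H.inv_mem hh), ← Module.End.mul_apply, ← map_mul, mul_inv_cancel,
    map_one, Module.End.one_apply]

/-- **The action `star` of `G ⧸ H` on `W(Y)`.** -/
noncomputable def star : Representation k (G ⧸ H) (W 𝓑 H Y) :=
  QuotientGroup.lift H (starRepG 𝓑 H Y) fun _ hh => starRepG_of_mem 𝓑 H Y hh

theorem star_mk (g : G) : star 𝓑 H Y (QuotientGroup.mk g) = starG 𝓑 H Y g := rfl

/-- `star` commutes with the action of `G`. -/
theorem star_comm (q : G ⧸ H) (g : G) (F : W 𝓑 H Y) :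
    star 𝓑 H Y q ((W 𝓑 H Y).ρ g F) = (W 𝓑 H Y).ρ g (star 𝓑 H Y q F) := by
  induction q using QuotientGroup.induction_on with
  | H c =>
    refine W_ext 𝓑 H Y fun x => ?_
    rw [star_mk, starG_apply, val_ρ, val_ρ, starG_apply, mul_assoc]

variable (hY : IsDiscrete 𝓑.sets Y)

/-- `ι : Y → W(Y)`, `ι(y)(x) = x · y`. -/
noncomputable def iota : Y →ₗ[k] W 𝓑 H Y where
  toFun y := mkW 𝓑 H Y (fun x => Y.ρ x y)
    (fun h _ x => by
      show Y.ρ (h * x) y = Y.ρ h (Y.ρ x y)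
      rw [map_mul, Module.End.mul_apply])
    (by
      obtain ⟨U, hU, hfix⟩ := hY y
      refine ⟨U, hU, fun x s hs => ?_⟩
      show Y.ρ (x * s) y = Y.ρ x y
      rw [map_mul, Module.End.mul_apply, hfix s hs])
  map_add' y y' := W_ext 𝓑 H Y fun x => by
    show Y.ρ x (y + y') = Y.ρ x y + Y.ρ x y'
    rw [map_add]
  map_smul' r y := W_ext 𝓑 H Y fun x => by
    show Y.ρ x (r • y) = r • Y.ρ x y
    rw [map_smul]

theorem iota_apply (y : Y) (x : G) : val 𝓑 H Y (iota 𝓑 H Y hY y) x = Y.ρ x y := rfl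

theorem iota_equivariant (g : G) (y : Y) :
    iota 𝓑 H Y hY (Y.ρ g y) = (W 𝓑 H Y).ρ g (iota 𝓑 H Y hY y) := by
  refine W_ext 𝓑 H Y fun x => ?_
  rw [val_ρ, iota_apply, iota_apply, map_mul, Module.End.mul_apply]

theorem iota_injective : Function.Injective (iota 𝓑 H Y hY) := by
  intro y y' h
  have h1 : val 𝓑 H Y (iota 𝓑 H Y hY y) 1 = val 𝓑 H Y (iota 𝓑 H Y hY y') 1 := by rw [h]
  rw [iota_apply, iota_apply, map_one, Module.End.one_apply, Module.End.one_apply] at h1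
  exact h1

/-- The `⋆`-invariants of `W(Y)` are the image of `ι`. -/
theorem mem_invariants_star_iff (F : W 𝓑 H Y) :
    F ∈ (star 𝓑 H Y).invariants ↔ ∃ y, iota 𝓑 H Y hY y = F := by
  constructor
  · intro hF
    refine ⟨val 𝓑 H Y F 1, W_ext 𝓑 H Y fun x => ?_⟩
    have h1 : val 𝓑 H Y (star 𝓑 H Y (QuotientGroup.mk x) F) x = val 𝓑 H Y F x := by
      rw [hF (QuotientGroup.mk x)]
    rw [star_mk, starG_apply, inv_mul_cancel] at h1
    rw [iota_apply, h1]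
  · rintro ⟨y, rfl⟩ q
    induction q using QuotientGroup.induction_on with
    | H c =>
      refine W_ext 𝓑 H Y fun x => ?_
      rw [star_mk, starG_apply, iota_apply, iota_apply, ← Module.End.mul_apply, ← map_mul,
        mul_inv_cancel_left]

end Basic

/-! ### `p′`-descent -/

section Descent

variable {k G : Type} [Field k] [Group G] (𝓑 : LevelBasis G) (H : Subgroup G) [hH : H.Normal]
  (Y : Rep.{0} k G) (hY : IsDiscrete 𝓑.sets Y)
  [Fintype (G ⧸ H)] [Invertible (Fintype.card (G ⧸ H) : k)] (F : LinFun k G)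

include hY in
/-- **`p′`-descent**: `dim F(Y) = dim F(W(Y))^{G/H}`. -/
theorem finrank_eq_dimInv_star :
    Module.finrank k (F.obj Y) =
      dimInv (inducedRep F (W 𝓑 H Y) (star 𝓑 H Y) (star_comm 𝓑 H Y)) :=
  finrank_eq_dimInv F Y (W 𝓑 H Y) (star 𝓑 H Y) (star_comm 𝓑 H Y) (iota 𝓑 H Y hY)
    (iota_equivariant 𝓑 H Y hY) (iota_injective 𝓑 H Y hY) (mem_invariants_star_iff 𝓑 H Y hY)

end Descent

/-! ### Twisted coefficients: `W(Hom(P, Y)) ≅ Hom(P, W(Y))` -/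

section Twist

variable {k G : Type} [Field k] [Group G] (𝓑 : LevelBasis G) (H : Subgroup G) [hH : H.Normal]
  (Y : Rep.{0} k G) (hY : IsDiscrete 𝓑.sets Y)
  (P : Type) [AddCommGroup P] [Module k P] (ρP : Representation k (G ⧸ H) P)

/-- `Hom_k(P, Y)` with `G` acting by conjugation (through `G ⧸ H` on `P`). -/
noncomputable def conjRep : Rep.{0} k G :=
  Rep.of (Representation.linHom (ρP.comp (QuotientGroup.mk' H)) Y.ρ)

/-- The carrier of `conjRep` is `Hom_k(P, Y)`. -/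
noncomputable def cjEquiv : conjRep H Y P ρP ≃ₗ[k] (P →ₗ[k] Y) := LinearEquiv.refl k _

theorem cjEquiv_ρ (g : G) (f : conjRep H Y P ρP) (x : P) :
    cjEquiv H Y P ρP ((conjRep H Y P ρP).ρ g f) x =
      Y.ρ g (cjEquiv H Y P ρP f (ρP (QuotientGroup.mk g)⁻¹ x)) := rfl

theorem cjEquiv_ρ_of_mem {h : G} (hh : h ∈ H) (f : conjRep H Y P ρP) (x : P) :
    cjEquiv H Y P ρP ((conjRep H Y P ρP).ρ h f) x = Y.ρ h (cjEquiv H Y P ρP f x) := by
  rw [cjEquiv_ρ, (QuotientGroup.eq_one_iff h).2 hh, inv_one, map_one, Module.End.one_apply]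

variable [FiniteDimensional k P]

include hY in
/-- `Hom(P, Y)` is discrete if `Y` is and `H` is open. -/
theorem isDiscrete_conjRep (hHo : ∃ V ∈ 𝓑.sets, V ≤ H) :
    IsDiscrete 𝓑.sets (conjRep H Y P ρP) := by
  intro f
  obtain ⟨V, hV, hVH⟩ := hHo
  obtain ⟨U, hU, -, hfix⟩ := hY.exists_fixing 𝓑.isBasis
    (T := Set.range fun i => cjEquiv H Y P ρP f (Module.finBasis k P i)) (Set.finite_range _)
  obtain ⟨U', hU', hle⟩ := 𝓑.isBasis.directed U hU V hV
  refine ⟨U', hU', fun s hs => ?_⟩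
  apply (cjEquiv H Y P ρP).injective
  apply (Module.finBasis k P).ext
  intro i
  rw [cjEquiv_ρ_of_mem H Y P ρP (hVH ((hle.trans inf_le_right) hs))]
  exact hfix s ((hle.trans inf_le_left) hs) _ ⟨i, rfl⟩

/-- `Ξ(F)(x) ∈ W(Y)`. -/
noncomputable def swapFun (F : W 𝓑 H (conjRep H Y P ρP)) (x : P) : W 𝓑 H Y :=
  mkW 𝓑 H Y (fun g => cjEquiv H Y P ρP (val 𝓑 H (conjRep H Y P ρP) F g) x)
    (fun h hh g => by
      show cjEquiv H Y P ρP (val 𝓑 H (conjRep H Y P ρP) F (h * g)) x = _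
      rw [val_equivariant 𝓑 H _ F hh, cjEquiv_ρ_of_mem H Y P ρP hh])
    (by
      obtain ⟨U, hU, hF⟩ := val_isLevel 𝓑 H _ F
      exact ⟨U, hU, fun g s hs => by
        show cjEquiv H Y P ρP (val 𝓑 H (conjRep H Y P ρP) F (g * s)) x = _
        rw [hF g s hs]⟩)

theorem val_swapFun (F : W 𝓑 H (conjRep H Y P ρP)) (x : P) (g : G) :
    val 𝓑 H Y (swapFun 𝓑 H Y P ρP F x) g =
      cjEquiv H Y P ρP (val 𝓑 H (conjRep H Y P ρP) F g) x := rfl

/-- `Ξ(F) : P → W(Y)`. -/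
noncomputable def swapLin (F : W 𝓑 H (conjRep H Y P ρP)) : P →ₗ[k] W 𝓑 H Y where
  toFun := swapFun 𝓑 H Y P ρP F
  map_add' x y := W_ext 𝓑 H Y fun g => by
    rw [val_swapFun, val_add, val_swapFun, val_swapFun, map_add]
  map_smul' r x := W_ext 𝓑 H Y fun g => by
    rw [val_swapFun, RingHom.id_apply, val_smul, val_swapFun, map_smul]

/-- `Ξ : W(Hom(P, Y)) → Hom(P, W(Y))`, `Ξ(F)(x)(g) = F(g)(x)`. -/
noncomputable def swap : W 𝓑 H (conjRep H Y P ρP) →ₗ[k] homRep P (W 𝓑 H Y) :=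
  (hrEquiv P (W 𝓑 H Y)).symm.toLinearMap ∘ₗ
    ({ toFun := swapLin 𝓑 H Y P ρP
       map_add' := fun F F' => LinearMap.ext fun x => W_ext 𝓑 H Y fun g => by
        show cjEquiv H Y P ρP (val 𝓑 H (conjRep H Y P ρP) (F + F') g) x = _
        rw [val_add, map_add]
        rfl
       map_smul' := fun r F => LinearMap.ext fun x => W_ext 𝓑 H Y fun g => by
        show cjEquiv H Y P ρP (val 𝓑 H (conjRep H Y P ρP) (r • F) g) x = _
        rw [val_smul, map_smul]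
        rfl } : W 𝓑 H (conjRep H Y P ρP) →ₗ[k] (P →ₗ[k] W 𝓑 H Y))

theorem swap_apply (F : W 𝓑 H (conjRep H Y P ρP)) (x : P) (g : G) :
    val 𝓑 H Y (hrEquiv P (W 𝓑 H Y) (swap 𝓑 H Y P ρP F) x) g =
      cjEquiv H Y P ρP (val 𝓑 H (conjRep H Y P ρP) F g) x := rfl

theorem swap_equivariant (γ : G) (F : W 𝓑 H (conjRep H Y P ρP)) :
    swap 𝓑 H Y P ρP ((W 𝓑 H (conjRep H Y P ρP)).ρ γ F) =
      (homRep P (W 𝓑 H Y)).ρ γ (swap 𝓑 H Y P ρP F) := by
  apply (hrEquiv P (W 𝓑 H Y)).injective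
  apply LinearMap.ext
  intro x
  refine W_ext 𝓑 H Y fun g => ?_
  rw [swap_apply, hrEquiv_ρ, val_ρ, val_ρ, swap_apply]

theorem swap_star (q : G ⧸ H) (F : W 𝓑 H (conjRep H Y P ρP)) :
    swap 𝓑 H Y P ρP (star 𝓑 H (conjRep H Y P ρP) q F) =
      homτ P (W 𝓑 H Y) ρP (star 𝓑 H Y) q (swap 𝓑 H Y P ρP F) := by
  induction q using QuotientGroup.induction_on with
  | H c =>
    apply (hrEquiv P (W 𝓑 H Y)).injective
    apply LinearMap.ext
    intro x
    refine W_ext 𝓑 H Y fun g => ?_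
    rw [swap_apply, star_mk, starG_apply, cjEquiv_ρ, homτ_apply, star_mk, starG_apply,
      swap_apply]

theorem swap_injective : Function.Injective (swap 𝓑 H Y P ρP) := by
  intro F F' h
  refine W_ext 𝓑 H _ fun g => ?_
  apply (cjEquiv H Y P ρP).injective
  apply LinearMap.ext
  intro x
  rw [← swap_apply, ← swap_apply, h]

theorem swap_surjective : Function.Surjective (swap 𝓑 H Y P ρP) := by
  intro Ψ
  set ψ := hrEquiv P (W 𝓑 H Y) Ψ with hψ
  -- a common open subgroup for the values on a basis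
  obtain ⟨U, hU, -, hfix⟩ := (isDiscrete_scoind H.subtype 𝓑 (resH H Y)).exists_fixing 𝓑.isBasis
    (T := Set.range fun i => ψ (Module.finBasis k P i)) (Set.finite_range _)
  have hinv : ∀ (x : P) (g s : G), s ∈ U → val 𝓑 H Y (ψ x) (g * s) = val 𝓑 H Y (ψ x) g := by
    intro x g s hs
    have h1 : (W 𝓑 H Y).ρ s (ψ x) = ψ x := by
      have h2 : ((W 𝓑 H Y).ρ s : W 𝓑 H Y →ₗ[k] W 𝓑 H Y) ∘ₗ ψ = ψ := by
        apply (Module.finBasis k P).ext
        intro i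
        exact hfix s hs _ ⟨i, rfl⟩
      exact LinearMap.congr_fun h2 x
    rw [← val_ρ, h1]
  refine ⟨mkW 𝓑 H (conjRep H Y P ρP)
    (fun g => (cjEquiv H Y P ρP).symm
      { toFun := fun x => val 𝓑 H Y (ψ x) g
        map_add' := fun x y => by rw [map_add, val_add]
        map_smul' := fun r x => by rw [map_smul, val_smul, RingHom.id_apply] })
    (fun h hh g => ?_) ⟨U, hU, fun g s hs => ?_⟩, ?_⟩
  · apply (cjEquiv H Y P ρP).injective
    apply LinearMap.ext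
    intro x
    rw [cjEquiv_ρ_of_mem H Y P ρP hh]
    exact val_equivariant 𝓑 H Y (ψ x) hh g
  · apply (cjEquiv H Y P ρP).injective
    apply LinearMap.ext
    intro x
    exact hinv x g s hs
  · apply (hrEquiv P (W 𝓑 H Y)).injective
    apply LinearMap.ext
    intro x
    exact W_ext 𝓑 H Y fun g => rfl

variable [Fintype (G ⧸ H)] [Invertible (Fintype.card (G ⧸ H) : k)] (F : LinFun k G)

include hY in
/-- **(D) `p′`-descent with twisted coefficients**: for a finite dimensional `k[G/H]`-module `P`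
and a discrete `G`-module `Y` (`H` open normal, `|G/H|` invertible in `k`), for every linear functor
`F` (`H⁰`, `H¹`, `H²`):  `dim F(Hom_k(P, Y)) = μ_P(F(W(Y)))`. -/
theorem finrank_conjRep_eq_muP (hHo : ∃ V ∈ 𝓑.sets, V ≤ H) :
    Module.finrank k (F.obj (conjRep H Y P ρP)) =
      muP ρP (inducedRep F (W 𝓑 H Y) (star 𝓑 H Y) (star_comm 𝓑 H Y)) := by
  rw [finrank_eq_dimInv_star 𝓑 H (conjRep H Y P ρP) (isDiscrete_conjRep 𝓑 H Y hY P ρP hHo) F,
    dimInv_inducedRep_congr F _ _ (star 𝓑 H (conjRep H Y P ρP)) (star_comm 𝓑 H _)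
      (homτ P (W 𝓑 H Y) ρP (star 𝓑 H Y)) (homτ_comm P (W 𝓑 H Y) ρP (star 𝓑 H Y) (star_comm 𝓑 H Y))
      (swap 𝓑 H Y P ρP) (swap_equivariant 𝓑 H Y P ρP) (swap_star 𝓑 H Y P ρP)
      ⟨swap_injective 𝓑 H Y P ρP, swap_surjective 𝓑 H Y P ρP⟩,
    dimInv_homRep]

end Twist

end Fermat.Agent.W56.CoindStar4
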