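/-
Programme W56 (target S56), shared package "class formation over an open subgroup" (helper8):
**the trace (corestriction) `N_* : H²_lev(V; A|_V) → H²_lev(G; A)` for an open subgroup `V ≤ G`**
of finite index: Shapiro's isomorphism `H²(G; Coind_V^G A|_V) ≅ H²(V; A|_V)` followed by the trace
`Coind_V^G (A|_V) → A` of `Retract2`.

* `resV` (restriction), `shV` (Shapiro), `trV` (trace);
* `trV_resV : trV (resV y) = [G : V] • y`;
* `trV_natural` : naturality in the coefficients;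
* `eq_zero_of_trV_eq_zero` : with helper6's restriction lemmas, `trV` is injective on `p`-primary
  classes (stated with his hypothesis shape).
-/
import Mathlib
import Fermat.Agent.W56.Retract2
import Fermat.Agent.PT.PRO.ShapiroLevel28

set_option autoImplicit false
set_option linter.unusedSectionVars false
set_option linter.style.haveILetI false

open CategoryTheory groupCohomology

namespace Fermat.Agent.W56.TraceOpen8

open Fermat.Agent.PT.PRO.LevelCoh28 Fermat.Agent.PT.PRO.LevelCohRes28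
  Fermat.Agent.PT.PRO.SmoothCoind28 Fermat.Agent.PT.PRO.ShapiroLevel28
  Fermat.Agent.PT.GLUE.Objects21 Fermat.Agent.W56.Retract2

variable {k G : Type} [CommRing k] [Group G]
variable (𝓑 : LevelBasis G) (A : Rep.{0} k G) (V : Subgroup G)

theorem isLevelHom_subtype : IsLevelHom V.subtype (comapBasis V.subtype 𝓑).sets 𝓑.sets :=
  fun U hU => ⟨_, ⟨U, hU, rfl⟩, le_rfl⟩

theorem hind_subtype :
    ∀ W ∈ (comapBasis V.subtype 𝓑).sets, ∃ U ∈ 𝓑.sets, U.comap V.subtype ≤ W := by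
  rintro _ ⟨U, hU, rfl⟩
  exact ⟨U, hU, le_rfl⟩

theorem isDiscrete_resV (hA : IsDiscrete 𝓑.sets A) :
    IsDiscrete (comapBasis V.subtype 𝓑).sets (Rep.res V.subtype A) := by
  intro a
  obtain ⟨U, hU, h⟩ := hA a
  exact ⟨_, ⟨U, hU, rfl⟩, fun s hs => h s hs⟩

/-- restriction `H²_lev(G; A) → H²_lev(V; A|_V)`. -/
noncomputable def resV : H2 𝓑 A →ₗ[k] H2 (comapBasis V.subtype 𝓑) (Rep.res V.subtype A) :=
  ppH2 V.subtype (LinearMap.id : A →ₗ[k] (Rep.res V.subtype A)) (fun _ _ => rfl)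
    (isLevelHom_subtype 𝓑 V)

/-- Shapiro: `H²_lev(G; Coind_V^G A|_V) ≃ H²_lev(V; A|_V)`. -/
noncomputable def shV (hA : IsDiscrete 𝓑.sets A) :
    H2 𝓑 (CoindRes 𝓑 A V) ≃ₗ[k] H2 (comapBasis V.subtype 𝓑) (Rep.res V.subtype A) :=
  sh2Equiv V.subtype 𝓑 (comapBasis V.subtype 𝓑) (isLevelHom_subtype 𝓑 V) (hind_subtype 𝓑 V)
    (Rep.res V.subtype A) (isDiscrete_resV 𝓑 A V hA)

theorem shV_apply (hA : IsDiscrete 𝓑.sets A) (z : H2 𝓑 (CoindRes 𝓑 A V)) :
    shV 𝓑 A V hA z = sh2 V.subtype 𝓑 (comapBasis V.subtype 𝓑) (isLevelHom_subtype 𝓑 V)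
      (Rep.res V.subtype A) z := rfl

/-- Shapiro after the unit is the restriction. -/
theorem shV_mapH2_unit (hA : IsDiscrete 𝓑.sets A) (y : H2 𝓑 A) :
    shV 𝓑 A V hA (mapH2 (unit 𝓑 A V hA) (unit_equivariant 𝓑 A V hA) y) = resV 𝓑 A V y := by
  obtain ⟨z, rfl⟩ := H2mk_surjective 𝓑 A y
  rw [shV_apply, mapH2_mk, sh2_mk, resV, ppH2_mk]
  congr 1
  apply Subtype.ext
  funext x
  show (unit 𝓑 A V hA ((z : G × G → A) ((x.1 : G), (x.2 : G)))).1 1 = _
  rw [unit_apply, map_one]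
  rfl

variable [Fintype (G ⧸ V)]

/-- **the trace** `N_* : H²_lev(V; A|_V) → H²_lev(G; A)`. -/
noncomputable def trV (hA : IsDiscrete 𝓑.sets A) :
    H2 (comapBasis V.subtype 𝓑) (Rep.res V.subtype A) →ₗ[k] H2 𝓑 A :=
  mapH2 (trace 𝓑 A V) (trace_equivariant 𝓑 A V) ∘ₗ (shV 𝓑 A V hA).symm.toLinearMap

theorem trV_shV (hA : IsDiscrete 𝓑.sets A) (z : H2 𝓑 (CoindRes 𝓑 A V)) :
    trV 𝓑 A V hA (shV 𝓑 A V hA z) = mapH2 (trace 𝓑 A V) (trace_equivariant 𝓑 A V) z := by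
  rw [trV, LinearMap.comp_apply]
  congr 1
  exact (shV 𝓑 A V hA).symm_apply_apply z

/-- **`N_* ∘ res = [G : V]`.** -/
theorem trV_resV (hA : IsDiscrete 𝓑.sets A) (y : H2 𝓑 A) :
    trV 𝓑 A V hA (resV 𝓑 A V y) = (Fintype.card (G ⧸ V) : k) • y := by
  rw [← shV_mapH2_unit 𝓑 A V hA, trV_shV]
  obtain ⟨z, rfl⟩ := H2mk_surjective 𝓑 A y
  rw [mapH2_mk, mapH2_mk, ← map_smul]
  congr 1
  apply Subtype.ext
  funext x
  show trace 𝓑 A V (unit 𝓑 A V hA ((z : G × G → A) x)) = _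
  rw [trace_unit]
  rfl

theorem trV_resV' (hA : IsDiscrete 𝓑.sets A) (y : H2 𝓑 A) :
    trV 𝓑 A V hA (resV 𝓑 A V y) = V.index • y := by
  rw [trV_resV, Nat.cast_smul_eq_nsmul, Subgroup.index, Nat.card_eq_fintype_card]

/-! ### naturality -/

section Natural

variable {𝓑 A V}
variable {B : Rep.{0} k G} (φ : A →ₗ[k] B) (hφ : ∀ g a, φ (A.ρ g a) = B.ρ g (φ a))

/-- `φ` as a map of `V`-modules. -/
abbrev resLin : (Rep.res V.subtype A) →ₗ[k] (Rep.res V.subtype B) := φ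

include hφ in
theorem resLin_equivariant (h : ↥V) (a : Rep.res V.subtype A) :
    resLin (V := V) φ ((Rep.res V.subtype A).ρ h a) = (Rep.res V.subtype B).ρ h (resLin (V := V) φ a) :=
  hφ h a

include hφ in
theorem traceTerm_scoindMap (f : CoindRes 𝓑 A V) (c : G ⧸ V) :
    traceTerm 𝓑 B V
      (scoindMap V.subtype 𝓑 (resLin (V := V) φ) (resLin_equivariant (V := V) φ hφ) f) c =
      φ (traceTerm 𝓑 A V f c) := by
  induction c using QuotientGroup.induction_on with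
  | H x =>
    rw [traceTerm_mk, traceTerm_mk, scoindMap_apply]
    exact (hφ x _).symm

include hφ in
theorem trace_scoindMap (f : CoindRes 𝓑 A V) :
    trace 𝓑 B V
      (scoindMap V.subtype 𝓑 (resLin (V := V) φ) (resLin_equivariant (V := V) φ hφ) f) =
      φ (trace 𝓑 A V f) := by
  rw [trace_apply, trace_apply, map_sum]
  exact Finset.sum_congr rfl fun c _ => traceTerm_scoindMap φ hφ f c

/-- **naturality of the trace in the coefficients.** -/
theorem trV_natural (hA : IsDiscrete 𝓑.sets A) (hB : IsDiscrete 𝓑.sets B)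
    (x : H2 (comapBasis V.subtype 𝓑) (Rep.res V.subtype A)) :
    trV 𝓑 B V hB (mapH2 (resLin (V := V) φ) (resLin_equivariant (V := V) φ hφ) x) =
      mapH2 φ hφ (trV 𝓑 A V hA x) := by
  obtain ⟨z, rfl⟩ := (shV 𝓑 A V hA).surjective x
  have h1 : mapH2 (resLin (V := V) φ) (resLin_equivariant (V := V) φ hφ) (shV 𝓑 A V hA z) =
      shV 𝓑 B V hB (mapH2 (scoindMap V.subtype 𝓑 (resLin (V := V) φ)
        (resLin_equivariant (V := V) φ hφ)) (scoindMap_equivariant V.subtype 𝓑 _ _) z) :=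
    (sh2_natural V.subtype 𝓑 (comapBasis V.subtype 𝓑) (isLevelHom_subtype 𝓑 V)
      (Rep.res V.subtype A) (resLin (V := V) φ) (resLin_equivariant (V := V) φ hφ) z).symm
  rw [h1, trV_shV, trV_shV]
  obtain ⟨w, rfl⟩ := H2mk_surjective 𝓑 _ z
  rw [mapH2_mk, mapH2_mk, mapH2_mk, mapH2_mk]
  congr 1
  apply Subtype.ext
  funext y
  exact trace_scoindMap φ hφ _

end Natural

/-! ### injectivity on `p`-primary classes, from restriction lemmas -/

/-- the trace as an additive map (helper6's shape for `ResOpen6.eq_zero_of_trace_eq_zero`). -/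
noncomputable def trVAdd (hA : IsDiscrete 𝓑.sets A) :
    H2 (comapBasis V.subtype 𝓑) (Rep.res V.subtype A) →+ H2 𝓑 A :=
  (trV 𝓑 A V hA).toAddMonoidHom

theorem trVAdd_resV (hA : IsDiscrete 𝓑.sets A) (y : H2 𝓑 A) :
    trVAdd 𝓑 A V hA (resV 𝓑 A V y) = V.index • y :=
  trV_resV' 𝓑 A V hA y

end Fermat.Agent.W56.TraceOpen8
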