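/-
Programme W56 (target S56), stage 2, chapter (EC-5), helper4: **compile-checked statements of the
delegated pieces of the base case** (`Prop`-valued definitions; nothing is proved here).

Vocabulary: `G` a group with level basis `𝓑`, `H ◁ G` open, `W 𝓑 H Y = Coind_H^G Res_H Y`
(`CoindStar4.W`, literally `Retract2.CoindRes 𝓑 Y H`) with the action `star` of `G ⧸ H`
(`(g ⋆ F)(x) = g · F(g⁻¹ x)`), `opH2 𝓑 M τ hτ` the action induced on `H²` (`IntRes4`),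
`torsRep p ρ` the `𝔽_p`-representation on the `p`-torsion (`TorsSnake4`), `muP ρP ρ` the
multiplicity (`MuP4`), `funPerm` the permutation module (`EquivUnits0C`), `DC j H = j(L)\G/H` with the
action `BaseDefs4.dcAction` of `G ⧸ H`.

* `Wmap`: functoriality of `W` in the coefficients, compatible with `star`.
* `MonoW` (T-w): **the monomial theorem** for `W(Coind_j A)`.
* `ShapW`: `H^r(Ĉ; W(Y|_Ĉ)) ≅ H^r(V; Y|_V)` for `V ≤ Ĉ ≤ G₀`, natural in `Y` (Shapiro + transport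
  along `↥(V.subgroupOf Ĉ) ≃* ↥V`).
* `ISCount`: the `G ⧸ H`-structure of `H²(Ĉ; W(I_T))[p]`.
-/
import Mathlib
import Fermat.Agent.W56.BaseDefs4
import Fermat.Agent.W56.CoindStar4
import Fermat.Agent.W56.TraceOpen8
import Fermat.Agent.W56.MackeyInst2
import Fermat.Agent.PT.PRO.InvP4

set_option autoImplicit false
set_option linter.unusedSectionVars false
set_option linter.style.haveILetI false

open CategoryTheory ExtCitation

namespace Fermat.Agent.W56.BaseContracts4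

open Fermat.Agent.PT.PRO Fermat.Agent.PT.BR Fermat.Agent.PT.PRO.LevelCoh28
  Fermat.Agent.PT.PRO.LevelCohRes28 Fermat.Agent.PT.PRO.SmoothCoind28
  Fermat.Agent.PT.PRO.InvP4
  Fermat.Agent.PT.GLUE.Objects21
  Fermat.Agent.W56.Mackey2 Fermat.Agent.W56.MuP4 Fermat.Agent.W56.TorsSnake4
  Fermat.Agent.W56.EquivUnits0 Fermat.Agent.W56.KummerStar4 Fermat.Agent.W56.IntRes4
  Fermat.Agent.W56.CoindStar4 Fermat.Agent.W56.BaseDefs4 Fermat.Agent.W56.TraceOpen8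

local notation "Γ" => (AlgebraicClosure ℚ ≃ₐ[ℚ] AlgebraicClosure ℚ)

/-! ### Functoriality of `W` -/

section Wmap

variable {k G : Type} [CommRing k] [Group G] (𝓑 : LevelBasis G) (H : Subgroup G)
  {A B : Rep.{0} k G} (φ : A →ₗ[k] B) (hφ : ∀ g a, φ (A.ρ g a) = B.ρ g (φ a))

/-- `φ` as a map of `V`-modules. -/
abbrev resL (V : Subgroup G) : (Rep.res V.subtype A) →ₗ[k] (Rep.res V.subtype B) := φ

include hφ in
theorem resL_equivariant (V : Subgroup G) (h : ↥V) (a : Rep.res V.subtype A) :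
    resL φ V ((Rep.res V.subtype A).ρ h a) = (Rep.res V.subtype B).ρ h (resL φ V a) :=
  hφ h a

/-- `W(φ) : W(A) → W(B)`, `F ↦ φ ∘ F`. -/
noncomputable def Wmap : W 𝓑 H A →ₗ[k] W 𝓑 H B :=
  scoindMap H.subtype 𝓑 (resL φ H) (resL_equivariant φ hφ H)

theorem val_Wmap (F : W 𝓑 H A) (x : G) : val 𝓑 H B (Wmap 𝓑 H φ hφ F) x = φ (val 𝓑 H A F x) := rfl

theorem Wmap_equivariant (g : G) (F : W 𝓑 H A) :
    Wmap 𝓑 H φ hφ ((W 𝓑 H A).ρ g F) = (W 𝓑 H B).ρ g (Wmap 𝓑 H φ hφ F) := rfl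

include hφ in
theorem Wmap_star [hH : H.Normal] (q : G ⧸ H) (F : W 𝓑 H A) :
    Wmap 𝓑 H φ hφ (CoindStar4.star 𝓑 H A q F) = CoindStar4.star 𝓑 H B q (Wmap 𝓑 H φ hφ F) := by
  induction q using QuotientGroup.induction_on with
  | H c =>
    refine W_ext 𝓑 H B fun x => ?_
    rw [star_mk, star_mk, starG_apply, val_Wmap, starG_apply, val_Wmap, hφ]

end Wmap

/-! ### (T-w) the monomial theorem -/

/-- **(T-w) The monomial theorem** (contract).  `H ◁ G` open, `Q = G ⧸ H` of order prime to `p`,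
`j : L →* G`, `S = Coind_j A`.  If `H²(G; S)[p] ≠ 0` and, for every Mackey component
`S_g = Coind_{j_g}(A|_{L_g})` of `S|_H` (`Mackey2.Sg`), `#H²(H; S_g)[p] ≤ p`, then
`H²(G; W(S))[p] ≅ 𝔽_p[j(L)\G/H]` as `𝔽_p[Q]`-modules, in the form of multiplicities. -/
def MonoW : Prop :=
  ∀ {G L : Type} [Group G] [Group L] (𝓑 : LevelBasis G) (H : Subgroup G) [H.Normal],
    (∃ V ∈ 𝓑.sets, V ≤ H) →
  ∀ [Fintype (G ⧸ H)] (p : ℕ) [Fact p.Prime] [Invertible (Fintype.card (G ⧸ H) : ZMod p)]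
    (j : L →* G) (A : Rep.{0} ℤ L),
    (∃ x : H2 𝓑 (scoind j 𝓑 A), x ≠ 0 ∧ p • x = 0) →
    (∀ g : G, Nat.card ↥(pTor p (H2 (basisV 𝓑 H) (Sg j 𝓑 A H g))) ≤ p) →
  ∀ (P : Type) [AddCommGroup P] [Module (ZMod p) P] [FiniteDimensional (ZMod p) P]
    (ρP : Representation (ZMod p) (G ⧸ H) P),
    muP ρP (torsRep p (canonRep (opH2 𝓑 (W 𝓑 H (scoind j 𝓑 A)) (CoindStar4.star 𝓑 H (scoind j 𝓑 A))
        (star_comm 𝓑 H (scoind j 𝓑 A))))) =
      muP ρP (funPerm (ZMod p) (G ⧸ H) (DC j H))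

/-- **(T-w), corrected hypothesis** (contract): as `MonoW`, with `#H²(H; S_g)[p] = p` instead of
`≤ p` (`Nat.card` of an infinite type is `0`, so `MonoW` as stated does not control the infinite
case; USE THIS ONE). -/
def MonoWp : Prop :=
  ∀ {G L : Type} [Group G] [Group L] (𝓑 : LevelBasis G) (H : Subgroup G) [H.Normal],
    (∃ V ∈ 𝓑.sets, V ≤ H) →
  ∀ [Fintype (G ⧸ H)] (p : ℕ) [Fact p.Prime] [Invertible (Fintype.card (G ⧸ H) : ZMod p)]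
    (j : L →* G) (A : Rep.{0} ℤ L),
    (∃ x : H2 𝓑 (scoind j 𝓑 A), x ≠ 0 ∧ p • x = 0) →
    (∀ g : G, Nat.card ↥(pTor p (H2 (basisV 𝓑 H) (Sg j 𝓑 A H g))) = p) →
  ∀ (P : Type) [AddCommGroup P] [Module (ZMod p) P] [FiniteDimensional (ZMod p) P]
    (ρP : Representation (ZMod p) (G ⧸ H) P),
    muP ρP (torsRep p (canonRep (opH2 𝓑 (W 𝓑 H (scoind j 𝓑 A)) (CoindStar4.star 𝓑 H (scoind j 𝓑 A))
        (star_comm 𝓑 H (scoind j 𝓑 A))))) =
      muP ρP (funPerm (ZMod p) (G ⧸ H) (DC j H))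

/-! ### Shapiro for `W` and transport to the subgroup of the ambient group -/

/-- **Shapiro for `W`** (contract): for `V ≤ Ĉ ≤ G₀` (`V` open), additive isomorphisms
`H^r(Ĉ; W(Y|_Ĉ)) ≃ H^r(V; Y|_V)` (`r = 1, 2`; `W` for `H = V.subgroupOf Ĉ`), natural in the discrete
`G₀`-module `Y`. -/
def ShapW : Prop :=
  ∀ {k G₀ : Type} [CommRing k] [Group G₀] (𝓑₀ : LevelBasis G₀) (Ĉ V : Subgroup G₀), V ≤ Ĉ →
    (∃ U₀ ∈ 𝓑₀.sets, U₀ ≤ V) →
    ∃ (e1 : ∀ Y : Rep.{0} k G₀, IsDiscrete 𝓑₀.sets Y →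
        (H1 (comapBasis Ĉ.subtype 𝓑₀)
            (W (comapBasis Ĉ.subtype 𝓑₀) (V.subgroupOf Ĉ) (Rep.res Ĉ.subtype Y)) ≃ₗ[k]
          H1 (comapBasis V.subtype 𝓑₀) (Rep.res V.subtype Y)))
      (e2 : ∀ Y : Rep.{0} k G₀, IsDiscrete 𝓑₀.sets Y →
        (H2 (comapBasis Ĉ.subtype 𝓑₀)
            (W (comapBasis Ĉ.subtype 𝓑₀) (V.subgroupOf Ĉ) (Rep.res Ĉ.subtype Y)) ≃ₗ[k]
          H2 (comapBasis V.subtype 𝓑₀) (Rep.res V.subtype Y))),
      (∀ (Y Y' : Rep.{0} k G₀) (hY : IsDiscrete 𝓑₀.sets Y) (hY' : IsDiscrete 𝓑₀.sets Y')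
        (φ : Y →ₗ[k] Y') (hφ : ∀ g a, φ (Y.ρ g a) = Y'.ρ g (φ a))
        (x : H1 (comapBasis Ĉ.subtype 𝓑₀)
          (W (comapBasis Ĉ.subtype 𝓑₀) (V.subgroupOf Ĉ) (Rep.res Ĉ.subtype Y))),
        e1 Y' hY' (mapH1 (Wmap (comapBasis Ĉ.subtype 𝓑₀) (V.subgroupOf Ĉ)
            (resL (A := Y) (B := Y') φ Ĉ) (resL_equivariant (A := Y) (B := Y') φ hφ Ĉ))
            (Wmap_equivariant (comapBasis Ĉ.subtype 𝓑₀) (V.subgroupOf Ĉ)
              (resL (A := Y) (B := Y') φ Ĉ) (resL_equivariant (A := Y) (B := Y') φ hφ Ĉ)) x) =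
          mapH1 (resL (A := Y) (B := Y') φ V) (resL_equivariant (A := Y) (B := Y') φ hφ V)
            (e1 Y hY x)) ∧
      (∀ (Y Y' : Rep.{0} k G₀) (hY : IsDiscrete 𝓑₀.sets Y) (hY' : IsDiscrete 𝓑₀.sets Y')
        (φ : Y →ₗ[k] Y') (hφ : ∀ g a, φ (Y.ρ g a) = Y'.ρ g (φ a))
        (x : H2 (comapBasis Ĉ.subtype 𝓑₀)
          (W (comapBasis Ĉ.subtype 𝓑₀) (V.subgroupOf Ĉ) (Rep.res Ĉ.subtype Y))),
        e2 Y' hY' (mapH2 (Wmap (comapBasis Ĉ.subtype 𝓑₀) (V.subgroupOf Ĉ)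
            (resL (A := Y) (B := Y') φ Ĉ) (resL_equivariant (A := Y) (B := Y') φ hφ Ĉ))
            (Wmap_equivariant (comapBasis Ĉ.subtype 𝓑₀) (V.subgroupOf Ĉ)
              (resL (A := Y) (B := Y') φ Ĉ) (resL_equivariant (A := Y) (B := Y') φ hφ Ĉ)) x) =
          mapH2 (resL (A := Y) (B := Y') φ V) (resL_equivariant (A := Y) (B := Y') φ hφ V)
            (e2 Y hY x))

/-! ### The structure of `H²(Ĉ; W(I_T))[p]` -/

/-- **(IS-count)** (contract): `p` odd, `p ∈ T`, `U ≤ Ĉ ≤ Γ`, `U ◁ Γ` open in `G_T`,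
`Q = Ĉ ⧸ U` of order prime to `p`.  Then `H²(Ĉ; W(I_T|_Ĉ))[p] ≅ 𝔽_p[Σ_{q ∈ T} Γ_q\Γ/U]` as
`𝔽_p[Q]`-modules (`Q` acting on `XT T U` through `Q → Γ ⧸ U`), in the form of multiplicities:
the right-hand side is written with the nested double cosets of `BaseDefs4.SplitDC`. -/
def ISCount : Prop :=
  ∀ (p : ℕ) [Fact p.Prime], p ≠ 2 → ∀ (T : Finset Nat.Primes), pPrime p ∈ T →
  ∀ (U Ĉ : Subgroup Γ) [U.Normal], U ∈ (levelS T).sets → U ≤ Ĉ →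
  ∀ [Fintype (↥Ĉ ⧸ U.subgroupOf Ĉ)] [Invertible (Fintype.card (↥Ĉ ⧸ U.subgroupOf Ĉ) : ZMod p)]
    (P : Type) [AddCommGroup P] [Module (ZMod p) P] [FiniteDimensional (ZMod p) P]
    (ρP : Representation (ZMod p) (↥Ĉ ⧸ U.subgroupOf Ĉ) P),
    muP ρP (torsRep p (canonRep (opH2 (comapBasis Ĉ.subtype (levelS T))
        (W (comapBasis Ĉ.subtype (levelS T)) (U.subgroupOf Ĉ) (Rep.res Ĉ.subtype (IS T)))
        (CoindStar4.star (comapBasis Ĉ.subtype (levelS T)) (U.subgroupOf Ĉ) (Rep.res Ĉ.subtype (IS T)))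
        (star_comm (comapBasis Ĉ.subtype (levelS T)) (U.subgroupOf Ĉ)
          (Rep.res Ĉ.subtype (IS T)))))) =
      ∑ q : ↥T, ∑ᶠ w : DC (localGaloisToGlobal ((q : Nat.Primes) : ℕ)) Ĉ,
        muP ρP (funPerm (ZMod p) (↥Ĉ ⧸ U.subgroupOf Ĉ)
          (DC (jg (localGaloisToGlobal ((q : Nat.Primes) : ℕ)) Ĉ w.out) (U.subgroupOf Ĉ)))

end Fermat.Agent.W56.BaseContracts4
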