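/-
Programme W56 (target S56), stage 2, chapter (EC-5), helper4: **the concrete context of the base
case** `EulerSkel4.BaseCase`.

`U ◁ Γ`, `C ≤ Γ ⧸ U`, `Ĉ = pre U C` its preimage, `H = U.subgroupOf Ĉ ◁ Ĉ`, `Q = Ĉ ⧸ H`:
* `eQ : Q ≃* C` (`eQ (mk h) = toC U C h`), `qIncl : Q →* Γ ⧸ U`;
* `pullBasisS_eq_comap : pullBasisS r T = comapBasis r (levelS T)`;
* `omegaC p U C : Ĉ →* 𝔽_pˣ` (the restriction of the mod `p` cyclotomic character), trivial on `H`
  when `U` fixes `ζ_p`.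
-/
import Mathlib
import Fermat.Prelude.Def_GaloisRep_ComplexConjugation
import Fermat.Prelude.Def_ExtCitation_KummerBridge
import Fermat.Agent.PT.GLUE.BasisCompare13
import Fermat.Agent.W56.InflCoind4

set_option autoImplicit false
set_option linter.unusedSectionVars false
set_option linter.style.haveILetI false

open CategoryTheory ExtCitation

namespace Fermat.Agent.W56.BaseQ4

open Fermat.Agent.PT.PRO Fermat.Agent.PT.BR Fermat.Agent.PT.PRO.LevelCoh28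
  Fermat.Agent.PT.GLUE.Objects21 Fermat.Agent.W56.InflCoind4

local notation "Γ" => (AlgebraicClosure ℚ ≃ₐ[ℚ] AlgebraicClosure ℚ)

/-! ### Bases -/

theorem pullBasisS_eq_comap {G : Type} [Group G] (r : G →* Γ) (T : Finset Nat.Primes) :
    LevelBridge13.pullBasisS r T = comapBasis r (levelS T) := by
  apply Fermat.Agent.PT.GLUE.BasisCompare13.levelBasis_ext
  ext V
  constructor
  · rintro ⟨F, hF, rfl⟩
    exact ⟨_, ⟨F, hF, rfl⟩, rfl⟩
  · rintro ⟨_, ⟨F, hF, rfl⟩, rfl⟩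
    exact ⟨F, hF, rfl⟩

/-! ### The quotient `Q = Ĉ ⧸ (U ∩ Ĉ) ≃ C` -/

section Quot

variable {G₀ : Type} [Group G₀] (U : Subgroup G₀) [hU : U.Normal] (C : Subgroup (G₀ ⧸ U))

theorem le_pre : U ≤ pre U C := fun u hu => by
  show QuotientGroup.mk' U u ∈ C
  rw [mk_eq_one U hu]
  exact C.one_mem

theorem ker_toC : (toC U C).ker = U.subgroupOf (pre U C) := by
  ext h
  rw [MonoidHom.mem_ker, Subgroup.mem_subgroupOf]
  constructor
  · intro hh
    have h1 : QuotientGroup.mk' U (h : G₀) = 1 := congrArg Subtype.val hh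
    exact (QuotientGroup.eq_one_iff _).1 h1
  · intro hh
    exact Subtype.ext (mk_eq_one U hh)

theorem toC_surjective : Function.Surjective (toC U C) := by
  intro c
  obtain ⟨g, hg⟩ := QuotientGroup.mk'_surjective U c.1
  have hmem : g ∈ pre U C := by
    show QuotientGroup.mk' U g ∈ C
    rw [hg]; exact c.2
  exact ⟨⟨g, hmem⟩, Subtype.ext hg⟩

/-- `Q = Ĉ ⧸ (U ∩ Ĉ) ≃ C`. -/
noncomputable def eQ : (↥(pre U C) ⧸ U.subgroupOf (pre U C)) ≃* ↥C :=
  (QuotientGroup.quotientMulEquivOfEq (ker_toC U C).symm).trans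
    (QuotientGroup.quotientKerEquivOfSurjective (toC U C) (toC_surjective U C))

theorem eQ_mk (h : ↥(pre U C)) :
    eQ U C (QuotientGroup.mk h : ↥(pre U C) ⧸ U.subgroupOf (pre U C)) = toC U C h := rfl

theorem coe_eQ_mk (h : ↥(pre U C)) :
    ((eQ U C (QuotientGroup.mk h : ↥(pre U C) ⧸ U.subgroupOf (pre U C)) : ↥C) : G₀ ⧸ U) =
      QuotientGroup.mk (h : G₀) := rfl

end Quot

section Incl

variable {G₀ : Type} [Group G₀] (U Ĉ : Subgroup G₀) [hU : U.Normal]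

/-- `Ĉ ⧸ (U ∩ Ĉ) → G₀ ⧸ U`. -/
def qIncl : (↥Ĉ ⧸ U.subgroupOf Ĉ) →* (G₀ ⧸ U) :=
  QuotientGroup.map (U.subgroupOf Ĉ) U Ĉ.subtype (fun _ h => h)

theorem qIncl_mk (h : ↥Ĉ) :
    qIncl U Ĉ (QuotientGroup.mk h : ↥Ĉ ⧸ U.subgroupOf Ĉ) = QuotientGroup.mk (h : G₀) := rfl

end Incl

theorem coe_eQ {G₀ : Type} [Group G₀] (U : Subgroup G₀) [hU : U.Normal] (C : Subgroup (G₀ ⧸ U))
    (q : ↥(pre U C) ⧸ U.subgroupOf (pre U C)) :
    ((eQ U C q : ↥C) : G₀ ⧸ U) = qIncl U (pre U C) q := by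
  induction q using QuotientGroup.induction_on with
  | H h => rfl

end Fermat.Agent.W56.BaseQ4
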