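/-
Programme W56 (target S56), stage 2, chapter (EC-5), helper4: **the glue contracts of the base case**
(`Prop`-valued definitions, compile-checked; nothing is proved here).  `W56/BaseCase4.lean` proves
`EulerSkel4.BaseCase` from them (+ `BaseDefs4.Bridge`, `BaseContracts4.ISCount`).

Context: `p` odd, `p ∈ T`, `U ◁ Γ` open in `G_T`, `U ≤ Ĉ ≤ Γ`; `𝓑 = comapBasis Ĉ.subtype (levelS T)`
(the level basis of `Ĉ`), `H = U.subgroupOf Ĉ`, `Q = Ĉ ⧸ H`, `W = CoindStar4.W 𝓑 H` with the action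
`star` of `Q`; `E_T, I_T, C_T` = `ES T, IS T, CS T` of `PT/GLUE/Objects21`, restricted to `Ĉ`.

* `FinW`      : `H¹, H²(Ĉ; W Z)` finite for a finite discrete `𝔽_p[Ĉ]`-module `Z`;
* `FinH1WE`   : `H¹(Ĉ; W E_T)` finite;
* `TorWCS`    : `H¹(Ĉ; W C_T)` is killed by integers prime to `p` (elementwise);
* `OntoW`     : `H²(Ĉ; W I_T)[p] → H²(Ĉ; W C_T)[p]` onto;
* `FinTorsWIS`: `H²(Ĉ; W I_T)[p]` finite;
* `TrivWCS`   : `H²(Ĉ; W C_T)[p]` is the trivial line, in the form of multiplicities;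
* `ISSum`     : the double sum of `BaseContracts4.ISCount` is the multiplicity in `𝔽_p[XT T U]`
                (`Q` acting through `qIncl : Q → Γ ⧸ U`);
* `PullH0`    : `H⁰(Ĉ; W E_T) ≅ (E_T)^U`, `Q`-equivariantly (`Ĉ = pre U C`).
-/
import Mathlib
import Fermat.Agent.W56.BaseDefs4
import Fermat.Agent.W56.BaseContracts4
import Fermat.Agent.W56.BaseQ4

set_option autoImplicit false
set_option linter.unusedSectionVars false
set_option linter.style.haveILetI false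

open CategoryTheory ExtCitation

namespace Fermat.Agent.W56.BaseGlue4

open Fermat.Agent.PT.PRO Fermat.Agent.PT.BR Fermat.Agent.PT.PRO.LevelCoh28
  Fermat.Agent.PT.PRO.LevelCohRes28 Fermat.Agent.PT.PRO.SmoothCoind28
  Fermat.Agent.PT.PRO.InvP4
  Fermat.Agent.PT.GLUE.Objects21
  Fermat.Agent.W56.Mackey2 Fermat.Agent.W56.MuP4 Fermat.Agent.W56.TorsSnake4
  Fermat.Agent.W56.EquivUnits0 Fermat.Agent.W56.KummerStar4 Fermat.Agent.W56.IntRes4
  Fermat.Agent.W56.CoindStar4 Fermat.Agent.W56.BaseDefs4 Fermat.Agent.W56.BaseContracts4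
  Fermat.Agent.W56.BaseQ4 Fermat.Agent.W56.InflCoind4

local notation "Γ" => (AlgebraicClosure ℚ ≃ₐ[ℚ] AlgebraicClosure ℚ)

/-- prefer the module structure carried by a `Rep ℤ G`. -/
local instance (priority := 10000) repModZg {G : Type} [Group G] (E : Rep.{0} ℤ G) : Module ℤ E :=
  E.hV2

/-- **(F-W)** `H¹` and `H²` of `W(Z)` are finite for a finite discrete `𝔽_p[Ĉ]`-module `Z`
(Shapiro + Hermite–Minkowski + `FinH2g4`). -/
def FinW : Prop :=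
  ∀ (p : ℕ) [Fact p.Prime], p ≠ 2 → ∀ (T : Finset Nat.Primes), pPrime p ∈ T →
  ∀ (U Ĉ : Subgroup Γ) [U.Normal], U ∈ (levelS T).sets → U ≤ Ĉ →
  ∀ (Z : Rep.{0} (ZMod p) ↥Ĉ) [Finite Z],
    IsDiscrete (comapBasis Ĉ.subtype (levelS T)).sets Z →
    Finite (H1 (comapBasis Ĉ.subtype (levelS T))
        (W (comapBasis Ĉ.subtype (levelS T)) (U.subgroupOf Ĉ) Z)) ∧
      Finite (H2 (comapBasis Ĉ.subtype (levelS T))
        (W (comapBasis Ĉ.subtype (levelS T)) (U.subgroupOf Ĉ) Z))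

/-- **(F-H¹E)** `H¹(Ĉ; W E_T) ≅ H¹(U; E_T)` (the `T`-class group of the fixed field of `U`) is
finite. -/
def FinH1WE : Prop :=
  ∀ (T : Finset Nat.Primes) (U Ĉ : Subgroup Γ) [U.Normal], U ∈ (levelS T).sets → U ≤ Ĉ →
    Finite (H1 (comapBasis Ĉ.subtype (levelS T))
      (W (comapBasis Ĉ.subtype (levelS T)) (U.subgroupOf Ĉ) (Rep.res Ĉ.subtype (ES T))))

/-- **(tor)** every class of `H¹(Ĉ; W C_T)` is killed by an integer prime to `p`. -/
def TorWCS : Prop :=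
  ∀ (p : ℕ) [Fact p.Prime], p ≠ 2 → ∀ (T : Finset Nat.Primes), pPrime p ∈ T →
  ∀ (U Ĉ : Subgroup Γ) [U.Normal], U ∈ (levelS T).sets → U ≤ Ĉ →
  ∀ x : H1 (comapBasis Ĉ.subtype (levelS T))
      (W (comapBasis Ĉ.subtype (levelS T)) (U.subgroupOf Ĉ) (Rep.res Ĉ.subtype (CS T))),
    ∃ m : ℕ, ¬ p ∣ m ∧ m • x = 0

/-- **(onto)** `H²(Ĉ; W I_T)[p] → H²(Ĉ; W C_T)[p]` is onto. -/
def OntoW : Prop :=
  ∀ (p : ℕ) [Fact p.Prime], p ≠ 2 → ∀ (T : Finset Nat.Primes), pPrime p ∈ T →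
  ∀ (U Ĉ : Subgroup Γ) [U.Normal], U ∈ (levelS T).sets → U ≤ Ĉ →
  ∀ y : H2 (comapBasis Ĉ.subtype (levelS T))
      (W (comapBasis Ĉ.subtype (levelS T)) (U.subgroupOf Ĉ) (Rep.res Ĉ.subtype (CS T))),
    p • y = 0 →
    ∃ x : H2 (comapBasis Ĉ.subtype (levelS T))
        (W (comapBasis Ĉ.subtype (levelS T)) (U.subgroupOf Ĉ) (Rep.res Ĉ.subtype (IS T))),
      p • x = 0 ∧
      mapH2 (𝓑 := comapBasis Ĉ.subtype (levelS T))
        (Wmap (comapBasis Ĉ.subtype (levelS T)) (U.subgroupOf Ĉ)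
          (resL (A := IS T) (B := CS T) (toCS T) Ĉ)
          (resL_equivariant (A := IS T) (B := CS T) (toCS T) (toCS_ρ T) Ĉ))
        (Wmap_equivariant (comapBasis Ĉ.subtype (levelS T)) (U.subgroupOf Ĉ)
          (resL (A := IS T) (B := CS T) (toCS T) Ĉ)
          (resL_equivariant (A := IS T) (B := CS T) (toCS T) (toCS_ρ T) Ĉ)) x = y

/-- **(F-tors)** `H²(Ĉ; W I_T)[p]` is finite. -/
def FinTorsWIS : Prop :=
  ∀ (p : ℕ) [Fact p.Prime], p ≠ 2 → ∀ (T : Finset Nat.Primes), pPrime p ∈ T →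
  ∀ (U Ĉ : Subgroup Γ) [U.Normal], U ∈ (levelS T).sets → U ≤ Ĉ →
    Finite ↥(torsP p (H2 (comapBasis Ĉ.subtype (levelS T))
      (W (comapBasis Ĉ.subtype (levelS T)) (U.subgroupOf Ĉ) (Rep.res Ĉ.subtype (IS T)))))

/-- **(triv)** `H²(Ĉ; W C_T)[p]` is the trivial line (`inv : H²(U; C_T) ≅ ℚ/ℤ` is `Q`-invariant). -/
def TrivWCS : Prop :=
  ∀ (p : ℕ) [Fact p.Prime], p ≠ 2 → ∀ (T : Finset Nat.Primes), pPrime p ∈ T →
  ∀ (U Ĉ : Subgroup Γ) [U.Normal], U ∈ (levelS T).sets → U ≤ Ĉ →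
  ∀ [Fintype (↥Ĉ ⧸ U.subgroupOf Ĉ)] [Invertible (Fintype.card (↥Ĉ ⧸ U.subgroupOf Ĉ) : ZMod p)]
    (P : Type) [AddCommGroup P] [Module (ZMod p) P] [FiniteDimensional (ZMod p) P]
    (ρP : Representation (ZMod p) (↥Ĉ ⧸ U.subgroupOf Ĉ) P),
    muP ρP (torsRep p (canonRep (opH2 (comapBasis Ĉ.subtype (levelS T))
        (W (comapBasis Ĉ.subtype (levelS T)) (U.subgroupOf Ĉ) (Rep.res Ĉ.subtype (CS T)))
        (CoindStar4.star (comapBasis Ĉ.subtype (levelS T)) (U.subgroupOf Ĉ) (Rep.res Ĉ.subtype (CS T)))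
        (star_comm (comapBasis Ĉ.subtype (levelS T)) (U.subgroupOf Ĉ)
          (Rep.res Ĉ.subtype (CS T)))))) =
      muP ρP (funPerm (ZMod p) (↥Ĉ ⧸ U.subgroupOf Ĉ) PUnit.{1})

/-- **(IS-sum)** the double sum of `ISCount` is the multiplicity in `𝔽_p[XT T U]`, `Q = Ĉ ⧸ (U ∩ Ĉ)`
acting on `XT T U` through `qIncl : Q → Γ ⧸ U` (`BaseDefs4.SplitDC` for every `q ∈ T`). -/
def ISSum : Prop :=
  ∀ (p : ℕ) [Fact p.Prime] (T : Finset Nat.Primes)
    (U Ĉ : Subgroup Γ) [U.Normal], U ∈ (levelS T).sets → U ≤ Ĉ →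
  ∀ [Fintype (↥Ĉ ⧸ U.subgroupOf Ĉ)] [Invertible (Fintype.card (↥Ĉ ⧸ U.subgroupOf Ĉ) : ZMod p)]
    (P : Type) [AddCommGroup P] [Module (ZMod p) P] [FiniteDimensional (ZMod p) P]
    (ρP : Representation (ZMod p) (↥Ĉ ⧸ U.subgroupOf Ĉ) P),
    (∑ q : ↥T, ∑ᶠ w : DC (localGaloisToGlobal ((q : Nat.Primes) : ℕ)) Ĉ,
        muP ρP (funPerm (ZMod p) (↥Ĉ ⧸ U.subgroupOf Ĉ)
          (DC (jg (localGaloisToGlobal ((q : Nat.Primes) : ℕ)) Ĉ w.out) (U.subgroupOf Ĉ)))) =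
      muP ρP (@funPerm (ZMod p) _ (↥Ĉ ⧸ U.subgroupOf Ĉ) _ (XT T U)
        (MulAction.compHom (XT T U) (qIncl U Ĉ)))

/-- **(pull-H⁰)** `H⁰(Ĉ; W E_T) ≅ (E_T)^U` compatibly with the actions of `Q = Ĉ ⧸ (U ∩ Ĉ)`
(`star` on the left, `invRep T U` through `h ↦ h U` on the right), `Ĉ = pre U C`. -/
def PullH0 : Prop :=
  ∀ (T : Finset Nat.Primes) (U : Subgroup Γ) [U.Normal], U ∈ (levelS T).sets →
  ∀ (C : Subgroup (Γ ⧸ U)),
    ∃ f : ↥(W (comapBasis (pre U C).subtype (levelS T)) (U.subgroupOf (pre U C))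
            (Rep.res (pre U C).subtype (ES T))).ρ.invariants ≃+
          ↥(Representation.invariants ((ES T).ρ.comp U.subtype)),
      ∀ (h : ↥(pre U C)) (x : ↥(W (comapBasis (pre U C).subtype (levelS T))
            (U.subgroupOf (pre U C)) (Rep.res (pre U C).subtype (ES T))).ρ.invariants),
        f (opH0 (W (comapBasis (pre U C).subtype (levelS T)) (U.subgroupOf (pre U C))
              (Rep.res (pre U C).subtype (ES T)))
            (CoindStar4.star (comapBasis (pre U C).subtype (levelS T)) (U.subgroupOf (pre U C))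
              (Rep.res (pre U C).subtype (ES T)))
            (star_comm (comapBasis (pre U C).subtype (levelS T)) (U.subgroupOf (pre U C))
              (Rep.res (pre U C).subtype (ES T)))
            (QuotientGroup.mk h) x) =
          invRep T U (QuotientGroup.mk (h : Γ)) (f x)

end Fermat.Agent.W56.BaseGlue4
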