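/-
Programme W56 (target S56), chapter (EC-5), helper6: **Shapiro for `W`** = helper4's contract
`BaseContracts4.ShapW`, together with the generic transports of level cohomology it is built from.

* `trH1`, `trH2`: for a group isomorphism `e : L ≃* L'` which is a homeomorphism for the level
  bases `𝓑`, `𝓑'`, and an `e`-semilinear isomorphism of coefficients `a : A ≃ A'`, the isomorphisms
  `H^r(𝓑; A) ≃ H^r(𝓑'; A')` (`r = 1, 2`), natural in the coefficients (`trH1_natural`,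
  `trH2_natural`);
* `cofinalH1`, `cofinalH2`: the same group with two mutually cofinal bases;
* `rangeH1`, `rangeH2`: for an injective `ι : L →* G₀`,
  `H^r(comapBasis ι 𝓑₀; Rep.res ι Y) ≃ H^r(comapBasis ι.range.subtype 𝓑₀; Rep.res ι.range.subtype Y)`;
* `subOfH1`, `subOfH2`: for `V ≤ Ĉ ≤ G₀` the transport along `↥(V.subgroupOf Ĉ) ≃* ↥V`;
* `shapW : BaseContracts4.ShapW`.
-/
import Mathlib
import Fermat.Agent.W56.BaseContracts4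

set_option autoImplicit false
set_option linter.unusedSectionVars false

open CategoryTheory

namespace Fermat.Agent.W56.ShapW6

open Fermat.Agent.PT.PRO.LevelCoh28 Fermat.Agent.PT.PRO.LevelCohRes28
  Fermat.Agent.PT.PRO.SmoothCoind28 Fermat.Agent.PT.PRO.ShapiroLevel28
  Fermat.Agent.PT.GLUE.Objects21 Fermat.Agent.W56.CoindStar4 Fermat.Agent.W56.BaseContracts4
  Fermat.Agent.W56.TraceOpen8

/-! ### Transport along a group isomorphism -/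

section Transport

variable {k L L' : Type} [CommRing k] [Group L] [Group L'] (e : L ≃* L')
  {𝓑 : LevelBasis L} {𝓑' : LevelBasis L'}
  (he : IsLevelHom e.toMonoidHom 𝓑.sets 𝓑'.sets)
  (he' : IsLevelHom e.symm.toMonoidHom 𝓑'.sets 𝓑.sets)
  {A : Rep.{0} k L} {A' : Rep.{0} k L'} (a : A ≃ₗ[k] A')
  (ha : ∀ (g : L) (x : A), a (A.ρ g x) = A'.ρ (e g) (a x))

include ha in
theorem semi_fwd (g' : L') (x : A) :
    (a : A →ₗ[k] A') (A.ρ (e.symm.toMonoidHom g') x) = A'.ρ g' ((a : A →ₗ[k] A') x) := by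
  show a (A.ρ (e.symm g') x) = A'.ρ g' (a x)
  rw [ha, e.apply_symm_apply]

include ha in
theorem semi_bwd (g : L) (x' : A') :
    (a.symm : A' →ₗ[k] A) (A'.ρ (e.toMonoidHom g) x') = A.ρ g ((a.symm : A' →ₗ[k] A) x') := by
  show a.symm (A'.ρ (e g) x') = A.ρ g (a.symm x')
  apply a.injective
  rw [ha, a.apply_symm_apply, a.apply_symm_apply]

/-- Transport of `H¹` along a group isomorphism. -/
noncomputable def trH1 : H1 𝓑 A ≃ₗ[k] H1 𝓑' A' :=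
  LinearEquiv.ofLinearMap
    (ppH1 e.symm.toMonoidHom (a : A →ₗ[k] A') (semi_fwd e a ha) he')
    (ppH1 e.toMonoidHom (a.symm : A' →ₗ[k] A) (semi_bwd e a ha) he)
    (LinearMap.ext fun x => by
      obtain ⟨z, rfl⟩ := H1mk_surjective 𝓑' A' x
      rw [LinearMap.comp_apply, ppH1_mk, ppH1_mk, LinearMap.id_apply]
      congr 1
      apply Subtype.ext
      funext g
      show a (a.symm ((z : L' → A') (e (e.symm g)))) = (z : L' → A') g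
      rw [a.apply_symm_apply, e.apply_symm_apply])
    (LinearMap.ext fun x => by
      obtain ⟨z, rfl⟩ := H1mk_surjective 𝓑 A x
      rw [LinearMap.comp_apply, ppH1_mk, ppH1_mk, LinearMap.id_apply]
      congr 1
      apply Subtype.ext
      funext g
      show a.symm (a ((z : L → A) (e.symm (e g)))) = (z : L → A) g
      rw [a.symm_apply_apply, e.symm_apply_apply])

/-- Transport of `H²` along a group isomorphism. -/
noncomputable def trH2 : H2 𝓑 A ≃ₗ[k] H2 𝓑' A' :=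
  LinearEquiv.ofLinearMap
    (ppH2 e.symm.toMonoidHom (a : A →ₗ[k] A') (semi_fwd e a ha) he')
    (ppH2 e.toMonoidHom (a.symm : A' →ₗ[k] A) (semi_bwd e a ha) he)
    (LinearMap.ext fun x => by
      obtain ⟨z, rfl⟩ := H2mk_surjective 𝓑' A' x
      rw [LinearMap.comp_apply, ppH2_mk, ppH2_mk, LinearMap.id_apply]
      congr 1
      apply Subtype.ext
      funext g
      show a (a.symm ((z : L' × L' → A') (e (e.symm g.1), e (e.symm g.2)))) =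
        (z : L' × L' → A') g
      rw [a.apply_symm_apply, e.apply_symm_apply, e.apply_symm_apply])
    (LinearMap.ext fun x => by
      obtain ⟨z, rfl⟩ := H2mk_surjective 𝓑 A x
      rw [LinearMap.comp_apply, ppH2_mk, ppH2_mk, LinearMap.id_apply]
      congr 1
      apply Subtype.ext
      funext g
      show a.symm (a ((z : L × L → A) (e.symm (e g.1), e.symm (e g.2)))) = (z : L × L → A) g
      rw [a.symm_apply_apply, e.symm_apply_apply, e.symm_apply_apply])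

theorem trH1_apply (x : H1 𝓑 A) :
    trH1 e he he' a ha x =
      ppH1 e.symm.toMonoidHom (a : A →ₗ[k] A') (semi_fwd e a ha) he' x := rfl

theorem trH2_apply (x : H2 𝓑 A) :
    trH2 e he he' a ha x =
      ppH2 e.symm.toMonoidHom (a : A →ₗ[k] A') (semi_fwd e a ha) he' x := rfl

theorem trH1_symm_apply (x : H1 𝓑' A') :
    (trH1 e he he' a ha).symm x =
      ppH1 e.toMonoidHom (a.symm : A' →ₗ[k] A) (semi_bwd e a ha) he x := rfl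

theorem trH2_symm_apply (x : H2 𝓑' A') :
    (trH2 e he he' a ha).symm x =
      ppH2 e.toMonoidHom (a.symm : A' →ₗ[k] A) (semi_bwd e a ha) he x := rfl

/-- On cocycles: `trH2 [z] = [a ∘ z ∘ (e⁻¹ × e⁻¹)]`. -/
theorem trH2_mk (z : ↥(Z2 𝓑 A)) :
    trH2 e he he' a ha (H2mk 𝓑 A z) =
      H2mk 𝓑' A' (ppZ2 e.symm.toMonoidHom (a : A →ₗ[k] A') (semi_fwd e a ha) he' z) := rfl

theorem trH1_mk (z : ↥(Z1 𝓑 A)) :
    trH1 e he he' a ha (H1mk 𝓑 A z) =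
      H1mk 𝓑' A' (ppZ1 e.symm.toMonoidHom (a : A →ₗ[k] A') (semi_fwd e a ha) he' z) := rfl

variable {B : Rep.{0} k L} {B' : Rep.{0} k L'} (b : B ≃ₗ[k] B')
  (hb : ∀ (g : L) (x : B), b (B.ρ g x) = B'.ρ (e g) (b x))
  (φ : A →ₗ[k] B) (hφ : ∀ g x, φ (A.ρ g x) = B.ρ g (φ x))
  (φ' : A' →ₗ[k] B') (hφ' : ∀ g x, φ' (A'.ρ g x) = B'.ρ g (φ' x))
  (hab : ∀ x, b (φ x) = φ' (a x))

include hab in
/-- Naturality of the transport in the coefficients, degree 1. -/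
theorem trH1_natural (x : H1 𝓑 A) :
    trH1 e he he' b hb (mapH1 φ hφ x) = mapH1 φ' hφ' (trH1 e he he' a ha x) :=
  ppH1_mapH1 e.symm.toMonoidHom he' φ hφ φ' hφ' (a : A →ₗ[k] A') (semi_fwd e a ha)
    (b : B →ₗ[k] B') (semi_fwd e b hb) hab x

include hab in
/-- Naturality of the transport in the coefficients, degree 2. -/
theorem trH2_natural (x : H2 𝓑 A) :
    trH2 e he he' b hb (mapH2 φ hφ x) = mapH2 φ' hφ' (trH2 e he he' a ha x) :=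
  ppH2_mapH2 e.symm.toMonoidHom he' φ hφ φ' hφ' (a : A →ₗ[k] A') (semi_fwd e a ha)
    (b : B →ₗ[k] B') (semi_fwd e b hb) hab x

end Transport

/-! ### Two mutually cofinal bases on the same group -/

section Cofinal

variable {k G : Type} [CommRing k] [Group G] (𝓑 𝓑' : LevelBasis G)
  (h : ∀ U ∈ 𝓑'.sets, ∃ W ∈ 𝓑.sets, W ≤ U) (h' : ∀ W ∈ 𝓑.sets, ∃ U ∈ 𝓑'.sets, U ≤ W)
  (A : Rep.{0} k G)

include h in
theorem isLevelHom_refl : IsLevelHom (MulEquiv.refl G).toMonoidHom 𝓑.sets 𝓑'.sets :=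
  fun U hU => by
    obtain ⟨W, hW, hWU⟩ := h U hU
    exact ⟨W, hW, fun w hw => hWU hw⟩

include h' in
theorem isLevelHom_refl_symm : IsLevelHom (MulEquiv.refl G).symm.toMonoidHom 𝓑'.sets 𝓑.sets :=
  fun W hW => by
    obtain ⟨U, hU, hUW⟩ := h' W hW
    exact ⟨U, hU, fun u hu => hUW hu⟩

/-- `H¹` does not depend on the basis up to mutual cofinality. -/
noncomputable def cofinalH1 : H1 𝓑 A ≃ₗ[k] H1 𝓑' A :=
  trH1 (MulEquiv.refl G) (isLevelHom_refl 𝓑 𝓑' h) (isLevelHom_refl_symm 𝓑 𝓑' h')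
    (LinearEquiv.refl k A) (fun _ _ => rfl)

/-- `H²` does not depend on the basis up to mutual cofinality. -/
noncomputable def cofinalH2 : H2 𝓑 A ≃ₗ[k] H2 𝓑' A :=
  trH2 (MulEquiv.refl G) (isLevelHom_refl 𝓑 𝓑' h) (isLevelHom_refl_symm 𝓑 𝓑' h')
    (LinearEquiv.refl k A) (fun _ _ => rfl)

/-- On cocycles `cofinalH2` is the identity. -/
theorem cofinalH2_mk (z : ↥(Z2 𝓑 A)) (hz : (z : G × G → A) ∈ Z2 𝓑' A) :
    cofinalH2 𝓑 𝓑' h h' A (H2mk 𝓑 A z) = H2mk 𝓑' A ⟨(z : G × G → A), hz⟩ := rfl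

theorem cofinalH1_mk (z : ↥(Z1 𝓑 A)) (hz : (z : G → A) ∈ Z1 𝓑' A) :
    cofinalH1 𝓑 𝓑' h h' A (H1mk 𝓑 A z) = H1mk 𝓑' A ⟨(z : G → A), hz⟩ := rfl

variable {A} {B : Rep.{0} k G} (φ : A →ₗ[k] B) (hφ : ∀ g x, φ (A.ρ g x) = B.ρ g (φ x))

theorem cofinalH1_natural (x : H1 𝓑 A) :
    cofinalH1 𝓑 𝓑' h h' B (mapH1 φ hφ x) = mapH1 φ hφ (cofinalH1 𝓑 𝓑' h h' A x) :=
  trH1_natural (MulEquiv.refl G) _ _ (LinearEquiv.refl k A) (fun _ _ => rfl)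
    (LinearEquiv.refl k B) (fun _ _ => rfl) φ hφ φ hφ (fun _ => rfl) x

theorem cofinalH2_natural (x : H2 𝓑 A) :
    cofinalH2 𝓑 𝓑' h h' B (mapH2 φ hφ x) = mapH2 φ hφ (cofinalH2 𝓑 𝓑' h h' A x) :=
  trH2_natural (MulEquiv.refl G) _ _ (LinearEquiv.refl k A) (fun _ _ => rfl)
    (LinearEquiv.refl k B) (fun _ _ => rfl) φ hφ φ hφ (fun _ => rfl) x

end Cofinal

/-! ### An injective homomorphism and its range -/

section Range

variable {k L G₀ : Type} [CommRing k] [Group L] [Group G₀] (𝓑₀ : LevelBasis G₀)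
  (ι : L →* G₀) (hι : Function.Injective ι) (Y : Rep.{0} k G₀)

/-- `L ≃* ι(L)`. -/
noncomputable def eRange : L ≃* ↥ι.range := MonoidHom.ofInjective hι

theorem coe_eRange (g : L) : ((eRange ι hι g : ↥ι.range) : G₀) = ι g := rfl

theorem ι_eRange_symm (g' : ↥ι.range) : ι ((eRange ι hι).symm g') = (g' : G₀) := by
  rw [← coe_eRange ι hι, MulEquiv.apply_symm_apply]

theorem isLevelHom_eRange :
    IsLevelHom (eRange ι hι).toMonoidHom (comapBasis ι 𝓑₀).sets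
      (comapBasis ι.range.subtype 𝓑₀).sets := by
  rintro _ ⟨U, hU, rfl⟩
  exact ⟨_, ⟨U, hU, rfl⟩, fun w hw => hw⟩

theorem isLevelHom_eRange_symm :
    IsLevelHom (eRange ι hι).symm.toMonoidHom (comapBasis ι.range.subtype 𝓑₀).sets
      (comapBasis ι 𝓑₀).sets := by
  rintro _ ⟨U, hU, rfl⟩
  refine ⟨_, ⟨U, hU, rfl⟩, fun w hw => ?_⟩
  show ι ((eRange ι hι).symm w) ∈ U
  rw [ι_eRange_symm]
  exact hw

/-- `H¹(L; Y|_ι) ≃ H¹(ι(L); Y|_{ι(L)})`. -/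
noncomputable def rangeH1 :
    H1 (comapBasis ι 𝓑₀) (Rep.res ι Y) ≃ₗ[k]
      H1 (comapBasis ι.range.subtype 𝓑₀) (Rep.res ι.range.subtype Y) :=
  trH1 (A := Rep.res ι Y) (A' := Rep.res ι.range.subtype Y) (eRange ι hι)
    (isLevelHom_eRange 𝓑₀ ι hι) (isLevelHom_eRange_symm 𝓑₀ ι hι)
    (LinearEquiv.refl k Y) (fun _ _ => rfl)

/-- `H²(L; Y|_ι) ≃ H²(ι(L); Y|_{ι(L)})`. -/
noncomputable def rangeH2 :
    H2 (comapBasis ι 𝓑₀) (Rep.res ι Y) ≃ₗ[k]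
      H2 (comapBasis ι.range.subtype 𝓑₀) (Rep.res ι.range.subtype Y) :=
  trH2 (A := Rep.res ι Y) (A' := Rep.res ι.range.subtype Y) (eRange ι hι)
    (isLevelHom_eRange 𝓑₀ ι hι) (isLevelHom_eRange_symm 𝓑₀ ι hι)
    (LinearEquiv.refl k Y) (fun _ _ => rfl)

variable {Y} {Y' : Rep.{0} k G₀} (φ : Y →ₗ[k] Y') (hφ : ∀ g a, φ (Y.ρ g a) = Y'.ρ g (φ a))

/-- `φ` as a map of `L`-modules (through `ι`). -/
abbrev resι : (Rep.res ι Y) →ₗ[k] (Rep.res ι Y') := φ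

include hφ in
theorem resι_equivariant (g : L) (a : Rep.res ι Y) :
    resι ι φ ((Rep.res ι Y).ρ g a) = (Rep.res ι Y').ρ g (resι ι φ a) := hφ (ι g) a

theorem rangeH1_natural (x : H1 (comapBasis ι 𝓑₀) (Rep.res ι Y)) :
    rangeH1 𝓑₀ ι hι Y' (mapH1 (resι ι φ) (resι_equivariant ι φ hφ) x) =
      mapH1 (resι ι.range.subtype φ) (resι_equivariant ι.range.subtype φ hφ)
        (rangeH1 𝓑₀ ι hι Y x) :=
  trH1_natural (A := Rep.res ι Y) (A' := Rep.res ι.range.subtype Y)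
    (B := Rep.res ι Y') (B' := Rep.res ι.range.subtype Y') (eRange ι hι) _ _
    (LinearEquiv.refl k Y) (fun _ _ => rfl) (LinearEquiv.refl k Y') (fun _ _ => rfl)
    (resι ι φ) (resι_equivariant ι φ hφ) (resι ι.range.subtype φ)
    (resι_equivariant ι.range.subtype φ hφ) (fun _ => rfl) x

theorem rangeH2_natural (x : H2 (comapBasis ι 𝓑₀) (Rep.res ι Y)) :
    rangeH2 𝓑₀ ι hι Y' (mapH2 (resι ι φ) (resι_equivariant ι φ hφ) x) =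
      mapH2 (resι ι.range.subtype φ) (resι_equivariant ι.range.subtype φ hφ)
        (rangeH2 𝓑₀ ι hι Y x) :=
  trH2_natural (A := Rep.res ι Y) (A' := Rep.res ι.range.subtype Y)
    (B := Rep.res ι Y') (B' := Rep.res ι.range.subtype Y') (eRange ι hι) _ _
    (LinearEquiv.refl k Y) (fun _ _ => rfl) (LinearEquiv.refl k Y') (fun _ _ => rfl)
    (resι ι φ) (resι_equivariant ι φ hφ) (resι ι.range.subtype φ)
    (resι_equivariant ι.range.subtype φ hφ) (fun _ => rfl) x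

end Range

/-! ### `V ≤ Ĉ ≤ G₀`: the subgroup `V.subgroupOf Ĉ` of `↥Ĉ` against `V` -/

section SubOf

variable {k G₀ : Type} [CommRing k] [Group G₀] (𝓑₀ : LevelBasis G₀) (Ĉ V : Subgroup G₀)
  (hVC : V ≤ Ĉ) (Y : Rep.{0} k G₀)

/-- `↥(V.subgroupOf Ĉ) ≃* ↥V`. -/
noncomputable def eSub : ↥(V.subgroupOf Ĉ) ≃* ↥V := Subgroup.subgroupOfEquivOfLe hVC

theorem coe_eSub (h : ↥(V.subgroupOf Ĉ)) : ((eSub Ĉ V hVC h : ↥V) : G₀) = ((h : ↥Ĉ) : G₀) := rfl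

theorem coe_eSub_symm (v : ↥V) : ((((eSub Ĉ V hVC).symm v : ↥(V.subgroupOf Ĉ)) : ↥Ĉ) : G₀) = v :=
  rfl

theorem isLevelHom_eSub :
    IsLevelHom (eSub Ĉ V hVC).toMonoidHom
      (comapBasis (V.subgroupOf Ĉ).subtype (comapBasis Ĉ.subtype 𝓑₀)).sets
      (comapBasis V.subtype 𝓑₀).sets := by
  rintro _ ⟨U, hU, rfl⟩
  exact ⟨_, ⟨_, ⟨U, hU, rfl⟩, rfl⟩, fun w hw => hw⟩

theorem isLevelHom_eSub_symm :
    IsLevelHom (eSub Ĉ V hVC).symm.toMonoidHom (comapBasis V.subtype 𝓑₀).sets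
      (comapBasis (V.subgroupOf Ĉ).subtype (comapBasis Ĉ.subtype 𝓑₀)).sets := by
  rintro _ ⟨_, ⟨U, hU, rfl⟩, rfl⟩
  exact ⟨_, ⟨U, hU, rfl⟩, fun w hw => hw⟩

/-- `H¹(V.subgroupOf Ĉ; (Y|_Ĉ)|_…) ≃ H¹(V; Y|_V)`. -/
noncomputable def subOfH1 :
    H1 (comapBasis (V.subgroupOf Ĉ).subtype (comapBasis Ĉ.subtype 𝓑₀))
        (resH (V.subgroupOf Ĉ) (Rep.res Ĉ.subtype Y)) ≃ₗ[k]
      H1 (comapBasis V.subtype 𝓑₀) (Rep.res V.subtype Y) :=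
  trH1 (A := resH (V.subgroupOf Ĉ) (Rep.res Ĉ.subtype Y)) (A' := Rep.res V.subtype Y)
    (eSub Ĉ V hVC) (isLevelHom_eSub 𝓑₀ Ĉ V hVC) (isLevelHom_eSub_symm 𝓑₀ Ĉ V hVC)
    (LinearEquiv.refl k Y) (fun _ _ => rfl)

/-- `H²(V.subgroupOf Ĉ; (Y|_Ĉ)|_…) ≃ H²(V; Y|_V)`. -/
noncomputable def subOfH2 :
    H2 (comapBasis (V.subgroupOf Ĉ).subtype (comapBasis Ĉ.subtype 𝓑₀))
        (resH (V.subgroupOf Ĉ) (Rep.res Ĉ.subtype Y)) ≃ₗ[k]
      H2 (comapBasis V.subtype 𝓑₀) (Rep.res V.subtype Y) :=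
  trH2 (A := resH (V.subgroupOf Ĉ) (Rep.res Ĉ.subtype Y)) (A' := Rep.res V.subtype Y)
    (eSub Ĉ V hVC) (isLevelHom_eSub 𝓑₀ Ĉ V hVC) (isLevelHom_eSub_symm 𝓑₀ Ĉ V hVC)
    (LinearEquiv.refl k Y) (fun _ _ => rfl)

theorem isDiscrete_resH (hY : IsDiscrete 𝓑₀.sets Y) :
    IsDiscrete (comapBasis (V.subgroupOf Ĉ).subtype (comapBasis Ĉ.subtype 𝓑₀)).sets
      (resH (V.subgroupOf Ĉ) (Rep.res Ĉ.subtype Y)) := by
  intro a
  obtain ⟨U, hU, h⟩ := hY a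
  exact ⟨_, ⟨_, ⟨U, hU, rfl⟩, rfl⟩, fun s hs => h _ hs⟩

/-- **Shapiro for `W`, degree 1**: `H¹(Ĉ; W(Y|_Ĉ)) ≃ H¹(V; Y|_V)`. -/
noncomputable def shW1 (hY : IsDiscrete 𝓑₀.sets Y) :
    H1 (comapBasis Ĉ.subtype 𝓑₀)
        (W (comapBasis Ĉ.subtype 𝓑₀) (V.subgroupOf Ĉ) (Rep.res Ĉ.subtype Y)) ≃ₗ[k]
      H1 (comapBasis V.subtype 𝓑₀) (Rep.res V.subtype Y) :=
  (sh1Equiv (V.subgroupOf Ĉ).subtype (comapBasis Ĉ.subtype 𝓑₀)
      (comapBasis (V.subgroupOf Ĉ).subtype (comapBasis Ĉ.subtype 𝓑₀))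
      (isLevelHom_subtype (comapBasis Ĉ.subtype 𝓑₀) (V.subgroupOf Ĉ))
      (hind_subtype (comapBasis Ĉ.subtype 𝓑₀) (V.subgroupOf Ĉ))
      (resH (V.subgroupOf Ĉ) (Rep.res Ĉ.subtype Y)) (isDiscrete_resH 𝓑₀ Ĉ V Y hY)).trans
    (subOfH1 𝓑₀ Ĉ V hVC Y)

/-- **Shapiro for `W`, degree 2**: `H²(Ĉ; W(Y|_Ĉ)) ≃ H²(V; Y|_V)`. -/
noncomputable def shW2 (hY : IsDiscrete 𝓑₀.sets Y) :
    H2 (comapBasis Ĉ.subtype 𝓑₀)
        (W (comapBasis Ĉ.subtype 𝓑₀) (V.subgroupOf Ĉ) (Rep.res Ĉ.subtype Y)) ≃ₗ[k]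
      H2 (comapBasis V.subtype 𝓑₀) (Rep.res V.subtype Y) :=
  (sh2Equiv (V.subgroupOf Ĉ).subtype (comapBasis Ĉ.subtype 𝓑₀)
      (comapBasis (V.subgroupOf Ĉ).subtype (comapBasis Ĉ.subtype 𝓑₀))
      (isLevelHom_subtype (comapBasis Ĉ.subtype 𝓑₀) (V.subgroupOf Ĉ))
      (hind_subtype (comapBasis Ĉ.subtype 𝓑₀) (V.subgroupOf Ĉ))
      (resH (V.subgroupOf Ĉ) (Rep.res Ĉ.subtype Y)) (isDiscrete_resH 𝓑₀ Ĉ V Y hY)).trans
    (subOfH2 𝓑₀ Ĉ V hVC Y)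

variable {Y} {Y' : Rep.{0} k G₀} (φ : Y →ₗ[k] Y') (hφ : ∀ g a, φ (Y.ρ g a) = Y'.ρ g (φ a))

/-- Naturality of `shW1`. -/
theorem shW1_natural (hY : IsDiscrete 𝓑₀.sets Y) (hY' : IsDiscrete 𝓑₀.sets Y')
    (x : H1 (comapBasis Ĉ.subtype 𝓑₀)
      (W (comapBasis Ĉ.subtype 𝓑₀) (V.subgroupOf Ĉ) (Rep.res Ĉ.subtype Y))) :
    shW1 𝓑₀ Ĉ V hVC Y' hY' (mapH1 (Wmap (comapBasis Ĉ.subtype 𝓑₀) (V.subgroupOf Ĉ)
        (resL (A := Y) (B := Y') φ Ĉ) (resL_equivariant (A := Y) (B := Y') φ hφ Ĉ))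
        (Wmap_equivariant (comapBasis Ĉ.subtype 𝓑₀) (V.subgroupOf Ĉ)
          (resL (A := Y) (B := Y') φ Ĉ) (resL_equivariant (A := Y) (B := Y') φ hφ Ĉ)) x) =
      mapH1 (resL (A := Y) (B := Y') φ V) (resL_equivariant (A := Y) (B := Y') φ hφ V)
        (shW1 𝓑₀ Ĉ V hVC Y hY x) := by
  have h1 := sh1_natural (V.subgroupOf Ĉ).subtype (comapBasis Ĉ.subtype 𝓑₀)
    (comapBasis (V.subgroupOf Ĉ).subtype (comapBasis Ĉ.subtype 𝓑₀))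
    (isLevelHom_subtype (comapBasis Ĉ.subtype 𝓑₀) (V.subgroupOf Ĉ))
    (resH (V.subgroupOf Ĉ) (Rep.res Ĉ.subtype Y))
    (Y := resH (V.subgroupOf Ĉ) (Rep.res Ĉ.subtype Y'))
    (resL (A := Rep.res Ĉ.subtype Y) (B := Rep.res Ĉ.subtype Y') (resL (A := Y) (B := Y') φ Ĉ)
      (V.subgroupOf Ĉ))
    (resL_equivariant (A := Rep.res Ĉ.subtype Y) (B := Rep.res Ĉ.subtype Y')
      (resL (A := Y) (B := Y') φ Ĉ) (resL_equivariant (A := Y) (B := Y') φ hφ Ĉ)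
      (V.subgroupOf Ĉ)) x
  show subOfH1 𝓑₀ Ĉ V hVC Y' (sh1 _ _ _ _ _ _) = mapH1 _ _ (subOfH1 𝓑₀ Ĉ V hVC Y (sh1 _ _ _ _ _ x))
  erw [h1]
  exact trH1_natural (A := resH (V.subgroupOf Ĉ) (Rep.res Ĉ.subtype Y))
    (A' := Rep.res V.subtype Y) (B := resH (V.subgroupOf Ĉ) (Rep.res Ĉ.subtype Y'))
    (B' := Rep.res V.subtype Y') (eSub Ĉ V hVC) _ _
    (LinearEquiv.refl k Y) (fun _ _ => rfl) (LinearEquiv.refl k Y') (fun _ _ => rfl)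
    _ _ _ _ (fun _ => rfl) _

/-- Naturality of `shW2`. -/
theorem shW2_natural (hY : IsDiscrete 𝓑₀.sets Y) (hY' : IsDiscrete 𝓑₀.sets Y')
    (x : H2 (comapBasis Ĉ.subtype 𝓑₀)
      (W (comapBasis Ĉ.subtype 𝓑₀) (V.subgroupOf Ĉ) (Rep.res Ĉ.subtype Y))) :
    shW2 𝓑₀ Ĉ V hVC Y' hY' (mapH2 (Wmap (comapBasis Ĉ.subtype 𝓑₀) (V.subgroupOf Ĉ)
        (resL (A := Y) (B := Y') φ Ĉ) (resL_equivariant (A := Y) (B := Y') φ hφ Ĉ))
        (Wmap_equivariant (comapBasis Ĉ.subtype 𝓑₀) (V.subgroupOf Ĉ)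
          (resL (A := Y) (B := Y') φ Ĉ) (resL_equivariant (A := Y) (B := Y') φ hφ Ĉ)) x) =
      mapH2 (resL (A := Y) (B := Y') φ V) (resL_equivariant (A := Y) (B := Y') φ hφ V)
        (shW2 𝓑₀ Ĉ V hVC Y hY x) := by
  have h1 := sh2_natural (V.subgroupOf Ĉ).subtype (comapBasis Ĉ.subtype 𝓑₀)
    (comapBasis (V.subgroupOf Ĉ).subtype (comapBasis Ĉ.subtype 𝓑₀))
    (isLevelHom_subtype (comapBasis Ĉ.subtype 𝓑₀) (V.subgroupOf Ĉ))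
    (resH (V.subgroupOf Ĉ) (Rep.res Ĉ.subtype Y))
    (Y := resH (V.subgroupOf Ĉ) (Rep.res Ĉ.subtype Y'))
    (resL (A := Rep.res Ĉ.subtype Y) (B := Rep.res Ĉ.subtype Y') (resL (A := Y) (B := Y') φ Ĉ)
      (V.subgroupOf Ĉ))
    (resL_equivariant (A := Rep.res Ĉ.subtype Y) (B := Rep.res Ĉ.subtype Y')
      (resL (A := Y) (B := Y') φ Ĉ) (resL_equivariant (A := Y) (B := Y') φ hφ Ĉ)
      (V.subgroupOf Ĉ)) x
  show subOfH2 𝓑₀ Ĉ V hVC Y' (sh2 _ _ _ _ _ _) = mapH2 _ _ (subOfH2 𝓑₀ Ĉ V hVC Y (sh2 _ _ _ _ _ x))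
  erw [h1]
  exact trH2_natural (A := resH (V.subgroupOf Ĉ) (Rep.res Ĉ.subtype Y))
    (A' := Rep.res V.subtype Y) (B := resH (V.subgroupOf Ĉ) (Rep.res Ĉ.subtype Y'))
    (B' := Rep.res V.subtype Y') (eSub Ĉ V hVC) _ _
    (LinearEquiv.refl k Y) (fun _ _ => rfl) (LinearEquiv.refl k Y') (fun _ _ => rfl)
    _ _ _ _ (fun _ => rfl) _

end SubOf

/-- **`BaseContracts4.ShapW`.** -/
theorem shapW : BaseContracts4.ShapW := by
  intro k G₀ _ _ 𝓑₀ Ĉ V hVC _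
  exact ⟨fun Y hY => shW1 𝓑₀ Ĉ V hVC Y hY, fun Y hY => shW2 𝓑₀ Ĉ V hVC Y hY,
    fun Y Y' hY hY' φ hφ x => shW1_natural 𝓑₀ Ĉ V hVC φ hφ hY hY' x,
    fun Y Y' hY hY' φ hφ x => shW2_natural 𝓑₀ Ĉ V hVC φ hφ hY hY' x⟩

end Fermat.Agent.W56.ShapW6
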