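/-
Programme W56 (target S56), stage 2, chapter (EC-5), helper4: **the Euler characteristic of a module
of a `p′`-quotient through `μ_p`**.

`G` a group with level basis `𝓑`, `H ◁ G` open, `Q = G ⧸ H` finite of order prime to `p`,
`ω : G →* 𝔽_pˣ` trivial on `H`, `Z = 𝔽_p(ω)` ("`μ_p`"), `N` a finite `𝔽_p[Q]`-module inflated to `G`.
With `P = N^∨(ω) = Hom(N, 𝔽_p(ω))` (`dualTwQ`), `N ≅ Hom(P, Z)` and (D) (`CoindStar4`) gives

`χ(G, N) = μ_P(H⁰(G;W Z)) − μ_P(H¹(G;W Z)) + μ_P(H²(G;W Z))`      (`chiLev_eq_muP_W`).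
-/
import Mathlib
import Fermat.Agent.W56.CoindStar4
import Fermat.Agent.W56.IntRes4
import Fermat.Agent.W56.ChiArch4

set_option autoImplicit false
set_option linter.unusedSectionVars false
set_option linter.style.haveILetI false

open CategoryTheory groupCohomology

namespace Fermat.Agent.W56.TwistW4

open Fermat.Agent.PT.PRO Fermat.Agent.PT.PRO.LevelCoh28 Fermat.Agent.PT.PRO.LevelCohRes28
  Fermat.Agent.W56.IntRes4 Fermat.Agent.W56.MuP4 Fermat.Agent.W56.LinFun4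
  Fermat.Agent.W56.CoindStar4 Fermat.Agent.W56.ChiLev4 Fermat.Agent.W56.ChiArch4

variable {G : Type} [Group G] (p : ℕ) [Fact p.Prime]

/-- `𝔽_p(ω)`: the one-dimensional representation with character `ω`. -/
def omegaRep4 (ω : G →* (ZMod p)ˣ) : Representation (ZMod p) G (ZMod p) where
  toFun g := ((ω g : (ZMod p)ˣ) : ZMod p) • LinearMap.id
  map_one' := by
    rw [map_one, Units.val_one, one_smul]; rfl
  map_mul' g g' := by
    refine LinearMap.ext fun z => ?_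
    show ((ω (g * g') : (ZMod p)ˣ) : ZMod p) • z =
      ((ω g : (ZMod p)ˣ) : ZMod p) • (((ω g' : (ZMod p)ˣ) : ZMod p) • z)
    rw [map_mul, Units.val_mul, mul_smul]

theorem omegaRep4_apply (ω : G →* (ZMod p)ˣ) (g : G) (z : ZMod p) :
    omegaRep4 p ω g z = ((ω g : (ZMod p)ˣ) : ZMod p) * z := rfl

/-- `μ_p` as an `𝔽_p[G]`-module. -/
noncomputable def muRep (ω : G →* (ZMod p)ˣ) : Rep.{0} (ZMod p) G := Rep.of (omegaRep4 p ω)

theorem muRep_ρ (ω : G →* (ZMod p)ˣ) (g : G) (z : ZMod p) :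
    (muRep p ω).ρ g z = (((ω g : (ZMod p)ˣ) : ZMod p) * z : ZMod p) := rfl

theorem isDiscrete_muRep (𝓑 : LevelBasis G) (ω : G →* (ZMod p)ˣ)
    (hω : ∃ V ∈ 𝓑.sets, ∀ v ∈ V, ω v = 1) : IsDiscrete 𝓑.sets (muRep p ω) := by
  intro z
  obtain ⟨V, hV, h⟩ := hω
  refine ⟨V, hV, fun s hs => ?_⟩
  have e : ∀ z' : ZMod p, (muRep p ω).ρ s z' = z' := fun z' => by
    rw [muRep_ρ, h s hs, Units.val_one, one_mul]
  exact e z

section Dual

variable {Q : Type*} [Group Q] {N : Type*} [AddCommGroup N] [Module (ZMod p) N]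

/-- `N^∨(ω̄) = Hom(N, 𝔽_p(ω̄))` with the conjugation action: `q • f = ω̄(q) · f ∘ q⁻¹`. -/
def dualTwQ (ω' : Q →* (ZMod p)ˣ) (ρN : Representation (ZMod p) Q N) :
    Representation (ZMod p) Q (Module.Dual (ZMod p) N) where
  toFun q :=
    { toFun := fun f => ((ω' q : (ZMod p)ˣ) : ZMod p) • f.comp (ρN q⁻¹)
      map_add' := fun f f' => by
        rw [LinearMap.add_comp, smul_add]
      map_smul' := fun r f => by
        rw [LinearMap.smul_comp, smul_comm]; rfl }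
  map_one' := by
    refine LinearMap.ext fun f => LinearMap.ext fun n => ?_
    show (((ω' 1 : (ZMod p)ˣ) : ZMod p) • f.comp (ρN 1⁻¹)) n = f n
    rw [map_one, Units.val_one, one_smul, inv_one, map_one]; rfl
  map_mul' q q' := by
    refine LinearMap.ext fun f => LinearMap.ext fun n => ?_
    show (((ω' (q * q') : (ZMod p)ˣ) : ZMod p) • f.comp (ρN (q * q')⁻¹)) n =
      (((ω' q : (ZMod p)ˣ) : ZMod p) •
        (((ω' q' : (ZMod p)ˣ) : ZMod p) • f.comp (ρN q'⁻¹)).comp (ρN q⁻¹)) n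
    rw [map_mul, Units.val_mul, mul_inv_rev, map_mul]
    simp only [LinearMap.smul_apply, LinearMap.comp_apply, Module.End.mul_apply, smul_eq_mul,
      mul_assoc]

theorem dualTwQ_apply (ω' : Q →* (ZMod p)ˣ) (ρN : Representation (ZMod p) Q N) (q : Q)
    (f : Module.Dual (ZMod p) N) (n : N) :
    dualTwQ p ω' ρN q f n = ((ω' q : (ZMod p)ˣ) : ZMod p) * f (ρN q⁻¹ n) := rfl

end Dual

variable (𝓑 : LevelBasis G) (H : Subgroup G) [hH : H.Normal]
  (ω : G →* (ZMod p)ˣ) (hωH : ∀ h ∈ H, ω h = 1)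
  (N : Type) [AddCommGroup N] [Module (ZMod p) N] [Finite N]
  (ρN : Representation (ZMod p) (G ⧸ H) N)

include hωH in
theorem omega_le_ker : H ≤ ω.ker := fun h hh => hωH h hh

/-- `ω` on `G ⧸ H`. -/
def omegaBar : (G ⧸ H) →* (ZMod p)ˣ := QuotientGroup.lift H ω (omega_le_ker p H ω hωH)

theorem omegaBar_mk (g : G) : omegaBar p H ω hωH (QuotientGroup.mk g) = ω g := rfl

/-- `N` inflated to `G`. -/
noncomputable def inflQ : Rep.{0} (ZMod p) G := Rep.of (ρN.comp (QuotientGroup.mk' H))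

theorem inflQ_ρ (g : G) (n : inflQ p H N ρN) :
    (inflQ p H N ρN).ρ g n = ρN (QuotientGroup.mk g) n := rfl

/-- The evaluation `N → Hom(N^∨, 𝔽_p)`, as a map into `conjRep`. -/
noncomputable def evN : inflQ p H N ρN →ₗ[ZMod p]
    conjRep H (muRep p ω) (Module.Dual (ZMod p) N) (dualTwQ p (omegaBar p H ω hωH) ρN) :=
  Module.Dual.eval (ZMod p) N

theorem evN_apply (n : inflQ p H N ρN) (f : Module.Dual (ZMod p) N) :
    cjEquiv H (muRep p ω) (Module.Dual (ZMod p) N) (dualTwQ p (omegaBar p H ω hωH) ρN)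
      (evN p H ω hωH N ρN n) f = f n := rfl

theorem evN_equivariant (g : G) (n : inflQ p H N ρN) :
    evN p H ω hωH N ρN ((inflQ p H N ρN).ρ g n) =
      (conjRep H (muRep p ω) (Module.Dual (ZMod p) N) (dualTwQ p (omegaBar p H ω hωH) ρN)).ρ g
        (evN p H ω hωH N ρN n) := by
  apply (cjEquiv H (muRep p ω) (Module.Dual (ZMod p) N)
    (dualTwQ p (omegaBar p H ω hωH) ρN)).injective
  refine LinearMap.ext fun f => ?_
  rw [cjEquiv_ρ, evN_apply, evN_apply]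
  have h1 : ((ω g : (ZMod p)ˣ) : ZMod p) * ((ω g⁻¹ : (ZMod p)ˣ) : ZMod p) = 1 := by
    rw [← Units.val_mul, ← map_mul, mul_inv_cancel, map_one, Units.val_one]
  show f (ρN (QuotientGroup.mk g) n) =
    ((ω g : (ZMod p)ˣ) : ZMod p) *
      (((omegaBar p H ω hωH (QuotientGroup.mk g)⁻¹ : (ZMod p)ˣ) : ZMod p) *
        f (ρN ((QuotientGroup.mk g)⁻¹)⁻¹ n))
  rw [inv_inv, ← QuotientGroup.mk_inv, omegaBar_mk, ← mul_assoc, h1, one_mul]

theorem evN_bijective : Function.Bijective (evN p H ω hωH N ρN) := by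
  haveI : Module.Finite (ZMod p) N := Module.Finite.of_finite
  exact (Module.evalEquiv (ZMod p) N).bijective

variable (hHo : ∃ V ∈ 𝓑.sets, V ≤ H)
  [Fintype (G ⧸ H)] [Invertible (Fintype.card (G ⧸ H) : ZMod p)]

include hωH hHo in
theorem isDiscrete_muRep_of : IsDiscrete 𝓑.sets (muRep p ω) := by
  obtain ⟨V, hV, hVH⟩ := hHo
  exact isDiscrete_muRep p 𝓑 ω ⟨V, hV, fun v hv => hωH v (hVH hv)⟩

include hHo in
/-- **`χ(G, N)` through `μ_p`**: for a finite `𝔽_p[G ⧸ H]`-module `N` (`|G ⧸ H|` prime to `p`,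
`ω` trivial on `H`), with `P = N^∨(ω)`:
`χ(G, N) = μ_P(H⁰(G; W μ_p)) − μ_P(H¹(G; W μ_p)) + μ_P(H²(G; W μ_p))`. -/
theorem chiLev_eq_muP_W :
    chiLev 𝓑 (inflQ p H N ρN) =
      (muP (dualTwQ p (omegaBar p H ω hωH) ρN)
          (opH0 (W 𝓑 H (muRep p ω)) (star 𝓑 H (muRep p ω)) (star_comm 𝓑 H (muRep p ω))) : ℤ) -
        muP (dualTwQ p (omegaBar p H ω hωH) ρN)
          (opH1 𝓑 (W 𝓑 H (muRep p ω)) (star 𝓑 H (muRep p ω)) (star_comm 𝓑 H (muRep p ω))) +
        muP (dualTwQ p (omegaBar p H ω hωH) ρN)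
          (opH2 𝓑 (W 𝓑 H (muRep p ω)) (star 𝓑 H (muRep p ω)) (star_comm 𝓑 H (muRep p ω))) := by
  haveI : Module.Finite (ZMod p) N := Module.Finite.of_finite
  haveI : FiniteDimensional (ZMod p) (Module.Dual (ZMod p) N) := inferInstance
  have hZ := isDiscrete_muRep_of p 𝓑 H ω hωH hHo
  rw [chiLev_congr (𝓑 := 𝓑) (evN p H ω hωH N ρN) (evN_equivariant p H ω hωH N ρN)
    (evN_bijective p H ω hωH N ρN)]
  have h0 := finrank_conjRep_eq_muP 𝓑 H (muRep p ω) hZ (Module.Dual (ZMod p) N)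
    (dualTwQ p (omegaBar p H ω hωH) ρN) (h0Fun (k := ZMod p) (G := G)) hHo
  have h1 := finrank_conjRep_eq_muP 𝓑 H (muRep p ω) hZ (Module.Dual (ZMod p) N)
    (dualTwQ p (omegaBar p H ω hωH) ρN) (h1Fun 𝓑) hHo
  have h2 := finrank_conjRep_eq_muP 𝓑 H (muRep p ω) hZ (Module.Dual (ZMod p) N)
    (dualTwQ p (omegaBar p H ω hωH) ρN) (h2Fun 𝓑) hHo
  unfold chiLev
  have e0 : Module.finrank (ZMod p) ↥(conjRep H (muRep p ω) (Module.Dual (ZMod p) N)
      (dualTwQ p (omegaBar p H ω hωH) ρN)).ρ.invariants =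
      muP (dualTwQ p (omegaBar p H ω hωH) ρN)
        (opH0 (W 𝓑 H (muRep p ω)) (star 𝓑 H (muRep p ω)) (star_comm 𝓑 H (muRep p ω))) := h0
  have e1 : Module.finrank (ZMod p) (H1 𝓑 (conjRep H (muRep p ω) (Module.Dual (ZMod p) N)
      (dualTwQ p (omegaBar p H ω hωH) ρN))) =
      muP (dualTwQ p (omegaBar p H ω hωH) ρN)
        (opH1 𝓑 (W 𝓑 H (muRep p ω)) (star 𝓑 H (muRep p ω)) (star_comm 𝓑 H (muRep p ω))) := h1
  have e2 : Module.finrank (ZMod p) (H2 𝓑 (conjRep H (muRep p ω) (Module.Dual (ZMod p) N)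
      (dualTwQ p (omegaBar p H ω hωH) ρN))) =
      muP (dualTwQ p (omegaBar p H ω hωH) ρN)
        (opH2 𝓑 (W 𝓑 H (muRep p ω)) (star 𝓑 H (muRep p ω)) (star_comm 𝓑 H (muRep p ω))) := h2
  rw [e0, e1, e2]

end Fermat.Agent.W56.TwistW4
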