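/-
Programme W56 (target S56), stage 2, chapter (EC-5), helper4: **(F-W) for restricted modules** (a
spare for `BaseGlue4.FinW`, which is only used for `Z = μ_p|_Ĉ`).

For a finite discrete `𝔽_p[G_T]`-module `Y` (`p` odd, `p ∈ T`), `U ≤ Ĉ ≤ Γ`, `U` a level of `G_T`:
`H¹, H²(Ĉ; W(Y|_Ĉ))` are finite (`finW_res`), by Shapiro for `W` (`ShapW6.shW1/2`), Shapiro up to `Γ`
(`ShapiroLevel28.sh1Equiv/sh2Equiv` at `U.subtype`), the finiteness of a module coinduced from a
subgroup of finite index (`finite_scoind_subtype`) and `FinH1g0.finite_H1g`, `FinH2g4.finiteH2p`.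
-/
import Mathlib
import Fermat.Agent.W56.BaseGlue4
import Fermat.Agent.W56.ShapW6
import Fermat.Agent.W56.FinH1g0
import Fermat.Agent.W56.FinH2g4
import Fermat.Agent.W56.TwistW4

set_option autoImplicit false
set_option linter.unusedSectionVars false
set_option linter.style.haveILetI false

open CategoryTheory ExtCitation

namespace Fermat.Agent.W56.FinWres4

open Fermat.Agent.PT.PRO Fermat.Agent.PT.BR Fermat.Agent.PT.PRO.LevelCoh28
  Fermat.Agent.PT.PRO.LevelCohRes28 Fermat.Agent.PT.PRO.SmoothCoind28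
  Fermat.Agent.PT.PRO.ShapiroLevel28
  Fermat.Agent.PT.GLUE Fermat.Agent.PT.GLUE.Objects21
  Fermat.Agent.W56.CoindStar4 Fermat.Agent.W56.TraceOpen8 Fermat.Agent.W56.TwistW4

local notation "Γ" => (AlgebraicClosure ℚ ≃ₐ[ℚ] AlgebraicClosure ℚ)

/-! ### Finiteness of a module coinduced from a subgroup of finite index -/

section FinCoind

variable {k G : Type} [CommRing k] [Group G] (𝓑 : LevelBasis G) (V : Subgroup G)
  (A : Rep.{0} k ↥V)

theorem finite_scoind_subtype [Finite (G ⧸ V)] [Finite A] : Finite (scoind V.subtype 𝓑 A) := by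
  let Ψ : scoind V.subtype 𝓑 A → (G ⧸ V → A) := fun f x => f.1 (x.out)⁻¹
  refine Finite.of_injective Ψ fun f f' h => Subtype.ext (funext fun g => ?_)
  have hx : ((QuotientGroup.mk g⁻¹ : G ⧸ V).out)⁻¹ * g⁻¹ ∈ V :=
    QuotientGroup.leftRel_apply.mp (Quotient.exact' (QuotientGroup.out_eq' _))
  have hg : g = V.subtype ⟨_, V.inv_mem hx⟩ * ((QuotientGroup.mk g⁻¹ : G ⧸ V).out)⁻¹ := by
    show g = (((QuotientGroup.mk g⁻¹ : G ⧸ V).out)⁻¹ * g⁻¹)⁻¹ * ((QuotientGroup.mk g⁻¹ : G ⧸ V).out)⁻¹
    group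
  have h1 := congrFun h (QuotientGroup.mk g⁻¹ : G ⧸ V)
  rw [hg, f.2.1, f'.2.1]
  exact congrArg _ h1

end FinCoind

/-! ### `H¹, H²` of `W(Y|_Ĉ)` for a finite discrete `𝔽_p[G_T]`-module `Y` -/

section Res

variable (p : ℕ) [Fact p.Prime] (hp2 : p ≠ 2) (T : Finset Nat.Primes) (hpT : pPrime p ∈ T)
  (U Ĉ : Subgroup Γ) (hU : U ∈ (levelS T).sets) (hUC : U ≤ Ĉ)
  (Y : Rep.{0} (ZMod p) Γ) [Finite Y] (hY : IsDiscrete (levelS T).sets Y)

include hU in
theorem finite_quot : Finite (Γ ⧸ U) := by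
  have : U.FiniteIndex := (levelS T).isBasis.finiteIndex U hU
  exact Subgroup.finite_quotient_of_finiteIndex

include hpT hU hY in
/-- `H¹(U; Y|_U)` is finite. -/
theorem finite_H1_res :
    Finite (H1 (comapBasis U.subtype (levelS T)) (Rep.res U.subtype Y)) := by
  haveI := finite_quot T U hU
  haveI : Finite (Rep.res U.subtype Y) := inferInstanceAs (Finite Y)
  haveI : Finite (scoind U.subtype (levelS T) (Rep.res U.subtype Y)) :=
    finite_scoind_subtype (levelS T) U (Rep.res U.subtype Y)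
  haveI : Module.Finite (ZMod p) (scoind U.subtype (levelS T) (Rep.res U.subtype Y)) :=
    Module.Finite.of_finite
  have hM : IsDiscrete (LevelBridge13.globalBasis T).sets
      (scoind U.subtype (levelS T) (Rep.res U.subtype Y)) := by
    rw [BasisCompare13.globalBasis_eq]
    exact isDiscrete_scoind U.subtype (levelS T) _
  have h1 := FinH1g0.finite_H1g (k := ZMod p) (p := p) T hpT
    (scoind U.subtype (levelS T) (Rep.res U.subtype Y)) hM
  rw [Defs9.H1g, BasisCompare13.globalBasis_eq] at h1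
  exact Finite.of_equiv _ (sh1Equiv U.subtype (levelS T) (comapBasis U.subtype (levelS T))
    (isLevelHom_subtype (levelS T) U) (hind_subtype (levelS T) U) (Rep.res U.subtype Y)
    (isDiscrete_resV (levelS T) Y U hY)).toEquiv

include hp2 hpT hU hY in
/-- `H²(U; Y|_U)` is finite. -/
theorem finite_H2_res :
    Finite (H2 (comapBasis U.subtype (levelS T)) (Rep.res U.subtype Y)) := by
  haveI := finite_quot T U hU
  haveI : Finite (Rep.res U.subtype Y) := inferInstanceAs (Finite Y)
  haveI : Finite (scoind U.subtype (levelS T) (Rep.res U.subtype Y)) :=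
    finite_scoind_subtype (levelS T) U (Rep.res U.subtype Y)
  have hM : IsDiscrete (LevelBridge13.globalBasis T).sets
      (scoind U.subtype (levelS T) (Rep.res U.subtype Y)) := by
    rw [BasisCompare13.globalBasis_eq]
    exact isDiscrete_scoind U.subtype (levelS T) _
  have h2 := FinH2g4.finiteH2p p hp2 T hpT
    (scoind U.subtype (levelS T) (Rep.res U.subtype Y)) hM
  rw [GWCount4.H2g, BasisCompare13.globalBasis_eq] at h2
  exact Finite.of_equiv _ (sh2Equiv U.subtype (levelS T) (comapBasis U.subtype (levelS T))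
    (isLevelHom_subtype (levelS T) U) (hind_subtype (levelS T) U) (Rep.res U.subtype Y)
    (isDiscrete_resV (levelS T) Y U hY)).toEquiv

include hp2 hpT hU hUC hY in
/-- **(F-W) for restricted modules**. -/
theorem finW_res :
    Finite (H1 (comapBasis Ĉ.subtype (levelS T))
        (W (comapBasis Ĉ.subtype (levelS T)) (U.subgroupOf Ĉ) (Rep.res Ĉ.subtype Y))) ∧
      Finite (H2 (comapBasis Ĉ.subtype (levelS T))
        (W (comapBasis Ĉ.subtype (levelS T)) (U.subgroupOf Ĉ) (Rep.res Ĉ.subtype Y))) := by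
  haveI := finite_H1_res p T hpT U hU Y hY
  haveI := finite_H2_res p hp2 T hpT U hU Y hY
  exact ⟨Finite.of_equiv _ (ShapW6.shW1 (levelS T) Ĉ U hUC Y hY).symm.toEquiv,
    Finite.of_equiv _ (ShapW6.shW2 (levelS T) Ĉ U hUC Y hY).symm.toEquiv⟩

end Res

end Fermat.Agent.W56.FinWres4
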