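/-
Programme W56 (target S56), stage 2, chapter (EC-5), helper4: **the base case with `FinW` only at
`μ_p`**.  `BaseGlue4.FinW` (finiteness of `H¹, H²(Ĉ; W Z)` for every finite discrete `Z`) is used by
`BaseCase4.baseCase_of` only for `Z = μ_p|_Ĉ`, the restriction of a `Γ`-module; that instance
(`FinWmu`) is proved here unconditionally from `FinWres4.finW_res` (`finWmu`), and
`baseCase_of_mu` is `BaseCase4.baseCase_of` with `FinW` replaced by `FinWmu`.
-/
import Mathlib
import Fermat.Agent.W56.BaseCase4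
import Fermat.Agent.W56.FinWres4

set_option autoImplicit false
set_option linter.unusedSectionVars false
set_option linter.style.haveILetI false

open CategoryTheory ExtCitation

namespace Fermat.Agent.W56.BaseCaseMu4

open Fermat.Agent.PT.PRO Fermat.Agent.PT.BR Fermat.Agent.PT.PRO.LevelCoh28
  Fermat.Agent.PT.PRO.LevelCohRes28 Fermat.Agent.PT.PRO.SmoothCoind28
  Fermat.Agent.PT.GLUE.Objects21
  Fermat.Agent.W56.Mackey2 Fermat.Agent.W56.MuP4 Fermat.Agent.W56.TorsSnake4
  Fermat.Agent.W56.EquivUnits0 Fermat.Agent.W56.KummerStar4 Fermat.Agent.W56.IntRes4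
  Fermat.Agent.W56.CoindStar4 Fermat.Agent.W56.BaseDefs4 Fermat.Agent.W56.BaseContracts4
  Fermat.Agent.W56.BaseQ4 Fermat.Agent.W56.InflCoind4 Fermat.Agent.W56.BaseGlue4
  Fermat.Agent.W56.ChiLev4 Fermat.Agent.W56.ChiArch4 Fermat.Agent.W56.TwistW4
  Fermat.Agent.W56.QuotGal0 Fermat.Agent.W56.BaseCase4
open Fermat.Agent.S14.Fields (zeta)

local notation "Γ" => (AlgebraicClosure ℚ ≃ₐ[ℚ] AlgebraicClosure ℚ)

/-- prefer the module structure carried by a `Rep ℤ G`. -/
local instance (priority := 10000) repModZm {G : Type} [Group G] (E : Rep.{0} ℤ G) : Module ℤ E :=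
  E.hV2

/-- **(F-W) at `μ_p`**: the only instance of `BaseGlue4.FinW` used by the base case. -/
def FinWmu : Prop :=
  ∀ (p : ℕ) [Fact p.Prime], p ≠ 2 → ∀ (T : Finset Nat.Primes), pPrime p ∈ T →
  ∀ (U Ĉ : Subgroup Γ) [U.Normal], U ∈ (levelS T).sets → U ≤ Ĉ →
    (∀ u ∈ U, u (zeta p) = zeta p) →
    Finite (H1 (comapBasis Ĉ.subtype (levelS T))
        (W (comapBasis Ĉ.subtype (levelS T)) (U.subgroupOf Ĉ)
          (muRep p ((cycloChar p).comp Ĉ.subtype)))) ∧
      Finite (H2 (comapBasis Ĉ.subtype (levelS T))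
        (W (comapBasis Ĉ.subtype (levelS T)) (U.subgroupOf Ĉ)
          (muRep p ((cycloChar p).comp Ĉ.subtype))))

theorem finWmu_of_finW (h : FinW) : FinWmu := by
  intro p _ hp2 T hpT U Ĉ _ hU hUC hζ
  haveI : Finite (muRep p ((cycloChar p).comp Ĉ.subtype)) := inferInstanceAs (Finite (ZMod p))
  exact h p hp2 T hpT U Ĉ hU hUC (muRep p ((cycloChar p).comp Ĉ.subtype))
    (isDiscrete_muRep p (comapBasis Ĉ.subtype (levelS T)) ((cycloChar p).comp Ĉ.subtype)
      ⟨_, ⟨U, hU, rfl⟩, fun v hv => ArchSide5.cycloChar_eq_one_of_fix p (hζ _ hv)⟩)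

/-- `FinWmu`, unconditionally. -/
theorem finWmu : FinWmu := by
  intro p _ hp2 T hpT U Ĉ _ hU hUC hζ
  haveI : Finite (muRep p (cycloChar p)) := inferInstanceAs (Finite (ZMod p))
  exact FinWres4.finW_res p hp2 T hpT U Ĉ hU hUC (muRep p (cycloChar p))
    (isDiscrete_muRep p (levelS T) (cycloChar p)
      ⟨U, hU, fun v hv => ArchSide5.cycloChar_eq_one_of_fix p (hζ v hv)⟩)

section Ctx

variable (p : ℕ) [Fact p.Prime] (T : Finset Nat.Primes)
  (U : Subgroup Γ) [U.Normal] (C : Subgroup (Γ ⧸ U))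
  {N : Type} [AddCommGroup N] [Module (ZMod p) N] (σ : Representation (ZMod p) ↥C N)

local notation "𝓑c" => comapBasis (Subgroup.subtype (pre U C)) (levelS T)
local notation "Hc" => Subgroup.subgroupOf U (pre U C)
local notation "Ec" => Rep.res (Subgroup.subtype (pre U C)) (ES T)

variable (hp2 : p ≠ 2) (hpT : pPrime p ∈ T) (hU' : U ∈ (levelS T).sets)
  (hζ : ∀ u ∈ U, u (zeta p) = zeta p)
  [Fintype (↥(pre U C) ⧸ U.subgroupOf (pre U C))]
  [Invertible (Fintype.card (↥(pre U C) ⧸ U.subgroupOf (pre U C)) : ZMod p)]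
  [Finite N]

set_option maxHeartbeats 1000000 in
include hp2 hpT hU' in
/-- (i)+(ii): `χ` through `μ_p` and the Kummer count, from `FinWmu`. -/
theorem chi_kummer_mu (hFinW : FinWmu) :
    chiLev (LevelBridge13.pullBasisS (pre U C).subtype T) (inflSub U C σ) =
      - hP p (tauQ p U C σ hζ) (canonRep (opH0 (W 𝓑c Hc Ec) (CoindStar4.star 𝓑c Hc Ec)
          (star_comm 𝓑c Hc Ec))) +
        hP p (tauQ p U C σ hζ) (canonRep (opH1 𝓑c (W 𝓑c Hc Ec) (CoindStar4.star 𝓑c Hc Ec)
          (star_comm 𝓑c Hc Ec))) +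
        muP (tauQ p U C σ hζ) (torsRep p (canonRep (opH2 𝓑c (W 𝓑c Hc Ec)
          (CoindStar4.star 𝓑c Hc Ec) (star_comm 𝓑c Hc Ec)))) := by
  have hUC : U ≤ pre U C := le_pre U C
  have hHo' := hHo T U C hU'
  have hωH := omC_eq_one p U C hζ
  haveI : Module.Finite (ZMod p) N := Module.Finite.of_finite
  unfold tauQ
  rw [chiLev_step1 p T U C σ,
    chiLev_eq_muP_W p (comapBasis (pre U C).subtype (levelS T)) (U.subgroupOf (pre U C))
      (omC p U C) hωH N (sigQ p U C σ) hHo']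
  obtain ⟨hF1, hF2⟩ := hFinW p hp2 T hpT U (pre U C) hU' hUC hζ
  haveI : Finite (H1 (comapBasis (pre U C).subtype (levelS T))
      (W (comapBasis (pre U C).subtype (levelS T)) (U.subgroupOf (pre U C))
        (muRep p (omC p U C)))) := hF1
  haveI : Finite (H2 (comapBasis (pre U C).subtype (levelS T))
      (W (comapBasis (pre U C).subtype (levelS T)) (U.subgroupOf (pre U C))
        (muRep p (omC p U C)))) := hF2
  exact KummerW4.kummer_count_W (comapBasis (pre U C).subtype (levelS T))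
    (U.subgroupOf (pre U C)) p (muRep p (omC p U C)) (Rep.res (pre U C).subtype (ES T))
    (jK p T U C hpT) (jK_equivariant p T U C hpT) (jK_injective p T U C hpT)
    (jK_torsion p T U C hpT) (ES_divisible p T U C hpT)
    (TraceOpen8.isDiscrete_resV (levelS T) (ES T) (pre U C) (isDiscrete_ES T))
    (dualTwQ p (omegaBar p (U.subgroupOf (pre U C)) (omC p U C) hωH) (sigQ p U C σ))

end Ctx

set_option maxHeartbeats 2000000 in
/-- **The base case from the glue contracts**, with `FinW` only at `μ_p`. -/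
theorem baseCase_of_mu (hBridge : BaseDefs4.Bridge) (hIS : ISCount) (hFinW : FinWmu)
    (hFinH1 : FinH1WE) (hTor : TorWCS) (hOnto : OntoW) (hFinTors : FinTorsWIS) (hTriv : TrivWCS)
    (hSum : ISSum) (hPull : PullH0) : EulerSkel4.BaseCase := by
  intro p _ hp2 T hpT U _ hU hζ C hC hCp N _ _ _ σ
  have hU' : U ∈ (levelS T).sets := by
    rw [← Fermat.Agent.PT.GLUE.BasisCompare13.globalBasis_eq]; exact hU
  have hUC : U ≤ pre U C := le_pre U C
  haveI : Finite (Γ ⧸ U) := BaseCase4.finite_quot T U hU'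
  haveI : Fintype ↥C := Fintype.ofFinite _
  haveI : Fintype (↥(pre U C) ⧸ U.subgroupOf (pre U C)) :=
    Fintype.ofEquiv ↥C (eQ U C).symm.toEquiv
  have hcardC : ((Fintype.card ↥C : ℕ) : ZMod p) ≠ 0 := by
    intro h0
    rw [ZMod.natCast_eq_zero_iff, ← Nat.card_eq_fintype_card] at h0
    have h1 : p ∣ Nat.gcd (Nat.card ↥C) p := Nat.dvd_gcd h0 dvd_rfl
    rw [Nat.Coprime] at hCp
    rw [hCp] at h1
    exact (Fact.out : p.Prime).one_lt.ne' (Nat.dvd_one.1 h1)
  have hcardQ : ((Fintype.card (↥(pre U C) ⧸ U.subgroupOf (pre U C)) : ℕ) : ZMod p) ≠ 0 := by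
    rw [Fintype.card_congr (eQ U C).toEquiv]
    exact hcardC
  haveI : Invertible ((Fintype.card ↥C : ℕ) : ZMod p) := invertibleOfNonzero hcardC
  haveI : Invertible ((Fintype.card (↥(pre U C) ⧸ U.subgroupOf (pre U C)) : ℕ) : ZMod p) :=
    invertibleOfNonzero hcardQ
  haveI : Module.Finite (ZMod p) N := Module.Finite.of_finite
  obtain ⟨ω, hω, hArch⟩ := ArchSide5.arch_side p hp2 T U hU hζ C N σ
  have e1 := chi_kummer_mu p T U C σ hp2 hpT hU' hζ hFinW
  have e2 := hP_H1_eq_zero p T U C σ hU' hζ hFinH1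
  have e3 := tors_split p T U C σ hp2 hpT hU' hζ hTor hOnto hFinTors
  have e4 := hTriv p hp2 T hpT U (pre U C) hU' hUC (Module.Dual (ZMod p) N) (tauQ p U C σ hζ)
  have e5 := hIS p hp2 T hpT U (pre U C) hU' hUC (Module.Dual (ZMod p) N) (tauQ p U C σ hζ)
  have e6 := hSum p T U (pre U C) hU' hUC (Module.Dual (ZMod p) N) (tauQ p U C σ hζ)
  have e7 := hP_H0_eq p T U C σ hU hU' hζ ω hω hPull hBridge
  have e8 := muP_XT_eq p T U C σ hζ ω hω
  have e9 := muP_pt_eq p U C σ hζ ω hω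
  rw [e1, e2, hArch, e7]
  rw [e5, e6, e8] at e3
  rw [e4, e9] at e3
  omega

end Fermat.Agent.W56.BaseCaseMu4
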