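/-
W56 / (EC-5) / `BaseDefs4.Bridge`: shared vocabulary (lead).

`TKof T K` : the (finite) set of primes of the number field `K` above the rational primes in `T`, as
a `Finset` (the `TK` of `EquivUnits0.hP_sUnitsRep`); it is stable under `Gal(K/ℚ)`, its complement
is `Interface23.PrimeAway T K`, and `sUnits K (TKof T K) = ker (divT T K)`.
-/
import Mathlib
import Fermat.Agent.PT.GLOB.H1Finite15
import Fermat.Agent.PT.GLOB.Interface23
import Fermat.Agent.PT.GLUE.ESLevel27
import Fermat.Agent.W56.EquivUnits0D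

set_option autoImplicit false
set_option linter.unusedSectionVars false

namespace Fermat.Agent.W56.BridgeDefs0

open NumberField IsDedekindDomain
open Fermat.Agent.PT.GLOB Fermat.Agent.PT.GLOB.Interface23 Fermat.Agent.W56.EquivUnits0

variable (T : Finset Nat.Primes) (K : Type) [Field K] [NumberField K]

/-- the primes of `K` above `T`. -/
noncomputable def TKof : Finset (HeightOneSpectrum (𝓞 K)) :=
  (H1Finite15.finite_primesAboveS T K).toFinset

theorem mem_TKof (P : HeightOneSpectrum (𝓞 K)) :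
    P ∈ TKof T K ↔ ∃ q ∈ T, ((q : ℕ) : 𝓞 K) ∈ P.asIdeal := by
  unfold TKof
  rw [Set.Finite.mem_toFinset]
  rfl

theorem notMem_TKof_iff (P : HeightOneSpectrum (𝓞 K)) :
    P ∉ TKof T K ↔ ∀ q ∈ T, (((q : ℕ) : ℤ) : 𝓞 K) ∉ P.asIdeal := by
  rw [mem_TKof]
  push_neg
  refine forall_congr' fun q => forall_congr' fun _ => ?_
  rw [Int.cast_natCast]

/-- `TKof` is stable under the Galois group. -/
theorem smul_mem_TKof (σ : K ≃ₐ[ℚ] K) {P : HeightOneSpectrum (𝓞 K)} (hP : P ∈ TKof T K) :
    σ • P ∈ TKof T K := by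
  rw [mem_TKof] at hP ⊢
  obtain ⟨q, hq, hqP⟩ := hP
  refine ⟨q, hq, ?_⟩
  have h := (natCast_mem_smul_iff ℚ K σ P.asIdeal ((q : ℕ) : ℤ)).2 (by rwa [Int.cast_natCast])
  rw [Int.cast_natCast] at h
  exact h

/-- the `TKof`-units are the elements with trivial divisor away from `T`. -/
theorem mem_sUnits_TKof_iff (x : Kˣ) :
    x ∈ sUnits K (TKof T K : Set (HeightOneSpectrum (𝓞 K))) ↔ x ∈ (divT T K).ker := by
  rw [mem_sUnits, MonoidHom.mem_ker]
  constructor
  · intro h
    apply congrArg (DivT.ofFinsupp T K) (a₂ := 0)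
    ext P
    show ordAt K P.1 x = 0
    refine h P.1 ?_
    rw [Finset.mem_coe, notMem_TKof_iff]
    exact P.2
  · intro h P hP
    rw [Finset.mem_coe, notMem_TKof_iff] at hP
    exact congrArg (fun D => DivT.toFinsupp T K D ⟨P, hP⟩) h

end Fermat.Agent.W56.BridgeDefs0
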