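/-
W56 / (EC-5) / (A-units), part (ii): equivariant Minkowski units.

For a number field `K`, Galois over `ℚ`, there is a family of units `u w` indexed by the
infinite places `w` of `K`, permuted by the Galois group compatibly with the action on the
places (`u (σ • w) = σ (u w)`), generating a subgroup of finite index of the unit group, and
whose only multiplicative relations are the powers of `(∏ w, u w) ^ e = 1`
(`e` the order of the root of unity `∏ w, u w`).

In module language: the `ℤ[G]`-linear map `ℤ[∞_K] → O_K^×`, `w ↦ u w`, has finite cokernel and its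
kernel is `ℤ · e · (∑ w, w)`, a copy of `ℤ` with trivial action.

Mathlib only.
-/
import Mathlib

namespace Fermat.Agent.W56.EquivUnits0

open NumberField NumberField.InfinitePlace NumberField.Units

/-! ### A maximum principle for matrices with negative off-diagonal entries and zero row sums -/

theorem const_of_rowsum_zero {ι : Type*} [Fintype ι] (M : ι → ι → ℝ)
    (hneg : ∀ i j, i ≠ j → M i j < 0) (hrow : ∀ i, ∑ j, M i j = 0)
    (a : ι → ℝ) (ha : ∀ i, ∑ j, M i j * a j = 0) : ∀ i j, a i = a j := by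
  classical
  rcases isEmpty_or_nonempty ι with hι | hι
  · intro i; exact (hι.false i).elim
  obtain ⟨i₀, hi₀⟩ := Finite.exists_max a
  have key : ∀ j, a j = a i₀ := by
    have hsum : ∑ j, M i₀ j * (a j - a i₀) = 0 := by
      have : ∑ j, M i₀ j * (a j - a i₀) = ∑ j, M i₀ j * a j - (∑ j, M i₀ j) * a i₀ := by
        rw [Finset.sum_mul, ← Finset.sum_sub_distrib]
        exact Finset.sum_congr rfl fun j _ => by ring
      rw [this, ha i₀, hrow i₀]; ring
    have hnn : ∀ j ∈ Finset.univ, 0 ≤ M i₀ j * (a j - a i₀) := by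
      intro j _
      by_cases hj : i₀ = j
      · subst hj; simp
      · exact mul_nonneg_of_nonpos_of_nonpos (hneg i₀ j hj).le (sub_nonpos.mpr (hi₀ j))
    have hz := (Finset.sum_eq_zero_iff_of_nonneg hnn).mp hsum
    intro j
    by_cases hj : i₀ = j
    · subst hj; rfl
    · have h1 := hz j (Finset.mem_univ j)
      rcases mul_eq_zero.mp h1 with h2 | h2
      · exact absurd h2 (hneg i₀ j hj).ne
      · linarith
  intro i j
  rw [key i, key j]

/-! ### Units -/

section units

set_option linter.unusedSectionVars false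


variable (K : Type*) [Field K] [NumberField K]

/-- The action of a field automorphism on the units of the ring of integers. -/
noncomputable def actU (σ : K ≃ₐ[ℚ] K) : (𝓞 K)ˣ →* (𝓞 K)ˣ :=
  Units.map (RingOfIntegers.mapRingHom (σ : K →+* K) : 𝓞 K →* 𝓞 K)

variable {K}

theorem actU_coe (σ : K ≃ₐ[ℚ] K) (x : (𝓞 K)ˣ) :
    (((actU K σ x : (𝓞 K)ˣ) : 𝓞 K) : K) = σ ((x : 𝓞 K) : K) := rfl

theorem actU_one (x : (𝓞 K)ˣ) : actU K 1 x = x := by
  apply Units.ext; apply RingOfIntegers.ext; rfl

theorem actU_mul (σ τ : K ≃ₐ[ℚ] K) (x : (𝓞 K)ˣ) :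
    actU K (σ * τ) x = actU K σ (actU K τ x) := by
  apply Units.ext; apply RingOfIntegers.ext; rfl

theorem place_actU (w : InfinitePlace K) (σ : K ≃ₐ[ℚ] K) (x : (𝓞 K)ˣ) :
    w (((actU K σ x : (𝓞 K)ˣ) : 𝓞 K) : K) = (σ⁻¹ • w) (((x : (𝓞 K)ˣ) : 𝓞 K) : K) := by
  rw [actU_coe, InfinitePlace.smul_apply]
  rfl





/-- The absolute value at `w`, as a monoid homomorphism on the units. -/
noncomputable def absU (w : InfinitePlace K) : (𝓞 K)ˣ →* ℝ where
  toFun x := w (((x : (𝓞 K)ˣ) : 𝓞 K) : K)
  map_one' := by simp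
  map_mul' x y := by simp

theorem absU_apply (w : InfinitePlace K) (x : (𝓞 K)ˣ) :
    absU w x = w (((x : (𝓞 K)ˣ) : 𝓞 K) : K) := rfl

theorem absU_pos (w : InfinitePlace K) (x : (𝓞 K)ˣ) : 0 < absU w x :=
  Units.pos_at_place x w

theorem absU_actU (w : InfinitePlace K) (σ : K ≃ₐ[ℚ] K) (x : (𝓞 K)ˣ) :
    absU w (actU K σ x) = absU (σ⁻¹ • w) x := place_actU w σ x

theorem exists_stab_unit (w₁ : InfinitePlace K) :
    ∃ v : (𝓞 K)ˣ, (∀ τ : K ≃ₐ[ℚ] K, τ • w₁ = w₁ → actU K τ v = v) ∧
      ∀ w : InfinitePlace K, w ≠ w₁ → Real.log (absU w v) < 0 := by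
  classical
  obtain ⟨u₀, hu₀⟩ := dirichletUnitTheorem.exists_unit K w₁
  set f : (K ≃ₐ[ℚ] K) → (𝓞 K)ˣ := fun σ => if σ • w₁ = w₁ then actU K σ u₀ else 1 with hf
  refine ⟨∏ σ : K ≃ₐ[ℚ] K, f σ, ?_, ?_⟩
  · intro τ hτ
    rw [map_prod]
    refine Fintype.prod_equiv (Equiv.mulLeft τ) _ _ ?_
    intro σ
    have hiff : (τ * σ) • w₁ = w₁ ↔ σ • w₁ = w₁ := by
      rw [mul_smul]
      constructor
      · intro h
        have hτ' : τ⁻¹ • w₁ = w₁ := inv_smul_eq_iff.mpr hτ.symm
        calc σ • w₁ = τ⁻¹ • (τ • σ • w₁) := (inv_smul_smul _ _).symm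
          _ = τ⁻¹ • w₁ := by rw [h]
          _ = w₁ := hτ'
      · intro h; rw [h, hτ]
    simp only [hf, Equiv.coe_mulLeft]
    by_cases hσ : σ • w₁ = w₁
    · rw [if_pos hσ, if_pos (hiff.mpr hσ), actU_mul]
    · rw [if_neg hσ, if_neg (fun h => hσ (hiff.mp h)), map_one]
  · intro w hw
    rw [map_prod, Real.log_prod (fun σ _ => (absU_pos w (f σ)).ne')]
    have hle : ∀ σ ∈ (Finset.univ : Finset (K ≃ₐ[ℚ] K)), Real.log (absU w (f σ)) ≤ 0 := by
      intro σ _
      simp only [hf]
      by_cases hσ : σ • w₁ = w₁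
      · rw [if_pos hσ, absU_actU]
        refine (hu₀ (σ⁻¹ • w) ?_).le
        intro h
        apply hw
        rw [inv_smul_eq_iff] at h
        rw [h, hσ]
      · rw [if_neg hσ, map_one, Real.log_one]
    have hlt : ∃ σ ∈ (Finset.univ : Finset (K ≃ₐ[ℚ] K)), Real.log (absU w (f σ)) < 0 := by
      refine ⟨1, Finset.mem_univ _, ?_⟩
      simp only [hf]
      rw [if_pos (one_smul _ _), actU_one]
      exact hu₀ w hw
    calc ∑ σ, Real.log (absU w (f σ)) < ∑ _σ : K ≃ₐ[ℚ] K, (0 : ℝ) := Finset.sum_lt_sum hle hlt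
      _ = 0 := by simp





theorem exists_smul_eq_rat [IsGalois ℚ K] (w w' : InfinitePlace K) :
    ∃ σ : K ≃ₐ[ℚ] K, σ • w = w' :=
  exists_smul_eq_of_comap_eq (k := ℚ) (Subsingleton.elim _ _)

/-- An equivariant family of units with negative logarithms off the diagonal. -/
theorem exists_equivariant_family [IsGalois ℚ K] :
    ∃ u : InfinitePlace K → (𝓞 K)ˣ,
      (∀ (σ : K ≃ₐ[ℚ] K) (w : InfinitePlace K), u (σ • w) = actU K σ (u w)) ∧
      ∀ w w' : InfinitePlace K, w ≠ w' → Real.log (absU w (u w')) < 0 := by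
  classical
  obtain ⟨w₁⟩ := (inferInstance : Nonempty (InfinitePlace K))
  obtain ⟨v, hv, hneg⟩ := exists_stab_unit w₁
  choose g hg using fun w => exists_smul_eq_rat w₁ w
  refine ⟨fun w => actU K (g w) v, ?_, ?_⟩
  · intro σ w
    have hτ : ((g (σ • w))⁻¹ * (σ * g w)) • w₁ = w₁ := by
      rw [mul_smul, mul_smul, hg w, inv_smul_eq_iff, hg (σ • w)]
    have h1 := hv _ hτ
    have h2 : actU K (g (σ • w)) (actU K ((g (σ • w))⁻¹ * (σ * g w)) v)
        = actU K σ (actU K (g w) v) := by
      rw [← actU_mul, ← actU_mul, mul_inv_cancel_left]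
    rw [h1] at h2
    exact h2
  · intro w w' hww'
    rw [absU_actU]
    refine hneg _ ?_
    intro h
    apply hww'
    rw [inv_smul_eq_iff] at h
    rw [h, hg w']





/-- A unit fixed by the Galois group is a root of unity. -/
theorem mem_torsion_of_fixed [IsGalois ℚ K] (ε : (𝓞 K)ˣ)
    (hε : ∀ σ : K ≃ₐ[ℚ] K, actU K σ ε = ε) : ε ∈ torsion K := by
  classical
  obtain ⟨w₁⟩ := (inferInstance : Nonempty (InfinitePlace K))
  have hconst : ∀ w : InfinitePlace K, absU w ε = absU w₁ ε := by
    intro w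
    obtain ⟨σ, rfl⟩ := exists_smul_eq_rat w₁ w
    have := absU_actU w₁ σ⁻¹ ε
    rw [hε, inv_inv] at this
    exact this.symm
  have hsum := sum_mult_mul_log ε
  have h2 : (∑ w : InfinitePlace K, (w.mult : ℝ)) * Real.log (absU w₁ ε) = 0 := by
    rw [Finset.sum_mul, ← hsum]
    refine Finset.sum_congr rfl fun w _ => ?_
    rw [← hconst w]; rfl
  have hpos : 0 < ∑ w : InfinitePlace K, (w.mult : ℝ) := by
    refine Finset.sum_pos (fun w _ => ?_) Finset.univ_nonempty
    exact_mod_cast mult_pos
  have hlog : Real.log (absU w₁ ε) = 0 := by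
    rcases mul_eq_zero.mp h2 with h | h
    · exact absurd h hpos.ne'
    · exact h
  have h1 : absU w₁ ε = 1 :=
    Real.eq_one_of_pos_of_log_eq_zero (absU_pos w₁ ε) hlog
  rw [mem_torsion]
  intro w
  have := hconst w
  rw [h1] at this
  exact this

theorem prod_family_mem_torsion [IsGalois ℚ K] (u : InfinitePlace K → (𝓞 K)ˣ)
    (hu : ∀ (σ : K ≃ₐ[ℚ] K) (w : InfinitePlace K), u (σ • w) = actU K σ (u w)) :
    ∏ w, u w ∈ torsion K := by
  refine mem_torsion_of_fixed _ fun σ => ?_
  rw [map_prod]
  calc ∏ w, actU K σ (u w) = ∏ w, u (σ • w) := Finset.prod_congr rfl fun w _ => (hu σ w).symm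
    _ = ∏ w, u w := Fintype.prod_equiv (MulAction.toPerm σ) _ _ fun w => rfl

/-- The real relations between the logarithms of an equivariant family with negative
off-diagonal logarithms: only the constants. -/
theorem real_relations [IsGalois ℚ K] (u : InfinitePlace K → (𝓞 K)ˣ)
    (hu : ∀ (σ : K ≃ₐ[ℚ] K) (w : InfinitePlace K), u (σ • w) = actU K σ (u w))
    (hneg : ∀ w w' : InfinitePlace K, w ≠ w' → Real.log (absU w (u w')) < 0)
    (a : InfinitePlace K → ℝ)
    (ha : ∀ w, ∑ w', a w' * Real.log (absU w (u w')) = 0) : ∀ w w', a w = a w' := by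
  refine const_of_rowsum_zero (fun w w' => Real.log (absU w (u w'))) hneg ?_ a ?_
  · intro w
    rw [← Real.log_prod (fun w' _ => (absU_pos w (u w')).ne'), ← map_prod]
    have := ((mem_torsion (K := K)).mp (prod_family_mem_torsion u hu)) w
    rw [absU_apply, this, Real.log_one]
  · intro w
    rw [← ha w]
    exact Finset.sum_congr rfl fun w' _ => mul_comm _ _





/-- The integer relations. -/
theorem int_relations [IsGalois ℚ K] (u : InfinitePlace K → (𝓞 K)ˣ)
    (hu : ∀ (σ : K ≃ₐ[ℚ] K) (w : InfinitePlace K), u (σ • w) = actU K σ (u w))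
    (hneg : ∀ w w' : InfinitePlace K, w ≠ w' → Real.log (absU w (u w')) < 0)
    (a : InfinitePlace K → ℤ) :
    ∏ w, u w ^ a w = 1 ↔ ∃ n : ℤ, ∀ w, a w = (orderOf (∏ w, u w) : ℤ) * n := by
  classical
  constructor
  · intro h
    have hrel : ∀ w, ∑ w', (a w' : ℝ) * Real.log (absU w (u w')) = 0 := by
      intro w
      have h1 : Real.log (absU w (∏ w', u w' ^ a w')) = 0 := by rw [h, map_one, Real.log_one]
      rw [map_prod, Real.log_prod (fun w' _ => (absU_pos w _).ne')] at h1
      rw [← h1]
      refine Finset.sum_congr rfl fun w' _ => ?_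
      rw [map_zpow, Real.log_zpow]
    have hconst := real_relations u hu hneg (fun w => (a w : ℝ)) hrel
    obtain ⟨w₁⟩ := (inferInstance : Nonempty (InfinitePlace K))
    have hc : ∀ w, a w = a w₁ := fun w => by exact_mod_cast hconst w w₁
    have h2 : (∏ w, u w) ^ a w₁ = 1 := by
      rw [← h, ← Finset.prod_zpow]
      exact Finset.prod_congr rfl fun w _ => by rw [hc w]
    obtain ⟨n, hn⟩ := orderOf_dvd_iff_zpow_eq_one.mpr h2
    exact ⟨n, fun w => by rw [hc w, hn]⟩
  · rintro ⟨n, hn⟩
    have : ∏ w, u w ^ a w = (∏ w, u w) ^ ((orderOf (∏ w, u w) : ℤ) * n) := by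
      rw [← Finset.prod_zpow]
      exact Finset.prod_congr rfl fun w _ => by rw [hn w]
    rw [this, zpow_mul, zpow_natCast, pow_orderOf_eq_one, one_zpow]

theorem orderOf_prod_family_pos [IsGalois ℚ K] (u : InfinitePlace K → (𝓞 K)ˣ)
    (hu : ∀ (σ : K ≃ₐ[ℚ] K) (w : InfinitePlace K), u (σ • w) = actU K σ (u w)) :
    0 < orderOf (∏ w, u w) := by
  have h := prod_family_mem_torsion u hu
  rw [torsion, CommGroup.mem_torsion] at h
  exact orderOf_pos_iff.mpr h





open dirichletUnitTheorem in
/-- Finite index. -/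
theorem finiteIndex_closure_family [IsGalois ℚ K] (u : InfinitePlace K → (𝓞 K)ˣ)
    (hu : ∀ (σ : K ≃ₐ[ℚ] K) (w : InfinitePlace K), u (σ • w) = actU K σ (u w))
    (hneg : ∀ w w' : InfinitePlace K, w ≠ w' → Real.log (absU w (u w')) < 0) :
    (Subgroup.closure (Set.range u)).FiniteIndex := by
  classical
  set u' : Fin (rank K) → (𝓞 K)ˣ := fun i => u (equivFinRank K i).1 with hu'
  have hmax : IsMaxRank u' := by
    rw [IsMaxRank, Fintype.linearIndependent_iff]
    intro g hg
    -- the coefficient vector on all places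
    set a : InfinitePlace K → ℝ := fun w =>
      if h : w ≠ w₀ then g ((equivFinRank K).symm ⟨w, h⟩) else 0 with ha
    have ha0 : a w₀ = 0 := by simp [ha]
    have hai : ∀ i, a (equivFinRank K i).1 = g i := by
      intro i
      simp only [ha]
      rw [dif_pos (equivFinRank K i).2]
      simp
    -- sums over `i` are sums over all places
    have hsum : ∀ w : InfinitePlace K,
        ∑ i, g i * Real.log (absU w (u' i)) = ∑ w', a w' * Real.log (absU w (u w')) := by
      intro w
      rw [Fintype.sum_eq_add_sum_subtype_ne (fun w' => a w' * Real.log (absU w (u w'))) w₀, ha0,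
        zero_mul, zero_add]
      refine Fintype.sum_equiv (equivFinRank K) _ _ fun i => ?_
      rw [hai]
    have hrel1 : ∀ w : InfinitePlace K, w ≠ w₀ →
        ∑ w', a w' * Real.log (absU w (u w')) = 0 := by
      intro w hw
      have h1 := congrFun hg ⟨w, hw⟩
      simp only [Finset.sum_apply, Pi.smul_apply, logEmbedding_component, smul_eq_mul,
        Pi.zero_apply] at h1
      have h2 : (w.mult : ℝ) * ∑ i, g i * Real.log (absU w (u' i)) = 0 := by
        rw [← h1, Finset.mul_sum]
        refine Finset.sum_congr rfl fun i _ => ?_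
        rw [absU_apply]; ring
      rw [← hsum w]
      rcases mul_eq_zero.mp h2 with h | h
      · exact absurd h mult_coe_ne_zero
      · exact h
    have hrel : ∀ w : InfinitePlace K, ∑ w', a w' * Real.log (absU w (u w')) = 0 := by
      intro w
      by_cases hw : w = w₀
      · subst hw
        -- product formula for each `u w'`
        have hpf : ∀ w' : InfinitePlace K,
            ((w₀ : InfinitePlace K).mult : ℝ) * Real.log (absU w₀ (u w')) =
              - ∑ w : {w : InfinitePlace K // w ≠ w₀},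
                  (w.1.mult : ℝ) * Real.log (absU w.1 (u w')) := by
          intro w'
          have := sum_mult_mul_log (u w')
          rw [Fintype.sum_eq_add_sum_subtype_ne _ (w₀ : InfinitePlace K)] at this
          have h3 := eq_neg_of_add_eq_zero_left this
          exact h3
        have h4 : ((w₀ : InfinitePlace K).mult : ℝ) *
            ∑ w', a w' * Real.log (absU w₀ (u w')) = 0 := by
          rw [Finset.mul_sum]
          calc ∑ w', ((w₀ : InfinitePlace K).mult : ℝ) * (a w' * Real.log (absU w₀ (u w')))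
              = ∑ w', a w' * (- ∑ w : {w : InfinitePlace K // w ≠ w₀},
                  (w.1.mult : ℝ) * Real.log (absU w.1 (u w'))) := by
                refine Finset.sum_congr rfl fun w' _ => ?_
                rw [← hpf w']; ring
            _ = - ∑ w : {w : InfinitePlace K // w ≠ w₀}, (w.1.mult : ℝ) *
                  ∑ w', a w' * Real.log (absU w.1 (u w')) := by
                simp only [mul_neg, Finset.sum_neg_distrib, Finset.mul_sum]
                rw [Finset.sum_comm]
                congr 1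
                refine Finset.sum_congr rfl fun w _ => Finset.sum_congr rfl fun w' _ => ?_
                ring
            _ = 0 := by
                rw [neg_eq_zero]
                refine Finset.sum_eq_zero fun w _ => ?_
                rw [hrel1 w.1 w.2, mul_zero]
        rcases mul_eq_zero.mp h4 with h | h
        · exact absurd h mult_coe_ne_zero
        · exact h
      · exact hrel1 w hw
    have hconst := real_relations u hu hneg a hrel
    intro i
    rw [← hai i, hconst _ w₀, ha0]
  have hfi := isMaxRank_iff_closure_finiteIndex.mp hmax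
  refine @Subgroup.finiteIndex_of_le _ _ _ _ hfi ?_
  refine Subgroup.closure_mono ?_
  rintro _ ⟨i, rfl⟩
  exact ⟨_, rfl⟩


/-- **Equivariant Minkowski units.** For a number field `K`, Galois over `ℚ`: a family of units
indexed by the infinite places, permuted by the Galois group like the places, generating a
subgroup of finite index, with the multiples of `e • (1, …, 1)` as only relations. -/
theorem exists_minkowski_units (K : Type*) [Field K] [NumberField K] [IsGalois ℚ K] :
    ∃ (u : InfinitePlace K → (𝓞 K)ˣ) (e : ℕ), 0 < e ∧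
      (∀ (σ : K ≃ₐ[ℚ] K) (w : InfinitePlace K),
        (((u (σ • w) : (𝓞 K)ˣ) : 𝓞 K) : K) = σ (((u w : (𝓞 K)ˣ) : 𝓞 K) : K)) ∧
      (Subgroup.closure (Set.range u)).FiniteIndex ∧
      (∏ w, u w) ^ e = 1 ∧
      ∀ a : InfinitePlace K → ℤ, ∏ w, u w ^ a w = 1 ↔ ∃ n : ℤ, ∀ w, a w = (e : ℤ) * n := by
  obtain ⟨u, hu, hneg⟩ := exists_equivariant_family (K := K)
  refine ⟨u, orderOf (∏ w, u w), orderOf_prod_family_pos u hu, ?_,
    finiteIndex_closure_family u hu hneg, pow_orderOf_eq_one _, int_relations u hu hneg⟩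
  intro σ w
  rw [hu σ w]
  rfl

end units

end Fermat.Agent.W56.EquivUnits0
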