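/-
W56 / (EC-5) / (A-units), part (i), Mathlib-only core: the divisor sequence of a number field.

* `exists_count_eq_single`: for every finite prime `P` of a number field `K` there are `h > 0`
  and `x ∈ Kˣ` with divisor `h · P` (finiteness of the class group).
* `exists_unit_of_count_eq_zero`: an element of `Kˣ` with trivial divisor is a unit of `𝓞 K`.

Valuations are `FractionalIdeal.count K P (spanSingleton (𝓞 K)⁰ x)` (the tree's
`Interface23.ordAt`).
-/
import Mathlib

namespace Fermat.Agent.W56.EquivUnits0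

open NumberField IsDedekindDomain FractionalIdeal
open scoped nonZeroDivisors

variable (K : Type*) [Field K] [NumberField K]

/-- For every finite prime `P` some power `P ^ h`, `h > 0`, is principal: there is `x ∈ Kˣ` whose
divisor is `h · P`. -/
theorem exists_count_eq_single (P : HeightOneSpectrum (𝓞 K)) :
    ∃ (h : ℕ) (x : Kˣ), 0 < h ∧ count K P (spanSingleton (𝓞 K)⁰ (x : K)) = (h : ℤ) ∧
      ∀ P' : HeightOneSpectrum (𝓞 K), P' ≠ P →
        count K P' (spanSingleton (𝓞 K)⁰ (x : K)) = 0 := by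
  classical
  set h := Fintype.card (ClassGroup (𝓞 K)) with hh
  have hP0 : P.asIdeal ≠ 0 := P.ne_bot
  have hmem : P.asIdeal ∈ (Ideal (𝓞 K))⁰ := mem_nonZeroDivisors_of_ne_zero hP0
  have hpow : P.asIdeal ^ h ∈ (Ideal (𝓞 K))⁰ := pow_mem hmem h
  have h1 : ClassGroup.mk0 ⟨P.asIdeal ^ h, hpow⟩ = 1 := by
    have : (⟨P.asIdeal ^ h, hpow⟩ : (Ideal (𝓞 K))⁰) = ⟨P.asIdeal, hmem⟩ ^ h := by
      apply Subtype.ext; rfl
    rw [this, map_pow, hh, pow_card_eq_one]
  rw [ClassGroup.mk0_eq_one_iff] at h1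
  obtain ⟨x₀, hx₀⟩ := h1.principal
  have hx₀' : P.asIdeal ^ h = Ideal.span {x₀} := hx₀
  have hx0 : x₀ ≠ 0 := by
    rintro rfl
    have : P.asIdeal ^ h = ⊥ := by rw [hx₀']; simp
    exact pow_ne_zero h hP0 this
  have hxK : algebraMap (𝓞 K) K x₀ ≠ 0 := by
    rw [Ne, map_eq_zero_iff _ (IsFractionRing.injective (𝓞 K) K)]
    exact hx0
  have hspan : spanSingleton (𝓞 K)⁰ (algebraMap (𝓞 K) K x₀) =
      ((P.asIdeal : FractionalIdeal (𝓞 K)⁰ K)) ^ h := by
    rw [← coeIdeal_span_singleton, ← hx₀', coeIdeal_pow]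
  refine ⟨h, Units.mk0 _ hxK, Fintype.card_pos, ?_, fun P' hP' => ?_⟩
  · rw [Units.val_mk0, hspan, count_pow, count_self, mul_one]
  · rw [Units.val_mk0, hspan, count_pow, count_maximal_coprime K P' (Ne.symm hP'), mul_zero]

/-- An element of `Kˣ` with trivial divisor is a unit of the ring of integers. -/
theorem exists_unit_of_count_eq_zero (x : Kˣ)
    (hx : ∀ P : HeightOneSpectrum (𝓞 K), count K P (spanSingleton (𝓞 K)⁰ (x : K)) = 0) :
    ∃ u : (𝓞 K)ˣ, algebraMap (𝓞 K) K (u : 𝓞 K) = (x : K) := by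
  have key : ∀ y : Kˣ, (∀ P : HeightOneSpectrum (𝓞 K),
      count K P (spanSingleton (𝓞 K)⁰ (y : K)) = 0) →
      ∃ a : 𝓞 K, algebraMap (𝓞 K) K a = (y : K) := by
    intro y hy
    have hne : spanSingleton (𝓞 K)⁰ (y : K) ≠ 0 := by
      rw [spanSingleton_ne_zero_iff]; exact y.ne_zero
    have h1 := finprod_heightOneSpectrum_factorization' (R := 𝓞 K) (K := K) hne
    have h2 : spanSingleton (𝓞 K)⁰ (y : K) = 1 := by
      rw [← h1]
      apply finprod_eq_one_of_forall_eq_one
      intro P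
      rw [hy P, zpow_zero]
    have h3 : (y : K) ∈ (1 : FractionalIdeal (𝓞 K)⁰ K) := by
      rw [← h2]; exact mem_spanSingleton_self _ _
    rw [mem_one_iff] at h3
    exact h3
  obtain ⟨a, ha⟩ := key x hx
  obtain ⟨b, hb⟩ := key x⁻¹ (by
    intro P
    have := hx P
    rw [Units.val_inv_eq_inv_val, ← spanSingleton_inv, count_inv, this, neg_zero])
  have hab : a * b = 1 := by
    apply IsFractionRing.injective (𝓞 K) K
    rw [map_mul, ha, hb, map_one, Units.mul_inv]
  exact ⟨⟨a, b, hab, by rw [mul_comm]; exact hab⟩, ha⟩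

end Fermat.Agent.W56.EquivUnits0
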