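/-
W56 / (EC-5) / (A-units), final: **the equivariant `S`-unit theorem mod `p`**.

`K` a number field, Galois over `ℚ`, `C ≤ Gal(K/ℚ)` of order prime to `p`, `TK` a `C`-stable finite
set of primes of `𝓞 K` (action of `Interface23.instMulActionHeightOne`), `E = sUnits K TK` the
`TK`-units (`ord_P x = 0` for `P ∉ TK`, equivalently `P.valuation K x = 1`:
`mem_sUnits_iff_valuation`).  For every finite `𝔽_p[C]`-module `P` (helper4's `TorsSnake4.hP`,
`MuP4.muP`):

  `hP_sUnitsRep : h_P(E) = μ_P(𝔽_p[TK]) + μ_P(𝔽_p[∞_K]) − μ_P(𝔽_p)`,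

where `𝔽_p[X] = funPerm (ZMod p) C X` is the permutation representation on `X → ZMod p`
(`(c • a) x = a (c⁻¹ • x)`), `∞_K = InfinitePlace K` with Mathlib's action, `𝔽_p = 𝔽_p[PUnit]`.
Also `fg_sUnits`, `finite_torsP_sUnits`, `finite_cot_sUnits`, and `hP_unitsRep`
(`h_P(O_K^×) = μ_P(𝔽_p[∞_K]) − μ_P(𝔽_p)`).

Proof: Minkowski units (`EquivUnits0A`) give `0 → ℤ → ℤ[∞_K] → O_K^×` with finite cokernel;
the divisor map gives `0 → O_K^× → E → ℤ[TK]` with finite cokernel (class group, `EquivUnits0B`);
`h_P` is additive and vanishes on finite modules (`EquivUnits0C`).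
-/
import Fermat.Agent.PT.GLOB.GalIdele6
import Fermat.Agent.W56.EquivUnits0A
import Fermat.Agent.W56.EquivUnits0B
import Fermat.Agent.W56.EquivUnits0C

set_option autoImplicit false
set_option linter.unusedSectionVars false
set_option linter.style.haveILetI false
set_option linter.unusedVariables false

namespace Fermat.Agent.W56.EquivUnits0

open NumberField NumberField.InfinitePlace IsDedekindDomain
open Fermat.Agent.PT.GLOB Fermat.Agent.PT.GLOB.Interface23
open Fermat.Agent.W56.MuP4 Fermat.Agent.W56.TorsSnake4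


section nf

variable (K : Type) [Field K] [NumberField K]

theorem ordAt_inv (P : HeightOneSpectrum (𝓞 K)) (x : Kˣ) : ordAt K P x⁻¹ = - ordAt K P x := by
  have h := ordAt_mul K P x⁻¹ x
  rw [inv_mul_cancel, ordAt_one] at h
  linarith

/-- `ord_P` as a homomorphism. -/
noncomputable def ordHom (P : HeightOneSpectrum (𝓞 K)) : Additive Kˣ →+ ℤ where
  toFun x := ordAt K P (Additive.toMul x)
  map_zero' := ordAt_one K P
  map_add' _ _ := ordAt_mul K P _ _

theorem ordAt_zpow (P : HeightOneSpectrum (𝓞 K)) (x : Kˣ) (n : ℤ) :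
    ordAt K P (x ^ n) = n * ordAt K P x := by
  have := map_zsmul (ordHom K P) n (Additive.ofMul x)
  rw [smul_eq_mul] at this
  exact this

theorem ordAt_prod {ι : Type*} (s : Finset ι) (P : HeightOneSpectrum (𝓞 K)) (f : ι → Kˣ) :
    ordAt K P (∏ i ∈ s, f i) = ∑ i ∈ s, ordAt K P (f i) := by
  classical
  induction s using Finset.induction_on with
  | empty => simp [ordAt_one]
  | insert a s ha ih => rw [Finset.prod_insert ha, Finset.sum_insert ha, ordAt_mul, ih]

/-- The `TK`-units. -/
def sUnits (TK : Set (HeightOneSpectrum (𝓞 K))) : Subgroup Kˣ where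
  carrier := {x | ∀ P, P ∉ TK → ordAt K P x = 0}
  one_mem' := fun P _ => ordAt_one K P
  mul_mem' := by
    intro x y hx hy P hP
    rw [ordAt_mul, hx P hP, hy P hP, add_zero]
  inv_mem' := by
    intro x hx P hP
    rw [ordAt_inv, hx P hP, neg_zero]

theorem mem_sUnits {TK : Set (HeightOneSpectrum (𝓞 K))} {x : Kˣ} :
    x ∈ sUnits K TK ↔ ∀ P, P ∉ TK → ordAt K P x = 0 := Iff.rfl

/-- The image of a unit of `𝓞 K` in `Kˣ`. -/
noncomputable def unitsToField : (𝓞 K)ˣ →* Kˣ := Units.map (algebraMap (𝓞 K) K : 𝓞 K →* K)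

theorem coe_unitsToField (u : (𝓞 K)ˣ) : ((unitsToField K u : Kˣ) : K) = ((u : 𝓞 K) : K) := rfl

theorem unitsToField_injective : Function.Injective (unitsToField K) := by
  intro u v h
  apply Units.ext
  apply RingOfIntegers.ext
  exact congrArg (fun z : Kˣ => (z : K)) h

theorem ordAt_unitsToField (P : HeightOneSpectrum (𝓞 K)) (u : (𝓞 K)ˣ) :
    ordAt K P (unitsToField K u) = 0 := by
  have key : ∀ v : (𝓞 K)ˣ, 0 ≤ ordAt K P (unitsToField K v) := by
    intro v
    unfold ordAt
    rw [coe_unitsToField, ← FractionalIdeal.coeIdeal_span_singleton]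
    exact FractionalIdeal.count_coe_nonneg K P _
  have h1 := key u
  have h2 := key u⁻¹
  rw [map_inv, ordAt_inv] at h2
  linarith

theorem exists_unitsToField_eq (x : Kˣ) (hx : ∀ P : HeightOneSpectrum (𝓞 K), ordAt K P x = 0) :
    ∃ u : (𝓞 K)ˣ, unitsToField K u = x := by
  obtain ⟨u, hu⟩ := exists_unit_of_count_eq_zero K x hx
  exact ⟨u, Units.ext hu⟩

end nf



section val

variable (K : Type) [Field K] [NumberField K]

theorem ordAt_eq_zero_iff_valuation (P : HeightOneSpectrum (𝓞 K)) (x : Kˣ) :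
    ordAt K P x = 0 ↔ P.valuation K (x : K) = 1 := by
  rw [ClassKill15.valuation_eq_exp_neg_count K P (x : K) x.ne_zero]
  unfold ordAt
  rw [← WithZero.exp_zero]
  constructor
  · intro h
    rw [h, neg_zero]
  · intro h
    have := WithZero.exp_injective h
    linarith

theorem mem_sUnits_iff_valuation {TK : Set (HeightOneSpectrum (𝓞 K))} {x : Kˣ} :
    x ∈ sUnits K TK ↔ ∀ P, P ∉ TK → P.valuation K (x : K) = 1 := by
  rw [mem_sUnits]
  exact forall_congr' fun P => forall_congr' fun _ => ordAt_eq_zero_iff_valuation K P x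

end val



section galois

variable (K : Type) [Field K] [NumberField K] (C : Subgroup (K ≃ₐ[ℚ] K))

theorem ordAt_smul_field (σ : K ≃ₐ[ℚ] K) (P : HeightOneSpectrum (𝓞 K)) (x : Kˣ) :
    ordAt K P (σ • x) = ordAt K (σ⁻¹ • P) x := GalIdele6.ordAt_smul' ℚ K σ P x

theorem unitsToField_actU (σ : K ≃ₐ[ℚ] K) (u : (𝓞 K)ˣ) :
    unitsToField K (actU K σ u) = σ • unitsToField K u := by
  apply Units.ext
  rfl

variable (TK : Finset (HeightOneSpectrum (𝓞 K))) (hTK : ∀ σ ∈ C, ∀ P ∈ TK, σ • P ∈ TK)

/-- The action of `C` on a stable finite set of primes. -/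
@[instance_reducible]
noncomputable def tkAction : MulAction ↥C ↥TK where
  smul c P := ⟨(c : K ≃ₐ[ℚ] K) • P.1, hTK c c.2 P.1 P.2⟩
  one_smul P := Subtype.ext (one_smul _ _)
  mul_smul c d P := Subtype.ext (mul_smul _ _ _)

theorem coe_tkAction_smul (c : C) (P : ↥TK) :
    (((tkAction K C TK hTK).toSMul.smul c P : ↥TK) : HeightOneSpectrum (𝓞 K)) =
      (c : K ≃ₐ[ℚ] K) • P.1 := rfl

include hTK in
theorem smul_mem_sUnits (c : C) {x : Kˣ}
    (hx : x ∈ sUnits K (TK : Set (HeightOneSpectrum (𝓞 K)))) :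
    (c : K ≃ₐ[ℚ] K) • x ∈ sUnits K (TK : Set (HeightOneSpectrum (𝓞 K))) := by
  intro P hP
  rw [ordAt_smul_field]
  refine hx _ ?_
  intro h
  apply hP
  have := hTK c c.2 _ h
  rwa [smul_inv_smul] at this

/-- The action of `C` on the `TK`-units. -/
noncomputable def sUnitsRep :
    Representation ℤ C (Additive (sUnits K (TK : Set (HeightOneSpectrum (𝓞 K))))) where
  toFun c := AddMonoidHom.toIntLinearMap
    { toFun := fun x => Additive.ofMul
        ⟨(c : K ≃ₐ[ℚ] K) • (Additive.toMul x).1, smul_mem_sUnits K C TK hTK c (Additive.toMul x).2⟩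
      map_zero' := by
        apply congrArg Additive.ofMul
        apply Subtype.ext
        exact smul_one _
      map_add' := fun x y => by
        apply congrArg Additive.ofMul
        apply Subtype.ext
        exact smul_mul' _ _ _ }
  map_one' := by
    refine LinearMap.ext fun x => ?_
    apply congrArg Additive.ofMul
    apply Subtype.ext
    exact one_smul _ _
  map_mul' c d := by
    refine LinearMap.ext fun x => ?_
    apply congrArg Additive.ofMul
    apply Subtype.ext
    exact mul_smul _ _ _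

theorem sUnitsRep_apply (c : C)
    (x : Additive (sUnits K (TK : Set (HeightOneSpectrum (𝓞 K))))) :
    ((Additive.toMul (sUnitsRep K C TK hTK c x)).1 : Kˣ) =
      (c : K ≃ₐ[ℚ] K) • (Additive.toMul x).1 := rfl

/-- The action of `C` on the units of `𝓞 K`. -/
noncomputable def unitsRep : Representation ℤ C (Additive (𝓞 K)ˣ) where
  toFun c := AddMonoidHom.toIntLinearMap (MonoidHom.toAdditive (actU K (c : K ≃ₐ[ℚ] K)))
  map_one' := by
    refine LinearMap.ext fun x => ?_
    exact congrArg Additive.ofMul (actU_one (Additive.toMul x))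
  map_mul' c d := by
    refine LinearMap.ext fun x => ?_
    exact congrArg Additive.ofMul (actU_mul (c : K ≃ₐ[ℚ] K) d (Additive.toMul x))

theorem unitsRep_apply (c : C) (x : Additive (𝓞 K)ˣ) :
    Additive.toMul (unitsRep K C c x) = actU K (c : K ≃ₐ[ℚ] K) (Additive.toMul x) := rfl

end galois



section minkowski

variable (K : Type) [Field K] [NumberField K] (C : Subgroup (K ≃ₐ[ℚ] K))

/-- The Minkowski map `ℤ[∞_K] → O_K^×`. -/
noncomputable def minkMap (u : InfinitePlace K → (𝓞 K)ˣ) :
    (InfinitePlace K → ℤ) →+ Additive (𝓞 K)ˣ where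
  toFun a := Additive.ofMul (∏ w, u w ^ a w)
  map_zero' := by simp
  map_add' a b := by
    rw [← ofMul_mul, ← Finset.prod_mul_distrib]
    congr 1
    refine Finset.prod_congr rfl fun w _ => ?_
    rw [Pi.add_apply, zpow_add]

theorem minkMap_apply (u : InfinitePlace K → (𝓞 K)ˣ) (a : InfinitePlace K → ℤ) :
    Additive.toMul (minkMap K u a) = ∏ w, u w ^ a w := rfl

theorem minkMap_equivariant (u : InfinitePlace K → (𝓞 K)ˣ)
    (hu : ∀ (σ : K ≃ₐ[ℚ] K) (w : InfinitePlace K), u (σ • w) = actU K σ (u w))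
    (c : C) (a : InfinitePlace K → ℤ) :
    minkMap K u (funPerm ℤ C (InfinitePlace K) c a) = unitsRep K C c (minkMap K u a) := by
  apply Additive.toMul.injective
  rw [unitsRep_apply, minkMap_apply, minkMap_apply, map_prod]
  calc ∏ w, u w ^ (funPerm ℤ C (InfinitePlace K) c a) w
      = ∏ w, u ((c : K ≃ₐ[ℚ] K) • w) ^ a w := by
        refine (Fintype.prod_equiv (MulAction.toPerm (c : K ≃ₐ[ℚ] K)) _ _ fun w => ?_).symm
        rw [funPerm_apply, MulAction.toPerm_apply]
        congr 2
        show w = c⁻¹ • ((c : K ≃ₐ[ℚ] K) • w)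
        rw [Subgroup.smul_def, Subgroup.coe_inv, inv_smul_smul]
    _ = ∏ w, actU K (c : K ≃ₐ[ℚ] K) (u w ^ a w) := by
        refine Finset.prod_congr rfl fun w _ => ?_
        rw [hu, map_zpow]

theorem finite_quotient_minkMap_range (u : InfinitePlace K → (𝓞 K)ˣ)
    (hfi : (Subgroup.closure (Set.range u)).FiniteIndex) :
    Finite (Additive (𝓞 K)ˣ ⧸ (minkMap K u).range) := by
  classical
  have hle : (Subgroup.closure (Set.range u)).toAddSubgroup ≤ (minkMap K u).range := by
    intro x hx
    have hx' : Additive.toMul x ∈ Subgroup.closure (Set.range u) := hx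
    have hcl : Subgroup.closure (Set.range u) ≤ (minkMap K u).range.toSubgroup' := by
      rw [Subgroup.closure_le]
      rintro _ ⟨w, rfl⟩
      refine ⟨Pi.single w 1, ?_⟩
      apply Additive.toMul.injective
      rw [minkMap_apply]
      rw [Finset.prod_eq_single w]
      · rw [Pi.single_eq_same, zpow_one]; rfl
      · intro w' _ hw'
        rw [Pi.single_eq_of_ne hw', zpow_zero]
      · intro h; exact absurd (Finset.mem_univ w) h
    exact hcl hx'
  have h1 : (Subgroup.closure (Set.range u)).toAddSubgroup.FiniteIndex := by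
    constructor
    rw [Subgroup.index_toAddSubgroup]
    exact hfi.index_ne_zero
  have h2 : (minkMap K u).range.FiniteIndex := AddSubgroup.finiteIndex_of_le hle
  exact AddSubgroup.finite_quotient_of_finiteIndex

end minkowski



section minkowski2

variable (K : Type) [Field K] [NumberField K] [IsGalois ℚ K] (C : Subgroup (K ≃ₐ[ℚ] K))
variable (p : ℕ) [hp : Fact p.Prime] [Fintype C] [Invertible (Fintype.card C : ZMod p)]
  {P : Type*} [AddCommGroup P] [Module (ZMod p) P] [FiniteDimensional (ZMod p) P]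
  (ρP : Representation (ZMod p) C P)

/-- **`h_P(O_K^×) = μ_P(𝔽_p[∞_K]) − μ_P(𝔽_p)`.** -/
theorem hP_unitsRep :
    hP p ρP (unitsRep K C) =
      (muP ρP (funPerm (ZMod p) C (InfinitePlace K)) : ℤ) - muP ρP (funPerm (ZMod p) C PUnit.{1}) := by
  classical
  obtain ⟨u, hu, hneg⟩ := exists_equivariant_family (K := K)
  have hrel := int_relations u hu hneg
  have hepos := orderOf_prod_family_pos u hu
  have hfi := finiteIndex_closure_family u hu hneg
  set e : ℕ := orderOf (∏ w, u w) with he
  -- the map `ℤ → ℤ[∞_K]`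
  let φ : (PUnit → ℤ) →+ (InfinitePlace K → ℤ) :=
    { toFun := fun b _ => (e : ℤ) * b PUnit.unit
      map_zero' := by ext w; simp
      map_add' := fun b b' => by ext w; simp [mul_add] }
  have hfin := finite_quotient_minkMap_range K u hfi
  obtain ⟨-, h⟩ := hP_exact_finite_coker p ρP (funPerm ℤ C PUnit) (funPerm ℤ C (InfinitePlace K))
    (unitsRep K C) φ (minkMap K u)
    (fun c b => by
      ext w
      show (e : ℤ) * (funPerm ℤ C PUnit c b) PUnit.unit = (φ b) (c⁻¹ • w)
      rfl)
    (fun c a => minkMap_equivariant K C u hu c a)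
    (fun b b' hbb' => by
      ext x
      have h1 := congrFun hbb' (Classical.arbitrary (InfinitePlace K))
      have h2 : (e : ℤ) * b PUnit.unit = (e : ℤ) * b' PUnit.unit := h1
      have h3 : (e : ℤ) ≠ 0 := by exact_mod_cast hepos.ne'
      cases x
      exact mul_left_cancel₀ h3 h2)
    (fun a => by
      have h1 : minkMap K u a = 0 ↔ ∏ w, u w ^ a w = 1 := by
        constructor
        · intro h; exact congrArg Additive.toMul h
        · intro h; exact congrArg Additive.ofMul h
      rw [h1, hrel a]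
      constructor
      · rintro ⟨n, hn⟩
        refine ⟨fun _ => n, ?_⟩
        ext w
        exact (hn w).symm
      · rintro ⟨b, rfl⟩
        exact ⟨b PUnit.unit, fun w => rfl⟩)
    hfin
  rw [h, hP_funPerm, hP_funPerm]

end minkowski2



section divisor

variable (K : Type) [Field K] [NumberField K] (C : Subgroup (K ≃ₐ[ℚ] K))
variable (TK : Finset (HeightOneSpectrum (𝓞 K))) (hTK : ∀ σ ∈ C, ∀ P ∈ TK, σ • P ∈ TK)

/-- The divisor map on the `TK`-units. -/
noncomputable def divMap :
    Additive (sUnits K (TK : Set (HeightOneSpectrum (𝓞 K)))) →+ (↥TK → ℤ) where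
  toFun x P := ordAt K P.1 (Additive.toMul x).1
  map_zero' := by
    ext P
    exact ordAt_one K P.1
  map_add' x y := by
    ext P
    exact ordAt_mul K P.1 _ _

theorem divMap_apply (x : Additive (sUnits K (TK : Set (HeightOneSpectrum (𝓞 K))))) (P : ↥TK) :
    divMap K TK x P = ordAt K P.1 (Additive.toMul x).1 := rfl

/-- The units of `𝓞 K` as `TK`-units. -/
noncomputable def unitsToS :
    Additive (𝓞 K)ˣ →+ Additive (sUnits K (TK : Set (HeightOneSpectrum (𝓞 K)))) where
  toFun u := Additive.ofMul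
    ⟨unitsToField K (Additive.toMul u), fun P _ => ordAt_unitsToField K P _⟩
  map_zero' := by
    apply congrArg Additive.ofMul
    apply Subtype.ext
    exact map_one (unitsToField K)
  map_add' u v := by
    apply congrArg Additive.ofMul
    apply Subtype.ext
    exact map_mul (unitsToField K) _ _

theorem coe_unitsToS (u : Additive (𝓞 K)ˣ) :
    ((Additive.toMul (unitsToS K TK u)).1 : Kˣ) = unitsToField K (Additive.toMul u) := rfl

theorem unitsToS_injective : Function.Injective (unitsToS K TK) := by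
  intro u v h
  apply Additive.toMul.injective
  apply unitsToField_injective K
  have := congrArg (fun z => ((Additive.toMul z).1 : Kˣ)) h
  exact this

theorem unitsToS_equivariant (c : C) (u : Additive (𝓞 K)ˣ) :
    unitsToS K TK (unitsRep K C c u) = sUnitsRep K C TK hTK c (unitsToS K TK u) := by
  apply Additive.toMul.injective
  apply Subtype.ext
  rw [sUnitsRep_apply, coe_unitsToS, coe_unitsToS, unitsRep_apply, unitsToField_actU]

theorem divMap_equivariant (c : C)
    (x : Additive (sUnits K (TK : Set (HeightOneSpectrum (𝓞 K))))) :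
    divMap K TK (sUnitsRep K C TK hTK c x) =
      @funPerm ℤ _ C _ ↥TK (tkAction K C TK hTK) c (divMap K TK x) := by
  letI := tkAction K C TK hTK
  ext P
  rw [funPerm_apply, divMap_apply, divMap_apply, sUnitsRep_apply, ordAt_smul_field]
  rfl

theorem divMap_exact (x : Additive (sUnits K (TK : Set (HeightOneSpectrum (𝓞 K))))) :
    divMap K TK x = 0 ↔ ∃ u, unitsToS K TK u = x := by
  classical
  constructor
  · intro h
    have hall : ∀ P : HeightOneSpectrum (𝓞 K), ordAt K P (Additive.toMul x).1 = 0 := by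
      intro P
      by_cases hP : P ∈ TK
      · exact congrFun h ⟨P, hP⟩
      · exact (Additive.toMul x).2 P hP
    obtain ⟨u, hu⟩ := exists_unitsToField_eq K _ hall
    refine ⟨Additive.ofMul u, ?_⟩
    apply Additive.toMul.injective
    apply Subtype.ext
    exact hu
  · rintro ⟨u, rfl⟩
    ext P
    exact ordAt_unitsToField K P.1 _

theorem finite_quotient_divMap_range : Finite ((↥TK → ℤ) ⧸ (divMap K TK).range) := by
  classical
  have hex : ∀ P : ↥TK, ∃ (h : ℕ) (x : Kˣ), 0 < h ∧ ordAt K P.1 x = (h : ℤ) ∧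
      ∀ P' : HeightOneSpectrum (𝓞 K), P' ≠ P.1 → ordAt K P' x = 0 :=
    fun P => exists_count_eq_single K P.1
  choose h x hpos hPx hP'x using hex
  have hmem : ∀ P : ↥TK, x P ∈ sUnits K (TK : Set (HeightOneSpectrum (𝓞 K))) := by
    intro P P' hP'
    refine hP'x P P' ?_
    rintro rfl
    exact hP' P.2
  set N : ℕ := ∏ P : ↥TK, h P with hN
  have hNpos : N ≠ 0 := by
    rw [hN]
    exact Finset.prod_ne_zero_iff.mpr fun P _ => (hpos P).ne'
  have hdvd : ∀ P : ↥TK, (h P : ℤ) ∣ (N : ℤ) := by
    intro P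
    rw [hN]
    exact_mod_cast Finset.dvd_prod_of_mem h (Finset.mem_univ P)
  have hrange : ∀ a : ↥TK → ℤ, N • a ∈ (divMap K TK).range := by
    intro a
    refine ⟨Additive.ofMul (∏ P : ↥TK, (⟨x P, hmem P⟩ : sUnits K _) ^ ((N : ℤ) / h P * a P)), ?_⟩
    ext Q
    rw [divMap_apply, toMul_ofMul, Subgroup.val_finsetProd, ordAt_prod]
    rw [Finset.sum_eq_single Q]
    · rw [Subgroup.coe_zpow, ordAt_zpow, hPx Q, Pi.smul_apply, nsmul_eq_mul]
      obtain ⟨d, hd⟩ := hdvd Q
      rw [hd, Int.mul_ediv_cancel_left _ (by exact_mod_cast (hpos Q).ne')]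
      ring
    · intro P _ hPQ
      rw [Subgroup.coe_zpow, ordAt_zpow, hP'x P Q.1 (fun hh => hPQ (Subtype.ext hh).symm), mul_zero]
    · intro hh; exact absurd (Finset.mem_univ Q) hh
  refine finite_of_fg_of_killed_nat N hNpos ?_
  intro q
  obtain ⟨a, rfl⟩ := QuotientAddGroup.mk'_surjective _ q
  rw [← map_nsmul, QuotientAddGroup.mk'_apply, QuotientAddGroup.eq_zero_iff]
  exact hrange a

end divisor



section final

variable (K : Type) [Field K] [NumberField K] [IsGalois ℚ K] (C : Subgroup (K ≃ₐ[ℚ] K))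
variable (TK : Finset (HeightOneSpectrum (𝓞 K))) (hTK : ∀ σ ∈ C, ∀ P ∈ TK, σ • P ∈ TK)
variable (p : ℕ) [hp : Fact p.Prime] [Fintype C] [Invertible (Fintype.card C : ZMod p)]
  {P : Type*} [AddCommGroup P] [Module (ZMod p) P] [FiniteDimensional (ZMod p) P]
  (ρP : Representation (ZMod p) C P)

/-- **(A-units): the equivariant `S`-unit theorem mod `p`.**
`h_P(E_T(K)) = μ_P(𝔽_p[T_K]) + μ_P(𝔽_p[∞_K]) − μ_P(𝔽_p)`, and `E_T(K)` is finitely generated. -/
theorem hP_sUnitsRep :
    Module.Finite ℤ (Additive (sUnits K (TK : Set (HeightOneSpectrum (𝓞 K))))) ∧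
    hP p ρP (sUnitsRep K C TK hTK) =
      (muP ρP (@funPerm (ZMod p) _ C _ ↥TK (tkAction K C TK hTK)) : ℤ) +
        muP ρP (funPerm (ZMod p) C (InfinitePlace K)) - muP ρP (funPerm (ZMod p) C PUnit.{1}) := by
  letI := tkAction K C TK hTK
  obtain ⟨hfg, h⟩ := hP_exact_finite_coker p ρP (unitsRep K C) (sUnitsRep K C TK hTK)
    (funPerm ℤ C ↥TK) (unitsToS K TK) (divMap K TK)
    (unitsToS_equivariant K C TK hTK) (divMap_equivariant K C TK hTK)
    (unitsToS_injective K TK) (divMap_exact K TK) (finite_quotient_divMap_range K TK)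
  refine ⟨hfg, ?_⟩
  rw [hP_funPerm, hP_unitsRep K C p ρP] at h
  linarith

omit [IsGalois ℚ K] in
/-- The `TK`-units are finitely generated. -/
theorem fg_sUnits : Module.Finite ℤ (Additive (sUnits K (TK : Set (HeightOneSpectrum (𝓞 K))))) := by
  haveI := fg_addSubgroup (divMap K TK).range
  refine Module.Finite.of_exact (f := (unitsToS K TK).toIntLinearMap)
    (g := (divMap K TK).rangeRestrict.toIntLinearMap) ?_ (divMap K TK).rangeRestrict_surjective
  intro x
  constructor
  · intro h
    have h' : divMap K TK x = 0 := congrArg Subtype.val h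
    exact (divMap_exact K TK x).1 h'
  · rintro ⟨u, rfl⟩
    apply Subtype.ext
    exact (divMap_exact K TK _).2 ⟨u, rfl⟩

omit [IsGalois ℚ K] in
theorem finite_torsP_sUnits :
    Finite (torsP p (Additive (sUnits K (TK : Set (HeightOneSpectrum (𝓞 K)))))) := by
  haveI := fg_sUnits K TK
  exact finite_torsP_of_fg p _

omit [IsGalois ℚ K] in
theorem finite_cot_sUnits :
    Finite (Cot p (Additive (sUnits K (TK : Set (HeightOneSpectrum (𝓞 K)))))) := by
  haveI := fg_sUnits K TK
  exact finite_cot_of_fg p _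

end final

end Fermat.Agent.W56.EquivUnits0
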