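/-
W56 / (EC-5) / (Mackey), abstract form (lead).

`G` a finite group, `ω : G →* (ZMod p)ˣ` (`p` odd), `c̄ ∈ G` with `c̄² = 1`, `ω c̄ = -1`;
`Y` a transitive `G`-set with a base point `y₀` whose stabiliser is `{1, c̄}` (the infinite places of
a totally complex Galois number field); `C ≤ G` a subgroup of order prime to `p`, `(P, ρP)` a finite
`𝔽_p[C]`-module, `N = Hom(P, 𝔽_p(ω))` (`dualTw`), `X = Coind_C^G N` (`coindFn`, functions
`f : G → N` with `f (c g) = c • f g`, `G` acting by right translation).  Then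

  `dim X - dim X^{c̄} = μ_P(𝔽_p[Y])`      (`finrank_coind_sub_fixed`),

`𝔽_p[Y] = funPerm (ZMod p) C Y` (functions on `Y`, `(c • a) y = a (c⁻¹ • y)`), `μ_P = MuP4.muP`.
The proof is an explicit isomorphism `X^{c̄ = -1} ≃ Hom_C(P, 𝔽_p[Y])`, `f ↦ (x ↦ (g y₀ ↦ ω(g)⁻¹ f(g)(x)))`.
-/
import Mathlib
import Fermat.Agent.W56.EquivUnits0C

set_option autoImplicit false
set_option linter.unusedSectionVars false
set_option linter.style.haveILetI false

namespace Fermat.Agent.W56.MackeyArch0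

open Fermat.Agent.W56.MuP4 Fermat.Agent.W56.EquivUnits0

variable {p : ℕ} [hp : Fact p.Prime]
variable {G : Type*} [Group G] (ω : G →* (ZMod p)ˣ) (C : Subgroup G)
variable {P : Type*} [AddCommGroup P] [Module (ZMod p) P] (ρP : Representation (ZMod p) C P)

/-- `Hom(P, 𝔽_p(ω))`: the dual of `P` twisted by `ω`. -/
def dualTw : Representation (ZMod p) C (Module.Dual (ZMod p) P) where
  toFun c :=
    { toFun := fun ν => ((ω (c : G) : (ZMod p)ˣ) : ZMod p) • ν.comp (ρP c⁻¹)
      map_add' := fun ν ν' => by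
        ext x
        simp [mul_add]
      map_smul' := fun r ν => by
        ext x
        simp [mul_left_comm] }
  map_one' := by
    ext ν x
    simp
  map_mul' c d := by
    ext ν x
    simp [mul_assoc]
    ring

theorem dualTw_apply (c : C) (ν : Module.Dual (ZMod p) P) (x : P) :
    dualTw ω C ρP c ν x = ((ω (c : G) : (ZMod p)ˣ) : ZMod p) * ν (ρP c⁻¹ x) := rfl

/-- `Coind_C^G Hom(P, 𝔽_p(ω))` as a space of functions. -/
def coindFn : Submodule (ZMod p) (G → Module.Dual (ZMod p) P) where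
  carrier := {f | ∀ (c : C) (g : G), f ((c : G) * g) = dualTw ω C ρP c (f g)}
  add_mem' := by
    intro f f' hf hf' c g
    rw [Pi.add_apply, Pi.add_apply, hf c g, hf' c g, map_add]
  zero_mem' := by
    intro c g
    simp
  smul_mem' := by
    intro r f hf c g
    rw [Pi.smul_apply, Pi.smul_apply, hf c g, map_smul]

variable (cbar : G)

/-- the functions fixed by right translation by `c̄`. -/
def fixFn : Submodule (ZMod p) (G → Module.Dual (ZMod p) P) where
  carrier := {f | ∀ g : G, f (g * cbar) = f g}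
  add_mem' := by
    intro f f' hf hf' g
    rw [Pi.add_apply, Pi.add_apply, hf g, hf' g]
  zero_mem' := fun g => rfl
  smul_mem' := by
    intro r f hf g
    rw [Pi.smul_apply, Pi.smul_apply, hf g]

/-- the functions negated by right translation by `c̄`. -/
def negFn : Submodule (ZMod p) (G → Module.Dual (ZMod p) P) where
  carrier := {f | ∀ g : G, f (g * cbar) = - f g}
  add_mem' := by
    intro f f' hf hf' g
    rw [Pi.add_apply, Pi.add_apply, hf g, hf' g, neg_add]
  zero_mem' := fun g => by simp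
  smul_mem' := by
    intro r f hf g
    rw [Pi.smul_apply, Pi.smul_apply, hf g, smul_neg]

/-- `X^{c̄ = 1}`. -/
def coindPlus : Submodule (ZMod p) (G → Module.Dual (ZMod p) P) :=
  coindFn ω C ρP ⊓ fixFn (P := P) cbar

/-- `X^{c̄ = -1}`. -/
def coindMinus : Submodule (ZMod p) (G → Module.Dual (ZMod p) P) :=
  coindFn ω C ρP ⊓ negFn (P := P) cbar



section splitting

variable (hp2 : p ≠ 2) (hc2 : cbar * cbar = 1)

include hp2 in
theorem two_ne_zero_zmod : (2 : ZMod p) ≠ 0 := by
  intro h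
  have h1 : ((2 : ℕ) : ZMod p) = 0 := by exact_mod_cast h
  rw [ZMod.natCast_eq_zero_iff] at h1
  have := (Nat.prime_dvd_prime_iff_eq hp.out Nat.prime_two).1 h1
  exact hp2 this

include hp2 in
theorem coindPlus_inf_coindMinus : coindPlus ω C ρP cbar ⊓ coindMinus ω C ρP cbar = ⊥ := by
  rw [eq_bot_iff]
  rintro f ⟨⟨-, hplus⟩, ⟨-, hminus⟩⟩
  rw [Submodule.mem_bot]
  funext g
  have h1 : f (g * cbar) = f g := hplus g
  have h2 : f (g * cbar) = - f g := hminus g
  have h3 : (2 : ZMod p) • f g = 0 := by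
    rw [two_smul]
    have : f g = - f g := h1.symm.trans h2
    nth_rewrite 1 [this]
    exact neg_add_cancel _
  rcases smul_eq_zero.mp h3 with h | h
  · exact absurd h (two_ne_zero_zmod hp2)
  · exact h

/-- right translation by `c̄` preserves `Coind`. -/
theorem translate_mem {f : G → Module.Dual (ZMod p) P} (hf : f ∈ coindFn ω C ρP) :
    (fun g => f (g * cbar)) ∈ coindFn ω C ρP := by
  intro c g
  show f ((c : G) * g * cbar) = _
  rw [mul_assoc, hf c (g * cbar)]

include hp2 hc2 in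
theorem coindPlus_sup_coindMinus :
    coindPlus ω C ρP cbar ⊔ coindMinus ω C ρP cbar = coindFn ω C ρP := by
  apply le_antisymm
  · exact sup_le inf_le_left inf_le_left
  · intro f hf
    have h2 := two_ne_zero_zmod (p := p) hp2
    set Tf : G → Module.Dual (ZMod p) P := fun g => f (g * cbar) with hT
    have hTf : Tf ∈ coindFn ω C ρP := translate_mem ω C ρP cbar hf
    have hTT : ∀ g, Tf (g * cbar) = f g := by
      intro g
      show f (g * cbar * cbar) = f g
      rw [mul_assoc, hc2, mul_one]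
    rw [Submodule.mem_sup]
    refine ⟨(2 : ZMod p)⁻¹ • (f + Tf), ⟨?_, ?_⟩, (2 : ZMod p)⁻¹ • (f - Tf), ⟨?_, ?_⟩, ?_⟩
    · exact Submodule.smul_mem _ _ (Submodule.add_mem _ hf hTf)
    · intro g
      show (2 : ZMod p)⁻¹ • (f (g * cbar) + Tf (g * cbar)) = (2 : ZMod p)⁻¹ • (f g + Tf g)
      rw [hTT g, add_comm]
    · exact Submodule.smul_mem _ _ (Submodule.sub_mem _ hf hTf)
    · intro g
      show (2 : ZMod p)⁻¹ • (f (g * cbar) - Tf (g * cbar)) = - ((2 : ZMod p)⁻¹ • (f g - Tf g))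
      rw [hTT g]
      show (2 : ZMod p)⁻¹ • (Tf g - f g) = - ((2 : ZMod p)⁻¹ • (f g - Tf g))
      rw [smul_sub, smul_sub, neg_sub]
    · rw [← smul_add, add_add_sub_cancel, ← two_smul (ZMod p) f, smul_smul, inv_mul_cancel₀ h2,
        one_smul]

include hp2 hc2 in
/-- `dim X = dim X^{c̄ = 1} + dim X^{c̄ = -1}`. -/
theorem finrank_coindFn [Finite G] [FiniteDimensional (ZMod p) P] :
    Module.finrank (ZMod p) (coindFn ω C ρP) =
      Module.finrank (ZMod p) (coindPlus ω C ρP cbar) +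
        Module.finrank (ZMod p) (coindMinus ω C ρP cbar) := by
  haveI : Fintype G := Fintype.ofFinite G
  have h := Submodule.finrank_sup_add_finrank_inf_eq (coindPlus ω C ρP cbar)
    (coindMinus ω C ρP cbar)
  rw [coindPlus_sup_coindMinus ω C ρP cbar hp2 hc2, coindPlus_inf_coindMinus ω C ρP cbar hp2,
    finrank_bot, add_zero] at h
  exact h

end splitting



section iso

variable {Y : Type*} [MulAction G Y] (y₀ : Y)
  (hstab : ∀ g : G, g • y₀ = y₀ ↔ g = 1 ∨ g = cbar)
  (hωc : ω cbar = -1)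

/-- the coefficient `ω(g)` in `𝔽_p`. -/
def om (g : G) : ZMod p := ((ω g : (ZMod p)ˣ) : ZMod p)

theorem om_mul (g h : G) : om ω (g * h) = om ω g * om ω h := by
  unfold om; rw [map_mul, Units.val_mul]

theorem om_ne_zero (g : G) : om ω g ≠ 0 := Units.ne_zero _

theorem om_inv (g : G) : om ω g⁻¹ = (om ω g)⁻¹ := by
  unfold om; rw [map_inv, Units.val_inv_eq_inv_val]

include hωc in
theorem om_cbar : om ω cbar = -1 := by
  unfold om; rw [hωc]; simp

include hstab hωc in
/-- the key independence: `ω(g)⁻¹ f(g)` only depends on `g • y₀` for `f ∈ X^{c̄ = -1}`. -/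
theorem key_indep {f : G → Module.Dual (ZMod p) P} (hf : f ∈ negFn (P := P) cbar) {g g' : G}
    (h : g • y₀ = g' • y₀) : (om ω g)⁻¹ • f g = (om ω g')⁻¹ • f g' := by
  have h1 : (g⁻¹ * g') • y₀ = y₀ := by
    rw [mul_smul, ← h, inv_smul_smul]
  rcases (hstab _).1 h1 with h2 | h2
  · have : g' = g := by
      have := congrArg (fun z => g * z) h2
      simpa using this
    rw [this]
  · have : g' = g * cbar := by
      have := congrArg (fun z => g * z) h2
      simpa using this
    rw [this, hf g, om_mul, om_cbar ω cbar hωc, mul_neg_one, inv_neg, smul_neg, neg_smul, neg_neg]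

end iso



section iso2

variable {Y : Type*} [MulAction G Y] (y₀ : Y)
  (hstab : ∀ g : G, g • y₀ = y₀ ↔ g = 1 ∨ g = cbar)
  (hωc : ω cbar = -1)
  (sec : Y → G) (hsec : ∀ y, sec y • y₀ = y)

/-- `f ↦ (x ↦ (y ↦ ω(g_y)⁻¹ f(g_y)(x)))`. -/
def toPsi (f : G → Module.Dual (ZMod p) P) : P →ₗ[ZMod p] (Y → ZMod p) where
  toFun x := fun y => (om ω (sec y))⁻¹ * f (sec y) x
  map_add' x x' := by
    funext y
    simp [mul_add]
  map_smul' r x := by
    funext y
    simp [mul_left_comm]

theorem toPsi_apply (f : G → Module.Dual (ZMod p) P) (x : P) (y : Y) :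
    toPsi ω sec f x y = (om ω (sec y))⁻¹ * f (sec y) x := rfl

/-- `Ψ ↦ (g ↦ (x ↦ ω(g) Ψ(x)(g y₀)))`. -/
def fromPsi (Ψ : P →ₗ[ZMod p] (Y → ZMod p)) : G → Module.Dual (ZMod p) P := fun g =>
  { toFun := fun x => om ω g * Ψ x (g • y₀)
    map_add' := fun x x' => by simp [mul_add]
    map_smul' := fun r x => by simp [mul_left_comm] }

theorem fromPsi_apply (Ψ : P →ₗ[ZMod p] (Y → ZMod p)) (g : G) (x : P) :
    fromPsi ω y₀ Ψ g x = om ω g * Ψ x (g • y₀) := rfl

include hstab hωc hsec in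
theorem toPsi_eq {f : G → Module.Dual (ZMod p) P} (hf : f ∈ negFn (P := P) cbar) (g : G) (x : P) :
    toPsi ω sec f x (g • y₀) = (om ω g)⁻¹ * f g x := by
  rw [toPsi_apply]
  have h := key_indep ω cbar y₀ hstab hωc hf (g := sec (g • y₀)) (g' := g) (hsec _)
  have h2 := LinearMap.congr_fun h x
  simpa using h2

variable [Fintype C] [Invertible (Fintype.card C : ZMod p)]

include hstab hωc hsec in
theorem toPsi_mem {f : G → Module.Dual (ZMod p) P} (hf : f ∈ coindMinus ω C ρP cbar) :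
    toPsi ω sec f ∈ homC ρP (funPerm (ZMod p) C Y) := by
  rw [mem_homC_iff]
  intro c x
  funext y
  rw [funPerm_apply]
  obtain ⟨hf1, hf2⟩ := hf
  -- write `y = g • y₀`
  have hy : y = sec y • y₀ := (hsec y).symm
  set g := sec y with hg
  have h1 : c⁻¹ • y = ((c : G)⁻¹ * g) • y₀ := by
    rw [mul_smul, ← hy]; rfl
  rw [h1, toPsi_eq ω cbar y₀ hstab hωc sec hsec hf2, hy,
    toPsi_eq ω cbar y₀ hstab hωc sec hsec hf2]
  have h2 : f ((c : G)⁻¹ * g) = dualTw ω C ρP c⁻¹ (f g) := hf1 c⁻¹ g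
  rw [h2, dualTw_apply, inv_inv, om_mul, om_inv]
  have hc0 := om_ne_zero ω (c : G)
  have hg0 := om_ne_zero ω g
  show _ = ((om ω (c : G))⁻¹ * om ω g)⁻¹ * (om ω ((c⁻¹ : C) : G) * f g (ρP c x))
  rw [Subgroup.coe_inv, om_inv]
  field_simp

include hωc in
theorem fromPsi_mem {Ψ : P →ₗ[ZMod p] (Y → ZMod p)} (hcy : cbar • y₀ = y₀)
    (hΨ : Ψ ∈ homC ρP (funPerm (ZMod p) C Y)) :
    fromPsi ω y₀ Ψ ∈ coindMinus ω C ρP cbar := by
  rw [mem_homC_iff] at hΨ
  refine ⟨?_, ?_⟩
  · intro c g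
    ext x
    rw [fromPsi_apply, dualTw_apply, fromPsi_apply, om_mul]
    have h1 := congrFun (hΨ c (ρP c⁻¹ x)) (((c : G) * g) • y₀)
    rw [funPerm_apply, ← Module.End.mul_apply, ← map_mul, mul_inv_cancel, map_one,
      Module.End.one_apply] at h1
    rw [h1]
    have h2 : c⁻¹ • (((c : G) * g) • y₀) = g • y₀ := by
      show (c : G)⁻¹ • (((c : G) * g) • y₀) = g • y₀
      rw [mul_smul, inv_smul_smul]
    rw [h2]
    show om ω (c : G) * om ω g * _ = om ω (c : G) * (om ω g * _)
    ring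
  · intro g
    ext x
    rw [LinearMap.neg_apply, fromPsi_apply, fromPsi_apply, mul_smul, hcy, om_mul,
      om_cbar ω cbar hωc]
    ring

end iso2



section final

variable {Y : Type*} [MulAction G Y] (y₀ : Y)
  (hstab : ∀ g : G, g • y₀ = y₀ ↔ g = 1 ∨ g = cbar)
  (hωc : ω cbar = -1)
  (htrans : ∀ y : Y, ∃ g : G, g • y₀ = y)
variable [Fintype C] [Invertible (Fintype.card C : ZMod p)]

include hstab hωc htrans in
/-- **`X^{c̄ = -1} ≃ Hom_C(P, 𝔽_p[Y])`.** -/
theorem nonempty_equiv :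
    Nonempty (↥(coindMinus ω C ρP cbar) ≃ₗ[ZMod p] ↥(homC ρP (funPerm (ZMod p) C Y))) := by
  classical
  choose sec hsec using htrans
  have hcy : cbar • y₀ = y₀ := (hstab cbar).2 (Or.inr rfl)
  refine ⟨
    { toFun := fun f => ⟨toPsi ω sec f.1, toPsi_mem ω C ρP cbar y₀ hstab hωc sec hsec f.2⟩
      map_add' := fun f f' => by
        apply Subtype.ext
        ext x y
        simp [toPsi_apply, mul_add]
      map_smul' := fun r f => by
        apply Subtype.ext
        ext x y
        simp [toPsi_apply, mul_left_comm]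
      invFun := fun Ψ => ⟨fromPsi ω y₀ Ψ.1, fromPsi_mem ω C ρP cbar y₀ hωc hcy Ψ.2⟩
      left_inv := fun f => by
        apply Subtype.ext
        funext g
        ext x
        show fromPsi ω y₀ (toPsi ω sec f.1) g x = f.1 g x
        rw [fromPsi_apply, toPsi_eq ω cbar y₀ hstab hωc sec hsec f.2.2, ← mul_assoc,
          mul_inv_cancel₀ (om_ne_zero ω g), one_mul]
      right_inv := fun Ψ => by
        apply Subtype.ext
        ext x y
        show toPsi ω sec (fromPsi ω y₀ Ψ.1) x y = Ψ.1 x y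
        rw [toPsi_apply, fromPsi_apply, hsec y, ← mul_assoc,
          inv_mul_cancel₀ (om_ne_zero ω (sec y)), one_mul] }⟩

variable (hp2 : p ≠ 2) (hc2 : cbar * cbar = 1)

include hstab hωc htrans hp2 hc2 in
/-- **(Mackey), abstract form**: `dim Coind_C^G N - dim (Coind_C^G N)^{c̄} = μ_P(𝔽_p[Y])`,
`N = Hom(P, 𝔽_p(ω))`. -/
theorem finrank_coind_sub_fixed [Finite G] [FiniteDimensional (ZMod p) P] :
    (Module.finrank (ZMod p) (coindFn ω C ρP) : ℤ) -
        Module.finrank (ZMod p) (coindPlus ω C ρP cbar) =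
      muP ρP (funPerm (ZMod p) C Y) := by
  obtain ⟨e⟩ := nonempty_equiv ω C ρP cbar y₀ hstab hωc htrans
  have h1 := finrank_coindFn ω C ρP cbar hp2 hc2
  have h2 : Module.finrank (ZMod p) (coindMinus ω C ρP cbar) = muP ρP (funPerm (ZMod p) C Y) :=
    e.finrank_eq
  rw [h1, ← h2]
  push_cast
  ring

end final

end Fermat.Agent.W56.MackeyArch0
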