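/-
W56 / (EC-5) / (Mackey), helper4's literal consumer form (lead).

`mackey_archTerm`: for a finite group `G`, `ω : G →* (ZMod p)ˣ` (`p` odd), `c̄² = 1`, `ω c̄ = -1`,
`C ≤ G` of order prime to `p`, `(N, σ)` a finite `𝔽_p[C]`-module:

  `archTerm c̄ (Coind_C^G N) = μ_P(𝔽_p[G / ⟨c̄⟩])`,   `P = Hom(N, 𝔽_p(ω)) = dualTw ω C σ`,

with Mathlib's `Representation.coind`, helper4's `ChiArch4.archTerm`, `MuP4.muP`, and the permutation
module `funPerm (ZMod p) C (G ⧸ zpowers c̄)`.  Deduced from `MackeyArch0.finrank_coind_sub_fixed` by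
double duality `N ≅ Hom(Hom(N, 𝔽_p(ω)), 𝔽_p(ω))`.
-/
import Mathlib
import Fermat.Agent.W56.ChiArch4
import Fermat.Agent.W56.MackeyArch0

set_option autoImplicit false
set_option linter.unusedSectionVars false
set_option linter.style.haveILetI false

namespace Fermat.Agent.W56.MackeyArch0

open Fermat.Agent.W56.MuP4 Fermat.Agent.W56.EquivUnits0 Fermat.Agent.W56.ChiArch4

variable {G : Type} [Group G] (p : ℕ) [hp : Fact p.Prime] (ω : G →* (ZMod p)ˣ) (C : Subgroup G)
  (N : Type) [AddCommGroup N] [Module (ZMod p) N] [Finite N] (σ : Representation (ZMod p) ↥C N)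

/-- double duality is equivariant: `Hom(Hom(N, 𝔽_p(ω)), 𝔽_p(ω)) ≅ N`. -/
theorem dualTw_dualTw_eval (c : C) (n : N) :
    dualTw ω C (dualTw ω C σ) c (Module.Dual.eval (ZMod p) N n) =
      Module.Dual.eval (ZMod p) N (σ c n) := by
  ext φ
  rw [dualTw_apply, Module.Dual.eval_apply, dualTw_apply, Module.Dual.eval_apply, inv_inv,
    Subgroup.coe_inv, map_inv, Units.val_inv_eq_inv_val, ← mul_assoc,
    mul_inv_cancel₀ (Units.ne_zero _), one_mul]

/-- `N ≃ N**`. -/
noncomputable def evE : N ≃ₗ[ZMod p] Module.Dual (ZMod p) (Module.Dual (ZMod p) N) :=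
  haveI : Module.Finite (ZMod p) N := Module.Finite.of_finite
  Module.evalEquiv (ZMod p) N

theorem evE_apply (n : N) : evE p N n = Module.Dual.eval (ZMod p) N n := by
  unfold evE
  rfl

/-- functions with values in `N` and in `N**`. -/
noncomputable def funE : (G → N) ≃ₗ[ZMod p] (G → Module.Dual (ZMod p) (Module.Dual (ZMod p) N)) :=
  LinearEquiv.piCongrRight fun _ => evE p N

theorem funE_apply (f : G → N) (g : G) : funE p N f g = evE p N (f g) := rfl

theorem map_coindV :
    (Representation.coindV C.subtype σ).map (funE (G := G) p N).toLinearMap =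
      coindFn ω C (dualTw ω C σ) := by
  ext F
  constructor
  · rintro ⟨f, hf, rfl⟩
    intro c g
    show funE p N f ((c : G) * g) = dualTw ω C (dualTw ω C σ) c (funE p N f g)
    rw [funE_apply, funE_apply, evE_apply, evE_apply, dualTw_dualTw_eval]
    congr 1
    exact hf c g
  · intro hF
    refine ⟨(funE (G := G) p N).symm F, ?_, (funE (G := G) p N).apply_symm_apply F⟩
    intro c g
    apply (evE p N).injective
    have h1 : ∀ g', evE p N ((funE (G := G) p N).symm F g') = F g' := by
      intro g'
      have := congrFun ((funE (G := G) p N).apply_symm_apply F) g'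
      rwa [funE_apply] at this
    rw [h1, evE_apply, ← dualTw_dualTw_eval, ← evE_apply, h1]
    exact hF c g


variable (cbar : G)

theorem coind_ρ_apply (f : Representation.coindV C.subtype σ) (g : G) :
    ((Rep.of (Representation.coind C.subtype σ)).ρ cbar f : Representation.coindV C.subtype σ).1 g
      = f.1 (g * cbar) := rfl

theorem map_fixedOf :
    ((fixedOf cbar (Rep.of (Representation.coind C.subtype σ))).map
        (Representation.coindV C.subtype σ).subtype).map (funE (G := G) p N).toLinearMap =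
      coindPlus ω C (dualTw ω C σ) cbar := by
  ext F
  constructor
  · rintro ⟨f, ⟨a, ha, rfl⟩, rfl⟩
    refine ⟨?_, ?_⟩
    · rw [← map_coindV p ω C N σ]
      exact ⟨a.1, a.2, rfl⟩
    · intro g
      show funE p N a.1 (g * cbar) = funE p N a.1 g
      rw [funE_apply, funE_apply]
      congr 1
      have h1 : (Rep.of (Representation.coind C.subtype σ)).ρ cbar a = a := ha
      have h2 := congrArg (fun z : Representation.coindV C.subtype σ => z.1 g) h1
      exact h2
  · rintro ⟨hF1, hF2⟩
    rw [← map_coindV p ω C N σ] at hF1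
    obtain ⟨f, hf, rfl⟩ := hF1
    refine ⟨f, ⟨⟨f, hf⟩, ?_, rfl⟩, rfl⟩
    show (Rep.of (Representation.coind C.subtype σ)).ρ cbar ⟨f, hf⟩ = ⟨f, hf⟩
    apply Subtype.ext
    funext g
    show f (g * cbar) = f g
    apply (evE p N).injective
    have := hF2 g
    exact this

variable (hp2 : p ≠ 2) (hcc : cbar * cbar = 1) (hω : ω cbar = -1)

include hp2 hcc hω in
/-- **(Mackey)** in helper4's literal form. -/
theorem mackey_archTerm [Finite G] [Fintype C] [Invertible (Fintype.card C : ZMod p)] :
    archTerm cbar (Rep.of (Representation.coind C.subtype σ)) =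
      (muP (dualTw ω C σ) (funPerm (ZMod p) ↥C (G ⧸ Subgroup.zpowers cbar)) : ℤ) := by
  haveI : Module.Finite (ZMod p) N := Module.Finite.of_finite
  have hstab : ∀ g : G, g • (QuotientGroup.mk 1 : G ⧸ Subgroup.zpowers cbar) = QuotientGroup.mk 1 ↔
      g = 1 ∨ g = cbar := by
    intro g
    rw [MulAction.Quotient.smul_mk, smul_eq_mul, mul_one, QuotientGroup.eq, mul_one,
      Subgroup.inv_mem_iff, Subgroup.mem_zpowers_iff]
    constructor
    · rintro ⟨k, hk⟩
      rcases Int.emod_two_eq_zero_or_one k with h | h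
      · left
        have : k = 2 * (k / 2) := by omega
        rw [← hk, this, zpow_mul, zpow_two, hcc, one_zpow]
      · right
        have : k = 2 * (k / 2) + 1 := by omega
        rw [← hk, this, zpow_add, zpow_mul, zpow_two, hcc, one_zpow, one_mul, zpow_one]
    · rintro (rfl | rfl)
      · exact ⟨0, zpow_zero _⟩
      · exact ⟨1, zpow_one _⟩
  have htrans : ∀ y : G ⧸ Subgroup.zpowers cbar, ∃ g : G, g • (QuotientGroup.mk 1 : G ⧸ _) = y := by
    intro y
    induction y using QuotientGroup.induction_on with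
    | H g => exact ⟨g, by rw [MulAction.Quotient.smul_mk, smul_eq_mul, mul_one]⟩
  have key := finrank_coind_sub_fixed ω C (dualTw ω C σ) cbar
    (QuotientGroup.mk 1 : G ⧸ Subgroup.zpowers cbar) hstab hω htrans hp2 hcc
  have h1 : Module.finrank (ZMod p) ↑(Rep.of (Representation.coind C.subtype σ)) =
      Module.finrank (ZMod p) (coindFn ω C (dualTw ω C σ)) := by
    rw [← map_coindV p ω C N σ]
    exact (LinearEquiv.finrank_map_eq (funE (G := G) p N) _).symm
  have h2 : Module.finrank (ZMod p) (fixedOf cbar (Rep.of (Representation.coind C.subtype σ))) =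
      Module.finrank (ZMod p) (coindPlus ω C (dualTw ω C σ) cbar) := by
    rw [← map_fixedOf p ω C N σ cbar, LinearEquiv.finrank_map_eq (funE (G := G) p N)]
    exact (Submodule.finrank_map_subtype_eq _ _).symm
  unfold archTerm
  rw [h1, h2]
  exact key

/-- **(Mackey)**, helper4's literal binder list (board 746(1)). -/
theorem mackey_archTerm_lit {G : Type} [Group G] [Finite G] (p : ℕ) [Fact p.Prime] (hp2 : p ≠ 2)
    (ω : G →* (ZMod p)ˣ) (cbar : G) (hcc : cbar * cbar = 1) (hω : ω cbar = -1)
    (C : Subgroup G) [Fintype C] [Invertible (Fintype.card C : ZMod p)]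
    (N : Type) [AddCommGroup N] [Module (ZMod p) N] [Finite N]
    (σ : Representation (ZMod p) ↥C N) :
    ChiArch4.archTerm cbar (Rep.of (Representation.coind C.subtype σ)) =
      (MuP4.muP (dualTw ω C σ) (funPerm (ZMod p) ↥C (G ⧸ Subgroup.zpowers cbar)) : ℤ) :=
  mackey_archTerm p ω C N σ cbar hp2 hcc hω

end Fermat.Agent.W56.MackeyArch0
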