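/-
W56 / (EC-5) / (Mackey) + (B3), lead.

* `mackey_archTerm_of_set` : the statement of `mackey_archTerm_lit` with `G ⧸ zpowers c̄` replaced by
  ANY transitive `G`-set `Y` with a base point `y₀` whose stabiliser is `{1, c̄}`:
    `archTerm c̄ (Coind_C^G N) = μ_P(𝔽_p[Y])`,   `P = Hom(N, 𝔽_p(ω)) = dualTw ω C σ`.
* `infinitePlace_smul_eq_iff`, `infinitePlace_exists_smul_eq` : for a number field `K`, Galois over
  `ℚ`, an embedding `φ₀ : K →+* ℂ` and `c̄ ∈ Gal(K/ℚ)` with `IsConj φ₀ c̄` (the complex conjugation at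
  `φ₀`), `InfinitePlace K` with Mathlib's action of `Gal(K/ℚ)` is such a set, `y₀ = mk φ₀`.
* `mackey_archTerm_infinitePlace` : hence
    `archTerm c̄ (Coind_C^G N) = μ_P(𝔽_p[InfinitePlace K])`,
  with EXACTLY the `funPerm (ZMod p) C (InfinitePlace K)` of `EquivUnits0.hP_sUnitsRep`.
-/
import Mathlib
import Fermat.Agent.W56.MackeyArch0B

set_option autoImplicit false
set_option linter.unusedSectionVars false
set_option linter.style.haveILetI false

namespace Fermat.Agent.W56.MackeyArch0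

open Fermat.Agent.W56.MuP4 Fermat.Agent.W56.EquivUnits0 Fermat.Agent.W56.ChiArch4

section general

variable {G : Type} [Group G] (p : ℕ) [hp : Fact p.Prime] (ω : G →* (ZMod p)ˣ) (C : Subgroup G)
  (N : Type) [AddCommGroup N] [Module (ZMod p) N] [Finite N] (σ : Representation (ZMod p) ↥C N)
  (cbar : G) {Y : Type*} [MulAction G Y] (y₀ : Y)

/-- **(Mackey)** for an arbitrary model `Y` of `G / ⟨c̄⟩`. -/
theorem mackey_archTerm_of_set [Finite G] [Fintype C] [Invertible (Fintype.card C : ZMod p)]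
    (hp2 : p ≠ 2) (hcc : cbar * cbar = 1) (hω : ω cbar = -1)
    (hstab : ∀ g : G, g • y₀ = y₀ ↔ g = 1 ∨ g = cbar) (htrans : ∀ y : Y, ∃ g : G, g • y₀ = y) :
    archTerm cbar (Rep.of (Representation.coind C.subtype σ)) =
      (muP (dualTw ω C σ) (funPerm (ZMod p) ↥C Y) : ℤ) := by
  haveI : Module.Finite (ZMod p) N := Module.Finite.of_finite
  have key := finrank_coind_sub_fixed ω C (dualTw ω C σ) cbar y₀ hstab hω htrans hp2 hcc
  have h1 : Module.finrank (ZMod p) ↑(Rep.of (Representation.coind C.subtype σ)) =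
      Module.finrank (ZMod p) (coindFn ω C (dualTw ω C σ)) := by
    rw [← map_coindV p ω C N σ]
    exact (LinearEquiv.finrank_map_eq (funE (G := G) p N) _).symm
  have h2 : Module.finrank (ZMod p) (fixedOf cbar (Rep.of (Representation.coind C.subtype σ))) =
      Module.finrank (ZMod p) (coindPlus ω C (dualTw ω C σ) cbar) := by
    rw [← map_fixedOf p ω C N σ cbar, LinearEquiv.finrank_map_eq (funE (G := G) p N)]
    exact (Submodule.finrank_map_subtype_eq _ _).symm
  unfold archTerm
  rw [h1, h2]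
  exact key

end general

section infinitePlace

open NumberField

variable {K : Type} [Field K] [NumberField K] [IsGalois ℚ K] (φ₀ : K →+* ℂ) (cbar : K ≃ₐ[ℚ] K)
  (hc : ComplexEmbedding.IsConj φ₀ cbar)

include hc in
/-- the stabiliser of the place of `φ₀` is `{1, c̄}`. -/
theorem infinitePlace_smul_eq_iff (g : K ≃ₐ[ℚ] K) :
    g • InfinitePlace.mk φ₀ = InfinitePlace.mk φ₀ ↔ g = 1 ∨ g = cbar := by
  rw [← MulAction.mem_stabilizer_iff, InfinitePlace.mem_stabilizer_mk_iff]
  constructor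
  · rintro (h | h)
    · exact Or.inl h
    · exact Or.inr (ComplexEmbedding.IsConj.ext h hc)
  · rintro (h | h)
    · exact Or.inl h
    · exact Or.inr (h ▸ hc)

/-- `Gal(K/ℚ)` is transitive on the infinite places. -/
theorem infinitePlace_exists_smul_eq (w₀ w : InfinitePlace K) : ∃ g : K ≃ₐ[ℚ] K, g • w₀ = w :=
  InfinitePlace.exists_smul_eq_of_comap_eq (Subsingleton.elim _ _)

variable (p : ℕ) [hp : Fact p.Prime] (ω : (K ≃ₐ[ℚ] K) →* (ZMod p)ˣ) (C : Subgroup (K ≃ₐ[ℚ] K))
  (N : Type) [AddCommGroup N] [Module (ZMod p) N] [Finite N] (σ : Representation (ZMod p) ↥C N)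

include hc in
/-- **(Mackey) + (B3)**: the archimedean term of `Coind_C^G N`, `G = Gal(K/ℚ)`, is the multiplicity
of `P = Hom(N, 𝔽_p(ω))` in `𝔽_p[InfinitePlace K]`. -/
theorem mackey_archTerm_infinitePlace [Fintype C] [Invertible (Fintype.card C : ZMod p)]
    (hp2 : p ≠ 2) (hω : ω cbar = -1) :
    archTerm cbar (Rep.of (Representation.coind C.subtype σ)) =
      (muP (dualTw ω C σ) (funPerm (ZMod p) ↥C (InfinitePlace K)) : ℤ) := by
  have hcc : cbar * cbar = 1 := by
    ext x
    exact ComplexEmbedding.isConj_apply_apply hc x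
  exact mackey_archTerm_of_set p ω C N σ cbar (InfinitePlace.mk φ₀) hp2 hcc hω
    (infinitePlace_smul_eq_iff φ₀ cbar hc) (infinitePlace_exists_smul_eq _)

end infinitePlace

end Fermat.Agent.W56.MackeyArch0
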