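/-
W56 / (EC-5) transport tools (lead).

* `muP_comp_equiv`, `hP_comp_equiv` : `μ_P` and `h_P` do not change when the acting group is
  replaced by an isomorphic one (`e : C' ≃* C`, all representations composed with `e`);
  `funPerm_comp_equiv` : the permutation module of a `C`-set `Y`, composed with `e`, is the
  permutation module of `Y` as a `C'`-set.
* `cycloChar_complexConjugation : cycloChar p complexConjugation = -1`.
* for a level `K : Lev T` (finite Galois over `ℚ` inside `ℚ̄`): `phi0 K : K.F →+* ℂ`, `cbarLev K` (the
  restriction of `complexConjugation`), `isConj_cbarLev`, `eLev_mk_complexConjugation`.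
-/
import Mathlib
import Fermat.Prelude.Def_GaloisRep_ComplexConjugation
import Fermat.Prelude.Def_ExtCitation_KummerBridge
import Fermat.Agent.ES.J.CycloChar8
import Fermat.Agent.PT.GLUE.LevelQuot13
import Fermat.Agent.W56.TorsSnake4
import Fermat.Agent.W56.EquivUnits0C

set_option autoImplicit false
set_option linter.unusedSectionVars false
set_option linter.style.haveILetI false

namespace Fermat.Agent.W56.QuotGal0

open Fermat.Agent.W56.MuP4 Fermat.Agent.W56.TorsSnake4 Fermat.Agent.W56.EquivUnits0

/-! ### Change of the acting group -/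

section Transport

variable {R : Type*} [CommRing R] {k : Type*} [Field k] {C C' : Type*} [Group C] [Group C']
  (e : C' ≃* C)

/-- the representation of `C'` obtained by transport along `e : C' ≃* C`. -/
abbrev reE {A : Type*} [AddCommGroup A] [Module R A] (ρ : Representation R C A) :
    Representation R C' A := MonoidHom.comp ρ (e : C' →* C)

theorem reE_apply {A : Type*} [AddCommGroup A] [Module R A] (ρ : Representation R C A) (c' : C') :
    reE e ρ c' = ρ (e c') := rfl

theorem invariants_reE {A : Type*} [AddCommGroup A] [Module k A]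
    (ρ : Representation k C A) : (reE e ρ).invariants = ρ.invariants := by
  ext a
  constructor
  · intro h c
    have := h (e.symm c)
    rwa [reE_apply, MulEquiv.apply_symm_apply] at this
  · intro h c'
    exact h (e c')

variable [Fintype C] [Invertible (Fintype.card C : k)] [Fintype C'] [Invertible (Fintype.card C' : k)]
  {P A : Type*} [AddCommGroup P] [Module k P] [AddCommGroup A] [Module k A]
  (ρP : Representation k C P) (ρA : Representation k C A)

/-- `μ_P` is invariant under a change of the acting group. -/
theorem muP_reE : muP (reE e ρP) (reE e ρA) = muP ρP ρA := by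
  unfold muP dimInv
  have h : Representation.linHom (reE e ρP) (reE e ρA) = reE e (Representation.linHom ρP ρA) := by
    ext c' f x
    simp [Representation.linHom_apply, reE_apply]
  rw [h, invariants_reE]

end Transport

section TransportH

variable {p : ℕ} [hp : Fact p.Prime] {C C' : Type*} [Group C] [Group C'] (e : C' ≃* C)
  [Fintype C] [Invertible (Fintype.card C : ZMod p)] [Fintype C']
  [Invertible (Fintype.card C' : ZMod p)]
  {P : Type*} [AddCommGroup P] [Module (ZMod p) P] [FiniteDimensional (ZMod p) P]
  (ρP : Representation (ZMod p) C P) {A : Type*} [AddCommGroup A] (ρ : Representation ℤ C A)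

/-- `h_P` is invariant under a change of the acting group. -/
theorem hP_reE : hP p (reE e ρP) (reE e ρ) = hP p ρP ρ := by
  unfold hP
  have h1 : cotRep p (reE e ρ) = reE e (cotRep p ρ) := rfl
  have h2 : torsRep p (reE e ρ) = reE e (torsRep p ρ) := rfl
  rw [h1, h2, muP_reE, muP_reE]

/-- the permutation module of a `C`-set, seen through `e`, is the permutation module of the
corresponding `C'`-set. -/
theorem funPerm_reE (R : Type*) [CommRing R] (Y : Type*) [MulAction C Y] :
    reE e (funPerm R C Y) = @funPerm R _ C' _ Y (MulAction.compHom Y (e : C' →* C)) := by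
  letI : MulAction C' Y := MulAction.compHom Y (e : C' →* C)
  ext c' a y
  show a ((e c')⁻¹ • y) = a (c'⁻¹ • y)
  have : (c'⁻¹ • y : Y) = (e c'⁻¹) • y := rfl
  rw [this, map_inv]

end TransportH

/-! ### The cyclotomic character at the complex conjugation -/

section Cyclo

open ExtCitation

local notation "Qbar" => AlgebraicClosure ℚ
local notation "Γ" => (AlgebraicClosure ℚ ≃ₐ[ℚ] AlgebraicClosure ℚ)

variable (p : ℕ) [hp : Fact p.Prime]

/-- `ω(c) = -1`. -/
theorem cycloChar_complexConjugation : cycloChar p complexConjugation = -1 := by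
  haveI : NeZero p := ⟨hp.out.ne_zero⟩
  apply Units.ext
  rw [Units.val_neg, Units.val_one]
  symm
  show (-1 : ZMod p) = ((modularCyclotomicCharacter Qbar (card_rootsOfUnity_eq_self p)
    ((complexConjugation : Γ) : Qbar ≃+* Qbar) : (ZMod p)ˣ) : ZMod p)
  apply modularCyclotomicCharacter.unique
  intro t ht
  have ht' : ((t : Qbarˣ) : Qbar) ^ p = 1 := by
    have := (mem_rootsOfUnity _ _).1 ht
    rw [← Units.val_pow_eq_pow_val, this, Units.val_one]
  have h1 : complexConjugation ((t : Qbarˣ) : Qbar) = ((t : Qbarˣ) : Qbar)⁻¹ :=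
    Fermat.Agent.ES.J.CycloChar8.complexConjugation_rootOfUnity hp.out.ne_zero ht'
  show complexConjugation ((t : Qbarˣ) : Qbar) = _
  rw [h1]
  have hval : ((-1 : ZMod p)).val = p - 1 := by
    rw [ZMod.neg_val, if_neg one_ne_zero, ZMod.val_one]
  rw [hval]
  have ht0 : ((t : Qbarˣ) : Qbar) ≠ 0 := Units.ne_zero t
  rw [inv_eq_iff_eq_inv, ← one_div, eq_div_iff (pow_ne_zero _ ht0), ← pow_succ',
    Nat.sub_add_cancel hp.out.pos, ht']

end Cyclo

/-! ### The complex conjugation of a level -/

section Level

open NumberField Fermat.Agent.PT.GLUE.Levels21 Fermat.Agent.PT.GLUE.LevelQuot13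

local notation "Qbar" => AlgebraicClosure ℚ
local notation "Γ" => (AlgebraicClosure ℚ ≃ₐ[ℚ] AlgebraicClosure ℚ)

local instance isAlgClosureQbarQG0 : IsAlgClosure ℚ Qbar := ⟨inferInstance, inferInstance⟩
local instance normalQbarQG0 : Normal ℚ Qbar := IsAlgClosure.normal ℚ Qbar
local instance isGaloisQbarQG0 : IsGalois ℚ Qbar := IsAlgClosure.isGalois ℚ Qbar

variable {T : Finset Nat.Primes} (K : Lev T)

/-- the embedding `K ⊆ ℚ̄ → ℂ`. -/
noncomputable def phi0 : ↥K.F →+* ℂ := (complexEmbedding : Qbar →+* ℂ).comp (K.F.val : ↥K.F →+* Qbar)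

theorem phi0_apply (x : ↥K.F) : phi0 K x = complexEmbedding (x : Qbar) := rfl

/-- the restriction of the complex conjugation to the level `K`. -/
noncomputable def cbarLev : ↥K.F ≃ₐ[ℚ] ↥K.F := AlgEquiv.restrictNormalHom K.F complexConjugation

theorem coe_cbarLev (x : ↥K.F) : ((cbarLev K x : ↥K.F) : Qbar) = complexConjugation (x : Qbar) :=
  AlgEquiv.restrictNormal_commutes complexConjugation K.F x

theorem eLev_mk_complexConjugation :
    eLev K ((complexConjugation : Γ) : Γ ⧸ K.U) = cbarLev K := rfl

/-- `cbarLev K` is the complex conjugation at the place of `phi0 K`. -/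
theorem isConj_cbarLev : ComplexEmbedding.IsConj (phi0 K) (cbarLev K) := by
  ext x
  show starRingEnd ℂ (phi0 K x) = phi0 K (cbarLev K x)
  rw [phi0_apply, phi0_apply, coe_cbarLev, complexEmbedding_complexConjugation]

end Level

end Fermat.Agent.W56.QuotGal0
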