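/-
W56 / (EC-5) / **`BaseDefs4.Bridge`** (lead): assembly of the arithmetic bridge

  `h_P((E_T)^U) = μ_P(𝔽_p[XT T U]) + μ_P(𝔽_p[(Γ/U)/⟨c̄⟩]) − μ_P(𝔽_p)`

from `EquivUnits0.hP_sUnitsRep` (the equivariant `S`-unit theorem mod `p` for the fixed field `K` of
`U`), the transports of `QuotGal0` along `Γ ⧸ U ≃* Gal(K/ℚ)`, and the three identifications
(B1) `(E_T)^U ≅ E_T(K)`, (XT) `XT T U ≅ {primes of K above T}`, (B3) `(Γ/U)/⟨c̄⟩ ≅ InfinitePlace K`.
-/
import Mathlib
import Fermat.Agent.W56.BaseDefs4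
import Fermat.Agent.W56.BridgeDefs0
import Fermat.Agent.W56.QuotGal0
import Fermat.Agent.W56.EquivUnits0D
import Fermat.Agent.PT.GLUE.BasisCompare13
import Fermat.Agent.W56.MackeyArch0C

set_option autoImplicit false
set_option linter.unusedSectionVars false
set_option linter.style.haveILetI false

namespace Fermat.Agent.W56.Bridge0

open Fermat.Agent.W56.MuP4 Fermat.Agent.W56.TorsSnake4 Fermat.Agent.W56.EquivUnits0
  Fermat.Agent.W56.QuotGal0 Fermat.Agent.W56.BaseDefs4 Fermat.Agent.W56.BridgeDefs0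
  Fermat.Agent.W56.KummerStar4

/-! ### Permutation modules and a change of group -/

section Perm

variable {k : Type*} [Field k] {C C' : Type*} [Group C] [Group C'] (e : C ≃* C')
  [Fintype C] [Invertible (Fintype.card C : k)] [Fintype C'] [Invertible (Fintype.card C' : k)]
  {P : Type*} [AddCommGroup P] [Module k P] (ρP : Representation k C P)

theorem reE_reE_symm : reE e (reE e.symm ρP) = ρP := by
  ext c x
  simp [reE_apply]

/-- the multiplicity in a permutation module, transported along a group isomorphism and an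
equivariant bijection of the sets. -/
theorem muP_funPerm_of_equiv {Y Y' : Type*} [MulAction C Y] [MulAction C' Y'] (f : Y ≃ Y')
    (hf : ∀ c y, f (c • y) = e c • f y) :
    muP (reE e.symm ρP) (funPerm k C' Y') = muP ρP (funPerm k C Y) := by
  rw [← muP_reE e (reE e.symm ρP) (funPerm k C' Y'), reE_reE_symm]
  refine muP_congr ρP _ _ (LinearEquiv.funCongrLeft k k f) (fun c a => ?_)
  funext y
  show a ((e c)⁻¹ • f y) = a (f (c⁻¹ • y))
  rw [hf, map_inv]

end Perm

/-! ### Homogeneous spaces -/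

section Homog

/-- `G ⧸ H ≃ Y` for a transitive `G`-set `Y` whose base point has stabiliser `H`. -/
theorem exists_quot_equiv {G : Type*} [Group G] (H : Subgroup G) {Y : Type*} [MulAction G Y]
    (y₀ : Y) (hstab : ∀ g : G, g • y₀ = y₀ ↔ g ∈ H) (htrans : ∀ y : Y, ∃ g : G, g • y₀ = y) :
    ∃ f : G ⧸ H ≃ Y, ∀ (g : G) (x : G ⧸ H), f (g • x) = g • f x := by
  have hwd : ∀ g1 g2 : G, QuotientGroup.leftRel H g1 g2 → g1 • y₀ = g2 • y₀ := by
    intro g1 g2 h
    rw [QuotientGroup.leftRel_apply] at h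
    have h1 := (hstab (g1⁻¹ * g2)).2 h
    rw [mul_smul] at h1
    have h2 := congrArg (fun y => g1 • y) h1
    simp only [smul_inv_smul] at h2
    exact h2.symm
  let f₀ : G ⧸ H → Y := fun x => Quotient.liftOn' x (fun g => g • y₀) hwd
  have hf₀ : ∀ g : G, f₀ (QuotientGroup.mk g) = g • y₀ := fun g => rfl
  have hbij : Function.Bijective f₀ := by
    constructor
    · intro x x'
      induction x using QuotientGroup.induction_on with
      | H g =>
        induction x' using QuotientGroup.induction_on with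
        | H g' =>
          intro h
          rw [hf₀, hf₀] at h
          rw [QuotientGroup.eq]
          apply (hstab _).1
          rw [mul_smul, ← h, inv_smul_smul]
    · intro y
      obtain ⟨g, hg⟩ := htrans y
      exact ⟨QuotientGroup.mk g, hg⟩
  refine ⟨Equiv.ofBijective f₀ hbij, fun g x => ?_⟩
  induction x using QuotientGroup.induction_on with
  | H g' =>
    show f₀ (g • (QuotientGroup.mk g' : G ⧸ H)) = g • f₀ (QuotientGroup.mk g')
    rw [MulAction.Quotient.smul_mk, hf₀, hf₀, smul_eq_mul, mul_smul]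

theorem mem_zpowers_iff_of_sq {G : Type*} [Group G] (c : G) (hcc : c * c = 1) (g : G) :
    g ∈ Subgroup.zpowers c ↔ g = 1 ∨ g = c := by
  rw [Subgroup.mem_zpowers_iff]
  constructor
  · rintro ⟨k, hk⟩
    rcases Int.emod_two_eq_zero_or_one k with h | h
    · left
      have : k = 2 * (k / 2) := by omega
      rw [← hk, this, zpow_mul, zpow_two, hcc, one_zpow]
    · right
      have : k = 2 * (k / 2) + 1 := by omega
      rw [← hk, this, zpow_add, zpow_mul, zpow_two, hcc, one_zpow, one_mul, zpow_one]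
  · rintro (rfl | rfl)
    · exact ⟨0, zpow_zero _⟩
    · exact ⟨1, zpow_one _⟩

end Homog

/-! ### The bridge -/

section Main

open NumberField IsDedekindDomain
open Fermat.Agent.PT.GLUE.Levels21 Fermat.Agent.PT.GLUE.LevelQuot13 Fermat.Agent.PT.GLUE.Objects21
open Fermat.Agent.W56.MackeyArch0

local notation "Qbar" => AlgebraicClosure ℚ
local notation "Γ" => (AlgebraicClosure ℚ ≃ₐ[ℚ] AlgebraicClosure ℚ)

local instance isAlgClosureQbarBr0 : IsAlgClosure ℚ Qbar := ⟨inferInstance, inferInstance⟩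
local instance normalQbarBr0 : Normal ℚ Qbar := IsAlgClosure.normal ℚ Qbar
local instance isGaloisQbarBr0 : IsGalois ℚ Qbar := IsAlgClosure.isGalois ℚ Qbar

/-- (B1): `(E_T)^U ≅ E_T(K)`, equivariantly. -/
def HB1 : Prop :=
  ∀ (T : Finset Nat.Primes) (K : Lev T),
    ∃ Φ : ↥(Representation.invariants ((ES T).ρ.comp K.U.subtype)) ≃+
        Additive ↥(sUnits ↥K.F (TKof T ↥K.F : Set (HeightOneSpectrum (𝓞 ↥K.F)))),
      ∀ (g : Γ) (x : ↥(Representation.invariants ((ES T).ρ.comp K.U.subtype))),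
        (((Additive.toMul (Φ (invRep T K.U (QuotientGroup.mk g) x))).1 : (↥K.F)ˣ) : ↥K.F) =
          AlgEquiv.restrictNormalHom K.F g (((Additive.toMul (Φ x)).1 : (↥K.F)ˣ) : ↥K.F)

/-- (XT): `XT T U ≅ {primes of K above T}`, equivariantly. -/
def HXT : Prop :=
  ∀ (T : Finset Nat.Primes) (K : Lev T),
    ∃ f : XT T K.U ≃ ↥(TKof T ↥K.F),
      ∀ (g : Γ) (x : XT T K.U),
        ((f ((QuotientGroup.mk g : Γ ⧸ K.U) • x) : ↥(TKof T ↥K.F)) : HeightOneSpectrum (𝓞 ↥K.F)) =
          AlgEquiv.restrictNormalHom K.F g •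
            ((f x : ↥(TKof T ↥K.F)) : HeightOneSpectrum (𝓞 ↥K.F))

/-- **The arithmetic bridge**, from (B1) and (XT). -/
theorem bridge_of (h1 : HB1) (h2 : HXT) : Bridge := by
  intro p _ T U _ hU C _ _ P _ _ _ ρP
  rw [Fermat.Agent.PT.GLUE.BasisCompare13.globalBasis_eq] at hU
  obtain ⟨K, rfl⟩ := exists_lev_U_eq hU
  let e : Γ ⧸ K.U ≃* (↥K.F ≃ₐ[ℚ] ↥K.F) := eLev K
  let C' : Subgroup (↥K.F ≃ₐ[ℚ] ↥K.F) := C.map (e : (Γ ⧸ K.U) →* (↥K.F ≃ₐ[ℚ] ↥K.F))
  let eC : ↥C ≃* ↥C' := e.subgroupMap C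
  have heC : ∀ c : ↥C, ((eC c : ↥C') : ↥K.F ≃ₐ[ℚ] ↥K.F) = e (c : Γ ⧸ K.U) := fun c => rfl
  haveI : Fintype ↥C' := Fintype.ofEquiv ↥C eC.toEquiv
  have hcard : Fintype.card ↥C' = Fintype.card ↥C := Fintype.card_congr eC.symm.toEquiv
  haveI : Invertible (Fintype.card ↥C' : ZMod p) := by rw [hcard]; infer_instance
  have hTK : ∀ σ ∈ C', ∀ P ∈ TKof T ↥K.F, σ • P ∈ TKof T ↥K.F :=
    fun σ _ P hP => smul_mem_TKof T ↥K.F σ hP
  letI := tkAction ↥K.F C' (TKof T ↥K.F) hTK
  obtain ⟨-, hmain⟩ := hP_sUnitsRep ↥K.F C' (TKof T ↥K.F) hTK p (reE eC.symm ρP)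
  -- (B1)
  obtain ⟨Φ, hΦ⟩ := h1 T K
  have step1 : hP p ρP (canonRep ((invRep T K.U).comp C.subtype)) =
      hP p ρP (reE eC (sUnitsRep ↥K.F C' (TKof T ↥K.F) hTK)) := by
    refine hP_congr p ρP _ _ Φ (fun c x => ?_)
    obtain ⟨g, hg⟩ := QuotientGroup.mk_surjective (c : Γ ⧸ K.U)
    apply Additive.toMul.injective
    apply Subtype.ext
    apply Units.ext
    have h3 := hΦ g x
    rw [hg] at h3
    rw [reE_apply, sUnitsRep_apply]
    refine h3.trans ?_
    have h4 : ((eC c : ↥C') : ↥K.F ≃ₐ[ℚ] ↥K.F) = AlgEquiv.restrictNormalHom K.F g := by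
      rw [heC, ← hg]
      rfl
    rw [h4]
    rfl
  have step2 : hP p ρP (reE eC (sUnitsRep ↥K.F C' (TKof T ↥K.F) hTK)) =
      hP p (reE eC.symm ρP) (sUnitsRep ↥K.F C' (TKof T ↥K.F) hTK) := by
    conv_lhs => rw [← reE_reE_symm eC ρP]
    exact hP_reE eC (reE eC.symm ρP) _
  rw [step1, step2, hmain]
  -- the three permutation modules
  obtain ⟨f, hf⟩ := h2 T K
  have t1 : muP (reE eC.symm ρP) (funPerm (ZMod p) ↥C' ↥(TKof T ↥K.F)) =
      muP ρP (funPerm (ZMod p) ↥C (XT T K.U)) := by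
    refine muP_funPerm_of_equiv eC ρP f (fun c x => ?_)
    obtain ⟨g, hg⟩ := QuotientGroup.mk_surjective (c : Γ ⧸ K.U)
    apply Subtype.ext
    have h3 := hf g x
    rw [hg] at h3
    refine h3.trans ?_
    have h4 : ((eC c : ↥C') : ↥K.F ≃ₐ[ℚ] ↥K.F) = AlgEquiv.restrictNormalHom K.F g := by
      rw [heC, ← hg]
      rfl
    rw [← h4]
    rfl
  have t3 : muP (reE eC.symm ρP) (funPerm (ZMod p) ↥C' PUnit.{1}) =
      muP ρP (funPerm (ZMod p) ↥C PUnit.{1}) :=
    muP_funPerm_of_equiv eC ρP (Equiv.refl PUnit.{1}) (fun _ _ => Subsingleton.elim _ _)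
  -- the infinite places
  have hcc : (QuotientGroup.mk complexConjugation : Γ ⧸ K.U) *
      (QuotientGroup.mk complexConjugation : Γ ⧸ K.U) = 1 := by
    rw [← QuotientGroup.mk_mul, complexConjugation_mul_self]
    rfl
  letI actG : MulAction (Γ ⧸ K.U) (InfinitePlace ↥K.F) :=
    MulAction.compHom _ (e : (Γ ⧸ K.U) →* (↥K.F ≃ₐ[ℚ] ↥K.F))
  have hact : ∀ (g : Γ ⧸ K.U) (w : InfinitePlace ↥K.F), g • w = e g • w := fun _ _ => rfl
  obtain ⟨f2, hf2⟩ := exists_quot_equiv
    (Subgroup.zpowers (QuotientGroup.mk complexConjugation : Γ ⧸ K.U))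
    (InfinitePlace.mk (phi0 K)) (fun g => by
      rw [hact, infinitePlace_smul_eq_iff (phi0 K) (cbarLev K) (isConj_cbarLev K),
        mem_zpowers_iff_of_sq _ hcc]
      constructor
      · rintro (h | h)
        · left
          exact e.injective (h.trans (map_one e).symm)
        · right
          exact e.injective (h.trans (eLev_mk_complexConjugation K).symm)
      · rintro (h | h)
        · left
          rw [h, map_one]
        · right
          rw [h]
          exact eLev_mk_complexConjugation K) (fun w => by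
      obtain ⟨σ, hσ⟩ := infinitePlace_exists_smul_eq (InfinitePlace.mk (phi0 K)) w
      exact ⟨e.symm σ, by rw [hact, MulEquiv.apply_symm_apply, hσ]⟩)
  have t2 : muP (reE eC.symm ρP) (funPerm (ZMod p) ↥C' (InfinitePlace ↥K.F)) =
      muP ρP (funPerm (ZMod p) ↥C
        ((Γ ⧸ K.U) ⧸ Subgroup.zpowers (QuotientGroup.mk complexConjugation : Γ ⧸ K.U))) := by
    refine muP_funPerm_of_equiv eC ρP f2 (fun c x => ?_)
    exact hf2 (c : Γ ⧸ K.U) x
  rw [t1, t2, t3]

end Main

end Fermat.Agent.W56.Bridge0
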