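/-
Programme W56 (target S56), chapter (EC-5), bridge (B1) (helper3): **the `U`-invariants of `E_T` are
the `T_K`-units of `K = ℚ̄^U`**, equivariantly — lead's contract `Bridge0.HB1`.

`K : Lev T` (a finite Galois extension of `ℚ` in `ℚ̄` unramified outside `T`), `U = K.U`.
* `unitsToES K` : the `T_K`-units `→ E_T`; `unitsInv K : Additive (sUnits K.F (TKof T K.F)) ≃+ (E_T)^U`;
* `elt z` : the underlying element of `ℚ̄` of `z ∈ (E_T)^U`; `elt_unitsInv`, `coe_symm`;
* **`hB1 : Bridge0.HB1`**.
-/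
import Mathlib
import Fermat.Agent.W56.Bridge0

set_option autoImplicit false

namespace Fermat.Agent.W56.BridgeB1_3

open NumberField IsDedekindDomain
open Fermat.Agent.PT.GLUE.Objects21 Fermat.Agent.PT.GLOB Fermat.Agent.PT.GLUE.ESLevel27
  Fermat.Agent.PT.GLUE.Levels21 Fermat.Agent.W56.EquivUnits0 Fermat.Agent.W56.BridgeDefs0
  Fermat.Agent.W56.BaseDefs4

local notation "Qbar" => AlgebraicClosure ℚ
local notation "Γ" => (AlgebraicClosure ℚ ≃ₐ[ℚ] AlgebraicClosure ℚ)

variable {T : Finset Nat.Primes} (K : Lev T)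

/-- the map `T_K`-units `→ E_T`. -/
noncomputable def unitsToES :
    ↥(sUnits ↥K.F (TKof T ↥K.F : Set (HeightOneSpectrum (𝓞 ↥K.F)))) →* ↥(ESgroup T) where
  toFun x := ⟨unitsVal K.F x.1, mem_ESgroup_of_mem_ker_divT T K.F K.unr x.1
    ((mem_sUnits_TKof_iff T ↥K.F x.1).1 x.2)⟩
  map_one' := Subtype.ext (map_one (unitsVal K.F))
  map_mul' x y := Subtype.ext (map_mul (unitsVal K.F) x.1 y.1)

theorem unitsToES_injective : Function.Injective (unitsToES K) := by
  intro x y h
  apply Subtype.ext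
  apply unitsVal_injective K.F
  exact congrArg (fun z : ↥(ESgroup T) => (z : Qbarˣ)) h

theorem unitsToES_mem_invariants
    (x : ↥(sUnits ↥K.F (TKof T ↥K.F : Set (HeightOneSpectrum (𝓞 ↥K.F))))) :
    (Additive.ofMul (unitsToES K x) : ES T) ∈
      Representation.invariants ((ES T).ρ.comp K.U.subtype) := by
  intro u
  exact (ρ_eq_self_iff_mem T K.F (Additive.ofMul (unitsToES K x))).2
    ((x.1 : (↥K.F)ˣ) : ↥K.F).2 u u.2

/-- the underlying element of `ℚ̄`. -/
def elt (z : ↥(Representation.invariants ((ES T).ρ.comp K.U.subtype))) : Qbar :=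
  (((Additive.toMul (α := ESgroup T) (z : ES T) : ESgroup T) : Qbarˣ) : Qbar)

theorem elt_injective : Function.Injective (elt K) := by
  intro z z' h
  apply Subtype.ext
  apply Additive.toMul.injective
  apply Subtype.ext
  apply Units.ext
  exact h

theorem elt_invRep (g : Γ) (z : ↥(Representation.invariants ((ES T).ρ.comp K.U.subtype))) :
    elt K (invRep T K.U (QuotientGroup.mk g) z) = g (elt K z) := rfl

/-- the additive map `T_K`-units `→ (E_T)^U`. -/
noncomputable def unitsInvHom :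
    Additive ↥(sUnits ↥K.F (TKof T ↥K.F : Set (HeightOneSpectrum (𝓞 ↥K.F)))) →+
      ↥(Representation.invariants ((ES T).ρ.comp K.U.subtype)) where
  toFun x := ⟨Additive.ofMul (unitsToES K (Additive.toMul x)),
    unitsToES_mem_invariants K (Additive.toMul x)⟩
  map_zero' := Subtype.ext (congrArg Additive.ofMul (map_one (unitsToES K)))
  map_add' x y := Subtype.ext (congrArg Additive.ofMul
    (map_mul (unitsToES K) (Additive.toMul x) (Additive.toMul y)))

theorem unitsInvHom_bijective : Function.Bijective (unitsInvHom K) := by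
  constructor
  · intro x y h
    have h1 : unitsToES K (Additive.toMul x) = unitsToES K (Additive.toMul y) :=
      Additive.ofMul.injective (congrArg Subtype.val h)
    exact Additive.toMul.injective (unitsToES_injective K h1)
  · rintro ⟨b, hb⟩
    have hmem := (ρ_eq_self_iff_mem T K.F b).1 (fun s hs => hb ⟨s, hs⟩)
    obtain ⟨x, hx⟩ := exists_unitsVal_eq K.F
      ((Additive.toMul (α := ESgroup T) b : ESgroup T) : Qbarˣ) hmem
    have hxk : x ∈ sUnits ↥K.F (TKof T ↥K.F : Set (HeightOneSpectrum (𝓞 ↥K.F))) := by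
      rw [mem_sUnits_TKof_iff]
      refine mem_ker_divT_of_mem_ESgroup T K.F x ?_
      have h2 : Units.map ((K.F.val : ↥K.F →ₐ[ℚ] Qbar) : ↥K.F →* Qbar) x =
          ((Additive.toMul (α := ESgroup T) b : ESgroup T) : Qbarˣ) := hx
      rw [h2]
      exact (Additive.toMul (α := ESgroup T) b).2
    refine ⟨Additive.ofMul ⟨x, hxk⟩, ?_⟩
    apply Subtype.ext
    apply Additive.toMul.injective
    apply Subtype.ext
    exact hx

/-- **(B1)** the `T_K`-units of `K` are the `Gal(ℚ̄/K)`-invariants of `E_T`. -/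
noncomputable def unitsInv :
    Additive ↥(sUnits ↥K.F (TKof T ↥K.F : Set (HeightOneSpectrum (𝓞 ↥K.F)))) ≃+
      ↥(Representation.invariants ((ES T).ρ.comp K.U.subtype)) :=
  AddEquiv.ofBijective (unitsInvHom K) (unitsInvHom_bijective K)

theorem elt_unitsInv
    (x : Additive ↥(sUnits ↥K.F (TKof T ↥K.F : Set (HeightOneSpectrum (𝓞 ↥K.F))))) :
    elt K (unitsInv K x) = ((((Additive.toMul x).1 : (↥K.F)ˣ) : ↥K.F) : Qbar) := rfl

theorem coe_symm (z : ↥(Representation.invariants ((ES T).ρ.comp K.U.subtype))) :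
    ((((Additive.toMul ((unitsInv K).symm z)).1 : (↥K.F)ˣ) : ↥K.F) : Qbar) = elt K z := by
  rw [← elt_unitsInv, AddEquiv.apply_symm_apply]

/-- **lead's contract (B1).** -/
theorem hB1 : Bridge0.HB1 := by
  intro T K
  refine ⟨(unitsInv K).symm, fun g x => ?_⟩
  apply Subtype.ext
  rw [coe_symm, elt_invRep, ← coe_symm K x]
  exact (AlgEquiv.restrictNormal_commutes g K.F _).symm

end Fermat.Agent.W56.BridgeB1_3
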