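/-
Programme W56 (target S56), chapter (EC-5), arithmetic half of (B2), helper1:
**double cosets `Γ_q \ Γ / U` ↔ primes of the fixed field `K` of `U` above `q`**, as `Γ ⧸ U`-sets.

`K ⊆ ℚ̄` finite Galois over `ℚ`, `U = Gal(ℚ̄/K)`, `A = padicPlace q` the place of `ℚ̄` cut out by
`ℚ̄ ⊆ ℚ̄_q`, `P0 q K = m_A ∩ 𝓞 K`.  The map `Γ_q x U ↦ (x|_K)⁻¹ • P0` is a bijection
`Mackey2.DC (localGaloisToGlobal q) U ≃ {P | q ∈ P}` and is equivariant for
`BaseDefs4.dcAction` (`(g U) • (Γ_q x U) = Γ_q x g⁻¹ U`) and the action of `Gal(K/ℚ)` on the primes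
of `K` (`Interface23.instMulActionHeightOne`), through `restrictNormalHom K : Γ → Gal(K/ℚ)`.

Ingredients: transitivity of `Gal(K/ℚ)` on the primes above `q` (`IdemNorm17`), transitivity of
`Gal(ℚ̄/K)` on the primes of `ℤ̄` above a prime of `K` (Mathlib, profinite form, instances of
`S13/UnramLift`), `range (localGaloisToGlobal q) = decomposition group` (`DecompOnto0`).
-/
import Mathlib
import Fermat.Prelude.Def_GaloisRep_CompletionBridge
import Fermat.Agent.S13.UnramLift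
import Fermat.Agent.W56.InertiaConj8
import Fermat.Agent.W56.FrobGen8
import Fermat.Agent.W56.UnipSel8
import Fermat.Agent.W56.DecompOnto0
import Fermat.Agent.PT.GLOB.IdemNorm17
import Fermat.Agent.W56.BaseDefs4

set_option autoImplicit false
set_option linter.unusedSectionVars false
set_option linter.style.haveILetI false

namespace Fermat.Agent.W56.DCPrimes1

open NumberField IsDedekindDomain
open Fermat.Agent.S54 Fermat.Agent.S13.UnramVal Fermat.Agent.S13.UnramLift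
open Fermat.Agent.PT.GLOB.Interface23
open Fermat.Agent.W56.Mackey2 Fermat.Agent.W56.BaseDefs4
open scoped Pointwise

attribute [local instance] topOQ

local notation "Qbar" => AlgebraicClosure ℚ
local notation "Γ" => (AlgebraicClosure ℚ ≃ₐ[ℚ] AlgebraicClosure ℚ)

/-! ### The prime of `K` below a valuation subring of `ℚ̄` -/

section Prime

variable (K : IntermediateField ℚ Qbar) [FiniteDimensional ℚ K]

/-- `𝓞 K → ℤ̄`. -/
noncomputable def toOQ : 𝓞 ↥K →+* OQ :=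
  RingHom.codRestrict ((algebraMap ↥K Qbar).comp (algebraMap (𝓞 ↥K) ↥K)) OQ (fun x => by
    rw [mem_OQ]
    exact (RingOfIntegers.isIntegral_coe x).algebraMap)

theorem coe_toOQ (x : 𝓞 ↥K) : ((toOQ K x : OQ) : Qbar) = (((x : ↥K)) : Qbar) := rfl

variable (A : ValuationSubring Qbar)

/-- `m_A ∩ 𝓞 K`. -/
noncomputable def primeK : Ideal (𝓞 ↥K) := (primeQ A).comap (toOQ K)

instance primeK_isPrime : (primeK K A).IsPrime := Ideal.comap_isPrime _ _

theorem mem_primeK (x : 𝓞 ↥K) : x ∈ primeK K A ↔ (((x : ↥K)) : Qbar) ∈ A.nonunits := by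
  rw [primeK, Ideal.mem_comap, mem_primeQ, coe_toOQ]

end Prime

/-! ### The prime `P0` and the map `Γ → {primes of K above q}` -/

section Map

variable (q : ℕ) [Fact q.Prime] (K : IntermediateField ℚ Qbar) [FiniteDimensional ℚ K]

theorem natCast_mem_nonunits : ((q : ℕ) : Qbar) ∈ (padicPlace q).nonunits :=
  UnipSel8.liesOverPrime_primeLocalPlace ⟨q, Fact.out⟩

/-- `P0 = m_A ∩ 𝓞 K`, `A = padicPlace q`: the prime of `K` cut out by `K ⊆ ℚ̄ ⊆ ℚ̄_q`. -/
noncomputable def P0 : HeightOneSpectrum (𝓞 ↥K) where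
  asIdeal := primeK K (padicPlace q)
  isPrime := primeK_isPrime K (padicPlace q)
  ne_bot := by
    intro h
    have h1 : ((q : ℕ) : 𝓞 ↥K) ∈ primeK K (padicPlace q) := by
      rw [mem_primeK]
      have : ((((q : ℕ) : 𝓞 ↥K) : ↥K) : Qbar) = ((q : ℕ) : Qbar) := by simp
      rw [this]
      exact natCast_mem_nonunits q
    rw [h, Ideal.mem_bot] at h1
    have h2 : (q : ℕ) = 0 := by exact_mod_cast h1
    exact (Fact.out : q.Prime).ne_zero h2

theorem mem_P0 (x : 𝓞 ↥K) :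
    x ∈ (P0 q K).asIdeal ↔ (((x : ↥K)) : Qbar) ∈ (padicPlace q).nonunits :=
  mem_primeK K (padicPlace q) x

variable [IsGalois ℚ K]

/-- Restriction `Γ → Gal(K/ℚ)`. -/
noncomputable abbrev resK : Γ →* (↥K ≃ₐ[ℚ] ↥K) := AlgEquiv.restrictNormalHom ↥K

theorem coe_resK (g : Γ) (x : ↥K) : ((resK K g x : ↥K) : Qbar) = g (x : Qbar) :=
  AlgEquiv.restrictNormal_commutes g ↥K x

theorem mem_smul_iff (σ : ↥K ≃ₐ[ℚ] ↥K) (P : HeightOneSpectrum (𝓞 ↥K)) (x : 𝓞 ↥K) :
    x ∈ (σ • P).asIdeal ↔ σ⁻¹ • x ∈ P.asIdeal := by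
  rw [smul_asIdeal, Ideal.mem_pointwise_smul_iff_inv_smul_mem]

theorem coe_smul_OK (σ : ↥K ≃ₐ[ℚ] ↥K) (x : 𝓞 ↥K) : ((σ • x : 𝓞 ↥K) : ↥K) = σ (x : ↥K) := rfl

/-- `φ(g) = (g|_K)⁻¹ • P0`. -/
noncomputable def phi (g : Γ) : HeightOneSpectrum (𝓞 ↥K) := (resK K g)⁻¹ • P0 q K

theorem mem_phi (g : Γ) (x : 𝓞 ↥K) :
    x ∈ (phi q K g).asIdeal ↔ g (((x : ↥K)) : Qbar) ∈ (padicPlace q).nonunits := by
  rw [phi, mem_smul_iff, inv_inv, mem_P0, coe_smul_OK, coe_resK]

theorem natCast_mem_phi (g : Γ) : ((q : ℕ) : 𝓞 ↥K) ∈ (phi q K g).asIdeal := by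
  rw [mem_phi]
  have : ((((q : ℕ) : 𝓞 ↥K) : ↥K) : Qbar) = ((q : ℕ) : Qbar) := by simp
  rw [this, map_natCast]
  exact natCast_mem_nonunits q

theorem phi_mul_inv (g x : Γ) : phi q K (x * g⁻¹) = resK K g • phi q K x := by
  rw [phi, phi, map_mul, map_inv, mul_inv_rev, inv_inv, mul_smul]

end Map

/-! ### Stabilisers -/

section Stab

variable {q : ℕ}

/-- An automorphism preserving the prime of `ℤ̄` below `A` lies in the decomposition group of
`A`. -/
theorem mem_decomp_of_stab (hq : q.Prime) {A : ValuationSubring Qbar} (hA : A.LiesOverPrime q)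
    (d : Γ) (h : ∀ y : Qbar, IsIntegral ℤ y → (d y ∈ A.nonunits ↔ y ∈ A.nonunits)) :
    d ∈ A.decompositionSubgroup ℚ := by
  rw [ValuationSubring.decompositionSubgroup, MulAction.mem_stabilizer_iff]
  ext x
  rw [ValuationSubring.mem_pointwise_smul_iff_inv_smul_mem]
  constructor
  · intro hx
    have h' : ∀ y : Qbar, IsIntegral ℤ y → (y ∈ A.nonunits ↔ (d⁻¹)⁻¹ y ∈ A.nonunits) := by
      intro y hy
      rw [inv_inv]
      exact (h y hy).symm
    have := InertiaConj8.inv_apply_mem hq hA d⁻¹ h' hx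
    rw [inv_inv, AlgEquiv.smul_def, ← AlgEquiv.mul_apply, mul_inv_cancel,
      AlgEquiv.one_apply] at this
    exact this
  · intro hx
    have h' : ∀ y : Qbar, IsIntegral ℤ y → (y ∈ A.nonunits ↔ d⁻¹ y ∈ A.nonunits) := by
      intro y hy
      have := h (d⁻¹ y) (map_isIntegral_int (d⁻¹ : Γ) hy)
      rw [← AlgEquiv.mul_apply, mul_inv_cancel, AlgEquiv.one_apply] at this
      exact this
    exact InertiaConj8.inv_apply_mem hq hA d h' hx

end Stab

/-! ### The bijection -/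

section DCMap

variable (q : ℕ) [Fact q.Prime] (U : Subgroup Γ) [hUn : U.Normal] (K : IntermediateField ℚ Qbar)
  [FiniteDimensional ℚ K] [IsGalois ℚ K] (hK : K.fixingSubgroup = U)

/-- The primes of `K` above `q`. -/
abbrev PrimesAbove : Type := {P : HeightOneSpectrum (𝓞 ↥K) // ((q : ℕ) : 𝓞 ↥K) ∈ P.asIdeal}

include hK in
theorem apply_eq_of_mem {v : Γ} (hv : v ∈ U) (z : ↥K) : v (z : Qbar) = (z : Qbar) := by
  rw [← hK] at hv
  exact (IntermediateField.mem_fixingSubgroup_iff K v).1 hv _ z.2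

include hK in
theorem phi_eq_of_inDC {x y : Γ} (h : InDC (localGaloisToGlobal q) U x y) :
    phi q K x = phi q K y := by
  obtain ⟨h, v, rfl⟩ := h
  apply HeightOneSpectrum.ext
  ext z
  rw [mem_phi, mem_phi, AlgEquiv.mul_apply, AlgEquiv.mul_apply, apply_eq_of_mem U K hK v.2]
  exact (FrobGen8.apply_mem_nonunits_iff
    (localGaloisToGlobal_mem_decompositionSubgroup q h) _).symm

/-- **The map** `Γ_q x U ↦ (x|_K)⁻¹ • P0`. -/
noncomputable def dcToPrime : DC (localGaloisToGlobal q) U → PrimesAbove q K :=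
  Quotient.lift (fun x => (⟨phi q K x, natCast_mem_phi q K x⟩ : PrimesAbove q K))
    (fun _ _ h => Subtype.ext (phi_eq_of_inDC q U K hK h))

theorem dcToPrime_mk (x : Γ) :
    dcToPrime q U K hK (Quotient.mk (dcSetoidV (localGaloisToGlobal q) U) x) =
      ⟨phi q K x, natCast_mem_phi q K x⟩ := rfl

/-- **Equivariance** for `BaseDefs4.dcAction` and the Galois action on the primes of `K`. -/
theorem dcToPrime_smul (g : Γ) (D : DC (localGaloisToGlobal q) U) :
    (dcToPrime q U K hK ((QuotientGroup.mk g : Γ ⧸ U) • D)).1 =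
      resK K g • (dcToPrime q U K hK D).1 := by
  induction D using Quotient.inductionOn with
  | h x =>
    rw [mk_smul_mk, dcToPrime_mk, dcToPrime_mk]
    exact phi_mul_inv q K g x

theorem dcToPrime_surjective : Function.Surjective (dcToPrime q U K hK) := by
  rintro ⟨P, hP⟩
  obtain ⟨σ, hσ⟩ := Fermat.Agent.PT.GLOB.IdemNorm17.exists_smul_eq_of_natCast_mem (q := q)
    (P0 q K) P (by have := natCast_mem_phi q K 1; rwa [phi, map_one, inv_one, one_smul] at this) hP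
  obtain ⟨g, hg⟩ := AlgEquiv.restrictNormalHom_surjective Qbar σ⁻¹
  refine ⟨Quotient.mk _ g, Subtype.ext ?_⟩
  rw [dcToPrime_mk]
  show phi q K g = P
  rw [phi, show resK K g = σ⁻¹ from hg, inv_inv, hσ]

include hK in
theorem inDC_of_phi_eq {x y : Γ} (h : phi q K x = phi q K y) :
    InDC (localGaloisToGlobal q) U x y := by
  have hq : q.Prime := Fact.out
  set A := padicPlace q with hA
  have hAq : A.LiesOverPrime q := natCast_mem_nonunits q
  set Q := primeQ A with hQ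
  -- the hypothesis, elementwise
  have hz : ∀ z : 𝓞 ↥K, x (((z : ↥K)) : Qbar) ∈ A.nonunits ↔ y (((z : ↥K)) : Qbar) ∈ A.nonunits := by
    intro z
    rw [← mem_phi, ← mem_phi, h]
  set σ₀ : Γ := y * x⁻¹ with hσ₀
  have hunder : (σ₀ • Q).under (OK K) = Q.under (OK K) := by
    ext a
    rw [Ideal.mem_comap, Ideal.mem_comap, Ideal.mem_pointwise_smul_iff_inv_smul_mem,
      mem_primeQ, mem_primeQ]
    have haK : ((a : OQ) : Qbar) ∈ K := a.2
    have haint : IsIntegral ℤ (⟨_, haK⟩ : ↥K) :=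
      (isIntegral_algebraMap_iff (algebraMap ↥K Qbar).injective).mp (a : OQ).2
    set a' : 𝓞 ↥K := ⟨⟨_, haK⟩, haint⟩ with ha'
    set z : 𝓞 ↥K := (resK K y)⁻¹ • a' with hzdef
    have hzc : (((z : ↥K)) : Qbar) = y⁻¹ ((a : OQ) : Qbar) := by
      rw [hzdef, coe_smul_OK, ← map_inv, coe_resK]
      rfl
    have h1 := hz z
    rw [hzc, ← AlgEquiv.mul_apply, ← AlgEquiv.mul_apply, mul_inv_cancel, AlgEquiv.one_apply] at h1
    have h2 : ((σ₀⁻¹ • (algebraMap (OK K) OQ a) : OQ) : Qbar) = (x * y⁻¹) ((a : OQ) : Qbar) := by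
      rw [hσ₀, mul_inv_rev, inv_inv]
      rfl
    rw [h2]
    exact h1
  obtain ⟨g, hg⟩ := Algebra.IsInvariant.exists_smul_of_under_eq_of_profinite
    (A := OK K) (B := OQ) (G := Qbar ≃ₐ[K] Qbar) (σ₀ • Q) Q hunder
  set g' : Γ := g.restrictScalars ℚ with hg'
  have hg'U : g' ∈ U := by
    rw [← hK, IntermediateField.mem_fixingSubgroup_iff]
    intro w hw
    exact g.commutes ⟨w, hw⟩
  set d : Γ := g' * σ₀ with hd
  have hdQ : ∀ b : OQ, d • b ∈ Q ↔ b ∈ Q := by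
    intro b
    have h1 : (d • b : OQ) = g • (σ₀ • b) := rfl
    rw [h1]
    conv_lhs => rw [hg]
    rw [Ideal.mem_pointwise_smul_iff_inv_smul_mem, inv_smul_smul,
      Ideal.mem_pointwise_smul_iff_inv_smul_mem, inv_smul_smul]
  have hdD : d ∈ A.decompositionSubgroup ℚ := by
    refine mem_decomp_of_stab hq hAq d fun w hw => ?_
    have := hdQ ⟨w, mem_OQ.2 hw⟩
    rw [mem_primeQ, mem_primeQ] at this
    exact this
  obtain ⟨τ, hτ⟩ := DecompOnto0.exists_localGaloisToGlobal_eq q hdD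
  -- `y = g'⁻¹ * i τ * x = i τ * x * v`, `v = x⁻¹ (i τ)⁻¹ g'⁻¹ (i τ) x ∈ U`
  have hy : y = g'⁻¹ * localGaloisToGlobal q τ * x := by
    rw [hτ, hd, hσ₀]
    group
  set c : Γ := (localGaloisToGlobal q τ) * x with hc
  have hv : c⁻¹ * g'⁻¹ * c ∈ U := by
    have := hUn.conj_mem g'⁻¹ (U.inv_mem hg'U) c⁻¹
    rwa [inv_inv] at this
  refine ⟨τ, ⟨c⁻¹ * g'⁻¹ * c, hv⟩, ?_⟩
  show y = localGaloisToGlobal q τ * x * (c⁻¹ * g'⁻¹ * c)
  rw [hy, hc]
  group

theorem dcToPrime_injective : Function.Injective (dcToPrime q U K hK) := by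
  intro D D' h
  induction D using Quotient.inductionOn with
  | h x =>
    induction D' using Quotient.inductionOn with
    | h y =>
      rw [dcToPrime_mk, dcToPrime_mk] at h
      exact Quotient.sound (inDC_of_phi_eq q U K hK (congrArg Subtype.val h))

theorem dcToPrime_bijective : Function.Bijective (dcToPrime q U K hK) :=
  ⟨dcToPrime_injective q U K hK, dcToPrime_surjective q U K hK⟩

/-- The bijection `Γ_q \ Γ / U ≃ {primes of K above q}`. -/
noncomputable def dcEquiv : DC (localGaloisToGlobal q) U ≃ PrimesAbove q K :=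
  Equiv.ofBijective _ (dcToPrime_bijective q U K hK)

theorem dcEquiv_apply (D : DC (localGaloisToGlobal q) U) :
    dcEquiv q U K hK D = dcToPrime q U K hK D := rfl

end DCMap

/-! ### The primes above a finite set `T` of rational primes -/

section TK

variable (T : Finset Nat.Primes) (K : IntermediateField ℚ Qbar) [FiniteDimensional ℚ K]
  [IsGalois ℚ K]

theorem natCast_mem_smul_iff' (σ : ↥K ≃ₐ[ℚ] ↥K) (P : HeightOneSpectrum (𝓞 ↥K)) (n : ℕ) :
    ((n : ℕ) : 𝓞 ↥K) ∈ (σ • P).asIdeal ↔ ((n : ℕ) : 𝓞 ↥K) ∈ P.asIdeal := by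
  have h := natCast_mem_smul_iff (K := ℚ) (L := ↥K) σ P.asIdeal (n : ℤ)
  rw [Int.cast_natCast] at h
  exact h

instance finite_primesAbove (q : ℕ) [Fact q.Prime] : Finite (PrimesAbove q K) := by
  have h0 : ((q : ℕ) : 𝓞 ↥K) ∈ (P0 q K).asIdeal := by
    have := natCast_mem_phi q K 1
    rwa [phi, map_one, inv_one, one_smul] at this
  refine Finite.of_surjective (fun σ : ↥K ≃ₐ[ℚ] ↥K =>
    (⟨σ • P0 q K, (natCast_mem_smul_iff' K σ (P0 q K) q).2 h0⟩ : PrimesAbove q K)) ?_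
  rintro ⟨P, hP⟩
  obtain ⟨σ, hσ⟩ := Fermat.Agent.PT.GLOB.IdemNorm17.exists_smul_eq_of_natCast_mem (q := q)
    (P0 q K) P h0 hP
  exact ⟨σ, Subtype.ext hσ⟩

/-- The set of primes of `K` above `T`. -/
def TKset : Set (HeightOneSpectrum (𝓞 ↥K)) :=
  {P | ∃ q ∈ T, (((q : Nat.Primes) : ℕ) : 𝓞 ↥K) ∈ P.asIdeal}

theorem finite_TKset : (TKset T K).Finite := by
  have h : TKset T K = ⋃ q ∈ (T : Set Nat.Primes),
      {P : HeightOneSpectrum (𝓞 ↥K) | (((q : Nat.Primes) : ℕ) : 𝓞 ↥K) ∈ P.asIdeal} := by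
    ext P
    simp only [TKset, Set.mem_ofPred_eq, Set.mem_iUnion, Finset.mem_coe, exists_prop]
  rw [h]
  refine Set.Finite.biUnion T.finite_toSet fun q _ => ?_
  haveI : Fact ((q : Nat.Primes) : ℕ).Prime := ⟨q.2⟩
  exact Set.finite_coe_iff.1 (finite_primesAbove K (q : ℕ))

/-- **The finite set `T_K` of primes of `K` above `T`.** -/
noncomputable def TK : Finset (HeightOneSpectrum (𝓞 ↥K)) := (finite_TKset T K).toFinset

theorem mem_TK {P : HeightOneSpectrum (𝓞 ↥K)} :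
    P ∈ TK T K ↔ ∃ q ∈ T, (((q : Nat.Primes) : ℕ) : 𝓞 ↥K) ∈ P.asIdeal := by
  rw [TK, Set.Finite.mem_toFinset]
  rfl

/-- `T_K` is stable under `Gal(K/ℚ)`. -/
theorem smul_mem_TK (σ : ↥K ≃ₐ[ℚ] ↥K) {P : HeightOneSpectrum (𝓞 ↥K)} (hP : P ∈ TK T K) :
    σ • P ∈ TK T K := by
  rw [mem_TK] at hP ⊢
  obtain ⟨q, hq, h⟩ := hP
  exact ⟨q, hq, (natCast_mem_smul_iff' K σ P _).2 h⟩

/-- A prime of `K` lies above at most one rational prime. -/
theorem eq_of_natCast_mem {q q' : ℕ} [Fact q.Prime] [Fact q'.Prime]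
    (P : HeightOneSpectrum (𝓞 ↥K)) (h : ((q : ℕ) : 𝓞 ↥K) ∈ P.asIdeal)
    (h' : ((q' : ℕ) : 𝓞 ↥K) ∈ P.asIdeal) : q = q' := by
  have h1 := Fermat.Agent.PT.GLOB.IdemNorm17.under_int_eq_span (q := q) P h
  have h2 := Fermat.Agent.PT.GLOB.IdemNorm17.under_int_eq_span (q := q') P h'
  rw [h1, Ideal.span_singleton_eq_span_singleton] at h2
  have h3 := Int.associated_iff_natAbs.1 h2
  simpa using h3

end TK

/-! ### The bijection `XT T U ≃ T_K` -/

section XT

variable (T : Finset Nat.Primes) (U : Subgroup Γ) [hUn : U.Normal] (K : IntermediateField ℚ Qbar)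
  [FiniteDimensional ℚ K] [IsGalois ℚ K] (hK : K.fixingSubgroup = U)

/-- `XT T U → T_K`. -/
noncomputable def xtToTK (X : XT T U) : ↥(TK T K) :=
  ⟨(dcToPrime ((X.1 : Nat.Primes) : ℕ) U K hK X.2).1,
    (mem_TK T K).2 ⟨X.1, X.1.2, (dcToPrime ((X.1 : Nat.Primes) : ℕ) U K hK X.2).2⟩⟩

theorem xtToTK_coe (X : XT T U) :
    ((xtToTK T U K hK X : ↥(TK T K)) : HeightOneSpectrum (𝓞 ↥K)) =
      (dcToPrime ((X.1 : Nat.Primes) : ℕ) U K hK X.2).1 := rfl

theorem xtToTK_injective : Function.Injective (xtToTK T U K hK) := by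
  rintro ⟨q, D⟩ ⟨q', D'⟩ h
  have h1 : (dcToPrime ((q : Nat.Primes) : ℕ) U K hK D).1 =
      (dcToPrime ((q' : Nat.Primes) : ℕ) U K hK D').1 := congrArg Subtype.val h
  have hqq : q = q' := by
    apply Subtype.ext
    apply Subtype.ext
    refine eq_of_natCast_mem K (dcToPrime ((q : Nat.Primes) : ℕ) U K hK D).1
      (dcToPrime ((q : Nat.Primes) : ℕ) U K hK D).2 ?_
    rw [h1]
    exact (dcToPrime ((q' : Nat.Primes) : ℕ) U K hK D').2
  subst hqq
  have h2 : D = D' := dcToPrime_injective ((q : Nat.Primes) : ℕ) U K hK (Subtype.ext h1)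
  rw [h2]

theorem xtToTK_surjective : Function.Surjective (xtToTK T U K hK) := by
  rintro ⟨P, hP⟩
  obtain ⟨q, hq, h⟩ := (mem_TK T K).1 hP
  obtain ⟨D, hD⟩ := dcToPrime_surjective ((q : Nat.Primes) : ℕ) U K hK ⟨P, h⟩
  refine ⟨⟨⟨q, hq⟩, D⟩, Subtype.ext ?_⟩
  have h1 : (dcToPrime ((q : Nat.Primes) : ℕ) U K hK D).1 = P := congrArg Subtype.val hD
  exact h1

/-- **`XT T U ≃ T_K`**: the double cosets `Γ_q \ Γ / U`, `q ∈ T`, are the primes of `K` above `T`. -/
noncomputable def xtEquiv : XT T U ≃ ↥(TK T K) :=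
  Equiv.ofBijective _ ⟨xtToTK_injective T U K hK, xtToTK_surjective T U K hK⟩

theorem xtEquiv_apply (X : XT T U) : xtEquiv T U K hK X = xtToTK T U K hK X := rfl

/-- **Equivariance**: `Γ ⧸ U` acts on `XT T U` (`BaseDefs4.xtAction`) as `Gal(K/ℚ)` acts on the
primes of `K`. -/
theorem xtEquiv_smul (g : Γ) (X : XT T U) :
    ((xtEquiv T U K hK ((QuotientGroup.mk g : Γ ⧸ U) • X) : ↥(TK T K)) :
        HeightOneSpectrum (𝓞 ↥K)) =
      resK K g • ((xtEquiv T U K hK X : ↥(TK T K)) : HeightOneSpectrum (𝓞 ↥K)) := by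
  obtain ⟨q, D⟩ := X
  exact dcToPrime_smul ((q : Nat.Primes) : ℕ) U K hK g D

end XT

end Fermat.Agent.W56.DCPrimes1
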