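/-
Programme W56 (target S56), chapter (EC-5), helper1: **`Bridge0.HXT`** — for a level `K : Lev T`,
`XT T K.U = Σ_{q ∈ T} Γ_q \ Γ / K.U ≃ {primes of K above T}` (`BridgeDefs0.TKof`), equivariantly
(lead's literal, input (XT) of `Bridge0.bridge_of`).  Instance of `DCPrimes1.xtEquiv`.
-/
import Mathlib
import Fermat.Agent.W56.DCPrimes1
import Fermat.Agent.W56.Bridge0

set_option autoImplicit false
set_option linter.unusedSectionVars false

namespace Fermat.Agent.W56.HXT1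

open NumberField IsDedekindDomain
open Fermat.Agent.PT.GLUE.Levels21 Fermat.Agent.W56.BaseDefs4 Fermat.Agent.W56.BridgeDefs0
  Fermat.Agent.W56.DCPrimes1

local notation "Qbar" => AlgebraicClosure ℚ
local notation "Γ" => (AlgebraicClosure ℚ ≃ₐ[ℚ] AlgebraicClosure ℚ)

/-- `DCPrimes1.TK` and `BridgeDefs0.TKof` have the same elements. -/
theorem mem_TK_iff_mem_TKof (T : Finset Nat.Primes) (K : IntermediateField ℚ Qbar)
    [FiniteDimensional ℚ K] [IsGalois ℚ K] (P : HeightOneSpectrum (𝓞 ↥K)) :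
    P ∈ TK T K ↔ P ∈ TKof T ↥K := by
  rw [mem_TK, mem_TKof]

/-- `XT T K.U ≃ TKof T K.F`. -/
noncomputable def xtEquivLev {T : Finset Nat.Primes} (K : Lev T) :
    XT T K.U ≃ ↥(TKof T ↥K.F) :=
  (xtEquiv T K.U K.F rfl).trans
    (Equiv.subtypeEquivRight (fun P => mem_TK_iff_mem_TKof T K.F P))

theorem xtEquivLev_coe {T : Finset Nat.Primes} (K : Lev T) (x : XT T K.U) :
    ((xtEquivLev K x : ↥(TKof T ↥K.F)) : HeightOneSpectrum (𝓞 ↥K.F)) =
      ((xtEquiv T K.U K.F rfl x : ↥(TK T K.F)) : HeightOneSpectrum (𝓞 ↥K.F)) := rfl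

theorem xtEquivLev_smul {T : Finset Nat.Primes} (K : Lev T) (g : Γ) (x : XT T K.U) :
    ((xtEquivLev K ((QuotientGroup.mk g : Γ ⧸ K.U) • x) : ↥(TKof T ↥K.F)) :
        HeightOneSpectrum (𝓞 ↥K.F)) =
      AlgEquiv.restrictNormalHom K.F g •
        ((xtEquivLev K x : ↥(TKof T ↥K.F)) : HeightOneSpectrum (𝓞 ↥K.F)) := by
  rw [xtEquivLev_coe, xtEquivLev_coe]
  exact xtEquiv_smul T K.U K.F rfl g x

/-- **(XT)**: lead's contract `Bridge0.HXT`. -/
theorem hXT : Bridge0.HXT := fun _ K => ⟨xtEquivLev K, fun g x => xtEquivLev_smul K g x⟩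

end Fermat.Agent.W56.HXT1
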