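import Fermat.Agent.W56.Bridge0
import Fermat.Agent.W56.BridgeB1_3
import Fermat.Agent.W56.HXT1

/-!
# (EC-5)/(P1): `BaseDefs4.Bridge` is a theorem

`Bridge0.bridge_of` (lead) applied to `BridgeB1_3.hB1` (helper3) and `HXT1.hXT` (helper1).
-/

namespace Fermat.Agent.W56.Bridge3

/-- (P1) of the base case: `h_P((E_T)^U) = μ_P(𝔽_p[X_T]) + μ_P(𝔽_p[(Γ/U)/⟨c̄⟩]) − μ_P(𝔽_p)`. -/
theorem bridge : BaseDefs4.Bridge :=
  Bridge0.bridge_of BridgeB1_3.hB1 HXT1.hXT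

end Fermat.Agent.W56.Bridge3
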