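/-
W56 / (EC-5) / **(Y1): finiteness of `H¹(V; E_T)`** for an open subgroup `V ≤ Γ = Gal(ℚ̄/ℚ)` (lead).

`finite_H1_ES T V (hV : ∃ W ∈ (LevelBridge13.globalBasis T).sets, W ≤ V) :
   Finite (LevelCoh28.H1 (Objects21.comapBasis V.subtype (Objects21.levelS T))
     (Rep.res V.subtype (Objects21.ES T)))`           (helper4's literal, board 746(1)).

Proof.  `K = ℚ̄^V` is a finite extension of `ℚ` (inside a field unramified outside `T`) with
`Gal(ℚ̄/K) = V`.  A level 1-cocycle `c` of `V` is right-invariant under `Gal(ℚ̄/L)` for a level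
`L : Lev T` (finite Galois over `ℚ`, unramified outside `T`), `L ⊇ K`; its values lie in `L`, and by
Hilbert 90 (`InfGalois13.hilbert90_level`) `c n = nβ/β` with `β ∈ Lˣ`.  As `nβ/β ∈ E_T` the divisor
(away from `T`) of `β` is `Gal(L/K)`-invariant, so it descends to a divisor `D` of `K`
(`TowerMaps6.exists_inclDiv_eq_of_fixed`, `L/K` being unramified outside `T`).  If two cocycles of
level `L` have divisors `D₁, D₂` with the same class in `DivT T K ⧸ divT(Kˣ)`, say
`D₁ / D₂ = div(α)`, then `u = β₁/(β₂α) ∈ E_T` and `c₁ - c₂ = d⁰u`.  The group `DivT T K ⧸ divT(Kˣ)`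
is finite (`finite_divT_quot`: it injects into the class group of `K`), hence no `#Cl + 1` classes
of `H¹` (which have a common level) can be distinct.
-/
import Mathlib
import Fermat.Agent.PT.GLOB.Interface23
import Fermat.Agent.PT.GLOB.ClassKill15
import Fermat.Agent.PT.GLUE.Levels21
import Fermat.Agent.PT.GLUE.ESLevel27
import Fermat.Agent.PT.GLOB.TowerMaps6
import Fermat.Agent.PT.BR.InfGalois13
import Fermat.Agent.PT.GLUE.BasisCompare13

set_option autoImplicit false
set_option linter.unusedSectionVars false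
set_option linter.style.haveILetI false

namespace Fermat.Agent.W56.FinH1ES0

open NumberField IsDedekindDomain FractionalIdeal groupCohomology
open scoped nonZeroDivisors
open Fermat.Agent.PT.PRO.LevelCoh28
open Fermat.Agent.PT.GLUE.Objects21 Fermat.Agent.PT.GLUE.Levels21 Fermat.Agent.PT.GLOB
open Fermat.Agent.PT.GLOB.Interface23 Fermat.Agent.PT.GLUE.ESLevel27

local notation "Qbar" => AlgebraicClosure ℚ
local notation "Γ" => (AlgebraicClosure ℚ ≃ₐ[ℚ] AlgebraicClosure ℚ)

local instance isAlgClosureQbarY0 : IsAlgClosure ℚ Qbar := ⟨inferInstance, inferInstance⟩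
local instance normalQbarY0 : Normal ℚ Qbar := IsAlgClosure.normal ℚ Qbar
local instance isGaloisQbarY0 : IsGalois ℚ Qbar := IsAlgClosure.isGalois ℚ Qbar

/-! ### The `T`-class group of a number field is finite -/

section ClassFinite

variable (T : Finset Nat.Primes) (K : Type*) [Field K] [NumberField K]

/-- the divisor as a finitely supported function on all primes. -/
noncomputable def extFinsupp (D : DivT T K) : HeightOneSpectrum (𝓞 K) →₀ ℤ :=
  (DivT.toFinsupp T K D).mapDomain Subtype.val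

theorem extFinsupp_apply (D : DivT T K) (P : PrimeAway T K) :
    extFinsupp T K D P.1 = DivT.toFinsupp T K D P :=
  Finsupp.mapDomain_apply Subtype.val_injective _ _

/-- the fractional ideal of a divisor. -/
noncomputable def idealOf (D : DivT T K) : FractionalIdeal (𝓞 K)⁰ K :=
  (extFinsupp T K D).prod (fun w k => (w.asIdeal : FractionalIdeal (𝓞 K)⁰ K) ^ k)

theorem idealOf_ne_zero (D : DivT T K) : idealOf T K D ≠ 0 := by
  unfold idealOf
  rw [Finsupp.prod, Finset.prod_ne_zero_iff]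
  exact fun v _ ↦ zpow_ne_zero _ (coeIdeal_ne_zero.mpr v.ne_bot)

theorem count_idealOf (D : DivT T K) (P : PrimeAway T K) :
    count K P.1 (idealOf T K D) = DivT.toFinsupp T K D P := by
  unfold idealOf
  rw [count_finsuppProd, extFinsupp_apply]

/-- the class of a divisor. -/
noncomputable def classOf (D : DivT T K) : ClassGroup (𝓞 K) :=
  ClassGroup.mk K (Units.mk0 (idealOf T K D) (idealOf_ne_zero T K D))

theorem div_mem_range_of_classOf_eq {D D' : DivT T K} (h : classOf T K D = classOf T K D') :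
    D / D' ∈ (divT T K).range := by
  have h1 : ClassGroup.mk K (Units.mk0 (idealOf T K D) (idealOf_ne_zero T K D) /
      Units.mk0 (idealOf T K D') (idealOf_ne_zero T K D')) = 1 := by
    rw [map_div]
    exact div_eq_one.mpr h
  rw [ClassGroup.mk_eq_one_iff] at h1
  obtain ⟨x, hx⟩ := h1.principal
  have hx' : idealOf T K D * (idealOf T K D')⁻¹ = spanSingleton (𝓞 K)⁰ x := by
    apply coeToSubmodule_injective
    show ((idealOf T K D * (idealOf T K D')⁻¹ : FractionalIdeal (𝓞 K)⁰ K) : Submodule (𝓞 K) K) =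
      ((spanSingleton (𝓞 K)⁰ x : FractionalIdeal (𝓞 K)⁰ K) : Submodule (𝓞 K) K)
    rw [coe_spanSingleton, ← hx]
    simp [div_eq_mul_inv]
  have hx0 : x ≠ 0 := by
    rintro rfl
    rw [spanSingleton_zero] at hx'
    exact mul_ne_zero (idealOf_ne_zero T K D) (inv_ne_zero (idealOf_ne_zero T K D')) hx'
  refine ⟨Units.mk0 x hx0, ?_⟩
  apply congrArg (DivT.ofFinsupp T K) (a₂ := DivT.toFinsupp T K (D / D'))
  ext P
  show ordAt K P.1 (Units.mk0 x hx0) = _
  unfold ordAt
  rw [Units.val_mk0, ← hx', count_mul K P.1 (idealOf_ne_zero T K D)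
    (inv_ne_zero (idealOf_ne_zero T K D')), count_inv, count_idealOf, count_idealOf]
  have : DivT.toFinsupp T K (D / D') = DivT.toFinsupp T K D - DivT.toFinsupp T K D' := rfl
  rw [this, Finsupp.sub_apply]
  ring

/-- **the `T`-class group is finite.** -/
theorem finite_divT_quot : Finite (DivT T K ⧸ (divT T K).range) := by
  classical
  let F : DivT T K ⧸ (divT T K).range → ClassGroup (𝓞 K) := fun q => classOf T K q.out
  apply Finite.of_injective F
  intro q q' h
  have h1 := div_mem_range_of_classOf_eq T K h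
  rw [← QuotientGroup.out_eq' q, ← QuotientGroup.out_eq' q']
  rw [QuotientGroup.eq]
  have : (q.out)⁻¹ * q'.out = (q.out / q'.out)⁻¹ := by
    rw [inv_div, div_eq_mul_inv, mul_comm]
  rw [this]
  exact inv_mem h1

end ClassFinite


/-! ### The tower `K ⊆ L`, `L` a level -/

section Tower

variable {T : Finset Nat.Primes} (K : IntermediateField ℚ Qbar) [FiniteDimensional ℚ K]
  (L : Lev T) [h : Fact (K ≤ L.F)]

/-- `L` as an algebra over the subfield `K`. -/
noncomputable scoped instance algKL : Algebra K L.F :=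
  (IntermediateField.inclusion h.out).toRingHom.toAlgebra

theorem coe_algebraMap_KL (x : K) : ((algebraMap K L.F x : L.F) : Qbar) = (x : Qbar) := rfl

scoped instance isScalarTower_KL : IsScalarTower ℚ K L.F :=
  IsScalarTower.of_algebraMap_eq' (Subsingleton.elim _ _)

scoped instance isGalois_KL : IsGalois K L.F := IsGalois.tower_top_of_isGalois ℚ K L.F

theorem isUnramifiedOutside_KL : Interface23.IsUnramifiedOutside T K L.F :=
  Devissage19.isUnramifiedOutside_top T ℚ K L.F
    ((Fermat.Agent.PT.BR.UnramGlob13.isUnramifiedOutside_iff T L.F).1 L.unr)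

/-- every `K`-automorphism of `L` is induced by an element of `Gal(ℚ̄/K)`. -/
theorem exists_lift (τ : L.F ≃ₐ[K] L.F) :
    ∃ g : Γ, g ∈ K.fixingSubgroup ∧ ∀ x : L.F, ((τ x : L.F) : Qbar) = g x := by
  obtain ⟨g, hg⟩ := AlgEquiv.restrictNormalHom_surjective (F := ℚ) (K₁ := L.F) Qbar (τ.restrictScalars ℚ)
  have hgx : ∀ x : L.F, ((τ x : L.F) : Qbar) = g x := by
    intro x
    have h1 : (((AlgEquiv.restrictNormalHom L.F g) x : L.F) : Qbar) = g (x : Qbar) :=
      AlgEquiv.restrictNormal_commutes g L.F x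
    rw [← h1, hg]
    rfl
  refine ⟨g, ?_, hgx⟩
  rw [IntermediateField.mem_fixingSubgroup_iff]
  intro x hx
  have h1 := hgx (algebraMap K L.F ⟨x, hx⟩)
  rw [τ.commutes] at h1
  exact h1.symm

/-- the divisor of `β ∈ Lˣ` descends to `K` when `gβ/β ∈ E_T` for all `g ∈ Gal(ℚ̄/K)`. -/
theorem exists_div (β : (↥L.F)ˣ)
    (hβ : ∀ g ∈ K.fixingSubgroup, g • unitsVal L.F β / unitsVal L.F β ∈ ESgroup T) :
    ∃ D : DivT T K, Tower23.inclDiv T K L.F D = divT T L.F β := by
  apply TowerMaps6.exists_inclDiv_eq_of_fixed T K L.F (isUnramifiedOutside_KL K L)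
  intro τ
  rw [← ClassAction23.divT_smul]
  obtain ⟨g, hg, hgx⟩ := exists_lift K L τ
  have h1 : unitsVal L.F (τ • β / β) = g • unitsVal L.F β / unitsVal L.F β := by
    apply Units.ext
    rw [map_div, Units.val_div_eq_div_val, Units.val_div_eq_div_val, coe_unitsVal, coe_unitsVal,
      Interface23.coe_smul_units, hgx]
    rfl
  have h2 : τ • β / β ∈ (divT T L.F).ker := by
    rw [← mem_ESgroup_iff_mem_ker_divT T L.F L.unr]
    show unitsVal L.F (τ • β / β) ∈ ESgroup T
    rw [h1]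
    exact hβ g hg
  rw [MonoidHom.mem_ker, map_div, div_eq_one] at h2
  exact h2

/-- if the descended divisor is principal, `β` is an `S`-unit up to `Kˣ`. -/
theorem div_mem_ESgroup (β : (↥L.F)ˣ) (α : (↥K)ˣ)
    (hα : Tower23.inclDiv T K L.F (divT T K α) = divT T L.F β) :
    unitsVal L.F β / unitsVal K α ∈ ESgroup T := by
  have h1 : unitsVal K α = unitsVal L.F (Units.map (algebraMap K L.F : K →* L.F) α) := by
    apply Units.ext
    rfl
  rw [h1, ← map_div]
  apply mem_ESgroup_of_mem_ker_divT T L.F L.unr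
  rw [MonoidHom.mem_ker, map_div, ← Tower23.inclDiv_divT, hα, div_self']

end Tower


/-! ### Cohomology -/

section Fixed

variable (T : Finset Nat.Primes) (V : Subgroup Γ)

/-- the fixed field of `V`. -/
noncomputable abbrev KV : IntermediateField ℚ Qbar := IntermediateField.fixedField V

variable (hV : ∃ W ∈ (levelS T).sets, W ≤ V)

include hV in
theorem fixingSubgroup_KV : (KV V).fixingSubgroup = V := by
  obtain ⟨W, ⟨F, hF, rfl⟩, hWV⟩ := hV
  have := hF.1
  have hopen : IsOpen (V : Set Γ) :=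
    Subgroup.isOpen_mono hWV (IntermediateField.fixingSubgroup_isOpen F)
  have hclosed : IsClosed (V : Set Γ) := Subgroup.isClosed_of_isOpen V hopen
  exact InfiniteGalois.fixingSubgroup_fixedField ⟨V, hclosed⟩

theorem KV_le_of_le {F : IntermediateField ℚ Qbar} (hF : F.fixingSubgroup ≤ V) : KV V ≤ F := by
  intro x hx
  rw [IntermediateField.mem_fixedField_iff] at hx
  rw [← InfiniteGalois.fixedField_fixingSubgroup F, IntermediateField.mem_fixedField_iff]
  intro s hs
  exact hx s (hF hs)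

include hV in
theorem finiteDimensional_KV : FiniteDimensional ℚ (KV V) := by
  obtain ⟨W, ⟨F, hF, rfl⟩, hWV⟩ := hV
  have := hF.1
  have hle : KV V ≤ F := KV_le_of_le V hWV
  exact Module.Finite.of_injective (IntermediateField.inclusion hle).toLinearMap
    (IntermediateField.inclusion_injective hle)

end Fixed

section Coc

variable (T : Finset Nat.Primes) (V : Subgroup Γ)

/-- the underlying `ℚ̄ˣ`-valued function of a cochain. -/
def valOf (c : ↥V → ↑(Rep.res V.subtype (ES T))) (n : ↥V) : Qbarˣ :=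
  ((Additive.toMul (α := ESgroup T) (c n) : ESgroup T) : Qbarˣ)

theorem valOf_mem (c : ↥V → ↑(Rep.res V.subtype (ES T))) (n : ↥V) : valOf T V c n ∈ ESgroup T :=
  (Additive.toMul (α := ESgroup T) (c n) : ESgroup T).2

variable {T V}

theorem valOf_mul {c : ↥V → ↑(Rep.res V.subtype (ES T))}
    (hc : c ∈ cocycles₁ (Rep.res V.subtype (ES T))) (g h : ↥V) :
    valOf T V c (g * h) = (g : Γ) • valOf T V c h * valOf T V c g := by
  have h1 := (mem_cocycles₁_iff c).1 hc g h
  have h2 := congrArg (fun z : ↑(Rep.res V.subtype (ES T)) =>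
    ((Additive.toMul (α := ESgroup T) z : ESgroup T) : Qbarˣ)) h1
  exact h2

theorem valOf_one {c : ↥V → ↑(Rep.res V.subtype (ES T))}
    (hc : c ∈ cocycles₁ (Rep.res V.subtype (ES T))) : valOf T V c 1 = 1 := by
  have h1 := valOf_mul hc 1 1
  rw [mul_one, Subgroup.coe_one, one_smul] at h1
  exact (mul_eq_left (a := valOf T V c 1)).1 h1.symm

section Level

variable (K : IntermediateField ℚ Qbar) [FiniteDimensional ℚ K] (hKV : K.fixingSubgroup = V)
  (L : Lev T) [hKL : Fact (K ≤ L.F)]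

include hKV in
theorem mem_of_mem_U {s : Γ} (hs : s ∈ L.U) : s ∈ V := by
  rw [← hKV]
  exact IntermediateField.fixingSubgroup_antitone hKL.out hs

include hKV in
/-- **Hilbert 90 + descent of the divisor**, at one level. -/
theorem exists_data {c : ↥V → ↑(Rep.res V.subtype (ES T))}
    (hc : c ∈ cocycles₁ (Rep.res V.subtype (ES T)))
    (hcL : ∀ g s : ↥V, (s : Γ) ∈ L.U → c (g * s) = c g) :
    ∃ (β : (↥L.F)ˣ) (D : DivT T K),
      (∀ n : ↥V, valOf T V c n = (n : Γ) • unitsVal L.F β / unitsVal L.F β) ∧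
        Tower23.inclDiv T K L.F D = divT T L.F β := by
  classical
  have hUV : ∀ {s : Γ}, s ∈ L.U → s ∈ V := fun hs => mem_of_mem_U K hKV L hs
  -- values on `L.U`
  have hvU : ∀ s : ↥V, (s : Γ) ∈ L.U → valOf T V c s = 1 := by
    intro s hs
    have h1 := hcL 1 s hs
    rw [one_mul] at h1
    unfold valOf
    rw [h1]
    exact valOf_one hc
  -- the values are fixed by `L.U`
  have hvfix : ∀ (g : ↥V) (s : Γ), s ∈ L.U → s • valOf T V c g = valOf T V c g := by
    intro g s hs
    have hsV : s ∈ V := hUV hs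
    have h1 := valOf_mul hc ⟨s, hsV⟩ g
    rw [hvU ⟨s, hsV⟩ hs, mul_one] at h1
    have hconj : (g : Γ)⁻¹ * s * (g : Γ) ∈ L.U := by
      have := (inferInstance : (L.U).Normal).conj_mem s hs (g : Γ)⁻¹
      rwa [inv_inv] at this
    have h2 : (⟨s, hsV⟩ : ↥V) * g = g * ⟨(g : Γ)⁻¹ * s * (g : Γ), hUV hconj⟩ := by
      apply Subtype.ext
      show s * (g : Γ) = (g : Γ) * ((g : Γ)⁻¹ * s * (g : Γ))
      group
    have h3 : valOf T V c (⟨s, hsV⟩ * g) = valOf T V c g := by
      unfold valOf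
      rw [h2, hcL g _ hconj]
    rw [← h1, h3]
  -- the extension to `Γ`
  let c' : Γ → Qbarˣ := fun g => if hg : g ∈ V then valOf T V c ⟨g, hg⟩ else 1
  have hc'V : ∀ (g : Γ) (hg : g ∈ V), c' g = valOf T V c ⟨g, hg⟩ := fun g hg => dif_pos hg
  have hinv : ∀ g, ∀ s ∈ L.F.fixingSubgroup, c' (g * s) = c' g := by
    intro g s hs
    have hsV : s ∈ V := hUV hs
    by_cases hg : g ∈ V
    · rw [hc'V g hg, hc'V (g * s) (mul_mem hg hsV)]
      have : (⟨g * s, mul_mem hg hsV⟩ : ↥V) = ⟨g, hg⟩ * ⟨s, hsV⟩ := rfl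
      unfold valOf
      rw [this, hcL ⟨g, hg⟩ ⟨s, hsV⟩ hs]
    · have hgs : g * s ∉ V := fun h => hg (by simpa using mul_mem h (inv_mem hsV))
      show (if hg : g * s ∈ V then valOf T V c ⟨g * s, hg⟩ else 1) =
        (if hg : g ∈ V then valOf T V c ⟨g, hg⟩ else 1)
      rw [dif_neg hgs, dif_neg hg]
  have hval : ∀ g, ((c' g : Qbarˣ) : Qbar) ∈ L.F := by
    intro g
    by_cases hg : g ∈ V
    · rw [hc'V g hg, ← InfiniteGalois.fixedField_fixingSubgroup L.F,
        IntermediateField.mem_fixedField_iff]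
      intro s hs
      exact congrArg (fun u : Qbarˣ => (u : Qbar)) (hvfix ⟨g, hg⟩ s hs)
    · show (((if hg : g ∈ V then valOf T V c ⟨g, hg⟩ else 1 : Qbarˣ)) : Qbar) ∈ L.F
      rw [dif_neg hg, Units.val_one]
      exact one_mem _
  have hcoc : ∀ n ∈ V, ∀ n' ∈ V, c' (n * n') = n • c' n' * c' n := by
    intro n hn n' hn'
    rw [hc'V n hn, hc'V n' hn', hc'V (n * n') (mul_mem hn hn')]
    exact valOf_mul hc ⟨n, hn⟩ ⟨n', hn'⟩
  obtain ⟨β₀, hβ₀⟩ := Fermat.Agent.PT.BR.InfGalois13.hilbert90_level V L.F c' hinv hval hcoc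
  -- `β₀ ∈ L`
  have hβ₀L : (β₀ : Qbar) ∈ L.F := by
    rw [← InfiniteGalois.fixedField_fixingSubgroup L.F, IntermediateField.mem_fixedField_iff]
    intro s hs
    have hsV : s ∈ V := hUV hs
    have h1 := hβ₀ s hsV
    rw [hc'V s hsV, hvU ⟨s, hsV⟩ hs] at h1
    have h2 : s • β₀ = β₀ := (div_eq_one.1 h1.symm)
    exact congrArg (fun u : Qbarˣ => (u : Qbar)) h2
  obtain ⟨β, hβ⟩ := exists_unitsVal_eq L.F β₀ hβ₀L
  have hform : ∀ n : ↥V, valOf T V c n = (n : Γ) • unitsVal L.F β / unitsVal L.F β := by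
    intro n
    rw [hβ]
    exact (hc'V n n.2).symm.trans (hβ₀ n n.2)
  obtain ⟨D, hD⟩ := exists_div K L β (by
    intro g hg
    rw [hKV] at hg
    have := hform ⟨g, hg⟩
    rw [← this]
    exact valOf_mem T V c ⟨g, hg⟩)
  exact ⟨β, D, hform, hD⟩

theorem div_aux {A : Type*} [CommGroup A] (x₁ x₂ a b₁ b₂ : A) :
    (x₁ / x₂ / a) / ((b₁ / b₂) / a) = (x₁ / b₁) / (x₂ / b₂) := by
  rw [div_div_div_cancel_right, div_div_div_comm]

include hKV in
/-- two cocycles with the same divisor class differ by a coboundary. -/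
theorem sub_mem_coboundaries₁ {c₁ c₂ : ↥V → ↑(Rep.res V.subtype (ES T))}
    {β₁ β₂ : (↥L.F)ˣ} {D₁ D₂ : DivT T K}
    (h₁ : ∀ n : ↥V, valOf T V c₁ n = (n : Γ) • unitsVal L.F β₁ / unitsVal L.F β₁)
    (h₂ : ∀ n : ↥V, valOf T V c₂ n = (n : Γ) • unitsVal L.F β₂ / unitsVal L.F β₂)
    (hD₁ : Tower23.inclDiv T K L.F D₁ = divT T L.F β₁)
    (hD₂ : Tower23.inclDiv T K L.F D₂ = divT T L.F β₂)
    (hq : (QuotientGroup.mk D₁ : DivT T K ⧸ (divT T K).range) = QuotientGroup.mk D₂) :
    c₁ - c₂ ∈ coboundaries₁ (Rep.res V.subtype (ES T)) := by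
  have hq' := QuotientGroup.eq.1 hq.symm
  obtain ⟨α, hα⟩ := hq'
  have hα' : Tower23.inclDiv T K L.F (divT T K α) = divT T L.F (β₁ / β₂) := by
    rw [hα, map_mul, map_inv, hD₁, hD₂, map_div, div_eq_mul_inv, mul_comm]
  have hu := div_mem_ESgroup K L (β₁ / β₂) α hα'
  have hfixα : ∀ n : ↥V, (n : Γ) • unitsVal K α = unitsVal K α := by
    intro n
    apply Units.ext
    have hn : (n : Γ) ∈ K.fixingSubgroup := by rw [hKV]; exact n.2
    exact (IntermediateField.mem_fixingSubgroup_iff _ _).1 hn _ ((α : K)).2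
  refine ⟨Additive.ofMul (⟨_, hu⟩ : ESgroup T), ?_⟩
  funext n
  rw [d₀₁_hom_apply]
  apply Additive.toMul.injective
  apply Subtype.ext
  show (n : Γ) • (unitsVal L.F (β₁ / β₂) / unitsVal K α) / (unitsVal L.F (β₁ / β₂) / unitsVal K α) =
    valOf T V c₁ n / valOf T V c₂ n
  rw [h₁ n, h₂ n, smul_div', hfixα n, map_div, smul_div', div_aux]

end Level

end Coc

section Main

variable (T : Finset Nat.Primes) (V : Subgroup Γ)

/-- a common level for finitely many level cocycles. -/
theorem exists_common_lev (hV : ∃ W ∈ (levelS T).sets, W ≤ V)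
    (s : Finset ↥(Z1 (comapBasis V.subtype (levelS T)) (Rep.res V.subtype (ES T)))) :
    ∃ L : Lev T, L.U ≤ V ∧ ∀ c ∈ s, ∀ g t : ↥V, (t : Γ) ∈ L.U →
      (c : ↥V → ↑(Rep.res V.subtype (ES T))) (g * t) = (c : ↥V → ↑(Rep.res V.subtype (ES T))) g := by
  classical
  induction s using Finset.induction_on with
  | empty =>
    obtain ⟨W, hW, hWV⟩ := hV
    obtain ⟨L, hL⟩ := exists_lev_le hW
    exact ⟨L, hL.trans hWV, fun c hc => absurd hc (Finset.notMem_empty c)⟩
  | insert a s _ ih =>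
    obtain ⟨L, hLV, hL⟩ := ih
    have ha := ((mem_Z1_iff _ _ _).1 a.2).2
    rw [isLevel₁_comapBasis_iff] at ha
    obtain ⟨U, hU, haU⟩ := ha
    obtain ⟨W', hW', hle⟩ := (levelS T).isBasis.directed L.U L.U_mem U hU
    obtain ⟨L', hL'⟩ := exists_lev_le hW'
    refine ⟨L', (hL'.trans (hle.trans inf_le_left)).trans hLV, fun c hc g t ht => ?_⟩
    rcases Finset.mem_insert.1 hc with rfl | hc
    · exact haU g t ((hL'.trans (hle.trans inf_le_right)) ht)
    · exact hL c hc g t ((hL'.trans (hle.trans inf_le_left)) ht)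

/-- **(Y1)** `H¹(V; E_T)` is finite for every open subgroup `V`. -/
theorem finite_H1_ES_levelS (hV : ∃ W ∈ (levelS T).sets, W ≤ V) :
    Finite (H1 (comapBasis V.subtype (levelS T)) (Rep.res V.subtype (ES T))) := by
  classical
  haveI := finiteDimensional_KV T V hV
  have hKV := fixingSubgroup_KV T V hV
  haveI hfin : Finite (DivT T (KV V) ⧸ (divT T (KV V)).range) := finite_divT_quot T (KV V)
  haveI := Fintype.ofFinite (DivT T (KV V) ⧸ (divT T (KV V)).range)
  by_contra hinf
  rw [not_finite_iff_infinite] at hinf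
  obtain ⟨s, hs⟩ := Infinite.exists_subset_card_eq
    (H1 (comapBasis V.subtype (levelS T)) (Rep.res V.subtype (ES T)))
    (Fintype.card (DivT T (KV V) ⧸ (divT T (KV V)).range) + 1)
  let rep : H1 (comapBasis V.subtype (levelS T)) (Rep.res V.subtype (ES T)) →
      ↥(Z1 (comapBasis V.subtype (levelS T)) (Rep.res V.subtype (ES T))) :=
    Function.surjInv (H1mk_surjective _ _)
  have hrep : ∀ x, H1mk _ _ (rep x) = x := Function.surjInv_eq (H1mk_surjective _ _)
  obtain ⟨L, hLV, hL⟩ := exists_common_lev T V hV (s.image rep)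
  haveI : Fact (KV V ≤ L.F) := ⟨KV_le_of_le V hLV⟩
  have hdata : ∀ x ∈ s, ∃ (β : (↥L.F)ˣ) (D : DivT T (KV V)),
      (∀ n : ↥V, valOf T V (rep x : ↥V → ↑(Rep.res V.subtype (ES T))) n =
        (n : Γ) • unitsVal L.F β / unitsVal L.F β) ∧
        Tower23.inclDiv T (KV V) L.F D = divT T L.F β := fun x hx =>
    exists_data (KV V) hKV L ((mem_Z1_iff _ _ _).1 (rep x).2).1
      (hL (rep x) (Finset.mem_image_of_mem rep hx))
  choose! β D hβD using hdata
  obtain ⟨x, hx, y, hy, hxy, hfxy⟩ := Finset.exists_ne_map_eq_of_card_lt_of_maps_to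
    (t := (Finset.univ : Finset (DivT T (KV V) ⧸ (divT T (KV V)).range)))
    (s := s) (f := fun x => QuotientGroup.mk (D x))
    (by rw [hs, Finset.card_univ]; omega) (fun x _ => Finset.mem_univ _)
  apply hxy
  have h1 := sub_mem_coboundaries₁ (KV V) hKV L (hβD x hx).1 (hβD y hy).1 (hβD x hx).2
    (hβD y hy).2 hfxy
  rw [← hrep x, ← hrep y, ← sub_eq_zero, ← map_sub, H1mk_eq_zero_iff]
  exact h1

/-- **(Y1)**, helper4's literal form (board 746(1)). -/
theorem finite_H1_ES
    (hV : ∃ W ∈ (Fermat.Agent.PT.BR.LevelBridge13.globalBasis T).sets, W ≤ V) :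
    Finite (H1 (comapBasis V.subtype (levelS T)) (Rep.res V.subtype (ES T))) := by
  rw [Fermat.Agent.PT.GLUE.BasisCompare13.globalBasis_eq T] at hV
  exact finite_H1_ES_levelS T V hV

end Main

end Fermat.Agent.W56.FinH1ES0
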