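/-
Programme W56 (target S56), stage 2, chapter (EC-5), helper5: **`BaseGlue4.FinH1WE` verbatim**:
`H¹(Ĉ; W E_T)` is finite.  Shapiro for `W` (`ShapW6.shW1` at `V := U`) transports the statement to
`H¹_lev(U; E_T|_U)`, which is finite (`FinH1ES0.finite_H1_ES_levelS`, the `T`-class group of the
fixed field of `U`).
-/
import Mathlib
import Fermat.Agent.W56.BaseGlue4
import Fermat.Agent.W56.ShapW6
import Fermat.Agent.W56.FinH1ES0

set_option autoImplicit false
set_option linter.unusedSectionVars false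

open CategoryTheory ExtCitation

namespace Fermat.Agent.W56.FinH1WE5

open Fermat.Agent.PT.PRO Fermat.Agent.PT.PRO.LevelCoh28 Fermat.Agent.PT.GLUE.Objects21
  Fermat.Agent.W56.ShapW6

local notation "Γ" => (AlgebraicClosure ℚ ≃ₐ[ℚ] AlgebraicClosure ℚ)

/-- **(F-H¹E)**: `H¹(Ĉ; W E_T)` is finite. -/
theorem finH1WE : BaseGlue4.FinH1WE := by
  intro T U Ĉ _ hU hUC
  have h := FinH1ES0.finite_H1_ES_levelS T U ⟨U, hU, le_rfl⟩
  exact Finite.of_injective _ (shW1 (levelS T) Ĉ U hUC (ES T) (isDiscrete_ES T)).injective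

end Fermat.Agent.W56.FinH1WE5
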