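/-
Programme W56 (S56), chapter (EC-5)/(AR3), helper2.

`LGInj2`: the local–global principle `LocalGlobalInst27.hLG_inclq` in the `LevelCoh28.H2`
vocabulary, as a standalone injectivity statement, and its Shapiro form:

* `eq_zero_of_toCS_inclq`: a class `w ∈ H²(Γ; I_{S,q})[p]` whose image in `H²(Γ; C_S)` vanishes is `0`;
* `phiQ S q : scoind r_q (levelS S) (AQ S q) ≃ I_{S,q}` (equivariant), and
  `ne_zero_of_scoind`: a non-zero class `y ∈ H²(Γ; Coind A'_q)[p]` has non-zero image in `H²(Γ; C_S)`.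
-/
import Mathlib
import Fermat.Agent.W56.GlobalNV2

set_option autoImplicit false
set_option linter.unusedSectionVars false

open CategoryTheory groupCohomology

namespace Fermat.Agent.W56.LGInj2

open Fermat.Agent.PT.PRO Fermat.Agent.PT.GLUE
open Fermat.Agent.PT.PRO.LevelCoh28 Fermat.Agent.PT.PRO.LevelCohRes28
open Fermat.Agent.PT.PRO.ShapiroLevel28
open Fermat.Agent.PT.GLUE.Objects21 Fermat.Agent.PT.BR.InfLocal13
open Fermat.Agent.W56.CoreChase2 Fermat.Agent.W56.LocalDatum2 Fermat.Agent.W56.GlobalCore2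
open ExtCitation

local notation "Γ" => (AlgebraicClosure ℚ ≃ₐ[ℚ] AlgebraicClosure ℚ)

variable (S : Finset Nat.Primes) (p : ℕ) [hp : Fact p.Prime]

/-- **(LG) in `H2` form**: `H²(Γ; I_{S,q})[p] → H²(Γ; C_S)` is injective. -/
theorem eq_zero_of_toCS_inclq (hp2 : p ≠ 2) (hpS : pPrime p ∈ S) (q : ↥S)
    (w : H2 (levelS S) (ISq S ((q : Nat.Primes) : ℕ))) (hpw : p • w = 0)
    (h : mapH2 (𝓑 := levelS S) (toCS S) (toCS_ρ S)
      (mapH2 (𝓑 := levelS S) (LevelTheta21.inclq S q) (LevelTheta21.inclq_ρ S q) w) = 0) :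
    w = 0 := by
  classical
  have hLG := LocalGlobalInst27.hLG_inclq S p hp.out hp2 ⟨pPrime p, hpS, rfl⟩
    (Fermat.Agent.PT.GLOB.LocalInjMain14.localInjectivity p S) (LevelEquiv29.basis (levelS S))
    (fun q => isDiscrete_ISq S ((q : Nat.Primes) : ℕ)) (isDiscrete_IS S) (isDiscrete_CS S) q
    (LevelEquiv29.h2Equiv (levelS S) (ISq S ((q : Nat.Primes) : ℕ))
      (isDiscrete_ISq S ((q : Nat.Primes) : ℕ)) w)
  apply (LevelEquiv29.h2Equiv (levelS S) (ISq S ((q : Nat.Primes) : ℕ))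
    (isDiscrete_ISq S ((q : Nat.Primes) : ℕ))).injective
  rw [map_zero]
  apply hLG
  · rw [← map_nsmul, hpw, map_zero]
  · rw [← LevelEquiv29.h2Equiv_mapH2 (levelS S) (isDiscrete_ISq S ((q : Nat.Primes) : ℕ))
      (isDiscrete_IS S) (LevelTheta21.inclq S q) (LevelTheta21.inclq_ρ S q),
      ← LevelEquiv29.h2Equiv_mapH2 (levelS S) (isDiscrete_IS S) (isDiscrete_CS S) (toCS S)
        (toCS_ρ S), h, map_zero]

/-! ### Shapiro form -/

/-- `Coind A'_q ≃ I_{S,q}` (from the `scoind` model), equivariant (`phiQ_ρ`). -/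
noncomputable def phiQ (q : ℕ) [Fact q.Prime] :
    SmoothCoind28.scoind (localGaloisToGlobal q) (levelS S) (AQ S q) ≃ₗ[ℤ] ISq S q :=
  (CoindCompare13.coindEquiv (localGaloisToGlobal q) (levelS S) (AQ S q)).symm.trans
    (LinearEquiv.ofBijective (mapAQ S q) (mapAQ_bijective S q))

theorem phiQ_ρ (q : ℕ) [Fact q.Prime] (g : Γ)
    (f : SmoothCoind28.scoind (localGaloisToGlobal q) (levelS S) (AQ S q)) :
    phiQ S q ((SmoothCoind28.scoind (localGaloisToGlobal q) (levelS S) (AQ S q)).ρ g f) =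
      (ISq S q).ρ g (phiQ S q f) := by
  obtain ⟨f', rfl⟩ := (CoindCompare13.coindEquiv (localGaloisToGlobal q) (levelS S)
    (AQ S q)).surjective f
  rw [← CoindCompare13.coindEquiv_ρ]
  show mapAQ S q ((CoindCompare13.coindEquiv (localGaloisToGlobal q) (levelS S) (AQ S q)).symm
      (CoindCompare13.coindEquiv (localGaloisToGlobal q) (levelS S) (AQ S q) _)) =
    (ISq S q).ρ g (mapAQ S q ((CoindCompare13.coindEquiv (localGaloisToGlobal q) (levelS S)
      (AQ S q)).symm (CoindCompare13.coindEquiv (localGaloisToGlobal q) (levelS S) (AQ S q) f')))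
  rw [LinearEquiv.symm_apply_apply, LinearEquiv.symm_apply_apply, mapAQ_ρ]

/-- The composite `Coind A'_q ≃ I_{S,q} → I_S → C_S`. -/
noncomputable def toCSq (q : ↥S) :
    SmoothCoind28.scoind (localGaloisToGlobal ((q : Nat.Primes) : ℕ)) (levelS S)
      (AQ S ((q : Nat.Primes) : ℕ)) →ₗ[ℤ] CS S :=
  (toCS S).comp ((LevelTheta21.inclq S q).comp (phiQ S ((q : Nat.Primes) : ℕ)).toLinearMap)

theorem toCSq_apply (q : ↥S)
    (f : SmoothCoind28.scoind (localGaloisToGlobal ((q : Nat.Primes) : ℕ)) (levelS S)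
      (AQ S ((q : Nat.Primes) : ℕ))) :
    toCSq S q f = toCS S (LevelTheta21.inclq S q (phiQ S ((q : Nat.Primes) : ℕ) f)) := rfl

theorem toCSq_ρ (q : ↥S) (g : Γ)
    (f : SmoothCoind28.scoind (localGaloisToGlobal ((q : Nat.Primes) : ℕ)) (levelS S)
      (AQ S ((q : Nat.Primes) : ℕ))) :
    toCSq S q ((SmoothCoind28.scoind (localGaloisToGlobal ((q : Nat.Primes) : ℕ)) (levelS S)
      (AQ S ((q : Nat.Primes) : ℕ))).ρ g f) = (CS S).ρ g (toCSq S q f) := by
  rw [toCSq_apply, toCSq_apply, phiQ_ρ, LevelTheta21.inclq_ρ, toCS_ρ]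

/-- **(LG), Shapiro form**: a non-zero class of `H²(Γ; Coind A'_q)[p]` has non-zero image in
`H²(Γ; C_S)`. -/
theorem ne_zero_of_scoind (hp2 : p ≠ 2) (hpS : pPrime p ∈ S) (q : ↥S)
    (y : H2 (levelS S) (SmoothCoind28.scoind (localGaloisToGlobal ((q : Nat.Primes) : ℕ))
      (levelS S) (AQ S ((q : Nat.Primes) : ℕ))))
    (hpy : p • y = 0) (hy : y ≠ 0) :
    mapH2 (𝓑 := levelS S) (toCSq S q) (toCSq_ρ S q) y ≠ 0 := by
  intro h0
  apply hy
  have hb := CoindCompare13.mapH2_bijective (𝓑 := levelS S) (phiQ S ((q : Nat.Primes) : ℕ))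
    (phiQ_ρ S ((q : Nat.Primes) : ℕ))
  apply hb.1
  rw [map_zero]
  apply eq_zero_of_toCS_inclq S p hp2 hpS q
  · rw [← map_nsmul, hpy, map_zero]
  · obtain ⟨c, rfl⟩ := H2mk_surjective (levelS S) _ y
    rw [mapH2_mk] at h0
    rw [mapH2_mk, mapH2_mk, mapH2_mk]
    exact h0

end Fermat.Agent.W56.LGInj2
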