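/-
Programme W56 (target S56), stage 2, chapter (EC-5), helper5: **the degenerate case of the monomial
theorem** (`BaseContracts4.MonoW` with one double coset).

`G` a group with level basis `𝓑`, `H ◁ G` with `Q = G ⧸ H` finite of order prime to `p`, `Y` a discrete
`G`-module with `H²(G; Y)[p] ≠ 0` and `#H²(H; Y|_H)[p] ≤ p`.  Then `H²(G; W(Y))[p]` is a line on which
`Q` acts trivially:

  `μ_P(H²(G; W(Y))[p]) = μ_P(𝔽_p)`        (`muP_torsRep_W_triv`).

(`W(Y) = Coind_H^G Y|_H`; Shapiro `H²(G; W(Y)) ≅ H²(H; Y|_H)` bounds the size; the image of a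
non-zero `p`-torsion class under the unit `ι : Y → W(Y)` is non-zero because `trace ∘ ι = [G : H]`,
and it is `Q`-invariant because `star q ∘ ι = ι`.)

* `muP_torsRep_of_line`: the abstract statement (a non-zero invariant `p`-torsion element in a
  group with at most `p` elements of `p`-torsion).
-/
import Mathlib
import Fermat.Agent.W56.BaseContracts4

set_option autoImplicit false
set_option linter.unusedSectionVars false

open CategoryTheory

universe v

namespace Fermat.Agent.W56.MonoTriv5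

open Fermat.Agent.PT.PRO Fermat.Agent.PT.PRO.LevelCoh28 Fermat.Agent.PT.PRO.LevelCohRes28
  Fermat.Agent.PT.PRO.SmoothCoind28 Fermat.Agent.PT.PRO.InvP4 Fermat.Agent.PT.GLUE.Objects21
  Fermat.Agent.W56.Mackey2 Fermat.Agent.W56.MuP4 Fermat.Agent.W56.TorsSnake4
  Fermat.Agent.W56.EquivUnits0 Fermat.Agent.W56.KummerStar4 Fermat.Agent.W56.IntRes4
  Fermat.Agent.W56.CoindStar4 Fermat.Agent.W56.TraceOpen8 Fermat.Agent.W56.Retract2

/-! ### the abstract statement -/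

section Abstract

variable {C : Type*} [Group C] [Fintype C] (p : ℕ) [Fact p.Prime]
  [Invertible (Fintype.card C : ZMod p)] {A : Type*} [AddCommGroup A]
  (ρ : Representation ℤ C A)

/-- a non-zero invariant element of `A[p]`, `#A[p] ≤ p`: then `A[p]` is the trivial line. -/
theorem muP_torsRep_of_line (y : A) (hy0 : y ≠ 0) (hpy : p • y = 0) (hinv : ∀ c, ρ c y = y)
    [Finite ↥(torsP p A)] (hcard : Nat.card ↥(torsP p A) ≤ p)
    {P : Type*} [AddCommGroup P] [Module (ZMod p) P] (ρP : Representation (ZMod p) C P) :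
    muP ρP (torsRep p ρ) = muP ρP (funPerm (ZMod p) C PUnit.{v + 1}) := by
  classical
  set y' : torsP p A := ⟨y, (mem_torsP p).2 hpy⟩ with hy'
  have hy'0 : y' ≠ 0 := fun h => hy0 (congrArg Subtype.val h)
  let φ : (PUnit.{v + 1} → ZMod p) →ₗ[ZMod p] torsP p A :=
    { toFun := fun f => f PUnit.unit • y'
      map_add' := fun f g => by rw [Pi.add_apply, add_smul]
      map_smul' := fun c f => by rw [Pi.smul_apply, smul_eq_mul, mul_smul, RingHom.id_apply] }
  have hφinj : Function.Injective φ := by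
    intro f g h
    have h1 : (f PUnit.unit - g PUnit.unit) • y' = 0 := by
      rw [sub_smul]; exact sub_eq_zero.2 h
    rcases smul_eq_zero.1 h1 with h2 | h2
    · funext u
      cases u
      exact sub_eq_zero.1 h2
    · exact absurd h2 hy'0
  have hφbij : Function.Bijective φ := by
    have hcard' : Nat.card ↥(torsP p A) ≤ Nat.card (PUnit.{v + 1} → ZMod p) := by
      have h1 : Nat.card PUnit.{v + 1} = 1 := Nat.card_unique
      rw [Nat.card_fun, Nat.card_zmod, h1, pow_one]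
      exact hcard
    exact Function.Injective.bijective_of_nat_card_le hφinj hcard'
  symm
  refine muP_congr ρP _ _ (LinearEquiv.ofBijective φ hφbij) fun c f => ?_
  show (funPerm (ZMod p) C PUnit.{v + 1} c f) PUnit.unit • y' = torsRep p ρ c (f PUnit.unit • y')
  rw [map_smul, funPerm_apply]
  congr 1
  apply Subtype.ext
  show y = ρ c y
  rw [hinv]

end Abstract

/-! ### the cohomological statement -/

section Coh

variable {G : Type} [Group G] (𝓑 : LevelBasis G) (H : Subgroup G) [hH : H.Normal]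
  [Fintype (G ⧸ H)] (p : ℕ) [Fact p.Prime] [Invertible (Fintype.card (G ⧸ H) : ZMod p)]
  (Y : Rep.{0} ℤ G) (hY : IsDiscrete 𝓑.sets Y)

/-- `ι_* : H²(G; Y) → H²(G; W(Y))`. -/
noncomputable def iotaH2 :=
  mapH2 (𝓑 := 𝓑) (iota 𝓑 H Y hY) (iota_equivariant 𝓑 H Y hY)

/-- `trace_* ∘ ι_* = [G : H]`. -/
theorem trace_iotaH2 (x : H2 𝓑 Y) :
    mapH2 (trace 𝓑 Y H) (trace_equivariant 𝓑 Y H) (iotaH2 𝓑 H Y hY x) = H.index • x := by
  have h1 : iotaH2 𝓑 H Y hY x = mapH2 (unit 𝓑 Y H hY) (unit_equivariant 𝓑 Y H hY) x := rfl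
  rw [h1, ← trV_shV 𝓑 Y H hY, shV_mapH2_unit, trV_resV']

include hH in
theorem not_dvd_index : ¬ p ∣ H.index := by
  intro hdvd
  have h0 : ((Fintype.card (G ⧸ H) : ℕ) : ZMod p) = 0 := by
    rw [ZMod.natCast_eq_zero_iff, ← Nat.card_eq_fintype_card]
    exact hdvd
  exact (Invertible.ne_zero ((Fintype.card (G ⧸ H) : ℕ) : ZMod p)) h0

/-- `ι_*` is injective on `p`-torsion. -/
theorem iotaH2_ne_zero {x : H2 𝓑 Y} (hx0 : x ≠ 0) (hpx : p • x = 0) : iotaH2 𝓑 H Y hY x ≠ 0 := by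
  intro h0
  have h1 : H.index • x = 0 := by
    rw [← trace_iotaH2 𝓑 H Y hY x, h0]
    exact map_zero _
  have hp : p.Prime := Fact.out
  have hcop : Nat.Coprime p H.index := (Nat.Prime.coprime_iff_not_dvd hp).2 (not_dvd_index H p)
  apply hx0
  obtain ⟨m, hm⟩ := Nat.exists_mul_mod_eq_one_of_coprime hcop.symm hp.one_lt
  have h4 := Nat.div_add_mod (H.index * m) p
  rw [hm.2] at h4
  have h5 : (H.index * m) • x = 0 := by rw [mul_nsmul, h1, nsmul_zero]
  rw [← h4, add_nsmul, mul_nsmul, hpx, nsmul_zero, zero_add, one_nsmul] at h5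
  exact h5

/-- `ι_* x` is fixed by `G ⧸ H`. -/
theorem opH2_iotaH2 (q : G ⧸ H) (x : H2 𝓑 Y) :
    opH2 𝓑 (W 𝓑 H Y) (star 𝓑 H Y) (star_comm 𝓑 H Y) q (iotaH2 𝓑 H Y hY x) =
      iotaH2 𝓑 H Y hY x := by
  obtain ⟨z, rfl⟩ := H2mk_surjective 𝓑 Y x
  rw [opH2_apply, iotaH2, mapH2_mk, mapH2_mk]
  congr 1
  apply Subtype.ext
  funext g
  show star 𝓑 H Y q (iota 𝓑 H Y hY ((z : G × G → Y) g)) = iota 𝓑 H Y hY ((z : G × G → Y) g)
  exact (mem_invariants_star_iff 𝓑 H Y hY _).2 ⟨_, rfl⟩ q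

include hY in
/-- Shapiro: the `p`-torsion of `H²(G; W(Y))` is bounded by that of `H²(H; Y|_H)`. -/
theorem card_torsP_le (hfin : Finite ↥(pTor p (H2 (basisV 𝓑 H) (Rep.res H.subtype Y))))
    (hcard : Nat.card ↥(pTor p (H2 (basisV 𝓑 H) (Rep.res H.subtype Y))) ≤ p) :
    Finite ↥(torsP p (H2 𝓑 (W 𝓑 H Y))) ∧ Nat.card ↥(torsP p (H2 𝓑 (W 𝓑 H Y))) ≤ p := by
  let cr : H2 𝓑 (W 𝓑 H Y) → H2 𝓑 (CoindRes 𝓑 Y H) := fun a => a
  have hcr : ∀ a : H2 𝓑 (W 𝓑 H Y), p • a = 0 → p • cr a = 0 := fun a ha => ha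
  let f : ↥(torsP p (H2 𝓑 (W 𝓑 H Y))) → ↥(pTor p (H2 (basisV 𝓑 H) (Rep.res H.subtype Y))) :=
    fun a => ⟨shV 𝓑 Y H hY (cr a.1), by
      show p • shV 𝓑 Y H hY (cr a.1) = 0
      rw [← map_nsmul, hcr a.1 ((mem_torsP p).1 a.2), map_zero]⟩
  have hf : Function.Injective f := by
    intro a b hab
    apply Subtype.ext
    have h := congrArg Subtype.val hab
    exact (shV 𝓑 Y H hY).injective h
  exact ⟨Finite.of_injective f hf, (Nat.card_le_card_of_injective f hf).trans hcard⟩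

/-- Shapiro restricted to the `p`-torsion, as a bijection. -/
noncomputable def torsEquiv :
    ↥(torsP p (H2 𝓑 (W 𝓑 H Y))) ≃ ↥(pTor p (H2 (basisV 𝓑 H) (Rep.res H.subtype Y))) :=
  Equiv.subtypeEquiv (shV 𝓑 Y H hY).toEquiv fun a => by
    let cr : H2 𝓑 (W 𝓑 H Y) → H2 𝓑 (CoindRes 𝓑 Y H) := fun a => a
    show p • a = 0 ↔ p • shV 𝓑 Y H hY (cr a) = 0
    rw [← map_nsmul]
    constructor
    · intro h
      have h' : p • cr a = 0 := h
      rw [h', map_zero]
    · intro h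
      have h' : p • cr a = 0 := (shV 𝓑 Y H hY).injective (by rw [h, map_zero])
      exact h'

include hY in
theorem card_torsP_eq :
    Nat.card ↥(torsP p (H2 𝓑 (W 𝓑 H Y))) =
      Nat.card ↥(pTor p (H2 (basisV 𝓑 H) (Rep.res H.subtype Y))) :=
  Nat.card_congr (torsEquiv 𝓑 H p Y hY)

include hY in
/-- **the degenerate monomial theorem**: `H²(G; W(Y))[p]` is the trivial line. -/
theorem muP_torsRep_W_triv (hx : ∃ x : H2 𝓑 Y, x ≠ 0 ∧ p • x = 0)
    (hfin : Finite ↥(pTor p (H2 (basisV 𝓑 H) (Rep.res H.subtype Y))))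
    (hcard : Nat.card ↥(pTor p (H2 (basisV 𝓑 H) (Rep.res H.subtype Y))) ≤ p)
    {P : Type*} [AddCommGroup P] [Module (ZMod p) P] (ρP : Representation (ZMod p) (G ⧸ H) P) :
    muP ρP (torsRep p (canonRep (opH2 𝓑 (W 𝓑 H Y) (star 𝓑 H Y) (star_comm 𝓑 H Y)))) =
      muP ρP (funPerm (ZMod p) (G ⧸ H) PUnit.{v + 1}) := by
  obtain ⟨x, hx0, hpx⟩ := hx
  obtain ⟨hfin', hcard'⟩ := card_torsP_le 𝓑 H p Y hY hfin hcard
  refine muP_torsRep_of_line p _ (iotaH2 𝓑 H Y hY x) (iotaH2_ne_zero 𝓑 H p Y hY hx0 hpx) ?_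
    (fun c => ?_) hcard' ρP
  · rw [← map_nsmul, hpx]
    exact map_zero _
  · rw [canonRep_apply]
    exact opH2_iotaH2 𝓑 H Y hY c x

end Coh

end Fermat.Agent.W56.MonoTriv5
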