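/-
Programme W56 (target S56), stage 2, chapter (EC-5), helper5: **the count in the monomial theorem**
(`BaseContracts4.MonoWp`): `#H²(G; W(Coind_j A))[p] ≤ p ^ #(j(L) \ G / H)`.

* `sum_mapH2`: for a finite equivariant "direct sum" `A = ⊕ B_i` (maps `R_i`, `E_i` with
  `∑ E_i R_i = 1`, as in `Decomp2`): `∑ (E_i)_* (R_i)_* = 1` on `H²`; `eq_zero_of_mapH2_R`;
  `card_pTor_le_prod`: `#H²(A)[p] ≤ ∏ #H²(B_i)[p]`;
* `card_torsP_W_le`: Shapiro (`MonoTriv5.torsEquiv`) + the Mackey decomposition (`Mackey2`).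
-/
import Mathlib
import Fermat.Agent.W56.MonoTriv5

set_option autoImplicit false
set_option linter.unusedSectionVars false

open CategoryTheory

universe u

namespace Fermat.Agent.W56.MonoCount5

open Fermat.Agent.PT.PRO Fermat.Agent.PT.PRO.LevelCoh28 Fermat.Agent.PT.PRO.SmoothCoind28
  Fermat.Agent.PT.PRO.InvP4 Fermat.Agent.PT.GLUE.Objects21 Fermat.Agent.W56.Mackey2
  Fermat.Agent.W56.TorsSnake4 Fermat.Agent.W56.CoindStar4

/-! ### `H²` of a finite equivariant direct sum -/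

section Decomp

variable {k G : Type u} [CommRing k] [Group G] {𝓑 : LevelBasis G} {ι : Type} [Fintype ι]
  {A : Rep.{u} k G} {B : ι → Rep.{u} k G}
  (R : ∀ i, A →ₗ[k] B i) (hR : ∀ i g a, R i (A.ρ g a) = (B i).ρ g (R i a))
  (E : ∀ i, B i →ₗ[k] A) (hE : ∀ i g b, E i ((B i).ρ g b) = A.ρ g (E i b))
  (hsum : ∀ a, ∑ i, E i (R i a) = a)

include hsum in
/-- `∑ (E_i)_* (R_i)_* = 1` on `H²`. -/
theorem sum_mapH2 (x : H2 𝓑 A) :
    ∑ i, mapH2 (𝓑 := 𝓑) (E i) (hE i) (mapH2 (𝓑 := 𝓑) (R i) (hR i) x) = x := by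
  obtain ⟨z, rfl⟩ := H2mk_surjective 𝓑 A x
  simp only [mapH2_mk]
  rw [← map_sum]
  congr 1
  apply Subtype.ext
  funext y
  rw [Submodule.coe_sum, Finset.sum_apply]
  exact hsum _

include hE hsum in
theorem eq_zero_of_mapH2_R (x : H2 𝓑 A) (h : ∀ i, mapH2 (𝓑 := 𝓑) (R i) (hR i) x = 0) : x = 0 := by
  rw [← sum_mapH2 R hR E hE hsum x]
  exact Finset.sum_eq_zero fun i _ => by rw [h i, map_zero]

include hR hE hsum in
/-- `#H²(A)[p] ≤ ∏ #H²(B_i)[p]`. -/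
theorem card_pTor_le_prod (p : ℕ) (hfin : ∀ i, Finite ↥(pTor p (H2 𝓑 (B i)))) :
    Finite ↥(pTor p (H2 𝓑 A)) ∧
      Nat.card ↥(pTor p (H2 𝓑 A)) ≤ ∏ i, Nat.card ↥(pTor p (H2 𝓑 (B i))) := by
  let Ψ : ↥(pTor p (H2 𝓑 A)) → ∀ i, ↥(pTor p (H2 𝓑 (B i))) := fun x i =>
    ⟨mapH2 (𝓑 := 𝓑) (R i) (hR i) x.1, by
      show p • mapH2 (𝓑 := 𝓑) (R i) (hR i) x.1 = 0
      have hx : p • (x.1 : H2 𝓑 A) = 0 := x.2
      rw [← map_nsmul, hx, map_zero]⟩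
  have hΨ : Function.Injective Ψ := by
    intro x x' hxx'
    apply Subtype.ext
    rw [← sub_eq_zero]
    refine eq_zero_of_mapH2_R R hR E hE hsum _ fun i => ?_
    rw [map_sub, sub_eq_zero]
    exact congrArg Subtype.val (congrFun hxx' i)
  have := hfin
  refine ⟨Finite.of_injective Ψ hΨ, ?_⟩
  rw [← Nat.card_pi]
  exact Nat.card_le_card_of_injective Ψ hΨ

end Decomp

/-! ### the count for `W(Coind_j A)` -/

section Count

variable {G L : Type} [Group G] [Group L] (𝓑 : LevelBasis G) (H : Subgroup G) [hH : H.Normal]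
  (hHo : ∃ V ∈ 𝓑.sets, V ≤ H) [Fintype (G ⧸ H)] (p : ℕ) [Fact p.Prime]
  [Invertible (Fintype.card (G ⧸ H) : ZMod p)] (j : L →* G) (A : Rep.{0} ℤ L)

include hHo in
/-- the `p`-torsion of `H²(H; (Coind_j A)|_H)` injects into the product over the double cosets. -/
theorem card_pTor_XV_le
    (hb : ∀ g : G, Nat.card ↥(pTor p (H2 (basisV 𝓑 H) (Sg j 𝓑 A H g))) = p) :
    Finite ↥(pTor p (H2 (basisV 𝓑 H) (XV j 𝓑 A H))) ∧
      Nat.card ↥(pTor p (H2 (basisV 𝓑 H) (XV j 𝓑 A H))) ≤ p ^ Nat.card (DC j H) := by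
  classical
  have hp : p.Prime := Fact.out
  have := finite_DC j 𝓑 H hHo
  let _ : Fintype (DC j H) := Fintype.ofFinite (DC j H)
  have hfin : ∀ D : DC j H, Finite ↥(pTor p (H2 (basisV 𝓑 H) (Sg j 𝓑 A H D.out))) := fun D =>
    Nat.finite_of_card_ne_zero (by rw [hb]; exact hp.ne_zero)
  obtain ⟨h1, h2⟩ := card_pTor_le_prod (𝓑 := basisV 𝓑 H)
    (B := fun D : DC j H => Sg j 𝓑 A H D.out)
    (fun D => Rg j 𝓑 A H D.out) (fun D => Rg_equivariant j 𝓑 A H D.out)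
    (fun D => Eg j 𝓑 A H hHo D.out) (fun D => Eg_equivariant j 𝓑 A H hHo D.out)
    (sum_Eg_Rg j 𝓑 A H hHo) p hfin
  refine ⟨h1, h2.trans ?_⟩
  rw [Finset.prod_congr rfl fun D _ => hb D.out, Finset.prod_const, Finset.card_univ,
    Nat.card_eq_fintype_card]

include hHo in
/-- **the count**: `#H²(G; W(Coind_j A))[p] ≤ p ^ #(j(L) \ G / H)`. -/
theorem card_torsP_W_le
    (hb : ∀ g : G, Nat.card ↥(pTor p (H2 (basisV 𝓑 H) (Sg j 𝓑 A H g))) = p) :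
    Finite ↥(torsP p (H2 𝓑 (W 𝓑 H (scoind j 𝓑 A)))) ∧
      Nat.card ↥(torsP p (H2 𝓑 (W 𝓑 H (scoind j 𝓑 A)))) ≤ p ^ Nat.card (DC j H) := by
  obtain ⟨h1, h2⟩ := card_pTor_XV_le 𝓑 H hHo p j A hb
  have e := MonoTriv5.torsEquiv 𝓑 H p (scoind j 𝓑 A) (isDiscrete_scoind j 𝓑 A)
  exact ⟨Finite.of_equiv _ e.symm, (Nat.card_congr e).trans_le h2⟩

end Count

end Fermat.Agent.W56.MonoCount5
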