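/-
Programme W56 (target S56), stage 2, chapter (EC-5), helper1: **`BaseGlue4.FinTorsWIS`** —
`H²(Ĉ; W(I_T|_Ĉ))[p]` is finite.

Route: Shapiro `ShapW6.shW2` (`H²(Ĉ; W(I_T|_Ĉ)) ≃ H²(U; I_T|_U)`), the decomposition
`I_T = ∏_{q ∈ T} I_{T,q}` (`GlobalCore2.sum_inclq_ISproj`), `I_{T,q} ≃ Coind_{Γ_q}^Γ A'_q`
(`LGInj2.phiQ`), the Mackey decomposition over `Γ_q \ Γ / U` (`Mackey2.sum_Eg_Rg`) and the local
count `#H²(U; S_g)[p] = p` (`MonoHyp1.card_pTor_Sg_AQ`).

* `finite_pTor_XV`      : generic, `H²(V; (Coind_j A)|_V)[p]` finite from the component counts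
                          (no invertibility hypothesis, unlike `MonoCount5.card_pTor_XV_le`);
* `finite_pTor_of_bijective` : transport of finiteness along an equivariant bijection;
* `finite_pTor_ISq`, `finite_pTor_IS` : `H²(V; I_{T,q}|_V)[p]`, `H²(V; I_T|_V)[p]` finite, `V` open;
* `finTorsWIS : BaseGlue4.FinTorsWIS`.
-/
import Mathlib
import Fermat.Agent.W56.BaseGlue4
import Fermat.Agent.W56.ShapW6
import Fermat.Agent.W56.MonoCount5
import Fermat.Agent.W56.MonoHyp1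
import Fermat.Agent.W56.GlobalCore2
import Fermat.Agent.W56.LGInj2

set_option autoImplicit false
set_option linter.unusedSectionVars false
set_option linter.style.haveILetI false

open CategoryTheory ExtCitation

namespace Fermat.Agent.W56.FinTorsIS1

open Fermat.Agent.PT.PRO Fermat.Agent.PT.PRO.LevelCoh28 Fermat.Agent.PT.PRO.LevelCohRes28
  Fermat.Agent.PT.PRO.SmoothCoind28 Fermat.Agent.PT.PRO.InvP4 Fermat.Agent.PT.GLUE
  Fermat.Agent.PT.GLUE.Objects21 Fermat.Agent.W56.Mackey2 Fermat.Agent.W56.TorsSnake4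
  Fermat.Agent.W56.CoindStar4 Fermat.Agent.W56.LocalDatum2

local notation "Γ" => (AlgebraicClosure ℚ ≃ₐ[ℚ] AlgebraicClosure ℚ)

/-! ### generic lemmas -/

section Gen

variable {G L : Type} [Group G] [Group L] (𝓑 : LevelBasis G) (H : Subgroup G)
  (hHo : ∃ V ∈ 𝓑.sets, V ≤ H) (p : ℕ) (j : L →* G) (A : Rep.{0} ℤ L)

include hHo in
/-- the `p`-torsion of `H²(H; (Coind_j A)|_H)` is finite if that of every Mackey component is. -/
theorem finite_pTor_XV
    (hb : ∀ g : G, Finite ↥(pTor p (H2 (basisV 𝓑 H) (Sg j 𝓑 A H g)))) :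
    Finite ↥(pTor p (H2 (basisV 𝓑 H) (XV j 𝓑 A H))) := by
  classical
  have := finite_DC j 𝓑 H hHo
  let _ : Fintype (DC j H) := Fintype.ofFinite (DC j H)
  exact (MonoCount5.card_pTor_le_prod (𝓑 := basisV 𝓑 H)
    (B := fun D : DC j H => Sg j 𝓑 A H D.out)
    (fun D => Rg j 𝓑 A H D.out) (fun D => Rg_equivariant j 𝓑 A H D.out)
    (fun D => Eg j 𝓑 A H hHo D.out) (fun D => Eg_equivariant j 𝓑 A H hHo D.out)
    (sum_Eg_Rg j 𝓑 A H hHo) p (fun D => hb D.out)).1

end Gen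

section Bij

variable {k G : Type} [CommRing k] [Group G] {𝓑 : LevelBasis G} {A B : Rep.{0} k G}
  (Φ : A →ₗ[k] B) (hΦ : ∀ g a, Φ (A.ρ g a) = B.ρ g (Φ a)) (hbij : Function.Bijective Φ)

include hΦ hbij in
/-- finiteness of `H²(·)[p]` is transported along an equivariant bijection. -/
theorem finite_pTor_of_bijective (p : ℕ) (h : Finite ↥(pTor p (H2 𝓑 A))) :
    Finite ↥(pTor p (H2 𝓑 B)) := by
  have hb := ShapiroSm28.mapH2_bijective (𝓑 := 𝓑) Φ hΦ hbij
  let e : H2 𝓑 A ≃ₗ[k] H2 𝓑 B := LinearEquiv.ofBijective _ hb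
  have hc : Nat.card ↥(pTor p (H2 𝓑 A)) = Nat.card ↥(pTor p (H2 𝓑 B)) :=
    MonoHyp1.card_pTor_congr p e.toAddEquiv
  let f : ↥(pTor p (H2 𝓑 B)) → ↥(pTor p (H2 𝓑 A)) := fun y =>
    ⟨e.symm y.1, by
      show p • e.symm y.1 = 0
      have hy : p • (y.1 : H2 𝓑 B) = 0 := y.2
      rw [← map_nsmul, hy, map_zero]⟩
  have hf : Function.Injective f := fun y y' hyy' =>
    Subtype.ext (e.symm.injective (congrArg Subtype.val hyy'))
  exact Finite.of_injective f hf

end Bij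

/-! ### the ideles -/

section IS

variable (T : Finset Nat.Primes) (p : ℕ) [hp : Fact p.Prime] (hpT : pPrime p ∈ T)
  (V : Subgroup Γ) (hV : ∃ U ∈ (levelS T).sets, U ≤ V)

include hpT hV in
/-- `H²(V; (Coind_{Γ_q}^Γ A'_q)|_V)[p]` is finite. -/
theorem finite_pTor_XV_AQ (q : ℕ) [Fact q.Prime] :
    Finite ↥(pTor p (H2 (basisV (levelS T) V)
      (XV (localGaloisToGlobal q) (levelS T) (AQ T q) V))) := by
  refine finite_pTor_XV (levelS T) V hV p (localGaloisToGlobal q) (AQ T q) fun g => ?_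
  refine Nat.finite_of_card_ne_zero ?_
  rw [MonoHyp1.card_pTor_Sg_AQ T p hpT q V hV g]
  exact hp.out.ne_zero

include hpT hV in
/-- `H²(V; I_{T,q}|_V)[p]` is finite. -/
theorem finite_pTor_ISq (q : ℕ) [Fact q.Prime] :
    Finite ↥(pTor p (H2 (comapBasis V.subtype (levelS T)) (Rep.res V.subtype (ISq T q)))) :=
  finite_pTor_of_bijective (𝓑 := comapBasis V.subtype (levelS T))
    (A := XV (localGaloisToGlobal q) (levelS T) (AQ T q) V)
    (B := Rep.res V.subtype (ISq T q))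
    (LGInj2.phiQ T q).toLinearMap (fun v f => LGInj2.phiQ_ρ T q (v : Γ) f)
    (LGInj2.phiQ T q).bijective p (finite_pTor_XV_AQ T p hpT V hV q)

include hpT hV in
/-- `H²(V; I_T|_V)[p]` is finite for an open subgroup `V` of `G_T`. -/
theorem finite_pTor_IS :
    Finite ↥(pTor p (H2 (comapBasis V.subtype (levelS T)) (Rep.res V.subtype (IS T)))) := by
  classical
  exact (MonoCount5.card_pTor_le_prod (𝓑 := comapBasis V.subtype (levelS T))
    (A := Rep.res V.subtype (IS T))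
    (B := fun q : ↥T => Rep.res V.subtype (ISq T ((q : Nat.Primes) : ℕ)))
    (fun q => ProdDict10.ISproj T q) (fun q v x => ProdDict10.ISproj_ρ T q (v : Γ) x)
    (fun q => LevelTheta21.inclq T q) (fun q v x => LevelTheta21.inclq_ρ T q (v : Γ) x)
    (GlobalCore2.sum_inclq_ISproj T) p
    (fun q => finite_pTor_ISq T p hpT V hV ((q : Nat.Primes) : ℕ))).1

end IS

/-! ### the contract -/

/-- **(F-tors)** `H²(Ĉ; W I_T)[p]` is finite. -/
theorem finTorsWIS : BaseGlue4.FinTorsWIS := by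
  intro p _ _ T hpT U Ĉ _ hU hUC
  have h1 := finite_pTor_IS T p hpT U ⟨U, hU, le_rfl⟩
  let e := ShapW6.shW2 (levelS T) Ĉ U hUC (IS T) (isDiscrete_IS T)
  let f : ↥(torsP p (H2 (comapBasis Ĉ.subtype (levelS T))
      (W (comapBasis Ĉ.subtype (levelS T)) (U.subgroupOf Ĉ) (Rep.res Ĉ.subtype (IS T))))) →
      ↥(pTor p (H2 (comapBasis U.subtype (levelS T)) (Rep.res U.subtype (IS T)))) := fun x =>
    ⟨e x.1, by
      show p • e x.1 = 0
      rw [← map_nsmul, (mem_torsP p).1 x.2, map_zero]⟩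
  have hf : Function.Injective f := fun x x' hxx' =>
    Subtype.ext (e.injective (congrArg Subtype.val hxx'))
  exact Finite.of_injective f hf

end Fermat.Agent.W56.FinTorsIS1
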