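/-
Programme W56 (target S56), shared package "class formation over an open subgroup" (helper8):
**`H²_lev(V; Y)[p]` has EXACTLY `p` elements** ((AR2), (AR1-loc)) when `p` divides some index
`[V : W ∩ V]`.

* finite level: `exists_addOrderOf_eq_pow` (`n' • u` has order `|Q|_p`),
  `exists_ne_zero_of_isFundClass` (a class of order `p` when `p ∣ |Q|`), `card_pTor_eq_of_isFundClass`;
* `inj2pAt_of_fin_cofinal` : `p`-primary injectivity of inflation from a cofinal family;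
* `exists_ne_zero_Hlev2`, `card_pTor_Hlev2_open`, `card_pTor_H2_open`.
-/
import Mathlib
import Fermat.Agent.W56.PDiv8

set_option autoImplicit false
set_option linter.unusedSectionVars false
set_option linter.style.haveILetI false

open CategoryTheory groupCohomology

namespace Fermat.Agent.W56.CardPTor8

open Fermat.Agent.PT.FG Fermat.Agent.PT.FG.Interface8

/-! ### finite level, Mathlib group cohomology -/

section Fin

variable {Q : Type} [Group Q] [Finite Q]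

/-- the `p`-primary generator: `n' • u` has order `|Q|_p`. -/
theorem exists_addOrderOf_eq_pow {p : ℕ} [Fact p.Prime] {C : Rep ℤ Q} {u : H2 C}
    (hu : IsFundClass p C u) :
    ∃ u' : H2 C, addOrderOf u' = p ^ (Nat.card Q).factorization p := by
  classical
  have hp : p.Prime := Fact.out
  obtain ⟨P⟩ : Nonempty (Sylow p Q) := inferInstance
  have hN0 : Nat.card Q ≠ 0 := Nat.card_pos.ne'
  set b := (Nat.card Q).factorization p with hb
  have hPcard : Nat.card (P : Subgroup Q) = p ^ b := P.card_eq_multiplicity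
  set n' := Nat.card Q / p ^ b with hn'
  have hNeq : p ^ b * n' = Nat.card Q := Nat.ordProj_mul_ordCompl_eq_self (Nat.card Q) p
  have hcop : Nat.Coprime p n' := Nat.coprime_ordCompl hp hN0
  refine ⟨n' • u, ?_⟩
  have hu'T : p ^ b • (n' • u) = 0 := by
    rw [smul_smul, hNeq]
    exact Transfer2.card_nsmul_eq_zero C 1 u
  apply Nat.dvd_antisymm (addOrderOf_dvd_of_nsmul_eq_zero hu'T)
  have h1 : addOrderOf (resMap (P : Subgroup Q) C 2 (n' • u)) = p ^ b := by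
    rw [map_nsmul]
    have h3 := hu.order P P.isPGroup'
    rw [hPcard] at h3
    have h4 : (addOrderOf (resMap (P : Subgroup Q) C 2 u)).Coprime n' := by
      rw [h3]
      exact Nat.Coprime.pow_left b hcop
    rw [h4.addOrderOf_nsmul, h3]
  rw [← h1]
  exact addOrderOf_map_dvd (resMap (P : Subgroup Q) C 2).hom.toAddMonoidHom (n' • u)

/-- a class of order `p` when `p ∣ |Q|`. -/
theorem exists_ne_zero_of_isFundClass {p : ℕ} [Fact p.Prime] {C : Rep ℤ Q} {u : H2 C}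
    (hu : IsFundClass p C u) (hdvd : p ∣ Nat.card Q) : ∃ x : H2 C, x ≠ 0 ∧ p • x = 0 := by
  have hp : p.Prime := Fact.out
  have hN0 : Nat.card Q ≠ 0 := Nat.card_pos.ne'
  obtain ⟨u', hu'⟩ := exists_addOrderOf_eq_pow hu
  have hb : 1 ≤ (Nat.card Q).factorization p :=
    (hp.pow_dvd_iff_le_factorization hN0).1 (by rwa [pow_one])
  obtain ⟨c, hc⟩ := Nat.exists_eq_add_of_le hb
  refine ⟨p ^ c • u', fun h0 => ?_, ?_⟩
  · have h1 := addOrderOf_dvd_of_nsmul_eq_zero h0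
    rw [hu', hc, pow_add, pow_one] at h1
    have h2 : p * p ^ c ≤ p ^ c := Nat.le_of_dvd (pow_pos hp.pos c) h1
    have h3 : 2 * p ^ c ≤ p * p ^ c := Nat.mul_le_mul_right _ hp.two_le
    have h4 : 0 < p ^ c := pow_pos hp.pos c
    omega
  · rw [smul_smul, ← pow_succ', add_comm c 1, ← hc, ← hu']
    exact addOrderOf_nsmul_eq_zero u'

end Fin

open Fermat.Agent.PT.PRO Fermat.Agent.PT.PRO.HyperLevel25 Fermat.Agent.PT.PRO.HyperColim18
  Fermat.Agent.PT.PRO.HyperColimP18 Fermat.Agent.PT.PRO.GlobalDuality20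
  Fermat.Agent.PT.PRO.FundRaw18 Fermat.Agent.PT.PRO.Resolved4
  Fermat.Agent.PT.PRO.InvP4 Fermat.Agent.PT.GLUE.Objects21 Fermat.Agent.W56.OpenSub8
  Fermat.Agent.W56.LevExh8 Fermat.Agent.W56.PDiv8

/-! ### pure algebra -/

/-- rank `≤ 1` and a non-zero element: `T[p]` has exactly `p` elements. -/
theorem card_pTor_eq {p : ℕ} [Fact p.Prime] {T : Type*} [AddCommGroup T] (h : RankLeOne p T)
    (hx : ∃ x : T, x ≠ 0 ∧ p • x = 0) : Nat.card (pTor p T) = p := by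
  obtain ⟨τ, hτ⟩ := exists_injective_pTor h
  obtain ⟨x₀, hx₀, hpx₀⟩ := hx
  set y₀ : pTor p T := ⟨x₀, hpx₀⟩ with hy₀
  have hy₀0 : y₀ ≠ 0 := fun h0 => hx₀ (congrArg Subtype.val h0)
  have hτy₀ : τ y₀ ≠ 0 := fun h0 => hy₀0 (hτ (by rw [h0, map_zero]))
  have hsurj : Function.Surjective τ := by
    intro c
    refine ⟨(c / τ y₀).val • y₀, ?_⟩
    rw [map_nsmul, nsmul_eq_mul, ZMod.natCast_val, ZMod.cast_id', id_eq,
      div_mul_cancel₀ _ hτy₀]
  rw [Nat.card_congr (Equiv.ofBijective τ ⟨hτ, hsurj⟩), Nat.card_zmod]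

/-! ### raw finite level -/

/-- RAW: a 2-cocycle of `Q` of order `p` in cohomology. -/
def FinHasP {k : Type*} [CommRing k] {Q : Type*} [Group Q] {X : Type*} [AddCommGroup X]
    [Module k X] (ρ : Representation k Q X) (p : ℕ) : Prop :=
  ∃ φ : Q × Q → X, dTwo ρ φ = 0 ∧ (∃ v : Q → X, (p : k) • φ = dOne ρ v) ∧
    ¬ ∃ w : Q → X, φ = dOne ρ w

theorem finHasP_of_H2 {k : Type} [CommRing k] {Q : Type} [Group Q] (C : Rep.{0} k Q) (p : ℕ)
    (h : ∃ x : H2 C, x ≠ 0 ∧ p • x = 0) : FinHasP C.ρ p := by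
  obtain ⟨x, hx0, hpx⟩ := h
  induction x using H2_induction_on with
  | h z =>
    obtain ⟨φ, hφ⟩ := z
    refine ⟨φ, dTwo_of_mem_cocycles₂ C hφ, ?_, ?_⟩
    · have hmem : (p : k) • φ ∈ cocycles₂ C := (cocycles₂ C).smul_mem _ hφ
      have h0 : H2π C ⟨(p : k) • φ, hmem⟩ = 0 := by
        have e1 : (⟨(p : k) • φ, hmem⟩ : cocycles₂ C) = (p : k) • ⟨φ, hφ⟩ := rfl
        rw [e1, map_smul, Nat.cast_smul_eq_nsmul]
        exact hpx
      exact exists_dOne_of_H2π_eq_zero C hmem h0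
    · rintro ⟨w, hw⟩
      exact hx0 (H2π_eq_zero_of_dOne C hφ hw)

theorem finHasP_of_isFundClass {Q : Type} [Group Q] [Finite Q] {p : ℕ} [Fact p.Prime]
    (A : Rep.{0} ℤ Q) (u : H2 A) (hu : IsFundClass p A u) (hdvd : p ∣ Nat.card Q) :
    @FinHasP ℤ _ Q _ A.V _ A.hV2 A.ρ p :=
  finHasP_of_H2 A p (exists_ne_zero_of_isFundClass hu hdvd)

/-! ### `p`-primary injectivity of inflation, cofinal form -/

section Inj

variable {k : Type*} [CommRing k] {G : Type*} [Group G] {𝒰 : Set (Subgroup G)}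
variable {Y : Type*} [AddCommGroup Y] [Module k Y]
variable (h𝒰 : IsLevelBasis 𝒰) (ρ : Representation k G Y) (hρ : IsDiscrete 𝒰 ρ)

include h𝒰 hρ in
/-- `HyperColimP18.inj2pAt_of_fin` with the finite levels taken in a cofinal family. -/
theorem inj2pAt_of_fin_cofinal (V : Subgroup G) (hV : V ∈ 𝒰) (p : ℕ) {ℱ : Set (Subgroup G)}
    (hnormal : ∀ V' ∈ ℱ, V'.Normal) (hcof : ∀ U ∈ 𝒰, ∃ V' ∈ ℱ, V' ≤ U)
    (h : ∀ V' (hV' : V' ∈ ℱ), V' ≤ V → haveI := hnormal V' hV';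
      INJ2pFin (fixedRep V' ρ) (V.map (QuotientGroup.mk' V')) p) :
    INJ2pAt ρ 𝒰 V p := by
  rintro φ hφ ⟨u₀, hu₀, hpu₀⟩ ⟨u, hu, hφu⟩
  obtain ⟨W, hW, -, hW1, hW2⟩ := h𝒰.exists_normal_fixing hρ hu
  obtain ⟨W', hW', hW'le⟩ := h𝒰.inf W hW V hV
  obtain ⟨V', hV', hV'le⟩ := hcof W' hW'
  have hV'n := hnormal V' hV'
  have hV'V : V' ≤ V := hV'le.trans (hW'le.trans inf_le_right)
  have hV'W : V' ≤ W := hV'le.trans (hW'le.trans inf_le_left)
  have huV' : IsLevelAt₁ ρ V' u :=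
    ⟨fun g s hs => hW1 g s (hV'W hs), fun g s hs => hW2 g s (hV'W hs)⟩
  have hφV' : IsLevelAt₂ ρ V' φ := hφ.mono hV'V
  have hu₀V' : IsLevelAt₁ ρ V' u₀ := hu₀.mono hV'V
  have key := h V' hV' hV'V (desc₂ φ hφV')
    ((isLevelAt₂_map_iff V' V ρ _).2 (by rw [infl₂_desc₂]; exact hφ))
    ⟨desc₁ u₀ hu₀V', (isLevelAt₁_map_iff V' V ρ _).2 (by rw [infl₁_desc₁]; exact hu₀), by
      apply infl₂_injective
      rw [infl₂_smul, infl₂_desc₂, infl₂_dOne, infl₁_desc₁, hpu₀]⟩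
    ⟨desc₁ u huV', by
      apply infl₂_injective
      rw [infl₂_desc₂, infl₂_dOne, infl₁_desc₁, hφu]⟩
  obtain ⟨u', hu', hφu'⟩ := key
  refine ⟨infl₁ u', (isLevelAt₁_map_iff V' V ρ _).1 hu', ?_⟩
  rw [← infl₂_dOne, ← hφu', infl₂_desc₂]

/-- **a non-zero class of order `p` in `H²_lev`** from a finite layer `V₁` with such a class, when
`H¹` of the finite layers has no `p`-torsion (on all subgroups). -/
theorem exists_ne_zero_Hlev2 {p : ℕ} (hp : p.Prime) {ℱ : Set (Subgroup G)} (hsub : ℱ ⊆ 𝒰)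
    (hnormal : ∀ V' ∈ ℱ, V'.Normal) (hcof : ∀ U ∈ 𝒰, ∃ V' ∈ ℱ, V' ≤ U)
    (hH1 : ∀ V' (hV' : V' ∈ ℱ), haveI := hnormal V' hV';
      ∀ N : Subgroup (G ⧸ V'), H1NoPTorsion (fixedRep V' ρ) N p)
    {V₁ : Subgroup G} (hV₁ : V₁ ∈ ℱ)
    (hP : haveI := hnormal V₁ hV₁; FinHasP (fixedRep V₁ ρ) p) :
    ∃ x : Hlev2 h𝒰 ρ hρ, x ≠ 0 ∧ p • x = 0 := by
  have hV₁n := hnormal V₁ hV₁
  obtain ⟨φb, hφb, ⟨vb, hvb⟩, hnot⟩ := hP
  have hφl : IsLevel₂ 𝒰 (infl₂ φb) := (isLevelAt₂_infl₂ φb).isLevel₂ (hsub hV₁)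
  have hφc : dTwo ρ (infl₂ φb) = 0 := by
    rw [← infl₃_dTwo, hφb]
    rfl
  have hpφ : (p : k) • infl₂ φb = dOne ρ (infl₁ vb) := by
    rw [← infl₂_dOne, ← hvb]
    rfl
  -- injectivity of inflation at level `V₁`
  have hinj : INJ2pAt ρ 𝒰 V₁ p := by
    refine inj2pAt_of_fin_cofinal h𝒰 ρ hρ V₁ (hsub hV₁) p hnormal hcof (fun V' hV' hle => ?_)
    have := hnormal V' hV'
    have : V'.FiniteIndex := h𝒰.finiteIndex V' (hsub hV')
    have : (V₁.map (QuotientGroup.mk' V')).Normal :=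
      hV₁n.map _ (QuotientGroup.mk'_surjective V')
    exact inj2pFin_of_noPTorsion hp (hH1 V' hV' _)
  refine ⟨(lvl h𝒰 ρ hρ).π2 (mkZ2 h𝒰 ρ hρ (infl₂ φb) hφl hφc), fun h0 => ?_, ?_⟩
  · rw [π2_lvl_eq_zero_iff] at h0
    obtain ⟨u, hu, hdu⟩ := h0
    obtain ⟨u', hu', hφu'⟩ := hinj (infl₂ φb) (isLevelAt₂_infl₂ φb)
      ⟨infl₁ vb, isLevelAt₁_infl₁ vb, hpφ⟩ ⟨u, hu, hdu.symm⟩
    apply hnot
    refine ⟨desc₁ u' hu', ?_⟩
    apply infl₂_injective
    rw [infl₂_dOne, infl₁_desc₁, hφu']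
  · rw [← map_nsmul, π2_lvl_eq_zero_iff]
    refine ⟨infl₁ vb, (isLevelAt₁_infl₁ vb).isLevel₁ (hsub hV₁), ?_⟩
    rw [← hpφ, Nat.cast_smul_eq_nsmul]
    rfl

end Inj

/-! ### an open subgroup -/

section OpenInt

variable {G : Type} [Group G] {C : Type} [AddCommGroup C] [Module ℤ C]
  (ρ : Representation ℤ G C) {𝒰 : Set (Subgroup G)} (h𝒰 : IsLevelBasis 𝒰) (hC : IsDiscrete 𝒰 ρ)
  {p : ℕ} [Fact p.Prime] (hfund : FundHyp12.FundFixed ρ 𝒰 p)
  (V : Subgroup G) (hV : ∃ U ∈ 𝒰, U ≤ V)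

include hfund hV in
/-- a non-zero class of order `p` in `H²_lev(V; C)` when `p` divides some `[V : W ∩ V]`. -/
theorem exists_ne_zero_Hlev2_open
    (hdiv : ∃ W ∈ 𝒰, W.Normal ∧ W ≤ V ∧ p ∣ (W.subgroupOf V).index) :
    ∃ x : Hlev2 (isLevelBasis_comap h𝒰 V) (ρ.comp V.subtype) (isDiscrete_comap hC V),
      x ≠ 0 ∧ p • x = 0 := by
  obtain ⟨W, hW, hn, hWV, hdvd⟩ := hdiv
  have hW' : W.subgroupOf V ∈ famV 𝒰 V := ⟨W, hW, hn, hWV, rfl⟩
  refine exists_ne_zero_Hlev2 (isLevelBasis_comap h𝒰 V) (ρ.comp V.subtype) (isDiscrete_comap hC V)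
    (Fact.out : p.Prime) (famV_sub 𝒰 V) (famV_normal 𝒰 V) (famV_cofinal h𝒰 hV)
    (fun W'' hW'' => ?_) hW' ?_
  · have := famV_normal 𝒰 V W'' hW''
    have hfi := (isLevelBasis_comap h𝒰 V).finiteIndex W'' (famV_sub 𝒰 V hW'')
    have : Finite (↥V ⧸ W'') := Subgroup.finite_quotient_of_finiteIndex
    obtain ⟨u, hu⟩ := fund_famV ρ hfund V W'' hW''
    intro N
    exact h1NoPTorsion_of_isFundClass' hu N
  · have := famV_normal 𝒰 V _ hW'
    have hfi := (isLevelBasis_comap h𝒰 V).finiteIndex _ (famV_sub 𝒰 V hW')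
    have : Finite (↥V ⧸ W.subgroupOf V) := Subgroup.finite_quotient_of_finiteIndex
    obtain ⟨u, hu⟩ := fund_famV ρ hfund V _ hW'
    exact finHasP_of_isFundClass (fixedObj (W.subgroupOf V) (ρ.comp V.subtype)) u hu
      (by rwa [Subgroup.index] at hdvd)

include hfund hV in
/-- **(AR2)** (`Hlev` vocabulary): `H²_lev(V; C)[p]` has exactly `p` elements. -/
theorem card_pTor_Hlev2_open
    (hdiv : ∃ W ∈ 𝒰, W.Normal ∧ W ≤ V ∧ p ∣ (W.subgroupOf V).index) :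
    Nat.card (pTor p (Hlev2 (isLevelBasis_comap h𝒰 V) (ρ.comp V.subtype)
      (isDiscrete_comap hC V))) = p :=
  card_pTor_eq (rankLeOne_Hlev2_open ρ h𝒰 hC hfund V hV)
    (exists_ne_zero_Hlev2_open ρ h𝒰 hC hfund V hV hdiv)

end OpenInt

section OpenRep

variable {G : Type} [Group G] (𝓑 : LevelCoh28.LevelBasis G) (Y : Rep.{0} ℤ G)
  (hY : LevelCoh28.IsDiscrete 𝓑.sets Y) {p : ℕ} [Fact p.Prime]
  (hfund : FundFixedRep 𝓑 Y p) (V : Subgroup G) (hV : ∃ U ∈ 𝓑.sets, U ≤ V)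

include hY hfund hV in
/-- a non-zero class of order `p` in `H²_lev(V; Y)` (`LevelCoh28` vocabulary). -/
theorem exists_ne_zero_H2_open
    (hdiv : ∃ W ∈ 𝓑.sets, W.Normal ∧ W ≤ V ∧ p ∣ (W.subgroupOf V).index) :
    ∃ x : LevelCoh28.H2 (comapBasis V.subtype 𝓑) (Rep.res V.subtype Y), x ≠ 0 ∧ p • x = 0 := by
  set e := LevelEquiv29.h2Equiv (comapBasis V.subtype 𝓑) (Rep.res V.subtype Y)
    (isDiscrete_res 𝓑 Y hY V) with he
  obtain ⟨x', hx'0, hpx'⟩ := @exists_ne_zero_Hlev2_open G _ Y.V _ Y.hV2 Y.ρ 𝓑.sets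
    (LevelEquiv29.basis 𝓑) hY p _ hfund V hV hdiv
  refine ⟨e.symm x', fun h0 => hx'0 ?_, e.injective ?_⟩
  · have h1 : e (e.symm x') = x' := e.apply_symm_apply x'
    rw [← h1, h0]
    exact map_zero e
  · have h2 : e (p • e.symm x') = p • e (e.symm x') := map_nsmul e p _
    have h3 : e (e.symm x') = x' := e.apply_symm_apply x'
    exact h2.trans ((congrArg (fun t => p • t) h3).trans (hpx'.trans (map_zero e).symm))

include hY hfund hV in
/-- **(AR2)** : `H²_lev(V; Y)[p]` has exactly `p` elements when `p` divides some `[V : W ∩ V]`. -/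
theorem card_pTor_H2_open
    (hdiv : ∃ W ∈ 𝓑.sets, W.Normal ∧ W ≤ V ∧ p ∣ (W.subgroupOf V).index) :
    Nat.card (pTor p (LevelCoh28.H2 (comapBasis V.subtype 𝓑) (Rep.res V.subtype Y))) = p :=
  card_pTor_eq (rankLeOne_H2_open 𝓑 Y hY hfund V hV)
    (exists_ne_zero_H2_open 𝓑 Y hY hfund V hV hdiv)

end OpenRep

end Fermat.Agent.W56.CardPTor8
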