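/-
Programme W56 (S56), package "class formation over an open subgroup", item (R4b), helper1.

`CycloLocAlg1` (Mathlib only): the action of `Gal(L/K)` on a primitive `N`-th root of unity.

* `mem_ker_autToPow` : the stabiliser of `ξ` is the kernel of `IsPrimitiveRoot.autToPow`;
* `autToPow_eq_natCast` : `g ξ = ξ ^ a ⟹ autToPow g = a` in `ZMod N`;
* `pow_dvd_index_of_apply` : if some `g` acts by `ξ ↦ ξ ^ a` and `pⁿ` divides the order of `a` in
  `(ZMod N)ˣ`, then `pⁿ` divides the index of the stabiliser of `ξ`;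
* `irreducible_cyclotomic_comp_padic` : `Φ_{p^(m+1)}(X + 1)` is irreducible over `ℚ_p` (Eisenstein
  over `ℤ_p` + Gauss);
* `autToPow_surjective_padic`, `index_stabilizer_padic` : `Gal(ℚ̄_p/ℚ_p)` acts on a primitive
  `p^(m+1)`-th root of unity through all of `(ℤ/p^(m+1))ˣ`; the stabiliser has index `φ(p^(m+1))`.
-/
import Mathlib

set_option autoImplicit false
set_option linter.unusedSectionVars false
set_option linter.unusedVariables false

open Polynomial

namespace Fermat.Agent.W56.CycloLocAlg1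

section Generic

variable {K L : Type*} [Field K] [Field L] [Algebra K L] {N : ℕ} [NeZero N] {ξ : L}

/-- the stabiliser of a primitive root of unity is the kernel of `autToPow`. -/
theorem mem_ker_autToPow (hξ : IsPrimitiveRoot ξ N) (τ : L ≃ₐ[K] L) :
    τ ∈ (hξ.autToPow K).ker ↔ τ ξ = ξ := by
  rw [MonoidHom.mem_ker]
  have hspec := hξ.autToPow_spec K τ
  have h1 : ξ ^ (1 % N) = ξ := by
    rw [hξ.eq_orderOf, pow_mod_orderOf, pow_one]
  constructor
  · intro h
    rw [h, Units.val_one, ZMod.val_one_eq_one_mod, h1] at hspec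
    exact hspec.symm
  · intro h
    apply Units.ext
    apply ZMod.val_injective N
    rw [Units.val_one, ZMod.val_one_eq_one_mod]
    refine hξ.pow_inj (ZMod.val_lt _) (Nat.mod_lt _ (NeZero.pos N)) ?_
    rw [hspec, h, h1]

/-- `g ξ = ξ ^ a ⟹ autToPow g = a` in `ZMod N`. -/
theorem autToPow_eq_natCast (hξ : IsPrimitiveRoot ξ N) (g : L ≃ₐ[K] L) (a : ℕ)
    (hg : g ξ = ξ ^ a) : ((hξ.autToPow K g : (ZMod N)ˣ) : ZMod N) = (a : ZMod N) := by
  have hspec := hξ.autToPow_spec K g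
  have h1 : ξ ^ a = ξ ^ (a % N) := by
    rw [hξ.eq_orderOf, pow_mod_orderOf]
  rw [hg, h1] at hspec
  have h2 := hξ.pow_inj (ZMod.val_lt _) (Nat.mod_lt _ (NeZero.pos N)) hspec
  have h3 := congrArg (Nat.cast : ℕ → ZMod N) h2
  rwa [ZMod.natCast_zmod_val, ZMod.natCast_mod] at h3

/-- the index of the stabiliser of `ξ` is the number of exponents realised by `Gal(L/K)`. -/
theorem index_ker_autToPow (hξ : IsPrimitiveRoot ξ N) :
    (hξ.autToPow K).ker.index = Nat.card (hξ.autToPow K).range :=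
  Subgroup.index_ker _

/-- If some `g` acts on `ξ` by `ξ ↦ ξ ^ a` and `pⁿ` divides the order of `a` in `(ZMod N)ˣ`, then
`pⁿ` divides the index of the stabiliser of `ξ`. -/
theorem pow_dvd_index_of_apply (hξ : IsPrimitiveRoot ξ N) (g : L ≃ₐ[K] L) (a : ℕ)
    (hg : g ξ = ξ ^ a) (d : ℕ) (hd : ∀ u : (ZMod N)ˣ, (u : ZMod N) = (a : ZMod N) → d ∣ orderOf u) :
    d ∣ (hξ.autToPow K).ker.index := by
  rw [index_ker_autToPow]
  have h1 := hd _ (autToPow_eq_natCast hξ g a hg)
  have h2 : orderOf (⟨hξ.autToPow K g, ⟨g, rfl⟩⟩ : (hξ.autToPow K).range) =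
      orderOf (hξ.autToPow K g) := Subgroup.orderOf_mk _ _
  exact h1.trans (h2 ▸ orderOf_dvd_natCard _)

end Generic

/-! ### `q = p` : the cyclotomic polynomial is irreducible over `ℚ_p` -/

section Padic

variable (p : ℕ) [hp : Fact p.Prime]

/-- `Φ_{p^(m+1)}(X + 1)` over `ℤ_p` is Eisenstein at `(p)`. -/
theorem isEisensteinAt_padicInt (m : ℕ) :
    (((cyclotomic (p ^ (m + 1)) ℤ).comp (X + 1)).map (Int.castRingHom ℤ_[p])).IsEisensteinAt
      (Ideal.span {(p : ℤ_[p])}) := by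
  set f : ℤ[X] := (cyclotomic (p ^ (m + 1)) ℤ).comp (X + 1) with hf
  have hmonic : f.Monic := (cyclotomic.monic _ ℤ).comp_X_add_C 1 |> fun h => by
    simpa [hf] using h
  have hE := cyclotomic_prime_pow_comp_X_add_one_isEisensteinAt p m
  have hmonic' : (f.map (Int.castRingHom ℤ_[p])).Monic := hmonic.map _
  have hdeg : (f.map (Int.castRingHom ℤ_[p])).natDegree = f.natDegree := hmonic.natDegree_map _
  have hp0 : (p : ℤ_[p]) ≠ 0 := by exact_mod_cast hp.out.ne_zero
  have hnu : ¬ IsUnit (p : ℤ_[p]) := PadicInt.prime_p.not_isUnit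
  refine hmonic'.isEisensteinAt_of_mem_of_notMem ?_ ?_ ?_
  · rw [Ne, Ideal.span_singleton_eq_top]
    exact hnu
  · intro n hn
    rw [hdeg] at hn
    have := hE.mem hn
    rw [Ideal.mem_span_singleton] at this ⊢
    obtain ⟨c, hc⟩ := this
    refine ⟨(c : ℤ_[p]), ?_⟩
    rw [coeff_map, hc]
    simp
  · have h0 : f.coeff 0 = p := by
      rw [coeff_zero_eq_eval_zero, hf, eval_comp]
      simp [eval_one_cyclotomic_prime_pow]
    rw [coeff_map, h0, Ideal.span_singleton_pow, Ideal.mem_span_singleton]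
    rintro ⟨y, hy⟩
    apply hnu
    refine ⟨⟨p, y, ?_, ?_⟩, rfl⟩
    · have : (p : ℤ_[p]) * ((p : ℤ_[p]) * y - 1) = 0 := by
        have h' : ((p : ℤ) : ℤ_[p]) = (p : ℤ_[p]) := by simp
        simp only [eq_intCast, h'] at hy
        rw [mul_sub, mul_one, ← mul_assoc, ← sq, ← hy, sub_self]
      rcases mul_eq_zero.1 this with h | h
      · exact absurd h hp0
      · exact sub_eq_zero.1 h
    · have : (p : ℤ_[p]) * ((p : ℤ_[p]) * y - 1) = 0 := by
        have h' : ((p : ℤ) : ℤ_[p]) = (p : ℤ_[p]) := by simp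
        simp only [eq_intCast, h'] at hy
        rw [mul_sub, mul_one, ← mul_assoc, ← sq, ← hy, sub_self]
      rcases mul_eq_zero.1 this with h | h
      · exact absurd h hp0
      · rw [mul_comm]; exact sub_eq_zero.1 h

/-- `Φ_{p^(m+1)}(X + 1)` is irreducible over `ℚ_p`. -/
theorem irreducible_cyclotomic_comp_padic (m : ℕ) :
    Irreducible ((cyclotomic (p ^ (m + 1)) ℚ_[p]).comp (X + 1)) := by
  set f : ℤ[X] := (cyclotomic (p ^ (m + 1)) ℤ).comp (X + 1) with hf
  have hmonic : f.Monic := by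
    have := (cyclotomic.monic (p ^ (m + 1)) ℤ).comp_X_add_C 1
    simpa [hf] using this
  have hmonic' : (f.map (Int.castRingHom ℤ_[p])).Monic := hmonic.map _
  have hE := isEisensteinAt_padicInt p m
  have hp0 : (p : ℤ_[p]) ≠ 0 := by exact_mod_cast hp.out.ne_zero
  have hprime : (Ideal.span {(p : ℤ_[p])}).IsPrime :=
    (Ideal.span_singleton_prime hp0).2 PadicInt.prime_p
  have hdeg : 0 < (f.map (Int.castRingHom ℤ_[p])).natDegree := by
    rw [hmonic.natDegree_map, hf, natDegree_comp]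
    simp only [natDegree_cyclotomic]
    have h1 : (X + 1 : ℤ[X]).natDegree = 1 := natDegree_X_add_C (1 : ℤ)
    rw [h1, mul_one]
    exact Nat.totient_pos.2 (pow_pos hp.out.pos _)
  have hirr : Irreducible (f.map (Int.castRingHom ℤ_[p])) :=
    hE.irreducible hprime hmonic'.isPrimitive hdeg
  have h2 := (hmonic'.irreducible_iff_irreducible_map_fraction_map (K := ℚ_[p])).1 hirr
  have h3 : (f.map (Int.castRingHom ℤ_[p])).map (algebraMap ℤ_[p] ℚ_[p]) =
      (cyclotomic (p ^ (m + 1)) ℚ_[p]).comp (X + 1) := by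
    rw [map_map, hf, map_comp, map_cyclotomic]
    simp
  rwa [h3] at h2

local instance : Normal ℚ_[p] (PadicAlgCl p) := IsAlgClosure.normal ℚ_[p] (PadicAlgCl p)

/-- **`Gal(ℚ̄_p/ℚ_p)` acts on a primitive `p^(m+1)`-th root of unity through all of
`(ℤ/p^(m+1))ˣ`.** -/
theorem autToPow_surjective_padic (m : ℕ) {N : ℕ} [NeZero N] (hN : N = p ^ (m + 1))
    {ξ : PadicAlgCl p} (hξ : IsPrimitiveRoot ξ N) :
    Function.Surjective (hξ.autToPow ℚ_[p]) := by
  subst hN
  set g : ℚ_[p][X] := (cyclotomic (p ^ (m + 1)) ℚ_[p]).comp (X + 1) with hg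
  have hirr : Irreducible g := irreducible_cyclotomic_comp_padic p m
  have hmonic : g.Monic := by
    have := (cyclotomic.monic (p ^ (m + 1)) ℚ_[p]).comp_X_add_C 1
    simpa [hg] using this
  have hpos : 0 < p ^ (m + 1) := pow_pos hp.out.pos _
  -- `aeval (μ - 1) g = 0` for every primitive root `μ`
  have hroot : ∀ μ : PadicAlgCl p, IsPrimitiveRoot μ (p ^ (m + 1)) → aeval (μ - 1) g = 0 := by
    intro μ hμ
    have h1 := hμ.isRoot_cyclotomic hpos
    rw [hg, aeval_comp]
    simp only [map_add, aeval_X, aeval_one, sub_add_cancel]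
    rw [aeval_def, eval₂_eq_eval_map, map_cyclotomic]
    exact h1
  have hmin : g = minpoly ℚ_[p] (ξ - 1) :=
    minpoly.eq_of_irreducible_of_monic hirr (hroot ξ hξ) hmonic
  have halg : IsAlgebraic ℚ_[p] (ξ - 1) := Algebra.IsAlgebraic.isAlgebraic _
  intro u
  have hcop : Nat.Coprime (u : ZMod (p ^ (m + 1))).val (p ^ (m + 1)) :=
    ZMod.val_coe_unit_coprime u
  have hμ : IsPrimitiveRoot (ξ ^ (u : ZMod (p ^ (m + 1))).val) (p ^ (m + 1)) :=
    hξ.pow_of_coprime _ hcop
  obtain ⟨σ, hσ⟩ := minpoly.exists_algEquiv_of_root' halg (x := ξ ^ (u : ZMod (p ^ (m + 1))).val - 1)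
    (by rw [← hmin]; exact hroot _ hμ)
  have hσξ : σ ξ = ξ ^ (u : ZMod (p ^ (m + 1))).val := by
    have : σ (ξ - 1) + 1 = ξ ^ (u : ZMod (p ^ (m + 1))).val - 1 + 1 := by rw [hσ]
    rwa [map_sub, map_one, sub_add_cancel, sub_add_cancel] at this
  refine ⟨σ, Units.ext ?_⟩
  rw [autToPow_eq_natCast hξ σ _ hσξ, ZMod.natCast_zmod_val]

/-- the stabiliser in `Gal(ℚ̄_p/ℚ_p)` of a primitive `p^(m+1)`-th root of unity has index
`p ^ m * (p - 1)`. -/
theorem index_ker_autToPow_padic (m : ℕ) {N : ℕ} [NeZero N] (hN : N = p ^ (m + 1))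
    {ξ : PadicAlgCl p} (hξ : IsPrimitiveRoot ξ N) :
    (hξ.autToPow ℚ_[p]).ker.index = p ^ m * (p - 1) := by
  rw [index_ker_autToPow, MonoidHom.range_eq_top.2 (autToPow_surjective_padic p m hN hξ)]
  subst hN
  rw [Nat.card_congr Subgroup.topEquiv.toEquiv, Nat.card_eq_fintype_card,
    ZMod.card_units_eq_totient, Nat.totient_prime_pow_succ hp.out]

end Padic

end Fermat.Agent.W56.CycloLocAlg1
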