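/-
Programme W56 (S56), package "class formation over an open subgroup", item (R4b), helper1.

`CycloLocDeg1`: **the `p`-parts of the local degrees of `ℚ(ζ_{p^m})` at `q` are unbounded**, for all
primes `p`, `q` (`q = p` included): for every `n` there is `m` such that for every primitive
`p^m`-th root of unity `ζ ∈ ℚ̄`
  `p ^ n ∣ ((ℚ⟮ζ⟯).fixingSubgroup.comap (localGaloisToGlobal q)).index`.

* `q ≠ p`: a Frobenius lift acts on `ζ` by `ζ ↦ ζ ^ q`, and the order of `q` in `(ℤ/p^m)ˣ` is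
  divisible by `pⁿ` for `m` large;
* `q = p`: `Gal(ℚ̄_p/ℚ_p)` acts on `ζ` through all of `(ℤ/p^m)ˣ` (`CycloLocAlg1`).

Also: `ℚ⟮ζ⟯` is unramified outside `S ∋ p`, so the subgroups above are members of `levelLocS q S`.
-/
import Mathlib
import Fermat.Agent.W56.CycloLocAlg1
import Fermat.Agent.W56.LecUnram5
import Fermat.Agent.PT.GLOB.CycloLocalDeg22
import Fermat.Agent.PT.GLOB.KummerUnramA15
import Fermat.Agent.PT.GLUE.Objects21

set_option autoImplicit false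
set_option linter.unusedSectionVars false
set_option linter.unusedVariables false
set_option linter.style.haveILetI false

open ExtCitation

namespace Fermat.Agent.W56.CycloLocDeg1

open Fermat.Agent.W56.CycloLocAlg1 Fermat.Agent.W56.Defs9

local notation "Qb" => AlgebraicClosure ℚ
local notation "GQ" => (AlgebraicClosure ℚ ≃ₐ[ℚ] AlgebraicClosure ℚ)

section Stab

variable (q : ℕ) [Fact q.Prime]

local notation "Γq" => (PadicAlgCl q ≃ₐ[ℚ_[q]] PadicAlgCl q)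

/-- an automorphism of `ℚ̄` fixes `ℚ⟮ζ⟯` iff it fixes `ζ`. -/
theorem mem_fixingSubgroup_adjoin_iff (σ : GQ) (ζ : Qb) :
    σ ∈ (IntermediateField.adjoin ℚ ({ζ} : Set Qb)).fixingSubgroup ↔ σ ζ = ζ :=
  ⟨fun h => Fermat.Agent.W56.LecKummer5.apply_eq_of_mem_fixingSubgroup h,
    fun h => Fermat.Agent.PT.GLOB.KummerUnramA15.mem_fixingSubgroup_adjoin σ _
      (fun x hx => by rw [Set.mem_singleton_iff.1 hx]; exact h)⟩

theorem padicEmbedding_injective : Function.Injective (padicEmbedding q) :=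
  (padicEmbedding q).toRingHom.injective

/-- **the level subgroup of `Γ_q` attached to `ℚ⟮ζ⟯` is the stabiliser of `ι ζ`**, i.e. the kernel
of the `autToPow` of the primitive root `ι ζ ∈ ℚ̄_q`. -/
theorem comap_fixingSubgroup_eq_ker {N : ℕ} [NeZero N] {ζ : Qb} (hζ : IsPrimitiveRoot ζ N) :
    (IntermediateField.adjoin ℚ ({ζ} : Set Qb)).fixingSubgroup.comap (localGaloisToGlobal q) =
      ((hζ.map_of_injective (padicEmbedding_injective q)).autToPow ℚ_[q]).ker := by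
  ext τ
  rw [Subgroup.mem_comap, mem_fixingSubgroup_adjoin_iff, mem_ker_autToPow]
  have key : τ (padicEmbedding q ζ) = padicEmbedding q (localGaloisToGlobal q τ ζ) :=
    (padicEmbedding_localGaloisToGlobal q τ ζ).symm
  rw [key]
  exact ⟨fun h => congrArg _ h, fun h => padicEmbedding_injective q h⟩

end Stab

section Main

variable (p : ℕ) [hp : Fact p.Prime]

/-- `q ≠ p`: `pⁿ` divides the local degree of `ℚ(ζ_{p^m})` at `q` as soon as `m > q^(p^(n+1))`. -/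
theorem pow_dvd_index_of_ne (q : Nat.Primes) (hqp : (q : ℕ) ≠ p) (n m : ℕ)
    (hm : (q : ℕ) ^ (p ^ (n + 1)) < m) {ζ : Qb} (hζ : IsPrimitiveRoot ζ (p ^ m)) :
    haveI : Fact (q : ℕ).Prime := ⟨q.2⟩
    p ^ n ∣ ((IntermediateField.adjoin ℚ ({ζ} : Set Qb)).fixingSubgroup.comap
      (localGaloisToGlobal (q : ℕ))).index := by
  haveI : Fact (q : ℕ).Prime := ⟨q.2⟩
  haveI : NeZero (p ^ m) := ⟨(pow_pos hp.out.pos m).ne'⟩
  rw [comap_fixingSubgroup_eq_ker (q : ℕ) hζ]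
  obtain ⟨φ, hφ, -⟩ := Fermat.Agent.W56.H1urCard8.exists_frob_generates' q
  have hA := Fermat.Agent.W56.UnipSel8.liesOverPrime_primeLocalPlace q
  have hqm : ¬ (q : ℕ) ∣ p ^ m := fun hd =>
    hqp ((Nat.prime_dvd_prime_iff_eq q.2 hp.out).1 (q.2.dvd_of_dvd_pow hd))
  have h1 : locD q φ ζ = ζ ^ (q : ℕ) :=
    Fermat.Agent.W56.LecUnram5.frob_apply_root' q.2 hA hqm hφ hζ.pow_eq_one
  let φ' : PadicAlgCl (q : ℕ) ≃ₐ[ℚ_[(q : ℕ)]] PadicAlgCl (q : ℕ) := φ
  refine pow_dvd_index_of_apply _ φ' (q : ℕ) ?_ (p ^ n) (fun u hu => ?_)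
  · have h2 : φ' (padicEmbedding (q : ℕ) ζ) = padicEmbedding (q : ℕ) (locD q φ ζ) :=
      (padicEmbedding_localGaloisToGlobal (q : ℕ) φ' ζ).symm
    rw [h2, h1, map_pow]
  · exact Fermat.Agent.PT.GLOB.CycloLocalDeg22.pow_dvd_orderOf_of_le p hp.out (q : ℕ)
      q.2.two_le n m hm u hu

/-- `q = p`: the local degree of `ℚ(ζ_{p^(m+1)})` at `p` is `p ^ m * (p - 1)`. -/
theorem index_eq_of_eq (m : ℕ) {ζ : Qb} (hζ : IsPrimitiveRoot ζ (p ^ (m + 1))) :
    ((IntermediateField.adjoin ℚ ({ζ} : Set Qb)).fixingSubgroup.comap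
      (localGaloisToGlobal p)).index = p ^ m * (p - 1) := by
  haveI : NeZero (p ^ (m + 1)) := ⟨(pow_pos hp.out.pos _).ne'⟩
  rw [comap_fixingSubgroup_eq_ker p hζ]
  exact index_ker_autToPow_padic p m rfl _

/-- **(R4b)** : the `p`-parts of the local degrees at `q` of the fields `ℚ(ζ_{p^m})` are
unbounded (all primes `p`, `q`). -/
theorem exists_pow_dvd_index (q : ℕ) [hq : Fact q.Prime] (n : ℕ) :
    ∃ m, ∀ ζ : Qb, IsPrimitiveRoot ζ (p ^ m) →
      p ^ n ∣ ((IntermediateField.adjoin ℚ ({ζ} : Set Qb)).fixingSubgroup.comap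
        (localGaloisToGlobal q)).index := by
  by_cases hqp : q = p
  · subst hqp
    refine ⟨n + 1, fun ζ hζ => ?_⟩
    rw [index_eq_of_eq q n hζ]
    exact Dvd.intro _ rfl
  · refine ⟨q ^ (p ^ (n + 1)) + 1, fun ζ hζ => ?_⟩
    exact pow_dvd_index_of_ne p ⟨q, hq.out⟩ hqp n _ (Nat.lt_succ_self _) hζ

end Main

/-! ### The fields `ℚ(ζ_{p^m})` are unramified outside `p` -/

section Unram

variable (p : ℕ) [hp : Fact p.Prime]

/-- `ℚ⟮ζ⟯`, `ζ` a `p`-power root of unity, is unramified outside every `S ∋ p`. -/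
theorem isUnramifiedOutside_adjoin_root (S : Finset Nat.Primes)
    (hpS : (⟨p, hp.out⟩ : Nat.Primes) ∈ S) (m : ℕ) {ζ : Qb} (hζ : ζ ^ (p ^ m) = 1) :
    (IntermediateField.adjoin ℚ ({ζ} : Set Qb)).IsUnramifiedOutside S := by
  refine ⟨Fermat.Agent.W56.LecKummer5.finiteDimensional_adjoin ζ, fun q hq A hA σ hσ => ?_⟩
  rw [mem_fixingSubgroup_adjoin_iff]
  have hqp : (q : ℕ) ≠ p := fun h => hq (by
    have : q = ⟨p, hp.out⟩ := Subtype.ext h
    rw [this]; exact hpS)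
  have hqm : ¬ (q : ℕ) ∣ p ^ m := fun hd =>
    hqp ((Nat.prime_dvd_prime_iff_eq q.2 hp.out).1 (q.2.dvd_of_dvd_pow hd))
  exact Fermat.Agent.W56.LecUnram5.inertia_apply_root q.2 hA hqm hσ hζ

end Unram

/-! ### Index arithmetic in a level group -/

section Index

open Fermat.Agent.PT.PRO.LevelCoh28

variable {G : Type} [Group G] (𝓑 : LevelBasis G) (p : ℕ) [hp : Fact p.Prime]

/-- **From "the `p`-parts of the indices of the members of the basis are unbounded" to the same for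
every open subgroup `V`**, on normal members contained in `V` (the hypothesis `hunb` of `PDiv8`,
and at `n = 1` the hypothesis `hdiv` of `CardPTor8`). -/
theorem exists_normal_le_pow_dvd (hbig : ∀ n : ℕ, ∃ W ∈ 𝓑.sets, p ^ n ∣ W.index)
    (V : Subgroup G) (hV : ∃ U ∈ 𝓑.sets, U ≤ V) (n : ℕ) :
    ∃ W ∈ 𝓑.sets, W.Normal ∧ W ≤ V ∧ p ^ n ∣ (W.subgroupOf V).index := by
  obtain ⟨U₀, hU₀, hU₀V⟩ := hV
  haveI : U₀.FiniteIndex := 𝓑.isBasis.finiteIndex U₀ hU₀
  haveI : V.FiniteIndex := Subgroup.finiteIndex_of_le hU₀V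
  have ha : 0 < V.index := Nat.pos_of_ne_zero Subgroup.FiniteIndex.index_ne_zero
  obtain ⟨W₁, hW₁, hdvd⟩ := hbig (n + V.index)
  obtain ⟨W₂, hW₂, hW₂le⟩ := 𝓑.isBasis.directed W₁ hW₁ U₀ hU₀
  obtain ⟨W, hW, hWle, hn⟩ := 𝓑.isBasis.normalCore W₂ hW₂
  have hWW₁ : W ≤ W₁ := hWle.trans (hW₂le.trans inf_le_left)
  have hWV : W ≤ V := hWle.trans (hW₂le.trans (inf_le_right.trans hU₀V))
  refine ⟨W, hW, hn, hWV, ?_⟩
  have h1 : p ^ (n + V.index) ∣ V.index * W.relIndex V := by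
    rw [mul_comm, Subgroup.relIndex_mul_index hWV]
    exact hdvd.trans (Subgroup.index_dvd_of_le hWW₁)
  exact Fermat.Agent.PT.GLOB.CycloLocalDeg22.pow_dvd_of_pow_dvd_mul p hp.out (n + V.index) n
    V.index V.index (W.relIndex V) ha le_rfl le_rfl h1

end Index

/-! ### The local level groups `(Γ_q, levelLoc q)` and `(Γ_q, levelLocS q S)` -/

section LocalBig

open Fermat.Agent.PT.PRO.LevelCoh28 Fermat.Agent.PT.GLUE.Objects21

variable (q : ℕ) [Fact q.Prime] (p : ℕ) [hp : Fact p.Prime]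

local notation "Γq" => (PadicAlgCl q ≃ₐ[ℚ_[q]] PadicAlgCl q)

theorem exists_primitiveRoot_pow (m : ℕ) : ∃ ζ : Qb, IsPrimitiveRoot ζ (p ^ m) := by
  haveI : NeZero ((p ^ m : ℕ) : Qb) := ⟨Nat.cast_ne_zero.2 (pow_pos hp.out.pos m).ne'⟩
  exact HasEnoughRootsOfUnity.exists_primitiveRoot Qb _

/-- the `p`-parts of the indices of the members of `levelLoc q` are unbounded. -/
theorem hbig_levelLoc (n : ℕ) : ∃ W ∈ (levelLoc q).sets, p ^ n ∣ W.index := by
  obtain ⟨m, hm⟩ := exists_pow_dvd_index p q n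
  obtain ⟨ζ, hζ⟩ := exists_primitiveRoot_pow p m
  exact ⟨_, ⟨_, ⟨IntermediateField.adjoin ℚ ({ζ} : Set Qb),
    Fermat.Agent.W56.LecKummer5.finiteDimensional_adjoin ζ, rfl⟩, rfl⟩, hm ζ hζ⟩

/-- the `p`-parts of the indices of the members of `levelLocS q S` are unbounded (`p ∈ S`). -/
theorem hbig_levelLocS (S : Finset Nat.Primes) (hpS : (⟨p, hp.out⟩ : Nat.Primes) ∈ S) (n : ℕ) :
    ∃ W ∈ (levelLocS q S).sets, p ^ n ∣ W.index := by
  obtain ⟨m, hm⟩ := exists_pow_dvd_index p q n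
  obtain ⟨ζ, hζ⟩ := exists_primitiveRoot_pow p m
  exact ⟨_, ⟨_, ⟨IntermediateField.adjoin ℚ ({ζ} : Set Qb),
    isUnramifiedOutside_adjoin_root p S hpS m hζ.pow_eq_one, rfl⟩, rfl⟩, hm ζ hζ⟩

/-- **`hunb` for every open subgroup of `Γ_q`**, basis `levelLoc q`. -/
theorem hunb_levelLoc (V : Subgroup Γq) (hV : ∃ U ∈ (levelLoc q).sets, U ≤ V) (n : ℕ) :
    ∃ W ∈ (levelLoc q).sets, W.Normal ∧ W ≤ V ∧ p ^ n ∣ (W.subgroupOf V).index :=
  exists_normal_le_pow_dvd (levelLoc q) p (hbig_levelLoc q p) V hV n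

/-- **`hunb` for every open subgroup of `Γ_q`**, basis `levelLocS q S`, `p ∈ S`. -/
theorem hunb_levelLocS (S : Finset Nat.Primes) (hpS : (⟨p, hp.out⟩ : Nat.Primes) ∈ S)
    (V : Subgroup Γq) (hV : ∃ U ∈ (levelLocS q S).sets, U ≤ V) (n : ℕ) :
    ∃ W ∈ (levelLocS q S).sets, W.Normal ∧ W ≤ V ∧ p ^ n ∣ (W.subgroupOf V).index :=
  exists_normal_le_pow_dvd (levelLocS q S) p (hbig_levelLocS q p S hpS) V hV n

/-- `hdiv` (`= hunb` at `n = 1`), basis `levelLoc q`. -/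
theorem hdiv_levelLoc (V : Subgroup Γq) (hV : ∃ U ∈ (levelLoc q).sets, U ≤ V) :
    ∃ W ∈ (levelLoc q).sets, W.Normal ∧ W ≤ V ∧ p ∣ (W.subgroupOf V).index := by
  simpa using hunb_levelLoc q p V hV 1

/-- `hdiv` (`= hunb` at `n = 1`), basis `levelLocS q S`. -/
theorem hdiv_levelLocS (S : Finset Nat.Primes) (hpS : (⟨p, hp.out⟩ : Nat.Primes) ∈ S)
    (V : Subgroup Γq) (hV : ∃ U ∈ (levelLocS q S).sets, U ≤ V) :
    ∃ W ∈ (levelLocS q S).sets, W.Normal ∧ W ≤ V ∧ p ∣ (W.subgroupOf V).index := by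
  simpa using hunb_levelLocS q p S hpS V hV 1

end LocalBig

end Fermat.Agent.W56.CycloLocDeg1
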