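/-
Programme W56 (S56), package "class formation over an open subgroup", helper1.

`BrLoc1`:
* **PK-7** (cochain form, generic): a level 2-cocycle of an open subgroup `V` with `p • c` a
  coboundary and `c` not a coboundary, when `p` divides some `[V : W ∩ V]`
  (corollary of helper8's `CardPTor8.exists_ne_zero_H2_open`);
* **(AR1-loc)**: for every open subgroup `Γ' ≤ Γ_q = Gal(ℚ̄_q/ℚ_q)` (every prime `q`, `q = p`
  included) the `p`-torsion of `H²_lev(Γ'; ℚ̄_qˣ)` has EXACTLY `p` elements, the `p`-primary part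
  of `H²_lev(Γ'; ℚ̄_qˣ)` is `p`-divisible, and `H¹_lev(Γ'; ℚ̄_qˣ)` has no `p`-primary torsion
  (local datum `(Γ_q, levelLoc q, unitsLoc q)`).
-/
import Mathlib
import Fermat.Agent.W56.CardPTor8
import Fermat.Agent.W56.CycloLocDeg1
import Fermat.Agent.PT.GLUE.LocalFund11

set_option autoImplicit false
set_option linter.unusedSectionVars false
set_option linter.unusedVariables false
set_option linter.style.haveILetI false

open CategoryTheory groupCohomology

namespace Fermat.Agent.W56.BrLoc1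

open Fermat.Agent.PT.PRO Fermat.Agent.PT.PRO.InvP4 Fermat.Agent.PT.GLUE.Objects21
  Fermat.Agent.W56.LevExh8

/-! ### PK-7, cochain form -/

section Generic

variable {G : Type} [Group G] (𝓑 : LevelCoh28.LevelBasis G) (Y : Rep.{0} ℤ G)
  (hY : LevelCoh28.IsDiscrete 𝓑.sets Y) {p : ℕ} [Fact p.Prime]
  (hfund : FundFixedRep 𝓑 Y p) (V : Subgroup G) (hV : ∃ U ∈ 𝓑.sets, U ≤ V)

include hY hfund hV in
/-- **PK-7**: a level 2-cocycle `c` of `V` with `p • c` a level coboundary and `c` not a level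
coboundary, when `p` divides some `[V : W ∩ V]`. -/
theorem exists_Z2_not_B2
    (hdiv : ∃ W ∈ 𝓑.sets, W.Normal ∧ W ≤ V ∧ p ∣ (W.subgroupOf V).index) :
    ∃ c ∈ LevelCoh28.Z2 (comapBasis V.subtype 𝓑) (Rep.res V.subtype Y),
      p • c ∈ LevelCoh28.B2 (comapBasis V.subtype 𝓑) (Rep.res V.subtype Y) ∧
      c ∉ LevelCoh28.B2 (comapBasis V.subtype 𝓑) (Rep.res V.subtype Y) := by
  obtain ⟨x, hx0, hpx⟩ := Fermat.Agent.W56.CardPTor8.exists_ne_zero_H2_open 𝓑 Y hY hfund V hV hdiv
  obtain ⟨c, rfl⟩ := LevelCoh28.H2mk_surjective _ _ x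
  refine ⟨(c : ↥V × ↥V → (Rep.res V.subtype Y)), c.2, ?_, fun h => hx0 ?_⟩
  · rw [← map_nsmul, LevelCoh28.H2mk_eq_zero_iff] at hpx
    exact hpx
  · rw [LevelCoh28.H2mk_eq_zero_iff]
    exact h

end Generic

/-! ### (AR1-loc): the local datum -/

section Local

variable (q : ℕ) [Fact q.Prime] (p : ℕ) [Fact p.Prime]

local notation "Γq" => (PadicAlgCl q ≃ₐ[ℚ_[q]] PadicAlgCl q)

variable (V : Subgroup (PadicAlgCl q ≃ₐ[ℚ_[q]] PadicAlgCl q))
  (hV : ∃ U ∈ (levelLoc q).sets, U ≤ V)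

theorem fundFixedRep_unitsLoc : FundFixedRep (levelLoc q) (unitsLoc q) p :=
  Fermat.Agent.PT.GLUE.LocalFund11.fundFixed_unitsLoc q p

include hV

/-- **(AR1-loc)**: `Br(K')[p]` has exactly `p` elements, `K'` the fixed field of the open
subgroup `V ≤ Γ_q`: `#H²_lev(V; ℚ̄_qˣ)[p] = p`. -/
theorem card_pTor_H2_local :
    Nat.card (pTor p (LevelCoh28.H2 (comapBasis V.subtype (levelLoc q))
      (Rep.res V.subtype (unitsLoc q)))) = p :=
  Fermat.Agent.W56.CardPTor8.card_pTor_H2_open (levelLoc q) (unitsLoc q) (isDiscrete_unitsLoc q)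
    (fundFixedRep_unitsLoc q p) V hV (Fermat.Agent.W56.CycloLocDeg1.hdiv_levelLoc q p V hV)

/-- the invariant map of the local field `K'`: an injection `Br(K')[p] ↪ ℤ/p`; it is bijective by
`card_pTor_H2_local`. -/
theorem exists_inv_local :
    ∃ τ : pTor p (LevelCoh28.H2 (comapBasis V.subtype (levelLoc q))
      (Rep.res V.subtype (unitsLoc q))) →+ ZMod p, Function.Bijective τ := by
  have h := exists_inv_open (p := p) (levelLoc q) (unitsLoc q) (isDiscrete_unitsLoc q)
    (fundFixedRep_unitsLoc q p) V hV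
  obtain ⟨τ, hτ⟩ := h
  have hcard := card_pTor_H2_local q p V hV
  have hfin : Finite (pTor p (LevelCoh28.H2 (comapBasis V.subtype (levelLoc q))
      (Rep.res V.subtype (unitsLoc q)))) :=
    Nat.finite_of_card_ne_zero (by rw [hcard]; exact (Fact.out : p.Prime).ne_zero)
  have hle : Nat.card (ZMod p) ≤ Nat.card (pTor p (LevelCoh28.H2
      (comapBasis V.subtype (levelLoc q)) (Rep.res V.subtype (unitsLoc q)))) := by
    rw [hcard, Nat.card_zmod]
  exact ⟨τ, hτ.bijective_of_nat_card_le hle⟩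

/-- a non-split class: a level 2-cocycle of `V` with values in `ℚ̄_qˣ`, killed by `p` in
cohomology, not a coboundary. -/
theorem exists_Z2_not_B2_local :
    ∃ c ∈ LevelCoh28.Z2 (comapBasis V.subtype (levelLoc q)) (Rep.res V.subtype (unitsLoc q)),
      p • c ∈ LevelCoh28.B2 (comapBasis V.subtype (levelLoc q)) (Rep.res V.subtype (unitsLoc q)) ∧
      c ∉ LevelCoh28.B2 (comapBasis V.subtype (levelLoc q)) (Rep.res V.subtype (unitsLoc q)) :=
  exists_Z2_not_B2 (levelLoc q) (unitsLoc q) (isDiscrete_unitsLoc q)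
    (fundFixedRep_unitsLoc q p) V hV (Fermat.Agent.W56.CycloLocDeg1.hdiv_levelLoc q p V hV)

/-- the `p`-primary part of `Br(K')` is `p`-divisible. -/
theorem exists_nsmul_eq_H2_local
    (x : LevelCoh28.H2 (comapBasis V.subtype (levelLoc q)) (Rep.res V.subtype (unitsLoc q)))
    (a : ℕ) (hx : p ^ a • x = 0) :
    ∃ y : LevelCoh28.H2 (comapBasis V.subtype (levelLoc q)) (Rep.res V.subtype (unitsLoc q)),
      p • y = x :=
  Fermat.Agent.W56.PDiv8.exists_nsmul_eq_H2_open (levelLoc q) (unitsLoc q) (isDiscrete_unitsLoc q)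
    (fundFixedRep_unitsLoc q p) V hV (Fermat.Agent.W56.CycloLocDeg1.hunb_levelLoc q p V hV) x a hx

/-- Hilbert 90, `p`-primary form: `H¹_lev(V; ℚ̄_qˣ)` has no `p`-primary torsion. -/
theorem h1_pPrimary_local
    (x : LevelCoh28.H1 (comapBasis V.subtype (levelLoc q)) (Rep.res V.subtype (unitsLoc q)))
    (n : ℕ) (hx : (p ^ n) • x = 0) : x = 0 :=
  h1_pPrimary_open (levelLoc q) (unitsLoc q) (isDiscrete_unitsLoc q)
    (fundFixedRep_unitsLoc q p) V hV x n hx

end Local

end Fermat.Agent.W56.BrLoc1
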