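/-
Programme W56 (S56), package "class formation over an open subgroup", helper1.

`BrSelf1`: the statements of `LevExh8` / `CardPTor8` / `PDiv8` for the group `G` ITSELF (no open
subgroup `V`, no transport along `↥(⊤ : Subgroup G) ≃ G`): for `(G, 𝓑, Y)` with fundamental
classes at all finite levels,
* `rankLeOne_H2_self`, `exists_ne_zero_H2_self`, `card_pTor_H2_self` (`#H²_lev(G; Y)[p] = p` when
  `p` divides some `[G : W]`, `W ∈ 𝓑` normal), `exists_Z2_not_B2_self` (cochain form).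
-/
import Mathlib
import Fermat.Agent.W56.CardPTor8

set_option autoImplicit false
set_option linter.unusedSectionVars false
set_option linter.unusedVariables false
set_option linter.style.haveILetI false

open CategoryTheory groupCohomology

namespace Fermat.Agent.W56.BrSelf1

open Fermat.Agent.PT.PRO Fermat.Agent.PT.PRO.HyperLevel25 Fermat.Agent.PT.PRO.HyperColim18
  Fermat.Agent.PT.PRO.HyperColimP18 Fermat.Agent.PT.PRO.GlobalDuality20
  Fermat.Agent.PT.PRO.FundRaw18 Fermat.Agent.PT.PRO.Resolved4 Fermat.Agent.PT.PRO.InvP4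
  Fermat.Agent.PT.FG.Interface8 Fermat.Agent.W56.LevExh8 Fermat.Agent.W56.CardPTor8

/-- the normal members of a basis. -/
def normalFam {G : Type} [Group G] (𝒰 : Set (Subgroup G)) : Set (Subgroup G) :=
  {W | W ∈ 𝒰 ∧ W.Normal}

section Int

variable {G : Type} [Group G] {C : Type} [AddCommGroup C] [Module ℤ C]
  (ρ : Representation ℤ G C) {𝒰 : Set (Subgroup G)} (h𝒰 : IsLevelBasis 𝒰) (hC : IsDiscrete 𝒰 ρ)
  {p : ℕ} [Fact p.Prime] (hfund : FundHyp12.FundFixed ρ 𝒰 p)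

include h𝒰 in
theorem normalFam_cofinal : ∀ U ∈ 𝒰, ∃ W ∈ normalFam 𝒰, W ≤ U := fun U hU => by
  obtain ⟨W, hW, hle, hn⟩ := h𝒰.normal U hU
  exact ⟨W, ⟨hW, hn⟩, hle⟩

include hfund in
/-- `H²_lev(G; C)[p]` has rank `≤ 1`. -/
theorem rankLeOne_Hlev2_self : RankLeOne p (Hlev2 h𝒰 ρ hC) := by
  refine rankLeOne_Hlev2 h𝒰 ρ hC p (ℱ := normalFam 𝒰) (fun _ h => h.1) (fun _ h => h.2)
    (normalFam_cofinal h𝒰) (fun W hW => ?_)
  have := hW.2
  have hfi := h𝒰.finiteIndex W hW.1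
  have : Finite (G ⧸ W) := Subgroup.finite_quotient_of_finiteIndex
  obtain ⟨u, hu⟩ := hfund W hW.1 hW.2
  exact InvFund18.finRankLeOneAt_of_isFundClass ρ W u hu

include hfund in
/-- a non-zero class of order `p` in `H²_lev(G; C)` when `p` divides some `[G : W]`. -/
theorem exists_ne_zero_Hlev2_self (hdiv : ∃ W ∈ 𝒰, W.Normal ∧ p ∣ W.index) :
    ∃ x : Hlev2 h𝒰 ρ hC, x ≠ 0 ∧ p • x = 0 := by
  obtain ⟨W, hW, hn, hdvd⟩ := hdiv
  refine exists_ne_zero_Hlev2 h𝒰 ρ hC (Fact.out : p.Prime) (ℱ := normalFam 𝒰) (fun _ h => h.1)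
    (fun _ h => h.2) (normalFam_cofinal h𝒰) (fun W' hW' => ?_) (V₁ := W) ⟨hW, hn⟩ ?_
  · have := hW'.2
    have hfi := h𝒰.finiteIndex W' hW'.1
    have : Finite (G ⧸ W') := Subgroup.finite_quotient_of_finiteIndex
    obtain ⟨u, hu⟩ := hfund W' hW'.1 hW'.2
    intro N
    exact h1NoPTorsion_of_isFundClass' hu N
  · have := hn
    have hfi := h𝒰.finiteIndex W hW
    have : Finite (G ⧸ W) := Subgroup.finite_quotient_of_finiteIndex
    obtain ⟨u, hu⟩ := hfund W hW hn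
    exact finHasP_of_isFundClass (fixedObj W ρ) u hu (by rwa [Subgroup.index] at hdvd)

end Int

section RepForm

open Fermat.Agent.PT.GLUE.Objects21

variable {G : Type} [Group G] (𝓑 : LevelCoh28.LevelBasis G) (Y : Rep.{0} ℤ G)
  (hY : LevelCoh28.IsDiscrete 𝓑.sets Y) {p : ℕ} [Fact p.Prime]
  (hfund : FundFixedRep 𝓑 Y p)

include hY hfund in
/-- `H²_lev(G; Y)[p]` has rank `≤ 1`. -/
theorem rankLeOne_H2_self : RankLeOne p (LevelCoh28.H2 𝓑 Y) :=
  rankLeOne_of_injective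
    (AddMonoidHom.mk' (LevelEquiv29.h2Equiv 𝓑 Y hY) (map_add _))
    (LevelEquiv29.h2Equiv 𝓑 Y hY).injective
    (@rankLeOne_Hlev2_self G _ Y.V _ Y.hV2 Y.ρ 𝓑.sets (LevelEquiv29.basis 𝓑) hY p _ hfund)

include hY hfund in
/-- a non-zero class of order `p` in `H²_lev(G; Y)`. -/
theorem exists_ne_zero_H2_self (hdiv : ∃ W ∈ 𝓑.sets, W.Normal ∧ p ∣ W.index) :
    ∃ x : LevelCoh28.H2 𝓑 Y, x ≠ 0 ∧ p • x = 0 := by
  set e := LevelEquiv29.h2Equiv 𝓑 Y hY with he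
  obtain ⟨x', hx'0, hpx'⟩ := @exists_ne_zero_Hlev2_self G _ Y.V _ Y.hV2 Y.ρ 𝓑.sets
    (LevelEquiv29.basis 𝓑) hY p _ hfund hdiv
  refine ⟨e.symm x', fun h0 => hx'0 ?_, e.injective ?_⟩
  · have h1 : e (e.symm x') = x' := e.apply_symm_apply x'
    rw [← h1, h0]
    exact map_zero e
  · have h2 : e (p • e.symm x') = p • e (e.symm x') := map_nsmul e p _
    have h3 : e (e.symm x') = x' := e.apply_symm_apply x'
    exact h2.trans ((congrArg (fun t => p • t) h3).trans (hpx'.trans (map_zero e).symm))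

include hY hfund in
/-- `#H²_lev(G; Y)[p] = p` when `p` divides some `[G : W]`. -/
theorem card_pTor_H2_self (hdiv : ∃ W ∈ 𝓑.sets, W.Normal ∧ p ∣ W.index) :
    Nat.card (pTor p (LevelCoh28.H2 𝓑 Y)) = p :=
  card_pTor_eq (rankLeOne_H2_self 𝓑 Y hY hfund) (exists_ne_zero_H2_self 𝓑 Y hY hfund hdiv)

include hY hfund in
/-- cochain form: a level 2-cocycle `c` of `G` with `p • c` a level coboundary and `c` not a level
coboundary. -/
theorem exists_Z2_not_B2_self (hdiv : ∃ W ∈ 𝓑.sets, W.Normal ∧ p ∣ W.index) :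
    ∃ c ∈ LevelCoh28.Z2 𝓑 Y, p • c ∈ LevelCoh28.B2 𝓑 Y ∧ c ∉ LevelCoh28.B2 𝓑 Y := by
  obtain ⟨x, hx0, hpx⟩ := exists_ne_zero_H2_self 𝓑 Y hY hfund hdiv
  obtain ⟨c, rfl⟩ := LevelCoh28.H2mk_surjective _ _ x
  refine ⟨(c : G × G → Y), c.2, ?_, fun h => hx0 ?_⟩
  · rw [← map_nsmul, LevelCoh28.H2mk_eq_zero_iff] at hpx
    exact hpx
  · rw [LevelCoh28.H2mk_eq_zero_iff]
    exact h

end RepForm

end Fermat.Agent.W56.BrSelf1
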