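/-
Programme W56 (S56), chapter (EC-2), helper1: the local inputs of helper2's
`RightExactCond2.rightExactH2_of_inputs` that depend on (R4b).

* `exists_level_pow_dvd` : helper2's literal (R4b) (`hunb` of `PDiv8` for `levelLocS q S`);
* `hLoc2` : **`GlobalCore2.HLoc2 S p`** (`H²(H'; A'_q)` is `p`-divisible for the open subgroups
  `H' ≤ Γ_q`, `q ∈ S`), for every prime `p` with `pPrime p ∈ S`;
* `exists_Z2_not_B2_AQ`, `exists_Z2_not_B2_AQ_self`, `card_pTor_H2_AQ(_self)` : PK-7 / "exactly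
  `p`" for the local datum `(Γ_q, levelLocS q S, A'_q)`, over an open subgroup and over `Γ_q`
  itself.
-/
import Mathlib
import Fermat.Agent.W56.BrLoc1
import Fermat.Agent.W56.BrSelf1
import Fermat.Agent.W56.GlobalCore2

set_option autoImplicit false
set_option linter.unusedSectionVars false
set_option linter.unusedVariables false
set_option linter.style.haveILetI false

open CategoryTheory groupCohomology ExtCitation

namespace Fermat.Agent.W56.BrLocS1

open Fermat.Agent.PT.PRO Fermat.Agent.PT.PRO.InvP4 Fermat.Agent.PT.GLUE.Objects21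
  Fermat.Agent.W56.LevExh8 Fermat.Agent.W56.LocalDatum2

section R4b

variable (S : Finset Nat.Primes) (p : ℕ) [hp : Fact p.Prime] (hpS : pPrime p ∈ S)
  (q : ℕ) [Fact q.Prime]

include hpS

/-- **(R4b)**, helper2's literal: for every open subgroup `H' ≤ Γ_q` (levels from `G_S`, `p ∈ S`)
the `p`-parts of the indices `[H' : W ∩ H']`, `W ∈ levelLocS q S` normal in `Γ_q`, `W ≤ H'`, are
unbounded. -/
theorem exists_level_pow_dvd (H' : Subgroup (PadicAlgCl q ≃ₐ[ℚ_[q]] PadicAlgCl q))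
    (hH' : ∃ U ∈ (levelLocS q S).sets, U ≤ H') (n : ℕ) :
    ∃ W ∈ (levelLocS q S).sets, W.Normal ∧ W ≤ H' ∧ p ^ n ∣ (W.subgroupOf H').index :=
  Fermat.Agent.W56.CycloLocDeg1.hunb_levelLocS q p S hpS H' hH' n

/-- the same for `Γ_q` itself. -/
theorem exists_level_pow_dvd_self (n : ℕ) :
    ∃ W ∈ (levelLocS q S).sets, W.Normal ∧ p ^ n ∣ W.index := by
  obtain ⟨W₁, hW₁, hdvd⟩ := Fermat.Agent.W56.CycloLocDeg1.hbig_levelLocS q p S hpS n
  obtain ⟨W, hW, hle, hn⟩ := (levelLocS q S).isBasis.normalCore W₁ hW₁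
  exact ⟨W, hW, hn, hdvd.trans (Subgroup.index_dvd_of_le hle)⟩

/-- the `p`-primary part of `H²_lev(H'; A'_q)` is `p`-divisible. -/
theorem exists_nsmul_eq_H2_AQ (H' : Subgroup (PadicAlgCl q ≃ₐ[ℚ_[q]] PadicAlgCl q))
    (hH' : ∃ U ∈ (levelLocS q S).sets, U ≤ H')
    (x : LevelCoh28.H2 (comapBasis H'.subtype (levelLocS q S)) (Rep.res H'.subtype (AQ S q)))
    (a : ℕ) (hx : p ^ a • x = 0) :
    ∃ y : LevelCoh28.H2 (comapBasis H'.subtype (levelLocS q S)) (Rep.res H'.subtype (AQ S q)),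
      p • y = x :=
  Fermat.Agent.W56.PDiv8.exists_nsmul_eq_H2_open (levelLocS q S) (AQ S q) (isDiscrete_AQ S q)
    (fundFixedRep_AQ S q p) H' hH' (exists_level_pow_dvd S p hpS q H' hH') x a hx

/-- `H²_lev(H'; A'_q)` is `p`-divisible (cochain form `Decomp2.PDivH2`). -/
theorem pDivH2_AQ (H' : Subgroup (PadicAlgCl q ≃ₐ[ℚ_[q]] PadicAlgCl q))
    (hH' : ∃ U ∈ (levelLocS q S).sets, U ≤ H') :
    Fermat.Agent.W56.Decomp2.PDivH2 p (comapBasis H'.subtype (levelLocS q S))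
      (Rep.res H'.subtype (AQ S q)) :=
  Fermat.Agent.W56.Cofinal2.pDivH2_of_pPrimary p hp.out
    (exists_nsmul_eq_H2_AQ S p hpS q H' hH')

/-- **"exactly `p`"** for `(H', A'_q)`. -/
theorem card_pTor_H2_AQ (H' : Subgroup (PadicAlgCl q ≃ₐ[ℚ_[q]] PadicAlgCl q))
    (hH' : ∃ U ∈ (levelLocS q S).sets, U ≤ H') :
    Nat.card (pTor p (LevelCoh28.H2 (comapBasis H'.subtype (levelLocS q S))
      (Rep.res H'.subtype (AQ S q)))) = p :=
  Fermat.Agent.W56.CardPTor8.card_pTor_H2_open (levelLocS q S) (AQ S q) (isDiscrete_AQ S q)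
    (fundFixedRep_AQ S q p) H' hH'
    (Fermat.Agent.W56.CycloLocDeg1.hdiv_levelLocS q p S hpS H' hH')

/-- **PK-7** for `(H', A'_q)`. -/
theorem exists_Z2_not_B2_AQ (H' : Subgroup (PadicAlgCl q ≃ₐ[ℚ_[q]] PadicAlgCl q))
    (hH' : ∃ U ∈ (levelLocS q S).sets, U ≤ H') :
    ∃ c ∈ LevelCoh28.Z2 (comapBasis H'.subtype (levelLocS q S)) (Rep.res H'.subtype (AQ S q)),
      p • c ∈ LevelCoh28.B2 (comapBasis H'.subtype (levelLocS q S))
        (Rep.res H'.subtype (AQ S q)) ∧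
      c ∉ LevelCoh28.B2 (comapBasis H'.subtype (levelLocS q S)) (Rep.res H'.subtype (AQ S q)) :=
  Fermat.Agent.W56.BrLoc1.exists_Z2_not_B2 (levelLocS q S) (AQ S q) (isDiscrete_AQ S q)
    (fundFixedRep_AQ S q p) H' hH'
    (Fermat.Agent.W56.CycloLocDeg1.hdiv_levelLocS q p S hpS H' hH')

/-- `hdiv` for `Γ_q` itself. -/
theorem hdiv_self : ∃ W ∈ (levelLocS q S).sets, W.Normal ∧ p ∣ W.index := by
  simpa using exists_level_pow_dvd_self S p hpS q 1

/-- **"exactly `p`"** for `(Γ_q, A'_q)` itself. -/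
theorem card_pTor_H2_AQ_self :
    Nat.card (pTor p (LevelCoh28.H2 (levelLocS q S) (AQ S q))) = p :=
  Fermat.Agent.W56.BrSelf1.card_pTor_H2_self (levelLocS q S) (AQ S q) (isDiscrete_AQ S q)
    (fundFixedRep_AQ S q p) (hdiv_self S p hpS q)

/-- **PK-7** for `(Γ_q, levelLocS q S, A'_q)` itself (no subgroup): a level 2-cocycle `c` of `Γ_q`
with values in `A'_q`, `p • c` a level coboundary, `c` not a level coboundary. -/
theorem exists_Z2_not_B2_AQ_self :
    ∃ c ∈ LevelCoh28.Z2 (levelLocS q S) (AQ S q),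
      p • c ∈ LevelCoh28.B2 (levelLocS q S) (AQ S q) ∧ c ∉ LevelCoh28.B2 (levelLocS q S) (AQ S q) :=
  Fermat.Agent.W56.BrSelf1.exists_Z2_not_B2_self (levelLocS q S) (AQ S q) (isDiscrete_AQ S q)
    (fundFixedRep_AQ S q p) (hdiv_self S p hpS q)

end R4b

/-- **(I2) of helper2's `RightExactCond2.rightExactH2_of_inputs`.** -/
theorem hLoc2 (p : ℕ) [Fact p.Prime] (S : Finset Nat.Primes) (hpS : pPrime p ∈ S) :
    Fermat.Agent.W56.GlobalCore2.HLoc2 S p := by
  intro q H' hH'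
  haveI : Fact (((q : Nat.Primes) : ℕ)).Prime := ⟨(q : Nat.Primes).2⟩
  exact pDivH2_AQ S p hpS ((q : Nat.Primes) : ℕ) H' hH'

end Fermat.Agent.W56.BrLocS1
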