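/-
Programme W56 (target S56), chapter (EC-5), helper1: **the two hypotheses of the monomial theorem
`BaseContracts4.MonoWp` at a Mackey component of `I_{T,q}|_Ĉ`** (inputs of helper2's `ISCount`).

Generic part (`i : H →* G`, `𝓑G`, `basisH = comapBasis i 𝓑G`, `Y` a discrete `H`-module, `V ≤ G`
open, `g : G`; vocabulary of `Mackey2`/`MackeyInst2`):

* `shSg` : Shapiro at a Mackey component,
  `H²(V; S_g) ≃ H²(D; Y|_D)`, `D = Hg i V g = i⁻¹(g V g⁻¹)` with the basis induced from `H`;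
* `nestH2` : `H²(D₂; (Y|_D)|_{D₂}) ≃ H²(D'; Y|_{D'})` for `D₂ ≤ ↥D`, `D' = D₂.map D.subtype`;
* `shSgSg` : the same for a Mackey component of a Mackey component (`V₂ ≤ ↥V`, `g' : ↥V`);
* `card_pTor_Sg`, `card_pTor_SgSg` : the `p`-torsion of `H²` of these components has `p` elements
  if this holds for every open subgroup of `H`.

Instance `i = localGaloisToGlobal q`, `𝓑G = levelS T`, `Y = A'_q = LocalDatum2.AQ T q`
(`BrLocS1.card_pTor_H2_AQ`): `card_pTor_Sg_AQ`, `exists_ne_zero_Sg_AQ`, `card_pTor_SgSg_AQ`.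
-/
import Mathlib
import Fermat.Agent.W56.MackeyInst2
import Fermat.Agent.W56.ShapW6
import Fermat.Agent.W56.BrLocS1

set_option autoImplicit false
set_option linter.unusedSectionVars false
set_option linter.style.haveILetI false

open CategoryTheory

namespace Fermat.Agent.W56.MonoHyp1

open Fermat.Agent.PT.PRO Fermat.Agent.PT.PRO.LevelCoh28 Fermat.Agent.PT.PRO.LevelCohRes28
  Fermat.Agent.PT.PRO.SmoothCoind28 Fermat.Agent.PT.PRO.ShapiroLevel28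
  Fermat.Agent.PT.PRO.InvP4 Fermat.Agent.PT.GLUE.Objects21
  Fermat.Agent.W56.Mackey2 Fermat.Agent.W56.MackeyInst2 Fermat.Agent.W56.ShapW6

/-! ### `p`-torsion and isomorphisms -/

theorem card_pTor_congr (p : ℕ) {M M' : Type*} [AddCommGroup M] [AddCommGroup M'] (e : M ≃+ M') :
    Nat.card ↥(pTor p M) = Nat.card ↥(pTor p M') := by
  refine Nat.card_congr (e.toEquiv.subtypeEquiv fun x => ?_)
  show p • x = 0 ↔ p • e x = 0
  rw [← map_nsmul, map_eq_zero_iff e e.injective]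

/-! ### Shapiro at a Mackey component -/

section Gen

variable {k G H : Type} [CommRing k] [Group G] [Group H]
variable (i : H →* G) (𝓑G : LevelBasis G) (Y : Rep.{0} k H) (V : Subgroup G)
  (hY : IsDiscrete (basisH i 𝓑G).sets Y)

/-- **Shapiro at the Mackey component of `g`**: `H²(V; S_g) ≃ H²(D; Y|_D)`, `D = i⁻¹(g V g⁻¹)` with
the basis induced from `H`. -/
noncomputable def shSg (g : G) :
    H2 (basisV 𝓑G V) (Sg i 𝓑G Y V g) ≃ₗ[k]
      H2 (comapBasis (Hg i V g).subtype (basisH i 𝓑G)) (Rep.res (Hg i V g).subtype Y) :=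
  (sh2Equiv (jg i V g) (basisV 𝓑G V) (basisA i 𝓑G V g) (hcont_jg i 𝓑G V g)
      (hind_jg i 𝓑G V g) (Yg i Y V g) (isDiscrete_Yg i 𝓑G Y V hY g)).trans
    (cofinalH2 (basisA i 𝓑G V g) (basisB i 𝓑G V g) (cofinal_BA i 𝓑G V g)
      (cofinal_AB i 𝓑G V g) (Yg i Y V g))

end Gen

/-! ### Nested subgroups -/

section Nest

variable {k H : Type} [CommRing k] [Group H] (𝓑H : LevelBasis H) (Y : Rep.{0} k H)
  (D : Subgroup H) (D₂ : Subgroup ↥D)

/-- `D₂ ≃ D₂.map D.subtype`. -/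
noncomputable def eNest : ↥D₂ ≃* ↥(D₂.map D.subtype) :=
  D₂.equivMapOfInjective D.subtype (Subgroup.subtype_injective D)

theorem coe_eNest (w : ↥D₂) : ((eNest D D₂ w : ↥(D₂.map D.subtype)) : H) = ((w : ↥D) : H) := rfl

theorem coe_eNest_symm (w' : ↥(D₂.map D.subtype)) :
    ((((eNest D D₂).symm w' : ↥D₂) : ↥D) : H) = (w' : H) := by
  rw [← coe_eNest, MulEquiv.apply_symm_apply]

theorem isLevelHom_eNest :
    IsLevelHom (eNest D D₂).toMonoidHom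
      (comapBasis D₂.subtype (comapBasis D.subtype 𝓑H)).sets
      (comapBasis (D₂.map D.subtype).subtype 𝓑H).sets := by
  rintro _ ⟨U, hU, rfl⟩
  exact ⟨_, ⟨_, ⟨U, hU, rfl⟩, rfl⟩, fun w hw => hw⟩

theorem isLevelHom_eNest_symm :
    IsLevelHom (eNest D D₂).symm.toMonoidHom
      (comapBasis (D₂.map D.subtype).subtype 𝓑H).sets
      (comapBasis D₂.subtype (comapBasis D.subtype 𝓑H)).sets := by
  rintro _ ⟨_, ⟨U, hU, rfl⟩, rfl⟩
  refine ⟨_, ⟨U, hU, rfl⟩, fun w hw => ?_⟩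
  show ((((eNest D D₂).symm w : ↥D₂) : ↥D) : H) ∈ U
  rw [coe_eNest_symm]
  exact hw

/-- `H²(D₂; (Y|_D)|_{D₂}) ≃ H²(D'; Y|_{D'})`, `D' = D₂.map D.subtype`. -/
noncomputable def nestH2 :
    H2 (comapBasis D₂.subtype (comapBasis D.subtype 𝓑H))
        (Rep.res D₂.subtype (Rep.res D.subtype Y)) ≃ₗ[k]
      H2 (comapBasis (D₂.map D.subtype).subtype 𝓑H) (Rep.res (D₂.map D.subtype).subtype Y) :=
  trH2 (A := Rep.res D₂.subtype (Rep.res D.subtype Y))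
    (A' := Rep.res (D₂.map D.subtype).subtype Y) (eNest D D₂)
    (isLevelHom_eNest 𝓑H D D₂) (isLevelHom_eNest_symm 𝓑H D D₂)
    (LinearEquiv.refl k Y) (fun _ _ => rfl)

/-- Mutual cofinality passes to pulled-back bases. -/
theorem cofinal_comap {L : Type} [Group L] (f : L →* H) {𝓑 𝓑' : LevelBasis H}
    (h : ∀ U ∈ 𝓑'.sets, ∃ W ∈ 𝓑.sets, W ≤ U) :
    ∀ U ∈ (comapBasis f 𝓑').sets, ∃ W ∈ (comapBasis f 𝓑).sets, W ≤ U := by
  rintro _ ⟨U, hU, rfl⟩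
  obtain ⟨W, hW, hWU⟩ := h U hU
  exact ⟨_, ⟨W, hW, rfl⟩, Subgroup.comap_mono hWU⟩

end Nest

/-! ### A Mackey component of a Mackey component -/

section Gen2

variable {k G H : Type} [CommRing k] [Group G] [Group H]
variable (i : H →* G) (𝓑G : LevelBasis G) (Y : Rep.{0} k H) (V : Subgroup G)
  (hV : ∃ U₀ ∈ 𝓑G.sets, U₀ ≤ V) (hY : IsDiscrete (basisH i 𝓑G).sets Y) (g : G)
  (V₂ : Subgroup ↥V) (hV₂ : ∃ U₀ ∈ (basisV 𝓑G V).sets, U₀ ≤ V₂) (g' : ↥V)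

/-- The subgroup of `H` attached to the component `(g, g')`:
`{h ∈ i⁻¹(g V g⁻¹) | g'⁻¹ (g⁻¹ i(h) g) g' ∈ V₂}`. -/
def HgHg : Subgroup H := (Hg (jg i V g) V₂ g').map (Hg i V g).subtype

include hV hV₂ in
/-- `HgHg` is open in `H`. -/
theorem open_HgHg : ∃ U ∈ (basisH i 𝓑G).sets, U ≤ HgHg i V g V₂ g' := by
  obtain ⟨U₂, hU₂, hU₂le⟩ := open_Hg (jg i V g) (basisV 𝓑G V) V₂ hV₂ g'
  -- `U₂ ∈ basisA`; pass to `basisB`
  obtain ⟨U', hU', hU'le⟩ := cofinal_AB i 𝓑G V g U₂ hU₂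
  obtain ⟨W, hW, rfl⟩ := hU'
  obtain ⟨W₀, hW₀, hW₀le⟩ := open_Hg i 𝓑G V hV g
  obtain ⟨W₁, hW₁, hW₁le⟩ := (basisH i 𝓑G).isBasis.directed W hW W₀ hW₀
  refine ⟨W₁, hW₁, fun h hh => ?_⟩
  have h1 := hW₁le hh
  have hD : h ∈ Hg i V g := hW₀le h1.2
  refine ⟨⟨h, hD⟩, ?_, rfl⟩
  apply hU₂le
  apply hU'le
  exact h1.1

include hY in
/-- **Shapiro at a component of a component**:
`H²(V₂; (S_g)_{g'}) ≃ H²(D'; Y|_{D'})`, `D' = HgHg`. -/
noncomputable def shSgSg :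
    H2 (basisV (basisV 𝓑G V) V₂) (Sg (jg i V g) (basisV 𝓑G V) (Yg i Y V g) V₂ g') ≃ₗ[k]
      H2 (comapBasis (HgHg i V g V₂ g').subtype (basisH i 𝓑G))
        (Rep.res (HgHg i V g V₂ g').subtype Y) :=
  ((shSg (jg i V g) (basisV 𝓑G V) (Yg i Y V g) V₂ (isDiscrete_Yg i 𝓑G Y V hY g) g').trans
    (cofinalH2
      (comapBasis (Hg (jg i V g) V₂ g').subtype (basisA i 𝓑G V g))
      (comapBasis (Hg (jg i V g) V₂ g').subtype (basisB i 𝓑G V g))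
      (cofinal_comap (Hg (jg i V g) V₂ g').subtype (cofinal_BA i 𝓑G V g))
      (cofinal_comap (Hg (jg i V g) V₂ g').subtype (cofinal_AB i 𝓑G V g))
      (Rep.res (Hg (jg i V g) V₂ g').subtype (Yg i Y V g)))).trans
    (nestH2 (basisH i 𝓑G) Y (Hg i V g) (Hg (jg i V g) V₂ g'))

end Gen2

/-! ### The counts -/

section Count

variable {k G H : Type} [CommRing k] [Group G] [Group H]
variable (i : H →* G) (𝓑G : LevelBasis G) (Y : Rep.{0} k H) (V : Subgroup G)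
  (hV : ∃ U₀ ∈ 𝓑G.sets, U₀ ≤ V) (hY : IsDiscrete (basisH i 𝓑G).sets Y) (p : ℕ)
  (hloc : ∀ H' : Subgroup H, (∃ U ∈ (basisH i 𝓑G).sets, U ≤ H') →
    Nat.card ↥(pTor p (H2 (comapBasis H'.subtype (basisH i 𝓑G)) (Rep.res H'.subtype Y))) = p)

include hV hY hloc in
/-- `#H²(V; S_g)[p] = p` if this holds for every open subgroup of `H`. -/
theorem card_pTor_Sg (g : G) :
    Nat.card ↥(pTor p (H2 (basisV 𝓑G V) (Sg i 𝓑G Y V g))) = p := by
  rw [card_pTor_congr p (shSg i 𝓑G Y V hY g).toAddEquiv]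
  exact hloc _ (open_Hg i 𝓑G V hV g)

include hV hY hloc in
/-- `#H²(V₂; (S_g)_{g'})[p] = p` if this holds for every open subgroup of `H`. -/
theorem card_pTor_SgSg (g : G) (V₂ : Subgroup ↥V)
    (hV₂ : ∃ U₀ ∈ (basisV 𝓑G V).sets, U₀ ≤ V₂) (g' : ↥V) :
    Nat.card ↥(pTor p (H2 (basisV (basisV 𝓑G V) V₂)
      (Sg (jg i V g) (basisV 𝓑G V) (Yg i Y V g) V₂ g'))) = p := by
  rw [card_pTor_congr p (shSgSg i 𝓑G Y V hY g V₂ g').toAddEquiv]
  exact hloc _ (open_HgHg i 𝓑G V hV g V₂ hV₂ g')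

/-- A group whose `p`-torsion has `p ≥ 2` elements has a non-zero element killed by `p`. -/
theorem exists_ne_zero_of_card_pTor {M : Type*} [AddCommGroup M] (hp : 1 < p)
    (h : Nat.card ↥(pTor p M) = p) : ∃ x : M, x ≠ 0 ∧ p • x = 0 := by
  haveI : Finite ↥(pTor p M) := Nat.finite_of_card_ne_zero (by rw [h]; omega)
  have h1 : 1 < Nat.card ↥(pTor p M) := by rw [h]; exact hp
  rw [Finite.one_lt_card_iff_nontrivial] at h1
  obtain ⟨x, hx⟩ := exists_ne (0 : ↥(pTor p M))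
  exact ⟨x.1, fun h0 => hx (Subtype.ext h0), x.2⟩

end Count

/-! ### The instance `I_{T,q} = Coind_{Γ_q}^Γ A'_q` -/

section AQ

open Fermat.Agent.W56.LocalDatum2 ExtCitation

local notation "Γ" => (AlgebraicClosure ℚ ≃ₐ[ℚ] AlgebraicClosure ℚ)

variable (T : Finset Nat.Primes) (p : ℕ) [hp : Fact p.Prime] (hpT : pPrime p ∈ T)
  (q : ℕ) [Fact q.Prime] (Ĉ : Subgroup Γ) (hĈ : ∃ W ∈ (levelS T).sets, W ≤ Ĉ)

include hpT in
/-- the local count, in the vocabulary of `MackeyInst2`. -/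
theorem hloc_AQ (H' : Subgroup (PadicAlgCl q ≃ₐ[ℚ_[q]] PadicAlgCl q))
    (hH' : ∃ U ∈ (basisH (localGaloisToGlobal q) (levelS T)).sets, U ≤ H') :
    Nat.card ↥(pTor p (H2 (comapBasis H'.subtype (basisH (localGaloisToGlobal q) (levelS T)))
      (Rep.res H'.subtype (AQ T q)))) = p :=
  BrLocS1.card_pTor_H2_AQ T p hpT q H' hH'

include hpT hĈ in
/-- **`#H²(Ĉ; S_g)[p] = p`** for the Mackey components `S_g` of `(Coind_{Γ_q}^Γ A'_q)|_Ĉ`. -/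
theorem card_pTor_Sg_AQ (g : Γ) :
    Nat.card ↥(pTor p (H2 (basisV (levelS T) Ĉ)
      (Sg (localGaloisToGlobal q) (levelS T) (AQ T q) Ĉ g))) = p :=
  card_pTor_Sg (localGaloisToGlobal q) (levelS T) (AQ T q) Ĉ hĈ (isDiscrete_AQ T q) p
    (hloc_AQ T p hpT q) g

include hpT hĈ in
/-- **Hypothesis 1 of `MonoWp`** at the component `g`: a non-zero class of `H²(Ĉ; S_g)` killed by
`p` (`Sg … g = scoind (jg r_q Ĉ g) (basisV (levelS T) Ĉ) (Yg r_q (AQ T q) Ĉ g)`). -/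
theorem exists_ne_zero_Sg_AQ (g : Γ) :
    ∃ x : H2 (basisV (levelS T) Ĉ) (Sg (localGaloisToGlobal q) (levelS T) (AQ T q) Ĉ g),
      x ≠ 0 ∧ p • x = 0 :=
  exists_ne_zero_of_card_pTor p hp.out.one_lt (card_pTor_Sg_AQ T p hpT q Ĉ hĈ g)

include hpT hĈ in
/-- **Hypothesis 2 of `MonoWp`** at the component `g`: for `V₂ ≤ ↥Ĉ` open and `g' : ↥Ĉ`,
`#H²(V₂; (S_g)_{g'})[p] = p`. -/
theorem card_pTor_SgSg_AQ (g : Γ) (V₂ : Subgroup ↥Ĉ)
    (hV₂ : ∃ U₀ ∈ (basisV (levelS T) Ĉ).sets, U₀ ≤ V₂) (g' : ↥Ĉ) :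
    Nat.card ↥(pTor p (H2 (basisV (basisV (levelS T) Ĉ) V₂)
      (Sg (jg (localGaloisToGlobal q) Ĉ g) (basisV (levelS T) Ĉ)
        (Yg (localGaloisToGlobal q) (AQ T q) Ĉ g) V₂ g'))) = p :=
  card_pTor_SgSg (localGaloisToGlobal q) (levelS T) (AQ T q) Ĉ hĈ (isDiscrete_AQ T q) p
    (hloc_AQ T p hpT q) g V₂ hV₂ g'

include hpT hĈ in
/-- Hypothesis 2 of `MonoWp` for `H = U.subgroupOf Ĉ`, `U ∈ levelS T`. -/
theorem card_pTor_SgSg_AQ_subgroupOf (g : Γ) (U : Subgroup Γ) (hU : U ∈ (levelS T).sets)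
    (g' : ↥Ĉ) :
    Nat.card ↥(pTor p (H2 (basisV (basisV (levelS T) Ĉ) (U.subgroupOf Ĉ))
      (Sg (jg (localGaloisToGlobal q) Ĉ g) (basisV (levelS T) Ĉ)
        (Yg (localGaloisToGlobal q) (AQ T q) Ĉ g) (U.subgroupOf Ĉ) g'))) = p :=
  card_pTor_SgSg_AQ T p hpT q Ĉ hĈ g (U.subgroupOf Ĉ) ⟨_, ⟨U, hU, rfl⟩, le_rfl⟩ g'

end AQ

end Fermat.Agent.W56.MonoHyp1
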