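/-
Programme W56 (target S56), item (AR3) (helper6): **the trace of a Mackey component.**

`i : H →* G`, `M = scoind i 𝓑G Y` (smooth coinduction), `V ≤ G` open.  For `g : G` let
`eDC g = E_g ∘ R_g` (helper2's `Mackey2`) be the `V`-equivariant endomorphism of `M|_V`
"multiply a function by the indicator function of the double coset `i(H) g V`".  Then

* `trace_eDC_unit` (KEY IDENTITY): the `G`-endomorphism `trace ∘ scoindMap (eDC g) ∘ unit` of `M` is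
  multiplication by `nDC g`, the number of left cosets `xV` contained in `i(H) g V`;
* `trV_eDC_resV`: `trV ((eDC g)_* (resV y)) = nDC g • y` for every `y ∈ H²_lev(G; M)`
  (no formula for the inverse Shapiro map, no comparison of traces under Shapiro);
* `nDC_eq_index`: `nDC g = [H : Hg g]` (`Hg g = i⁻¹(g V g⁻¹)`).
-/
import Mathlib
import Fermat.Agent.W56.Mackey2
import Fermat.Agent.W56.Retract2
import Fermat.Agent.W56.TraceOpen8
import Fermat.Agent.W56.ResOpen6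

set_option autoImplicit false
set_option linter.unusedSectionVars false

namespace Fermat.Agent.W56.MackeyTrace6

open Fermat.Agent.PT.PRO.LevelCoh28 Fermat.Agent.PT.PRO.LevelCohRes28
  Fermat.Agent.PT.PRO.SmoothCoind28 Fermat.Agent.PT.PRO.ShapiroLevel28
  Fermat.Agent.PT.GLUE.Objects21 Fermat.Agent.W56.Mackey2 Fermat.Agent.W56.Retract2
  Fermat.Agent.W56.TraceOpen8

section Gen

variable {k G H : Type} [CommRing k] [Group G] [Group H]
variable (i : H →* G) (𝓑G : LevelBasis G) (Y : Rep.{0} k H) (V : Subgroup G)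
  (hV : ∃ U₀ ∈ 𝓑G.sets, U₀ ≤ V)

/-! ### the idempotent of a double coset -/

/-- `E_g ∘ R_g`: multiplication by the indicator function of `i(H) g V`. -/
noncomputable def eDC (g : G) : XV i 𝓑G Y V →ₗ[k] XV i 𝓑G Y V :=
  (Eg i 𝓑G Y V hV g).comp (Rg i 𝓑G Y V g)

theorem eDC_equivariant (g : G) (v₀ : ↥V) (f : XV i 𝓑G Y V) :
    eDC i 𝓑G Y V hV g ((XV i 𝓑G Y V).ρ v₀ f) =
      (XV i 𝓑G Y V).ρ v₀ (eDC i 𝓑G Y V hV g f) := by
  show Eg i 𝓑G Y V hV g (Rg i 𝓑G Y V g ((XV i 𝓑G Y V).ρ v₀ f)) = _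
  rw [Rg_equivariant, Eg_equivariant]
  rfl

theorem eDC_apply (g : G) (f : XV i 𝓑G Y V) (x : G) [Decidable (InDC i V g x)] :
    (eDC i 𝓑G Y V hV g f).1 x = if InDC i V g x then f.1 x else 0 :=
  Eg_Rg_apply i 𝓑G Y V hV g f x

/-! ### the cosets of a double coset -/

/-- The left coset `c` lies in the double coset `i(H) g V`. -/
def InDCq (g : G) (c : G ⧸ V) : Prop :=
  Quotient.liftOn' c (InDC i V g) (by
    intro a b hab
    rw [QuotientGroup.leftRel_apply] at hab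
    have hb : b = a * ((⟨a⁻¹ * b, hab⟩ : ↥V) : G) := by simp
    apply propext
    rw [hb]
    exact (inDC_mul_right i V (⟨a⁻¹ * b, hab⟩ : ↥V)).symm)

theorem inDCq_mk (g x : G) : InDCq i V g (QuotientGroup.mk x) ↔ InDC i V g x := Iff.rfl

open Classical in
/-- The number of left cosets `xV` in the double coset `i(H) g V`. -/
noncomputable def nDC [Fintype (G ⧸ V)] (g : G) : ℕ :=
  (Finset.univ.filter (InDCq i V g)).card

/-! ### the key identity -/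

variable [Fintype (G ⧸ V)]

/-- **KEY IDENTITY**: `trace ∘ scoindMap (eDC g) ∘ unit = nDC g` on `M = scoind i 𝓑G Y`. -/
theorem trace_eDC_unit (g : G) (m : scoind i 𝓑G Y) :
    trace 𝓑G (scoind i 𝓑G Y) V
        (scoindMap V.subtype 𝓑G (eDC i 𝓑G Y V hV g) (eDC_equivariant i 𝓑G Y V hV g)
          (unit 𝓑G (scoind i 𝓑G Y) V (isDiscrete_scoind i 𝓑G Y) m)) =
      nDC i V g • m := by
  classical
  refine Subtype.ext (funext fun z => ?_)
  rw [trace_apply]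
  have h1 : ((∑ c : G ⧸ V, traceTerm 𝓑G (scoind i 𝓑G Y) V
      (scoindMap V.subtype 𝓑G (eDC i 𝓑G Y V hV g) (eDC_equivariant i 𝓑G Y V hV g)
        (unit 𝓑G (scoind i 𝓑G Y) V (isDiscrete_scoind i 𝓑G Y) m)) c :
      scoind i 𝓑G Y) : ↥(scoindV i 𝓑G Y)).1 z =
      ∑ c : G ⧸ V, (traceTerm 𝓑G (scoind i 𝓑G Y) V
        (scoindMap V.subtype 𝓑G (eDC i 𝓑G Y V hV g) (eDC_equivariant i 𝓑G Y V hV g)
          (unit 𝓑G (scoind i 𝓑G Y) V (isDiscrete_scoind i 𝓑G Y) m)) c).1 z := by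
    have h0 := congrFun (Submodule.coe_sum (scoindV i 𝓑G Y)
      (fun c : G ⧸ V => traceTerm 𝓑G (scoind i 𝓑G Y) V
        (scoindMap V.subtype 𝓑G (eDC i 𝓑G Y V hV g) (eDC_equivariant i 𝓑G Y V hV g)
          (unit 𝓑G (scoind i 𝓑G Y) V (isDiscrete_scoind i 𝓑G Y) m)) c) Finset.univ) z
    rw [Finset.sum_apply] at h0
    exact h0
  rw [h1]
  have h2 : ∀ c : G ⧸ V, (traceTerm 𝓑G (scoind i 𝓑G Y) V
      (scoindMap V.subtype 𝓑G (eDC i 𝓑G Y V hV g) (eDC_equivariant i 𝓑G Y V hV g)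
        (unit 𝓑G (scoind i 𝓑G Y) V (isDiscrete_scoind i 𝓑G Y) m)) c).1 z =
      if InDCq i V g (z • c) then m.1 z else 0 := by
    intro c
    induction c using QuotientGroup.induction_on with
    | H x =>
      rw [traceTerm_mk, scoind_ρ_apply, scoindMap_apply, unit_apply, eDC_apply, scoind_ρ_apply]
      have e1 : z * x * x⁻¹ = z := by group
      rw [e1]
      rfl
  rw [Finset.sum_congr rfl fun c _ => h2 c]
  have h3 : ∑ c : G ⧸ V, (if InDCq i V g (z • c) then m.1 z else 0) =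
      ∑ c : G ⧸ V, (if InDCq i V g c then m.1 z else 0) :=
    Fintype.sum_equiv (MulAction.toPerm z) _ _ (fun c => rfl)
  rw [h3, Finset.sum_ite, Finset.sum_const, Finset.sum_const_zero, add_zero]
  rfl

/-- **The trace of the `g`-th Mackey component of a restricted class**:
`trV ((eDC g)_* (resV y)) = nDC g • y`. -/
theorem trV_eDC_resV (g : G) (y : H2 𝓑G (scoind i 𝓑G Y)) :
    trV 𝓑G (scoind i 𝓑G Y) V (isDiscrete_scoind i 𝓑G Y)
        (mapH2 (eDC i 𝓑G Y V hV g) (eDC_equivariant i 𝓑G Y V hV g)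
          (resV 𝓑G (scoind i 𝓑G Y) V y)) =
      nDC i V g • y := by
  rw [← shV_mapH2_unit 𝓑G (scoind i 𝓑G Y) V (isDiscrete_scoind i 𝓑G Y) y, shV_apply,
    ← sh2_natural, ← shV_apply 𝓑G (scoind i 𝓑G Y) V (isDiscrete_scoind i 𝓑G Y), trV_shV]
  obtain ⟨z, rfl⟩ := H2mk_surjective 𝓑G (scoind i 𝓑G Y) y
  rw [mapH2_mk, mapH2_mk, mapH2_mk, ← map_nsmul]
  congr 1
  apply Subtype.ext
  funext x
  exact trace_eDC_unit i 𝓑G Y V hV g ((z : G × G → scoind i 𝓑G Y) x)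

/-! ### the number of cosets of a double coset -/

/-- `h ↦ i(h) g V`. -/
def cosetOf (g : G) : H ⧸ Hg i V g → {c : G ⧸ V // InDCq i V g c} :=
  Quotient.lift (s := QuotientGroup.leftRel (Hg i V g))
    (fun h => ⟨QuotientGroup.mk (i h * g), ⟨h, 1, by simp⟩⟩) (by
    intro a b hab
    have hab' : a⁻¹ * b ∈ Hg i V g := QuotientGroup.leftRel_apply.mp hab
    apply Subtype.ext
    show (QuotientGroup.mk (i a * g) : G ⧸ V) = QuotientGroup.mk (i b * g)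
    rw [QuotientGroup.eq]
    have e : (i a * g)⁻¹ * (i b * g) = g⁻¹ * i (a⁻¹ * b) * g := by
      rw [map_mul, map_inv]
      group
    rw [e]
    exact hab')

theorem cosetOf_mk (g : G) (h : H) :
    (cosetOf i V g (QuotientGroup.mk h) : G ⧸ V) = QuotientGroup.mk (i h * g) := rfl

theorem cosetOf_bijective (g : G) : Function.Bijective (cosetOf i V g) := by
  constructor
  · intro a b hab
    induction a using QuotientGroup.induction_on with
    | H a =>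
      induction b using QuotientGroup.induction_on with
      | H b =>
        have h1 := congrArg Subtype.val hab
        rw [cosetOf_mk, cosetOf_mk, QuotientGroup.eq] at h1
        rw [QuotientGroup.eq]
        have e : (i a * g)⁻¹ * (i b * g) = g⁻¹ * i (a⁻¹ * b) * g := by
          rw [map_mul, map_inv]
          group
        rw [e] at h1
        exact h1
  · rintro ⟨c, hc⟩
    induction c using QuotientGroup.induction_on with
    | H x =>
      obtain ⟨h, v, rfl⟩ := (inDCq_mk i V g x).1 hc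
      refine ⟨QuotientGroup.mk h, Subtype.ext ?_⟩
      rw [cosetOf_mk, QuotientGroup.eq]
      have e : (i h * g)⁻¹ * (i h * g * v) = v := by group
      rw [e]
      exact v.2

/-- **`nDC g = [H : i⁻¹(g V g⁻¹)]`.** -/
theorem nDC_eq_index (g : G) : nDC i V g = (Hg i V g).index := by
  classical
  rw [Subgroup.index, Nat.card_congr (Equiv.ofBijective _ (cosetOf_bijective i V g)), nDC,
    Nat.card_eq_fintype_card, Fintype.card_subtype]

/-- The trace formula with the index. -/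
theorem trV_eDC_resV' (g : G) (y : H2 𝓑G (scoind i 𝓑G Y)) :
    trV 𝓑G (scoind i 𝓑G Y) V (isDiscrete_scoind i 𝓑G Y)
        (mapH2 (eDC i 𝓑G Y V hV g) (eDC_equivariant i 𝓑G Y V hV g)
          (resV 𝓑G (scoind i 𝓑G Y) V y)) =
      (Hg i V g).index • y := by
  rw [trV_eDC_resV, nDC_eq_index]

/-! ### the component of the trivial double coset and Shapiro -/

section One

omit [Fintype (G ⧸ V)]

variable (𝓑H : LevelBasis H) (hcont : IsLevelHom i 𝓑H.sets 𝓑G.sets)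
  (hind : ∀ W ∈ 𝓑H.sets, ∃ U ∈ 𝓑G.sets, U.comap i ≤ W)

/-- The basis of `D = Hg 1 = i⁻¹(V)` induced from `H`. -/
abbrev basisD : LevelBasis ↥(Hg i V 1) := comapBasis (Hg i V 1).subtype 𝓑H

include hcont in
theorem hcont_j : IsLevelHom (jg i V 1) (basisD i V 𝓑H).sets (basisV 𝓑G V).sets := by
  rintro _ ⟨U₀, hU₀, rfl⟩
  obtain ⟨W₀, hW₀, hW₀le⟩ := hcont U₀ hU₀
  refine ⟨W₀.comap (Hg i V 1).subtype, ⟨W₀, hW₀, rfl⟩, fun d hd => ?_⟩
  have h1 : i (d : H) ∈ U₀ := hW₀le hd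
  show (1 : G)⁻¹ * i (d : H) * 1 ∈ U₀
  simpa using h1

include hind in
theorem hind_j : ∀ W ∈ (basisD i V 𝓑H).sets,
    ∃ U ∈ (basisV 𝓑G V).sets, U.comap (jg i V 1) ≤ W := by
  rintro _ ⟨W₀, hW₀, rfl⟩
  obtain ⟨U₀, hU₀, hU₀le⟩ := hind W₀ hW₀
  refine ⟨U₀.comap V.subtype, ⟨U₀, hU₀, rfl⟩, fun d hd => ?_⟩
  have h1 : (1 : G)⁻¹ * i (d : H) * 1 ∈ U₀ := hd
  have h2 : i (d : H) ∈ U₀ := by simpa using h1
  exact hU₀le h2

include hV hcont in
/-- `D = i⁻¹(V)` is open in `H`. -/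
theorem open_D : ∃ U ∈ 𝓑H.sets, U ≤ Hg i V 1 := by
  obtain ⟨U₀, hU₀, hU₀V⟩ := hV
  obtain ⟨W₀, hW₀, hW₀le⟩ := hcont U₀ hU₀
  refine ⟨W₀, hW₀, fun h hh => ?_⟩
  have h1 : i h ∈ V := hU₀V (hW₀le hh)
  show (1 : G)⁻¹ * i h * 1 ∈ V
  simpa using h1

/-- **Shapiro on the component of the trivial double coset is the restriction to `D`**: the two
sides are given by the same cochains. -/
theorem sh2_Rg_resV (z : H2 𝓑G (scoind i 𝓑G Y)) :
    sh2 (jg i V 1) (basisV 𝓑G V) (basisD i V 𝓑H) (hcont_j i 𝓑G V 𝓑H hcont) (Yg i Y V 1)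
        (mapH2 (Rg i 𝓑G Y V 1) (Rg_equivariant i 𝓑G Y V 1) (resV 𝓑G (scoind i 𝓑G Y) V z)) =
      resV 𝓑H Y (Hg i V 1) (sh2 i 𝓑G 𝓑H hcont Y z) := by
  obtain ⟨c, rfl⟩ := H2mk_surjective 𝓑G (scoind i 𝓑G Y) z
  rw [resV, ppH2_mk, mapH2_mk, sh2_mk, sh2_mk, resV, ppH2_mk]
  congr 1
  apply Subtype.ext
  funext x
  show ((c : G × G → scoind i 𝓑G Y)
      (((jg i V 1 x.1 : ↥V) : G), ((jg i V 1 x.2 : ↥V) : G))).1 (1 * ((1 : ↥V) : G)) =
    ((c : G × G → scoind i 𝓑G Y) (i (x.1 : H), i (x.2 : H))).1 1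
  simp only [coe_jg, inv_one, one_mul, mul_one, Subgroup.coe_one]

end One

end Gen

/-! ### a `p`-torsion class of `H²(V; M|_V)` with non-zero trace -/

section Int

open Fermat.Agent.W56.LevExh8

variable {G H : Type} [Group G] [Group H] (i : H →* G) (𝓑G : LevelBasis G) (Y : Rep.{0} ℤ H)
  (V : Subgroup G) (hV : ∃ U₀ ∈ 𝓑G.sets, U₀ ≤ V)
  (𝓑H : LevelBasis H) (hcont : IsLevelHom i 𝓑H.sets 𝓑G.sets)
  (hind : ∀ W ∈ 𝓑H.sets, ∃ U ∈ 𝓑G.sets, U.comap i ≤ W)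
  (hY : IsDiscrete 𝓑H.sets Y) {p : ℕ} [Fact p.Prime] (hfund : FundFixedRep 𝓑H Y p)

include hcont hind hY hfund in
/-- A `p`-primary class of `H²(G; M)` killed by `[H : D]` (`D = i⁻¹(V)`) has trivial component at
the trivial double coset after restriction to `V`. -/
theorem eDC_resV_eq_zero (y₁ : H2 𝓑G (scoind i 𝓑G Y)) (m : ℕ) (hy : p ^ m • y₁ = 0)
    (hidx : (Hg i V 1).index • y₁ = 0) :
    mapH2 (eDC i 𝓑G Y V hV 1) (eDC_equivariant i 𝓑G Y V hV 1)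
      (resV 𝓑G (scoind i 𝓑G Y) V y₁) = 0 := by
  have hYD : IsDiscrete (basisD i V 𝓑H).sets (Yg i Y V 1) :=
    isDiscrete_resV 𝓑H Y (Hg i V 1) hY
  have h1 : mapH2 (Rg i 𝓑G Y V 1) (Rg_equivariant i 𝓑G Y V 1)
      (resV 𝓑G (scoind i 𝓑G Y) V y₁) = 0 := by
    apply sh2_injective (jg i V 1) (basisV 𝓑G V) (basisD i V 𝓑H) (hcont_j i 𝓑G V 𝓑H hcont)
      (hind_j i 𝓑G V 𝓑H hind) (Yg i Y V 1) hYD
    rw [sh2_Rg_resV i 𝓑G Y V 𝓑H hcont, map_zero]
    refine ResOpen6.resV_eq_zero_of_index_nsmul 𝓑H Y hY hfund (Hg i V 1)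
      (open_D i 𝓑G V hV 𝓑H hcont) _ m ?_ ?_
    · rw [← map_nsmul, hy, map_zero]
    · rw [← map_nsmul, hidx, map_zero]
  have h2 : mapH2 (eDC i 𝓑G Y V hV 1) (eDC_equivariant i 𝓑G Y V hV 1)
      (resV 𝓑G (scoind i 𝓑G Y) V y₁) =
      mapH2 (Eg i 𝓑G Y V hV 1) (Eg_equivariant i 𝓑G Y V hV 1)
        (mapH2 (Rg i 𝓑G Y V 1) (Rg_equivariant i 𝓑G Y V 1)
          (resV 𝓑G (scoind i 𝓑G Y) V y₁)) := by
    generalize resV 𝓑G (scoind i 𝓑G Y) V y₁ = w
    obtain ⟨c, rfl⟩ := H2mk_surjective _ _ w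
    rfl
  rw [h2, h1, map_zero]

variable [Fintype (G ⧸ V)]

include hV hcont hind hY hfund in
/-- **A `p`-torsion class of `H²_lev(V; M|_V)` whose trace is a non-zero `p`-torsion class of
`H²_lev(G; M) ≅ H²_lev(H; Y)`** (`M = scoind i 𝓑G Y`), when the `p`-primary part of `H²_lev(H; Y)`
is `p`-divisible and non-zero. -/
theorem exists_pTor_trace
    (hdiv : ∀ x : H2 𝓑H Y, (∃ a : ℕ, p ^ a • x = 0) → ∃ y : H2 𝓑H Y, p • y = x)
    (hne : ∃ z : H2 𝓑H Y, z ≠ 0 ∧ p • z = 0) :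
    ∃ x : H2 (basisV 𝓑G V) (XV i 𝓑G Y V), p • x = 0 ∧
      sh2 i 𝓑G 𝓑H hcont Y (trV 𝓑G (scoind i 𝓑G Y) V (isDiscrete_scoind i 𝓑G Y) x) ≠ 0 ∧
      p • sh2 i 𝓑G 𝓑H hcont Y (trV 𝓑G (scoind i 𝓑G Y) V (isDiscrete_scoind i 𝓑G Y) x) = 0 := by
  have hp : p.Prime := Fact.out
  obtain ⟨z, hz0, hpz⟩ := hne
  -- the index `[H : D] = p ^ c * t`
  have hD := open_D i 𝓑G V hV 𝓑H hcont
  have hidx0 : (Hg i V 1).index ≠ 0 := by
    obtain ⟨U, hU, hUD⟩ := hD
    haveI := 𝓑H.isBasis.finiteIndex U hU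
    exact (Subgroup.finiteIndex_of_le hUD).index_ne_zero
  set c := ((Hg i V 1).index).factorization p with hc
  set t := (Hg i V 1).index / p ^ c with ht
  have hidxeq : p ^ c * t = (Hg i V 1).index :=
    Nat.ordProj_mul_ordCompl_eq_self (Hg i V 1).index p
  have hcop : Nat.Coprime p t := Nat.coprime_ordCompl hp hidx0
  -- divide `z` by `p ^ c`
  have hdivc : ∀ n : ℕ, ∃ y' : H2 𝓑H Y, (∃ a : ℕ, p ^ a • y' = 0) ∧ p ^ n • y' = z := by
    intro n
    induction n with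
    | zero => exact ⟨z, ⟨1, by rw [pow_one, hpz]⟩, by rw [pow_zero, one_smul]⟩
    | succ n ih =>
      obtain ⟨y₀, ⟨a, ha⟩, hy₀⟩ := ih
      obtain ⟨y', hy'⟩ := hdiv y₀ ⟨a, ha⟩
      refine ⟨y', ⟨a + 1, ?_⟩, ?_⟩
      · rw [pow_succ, mul_smul, hy', ha]
      · rw [pow_succ, mul_smul, hy', hy₀]
  obtain ⟨y', ⟨a, hy'a⟩, hy'z⟩ := hdivc c
  -- `[H : D] • y' = t • z ≠ 0`
  have hidxy' : (Hg i V 1).index • y' = t • z := by
    rw [← hidxeq, mul_comm, mul_smul, hy'z]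
  have htz : t • z ≠ 0 := by
    intro h0
    have h1 : addOrderOf z ∣ t := addOrderOf_dvd_of_nsmul_eq_zero h0
    have h2 : addOrderOf z ∣ p := addOrderOf_dvd_of_nsmul_eq_zero hpz
    have h3 : addOrderOf z ∣ Nat.gcd p t := Nat.dvd_gcd h2 h1
    rw [hcop, Nat.dvd_one, AddMonoid.addOrderOf_eq_one_iff] at h3
    exact hz0 h3
  -- lift to `G`
  obtain ⟨y, hy⟩ := sh2_surjective i 𝓑G 𝓑H hcont hind Y hY y'
  have hinj := sh2_injective i 𝓑G 𝓑H hcont hind Y hY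
  have hya : p ^ a • y = 0 := by
    apply hinj
    rw [map_nsmul, hy, hy'a, map_zero]
  refine ⟨mapH2 (eDC i 𝓑G Y V hV 1) (eDC_equivariant i 𝓑G Y V hV 1)
    (resV 𝓑G (scoind i 𝓑G Y) V y), ?_, ?_, ?_⟩
  · rw [← map_nsmul, ← map_nsmul]
    refine eDC_resV_eq_zero i 𝓑G Y V hV 𝓑H hcont hind hY hfund (p • y) a ?_ ?_
    · rw [smul_comm, hya, smul_zero]
    · apply hinj
      rw [map_nsmul, map_nsmul, hy, smul_comm, hidxy', map_zero, smul_comm, hpz, smul_zero]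
  · rw [trV_eDC_resV', map_nsmul, hy, hidxy']
    exact htz
  · rw [trV_eDC_resV', map_nsmul, hy, hidxy', smul_comm, hpz, smul_zero]

end Int

end Fermat.Agent.W56.MackeyTrace6
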