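/-
Programme W56 (target S56), stage 2, chapter (EC-5), helper9: **the monomial theorem (T-w)**,
`BaseContracts4.MonoW` (with the finiteness of the local counts made explicit).
-/
import Mathlib
import Fermat.Agent.W56.BaseContracts4
import Fermat.Agent.W56.MackeyTrace6

set_option autoImplicit false
set_option linter.unusedSectionVars false
set_option linter.style.haveILetI false

open CategoryTheory ExtCitation

namespace Fermat.Agent.W56.MonoW9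

open Fermat.Agent.PT.PRO Fermat.Agent.PT.BR Fermat.Agent.PT.PRO.LevelCoh28
  Fermat.Agent.PT.PRO.LevelCohRes28 Fermat.Agent.PT.PRO.SmoothCoind28
  Fermat.Agent.PT.PRO.ShapiroLevel28
  Fermat.Agent.PT.PRO.InvP4
  Fermat.Agent.PT.GLUE.Objects21
  Fermat.Agent.W56.Mackey2 Fermat.Agent.W56.MuP4 Fermat.Agent.W56.TorsSnake4
  Fermat.Agent.W56.EquivUnits0 Fermat.Agent.W56.KummerStar4 Fermat.Agent.W56.IntRes4
  Fermat.Agent.W56.CoindStar4 Fermat.Agent.W56.BaseDefs4 Fermat.Agent.W56.TraceOpen8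
  Fermat.Agent.W56.BaseContracts4 Fermat.Agent.W56.MackeyTrace6 Fermat.Agent.W56.Retract2

/-- prefer the module structure carried by a `Rep ℤ G`. -/
local instance (priority := 10000) repModZ9 {G : Type} [Group G] (E : Rep.{0} ℤ G) : Module ℤ E :=
  E.hV2

/-! ### Algebra of `mapH2` -/

section MapH2

variable {k G : Type} [CommRing k] [Group G] {𝓑 : LevelBasis G} {A B C : Rep.{0} k G}

theorem mapH2_comp_apply (φ : A →ₗ[k] B) (hφ : ∀ g a, φ (A.ρ g a) = B.ρ g (φ a))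
    (ψ : B →ₗ[k] C) (hψ : ∀ g b, ψ (B.ρ g b) = C.ρ g (ψ b))
    (χ : A →ₗ[k] C) (hχ : ∀ g a, χ (A.ρ g a) = C.ρ g (χ a)) (h : ∀ a, ψ (φ a) = χ a)
    (x : H2 𝓑 A) :
    mapH2 (𝓑 := 𝓑) ψ hψ (mapH2 (𝓑 := 𝓑) φ hφ x) = mapH2 (𝓑 := 𝓑) χ hχ x := by
  obtain ⟨c, rfl⟩ := H2mk_surjective 𝓑 A x
  rw [mapH2_mk, mapH2_mk, mapH2_mk]
  congr 1
  apply Subtype.ext
  funext g
  exact h _

theorem mapH2_congr (φ : A →ₗ[k] B) (hφ : ∀ g a, φ (A.ρ g a) = B.ρ g (φ a))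
    (χ : A →ₗ[k] B) (hχ : ∀ g a, χ (A.ρ g a) = B.ρ g (χ a)) (h : ∀ a, φ a = χ a)
    (x : H2 𝓑 A) :
    mapH2 (𝓑 := 𝓑) φ hφ x = mapH2 (𝓑 := 𝓑) χ hχ x := by
  obtain ⟨c, rfl⟩ := H2mk_surjective 𝓑 A x
  rw [mapH2_mk, mapH2_mk]
  congr 1
  apply Subtype.ext
  funext g
  exact h _

theorem mapH2_of_id (φ : A →ₗ[k] A) (hφ : ∀ g a, φ (A.ρ g a) = A.ρ g (φ a))
    (h : ∀ a, φ a = a) (x : H2 𝓑 A) : mapH2 (𝓑 := 𝓑) φ hφ x = x := by
  obtain ⟨c, rfl⟩ := H2mk_surjective 𝓑 A x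
  rw [mapH2_mk]
  congr 1
  apply Subtype.ext
  funext g
  exact h _

theorem mapH2_of_zero (φ : A →ₗ[k] B) (hφ : ∀ g a, φ (A.ρ g a) = B.ρ g (φ a))
    (h : ∀ a, φ a = 0) (x : H2 𝓑 A) : mapH2 (𝓑 := 𝓑) φ hφ x = 0 := by
  obtain ⟨c, rfl⟩ := H2mk_surjective 𝓑 A x
  rw [mapH2_mk]
  have : mapZ2 (𝓑 := 𝓑) φ hφ c = 0 := by
    apply Subtype.ext
    funext g
    exact h _
  rw [this, map_zero]

theorem sum_mapH2 {ι : Type*} (s : Finset ι) (φ : ι → A →ₗ[k] B)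
    (hφ : ∀ i g a, φ i (A.ρ g a) = B.ρ g (φ i a))
    (χ : A →ₗ[k] B) (hχ : ∀ g a, χ (A.ρ g a) = B.ρ g (χ a)) (h : ∀ a, ∑ i ∈ s, φ i a = χ a)
    (x : H2 𝓑 A) :
    ∑ i ∈ s, mapH2 (𝓑 := 𝓑) (φ i) (hφ i) x = mapH2 (𝓑 := 𝓑) χ hχ x := by
  obtain ⟨c, rfl⟩ := H2mk_surjective 𝓑 A x
  simp only [mapH2_mk]
  rw [← map_sum]
  congr 1
  apply Subtype.ext
  funext g
  have h0 := congrFun (Submodule.coe_sum (Z2 𝓑 B) (fun i => mapZ2 (𝓑 := 𝓑) (φ i) (hφ i) c) s) g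
  rw [Finset.sum_apply] at h0
  rw [h0]
  exact h _

end MapH2

/-! ### The idempotents of the double cosets on `W(S)` -/

section Idem

variable {G L : Type} [Group G] [Group L] (𝓑 : LevelBasis G) (H : Subgroup G) [hH : H.Normal]
  (hHo : ∃ V ∈ 𝓑.sets, V ≤ H) (j : L →* G) (A : Rep.{0} ℤ L)

/-- `ẽ_g`: multiplication by the indicator function of `j(L) g H` on the values of `F ∈ W(S)`. -/
noncomputable def eW (g : G) : W 𝓑 H (scoind j 𝓑 A) →ₗ[ℤ] W 𝓑 H (scoind j 𝓑 A) :=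
  scoindMap H.subtype 𝓑 (eDC j 𝓑 A H hHo g) (eDC_equivariant j 𝓑 A H hHo g)

theorem eW_equivariant (g x : G) (F : W 𝓑 H (scoind j 𝓑 A)) :
    eW 𝓑 H hHo j A g ((W 𝓑 H (scoind j 𝓑 A)).ρ x F) =
      (W 𝓑 H (scoind j 𝓑 A)).ρ x (eW 𝓑 H hHo j A g F) := rfl

theorem val_eW (g : G) (F : W 𝓑 H (scoind j 𝓑 A)) (x z : G) [Decidable (InDC j H g z)] :
    (val 𝓑 H (scoind j 𝓑 A) (eW 𝓑 H hHo j A g F) x).1 z =
      if InDC j H g z then (val 𝓑 H (scoind j 𝓑 A) F x).1 z else 0 :=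
  eDC_apply j 𝓑 A H hHo g (val 𝓑 H (scoind j 𝓑 A) F x) z

open Classical in
theorem val_eW_out (D : DC j H) (F : W 𝓑 H (scoind j 𝓑 A)) (x z : G) :
    (val 𝓑 H (scoind j 𝓑 A) (eW 𝓑 H hHo j A D.out F) x).1 z =
      if Quotient.mk (dcSetoidV j H) z = D then (val 𝓑 H (scoind j 𝓑 A) F x).1 z else 0 := by
  rw [val_eW]
  by_cases h : Quotient.mk (dcSetoidV j H) z = D
  · rw [if_pos h, if_pos ((inDC_out_iff j H D z).2 h)]
  · rw [if_neg h, if_neg fun h' => h ((inDC_out_iff j H D z).1 h')]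

theorem W_ext2 {F F' : W 𝓑 H (scoind j 𝓑 A)}
    (h : ∀ x z, (val 𝓑 H (scoind j 𝓑 A) F x).1 z = (val 𝓑 H (scoind j 𝓑 A) F' x).1 z) : F = F' :=
  W_ext 𝓑 H _ fun x => Subtype.ext (funext fun z => h x z)

open Classical in
/-- orthogonality. -/
theorem eW_eW (D D' : DC j H) (F : W 𝓑 H (scoind j 𝓑 A)) :
    eW 𝓑 H hHo j A D.out (eW 𝓑 H hHo j A D'.out F) =
      if D = D' then eW 𝓑 H hHo j A D.out F else 0 := by
  refine W_ext2 𝓑 H j A fun x z => ?_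
  rw [val_eW_out, val_eW_out]
  by_cases hDD : D = D'
  · subst hDD
    rw [if_pos rfl, val_eW_out]
    by_cases h : Quotient.mk (dcSetoidV j H) z = D
    · simp only [if_pos h]
    · simp only [if_neg h]
  · rw [if_neg hDD]
    by_cases h : Quotient.mk (dcSetoidV j H) z = D
    · rw [if_pos h, if_neg fun h' => hDD (h.symm.trans h')]
      rfl
    · rw [if_neg h]
      rfl

/-- evaluation `F ↦ F(x)(z)`. -/
noncomputable def evW (x z : G) : W 𝓑 H (scoind j 𝓑 A) →+ A where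
  toFun F := (val 𝓑 H (scoind j 𝓑 A) F x).1 z
  map_zero' := rfl
  map_add' _ _ := rfl

theorem evW_apply (x z : G) (F : W 𝓑 H (scoind j 𝓑 A)) :
    evW 𝓑 H j A x z F = (val 𝓑 H (scoind j 𝓑 A) F x).1 z := rfl

/-- the idempotents sum to `1`. -/
theorem sum_eW [Fintype (DC j H)] (F : W 𝓑 H (scoind j 𝓑 A)) :
    ∑ D : DC j H, eW 𝓑 H hHo j A D.out F = F := by
  classical
  refine W_ext2 𝓑 H j A fun x z => ?_
  rw [← evW_apply, map_sum]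
  simp only [evW_apply, val_eW_out]
  rw [Finset.sum_ite_eq]
  simp

theorem mk_eq_smul_iff (c z : G) (D : DC j H) :
    Quotient.mk (dcSetoidV j H) (z * c) = D ↔
      Quotient.mk (dcSetoidV j H) z = (QuotientGroup.mk c : G ⧸ H) • D := by
  constructor
  · rintro rfl
    rw [mk_smul_mk, mul_inv_cancel_right]
  · intro h
    have h1 : (QuotientGroup.mk c : G ⧸ H)⁻¹ • (Quotient.mk (dcSetoidV j H) z : DC j H) = D := by
      rw [h, inv_smul_smul]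
    rw [← h1, ← QuotientGroup.mk_inv, mk_smul_mk, inv_inv]

/-- `star c ∘ ẽ_D = ẽ_{c • D} ∘ star c`. -/
theorem star_eW (q : G ⧸ H) (D : DC j H) (F : W 𝓑 H (scoind j 𝓑 A)) :
    star 𝓑 H (scoind j 𝓑 A) q (eW 𝓑 H hHo j A D.out F) =
      eW 𝓑 H hHo j A (q • D).out (star 𝓑 H (scoind j 𝓑 A) q F) := by
  classical
  induction q using QuotientGroup.induction_on with
  | H c =>
    refine W_ext2 𝓑 H j A fun x z => ?_
    rw [val_eW_out, star_mk, starG_apply, scoind_ρ_apply, val_eW_out, starG_apply,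
      scoind_ρ_apply]
    by_cases h : Quotient.mk (dcSetoidV j H) (z * c) = D
    · rw [if_pos h, if_pos ((mk_eq_smul_iff H j c z D).1 h)]
    · rw [if_neg h, if_neg fun h' => h ((mk_eq_smul_iff H j c z D).2 h')]

end Idem

/-! ### The idempotents on `H²(G; W(S))` -/

section H2level

variable {G L : Type} [Group G] [Group L] (𝓑 : LevelBasis G) (H : Subgroup G) [hH : H.Normal]
  (hHo : ∃ V ∈ 𝓑.sets, V ≤ H) (j : L →* G) (A : Rep.{0} ℤ L)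

/-- `ε_D` on `H²(G; W(S))`. -/
noncomputable def epsH (D : DC j H) :=
  mapH2 (𝓑 := 𝓑) (eW 𝓑 H hHo j A D.out) (eW_equivariant 𝓑 H hHo j A D.out)

theorem epsH_self (D : DC j H) (x : H2 𝓑 (W 𝓑 H (scoind j 𝓑 A))) :
    epsH 𝓑 H hHo j A D (epsH 𝓑 H hHo j A D x) = epsH 𝓑 H hHo j A D x := by
  refine mapH2_comp_apply _ _ _ _ _ _ (fun F => ?_) x
  rw [eW_eW, if_pos rfl]

theorem epsH_ne {D D' : DC j H} (h : D ≠ D') (x : H2 𝓑 (W 𝓑 H (scoind j 𝓑 A))) :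
    epsH 𝓑 H hHo j A D (epsH 𝓑 H hHo j A D' x) = 0 := by
  have h1 : epsH 𝓑 H hHo j A D (epsH 𝓑 H hHo j A D' x) =
      mapH2 (𝓑 := 𝓑) (0 : W 𝓑 H (scoind j 𝓑 A) →ₗ[ℤ] W 𝓑 H (scoind j 𝓑 A))
        (fun g a => by simp) x := by
    refine mapH2_comp_apply _ _ _ _ _ _ (fun F => ?_) x
    rw [eW_eW, if_neg h]
    rfl
  rw [h1]
  exact mapH2_of_zero _ _ (fun a => rfl) x

theorem sum_epsH [Fintype (DC j H)] (x : H2 𝓑 (W 𝓑 H (scoind j 𝓑 A))) :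
    ∑ D : DC j H, epsH 𝓑 H hHo j A D x = x := by
  have h1 : ∑ D : DC j H, epsH 𝓑 H hHo j A D x =
      mapH2 (𝓑 := 𝓑) (LinearMap.id : W 𝓑 H (scoind j 𝓑 A) →ₗ[ℤ] W 𝓑 H (scoind j 𝓑 A))
        (fun g a => rfl) x :=
    sum_mapH2 Finset.univ (fun D : DC j H => eW 𝓑 H hHo j A D.out)
      (fun D => eW_equivariant 𝓑 H hHo j A D.out) _ _ (fun F => sum_eW 𝓑 H hHo j A F) x
  rw [h1]
  exact mapH2_of_id _ _ (fun a => rfl) x

/-- the action of `G ⧸ H` on `H²(G; W(S))`. -/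
noncomputable abbrev opQ :=
  opH2 𝓑 (W 𝓑 H (scoind j 𝓑 A)) (star 𝓑 H (scoind j 𝓑 A)) (star_comm 𝓑 H (scoind j 𝓑 A))

theorem opQ_epsH (q : G ⧸ H) (D : DC j H) (x : H2 𝓑 (W 𝓑 H (scoind j 𝓑 A))) :
    opQ 𝓑 H j A q (epsH 𝓑 H hHo j A D x) = epsH 𝓑 H hHo j A (q • D) (opQ 𝓑 H j A q x) := by
  have hχ : ∀ (g : G) (F : W 𝓑 H (scoind j 𝓑 A)),
      ((star 𝓑 H (scoind j 𝓑 A) q) ∘ₗ (eW 𝓑 H hHo j A D.out)) ((W 𝓑 H (scoind j 𝓑 A)).ρ g F) =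
        (W 𝓑 H (scoind j 𝓑 A)).ρ g
          (((star 𝓑 H (scoind j 𝓑 A) q) ∘ₗ (eW 𝓑 H hHo j A D.out)) F) := by
    intro g F
    rw [LinearMap.comp_apply, LinearMap.comp_apply, eW_equivariant, star_comm]
  have h1 : opQ 𝓑 H j A q (epsH 𝓑 H hHo j A D x) =
      mapH2 (𝓑 := 𝓑) ((star 𝓑 H (scoind j 𝓑 A) q) ∘ₗ (eW 𝓑 H hHo j A D.out)) hχ x :=
    mapH2_comp_apply _ _ _ _ _ _ (fun F => rfl) x
  have h2 : epsH 𝓑 H hHo j A (q • D) (opQ 𝓑 H j A q x) =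
      mapH2 (𝓑 := 𝓑) ((star 𝓑 H (scoind j 𝓑 A) q) ∘ₗ (eW 𝓑 H hHo j A D.out)) hχ x :=
    mapH2_comp_apply _ _ _ _ _ _ (fun F => (star_eW 𝓑 H hHo j A q D F).symm) x
  rw [h1, h2]

end H2level

/-! ### The invariant classes `ι_*(x)` -/

section Iota

variable {G : Type} [Group G] (𝓑 : LevelBasis G) (H : Subgroup G) [hH : H.Normal]
  (Y : Rep.{0} ℤ G) (hY : IsDiscrete 𝓑.sets Y)

/-- `ι_* : H²(G; Y) → H²(G; W(Y))`. -/
noncomputable def iotaH :=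
  mapH2 (𝓑 := 𝓑) (iota 𝓑 H Y hY) (iota_equivariant 𝓑 H Y hY)

/-- `ι_*(x)` is invariant under `star`. -/
theorem star_iotaH (q : G ⧸ H) (x : H2 𝓑 Y) :
    opH2 𝓑 (W 𝓑 H Y) (star 𝓑 H Y) (star_comm 𝓑 H Y) q (iotaH 𝓑 H Y hY x) = iotaH 𝓑 H Y hY x :=
  mapH2_comp_apply _ _ _ _ _ _
    (fun a => (mem_invariants_star_iff 𝓑 H Y hY (iota 𝓑 H Y hY a)).2 ⟨a, rfl⟩ q) x

/-- the trace `W(Y) → Y`. -/
noncomputable def traceW [Fintype (G ⧸ H)] : W 𝓑 H Y →ₗ[ℤ] Y := trace 𝓑 Y H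

theorem traceW_equivariant [Fintype (G ⧸ H)] (g : G) (F : W 𝓑 H Y) :
    traceW 𝓑 H Y ((W 𝓑 H Y).ρ g F) = Y.ρ g (traceW 𝓑 H Y F) := trace_equivariant 𝓑 Y H g F

theorem traceW_iota_nsmul [Fintype (G ⧸ H)] (a : Y) :
    traceW 𝓑 H Y (iota 𝓑 H Y hY a) = Fintype.card (G ⧸ H) • a := by
  have h := trace_unit 𝓑 Y H hY a
  rw [Nat.cast_smul_eq_nsmul] at h
  exact h

theorem trace_iotaH [Fintype (G ⧸ H)] (x : H2 𝓑 Y) :
    mapH2 (𝓑 := 𝓑) (traceW 𝓑 H Y) (traceW_equivariant 𝓑 H Y) (iotaH 𝓑 H Y hY x) =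
      Fintype.card (G ⧸ H) • x := by
  obtain ⟨c, rfl⟩ := H2mk_surjective 𝓑 Y x
  unfold iotaH
  rw [mapH2_mk, mapH2_mk, ← map_nsmul]
  congr 1
  apply Subtype.ext
  funext g
  show traceW 𝓑 H Y (iota 𝓑 H Y hY ((c : G × G → Y) g)) = _
  rw [traceW_iota_nsmul]
  rfl

/-- `ι_*` is injective on the `p`-torsion when `|G ⧸ H|` is prime to `p`. -/
theorem iotaH_eq_zero [Fintype (G ⧸ H)] (p : ℕ) (hcop : (Fintype.card (G ⧸ H)).Coprime p)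
    (x : H2 𝓑 Y) (hp : p • x = 0) (h0 : iotaH 𝓑 H Y hY x = 0) : x = 0 := by
  have h1 := trace_iotaH 𝓑 H Y hY x
  rw [h0, map_zero] at h1
  have d1 : addOrderOf x ∣ Fintype.card (G ⧸ H) := addOrderOf_dvd_iff_nsmul_eq_zero.2 h1.symm
  have d2 : addOrderOf x ∣ p := addOrderOf_dvd_iff_nsmul_eq_zero.2 hp
  have d3 : addOrderOf x ∣ 1 := by
    have := Nat.dvd_gcd d1 d2
    rwa [Nat.Coprime.gcd_eq_one hcop] at this
  exact AddMonoid.addOrderOf_eq_one_iff.1 (Nat.dvd_one.1 d3)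

end Iota

/-! ### The count `#H²(G; W(S))[p] ≤ p ^ #(j(L)\G/H)` -/

section Count

variable {G L : Type} [Group G] [Group L] (𝓑 : LevelBasis G) (H : Subgroup G) [hH : H.Normal]
  (hHo : ∃ V ∈ 𝓑.sets, V ≤ H) (j : L →* G) (A : Rep.{0} ℤ L)

theorem hcontH : IsLevelHom H.subtype (basisV 𝓑 H).sets 𝓑.sets :=
  fun U hU => ⟨_, ⟨U, hU, rfl⟩, le_rfl⟩

theorem hindH : ∀ W ∈ (basisV 𝓑 H).sets, ∃ U ∈ 𝓑.sets, U.comap H.subtype ≤ W := by
  rintro _ ⟨U, hU, rfl⟩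
  exact ⟨U, hU, le_rfl⟩

theorem isDiscrete_XV : IsDiscrete (basisV 𝓑 H).sets (XV j 𝓑 A H) := by
  intro a
  obtain ⟨U, hU, h⟩ := isDiscrete_scoind j 𝓑 A a
  exact ⟨_, ⟨U, hU, rfl⟩, fun s hs => h s hs⟩

/-- Shapiro: `H²(G; W(S)) → H²(H; S|_H)`. -/
noncomputable def shH (x : H2 𝓑 (W 𝓑 H (scoind j 𝓑 A))) : H2 (basisV 𝓑 H) (XV j 𝓑 A H) :=
  sh2 H.subtype 𝓑 (basisV 𝓑 H) (hcontH 𝓑 H) (XV j 𝓑 A H) x

theorem shH_injective : Function.Injective (shH 𝓑 H j A) :=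
  sh2_injective H.subtype 𝓑 (basisV 𝓑 H) (hcontH 𝓑 H) (hindH 𝓑 H) (XV j 𝓑 A H)
    (isDiscrete_XV 𝓑 H j A)

theorem shH_sub (x y : H2 𝓑 (W 𝓑 H (scoind j 𝓑 A))) :
    shH 𝓑 H j A (x - y) = shH 𝓑 H j A x - shH 𝓑 H j A y :=
  map_sub (sh2 H.subtype 𝓑 (basisV 𝓑 H) (hcontH 𝓑 H) (XV j 𝓑 A H)) x y

theorem shH_nsmul (n : ℕ) (x : H2 𝓑 (W 𝓑 H (scoind j 𝓑 A))) :
    shH 𝓑 H j A (n • x) = n • shH 𝓑 H j A x :=
  map_nsmul (sh2 H.subtype 𝓑 (basisV 𝓑 H) (hcontH 𝓑 H) (XV j 𝓑 A H)) n x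

/-- the `D`-component of a class of `H²(H; S|_H)`. -/
noncomputable def rD (D : DC j H) (w : H2 (basisV 𝓑 H) (XV j 𝓑 A H)) :
    H2 (basisV 𝓑 H) (Sg j 𝓑 A H D.out) :=
  mapH2 (𝓑 := basisV 𝓑 H) (Rg j 𝓑 A H D.out) (Rg_equivariant j 𝓑 A H D.out) w

theorem rD_sub (D : DC j H) (w w' : H2 (basisV 𝓑 H) (XV j 𝓑 A H)) :
    rD 𝓑 H j A D (w - w') = rD 𝓑 H j A D w - rD 𝓑 H j A D w' :=
  map_sub (mapH2 (𝓑 := basisV 𝓑 H) (Rg j 𝓑 A H D.out) (Rg_equivariant j 𝓑 A H D.out)) w w'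

theorem rD_nsmul (D : DC j H) (n : ℕ) (w : H2 (basisV 𝓑 H) (XV j 𝓑 A H)) :
    rD 𝓑 H j A D (n • w) = n • rD 𝓑 H j A D w :=
  map_nsmul (mapH2 (𝓑 := basisV 𝓑 H) (Rg j 𝓑 A H D.out) (Rg_equivariant j 𝓑 A H D.out)) n w

include hHo in
/-- a class of `H²(H; S|_H)` all of whose components vanish is zero. -/
theorem eq_zero_of_rD [Fintype (DC j H)] (w : H2 (basisV 𝓑 H) (XV j 𝓑 A H))
    (h : ∀ D, rD 𝓑 H j A D w = 0) : w = 0 := by
  have h1 : ∑ D : DC j H, mapH2 (𝓑 := basisV 𝓑 H) (eDC j 𝓑 A H hHo D.out)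
      (eDC_equivariant j 𝓑 A H hHo D.out) w =
      mapH2 (𝓑 := basisV 𝓑 H) (LinearMap.id : XV j 𝓑 A H →ₗ[ℤ] XV j 𝓑 A H) (fun g a => rfl) w :=
    sum_mapH2 Finset.univ (fun D : DC j H => eDC j 𝓑 A H hHo D.out)
      (fun D => eDC_equivariant j 𝓑 A H hHo D.out) LinearMap.id (fun g a => rfl)
      (fun f => by
        show ∑ D : DC j H, Eg j 𝓑 A H hHo D.out (Rg j 𝓑 A H D.out f) = f
        exact sum_Eg_Rg j 𝓑 A H hHo f) w
  rw [mapH2_of_id _ _ (fun a => rfl) w] at h1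
  rw [← h1]
  refine Finset.sum_eq_zero fun D _ => ?_
  have h2 : mapH2 (𝓑 := basisV 𝓑 H) (Eg j 𝓑 A H hHo D.out) (Eg_equivariant j 𝓑 A H hHo D.out)
      (rD 𝓑 H j A D w) =
      mapH2 (𝓑 := basisV 𝓑 H) (eDC j 𝓑 A H hHo D.out) (eDC_equivariant j 𝓑 A H hHo D.out) w :=
    mapH2_comp_apply _ _ _ _ _ _ (fun a => rfl) w
  rw [← h2, h D, map_zero]

/-- the components of a `p`-torsion class. -/
noncomputable def compMap (p : ℕ) (z : torsP p (H2 𝓑 (W 𝓑 H (scoind j 𝓑 A)))) :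
    ∀ D : DC j H, pTor p (H2 (basisV 𝓑 H) (Sg j 𝓑 A H D.out)) :=
  fun D => ⟨rD 𝓑 H j A D (shH 𝓑 H j A z.1), by
    have hz : p • z.1 = 0 := z.2
    rw [mem_pTor, ← rD_nsmul, ← shH_nsmul, hz]
    show mapH2 (𝓑 := basisV 𝓑 H) (Rg j 𝓑 A H D.out) (Rg_equivariant j 𝓑 A H D.out)
      (sh2 H.subtype 𝓑 (basisV 𝓑 H) (hcontH 𝓑 H) (XV j 𝓑 A H) 0) = 0
    rw [map_zero, map_zero]⟩

include hHo in
theorem compMap_injective [Fintype (DC j H)] (p : ℕ) :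
    Function.Injective (compMap 𝓑 H j A p) := by
  intro z z' hzz
  apply Subtype.ext
  apply shH_injective 𝓑 H j A
  rw [← sub_eq_zero]
  refine eq_zero_of_rD 𝓑 H hHo j A _ fun D => ?_
  rw [rD_sub, sub_eq_zero]
  exact congrArg Subtype.val (congrFun hzz D)

include hHo in
/-- **the count**. -/
theorem card_tors_le [Fintype (DC j H)] (p : ℕ)
    (hb : ∀ g : G, Finite ↥(pTor p (H2 (basisV 𝓑 H) (Sg j 𝓑 A H g))) ∧
      Nat.card ↥(pTor p (H2 (basisV 𝓑 H) (Sg j 𝓑 A H g))) ≤ p) :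
    Finite ↥(torsP p (H2 𝓑 (W 𝓑 H (scoind j 𝓑 A)))) ∧
      Nat.card ↥(torsP p (H2 𝓑 (W 𝓑 H (scoind j 𝓑 A)))) ≤ p ^ Fintype.card (DC j H) := by
  haveI : ∀ D : DC j H, Finite ↥(pTor p (H2 (basisV 𝓑 H) (Sg j 𝓑 A H D.out))) :=
    fun D => (hb D.out).1
  have hinj := compMap_injective 𝓑 H hHo j A p
  refine ⟨Finite.of_injective _ hinj, ?_⟩
  refine (Nat.card_le_card_of_injective _ hinj).trans ?_
  rw [Nat.card_pi]
  refine (Finset.prod_le_pow_card _ _ p fun D _ => (hb D.out).2).trans ?_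
  rw [Finset.card_univ]

end Count

/-! ### The monomial theorem -/

section Main

variable {G L : Type} [Group G] [Group L] (𝓑 : LevelBasis G) (H : Subgroup G) [hH : H.Normal]
  (hHo : ∃ V ∈ 𝓑.sets, V ≤ H) [Fintype (G ⧸ H)] (p : ℕ) [hp : Fact p.Prime]
  [Invertible (Fintype.card (G ⧸ H) : ZMod p)] (j : L →* G) (A : Rep.{0} ℤ L)

theorem coprime_card : (Fintype.card (G ⧸ H)).Coprime p := by
  have h1 : (Fintype.card (G ⧸ H) : ZMod p) ≠ 0 := Invertible.ne_zero _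
  rw [Ne, ZMod.natCast_eq_zero_iff] at h1
  exact ((Nat.Prime.coprime_iff_not_dvd hp.out).2 h1).symm

/-- the representation of `G ⧸ H` on `H²(G; W(S))[p]`. -/
noncomputable abbrev tauM := torsRep p (canonRep (opQ 𝓑 H j A))

theorem coe_tauM (q : G ⧸ H) (z : torsP p (H2 𝓑 (W 𝓑 H (scoind j 𝓑 A)))) :
    ((tauM 𝓑 H p j A q z : torsP p (H2 𝓑 (W 𝓑 H (scoind j 𝓑 A)))) :
      H2 𝓑 (W 𝓑 H (scoind j 𝓑 A))) = opQ 𝓑 H j A q z.1 := rfl

/-- `ε_D` on the `p`-torsion. -/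
noncomputable def epsM (D : DC j H) :
    torsP p (H2 𝓑 (W 𝓑 H (scoind j 𝓑 A))) →ₗ[ZMod p] torsP p (H2 𝓑 (W 𝓑 H (scoind j 𝓑 A))) :=
  torsMap p (epsH 𝓑 H hHo j A D).toAddMonoidHom

theorem coe_epsM (D : DC j H) (z : torsP p (H2 𝓑 (W 𝓑 H (scoind j 𝓑 A)))) :
    ((epsM 𝓑 H hHo p j A D z : torsP p (H2 𝓑 (W 𝓑 H (scoind j 𝓑 A)))) :
      H2 𝓑 (W 𝓑 H (scoind j 𝓑 A))) = epsH 𝓑 H hHo j A D z.1 := rfl

open Classical in
theorem epsM_epsM (D D' : DC j H) (z : torsP p (H2 𝓑 (W 𝓑 H (scoind j 𝓑 A)))) :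
    epsM 𝓑 H hHo p j A D (epsM 𝓑 H hHo p j A D' z) =
      if D = D' then epsM 𝓑 H hHo p j A D z else 0 := by
  apply Subtype.ext
  by_cases h : D = D'
  · subst h
    rw [if_pos rfl, coe_epsM, coe_epsM, epsH_self]
  · rw [if_neg h, coe_epsM, coe_epsM, epsH_ne 𝓑 H hHo j A h]
    rfl

theorem sum_epsM [Fintype (DC j H)] (z : torsP p (H2 𝓑 (W 𝓑 H (scoind j 𝓑 A)))) :
    ∑ D : DC j H, epsM 𝓑 H hHo p j A D z = z := by
  apply Subtype.ext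
  rw [AddSubgroup.val_finsetSum]
  simp only [coe_epsM]
  exact sum_epsH 𝓑 H hHo j A z.1

theorem tauM_epsM (q : G ⧸ H) (D : DC j H) (z : torsP p (H2 𝓑 (W 𝓑 H (scoind j 𝓑 A)))) :
    tauM 𝓑 H p j A q (epsM 𝓑 H hHo p j A D z) =
      epsM 𝓑 H hHo p j A (q • D) (tauM 𝓑 H p j A q z) := by
  apply Subtype.ext
  rw [coe_tauM, coe_epsM, coe_epsM, coe_tauM, opQ_epsH]

/-- transitivity of `G ⧸ H` on `j(L) \ G / H`. -/
theorem exists_smul_eq (D D' : DC j H) : ∃ q : G ⧸ H, q • D = D' := by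
  induction D using Quotient.inductionOn with
  | h x =>
    induction D' using Quotient.inductionOn with
    | h x' =>
      refine ⟨QuotientGroup.mk (x'⁻¹ * x), ?_⟩
      rw [mk_smul_mk, mul_inv_rev, inv_inv, mul_inv_cancel_left]

include hHo in
/-- **The monomial theorem, abstract core**: if `y ∈ H²(G; W(S))[p]` is a non-zero invariant class
and `#H²(G; W(S))[p] ≤ p ^ #DC`, then `H²(G; W(S))[p] ≅ 𝔽_p[DC]`. -/
theorem muP_eq_of_invariant [Fintype (DC j H)]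
    (hfin : Finite ↥(torsP p (H2 𝓑 (W 𝓑 H (scoind j 𝓑 A)))))
    (hcard : Nat.card ↥(torsP p (H2 𝓑 (W 𝓑 H (scoind j 𝓑 A)))) ≤ p ^ Fintype.card (DC j H))
    (y : torsP p (H2 𝓑 (W 𝓑 H (scoind j 𝓑 A)))) (hy0 : y ≠ 0)
    (hyinv : ∀ q, tauM 𝓑 H p j A q y = y)
    (P : Type) [AddCommGroup P] [Module (ZMod p) P] [FiniteDimensional (ZMod p) P]
    (ρP : Representation (ZMod p) (G ⧸ H) P) :
    muP ρP (tauM 𝓑 H p j A) = muP ρP (funPerm (ZMod p) (G ⧸ H) (DC j H)) := by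
  classical
  set v : DC j H → torsP p (H2 𝓑 (W 𝓑 H (scoind j 𝓑 A))) := fun D => epsM 𝓑 H hHo p j A D y
    with hv
  -- the action permutes the `v D`
  have hv1 : ∀ q D, tauM 𝓑 H p j A q (v D) = v (q • D) := by
    intro q D
    rw [hv]
    show tauM 𝓑 H p j A q (epsM 𝓑 H hHo p j A D y) = _
    rw [tauM_epsM, hyinv]
  -- all `v D ≠ 0`
  have hv2 : ∀ D, v D ≠ 0 := by
    have h1 : ∃ D₀, v D₀ ≠ 0 := by
      by_contra hcon
      simp only [not_exists, not_not] at hcon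
      apply hy0
      rw [← sum_epsM 𝓑 H hHo p j A y]
      exact Finset.sum_eq_zero fun D _ => hcon D
    obtain ⟨D₀, hD₀⟩ := h1
    intro D hD
    obtain ⟨q, rfl⟩ := exists_smul_eq H j D₀ D
    rw [← hv1] at hD
    apply hD₀
    have h2 : tauM 𝓑 H p j A q⁻¹ (tauM 𝓑 H p j A q (v D₀)) = v D₀ := by
      rw [← Module.End.mul_apply, ← map_mul, inv_mul_cancel, map_one, Module.End.one_apply]
    rw [← h2, hD, map_zero]
  -- the map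
  set Φ : (DC j H → ZMod p) →ₗ[ZMod p] torsP p (H2 𝓑 (W 𝓑 H (scoind j 𝓑 A))) :=
    Fintype.linearCombination (ZMod p) v with hΦ
  have hΦa : ∀ a, Φ a = ∑ D, a D • v D := fun a => Fintype.linearCombination_apply (ZMod p) v a
  have hinj : Function.Injective Φ := by
    rw [← LinearMap.ker_eq_bot, LinearMap.ker_eq_bot']
    intro a ha
    funext D'
    have h1 : epsM 𝓑 H hHo p j A D' (Φ a) = a D' • v D' := by
      rw [hΦa, map_sum]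
      rw [Finset.sum_eq_single D']
      · rw [map_smul, hv]
        show a D' • epsM 𝓑 H hHo p j A D' (epsM 𝓑 H hHo p j A D' y) = _
        rw [epsM_epsM, if_pos rfl]
      · intro D _ hD
        rw [map_smul, hv]
        show a D • epsM 𝓑 H hHo p j A D' (epsM 𝓑 H hHo p j A D y) = 0
        rw [epsM_epsM, if_neg (Ne.symm hD), smul_zero]
      · intro h
        exact absurd (Finset.mem_univ _) h
    rw [ha, map_zero] at h1
    rcases smul_eq_zero.1 h1.symm with h2 | h2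
    · exact h2
    · exact absurd h2 (hv2 D')
  have hbij : Function.Bijective Φ := by
    refine Function.Injective.bijective_of_nat_card_le hinj ?_
    refine hcard.trans ?_
    rw [Nat.card_pi]
    simp
  -- equivariance
  have heq : ∀ q a, Φ (funPerm (ZMod p) (G ⧸ H) (DC j H) q a) = tauM 𝓑 H p j A q (Φ a) := by
    intro q a
    rw [hΦa, hΦa, map_sum]
    simp only [map_smul, hv1, funPerm_apply]
    exact Fintype.sum_equiv (MulAction.toPerm q⁻¹) _ _ (fun D => by simp)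
  exact (muP_congr ρP (funPerm (ZMod p) (G ⧸ H) (DC j H)) (tauM 𝓑 H p j A)
    (LinearEquiv.ofBijective Φ hbij) heq).symm

end Main

/-! ### The contract -/

/-- **(T-w) The monomial theorem**: `BaseContracts4.MonoW` with the finiteness of the local counts
made explicit (`Nat.card` of an infinite type is `0`, so the hypothesis `Nat.card … ≤ p` alone says
nothing). -/
def MonoW' : Prop :=
  ∀ {G L : Type} [Group G] [Group L] (𝓑 : LevelBasis G) (H : Subgroup G) [H.Normal],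
    (∃ V ∈ 𝓑.sets, V ≤ H) →
  ∀ [Fintype (G ⧸ H)] (p : ℕ) [Fact p.Prime] [Invertible (Fintype.card (G ⧸ H) : ZMod p)]
    (j : L →* G) (A : Rep.{0} ℤ L),
    (∃ x : H2 𝓑 (scoind j 𝓑 A), x ≠ 0 ∧ p • x = 0) →
    (∀ g : G, Finite ↥(pTor p (H2 (basisV 𝓑 H) (Sg j 𝓑 A H g))) ∧
      Nat.card ↥(pTor p (H2 (basisV 𝓑 H) (Sg j 𝓑 A H g))) ≤ p) →
  ∀ (P : Type) [AddCommGroup P] [Module (ZMod p) P] [FiniteDimensional (ZMod p) P]
    (ρP : Representation (ZMod p) (G ⧸ H) P),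
    muP ρP (torsRep p (canonRep (opH2 𝓑 (W 𝓑 H (scoind j 𝓑 A)) (CoindStar4.star 𝓑 H (scoind j 𝓑 A))
        (star_comm 𝓑 H (scoind j 𝓑 A))))) =
      muP ρP (funPerm (ZMod p) (G ⧸ H) (DC j H))

/-- **(T-w) The monomial theorem.** -/
theorem monoW' : MonoW' := by
  intro G L _ _ 𝓑 H _ hHo _ p _ _ j A hx hb P _ _ _ ρP
  haveI := finite_DC j 𝓑 H hHo
  haveI := Fintype.ofFinite (DC j H)
  obtain ⟨x, hx0, hpx⟩ := hx
  obtain ⟨hfin, hcard⟩ := card_tors_le 𝓑 H hHo j A p hb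
  have hS := isDiscrete_scoind j 𝓑 A
  have hy : p • iotaH 𝓑 H (scoind j 𝓑 A) hS x = 0 := by
    unfold iotaH
    rw [← map_nsmul, hpx, map_zero]
  refine muP_eq_of_invariant 𝓑 H hHo p j A hfin hcard
    ⟨iotaH 𝓑 H (scoind j 𝓑 A) hS x, hy⟩ ?_ ?_ P ρP
  · intro h
    apply hx0
    exact iotaH_eq_zero 𝓑 H (scoind j 𝓑 A) hS p (coprime_card H p) x hpx (congrArg Subtype.val h)
  · intro q
    apply Subtype.ext
    exact star_iotaH 𝓑 H (scoind j 𝓑 A) hS q x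

/-- the same with the counts `= p`. -/
theorem monoW_of_card_eq {G L : Type} [Group G] [Group L] (𝓑 : LevelBasis G) (H : Subgroup G)
    [H.Normal] (hHo : ∃ V ∈ 𝓑.sets, V ≤ H) [Fintype (G ⧸ H)] (p : ℕ) [Fact p.Prime]
    [Invertible (Fintype.card (G ⧸ H) : ZMod p)] (j : L →* G) (A : Rep.{0} ℤ L)
    (hx : ∃ x : H2 𝓑 (scoind j 𝓑 A), x ≠ 0 ∧ p • x = 0)
    (hb : ∀ g : G, Nat.card ↥(pTor p (H2 (basisV 𝓑 H) (Sg j 𝓑 A H g))) = p)
    (P : Type) [AddCommGroup P] [Module (ZMod p) P] [FiniteDimensional (ZMod p) P]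
    (ρP : Representation (ZMod p) (G ⧸ H) P) :
    muP ρP (torsRep p (canonRep (opH2 𝓑 (W 𝓑 H (scoind j 𝓑 A)) (CoindStar4.star 𝓑 H (scoind j 𝓑 A))
        (star_comm 𝓑 H (scoind j 𝓑 A))))) =
      muP ρP (funPerm (ZMod p) (G ⧸ H) (DC j H)) :=
  monoW' 𝓑 H hHo p j A hx (fun g => ⟨Nat.finite_of_card_ne_zero (by
    rw [hb g]
    exact (Fact.out : p.Prime).ne_zero), (hb g).le⟩) P ρP

/-- **(T-w) The monomial theorem, the contract `BaseContracts4.MonoWp` verbatim.** -/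
theorem monoWp : BaseContracts4.MonoWp := by
  intro G L _ _ 𝓑 H _ hHo _ p _ _ j A hx hb P _ _ _ ρP
  exact monoW_of_card_eq 𝓑 H hHo p j A hx hb P ρP

end Fermat.Agent.W56.MonoW9
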