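/-
Programme W56 (target S56), stage 2, chapter (EC-5), a slice of `ISCount` (helper3):
**the count at one Mackey component**.

For `q` prime, `g : Γ`, `U ≤ Ĉ ≤ Γ` (`U ◁ Γ` a level of `G_T`), `Q = Ĉ ⧸ (U ∩ Ĉ)` of order prime to `p`:
the Mackey component `S_g = Coind_{j_g}(A'_q|_{L_g})` of `(Coind_{Γ_q}^Γ A'_q)|_Ĉ` satisfies

`μ_P(H²(Ĉ; W(S_g))[p]) = μ_P(𝔽_p[j_g(L_g) \ Ĉ / (U ∩ Ĉ)])`       (`muP_tors_W_Sg`)

= helper9's monomial theorem `MonoW9.monoWp` at helper1's local inputs `MonoHyp1`.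
-/
import Mathlib
import Fermat.Agent.W56.BaseContracts4
import Fermat.Agent.W56.MonoW9
import Fermat.Agent.W56.MonoHyp1
import Fermat.Agent.W56.MonoCount5

set_option autoImplicit false
set_option linter.unusedSectionVars false
set_option linter.style.haveILetI false

open CategoryTheory ExtCitation

namespace Fermat.Agent.W56.ISComp3

open Fermat.Agent.PT.PRO Fermat.Agent.PT.BR Fermat.Agent.PT.PRO.LevelCoh28
  Fermat.Agent.PT.PRO.LevelCohRes28 Fermat.Agent.PT.PRO.SmoothCoind28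
  Fermat.Agent.PT.PRO.InvP4
  Fermat.Agent.PT.GLUE.Objects21
  Fermat.Agent.W56.Mackey2 Fermat.Agent.W56.MuP4 Fermat.Agent.W56.TorsSnake4
  Fermat.Agent.W56.EquivUnits0 Fermat.Agent.W56.KummerStar4 Fermat.Agent.W56.IntRes4
  Fermat.Agent.W56.CoindStar4 Fermat.Agent.W56.BaseDefs4 Fermat.Agent.W56.LocalDatum2

local notation "Γ" => (AlgebraicClosure ℚ ≃ₐ[ℚ] AlgebraicClosure ℚ)

variable (p : ℕ) [Fact p.Prime] (T : Finset Nat.Primes) (hpT : pPrime p ∈ T)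
  (U Ĉ : Subgroup Γ) [hUn : U.Normal] (hU : U ∈ (levelS T).sets) (hUC : U ≤ Ĉ)
  [Fintype (↥Ĉ ⧸ U.subgroupOf Ĉ)] [Invertible (Fintype.card (↥Ĉ ⧸ U.subgroupOf Ĉ) : ZMod p)]
  (q : ℕ) [Fact q.Prime] (g : Γ)
  (P : Type) [AddCommGroup P] [Module (ZMod p) P] [FiniteDimensional (ZMod p) P]
  (ρP : Representation (ZMod p) (↥Ĉ ⧸ U.subgroupOf Ĉ) P)

include hpT hU hUC in
/-- **the count at one Mackey component.** -/
theorem muP_tors_W_Sg :
    muP ρP (torsRep p (canonRep (opH2 (comapBasis Ĉ.subtype (levelS T))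
        (W (comapBasis Ĉ.subtype (levelS T)) (U.subgroupOf Ĉ)
          (Sg (localGaloisToGlobal q) (levelS T) (AQ T q) Ĉ g))
        (CoindStar4.star (comapBasis Ĉ.subtype (levelS T)) (U.subgroupOf Ĉ)
          (Sg (localGaloisToGlobal q) (levelS T) (AQ T q) Ĉ g))
        (star_comm (comapBasis Ĉ.subtype (levelS T)) (U.subgroupOf Ĉ)
          (Sg (localGaloisToGlobal q) (levelS T) (AQ T q) Ĉ g))))) =
      muP ρP (funPerm (ZMod p) (↥Ĉ ⧸ U.subgroupOf Ĉ)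
        (DC (jg (localGaloisToGlobal q) Ĉ g) (U.subgroupOf Ĉ))) :=
  MonoW9.monoWp (basisV (levelS T) Ĉ) (U.subgroupOf Ĉ) ⟨_, ⟨U, hU, rfl⟩, le_rfl⟩ p
    (jg (localGaloisToGlobal q) Ĉ g) (Yg (localGaloisToGlobal q) (AQ T q) Ĉ g)
    (MonoHyp1.exists_ne_zero_Sg_AQ T p hpT q Ĉ ⟨U, hU, hUC⟩ g)
    (fun g' => MonoHyp1.card_pTor_SgSg_AQ_subgroupOf T p hpT q Ĉ ⟨U, hU, hUC⟩ g U hU g') P ρP

include hpT hU hUC in
/-- finiteness of the `p`-torsion at one Mackey component. -/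
theorem finite_tors_W_Sg :
    Finite ↥(torsP p (H2 (comapBasis Ĉ.subtype (levelS T))
      (W (comapBasis Ĉ.subtype (levelS T)) (U.subgroupOf Ĉ)
        (Sg (localGaloisToGlobal q) (levelS T) (AQ T q) Ĉ g)))) :=
  (MonoCount5.card_torsP_W_le (basisV (levelS T) Ĉ) (U.subgroupOf Ĉ) ⟨_, ⟨U, hU, rfl⟩, le_rfl⟩ p
    (jg (localGaloisToGlobal q) Ĉ g) (Yg (localGaloisToGlobal q) (AQ T q) Ĉ g)
    (fun g' => MonoHyp1.card_pTor_SgSg_AQ_subgroupOf T p hpT q Ĉ ⟨U, hU, hUC⟩ g U hU g')).1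

end Fermat.Agent.W56.ISComp3
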