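/-
Programme W56 (target S56), stage 2, chapter (EC-5), helper5: **invariance and additivity of
`Φ(Y) = μ_P(H²(G; W(Y))[p])`** (the generic half of `BaseContracts4.ISCount`).

* `muP_of_decomp`: `μ_P` is additive on a finite equivariant direct sum decomposition;
* `tW φ`: the `𝔽_p[G ⧸ H]`-linear map `H²(G; W Y)[p] → H²(G; W Y')[p]` induced by an equivariant
  `φ : Y → Y'` (`tW_equivariant`, `tW_comp`, `tW_id`-type lemmas in elementwise form);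
* `Phi_congr`: `Φ(Y) = Φ(Y')` for an equivariant bijection;
* `Phi_add`: `Φ(Y) = ∑ Φ(B i)` for `Y = ⊕ B i` (maps `R i`, `E i` with `∑ E_i R_i = 1`,
  `R_i E_j = δ_ij`), and the finiteness by-product `finite_tors_of_decomp`.
-/
import Mathlib
import Fermat.Agent.W56.MonoCount5

set_option autoImplicit false
set_option linter.unusedSectionVars false

open CategoryTheory

namespace Fermat.Agent.W56.PhiAdd5

open Fermat.Agent.PT.PRO Fermat.Agent.PT.PRO.LevelCoh28 Fermat.Agent.PT.PRO.SmoothCoind28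
  Fermat.Agent.PT.PRO.InvP4 Fermat.Agent.PT.GLUE.Objects21 Fermat.Agent.W56.Mackey2
  Fermat.Agent.W56.MuP4 Fermat.Agent.W56.TorsSnake4 Fermat.Agent.W56.EquivUnits0
  Fermat.Agent.W56.KummerStar4 Fermat.Agent.W56.IntRes4 Fermat.Agent.W56.CoindStar4
  Fermat.Agent.W56.BaseContracts4

/-! ### `μ_P` of a finite direct sum -/

section MuDecomp

variable {k : Type*} [Field k] {C : Type*} [Group C] [Fintype C] [Invertible (Fintype.card C : k)]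
  {P M : Type*} [AddCommGroup P] [Module k P] [FiniteDimensional k P] [AddCommGroup M]
  [Module k M] (ρP : Representation k C P) (τ : Representation k C M)
  {ι : Type*} [Fintype ι] {N : ι → Type*} [∀ i, AddCommGroup (N i)] [∀ i, Module k (N i)]
  [∀ i, FiniteDimensional k (N i)] (τi : ∀ i, Representation k C (N i))
  (r : ∀ i, M →ₗ[k] N i) (hr : ∀ i c m, r i (τ c m) = τi i c (r i m))
  (e : ∀ i, N i →ₗ[k] M) (he : ∀ i c n, e i (τi i c n) = τ c (e i n))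
  (hsum : ∀ m, ∑ i, e i (r i m) = m) (hself : ∀ i n, r i (e i n) = n)
  (hne : ∀ i i', i ≠ i' → ∀ n, r i (e i' n) = 0)

include hr he hsum hself hne in
/-- `Hom_C(P, M) ≃ ∏ Hom_C(P, N i)`. -/
noncomputable def homDecomp : ↥(homC ρP τ) ≃ₗ[k] ∀ i, ↥(homC ρP (τi i)) where
  toFun f i := homCMap ρP τ (τi i) (r i) (hr i) f
  map_add' f g := funext fun i => map_add _ f g
  map_smul' c f := funext fun i => map_smul _ c f
  invFun F := ∑ i, homCMap ρP (τi i) τ (e i) (he i) (F i)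
  left_inv f := by
    apply Subtype.ext
    apply LinearMap.ext
    intro x
    rw [Submodule.coe_sum, LinearMap.sum_apply]
    exact hsum (f.1 x)
  right_inv F := by
    classical
    funext i
    apply Subtype.ext
    apply LinearMap.ext
    intro x
    show r i ((∑ i', homCMap ρP (τi i') τ (e i') (he i') (F i') : ↥(homC ρP τ)).1 x) = (F i).1 x
    rw [Submodule.coe_sum, LinearMap.sum_apply, map_sum, Finset.sum_eq_single i]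
    · exact hself i _
    · intro i' _ hi'
      exact hne i i' hi'.symm _
    · intro h
      exact absurd (Finset.mem_univ i) h

include hr he hsum hself hne in
/-- **`μ_P` is additive on finite equivariant direct sums.** -/
theorem muP_of_decomp : muP ρP τ = ∑ i, muP ρP (τi i) := by
  unfold muP dimInv
  rw [(homDecomp ρP τ τi r hr e he hsum hself hne).finrank_eq, Module.finrank_pi_fintype]

end MuDecomp

/-! ### Identity, composition, inverse for the module structures carried by `Rep` -/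

section LinOps

variable {k G : Type} [CommRing k] [Group G] {Y Y' Y'' : Rep.{0} k G}

/-- the identity (for the module structure carried by `Rep`). -/
def idLin (Y : Rep.{0} k G) : Y →ₗ[k] Y := LinearMap.id

theorem idLin_apply (a : Y) : idLin Y a = a := rfl

/-- composition (for the module structures carried by `Rep`). -/
def compLin (ψ : Y' →ₗ[k] Y'') (φ : Y →ₗ[k] Y') : Y →ₗ[k] Y'' := ψ.comp φ

theorem compLin_apply (ψ : Y' →ₗ[k] Y'') (φ : Y →ₗ[k] Y') (a : Y) :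
    compLin ψ φ a = ψ (φ a) := rfl

/-- the inverse of a bijection. -/
noncomputable def invLin (φ : Y →ₗ[k] Y') (hbij : Function.Bijective φ) : Y' →ₗ[k] Y :=
  (LinearEquiv.ofBijective φ hbij).symm.toLinearMap

theorem apply_invLin (φ : Y →ₗ[k] Y') (hbij : Function.Bijective φ) (b : Y') :
    φ (invLin φ hbij b) = b := (LinearEquiv.ofBijective φ hbij).apply_symm_apply b

theorem invLin_apply (φ : Y →ₗ[k] Y') (hbij : Function.Bijective φ) (a : Y) :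
    invLin φ hbij (φ a) = a := (LinearEquiv.ofBijective φ hbij).symm_apply_apply a

theorem invLin_equivariant (φ : Y →ₗ[k] Y') (hφ : ∀ g a, φ (Y.ρ g a) = Y'.ρ g (φ a))
    (hbij : Function.Bijective φ) (g : G) (b : Y') :
    invLin φ hbij (Y'.ρ g b) = Y.ρ g (invLin φ hbij b) := by
  apply hbij.1
  rw [apply_invLin, hφ, apply_invLin]

end LinOps

/-! ### The maps induced on `H²(G; W(Y))[p]` -/

section TW

variable {G : Type} [Group G] (𝓑 : LevelBasis G) (H : Subgroup G) [hH : H.Normal]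
  (p : ℕ) [Fact p.Prime]

/-- the action of `G ⧸ H` on `H²(G; W(Y))[p]`. -/
noncomputable abbrev PhiRep (Y : Rep.{0} ℤ G) :
    Representation (ZMod p) (G ⧸ H) ↥(torsP p (H2 𝓑 (W 𝓑 H Y))) :=
  torsRep p (canonRep (opH2 𝓑 (W 𝓑 H Y) (star 𝓑 H Y) (star_comm 𝓑 H Y)))

variable {Y Y' Y'' : Rep.{0} ℤ G}

/-- the map `H²(G; W(Y))[p] → H²(G; W(Y'))[p]` induced by an equivariant `φ : Y → Y'`. -/
noncomputable def tW (φ : Lin Y Y') (hφ : ∀ g a, φ (Y.ρ g a) = Y'.ρ g (φ a)) :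
    ↥(torsP p (H2 𝓑 (W 𝓑 H Y))) →ₗ[ZMod p] ↥(torsP p (H2 𝓑 (W 𝓑 H Y'))) :=
  torsMap p (mapH2 (𝓑 := 𝓑) (Wmap 𝓑 H φ hφ) (Wmap_equivariant 𝓑 H φ hφ)).toAddMonoidHom

theorem coe_tW (φ : Lin Y Y') (hφ : ∀ g a, φ (Y.ρ g a) = Y'.ρ g (φ a))
    (x : ↥(torsP p (H2 𝓑 (W 𝓑 H Y)))) :
    ((tW 𝓑 H p φ hφ x : ↥(torsP p (H2 𝓑 (W 𝓑 H Y')))) : H2 𝓑 (W 𝓑 H Y')) =
      mapH2 (𝓑 := 𝓑) (Wmap 𝓑 H φ hφ) (Wmap_equivariant 𝓑 H φ hφ) x.1 := rfl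

theorem val_sum {k : Type} [CommRing k] {A : Rep.{0} k G} {ι : Type*} (s : Finset ι)
    (F : ι → W 𝓑 H A) (g : G) : val 𝓑 H A (∑ i ∈ s, F i) g = ∑ i ∈ s, val 𝓑 H A (F i) g := by
  classical
  induction s using Finset.induction_on with
  | empty => rfl
  | insert a s ha ih => rw [Finset.sum_insert ha, Finset.sum_insert ha, val_add, ih]

/-- `tW φ` commutes with the action of `G ⧸ H`. -/
theorem tW_equivariant (φ : Lin Y Y') (hφ : ∀ g a, φ (Y.ρ g a) = Y'.ρ g (φ a)) (q : G ⧸ H)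
    (x : ↥(torsP p (H2 𝓑 (W 𝓑 H Y)))) :
    tW 𝓑 H p φ hφ (PhiRep 𝓑 H p Y q x) = PhiRep 𝓑 H p Y' q (tW 𝓑 H p φ hφ x) := by
  apply Subtype.ext
  show mapH2 (𝓑 := 𝓑) (Wmap 𝓑 H φ hφ) (Wmap_equivariant 𝓑 H φ hφ)
      (mapH2 (𝓑 := 𝓑) (star 𝓑 H Y q) (star_comm 𝓑 H Y q) x.1) =
    mapH2 (𝓑 := 𝓑) (star 𝓑 H Y' q) (star_comm 𝓑 H Y' q)
      (mapH2 (𝓑 := 𝓑) (Wmap 𝓑 H φ hφ) (Wmap_equivariant 𝓑 H φ hφ) x.1)
  obtain ⟨z, hz⟩ := H2mk_surjective 𝓑 _ x.1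
  rw [← hz, mapH2_mk, mapH2_mk, mapH2_mk, mapH2_mk]
  congr 1
  apply Subtype.ext
  funext y
  exact Wmap_star 𝓑 H φ hφ q _

/-- `tW ψ ∘ tW φ = tW χ` when `ψ ∘ φ = χ`. -/
theorem tW_tW (φ : Lin Y Y') (hφ : ∀ g a, φ (Y.ρ g a) = Y'.ρ g (φ a))
    (ψ : Lin Y' Y'') (hψ : ∀ g a, ψ (Y'.ρ g a) = Y''.ρ g (ψ a))
    (χ : Lin Y Y'') (hχ : ∀ g a, χ (Y.ρ g a) = Y''.ρ g (χ a)) (h : ∀ a, ψ (φ a) = χ a)
    (x : ↥(torsP p (H2 𝓑 (W 𝓑 H Y)))) :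
    tW 𝓑 H p ψ hψ (tW 𝓑 H p φ hφ x) = tW 𝓑 H p χ hχ x := by
  apply Subtype.ext
  show mapH2 (𝓑 := 𝓑) (Wmap 𝓑 H ψ hψ) (Wmap_equivariant 𝓑 H ψ hψ)
      (mapH2 (𝓑 := 𝓑) (Wmap 𝓑 H φ hφ) (Wmap_equivariant 𝓑 H φ hφ) x.1) =
    mapH2 (𝓑 := 𝓑) (Wmap 𝓑 H χ hχ) (Wmap_equivariant 𝓑 H χ hχ) x.1
  obtain ⟨z, hz⟩ := H2mk_surjective 𝓑 _ x.1
  rw [← hz, mapH2_mk, mapH2_mk, mapH2_mk]
  congr 1
  apply Subtype.ext
  funext y
  refine W_ext 𝓑 H Y'' fun g => ?_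
  show val 𝓑 H Y'' (Wmap 𝓑 H ψ hψ (Wmap 𝓑 H φ hφ ((z : G × G → W 𝓑 H Y) y))) g =
    val 𝓑 H Y'' (Wmap 𝓑 H χ hχ ((z : G × G → W 𝓑 H Y) y)) g
  rw [val_Wmap, val_Wmap, val_Wmap, h]

/-- `tW φ = 1` when `φ = 1`. -/
theorem tW_of_id (φ : Lin Y Y) (hφ : ∀ g a, φ (Y.ρ g a) = Y.ρ g (φ a)) (h : ∀ a, φ a = a)
    (x : ↥(torsP p (H2 𝓑 (W 𝓑 H Y)))) : tW 𝓑 H p φ hφ x = x := by
  apply Subtype.ext
  show mapH2 (𝓑 := 𝓑) (Wmap 𝓑 H φ hφ) (Wmap_equivariant 𝓑 H φ hφ) x.1 = x.1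
  obtain ⟨z, hz⟩ := H2mk_surjective 𝓑 _ x.1
  rw [← hz, mapH2_mk]
  congr 1
  apply Subtype.ext
  funext y
  refine W_ext 𝓑 H Y fun g => ?_
  show val 𝓑 H Y (Wmap 𝓑 H φ hφ ((z : G × G → W 𝓑 H Y) y)) g =
    val 𝓑 H Y ((z : G × G → W 𝓑 H Y) y) g
  rw [val_Wmap, h]

/-- `tW φ = 0` when `φ = 0`. -/
theorem tW_of_zero (φ : Lin Y Y') (hφ : ∀ g a, φ (Y.ρ g a) = Y'.ρ g (φ a)) (h : ∀ a, φ a = 0)
    (x : ↥(torsP p (H2 𝓑 (W 𝓑 H Y)))) : tW 𝓑 H p φ hφ x = 0 := by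
  apply Subtype.ext
  show mapH2 (𝓑 := 𝓑) (Wmap 𝓑 H φ hφ) (Wmap_equivariant 𝓑 H φ hφ) x.1 = 0
  obtain ⟨z, hz⟩ := H2mk_surjective 𝓑 _ x.1
  rw [← hz, mapH2_mk]
  have h0 : mapZ2 (𝓑 := 𝓑) (Wmap 𝓑 H φ hφ) (Wmap_equivariant 𝓑 H φ hφ) z = 0 := by
    apply Subtype.ext
    funext y
    refine W_ext 𝓑 H Y' fun g => ?_
    show val 𝓑 H Y' (Wmap 𝓑 H φ hφ ((z : G × G → W 𝓑 H Y) y)) g = val 𝓑 H Y' 0 g
    rw [val_Wmap, h]
    rfl
  rw [h0, map_zero]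

/-- `∑ tW (φ i) = tW χ` when `∑ φ i = χ`. -/
theorem sum_tW {ι : Type*} [Fintype ι] (φ : ι → Lin Y Y')
    (hφ : ∀ i g a, φ i (Y.ρ g a) = Y'.ρ g (φ i a))
    (χ : Lin Y Y') (hχ : ∀ g a, χ (Y.ρ g a) = Y'.ρ g (χ a)) (h : ∀ a, ∑ i, φ i a = χ a)
    (x : ↥(torsP p (H2 𝓑 (W 𝓑 H Y)))) :
    ∑ i, tW 𝓑 H p (φ i) (hφ i) x = tW 𝓑 H p χ hχ x := by
  apply Subtype.ext
  rw [AddSubgroup.val_finsetSum]
  show ∑ i, mapH2 (𝓑 := 𝓑) (Wmap 𝓑 H (φ i) (hφ i)) (Wmap_equivariant 𝓑 H (φ i) (hφ i)) x.1 =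
    mapH2 (𝓑 := 𝓑) (Wmap 𝓑 H χ hχ) (Wmap_equivariant 𝓑 H χ hχ) x.1
  obtain ⟨z, hz⟩ := H2mk_surjective 𝓑 _ x.1
  rw [← hz]
  simp only [mapH2_mk]
  rw [← map_sum]
  congr 1
  apply Subtype.ext
  funext y
  rw [Submodule.coe_sum, Finset.sum_apply]
  refine W_ext 𝓑 H Y' fun g => ?_
  show val 𝓑 H Y' (∑ i, Wmap 𝓑 H (φ i) (hφ i) ((z : G × G → W 𝓑 H Y) y)) g =
    val 𝓑 H Y' (Wmap 𝓑 H χ hχ ((z : G × G → W 𝓑 H Y) y)) g
  rw [val_Wmap, ← h, val_sum]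
  exact Finset.sum_congr rfl fun i _ => val_Wmap 𝓑 H (φ i) (hφ i) _ g

end TW

/-! ### Invariance and additivity of `Φ` -/

section Phi

variable {G : Type} [Group G] (𝓑 : LevelBasis G) (H : Subgroup G) [hH : H.Normal]
  [Fintype (G ⧸ H)] (p : ℕ) [Fact p.Prime] [Invertible (Fintype.card (G ⧸ H) : ZMod p)]
  {P : Type*} [AddCommGroup P] [Module (ZMod p) P] (ρP : Representation (ZMod p) (G ⧸ H) P)

/-- **(A) invariance**: `Φ(Y) = Φ(Y')` for an equivariant bijection `Y → Y'`. -/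
theorem Phi_congr {Y Y' : Rep.{0} ℤ G} (φ : Lin Y Y') (hφ : ∀ g a, φ (Y.ρ g a) = Y'.ρ g (φ a))
    (hbij : Function.Bijective φ) :
    muP ρP (torsRep p (canonRep (opH2 𝓑 (W 𝓑 H Y) (star 𝓑 H Y) (star_comm 𝓑 H Y)))) =
      muP ρP (torsRep p (canonRep (opH2 𝓑 (W 𝓑 H Y') (star 𝓑 H Y') (star_comm 𝓑 H Y')))) := by
  have hψ := invLin_equivariant φ hφ hbij
  have h1 : ∀ x, tW 𝓑 H p (invLin φ hbij) hψ (tW 𝓑 H p φ hφ x) = x := fun x => by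
    rw [tW_tW 𝓑 H p φ hφ (invLin φ hbij) hψ (idLin Y) (fun _ _ => rfl)
      (fun a => invLin_apply φ hbij a)]
    exact tW_of_id 𝓑 H p _ _ (fun _ => rfl) x
  have h2 : ∀ x, tW 𝓑 H p φ hφ (tW 𝓑 H p (invLin φ hbij) hψ x) = x := fun x => by
    rw [tW_tW 𝓑 H p (invLin φ hbij) hψ φ hφ (idLin Y') (fun _ _ => rfl)
      (fun a => apply_invLin φ hbij a)]
    exact tW_of_id 𝓑 H p _ _ (fun _ => rfl) x
  exact muP_congr ρP _ _
    (LinearEquiv.ofLinearMap (tW 𝓑 H p φ hφ) (tW 𝓑 H p (invLin φ hbij) hψ)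
      (LinearMap.ext h2) (LinearMap.ext h1))
    (tW_equivariant 𝓑 H p φ hφ)

variable {ι : Type} [Fintype ι] {Y : Rep.{0} ℤ G} {B : ι → Rep.{0} ℤ G}
  (R : ∀ i, Lin Y (B i)) (hR : ∀ i g a, R i (Y.ρ g a) = (B i).ρ g (R i a))
  (E : ∀ i, Lin (B i) Y) (hE : ∀ i g b, E i ((B i).ρ g b) = Y.ρ g (E i b))
  (hsum : ∀ a, ∑ i, E i (R i a) = a) (hself : ∀ i b, R i (E i b) = b)
  (hne : ∀ i i', i ≠ i' → ∀ b, R i (E i' b) = 0)

include hsum in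
/-- `∑ tW(E i) ∘ tW(R i) = 1`. -/
theorem sum_tW_E_R (x : ↥(torsP p (H2 𝓑 (W 𝓑 H Y)))) :
    ∑ i, tW 𝓑 H p (E i) (hE i) (tW 𝓑 H p (R i) (hR i) x) = x := by
  have h1 : ∀ i, tW 𝓑 H p (E i) (hE i) (tW 𝓑 H p (R i) (hR i) x) =
      tW 𝓑 H p (compLin (E i) (R i)) (fun g a => by
        show E i (R i (Y.ρ g a)) = Y.ρ g (E i (R i a))
        rw [hR, hE]) x := fun i =>
    tW_tW 𝓑 H p (R i) (hR i) (E i) (hE i) _ _ (fun _ => rfl) x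
  rw [Finset.sum_congr rfl fun i _ => h1 i]
  rw [sum_tW 𝓑 H p (fun i => compLin (E i) (R i)) _ (idLin Y) (fun _ _ => rfl)
    (fun a => hsum a) x]
  exact tW_of_id 𝓑 H p _ _ (fun _ => rfl) x

include hself in
/-- `tW(R i) ∘ tW(E i) = 1`. -/
theorem tW_R_E_self (i : ι) (x : ↥(torsP p (H2 𝓑 (W 𝓑 H (B i))))) :
    tW 𝓑 H p (R i) (hR i) (tW 𝓑 H p (E i) (hE i) x) = x := by
  rw [tW_tW 𝓑 H p (E i) (hE i) (R i) (hR i) (idLin (B i)) (fun _ _ => rfl) (fun b => hself i b)]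
  exact tW_of_id 𝓑 H p _ _ (fun _ => rfl) x

include hne in
/-- `tW(R i) ∘ tW(E i') = 0` for `i ≠ i'`. -/
theorem tW_R_E_ne (i i' : ι) (hii' : i ≠ i') (x : ↥(torsP p (H2 𝓑 (W 𝓑 H (B i'))))) :
    tW 𝓑 H p (R i) (hR i) (tW 𝓑 H p (E i') (hE i') x) = 0 := by
  rw [tW_tW 𝓑 H p (E i') (hE i') (R i) (hR i) (compLin (R i) (E i')) (fun g a => by
    show R i (E i' ((B i').ρ g a)) = (B i).ρ g (R i (E i' a))
    rw [hE, hR]) (fun _ => rfl)]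
  exact tW_of_zero 𝓑 H p _ _ (fun b => hne i i' hii' b) x

include hR hE hsum in
/-- finiteness by-product: `H²(G; W(Y))[p]` is finite when the `H²(G; W(B i))[p]` are. -/
theorem finite_tors_of_decomp (hfin : ∀ i, Finite ↥(torsP p (H2 𝓑 (W 𝓑 H (B i))))) :
    Finite ↥(torsP p (H2 𝓑 (W 𝓑 H Y))) := by
  have := hfin
  let Ψ : ↥(torsP p (H2 𝓑 (W 𝓑 H Y))) → ∀ i, ↥(torsP p (H2 𝓑 (W 𝓑 H (B i)))) :=
    fun x i => tW 𝓑 H p (R i) (hR i) x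
  refine Finite.of_injective Ψ fun x x' hxx' => ?_
  rw [← sum_tW_E_R 𝓑 H p R hR E hE hsum x, ← sum_tW_E_R 𝓑 H p R hR E hE hsum x']
  exact Finset.sum_congr rfl fun i _ => congrArg _ (congrFun hxx' i)

include hR hE hsum hself hne in
/-- **(B) additivity**: `Φ(Y) = ∑ Φ(B i)` for a finite equivariant direct sum `Y = ⊕ B i`. -/
theorem Phi_add [FiniteDimensional (ZMod p) P]
    (hfin : ∀ i, Finite ↥(torsP p (H2 𝓑 (W 𝓑 H (B i))))) :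
    muP ρP (torsRep p (canonRep (opH2 𝓑 (W 𝓑 H Y) (star 𝓑 H Y) (star_comm 𝓑 H Y)))) =
      ∑ i, muP ρP (torsRep p (canonRep (opH2 𝓑 (W 𝓑 H (B i)) (star 𝓑 H (B i))
        (star_comm 𝓑 H (B i))))) := by
  have := hfin
  have hfd : ∀ i, FiniteDimensional (ZMod p) ↥(torsP p (H2 𝓑 (W 𝓑 H (B i)))) := fun i =>
    Module.Finite.of_finite
  exact muP_of_decomp ρP (PhiRep 𝓑 H p Y) (fun i => PhiRep 𝓑 H p (B i))
    (fun i => tW 𝓑 H p (R i) (hR i)) (fun i => tW_equivariant 𝓑 H p (R i) (hR i))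
    (fun i => tW 𝓑 H p (E i) (hE i)) (fun i => tW_equivariant 𝓑 H p (E i) (hE i))
    (sum_tW_E_R 𝓑 H p R hR E hE hsum) (tW_R_E_self 𝓑 H p R hR E hE hself)
    (fun i i' hii' => tW_R_E_ne 𝓑 H p R hR E hE hne i i' hii')

end Phi

end Fermat.Agent.W56.PhiAdd5
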