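/-
Programme W56 (target S56), stage 2, chapter (EC-5), helper4: **`BaseContracts4.ISCount`** — the
`Q`-structure of `H²(Ĉ; W(I_T|_Ĉ))[p]` (`isCount`), assembled from the landed slices:

* `PhiAdd5.Phi_congr / Phi_add / finite_tors_of_decomp` (helper5): invariance and additivity of
  `Φ(Y) = μ_P(H²(Ĉ; W Y)[p])`;
* `I_T = ∏_{q ∈ T} I_{T,q}` (`ProdDict10.ISproj`, `LevelTheta21.inclq`, `GlobalCore2.sum_inclq_ISproj`);
* `I_{T,q} ≅ Coind_{Γ_q}^Γ A'_q` (`LGInj2.phiQ`, helper2);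
* the Mackey decomposition at `Ĉ` (`Mackey2.Rg/Eg/sum_Eg_Rg`, helper2) with the orthogonality
  `Rg_Eg_same`, `Rg_Eg_diff` proved here;
* the count at one Mackey component (`ISComp3.muP_tors_W_Sg`, helper3 = `MonoW9.monoWp` (helper9) at
  `MonoHyp1` (helper1)).
-/
import Mathlib
import Fermat.Agent.W56.BaseContracts4
import Fermat.Agent.W56.PhiAdd5
import Fermat.Agent.W56.ISComp3
import Fermat.Agent.W56.GlobalCore2
import Fermat.Agent.W56.LGInj2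

set_option autoImplicit false
set_option linter.unusedSectionVars false
set_option linter.style.haveILetI false

open CategoryTheory ExtCitation

namespace Fermat.Agent.W56.ISCountAsm4

open Fermat.Agent.PT.PRO Fermat.Agent.PT.BR Fermat.Agent.PT.PRO.LevelCoh28
  Fermat.Agent.PT.PRO.LevelCohRes28 Fermat.Agent.PT.PRO.SmoothCoind28
  Fermat.Agent.PT.PRO.InvP4 Fermat.Agent.PT.GLUE
  Fermat.Agent.PT.GLUE.Objects21
  Fermat.Agent.W56.Mackey2 Fermat.Agent.W56.MuP4 Fermat.Agent.W56.TorsSnake4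
  Fermat.Agent.W56.EquivUnits0 Fermat.Agent.W56.KummerStar4 Fermat.Agent.W56.IntRes4
  Fermat.Agent.W56.CoindStar4 Fermat.Agent.W56.BaseDefs4 Fermat.Agent.W56.BaseContracts4
  Fermat.Agent.W56.LocalDatum2

local notation "Γ" => (AlgebraicClosure ℚ ≃ₐ[ℚ] AlgebraicClosure ℚ)

/-! ### Orthogonality of the Mackey maps -/

section Orth

variable {k G H : Type} [CommRing k] [Group G] [Group H]
variable (i : H →* G) (𝓑G : LevelBasis G) (Y : Rep.{0} k H) (V : Subgroup G)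
  (hV : ∃ U₀ ∈ 𝓑G.sets, U₀ ≤ V)

theorem Rg_Eg_same (g : G) (φ : Sg i 𝓑G Y V g) :
    Rg i 𝓑G Y V g (Eg i 𝓑G Y V hV g φ) = φ := by
  refine Subtype.ext (funext fun v => ?_)
  show EgFun i 𝓑G Y V g φ (g * v) = φ.1 v
  have h := EgFun_apply i 𝓑G Y V g φ 1 v
  rw [map_one, one_mul] at h
  rw [h, map_one]
  rfl

theorem Rg_Eg_diff (D D' : DC i V) (hD : D ≠ D') (φ : Sg i 𝓑G Y V D'.out) :
    Rg i 𝓑G Y V D.out (Eg i 𝓑G Y V hV D'.out φ) = 0 := by
  refine Subtype.ext (funext fun v => ?_)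
  show EgFun i 𝓑G Y V D'.out φ (D.out * v) = 0
  apply EgFun_of_not
  intro h
  apply hD
  have h1 := (inDC_out_iff i V D' (D.out * v)).1 h
  have h2 : Quotient.mk (dcSetoidV i V) (D.out * (v : G)) = D := by
    rw [← (inDC_out_iff i V D (D.out * v))]
    exact ⟨1, v, by rw [map_one, one_mul]⟩
  rw [← h2, h1]

end Orth

/-! ### The count for `I_T` -/

section Count

variable (p : ℕ) [Fact p.Prime] (T : Finset Nat.Primes) (hpT : pPrime p ∈ T)
  (U Ĉ : Subgroup Γ) [hUn : U.Normal] (hU : U ∈ (levelS T).sets) (hUC : U ≤ Ĉ)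
  [Fintype (↥Ĉ ⧸ U.subgroupOf Ĉ)] [Invertible (Fintype.card (↥Ĉ ⧸ U.subgroupOf Ĉ) : ZMod p)]
  (P : Type) [AddCommGroup P] [Module (ZMod p) P] [FiniteDimensional (ZMod p) P]
  (ρP : Representation (ZMod p) (↥Ĉ ⧸ U.subgroupOf Ĉ) P)

local notation "𝓑c" => comapBasis (Subgroup.subtype Ĉ) (levelS T)
local notation "Hc" => Subgroup.subgroupOf U Ĉ
local notation "Phi" Y => muP ρP (torsRep p (canonRep (opH2 𝓑c (W 𝓑c Hc Y)
  (CoindStar4.star 𝓑c Hc Y) (star_comm 𝓑c Hc Y))))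

include hpT hU hUC in
/-- the Mackey step at one place `q`. -/
theorem Phi_XV (q : ℕ) [Fact q.Prime] [Fintype (DC (localGaloisToGlobal q) Ĉ)] :
    (Phi (XV (localGaloisToGlobal q) (levelS T) (AQ T q) Ĉ)) =
      ∑ D : DC (localGaloisToGlobal q) Ĉ,
        muP ρP (funPerm (ZMod p) (↥Ĉ ⧸ U.subgroupOf Ĉ)
          (DC (jg (localGaloisToGlobal q) Ĉ D.out) (U.subgroupOf Ĉ))) := by
  have hV : ∃ U₀ ∈ (levelS T).sets, U₀ ≤ Ĉ := ⟨U, hU, hUC⟩
  rw [PhiAdd5.Phi_add 𝓑c Hc p ρP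
    (B := fun D : DC (localGaloisToGlobal q) Ĉ =>
      Sg (localGaloisToGlobal q) (levelS T) (AQ T q) Ĉ D.out)
    (fun D => Rg (localGaloisToGlobal q) (levelS T) (AQ T q) Ĉ D.out)
    (fun D => Rg_equivariant (localGaloisToGlobal q) (levelS T) (AQ T q) Ĉ D.out)
    (fun D => Eg (localGaloisToGlobal q) (levelS T) (AQ T q) Ĉ hV D.out)
    (fun D => Eg_equivariant (localGaloisToGlobal q) (levelS T) (AQ T q) Ĉ hV D.out)
    (sum_Eg_Rg (localGaloisToGlobal q) (levelS T) (AQ T q) Ĉ hV)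
    (fun D => Rg_Eg_same (localGaloisToGlobal q) (levelS T) (AQ T q) Ĉ hV D.out)
    (fun D D' hDD' => Rg_Eg_diff (localGaloisToGlobal q) (levelS T) (AQ T q) Ĉ hV D D' hDD')
    (fun D => ISComp3.finite_tors_W_Sg p T hpT U Ĉ hU hUC q D.out)]
  exact Finset.sum_congr rfl fun D _ => ISComp3.muP_tors_W_Sg p T hpT U Ĉ hU hUC q D.out P ρP

include hpT hU hUC in
/-- finiteness at one place. -/
theorem finite_tors_XV (q : ℕ) [Fact q.Prime] :
    Finite ↥(torsP p (H2 𝓑c (W 𝓑c Hc (XV (localGaloisToGlobal q) (levelS T) (AQ T q) Ĉ)))) := by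
  classical
  have hV : ∃ U₀ ∈ (levelS T).sets, U₀ ≤ Ĉ := ⟨U, hU, hUC⟩
  have := finite_DC (localGaloisToGlobal q) (levelS T) Ĉ hV
  letI : Fintype (DC (localGaloisToGlobal q) Ĉ) := Fintype.ofFinite _
  exact PhiAdd5.finite_tors_of_decomp 𝓑c Hc p
    (B := fun D : DC (localGaloisToGlobal q) Ĉ =>
      Sg (localGaloisToGlobal q) (levelS T) (AQ T q) Ĉ D.out)
    (fun D => Rg (localGaloisToGlobal q) (levelS T) (AQ T q) Ĉ D.out)
    (fun D => Rg_equivariant (localGaloisToGlobal q) (levelS T) (AQ T q) Ĉ D.out)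
    (fun D => Eg (localGaloisToGlobal q) (levelS T) (AQ T q) Ĉ hV D.out)
    (fun D => Eg_equivariant (localGaloisToGlobal q) (levelS T) (AQ T q) Ĉ hV D.out)
    (sum_Eg_Rg (localGaloisToGlobal q) (levelS T) (AQ T q) Ĉ hV)
    (fun D => ISComp3.finite_tors_W_Sg p T hpT U Ĉ hU hUC q D.out)

/-- `phiQ` restricted to `Ĉ`. -/
noncomputable def phiC (q : ℕ) [Fact q.Prime] :
    Lin (XV (localGaloisToGlobal q) (levelS T) (AQ T q) Ĉ) (Rep.res Ĉ.subtype (ISq T q)) :=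
  (LGInj2.phiQ T q).toLinearMap

theorem phiC_equivariant (q : ℕ) [Fact q.Prime] (g : ↥Ĉ)
    (f : XV (localGaloisToGlobal q) (levelS T) (AQ T q) Ĉ) :
    phiC T Ĉ q ((XV (localGaloisToGlobal q) (levelS T) (AQ T q) Ĉ).ρ g f) =
      (Rep.res Ĉ.subtype (ISq T q)).ρ g (phiC T Ĉ q f) :=
  LGInj2.phiQ_ρ T q (g : Γ) f

theorem phiC_bijective (q : ℕ) [Fact q.Prime] : Function.Bijective (phiC T Ĉ q) :=
  (LGInj2.phiQ T q).bijective

include hpT hU hUC in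
/-- finiteness for `I_{T,q}`. -/
theorem finite_tors_ISq (q : ℕ) [Fact q.Prime] :
    Finite ↥(torsP p (H2 𝓑c (W 𝓑c Hc (Rep.res Ĉ.subtype (ISq T q))))) := by
  have h := finite_tors_XV p T hpT U Ĉ hU hUC q
  exact PhiAdd5.finite_tors_of_decomp 𝓑c Hc p (ι := Unit)
    (B := fun _ => XV (localGaloisToGlobal q) (levelS T) (AQ T q) Ĉ)
    (fun _ => PhiAdd5.invLin (phiC T Ĉ q) (phiC_bijective T Ĉ q))
    (fun _ => PhiAdd5.invLin_equivariant (phiC T Ĉ q) (phiC_equivariant T Ĉ q)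
      (phiC_bijective T Ĉ q))
    (fun _ => phiC T Ĉ q) (fun _ => phiC_equivariant T Ĉ q)
    (fun a => by
      rw [Finset.univ_unique, Finset.sum_singleton]
      exact PhiAdd5.apply_invLin (phiC T Ĉ q) (phiC_bijective T Ĉ q) a)
    (fun _ => h)

include hpT hU hUC in
/-- the count for `I_{T,q}`. -/
theorem Phi_ISq (q : ℕ) [Fact q.Prime] [Fintype (DC (localGaloisToGlobal q) Ĉ)] :
    (Phi (Rep.res Ĉ.subtype (ISq T q))) =
      ∑ D : DC (localGaloisToGlobal q) Ĉ,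
        muP ρP (funPerm (ZMod p) (↥Ĉ ⧸ U.subgroupOf Ĉ)
          (DC (jg (localGaloisToGlobal q) Ĉ D.out) (U.subgroupOf Ĉ))) := by
  rw [← PhiAdd5.Phi_congr 𝓑c Hc p ρP (phiC T Ĉ q) (phiC_equivariant T Ĉ q)
    (phiC_bijective T Ĉ q)]
  exact Phi_XV p T hpT U Ĉ hU hUC P ρP q

include hpT hU hUC in
/-- the count for `I_T`, with `Fintype` sums. -/
theorem Phi_IS [∀ q : ↥T, Fintype (DC (localGaloisToGlobal ((q : Nat.Primes) : ℕ)) Ĉ)] :
    (Phi (Rep.res Ĉ.subtype (IS T))) =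
      ∑ q : ↥T, ∑ D : DC (localGaloisToGlobal ((q : Nat.Primes) : ℕ)) Ĉ,
        muP ρP (funPerm (ZMod p) (↥Ĉ ⧸ U.subgroupOf Ĉ)
          (DC (jg (localGaloisToGlobal ((q : Nat.Primes) : ℕ)) Ĉ D.out) (U.subgroupOf Ĉ))) := by
  classical
  rw [PhiAdd5.Phi_add 𝓑c Hc p ρP
    (B := fun q : ↥T => Rep.res Ĉ.subtype (ISq T ((q : Nat.Primes) : ℕ)))
    (fun q => ProdDict10.ISproj T q) (fun q v x => ProdDict10.ISproj_ρ T q (v : Γ) x)
    (fun q => LevelTheta21.inclq T q) (fun q v x => LevelTheta21.inclq_ρ T q (v : Γ) x)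
    (GlobalCore2.sum_inclq_ISproj T)
    (fun q x => LocalGlobalInst27.ISequiv_inclq_same T q x)
    (fun q q' hqq' x => LocalGlobalInst27.ISequiv_inclq_ne T q' x q hqq')
    (fun q => finite_tors_ISq p T hpT U Ĉ hU hUC ((q : Nat.Primes) : ℕ))]
  exact Finset.sum_congr rfl fun q _ => Phi_ISq p T hpT U Ĉ hU hUC P ρP ((q : Nat.Primes) : ℕ)

end Count

/-- **(IS-count)**: `BaseContracts4.ISCount`. -/
theorem isCount : ISCount := by
  intro p _ _ T hpT U Ĉ _ hU hUC _ _ P _ _ _ ρP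
  classical
  have hV : ∃ U₀ ∈ (levelS T).sets, U₀ ≤ Ĉ := ⟨U, hU, hUC⟩
  have hfin : ∀ q : ↥T, Finite (DC (localGaloisToGlobal ((q : Nat.Primes) : ℕ)) Ĉ) := fun q =>
    finite_DC (localGaloisToGlobal ((q : Nat.Primes) : ℕ)) (levelS T) Ĉ hV
  letI : ∀ q : ↥T, Fintype (DC (localGaloisToGlobal ((q : Nat.Primes) : ℕ)) Ĉ) := fun q =>
    Fintype.ofFinite _
  rw [Phi_IS p T hpT U Ĉ hU hUC P ρP]
  exact Finset.sum_congr rfl fun q _ => (finsum_eq_sum_of_fintype _).symm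

end Fermat.Agent.W56.ISCountAsm4
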