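/-
Programme W56 (S56), chapter (EC-5), helper2.

`SplitDC2`: helper4's contract `BaseDefs4.SplitDC` (nested double cosets, pure group theory):
for `V ≤ Ĉ ≤ G`, `V ◁ G`, the `Ĉ ⧸ V`-set `i(L) \ G / V` is the disjoint union over
`w ∈ i(L) \ G / Ĉ` of the `j_w(L_w) \ Ĉ / V`.
-/
import Mathlib
import Fermat.Agent.W56.BaseDefs4

set_option autoImplicit false
set_option linter.unusedSectionVars false

namespace Fermat.Agent.W56.SplitDC2

open Fermat.Agent.W56.Mackey2 Fermat.Agent.W56.BaseDefs4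

section

variable {G L : Type} [Group G] [Group L] (i : L →* G) (V Ĉ : Subgroup G) [hVn : V.Normal]
  (hVC : V ≤ Ĉ)

/-- The glueing map `(w, j_w(L_w) c V) ↦ i(L) g_w c V`. -/
noncomputable def glue : (Σ w : DC i Ĉ, DC (jg i Ĉ w.out) (V.subgroupOf Ĉ)) → DC i V := fun x =>
  Quotient.liftOn x.2 (fun c => Quotient.mk (dcSetoidV i V) (x.1.out * (c : G))) (by
    rintro c c' ⟨l, v, rfl⟩
    refine Quotient.sound ⟨(l : L), ⟨((v : ↥Ĉ) : G), v.2⟩, ?_⟩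
    show x.1.out * ((x.1.out)⁻¹ * i (l : L) * x.1.out * (c : G) * ((v : ↥Ĉ) : G)) =
      i (l : L) * (x.1.out * (c : G)) * ((v : ↥Ĉ) : G)
    group)

theorem glue_mk (w : DC i Ĉ) (c : ↥Ĉ) :
    glue i V Ĉ ⟨w, Quotient.mk (dcSetoidV (jg i Ĉ w.out) (V.subgroupOf Ĉ)) c⟩ =
      Quotient.mk (dcSetoidV i V) (w.out * (c : G)) := rfl

include hVC in
theorem glue_injective : Function.Injective (glue i V Ĉ) := by
  rintro ⟨w, E⟩ ⟨w', E'⟩ h
  induction E using Quotient.inductionOn with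
  | h c =>
  induction E' using Quotient.inductionOn with
  | h c' =>
  rw [glue_mk, glue_mk] at h
  obtain ⟨l, v, e⟩ := Quotient.exact h
  -- `e : w'.out * c' = i l * (w.out * c) * v`
  have hw : w = w' := by
    rw [← Quotient.out_eq w, ← Quotient.out_eq w']
    refine Quotient.sound ⟨l, ⟨(c : G) * (v : G) * (c' : G)⁻¹,
      Ĉ.mul_mem (Ĉ.mul_mem c.2 (hVC v.2)) (Ĉ.inv_mem c'.2)⟩, ?_⟩
    show w'.out = i l * w.out * ((c : G) * (v : G) * (c' : G)⁻¹)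
    have : w'.out = i l * (w.out * (c : G)) * (v : G) * (c' : G)⁻¹ := by
      rw [← e]; group
    rw [this]; group
  subst hw
  congr 1
  have hl : l ∈ Hg i Ĉ w.out := by
    show (w.out)⁻¹ * i l * w.out ∈ Ĉ
    have : (w.out)⁻¹ * i l * w.out = (c' : G) * (v : G)⁻¹ * (c : G)⁻¹ := by
      have e' : i l = w.out * (c' : G) * (v : G)⁻¹ * (c : G)⁻¹ * (w.out)⁻¹ := by
        rw [e]; group
      rw [e']; group
    rw [this]
    exact Ĉ.mul_mem (Ĉ.mul_mem c'.2 (Ĉ.inv_mem (hVC v.2))) (Ĉ.inv_mem c.2)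
  refine Quotient.sound ⟨⟨l, hl⟩, ⟨⟨(v : G), hVC v.2⟩, v.2⟩, ?_⟩
  apply Subtype.ext
  show (c' : G) = (w.out)⁻¹ * i l * w.out * (c : G) * (v : G)
  have : (c' : G) = (w.out)⁻¹ * (w.out * (c' : G)) := by group
  rw [this, e]; group

theorem glue_surjective : Function.Surjective (glue i V Ĉ) := by
  intro D
  induction D using Quotient.inductionOn with
  | h x =>
  obtain ⟨l, c, e⟩ := (inDC_out_iff i Ĉ (Quotient.mk (dcSetoidV i Ĉ) x) x).2 rfl
  refine ⟨⟨Quotient.mk (dcSetoidV i Ĉ) x, Quotient.mk _ c⟩, ?_⟩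
  rw [glue_mk]
  refine Quotient.sound (?_ : InDC i V _ _)
  refine ⟨l, 1, ?_⟩
  rw [OneMemClass.coe_one, mul_one, ← mul_assoc]
  exact e

theorem glue_smul (c₀ : ↥Ĉ) (w : DC i Ĉ) (E : DC (jg i Ĉ w.out) (V.subgroupOf Ĉ)) :
    glue i V Ĉ ⟨w, (QuotientGroup.mk c₀ : ↥Ĉ ⧸ V.subgroupOf Ĉ) • E⟩ =
      (QuotientGroup.mk (c₀ : G) : G ⧸ V) • glue i V Ĉ ⟨w, E⟩ := by
  induction E using Quotient.inductionOn with
  | h c =>
  rw [mk_smul_mk, glue_mk, glue_mk, mk_smul_mk]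
  congr 1
  show w.out * ((c : G) * ((c₀ : G))⁻¹) = w.out * (c : G) * (c₀ : G)⁻¹
  rw [mul_assoc]

end

/-- **helper4's contract `BaseDefs4.SplitDC`.** -/
theorem splitDC : SplitDC := by
  intro G L _ _ i V Ĉ hVn hVC
  refine ⟨(Equiv.ofBijective (glue i V Ĉ)
    ⟨glue_injective i V Ĉ hVC, glue_surjective i V Ĉ⟩).symm, fun c D => ?_⟩
  apply (Equiv.ofBijective (glue i V Ĉ)
    ⟨glue_injective i V Ĉ hVC, glue_surjective i V Ĉ⟩).injective
  rw [Equiv.apply_symm_apply]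
  show _ = glue i V Ĉ ⟨_, _⟩
  rw [glue_smul]
  congr 1
  exact ((Equiv.ofBijective (glue i V Ĉ)
    ⟨glue_injective i V Ĉ hVC, glue_surjective i V Ĉ⟩).apply_symm_apply D).symm

end Fermat.Agent.W56.SplitDC2
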