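/-
Programme W56 (target S56), chapter (EC-5), glue (vi), helper1:
**multiplicities in permutation modules over a `Σ`-type**, and the conversion of the right-hand side
of `BaseContracts4.ISCount` (`Σ_q Σ_w μ_P(𝔽_p[j_w(L_w)\Ĉ/U])`) into `μ_P(𝔽_p[XT T U])`.

* `muP_funPerm_sigma` : `μ_P(k[Σ a, X a]) = Σ_a μ_P(k[X a])` (fibrewise action, `ι` finite).
-/
import Mathlib
import Fermat.Agent.W56.BaseContracts4
import Fermat.Agent.W56.SplitDC2
import Fermat.Agent.W56.PullQC0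

set_option autoImplicit false
set_option linter.unusedSectionVars false
set_option linter.style.haveILetI false

namespace Fermat.Agent.W56.SigmaPerm1

open Fermat.Agent.W56.MuP4 Fermat.Agent.W56.EquivUnits0

/-! ### Permutation modules over a `Σ`-type -/

section Sigma

variable {k : Type*} [Field k] {Q : Type*} [Group Q] [Fintype Q] [Invertible (Fintype.card Q : k)]
  {ι : Type*} [Fintype ι] (X : ι → Type*) [∀ a, MulAction Q (X a)] [∀ a, Finite (X a)]
  {P : Type*} [AddCommGroup P] [Module k P] [FiniteDimensional k P]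
  (ρP : Representation k Q P)

/-- restriction of a function on `Σ a, X a` to the fibre `X a`. -/
def resFib (a : ι) : ((Σ a, X a) → k) →ₗ[k] (X a → k) := LinearMap.funLeft k k (Sigma.mk a)

theorem resFib_apply (a : ι) (φ : (Σ a, X a) → k) (x : X a) : resFib X a φ x = φ ⟨a, x⟩ := rfl

theorem resFib_equivariant (a : ι) (q : Q) (φ : (Σ a, X a) → k) :
    resFib X a (funPerm k Q (Σ a, X a) q φ) = funPerm k Q (X a) q (resFib X a φ) := by
  funext x
  rw [resFib_apply, funPerm_apply, funPerm_apply, resFib_apply, Sigma.smul_mk]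

/-- `Hom(P, k[Σ X]) ≃ ∏_a Hom(P, k[X a])`. -/
def homSigma : (P →ₗ[k] ((Σ a, X a) → k)) ≃ₗ[k] (∀ a, P →ₗ[k] (X a → k)) where
  toFun f a := (resFib X a).comp f
  map_add' f g := by funext a; exact LinearMap.comp_add _ _ _
  map_smul' c f := by funext a; exact LinearMap.comp_smul _ _ _
  invFun g :=
    { toFun := fun x s => g s.1 x s.2
      map_add' := fun x y => by funext s; simp
      map_smul' := fun c x => by funext s; simp }
  left_inv f := by
    ext x s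
    rfl
  right_inv g := by
    funext a
    ext x s
    rfl

theorem homSigma_apply (f : P →ₗ[k] ((Σ a, X a) → k)) (a : ι) :
    homSigma X f a = (resFib X a).comp f := rfl

theorem homSigma_linHom (q : Q) (f : P →ₗ[k] ((Σ a, X a) → k)) (a : ι) :
    homSigma X (Representation.linHom ρP (funPerm k Q (Σ a, X a)) q f) a =
      Representation.linHom ρP (funPerm k Q (X a)) q (homSigma X f a) := by
  ext x s
  simp only [homSigma_apply, Representation.linHom_apply, LinearMap.coe_comp, Function.comp_apply]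
  exact congrFun (resFib_equivariant X a q _) s

/-- the invariants of `Hom(P, k[Σ X])` are the product of the invariants of the `Hom(P, k[X a])`. -/
noncomputable def invSigma :
    ↥(Representation.linHom ρP (funPerm k Q (Σ a, X a))).invariants ≃ₗ[k]
      (∀ a, ↥(Representation.linHom ρP (funPerm k Q (X a))).invariants) where
  toFun f a := ⟨homSigma X f.1 a, fun q => by
    rw [← homSigma_linHom, f.2 q]⟩
  map_add' f g := by
    funext a
    apply Subtype.ext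
    show homSigma X (f.1 + g.1) a = homSigma X f.1 a + homSigma X g.1 a
    rw [map_add]; rfl
  map_smul' c f := by
    funext a
    apply Subtype.ext
    show homSigma X (c • f.1) a = c • homSigma X f.1 a
    rw [map_smul]; rfl
  invFun g := ⟨(homSigma X).symm (fun a => (g a).1), fun q => by
    apply (homSigma X).injective
    funext a
    rw [homSigma_linHom, LinearEquiv.apply_symm_apply]
    exact (g a).2 q⟩
  left_inv f := by
    apply Subtype.ext
    exact (homSigma X).symm_apply_apply f.1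
  right_inv g := by
    funext a
    apply Subtype.ext
    exact congrFun ((homSigma X).apply_symm_apply (fun a => (g a).1)) a

/-- **`μ_P(k[Σ a, X a]) = Σ_a μ_P(k[X a])`.** -/
theorem muP_funPerm_sigma :
    muP ρP (funPerm k Q (Σ a, X a)) = ∑ a, muP ρP (funPerm k Q (X a)) := by
  unfold muP dimInv
  haveI : ∀ a, Fintype (X a) := fun a => Fintype.ofFinite _
  rw [LinearEquiv.finrank_eq (invSigma X ρP), Module.finrank_pi_fintype]

end Sigma

/-! ### Nested double cosets: `Σ_w j_w(L_w)\Ĉ/V ≃ i(L)\G/V` -/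

section Split

open Fermat.Agent.W56.Mackey2 Fermat.Agent.W56.BaseDefs4 Fermat.Agent.W56.SplitDC2

variable {G L : Type} [Group G] [Group L] (i : L →* G) (V Ĉ : Subgroup G) [hVn : V.Normal]
  (hVC : V ≤ Ĉ)

/-- helper2's `glue` as an equivalence. -/
noncomputable def glueEquiv :
    (Σ w : DC i Ĉ, DC (jg i Ĉ w.out) (V.subgroupOf Ĉ)) ≃ DC i V :=
  Equiv.ofBijective (glue i V Ĉ) ⟨glue_injective i V Ĉ hVC, glue_surjective i V Ĉ⟩

theorem glueEquiv_smul (c : ↥Ĉ) (x : Σ w : DC i Ĉ, DC (jg i Ĉ w.out) (V.subgroupOf Ĉ)) :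
    glueEquiv i V Ĉ hVC ((QuotientGroup.mk c : ↥Ĉ ⧸ V.subgroupOf Ĉ) • x) =
      (QuotientGroup.mk (c : G) : G ⧸ V) • glueEquiv i V Ĉ hVC x := by
  obtain ⟨w, E⟩ := x
  rw [Sigma.smul_mk]
  exact glue_smul i V Ĉ c w E

/-- `j(L)\G/H` is finite when `G ⧸ H` is. -/
theorem finite_DC_of_finite (H : Subgroup G) [Finite (G ⧸ H)] : Finite (DC i H) := by
  let π : G ⧸ H → DC i H := Quotient.lift (fun x => Quotient.mk (dcSetoidV i H) x) (by
    intro a b hab
    have hab' : a⁻¹ * b ∈ H := QuotientGroup.leftRel_apply.mp hab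
    exact Quotient.sound ⟨1, ⟨a⁻¹ * b, hab'⟩, by simp⟩)
  refine Finite.of_surjective π fun D => ?_
  induction D using Quotient.inductionOn with
  | h x => exact ⟨QuotientGroup.mk x, rfl⟩

end Split

/-! ### The right-hand side of `ISCount` -/

section XT

open Fermat.Agent.PT.PRO Fermat.Agent.PT.PRO.LevelCoh28 Fermat.Agent.PT.GLUE.Objects21
  Fermat.Agent.W56.Mackey2 Fermat.Agent.W56.BaseDefs4 Fermat.Agent.W56.QuotGal0
  Fermat.Agent.W56.PullQC0 Fermat.Agent.W56.InflCoind4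

local notation "Γ" => (AlgebraicClosure ℚ ≃ₐ[ℚ] AlgebraicClosure ℚ)

variable (T : Finset Nat.Primes) (U Ĉ : Subgroup Γ) [hUn : U.Normal] (hUC : U ≤ Ĉ)

/-- The `Ĉ ⧸ U`-set `Σ_q Σ_w j_w(L_w)\Ĉ/U` of the right-hand side of `ISCount`. -/
abbrev YT : Type :=
  Σ q : ↥T, Σ w : DC (localGaloisToGlobal ((q : Nat.Primes) : ℕ)) Ĉ,
    DC (jg (localGaloisToGlobal ((q : Nat.Primes) : ℕ)) Ĉ w.out) (U.subgroupOf Ĉ)

/-- `YT ≃ XT T U`. -/
noncomputable def ytEquiv : YT T U Ĉ ≃ XT T U :=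
  Equiv.sigmaCongrRight fun q =>
    glueEquiv (localGaloisToGlobal ((q : Nat.Primes) : ℕ)) U Ĉ hUC

theorem ytEquiv_smul (c : ↥Ĉ) (y : YT T U Ĉ) :
    ytEquiv T U Ĉ hUC ((QuotientGroup.mk c : ↥Ĉ ⧸ U.subgroupOf Ĉ) • y) =
      (QuotientGroup.mk (c : Γ) : Γ ⧸ U) • ytEquiv T U Ĉ hUC y := by
  obtain ⟨q, x⟩ := y
  rw [Sigma.smul_mk]
  show (⟨q, glueEquiv _ U Ĉ hUC ((QuotientGroup.mk c : ↥Ĉ ⧸ U.subgroupOf Ĉ) • x)⟩ : XT T U) =
    (QuotientGroup.mk (c : Γ) : Γ ⧸ U) • (⟨q, glueEquiv _ U Ĉ hUC x⟩ : XT T U)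
  rw [glueEquiv_smul, smul_XT_mk]

variable (p : ℕ) [Fact p.Prime] (hĈ : ∃ W ∈ (levelS T).sets, W ≤ Ĉ)
  [Fintype (↥Ĉ ⧸ U.subgroupOf Ĉ)] [Invertible (Fintype.card (↥Ĉ ⧸ U.subgroupOf Ĉ) : ZMod p)]
  {P : Type*} [AddCommGroup P] [Module (ZMod p) P] [FiniteDimensional (ZMod p) P]
  (ρP : Representation (ZMod p) (↥Ĉ ⧸ U.subgroupOf Ĉ) P)

include hĈ in
/-- **The right-hand side of `ISCount` is `μ_P(𝔽_p[YT])`.** -/
theorem sum_muP_eq_muP_YT :
    (∑ q : ↥T, ∑ᶠ w : DC (localGaloisToGlobal ((q : Nat.Primes) : ℕ)) Ĉ,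
        muP ρP (funPerm (ZMod p) (↥Ĉ ⧸ U.subgroupOf Ĉ)
          (DC (jg (localGaloisToGlobal ((q : Nat.Primes) : ℕ)) Ĉ w.out) (U.subgroupOf Ĉ)))) =
      muP ρP (funPerm (ZMod p) (↥Ĉ ⧸ U.subgroupOf Ĉ) (YT T U Ĉ)) := by
  classical
  haveI : ∀ q : ↥T, Finite (DC (localGaloisToGlobal ((q : Nat.Primes) : ℕ)) Ĉ) := fun q =>
    finite_DC (localGaloisToGlobal ((q : Nat.Primes) : ℕ)) (levelS T) Ĉ hĈ
  haveI : ∀ q : ↥T, Fintype (DC (localGaloisToGlobal ((q : Nat.Primes) : ℕ)) Ĉ) := fun q =>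
    Fintype.ofFinite _
  haveI : ∀ (q : ↥T) (w : DC (localGaloisToGlobal ((q : Nat.Primes) : ℕ)) Ĉ),
      Finite (DC (jg (localGaloisToGlobal ((q : Nat.Primes) : ℕ)) Ĉ w.out) (U.subgroupOf Ĉ)) :=
    fun q w => finite_DC_of_finite _ _
  rw [muP_funPerm_sigma (k := ZMod p) (Q := ↥Ĉ ⧸ U.subgroupOf Ĉ)
    (fun q : ↥T => Σ w : DC (localGaloisToGlobal ((q : Nat.Primes) : ℕ)) Ĉ,
      DC (jg (localGaloisToGlobal ((q : Nat.Primes) : ℕ)) Ĉ w.out) (U.subgroupOf Ĉ)) ρP]
  refine Finset.sum_congr rfl fun q _ => ?_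
  rw [finsum_eq_sum_of_fintype]
  exact (muP_funPerm_sigma (k := ZMod p) (Q := ↥Ĉ ⧸ U.subgroupOf Ĉ)
    (fun w : DC (localGaloisToGlobal ((q : Nat.Primes) : ℕ)) Ĉ =>
      DC (jg (localGaloisToGlobal ((q : Nat.Primes) : ℕ)) Ĉ w.out) (U.subgroupOf Ĉ)) ρP).symm

end XT

/-! ### `Ĉ = pre U C`: the `XT`-term of `BaseDefs4.Bridge` -/

section Pre

open Fermat.Agent.PT.PRO Fermat.Agent.PT.PRO.LevelCoh28 Fermat.Agent.PT.GLUE.Objects21
  Fermat.Agent.W56.Mackey2 Fermat.Agent.W56.BaseDefs4 Fermat.Agent.W56.QuotGal0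
  Fermat.Agent.W56.PullQC0 Fermat.Agent.W56.InflCoind4

local notation "Γ" => (AlgebraicClosure ℚ ≃ₐ[ℚ] AlgebraicClosure ℚ)

variable (T : Finset Nat.Primes) (U : Subgroup Γ) [hUn : U.Normal] (hU : U ∈ (levelS T).sets)
  (C : Subgroup (Γ ⧸ U)) (p : ℕ) [Fact p.Prime]
  [Fintype ↥C] [Invertible (Fintype.card ↥C : ZMod p)]
  [Fintype (↥(pre U C) ⧸ U.subgroupOf (pre U C))]
  [Invertible (Fintype.card (↥(pre U C) ⧸ U.subgroupOf (pre U C)) : ZMod p)]
  {P : Type*} [AddCommGroup P] [Module (ZMod p) P] [FiniteDimensional (ZMod p) P]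
  (ρP : Representation (ZMod p) (↥(pre U C) ⧸ U.subgroupOf (pre U C)) P)

/-- `YT → XT T U` is equivariant along `eQC U C : Ĉ ⧸ (U ∩ Ĉ) ≃* C`. -/
theorem ytEquiv_smul_eQC (q : ↥(pre U C) ⧸ U.subgroupOf (pre U C)) (y : YT T U (pre U C)) :
    ytEquiv T U (pre U C) (le_pre U C) (q • y) =
      eQC U C q • ytEquiv T U (pre U C) (le_pre U C) y := by
  induction q using QuotientGroup.induction_on with
  | H c => exact ytEquiv_smul T U (pre U C) (le_pre U C) c y

include hU in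
/-- **Glue (vi)**: the right-hand side of `ISCount` for `Ĉ = pre U C` is the `XT`-term of
`BaseDefs4.Bridge` (for the representation `reE (eQC U C).symm ρP` of `C`). -/
theorem sum_muP_DC_eq_XT :
    (∑ q : ↥T, ∑ᶠ w : DC (localGaloisToGlobal ((q : Nat.Primes) : ℕ)) (pre U C),
        muP ρP (funPerm (ZMod p) (↥(pre U C) ⧸ U.subgroupOf (pre U C))
          (DC (jg (localGaloisToGlobal ((q : Nat.Primes) : ℕ)) (pre U C) w.out)
            (U.subgroupOf (pre U C))))) =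
      muP (reE (eQC U C).symm ρP) (funPerm (ZMod p) ↥C (XT T U)) := by
  rw [sum_muP_eq_muP_YT T U (pre U C) p ⟨U, hU, le_pre U C⟩ ρP]
  exact (muP_funPerm_pull (eQC U C) ρP (ytEquiv T U (pre U C) (le_pre U C))
    (ytEquiv_smul_eQC T U C)).symm

end Pre

/-! ### `ISCount` in the shape of `BaseDefs4.Bridge` -/

section Final

open Fermat.Agent.PT.PRO Fermat.Agent.PT.PRO.LevelCoh28 Fermat.Agent.PT.GLUE.Objects21
  Fermat.Agent.W56.Mackey2 Fermat.Agent.W56.BaseDefs4 Fermat.Agent.W56.QuotGal0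
  Fermat.Agent.W56.PullQC0 Fermat.Agent.W56.InflCoind4 Fermat.Agent.W56.BaseContracts4
  Fermat.Agent.W56.TorsSnake4 Fermat.Agent.W56.KummerStar4 Fermat.Agent.W56.IntRes4
  Fermat.Agent.W56.CoindStar4

local notation "Γ" => (AlgebraicClosure ℚ ≃ₐ[ℚ] AlgebraicClosure ℚ)

/-- **`ISCount` for `Ĉ = pre U C`, in the shape of the `XT`-term of `BaseDefs4.Bridge`**:
`μ_P(H²(Ĉ; W(I_T))[p]) = μ_{P'}(𝔽_p[XT T U])`, `P' = reE (eQC U C).symm ρP` (a representation of
`C`). -/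
theorem muP_tors_W_IS_of_ISCount (h : ISCount) (p : ℕ) [Fact p.Prime] (hp2 : p ≠ 2)
    (T : Finset Nat.Primes) (hpT : ExtCitation.pPrime p ∈ T)
    (U : Subgroup Γ) [U.Normal] (hU : U ∈ (levelS T).sets) (C : Subgroup (Γ ⧸ U))
    [Fintype ↥C] [Invertible (Fintype.card ↥C : ZMod p)]
    [Fintype (↥(pre U C) ⧸ U.subgroupOf (pre U C))]
    [Invertible (Fintype.card (↥(pre U C) ⧸ U.subgroupOf (pre U C)) : ZMod p)]
    (P : Type) [AddCommGroup P] [Module (ZMod p) P] [FiniteDimensional (ZMod p) P]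
    (ρP : Representation (ZMod p) (↥(pre U C) ⧸ U.subgroupOf (pre U C)) P) :
    muP ρP (torsRep p (canonRep (opH2 (comapBasis (pre U C).subtype (levelS T))
        (W (comapBasis (pre U C).subtype (levelS T)) (U.subgroupOf (pre U C))
          (Rep.res (pre U C).subtype (IS T)))
        (CoindStar4.star (comapBasis (pre U C).subtype (levelS T)) (U.subgroupOf (pre U C))
          (Rep.res (pre U C).subtype (IS T)))
        (star_comm (comapBasis (pre U C).subtype (levelS T)) (U.subgroupOf (pre U C))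
          (Rep.res (pre U C).subtype (IS T)))))) =
      muP (reE (eQC U C).symm ρP) (funPerm (ZMod p) ↥C (XT T U)) := by
  rw [h p hp2 T hpT U (pre U C) hU (le_pre U C) P ρP]
  exact sum_muP_DC_eq_XT T U hU C p ρP

end Final

end Fermat.Agent.W56.SigmaPerm1
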