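/-
Programme W56 (target S56), chapter (EC-5), helper1: **`BaseGlue4.ISSum`** (helper4's contract,
verbatim): the double sum on the right-hand side of `BaseContracts4.ISCount` is the multiplicity in
`𝔽_p[XT T U]`, `Q = Ĉ ⧸ (U ∩ Ĉ)` acting on `XT T U` through `qIncl : Q → Γ ⧸ U`.
From `SigmaPerm1` (`sum_muP_eq_muP_YT`, `ytEquiv`, `ytEquiv_smul`).
-/
import Mathlib
import Fermat.Agent.W56.SigmaPerm1
import Fermat.Agent.W56.BaseGlue4

set_option autoImplicit false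
set_option linter.unusedSectionVars false
set_option linter.style.haveILetI false

namespace Fermat.Agent.W56.ISSum1

open Fermat.Agent.PT.GLUE.Objects21 Fermat.Agent.W56.Mackey2 Fermat.Agent.W56.MuP4
  Fermat.Agent.W56.EquivUnits0 Fermat.Agent.W56.BaseDefs4 Fermat.Agent.W56.BaseQ4
  Fermat.Agent.W56.SigmaPerm1

local notation "Γ" => (AlgebraicClosure ℚ ≃ₐ[ℚ] AlgebraicClosure ℚ)

/-- **`BaseGlue4.ISSum`.** -/
theorem isSum : BaseGlue4.ISSum := by
  intro p _ T U Ĉ _ hU hUC _ _ P _ _ _ ρP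
  rw [sum_muP_eq_muP_YT T U Ĉ p ⟨U, hU, hUC⟩ ρP]
  letI : MulAction (↥Ĉ ⧸ U.subgroupOf Ĉ) (XT T U) := MulAction.compHom (XT T U) (qIncl U Ĉ)
  refine muP_congr ρP _ _
    (LinearEquiv.funCongrLeft (ZMod p) (ZMod p) (ytEquiv T U Ĉ hUC).symm) (fun c a => ?_)
  funext x
  induction c using QuotientGroup.induction_on with
  | H c =>
    show a ((QuotientGroup.mk c : ↥Ĉ ⧸ U.subgroupOf Ĉ)⁻¹ • (ytEquiv T U Ĉ hUC).symm x) =
      a ((ytEquiv T U Ĉ hUC).symm ((QuotientGroup.mk c : ↥Ĉ ⧸ U.subgroupOf Ĉ)⁻¹ • x))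
    congr 1
    apply (ytEquiv T U Ĉ hUC).injective
    rw [Equiv.apply_symm_apply, ← QuotientGroup.mk_inv, ytEquiv_smul, Equiv.apply_symm_apply]
    rfl

end Fermat.Agent.W56.ISSum1
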