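/-
Programme W56 (S56), package "class formation over an open subgroup", helper1.

`BrDivSelf1`:
* `exists_nsmul_eq_H2_self` : PK-5 for the group `G` itself (the `p`-primary part of `H²_lev(G; Y)`
  is `p`-divisible when the `p`-parts of the indices of the normal members are unbounded);
* `exists_index_nsmul_ne_zero` (pure algebra) and `exists_yprime` : for every `d ≠ 0` a `p`-primary
  class `y'` with `d • y' ≠ 0` and `p • (d • y') = 0`;
* `exists_yprime_AQ` : the instance `(Γ_q, levelLocS q S, A'_q)`, `d = [Γ_q : D']` (input of the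
  (AR3)-consequence, route of helper6's 757(2)).
-/
import Mathlib
import Fermat.Agent.W56.BrLocS1

set_option autoImplicit false
set_option linter.unusedSectionVars false
set_option linter.unusedVariables false
set_option linter.style.haveILetI false

open CategoryTheory groupCohomology ExtCitation

namespace Fermat.Agent.W56.BrDivSelf1

open Fermat.Agent.PT.PRO Fermat.Agent.PT.PRO.HyperLevel25 Fermat.Agent.PT.PRO.HyperColim18
  Fermat.Agent.PT.PRO.HyperColimP18 Fermat.Agent.PT.PRO.GlobalDuality20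
  Fermat.Agent.PT.PRO.FundRaw18 Fermat.Agent.PT.PRO.Resolved4 Fermat.Agent.PT.PRO.InvP4
  Fermat.Agent.PT.FG.Interface8 Fermat.Agent.W56.LevExh8 Fermat.Agent.W56.CardPTor8
  Fermat.Agent.W56.PDiv8 Fermat.Agent.W56.BrSelf1

/-! ### PK-5 for `G` itself -/

section Int

variable {G : Type} [Group G] {C : Type} [AddCommGroup C] [Module ℤ C]
  (ρ : Representation ℤ G C) {𝒰 : Set (Subgroup G)} (h𝒰 : IsLevelBasis 𝒰) (hC : IsDiscrete 𝒰 ρ)
  {p : ℕ} [Fact p.Prime] (hfund : FundHyp12.FundFixed ρ 𝒰 p)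

include hfund in
theorem exists_nsmul_eq_Hlev2_self (hunb : ∀ n : ℕ, ∃ W ∈ 𝒰, W.Normal ∧ p ^ n ∣ W.index)
    (x : Hlev2 h𝒰 ρ hC) (a : ℕ) (hx : p ^ a • x = 0) : ∃ y : Hlev2 h𝒰 ρ hC, p • y = x := by
  refine exists_nsmul_eq_Hlev2 h𝒰 ρ hC p (ℱ := normalFam 𝒰) (fun _ h => h.1) (fun _ h => h.2)
    (normalFam_cofinal h𝒰) (fun W hW => ?_) (fun n => ?_) x a hx
  · have := hW.2
    have hfi := h𝒰.finiteIndex W hW.1
    have : Finite (G ⧸ W) := Subgroup.finite_quotient_of_finiteIndex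
    obtain ⟨u, hu⟩ := hfund W hW.1 hW.2
    exact finPDiv_of_isFundClass (fixedObj W ρ) u hu
  · obtain ⟨W, hW, hn, hdvd⟩ := hunb n
    exact ⟨W, ⟨hW, hn⟩, hdvd⟩

end Int

section RepForm

variable {G : Type} [Group G] (𝓑 : LevelCoh28.LevelBasis G) (Y : Rep.{0} ℤ G)
  (hY : LevelCoh28.IsDiscrete 𝓑.sets Y) {p : ℕ} [Fact p.Prime]
  (hfund : FundFixedRep 𝓑 Y p)

include hY hfund in
/-- **PK-5 for `G` itself** (`LevelCoh28` vocabulary). -/
theorem exists_nsmul_eq_H2_self (hunb : ∀ n : ℕ, ∃ W ∈ 𝓑.sets, W.Normal ∧ p ^ n ∣ W.index)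
    (x : LevelCoh28.H2 𝓑 Y) (a : ℕ) (hx : p ^ a • x = 0) :
    ∃ y : LevelCoh28.H2 𝓑 Y, p • y = x := by
  set e := LevelEquiv29.h2Equiv 𝓑 Y hY with he
  have h1 : p ^ a • e x = 0 := by rw [← map_nsmul, hx, map_zero]
  obtain ⟨y', hy'⟩ := @exists_nsmul_eq_Hlev2_self G _ Y.V _ Y.hV2 Y.ρ 𝓑.sets
    (LevelEquiv29.basis 𝓑) hY p _ hfund hunb (e x) a h1
  refine ⟨e.symm y', e.injective ?_⟩
  have h2 : e (p • e.symm y') = p • e (e.symm y') := map_nsmul e p _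
  have h3 : e (e.symm y') = y' := e.apply_symm_apply y'
  exact h2.trans ((congrArg (fun t => p • t) h3).trans hy')

end RepForm

/-! ### Pure algebra -/

section Algebra

variable {A : Type*} [AddCommGroup A] (p : ℕ) [hp : Fact p.Prime]

/-- iterated division by `p` inside the `p`-primary part. -/
theorem exists_pow_nsmul_eq (hdiv : ∀ (x : A) (a : ℕ), p ^ a • x = 0 → ∃ y : A, p • y = x)
    (x₀ : A) (b : ℕ) (hx₀ : p ^ b • x₀ = 0) (a : ℕ) :
    ∃ y : A, p ^ a • y = x₀ ∧ p ^ (a + b) • y = 0 := by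
  induction a with
  | zero => exact ⟨x₀, by simp, by simpa using hx₀⟩
  | succ a ih =>
    obtain ⟨y, hy, hy0⟩ := ih
    obtain ⟨z, hz⟩ := hdiv y (a + b) hy0
    refine ⟨z, ?_, ?_⟩
    · rw [pow_succ, mul_smul, hz, hy]
    · rw [show a + 1 + b = (a + b) + 1 by ring, pow_succ, mul_smul, hz, hy0]

/-- In an abelian group whose `p`-primary part is `p`-divisible and contains an element of order
`p`: for every `d ≠ 0` there is a `p`-primary `y'` with `d • y' ≠ 0` and `p • (d • y') = 0`. -/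
theorem exists_index_nsmul_ne_zero
    (hdiv : ∀ (x : A) (a : ℕ), p ^ a • x = 0 → ∃ y : A, p • y = x)
    (hx : ∃ x₀ : A, x₀ ≠ 0 ∧ p • x₀ = 0) (d : ℕ) (hd : d ≠ 0) :
    ∃ y' : A, (∃ m : ℕ, p ^ m • y' = 0) ∧ d • y' ≠ 0 ∧ p • (d • y') = 0 := by
  obtain ⟨x₀, hx₀, hpx₀⟩ := hx
  obtain ⟨a, m', hm', rfl⟩ := Nat.exists_eq_pow_mul_and_not_dvd hd p hp.out.ne_one
  obtain ⟨y, hy, hy0⟩ := exists_pow_nsmul_eq p hdiv x₀ 1 (by simpa using hpx₀) a
  have hdy : (p ^ a * m') • y = m' • x₀ := by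
    rw [mul_comm, mul_smul, hy]
  refine ⟨y, ⟨a + 1, hy0⟩, ?_, ?_⟩
  · rw [hdy]
    intro h0
    apply hx₀
    have hcop : Nat.Coprime m' p := ((Nat.Prime.coprime_iff_not_dvd hp.out).2 hm').symm
    have h1 : addOrderOf x₀ ∣ m' := addOrderOf_dvd_of_nsmul_eq_zero h0
    have h2 : addOrderOf x₀ ∣ p := addOrderOf_dvd_of_nsmul_eq_zero hpx₀
    exact AddMonoid.addOrderOf_eq_one_iff.mp (Nat.eq_one_of_dvd_coprimes hcop h1 h2)
  · rw [hdy, smul_comm, hpx₀, smul_zero]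

end Algebra

/-! ### The class `y'` -/

section Yprime

variable {G : Type} [Group G] (𝓑 : LevelCoh28.LevelBasis G) (Y : Rep.{0} ℤ G)
  (hY : LevelCoh28.IsDiscrete 𝓑.sets Y) {p : ℕ} [Fact p.Prime]
  (hfund : FundFixedRep 𝓑 Y p)

include hY hfund in
/-- for every `d ≠ 0` a `p`-primary class `y'` of `H²_lev(G; Y)` with `d • y' ≠ 0` and
`p • (d • y') = 0`. -/
theorem exists_yprime (hunb : ∀ n : ℕ, ∃ W ∈ 𝓑.sets, W.Normal ∧ p ^ n ∣ W.index)
    (d : ℕ) (hd : d ≠ 0) :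
    ∃ y' : LevelCoh28.H2 𝓑 Y, (∃ m : ℕ, p ^ m • y' = 0) ∧ d • y' ≠ 0 ∧ p • (d • y') = 0 := by
  refine exists_index_nsmul_ne_zero p (exists_nsmul_eq_H2_self 𝓑 Y hY hfund hunb) ?_ d hd
  refine exists_ne_zero_H2_self 𝓑 Y hY hfund ?_
  obtain ⟨W, hW, hn, hdvd⟩ := hunb 1
  exact ⟨W, hW, hn, by simpa using hdvd⟩

end Yprime

section AQ

open Fermat.Agent.PT.GLUE.Objects21 Fermat.Agent.W56.LocalDatum2

variable (S : Finset Nat.Primes) (p : ℕ) [hp : Fact p.Prime] (hpS : pPrime p ∈ S)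
  (q : ℕ) [Fact q.Prime]

include hpS in
/-- **the class `y'`** for `H = Γ_q`, `𝓑 = levelLocS q S`, `A = A'_q`, `D' ≤ H` open. -/
theorem exists_yprime_AQ (D' : Subgroup (PadicAlgCl q ≃ₐ[ℚ_[q]] PadicAlgCl q))
    (hD' : ∃ U ∈ (levelLocS q S).sets, U ≤ D') :
    ∃ y' : LevelCoh28.H2 (levelLocS q S) (AQ S q),
      (∃ m : ℕ, p ^ m • y' = 0) ∧ D'.index • y' ≠ 0 ∧ p • (D'.index • y') = 0 := by
  obtain ⟨U₀, hU₀, hle⟩ := hD'
  haveI : U₀.FiniteIndex := (levelLocS q S).isBasis.finiteIndex U₀ hU₀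
  haveI : D'.FiniteIndex := Subgroup.finiteIndex_of_le hle
  exact exists_yprime (levelLocS q S) (AQ S q) (isDiscrete_AQ S q) (fundFixedRep_AQ S q p)
    (Fermat.Agent.W56.BrLocS1.exists_level_pow_dvd_self S p hpS q) D'.index
    Subgroup.FiniteIndex.index_ne_zero

end AQ

end Fermat.Agent.W56.BrDivSelf1
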