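/-
Programme W56 (S56), chapter (EC-5), helper1: the class-formation package instantiated at the
GLOBAL datum `(Γ, levelS S, C_S)`, for every open subgroup `V ≤ Γ = Gal(ℚ̄/ℚ)`.

* `hbig_levelS`, `hunb_levelS`, `hdiv_levelS` : the `p`-parts of the indices `[V : W ∩ V]`
  (`W ∈ levelS S` normal in `Γ`, `W ≤ V`) are unbounded (`p ∈ S`; via `ℚ(ζ_{p^m})` and the local
  degrees at `p`);
* **(AR2)** `card_pTor_H2_CS : #H²_lev(V; C_S)[p] = p`; `exists_inv_CS` (bijective invariant map);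
* `exists_nsmul_eq_H2_CS` (the `p`-primary part of `H²_lev(V; C_S)` is `p`-divisible),
  `h1_pPrimary_CS` (`H¹_lev(V; C_S)(p) = 0`, (AR0)), `exists_Z2_not_B2_CS`.
-/
import Mathlib
import Fermat.Agent.W56.BrLoc1
import Fermat.Agent.PT.GLUE.FundLevelFinal2

set_option autoImplicit false
set_option linter.unusedSectionVars false
set_option linter.unusedVariables false
set_option linter.style.haveILetI false

open CategoryTheory groupCohomology ExtCitation

namespace Fermat.Agent.W56.BrGlob1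

open Fermat.Agent.PT.PRO Fermat.Agent.PT.PRO.InvP4 Fermat.Agent.PT.GLUE.Objects21
  Fermat.Agent.W56.LevExh8

local notation "Γ" => (AlgebraicClosure ℚ ≃ₐ[ℚ] AlgebraicClosure ℚ)

variable (S : Finset Nat.Primes) (p : ℕ) [hp : Fact p.Prime] (hpS : pPrime p ∈ S)

include hpS

/-- the `p`-parts of the indices of the members of `levelS S` are unbounded (`p ∈ S`). -/
theorem hbig_levelS (n : ℕ) : ∃ W ∈ (levelS S).sets, p ^ n ∣ W.index := by
  obtain ⟨_, ⟨U, hU, rfl⟩, hdvd⟩ :=
    Fermat.Agent.W56.CycloLocDeg1.hbig_levelLocS p p S hpS n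
  obtain ⟨U', hU', hle, hn⟩ := (levelS S).isBasis.normalCore U hU
  haveI := hn
  refine ⟨U', hU', ?_⟩
  have h1 : (U.comap (localGaloisToGlobal p)).index ∣ (U'.comap (localGaloisToGlobal p)).index :=
    Subgroup.index_dvd_of_le (Subgroup.comap_mono hle)
  have h2 : (U'.comap (localGaloisToGlobal p)).index ∣ U'.index := by
    rw [Subgroup.index_comap]
    exact Subgroup.relIndex_dvd_index_of_normal _ _
  exact hdvd.trans (h1.trans h2)

/-- **`hunb` for every open subgroup of `Γ`**, basis `levelS S`. -/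
theorem hunb_levelS (V : Subgroup Γ) (hV : ∃ U ∈ (levelS S).sets, U ≤ V) (n : ℕ) :
    ∃ W ∈ (levelS S).sets, W.Normal ∧ W ≤ V ∧ p ^ n ∣ (W.subgroupOf V).index :=
  Fermat.Agent.W56.CycloLocDeg1.exists_normal_le_pow_dvd (levelS S) p (hbig_levelS S p hpS) V hV n

/-- `hdiv` (`hunb` at `n = 1`). -/
theorem hdiv_levelS (V : Subgroup Γ) (hV : ∃ U ∈ (levelS S).sets, U ≤ V) :
    ∃ W ∈ (levelS S).sets, W.Normal ∧ W ≤ V ∧ p ∣ (W.subgroupOf V).index := by
  simpa using hunb_levelS S p hpS V hV 1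

omit hpS in
theorem fundFixedRep_CS (hp2 : p ≠ 2) (hpS : pPrime p ∈ S) : FundFixedRep (levelS S) (CS S) p :=
  Fermat.Agent.PT.GLUE.FundLevelFinal2.fundFixed_CS p hp2 hpS

variable (hp2 : p ≠ 2) (V : Subgroup Γ) (hV : ∃ U ∈ (levelS S).sets, U ≤ V)

include hp2 hV

/-- **(AR2)**: `H²_lev(V; C_S)[p]` has exactly `p` elements, for every open `V ≤ Γ`. -/
theorem card_pTor_H2_CS :
    Nat.card (pTor p (LevelCoh28.H2 (comapBasis V.subtype (levelS S))
      (Rep.res V.subtype (CS S)))) = p :=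
  Fermat.Agent.W56.CardPTor8.card_pTor_H2_open (levelS S) (CS S) (isDiscrete_CS S)
    (fundFixedRep_CS S p hp2 hpS) V hV (hdiv_levelS S p hpS V hV)

/-- the invariant map of `K = ℚ̄^V` on `p`-torsion: a bijection `H²_lev(V; C_S)[p] ≃ ℤ/p`. -/
theorem exists_inv_CS :
    ∃ τ : pTor p (LevelCoh28.H2 (comapBasis V.subtype (levelS S))
      (Rep.res V.subtype (CS S))) →+ ZMod p, Function.Bijective τ := by
  have h := exists_inv_open (p := p) (levelS S) (CS S) (isDiscrete_CS S)
    (fundFixedRep_CS S p hp2 hpS) V hV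
  obtain ⟨τ, hτ⟩ := h
  have hcard := card_pTor_H2_CS S p hpS hp2 V hV
  have hfin : Finite (pTor p (LevelCoh28.H2 (comapBasis V.subtype (levelS S))
      (Rep.res V.subtype (CS S)))) :=
    Nat.finite_of_card_ne_zero (by rw [hcard]; exact hp.out.ne_zero)
  have hle : Nat.card (ZMod p) ≤ Nat.card (pTor p (LevelCoh28.H2
      (comapBasis V.subtype (levelS S)) (Rep.res V.subtype (CS S)))) := by
    rw [hcard, Nat.card_zmod]
  exact ⟨τ, hτ.bijective_of_nat_card_le hle⟩

/-- a class of order `p`: a level 2-cocycle of `V` with values in `C_S`, killed by `p` in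
cohomology, not a coboundary. -/
theorem exists_Z2_not_B2_CS :
    ∃ c ∈ LevelCoh28.Z2 (comapBasis V.subtype (levelS S)) (Rep.res V.subtype (CS S)),
      p • c ∈ LevelCoh28.B2 (comapBasis V.subtype (levelS S)) (Rep.res V.subtype (CS S)) ∧
      c ∉ LevelCoh28.B2 (comapBasis V.subtype (levelS S)) (Rep.res V.subtype (CS S)) :=
  Fermat.Agent.W56.BrLoc1.exists_Z2_not_B2 (levelS S) (CS S) (isDiscrete_CS S)
    (fundFixedRep_CS S p hp2 hpS) V hV (hdiv_levelS S p hpS V hV)

/-- the `p`-primary part of `H²_lev(V; C_S)` is `p`-divisible. -/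
theorem exists_nsmul_eq_H2_CS
    (x : LevelCoh28.H2 (comapBasis V.subtype (levelS S)) (Rep.res V.subtype (CS S)))
    (a : ℕ) (hx : p ^ a • x = 0) :
    ∃ y : LevelCoh28.H2 (comapBasis V.subtype (levelS S)) (Rep.res V.subtype (CS S)),
      p • y = x :=
  Fermat.Agent.W56.PDiv8.exists_nsmul_eq_H2_open (levelS S) (CS S) (isDiscrete_CS S)
    (fundFixedRep_CS S p hp2 hpS) V hV (hunb_levelS S p hpS V hV) x a hx

/-- **(AR0)**: `H¹_lev(V; C_S)` has no `p`-primary torsion. -/
theorem h1_pPrimary_CS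
    (x : LevelCoh28.H1 (comapBasis V.subtype (levelS S)) (Rep.res V.subtype (CS S)))
    (n : ℕ) (hx : (p ^ n) • x = 0) : x = 0 :=
  h1_pPrimary_open (levelS S) (CS S) (isDiscrete_CS S) (fundFixedRep_CS S p hp2 hpS) V hV x n hx

end Fermat.Agent.W56.BrGlob1
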