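/-
Programme W56 (target S56), **(AR3)/(A2) for an ARBITRARY open subgroup `V ≤ Γ`** (helper8, final
assembly): `H²_lev(V; I_S)[p] → H²_lev(V; C_S)[p]` is ONTO (`p ∣ [Γ : V]` allowed), in the class form
(`exists_preimage`, helper4's (P6) literal) and in the cochain form `CoreChase2.TorLift`
(`torLift_open`).

Route: helper6's `MackeyTrace6.exists_pTor_trace` gives `x ∈ H²(V; (Coind A'_p)|_V)[p]` whose trace
is a non-zero `p`-torsion class of `H²(Γ; Coind A'_p)`; by (LG) over `ℚ` in helper2's Shapiro form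
`LGInj2.ne_zero_of_scoind` that trace has non-zero image in `H²(Γ; C_S)`; by naturality of the trace
(`TraceOpen8.trV_natural`) the image of `x` in `H²(V; C_S)[p]` is non-zero; the target has exactly
`p` elements (helper1's `BrGlob1.card_pTor_H2_CS` = `CardPTor8` at `(Γ, levelS S, C_S)`).
-/
import Mathlib
import Fermat.Agent.W56.MackeyTrace6
import Fermat.Agent.W56.LGInj2
import Fermat.Agent.W56.BrGlob1
import Fermat.Agent.W56.BrSelf1
import Fermat.Agent.W56.BrLocS1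
import Fermat.Agent.W56.BrDivSelf1
import Fermat.Agent.W56.CoreChase2

set_option autoImplicit false
set_option linter.unusedSectionVars false
set_option linter.style.haveILetI false

open CategoryTheory groupCohomology

namespace Fermat.Agent.W56.TorLiftOpen8

open Fermat.Agent.PT Fermat.Agent.PT.PRO Fermat.Agent.PT.GLUE
open Fermat.Agent.PT.PRO.LevelCoh28 Fermat.Agent.PT.PRO.LevelCohRes28
  Fermat.Agent.PT.PRO.SmoothCoind28 Fermat.Agent.PT.PRO.ShapiroLevel28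
  Fermat.Agent.PT.GLUE.Objects21 Fermat.Agent.PT.GLUE.LevelTheta21 Fermat.Agent.PT.PRO.InvP4
  Fermat.Agent.W56.Retract2 Fermat.Agent.W56.TraceOpen8 Fermat.Agent.W56.Mackey2
  Fermat.Agent.W56.LocalDatum2 Fermat.Agent.W56.LGInj2 Fermat.Agent.W56.CoreChase2
open ExtCitation

local notation "Γ" => (AlgebraicClosure ℚ ≃ₐ[ℚ] AlgebraicClosure ℚ)

section Generic

variable {k G : Type} [CommRing k] [Group G] {𝓑 : LevelBasis G} {A B C : Rep.{0} k G}

/-- `mapH2` of a composite. -/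
theorem mapH2_mapH2 (φ : A →ₗ[k] B) (hφ : ∀ g a, φ (A.ρ g a) = B.ρ g (φ a))
    (ψ : B →ₗ[k] C) (hψ : ∀ g b, ψ (B.ρ g b) = C.ρ g (ψ b))
    (χ : A →ₗ[k] C) (hχ : ∀ g a, χ (A.ρ g a) = C.ρ g (χ a)) (h : ∀ a, ψ (φ a) = χ a)
    (x : H2 𝓑 A) : mapH2 ψ hψ (mapH2 φ hφ x) = mapH2 χ hχ x := by
  obtain ⟨c, rfl⟩ := H2mk_surjective 𝓑 A x
  rw [mapH2_mk, mapH2_mk, mapH2_mk]
  congr 1
  apply Subtype.ext
  funext y
  exact h _

theorem nsmul_mapH2_eq_zero (φ : A →ₗ[k] B) (hφ : ∀ g a, φ (A.ρ g a) = B.ρ g (φ a))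
    (n : ℕ) (x : H2 𝓑 A) (hx : n • x = 0) : n • mapH2 (𝓑 := 𝓑) φ hφ x = 0 :=
  (map_nsmul (mapH2 (𝓑 := 𝓑) φ hφ) n x).symm.trans
    ((congrArg (mapH2 (𝓑 := 𝓑) φ hφ) hx).trans (map_zero _))

/-- In a group whose `p`-torsion has exactly `p` elements, every `p`-torsion element is a multiple
of any non-zero `p`-torsion element. -/
theorem exists_nsmul_eq_of_card {T : Type*} [AddCommGroup T] (p : ℕ) [Fact p.Prime]
    (hcard : Nat.card (pTor p T) = p) {y₀ y : T} (hy₀ : p • y₀ = 0) (hne : y₀ ≠ 0)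
    (hy : p • y = 0) : ∃ n : ℕ, n • y₀ = y := by
  have hne' : (⟨y₀, hy₀⟩ : pTor p T) ≠ 0 := fun h => hne (congrArg Subtype.val h)
  have hmem : (⟨y, hy⟩ : pTor p T) ∈ AddSubmonoid.multiples (⟨y₀, hy₀⟩ : pTor p T) :=
    mem_multiples_of_prime_card hcard hne'
  obtain ⟨n, hn⟩ := (AddSubmonoid.mem_multiples_iff _ _).1 hmem
  refine ⟨n, ?_⟩
  have := congrArg Subtype.val hn
  simpa using this

end Generic

variable (S : Finset Nat.Primes) (p : ℕ) [hp : Fact p.Prime]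

/-- `Coind A'_q ≃ I_{S,q} → I_S`. -/
noncomputable def toISq (q : ↥S) :
    scoind (localGaloisToGlobal ((q : Nat.Primes) : ℕ)) (levelS S)
      (AQ S ((q : Nat.Primes) : ℕ)) →ₗ[ℤ] IS S :=
  (inclq S q).comp (phiQ S ((q : Nat.Primes) : ℕ)).toLinearMap

theorem toISq_ρ (q : ↥S) (g : Γ)
    (f : scoind (localGaloisToGlobal ((q : Nat.Primes) : ℕ)) (levelS S)
      (AQ S ((q : Nat.Primes) : ℕ))) :
    toISq S q ((scoind (localGaloisToGlobal ((q : Nat.Primes) : ℕ)) (levelS S)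
      (AQ S ((q : Nat.Primes) : ℕ))).ρ g f) = (IS S).ρ g (toISq S q f) := by
  show inclq S q (phiQ S ((q : Nat.Primes) : ℕ) _) = (IS S).ρ g (inclq S q (phiQ S _ f))
  rw [phiQ_ρ, inclq_ρ]

theorem toCS_toISq (q : ↥S)
    (f : scoind (localGaloisToGlobal ((q : Nat.Primes) : ℕ)) (levelS S)
      (AQ S ((q : Nat.Primes) : ℕ))) :
    toCS S (toISq S q f) = toCSq S q f := rfl

variable (hp2 : p ≠ 2) (hpS : pPrime p ∈ S) (V : Subgroup Γ)
  (hV : ∃ U ∈ (levelS S).sets, U ≤ V)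

/-- `toCS S` as a map of `V`-modules. -/
noncomputable abbrev toCSV : (Rep.res V.subtype (IS S)) →ₗ[ℤ] (Rep.res V.subtype (CS S)) := toCS S

theorem toCSV_ρ (v : ↥V) (x : Rep.res V.subtype (IS S)) :
    toCSV S V ((Rep.res V.subtype (IS S)).ρ v x) = (Rep.res V.subtype (CS S)).ρ v (toCSV S V x) :=
  toCS_ρ S (v : Γ) x

section AtQ

include hpS in
theorem hdivAQ (q : ↥S)
    (z : H2 (levelLocS ((q : Nat.Primes) : ℕ) S) (AQ S ((q : Nat.Primes) : ℕ))) (hz : ∃ a : ℕ, p ^ a • z = 0) :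
    ∃ y : H2 (levelLocS ((q : Nat.Primes) : ℕ) S) (AQ S ((q : Nat.Primes) : ℕ)), p • y = z := by
  obtain ⟨a, ha⟩ := hz
  exact BrDivSelf1.exists_nsmul_eq_H2_self (levelLocS ((q : Nat.Primes) : ℕ) S) (AQ S ((q : Nat.Primes) : ℕ)) (isDiscrete_AQ S ((q : Nat.Primes) : ℕ))
    (fundFixedRep_AQ S ((q : Nat.Primes) : ℕ) p) (BrLocS1.exists_level_pow_dvd_self S p hpS ((q : Nat.Primes) : ℕ)) z a ha

include hpS in
theorem hneAQ (q : ↥S) :
    ∃ z : H2 (levelLocS ((q : Nat.Primes) : ℕ) S) (AQ S ((q : Nat.Primes) : ℕ)), z ≠ 0 ∧ p • z = 0 :=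
  BrSelf1.exists_ne_zero_H2_self (levelLocS ((q : Nat.Primes) : ℕ) S) (AQ S ((q : Nat.Primes) : ℕ)) (isDiscrete_AQ S ((q : Nat.Primes) : ℕ))
    (fundFixedRep_AQ S ((q : Nat.Primes) : ℕ) p) (BrLocS1.hdiv_self S p hpS ((q : Nat.Primes) : ℕ))

include hp2 hpS hV in
theorem exists_ne_zero_class_at [Fintype (Γ ⧸ V)] (q : ↥S) :
    ∃ x : H2 (comapBasis V.subtype (levelS S)) (Rep.res V.subtype (IS S)), p • x = 0 ∧
      mapH2 (toCSV S V) (toCSV_ρ S V) x ≠ 0 := by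
  -- helper6's class
  obtain ⟨x, hpx, hne, -⟩ := MackeyTrace6.exists_pTor_trace (p := p)
    (localGaloisToGlobal ((q : Nat.Primes) : ℕ)) (levelS S) (AQ S ((q : Nat.Primes) : ℕ)) V hV (levelLocS ((q : Nat.Primes) : ℕ) S)
    (LocI13.isLevelHom_levelLocS S ((q : Nat.Primes) : ℕ)) (LocI13.induced_levelLocS S ((q : Nat.Primes) : ℕ))
    (isDiscrete_AQ S ((q : Nat.Primes) : ℕ)) (fundFixedRep_AQ S ((q : Nat.Primes) : ℕ) p) (hdivAQ S p hpS q) (hneAQ S p hpS q)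
  have hMd : LevelCoh28.IsDiscrete (levelS S).sets
      (scoind (localGaloisToGlobal ((q : Nat.Primes) : ℕ)) (levelS S)
        (AQ S ((q : Nat.Primes) : ℕ))) := isDiscrete_scoind _ _ _
  have htr : trV (levelS S) (scoind (localGaloisToGlobal ((q : Nat.Primes) : ℕ)) (levelS S)
      (AQ S ((q : Nat.Primes) : ℕ))) V hMd x ≠ 0 := fun h => hne (by rw [h, map_zero])
  have hptr : p • trV (levelS S) (scoind (localGaloisToGlobal ((q : Nat.Primes) : ℕ)) (levelS S)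
      (AQ S ((q : Nat.Primes) : ℕ))) V hMd x = 0 :=
    (map_nsmul (trV (levelS S) (scoind (localGaloisToGlobal ((q : Nat.Primes) : ℕ)) (levelS S)
      (AQ S ((q : Nat.Primes) : ℕ))) V hMd) p x).symm.trans
      ((congrArg (trV (levelS S) (scoind (localGaloisToGlobal ((q : Nat.Primes) : ℕ)) (levelS S)
        (AQ S ((q : Nat.Primes) : ℕ))) V hMd) hpx).trans (map_zero _))
  -- naturality of the trace for `Coind A'_q → C_S`
  have hnat := trV_natural (V := V) (toCSq S q) (toCSq_ρ S q) hMd (isDiscrete_CS S) x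
  have hLG := ne_zero_of_scoind S p hp2 hpS q _ hptr htr
  have hy₀ : mapH2 (resLin (V := V) (toCSq S q))
      (resLin_equivariant (V := V) (toCSq S q) (toCSq_ρ S q)) x ≠ 0 := by
    intro h0
    rw [h0, map_zero] at hnat
    exact hLG hnat.symm
  -- the class of `I_S`
  refine ⟨mapH2 (resLin (V := V) (toISq S q))
    (resLin_equivariant (V := V) (toISq S q) (toISq_ρ S q)) x,
    nsmul_mapH2_eq_zero _ _ p x hpx, ?_⟩
  rw [mapH2_mapH2 (resLin (V := V) (toISq S q))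
    (resLin_equivariant (V := V) (toISq S q) (toISq_ρ S q)) (toCSV S V) (toCSV_ρ S V)
    (resLin (V := V) (toCSq S q)) (resLin_equivariant (V := V) (toCSq S q) (toCSq_ρ S q))
    (fun _ => rfl) x]
  exact hy₀

end AtQ

include hp2 hpS hV in
/-- **Non-vanishing over `V`**: a class of `H²_lev(V; I_S)[p]` with non-zero image in
`H²_lev(V; C_S)`. -/
theorem exists_ne_zero_class :
    ∃ x : H2 (comapBasis V.subtype (levelS S)) (Rep.res V.subtype (IS S)), p • x = 0 ∧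
      mapH2 (toCSV S V) (toCSV_ρ S V) x ≠ 0 := by
  classical
  obtain ⟨U₀, hU₀, hU₀V⟩ := hV
  haveI : U₀.FiniteIndex := (levelS S).isBasis.finiteIndex U₀ hU₀
  haveI : V.FiniteIndex := Subgroup.finiteIndex_of_le hU₀V
  haveI : Finite (Γ ⧸ V) := Subgroup.finite_quotient_of_finiteIndex
  haveI : Fintype (Γ ⧸ V) := Fintype.ofFinite _
  exact exists_ne_zero_class_at S p hp2 hpS V ⟨U₀, hU₀, hU₀V⟩ ⟨pPrime p, hpS⟩

include hp2 hpS hV in
/-- **(AR3) for every open `V ≤ Γ`** (class form, helper4's (P6) literal):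
`H²_lev(V; I_S)[p] → H²_lev(V; C_S)[p]` is onto. -/
theorem exists_preimage
    (y : H2 (comapBasis V.subtype (levelS S)) (Rep.res V.subtype (CS S))) (hy : p • y = 0) :
    ∃ x : H2 (comapBasis V.subtype (levelS S)) (Rep.res V.subtype (IS S)), p • x = 0 ∧
      mapH2 (toCSV S V) (toCSV_ρ S V) x = y := by
  obtain ⟨x₀, hpx₀, hne⟩ := exists_ne_zero_class S p hp2 hpS V hV
  have hcard := BrGlob1.card_pTor_H2_CS S p hpS hp2 V hV
  have hpy₀ : p • mapH2 (toCSV S V) (toCSV_ρ S V) x₀ = 0 := nsmul_mapH2_eq_zero _ _ p x₀ hpx₀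
  obtain ⟨n, hn⟩ := exists_nsmul_eq_of_card p hcard hpy₀ hne hy
  refine ⟨n • x₀, ?_, ?_⟩
  · rw [smul_comm, hpx₀, smul_zero]
  · exact (map_nsmul (mapH2 (toCSV S V) (toCSV_ρ S V)) n x₀).trans hn

include hp2 hpS hV in
/-- **(A2) for every open `V ≤ Γ`** (cochain form `CoreChase2.TorLift`). -/
theorem torLift_open :
    TorLift p (comapBasis V.subtype (levelS S)) (I := Rep.res V.subtype (IS S))
      (C := Rep.res V.subtype (CS S)) (toCS S) := by
  intro c hc hpc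
  have hy : p • H2mk (comapBasis V.subtype (levelS S)) (Rep.res V.subtype (CS S)) ⟨c, hc⟩ = 0 := by
    rw [← map_nsmul, H2mk_eq_zero_iff]
    exact hpc
  obtain ⟨x, hpx, hx⟩ := exists_preimage S p hp2 hpS V hV _ hy
  obtain ⟨h, rfl⟩ := H2mk_surjective _ _ x
  refine ⟨h.1, h.2, ?_, ?_⟩
  · rw [← map_nsmul, H2mk_eq_zero_iff] at hpx
    exact hpx
  · rw [mapH2_mk, ← sub_eq_zero, ← map_sub, H2mk_eq_zero_iff] at hx
    exact hx

end Fermat.Agent.W56.TorLiftOpen8
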