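/-
Programme W56 (target S56), stage 2, chapter (EC-5) (helper3): **`BaseGlue4.OntoW` verbatim**:
`H²(Ĉ; W I_T)[p] → H²(Ĉ; W C_T)[p]` is onto.

Shapiro for `W` (`ShapW6.shW2`, natural in the coefficients) transports the statement to
`H²(U; I_T|_U)[p] → H²(U; C_T|_U)[p]`, which is helper8's `TorLiftOpen8.exists_preimage` (AR3).
-/
import Mathlib
import Fermat.Agent.W56.BaseGlue4
import Fermat.Agent.W56.ShapW6
import Fermat.Agent.W56.TorLiftOpen8

set_option autoImplicit false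
set_option linter.unusedSectionVars false
set_option linter.style.haveILetI false

open CategoryTheory ExtCitation

namespace Fermat.Agent.W56.OntoW3

open Fermat.Agent.PT.PRO Fermat.Agent.PT.BR Fermat.Agent.PT.PRO.LevelCoh28
  Fermat.Agent.PT.PRO.LevelCohRes28 Fermat.Agent.PT.PRO.SmoothCoind28
  Fermat.Agent.PT.GLUE.Objects21
  Fermat.Agent.W56.CoindStar4 Fermat.Agent.W56.BaseContracts4 Fermat.Agent.W56.ShapW6

local notation "Γ" => (AlgebraicClosure ℚ ≃ₐ[ℚ] AlgebraicClosure ℚ)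

/-- **(onto)**: `H²(Ĉ; W I_T)[p] → H²(Ĉ; W C_T)[p]` is onto. -/
theorem ontoW : BaseGlue4.OntoW := by
  intro p _ hp2 T hpT U Ĉ _ hU hUC y hy
  -- transport to `U`
  have hy' : p • shW2 (levelS T) Ĉ U hUC (CS T) (isDiscrete_CS T) y = 0 := by
    rw [← map_nsmul, hy, map_zero]
  obtain ⟨x', hpx', hx'⟩ := TorLiftOpen8.exists_preimage T p hp2 hpT U ⟨U, hU, le_rfl⟩ _ hy'
  refine ⟨(shW2 (levelS T) Ĉ U hUC (IS T) (isDiscrete_IS T)).symm x', ?_, ?_⟩
  · rw [← map_nsmul, hpx', map_zero]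
  · apply (shW2 (levelS T) Ĉ U hUC (CS T) (isDiscrete_CS T)).injective
    rw [shW2_natural (levelS T) Ĉ U hUC (toCS T) (toCS_ρ T) (isDiscrete_IS T) (isDiscrete_CS T),
      LinearEquiv.apply_symm_apply]
    exact hx'

end Fermat.Agent.W56.OntoW3
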