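/-
W56 / (EC-5) glue (lead): **pull-back along `Q = Ĉ ⧸ (U ∩ Ĉ) ≃* C`**.

For `U ◁ G₀`, `C ≤ G₀ ⧸ U`, `Ĉ = pre U C` (the preimage of `C`), `H = U.subgroupOf Ĉ`:

* `eQC U C : ↥Ĉ ⧸ H ≃* ↥C`, `eQC_mk`.
* `h0W`: the `G`-invariants of `W(Y) = Coind_H^G Res_H Y` are the `H`-invariants of `Y`
  (`F ↦ F 1`), and the action `star` of `G ⧸ H` becomes the natural action of `G ⧸ H` on `Y^H`.
* for `G₀ = Γ`, `Y = E_T` restricted to `Ĉ`:
  `hP ρP (H⁰(Ĉ; W(E_T)) with star) = hP (ρP ∘ e⁻¹) ((E_T)^U as a C-module)` (`hP_opH0_ES`), i.e. the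
  `H⁰`-term of the Kummer count is the left-hand side of `BaseDefs4.Bridge`.
* `dualTwQ_reE`: the twisted duals `TwistW4.dualTwQ` (over `Q`) and `MackeyArch0.dualTw` (over `C`)
  correspond; `muP_funPerm_punit`, `muP_funPerm_pull`: permutation modules.
-/
import Mathlib
import Fermat.Agent.W56.BaseDefs4
import Fermat.Agent.W56.CoindStar4
import Fermat.Agent.W56.IntRes4
import Fermat.Agent.W56.InflCoind4
import Fermat.Agent.W56.QuotGal0
import Fermat.Agent.W56.TwistW4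
import Fermat.Agent.W56.MackeyArch0

set_option autoImplicit false
set_option linter.unusedSectionVars false
set_option linter.style.haveILetI false

open CategoryTheory

namespace Fermat.Agent.W56.PullQC0

open Fermat.Agent.PT.PRO Fermat.Agent.PT.PRO.LevelCoh28 Fermat.Agent.PT.PRO.SmoothCoind28
  Fermat.Agent.PT.GLUE.Objects21
  Fermat.Agent.W56.MuP4 Fermat.Agent.W56.TorsSnake4 Fermat.Agent.W56.EquivUnits0
  Fermat.Agent.W56.QuotGal0 Fermat.Agent.W56.BaseDefs4 Fermat.Agent.W56.KummerStar4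
  Fermat.Agent.W56.CoindStar4 Fermat.Agent.W56.IntRes4 Fermat.Agent.W56.InflCoind4

/-! ### The isomorphism `Ĉ ⧸ (U ∩ Ĉ) ≃* C` -/

section Group

variable {G₀ : Type} [Group G₀] (U : Subgroup G₀) [hU : U.Normal] (C : Subgroup (G₀ ⧸ U))

theorem le_pre : U ≤ pre U C := fun u hu => by
  show QuotientGroup.mk' U u ∈ C
  rw [mk_eq_one U hu]
  exact C.one_mem

theorem toC_surjective : Function.Surjective (toC U C) := by
  rintro ⟨c, hc⟩
  obtain ⟨g, rfl⟩ := QuotientGroup.mk'_surjective U c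
  exact ⟨⟨g, hc⟩, rfl⟩

theorem ker_toC : U.subgroupOf (pre U C) = (toC U C).ker := by
  ext g
  rw [Subgroup.mem_subgroupOf, MonoidHom.mem_ker]
  constructor
  · intro h
    apply Subtype.ext
    rw [coe_toC]
    exact mk_eq_one U h
  · intro h
    have h1 := congrArg Subtype.val h
    rw [coe_toC] at h1
    exact (QuotientGroup.eq_one_iff (g : G₀)).1 h1

instance normal_subgroupOf_pre : (U.subgroupOf (pre U C)).Normal := Subgroup.normal_subgroupOf

/-- `Ĉ ⧸ (U ∩ Ĉ) ≃* C`. -/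
noncomputable def eQC : (↥(pre U C) ⧸ U.subgroupOf (pre U C)) ≃* ↥C :=
  QuotientGroup.liftEquiv (U.subgroupOf (pre U C)) (toC_surjective U C) (ker_toC U C)

theorem eQC_mk (c : ↥(pre U C)) :
    eQC U C (QuotientGroup.mk c) = toC U C c := rfl

theorem coe_eQC_mk (c : ↥(pre U C)) :
    ((eQC U C (QuotientGroup.mk c) : ↥C) : G₀ ⧸ U) = QuotientGroup.mk (c : G₀) := rfl

theorem eQC_symm_toC (c : ↥(pre U C)) :
    (eQC U C).symm (toC U C c) = QuotientGroup.mk c := by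
  rw [← eQC_mk, MulEquiv.symm_apply_apply]

end Group

/-! ### `H⁰(G; W(Y)) = Y^H` with its action of `G ⧸ H` -/

section H0

variable {k G : Type} [CommRing k] [Group G] (𝓑 : LevelBasis G) (H : Subgroup G) [hH : H.Normal]
  (Y : Rep.{0} k G)

/-- a `G`-invariant element of `W(Y)` is a constant function. -/
theorem val_eq_of_invariant (F : ↥(W 𝓑 H Y).ρ.invariants) (x : G) :
    val 𝓑 H Y F.1 x = val 𝓑 H Y F.1 1 := by
  have h1 : val 𝓑 H Y ((W 𝓑 H Y).ρ x F.1) 1 = val 𝓑 H Y F.1 1 := by rw [F.2 x]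
  rw [val_ρ, one_mul] at h1
  exact h1

/-- the value of a `G`-invariant element of `W(Y)` is `H`-invariant. -/
theorem val_one_mem (F : ↥(W 𝓑 H Y).ρ.invariants) {h : G} (hh : h ∈ H) :
    Y.ρ h (val 𝓑 H Y F.1 1) = val 𝓑 H Y F.1 1 := by
  rw [← val_equivariant 𝓑 H Y F.1 hh 1, val_eq_of_invariant]

/-- the constant function with an `H`-invariant value, as a `G`-invariant element of `W(Y)`. -/
noncomputable def constW (y : Y) (hy : ∀ h ∈ H, Y.ρ h y = y) : ↥(W 𝓑 H Y).ρ.invariants :=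
  ⟨mkW 𝓑 H Y (fun _ => y) (fun h hh _ => (hy h hh).symm) (isLevel₁_const 𝓑.isBasis y),
    fun g => W_ext 𝓑 H Y fun x => by rw [val_ρ]; rfl⟩

theorem val_constW (y : Y) (hy : ∀ h ∈ H, Y.ρ h y = y) (x : G) :
    val 𝓑 H Y (constW 𝓑 H Y y hy).1 x = y := rfl

theorem constW_val (F : ↥(W 𝓑 H Y).ρ.invariants) :
    constW 𝓑 H Y (val 𝓑 H Y F.1 1) (fun _ hh => val_one_mem 𝓑 H Y F hh) = F :=
  Subtype.ext (W_ext 𝓑 H Y fun x => by rw [val_constW]; exact (val_eq_of_invariant 𝓑 H Y F x).symm)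

/-- the action of `star` on the values. -/
theorem val_opH0_star (c : G) (F : ↥(W 𝓑 H Y).ρ.invariants) :
    val 𝓑 H Y (opH0 (W 𝓑 H Y) (star 𝓑 H Y) (star_comm 𝓑 H Y) (QuotientGroup.mk c) F).1 1 =
      Y.ρ c (val 𝓑 H Y F.1 1) := by
  rw [opH0_coe, star_mk, starG_apply, val_eq_of_invariant]

end H0

/-! ### The `T`-units -/

section ES

local notation "Γ" => (AlgebraicClosure ℚ ≃ₐ[ℚ] AlgebraicClosure ℚ)

variable (T : Finset Nat.Primes) (U : Subgroup Γ) [hU : U.Normal] (C : Subgroup (Γ ⧸ U))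
  (𝓑 : LevelBasis ↥(pre U C))

/-- `H⁰(Ĉ; W(E_T)) ≃+ (E_T)^U`, `F ↦ F 1`. -/
noncomputable def h0ES :
    ↥(W 𝓑 (U.subgroupOf (pre U C)) (Rep.res (pre U C).subtype (ES T))).ρ.invariants ≃+
      ↥(Representation.invariants ((ES T).ρ.comp U.subtype)) where
  toFun F := ⟨val 𝓑 _ (Rep.res (pre U C).subtype (ES T)) F.1 1, fun u =>
    val_one_mem 𝓑 (U.subgroupOf (pre U C)) (Rep.res (pre U C).subtype (ES T)) F
      (h := ⟨u.1, le_pre U C u.2⟩) (Subgroup.mem_subgroupOf.2 u.2)⟩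
  invFun y := constW 𝓑 _ (Rep.res (pre U C).subtype (ES T)) y.1 (fun h hh =>
    y.2 ⟨h.1, Subgroup.mem_subgroupOf.1 hh⟩)
  left_inv F := constW_val 𝓑 _ _ F
  right_inv _ := Subtype.ext rfl
  map_add' F F' := Subtype.ext (val_add 𝓑 _ _ F.1 F'.1 1)

theorem coe_h0ES (F : ↥(W 𝓑 (U.subgroupOf (pre U C))
    (Rep.res (pre U C).subtype (ES T))).ρ.invariants) :
    ((h0ES T U C 𝓑 F : ↥(Representation.invariants ((ES T).ρ.comp U.subtype))) : ES T) =
      val 𝓑 _ (Rep.res (pre U C).subtype (ES T)) F.1 1 := rfl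

/-- `h0ES` intertwines `star` with the action of `C` on `(E_T)^U`, along `eQC`. -/
theorem h0ES_equivariant (q : ↥(pre U C) ⧸ U.subgroupOf (pre U C))
    (F : ↥(W 𝓑 (U.subgroupOf (pre U C)) (Rep.res (pre U C).subtype (ES T))).ρ.invariants) :
    h0ES T U C 𝓑 (opH0 (W 𝓑 (U.subgroupOf (pre U C)) (Rep.res (pre U C).subtype (ES T)))
        (star 𝓑 _ _) (star_comm 𝓑 _ _) q F) =
      (invRep T U).comp C.subtype (eQC U C q) (h0ES T U C 𝓑 F) := by
  induction q using QuotientGroup.induction_on with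
  | H c =>
    apply Subtype.ext
    rw [coe_h0ES, val_opH0_star]
    rfl

variable (p : ℕ) [Fact p.Prime] [Fintype C] [Invertible (Fintype.card C : ZMod p)]
  [Fintype (↥(pre U C) ⧸ U.subgroupOf (pre U C))]
  [Invertible (Fintype.card (↥(pre U C) ⧸ U.subgroupOf (pre U C)) : ZMod p)]
  {P : Type*} [AddCommGroup P] [Module (ZMod p) P] [FiniteDimensional (ZMod p) P]
  (ρP : Representation (ZMod p) (↥(pre U C) ⧸ U.subgroupOf (pre U C)) P)

/-- **the `H⁰`-term**: `h_P(H⁰(Ĉ; W(E_T)))` (over `Q = Ĉ ⧸ (U ∩ Ĉ)`) is `h_P((E_T)^U)` (over `C`),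
the left-hand side of `BaseDefs4.Bridge`. -/
theorem hP_opH0_ES :
    hP p ρP (canonRep (opH0 (W 𝓑 (U.subgroupOf (pre U C)) (Rep.res (pre U C).subtype (ES T)))
        (star 𝓑 _ _) (star_comm 𝓑 _ _))) =
      hP p (reE (eQC U C).symm ρP) (canonRep ((invRep T U).comp C.subtype)) := by
  rw [← hP_reE (eQC U C) (reE (eQC U C).symm ρP) (canonRep ((invRep T U).comp C.subtype))]
  have h1 : reE (eQC U C) (reE (eQC U C).symm ρP) = ρP := by
    ext c x
    simp
  rw [h1]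
  exact hP_congr p ρP _ _ (h0ES T U C 𝓑) (fun q F => h0ES_equivariant T U C 𝓑 q F)

end ES

/-! ### Twisted duals and permutation modules -/

section Dual

variable {p : ℕ} [Fact p.Prime] {G₁ : Type*} [Group G₁] (C : Subgroup G₁) {Q : Type*} [Group Q]
  (e : Q ≃* ↥C) (ω : G₁ →* (ZMod p)ˣ) (ω' : Q →* (ZMod p)ˣ)
  (hω : ∀ q, ω' q = ω ((e q : ↥C) : G₁))
  {N : Type*} [AddCommGroup N] [Module (ZMod p) N] (σ : Representation (ZMod p) ↥C N)

include hω in
/-- the twisted dual over `Q` is the transport of the twisted dual over `C`. -/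
theorem dualTwQ_reE :
    TwistW4.dualTwQ p ω' (reE e σ) = reE e (MackeyArch0.dualTw ω C σ) := by
  ext q f n
  show ((ω' q : (ZMod p)ˣ) : ZMod p) * f (σ (e q⁻¹) n) =
    ((ω ((e q : ↥C) : G₁) : (ZMod p)ˣ) : ZMod p) * f (σ (e q)⁻¹ n)
  rw [hω, map_inv]

include hω in
theorem reE_symm_dualTwQ :
    reE e.symm (TwistW4.dualTwQ p ω' (reE e σ)) = MackeyArch0.dualTw ω C σ := by
  rw [dualTwQ_reE C e ω ω' hω σ]
  ext c f n
  simp [reE_apply]

end Dual

section Perm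

variable {k : Type*} [Field k] {C Q : Type*} [Group C] [Group Q] (e : Q ≃* C)
  [Fintype C] [Invertible (Fintype.card C : k)] [Fintype Q] [Invertible (Fintype.card Q : k)]
  {P : Type*} [AddCommGroup P] [Module k P] (ρP : Representation k Q P)

/-- permutation modules: pull-back along `e : Q ≃* C` and an equivariant bijection. -/
theorem muP_funPerm_pull {Y Y' : Type*} [MulAction Q Y] [MulAction C Y'] (f : Y ≃ Y')
    (hf : ∀ q y, f (q • y) = e q • f y) :
    muP (reE e.symm ρP) (funPerm k C Y') = muP ρP (funPerm k Q Y) := by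
  rw [← muP_reE e (reE e.symm ρP) (funPerm k C Y')]
  have h1 : reE e (reE e.symm ρP) = ρP := by
    ext c x
    simp [reE_apply]
  rw [h1]
  refine muP_congr ρP _ _ (LinearEquiv.funCongrLeft k k f) (fun c a => ?_)
  funext y
  show a ((e c)⁻¹ • f y) = a (f (c⁻¹ • y))
  rw [hf, map_inv]

/-- the trivial module. -/
theorem muP_funPerm_punit :
    muP (reE e.symm ρP) (funPerm k C PUnit.{1}) = muP ρP (funPerm k Q PUnit.{1}) :=
  muP_funPerm_pull e ρP (Equiv.refl _) (fun _ _ => rfl)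

end Perm

end Fermat.Agent.W56.PullQC0
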