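/-
Programme W56 (target S56), stage 2, chapter (EC-5) (helper3): **`BaseGlue4.PullH0` verbatim**, from
lead's `PullQC0.h0ES` / `PullQC0.h0ES_equivariant`.
-/
import Mathlib
import Fermat.Agent.W56.BaseGlue4
import Fermat.Agent.W56.PullQC0

set_option autoImplicit false
set_option linter.unusedSectionVars false
set_option linter.style.haveILetI false

namespace Fermat.Agent.W56.PullH0_3

open Fermat.Agent.PT.PRO Fermat.Agent.PT.PRO.LevelCoh28 Fermat.Agent.PT.GLUE.Objects21
  Fermat.Agent.W56.InflCoind4 Fermat.Agent.W56.PullQC0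

/-- **(pull-H⁰)**: `H⁰(Ĉ; W E_T) ≅ (E_T)^U`, compatibly with the actions of `Q = Ĉ ⧸ (U ∩ Ĉ)`. -/
theorem pullH0 : BaseGlue4.PullH0 := by
  intro T U _ _ C
  refine ⟨h0ES T U C (comapBasis (pre U C).subtype (levelS T)), fun h x => ?_⟩
  exact h0ES_equivariant T U C (comapBasis (pre U C).subtype (levelS T)) (QuotientGroup.mk h) x

end Fermat.Agent.W56.PullH0_3
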