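/-
Programme W56 (target S56), chapter (EC-5), helper7: **level cohomology is torsion, element forms**
(on top of helper2's cochain forms `ResInj2.exists_nsmul_mem_coboundaries₁`,
`Cofinal2.exists_nsmul_mem_B2`).

* `exists_nsmul_eq_zero_H1`, `exists_nsmul_eq_zero_H2` : every class of `LevelCoh28.H1 𝓑 A`,
  `LevelCoh28.H2 𝓑 A` is killed by a positive integer (ANY `Rep k G`, any level basis);
* `exists_not_dvd_nsmul_eq_zero` (pure algebra): in an additive group without `p`-primary torsion,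
  a torsion element is killed by an integer prime to `p`;
* `exists_not_dvd_nsmul_eq_zero_H1`, `…_H2` : the combination ("`H^r` is torsion prime to `p`").
-/
import Mathlib
import Fermat.Agent.W56.ResInj2
import Fermat.Agent.W56.Cofinal2

set_option autoImplicit false

namespace Fermat.Agent.W56.TorsLev7

open Fermat.Agent.PT.PRO Fermat.Agent.PT.PRO.LevelCoh28 groupCohomology

universe u

variable {k G : Type u} [CommRing k] [Group G] (𝓑 : LevelBasis G) (A : Rep.{u} k G)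

/-- **Level `H¹` is torsion** (element form). -/
theorem exists_nsmul_eq_zero_H1 (x : H1 𝓑 A) : ∃ N : ℕ, 0 < N ∧ N • x = 0 := by
  obtain ⟨c, rfl⟩ := H1mk_surjective 𝓑 A x
  obtain ⟨N, hN, h⟩ := ResInj2.exists_nsmul_mem_coboundaries₁ 𝓑 A c.2
  refine ⟨N, hN, ?_⟩
  rw [← map_nsmul, H1mk_eq_zero_iff]
  exact h

/-- **Level `H²` is torsion** (element form). -/
theorem exists_nsmul_eq_zero_H2 (x : H2 𝓑 A) : ∃ N : ℕ, 0 < N ∧ N • x = 0 := by
  obtain ⟨c, rfl⟩ := H2mk_surjective 𝓑 A x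
  obtain ⟨N, hN, h⟩ := Cofinal2.exists_nsmul_mem_B2 𝓑 A c.2
  refine ⟨N, hN, ?_⟩
  rw [← map_nsmul, H2mk_eq_zero_iff]
  exact h

/-- in an additive group without `p`-primary torsion a torsion element is killed by an integer
prime to `p`. -/
theorem exists_not_dvd_nsmul_eq_zero {M : Type*} [AddCommGroup M] (p : ℕ) (hp : p.Prime)
    (hM : ∀ (y : M) (n : ℕ), p ^ n • y = 0 → y = 0) {x : M} {N : ℕ} (hN : 0 < N)
    (hx : N • x = 0) : ∃ m : ℕ, 0 < m ∧ ¬ p ∣ m ∧ m • x = 0 := by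
  obtain ⟨a, m, hm, rfl⟩ := Nat.exists_eq_pow_mul_and_not_dvd hN.ne' p hp.ne_one
  have hm0 : 0 < m := by
    rcases Nat.eq_zero_or_pos m with h | h
    · rw [h, mul_zero] at hN; exact absurd hN (lt_irrefl 0)
    · exact h
  refine ⟨m, hm0, hm, hM _ a ?_⟩
  rwa [← mul_nsmul']

variable (p : ℕ) (hp : p.Prime)
include hp

theorem exists_not_dvd_nsmul_eq_zero_H1
    (h1 : ∀ (y : H1 𝓑 A) (n : ℕ), p ^ n • y = 0 → y = 0) (x : H1 𝓑 A) :
    ∃ m : ℕ, 0 < m ∧ ¬ p ∣ m ∧ m • x = 0 := by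
  obtain ⟨N, hN, hx⟩ := exists_nsmul_eq_zero_H1 𝓑 A x
  exact exists_not_dvd_nsmul_eq_zero p hp h1 hN hx

theorem exists_not_dvd_nsmul_eq_zero_H2
    (h2 : ∀ (y : H2 𝓑 A) (n : ℕ), p ^ n • y = 0 → y = 0) (x : H2 𝓑 A) :
    ∃ m : ℕ, 0 < m ∧ ¬ p ∣ m ∧ m • x = 0 := by
  obtain ⟨N, hN, hx⟩ := exists_nsmul_eq_zero_H2 𝓑 A x
  exact exists_not_dvd_nsmul_eq_zero p hp h2 hN hx

end Fermat.Agent.W56.TorsLev7
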