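/-
Programme W56 (target S56), stage 2, chapter (EC-5) (helper8): **`BaseGlue4.TorWCS` verbatim**:
every class of `H¹(Ĉ; W C_T)` is killed by an integer prime to `p`.

Shapiro for `W` (`ShapW6.shW1`) transports the statement to `H¹_lev(U; C_T|_U)`, which is torsion
(`TorsLev7.exists_nsmul_eq_zero_H1`) without `p`-primary torsion (`BrGlob1.h1_pPrimary_CS`, (AR0)).
-/
import Mathlib
import Fermat.Agent.W56.BaseGlue4
import Fermat.Agent.W56.ShapW6
import Fermat.Agent.W56.TorsLev7
import Fermat.Agent.W56.BrGlob1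

set_option autoImplicit false
set_option linter.unusedSectionVars false
set_option linter.style.haveILetI false

open CategoryTheory ExtCitation

namespace Fermat.Agent.W56.TorWCS8

open Fermat.Agent.PT.PRO Fermat.Agent.PT.BR Fermat.Agent.PT.PRO.LevelCoh28
  Fermat.Agent.PT.PRO.LevelCohRes28 Fermat.Agent.PT.PRO.SmoothCoind28
  Fermat.Agent.PT.GLUE.Objects21
  Fermat.Agent.W56.CoindStar4 Fermat.Agent.W56.BaseContracts4 Fermat.Agent.W56.ShapW6

local notation "Γ" => (AlgebraicClosure ℚ ≃ₐ[ℚ] AlgebraicClosure ℚ)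

/-- **(tor)**: every class of `H¹(Ĉ; W C_T)` is killed by an integer prime to `p`. -/
theorem torWCS : BaseGlue4.TorWCS := by
  intro p hp hp2 T hpT U Ĉ _ hU hUC x
  obtain ⟨m, _, hm, hmx⟩ :=
    TorsLev7.exists_not_dvd_nsmul_eq_zero_H1 (comapBasis U.subtype (levelS T))
      (Rep.res U.subtype (CS T)) p hp.out
      (fun y n hy => BrGlob1.h1_pPrimary_CS T p hpT hp2 U ⟨U, hU, le_rfl⟩ y n hy)
      (shW1 (levelS T) Ĉ U hUC (CS T) (isDiscrete_CS T) x)
  refine ⟨m, hm, ?_⟩
  apply (shW1 (levelS T) Ĉ U hUC (CS T) (isDiscrete_CS T)).injective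
  rw [map_nsmul, hmx, map_zero]

end Fermat.Agent.W56.TorWCS8
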