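/-
Programme W56 (target S56), stage 2, chapter (EC-5), helper4: **`EulerSkel4.BaseCase`, UNCONDITIONAL**
(`baseCase`): the base case of Tate's global Euler characteristic formula,
`χ(G_{E,T}, σ) + (archimedean term) = 0` for the modules `σ` of a cyclic quotient `C` of order prime
to `p` of an open subgroup `Ĉ = Gal(ℚ̄/E)`, `U = Gal(ℚ̄/K) ◁ Γ`, `ζ_p ∈ K`.

All ten glue inputs of `BaseCaseMu4.baseCase_of_mu` are discharged:
`Bridge3.bridge` (helper3/lead/helper1), `ISCountAsm4.isCount` (helper2/3/5/9/1/4), `BaseCaseMu4.finWmu`,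
`FinH1WE5.finH1WE` (helper5/lead), `TorWCS8.torWCS` (helper8), `OntoW3.ontoW` (helper3/helper8),
`FinTorsIS1.finTorsWIS` (helper1), `TrivWCS5.trivWCS` (helper5), `ISSum1.isSum` (helper1),
`PullH0_3.pullH0` (helper3/lead).
-/
import Mathlib
import Fermat.Agent.W56.BaseCaseMu4
import Fermat.Agent.W56.Bridge3
import Fermat.Agent.W56.ISCountAsm4
import Fermat.Agent.W56.FinH1WE5
import Fermat.Agent.W56.TorWCS8
import Fermat.Agent.W56.OntoW3
import Fermat.Agent.W56.FinTorsIS1
import Fermat.Agent.W56.TrivWCS5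
import Fermat.Agent.W56.ISSum1
import Fermat.Agent.W56.PullH0_3

set_option autoImplicit false

namespace Fermat.Agent.W56.BaseFinal4

/-- **(EC-5) the base case**, unconditional. -/
theorem baseCase : EulerSkel4.BaseCase :=
  BaseCaseMu4.baseCase_of_mu Bridge3.bridge ISCountAsm4.isCount BaseCaseMu4.finWmu
    FinH1WE5.finH1WE TorWCS8.torWCS OntoW3.ontoW FinTorsIS1.finTorsWIS TrivWCS5.trivWCS
    ISSum1.isSum PullH0_3.pullH0

end Fermat.Agent.W56.BaseFinal4
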