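/-
Programme W56 (target S56), chapter (EC-5), helper6: **(AR3), final assembly**.

For `p` odd, `p ∈ T` and every open subgroup `V ≤ Γ = Gal(ℚ̄/ℚ)` (open for the levels of `G_T`):

  `H²(V; I_T)[p] → H²(V; C_T)[p]` is onto.

Proof: `#H²(V; C_T)[p] = p` (helper1, `BrGlob1.card_pTor_H2_CS`), so it suffices to produce one
`p`-torsion class of `H²(V; I_T)` with non-zero image.  For a prime `q ∈ T` and
`M = Coind_{Γ_q}^Γ A'_q ≅ I_{T,q} ⊂ I_T`, `MackeyTrace6.exists_pTor_trace` gives a `p`-torsion class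
`x₀` of `H²(V; M|_V)` whose trace `N_*(x₀) ∈ H²(Γ; M)[p]` is non-zero; by the local–global principle
(`LGInj2.ne_zero_of_scoind`) the image of `N_*(x₀)` in `H²(Γ; C_T)` is non-zero, and by naturality of
the trace (`TraceOpen8.trV_natural`) it is the trace of the image of `x₀` in `H²(V; C_T)`.
-/
import Mathlib
import Fermat.Agent.W56.MackeyTrace6
import Fermat.Agent.W56.LGInj2
import Fermat.Agent.W56.BrGlob1
import Fermat.Agent.W56.BrLocS1
import Fermat.Agent.W56.BrDivSelf1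

set_option autoImplicit false
set_option linter.unusedSectionVars false
set_option linter.style.haveILetI false

open CategoryTheory groupCohomology ExtCitation

namespace Fermat.Agent.W56.AR3Final6

open Fermat.Agent.PT.PRO Fermat.Agent.PT.GLUE Fermat.Agent.PT.PRO.InvP4
open Fermat.Agent.PT.PRO.LevelCoh28 Fermat.Agent.PT.PRO.LevelCohRes28
open Fermat.Agent.PT.PRO.ShapiroLevel28 Fermat.Agent.PT.PRO.SmoothCoind28
open Fermat.Agent.PT.GLUE.Objects21
open Fermat.Agent.W56.LocalDatum2 Fermat.Agent.W56.LGInj2 Fermat.Agent.W56.TraceOpen8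
open Fermat.Agent.W56.Mackey2

local notation "Γ" => (AlgebraicClosure ℚ ≃ₐ[ℚ] AlgebraicClosure ℚ)

variable (T : Finset Nat.Primes) (p : ℕ) [hp : Fact p.Prime]

/-- The composite `Coind A'_q ≃ I_{T,q} → I_T`. -/
noncomputable def toISq (q : ↥T) :
    scoind (localGaloisToGlobal ((q : Nat.Primes) : ℕ)) (levelS T)
      (AQ T ((q : Nat.Primes) : ℕ)) →ₗ[ℤ] IS T :=
  (LevelTheta21.inclq T q).comp (phiQ T ((q : Nat.Primes) : ℕ)).toLinearMap

theorem toISq_ρ (q : ↥T) (g : Γ)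
    (f : scoind (localGaloisToGlobal ((q : Nat.Primes) : ℕ)) (levelS T)
      (AQ T ((q : Nat.Primes) : ℕ))) :
    toISq T q ((scoind (localGaloisToGlobal ((q : Nat.Primes) : ℕ)) (levelS T)
      (AQ T ((q : Nat.Primes) : ℕ))).ρ g f) = (IS T).ρ g (toISq T q f) := by
  show LevelTheta21.inclq T q (phiQ T ((q : Nat.Primes) : ℕ) _) =
    (IS T).ρ g (LevelTheta21.inclq T q (phiQ T ((q : Nat.Primes) : ℕ) f))
  rw [phiQ_ρ, LevelTheta21.inclq_ρ]

theorem toCS_toISq (q : ↥T)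
    (f : scoind (localGaloisToGlobal ((q : Nat.Primes) : ℕ)) (levelS T)
      (AQ T ((q : Nat.Primes) : ℕ))) :
    toCS T (toISq T q f) = toCSq T q f := rfl

variable (hp2 : p ≠ 2) (hpT : pPrime p ∈ T) (V : Subgroup Γ)
  (hV : ∃ W ∈ (levelS T).sets, W ≤ V)

include hp2 hpT hV in
/-- A `p`-torsion class of `H²(V; I_T)` with non-zero image in `H²(V; C_T)`. -/
theorem exists_pTor_IS_ne_zero (q : ↥T) :
    ∃ x : H2 (comapBasis V.subtype (levelS T)) (Rep.res V.subtype (IS T)), p • x = 0 ∧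
      mapH2 (A := Rep.res V.subtype (IS T)) (B := Rep.res V.subtype (CS T)) (toCS T)
        (fun h a => toCS_ρ T (h : Γ) a) x ≠ 0 := by
  classical
  -- finiteness of `Γ ⧸ V`
  haveI : V.FiniteIndex := by
    obtain ⟨W, hW, hWV⟩ := hV
    haveI := (levelS T).isBasis.finiteIndex W hW
    exact Subgroup.finiteIndex_of_le hWV
  haveI : Finite (Γ ⧸ V) := Subgroup.finite_quotient_of_finiteIndex
  haveI : Fintype (Γ ⧸ V) := Fintype.ofFinite _
  set i := localGaloisToGlobal ((q : Nat.Primes) : ℕ) with hi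
  have hcont : IsLevelHom i (levelLocS ((q : Nat.Primes) : ℕ) T).sets (levelS T).sets :=
    fun U hU => ⟨_, ⟨U, hU, rfl⟩, le_rfl⟩
  have hind : ∀ W ∈ (levelLocS ((q : Nat.Primes) : ℕ) T).sets,
      ∃ U ∈ (levelS T).sets, U.comap i ≤ W := by
    rintro _ ⟨U, hU, rfl⟩
    exact ⟨U, hU, le_rfl⟩
  obtain ⟨x₀, hpx₀, hne, -⟩ := MackeyTrace6.exists_pTor_trace i (levelS T)
    (AQ T ((q : Nat.Primes) : ℕ)) V hV (levelLocS ((q : Nat.Primes) : ℕ) T) hcont hind
    (isDiscrete_AQ T ((q : Nat.Primes) : ℕ)) (fundFixedRep_AQ T ((q : Nat.Primes) : ℕ) p)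
    (fun x ⟨a, ha⟩ => BrDivSelf1.exists_nsmul_eq_H2_self (levelLocS ((q : Nat.Primes) : ℕ) T)
      (AQ T ((q : Nat.Primes) : ℕ)) (isDiscrete_AQ T ((q : Nat.Primes) : ℕ))
      (fundFixedRep_AQ T ((q : Nat.Primes) : ℕ) p)
      (BrLocS1.exists_level_pow_dvd_self T p hpT ((q : Nat.Primes) : ℕ)) x a ha)
    (BrSelf1.exists_ne_zero_H2_self (levelLocS ((q : Nat.Primes) : ℕ) T)
      (AQ T ((q : Nat.Primes) : ℕ)) (isDiscrete_AQ T ((q : Nat.Primes) : ℕ))
      (fundFixedRep_AQ T ((q : Nat.Primes) : ℕ) p)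
      (BrLocS1.hdiv_self T p hpT ((q : Nat.Primes) : ℕ)))
  set M := scoind i (levelS T) (AQ T ((q : Nat.Primes) : ℕ)) with hM
  have hMd : IsDiscrete (levelS T).sets M := isDiscrete_scoind i (levelS T) _
  set t := trV (levelS T) M V hMd x₀ with ht
  have ht0 : t ≠ 0 := fun h0 => hne (by rw [h0, map_zero])
  have hpt : p • t = 0 := by rw [ht, ← map_nsmul, hpx₀, map_zero]
  have h1 := ne_zero_of_scoind T p hp2 hpT q t hpt ht0
  have h2 := trV_natural (𝓑 := levelS T) (V := V) (toCSq T q) (toCSq_ρ T q) hMd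
    (isDiscrete_CS T) x₀
  refine ⟨mapH2 (resLin (V := V) (toISq T q)) (resLin_equivariant (V := V) (toISq T q)
    (toISq_ρ T q)) x₀, ?_, fun h0 => h1 ?_⟩
  · rw [← map_nsmul, hpx₀, map_zero]
  · rw [← h2]
    have h3 : mapH2 (resLin (V := V) (toCSq T q)) (resLin_equivariant (V := V) (toCSq T q)
        (toCSq_ρ T q)) x₀ =
      mapH2 (A := Rep.res V.subtype (IS T)) (B := Rep.res V.subtype (CS T)) (toCS T)
        (fun h a => toCS_ρ T (h : Γ) a)
        (mapH2 (resLin (V := V) (toISq T q)) (resLin_equivariant (V := V) (toISq T q)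
          (toISq_ρ T q)) x₀) := by
      obtain ⟨c, rfl⟩ := H2mk_surjective _ _ x₀
      rfl
    rw [h3, h0, map_zero]

include hp2 hpT hV in
/-- **(AR3)**, helper4's literal: `H²(V; I_T)[p] → H²(V; C_T)[p]` is onto, for every open `V ≤ Γ`. -/
theorem ar3 (y : H2 (comapBasis V.subtype (levelS T)) (Rep.res V.subtype (CS T)))
    (hy : p • y = 0) :
    ∃ x : H2 (comapBasis V.subtype (levelS T)) (Rep.res V.subtype (IS T)), p • x = 0 ∧
      mapH2 (A := Rep.res V.subtype (IS T)) (B := Rep.res V.subtype (CS T)) (toCS T)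
        (fun h a => toCS_ρ T (h : Γ) a) x = y := by
  obtain ⟨x₁, hpx₁, hx₁⟩ := exists_pTor_IS_ne_zero T p hp2 hpT V hV ⟨pPrime p, hpT⟩
  have hcard := BrGlob1.card_pTor_H2_CS T p hpT hp2 V hV
  set y₀ : pTor p (H2 (comapBasis V.subtype (levelS T)) (Rep.res V.subtype (CS T))) :=
    ⟨mapH2 (A := Rep.res V.subtype (IS T)) (B := Rep.res V.subtype (CS T)) (toCS T)
        (fun h a => toCS_ρ T (h : Γ) a) x₁, by
      show p • _ = 0
      rw [← map_nsmul, hpx₁, map_zero]⟩ with hy₀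
  have hy₀0 : y₀ ≠ 0 := fun h0 => hx₁ (congrArg Subtype.val h0)
  obtain ⟨n, hn⟩ : (⟨y, hy⟩ : pTor p (H2 (comapBasis V.subtype (levelS T))
      (Rep.res V.subtype (CS T)))) ∈ AddSubmonoid.multiples y₀ :=
    mem_multiples_of_prime_card hcard hy₀0
  refine ⟨n • x₁, ?_, ?_⟩
  · rw [smul_comm, hpx₁, smul_zero]
  · have h1 := congrArg Subtype.val hn
    rw [map_nsmul]
    exact h1

include hp2 hpT hV in
/-- **(AR3)** in the `TraceOpen8.resLin` vocabulary (helper4's literal 778; `resLin` carries a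
`Fintype (Γ ⧸ V)` instance argument, any instance will do). -/
theorem ar3_resLin [Fintype (Γ ⧸ V)]
    (y : H2 (comapBasis V.subtype (levelS T)) (Rep.res V.subtype (CS T))) (hy : p • y = 0) :
    ∃ x : H2 (comapBasis V.subtype (levelS T)) (Rep.res V.subtype (IS T)), p • x = 0 ∧
      mapH2 (resLin (V := V) (toCS T)) (resLin_equivariant (V := V) (toCS T) (toCS_ρ T)) x = y :=
  ar3 T p hp2 hpT V hV y hy

/-- **(AR3)**, fully quantified (lead 736(b) / helper4 778). -/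
theorem ar3_all (p : ℕ) [Fact p.Prime] (hp2 : p ≠ 2) (T : Finset Nat.Primes)
    (hpT : pPrime p ∈ T) :
    ∀ (V : Subgroup Γ) (_ : ∃ W ∈ (levelS T).sets, W ≤ V)
      (y : H2 (comapBasis V.subtype (levelS T)) (Rep.res V.subtype (CS T))), p • y = 0 →
      ∃ x : H2 (comapBasis V.subtype (levelS T)) (Rep.res V.subtype (IS T)), p • x = 0 ∧
        mapH2 (A := Rep.res V.subtype (IS T)) (B := Rep.res V.subtype (CS T)) (toCS T)
          (fun h a => toCS_ρ T (h : Γ) a) x = y :=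
  fun V hV y hy => ar3 T p hp2 hpT V hV y hy

end Fermat.Agent.W56.AR3Final6
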