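/-
Programme W56 (target S56), chapter (F) FLAT, the counts (helper3): **Kummer radicals for level
characters** (Hilbert 90 by Lagrange resolvents, inside `ℚ̄`).

`N` a subgroup of `Gal(ℚ̄/ℚ)` fixing a primitive `p`-th root of unity `ζ`, `g : N → ZMod p` additive
and of finite level (it vanishes on the elements of `N` fixing a finite extension `L` of `ℚ`).

* `exists_radical` : there is `θ ≠ 0` in `ℚ̄` with `σ θ = ζ ^ (g σ).val * θ` for all `σ ∈ N`
  (so `θ ^ p` is `N`-fixed and `g` is the Kummer character of `θ`).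

Route: `K` = normal closure of `L`, `M̄` = image in `Gal(K/ℚ)` of `ker g`; the powers
`τ₀^j`, `0 < j < p` (`g τ₀ = 1`) are not in `M̄`, hence act differently on the fixed field of `M̄`
(Galois correspondence at finite level); Dedekind independence of characters gives `y` fixed by
`ker g` whose resolvent `∑_j ζ^{-j} τ₀^j y` is nonzero.
-/
import Mathlib

set_option autoImplicit false

namespace Fermat.Agent.W56.KummerGen3

/-- `ℚ̄`. -/
abbrev Qb : Type := AlgebraicClosure ℚ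

/-- the absolute Galois group of `ℚ`. -/
abbrev GQ : Type := Qb ≃ₐ[ℚ] Qb

section additive

variable {p : ℕ} {N : Subgroup GQ} {g : N → ZMod p}

theorem map_one_eq_zero (hg : ∀ σ τ : N, g (σ * τ) = g σ + g τ) : g 1 = 0 := by
  have h := hg 1 1
  rw [mul_one] at h
  exact left_eq_add.mp h

theorem map_inv_eq_neg (hg : ∀ σ τ : N, g (σ * τ) = g σ + g τ) (σ : N) : g σ⁻¹ = -g σ := by
  have h := hg σ σ⁻¹
  rw [mul_inv_cancel, map_one_eq_zero hg] at h
  exact eq_neg_of_add_eq_zero_right h.symm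

theorem map_pow_eq (hg : ∀ σ τ : N, g (σ * τ) = g σ + g τ) (σ : N) (n : ℕ) :
    g (σ ^ n) = (n : ZMod p) * g σ := by
  induction n with
  | zero => simp [map_one_eq_zero hg]
  | succ n ih => rw [pow_succ, hg, ih]; push_cast; ring

end additive

/-- **Kummer radicals exist.** -/
theorem exists_radical {p : ℕ} (hp : p.Prime) (N : Subgroup GQ) (ζ : Qb)
    (hζ : IsPrimitiveRoot ζ p) (hζN : ∀ σ ∈ N, σ ζ = ζ) (g : N → ZMod p)
    (hg : ∀ σ τ : N, g (σ * τ) = g σ + g τ)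
    (L : IntermediateField ℚ Qb) [FiniteDimensional ℚ L]
    (hL : ∀ σ : N, (∀ x ∈ L, (σ : GQ) x = x) → g σ = 0) :
    ∃ θ : Qb, θ ≠ 0 ∧ ∀ σ : N, (σ : GQ) θ = ζ ^ (g σ).val * θ := by
  classical
  have : Fact p.Prime := ⟨hp⟩
  have : NeZero p := ⟨hp.ne_zero⟩
  by_cases hg0 : ∀ σ : N, g σ = 0
  · refine ⟨1, one_ne_zero, fun σ => ?_⟩
    rw [hg0 σ, ZMod.val_zero, pow_zero, mul_one, map_one]
  push Not at hg0
  obtain ⟨σ₁, hσ₁⟩ := hg0
  -- an element with `g τ₀ = 1`
  set τ₀ : N := σ₁ ^ ((g σ₁)⁻¹).val with hτ₀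
  have hgτ₀ : g τ₀ = 1 := by
    rw [hτ₀, map_pow_eq hg, ZMod.natCast_zmod_val, inv_mul_cancel₀ hσ₁]
  have hgpow : ∀ n : ℕ, g (τ₀ ^ n) = (n : ZMod p) := by
    intro n
    rw [map_pow_eq hg, hgτ₀, mul_one]
  have hζ0 : ζ ≠ 0 := hζ.ne_zero hp.ne_zero
  have hζp : ζ ^ p = 1 := hζ.pow_eq_one
  -- the finite level
  set K : IntermediateField ℚ Qb := IntermediateField.normalClosure ℚ L Qb with hK
  have hcl : IsAlgClosure ℚ Qb := by
    have h : (DivisionRing.toRatAlgebra : Algebra ℚ Qb) = AlgebraicClosure.instAlgebra ℚ :=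
      Subsingleton.elim _ _
    rw [h]
    infer_instance
  have : Normal ℚ Qb := IsAlgClosure.normal ℚ Qb
  have : FiniteDimensional ℚ K := by rw [hK]; infer_instance
  have : Normal ℚ K := by rw [hK]; exact normalClosure.normal ℚ L Qb
  set r : GQ →* (K ≃ₐ[ℚ] K) := AlgEquiv.restrictNormalHom K with hr
  have hrc : ∀ (σ : GQ) (x : K), ((r σ x : K) : Qb) = σ (x : Qb) := fun σ x =>
    AlgEquiv.restrictNormal_commutes σ K x
  -- elements of `N` restricting to the identity on `K` are killed by `g`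
  have hker : ∀ σ : N, r (σ : GQ) = 1 → g σ = 0 := by
    intro σ hσ
    refine hL σ fun x hx => ?_
    have hxK : x ∈ K := IntermediateField.le_normalClosure L hx
    have := hrc (σ : GQ) ⟨x, hxK⟩
    rw [hσ] at this
    exact this.symm
  -- the image of `ker g`
  set Mbar : Subgroup (K ≃ₐ[ℚ] K) :=
    { carrier := {s | ∃ σ : N, g σ = 0 ∧ r (σ : GQ) = s}
      mul_mem' := by
        rintro _ _ ⟨σ, hσ, rfl⟩ ⟨τ, hτ, rfl⟩
        exact ⟨σ * τ, by rw [hg, hσ, hτ, add_zero], by rw [Subgroup.coe_mul, map_mul]⟩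
      one_mem' := ⟨1, map_one_eq_zero hg, by rw [Subgroup.coe_one, map_one]⟩
      inv_mem' := by
        rintro _ ⟨σ, hσ, rfl⟩
        exact ⟨σ⁻¹, by rw [map_inv_eq_neg hg, hσ, neg_zero], by rw [Subgroup.coe_inv, map_inv]⟩ }
    with hMbar
  have hnot : ∀ j : ℕ, ¬ (p ∣ j) → r ((τ₀ ^ j : N) : GQ) ∉ Mbar := by
    rintro j hj ⟨σ, hσ, hσr⟩
    -- `σ⁻¹ τ₀^j` restricts to the identity
    have h1 : r ((σ⁻¹ * τ₀ ^ j : N) : GQ) = 1 := by
      rw [Subgroup.coe_mul, map_mul, Subgroup.coe_inv, map_inv, hσr, inv_mul_cancel]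
    have h2 := hker _ h1
    rw [hg, map_inv_eq_neg hg, hσ, neg_zero, zero_add, hgpow] at h2
    exact hj ((ZMod.natCast_eq_zero_iff j p).1 h2)
  -- the fixed field of `Mbar`
  set E : IntermediateField ℚ K := IntermediateField.fixedField Mbar with hE
  have hfix : IntermediateField.fixingSubgroup E = Mbar :=
    IntermediateField.fixingSubgroup_fixedField Mbar
  -- elements of `E` are fixed by `ker g`
  have hEfix : ∀ (y : E) (σ : N), g σ = 0 → (σ : GQ) ((y : K) : Qb) = ((y : K) : Qb) := by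
    intro y σ hσ
    have h1 : r (σ : GQ) ∈ Mbar := ⟨σ, hσ, rfl⟩
    have h2 : r (σ : GQ) (y : K) = (y : K) :=
      (IntermediateField.mem_fixedField_iff Mbar (y : K)).1 y.2 _ h1
    rw [← hrc, h2]
  -- the characters `y ↦ τ₀^j y`
  set χ : Fin p → (E →* Qb) := fun j =>
    { toFun := fun y => ((τ₀ ^ (j : ℕ) : N) : GQ) ((y : K) : Qb)
      map_one' := by simp
      map_mul' := fun a b => by simp } with hχ
  have hχinj : Function.Injective χ := by
    intro i j hij
    by_contra hne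
    -- wlog `i < j`
    have key : ∀ a b : Fin p, (a : ℕ) < b → χ a = χ b → False := by
      intro a b hab heq
      have hd : ¬ p ∣ ((b : ℕ) - a) := by
        intro hdvd
        have h1 : (b : ℕ) - a < p := lt_of_le_of_lt (Nat.sub_le _ _) b.2
        have h2 : 0 < (b : ℕ) - a := Nat.sub_pos_of_lt hab
        exact absurd (Nat.le_of_dvd h2 hdvd) (not_le.2 h1)
      apply hnot _ hd
      rw [← hfix, IntermediateField.mem_fixingSubgroup_iff]
      intro y hy
      have h3 := DFunLike.congr_fun heq ⟨y, hy⟩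
      simp only [hχ, MonoidHom.coe_mk, OneHom.coe_mk] at h3
      -- `τ₀^a y = τ₀^b y`, so `τ₀^(b-a) y = y`
      have h4 : (τ₀ ^ (b : ℕ) : N) = τ₀ ^ (a : ℕ) * τ₀ ^ ((b : ℕ) - a) := by
        rw [← pow_add, Nat.add_sub_cancel' hab.le]
      rw [h4, Subgroup.coe_mul, AlgEquiv.mul_apply] at h3
      have h5 := (((τ₀ ^ (a : ℕ) : N) : GQ)).injective h3
      apply Subtype.ext
      rw [hrc]
      exact h5.symm
    rcases lt_or_gt_of_ne (fun h => hne (Fin.ext h)) with h | h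
    · exact key i j h hij
    · exact key j i h hij.symm
  have hli : LinearIndependent Qb fun j : Fin p => (χ j : E → Qb) :=
    (linearIndependent_monoidHom E Qb).comp χ hχinj
  -- a nonzero resolvent
  obtain ⟨y, hy⟩ : ∃ y : E, ∑ j : Fin p, (ζ⁻¹) ^ (j : ℕ) * χ j y ≠ 0 := by
    by_contra hall
    push Not at hall
    have h1 : ∑ j : Fin p, ((ζ⁻¹) ^ (j : ℕ)) • (χ j : E → Qb) = 0 := by
      funext y
      simp only [Finset.sum_apply, Pi.smul_apply, smul_eq_mul, Pi.zero_apply]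
      exact hall y
    have h2 := (Fintype.linearIndependent_iff.1 hli) (fun j => (ζ⁻¹) ^ (j : ℕ)) h1 ⟨0, hp.pos⟩
    simp at h2
  -- the periodic summand
  set y' : Qb := ((y : K) : Qb) with hy'
  set T : ℕ → Qb := fun n => (ζ⁻¹) ^ n * ((τ₀ ^ n : N) : GQ) y' with hT
  have hτp : ((τ₀ ^ p : N) : GQ) y' = y' :=
    hEfix y _ (by rw [hgpow, ZMod.natCast_self])
  have hper : Function.Periodic T p := by
    intro n
    simp only [hT]
    rw [pow_add, inv_pow ζ p, hζp, inv_one, mul_one, pow_add, Subgroup.coe_mul,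
      AlgEquiv.mul_apply, hτp]
  set θ : Qb := ∑ a : ZMod p, T a.val with hθ
  have hθ0 : θ ≠ 0 := by
    intro h0
    apply hy
    rw [← h0, hθ]
    -- reindex `Fin p ≃ ZMod p`
    obtain ⟨n, rfl⟩ : ∃ n, p = n + 1 := ⟨p - 1, (Nat.sub_add_cancel hp.pos).symm⟩
    rfl
  refine ⟨θ, hθ0, fun σ => ?_⟩
  set b : ℕ := (g σ).val with hb
  -- `σ (T n) = ζ^b * T (n + b)`
  have hσT : ∀ n : ℕ, (σ : GQ) (T n) = ζ ^ b * T (n + b) := by
    intro n
    simp only [hT]
    have h1 : (σ : GQ) ζ⁻¹ = ζ⁻¹ := by rw [map_inv₀, hζN _ σ.2]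
    -- `σ τ₀^n = τ₀^(n+b) m` with `g m = 0`
    set m : N := (τ₀ ^ (n + b))⁻¹ * (σ * τ₀ ^ n) with hm
    have hgm : g m = 0 := by
      rw [hm, hg, map_inv_eq_neg hg, hg, hgpow, hgpow, hb]
      push_cast
      rw [ZMod.natCast_zmod_val]
      ring
    have h2 : σ * τ₀ ^ n = τ₀ ^ (n + b) * m := by rw [hm, mul_inv_cancel_left]
    have h3 : (σ : GQ) (((τ₀ ^ n : N) : GQ) y') = ((τ₀ ^ (n + b) : N) : GQ) y' := by
      have : ((σ * τ₀ ^ n : N) : GQ) y' = ((τ₀ ^ (n + b) * m : N) : GQ) y' := by rw [h2]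
      rw [Subgroup.coe_mul, AlgEquiv.mul_apply, Subgroup.coe_mul, AlgEquiv.mul_apply,
        hEfix y m hgm] at this
      exact this
    have hz : (ζ⁻¹) ^ n = ζ ^ b * (ζ⁻¹) ^ (n + b) := by
      rw [pow_add, mul_comm ((ζ⁻¹) ^ n), ← mul_assoc, ← mul_pow, mul_inv_cancel₀ hζ0, one_pow,
        one_mul]
    rw [map_mul, map_pow, h1, h3, ← mul_assoc, ← hz]
  rw [hθ, map_sum, Finset.mul_sum]
  -- reindex by `a ↦ a + b`
  have hshift : ∀ a : ZMod p, T (a.val + b) = T (a + (b : ZMod p)).val := by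
    intro a
    rw [ZMod.val_add, ZMod.val_natCast, Nat.add_mod_mod, hper.map_mod_nat]
  calc ∑ a : ZMod p, (σ : GQ) (T a.val) = ∑ a : ZMod p, ζ ^ b * T (a + (b : ZMod p)).val :=
        Finset.sum_congr rfl fun a _ => by rw [hσT, hshift]
    _ = ∑ a : ZMod p, ζ ^ b * T a.val :=
        Equiv.sum_comp (Equiv.addRight (b : ZMod p)) fun a : ZMod p => ζ ^ b * T a.val

end Fermat.Agent.W56.KummerGen3
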