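/-
Programme W56 (target S56), chapter (F) FLAT, the counts (helper3): **levels of principal units
modulo `p`-th powers**, by bare hands.

Abstract setting (`Setting`): a field `F` with a valuation `v`, a group `G` acting on `F` by ring
automorphisms which preserve `v` and are inertial (`v x ≤ 1 → v (g • x - x) < 1`); `L0 = F^G`
(`FixedPoints.subfield G F`); `ζ ∈ L0` a primitive `p`-th root of unity (`p` odd), `π₀ ∈ L0` a
uniformiser of `L0` (every nonzero element of `L0` has value `v π₀ ^ n`), `v (ζ - 1) = v π₀ ^ m`,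
`v p = v π₀ ^ ((p-1) m)`; the residue field of `L0` is perfect (`hres`).
[Instance: `F = ℚ̄`, `v` a place over `p`, `G = N` a subgroup of the inertia group.]

`Lev S α i a` : `α = β ^ p * (1 + x)` with `β ∈ L0ˣ` and `x ≡ a π₀^i` modulo `π₀^i 𝔪`
("`α` has level `≥ i` with `i`-th coefficient `a`").

* `Lev.mul`, `Lev.one`, `Lev.mul_pow` : group structure;
* `Lev.rigid` : for `p ∤ i`, `i < p m` the coefficient is well defined modulo `𝔪`;
* `Lev.improve` (`v a < 1`), `Lev.improve_of_dvd` (`p ∣ i`) : the level can be raised;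
* `Lev.isPow_of_top` : level `≥ p m` ⟹ `α` is a `p`-th power in `L0` (every `p`-th root is
  `G`-fixed: no Hensel, only inertiality);
* `Lev.normal_form` : `α ∈ L0` of level `≥ i₁ ≥ 1` is a `p`-th power in `L0` or has an exact level
  `i ≥ i₁`, `p ∤ i`, `i < p m`, with a unit coefficient;
* `Lev.map` : transport by a ring automorphism `s` of `F` preserving `v` and `L0` and acting on
  residues as `x ↦ x ^ q` (inertia: `q = 1`; Frobenius lifts: `q = p^f`).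
-/
import Mathlib
import Fermat.Agent.U44.KummerBreak9

set_option autoImplicit false

namespace Fermat.Agent.W56.UnitLevel3

open Fermat.Agent.U44.KummerBreak9

variable {F : Type*} [Field F] {Γ₀ : Type*} [LinearOrderedCommGroupWithZero Γ₀]

/-- the standing hypotheses. -/
structure Setting (v : Valuation F Γ₀) (G : Type*) [Group G] [MulSemiringAction G F]
    (p : ℕ) (ζ π₀ : F) (m : ℕ) : Prop where
  hp : p.Prime
  hp2 : p ≠ 2
  hGv : ∀ (g : G) (x : F), v (g • x) = v x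
  hGin : ∀ (g : G) (x : F), v x ≤ 1 → v (g • x - x) < 1
  hζ : IsPrimitiveRoot ζ p
  hζfix : ∀ g : G, g • ζ = ζ
  hπfix : ∀ g : G, g • π₀ = π₀
  hπ1 : v π₀ < 1
  hπ0 : π₀ ≠ 0
  hm : 0 < m
  hζv : v (ζ - 1) = v π₀ ^ m
  hpv : v (p : F) = v π₀ ^ ((p - 1) * m)
  hval : ∀ x : F, (∀ g : G, g • x = x) → x ≠ 0 → ∃ n : ℤ, v x = v π₀ ^ n
  hres : ∀ u : F, (∀ g : G, g • u = u) → v u ≤ 1 →
    ∃ c : F, (∀ g : G, g • c = c) ∧ v (c ^ p - u) < 1

variable {v : Valuation F Γ₀} {G : Type*} [Group G] [MulSemiringAction G F]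
  {p : ℕ} {ζ π₀ : F} {m : ℕ}

/-- the fixed field. -/
abbrev L0 (G : Type*) [Group G] [MulSemiringAction G F] : Subfield F := FixedPoints.subfield G F

theorem mem_L0 {x : F} : x ∈ L0 (F := F) G ↔ ∀ g : G, g • x = x := Iff.rfl

namespace Setting

variable (S : Setting v G p ζ π₀ m)
include S

theorem pi_mem : π₀ ∈ L0 (F := F) G := S.hπfix

theorem zeta_mem : ζ ∈ L0 (F := F) G := S.hζfix

theorem vpi_pos : 0 < v π₀ := (Valuation.pos_iff v).2 S.hπ0

theorem vpi_ne : v π₀ ≠ 0 := S.vpi_pos.ne'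

theorem pow_le_pow {i j : ℕ} (h : i ≤ j) : v π₀ ^ j ≤ v π₀ ^ i :=
  (pow_le_pow_iff_right_of_lt_one₀ S.vpi_pos S.hπ1).2 h

theorem pow_lt_pow {i j : ℕ} (h : i < j) : v π₀ ^ j < v π₀ ^ i :=
  pow_lt_pow_right_of_lt_one₀ S.vpi_pos S.hπ1 h

theorem pow_le_pow_iff {i j : ℕ} : v π₀ ^ j ≤ v π₀ ^ i ↔ i ≤ j :=
  pow_le_pow_iff_right_of_lt_one₀ S.vpi_pos S.hπ1

theorem pow_pos' (i : ℕ) : 0 < v π₀ ^ i := pow_pos S.vpi_pos i

theorem pow_lt_one {i : ℕ} (hi : 1 ≤ i) : v π₀ ^ i < 1 :=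
  pow_lt_one₀ zero_le S.hπ1 (by omega)

/-- **discreteness**: an element of `L0` of value `< ϖ^i` has value `≤ ϖ^(i+1)`. -/
theorem le_succ_of_lt {x : F} (hx : x ∈ L0 (F := F) G) {i : ℕ} (h : v x < v π₀ ^ i) :
    v x ≤ v π₀ ^ (i + 1) := by
  by_cases hx0 : x = 0
  · rw [hx0, map_zero]; exact zero_le
  obtain ⟨n, hn⟩ := S.hval x hx hx0
  rw [hn, ← zpow_natCast, zpow_lt_zpow_iff_right_of_lt_one₀ S.vpi_pos S.hπ1] at h
  rw [hn, ← zpow_natCast, zpow_le_zpow_iff_right_of_lt_one₀ S.vpi_pos S.hπ1]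
  push_cast
  omega

/-- an element of `L0` of value `< 1` has value `ϖ^j`, `j ≥ 1`. -/
theorem exists_pow_of_lt_one {x : F} (hx : x ∈ L0 (F := F) G) (hx0 : x ≠ 0) (h : v x < 1) :
    ∃ j : ℕ, 1 ≤ j ∧ v x = v π₀ ^ j := by
  obtain ⟨n, hn⟩ := S.hval x hx hx0
  rw [hn, zpow_lt_one_iff_right_of_lt_one₀ S.vpi_pos S.hπ1] at h
  refine ⟨n.toNat, by omega, ?_⟩
  rw [hn, ← zpow_natCast]
  congr 1
  omega

theorem zeta_ne_one : ζ ≠ 1 := S.hζ.ne_one S.hp.one_lt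

theorem lam_ne_zero : ζ - 1 ≠ 0 := sub_ne_zero.2 S.zeta_ne_one

theorem vp_lt_one : v (p : F) < 1 := by
  rw [S.hpv]
  refine S.pow_lt_one ?_
  have : 1 ≤ p - 1 := by have := S.hp.two_le; omega
  exact Nat.one_le_iff_ne_zero.2 (Nat.mul_ne_zero (by omega) S.hm.ne')

theorem vp_ne_zero : (p : F) ≠ 0 := by
  intro h
  have := S.hpv
  rw [h, map_zero] at this
  exact (S.pow_pos' _).ne this

/-- the binomial expansion `(1 + y)^p = 1 + y^p + p y w`. -/
theorem one_add_pow (y : F) (hy : v y ≤ 1) :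
    ∃ w : F, v w ≤ 1 ∧ (1 + y) ^ p = 1 + y ^ p + p * y * w := by
  obtain ⟨r, hr⟩ := exists_add_pow_prime_eq S.hp (1 : v.integer) ⟨y, hy⟩
  refine ⟨(r : F), r.2, ?_⟩
  have := congrArg (fun z : v.integer => (z : F)) hr
  simpa using this

/-- `v β = 1` if `v (β^p - 1) < 1`. -/
theorem v_eq_one_of_pow {β : F} (h : v (β ^ p - 1) < 1) : v β = 1 := by
  have h1 : v (β ^ p) = 1 := by
    have : β ^ p = 1 + (β ^ p - 1) := by ring
    rw [this]
    exact Valuation.map_one_add_of_lt _ h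
  rw [map_pow] at h1
  exact (pow_eq_one_iff_of_nonneg zero_le S.hp.ne_zero).1 h1

/-- `v (β - 1) < 1` if `v (β^p - 1) < 1`. -/
theorem v_sub_one_lt_of_pow {β : F} (h : v (β ^ p - 1) < 1) : v (β - 1) < 1 := by
  have hβ : v β = 1 := S.v_eq_one_of_pow h
  have hy : v (β - 1) ≤ 1 := by
    refine le_trans (Valuation.map_sub _ _ _) ?_
    rw [hβ, map_one, max_self]
  obtain ⟨w, hw, hexp⟩ := S.one_add_pow (β - 1) hy
  rw [add_sub_cancel] at hexp
  -- `(β-1)^p = (β^p - 1) - p (β-1) w`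
  have h2 : (β - 1) ^ p = (β ^ p - 1) - p * (β - 1) * w := by rw [hexp]; ring
  have h3 : v ((β - 1) ^ p) < 1 := by
    rw [h2]
    refine lt_of_le_of_lt (Valuation.map_sub _ _ _) (max_lt h ?_)
    rw [map_mul, map_mul]
    calc v (p : F) * v (β - 1) * v w ≤ v (p : F) * 1 * 1 := by gcongr
      _ = v (p : F) := by rw [mul_one, mul_one]
      _ < 1 := S.vp_lt_one
  rw [map_pow] at h3
  by_contra hcon
  have h4 : v (β - 1) = 1 := le_antisymm hy (not_lt.1 hcon)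
  rw [h4, one_pow] at h3
  exact lt_irrefl _ h3


theorem pred_add_one : p - 1 + 1 = p := Nat.sub_add_cancel S.hp.pos

theorem p_mul (j : ℕ) : p * j = (p - 1) * j + j := by
  conv_lhs => rw [← S.pred_add_one]
  ring

/-- `v (p y w) ≤ ϖ^((p-1) m + j)` if `v y ≤ ϖ^j`, `v w ≤ 1`. -/
theorem v_pyw_le {y w : F} {j : ℕ} (hy : v y ≤ v π₀ ^ j) (hw : v w ≤ 1) :
    v ((p : F) * y * w) ≤ v π₀ ^ ((p - 1) * m + j) := by
  rw [map_mul, map_mul, S.hpv, pow_add]
  calc v π₀ ^ ((p - 1) * m) * v y * v w ≤ v π₀ ^ ((p - 1) * m) * v π₀ ^ j * 1 := by gcongr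
    _ = v π₀ ^ ((p - 1) * m) * v π₀ ^ j := mul_one _

/-- **`p`-th powers are deep**: a `p`-th power of `L0` which is `≡ 1` modulo `π₀^i`, `p ∤ i`,
`i < p m`, is `≡ 1` modulo `π₀^(i+1)`. -/
theorem pow_sub_one_le_succ {β : F} (hβ : β ∈ L0 (F := F) G) {i : ℕ} (hi1 : 1 ≤ i)
    (hpi : ¬ p ∣ i) (hi : i < p * m) (h : v (β ^ p - 1) ≤ v π₀ ^ i) :
    v (β ^ p - 1) ≤ v π₀ ^ (i + 1) := by
  have hlt : v (β ^ p - 1) < 1 := lt_of_le_of_lt h (S.pow_lt_one hi1)
  have hy1 : v (β - 1) < 1 := S.v_sub_one_lt_of_pow hlt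
  have hymem : β - 1 ∈ L0 (F := F) G := sub_mem hβ (one_mem _)
  by_cases hy0 : β - 1 = 0
  · have : β = 1 := sub_eq_zero.1 hy0
    rw [this, one_pow, sub_self, map_zero]
    exact zero_le
  obtain ⟨j, hj1, hj⟩ := S.exists_pow_of_lt_one hymem hy0 hy1
  obtain ⟨w, hw, hexp⟩ := S.one_add_pow (β - 1) hy1.le
  rw [add_sub_cancel] at hexp
  have hdec : β ^ p - 1 = (β - 1) ^ p + p * (β - 1) * w := by rw [hexp]; ring
  have hA : v ((β - 1) ^ p) = v π₀ ^ (p * j) := by rw [map_pow, hj, ← pow_mul, mul_comm]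
  have hB : v ((p : F) * (β - 1) * w) ≤ v π₀ ^ ((p - 1) * m + j) := S.v_pyw_le hj.le hw
  by_cases hjm : j < m
  · have hlt2 : p * j < (p - 1) * m + j := by
      rw [S.p_mul j]
      have h1 : 1 ≤ p - 1 := by have := S.hp.two_le; omega
      have : (p - 1) * j < (p - 1) * m := Nat.mul_lt_mul_of_pos_left hjm (by omega)
      omega
    have hlt3 : v ((p : F) * (β - 1) * w) < v ((β - 1) ^ p) := by
      rw [hA]
      exact lt_of_le_of_lt hB (S.pow_lt_pow hlt2)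
    have heq : v (β ^ p - 1) = v π₀ ^ (p * j) := by
      rw [hdec, Valuation.map_add_eq_of_lt_left _ hlt3, hA]
    rw [heq] at h ⊢
    have h1 : i ≤ p * j := S.pow_le_pow_iff.1 h
    have h2 : i ≠ p * j := fun h => hpi ⟨j, h⟩
    exact S.pow_le_pow (by omega)
  · push Not at hjm
    have hpm : p * m = (p - 1) * m + m := S.p_mul m
    rw [hdec]
    refine le_trans (Valuation.map_add _ _ _) (max_le ?_ ?_)
    · rw [hA]
      refine S.pow_le_pow ?_
      have : p * m ≤ p * j := Nat.mul_le_mul_left p hjm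
      omega
    · refine le_trans hB (S.pow_le_pow ?_)
      omega

end Setting

/-- `α` has level `≥ i` with `i`-th coefficient `a`: `α = β^p (1 + x)`, `β ∈ L0ˣ`,
`x ≡ a π₀^i` modulo `π₀^i 𝔪`. -/
def Lev (v : Valuation F Γ₀) (G : Type*) [Group G] [MulSemiringAction G F] (p : ℕ) (π₀ : F)
    (α : F) (i : ℕ) (a : F) : Prop :=
  ∃ β x : F, β ∈ L0 (F := F) G ∧ β ≠ 0 ∧ α = β ^ p * (1 + x) ∧ v a ≤ 1 ∧
    v (x - a * π₀ ^ i) < v π₀ ^ i

namespace Lev

variable (S : Setting v G p ζ π₀ m)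
include S

/-- the basic estimate `v x ≤ ϖ^i`. -/
theorem vx_le {x a : F} {i : ℕ} (ha : v a ≤ 1) (hx : v (x - a * π₀ ^ i) < v π₀ ^ i) :
    v x ≤ v π₀ ^ i := by
  have : x = (x - a * π₀ ^ i) + a * π₀ ^ i := by ring
  rw [this]
  refine le_trans (Valuation.map_add _ _ _) (max_le hx.le ?_)
  rw [map_mul, map_pow]
  exact mul_le_of_le_one_left zero_le ha

theorem vx_lt {x a : F} {i : ℕ} (ha : v a < 1) (hx : v (x - a * π₀ ^ i) < v π₀ ^ i) :
    v x < v π₀ ^ i := by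
  have : x = (x - a * π₀ ^ i) + a * π₀ ^ i := by ring
  rw [this]
  refine lt_of_le_of_lt (Valuation.map_add _ _ _) (max_lt hx ?_)
  rw [map_mul, map_pow]
  exact mul_lt_of_lt_one_left (S.pow_pos' i) ha

omit S in
theorem one (hπ : π₀ ≠ 0) (i : ℕ) : Lev v G p π₀ 1 i 0 := by
  refine ⟨1, 0, one_mem _, one_ne_zero, by simp, by simp, ?_⟩
  rw [zero_mul, sub_zero, map_zero]
  exact pow_pos ((Valuation.pos_iff v).2 hπ) i

omit S in
theorem mul_pow_mem {α a : F} {i : ℕ} (h : Lev v G p π₀ α i a) {γ : F}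
    (hγ : γ ∈ L0 (F := F) G) (hγ0 : γ ≠ 0) : Lev v G p π₀ (γ ^ p * α) i a := by
  obtain ⟨β, x, hβ, hβ0, hα, ha, hx⟩ := h
  exact ⟨γ * β, x, mul_mem hγ hβ, mul_ne_zero hγ0 hβ0, by rw [hα, mul_pow, mul_assoc], ha, hx⟩

theorem mul {α α' a a' : F} {i : ℕ} (hi : 1 ≤ i) (h : Lev v G p π₀ α i a)
    (h' : Lev v G p π₀ α' i a') (haa : v (a + a') ≤ 1) :
    Lev v G p π₀ (α * α') i (a + a') := by
  obtain ⟨β, x, hβ, hβ0, hα, ha, hx⟩ := h
  obtain ⟨β', x', hβ', hβ0', hα', ha', hx'⟩ := h'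
  refine ⟨β * β', x + x' + x * x', mul_mem hβ hβ', mul_ne_zero hβ0 hβ0', ?_, haa, ?_⟩
  · rw [hα, hα']; ring
  · have h1 : x + x' + x * x' - (a + a') * π₀ ^ i
        = (x - a * π₀ ^ i) + (x' - a' * π₀ ^ i) + x * x' := by ring
    rw [h1]
    refine lt_of_le_of_lt (Valuation.map_add _ _ _) (max_lt ?_ ?_)
    · exact lt_of_le_of_lt (Valuation.map_add _ _ _) (max_lt hx hx')
    · rw [map_mul]
      have h2 : v x ≤ v π₀ ^ i := vx_le S ha hx
      have h3 : v x' ≤ v π₀ ^ i := vx_le S ha' hx'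
      calc v x * v x' ≤ v π₀ ^ i * v π₀ ^ i := by gcongr
        _ < v π₀ ^ i * 1 := by
            have := S.pow_lt_one hi
            exact mul_lt_mul_of_pos_left this (S.pow_pos' i)
        _ = v π₀ ^ i := mul_one _

/-- inverses. -/
theorem inv {α a : F} {i : ℕ} (hi : 1 ≤ i) (h : Lev v G p π₀ α i a) :
    Lev v G p π₀ α⁻¹ i (-a) := by
  obtain ⟨β, x, hβ, hβ0, hα, ha, hx⟩ := h
  have hvx : v x ≤ v π₀ ^ i := vx_le S ha hx
  have h1x : v (1 + x) = 1 :=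
    Valuation.map_one_add_of_lt _ (lt_of_le_of_lt hvx (S.pow_lt_one hi))
  have h1x0 : 1 + x ≠ 0 := by
    intro h0; rw [h0, map_zero] at h1x; exact zero_ne_one h1x
  refine ⟨β⁻¹, (1 + x)⁻¹ - 1, inv_mem hβ, inv_ne_zero hβ0, ?_, by rwa [Valuation.map_neg], ?_⟩
  · rw [hα, mul_inv, inv_pow]; ring
  · have h1 : (1 + x)⁻¹ - 1 - -a * π₀ ^ i = -(x - a * π₀ ^ i) + x * x * (1 + x)⁻¹ := by
      field_simp
      ring
    rw [h1]
    refine lt_of_le_of_lt (Valuation.map_add _ _ _) (max_lt (by rw [Valuation.map_neg]; exact hx) ?_)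
    rw [map_mul, map_mul, map_inv₀, h1x, inv_one, mul_one]
    calc v x * v x ≤ v π₀ ^ i * v π₀ ^ i := by gcongr
      _ < v π₀ ^ i * 1 := mul_lt_mul_of_pos_left (S.pow_lt_one hi) (S.pow_pos' i)
      _ = v π₀ ^ i := mul_one _

omit S in
/-- `x ∈ L0` when `α ∈ L0`. -/
theorem x_mem {α β x : F} (hα : α ∈ L0 (F := F) G) (hβ : β ∈ L0 (F := F) G) (hβ0 : β ≠ 0)
    (h : α = β ^ p * (1 + x)) : x ∈ L0 (F := F) G := by
  have : x = α / β ^ p - 1 := by
    rw [h]; field_simp; ring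
  rw [this]
  exact sub_mem (div_mem hα (pow_mem hβ p)) (one_mem _)

/-- **rigidity**: the coefficient at a level `i`, `p ∤ i`, `i < p m`, is well defined modulo
`𝔪`. -/
theorem rigid {α a a' : F} {i : ℕ} (hi1 : 1 ≤ i) (hpi : ¬ p ∣ i) (hi : i < p * m)
    (h : Lev v G p π₀ α i a) (h' : Lev v G p π₀ α i a') : v (a - a') < 1 := by
  obtain ⟨β, x, hβ, hβ0, hα, ha, hx⟩ := h
  obtain ⟨β', x', hβ', hβ0', hα', ha', hx'⟩ := h'
  have hvx : v x ≤ v π₀ ^ i := vx_le S ha hx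
  have hvx' : v x' ≤ v π₀ ^ i := vx_le S ha' hx'
  have h1x' : v (1 + x') = 1 :=
    Valuation.map_one_add_of_lt _ (lt_of_le_of_lt hvx' (S.pow_lt_one hi1))
  have h1x'0 : 1 + x' ≠ 0 := by
    intro h0; rw [h0, map_zero] at h1x'; exact zero_ne_one h1x'
  -- `γ = β / β'`, `γ^p = (1 + x') / (1 + x)`... we use `γ = β' / β`
  set γ : F := β / β' with hγ
  have hγmem : γ ∈ L0 (F := F) G := div_mem hβ hβ'
  have hγp : γ ^ p - 1 = (x' - x) / (1 + x') * ((1 + x)⁻¹ * (1 + x')) := by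
    have h1x : v (1 + x) = 1 :=
      Valuation.map_one_add_of_lt _ (lt_of_le_of_lt hvx (S.pow_lt_one hi1))
    have h1x0 : 1 + x ≠ 0 := by
      intro h0; rw [h0, map_zero] at h1x; exact zero_ne_one h1x
    have hrel : β ^ p * (1 + x) = β' ^ p * (1 + x') := by rw [← hα, ← hα']
    have : γ ^ p = (1 + x') / (1 + x) := by
      rw [hγ, div_pow, div_eq_div_iff (pow_ne_zero p hβ0') h1x0, hrel, mul_comm]
    rw [this]
    field_simp
    ring
  have h1x : v (1 + x) = 1 :=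
    Valuation.map_one_add_of_lt _ (lt_of_le_of_lt hvx (S.pow_lt_one hi1))
  have hvγ : v (γ ^ p - 1) = v (x' - x) := by
    rw [hγp, map_mul, map_mul, map_div₀, map_inv₀, h1x, h1x', inv_one, one_mul, div_one, mul_one]
  have hle : v (x' - x) ≤ v π₀ ^ i :=
    le_trans (Valuation.map_sub _ _ _) (max_le hvx' hvx)
  have hdeep : v (x' - x) ≤ v π₀ ^ (i + 1) := by
    rw [← hvγ]
    exact S.pow_sub_one_le_succ hγmem hi1 hpi hi (by rw [hvγ]; exact hle)
  have hlt : v (x' - x) < v π₀ ^ i := lt_of_le_of_lt hdeep (S.pow_lt_pow (Nat.lt_succ_self i))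
  have hkey : (a - a') * π₀ ^ i = (x' - a' * π₀ ^ i) - (x - a * π₀ ^ i) - (x' - x) := by ring
  have h2 : v ((a - a') * π₀ ^ i) < v π₀ ^ i := by
    rw [hkey]
    refine lt_of_le_of_lt (Valuation.map_sub _ _ _) (max_lt ?_ hlt)
    exact lt_of_le_of_lt (Valuation.map_sub _ _ _) (max_lt hx' hx)
  rw [map_mul, map_pow] at h2
  by_contra hcon
  push Not at hcon
  have := mul_le_mul_of_nonneg_right hcon (S.pow_pos' i).le
  rw [one_mul] at this
  exact absurd h2 (not_lt.2 this)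

/-- **raising the level** when the coefficient is in `𝔪`. -/
theorem improve {α a : F} {i : ℕ} (hα : α ∈ L0 (F := F) G) (h : Lev v G p π₀ α i a)
    (ha1 : v a < 1) : ∃ a' : F, Lev v G p π₀ α (i + 1) a' := by
  obtain ⟨β, x, hβ, hβ0, hαe, ha, hx⟩ := h
  have hxmem : x ∈ L0 (F := F) G := x_mem hα hβ hβ0 hαe
  have hvx : v x ≤ v π₀ ^ (i + 1) := S.le_succ_of_lt hxmem (vx_lt S ha1 hx)
  have hπ0 : π₀ ^ (i + 1) ≠ 0 := pow_ne_zero _ S.hπ0
  refine ⟨x / π₀ ^ (i + 1), β, x, hβ, hβ0, hαe, ?_, ?_⟩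
  · rw [map_div₀, map_pow]
    exact div_le_one_of_le₀ hvx zero_le
  · rw [div_mul_cancel₀ _ hπ0, sub_self, map_zero]
    exact S.pow_pos' _

/-- **raising the level** when `p ∣ i` (the residue field of `L0` is perfect). -/
theorem improve_of_dvd {α a : F} {j : ℕ} (hα : α ∈ L0 (F := F) G) (hj1 : 1 ≤ j) (hjm : j < m)
    (h : Lev v G p π₀ α (p * j) a) : ∃ a' : F, Lev v G p π₀ α (p * j + 1) a' := by
  obtain ⟨β, x, hβ, hβ0, hαe, ha, hx⟩ := h
  have hxmem : x ∈ L0 (F := F) G := x_mem hα hβ hβ0 hαe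
  have hvx : v x ≤ v π₀ ^ (p * j) := vx_le S ha hx
  have hπj : π₀ ^ (p * j) ≠ 0 := pow_ne_zero _ S.hπ0
  set u : F := x / π₀ ^ (p * j) with hu
  have humem : u ∈ L0 (F := F) G := div_mem hxmem (pow_mem S.pi_mem _)
  have hvu : v u ≤ 1 := by
    rw [hu, map_div₀, map_pow]
    exact div_le_one_of_le₀ hvx zero_le
  obtain ⟨c, hcfix, hc⟩ := S.hres u humem hvu
  have hcmem : c ∈ L0 (F := F) G := hcfix
  have hvc : v c ≤ 1 := by
    have h1 : v (c ^ p) ≤ 1 := by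
      have : c ^ p = (c ^ p - u) + u := by ring
      rw [this]
      exact le_trans (Valuation.map_add _ _ _) (max_le hc.le hvu)
    rw [map_pow] at h1
    exact (pow_le_one_iff_of_nonneg zero_le S.hp.ne_zero).1 h1
  set y : F := c * π₀ ^ j with hy
  have hvy : v y ≤ v π₀ ^ j := by
    rw [hy, map_mul, map_pow]
    exact mul_le_of_le_one_left zero_le hvc
  have hvy1 : v y < 1 := lt_of_le_of_lt hvy (S.pow_lt_one hj1)
  set γ : F := 1 + y with hγ
  have hγmem : γ ∈ L0 (F := F) G := add_mem (one_mem _) (mul_mem hcmem (pow_mem S.pi_mem _))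
  have hvγ : v γ = 1 := Valuation.map_one_add_of_lt _ hvy1
  have hγ0 : γ ≠ 0 := by
    intro h0; rw [h0, map_zero] at hvγ; exact zero_ne_one hvγ
  obtain ⟨w, hw, hexp⟩ := S.one_add_pow y hvy1.le
  -- the new `x`
  set x' : F := (1 + x) / γ ^ p - 1 with hx'
  have hx'mem : x' ∈ L0 (F := F) G :=
    sub_mem (div_mem (add_mem (one_mem _) hxmem) (pow_mem hγmem p)) (one_mem _)
  have hx'eq : x' = ((x - y ^ p) - p * y * w) / γ ^ p := by
    rw [hx', hexp]
    have : (1 : F) + y ^ p + p * y * w ≠ 0 := by rw [← hexp]; exact pow_ne_zero p hγ0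
    field_simp
    ring
  have h1 : v (x - y ^ p) < v π₀ ^ (p * j) := by
    have : x - y ^ p = π₀ ^ (p * j) * (u - c ^ p) := by
      rw [hu, hy, mul_pow, ← pow_mul, mul_comm j p]
      field_simp
    rw [this, map_mul, map_pow]
    have h2 : v (u - c ^ p) < 1 := by rw [← Valuation.map_neg, neg_sub]; exact hc
    exact mul_lt_of_lt_one_right (S.pow_pos' _) h2
  have h2 : v ((p : F) * y * w) < v π₀ ^ (p * j) := by
    refine lt_of_le_of_lt (S.v_pyw_le hvy hw) (S.pow_lt_pow ?_)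
    rw [S.p_mul j]
    have h1 : 1 ≤ p - 1 := by have := S.hp.two_le; omega
    have : (p - 1) * j < (p - 1) * m := Nat.mul_lt_mul_of_pos_left hjm (by omega)
    omega
  have hvx' : v x' < v π₀ ^ (p * j) := by
    rw [hx'eq, map_div₀, map_pow, hvγ, one_pow, div_one]
    exact lt_of_le_of_lt (Valuation.map_sub _ _ _) (max_lt h1 h2)
  have hvx'2 : v x' ≤ v π₀ ^ (p * j + 1) := S.le_succ_of_lt hx'mem hvx'
  have hπ1 : π₀ ^ (p * j + 1) ≠ 0 := pow_ne_zero _ S.hπ0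
  refine ⟨x' / π₀ ^ (p * j + 1), β * γ, x', mul_mem hβ hγmem, mul_ne_zero hβ0 hγ0, ?_, ?_, ?_⟩
  · rw [hαe, hx', mul_pow]
    field_simp
    ring
  · rw [map_div₀, map_pow]
    exact div_le_one_of_le₀ hvx'2 zero_le
  · rw [div_mul_cancel₀ _ hπ1, sub_self, map_zero]
    exact S.pow_pos' _


end Lev

namespace Setting

variable (S : Setting v G p ζ π₀ m)
include S

/-- a `p`-th root of a deep principal unit of `L0` is near `1`. -/
theorem v_root_sub_one_le {x β₀ : F} (hx : v x ≤ v π₀ ^ (p * m)) (hβ₀ : β₀ ^ p = 1 + x) :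
    v (β₀ - 1) ≤ v (ζ - 1) := by
  have hpm : 1 ≤ p * m := Nat.one_le_iff_ne_zero.2 (Nat.mul_ne_zero S.hp.ne_zero S.hm.ne')
  have hx1 : v x < 1 := lt_of_le_of_lt hx (S.pow_lt_one hpm)
  have hlt : v (β₀ ^ p - 1) < 1 := by rw [hβ₀, add_sub_cancel_left]; exact hx1
  have hy1 : v (β₀ - 1) < 1 := S.v_sub_one_lt_of_pow hlt
  obtain ⟨w, hw, hexp⟩ := S.one_add_pow (β₀ - 1) hy1.le
  rw [add_sub_cancel, hβ₀] at hexp
  have hxe : x = (β₀ - 1) ^ p + p * (β₀ - 1) * w := by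
    have := hexp
    linear_combination this
  by_contra hcon
  push Not at hcon
  set y : F := β₀ - 1 with hy
  have hvy0 : 0 < v y := lt_of_le_of_lt zero_le hcon
  have hp1 : p - 1 ≠ 0 := by have := S.hp.two_le; omega
  -- `v (y^p) > v x`
  have h1 : v x < v (y ^ p) := by
    rw [map_pow]
    refine lt_of_le_of_lt hx ?_
    rw [mul_comm, pow_mul, ← S.hζv]
    exact pow_lt_pow_left₀ hcon zero_le S.hp.ne_zero
  -- hence `v (y^p) ≤ v (p y w)`
  have h2 : v (y ^ p) ≤ v ((p : F) * y * w) := by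
    by_contra h
    push Not at h
    have : v x = v (y ^ p) := by
      conv_lhs => rw [hxe]
      exact Valuation.map_add_eq_of_lt_left _ h
    exact absurd h1 (by rw [this]; exact lt_irrefl _)
  have h3 : v y ^ (p - 1) * v y ≤ v (p : F) * v y := by
    have : v (y ^ p) = v y ^ (p - 1) * v y := by
      rw [map_pow, ← pow_succ, S.pred_add_one]
    rw [← this]
    refine le_trans h2 ?_
    rw [map_mul, map_mul]
    calc v (p : F) * v y * v w ≤ v (p : F) * v y * 1 := by gcongr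
      _ = v (p : F) * v y := mul_one _
  have h4 : v y ^ (p - 1) ≤ v (p : F) := le_of_mul_le_mul_right h3 hvy0
  rw [S.hpv, mul_comm, pow_mul, ← S.hζv] at h4
  have h5 : v y ≤ v (ζ - 1) := (pow_le_pow_iff_left₀ zero_le zero_le hp1).1 h4
  exact absurd hcon (not_lt.2 h5)

/-- **every `p`-th root of a deep principal unit of `L0` lies in `L0`** (inertiality). -/
theorem root_mem {x β₀ : F} (hxmem : x ∈ L0 (F := F) G) (hx : v x ≤ v π₀ ^ (p * m))
    (hβ₀ : β₀ ^ p = 1 + x) : β₀ ∈ L0 (F := F) G := by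
  intro g
  have hpm : 1 ≤ p * m := Nat.one_le_iff_ne_zero.2 (Nat.mul_ne_zero S.hp.ne_zero S.hm.ne')
  have hx1 : v x < 1 := lt_of_le_of_lt hx (S.pow_lt_one hpm)
  have hlt : v (β₀ ^ p - 1) < 1 := by rw [hβ₀, add_sub_cancel_left]; exact hx1
  have hvβ : v β₀ = 1 := S.v_eq_one_of_pow hlt
  have hβ0 : β₀ ≠ 0 := by
    intro h0; rw [h0, map_zero] at hvβ; exact zero_ne_one hvβ
  have hle : v (β₀ - 1) ≤ v (ζ - 1) := S.v_root_sub_one_le hx hβ₀
  have hlam : ζ - 1 ≠ 0 := S.lam_ne_zero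
  have hvlam : 0 < v (ζ - 1) := (Valuation.pos_iff v).2 hlam
  -- `μ = g β₀ / β₀` is a `p`-th root of unity
  set μ : F := g • β₀ / β₀ with hμ
  have hgp : (g • β₀) ^ p = β₀ ^ p := by
    rw [← smul_pow', hβ₀, smul_add, smul_one, hxmem g]
  have hμp : μ ^ p = 1 := by rw [hμ, div_pow, hgp, div_self (pow_ne_zero p hβ0)]
  have : NeZero p := ⟨S.hp.ne_zero⟩
  obtain ⟨k, hk, hkμ⟩ := S.hζ.eq_pow_of_pow_eq_one hμp
  have hgβ : g • β₀ = β₀ * μ := by rw [hμ, mul_div_cancel₀ _ hβ0]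
  by_cases hk0 : k = 0
  · rw [hk0, pow_zero] at hkμ
    rw [hgβ, ← hkμ, mul_one]
  exfalso
  have hvμ : v (μ - 1) = v (ζ - 1) := by
    rw [← hkμ]
    exact map_zeta_pow_sub_one S.hp S.hζ.pow_eq_one (Nat.pos_of_ne_zero hk0) hk
  -- `z = (β₀ - 1)/(ζ - 1)` is integral and moved by a unit
  set z : F := (β₀ - 1) / (ζ - 1) with hz
  have hvz : v z ≤ 1 := by
    rw [hz, map_div₀]
    exact div_le_one_of_le₀ hle zero_le
  have hβz : β₀ = 1 + (ζ - 1) * z := by rw [hz, mul_div_cancel₀ _ hlam]; ring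
  have hgz : g • β₀ = 1 + (ζ - 1) * g • z := by
    conv_lhs => rw [hβz]
    rw [smul_add, smul_one, smul_mul', smul_sub, smul_one, S.hζfix g]
  have hmove : (ζ - 1) * (g • z - z) = β₀ * (μ - 1) := by
    have h1 : g • β₀ - β₀ = (ζ - 1) * (g • z - z) := by
      rw [hgz]
      conv_lhs => rw [hβz]
      ring
    rw [← h1, hgβ]; ring
  have hin : v (g • z - z) < 1 := S.hGin g z hvz
  have h1 := congrArg v hmove
  rw [map_mul, map_mul, hvβ, one_mul, hvμ] at h1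
  have h2 : v (ζ - 1) * v (g • z - z) < v (ζ - 1) := mul_lt_of_lt_one_right hvlam hin
  rw [h1] at h2
  exact lt_irrefl _ h2

end Setting

namespace Lev

variable (S : Setting v G p ζ π₀ m)
include S

/-- **the top**: an element of `L0` of level `≥ p m` is a `p`-th power in `L0`. -/
theorem isPow_of_top [IsAlgClosed F] {α a : F} {i : ℕ} (hα : α ∈ L0 (F := F) G)
    (hi : p * m ≤ i) (h : Lev v G p π₀ α i a) :
    ∃ β : F, β ∈ L0 (F := F) G ∧ β ≠ 0 ∧ α = β ^ p := by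
  obtain ⟨β, x, hβ, hβ0, hαe, ha, hx⟩ := h
  have hxmem : x ∈ L0 (F := F) G := x_mem hα hβ hβ0 hαe
  have hvx : v x ≤ v π₀ ^ (p * m) := le_trans (vx_le S ha hx) (S.pow_le_pow hi)
  obtain ⟨β₀, hβ₀⟩ := IsAlgClosed.exists_pow_nat_eq (1 + x) S.hp.pos
  have hmem : β₀ ∈ L0 (F := F) G := S.root_mem hxmem hvx hβ₀
  have hpm : 1 ≤ p * m := Nat.one_le_iff_ne_zero.2 (Nat.mul_ne_zero S.hp.ne_zero S.hm.ne')
  have h1x : v (1 + x) = 1 :=
    Valuation.map_one_add_of_lt _ (lt_of_le_of_lt hvx (S.pow_lt_one hpm))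
  have hβ₀0 : β₀ ≠ 0 := by
    intro h0
    rw [h0, zero_pow S.hp.ne_zero] at hβ₀
    rw [← hβ₀, map_zero] at h1x
    exact zero_ne_one h1x
  exact ⟨β * β₀, mul_mem hβ hmem, mul_ne_zero hβ0 hβ₀0, by rw [hαe, mul_pow, hβ₀]⟩

/-- **normal form**: an element of `L0` of level `≥ i₁ ≥ 1` is a `p`-th power in `L0`, or it has an
exact level `i ≥ i₁`, `p ∤ i`, `i < p m`, with a unit coefficient. -/
theorem normal_form [IsAlgClosed F] {α : F} (hα : α ∈ L0 (F := F) G) :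
    ∀ (n i₁ : ℕ) (a₁ : F), p * m - i₁ = n → 1 ≤ i₁ → Lev v G p π₀ α i₁ a₁ →
      (∃ β : F, β ∈ L0 (F := F) G ∧ β ≠ 0 ∧ α = β ^ p) ∨
      ∃ (i : ℕ) (a : F), i₁ ≤ i ∧ i < p * m ∧ ¬ p ∣ i ∧ v a = 1 ∧ Lev v G p π₀ α i a := by
  intro n
  induction n using Nat.strong_induction_on with
  | _ n ih =>
    intro i₁ a₁ hn hi₁ h
    by_cases htop : p * m ≤ i₁
    · exact Or.inl (isPow_of_top S hα htop h)
    push Not at htop
    have ha₁ : v a₁ ≤ 1 := by
      obtain ⟨_, _, _, _, _, ha, _⟩ := h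
      exact ha
    -- a step raising the level
    have step : (∃ a' : F, Lev v G p π₀ α (i₁ + 1) a') →
        (∃ β : F, β ∈ L0 (F := F) G ∧ β ≠ 0 ∧ α = β ^ p) ∨
        ∃ (i : ℕ) (a : F), i₁ ≤ i ∧ i < p * m ∧ ¬ p ∣ i ∧ v a = 1 ∧ Lev v G p π₀ α i a := by
      rintro ⟨a', h'⟩
      rcases ih (p * m - (i₁ + 1)) (by omega) (i₁ + 1) a' rfl (by omega) h' with hl | hr
      · exact Or.inl hl
      · obtain ⟨i, a, hi, hi2, hi3, hi4, hi5⟩ := hr
        exact Or.inr ⟨i, a, by omega, hi2, hi3, hi4, hi5⟩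
    by_cases hlt : v a₁ < 1
    · exact step (improve S hα h hlt)
    have hone : v a₁ = 1 := le_antisymm ha₁ (not_lt.1 hlt)
    by_cases hdvd : p ∣ i₁
    · obtain ⟨j, rfl⟩ := hdvd
      have hj1 : 1 ≤ j := by
        rcases Nat.eq_zero_or_pos j with h0 | h0
        · rw [h0, mul_zero] at hi₁; omega
        · exact h0
      have hjm : j < m := lt_of_mul_lt_mul_left htop (Nat.zero_le p)
      exact step (improve_of_dvd S hα hj1 hjm h)
    · exact Or.inr ⟨i₁, a₁, le_rfl, htop, hdvd, hone, h⟩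

/-- **transport** by a ring automorphism preserving `v` and `L0`, acting on residues by
`x ↦ x ^ q`. -/
theorem map {α a : F} {i : ℕ} (h : Lev v G p π₀ α i a) (s : F ≃+* F)
    (hsv : ∀ x : F, v (s x) = v x) (hsfix : ∀ x : F, x ∈ L0 (F := F) G → s x ∈ L0 (F := F) G)
    (q : ℕ) (hsres : ∀ x : F, v x ≤ 1 → v (s x - x ^ q) < 1) :
    Lev v G p π₀ (s α) i ((s π₀ / π₀) ^ i * a ^ q) := by
  obtain ⟨β, x, hβ, hβ0, hαe, ha, hx⟩ := h
  have hvπ : v (s π₀ / π₀) = 1 := by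
    rw [map_div₀, hsv, div_self S.vpi_ne]
  refine ⟨s β, s x, hsfix β hβ, (map_ne_zero_iff s s.injective).2 hβ0, ?_, ?_, ?_⟩
  · rw [hαe, map_mul, map_pow, map_add, map_one]
  · rw [map_mul, map_pow, map_pow, hvπ, one_pow, one_mul]
    exact pow_le_one₀ zero_le ha
  · have h1 : s x - (s π₀ / π₀) ^ i * a ^ q * π₀ ^ i
        = s (x - a * π₀ ^ i) + (s π₀) ^ i * (s a - a ^ q) := by
      rw [map_sub, map_mul, map_pow, div_pow]
      have := pow_ne_zero i S.hπ0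
      field_simp
      ring
    rw [h1]
    refine lt_of_le_of_lt (Valuation.map_add _ _ _) (max_lt ?_ ?_)
    · rw [hsv]; exact hx
    · rw [map_mul, map_pow, hsv]
      exact mul_lt_of_lt_one_right (S.pow_pos' i) (hsres a ha)

end Lev

end Fermat.Agent.W56.UnitLevel3
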