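/-
Programme W56 (target S56), chapter (F) FLAT, the counts (helper3): **levels of Kummer characters**
at a place of `ℚ̄` over `p`.

`A` a valuation subring of `ℚ̄` over the odd prime `p`, `N` a subgroup of the inertia group of `A`
fixing a primitive `p`-th root of unity `ζ` and an element `π₀` such that the values of the
`N`-fixed elements are the powers of `v π₀`, `v (ζ - 1) = v π₀ ^ m`.

* `setting` : the hypotheses of `UnitLevel3.Setting` hold for the action of `N` on `ℚ̄`;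
* `KLev A N p ζ π₀ g i a` : the additive character `g : N → ZMod p` has a Kummer radical `θ`
  (`σ θ = ζ^(g σ) θ`) with `θ^p` of level `≥ i` and `i`-th coefficient `a`;
* `KLev.add`, `KLev.neg`, `KLev.zero`, `KLev.sum` : group structure;
* `KLev.rigid` : the coefficient is well defined modulo `𝔪_A` (for `p ∤ i`, `i < p m`);
* `KLev.normal_form` : `g = 0` or `g` has an exact level with a unit coefficient;
* `KLev.conj` : transport by an element `s` of the decomposition group normalising `N`.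
-/
import Mathlib
import Fermat.Agent.S05.Inertia
import Fermat.Agent.U44.InertDescent1
import Fermat.Agent.W56.KummerGen3
import Fermat.Agent.W56.UnitLevel3

set_option autoImplicit false

namespace Fermat.Agent.W56.KLevel3

open Fermat.Agent.W56.KummerGen3 Fermat.Agent.W56.UnitLevel3 IsLocalRing

variable {A : ValuationSubring Qb} {p : ℕ} {N : Subgroup GQ}

theorem smul_eq (σ : ↥N) (x : Qb) : σ • x = (σ : GQ) x := rfl

/-- **the residue field of `A` is a union of finite fields**: every `u ∈ A` satisfies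
`u^(p^f) ≡ u` modulo `𝔪_A` for some `f ≥ 1`. -/
theorem exists_frob (hp : p.Prime) (hA : A.LiesOverPrime p) {u : Qb} (hu : u ∈ A) :
    ∃ f : ℕ, 1 ≤ f ∧ A.valuation (u ^ p ^ f - u) < 1 := by
  set c : ResidueField A := residue A ⟨u, hu⟩ with hc
  have key : ∀ f : ℕ, c ^ p ^ f = c → A.valuation (u ^ p ^ f - u) < 1 := by
    intro f hf
    have h1 : residue A (⟨u, hu⟩ ^ p ^ f - ⟨u, hu⟩) = 0 := by
      rw [map_sub, map_pow, ← hc, hf, sub_self]
    rw [residue_eq_zero_iff, ValuationSubring.valuation_lt_one_iff] at h1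
    exact h1
  by_cases hc0 : c = 0
  · exact ⟨1, le_rfl, key 1 (by rw [hc0, zero_pow (pow_ne_zero 1 hp.ne_zero)])⟩
  obtain ⟨m', hm', hcm⟩ := Fermat.Agent.U44.InertDescent1.exists_pow_eq_one hp hA c hc0
  have hm0 : m' ≠ 0 := fun h0 => hm' (h0 ▸ dvd_zero p)
  have hcop : Nat.Coprime p m' := (Nat.Prime.coprime_iff_not_dvd hp).2 hm'
  have hmod : p ^ Nat.totient m' ≡ 1 [MOD m'] := Nat.ModEq.pow_totient hcop
  have hpos : 0 < Nat.totient m' := Nat.totient_pos.2 (Nat.pos_of_ne_zero hm0)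
  refine ⟨Nat.totient m', hpos, key _ ?_⟩
  -- `p^φ = 1 + m' t`
  have h1 : 1 ≤ p ^ Nat.totient m' := Nat.one_le_pow _ _ hp.pos
  obtain ⟨t, ht⟩ := (Nat.modEq_iff_dvd' h1).1 hmod.symm
  have h2 : p ^ Nat.totient m' = 1 + m' * t := by omega
  rw [h2, pow_add, pow_one, pow_mul, hcm, one_pow, mul_one]

/-- the hypotheses of `UnitLevel3` at a place of `ℚ̄`. -/
theorem setting (hp : p.Prime) (hp2 : p ≠ 2) (hA : A.LiesOverPrime p)
    (hNI : N ≤ A.inertiaSubgroupIn ℚ) {ζ π₀ : Qb} (hζ : IsPrimitiveRoot ζ p)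
    (hζN : ∀ σ ∈ N, σ ζ = ζ) (hπN : ∀ σ ∈ N, σ π₀ = π₀) (hπ1 : A.valuation π₀ < 1)
    (hπ0 : π₀ ≠ 0) {m : ℕ} (hm : 0 < m) (hζv : A.valuation (ζ - 1) = A.valuation π₀ ^ m)
    (hpv : A.valuation (p : Qb) = A.valuation π₀ ^ ((p - 1) * m))
    (hval : ∀ x : Qb, (∀ σ ∈ N, σ x = x) → x ≠ 0 → ∃ n : ℤ, A.valuation x = A.valuation π₀ ^ n) :
    Setting A.valuation ↥N p ζ π₀ m where
  hp := hp
  hp2 := hp2
  hGv := fun g x => Fermat.Agent.S05.Inertia.valuation_apply_rat (hNI g.2) x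
  hGin := fun g x hx => Fermat.Agent.S05.Inertia.valuation_sub_lt_one_rat (hNI g.2) hx
  hζ := hζ
  hζfix := fun g => hζN g g.2
  hπfix := fun g => hπN g g.2
  hπ1 := hπ1
  hπ0 := hπ0
  hm := hm
  hζv := hζv
  hpv := hpv
  hval := fun x hx hx0 => hval x (fun σ hσ => hx ⟨σ, hσ⟩) hx0
  hres := by
    intro u hu hvu
    have huA : u ∈ A := (ValuationSubring.valuation_le_one_iff A u).1 hvu
    obtain ⟨f, hf1, hf⟩ := exists_frob hp hA huA
    refine ⟨u ^ p ^ (f - 1), fun g => ?_, ?_⟩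
    · rw [smul_pow', hu g]
    · rw [← pow_mul, ← pow_succ, Nat.sub_add_cancel hf1]
      exact hf

section roots

variable {ζ : Qb}

theorem pow_mod_eq (hζp : ζ ^ p = 1) (n : ℕ) : ζ ^ (n % p) = ζ ^ n := by
  conv_rhs => rw [← Nat.div_add_mod n p, pow_add, pow_mul, hζp, one_pow, one_mul]

theorem pow_val_add [NeZero p] (hζp : ζ ^ p = 1) (a b : ZMod p) :
    ζ ^ (a + b).val = ζ ^ a.val * ζ ^ b.val := by
  rw [ZMod.val_add, pow_mod_eq hζp, pow_add]

theorem pow_val_mul [NeZero p] (hζp : ζ ^ p = 1) (a b : ZMod p) :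
    ζ ^ (a * b).val = (ζ ^ a.val) ^ b.val := by
  rw [ZMod.val_mul, pow_mod_eq hζp, pow_mul]

theorem pow_val_neg [NeZero p] (hζp : ζ ^ p = 1) (a : ZMod p) :
    ζ ^ (-a).val = (ζ ^ a.val)⁻¹ := by
  have h : ζ ^ (-a).val * ζ ^ a.val = 1 := by
    rw [← pow_val_add hζp, neg_add_cancel, ZMod.val_zero, pow_zero]
  exact eq_inv_of_mul_eq_one_left h

end roots

/-- `g` has a Kummer radical of level `≥ i` with coefficient `a`. -/
def KLev (A : ValuationSubring Qb) (N : Subgroup GQ) (p : ℕ) (ζ π₀ : Qb) (g : ↥N → ZMod p)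
    (i : ℕ) (a : Qb) : Prop :=
  ∃ θ : Qb, θ ≠ 0 ∧ (∀ σ : ↥N, (σ : GQ) θ = ζ ^ (g σ).val * θ) ∧
    Lev A.valuation ↥N p π₀ (θ ^ p) i a

namespace KLev

variable {ζ π₀ : Qb} {m : ℕ} (S : Setting A.valuation ↥N p ζ π₀ m)
include S

theorem neZero : NeZero p := ⟨S.hp.ne_zero⟩

omit S in
/-- the `p`-th power of a radical is `N`-fixed. -/
theorem pow_mem (hζp : ζ ^ p = 1) {g : ↥N → ZMod p} {θ : Qb}
    (hθ : ∀ σ : ↥N, (σ : GQ) θ = ζ ^ (g σ).val * θ) : θ ^ p ∈ L0 (F := Qb) ↥N := by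
  intro σ
  rw [smul_eq, map_pow, hθ, mul_pow, ← pow_mul, mul_comm (g σ).val p, pow_mul, hζp, one_pow,
    one_mul]

theorem zero (i : ℕ) : KLev A N p ζ π₀ (fun _ => 0) i 0 := by
  refine ⟨1, one_ne_zero, fun σ => ?_, ?_⟩
  · rw [ZMod.val_zero, pow_zero, one_mul, map_one]
  · rw [one_pow]
    exact Lev.one S.hπ0 i

theorem add {g g' : ↥N → ZMod p} {i : ℕ} {a a' : Qb} (hi : 1 ≤ i)
    (h : KLev A N p ζ π₀ g i a) (h' : KLev A N p ζ π₀ g' i a')
    (haa : A.valuation (a + a') ≤ 1) :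
    KLev A N p ζ π₀ (fun σ => g σ + g' σ) i (a + a') := by
  have := neZero S
  obtain ⟨θ, hθ0, hθ, hL⟩ := h
  obtain ⟨θ', hθ0', hθ', hL'⟩ := h'
  refine ⟨θ * θ', mul_ne_zero hθ0 hθ0', fun σ => ?_, ?_⟩
  · rw [map_mul, hθ, hθ', pow_val_add S.hζ.pow_eq_one]; ring
  · rw [mul_pow]
    exact Lev.mul S hi hL hL' haa

theorem neg {g : ↥N → ZMod p} {i : ℕ} {a : Qb} (hi : 1 ≤ i) (h : KLev A N p ζ π₀ g i a) :
    KLev A N p ζ π₀ (fun σ => -g σ) i (-a) := by
  have := neZero S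
  obtain ⟨θ, hθ0, hθ, hL⟩ := h
  refine ⟨θ⁻¹, inv_ne_zero hθ0, fun σ => ?_, ?_⟩
  · rw [map_inv₀, hθ, pow_val_neg S.hζ.pow_eq_one, mul_inv]
  · rw [inv_pow]
    exact Lev.inv S hi hL

omit S in
theorem congr {g g' : ↥N → ZMod p} {i : ℕ} {a : Qb} (h : KLev A N p ζ π₀ g i a)
    (hgg : ∀ σ, g σ = g' σ) : KLev A N p ζ π₀ g' i a := by
  have : g = g' := funext hgg
  rwa [← this]

omit S in
/-- the coefficient has `v ≤ 1`. -/
theorem val_le {g : ↥N → ZMod p} {i : ℕ} {a : Qb} (h : KLev A N p ζ π₀ g i a) :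
    A.valuation a ≤ 1 := by
  obtain ⟨_, _, _, _, _, _, _, _, ha, _⟩ := h
  exact ha

/-- finite `ℤ`-linear combinations. -/
theorem sum {ι : Type*} (s : Finset ι) {i : ℕ} (hi : 1 ≤ i) (g : ι → ↥N → ZMod p) (a : ι → Qb)
    (z : ι → ℤ) (h : ∀ j ∈ s, KLev A N p ζ π₀ (g j) i (a j)) :
    KLev A N p ζ π₀ (fun σ => ∑ j ∈ s, z j • g j σ) i (∑ j ∈ s, z j • a j) := by
  classical
  have hzs : ∀ (z : ℤ) (g₀ : ↥N → ZMod p) (a₀ : Qb), KLev A N p ζ π₀ g₀ i a₀ →
      KLev A N p ζ π₀ (fun σ => z • g₀ σ) i (z • a₀) := by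
    intro z g₀ a₀ h₀
    have hva : ∀ n : ℤ, A.valuation (n • a₀) ≤ 1 := by
      intro n
      rw [zsmul_eq_mul, map_mul]
      exact mul_le_one₀ (Fermat.Agent.S05.Inertia.valuation_intCast_le_one n) zero_le (val_le h₀)
    have hns : ∀ n : ℕ, KLev A N p ζ π₀ (fun σ => (n : ℤ) • g₀ σ) i ((n : ℤ) • a₀) := by
      intro n
      induction n with
      | zero => simpa using zero S i
      | succ n ih =>
          have e : ((n + 1 : ℕ) : ℤ) • a₀ = (n : ℤ) • a₀ + a₀ := by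
            push_cast; rw [add_zsmul, one_zsmul]
          have := add S hi ih h₀ (by rw [← e]; exact hva _)
          rw [e]
          exact congr this fun σ => by push_cast; rw [add_zsmul, one_zsmul]
    rcases Int.eq_nat_or_neg z with ⟨n, rfl | rfl⟩
    · exact hns n
    · have := neg S hi (hns n)
      rw [neg_zsmul]
      exact congr this fun σ => by rw [neg_zsmul]
  induction s using Finset.induction_on with
  | empty => simpa using zero S i
  | insert j s hj ih =>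
      have h1 := hzs (z j) (g j) (a j) (h j (Finset.mem_insert_self j s))
      have h2 := ih fun j' hj' => h j' (Finset.mem_insert_of_mem hj')
      have hv : A.valuation (z j • a j + ∑ j ∈ s, z j • a j) ≤ 1 :=
        le_trans (Valuation.map_add _ _ _) (max_le (val_le h1) (val_le h2))
      have := add S hi h1 h2 hv
      rw [Finset.sum_insert hj]
      refine congr this fun σ => ?_
      rw [Finset.sum_insert hj]

/-- **rigidity**. -/
theorem rigid {g : ↥N → ZMod p} {i : ℕ} {a a' : Qb} (hi1 : 1 ≤ i) (hpi : ¬ p ∣ i)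
    (hi : i < p * m) (h : KLev A N p ζ π₀ g i a) (h' : KLev A N p ζ π₀ g i a') :
    A.valuation (a - a') < 1 := by
  obtain ⟨θ, hθ0, hθ, hL⟩ := h
  obtain ⟨θ', hθ0', hθ', hL'⟩ := h'
  -- `γ = θ / θ'` is `N`-fixed
  have hγ : θ / θ' ∈ L0 (F := Qb) ↥N := by
    intro σ
    rw [smul_eq, map_div₀, hθ, hθ', mul_div_mul_left _ _ (pow_ne_zero _ (S.hζ.ne_zero S.hp.ne_zero))]
  have hγ0 : θ / θ' ≠ 0 := div_ne_zero hθ0 hθ0'
  have h2 : Lev A.valuation ↥N p π₀ (θ ^ p) i a' := by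
    have := Lev.mul_pow_mem hL' hγ hγ0
    rwa [div_pow, div_mul_cancel₀ _ (pow_ne_zero p hθ0')] at this
  exact Lev.rigid S hi1 hpi hi hL h2

/-- raising the level when the coefficient is in `𝔪`. -/
theorem improve {g : ↥N → ZMod p} {i : ℕ} {a : Qb} (h : KLev A N p ζ π₀ g i a)
    (ha : A.valuation a < 1) : ∃ a' : Qb, KLev A N p ζ π₀ g (i + 1) a' := by
  obtain ⟨θ, hθ0, hθ, hL⟩ := h
  obtain ⟨a', h'⟩ := Lev.improve S (pow_mem S.hζ.pow_eq_one hθ) hL ha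
  exact ⟨a', θ, hθ0, hθ, h'⟩

/-- **normal form**: `g = 0`, or `g` has an exact level with a unit coefficient. -/
theorem normal_form {g : ↥N → ZMod p} {i₁ : ℕ} {a₁ : Qb} (hi₁ : 1 ≤ i₁)
    (h : KLev A N p ζ π₀ g i₁ a₁) :
    (∀ σ, g σ = 0) ∨ ∃ (i : ℕ) (a : Qb), i₁ ≤ i ∧ i < p * m ∧ ¬ p ∣ i ∧ A.valuation a = 1 ∧
      KLev A N p ζ π₀ g i a := by
  have := neZero S
  obtain ⟨θ, hθ0, hθ, hL⟩ := h
  have hmem : θ ^ p ∈ L0 (F := Qb) ↥N := pow_mem S.hζ.pow_eq_one hθ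
  rcases Lev.normal_form S hmem (p * m - i₁) i₁ a₁ rfl hi₁ hL with hl | hr
  · left
    obtain ⟨β, hβ, hβ0, hβp⟩ := hl
    -- `θ / β` is a `p`-th root of unity, hence `θ` is `N`-fixed
    have h1 : (θ / β) ^ p = 1 := by rw [div_pow, hβp, div_self (pow_ne_zero p hβ0)]
    obtain ⟨k, -, hk⟩ := S.hζ.eq_pow_of_pow_eq_one h1
    have hθe : θ = ζ ^ k * β := by rw [hk, div_mul_cancel₀ _ hβ0]
    intro σ
    have h2 : (σ : GQ) θ = θ := by
      rw [hθe, map_mul, map_pow]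
      have h3 : (σ : GQ) ζ = ζ := S.hζfix σ
      have h4 : (σ : GQ) β = β := hβ σ
      rw [h3, h4]
    rw [hθ σ] at h2
    have h5 : ζ ^ (g σ).val = 1 := by
      have := mul_right_cancel₀ hθ0 (h2.trans (one_mul θ).symm)
      exact this
    have h6 : p ∣ (g σ).val := (S.hζ.pow_eq_one_iff_dvd _).1 h5
    have h7 : (g σ).val = 0 := Nat.eq_zero_of_dvd_of_lt h6 (ZMod.val_lt _)
    exact (ZMod.val_eq_zero _).1 h7
  · right
    obtain ⟨i, a, h1, h2, h3, h4, h5⟩ := hr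
    exact ⟨i, a, h1, h2, h3, h4, θ, hθ0, hθ, h5⟩

/-- **transport** by an element of the decomposition group normalising `N`. -/
theorem conj {g : ↥N → ZMod p} {i : ℕ} {a : Qb} (h : KLev A N p ζ π₀ g i a) (s : GQ)
    (hsN : ∀ τ ∈ N, s⁻¹ * τ * s ∈ N) (c : ZMod p) (hsζ : s ζ = ζ ^ c.val)
    (hsv : ∀ x : Qb, A.valuation (s x) = A.valuation x) (q : ℕ)
    (hsres : ∀ x : Qb, A.valuation x ≤ 1 → A.valuation (s x - x ^ q) < 1) :
    KLev A N p ζ π₀ (fun τ => c * g ⟨s⁻¹ * τ * s, hsN τ τ.2⟩) i ((s π₀ / π₀) ^ i * a ^ q) := by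
  have := neZero S
  obtain ⟨θ, hθ0, hθ, hL⟩ := h
  have hcomm : ∀ (τ : ↥N) (x : Qb), (τ : GQ) (s x) = s ((s⁻¹ * τ * s : GQ) x) := by
    intro τ x
    rw [← AlgEquiv.mul_apply, ← AlgEquiv.mul_apply]
    congr 1
    group
  refine ⟨s θ, (map_ne_zero_iff s s.injective).2 hθ0, fun τ => ?_, ?_⟩
  · rw [hcomm]
    have := hθ ⟨s⁻¹ * τ * s, hsN τ τ.2⟩
    simp only at this
    rw [this, map_mul, map_pow, hsζ, pow_val_mul S.hζ.pow_eq_one]
  · have hmap := Lev.map S hL s.toRingEquiv hsv (fun x hx τ => ?_) q hsres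
    · rw [map_pow] at hmap
      exact hmap
    · show (τ : GQ) (s x) = s x
      rw [hcomm]
      congr 1
      exact hx ⟨s⁻¹ * τ * s, hsN τ τ.2⟩

end KLev

end Fermat.Agent.W56.KLevel3
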