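/-
Programme W56 (target S56), chapter (F) FLAT, the counts (helper3): **fixed points of a semilinear
map**.

`E` a field, `σ : E →+* E` a ring endomorphism with fixed field `E₀ = fixF σ`, `Y` an `E`-vector
space, `Φ : Y →+ Y` additive and `σ`-semilinear (`Φ (a • y) = σ a • Φ y`).

* `linearIndependent_of_fixed` : a family of `Φ`-fixed vectors which is linearly independent over
  `E₀` is linearly independent over `E` (Artin's argument);
* `rank_fixedSub_le` : `rank_{E₀} Y^Φ ≤ dim_E Y`;
* `card_fixed_le` : if every `σ`-fixed `a` satisfies `a ^ q = a` (`2 ≤ q`) then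
  `#Y^Φ ≤ q ^ dim_E Y`.

Use: `E` the residue field of `ℚ̄` at a place over `p`, `σ` a power of the Frobenius, `Y` a space of
leading-coefficient maps; the descent "Frobenius-invariants of a `κ̄`-space of dimension `n` have at
most `q^n` elements".
-/
import Mathlib

set_option autoImplicit false

namespace Fermat.Agent.W56.SemilinFix3

open Module

variable {E Y : Type*} [Field E] [AddCommGroup Y] [Module E Y]

/-- the fixed field of a ring endomorphism. -/
abbrev fixF (σ : E →+* E) : Subfield E := RingHom.eqLocusField σ (RingHom.id E)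

theorem mem_fixF (σ : E →+* E) (a : E) : a ∈ fixF σ ↔ σ a = a := Iff.rfl

/-- the fixed points of a `σ`-semilinear additive map, as a module over the fixed field. -/
def fixedSub (σ : E →+* E) (Φ : Y →+ Y) (hΦ : ∀ (a : E) (y : Y), Φ (a • y) = σ a • Φ y) :
    Submodule (fixF σ) Y where
  carrier := {y | Φ y = y}
  add_mem' := by
    intro a b ha hb
    show Φ (a + b) = a + b
    rw [map_add, ha, hb]
  zero_mem' := map_zero Φ
  smul_mem' := by
    intro a y hy
    show Φ ((a : E) • y) = (a : E) • y
    rw [hΦ, (mem_fixF σ a).1 a.2, hy]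

theorem mem_fixedSub {σ : E →+* E} {Φ : Y →+ Y}
    {hΦ : ∀ (a : E) (y : Y), Φ (a • y) = σ a • Φ y} (y : Y) :
    y ∈ fixedSub σ Φ hΦ ↔ Φ y = y := Iff.rfl

/-- **Artin's argument**: fixed vectors independent over the fixed field are independent over
`E`. -/
theorem linearIndependent_of_fixed (σ : E →+* E) (Φ : Y →+ Y)
    (hΦ : ∀ (a : E) (y : Y), Φ (a • y) = σ a • Φ y) {ι : Type*} (y : ι → Y)
    (hy : ∀ i, Φ (y i) = y i) (hli : LinearIndependent (fixF σ) y) : LinearIndependent E y := by
  classical
  rw [linearIndependent_iff']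
  -- strong induction on the size of the support
  have key : ∀ n : ℕ, ∀ s : Finset ι, s.card = n → ∀ g : ι → E,
      ∑ i ∈ s, g i • y i = 0 → ∀ i ∈ s, g i = 0 := by
    intro n
    induction n using Nat.strong_induction_on with
    | _ n ih =>
      intro s hs g hg
      by_contra hne
      push Not at hne
      obtain ⟨i₀, hi₀, hg₀⟩ := hne
      -- normalise
      set g' : ι → E := fun i => (g i₀)⁻¹ * g i with hg'
      have hg'0 : g' i₀ = 1 := inv_mul_cancel₀ hg₀
      have hsum' : ∑ i ∈ s, g' i • y i = 0 := by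
        have : ∑ i ∈ s, g' i • y i = (g i₀)⁻¹ • ∑ i ∈ s, g i • y i := by
          rw [Finset.smul_sum]
          exact Finset.sum_congr rfl fun i _ => by rw [hg', mul_smul]
        rw [this, hg, smul_zero]
      -- apply `Φ`
      have hsumΦ : ∑ i ∈ s, σ (g' i) • y i = 0 := by
        have := congrArg Φ hsum'
        rw [map_sum, map_zero] at this
        rw [← this]
        exact Finset.sum_congr rfl fun i _ => by rw [hΦ, hy]
      have hdiff : ∑ i ∈ s.erase i₀, (σ (g' i) - g' i) • y i = 0 := by
        have h1 : ∑ i ∈ s, (σ (g' i) - g' i) • y i = 0 := by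
          simp only [sub_smul, Finset.sum_sub_distrib, hsumΦ, hsum', sub_zero]
        rw [← Finset.add_sum_erase s _ hi₀, hg'0, map_one, sub_self, zero_smul, zero_add] at h1
        exact h1
      have hcard : (s.erase i₀).card < n := by
        rw [Finset.card_erase_of_mem hi₀, hs]
        have : 0 < s.card := Finset.card_pos.2 ⟨i₀, hi₀⟩
        omega
      have hfix : ∀ i ∈ s, σ (g' i) = g' i := by
        intro i hi
        by_cases h : i = i₀
        · rw [h, hg'0, map_one]
        · exact sub_eq_zero.1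
            (ih _ hcard (s.erase i₀) rfl (fun i => σ (g' i) - g' i) hdiff i
              (Finset.mem_erase.2 ⟨h, hi⟩))
      -- now the relation is over the fixed field
      set c : ι → fixF σ := fun i => if hi : i ∈ s then ⟨g' i, hfix i hi⟩ else 0 with hc
      have hsumc : ∑ i ∈ s, c i • y i = 0 := by
        rw [← hsum']
        refine Finset.sum_congr rfl fun i hi => ?_
        rw [hc]
        simp only [hi, dif_pos]
        rfl
      have := (linearIndependent_iff'.1 hli) s c hsumc i₀ hi₀
      rw [hc] at this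
      simp only [hi₀, dif_pos] at this
      have h1 : g' i₀ = 0 := congrArg Subtype.val this
      rw [hg'0] at h1
      exact one_ne_zero h1
  intro s g hg i hi
  exact key s.card s rfl g hg i hi

/-- `rank_{E₀} Y^Φ ≤ dim_E Y`. -/
theorem rank_fixedSub_le [FiniteDimensional E Y] (σ : E →+* E) (Φ : Y →+ Y)
    (hΦ : ∀ (a : E) (y : Y), Φ (a • y) = σ a • Φ y) :
    Module.rank (fixF σ) ↥(fixedSub σ Φ hΦ) ≤ (finrank E Y : ℕ) := by
  classical
  refine rank_le fun s hs => ?_
  -- push the family to `Y`
  have h1 : LinearIndependent (fixF σ) fun i : s => (((i : ↥(fixedSub σ Φ hΦ)) : Y)) := by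
    have := hs.map' (fixedSub σ Φ hΦ).subtype (Submodule.ker_subtype _)
    exact this
  have h2 : LinearIndependent E fun i : s => (((i : ↥(fixedSub σ Φ hΦ)) : Y)) :=
    linearIndependent_of_fixed σ Φ hΦ _ (fun i => (i : ↥(fixedSub σ Φ hΦ)).2) h1
  have h3 := h2.fintype_card_le_finrank
  simpa using h3

/-- the fixed field of `σ` has at most `q` elements if its elements satisfy `a ^ q = a`. -/
theorem finite_fixF (σ : E →+* E) {q : ℕ} (hq : 2 ≤ q) (hσ : ∀ a : E, σ a = a → a ^ q = a) :
    Finite (fixF σ) ∧ Nat.card (fixF σ) ≤ q := by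
  classical
  have hq1 : 1 < q := hq
  set P : Polynomial E := Polynomial.X ^ q - Polynomial.X with hP
  have hP0 : P ≠ 0 := FiniteField.X_pow_card_sub_X_ne_zero E hq1
  have hdeg : P.natDegree = q := FiniteField.X_pow_card_sub_X_natDegree_eq E hq1
  have hmem : ∀ a : fixF σ, (a : E) ∈ P.roots.toFinset := by
    intro a
    rw [Multiset.mem_toFinset, Polynomial.mem_roots hP0, Polynomial.IsRoot, hP]
    simp only [Polynomial.eval_sub, Polynomial.eval_pow, Polynomial.eval_X]
    rw [hσ a ((mem_fixF σ a).1 a.2), sub_self]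
  have hinj : Function.Injective fun a : fixF σ => (⟨(a : E), hmem a⟩ : P.roots.toFinset) := by
    intro a b hab
    exact Subtype.ext (congrArg (fun z : P.roots.toFinset => (z : E)) hab)
  have hfin : Finite (fixF σ) := Finite.of_injective _ hinj
  refine ⟨hfin, ?_⟩
  have h1 : Nat.card (fixF σ) ≤ Nat.card P.roots.toFinset := Nat.card_le_card_of_injective _ hinj
  have h2 : Nat.card P.roots.toFinset = P.roots.toFinset.card := by
    rw [Nat.card_eq_fintype_card, Fintype.card_coe]
  have h3 : P.roots.toFinset.card ≤ Multiset.card P.roots := Multiset.toFinset_card_le _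
  have h4 : Multiset.card P.roots ≤ P.natDegree := Polynomial.card_roots' P
  omega

/-- **the count**: a `σ`-semilinear additive self-map of an `n`-dimensional space has at most `q^n`
fixed points, if the fixed field of `σ` consists of solutions of `a ^ q = a`. -/
theorem card_fixed_le [FiniteDimensional E Y] (σ : E →+* E) (Φ : Y →+ Y)
    (hΦ : ∀ (a : E) (y : Y), Φ (a • y) = σ a • Φ y) {q : ℕ} (hq : 2 ≤ q)
    (hσ : ∀ a : E, σ a = a → a ^ q = a) :
    Finite {y : Y // Φ y = y} ∧ Nat.card {y : Y // Φ y = y} ≤ q ^ finrank E Y := by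
  classical
  obtain ⟨hfin, hcard⟩ := finite_fixF σ hq hσ
  have hrank := rank_fixedSub_le σ Φ hΦ
  have hlt : Module.rank (fixF σ) ↥(fixedSub σ Φ hΦ) < Cardinal.aleph0 :=
    lt_of_le_of_lt hrank (Cardinal.natCast_lt_aleph0)
  have hfd : Module.Finite (fixF σ) ↥(fixedSub σ Φ hΦ) := Module.rank_lt_aleph0_iff.1 hlt
  have hfr : finrank (fixF σ) ↥(fixedSub σ Φ hΦ) ≤ finrank E Y := by
    have := Module.finrank_eq_rank (fixF σ) ↥(fixedSub σ Φ hΦ)
    rw [← this] at hrank
    exact_mod_cast hrank
  have hc := Module.natCard_eq_pow_finrank (K := fixF σ) (V := ↥(fixedSub σ Φ hΦ))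
  have hfinV : Finite ↥(fixedSub σ Φ hΦ) := Module.finite_of_finite (fixF σ)
  have hpos : 0 < Nat.card (fixF σ) := Nat.card_pos
  refine ⟨hfinV, ?_⟩
  show Nat.card ↥(fixedSub σ Φ hΦ) ≤ _
  rw [hc]
  calc Nat.card (fixF σ) ^ finrank (fixF σ) ↥(fixedSub σ Φ hΦ)
      ≤ q ^ finrank (fixF σ) ↥(fixedSub σ Φ hΦ) := Nat.pow_le_pow_left hcard _
    _ ≤ q ^ finrank E Y := Nat.pow_le_pow_right (by omega) hfr

end Fermat.Agent.W56.SemilinFix3
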