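/-
Programme W56 (target S56), chapter (F) FLAT, the counts (helper3): **the character level count**.

`A` a place of `ℚ̄` over the odd prime `p`, `I` its inertia group, `N ≤ I` normal in `I`, fixing `ζ_p`
and a uniformiser `π₀` of `L0 = ℚ̄^N` (`UnitLevel3.Setting`); `φ` an element of the decomposition
group normalising `N` and acting on the residue field by `x ↦ x^q`; `k` a finite field of
characteristic `p`, `ψ : I →* kˣ`, `w ∈ kˣ`.

For a homomorphism `f : N → k` with `f (s⁻¹ τ s) = ψ(s)⁻¹ f τ` (`s ∈ I`) and `f (φ⁻¹ τ φ) = w f τ`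
the Kummer characters `gfun p f b = tr_{k/𝔽_p} (b f ·)`, `b ∈ k`, form an `I`- and `φ`-stable family.

* `Allowed D i` : every `ℤ`-linear relation among the values `cval s = χ(s) ψ(s)⁻¹ ∈ k`, `s ∈ I`,
  holds modulo `𝔪_A` among the `(s π₀/π₀)^i` (the tame character to the power `i`);
* `exact_allowed` : an exact level of some `gfun p f b` is allowed;
* `card_le` : if `i₀` is the only allowed exact level and the `cval s` generate additively a field
  `𝔽 ⊆ k` with an embedding into the residue field compatible with `(s π₀/π₀)^i₀`, then the number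
  of `f` of level `≥ (p-1) m` (`≡ 1 mod p`) is at most `q ^ [k : 𝔽]`.
-/
import Mathlib
import Fermat.Agent.W56.SemilinFix3
import Fermat.Agent.W56.KLevel3

set_option autoImplicit false

namespace Fermat.Agent.W56.LevelCount3

open Fermat.Agent.W56.KummerGen3 Fermat.Agent.W56.UnitLevel3 Fermat.Agent.W56.KLevel3 IsLocalRing

/-! ### residues of elements of `ℚ̄` -/

section res

variable (A : ValuationSubring Qb)

open Classical in
/-- the residue of an element of `ℚ̄` (zero outside `A`). -/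
noncomputable def res (x : Qb) : ResidueField A :=
  if h : x ∈ A then residue A ⟨x, h⟩ else 0

variable {A}

theorem res_of_mem {x : Qb} (h : x ∈ A) : res A x = residue A ⟨x, h⟩ := by
  unfold res
  exact dif_pos h

theorem mem_of_le {x : Qb} (h : A.valuation x ≤ 1) : x ∈ A :=
  (ValuationSubring.valuation_le_one_iff A x).1 h

theorem res_eq_zero_iff {x : Qb} (hx : A.valuation x ≤ 1) : res A x = 0 ↔ A.valuation x < 1 := by
  rw [res_of_mem (mem_of_le hx), residue_eq_zero_iff, ValuationSubring.valuation_lt_one_iff]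

theorem res_add {x y : Qb} (hx : A.valuation x ≤ 1) (hy : A.valuation y ≤ 1) :
    res A (x + y) = res A x + res A y := by
  rw [res_of_mem (mem_of_le hx), res_of_mem (mem_of_le hy),
    res_of_mem (A.add_mem _ _ (mem_of_le hx) (mem_of_le hy)), ← map_add]
  rfl

theorem res_mul {x y : Qb} (hx : A.valuation x ≤ 1) (hy : A.valuation y ≤ 1) :
    res A (x * y) = res A x * res A y := by
  rw [res_of_mem (mem_of_le hx), res_of_mem (mem_of_le hy),
    res_of_mem (A.mul_mem _ _ (mem_of_le hx) (mem_of_le hy)), ← map_mul]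
  rfl

theorem res_neg {x : Qb} (hx : A.valuation x ≤ 1) : res A (-x) = -res A x := by
  rw [res_of_mem (mem_of_le hx), res_of_mem (A.neg_mem _ (mem_of_le hx)), ← map_neg]
  rfl

theorem res_one : res A 1 = 1 := by
  rw [res_of_mem A.one_mem]
  exact map_one _

theorem res_zero : res A 0 = 0 := by
  rw [res_of_mem A.zero_mem]
  exact map_zero _

theorem res_pow {x : Qb} (hx : A.valuation x ≤ 1) (n : ℕ) : res A (x ^ n) = res A x ^ n := by
  induction n with
  | zero => rw [pow_zero, pow_zero, res_one]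
  | succ n ih =>
      have : A.valuation (x ^ n) ≤ 1 := by rw [map_pow]; exact pow_le_one₀ zero_le hx
      rw [pow_succ, pow_succ, res_mul this hx, ih]

theorem res_sub {x y : Qb} (hx : A.valuation x ≤ 1) (hy : A.valuation y ≤ 1) :
    res A (x - y) = res A x - res A y := by
  rw [sub_eq_add_neg, res_add hx (by rwa [Valuation.map_neg]), res_neg hy, sub_eq_add_neg]

theorem res_eq_iff {x y : Qb} (hx : A.valuation x ≤ 1) (hy : A.valuation y ≤ 1) :
    res A x = res A y ↔ A.valuation (x - y) < 1 := by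
  have hxy : A.valuation (x - y) ≤ 1 := le_trans (Valuation.map_sub _ _ _) (max_le hx hy)
  rw [← res_eq_zero_iff hxy, res_sub hx hy, sub_eq_zero]

end res

/-! ### the data -/

variable {A : ValuationSubring Qb} {N : Subgroup GQ} {p : ℕ} {ζ π₀ : Qb} {m : ℕ}
  {k : Type*} [Field k] [Algebra (ZMod p) k]

/-- the standing hypotheses of the count. -/
structure CountData (A : ValuationSubring Qb) (N : Subgroup GQ) (p : ℕ) (ζ π₀ : Qb) (m : ℕ)
    (χ : ↥(A.inertiaSubgroupIn ℚ) → ZMod p) (φ : GQ) (cφ : ZMod p) (q : ℕ) : Prop where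
  S : Setting A.valuation ↥N p ζ π₀ m
  hnorm : ∀ s ∈ A.inertiaSubgroupIn ℚ, ∀ τ ∈ N, s⁻¹ * τ * s ∈ N
  hχ : ∀ s : ↥(A.inertiaSubgroupIn ℚ), (s : GQ) ζ = ζ ^ (χ s).val
  hφN : ∀ τ ∈ N, φ⁻¹ * τ * φ ∈ N
  hφζ : φ ζ = ζ ^ cφ.val
  hφv : ∀ x : Qb, A.valuation (φ x) = A.valuation x
  hφres : ∀ x : Qb, A.valuation x ≤ 1 → A.valuation (φ x - x ^ q) < 1

variable {χ : ↥(A.inertiaSubgroupIn ℚ) → ZMod p} {φ : GQ} {cφ : ZMod p} {q : ℕ}

/-- the Kummer characters attached to `f : N → k`. -/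
noncomputable def gfun (p : ℕ) [Algebra (ZMod p) k] (f : ↥N → k) (b : k) : ↥N → ZMod p :=
  fun τ => Algebra.trace (ZMod p) k (b * f τ)

/-- the value `χ(s) ψ(s)⁻¹ ∈ k`. -/
noncomputable def cval (χ : ↥(A.inertiaSubgroupIn ℚ) → ZMod p)
    (ψ : ↥(A.inertiaSubgroupIn ℚ) →* kˣ) (s : ↥(A.inertiaSubgroupIn ℚ)) : k :=
  algebraMap (ZMod p) k (χ s) * ((ψ s)⁻¹ : kˣ)

/-- equivariance of `f` under inertia and under `φ`. -/
structure IsEquiv (D : CountData A N p ζ π₀ m χ φ cφ q) (ψ : ↥(A.inertiaSubgroupIn ℚ) →* kˣ)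
    (w : k) (f : ↥N → k) : Prop where
  equivI : ∀ (s : ↥(A.inertiaSubgroupIn ℚ)) (τ : ↥N),
    f ⟨(s : GQ)⁻¹ * τ * s, D.hnorm s s.2 τ τ.2⟩ = ((ψ s)⁻¹ : kˣ) * f τ
  equivφ : ∀ τ : ↥N, f ⟨φ⁻¹ * τ * φ, D.hφN τ τ.2⟩ = w * f τ

/-- **allowed levels**: relations among the `cval s` hold among the `(s π₀ / π₀)^i` modulo `𝔪`. -/
def Allowed (A : ValuationSubring Qb) (π₀ : Qb) (χ : ↥(A.inertiaSubgroupIn ℚ) → ZMod p)
    (ψ : ↥(A.inertiaSubgroupIn ℚ) →* kˣ) (i : ℕ) : Prop :=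
  ∀ (n : ℕ) (σs : Fin n → ↥(A.inertiaSubgroupIn ℚ)) (z : Fin n → ℤ),
    ∑ j, z j • cval χ ψ (σs j) = 0 →
      A.valuation (∑ j, z j • ((σs j : GQ) π₀ / π₀) ^ i) < 1

section basic

variable (D : CountData A N p ζ π₀ m χ φ cφ q) {ψ : ↥(A.inertiaSubgroupIn ℚ) →* kˣ} {w : k}
include D

theorem gfun_add (f : ↥N → k) (b b' : k) (τ : ↥N) :
    gfun p f (b + b') τ = gfun p f b τ + gfun p f b' τ := by
  simp only [gfun, add_mul, map_add]

omit D in
theorem gfun_zero (f : ↥N → k) (τ : ↥N) : gfun p f 0 τ = (0 : ZMod p) := by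
  simp only [gfun, zero_mul, map_zero]

/-- inertia transport of the characters. -/
theorem gfun_conjI {f : ↥N → k} (hf : IsEquiv D ψ w f) (s : ↥(A.inertiaSubgroupIn ℚ)) (b : k)
    (τ : ↥N) :
    χ s * gfun p f b ⟨(s : GQ)⁻¹ * τ * s, D.hnorm s s.2 τ τ.2⟩ = gfun p f (cval χ ψ s * b) τ := by
  simp only [gfun, cval]
  rw [hf.equivI s τ, ← smul_eq_mul (χ s), ← LinearMap.map_smul, Algebra.smul_def]
  congr 1
  ring

/-- Frobenius transport of the characters. -/
theorem gfun_conjφ {f : ↥N → k} (hf : IsEquiv D ψ w f) (b : k) (τ : ↥N) :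
    cφ * gfun p f b ⟨φ⁻¹ * τ * φ, D.hφN τ τ.2⟩ = gfun p f (algebraMap (ZMod p) k cφ * w * b) τ := by
  simp only [gfun]
  rw [hf.equivφ τ, ← smul_eq_mul cφ, ← LinearMap.map_smul, Algebra.smul_def]
  congr 1
  ring

theorem val_conj_pi (s : ↥(A.inertiaSubgroupIn ℚ)) : A.valuation ((s : GQ) π₀ / π₀) = 1 := by
  rw [map_div₀, Fermat.Agent.S05.Inertia.valuation_apply_rat s.2, div_self D.S.vpi_ne]

theorem val_phi_pi : A.valuation (φ π₀ / π₀) = 1 := by
  rw [map_div₀, D.hφv, div_self D.S.vpi_ne]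

/-- transport of a level by an element of inertia. -/
theorem klev_conjI {f : ↥N → k} (hf : IsEquiv D ψ w f) {b : k} {i : ℕ} {a : Qb}
    (h : KLev A N p ζ π₀ (gfun p f b) i a) (s : ↥(A.inertiaSubgroupIn ℚ)) :
    KLev A N p ζ π₀ (gfun p f (cval χ ψ s * b)) i (((s : GQ) π₀ / π₀) ^ i * a) := by
  have h1 := KLev.conj D.S h (s : GQ) (D.hnorm s s.2) (χ s) (D.hχ s)
    (fun x => Fermat.Agent.S05.Inertia.valuation_apply_rat s.2 x) 1
    (fun x hx => by
      rw [pow_one]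
      exact Fermat.Agent.S05.Inertia.valuation_sub_lt_one_rat s.2 hx)
  rw [pow_one] at h1
  exact KLev.congr h1 fun τ => gfun_conjI D hf s b τ

/-- transport of a level by `φ`. -/
theorem klev_conjφ {f : ↥N → k} (hf : IsEquiv D ψ w f) {b : k} {i : ℕ} {a : Qb}
    (h : KLev A N p ζ π₀ (gfun p f b) i a) :
    KLev A N p ζ π₀ (gfun p f (algebraMap (ZMod p) k cφ * w * b)) i
      ((φ π₀ / π₀) ^ i * a ^ q) := by
  have h1 := KLev.conj D.S h φ D.hφN cφ D.hφζ D.hφv q D.hφres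
  exact KLev.congr h1 fun τ => gfun_conjφ D hf b τ

/-- **an exact level is allowed.** -/
theorem exact_allowed {f : ↥N → k} (hf : IsEquiv D ψ w f) {b : k} {i : ℕ} {a : Qb}
    (hi1 : 1 ≤ i) (hpi : ¬ p ∣ i) (hi : i < p * m) (ha : A.valuation a = 1)
    (h : KLev A N p ζ π₀ (gfun p f b) i a) : Allowed A π₀ χ ψ i := by
  intro n σs z hrel
  -- the transported levels
  have h1 : ∀ j ∈ (Finset.univ : Finset (Fin n)),
      KLev A N p ζ π₀ (gfun p f (cval χ ψ (σs j) * b)) i (((σs j : GQ) π₀ / π₀) ^ i * a) :=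
    fun j _ => klev_conjI D hf h (σs j)
  have h2 := KLev.sum D.S Finset.univ hi1 (fun j => gfun p f (cval χ ψ (σs j) * b))
    (fun j => ((σs j : GQ) π₀ / π₀) ^ i * a) z h1
  -- the combined character vanishes
  have h3 : ∀ τ : ↥N, ∑ j, z j • gfun p f (cval χ ψ (σs j) * b) τ = 0 := by
    intro τ
    simp only [gfun]
    have : ∑ j, z j • Algebra.trace (ZMod p) k (cval χ ψ (σs j) * b * f τ)
        = Algebra.trace (ZMod p) k ((∑ j, z j • cval χ ψ (σs j)) * (b * f τ)) := by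
      rw [Finset.sum_mul, map_sum]
      refine Finset.sum_congr rfl fun j _ => ?_
      rw [smul_mul_assoc, map_zsmul, mul_assoc]
    rw [this, hrel, zero_mul, map_zero]
  have h4 : KLev A N p ζ π₀ (fun _ => 0) i (∑ j, z j • (((σs j : GQ) π₀ / π₀) ^ i * a)) :=
    KLev.congr h2 h3
  have h5 := KLev.rigid D.S hi1 hpi hi h4 (KLev.zero D.S i)
  rw [sub_zero] at h5
  have h6 : ∑ j, z j • (((σs j : GQ) π₀ / π₀) ^ i * a)
      = (∑ j, z j • ((σs j : GQ) π₀ / π₀) ^ i) * a := by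
    rw [Finset.sum_mul]
    exact Finset.sum_congr rfl fun j _ => by rw [smul_mul_assoc]
  rw [h6, map_mul, ha, mul_one] at h5
  exact h5


/-- **dichotomy**: if all characters of `f` have level `≥ i₁`, each of them vanishes or has an
exact allowed level `≥ i₁`. -/
theorem dichotomy {f : ↥N → k} (hf : IsEquiv D ψ w f) {i₁ : ℕ} (hi₁ : 1 ≤ i₁)
    (hlev : ∀ b : k, ∃ a : Qb, KLev A N p ζ π₀ (gfun p f b) i₁ a) (b : k) :
    (∀ τ, gfun p f b τ = 0) ∨ ∃ (i : ℕ) (a : Qb), i₁ ≤ i ∧ i < p * m ∧ ¬ p ∣ i ∧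
      A.valuation a = 1 ∧ KLev A N p ζ π₀ (gfun p f b) i a ∧ Allowed A π₀ χ ψ i := by
  obtain ⟨a₁, h₁⟩ := hlev b
  rcases KLev.normal_form D.S hi₁ h₁ with h0 | ⟨i, a, h1, h2, h3, h4, h5⟩
  · exact Or.inl h0
  · exact Or.inr ⟨i, a, h1, h2, h3, h4, h5,
      exact_allowed D hf (le_trans hi₁ h1) h3 h2 h4 h5⟩

/-- if no level `≥ i₁` is allowed, all characters vanish. -/
theorem gfun_eq_zero_of_not_allowed {f : ↥N → k} (hf : IsEquiv D ψ w f) {i₁ : ℕ} (hi₁ : 1 ≤ i₁)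
    (hlev : ∀ b : k, ∃ a : Qb, KLev A N p ζ π₀ (gfun p f b) i₁ a)
    (hno : ∀ i, i₁ ≤ i → i < p * m → ¬ p ∣ i → ¬ Allowed A π₀ χ ψ i) (b : k) (τ : ↥N) :
    gfun p f b τ = 0 := by
  rcases dichotomy D hf hi₁ hlev b with h0 | ⟨i, a, h1, h2, h3, -, -, h6⟩
  · exact h0 τ
  · exact absurd h6 (hno i h1 h2 h3)

/-- if `i₀` is the only allowed level `≥ i₁`, all characters have level `≥ i₀`. -/
theorem level_of_unique {f : ↥N → k} (hf : IsEquiv D ψ w f) {i₁ i₀ : ℕ} (hi₁ : 1 ≤ i₁)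
    (hlev : ∀ b : k, ∃ a : Qb, KLev A N p ζ π₀ (gfun p f b) i₁ a)
    (huniq : ∀ i, i₁ ≤ i → i < p * m → ¬ p ∣ i → Allowed A π₀ χ ψ i → i = i₀) (b : k) :
    ∃ a : Qb, KLev A N p ζ π₀ (gfun p f b) i₀ a := by
  rcases dichotomy D hf hi₁ hlev b with h0 | ⟨i, a, h1, h2, h3, -, h5, h6⟩
  · exact ⟨0, KLev.congr (KLev.zero D.S i₀) fun τ => (h0 τ).symm⟩
  · have := huniq i h1 h2 h3 h6
    exact ⟨a, this ▸ h5⟩

end basic

/-! ### the trace form -/

section trace

variable [Fact p.Prime] [Finite k]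

/-- the trace form of `k/𝔽_p` is nondegenerate. -/
theorem eq_zero_of_trace (y : k) (h : ∀ b : k, Algebra.trace (ZMod p) k (b * y) = 0) : y = 0 := by
  have hnd := traceForm_nondegenerate (ZMod p) k
  have h1 : ∀ b : k, Algebra.traceForm (ZMod p) k y b = 0 := by
    intro b
    rw [Algebra.traceForm_apply, mul_comm]
    exact h b
  exact hnd.1 y h1

theorem eq_zero_of_gfun {f : ↥N → k} (h : ∀ (b : k) (τ : ↥N), gfun p f b τ = 0) (τ : ↥N) :
    f τ = 0 :=
  eq_zero_of_trace (f τ) fun b => h b τ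

end trace

/-! ### the leading coefficient map -/

section lc

variable (D : CountData A N p ζ π₀ m χ φ cφ q) {ψ : ↥(A.inertiaSubgroupIn ℚ) →* kˣ} {w : k}

/-- the full hypotheses on `f`: additive, of finite level, equivariant, and all Kummer generators
of the field cut out by `f` are `≡ 1` modulo `p` up to `p`-th powers (the shape of
`kummer_level`). -/
structure IsH (D : CountData A N p ζ π₀ m χ φ cφ q) (ψ : ↥(A.inertiaSubgroupIn ℚ) →* kˣ)
    (w : k) (f : ↥N → k) : Prop where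
  equiv : IsEquiv D ψ w f
  add : ∀ σ τ : ↥N, f (σ * τ) = f σ + f τ
  level : ∃ L : IntermediateField ℚ Qb, FiniteDimensional ℚ L ∧
    ∀ σ : ↥N, (∀ x ∈ L, (σ : GQ) x = x) → f σ = 0
  kl : ∀ α θ : Qb, α ≠ 0 → (∀ σ ∈ N, σ α = α) → θ ^ p = α →
    (∀ σ : ↥N, f σ = 0 → (σ : GQ) θ = θ) →
    ∃ β u : Qb, β ≠ 0 ∧ (∀ σ ∈ N, σ β = β) ∧ α = β ^ p * u ∧ (u - 1) / (p : Qb) ∈ A

include D

/-- **the base level**: under `IsH` all characters of `f` have level `≥ (p-1) m`. -/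
theorem base_level {f : ↥N → k} (hf : IsH D ψ w f) (b : k) :
    ∃ a : Qb, KLev A N p ζ π₀ (gfun p f b) ((p - 1) * m) a := by
  have hS := D.S
  have hgadd : ∀ σ τ : ↥N, gfun p f b (σ * τ) = gfun p f b σ + gfun p f b τ := by
    intro σ τ
    simp only [gfun]
    rw [hf.add, mul_add, map_add]
  obtain ⟨L, hLfin, hL⟩ := hf.level
  haveI := hLfin
  obtain ⟨θ, hθ0, hθ⟩ := exists_radical hS.hp N ζ hS.hζ (fun σ hσ => hS.hζfix ⟨σ, hσ⟩)
    (gfun p f b) hgadd L (fun σ hσ => by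
      simp only [gfun]
      rw [hL σ hσ, mul_zero, map_zero])
  have hmem : θ ^ p ∈ L0 (F := Qb) ↥N := KLev.pow_mem hS.hζ.pow_eq_one hθ
  obtain ⟨β, u, hβ0, hβ, hαe, hu⟩ := hf.kl (θ ^ p) θ (pow_ne_zero p hθ0)
    (fun σ hσ => hmem ⟨σ, hσ⟩) rfl (fun σ hσ => by
      rw [hθ σ]
      simp only [gfun, hσ, mul_zero, map_zero, ZMod.val_zero, pow_zero, one_mul])
  have hp0 : (p : Qb) ≠ 0 := hS.vp_ne_zero
  have hvx : A.valuation (u - 1) ≤ A.valuation π₀ ^ ((p - 1) * m) := by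
    rw [← hS.hpv]
    have h1 : u - 1 = (p : Qb) * ((u - 1) / p) := by field_simp
    rw [h1, map_mul]
    exact mul_le_of_le_one_right zero_le ((ValuationSubring.valuation_le_one_iff A _).2 hu)
  have hπe : π₀ ^ ((p - 1) * m) ≠ 0 := pow_ne_zero _ hS.hπ0
  refine ⟨(u - 1) / π₀ ^ ((p - 1) * m), θ / β, div_ne_zero hθ0 hβ0, fun σ => ?_, ?_⟩
  · rw [map_div₀, hθ σ, hβ σ σ.2, mul_div_assoc]
  · refine ⟨1, u - 1, one_mem _, one_ne_zero, ?_, ?_, ?_⟩
    · rw [div_pow, hαe, one_pow, one_mul, mul_div_cancel_left₀ _ (pow_ne_zero p hβ0)]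
      ring
    · rw [map_div₀, map_pow]
      exact div_le_one_of_le₀ hvx zero_le
    · rw [div_mul_cancel₀ _ hπe, sub_self, map_zero]
      exact hS.pow_pos' _

variable {i₀ : ℕ}

/-- the leading coefficient at level `i₀` of the character `gfun p f b`. -/
noncomputable def lcf {f : ↥N → k}
    (hlev₀ : ∀ b : k, ∃ a : Qb, KLev A N p ζ π₀ (gfun p f b) i₀ a) (b : k) : ResidueField A :=
  res A (Classical.choose (hlev₀ b))

omit D in
theorem lcf_def {f : ↥N → k}
    (hlev₀ : ∀ b : k, ∃ a : Qb, KLev A N p ζ π₀ (gfun p f b) i₀ a) (b : k) :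
    lcf hlev₀ b = res A (Classical.choose (hlev₀ b)) := rfl

variable (hi1 : 1 ≤ i₀) (hpi : ¬ p ∣ i₀) (hi : i₀ < p * m)
include hi1 hpi hi

theorem lcf_eq {f : ↥N → k}
    (hlev₀ : ∀ b : k, ∃ a : Qb, KLev A N p ζ π₀ (gfun p f b) i₀ a) {b : k} {a : Qb}
    (h : KLev A N p ζ π₀ (gfun p f b) i₀ a) : lcf hlev₀ b = res A a := by
  have h' := Classical.choose_spec (hlev₀ b)
  rw [lcf_def, res_eq_iff (KLev.val_le h') (KLev.val_le h)]
  exact KLev.rigid D.S hi1 hpi hi h' h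

theorem lcf_add {f : ↥N → k}
    (hlev₀ : ∀ b : k, ∃ a : Qb, KLev A N p ζ π₀ (gfun p f b) i₀ a) (b b' : k) :
    lcf hlev₀ (b + b') = lcf hlev₀ b + lcf hlev₀ b' := by
  have h1 := Classical.choose_spec (hlev₀ b)
  have h2 := Classical.choose_spec (hlev₀ b')
  have hv : A.valuation (Classical.choose (hlev₀ b) + Classical.choose (hlev₀ b')) ≤ 1 :=
    le_trans (Valuation.map_add _ _ _) (max_le (KLev.val_le h1) (KLev.val_le h2))
  have h3 := KLev.add D.S hi1 h1 h2 hv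
  have h4 : KLev A N p ζ π₀ (gfun p f (b + b')) i₀
      (Classical.choose (hlev₀ b) + Classical.choose (hlev₀ b')) :=
    KLev.congr h3 fun τ => (gfun_add D f b b' τ).symm
  rw [lcf_eq D hi1 hpi hi hlev₀ h4, res_add (KLev.val_le h1) (KLev.val_le h2), lcf_def, lcf_def]

theorem lcf_zero {f : ↥N → k}
    (hlev₀ : ∀ b : k, ∃ a : Qb, KLev A N p ζ π₀ (gfun p f b) i₀ a) : lcf hlev₀ 0 = 0 := by
  have h : KLev A N p ζ π₀ (gfun p f 0) i₀ 0 :=
    KLev.congr (KLev.zero D.S i₀) fun τ => (gfun_zero f τ).symm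
  rw [lcf_eq D hi1 hpi hi hlev₀ h, res_zero]

theorem lcf_neg {f : ↥N → k}
    (hlev₀ : ∀ b : k, ∃ a : Qb, KLev A N p ζ π₀ (gfun p f b) i₀ a) (b : k) :
    lcf hlev₀ (-b) = -lcf hlev₀ b := by
  have h := lcf_add D hi1 hpi hi hlev₀ (-b) b
  rw [neg_add_cancel, lcf_zero D hi1 hpi hi hlev₀] at h
  exact eq_neg_of_add_eq_zero_left h.symm

theorem lcf_cval {f : ↥N → k} (hf : IsEquiv D ψ w f)
    (hlev₀ : ∀ b : k, ∃ a : Qb, KLev A N p ζ π₀ (gfun p f b) i₀ a)
    (s : ↥(A.inertiaSubgroupIn ℚ)) (b : k) :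
    lcf hlev₀ (cval χ ψ s * b) = res A (((s : GQ) π₀ / π₀) ^ i₀) * lcf hlev₀ b := by
  have h1 := Classical.choose_spec (hlev₀ b)
  have h2 := klev_conjI D hf h1 s
  have hv : A.valuation (((s : GQ) π₀ / π₀) ^ i₀) ≤ 1 := by
    rw [map_pow, val_conj_pi D s, one_pow]
  rw [lcf_eq D hi1 hpi hi hlev₀ h2, res_mul hv (KLev.val_le h1), lcf_def]

theorem lcf_phi {f : ↥N → k} (hf : IsEquiv D ψ w f)
    (hlev₀ : ∀ b : k, ∃ a : Qb, KLev A N p ζ π₀ (gfun p f b) i₀ a) (b : k) :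
    lcf hlev₀ (algebraMap (ZMod p) k cφ * w * b)
      = res A ((φ π₀ / π₀) ^ i₀) * lcf hlev₀ b ^ q := by
  have h1 := Classical.choose_spec (hlev₀ b)
  have h2 := klev_conjφ D hf h1
  have hv : A.valuation ((φ π₀ / π₀) ^ i₀) ≤ 1 := by
    rw [map_pow, val_phi_pi D, one_pow]
  have hva : A.valuation (Classical.choose (hlev₀ b) ^ q) ≤ 1 := by
    rw [map_pow]
    exact pow_le_one₀ zero_le (KLev.val_le h1)
  rw [lcf_eq D hi1 hpi hi hlev₀ h2, res_mul hv hva, res_pow (KLev.val_le h1), lcf_def]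

end lc

/-! ### the count -/

section final

variable [Fact p.Prime] [Finite k]
variable (D : CountData A N p ζ π₀ m χ φ cφ q) {ψ : ↥(A.inertiaSubgroupIn ℚ) →* kˣ} {w : k}
variable {𝔽 : Type*} [Field 𝔽] [Algebra 𝔽 k] [Algebra 𝔽 (ResidueField A)]

omit [Fact p.Prime] [Finite k] in
theorem charP_residueField (hp : p.Prime) (hA : A.LiesOverPrime p) : CharP (ResidueField A) p := by
  refine (CharP.charP_iff_prime_eq_zero hp).mpr ?_
  have h1 : ((p : ℕ) : ResidueField A) = residue A ((p : ℕ) : A) := (map_natCast _ _).symm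
  rw [h1, residue_eq_zero_iff, ValuationSubring.valuation_lt_one_iff]
  have h2 : (((p : ℕ) : A) : Qb) = (p : Qb) := by push_cast; rfl
  rw [h2]
  exact (ValuationSubring.mem_nonunits_iff (A := A)).1 hA

include D in
/-- the subtraction of two equivariant maps is equivariant. -/
theorem IsEquiv.sub {f f' : ↥N → k} (hf : IsEquiv D ψ w f) (hf' : IsEquiv D ψ w f') :
    IsEquiv D ψ w (fun τ => f τ - f' τ) where
  equivI := fun s τ => by
    show f _ - f' _ = _
    rw [hf.equivI s τ, hf'.equivI s τ, mul_sub]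
  equivφ := fun τ => by
    show f _ - f' _ = _
    rw [hf.equivφ τ, hf'.equivφ τ, mul_sub]

theorem gfun_sub (f f' : ↥N → k) (b : k) (τ : ↥N) :
    gfun p (fun τ => f τ - f' τ) b τ = gfun p f b τ + -gfun p f' b τ := by
  simp only [gfun]
  rw [mul_sub, map_sub, sub_eq_add_neg]

/-- the weak hypotheses on `f`: equivariant, and all its characters have level `≥ (p-1) m`.  The
`f` with `IsH'` form a `k`-subspace containing those with `IsH`. -/
def IsH' (D : CountData A N p ζ π₀ m χ φ cφ q) (ψ : ↥(A.inertiaSubgroupIn ℚ) →* kˣ)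
    (w : k) (f : ↥N → k) : Prop :=
  IsEquiv D ψ w f ∧ ∀ b : k, ∃ a : Qb, KLev A N p ζ π₀ (gfun p f b) ((p - 1) * m) a

omit [Fact p.Prime] [Finite k] in
theorem IsH.isH' {f : ↥N → k} (hf : IsH D ψ w f) : IsH' D ψ w f :=
  ⟨hf.equiv, base_level D hf⟩

/-- **THE CHARACTER LEVEL COUNT.** -/
theorem card_le' (hA : A.LiesOverPrime p) {fq : ℕ} (hq : q = p ^ fq) (hfq : 1 ≤ fq)
    (c₀ : ↥(A.inertiaSubgroupIn ℚ) → 𝔽) (hc₀ : ∀ s, algebraMap 𝔽 k (c₀ s) = cval χ ψ s)
    (hgen : AddSubgroup.closure (Set.range c₀) = ⊤) (h𝔽q : ∀ x : 𝔽, x ^ q = x)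
    {i₀ : ℕ} (hi₀ : (p - 1) * m ≤ i₀) (hi : i₀ < p * m) (hpi : ¬ p ∣ i₀)
    (hs : ∀ s : ↥(A.inertiaSubgroupIn ℚ),
      algebraMap 𝔽 (ResidueField A) (c₀ s) = res A (((s : GQ) π₀ / π₀) ^ i₀))
    (huniq : ∀ i, (p - 1) * m ≤ i → i < p * m → ¬ p ∣ i → Allowed A π₀ χ ψ i → i = i₀)
    (hw : w ≠ 0) (hcφ : cφ ≠ 0) :
    Finite {f : ↥N → k // IsH' D ψ w f} ∧
      Nat.card {f : ↥N → k // IsH' D ψ w f} ≤ q ^ Module.finrank 𝔽 k := by
  classical
  have hS := D.S
  have hp : p.Prime := hS.hp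
  have he1 : 1 ≤ (p - 1) * m := by
    have h1 : 1 ≤ p - 1 := by have := hp.two_le; omega
    exact Nat.one_le_iff_ne_zero.2 (Nat.mul_ne_zero (by omega) hS.hm.ne')
  have hi1 : 1 ≤ i₀ := le_trans he1 hi₀
  have : CharP (ResidueField A) p := charP_residueField hp hA
  have hq2 : 2 ≤ q := by
    rw [hq]
    calc 2 ≤ p := hp.two_le
      _ = p ^ 1 := (pow_one p).symm
      _ ≤ p ^ fq := Nat.pow_le_pow_right hp.pos hfq
  -- all characters of an `f` in the family have level `≥ i₀`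
  have hlev₀ : ∀ f : {f : ↥N → k // IsH' D ψ w f}, ∀ b : k,
      ∃ a : Qb, KLev A N p ζ π₀ (gfun p f.1 b) i₀ a := fun f =>
    level_of_unique D f.2.1 he1 f.2.2 huniq
  -- semilinearity over `𝔽`
  have hsemi : ∀ (f : {f : ↥N → k // IsH' D ψ w f}) (x : 𝔽) (b : k),
      lcf (hlev₀ f) (x • b) = x • lcf (hlev₀ f) b := by
    intro f x
    have hx : x ∈ AddSubgroup.closure (Set.range c₀) := by rw [hgen]; exact AddSubgroup.mem_top x
    induction hx using AddSubgroup.closure_induction with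
    | mem y hy =>
        obtain ⟨s, rfl⟩ := hy
        intro b
        rw [Algebra.smul_def, hc₀, lcf_cval D hi1 hpi hi f.2.1 (hlev₀ f) s b,
          Algebra.smul_def, hs]
    | zero =>
        intro b
        rw [zero_smul, zero_smul, lcf_zero D hi1 hpi hi (hlev₀ f)]
    | add y z _ _ hy hz =>
        intro b
        rw [add_smul, add_smul, lcf_add D hi1 hpi hi (hlev₀ f), hy, hz]
    | neg y _ hy =>
        intro b
        rw [neg_smul, neg_smul, lcf_neg D hi1 hpi hi (hlev₀ f), hy]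
  -- the linear map of leading coefficients
  let lcL : {f : ↥N → k // IsH' D ψ w f} → (k →ₗ[𝔽] ResidueField A) := fun f =>
    { toFun := lcf (hlev₀ f)
      map_add' := lcf_add D hi1 hpi hi (hlev₀ f)
      map_smul' := fun x b => by rw [hsemi f x b, RingHom.id_apply] }
  have hlcL : ∀ f b, lcL f b = lcf (hlev₀ f) b := fun _ _ => rfl
  -- the Frobenius-semilinear operator
  set cφ' : k := algebraMap (ZMod p) k cφ * w with hcφ'
  have hcφ'0 : cφ' ≠ 0 := by
    refine mul_ne_zero ?_ hw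
    rw [Ne, map_eq_zero_iff _ (algebraMap (ZMod p) k).injective]
    exact hcφ
  set tφ : ResidueField A := res A ((φ π₀ / π₀) ^ i₀) with htφ
  let Φf : (k →ₗ[𝔽] ResidueField A) → (k →ₗ[𝔽] ResidueField A) := fun y =>
    { toFun := fun b => tφ * (y (cφ'⁻¹ * b)) ^ q
      map_add' := fun b b' => by
        rw [mul_add, map_add, hq, add_pow_char_pow, mul_add]
      map_smul' := fun x b => by
        rw [RingHom.id_apply, mul_smul_comm, map_smul, Algebra.smul_def x (y _), mul_pow,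
          ← map_pow, h𝔽q x, Algebra.smul_def]
        ring }
  have hΦf : ∀ y b, Φf y b = tφ * (y (cφ'⁻¹ * b)) ^ q := fun _ _ => rfl
  let Φ : (k →ₗ[𝔽] ResidueField A) →+ (k →ₗ[𝔽] ResidueField A) :=
    { toFun := Φf
      map_zero' := by
        ext b
        rw [hΦf, LinearMap.zero_apply, LinearMap.zero_apply, zero_pow (by omega), mul_zero]
      map_add' := fun y y' => by
        ext b
        rw [LinearMap.add_apply, hΦf, hΦf, hΦf, LinearMap.add_apply, hq, add_pow_char_pow,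
          mul_add] }
  have hΦ : ∀ y b, Φ y b = tφ * (y (cφ'⁻¹ * b)) ^ q := fun _ _ => rfl
  have hΦsemi : ∀ (a : ResidueField A) (y : k →ₗ[𝔽] ResidueField A),
      Φ (a • y) = iterateFrobenius (ResidueField A) p fq a • Φ y := by
    intro a y
    ext b
    rw [hΦ, LinearMap.smul_apply, LinearMap.smul_apply, hΦ, smul_eq_mul, smul_eq_mul, mul_pow,
      iterateFrobenius_def, ← hq]
    ring
  -- every `lcL f` is a fixed point
  have hfixed : ∀ f, Φ (lcL f) = lcL f := by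
    intro f
    ext b
    rw [hΦ, hlcL, hlcL]
    have := lcf_phi D hi1 hpi hi f.2.1 (hlev₀ f) (cφ'⁻¹ * b)
    rw [← hcφ', ← mul_assoc, mul_inv_cancel₀ hcφ'0, one_mul] at this
    rw [this]
  -- injectivity
  have hinj : Function.Injective fun f : {f : ↥N → k // IsH' D ψ w f} =>
      (⟨lcL f, hfixed f⟩ : {y : k →ₗ[𝔽] ResidueField A // Φ y = y}) := by
    intro f f' hff
    have hff' : ∀ b, lcf (hlev₀ f) b = lcf (hlev₀ f') b := by
      intro b
      have := congrArg (fun z : {y : k →ₗ[𝔽] ResidueField A // Φ y = y} => z.1 b) hff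
      exact this
    -- the difference has level `≥ i₀ + 1`
    have heq : IsEquiv D ψ w (fun τ => f.1 τ - f'.1 τ) := IsEquiv.sub D f.2.1 f'.2.1
    have hlevd : ∀ b : k, ∃ a : Qb,
        KLev A N p ζ π₀ (gfun p (fun τ => f.1 τ - f'.1 τ) b) (i₀ + 1) a := by
      intro b
      have h1 := Classical.choose_spec (hlev₀ f b)
      have h2 := Classical.choose_spec (hlev₀ f' b)
      have h3 := KLev.neg hS hi1 h2
      have hv : A.valuation (Classical.choose (hlev₀ f b) + -Classical.choose (hlev₀ f' b)) ≤ 1 :=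
        le_trans (Valuation.map_add _ _ _) (max_le (KLev.val_le h1) (KLev.val_le h3))
      have h4 := KLev.add hS hi1 h1 h3 hv
      have h5 : KLev A N p ζ π₀ (gfun p (fun τ => f.1 τ - f'.1 τ) b) i₀
          (Classical.choose (hlev₀ f b) + -Classical.choose (hlev₀ f' b)) :=
        KLev.congr h4 fun τ => (gfun_sub f.1 f'.1 b τ).symm
      have h6 : A.valuation (Classical.choose (hlev₀ f b) + -Classical.choose (hlev₀ f' b)) < 1 := by
        rw [← sub_eq_add_neg, ← res_eq_iff (KLev.val_le h1) (KLev.val_le h2)]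
        exact hff' b
      exact KLev.improve hS h5 h6
    have hno : ∀ i, i₀ + 1 ≤ i → i < p * m → ¬ p ∣ i → ¬ Allowed A π₀ χ ψ i := by
      intro i h1 h2 h3 h4
      have := huniq i (by omega) h2 h3 h4
      omega
    have hzero : ∀ τ : ↥N, f.1 τ - f'.1 τ = 0 := fun τ =>
      eq_zero_of_gfun (p := p) (f := fun τ => f.1 τ - f'.1 τ)
        (fun b τ => gfun_eq_zero_of_not_allowed D heq (by omega) hlevd hno b τ) τ
    exact Subtype.ext (funext fun τ => sub_eq_zero.1 (hzero τ))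
  -- the count of fixed points
  have hfp := Fermat.Agent.W56.SemilinFix3.card_fixed_le (E := ResidueField A)
    (Y := k →ₗ[𝔽] ResidueField A) (iterateFrobenius (ResidueField A) p fq) Φ hΦsemi hq2
    (fun a ha => by rw [iterateFrobenius_def, ← hq] at ha; exact ha)
  have := hfp.1
  have h1 : Nat.card {f : ↥N → k // IsH' D ψ w f}
      ≤ Nat.card {y : k →ₗ[𝔽] ResidueField A // Φ y = y} := Nat.card_le_card_of_injective _ hinj
  have h2 : Module.finrank (ResidueField A) (k →ₗ[𝔽] ResidueField A) = Module.finrank 𝔽 k :=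
    Module.finrank_linearMap_self 𝔽 (ResidueField A) k
  rw [← h2]
  exact ⟨Finite.of_injective _ hinj, le_trans h1 hfp.2⟩

/-- the count for the full hypotheses `IsH`. -/
theorem card_le (hA : A.LiesOverPrime p) {fq : ℕ} (hq : q = p ^ fq) (hfq : 1 ≤ fq)
    (c₀ : ↥(A.inertiaSubgroupIn ℚ) → 𝔽) (hc₀ : ∀ s, algebraMap 𝔽 k (c₀ s) = cval χ ψ s)
    (hgen : AddSubgroup.closure (Set.range c₀) = ⊤) (h𝔽q : ∀ x : 𝔽, x ^ q = x)
    {i₀ : ℕ} (hi₀ : (p - 1) * m ≤ i₀) (hi : i₀ < p * m) (hpi : ¬ p ∣ i₀)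
    (hs : ∀ s : ↥(A.inertiaSubgroupIn ℚ),
      algebraMap 𝔽 (ResidueField A) (c₀ s) = res A (((s : GQ) π₀ / π₀) ^ i₀))
    (huniq : ∀ i, (p - 1) * m ≤ i → i < p * m → ¬ p ∣ i → Allowed A π₀ χ ψ i → i = i₀)
    (hw : w ≠ 0) (hcφ : cφ ≠ 0) :
    Nat.card {f : ↥N → k // IsH D ψ w f} ≤ q ^ Module.finrank 𝔽 k := by
  have h1 := card_le' D hA hq hfq c₀ hc₀ hgen h𝔽q hi₀ hi hpi hs huniq hw hcφ (ψ := ψ) (w := w)
  have hinj : Function.Injective fun f : {f : ↥N → k // IsH D ψ w f} =>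
      (⟨f.1, f.2.isH' D⟩ : {f : ↥N → k // IsH' D ψ w f}) := by
    intro f f' hff
    exact Subtype.ext (congrArg (fun z : {f : ↥N → k // IsH' D ψ w f} => z.1) hff)
  have hfin : Finite {f : ↥N → k // IsH' D ψ w f} := h1.1
  exact le_trans (Nat.card_le_card_of_injective _ hinj) h1.2

end final

end Fermat.Agent.W56.LevelCount3
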