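/-
Programme W56 (target S56), chapter (F) FLAT, the counts (helper3): **the tame character and the
character level count in consumer form**.

In the situation of `LevelCount3.CountData` (`A` a place of `ℚ̄` over `p`, `I` its inertia group,
`N ≤ I`, `π₀` a uniformiser of `ℚ̄^N`, `φ` a Frobenius lift normalising `N`):

* `th A π₀ s = res (s π₀ / π₀)` : the tame character `I → κ̄ˣ`; `th_mul`, `th_pow`, `th_of_mem`
  (trivial on `N`), `th_pow_m` (`χ = θ₀^m`, `χ` the mod `p` cyclotomic character), `th_conj`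
  (`θ₀(φ s φ⁻¹) = θ₀(s)^q`);
* `sqData` : the data for `φ²`;
* `allowed_iff_th` style lemmas: consequences of `Allowed` for single relations;
* `exists_embedding` : `Allowed i` produces a ring homomorphism `ι` from the subfield `𝔽 ⊆ k`
  generated by the values `χ(s) ψ(s)⁻¹` to `κ̄` with `ι (χ(s) ψ(s)⁻¹) = θ₀(s)^i`;
* **`card_le_card`** : if `i₀` is the only allowed level `≥ i₁` and `𝔽` has `q` elements, the
  equivariant `f : N → k` all of whose Kummer characters have level `≥ i₁` number at most `#k`.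
-/
import Mathlib
import Fermat.Agent.W56.LevelCount3
import Fermat.Agent.ES.FROB.FrobFacts12

set_option autoImplicit false

namespace Fermat.Agent.W56.LevelCountB3

open Fermat.Agent.W56.KummerGen3 Fermat.Agent.W56.UnitLevel3 Fermat.Agent.W56.KLevel3
  Fermat.Agent.W56.LevelCount3 IsLocalRing
open scoped Pointwise

variable {A : ValuationSubring Qb} {N : Subgroup GQ} {p : ℕ} {ζ π₀ : Qb} {m : ℕ}
  {χ : ↥(A.inertiaSubgroupIn ℚ) → ZMod p} {φ : GQ} {cφ : ZMod p} {q : ℕ}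

/-! ### more on residues -/

section res

theorem res_eq_one_iff {x : Qb} (hx : A.valuation x ≤ 1) :
    res A x = 1 ↔ A.valuation (x - 1) < 1 := by
  rw [← res_one (A := A), res_eq_iff hx (by rw [map_one])]

theorem res_ne_zero {x : Qb} (hx : A.valuation x = 1) : res A x ≠ 0 := by
  rw [Ne, res_eq_zero_iff hx.le, hx]
  exact lt_irrefl 1

theorem res_inv {x : Qb} (hx : A.valuation x = 1) : res A x⁻¹ = (res A x)⁻¹ := by
  have hx0 : x ≠ 0 := by
    intro h
    rw [h, map_zero] at hx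
    exact zero_ne_one hx
  have hxi : A.valuation x⁻¹ = 1 := by rw [map_inv₀, hx, inv_one]
  have h1 : res A x * res A x⁻¹ = 1 := by
    rw [← res_mul hx.le hxi.le, mul_inv_cancel₀ hx0, res_one]
  exact eq_inv_of_mul_eq_one_right h1

theorem res_div {x y : Qb} (hx : A.valuation x ≤ 1) (hy : A.valuation y = 1) :
    res A (x / y) = res A x / res A y := by
  have hyi : A.valuation y⁻¹ = 1 := by rw [map_inv₀, hy, inv_one]
  rw [div_eq_mul_inv, res_mul hx hyi.le, res_inv hy, div_eq_mul_inv]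

theorem res_natCast (n : ℕ) : res A (n : Qb) = (n : ResidueField A) := by
  induction n with
  | zero => rw [Nat.cast_zero, Nat.cast_zero, res_zero]
  | succ n ih =>
      rw [Nat.cast_succ, Nat.cast_succ,
        res_add (Fermat.Agent.S05.Inertia.valuation_natCast_le_one n) (by rw [map_one]), ih,
        res_one]

theorem res_intCast (n : ℤ) : res A (n : Qb) = (n : ResidueField A) := by
  rcases Int.eq_nat_or_neg n with ⟨j, rfl | rfl⟩
  · rw [Int.cast_natCast, Int.cast_natCast, res_natCast]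
  · rw [Int.cast_neg, Int.cast_neg, Int.cast_natCast, Int.cast_natCast,
      res_neg (Fermat.Agent.S05.Inertia.valuation_natCast_le_one j), res_natCast]

theorem res_zsmul (n : ℤ) {x : Qb} (hx : A.valuation x ≤ 1) : res A (n • x) = n • res A x := by
  rw [zsmul_eq_mul, zsmul_eq_mul,
    res_mul (Fermat.Agent.S05.Inertia.valuation_intCast_le_one n) hx, res_intCast]

theorem val_zsmul_le (n : ℤ) {x : Qb} (hx : A.valuation x ≤ 1) : A.valuation (n • x) ≤ 1 := by
  rw [zsmul_eq_mul, map_mul]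
  exact mul_le_one₀ (Fermat.Agent.S05.Inertia.valuation_intCast_le_one n) zero_le hx

theorem val_sum_le {ι : Type*} (s : Finset ι) (x : ι → Qb) (hx : ∀ j ∈ s, A.valuation (x j) ≤ 1) :
    A.valuation (∑ j ∈ s, x j) ≤ 1 := by
  classical
  induction s using Finset.induction_on with
  | empty => rw [Finset.sum_empty, map_zero]; exact zero_le
  | insert j s hj ih =>
      rw [Finset.sum_insert hj]
      exact le_trans (Valuation.map_add _ _ _)
        (max_le (hx j (Finset.mem_insert_self j s))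
          (ih fun j' hj' => hx j' (Finset.mem_insert_of_mem hj')))

theorem res_sum {ι : Type*} (s : Finset ι) (x : ι → Qb) (hx : ∀ j ∈ s, A.valuation (x j) ≤ 1) :
    res A (∑ j ∈ s, x j) = ∑ j ∈ s, res A (x j) := by
  classical
  induction s using Finset.induction_on with
  | empty => rw [Finset.sum_empty, Finset.sum_empty, res_zero]
  | insert j s hj ih =>
      rw [Finset.sum_insert hj, Finset.sum_insert hj,
        res_add (hx j (Finset.mem_insert_self j s))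
          (val_sum_le s x fun j' hj' => hx j' (Finset.mem_insert_of_mem hj')),
        ih fun j' hj' => hx j' (Finset.mem_insert_of_mem hj')]

/-- inertia acts trivially on residues. -/
theorem res_apply_inertia {s : GQ} (hs : s ∈ A.inertiaSubgroupIn ℚ) {x : Qb}
    (hx : A.valuation x ≤ 1) : res A (s x) = res A x := by
  rw [res_eq_iff (by rwa [Fermat.Agent.S05.Inertia.valuation_apply_rat hs]) hx]
  exact Fermat.Agent.S05.Inertia.valuation_sub_lt_one_rat hs hx

end res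

/-! ### the tame character -/

/-- the tame character `s ↦ s π₀ / π₀` modulo `𝔪`. -/
noncomputable def th (A : ValuationSubring Qb) (π₀ : Qb) (s : GQ) : ResidueField A :=
  res A (s π₀ / π₀)

section tame

variable (D : CountData A N p ζ π₀ m χ φ cφ q)
include D

theorem pi_ne : π₀ ≠ 0 := D.S.hπ0

theorem val_tq {s : GQ} (hs : s ∈ A.inertiaSubgroupIn ℚ) : A.valuation (s π₀ / π₀) = 1 :=
  val_conj_pi D ⟨s, hs⟩

theorem th_ne_zero {s : GQ} (hs : s ∈ A.inertiaSubgroupIn ℚ) : th A π₀ s ≠ 0 :=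
  res_ne_zero (val_tq D hs)

omit D in
theorem th_of_fix {s : GQ} (hπ : π₀ ≠ 0) (hs : s π₀ = π₀) : th A π₀ s = 1 := by
  rw [th, hs, div_self hπ, res_one]

theorem th_of_mem {s : GQ} (hs : s ∈ N) : th A π₀ s = 1 :=
  th_of_fix D.S.hπ0 (D.S.hπfix ⟨s, hs⟩)

theorem th_one : th A π₀ (1 : GQ) = 1 := th_of_fix D.S.hπ0 rfl

theorem th_mul {s t : GQ} (hs : s ∈ A.inertiaSubgroupIn ℚ) (ht : t ∈ A.inertiaSubgroupIn ℚ) :
    th A π₀ (s * t) = th A π₀ s * th A π₀ t := by
  have hπ := D.S.hπ0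
  have hsπ : s π₀ ≠ 0 := (map_ne_zero_iff s s.injective).2 hπ
  have h1 : (s * t) π₀ / π₀ = s (t π₀ / π₀) * (s π₀ / π₀) := by
    rw [AlgEquiv.mul_apply, map_div₀]
    field_simp
  rw [th, h1, res_mul (by rw [Fermat.Agent.S05.Inertia.valuation_apply_rat hs, val_tq D ht])
    (val_tq D hs).le, res_apply_inertia hs (val_tq D ht).le, mul_comm]
  rfl

theorem th_pow {s : GQ} (hs : s ∈ A.inertiaSubgroupIn ℚ) (n : ℕ) :
    th A π₀ (s ^ n) = th A π₀ s ^ n := by
  induction n with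
  | zero => rw [pow_zero, pow_zero, th_one D]
  | succ n ih =>
      rw [pow_succ, pow_succ, th_mul D (Subgroup.pow_mem _ hs n) hs, ih]

theorem th_inv {s : GQ} (hs : s ∈ A.inertiaSubgroupIn ℚ) :
    th A π₀ s⁻¹ = (th A π₀ s)⁻¹ := by
  have h := th_mul D hs (Subgroup.inv_mem _ hs)
  rw [mul_inv_cancel, th_one D] at h
  exact eq_inv_of_mul_eq_one_right h.symm

/-- the residue of `((s π₀ / π₀) ^ i)`. -/
theorem res_tq_pow {s : GQ} (hs : s ∈ A.inertiaSubgroupIn ℚ) (i : ℕ) :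
    res A ((s π₀ / π₀) ^ i) = th A π₀ s ^ i :=
  res_pow (val_tq D hs).le i

/-- the tame character as a monoid homomorphism. -/
noncomputable def thHom : ↥(A.inertiaSubgroupIn ℚ) →* ResidueField A where
  toFun s := th A π₀ (s : GQ)
  map_one' := th_one D
  map_mul' s t := th_mul D s.2 t.2

theorem thHom_apply (s : ↥(A.inertiaSubgroupIn ℚ)) : thHom D s = th A π₀ (s : GQ) := rfl

/-- **`χ = θ₀^m`**: the cyclotomic character is the `m`-th power of the tame character. -/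
theorem th_pow_m (s : ↥(A.inertiaSubgroupIn ℚ)) :
    th A π₀ (s : GQ) ^ m = ((χ s).val : ResidueField A) := by
  have hS := D.S
  have hπ := hS.hπ0
  have hlam0 : ζ - 1 ≠ 0 := hS.lam_ne_zero
  have hs := s.2
  -- the unit `u = (ζ - 1) / π₀^m`
  set u : Qb := (ζ - 1) / π₀ ^ m with hu
  have hvu : A.valuation u = 1 := by
    rw [hu, map_div₀, hS.hζv, map_pow, div_self (pow_ne_zero m hS.vpi_ne)]
  have hu0 : u ≠ 0 := by
    intro h
    rw [h, map_zero] at hvu
    exact zero_ne_one hvu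
  have hsu0 : (s : GQ) u ≠ 0 := (map_ne_zero_iff _ (s : GQ).injective).2 hu0
  have hζe : ζ - 1 = π₀ ^ m * u := by rw [hu]; field_simp
  -- `s (ζ - 1) / (ζ - 1)` in two ways
  have h1 : (s : GQ) (ζ - 1) / (ζ - 1) = ((s : GQ) π₀ / π₀) ^ m * ((s : GQ) u / u) := by
    conv_lhs => rw [hζe]
    rw [map_mul, map_pow, div_pow]
    field_simp
  have h2 : (s : GQ) (ζ - 1) / (ζ - 1) = ∑ j ∈ Finset.range (χ s).val, ζ ^ j := by
    rw [map_sub, map_one, D.hχ s, eq_comm, eq_div_iff hlam0]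
    exact geom_sum_mul ζ _
  have hvζ : A.valuation ζ = 1 := by
    have h3 : A.valuation (ζ - 1) < 1 := by rw [hS.hζv]; exact hS.pow_lt_one hS.hm
    have : ζ = 1 + (ζ - 1) := by ring
    rw [this]
    exact Valuation.map_one_add_of_lt _ h3
  have hresζ : res A ζ = 1 := by
    rw [res_eq_one_iff hvζ.le, hS.hζv]
    exact hS.pow_lt_one hS.hm
  have h3 : res A ((s : GQ) (ζ - 1) / (ζ - 1)) = ((χ s).val : ResidueField A) := by
    rw [h2, res_sum _ _ fun j _ => by rw [map_pow, hvζ, one_pow]]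
    simp only [res_pow hvζ.le, hresζ, one_pow, Finset.sum_const, Finset.card_range, nsmul_eq_mul,
      mul_one]
  have hvsu : A.valuation ((s : GQ) u / u) = 1 := by
    rw [map_div₀, Fermat.Agent.S05.Inertia.valuation_apply_rat hs, hvu, div_one]
  have h4 : res A ((s : GQ) u / u) = 1 := by
    rw [res_div (by rw [Fermat.Agent.S05.Inertia.valuation_apply_rat hs, hvu]) hvu,
      res_apply_inertia hs hvu.le, div_self (res_ne_zero hvu)]
  rw [← h3, h1, res_mul (by rw [map_pow, val_tq D hs, one_pow]) hvsu.le, h4, mul_one,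
    res_tq_pow D hs]

/-- `φ` lies in the decomposition group. -/
theorem phi_mem_decomp : φ ∈ A.decompositionSubgroup ℚ := by
  rw [MulAction.mem_stabilizer_iff]
  ext x
  rw [ValuationSubring.mem_pointwise_smul_iff_inv_smul_mem]
  show φ⁻¹ x ∈ A ↔ x ∈ A
  rw [← ValuationSubring.valuation_le_one_iff, ← ValuationSubring.valuation_le_one_iff,
    ← D.hφv (φ⁻¹ x)]
  have : φ (φ⁻¹ x) = x := by
    rw [← AlgEquiv.mul_apply, mul_inv_cancel, AlgEquiv.one_apply]
  rw [this]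

theorem phi_conj_mem {s : GQ} (hs : s ∈ A.inertiaSubgroupIn ℚ) :
    φ * s * φ⁻¹ ∈ A.inertiaSubgroupIn ℚ :=
  Fermat.Agent.ES.FROB.FrobFacts12.conj_mem_inertiaSubgroupIn A (phi_mem_decomp D) hs

theorem phi_inv_conj_mem {s : GQ} (hs : s ∈ A.inertiaSubgroupIn ℚ) :
    φ⁻¹ * s * φ ∈ A.inertiaSubgroupIn ℚ := by
  have := Fermat.Agent.ES.FROB.FrobFacts12.conj_mem_inertiaSubgroupIn A
    ((A.decompositionSubgroup ℚ).inv_mem (phi_mem_decomp D)) hs
  rwa [inv_inv] at this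

theorem val_phi_inv (x : Qb) : A.valuation (φ⁻¹ x) = A.valuation x := by
  rw [← D.hφv (φ⁻¹ x), ← AlgEquiv.mul_apply, mul_inv_cancel, AlgEquiv.one_apply]

/-- `φ` acts on residues as `x ↦ x^q`. -/
theorem res_phi {x : Qb} (hx : A.valuation x ≤ 1) : res A (φ x) = res A x ^ q := by
  rw [← res_pow hx, res_eq_iff (by rwa [D.hφv]) (by rw [map_pow]; exact pow_le_one₀ zero_le hx)]
  exact D.hφres x hx

/-- **`θ₀(φ s φ⁻¹) = θ₀(s)^q`.** -/
theorem th_conj {s : GQ} (hs : s ∈ A.inertiaSubgroupIn ℚ) :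
    th A π₀ (φ * s * φ⁻¹) = th A π₀ s ^ q := by
  have hπ := D.S.hπ0
  -- `π' = φ⁻¹ π₀ = π₀ u'`
  set π' : Qb := φ⁻¹ π₀ with hπ'
  have hπ'0 : π' ≠ 0 := (map_ne_zero_iff _ (φ⁻¹ : GQ).injective).2 hπ
  set u' : Qb := π' / π₀ with hu'
  have hvu' : A.valuation u' = 1 := by
    rw [hu', map_div₀, hπ', val_phi_inv D, div_self D.S.vpi_ne]
  have hu'0 : u' ≠ 0 := div_ne_zero hπ'0 hπ
  have hπe : π' = π₀ * u' := by rw [hu']; field_simp
  have hsπ'0 : s π' ≠ 0 := (map_ne_zero_iff _ s.injective).2 hπ'0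
  have h1 : s π' / π' = (s π₀ / π₀) * (s u' / u') := by
    conv_lhs => rw [hπe]
    rw [map_mul]
    field_simp
  have hvsu : A.valuation (s u' / u') = 1 := by
    rw [map_div₀, Fermat.Agent.S05.Inertia.valuation_apply_rat hs, hvu', div_one]
  have h2 : res A (s u' / u') = 1 := by
    rw [res_div (by rw [Fermat.Agent.S05.Inertia.valuation_apply_rat hs, hvu']) hvu',
      res_apply_inertia hs hvu'.le, div_self (res_ne_zero hvu')]
  have h3 : res A (s π' / π') = th A π₀ s := by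
    rw [h1, res_mul (val_tq D hs).le hvsu.le, h2, mul_one]
    rfl
  have hv3 : A.valuation (s π' / π') = 1 := by
    rw [h1, map_mul, val_tq D hs, hvsu, one_mul]
  have h4 : (φ * s * φ⁻¹) π₀ / π₀ = φ (s π' / π') := by
    rw [map_div₀, hπ', AlgEquiv.mul_apply, AlgEquiv.mul_apply, ← AlgEquiv.mul_apply φ φ⁻¹,
      mul_inv_cancel, AlgEquiv.one_apply]
  rw [th, h4, res_phi D hv3.le, h3]

end tame

/-! ### the data for `φ²` -/

section sq

theorem sqData (D : CountData A N p ζ π₀ m χ φ cφ q) :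
    CountData A N p ζ π₀ m χ (φ * φ) (cφ * cφ) (q * q) where
  S := D.S
  hnorm := D.hnorm
  hχ := D.hχ
  hφN := fun τ hτ => by
    have h1 := D.hφN _ (D.hφN τ hτ)
    have h2 : (φ * φ)⁻¹ * τ * (φ * φ) = φ⁻¹ * (φ⁻¹ * τ * φ) * φ := by group
    rw [h2]
    exact h1
  hφζ := by
    have : NeZero p := ⟨D.S.hp.ne_zero⟩
    rw [AlgEquiv.mul_apply, D.hφζ, map_pow, D.hφζ, pow_val_mul D.S.hζ.pow_eq_one]
  hφv := fun x => by rw [AlgEquiv.mul_apply, D.hφv, D.hφv]
  hφres := fun x hx => by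
    have h1 : A.valuation (φ x) ≤ 1 := by rwa [D.hφv]
    rw [← res_eq_iff (by rw [AlgEquiv.mul_apply, D.hφv]; exact h1)
      (by rw [map_pow]; exact pow_le_one₀ zero_le hx), AlgEquiv.mul_apply, res_phi D h1,
      res_phi D hx, res_pow hx, pow_mul]

end sq

/-! ### the cyclotomic character and `cval` are multiplicative -/

section mult

variable {k : Type*} [Field k] [Algebra (ZMod p) k]
variable (D : CountData A N p ζ π₀ m χ φ cφ q)
include D

theorem chi_mul (s t : ↥(A.inertiaSubgroupIn ℚ)) : χ (s * t) = χ s * χ t := by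
  have : NeZero p := ⟨D.S.hp.ne_zero⟩
  have hζ := D.S.hζ
  have h1 : ((s * t : ↥(A.inertiaSubgroupIn ℚ)) : GQ) ζ = ζ ^ (χ s * χ t).val := by
    rw [Subgroup.coe_mul, AlgEquiv.mul_apply, D.hχ t, map_pow, D.hχ s,
      pow_val_mul hζ.pow_eq_one]
  rw [D.hχ (s * t)] at h1
  have h2 := hζ.pow_inj (ZMod.val_lt _) (ZMod.val_lt _) h1
  exact ZMod.val_injective p h2

theorem chi_one : χ 1 = 1 := by
  have : NeZero p := ⟨D.S.hp.ne_zero⟩
  have : Fact (1 < p) := ⟨D.S.hp.one_lt⟩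
  have hζ := D.S.hζ
  have h1 := D.hχ 1
  rw [Subgroup.coe_one, AlgEquiv.one_apply] at h1
  have h2 : ζ ^ (χ 1).val = ζ ^ (1 : ZMod p).val := by
    rw [← h1, ZMod.val_one, pow_one]
  have h3 := hζ.pow_inj (ZMod.val_lt _) (ZMod.val_lt _) h2
  exact ZMod.val_injective p h3

/-- `s ↦ χ(s) ψ(s)⁻¹` as a monoid homomorphism. -/
noncomputable def cvalHom (ψ : ↥(A.inertiaSubgroupIn ℚ) →* kˣ) :
    ↥(A.inertiaSubgroupIn ℚ) →* k where
  toFun s := cval χ ψ s
  map_one' := by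
    simp only [cval]
    rw [chi_one D, map_one, map_one, inv_one, Units.val_one, mul_one]
  map_mul' s t := by
    simp only [cval]
    rw [chi_mul D, map_mul, map_mul, mul_inv, Units.val_mul]
    ring

theorem cvalHom_apply (ψ : ↥(A.inertiaSubgroupIn ℚ) →* kˣ) (s : ↥(A.inertiaSubgroupIn ℚ)) :
    cvalHom D ψ s = cval χ ψ s := rfl

theorem cval_ne_zero (ψ : ↥(A.inertiaSubgroupIn ℚ) →* kˣ) (s : ↥(A.inertiaSubgroupIn ℚ)) :
    cval χ ψ s ≠ 0 := by
  have h := (cvalHom D ψ).map_mul s s⁻¹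
  rw [mul_inv_cancel, map_one] at h
  intro h0
  rw [cvalHom_apply, h0, zero_mul] at h
  exact one_ne_zero h

end mult

/-! ### `Allowed` in `Finset` form -/

section allowed

variable {k : Type*} [Field k] [Algebra (ZMod p) k]
  {ψ : ↥(A.inertiaSubgroupIn ℚ) →* kˣ}

theorem Allowed.finset {i : ℕ} (h : Allowed A π₀ χ ψ i)
    (T : Finset ↥(A.inertiaSubgroupIn ℚ)) (z : ↥(A.inertiaSubgroupIn ℚ) → ℤ)
    (hz : ∑ s ∈ T, z s • cval χ ψ s = 0) :
    A.valuation (∑ s ∈ T, z s • ((s : GQ) π₀ / π₀) ^ i) < 1 := by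
  classical
  set e := T.equivFin with he
  have h1 : ∀ (g : ↥(A.inertiaSubgroupIn ℚ) → Qb),
      ∑ s ∈ T, g s = ∑ j : Fin T.card, g (e.symm j : ↥(A.inertiaSubgroupIn ℚ)) := by
    intro g
    rw [← Finset.sum_coe_sort T g]
    exact (Equiv.sum_comp e.symm (fun s : ↥T => g s)).symm
  have h2 : ∀ (g : ↥(A.inertiaSubgroupIn ℚ) → k),
      ∑ s ∈ T, g s = ∑ j : Fin T.card, g (e.symm j : ↥(A.inertiaSubgroupIn ℚ)) := by
    intro g
    rw [← Finset.sum_coe_sort T g]
    exact (Equiv.sum_comp e.symm (fun s : ↥T => g s)).symm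
  rw [h1]
  rw [h2] at hz
  exact h T.card (fun j => (e.symm j : ↥(A.inertiaSubgroupIn ℚ))) (fun j => z (e.symm j)) hz

end allowed

/-! ### lowering a level -/

section mono

variable (S : Setting A.valuation ↥N p ζ π₀ m)
include S

theorem lev_mono {α a : Qb} {i j : ℕ} (hji : j ≤ i) (h : Lev A.valuation ↥N p π₀ α i a) :
    Lev A.valuation ↥N p π₀ α j (a * π₀ ^ (i - j)) := by
  obtain ⟨β, x, hβ, hβ0, hα, ha, hx⟩ := h
  refine ⟨β, x, hβ, hβ0, hα, ?_, ?_⟩
  · rw [map_mul, map_pow]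
    exact mul_le_one₀ ha zero_le (pow_le_one₀ zero_le S.hπ1.le)
  · have : a * π₀ ^ (i - j) * π₀ ^ j = a * π₀ ^ i := by
      rw [mul_assoc, ← pow_add, Nat.sub_add_cancel hji]
    rw [this]
    exact lt_of_lt_of_le hx (S.pow_le_pow hji)

theorem klev_mono {g : ↥N → ZMod p} {a : Qb} {i j : ℕ} (hji : j ≤ i)
    (h : KLev A N p ζ π₀ g i a) : KLev A N p ζ π₀ g j (a * π₀ ^ (i - j)) := by
  obtain ⟨θ, hθ0, hθ, hL⟩ := h
  exact ⟨θ, hθ0, hθ, lev_mono S hji hL⟩

end mono

/-! ### the embedding attached to an allowed level -/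

section embedding

variable {k : Type*} [Field k] [Algebra (ZMod p) k]
variable (D : CountData A N p ζ π₀ m χ φ cφ q) (ψ : ↥(A.inertiaSubgroupIn ℚ) →* kˣ)

/-- the ring homomorphism `ℤ[I] → k`, `s ↦ χ(s) ψ(s)⁻¹`. -/
noncomputable def aHom : MonoidAlgebra ℤ ↥(A.inertiaSubgroupIn ℚ) →+* k :=
  (MonoidAlgebra.lift ℤ k ↥(A.inertiaSubgroupIn ℚ) (cvalHom D ψ)).toRingHom

/-- the ring homomorphism `ℤ[I] → κ̄`, `s ↦ θ₀(s)^i`. -/
noncomputable def bHom (i : ℕ) : MonoidAlgebra ℤ ↥(A.inertiaSubgroupIn ℚ) →+* ResidueField A :=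
  (MonoidAlgebra.lift ℤ (ResidueField A) ↥(A.inertiaSubgroupIn ℚ)
    ((powMonoidHom i).comp (thHom D))).toRingHom

theorem aHom_apply (x : MonoidAlgebra ℤ ↥(A.inertiaSubgroupIn ℚ)) :
    aHom D ψ x = ∑ s ∈ x.coeff.support, x.coeff s • cval χ ψ s := by
  show (MonoidAlgebra.lift ℤ k ↥(A.inertiaSubgroupIn ℚ) (cvalHom D ψ)) x = _
  rw [MonoidAlgebra.lift_apply]
  rfl

theorem bHom_apply (i : ℕ) (x : MonoidAlgebra ℤ ↥(A.inertiaSubgroupIn ℚ)) :
    bHom D i x = ∑ s ∈ x.coeff.support, x.coeff s • th A π₀ (s : GQ) ^ i := by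
  show (MonoidAlgebra.lift ℤ (ResidueField A) ↥(A.inertiaSubgroupIn ℚ)
    ((powMonoidHom i).comp (thHom D))) x = _
  rw [MonoidAlgebra.lift_apply]
  rfl

theorem aHom_of (s : ↥(A.inertiaSubgroupIn ℚ)) :
    aHom D ψ (MonoidAlgebra.of ℤ _ s) = cval χ ψ s := by
  show (MonoidAlgebra.lift ℤ k ↥(A.inertiaSubgroupIn ℚ) (cvalHom D ψ)) _ = _
  rw [MonoidAlgebra.lift_of]
  rfl

theorem bHom_of (i : ℕ) (s : ↥(A.inertiaSubgroupIn ℚ)) :
    bHom D i (MonoidAlgebra.of ℤ _ s) = th A π₀ (s : GQ) ^ i := by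
  show (MonoidAlgebra.lift ℤ (ResidueField A) ↥(A.inertiaSubgroupIn ℚ)
    ((powMonoidHom i).comp (thHom D))) _ = _
  rw [MonoidAlgebra.lift_of]
  rfl

variable {ψ}

/-- an allowed level: the kernel of `aHom` is contained in the kernel of `bHom i`. -/
theorem ker_le_of_allowed {i : ℕ} (h : Allowed A π₀ χ ψ i) :
    RingHom.ker (aHom D ψ) ≤ RingHom.ker (bHom D i) := by
  intro x hx
  rw [RingHom.mem_ker, aHom_apply] at hx
  rw [RingHom.mem_ker, bHom_apply]
  have h1 := Allowed.finset h x.coeff.support (fun s => x.coeff s) hx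
  have hv : ∀ s ∈ x.coeff.support,
      A.valuation (x.coeff s • ((s : GQ) π₀ / π₀) ^ i) ≤ 1 := by
    intro s _
    refine val_zsmul_le _ ?_
    rw [map_pow, val_tq D s.2, one_pow]
  have h2 : res A (∑ s ∈ x.coeff.support, x.coeff s • ((s : GQ) π₀ / π₀) ^ i) = 0 := by
    rw [res_eq_zero_iff (val_sum_le _ _ hv)]
    exact h1
  rw [res_sum _ _ hv] at h2
  rw [← h2]
  refine Finset.sum_congr rfl fun s _ => ?_
  rw [res_zsmul _ (by rw [map_pow, val_tq D s.2, one_pow]), res_tq_pow D s.2]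

variable (ψ) [Finite k]

/-- the subfield `𝔽 ⊆ k` generated by the values `χ(s) ψ(s)⁻¹`. -/
noncomputable def FF : Subfield k :=
  (aHom D ψ).range.toSubfield (by
    classical
    have := Fintype.ofFinite k
    intro x hx
    by_cases hx0 : x = 0
    · rw [hx0, inv_zero]; exact Subring.zero_mem _
    have h1 : x ^ (Fintype.card k - 1) = 1 := FiniteField.pow_card_sub_one_eq_one x hx0
    have h2 : 2 ≤ Fintype.card k := Fintype.one_lt_card
    have h3 : x⁻¹ = x ^ (Fintype.card k - 2) := by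
      apply inv_eq_of_mul_eq_one_right
      rw [← pow_succ', show Fintype.card k - 2 + 1 = Fintype.card k - 1 by omega, h1]
    rw [h3]
    exact Subring.pow_mem _ hx _)

theorem mem_FF (y : k) : y ∈ FF D ψ ↔ ∃ x, aHom D ψ x = y := Iff.rfl

/-- `ℤ[I] → 𝔽`. -/
noncomputable def aR : MonoidAlgebra ℤ ↥(A.inertiaSubgroupIn ℚ) →+* ↥(FF D ψ) :=
  (aHom D ψ).codRestrict (FF D ψ) fun x => ⟨x, rfl⟩

theorem aR_surjective : Function.Surjective (aR D ψ) := by
  rintro ⟨y, x, rfl⟩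
  exact ⟨x, rfl⟩

theorem coe_aR (x : MonoidAlgebra ℤ ↥(A.inertiaSubgroupIn ℚ)) :
    ((aR D ψ x : ↥(FF D ψ)) : k) = aHom D ψ x := rfl

/-- the generator `χ(s) ψ(s)⁻¹` of `𝔽`. -/
noncomputable def c0 (s : ↥(A.inertiaSubgroupIn ℚ)) : ↥(FF D ψ) :=
  aR D ψ (MonoidAlgebra.of ℤ _ s)

theorem coe_c0 (s : ↥(A.inertiaSubgroupIn ℚ)) : ((c0 D ψ s : ↥(FF D ψ)) : k) = cval χ ψ s := by
  rw [c0, coe_aR, aHom_of]

theorem closure_c0 : AddSubgroup.closure (Set.range (c0 D ψ)) = ⊤ := by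
  rw [eq_top_iff]
  intro y _
  obtain ⟨x, rfl⟩ := aR_surjective D ψ y
  clear * -
  induction x using MonoidAlgebra.induction_on with
  | of s => exact AddSubgroup.subset_closure ⟨s, rfl⟩
  | add x y hx hy =>
      rw [map_add]
      exact AddSubgroup.add_mem _ hx hy
  | smul r x hx =>
      rw [zsmul_eq_mul, map_mul, map_intCast, ← zsmul_eq_mul]
      exact AddSubgroup.zsmul_mem _ hx r

variable {ψ}

/-- **the embedding** `ι : 𝔽 → κ̄` of an allowed level. -/
noncomputable def iota {i : ℕ} (h : Allowed A π₀ χ ψ i) : ↥(FF D ψ) →+* ResidueField A :=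
  RingHom.liftOfSurjective (aR D ψ) (aR_surjective D ψ)
    ⟨bHom D i, fun x hx => ker_le_of_allowed D h (by
      rw [RingHom.mem_ker] at hx ⊢
      have := congrArg (fun z : ↥(FF D ψ) => (z : k)) hx
      simpa [coe_aR] using this)⟩

theorem iota_c0 {i : ℕ} (h : Allowed A π₀ χ ψ i) (s : ↥(A.inertiaSubgroupIn ℚ)) :
    iota D h (c0 D ψ s) = th A π₀ (s : GQ) ^ i := by
  rw [iota, c0]
  erw [RingHom.liftOfRightInverse_comp_apply]
  exact bHom_of D i s

end embedding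

/-! ### the count in consumer form -/

section final

variable {k : Type*} [Field k] [Algebra (ZMod p) k]
variable (D : CountData A N p ζ π₀ m χ φ cφ q) {ψ : ↥(A.inertiaSubgroupIn ℚ) →* kˣ} {w : k}

/-- equivariant maps all of whose Kummer characters have level `≥ i₁`. -/
def IsHL (D : CountData A N p ζ π₀ m χ φ cφ q) (ψ : ↥(A.inertiaSubgroupIn ℚ) →* kˣ)
    (w : k) (i₁ : ℕ) (f : ↥N → k) : Prop :=
  IsEquiv D ψ w f ∧ ∀ b : k, ∃ a : Qb, KLev A N p ζ π₀ (gfun p f b) i₁ a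

/-- if every allowed level `≥ i₁` is `≥ i₂`, level `≥ i₁` implies level `≥ i₂`. -/
theorem IsHL.raise {i₁ i₂ : ℕ} (hi₁ : 1 ≤ i₁)
    (hall : ∀ i, i₁ ≤ i → i < p * m → ¬ p ∣ i → Allowed A π₀ χ ψ i → i₂ ≤ i)
    {f : ↥N → k} (hf : IsHL D ψ w i₁ f) : IsHL D ψ w i₂ f := by
  refine ⟨hf.1, fun b => ?_⟩
  rcases dichotomy D hf.1 hi₁ hf.2 b with h0 | ⟨i, a, h1, h2, h3, -, h5, h6⟩
  · exact ⟨0, KLev.congr (KLev.zero D.S i₂) fun τ => (h0 τ).symm⟩
  · exact ⟨_, klev_mono D.S (hall i h1 h2 h3 h6) h5⟩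

variable [Fact p.Prime] [Finite k]

/-- if no level `≥ i₁` is allowed, the only such `f` is `0`. -/
theorem IsHL.eq_zero {i₁ : ℕ} (hi₁ : 1 ≤ i₁)
    (hno : ∀ i, i₁ ≤ i → i < p * m → ¬ p ∣ i → ¬ Allowed A π₀ χ ψ i)
    {f : ↥N → k} (hf : IsHL D ψ w i₁ f) (τ : ↥N) : f τ = 0 :=
  eq_zero_of_gfun (p := p) (fun b τ => gfun_eq_zero_of_not_allowed D hf.1 hi₁ hf.2 hno b τ) τ

/-- **THE CHARACTER LEVEL COUNT, consumer form.** -/
theorem card_le_card (hA : A.LiesOverPrime p) {fq : ℕ} (hq : q = p ^ fq) (hfq : 1 ≤ fq)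
    (hcq : ∀ s, cval χ ψ s ^ q = cval χ ψ s)
    (hbig : ∀ j, 0 < j → j < fq → ∃ s, cval χ ψ s ^ p ^ j ≠ cval χ ψ s)
    {i₁ i₀ : ℕ} (hi₁ : 1 ≤ i₁) (hi₁₀ : i₁ ≤ (p - 1) * m) (hi₀ : (p - 1) * m ≤ i₀)
    (hi : i₀ < p * m) (hpi : ¬ p ∣ i₀)
    (huniq : ∀ i, i₁ ≤ i → i < p * m → ¬ p ∣ i → Allowed A π₀ χ ψ i → i = i₀)
    (hw : w ≠ 0) (hcφ : cφ ≠ 0) :
    Finite {f : ↥N → k // IsHL D ψ w i₁ f} ∧
      Nat.card {f : ↥N → k // IsHL D ψ w i₁ f} ≤ Nat.card k := by
  classical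
  subst hq
  have hp : p.Prime := D.S.hp
  by_cases hall : Allowed A π₀ χ ψ i₀
  · -- the allowed case: apply `card_le'` with the embedding `ι`
    have hraise : ∀ f : ↥N → k, IsHL D ψ w i₁ f → IsH' D ψ w f := fun f hf =>
      IsHL.raise D hi₁ (fun i h1 h2 h3 h4 => by rw [huniq i h1 h2 h3 h4]; exact hi₀) hf
    letI : Algebra ↥(FF D ψ) (ResidueField A) := (iota D hall).toAlgebra
    have halg : ∀ x : ↥(FF D ψ), algebraMap ↥(FF D ψ) (ResidueField A) x = iota D hall x :=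
      fun _ => rfl
    have hchar : CharP k p := by
      have : CharP (ZMod p) p := ZMod.charP p
      exact charP_of_injective_algebraMap (algebraMap (ZMod p) k).injective p
    -- `x ^ q = x` on `𝔽`
    have hFq : ∀ x : ↥(FF D ψ), x ^ p ^ fq = x := by
      intro x
      obtain ⟨y, rfl⟩ := aR_surjective D ψ x
      apply Subtype.ext
      rw [SubmonoidClass.coe_pow, coe_aR]
      clear halg
      induction y using MonoidAlgebra.induction_on with
      | of s => rw [aHom_of]; exact hcq s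
      | add x y hx hy => rw [map_add, add_pow_char_pow, hx, hy]
      | smul r x hx =>
          rw [zsmul_eq_mul, map_mul, map_intCast, mul_pow, hx]
          congr 1
          rw [← iterateFrobenius_def, map_intCast]
    have h1 := card_le' D hA rfl hfq (c0 D ψ) (coe_c0 D ψ) (closure_c0 D ψ) hFq hi₀ hi hpi
      (fun s => by rw [halg, iota_c0, res_tq_pow D s.2])
      (fun i h1 h2 h3 h4 => huniq i (le_trans hi₁₀ h1) h2 h3 h4) hw hcφ (ψ := ψ) (w := w)
    have hfinH := h1.1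
    have hinj : Function.Injective fun f : {f : ↥N → k // IsHL D ψ w i₁ f} =>
        (⟨f.1, hraise f.1 f.2⟩ : {f : ↥N → k // IsH' D ψ w f}) := by
      intro f f' hff
      exact Subtype.ext (congrArg (fun z : {f : ↥N → k // IsH' D ψ w f} => z.1) hff)
    refine ⟨Finite.of_injective _ hinj, ?_⟩
    refine le_trans (Nat.card_le_card_of_injective _ hinj) (le_trans h1.2 ?_)
    -- `q ^ [k : 𝔽] ≤ #k`
    rw [Module.natCard_eq_pow_finrank (K := ↥(FF D ψ)) (V := k)]
    refine Nat.pow_le_pow_left ?_ _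
    -- `q ≤ #𝔽`
    have := Fintype.ofFinite ↥(FF D ψ)
    have hcharF : CharP ↥(FF D ψ) p :=
      RingHom.charP (algebraMap ↥(FF D ψ) k) (algebraMap ↥(FF D ψ) k).injective p
    obtain ⟨d, -, hd⟩ := FiniteField.card ↥(FF D ψ) p
    rw [Nat.card_eq_fintype_card, hd]
    refine Nat.pow_le_pow_right hp.pos ?_
    by_contra hlt
    push Not at hlt
    obtain ⟨s, hs⟩ := hbig d d.pos hlt
    apply hs
    have h2 : (c0 D ψ s) ^ Fintype.card ↥(FF D ψ) = c0 D ψ s := FiniteField.pow_card _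
    rw [hd] at h2
    have h3 := congrArg (fun z : ↥(FF D ψ) => (z : k)) h2
    simpa [coe_c0] using h3
  · -- no allowed level: `f = 0`
    have hno : ∀ i, i₁ ≤ i → i < p * m → ¬ p ∣ i → ¬ Allowed A π₀ χ ψ i := by
      intro i h1 h2 h3 h4
      exact hall (huniq i h1 h2 h3 h4 ▸ h4)
    have hsub : Subsingleton {f : ↥N → k // IsHL D ψ w i₁ f} := by
      refine ⟨fun f f' => Subtype.ext (funext fun τ => ?_)⟩
      rw [IsHL.eq_zero D hi₁ hno f.2 τ, IsHL.eq_zero D hi₁ hno f'.2 τ]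
    refine ⟨inferInstance, ?_⟩
    exact le_trans (Finite.card_le_one_iff_subsingleton.2 hsub) Nat.card_pos

end final

end Fermat.Agent.W56.LevelCountB3
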