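/-
Programme W56 (target S56), chapter (F) FLAT, the counts (helper3): **the count in the
supersingular case (S)**.

Situation (`SData`): `A` a place of `ℚ̄` over the odd prime `p`, `I` its inertia group, `φ` a
Frobenius lift, `ρ̄|I = ω₁ ⊕ ω₂` with two characters `ω₁ ≠ ω₂ : I → kˣ` exchanged by `φ`
(`ω₁(φ s φ⁻¹) = ω₂(s)`), `N = ker ρ̄|I`, `π₀` a uniformiser of `ℚ̄^N`, the tame character `θ₀` of
`π₀` is injective on `I/N` (`hT1`) and of exact order `(p-1) m` (`hT4`), `ω₁ ω₂ = χ` (the mod `p`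
cyclotomic character).

* structure: `ω₁ = ω₂^p`, `ω₂ = ω₁^p`, `θ₀^((p-1)m) = 1`, `m ∣ p+1`, `(p+1)/m` odd;
* `not_allowed_H` : no level in `[(p-1)m, pm)` is allowed for the trivial character (the diagonal
  component of a flat class vanishes on `N`);
* `allowed_plus` : for `ψ = ω₁/ω₂` the only allowed level in `[(p-1)m, pm)` is `(p-1)m + 2`, and
  then `m = p + 1`;
* **`card_FS_le`** : the triples `(f_H, f₊, f₋)` of functions `N → k` with the equivariance of the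
  components of an `ad⁰ρ̄`-valued cocycle and with Kummer characters of level `≥ (p-1) m`
  (`≡ 1 mod p`) for `f_H`, `f₊` number at most `#k`.
-/
import Mathlib
import Fermat.Agent.W56.LevelCountB3

set_option autoImplicit false

namespace Fermat.Agent.W56.CountS3

open Fermat.Agent.W56.KummerGen3 Fermat.Agent.W56.UnitLevel3 Fermat.Agent.W56.KLevel3
  Fermat.Agent.W56.LevelCount3 Fermat.Agent.W56.LevelCountB3 IsLocalRing

variable {A : ValuationSubring Qb} {N : Subgroup GQ} {p : ℕ} {ζ π₀ : Qb} {m : ℕ}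
  {χ : ↥(A.inertiaSubgroupIn ℚ) → ZMod p} {φ : GQ} {cφ : ZMod p}
  {k : Type*} [Field k] [Algebra (ZMod p) k]

/-- the standing hypotheses of the supersingular case. -/
structure SData (D : CountData A N p ζ π₀ m χ φ cφ p)
    (ω₁ ω₂ : ↥(A.inertiaSubgroupIn ℚ) →* kˣ) : Prop where
  hT1 : ∀ s : ↥(A.inertiaSubgroupIn ℚ), th A π₀ (s : GQ) = 1 → (s : GQ) ∈ N
  hT4 : ∀ d : ℕ, (∀ s : ↥(A.inertiaSubgroupIn ℚ), th A π₀ (s : GQ) ^ d = 1) → (p - 1) * m ∣ d
  hN : ∀ s : ↥(A.inertiaSubgroupIn ℚ), (s : GQ) ∈ N ↔ ω₁ s = 1 ∧ ω₂ s = 1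
  hdet : ∀ s : ↥(A.inertiaSubgroupIn ℚ),
    ((ω₁ s : kˣ) : k) * ((ω₂ s : kˣ) : k) = algebraMap (ZMod p) k (χ s)
  hφ12 : ∀ s : ↥(A.inertiaSubgroupIn ℚ), ω₁ ⟨φ * s * φ⁻¹, phi_conj_mem D s.2⟩ = ω₂ s
  hφ21 : ∀ s : ↥(A.inertiaSubgroupIn ℚ), ω₂ ⟨φ * s * φ⁻¹, phi_conj_mem D s.2⟩ = ω₁ s
  hne : ∃ s, ω₁ s ≠ ω₂ s

section basic

variable {D : CountData A N p ζ π₀ m χ φ cφ p}

theorem chi_ne_zero (D : CountData A N p ζ π₀ m χ φ cφ p) (s : ↥(A.inertiaSubgroupIn ℚ)) :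
    χ s ≠ 0 := by
  intro h
  have h1 := chi_mul D s s⁻¹
  rw [mul_inv_cancel, chi_one D, h, zero_mul] at h1
  have : Fact (1 < p) := ⟨D.S.hp.one_lt⟩
  exact one_ne_zero h1

/-- `(c.val : R)^(p-1) = 1` in characteristic `p`, `c ≠ 0`. -/
theorem natCast_val_pow [Fact p.Prime] {R : Type*} [Ring R] [CharP R p] {c : ZMod p}
    (hc : c ≠ 0) : ((c.val : ℕ) : R) ^ (p - 1) = 1 := by
  have h : ((c.val ^ (p - 1) : ℕ) : ZMod p) = ((1 : ℕ) : ZMod p) := by
    push_cast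
    rw [ZMod.natCast_zmod_val, ZMod.pow_card_sub_one_eq_one hc]
  have h1 := (ZMod.natCast_eq_natCast_iff _ _ _).1 h
  have h2 := (CharP.natCast_eq_natCast R p).2 h1
  push_cast at h2
  exact h2

theorem algebraMap_eq_natCast [Fact p.Prime] (c : ZMod p) :
    algebraMap (ZMod p) k c = ((c.val : ℕ) : k) := by
  conv_lhs => rw [← ZMod.natCast_zmod_val c]
  rw [map_natCast]

end basic

section structure_

variable [Fact p.Prime]
variable {D : CountData A N p ζ π₀ m χ φ cφ p} {ω₁ ω₂ : ↥(A.inertiaSubgroupIn ℚ) →* kˣ}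
  (hA : A.LiesOverPrime p) (H : SData D ω₁ ω₂)
include hA H

theorem charP_res : CharP (ResidueField A) p := charP_residueField D.S.hp hA

/-- `θ₀^((p-1) m) = 1`. -/
theorem th_e0 (s : ↥(A.inertiaSubgroupIn ℚ)) : th A π₀ (s : GQ) ^ ((p - 1) * m) = 1 := by
  have := charP_res hA H
  rw [mul_comm, pow_mul, th_pow_m D s]
  exact natCast_val_pow (chi_ne_zero D s)

/-- elements with trivial tame character lie in `N`, so both characters are trivial on them. -/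
theorem omega_of_th {s : ↥(A.inertiaSubgroupIn ℚ)} (hs : th A π₀ (s : GQ) = 1) :
    ω₁ s = 1 ∧ ω₂ s = 1 := (H.hN s).1 (H.hT1 s hs)

/-- the element `φ s φ⁻¹ s^(-p)` of `I`. -/
theorem aux_mem (s : ↥(A.inertiaSubgroupIn ℚ)) :
    φ * (s : GQ) * φ⁻¹ * ((s : GQ) ^ p)⁻¹ ∈ A.inertiaSubgroupIn ℚ :=
  Subgroup.mul_mem _ (phi_conj_mem D s.2) (Subgroup.inv_mem _ (Subgroup.pow_mem _ s.2 p))

theorem th_aux (s : ↥(A.inertiaSubgroupIn ℚ)) :
    th A π₀ (φ * (s : GQ) * φ⁻¹ * ((s : GQ) ^ p)⁻¹) = 1 := by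
  rw [th_mul D (phi_conj_mem D s.2) (Subgroup.inv_mem _ (Subgroup.pow_mem _ s.2 p)),
    th_conj D s.2, th_inv D (Subgroup.pow_mem _ s.2 p), th_pow D s.2,
    mul_inv_cancel₀ (pow_ne_zero _ (th_ne_zero D s.2))]

/-- **`ω₁ = ω₂^p`.** -/
theorem omega1_eq (s : ↥(A.inertiaSubgroupIn ℚ)) : ω₁ s = ω₂ s ^ p := by
  have h1 := (omega_of_th hA H (s := ⟨_, aux_mem hA H s⟩) (th_aux hA H s)).2
  have h2 : (⟨_, aux_mem hA H s⟩ : ↥(A.inertiaSubgroupIn ℚ))
      = ⟨φ * s * φ⁻¹, phi_conj_mem D s.2⟩ * (s ^ p)⁻¹ := rfl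
  rw [h2, map_mul, H.hφ21, map_inv, map_pow, mul_inv_eq_one] at h1
  exact h1

/-- **`ω₂ = ω₁^p`.** -/
theorem omega2_eq (s : ↥(A.inertiaSubgroupIn ℚ)) : ω₂ s = ω₁ s ^ p := by
  have h1 := (omega_of_th hA H (s := ⟨_, aux_mem hA H s⟩) (th_aux hA H s)).1
  have h2 : (⟨_, aux_mem hA H s⟩ : ↥(A.inertiaSubgroupIn ℚ))
      = ⟨φ * s * φ⁻¹, phi_conj_mem D s.2⟩ * (s ^ p)⁻¹ := rfl
  rw [h2, map_mul, H.hφ12, map_inv, map_pow, mul_inv_eq_one] at h1
  exact h1

theorem omega2_pow_sq (s : ↥(A.inertiaSubgroupIn ℚ)) : ω₂ s ^ (p * p) = ω₂ s := by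
  rw [pow_mul, ← omega1_eq hA H, ← omega2_eq hA H]

theorem omega1_pow_sq (s : ↥(A.inertiaSubgroupIn ℚ)) : ω₁ s ^ (p * p) = ω₁ s := by
  rw [pow_mul, ← omega2_eq hA H, ← omega1_eq hA H]

/-- membership in `N` in terms of `ω₂` alone. -/
theorem mem_N_iff (s : ↥(A.inertiaSubgroupIn ℚ)) : (s : GQ) ∈ N ↔ ω₂ s = 1 := by
  rw [H.hN]
  refine ⟨fun h => h.2, fun h => ⟨?_, h⟩⟩
  rw [omega1_eq hA H, h, one_pow]

/-- if `ω₂^d = 1` then `(p-1) m ∣ d`. -/
theorem dvd_of_omega2_pow {d : ℕ} (h : ∀ s : ↥(A.inertiaSubgroupIn ℚ), ω₂ s ^ d = 1) :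
    (p - 1) * m ∣ d := by
  refine H.hT4 d fun s => ?_
  have h1 : ((s ^ d : ↥(A.inertiaSubgroupIn ℚ)) : GQ) ∈ N := by
    rw [mem_N_iff hA H, map_pow]
    exact h s
  have h2 := th_of_mem D h1
  rwa [Subgroup.coe_pow, th_pow D s.2] at h2

/-- `m ∣ p + 1`. -/
theorem m_dvd : m ∣ p + 1 := by
  have hp := D.S.hp
  have h1 : (p - 1) * m ∣ (p - 1) * (p + 1) := by
    refine dvd_of_omega2_pow hA H fun s => ?_
    have h2 : (p - 1) * (p + 1) + 1 = p * p := by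
      have : 1 ≤ p := hp.pos
      zify [this]
      ring
    have h3 := omega2_pow_sq hA H s
    rw [← h2, pow_succ] at h3
    exact mul_eq_right.mp h3
  exact Nat.dvd_of_mul_dvd_mul_left (by have := hp.two_le; omega) h1

/-- `ω₂^((p-1) m) = 1`. -/
theorem omega2_e0 (s : ↥(A.inertiaSubgroupIn ℚ)) : ω₂ s ^ ((p - 1) * m) = 1 := by
  have h1 : ((s ^ ((p - 1) * m) : ↥(A.inertiaSubgroupIn ℚ)) : GQ) ∈ N := by
    refine H.hT1 _ ?_
    rw [Subgroup.coe_pow, th_pow D s.2]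
    exact th_e0 hA H s
  have h2 := (mem_N_iff hA H _).1 h1
  rwa [map_pow] at h2

/-- the determinant relation `ω₂^(p+1) = χ`. -/
theorem omega2_succ (s : ↥(A.inertiaSubgroupIn ℚ)) :
    ((ω₂ s : kˣ) : k) ^ (p + 1) = algebraMap (ZMod p) k (χ s) := by
  rw [← H.hdet s, omega1_eq hA H, pow_succ, Units.val_pow_eq_pow_val]

/-- **`(p+1)/m` is odd.** -/
theorem odd_quot {n : ℕ} (hn : p + 1 = m * n) : ¬ 2 ∣ n := by
  rintro ⟨n', rfl⟩
  have hp := D.S.hp
  have hp2 := D.S.hp2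
  have hodd : ¬ 2 ∣ p := fun h => hp2 ((Nat.prime_dvd_prime_iff_eq Nat.prime_two hp).1 h).symm
  obtain ⟨t, ht⟩ : 2 ∣ p - 1 := by have := hp.two_le; omega
  have := charP_res hA H
  -- `χ^((p-1)/2) = 1`
  have h1 : ∀ s : ↥(A.inertiaSubgroupIn ℚ), χ s ^ t = 1 := by
    intro s
    apply (algebraMap (ZMod p) k).injective
    rw [map_pow, map_one, ← omega2_succ hA H, ← pow_mul, hn]
    have h2 : m * (2 * n') * t = (p - 1) * m * n' := by rw [ht]; ring
    rw [h2, pow_mul, ← Units.val_pow_eq_pow_val, omega2_e0 hA H, Units.val_one, one_pow]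
  -- hence `θ₀^(m (p-1)/2) = 1`
  have h3 : (p - 1) * m ∣ m * t := by
    refine H.hT4 _ fun s => ?_
    rw [pow_mul, th_pow_m D s]
    have h4 : (((χ s).val ^ t : ℕ) : ZMod p) = ((1 : ℕ) : ZMod p) := by
      push_cast
      rw [ZMod.natCast_zmod_val, h1 s]
    have h5 := (CharP.natCast_eq_natCast (ResidueField A) p).2
      ((ZMod.natCast_eq_natCast_iff _ _ _).1 h4)
    push_cast at h5
    exact h5
  have hm := D.S.hm
  have ht0 : 0 < t := by have := hp.two_le; omega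
  have h6 : (p - 1) * m ≤ m * t := Nat.le_of_dvd (Nat.mul_pos hm ht0) h3
  rw [ht] at h6
  nlinarith

end structure_

/-! ### consequences of `Allowed` for a two-term relation -/

section two

variable {D : CountData A N p ζ π₀ m χ φ cφ p} {ψ : ↥(A.inertiaSubgroupIn ℚ) →* kˣ}

theorem allowed_two (D : CountData A N p ζ π₀ m χ φ cφ p) {i : ℕ} (h : Allowed A π₀ χ ψ i)
    (s t : ↥(A.inertiaSubgroupIn ℚ)) (c : ℕ) (hrel : cval χ ψ s = (c : k) * cval χ ψ t) :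
    th A π₀ (s : GQ) ^ i = (c : ResidueField A) * th A π₀ (t : GQ) ^ i := by
  have h1 := h 2 ![s, t] ![1, -(c : ℤ)] (by
    rw [Fin.sum_univ_two]
    simp only [Matrix.cons_val_zero, Matrix.cons_val_one]
    rw [one_smul, neg_smul, hrel, natCast_zsmul, nsmul_eq_mul, add_neg_cancel])
  rw [Fin.sum_univ_two] at h1
  simp only [Matrix.cons_val_zero, Matrix.cons_val_one] at h1
  have hvs : A.valuation (((s : GQ) π₀ / π₀) ^ i) ≤ 1 := by
    rw [map_pow, val_tq D s.2, one_pow]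
  have hvt : A.valuation (((t : GQ) π₀ / π₀) ^ i) ≤ 1 := by
    rw [map_pow, val_tq D t.2, one_pow]
  have hv1 : A.valuation ((1 : ℤ) • ((s : GQ) π₀ / π₀) ^ i) ≤ 1 := val_zsmul_le _ hvs
  have hv2 : A.valuation ((-(c : ℤ)) • ((t : GQ) π₀ / π₀) ^ i) ≤ 1 := val_zsmul_le _ hvt
  have h2 : res A ((1 : ℤ) • ((s : GQ) π₀ / π₀) ^ i + (-(c : ℤ)) • ((t : GQ) π₀ / π₀) ^ i) = 0 := by
    rw [res_eq_zero_iff (le_trans (Valuation.map_add _ _ _) (max_le hv1 hv2))]
    exact h1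
  rw [res_add hv1 hv2, res_zsmul _ hvs, res_zsmul _ hvt, res_tq_pow D s.2, res_tq_pow D t.2,
    one_smul, neg_smul, natCast_zsmul, nsmul_eq_mul, add_neg_eq_zero] at h2
  exact h2

end two

/-! ### the level arithmetic -/

section levels

variable [Fact p.Prime]
variable {D : CountData A N p ζ π₀ m χ φ cφ p} {ω₁ ω₂ : ↥(A.inertiaSubgroupIn ℚ) →* kˣ}
  (hA : A.LiesOverPrime p) (H : SData D ω₁ ω₂)
include hA H

theorem e0_gt : m < (p - 1) * m := by
  have hp := D.S.hp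
  have hp2 := D.S.hp2
  have hm := D.S.hm
  have h2 : 2 ≤ p - 1 := by have := hp.two_le; omega
  calc m < 2 * m := by omega
    _ ≤ (p - 1) * m := Nat.mul_le_mul_right m h2

/-- **no allowed level for the trivial character.** -/
theorem not_allowed_H {i : ℕ} (hi1 : (p - 1) * m ≤ i) (hi2 : i < p * m) :
    ¬ Allowed A π₀ χ (1 : ↥(A.inertiaSubgroupIn ℚ) →* kˣ) i := by
  intro hall
  have hp := D.S.hp
  have hm := D.S.hm
  have he0 := e0_gt hA H
  have hpm : p * m = (p - 1) * m + m := D.S.p_mul m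
  have hdvd : (p - 1) * m ∣ i - m := by
    refine H.hT4 _ fun s => ?_
    have hrel : cval χ (1 : ↥(A.inertiaSubgroupIn ℚ) →* kˣ) s
        = (((χ s).val : ℕ) : k) * cval χ (1 : ↥(A.inertiaSubgroupIn ℚ) →* kˣ) 1 := by
      have h1 : cval χ (1 : ↥(A.inertiaSubgroupIn ℚ) →* kˣ) 1 = 1 :=
        (cvalHom D (1 : ↥(A.inertiaSubgroupIn ℚ) →* kˣ)).map_one
      rw [h1, mul_one]
      simp only [cval, MonoidHom.one_apply, inv_one, Units.val_one, mul_one]
      exact algebraMap_eq_natCast _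
    have h2 := allowed_two D hall s 1 _ hrel
    rw [Subgroup.coe_one, th_one D, one_pow, mul_one, ← th_pow_m D s] at h2
    have h3 : th A π₀ (s : GQ) ^ (i - m) * th A π₀ (s : GQ) ^ m = th A π₀ (s : GQ) ^ m := by
      rw [← pow_add, Nat.sub_add_cancel (by omega)]
      exact h2
    exact mul_eq_right₀ (pow_ne_zero _ (th_ne_zero D s.2)) |>.1 h3
  have h4 : (p - 1) * m ≤ i - m := Nat.le_of_dvd (by omega) hdvd
  omega

/-- the character `ψ₊ = ω₁ / ω₂`. -/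
theorem psi_succ (s : ↥(A.inertiaSubgroupIn ℚ)) : (ω₁ / ω₂) s ^ (p + 1) = 1 := by
  rw [MonoidHom.div_apply, div_pow, pow_succ, pow_succ, ← omega2_eq hA H, ← omega1_eq hA H,
    mul_comm (ω₂ s), div_self']

theorem cval_plus_pow (s : ↥(A.inertiaSubgroupIn ℚ)) :
    cval χ (ω₁ / ω₂) s ^ (p + 1) = ((((χ s).val ^ 2 : ℕ)) : k) := by
  have hp := D.S.hp
  simp only [cval]
  rw [mul_pow, ← Units.val_pow_eq_pow_val, inv_pow, psi_succ hA H, inv_one, Units.val_one,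
    mul_one, ← map_pow]
  have h1 : χ s ^ (p + 1) = χ s ^ 2 := by
    have h2 : p + 1 = (p - 1) + 2 := by have := hp.two_le; omega
    rw [h2, pow_add, ZMod.pow_card_sub_one_eq_one (chi_ne_zero D s), one_mul]
  rw [h1, map_pow, algebraMap_eq_natCast]
  push_cast
  rfl

/-- **the only allowed level for `ψ₊ = ω₁/ω₂`.** -/
theorem allowed_plus {i : ℕ} (hi1 : (p - 1) * m ≤ i) (hi2 : i < p * m)
    (hall : Allowed A π₀ χ (ω₁ / ω₂) i) [Finite k] : m = p + 1 ∧ i = (p - 1) * m + 2 := by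
  classical
  have hp := D.S.hp
  have hp2 := D.S.hp2
  have hm := D.S.hm
  have he0 := e0_gt hA H
  have hpm : p * m = (p - 1) * m + m := D.S.p_mul m
  have hchar := charP_res hA H
  have hp3 : 3 ≤ p := by have := hp.two_le; omega
  -- (1) `(p-1) m ∤ i`
  have hndvd : ¬ (p - 1) * m ∣ i := by
    rintro ⟨t, ht⟩
    have hth : ∀ s : ↥(A.inertiaSubgroupIn ℚ), th A π₀ (s : GQ) ^ i = 1 := by
      intro s
      rw [ht, pow_mul, th_e0 hA H, one_pow]
    -- all `cval s = 1`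
    have hc1 : ∀ s : ↥(A.inertiaSubgroupIn ℚ), cval χ (ω₁ / ω₂) s = 1 := by
      intro s
      by_contra hne1
      have := Fintype.ofFinite k
      set E := Fintype.card k - 1 with hE
      have hcE : cval χ (ω₁ / ω₂) s ^ E = 1 :=
        FiniteField.pow_card_sub_one_eq_one _ (cval_ne_zero D _ s)
      have hsum : ∑ j ∈ Finset.range E, cval χ (ω₁ / ω₂) s ^ j = 0 := by
        have h1 := geom_sum_mul (cval χ (ω₁ / ω₂) s) E
        rw [hcE, sub_self] at h1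
        rcases mul_eq_zero.1 h1 with h2 | h2
        · exact h2
        · exact absurd (sub_eq_zero.1 h2) hne1
      have h3 := hall E (fun j => s ^ (j : ℕ)) (fun _ => 1) (by
        simp only [one_smul]
        rw [Fin.sum_univ_eq_sum_range (fun j => cval χ (ω₁ / ω₂) (s ^ j)) E, ← hsum]
        refine Finset.sum_congr rfl fun j _ => ?_
        exact (cvalHom D (ω₁ / ω₂)).map_pow s j)
      simp only [one_smul] at h3
      have hv : ∀ j ∈ (Finset.univ : Finset (Fin E)),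
          A.valuation ((((s ^ (j : ℕ) : ↥(A.inertiaSubgroupIn ℚ)) : GQ) π₀ / π₀) ^ i) ≤ 1 := by
        intro j _
        rw [map_pow, val_tq D (s ^ (j : ℕ)).2, one_pow]
      have h4 : res A (∑ j : Fin E,
          (((s ^ (j : ℕ) : ↥(A.inertiaSubgroupIn ℚ)) : GQ) π₀ / π₀) ^ i) = 0 := by
        rw [res_eq_zero_iff (val_sum_le _ _ hv)]
        exact h3
      rw [res_sum _ _ hv] at h4
      have h5 : ∀ j : Fin E,
          res A ((((s ^ (j : ℕ) : ↥(A.inertiaSubgroupIn ℚ)) : GQ) π₀ / π₀) ^ i) = 1 := by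
        intro j
        rw [res_tq_pow D (s ^ (j : ℕ)).2]
        exact hth _
      simp only [h5, Finset.sum_const, Finset.card_univ, Fintype.card_fin, nsmul_eq_mul,
        mul_one] at h4
      -- `E = #k - 1 ≡ -1`
      have hcharK : CharP k p := by
        have : CharP (ZMod p) p := ZMod.charP p
        exact charP_of_injective_algebraMap (algebraMap (ZMod p) k).injective p
      obtain ⟨d, -, hd⟩ := FiniteField.card k p
      have h6 : ((E + 1 : ℕ) : ResidueField A) = 0 := by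
        have : E + 1 = p ^ (d : ℕ) := by
          rw [hE, ← hd]
          have := Fintype.card_pos (α := k)
          omega
        rw [this, Nat.cast_pow, CharP.cast_eq_zero, zero_pow d.ne_zero]
      rw [Nat.cast_succ, h4, zero_add] at h6
      exact one_ne_zero h6
    -- hence `ω₂² = 1` and `ω₁ = ω₂`
    obtain ⟨s, hs⟩ := H.hne
    apply hs
    have h1 := hc1 s
    simp only [cval] at h1
    have h2 : algebraMap (ZMod p) k (χ s) = (((ω₁ / ω₂) s : kˣ) : k) := by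
      have h3 := congrArg (fun z : k => z * (((ω₁ / ω₂) s : kˣ) : k)) h1
      simp only [one_mul, mul_assoc, Units.inv_mul, mul_one] at h3
      exact h3
    rw [← H.hdet s, ← Units.val_mul, Units.val_inj, MonoidHom.div_apply,
      eq_div_iff_mul_eq', mul_assoc, mul_eq_left] at h2
    -- `ω₂ s * ω₂ s = 1`
    obtain ⟨t, ht⟩ : ∃ t, p = 2 * t + 1 := by
      have hodd : ¬ 2 ∣ p :=
        fun h => hp2 ((Nat.prime_dvd_prime_iff_eq Nat.prime_two hp).1 h).symm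
      exact ⟨p / 2, by omega⟩
    rw [omega1_eq hA H s]
    conv_lhs => rw [ht, pow_succ, pow_mul, sq, h2, one_pow, one_mul]
  -- (2) `θ₀^((p+1) i) = θ₀^(2m)`
  have hth2 : ∀ s : ↥(A.inertiaSubgroupIn ℚ),
      th A π₀ (s : GQ) ^ ((p + 1) * i - 2 * m) = 1 := by
    intro s
    have hrel : cval χ (ω₁ / ω₂) (s ^ (p + 1))
        = ((((χ s).val ^ 2 : ℕ)) : k) * cval χ (ω₁ / ω₂) 1 := by
      have h1 : cval χ (ω₁ / ω₂) 1 = 1 := (cvalHom D (ω₁ / ω₂)).map_one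
      rw [h1, mul_one, ← cval_plus_pow hA H s]
      exact (cvalHom D (ω₁ / ω₂)).map_pow s (p + 1)
    have h2 := allowed_two D hall (s ^ (p + 1)) 1 _ hrel
    rw [Subgroup.coe_one, th_one D, one_pow, mul_one, Subgroup.coe_pow, th_pow D s.2,
      Nat.cast_pow, ← th_pow_m D s, ← pow_mul, ← pow_mul] at h2
    have h3 : (p + 1) * i = ((p + 1) * i - 2 * m) + m * 2 := by
      have : 2 * m ≤ (p + 1) * i := by nlinarith
      omega
    rw [h3, pow_add] at h2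
    exact mul_eq_right₀ (pow_ne_zero _ (th_ne_zero D s.2)) |>.1 h2
  have hdvd : (p - 1) * m ∣ (p + 1) * i - 2 * m := H.hT4 _ hth2
  -- (3) the arithmetic
  obtain ⟨n, hn⟩ := m_dvd hA H
  have hodd := odd_quot hA H hn
  obtain ⟨r, hr⟩ : ∃ r, i = (p - 1) * m + r := ⟨i - (p - 1) * m, by omega⟩
  have hrm : r < m := by omega
  have hr0 : r ≠ 0 := by
    rintro rfl
    exact hndvd ⟨1, by rw [hr]; ring⟩
  have hn0 : 0 < n := by
    rcases Nat.eq_zero_or_pos n with h | h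
    · rw [h, mul_zero] at hn; omega
    · exact h
  -- in `ℤ`: `(p-1) ∣ n r - 2`
  have hz : ((p : ℤ) - 1) ∣ (n : ℤ) * r - 2 := by
    obtain ⟨u, hu⟩ := hdvd
    have h2m : 2 * m ≤ (p + 1) * i := by nlinarith
    have hu' : ((p : ℤ) + 1) * i - 2 * m = ((p : ℤ) - 1) * m * u := by
      have := congrArg (fun z : ℕ => (z : ℤ)) hu
      rw [Nat.cast_sub h2m] at this
      push_cast [Nat.cast_sub hp.pos] at this
      linarith
    have hnz : ((p : ℤ) + 1) = m * n := by exact_mod_cast hn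
    have hiz : (i : ℤ) = ((p : ℤ) - 1) * m + r := by
      rw [hr]; push_cast [Nat.cast_sub hp.pos]; ring
    refine ⟨u - (p + 1), ?_⟩
    have hm0 : (m : ℤ) ≠ 0 := by exact_mod_cast hm.ne'
    apply mul_left_cancel₀ hm0
    have e1 : (m : ℤ) * ((n : ℤ) * r - 2) = ((p : ℤ) + 1) * r - 2 * m := by rw [hnz]; ring
    rw [e1]
    have e2 : ((p : ℤ) + 1) * r = ((p : ℤ) + 1) * i - ((p : ℤ) + 1) * (((p : ℤ) - 1) * m) := by
      rw [hiz]; ring
    rw [e2]
    linarith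
  obtain ⟨t, ht⟩ := hz
  -- bounds: `-2 ≤ n r - 2 < p - 1`
  have hb1 : (n : ℤ) * r < (p : ℤ) + 1 := by
    have : n * r < n * m := Nat.mul_lt_mul_of_pos_left hrm hn0
    have h2 : (n * r : ℕ) < p + 1 := by rw [hn, mul_comm m n]; exact this
    exact_mod_cast h2
  have hb0 : (0 : ℤ) < (n : ℤ) * r := by
    have : 0 < n * r := Nat.mul_pos hn0 (Nat.pos_of_ne_zero hr0)
    exact_mod_cast this
  have hp3z : (3 : ℤ) ≤ p := by exact_mod_cast hp3
  have ht0 : t = 0 := by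
    have h1 : t < 1 := by
      by_contra hge
      push Not at hge
      nlinarith
    have h2 : -1 < t := by
      by_contra hle
      push Not at hle
      nlinarith
    omega
  rw [ht0, mul_zero] at ht
  have hnr : n * r = 2 := by
    have : (n : ℤ) * r = 2 := by linarith
    exact_mod_cast this
  have hn1 : n = 1 := by
    have h1 : n ∣ 2 := ⟨r, hnr.symm⟩
    have h2 : n ≤ 2 := Nat.le_of_dvd (by norm_num) h1
    interval_cases n
    · rfl
    · exact absurd (dvd_refl 2) hodd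
  subst hn1
  rw [one_mul] at hnr
  rw [mul_one] at hn
  exact ⟨hn.symm, by rw [hr, hnr]⟩

end levels

/-! ### the count -/

section count

variable [Fact p.Prime] [Finite k]

/-- the conditions on the three components `(f_H, f₊, f₋)` of the restriction to `N` of a flat
class. -/
structure IsFS (D : CountData A N p ζ π₀ m χ φ cφ p)
    (ω₁ ω₂ : ↥(A.inertiaSubgroupIn ℚ) →* kˣ) (w₁₂ w₂₁ : k)
    (f : (↥N → k) × (↥N → k) × (↥N → k)) : Prop where
  eH : IsEquiv D (1 : ↥(A.inertiaSubgroupIn ℚ) →* kˣ) (-1) f.1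
  lH : ∀ b : k, ∃ a : Qb, KLev A N p ζ π₀ (gfun p f.1 b) ((p - 1) * m) a
  eI : ∀ (s : ↥(A.inertiaSubgroupIn ℚ)) (τ : ↥N),
    f.2.1 ⟨(s : GQ)⁻¹ * τ * s, D.hnorm s s.2 τ τ.2⟩ = (((ω₁ / ω₂) s)⁻¹ : kˣ) * f.2.1 τ
  eφ1 : ∀ τ : ↥N, f.2.1 ⟨φ⁻¹ * τ * φ, D.hφN τ τ.2⟩ = w₁₂ * f.2.2 τ
  eφ2 : ∀ τ : ↥N, f.2.2 ⟨φ⁻¹ * τ * φ, D.hφN τ τ.2⟩ = w₂₁ * f.2.1 τ
  lP : ∀ b : k, ∃ a : Qb, KLev A N p ζ π₀ (gfun p f.2.1 b) ((p - 1) * m) a

variable {D : CountData A N p ζ π₀ m χ φ cφ p} {ω₁ ω₂ : ↥(A.inertiaSubgroupIn ℚ) →* kˣ}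
  (hA : A.LiesOverPrime p) (H : SData D ω₁ ω₂) {w₁₂ w₂₁ : k}
include hA H

/-- the diagonal component vanishes. -/
theorem IsFS.fst_eq_zero {f : (↥N → k) × (↥N → k) × (↥N → k)} (hf : IsFS D ω₁ ω₂ w₁₂ w₂₁ f)
    (τ : ↥N) : f.1 τ = 0 := by
  have he1 : 1 ≤ (p - 1) * m := le_trans D.S.hm (e0_gt hA H).le
  exact IsHL.eq_zero D he1 (fun i h1 h2 _ => not_allowed_H hA H h1 h2) ⟨hf.eH, hf.lH⟩ τ

omit [Fact p.Prime] [Finite k] hA H in
/-- the `+` component is `φ²`-equivariant. -/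
theorem IsFS.isHL {f : (↥N → k) × (↥N → k) × (↥N → k)} (hf : IsFS D ω₁ ω₂ w₁₂ w₂₁ f) :
    IsHL (sqData D) (ω₁ / ω₂) (w₁₂ * w₂₁) ((p - 1) * m) f.2.1 := by
  refine ⟨⟨hf.eI, fun τ => ?_⟩, hf.lP⟩
  have h1 := hf.eφ1 ⟨φ⁻¹ * τ * φ, D.hφN τ τ.2⟩
  have h2 : w₁₂ * f.2.2 ⟨φ⁻¹ * τ * φ, D.hφN τ τ.2⟩ = w₁₂ * w₂₁ * f.2.1 τ := by
    rw [hf.eφ2 τ]
    exact (mul_assoc _ _ _).symm
  refine Eq.trans ?_ (h1.trans h2)
  congr 1

/-- **THE COUNT IN THE SUPERSINGULAR CASE.** -/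
theorem card_FS_le (hw₁₂ : w₁₂ ≠ 0) (hw₂₁ : w₂₁ ≠ 0) (hcφ : cφ ≠ 0) :
    Finite {f : (↥N → k) × (↥N → k) × (↥N → k) // IsFS D ω₁ ω₂ w₁₂ w₂₁ f} ∧
      Nat.card {f : (↥N → k) × (↥N → k) × (↥N → k) // IsFS D ω₁ ω₂ w₁₂ w₂₁ f} ≤ Nat.card k := by
  classical
  have hp := D.S.hp
  have hp2 := D.S.hp2
  have hm := D.S.hm
  have he0 := e0_gt hA H
  have hpm : p * m = (p - 1) * m + m := D.S.p_mul m
  have he1 : 1 ≤ (p - 1) * m := le_trans hm he0.le
  have hp3 : 3 ≤ p := by have := hp.two_le; omega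
  -- the target family
  have hinj : Function.Injective
      fun f : {f : (↥N → k) × (↥N → k) × (↥N → k) // IsFS D ω₁ ω₂ w₁₂ w₂₁ f} =>
        (⟨f.1.2.1, f.2.isHL⟩ :
          {g : ↥N → k // IsHL (sqData D) (ω₁ / ω₂) (w₁₂ * w₂₁) ((p - 1) * m) g}) := by
    intro f f' hff
    have h1 : f.1.2.1 = f'.1.2.1 :=
      congrArg (fun z : {g : ↥N → k // IsHL (sqData D) (ω₁ / ω₂) (w₁₂ * w₂₁) ((p - 1) * m) g} => z.1) hff
    have h0 : f.1.1 = f'.1.1 := by
      funext τ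
      rw [f.2.fst_eq_zero hA H τ, f'.2.fst_eq_zero hA H τ]
    have h2 : f.1.2.2 = f'.1.2.2 := by
      funext τ
      have e1 := f.2.eφ1 τ
      have e2 := f'.2.eφ1 τ
      rw [h1, e2] at e1
      exact (mul_left_cancel₀ hw₁₂ e1).symm
    apply Subtype.ext
    exact Prod.ext h0 (Prod.ext h1 h2)
  have hkey : Finite {g : ↥N → k // IsHL (sqData D) (ω₁ / ω₂) (w₁₂ * w₂₁) ((p - 1) * m) g} ∧
      Nat.card {g : ↥N → k // IsHL (sqData D) (ω₁ / ω₂) (w₁₂ * w₂₁) ((p - 1) * m) g} ≤ Nat.card k := by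
    by_cases hmp : m = p + 1
    · -- the allowed case
      have hcq : ∀ s, cval χ (ω₁ / ω₂) s ^ (p * p) = cval χ (ω₁ / ω₂) s := by
        intro s
        simp only [cval]
        rw [mul_pow, ← Units.val_pow_eq_pow_val, inv_pow, MonoidHom.div_apply, div_pow,
          omega1_pow_sq hA H, omega2_pow_sq hA H, ← map_pow, pow_mul, ZMod.pow_card,
          ZMod.pow_card]
      have hbig : ∀ j, 0 < j → j < 2 → ∃ s, cval χ (ω₁ / ω₂) s ^ p ^ j ≠ cval χ (ω₁ / ω₂) s := by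
        intro j hj0 hj2
        obtain rfl : j = 1 := by omega
        rw [pow_one]
        by_contra hcon
        push Not at hcon
        -- `ω₂^(2(p-1)) = 1`
        have h1 : (p - 1) * m ∣ 2 * (p - 1) := by
          refine dvd_of_omega2_pow hA H fun s => ?_
          have h2 := hcon s
          simp only [cval] at h2
          rw [mul_pow, ← map_pow, ZMod.pow_card] at h2
          have h3 := mul_left_cancel₀
            ((map_ne_zero_iff _ (algebraMap (ZMod p) k).injective).2 (chi_ne_zero D s)) h2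
          rw [← Units.val_pow_eq_pow_val, Units.val_inj, inv_pow, inv_inj, MonoidHom.div_apply,
            div_pow, ← omega2_eq hA H, ← omega1_eq hA H, div_eq_div_iff_mul_eq_mul] at h3
          -- `ω₂ * ω₂ = ω₁ * ω₁`
          rw [omega1_eq hA H s, ← pow_two, ← pow_two, ← pow_mul] at h3
          have h4 : p * 2 = 2 + 2 * (p - 1) := by omega
          rw [h4, pow_add] at h3
          exact (mul_eq_left.mp h3.symm)
        have h5 : m ∣ 2 := by
          have h6 : (p - 1) * m ∣ (p - 1) * 2 := by rwa [mul_comm (p - 1) 2]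
          exact Nat.dvd_of_mul_dvd_mul_left (by omega) h6
        have := Nat.le_of_dvd (by norm_num) h5
        omega
      have hi₀ : (p - 1) * m + 2 < p * m := by omega
      have hpi : ¬ p ∣ (p - 1) * m + 2 := by
        rw [hmp]
        have h1 : (p - 1) * (p + 1) + 2 = p * p + 1 := by
          have : 1 ≤ p := hp.pos
          zify [this]
          ring
        rw [h1]
        intro h2
        have h3 : p ∣ 1 := (Nat.dvd_add_right (dvd_mul_right p p)).1 h2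
        exact hp.one_lt.ne' (Nat.dvd_one.1 h3)
      exact card_le_card (sqData D) hA (sq p).symm (le_refl 2 |> fun _ => by norm_num) hcq hbig he1
        le_rfl (Nat.le_add_right _ 2) hi₀ hpi
        (fun i h1 h2 _ h4 => (allowed_plus hA H h1 h2 h4).2)
        (mul_ne_zero hw₁₂ hw₂₁) (mul_ne_zero hcφ hcφ)
    · -- no allowed level
      have hno : ∀ i, (p - 1) * m ≤ i → i < p * m → ¬ p ∣ i → ¬ Allowed A π₀ χ (ω₁ / ω₂) i :=
        fun i h1 h2 _ h4 => hmp (allowed_plus hA H h1 h2 h4).1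
      have hsub : Subsingleton
          {g : ↥N → k // IsHL (sqData D) (ω₁ / ω₂) (w₁₂ * w₂₁) ((p - 1) * m) g} := by
        refine ⟨fun g g' => Subtype.ext (funext fun τ => ?_)⟩
        rw [IsHL.eq_zero (sqData D) he1 hno g.2 τ, IsHL.eq_zero (sqData D) he1 hno g'.2 τ]
      exact ⟨inferInstance, le_trans (Finite.card_le_one_iff_subsingleton.2 hsub) Nat.card_pos⟩
  have := hkey.1
  exact ⟨Finite.of_injective _ hinj, le_trans (Nat.card_le_card_of_injective _ hinj) hkey.2⟩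

end count

end Fermat.Agent.W56.CountS3
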