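/-
Programme W56 (target S56), chapter (F) FLAT, the counts (helper3): **allowed levels for
`𝔽_p`-valued characters of the inertia group**.

`TData D` : the tame character `θ₀ = th A π₀` of the uniformiser is injective on `I/N` (`hT1`) and of
exact order `(p-1) m` (`hT4`).

* `not_allowed_one` : no level in `[(p-1)m, pm)` is allowed for the trivial character;
* `psi_pow_p`, `cval_pow_p` : a character of `I/N` invariant under conjugation by `φ` takes values in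
  `𝔽_p`;
* `th_pow_of_allowed` : if `i` is allowed for `ψ` and `χ ψ⁻¹ (s) = c ∈ 𝔽_p` then `θ₀(s)^i = c`;
* `allowed_unique` : at most one allowed level in `[(p-1)m, pm)`;
* `allowed_pair` : if levels are allowed both for `ψ` and for `ψ⁻¹` then `χ ψ⁻¹ = 1 = χ ψ` on `I`
  (and `p = 3`);
* `card_le_card_p` : the count `card_le_card` for `q = p` with its side conditions discharged.
-/
import Mathlib
import Fermat.Agent.W56.CountS3

set_option autoImplicit false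

namespace Fermat.Agent.W56.AllowedT3

open Fermat.Agent.W56.KummerGen3 Fermat.Agent.W56.UnitLevel3 Fermat.Agent.W56.KLevel3
  Fermat.Agent.W56.LevelCount3 Fermat.Agent.W56.LevelCountB3 Fermat.Agent.W56.CountS3 IsLocalRing

variable {A : ValuationSubring Qb} {N : Subgroup GQ} {p : ℕ} {ζ π₀ : Qb} {m : ℕ}
  {χ : ↥(A.inertiaSubgroupIn ℚ) → ZMod p} {φ : GQ} {cφ : ZMod p}
  {k : Type*} [Field k] [Algebra (ZMod p) k]

/-- the tame character of the uniformiser is injective on `I/N` and of exact order `(p-1) m`. -/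
structure TData (D : CountData A N p ζ π₀ m χ φ cφ p) : Prop where
  hT1 : ∀ s : ↥(A.inertiaSubgroupIn ℚ), th A π₀ (s : GQ) = 1 → (s : GQ) ∈ N
  hT4 : ∀ d : ℕ, (∀ s : ↥(A.inertiaSubgroupIn ℚ), th A π₀ (s : GQ) ^ d = 1) → (p - 1) * m ∣ d

variable [Fact p.Prime]
variable {D : CountData A N p ζ π₀ m χ φ cφ p} (hA : A.LiesOverPrime p) (H : TData D)
  {ψ : ↥(A.inertiaSubgroupIn ℚ) →* kˣ}

omit [Fact p.Prime] in
theorem m_lt (D : CountData A N p ζ π₀ m χ φ cφ p) : m < (p - 1) * m := by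
  have hp := D.S.hp
  have hp2 := D.S.hp2
  have hm := D.S.hm
  have h2 : 2 ≤ p - 1 := by have := hp.two_le; omega
  calc m < 2 * m := by omega
    _ ≤ (p - 1) * m := Nat.mul_le_mul_right m h2

include hA in
/-- `θ₀^((p-1) m) = 1`. -/
theorem th_e0' (D : CountData A N p ζ π₀ m χ φ cφ p) (s : ↥(A.inertiaSubgroupIn ℚ)) :
    th A π₀ (s : GQ) ^ ((p - 1) * m) = 1 := by
  have := charP_residueField D.S.hp hA
  rw [mul_comm, pow_mul, th_pow_m D s]
  exact natCast_val_pow (chi_ne_zero D s)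

include H in
/-- **no allowed level for the trivial character.** -/
theorem not_allowed_one {i : ℕ} (hi1 : (p - 1) * m ≤ i) (hi2 : i < p * m) :
    ¬ Allowed A π₀ χ (1 : ↥(A.inertiaSubgroupIn ℚ) →* kˣ) i := by
  intro hall
  have hp := D.S.hp
  have hm := D.S.hm
  have he0 := m_lt D
  have hpm : p * m = (p - 1) * m + m := D.S.p_mul m
  have hdvd : (p - 1) * m ∣ i - m := by
    refine H.hT4 _ fun s => ?_
    have hrel : cval χ (1 : ↥(A.inertiaSubgroupIn ℚ) →* kˣ) s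
        = (((χ s).val : ℕ) : k) * cval χ (1 : ↥(A.inertiaSubgroupIn ℚ) →* kˣ) 1 := by
      have h1 : cval χ (1 : ↥(A.inertiaSubgroupIn ℚ) →* kˣ) 1 = 1 :=
        (cvalHom D (1 : ↥(A.inertiaSubgroupIn ℚ) →* kˣ)).map_one
      rw [h1, mul_one]
      simp only [cval, MonoidHom.one_apply, inv_one, Units.val_one, mul_one]
      exact algebraMap_eq_natCast _
    have h2 := allowed_two D hall s 1 _ hrel
    rw [Subgroup.coe_one, th_one D, one_pow, mul_one, ← th_pow_m D s] at h2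
    have h3 : th A π₀ (s : GQ) ^ (i - m) * th A π₀ (s : GQ) ^ m = th A π₀ (s : GQ) ^ m := by
      rw [← pow_add, Nat.sub_add_cancel (by omega)]
      exact h2
    exact mul_eq_right₀ (pow_ne_zero _ (th_ne_zero D s.2)) |>.1 h3
  have h4 : (p - 1) * m ≤ i - m := Nat.le_of_dvd (by omega) hdvd
  omega

/-- the element `φ s φ⁻¹ s^(-p)` of `I`. -/
theorem aux_mem' (D : CountData A N p ζ π₀ m χ φ cφ p) (s : ↥(A.inertiaSubgroupIn ℚ)) :
    φ * (s : GQ) * φ⁻¹ * ((s : GQ) ^ p)⁻¹ ∈ A.inertiaSubgroupIn ℚ :=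
  Subgroup.mul_mem _ (phi_conj_mem D s.2) (Subgroup.inv_mem _ (Subgroup.pow_mem _ s.2 p))

theorem th_aux' (D : CountData A N p ζ π₀ m χ φ cφ p) (s : ↥(A.inertiaSubgroupIn ℚ)) :
    th A π₀ (φ * (s : GQ) * φ⁻¹ * ((s : GQ) ^ p)⁻¹) = 1 := by
  rw [th_mul D (phi_conj_mem D s.2) (Subgroup.inv_mem _ (Subgroup.pow_mem _ s.2 p)),
    th_conj D s.2, th_inv D (Subgroup.pow_mem _ s.2 p), th_pow D s.2,
    mul_inv_cancel₀ (pow_ne_zero _ (th_ne_zero D s.2))]

include H in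
/-- **a `φ`-invariant character of `I/N` has values in `𝔽_p`.** -/
theorem psi_pow_p (hψN : ∀ s : ↥(A.inertiaSubgroupIn ℚ), (s : GQ) ∈ N → ψ s = 1)
    (hψφ : ∀ s : ↥(A.inertiaSubgroupIn ℚ), ψ ⟨φ * s * φ⁻¹, phi_conj_mem D s.2⟩ = ψ s)
    (s : ↥(A.inertiaSubgroupIn ℚ)) : ψ s ^ p = ψ s := by
  have h1 := hψN ⟨_, aux_mem' D s⟩ (H.hT1 ⟨_, aux_mem' D s⟩ (th_aux' D s))
  have h2 : (⟨_, aux_mem' D s⟩ : ↥(A.inertiaSubgroupIn ℚ))
      = ⟨φ * s * φ⁻¹, phi_conj_mem D s.2⟩ * (s ^ p)⁻¹ := rfl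
  rw [h2, map_mul, hψφ, map_inv, map_pow, mul_inv_eq_one] at h1
  exact h1.symm

include H in
theorem cval_pow_p (hψN : ∀ s : ↥(A.inertiaSubgroupIn ℚ), (s : GQ) ∈ N → ψ s = 1)
    (hψφ : ∀ s : ↥(A.inertiaSubgroupIn ℚ), ψ ⟨φ * s * φ⁻¹, phi_conj_mem D s.2⟩ = ψ s)
    (s : ↥(A.inertiaSubgroupIn ℚ)) : cval χ ψ s ^ p = cval χ ψ s := by
  simp only [cval]
  rw [mul_pow, ← Units.val_pow_eq_pow_val, inv_pow, psi_pow_p H hψN hψφ, ← map_pow,
    ZMod.pow_card]

/-- an element of `k` fixed by Frobenius is a natural number. -/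
theorem exists_natCast_of_pow_p [CharP k p] {x : k} (hx : x ^ p = x) : ∃ c : ℕ, x = (c : k) := by
  have h1 : x ∈ (⊥ : Subfield k) := (Subfield.mem_bot_iff_pow_eq_self k p).2 hx
  obtain ⟨n, hn⟩ := (mem_bot_iff_intCast p k).1 h1
  refine ⟨((n : ZMod p)).val, ?_⟩
  rw [← hn]
  have h2 : (ZMod.castHom (dvd_refl p) k) ((((n : ZMod p)).val : ℕ) : ZMod p) =
      (ZMod.castHom (dvd_refl p) k) ((n : ℤ) : ZMod p) := by
    rw [ZMod.natCast_zmod_val]
  rw [map_natCast, map_intCast] at h2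
  exact h2.symm

omit [Fact p.Prime] in
/-- **the value of `θ₀^i` at an allowed level.** -/
theorem th_pow_of_allowed (D : CountData A N p ζ π₀ m χ φ cφ p) {i : ℕ}
    (hall : Allowed A π₀ χ ψ i) (s : ↥(A.inertiaSubgroupIn ℚ)) (c : ℕ)
    (hc : cval χ ψ s = (c : k)) : th A π₀ (s : GQ) ^ i = (c : ResidueField A) := by
  have h1 : cval χ ψ 1 = 1 := (cvalHom D ψ).map_one
  have h2 := allowed_two D hall s 1 c (by rw [h1, mul_one, hc])
  rwa [Subgroup.coe_one, th_one D, one_pow, mul_one] at h2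

variable [CharP k p]

include hA H in
/-- **at most one allowed level** in `[(p-1)m, pm)` for an `𝔽_p`-valued character. -/
theorem allowed_unique (hcv : ∀ s, cval χ ψ s ^ p = cval χ ψ s) {i i' : ℕ}
    (hi1 : (p - 1) * m ≤ i) (hi2 : i < p * m) (hi1' : (p - 1) * m ≤ i') (hi2' : i' < p * m)
    (hall : Allowed A π₀ χ ψ i) (hall' : Allowed A π₀ χ ψ i') : i = i' := by
  have hpm : p * m = (p - 1) * m + m := D.S.p_mul m
  have he0 := m_lt D
  have key : ∀ {j j' : ℕ}, (p - 1) * m ≤ j → j' < p * m → j ≤ j' → Allowed A π₀ χ ψ j →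
      Allowed A π₀ χ ψ j' → j = j' := by
    intro j j' h1 h2 hjj hj hj'
    have hdvd : (p - 1) * m ∣ j' - j := by
      refine H.hT4 _ fun s => ?_
      obtain ⟨c, hc⟩ := exists_natCast_of_pow_p (hcv s)
      have e1 := th_pow_of_allowed D hj s c hc
      have e2 := th_pow_of_allowed D hj' s c hc
      have h3 : th A π₀ (s : GQ) ^ (j' - j) * th A π₀ (s : GQ) ^ j = th A π₀ (s : GQ) ^ j := by
        rw [← pow_add, Nat.sub_add_cancel hjj, e1, e2]
      exact mul_eq_right₀ (pow_ne_zero _ (th_ne_zero D s.2)) |>.1 h3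
    by_contra hne
    have h4 : (p - 1) * m ≤ j' - j := Nat.le_of_dvd (by omega) hdvd
    omega
  rcases le_total i i' with h | h
  · exact key hi1 hi2' h hall hall'
  · exact (key hi1' hi2 h hall' hall).symm

include hA H in
/-- **levels allowed for `ψ` and for `ψ⁻¹`**: then `χ ψ⁻¹ = 1 = χ ψ` on `I`. -/
theorem allowed_pair {ψ' : ↥(A.inertiaSubgroupIn ℚ) →* kˣ} (hinv : ∀ s, ψ' s = (ψ s)⁻¹)
    (hcv : ∀ s, cval χ ψ s ^ p = cval χ ψ s) {i i' : ℕ}
    (hi1 : (p - 1) * m ≤ i) (hi2 : i < p * m) (hi1' : (p - 1) * m ≤ i') (hi2' : i' < p * m)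
    (hall : Allowed A π₀ χ ψ i) (hall' : Allowed A π₀ χ ψ' i')
    (s : ↥(A.inertiaSubgroupIn ℚ)) : cval χ ψ s = 1 ∧ cval χ ψ' s = 1 := by
  have hp := D.S.hp
  have hp2 := D.S.hp2
  have hm := D.S.hm
  have hpm : p * m = (p - 1) * m + m := D.S.p_mul m
  have he0 := m_lt D
  have hp3 : 3 ≤ p := by have := hp.two_le; omega
  have := charP_residueField hp hA
  have hcv' : ∀ s, cval χ ψ' s ^ p = cval χ ψ' s := by
    intro s
    have h1 := hcv s
    simp only [cval] at h1 ⊢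
    rw [hinv, inv_inv]
    rw [mul_pow, ← map_pow, ZMod.pow_card] at h1 ⊢
    have h2 : algebraMap (ZMod p) k (χ s) ≠ 0 := by
      rw [Ne, map_eq_zero_iff _ (algebraMap (ZMod p) k).injective]
      exact chi_ne_zero D s
    have h3 : (((ψ s)⁻¹ : kˣ) : k) ^ p = (((ψ s)⁻¹ : kˣ) : k) := mul_left_cancel₀ h2 h1
    rw [Units.val_inv_eq_inv_val, inv_pow, inv_inj] at h3
    rw [h3]
  -- the product of the two values is `χ²`
  have hprod : ∀ s, cval χ ψ s * cval χ ψ' s = algebraMap (ZMod p) k (χ s) ^ 2 := by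
    intro s
    simp only [cval]
    rw [hinv, inv_inv, Units.val_inv_eq_inv_val]
    field_simp
  -- `(p-1) m ∣ i + i' - 2m`
  have hdvd : (p - 1) * m ∣ i + i' - 2 * m := by
    refine H.hT4 _ fun s => ?_
    obtain ⟨c, hc⟩ := exists_natCast_of_pow_p (hcv s)
    obtain ⟨c', hc'⟩ := exists_natCast_of_pow_p (hcv' s)
    have e1 := th_pow_of_allowed D hall s c hc
    have e2 := th_pow_of_allowed D hall' s c' hc'
    have h5 : ((c * c' : ℕ) : k) = (((χ s).val ^ 2 : ℕ) : k) := by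
      push_cast
      rw [← hc, ← hc', hprod, algebraMap_eq_natCast]
    have h6 : ((c * c' : ℕ) : ResidueField A) = (((χ s).val ^ 2 : ℕ) : ResidueField A) :=
      (CharP.natCast_eq_natCast (ResidueField A) p).2 ((CharP.natCast_eq_natCast k p).1 h5)
    push_cast at h6
    have h7 : th A π₀ (s : GQ) ^ (i + i' - 2 * m) * th A π₀ (s : GQ) ^ (2 * m)
        = th A π₀ (s : GQ) ^ (2 * m) := by
      rw [← pow_add, Nat.sub_add_cancel (by omega), pow_add, e1, e2, h6, mul_comm 2 m, pow_mul,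
        th_pow_m D s]
    exact mul_eq_right₀ (pow_ne_zero _ (th_ne_zero D s.2)) |>.1 h7
  -- hence `i = i' = (p-1) m`
  obtain ⟨t, ht⟩ := hdvd
  have hi : i = (p - 1) * m ∧ i' = (p - 1) * m := by
    have ht1 : t < 2 := by
      by_contra h
      have : (p - 1) * m * 2 ≤ (p - 1) * m * t := Nat.mul_le_mul_left _ (by omega)
      omega
    have ht0 : 0 < t := by
      rcases Nat.eq_zero_or_pos t with h | h
      · rw [h, mul_zero] at ht
        have h8 : 2 * m < (p - 1) * m + (p - 1) * m := by omega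
        omega
      · exact h
    have ht' : t = 1 := by omega
    rw [ht', mul_one] at ht
    -- `(p-1) m = i + i' - 2m ≥ 2 (p-1) m - 2m`
    have h9 : (p - 1) * m ≤ 2 * m := by omega
    have h10 : 2 * m ≤ (p - 1) * m := Nat.mul_le_mul_right m (by omega)
    constructor <;> omega
  -- conclusion
  have hone : ∀ {ψ₀ : ↥(A.inertiaSubgroupIn ℚ) →* kˣ}, (∀ s, cval χ ψ₀ s ^ p = cval χ ψ₀ s) →
      Allowed A π₀ χ ψ₀ ((p - 1) * m) → cval χ ψ₀ s = 1 := by
    intro ψ₀ h1 h2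
    obtain ⟨c, hc⟩ := exists_natCast_of_pow_p (h1 s)
    have e1 := th_pow_of_allowed D h2 s c hc
    rw [th_e0' hA D s] at e1
    have h3 : ((c : ℕ) : ResidueField A) = ((1 : ℕ) : ResidueField A) := by
      rw [Nat.cast_one]; exact e1.symm
    have h4 := (CharP.natCast_eq_natCast k p).2 ((CharP.natCast_eq_natCast (ResidueField A) p).1 h3)
    rw [hc, h4, Nat.cast_one]
  exact ⟨hone hcv (hi.1 ▸ hall), hone hcv' (hi.2 ▸ hall')⟩

omit [CharP k p] in
include H in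
/-- **two quadratic characters with product `χ` cutting out `N`**: one of them is trivial. -/
theorem triv_of_pair {ψ₁ ψ₂ : ↥(A.inertiaSubgroupIn ℚ) →* kˣ}
    (hN : ∀ s : ↥(A.inertiaSubgroupIn ℚ), (s : GQ) ∈ N ↔ ψ₁ s = 1 ∧ ψ₂ s = 1)
    (hdet : ∀ s : ↥(A.inertiaSubgroupIn ℚ),
      ((ψ₁ s : kˣ) : k) * ((ψ₂ s : kˣ) : k) = algebraMap (ZMod p) k (χ s))
    (h1 : ∀ s, ψ₁ s ^ 2 = 1) (h2 : ∀ s, ψ₂ s ^ 2 = 1) :
    (∀ s, ψ₁ s = 1) ∨ (∀ s, ψ₂ s = 1) := by
  have hp := D.S.hp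
  have hm := D.S.hm
  have he0 := m_lt D
  -- `θ₀² = 1`
  have hth2 : ∀ s : ↥(A.inertiaSubgroupIn ℚ), th A π₀ (s : GQ) ^ 2 = 1 := by
    intro s
    have hs2 : ((s ^ 2 : ↥(A.inertiaSubgroupIn ℚ)) : GQ) ∈ N := by
      rw [hN, map_pow, map_pow]
      exact ⟨h1 s, h2 s⟩
    have := th_of_mem D hs2
    rwa [Subgroup.coe_pow, th_pow D s.2] at this
  have hm1 : m = 1 := by
    have h3 := Nat.le_of_dvd (by norm_num) (H.hT4 2 hth2)
    omega
  by_contra hcon
  rw [not_or] at hcon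
  obtain ⟨hc1, hc2⟩ := hcon
  push_neg at hc1 hc2
  obtain ⟨s₁, hs₁⟩ := hc1
  obtain ⟨s₂, hs₂⟩ := hc2
  have hneg : ∀ s : ↥(A.inertiaSubgroupIn ℚ), (s : GQ) ∉ N → th A π₀ (s : GQ) = -1 := by
    intro s hs
    have h3 : th A π₀ (s : GQ) ≠ 1 := fun h => hs (H.hT1 s h)
    have h4 := hth2 s
    have h5 : (th A π₀ (s : GQ) - 1) * (th A π₀ (s : GQ) + 1) = 0 := by
      linear_combination h4
    rcases mul_eq_zero.1 h5 with h | h
    · exact absurd (sub_eq_zero.1 h) h3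
    · exact eq_neg_of_add_eq_zero_left h
  have hs₁N : (s₁ : GQ) ∉ N := fun h => hs₁ ((hN s₁).1 h).1
  have hs₂N : (s₂ : GQ) ∉ N := fun h => hs₂ ((hN s₂).1 h).2
  -- `s₁ s₂⁻¹ ∈ N`
  have h12 : ((s₁ * s₂⁻¹ : ↥(A.inertiaSubgroupIn ℚ)) : GQ) ∈ N := by
    refine H.hT1 _ ?_
    rw [Subgroup.coe_mul, Subgroup.coe_inv, th_mul D s₁.2 (Subgroup.inv_mem _ s₂.2),
      th_inv D s₂.2, hneg s₁ hs₁N, hneg s₂ hs₂N]
    norm_num
  have h6 : ψ₁ s₂ ≠ 1 := by
    have h7 := ((hN _).1 h12).1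
    rw [map_mul, map_inv, mul_inv_eq_one] at h7
    rw [← h7]
    exact hs₁
  -- both values at `s₂` are `-1`
  have hval : ∀ u : kˣ, u ^ 2 = 1 → u ≠ 1 → (u : k) = -1 := by
    intro u hu hu1
    have h4 : (u : k) ^ 2 = 1 := by
      rw [← Units.val_pow_eq_pow_val, hu, Units.val_one]
    have h5 : ((u : k) - 1) * ((u : k) + 1) = 0 := by linear_combination h4
    rcases mul_eq_zero.1 h5 with h | h
    · exact absurd (Units.ext (by rw [Units.val_one]; exact sub_eq_zero.1 h)) hu1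
    · exact eq_neg_of_add_eq_zero_left h
  have h8 := hdet s₂
  rw [hval _ (h1 s₂) h6, hval _ (h2 s₂) hs₂] at h8
  have h9 : algebraMap (ZMod p) k (χ s₂) = algebraMap (ZMod p) k 1 := by
    rw [← h8, map_one]; ring
  have h10 : χ s₂ = 1 := (algebraMap (ZMod p) k).injective h9
  have h11 := th_pow_m D s₂
  rw [hm1, pow_one, h10] at h11
  have : Fact (1 < p) := ⟨hp.one_lt⟩
  rw [ZMod.val_one, Nat.cast_one] at h11
  exact hs₂N (H.hT1 s₂ h11)

include hA H in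
/-- **the count for `q = p`**, with the side conditions discharged. -/
theorem card_le_card_p [Finite k] {w : k}
    (hψN : ∀ s : ↥(A.inertiaSubgroupIn ℚ), (s : GQ) ∈ N → ψ s = 1)
    (hψφ : ∀ s : ↥(A.inertiaSubgroupIn ℚ), ψ ⟨φ * s * φ⁻¹, phi_conj_mem D s.2⟩ = ψ s)
    (hw : w ≠ 0) (hcφ : cφ ≠ 0) :
    Finite {f : ↥N → k // IsHL D ψ w ((p - 1) * m) f} ∧
      Nat.card {f : ↥N → k // IsHL D ψ w ((p - 1) * m) f} ≤ Nat.card k := by
  have hp := D.S.hp
  have hm := D.S.hm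
  have he0 := m_lt D
  have he1 : 1 ≤ (p - 1) * m := by omega
  have hcv := cval_pow_p (k := k) H hψN hψφ
  by_cases hex : ∃ i₀, (p - 1) * m ≤ i₀ ∧ i₀ < p * m ∧ ¬ p ∣ i₀ ∧ Allowed A π₀ χ ψ i₀
  · obtain ⟨i₀, h1, h2, h3, h4⟩ := hex
    exact card_le_card D hA (fq := 1) (pow_one p).symm le_rfl (by simpa using hcv)
      (fun j hj0 hj1 => by omega) he1 le_rfl h1 h2 h3
      (fun i hi1 hi2 _ hi4 => allowed_unique hA H hcv hi1 hi2 h1 h2 hi4 h4) hw hcφ
  · push_neg at hex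
    have hzero : ∀ f : {f : ↥N → k // IsHL D ψ w ((p - 1) * m) f}, f.1 = fun _ => 0 := by
      intro f
      funext τ
      exact IsHL.eq_zero D he1 (fun i hi1 hi2 hi3 hi4 => hex i hi1 hi2 hi3 hi4) f.2 τ
    have hsub : Subsingleton {f : ↥N → k // IsHL D ψ w ((p - 1) * m) f} :=
      ⟨fun f g => Subtype.ext (by rw [hzero f, hzero g])⟩
    refine ⟨inferInstance, ?_⟩
    calc Nat.card {f : ↥N → k // IsHL D ψ w ((p - 1) * m) f} ≤ 1 := Finite.card_le_one_iff_subsingleton.2 hsub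
      _ ≤ Nat.card k := Nat.one_le_iff_ne_zero.2 Nat.card_pos.ne'

/-! ### vanishing from the inertia equivariance alone -/

section triv

variable {q : ℕ}

/-- the data with trivial Frobenius. -/
theorem trivData (D : CountData A N p ζ π₀ m χ φ cφ q) :
    CountData A N p ζ π₀ m χ (1 : GQ) (1 : ZMod p) 1 where
  S := D.S
  hnorm := D.hnorm
  hχ := D.hχ
  hφN := fun τ hτ => by simpa using hτ
  hφζ := by
    have : Fact (1 < p) := ⟨D.S.hp.one_lt⟩
    rw [ZMod.val_one, pow_one, AlgEquiv.one_apply]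
  hφv := fun x => rfl
  hφres := fun x _ => by
    rw [AlgEquiv.one_apply, pow_one, sub_self, map_zero]
    exact zero_lt_one

omit [CharP k p] in
/-- **a function on `N` equivariant under inertia for a character without allowed level
vanishes.** -/
theorem eq_zero_of_equivI [Finite k] (D : CountData A N p ζ π₀ m χ φ cφ q)
    (ψ : ↥(A.inertiaSubgroupIn ℚ) →* kˣ) (f : ↥N → k)
    (hI : ∀ (s : ↥(A.inertiaSubgroupIn ℚ)) (τ : ↥N),
      f ⟨(s : GQ)⁻¹ * τ * s, D.hnorm s s.2 τ τ.2⟩ = ((ψ s)⁻¹ : kˣ) * f τ)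
    (hlev : ∀ b : k, ∃ a : Qb, KLev A N p ζ π₀ (gfun p f b) ((p - 1) * m) a)
    (hno : ∀ i, (p - 1) * m ≤ i → i < p * m → ¬ p ∣ i → ¬ Allowed A π₀ χ ψ i) (τ : ↥N) :
    f τ = 0 := by
  have he1 : 1 ≤ (p - 1) * m :=
    Nat.succ_le_of_lt (Nat.mul_pos (Nat.sub_pos_of_lt D.S.hp.one_lt) D.S.hm)
  refine IsHL.eq_zero (trivData D) (w := (1 : k)) he1 hno ⟨⟨hI, fun τ => ?_⟩, hlev⟩ τ
  rw [one_mul]
  congr 1

end triv

end Fermat.Agent.W56.AllowedT3
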