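/-
Programme W56 (target S56), stage 2, chapter (EC-5), piece (P10) of helper4's breakdown (helper5):
**the archimedean side of the base case.**

`U ◁ Γ` a member of `globalBasis T` fixing `ζ_p`, `C ≤ Γ ⧸ U` of order prime to `p`, `σ` a finite
`𝔽_p[C]`-module.  The mod `p` cyclotomic character descends to `ω : Γ ⧸ U → 𝔽_pˣ`, and

  `archTerm c (Coind^sm_{Ĉ → Γ} infl σ) = μ_{Hom(σ, 𝔽_p(ω))}(𝔽_p[(Γ/U)/⟨c̄⟩])`

(`InflCoind4.toScoind` + `MackeyArch0.mackey_archTerm_lit` on the finite group `Γ ⧸ U`).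
-/
import Mathlib
import Fermat.Prelude.Def_GaloisRep_ComplexConjugation
import Fermat.Prelude.Def_ExtCitation_KummerBridge
import Fermat.Agent.W56.EulerSkel4
import Fermat.Agent.W56.MackeyArch0B
import Fermat.Agent.W56.QuotGal0

set_option autoImplicit false
set_option linter.unusedSectionVars false

open CategoryTheory ExtCitation

namespace Fermat.Agent.W56.ArchSide5

open Fermat.Agent.PT.PRO Fermat.Agent.PT.BR Fermat.Agent.PT.PRO.LevelCoh28 Fermat.Agent.PT.PRO.SmoothCoind28
  Fermat.Agent.W56.ChiArch4 Fermat.Agent.W56.InflCoind4 Fermat.Agent.W56.MuP4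
  Fermat.Agent.W56.EquivUnits0
open Fermat.Agent.S14.Fields (zeta zeta_spec apply_zeta zeta_pow_eq_pow_iff)

local notation "Γ" => (AlgebraicClosure ℚ ≃ₐ[ℚ] AlgebraicClosure ℚ)

/-- an automorphism fixing `ζ_p` has trivial mod `p` cyclotomic character. -/
theorem cycloChar_eq_one_of_fix (p : ℕ) [Fact p.Prime] {u : Γ} (hu : u (zeta p) = zeta p) :
    cycloChar p u = 1 := by
  apply Units.ext
  rw [Units.val_one, coe_cycloChar]
  have h := apply_zeta p u
  rw [hu] at h
  conv_lhs at h => rw [← pow_one (zeta p)]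
  rw [zeta_pow_eq_pow_iff, Nat.cast_one] at h
  exact h.symm

/-- the descent of the mod `p` cyclotomic character to `Γ ⧸ U`. -/
noncomputable def omegaQ (p : ℕ) [Fact p.Prime] (U : Subgroup Γ) [U.Normal]
    (hζ : ∀ u ∈ U, u (zeta p) = zeta p) : (Γ ⧸ U) →* (ZMod p)ˣ :=
  QuotientGroup.lift U (cycloChar p) fun u hu => cycloChar_eq_one_of_fix p (hζ u hu)

theorem omegaQ_mk (p : ℕ) [Fact p.Prime] (U : Subgroup Γ) [U.Normal]
    (hζ : ∀ u ∈ U, u (zeta p) = zeta p) (g : Γ) :
    omegaQ p U hζ (QuotientGroup.mk g) = cycloChar p g := rfl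

/-- the archimedean term of an inflated module. -/
theorem archTerm_infl {k G₀ : Type} [Field k] [Group G₀] (U : Subgroup G₀) [U.Normal]
    {V : Type} [AddCommGroup V] [Module k V] (ρ : Representation k (G₀ ⧸ U) V) (c : G₀) :
    archTerm c (infl U ρ) = archTerm (QuotientGroup.mk c : G₀ ⧸ U) (Rep.of ρ) := rfl

/-- **(P10) the archimedean side**, helper4's literal (board 778). -/
theorem arch_side (p : ℕ) [Fact p.Prime] (hp2 : p ≠ 2) (T : Finset Nat.Primes) (U : Subgroup Γ)
    [U.Normal] (hU : U ∈ (LevelBridge13.globalBasis T).sets)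
    (hζ : ∀ u ∈ U, u (zeta p) = zeta p) (C : Subgroup (Γ ⧸ U)) [Fintype C]
    [Invertible (Fintype.card C : ZMod p)] (N : Type) [AddCommGroup N] [Module (ZMod p) N]
    [Finite N] (σ : Representation (ZMod p) ↥C N) :
    ∃ ω : (Γ ⧸ U) →* (ZMod p)ˣ, (∀ g : Γ, ω (QuotientGroup.mk g) = cycloChar p g) ∧
      ChiArch4.archTerm complexConjugation
        (scoind (k := ZMod p) (InflCoind4.pre U C).subtype (LevelBridge13.globalBasis T)
          (InflCoind4.inflSub U C σ)) =
      (MuP4.muP (MackeyArch0.dualTw ω C σ) (funPerm (ZMod p) ↥C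
        ((Γ ⧸ U) ⧸ Subgroup.zpowers (QuotientGroup.mk complexConjugation : Γ ⧸ U))) : ℤ) := by
  have : U.FiniteIndex := (LevelBridge13.globalBasis T).isBasis.finiteIndex U hU
  have : Finite (Γ ⧸ U) := Subgroup.finite_quotient_of_finiteIndex
  refine ⟨omegaQ p U hζ, fun g => omegaQ_mk p U hζ g, ?_⟩
  have hbij := toScoind_bijective (LevelBridge13.globalBasis T) U C σ hU
  have heq := toScoind_equivariant (LevelBridge13.globalBasis T) U C σ hU
  rw [← archTerm_congr (c := complexConjugation)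
    (toScoind (LevelBridge13.globalBasis T) U C σ hU) heq hbij, archTerm_infl]
  have hcc : (QuotientGroup.mk complexConjugation : Γ ⧸ U) * QuotientGroup.mk complexConjugation
      = 1 := by
    rw [← QuotientGroup.mk_mul]
    rw [complexConjugation_mul_self, QuotientGroup.mk_one]
  have hω : omegaQ p U hζ (QuotientGroup.mk complexConjugation) = -1 := by
    rw [omegaQ_mk]
    exact QuotGal0.cycloChar_complexConjugation p
  exact MackeyArch0.mackey_archTerm_lit p hp2 (omegaQ p U hζ) _ hcc hω C N σ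

end Fermat.Agent.W56.ArchSide5
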