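import Mathlib

/-!
# Programme W56, item (EC-3): modular Artin induction, part A

Additive functions on finite `F_p[G]`-modules: the structure `AddFun`, and its first consequences
(value zero on the zero module, additivity on invariant submodules / quotients, on kernel and
range of an equivariant map, on binary products).
-/

namespace Fermat.Agent.W56.ArtinInd0

open Representation

/-- An additive function on the `F_p`-representations of `G` (only its values on finite modules are
constrained by additivity): invariant under equivariant isomorphisms and additive on equivariant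
short exact sequences of finite modules. -/
structure AddFun (p : ℕ) (G : Type) [Group G] where
  /-- the function -/
  toFun : ∀ (V : Type) [AddCommGroup V] [Module (ZMod p) V], Representation (ZMod p) G V → ℤ
  /-- invariance under isomorphism -/
  iso' : ∀ (V V' : Type) [AddCommGroup V] [Module (ZMod p) V] [AddCommGroup V']
    [Module (ZMod p) V'] (ρ : Representation (ZMod p) G V) (ρ' : Representation (ZMod p) G V')
    (e : V ≃ₗ[ZMod p] V'), (∀ g v, e (ρ g v) = ρ' g (e v)) → toFun V ρ = toFun V' ρ'
  /-- additivity on short exact sequences of finite modules -/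
  add' : ∀ (A B C : Type) [AddCommGroup A] [Module (ZMod p) A] [AddCommGroup B]
    [Module (ZMod p) B] [AddCommGroup C] [Module (ZMod p) C] [Finite A] [Finite B] [Finite C]
    (ρA : Representation (ZMod p) G A) (ρB : Representation (ZMod p) G B)
    (ρC : Representation (ZMod p) G C) (φ : A →ₗ[ZMod p] B) (ψ : B →ₗ[ZMod p] C),
    (∀ g a, φ (ρA g a) = ρB g (φ a)) → (∀ g b, ψ (ρB g b) = ρC g (ψ b)) →
    Function.Injective φ → Function.Surjective ψ → (∀ b, ψ b = 0 ↔ ∃ a, φ a = b) →
    toFun B ρB = toFun A ρA + toFun C ρC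

namespace AddFun

variable {p : ℕ} {G : Type} [Group G] (f : AddFun p G)

/-- The value of an additive function, with the carrier implicit. -/
abbrev val {V : Type} [AddCommGroup V] [Module (ZMod p) V] (ρ : Representation (ZMod p) G V) : ℤ :=
  f.toFun V ρ

theorem iso {V V' : Type} [AddCommGroup V] [Module (ZMod p) V] [AddCommGroup V']
    [Module (ZMod p) V'] {ρ : Representation (ZMod p) G V} {ρ' : Representation (ZMod p) G V'}
    (e : V ≃ₗ[ZMod p] V') (he : ∀ g v, e (ρ g v) = ρ' g (e v)) : f.val ρ = f.val ρ' :=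
  f.iso' V V' ρ ρ' e he

theorem add {A B C : Type} [AddCommGroup A] [Module (ZMod p) A] [AddCommGroup B]
    [Module (ZMod p) B] [AddCommGroup C] [Module (ZMod p) C] [Finite A] [Finite B] [Finite C]
    {ρA : Representation (ZMod p) G A} {ρB : Representation (ZMod p) G B}
    {ρC : Representation (ZMod p) G C} (φ : A →ₗ[ZMod p] B) (ψ : B →ₗ[ZMod p] C)
    (hφ : ∀ g a, φ (ρA g a) = ρB g (φ a)) (hψ : ∀ g b, ψ (ρB g b) = ρC g (ψ b))
    (hi : Function.Injective φ) (hs : Function.Surjective ψ)
    (hex : ∀ b, ψ b = 0 ↔ ∃ a, φ a = b) : f.val ρB = f.val ρA + f.val ρC :=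
  f.add' A B C ρA ρB ρC φ ψ hφ hψ hi hs hex

/-- An additive function vanishes on the zero module. -/
theorem eq_zero_of_subsingleton {V : Type} [AddCommGroup V] [Module (ZMod p) V] [Subsingleton V]
    (ρ : Representation (ZMod p) G V) : f.val ρ = 0 := by
  have h := f.add (ρA := ρ) (ρB := ρ) (ρC := ρ) LinearMap.id (0 : V →ₗ[ZMod p] V)
    (fun _ _ => rfl) (fun g b => by simp) Function.injective_id
    (fun c => ⟨0, Subsingleton.elim _ _⟩) (fun b => ⟨fun _ => ⟨b, rfl⟩, fun _ => rfl⟩)
  linarith

/-- Additivity on an invariant submodule and the quotient by it. -/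
theorem sub_add_quot {V : Type} [AddCommGroup V] [Module (ZMod p) V] [Finite V]
    (ρ : Representation (ZMod p) G V) (W : Submodule (ZMod p) V)
    (hW : ∀ g, W ≤ W.comap (ρ g)) :
    f.val ρ = f.val (ρ.subrepresentation W hW) + f.val (ρ.quotient W hW) := by
  have : Finite (V ⧸ W) := Finite.of_surjective _ W.mkQ_surjective
  refine f.add W.subtype W.mkQ (fun g a => rfl) (fun g b => rfl) W.injective_subtype
    W.mkQ_surjective (fun b => ?_)
  rw [Submodule.mkQ_apply, Submodule.Quotient.mk_eq_zero]
  exact ⟨fun h => ⟨⟨b, h⟩, rfl⟩, fun ⟨a, ha⟩ => ha ▸ a.2⟩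

/-- Additivity on kernel and range of an equivariant map. -/
theorem ker_add_range {B C : Type} [AddCommGroup B] [Module (ZMod p) B] [AddCommGroup C]
    [Module (ZMod p) C] [Finite B] [Finite C] (ρB : Representation (ZMod p) G B)
    (ρC : Representation (ZMod p) G C) (ψ : B →ₗ[ZMod p] C)
    (hψ : ∀ g b, ψ (ρB g b) = ρC g (ψ b))
    (hk : ∀ g, LinearMap.ker ψ ≤ (LinearMap.ker ψ).comap (ρB g))
    (hr : ∀ g, LinearMap.range ψ ≤ (LinearMap.range ψ).comap (ρC g)) :
    f.val ρB = f.val (ρB.subrepresentation (LinearMap.ker ψ) hk) +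
      f.val (ρC.subrepresentation (LinearMap.range ψ) hr) := by
  refine f.add (LinearMap.ker ψ).subtype ψ.rangeRestrict (fun g a => rfl)
    (fun g b => Subtype.ext (hψ g b)) (LinearMap.ker ψ).injective_subtype
    ψ.surjective_rangeRestrict (fun b => ?_)
  constructor
  · intro h
    exact ⟨⟨b, by simpa using congrArg Subtype.val h⟩, rfl⟩
  · rintro ⟨a, rfl⟩
    exact Subtype.ext a.2

theorem ker_le_comap {B C : Type} [AddCommGroup B] [Module (ZMod p) B] [AddCommGroup C]
    [Module (ZMod p) C] (ρB : Representation (ZMod p) G B)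
    (ρC : Representation (ZMod p) G C) (ψ : B →ₗ[ZMod p] C)
    (hψ : ∀ g b, ψ (ρB g b) = ρC g (ψ b)) (g : G) :
    LinearMap.ker ψ ≤ (LinearMap.ker ψ).comap (ρB g) := by
  intro b hb
  rw [Submodule.mem_comap, LinearMap.mem_ker, hψ, LinearMap.mem_ker.1 hb, map_zero]

theorem range_le_comap {B C : Type} [AddCommGroup B] [Module (ZMod p) B] [AddCommGroup C]
    [Module (ZMod p) C] (ρB : Representation (ZMod p) G B)
    (ρC : Representation (ZMod p) G C) (ψ : B →ₗ[ZMod p] C)
    (hψ : ∀ g b, ψ (ρB g b) = ρC g (ψ b)) (g : G) :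
    LinearMap.range ψ ≤ (LinearMap.range ψ).comap (ρC g) := by
  rintro _ ⟨b, rfl⟩
  exact ⟨ρB g b, hψ g b⟩

/-- Equal invariant submodules have the same value. -/
theorem val_subrepresentation_congr {V : Type} [AddCommGroup V] [Module (ZMod p) V]
    (ρ : Representation (ZMod p) G V) {W W' : Submodule (ZMod p) V} (h : W = W')
    (hW : ∀ g, W ≤ W.comap (ρ g)) (hW' : ∀ g, W' ≤ W'.comap (ρ g)) :
    f.val (ρ.subrepresentation W hW) = f.val (ρ.subrepresentation W' hW') := by
  subst h
  rfl

/-- Additivity on binary products. -/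
theorem val_prod {A C : Type} [AddCommGroup A] [Module (ZMod p) A] [AddCommGroup C]
    [Module (ZMod p) C] [Finite A] [Finite C] (ρA : Representation (ZMod p) G A)
    (ρC : Representation (ZMod p) G C) : f.val (ρA.prod ρC) = f.val ρA + f.val ρC := by
  refine f.add (LinearMap.inl (ZMod p) A C) (LinearMap.snd (ZMod p) A C) (fun g a => ?_)
    (fun g b => ?_) LinearMap.inl_injective LinearMap.snd_surjective (fun b => ?_)
  · simp [Representation.prod]
  · simp [Representation.prod]
  · constructor
    · intro h
      exact ⟨b.1, Prod.ext rfl (by simpa using h.symm)⟩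
    · rintro ⟨a, rfl⟩
      simp

end AddFun

end Fermat.Agent.W56.ArtinInd0
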