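import Fermat.Agent.W56.ArtinInd0A

/-!
# Programme W56, item (EC-3): modular Artin induction, part B

Reduction mod `p` of `ℤ[G]`-lattices (`ModP`, `ModP.rep`) and the lattice lemma: if `L`, `L'` are
`p`-torsion-free finitely generated `ℤ[G]`-modules and `f : L → L'`, `g : L' → L` are equivariant
with `f ∘ g = m`, `g ∘ f = m`, `m ≠ 0`, then every additive function takes the same value on
`L/pL` and `L'/pL'` (`AddFun.val_modP_eq`).
-/

namespace Fermat.Agent.W56.ArtinInd0

open Representation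

section ModP

variable (p : ℕ)

/-- The subgroup `pL` of an abelian group `L`. -/
def pMul (L : Type) [AddCommGroup L] : AddSubgroup L :=
  (zsmulAddGroupHom (p : ℤ) : L →+ L).range

theorem mem_pMul {L : Type} [AddCommGroup L] {x : L} : x ∈ pMul p L ↔ ∃ y : L, (p : ℤ) • y = x :=
  Iff.rfl

/-- `L / pL`. -/
def ModP (L : Type) [AddCommGroup L] : Type := L ⧸ pMul p L

instance ModP.instAddCommGroup (L : Type) [AddCommGroup L] : AddCommGroup (ModP p L) :=
  inferInstanceAs (AddCommGroup (L ⧸ pMul p L))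

/-- The projection `L → L/pL`. -/
def ModP.mk {L : Type} [AddCommGroup L] : L →+ ModP p L := QuotientAddGroup.mk' (pMul p L)

theorem ModP.mk_surjective {L : Type} [AddCommGroup L] : Function.Surjective (ModP.mk p (L := L)) :=
  QuotientAddGroup.mk'_surjective _

theorem ModP.mk_eq_zero_iff {L : Type} [AddCommGroup L] {x : L} :
    ModP.mk p x = 0 ↔ ∃ y : L, (p : ℤ) • y = x :=
  (QuotientAddGroup.eq_zero_iff x).trans (mem_pMul p)

theorem ModP.nsmul_eq_zero {L : Type} [AddCommGroup L] (x : ModP p L) : p • x = 0 := by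
  obtain ⟨x, rfl⟩ := ModP.mk_surjective p x
  rw [← map_nsmul, ModP.mk_eq_zero_iff]
  exact ⟨x, by simp⟩

set_option warn.classDefReducibility false in
/-- The `F_p`-module structure of `L/pL` (a plain definition, so that it never unfolds). -/
noncomputable def ModP.module (L : Type) [AddCommGroup L] : Module (ZMod p) (ModP p L) :=
  AddCommGroup.zmodModule (ModP.nsmul_eq_zero p)

noncomputable instance ModP.instModule (L : Type) [AddCommGroup L] : Module (ZMod p) (ModP p L) :=
  ModP.module p L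

/-- The additive map induced on `L/pL`. -/
def ModP.mapAdd {L L' : Type} [AddCommGroup L] [AddCommGroup L'] (f : L →+ L') :
    ModP p L →+ ModP p L' :=
  QuotientAddGroup.map (pMul p L) (pMul p L') f (by
    rintro _ ⟨y, rfl⟩
    exact ⟨f y, by simp⟩)

/-- The map induced on `L/pL`. -/
noncomputable def ModP.map {L L' : Type} [AddCommGroup L] [AddCommGroup L'] (f : L →+ L') :
    ModP p L →ₗ[ZMod p] ModP p L' :=
  (ModP.mapAdd p f).toZModLinearMap p

@[simp]
theorem ModP.map_mk {L L' : Type} [AddCommGroup L] [AddCommGroup L'] (f : L →+ L') (x : L) :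
    ModP.map p f (ModP.mk p x) = ModP.mk p (f x) := rfl

theorem ModP.linearMap_ext {L W : Type} [AddCommGroup L] [AddCommGroup W] [Module (ZMod p) W]
    {a b : ModP p L →ₗ[ZMod p] W} (h : ∀ x : L, a (ModP.mk p x) = b (ModP.mk p x)) : a = b :=
  LinearMap.ext fun x => by
    obtain ⟨x, rfl⟩ := ModP.mk_surjective p x
    exact h x

/-- The reduction mod `p` of a representation on an abelian group. -/
noncomputable def ModP.rep {G : Type} [Group G] {L : Type} [AddCommGroup L]
    (ρ : Representation ℤ G L) : Representation (ZMod p) G (ModP p L) where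
  toFun g := ModP.map p (ρ g).toAddMonoidHom
  map_one' := ModP.linearMap_ext p fun x => by simp
  map_mul' g h := ModP.linearMap_ext p fun x => by simp

@[simp]
theorem ModP.rep_mk {G : Type} [Group G] {L : Type} [AddCommGroup L]
    (ρ : Representation ℤ G L) (g : G) (x : L) :
    ModP.rep p ρ g (ModP.mk p x) = ModP.mk p (ρ g x) := rfl

instance ModP.finite [NeZero p] (L : Type) [AddCommGroup L] [Module.Finite ℤ L] :
    Finite (ModP p L) := by
  have : AddGroup.FG L := Module.Finite.iff_addGroup_fg.1 inferInstance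
  have : AddGroup.FG (ModP p L) := AddGroup.fg_of_surjective (ModP.mk_surjective p)
  refine AddCommGroup.finite_of_fg_isAddTorsion (ModP p L) (fun x => ?_)
  exact isOfFinAddOrder_iff_nsmul_eq_zero.2 ⟨p, Nat.pos_of_ne_zero (NeZero.ne p),
    ModP.nsmul_eq_zero p x⟩

end ModP

section Step

variable {p : ℕ} {G : Type} [Group G]

/-- Exactness of the 2-periodic complex `A/p → B/p → A/p` attached to `u ∘ v = p`, `v ∘ u = p`. -/
theorem ker_map_eq_range_map {A B : Type} [AddCommGroup A] [AddCommGroup B]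
    (hA : ∀ x : A, (p : ℤ) • x = 0 → x = 0)
    (u : A →+ B) (v : B →+ A) (huv : ∀ x, u (v x) = (p : ℤ) • x)
    (hvu : ∀ x, v (u x) = (p : ℤ) • x) :
    LinearMap.ker (ModP.map p u) = LinearMap.range (ModP.map p v) := by
  have hinj : Function.Injective u := by
    intro a a' h
    have h1 : (p : ℤ) • (a - a') = 0 := by
      rw [smul_sub, ← hvu, ← hvu, h, sub_self]
    exact sub_eq_zero.1 (hA _ h1)
  ext x
  obtain ⟨a, rfl⟩ := ModP.mk_surjective p x
  rw [LinearMap.mem_ker, ModP.map_mk, ModP.mk_eq_zero_iff, LinearMap.mem_range]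
  constructor
  · rintro ⟨b, hb⟩
    refine ⟨ModP.mk p b, ?_⟩
    rw [ModP.map_mk]
    congr 1
    apply hinj
    rw [huv, hb]
  · rintro ⟨y, hy⟩
    obtain ⟨b, rfl⟩ := ModP.mk_surjective p y
    rw [ModP.map_mk] at hy
    have h2 : ModP.mk p (u (v b)) = ModP.mk p (u a) := by
      have := congrArg (ModP.map p u) hy
      simpa using this
    have h3 : ModP.mk p (u a) = 0 := by
      rw [← h2, huv, ModP.mk_eq_zero_iff]
      exact ⟨b, rfl⟩
    exact (ModP.mk_eq_zero_iff p).1 h3

theorem ModP.map_rep {A B : Type} [AddCommGroup A] [AddCommGroup B]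
    (ρ : Representation ℤ G A) (ρ' : Representation ℤ G B) (u : A →+ B)
    (hu : ∀ s x, u (ρ s x) = ρ' s (u x)) (s : G) (x : ModP p A) :
    ModP.map p u (ModP.rep p ρ s x) = ModP.rep p ρ' s (ModP.map p u x) := by
  obtain ⟨a, rfl⟩ := ModP.mk_surjective p x
  simp [hu]

variable [NeZero p] (ψ : AddFun p G)

/-- The elementary step of the lattice lemma. -/
theorem AddFun.val_modP_eq_of_mul_eq_p {A B : Type} [AddCommGroup A] [AddCommGroup B]
    [Module.Finite ℤ A] [Module.Finite ℤ B]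
    (hA : ∀ x : A, (p : ℤ) • x = 0 → x = 0) (hB : ∀ x : B, (p : ℤ) • x = 0 → x = 0)
    (ρ : Representation ℤ G A) (ρ' : Representation ℤ G B) (u : A →+ B) (v : B →+ A)
    (hu : ∀ s x, u (ρ s x) = ρ' s (u x)) (hv : ∀ s x, v (ρ' s x) = ρ s (v x))
    (huv : ∀ x, u (v x) = (p : ℤ) • x) (hvu : ∀ x, v (u x) = (p : ℤ) • x) :
    ψ.val (ModP.rep p ρ) = ψ.val (ModP.rep p ρ') := by
  have hub := ModP.map_rep (p := p) ρ ρ' u hu
  have hvb := ModP.map_rep (p := p) ρ' ρ v hv
  have e1 := ker_map_eq_range_map hA u v huv hvu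
  have e2 := ker_map_eq_range_map hB v u hvu huv
  rw [ψ.ker_add_range (ModP.rep p ρ) (ModP.rep p ρ') (ModP.map p u) hub
      (AddFun.ker_le_comap _ _ _ hub) (AddFun.range_le_comap _ _ _ hub),
    ψ.ker_add_range (ModP.rep p ρ') (ModP.rep p ρ) (ModP.map p v) hvb
      (AddFun.ker_le_comap _ _ _ hvb) (AddFun.range_le_comap _ _ _ hvb),
    ψ.val_subrepresentation_congr (ModP.rep p ρ) e1 _ (AddFun.range_le_comap _ _ _ hvb),
    ψ.val_subrepresentation_congr (ModP.rep p ρ') e2 _ (AddFun.range_le_comap _ _ _ hub)]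
  exact add_comm _ _

end Step

section Lattice

variable {p : ℕ} [hp : Fact p.Prime] {G : Type} [Group G] (ψ : AddFun p G)

/-- The case `p ∤ m` of the lattice lemma: the reductions are isomorphic. -/
theorem AddFun.val_modP_eq_of_coprime {L L' : Type} [AddCommGroup L] [AddCommGroup L']
    (ρ : Representation ℤ G L) (ρ' : Representation ℤ G L') (f : L →ₗ[ℤ] L') (g : L' →ₗ[ℤ] L)
    (hf : ∀ s x, f (ρ s x) = ρ' s (f x)) (m : ℤ) (hm : ¬ (p : ℤ) ∣ m)
    (hfg : ∀ x, f (g x) = m • x) (hgf : ∀ x, g (f x) = m • x) :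
    ψ.val (ModP.rep p ρ) = ψ.val (ModP.rep p ρ') := by
  have hpp : Prime (p : ℤ) := Nat.prime_iff_prime_int.1 hp.out
  obtain ⟨a, b, hab⟩ : IsCoprime (p : ℤ) m := (Prime.coprime_iff_not_dvd hpp).2 hm
  have hinj : Function.Injective (ModP.map p f.toAddMonoidHom) := by
    rw [injective_iff_map_eq_zero]
    intro x hx
    obtain ⟨l, rfl⟩ := ModP.mk_surjective p x
    rw [ModP.map_mk, ModP.mk_eq_zero_iff] at hx
    obtain ⟨y, hy⟩ := hx
    rw [ModP.mk_eq_zero_iff]
    refine ⟨a • l + b • g y, ?_⟩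
    have h1 : g ((p : ℤ) • y) = m • l := by
      rw [hy]
      exact hgf l
    calc (p : ℤ) • (a • l + b • g y) = (a * p) • l + b • g ((p : ℤ) • y) := by
          rw [smul_add, smul_smul, smul_comm, map_smul, mul_comm]
      _ = (a * p + b * m) • l := by rw [h1, smul_smul, add_smul]
      _ = l := by rw [hab, one_smul]
  have hsurj : Function.Surjective (ModP.map p f.toAddMonoidHom) := by
    intro y
    obtain ⟨l', rfl⟩ := ModP.mk_surjective p y
    refine ⟨ModP.mk p (b • g l'), ?_⟩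
    rw [ModP.map_mk]
    have h1 : l' - f (b • g l') = (p : ℤ) • (a • l') := by
      have : f (b • g l') = (b * m) • l' := by rw [map_smul, hfg, smul_smul]
      rw [this, smul_smul, mul_comm (p : ℤ) a]
      nth_rewrite 1 [← one_smul ℤ l']
      rw [← hab, add_smul, add_sub_cancel_right]
    have h2 : ModP.mk p (l' - f (b • g l')) = 0 := (ModP.mk_eq_zero_iff p).2 ⟨_, h1.symm⟩
    rw [map_sub, sub_eq_zero] at h2
    exact h2.symm
  exact ψ.iso (LinearEquiv.ofBijective (ModP.map p f.toAddMonoidHom) ⟨hinj, hsurj⟩)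
    (fun s x => ModP.map_rep ρ ρ' f.toAddMonoidHom hf s x)

/-- **The lattice lemma**, with the induction variable exposed. -/
theorem AddFun.val_modP_eq_aux (n : ℕ) : ∀ {L L' : Type} [AddCommGroup L] [AddCommGroup L']
    [Module.Finite ℤ L] [Module.Finite ℤ L']
    (_hL : ∀ x : L, (p : ℤ) • x = 0 → x = 0) (_hL' : ∀ x : L', (p : ℤ) • x = 0 → x = 0)
    (ρ : Representation ℤ G L) (ρ' : Representation ℤ G L') (f : L →ₗ[ℤ] L') (g : L' →ₗ[ℤ] L)
    (_hf : ∀ s x, f (ρ s x) = ρ' s (f x)) (_hg : ∀ s x, g (ρ' s x) = ρ s (g x))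
    (m : ℤ) (_hmn : m.natAbs = n) (_hm : m ≠ 0) (_hfg : ∀ x, f (g x) = m • x)
    (_hgf : ∀ x, g (f x) = m • x), ψ.val (ModP.rep p ρ) = ψ.val (ModP.rep p ρ') := by
  induction n using Nat.strong_induction_on with
  | _ n ih =>
  intro L L' _ _ _ _ hL hL' ρ ρ' f g hf hg m hmn hm hfg hgf
  by_cases hpm : (p : ℤ) ∣ m
  swap
  · exact ψ.val_modP_eq_of_coprime ρ ρ' f g hf m hpm hfg hgf
  obtain ⟨m', rfl⟩ := hpm
  have hp0 : (p : ℤ) ≠ 0 := by exact_mod_cast hp.out.ne_zero
  have hm' : m' ≠ 0 := fun h => hm (by rw [h, mul_zero])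
  have hlt : m'.natAbs < n := by
    rw [← hmn, Int.natAbs_mul, Int.natAbs_natCast]
    have h1 : 0 < m'.natAbs := Int.natAbs_pos.2 hm'
    have h2 : 2 ≤ p := hp.out.two_le
    nlinarith
  have hcL : ∀ x y : L, (p : ℤ) • x = (p : ℤ) • y → x = y := by
    intro x y h
    exact sub_eq_zero.1 (hL _ (by rw [smul_sub, h, sub_self]))
  have hcL' : ∀ x y : L', (p : ℤ) • x = (p : ℤ) • y → x = y := by
    intro x y h
    exact sub_eq_zero.1 (hL' _ (by rw [smul_sub, h, sub_self]))
  -- the intermediate lattice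
  let P : L' →ₗ[ℤ] L' := LinearMap.lsmul ℤ L' (p : ℤ)
  let Λ : Submodule ℤ L' := LinearMap.range f ⊔ LinearMap.range P
  have hΛ : ∀ s, Λ ≤ Λ.comap (ρ' s) := by
    intro s x hx
    obtain ⟨y, ⟨l, rfl⟩, z, ⟨w, rfl⟩, rfl⟩ := Submodule.mem_sup.1 hx
    rw [Submodule.mem_comap, map_add]
    refine Submodule.add_mem _ (Submodule.mem_sup_left ⟨ρ s l, hf s l⟩)
      (Submodule.mem_sup_right ⟨ρ' s w, ?_⟩)
    simp [P]
  have hΛtf : ∀ x : Λ, (p : ℤ) • x = 0 → x = 0 := by
    intro x hx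
    apply Subtype.ext
    apply hL'
    simpa using congrArg Subtype.val hx
  -- the elementary step `Λ ⊆ L'`
  let v : L' →ₗ[ℤ] Λ := P.codRestrict Λ (fun x => Submodule.mem_sup_right ⟨x, rfl⟩)
  have step1 : ψ.val (ModP.rep p (ρ'.subrepresentation Λ hΛ)) = ψ.val (ModP.rep p ρ') := by
    refine ψ.val_modP_eq_of_mul_eq_p hΛtf hL' _ _ Λ.subtype.toAddMonoidHom v.toAddMonoidHom
      (fun s x => rfl) (fun s x => ?_) (fun x => rfl) (fun x => ?_)
    · apply Subtype.ext
      simp [v, P]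
    · apply Subtype.ext
      simp [v, P]
  -- division of `g` by `p` on `Λ`
  let Q : L →ₗ[ℤ] L := LinearMap.lsmul ℤ L (p : ℤ)
  have hQinj : Function.Injective Q := by
    rw [injective_iff_map_eq_zero]
    intro x hx
    exact hL x hx
  have hgΛ : ∀ x : Λ, g x ∈ LinearMap.range Q := by
    rintro ⟨x, hx⟩
    obtain ⟨y, ⟨l, rfl⟩, z, ⟨w, rfl⟩, rfl⟩ := Submodule.mem_sup.1 hx
    refine ⟨m' • l + g w, ?_⟩
    simp only [Q, P, LinearMap.lsmul_apply, map_add, smul_smul, hgf, map_smul, mul_comm]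
  let g₁ : Λ →ₗ[ℤ] L := (LinearEquiv.ofInjective Q hQinj).symm.toLinearMap ∘ₗ
    (g ∘ₗ Λ.subtype).codRestrict (LinearMap.range Q) hgΛ
  have hg₁ : ∀ x : Λ, (p : ℤ) • g₁ x = g x := by
    intro x
    have h1 : ((LinearEquiv.ofInjective Q hQinj) (g₁ x) : L) = g x := by
      simp only [g₁, LinearMap.coe_comp, LinearEquiv.coe_coe, Function.comp_apply,
        LinearEquiv.apply_symm_apply, LinearMap.codRestrict_apply, Submodule.coe_subtype]
    rwa [LinearEquiv.ofInjective_apply] at h1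
  let f₁ : L →ₗ[ℤ] Λ := f.codRestrict Λ (fun x => Submodule.mem_sup_left ⟨x, rfl⟩)
  have step2 : ψ.val (ModP.rep p ρ) = ψ.val (ModP.rep p (ρ'.subrepresentation Λ hΛ)) := by
    refine ih m'.natAbs hlt hL hΛtf ρ (ρ'.subrepresentation Λ hΛ) f₁ g₁ (fun s x => ?_)
      (fun s x => ?_) m' rfl hm' (fun x => ?_) (fun x => ?_)
    · apply Subtype.ext
      simp [f₁, hf]
    · apply hcL
      rw [hg₁, ← map_smul, hg₁]
      exact hg s x
    · apply Subtype.ext
      apply hcL'
      change (p : ℤ) • f (g₁ x) = (p : ℤ) • (m' • x).1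
      rw [← map_smul, hg₁, hfg, mul_smul]
      rfl
    · apply hcL
      rw [hg₁]
      change g (f x) = _
      rw [hgf, mul_smul]
  exact step2.trans step1

/-- **The lattice lemma**: two `p`-torsion-free finitely generated `ℤ[G]`-modules which become
isomorphic after inverting an integer `m ≠ 0` have reductions mod `p` with the same value under
every additive function. -/
theorem AddFun.val_modP_eq {L L' : Type} [AddCommGroup L] [AddCommGroup L']
    [Module.Finite ℤ L] [Module.Finite ℤ L']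
    (hL : ∀ x : L, (p : ℤ) • x = 0 → x = 0) (hL' : ∀ x : L', (p : ℤ) • x = 0 → x = 0)
    (ρ : Representation ℤ G L) (ρ' : Representation ℤ G L') (f : L →ₗ[ℤ] L') (g : L' →ₗ[ℤ] L)
    (hf : ∀ s x, f (ρ s x) = ρ' s (f x)) (hg : ∀ s x, g (ρ' s x) = ρ s (g x))
    (m : ℤ) (hm : m ≠ 0) (hfg : ∀ x, f (g x) = m • x) (hgf : ∀ x, g (f x) = m • x) :
    ψ.val (ModP.rep p ρ) = ψ.val (ModP.rep p ρ') :=
  ψ.val_modP_eq_aux m.natAbs hL hL' ρ ρ' f g hf hg m rfl hm hfg hgf

end Lattice

end Fermat.Agent.W56.ArtinInd0
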