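import Mathlib

/-!
# Programme W56, item (EC-3): modular Artin induction, part C

Over a field of characteristic zero, two finite-dimensional representations of a finite group with
the same character are isomorphic (`repIso_of_character_eq`).  The proof avoids simple modules:
a non-zero intertwining map `φ : V → W` exists (its space has dimension `⟨χ_V, χ_W⟩ = ⟨χ_V, χ_V⟩ ≥ 1`),
`V = ker φ ⊕ K'`, `W = im φ ⊕ W'` by Maschke, `K' ≅ im φ`, and `ker φ`, `W'` have the same character
and smaller dimension.
-/

namespace Fermat.Agent.W56.ArtinInd0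

open Representation

section RepIso

variable {k : Type*} [Field k] {G : Type*} [Group G]

/-- Two representations are isomorphic. -/
def RepIso {V W : Type*} [AddCommGroup V] [Module k V] [AddCommGroup W] [Module k W]
    (ρ : Representation k G V) (σ : Representation k G W) : Prop :=
  ∃ e : V ≃ₗ[k] W, ∀ g v, e (ρ g v) = σ g (e v)

variable {V W U V' W' : Type*} [AddCommGroup V] [Module k V] [AddCommGroup W] [Module k W]
  [AddCommGroup U] [Module k U] [AddCommGroup V'] [Module k V'] [AddCommGroup W'] [Module k W']
  {ρ : Representation k G V} {σ : Representation k G W} {τ : Representation k G U}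
  {ρ' : Representation k G V'} {σ' : Representation k G W'}

theorem RepIso.refl (ρ : Representation k G V) : RepIso ρ ρ :=
  ⟨LinearEquiv.refl k V, fun _ _ => rfl⟩

theorem RepIso.symm (h : RepIso ρ σ) : RepIso σ ρ := by
  obtain ⟨e, he⟩ := h
  refine ⟨e.symm, fun g w => ?_⟩
  apply e.injective
  rw [he, e.apply_symm_apply, e.apply_symm_apply]

theorem RepIso.trans (h : RepIso ρ σ) (h' : RepIso σ τ) : RepIso ρ τ := by
  obtain ⟨e, he⟩ := h
  obtain ⟨e', he'⟩ := h'
  exact ⟨e.trans e', fun g v => by simp [he, he']⟩

theorem RepIso.prod (h : RepIso ρ σ) (h' : RepIso ρ' σ') : RepIso (ρ.prod ρ') (σ.prod σ') := by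
  obtain ⟨e, he⟩ := h
  obtain ⟨e', he'⟩ := h'
  exact ⟨e.prodCongr e', fun g v => by simp [Representation.prod, he, he']⟩

theorem RepIso.character_eq [FiniteDimensional k V] [FiniteDimensional k W] (h : RepIso ρ σ) :
    ρ.character = σ.character := by
  obtain ⟨e, he⟩ := h
  exact char_iso (Representation.Equiv.mk e (fun g => LinearMap.ext fun v => he g v))

theorem character_prod [FiniteDimensional k V] [FiniteDimensional k W]
    (ρ : Representation k G V) (σ : Representation k G W) (g : G) :
    (ρ.prod σ).character g = ρ.character g + σ.character g := by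
  simp [character, Representation.prod, LinearMap.trace_prodMap']

/-- A representation is the product of two complementary invariant subspaces. -/
theorem repIso_prod_of_isCompl (ρ : Representation k G V) (W₁ W₂ : Submodule k V)
    (h₁ : ∀ g, W₁ ≤ W₁.comap (ρ g)) (h₂ : ∀ g, W₂ ≤ W₂.comap (ρ g)) (h : IsCompl W₁ W₂) :
    RepIso ((ρ.subrepresentation W₁ h₁).prod (ρ.subrepresentation W₂ h₂)) ρ :=
  ⟨Submodule.prodEquivOfIsCompl W₁ W₂ h, fun g v => by
    simp [Representation.prod, Submodule.coe_prodEquivOfIsCompl']⟩

end RepIso

section CharZero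

variable {k : Type*} [Field k] [CharZero k] {G : Type*} [Group G] [Finite G]

/-- Maschke: every invariant subspace has an invariant complement. -/
theorem exists_invariant_isCompl {V : Type*} [AddCommGroup V] [Module k V]
    (ρ : Representation k G V) (W₁ : Submodule k V) (h₁ : ∀ g, W₁ ≤ W₁.comap (ρ g)) :
    ∃ W₂ : Submodule k V, (∀ g, W₂ ≤ W₂.comap (ρ g)) ∧ IsCompl W₁ W₂ := by
  have : NeZero (Nat.card G : k) := ⟨Nat.cast_ne_zero.2 Nat.card_pos.ne'⟩
  obtain ⟨S', hS'⟩ := exists_isCompl (⟨W₁, fun g v hv => h₁ g hv⟩ : Subrepresentation ρ)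
  refine ⟨S'.toSubmodule, fun g v hv => S'.apply_mem_toSubmodule g hv, ?_⟩
  constructor
  · rw [disjoint_iff]
    have := congrArg Subrepresentation.toSubmodule (disjoint_iff.1 hS'.disjoint)
    exact this
  · rw [codisjoint_iff]
    have := congrArg Subrepresentation.toSubmodule (codisjoint_iff.1 hS'.codisjoint)
    exact this

/-- If `V ≠ 0` and `V`, `W` have the same character, there is a non-zero intertwining map. -/
theorem exists_intertwiningMap_ne_zero {V W : Type*} [AddCommGroup V] [Module k V]
    [AddCommGroup W] [Module k W] [FiniteDimensional k V] [FiniteDimensional k W] [Nontrivial V]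
    (ρ : Representation k G V) (σ : Representation k G W) (h : ρ.character = σ.character) :
    ∃ φ : IntertwiningMap ρ σ, φ ≠ 0 := by
  classical
  let _ : Fintype G := Fintype.ofFinite G
  let _ : Invertible (Nat.card G : k) := invertibleOfNonzero (Nat.cast_ne_zero.2 Nat.card_pos.ne')
  have e1 := card_inv_mul_sum_char_mul_char_eq_finrank ρ σ
  have e2 := card_inv_mul_sum_char_mul_char_eq_finrank ρ ρ
  rw [← h] at e1
  have e3 : Module.finrank k (IntertwiningMap ρ σ) = Module.finrank k (IntertwiningMap ρ ρ) := by
    have : (Module.finrank k (IntertwiningMap ρ σ) : k) = Module.finrank k (IntertwiningMap ρ ρ) :=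
      e1.symm.trans e2
    exact_mod_cast this
  have e4 : 0 < Module.finrank k (IntertwiningMap ρ ρ) := by
    rw [Module.finrank_pos_iff_exists_ne_zero]
    refine ⟨IntertwiningMap.id ρ, fun h0 => ?_⟩
    obtain ⟨v, hv⟩ := exists_ne (0 : V)
    apply hv
    have := congrArg (fun φ : IntertwiningMap ρ ρ => φ v) h0
    simpa using this
  rw [← e3, Module.finrank_pos_iff_exists_ne_zero] at e4
  exact e4

universe u v

/-- Equal characters imply isomorphic, with the induction variable exposed. -/
theorem repIso_of_character_eq_aux (n : ℕ) : ∀ {V : Type u} {W : Type v} [AddCommGroup V]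
    [Module k V] [AddCommGroup W] [Module k W] [FiniteDimensional k V] [FiniteDimensional k W]
    (ρ : Representation k G V) (σ : Representation k G W), Module.finrank k V = n →
    ρ.character = σ.character → RepIso ρ σ := by
  induction n using Nat.strong_induction_on with
  | _ n ih =>
  intro V W _ _ _ _ _ _ ρ σ hn h
  have hdim : Module.finrank k V = Module.finrank k W := by
    have := congrFun h 1
    rw [char_one, char_one] at this
    exact_mod_cast this
  rcases subsingleton_or_nontrivial V with hV | hV
  · have hW : Module.finrank k W = 0 := by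
      rw [← hdim]
      exact Module.finrank_zero_of_subsingleton
    have : Subsingleton W := Module.finrank_zero_iff.1 hW
    exact ⟨LinearEquiv.ofSubsingleton V W, fun g v => Subsingleton.elim _ _⟩
  · obtain ⟨φ, hφ⟩ := exists_intertwiningMap_ne_zero ρ σ h
    have hφe : ∀ g v, φ (ρ g v) = σ g (φ v) := fun g v =>
      IntertwiningMap.isIntertwining _ _ φ g v
    have hK : ∀ g, LinearMap.ker φ.toLinearMap ≤ (LinearMap.ker φ.toLinearMap).comap (ρ g) := by
      intro g v hv
      rw [Submodule.mem_comap, LinearMap.mem_ker, IntertwiningMap.toLinearMap_apply,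
        hφe g v]
      rw [LinearMap.mem_ker, IntertwiningMap.toLinearMap_apply] at hv
      rw [hv, map_zero]
    have hI : ∀ g, LinearMap.range φ.toLinearMap ≤ (LinearMap.range φ.toLinearMap).comap (σ g) := by
      rintro g _ ⟨v, rfl⟩
      exact ⟨ρ g v, hφe g v⟩
    obtain ⟨K', hK', hKK'⟩ := exists_invariant_isCompl ρ _ hK
    obtain ⟨W', hW', hIW'⟩ := exists_invariant_isCompl σ _ hI
    have e1 := repIso_prod_of_isCompl ρ _ K' hK hK' hKK'
    have e2 := repIso_prod_of_isCompl σ W' _ hW' hI hIW'.symm
    -- `K' ≅ im φ`
    have e3 : RepIso (ρ.subrepresentation K' hK') (σ.subrepresentation _ hI) := by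
      let ψ : K' →ₗ[k] LinearMap.range φ.toLinearMap :=
        (φ.toLinearMap.rangeRestrict).comp K'.subtype
      have hψi : Function.Injective ψ := by
        rw [injective_iff_map_eq_zero]
        intro x hx
        have h1 : φ.toLinearMap x.1 = 0 := congrArg Subtype.val hx
        have h2 : x.1 ∈ LinearMap.ker φ.toLinearMap ⊓ K' := ⟨h1, x.2⟩
        rw [hKK'.inf_eq_bot, Submodule.mem_bot] at h2
        exact Subtype.ext h2
      have hψs : Function.Surjective ψ := by
        rintro ⟨_, v, rfl⟩
        have hv : v ∈ LinearMap.ker φ.toLinearMap ⊔ K' := by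
          rw [hKK'.sup_eq_top]
          trivial
        obtain ⟨a, ha, b, hb, rfl⟩ := Submodule.mem_sup.1 hv
        refine ⟨⟨b, hb⟩, Subtype.ext ?_⟩
        change φ.toLinearMap b = φ.toLinearMap (a + b)
        rw [map_add, LinearMap.mem_ker.1 ha, zero_add]
      refine ⟨LinearEquiv.ofBijective ψ ⟨hψi, hψs⟩, fun g x => Subtype.ext ?_⟩
      exact hφe g x.1
    -- characters
    have hchar : (ρ.subrepresentation _ hK).character = (σ.subrepresentation W' hW').character := by
      funext g
      have c1 := congrFun e1.character_eq g
      have c2 := congrFun e2.character_eq g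
      have c3 := congrFun e3.character_eq g
      rw [character_prod] at c1 c2
      have c4 := congrFun h g
      rw [← c1, ← c2, c3] at c4
      exact add_right_cancel c4
    have hlt : Module.finrank k (LinearMap.ker φ.toLinearMap) < n := by
      rw [← hn]
      apply Submodule.finrank_lt
      intro htop
      apply hφ
      apply IntertwiningMap.ext
      exact LinearMap.ker_eq_top.1 htop
    have e4 := ih _ hlt (ρ.subrepresentation _ hK) (σ.subrepresentation W' hW') rfl hchar
    exact e1.symm.trans ((e4.prod e3).trans e2)

/-- **Equal characters imply isomorphic** (finite group, characteristic zero). -/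
theorem repIso_of_character_eq {V : Type u} {W : Type v} [AddCommGroup V]
    [Module k V] [AddCommGroup W] [Module k W] [FiniteDimensional k V] [FiniteDimensional k W]
    (ρ : Representation k G V) (σ : Representation k G W) (h : ρ.character = σ.character) :
    RepIso ρ σ :=
  repIso_of_character_eq_aux _ ρ σ rfl h

end CharZero

end Fermat.Agent.W56.ArtinInd0
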