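import Fermat.Agent.W56.ArtinInd0B
import Fermat.Agent.W56.ArtinInd0C

/-!
# Programme W56, item (EC-3): modular Artin induction, part D

Permutation modules in the function model (`permFun R G X` on `X → R`), their characters (number
of fixed points), integral intertwining maps between `ℤ^X` and `ℤ^Y` for finite `G`-sets with the
same marks, and the consequence for additive functions: `ψ (F_p^X) = ψ (F_p^Y)`
(`AddFun.val_permFun_eq_of_marks`).
-/

namespace Fermat.Agent.W56.ArtinInd0

open Representation

section PermFun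

variable (R : Type*) [CommSemiring R] (G : Type*) [Group G] (X : Type*) [MulAction G X]

/-- The permutation representation of `G` on the functions `X → R`: `(g • h) x = h (g⁻¹ • x)`. -/
def permFun : Representation R G (X → R) where
  toFun g := LinearMap.funLeft R R (fun x => g⁻¹ • x)
  map_one' := by ext; simp
  map_mul' g h := by ext; simp [mul_smul]

@[simp]
theorem permFun_apply (g : G) (h : X → R) (x : X) : permFun R G X g h x = h (g⁻¹ • x) := rfl

variable {R G X}

theorem permFun_single [DecidableEq X] (g : G) (x : X) (r : R) :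
    permFun R G X g (Pi.single x r) = Pi.single (g • x) r := by
  funext z
  rw [permFun_apply]
  by_cases hz : z = g • x
  · subst hz
    simp
  · rw [Pi.single_eq_of_ne hz, Pi.single_eq_of_ne]
    intro h
    apply hz
    rw [← h, smul_inv_smul]

/-- A `G`-invariant kernel defines an intertwining map of permutation modules. -/
theorem toLin'_permFun {R : Type*} [CommRing R] {Y : Type*} [MulAction G Y] [Fintype X]
    [DecidableEq X] (M : Matrix Y X R) (hM : ∀ (g : G) (x : X) (y : Y), M y (g • x) = M (g⁻¹ • y) x)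
    (g : G) (h : X → R) :
    Matrix.toLin' M (permFun R G X g h) = permFun R G Y g (Matrix.toLin' M h) := by
  funext y
  rw [permFun_apply, Matrix.toLin'_apply, Matrix.toLin'_apply, Matrix.mulVec, Matrix.mulVec,
    dotProduct, dotProduct]
  refine Fintype.sum_equiv (MulAction.toPerm g⁻¹) _ _ (fun x => ?_)
  rw [permFun_apply, MulAction.toPerm_apply, ← hM g (g⁻¹ • x) y, smul_inv_smul]

end PermFun

section Character

variable {k : Type*} [Field k] {G : Type*} [Group G] {X : Type*} [MulAction G X] [Fintype X]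

/-- The character of a permutation module counts fixed points. -/
theorem character_permFun [DecidableEq X] (g : G) :
    (permFun k G X).character g = (Finset.univ.filter (fun x : X => g • x = x)).card := by
  rw [character, LinearMap.trace_eq_matrix_trace k (Pi.basisFun k X),
    LinearMap.toMatrix_eq_toMatrix', Matrix.trace]
  simp only [Matrix.diag_apply, LinearMap.toMatrix'_apply]
  rw [Finset.card_filter, Nat.cast_sum]
  refine Finset.sum_congr rfl (fun x _ => ?_)
  rw [permFun_single, Pi.single_apply]
  by_cases hx : g • x = x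
  · simp [hx]
  · have : ¬ x = g • x := fun h => hx h.symm
    simp [hx, this]

end Character

section Integral

variable {G : Type*} [Group G] [Finite G] {X Y : Type*} [MulAction G X] [MulAction G Y]
  [Fintype X] [Fintype Y] [DecidableEq X] [DecidableEq Y]

omit [DecidableEq X] [DecidableEq Y] in
/-- Clearing denominators in a rational matrix. -/
theorem exists_int_matrix (E : Matrix Y X ℚ) (E' : Matrix X Y ℚ) :
    ∃ (d : ℤ) (F : Matrix Y X ℤ) (F' : Matrix X Y ℤ), d ≠ 0 ∧
      F.map (Int.castRingHom ℚ) = (d : ℚ) • E ∧ F'.map (Int.castRingHom ℚ) = (d : ℚ) • E' := by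
  classical
  let s : Finset ℚ := (Finset.univ.image fun yx : Y × X => E yx.1 yx.2) ∪
    (Finset.univ.image fun xy : X × Y => E' xy.1 xy.2)
  obtain ⟨⟨d, hd⟩, hds⟩ := IsLocalization.exist_integer_multiples_of_finset (nonZeroDivisors ℤ) s
  have h1 : ∀ y x, ∃ z : ℤ, (z : ℚ) = (d : ℚ) * E y x := by
    intro y x
    obtain ⟨z, hz⟩ := hds (E y x) (Finset.mem_union_left _
      (Finset.mem_image.2 ⟨(y, x), Finset.mem_univ _, rfl⟩))
    refine ⟨z, ?_⟩
    simpa [Algebra.smul_def] using hz
  have h2 : ∀ x y, ∃ z : ℤ, (z : ℚ) = (d : ℚ) * E' x y := by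
    intro x y
    obtain ⟨z, hz⟩ := hds (E' x y) (Finset.mem_union_right _
      (Finset.mem_image.2 ⟨(x, y), Finset.mem_univ _, rfl⟩))
    refine ⟨z, ?_⟩
    simpa [Algebra.smul_def] using hz
  choose F hF using h1
  choose F' hF' using h2
  refine ⟨d, Matrix.of F, Matrix.of F', nonZeroDivisors.ne_zero hd, ?_, ?_⟩
  · ext y x
    simp [hF]
  · ext x y
    simp [hF']

/-- Finite `G`-sets with the same marks have permutation lattices which are isomorphic up to an
integer. -/
theorem exists_integral_maps
    (hXY : ∀ g : G, (Finset.univ.filter (fun x : X => g • x = x)).card =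
      (Finset.univ.filter (fun y : Y => g • y = y)).card) :
    ∃ (F : (X → ℤ) →ₗ[ℤ] (Y → ℤ)) (F' : (Y → ℤ) →ₗ[ℤ] (X → ℤ)) (m : ℤ), m ≠ 0 ∧
      (∀ g h, F (permFun ℤ G X g h) = permFun ℤ G Y g (F h)) ∧
      (∀ g h, F' (permFun ℤ G Y g h) = permFun ℤ G X g (F' h)) ∧
      (∀ h, F (F' h) = m • h) ∧ (∀ h, F' (F h) = m • h) := by
  obtain ⟨e, he⟩ := repIso_of_character_eq (permFun ℚ G X) (permFun ℚ G Y)
    (funext fun g => by rw [character_permFun, character_permFun, hXY g])
  have he' : ∀ g w, e.symm (permFun ℚ G Y g w) = permFun ℚ G X g (e.symm w) := by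
    intro g w
    apply e.injective
    rw [he, e.apply_symm_apply, e.apply_symm_apply]
  let E : Matrix Y X ℚ := LinearMap.toMatrix' e.toLinearMap
  let E' : Matrix X Y ℚ := LinearMap.toMatrix' e.symm.toLinearMap
  have hEE' : E * E' = 1 := by
    rw [← LinearMap.toMatrix'_comp, ← LinearMap.toMatrix'_id]
    congr 1
    ext1 w
    simp
  have hE'E : E' * E = 1 := by
    rw [← LinearMap.toMatrix'_comp, ← LinearMap.toMatrix'_id]
    congr 1
    ext1 w
    simp
  have hEinv : ∀ (g : G) (x : X) (y : Y), E y (g • x) = E (g⁻¹ • y) x := by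
    intro g x y
    change LinearMap.toMatrix' e.toLinearMap y (g • x) =
      LinearMap.toMatrix' e.toLinearMap (g⁻¹ • y) x
    rw [LinearMap.toMatrix'_apply, LinearMap.toMatrix'_apply, ← permFun_single]
    exact congrFun (he g _) y
  have hE'inv : ∀ (g : G) (y : Y) (x : X), E' x (g • y) = E' (g⁻¹ • x) y := by
    intro g y x
    change LinearMap.toMatrix' e.symm.toLinearMap x (g • y) =
      LinearMap.toMatrix' e.symm.toLinearMap (g⁻¹ • x) y
    rw [LinearMap.toMatrix'_apply, LinearMap.toMatrix'_apply, ← permFun_single]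
    exact congrFun (he' g _) x
  obtain ⟨d, F, F', hd, hF, hF'⟩ := exists_int_matrix E E'
  have hinj : Function.Injective (Int.castRingHom ℚ) := Int.cast_injective
  have hFinv : ∀ (g : G) (x : X) (y : Y), F y (g • x) = F (g⁻¹ • y) x := by
    intro g x y
    apply hinj
    have h1 := congrFun (congrFun hF y) (g • x)
    have h2 := congrFun (congrFun hF (g⁻¹ • y)) x
    simp only [Matrix.map_apply, Matrix.smul_apply] at h1 h2
    rw [h1, h2, hEinv]
  have hF'inv : ∀ (g : G) (y : Y) (x : X), F' x (g • y) = F' (g⁻¹ • x) y := by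
    intro g y x
    apply hinj
    have h1 := congrFun (congrFun hF' x) (g • y)
    have h2 := congrFun (congrFun hF' (g⁻¹ • x)) y
    simp only [Matrix.map_apply, Matrix.smul_apply] at h1 h2
    rw [h1, h2, hE'inv]
  have hFF' : F * F' = (d * d : ℤ) • (1 : Matrix Y Y ℤ) := by
    apply Matrix.map_injective hinj
    change (F * F').map (Int.castRingHom ℚ) = ((d * d : ℤ) • (1 : Matrix Y Y ℤ)).map (Int.castRingHom ℚ)
    rw [Matrix.map_mul, hF, hF', Matrix.smul_mul, Matrix.mul_smul, hEE']
    ext i j
    simp only [Matrix.map_apply, Matrix.smul_apply, Matrix.one_apply]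
    split_ifs <;> simp
  have hF'F : F' * F = (d * d : ℤ) • (1 : Matrix X X ℤ) := by
    apply Matrix.map_injective hinj
    change (F' * F).map (Int.castRingHom ℚ) = ((d * d : ℤ) • (1 : Matrix X X ℤ)).map (Int.castRingHom ℚ)
    rw [Matrix.map_mul, hF, hF', Matrix.smul_mul, Matrix.mul_smul, hE'E]
    ext i j
    simp only [Matrix.map_apply, Matrix.smul_apply, Matrix.one_apply]
    split_ifs <;> simp
  refine ⟨Matrix.toLin' F, Matrix.toLin' F', d * d, mul_ne_zero hd hd,
    toLin'_permFun F hFinv, toLin'_permFun F' hF'inv, fun h => ?_, fun h => ?_⟩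
  · rw [← LinearMap.comp_apply, ← Matrix.toLin'_mul, hFF', Matrix.toLin'_apply,
      Matrix.smul_mulVec, Matrix.one_mulVec]
  · rw [← LinearMap.comp_apply, ← Matrix.toLin'_mul, hF'F, Matrix.toLin'_apply,
      Matrix.smul_mulVec, Matrix.one_mulVec]

end Integral

section Reduction

variable (p : ℕ) [hp : Fact p.Prime]

/-- A surjection `L → W` with kernel `pL` identifies `L/pL` with `W`. -/
theorem exists_modP_equiv {L W : Type} [AddCommGroup L] [AddCommGroup W] [Module (ZMod p) W]
    (r : L →+ W) (hs : Function.Surjective r) (hk : ∀ x, r x = 0 ↔ ∃ y : L, (p : ℤ) • y = x) :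
    ∃ e : ModP p L ≃ₗ[ZMod p] W, ∀ x, e (ModP.mk p x) = r x := by
  let l : ModP p L →+ W := QuotientAddGroup.lift (pMul p L) r (fun x hx => (hk x).2 hx)
  have hl : ∀ x, l (ModP.mk p x) = r x := fun x => rfl
  have hinj : Function.Injective (l.toZModLinearMap p) := by
    rw [injective_iff_map_eq_zero]
    intro x hx
    obtain ⟨x, rfl⟩ := ModP.mk_surjective p x
    exact (ModP.mk_eq_zero_iff p).2 ((hk x).1 hx)
  have hsurj : Function.Surjective (l.toZModLinearMap p) := by
    intro w
    obtain ⟨x, rfl⟩ := hs w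
    exact ⟨ModP.mk p x, rfl⟩
  exact ⟨LinearEquiv.ofBijective (l.toZModLinearMap p) ⟨hinj, hsurj⟩, hl⟩

variable {G : Type} [Group G] (X : Type) [MulAction G X]

/-- The reduction mod `p` of the permutation lattice `ℤ^X` is `F_p^X`. -/
theorem exists_modP_permFun_equiv :
    ∃ e : ModP p (X → ℤ) ≃ₗ[ZMod p] (X → ZMod p),
      ∀ g v, e (ModP.rep p (permFun ℤ G X) g v) = permFun (ZMod p) G X g (e v) := by
  let r : (X → ℤ) →+ (X → ZMod p) := (Int.castAddHom (ZMod p)).compLeft X
  have hr : ∀ h x, r h x = (h x : ZMod p) := fun h x => rfl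
  have hs : Function.Surjective r := by
    intro w
    choose h hh using fun x => ZMod.intCast_surjective (w x)
    exact ⟨h, funext fun x => (hr h x).trans (hh x)⟩
  have hk : ∀ h, r h = 0 ↔ ∃ y : X → ℤ, (p : ℤ) • y = h := by
    intro h
    constructor
    · intro h0
      have h1 : ∀ x, ∃ z : ℤ, h x = (p : ℤ) * z := by
        intro x
        have := congrFun h0 x
        rw [hr, Pi.zero_apply, ZMod.intCast_zmod_eq_zero_iff_dvd] at this
        exact this
      choose y hy using h1
      exact ⟨y, funext fun x => by simp [hy x]⟩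
    · rintro ⟨y, rfl⟩
      funext x
      rw [hr]
      simp
  obtain ⟨e, he⟩ := exists_modP_equiv p r hs hk
  refine ⟨e, fun g v => ?_⟩
  obtain ⟨h, rfl⟩ := ModP.mk_surjective p v
  rw [ModP.rep_mk, he, he]
  rfl

end Reduction

section Marks

variable {p : ℕ} [hp : Fact p.Prime] {G : Type} [Group G] [Finite G] (ψ : AddFun p G)

/-- Finite `G`-sets with the same marks have permutation modules over `F_p` with the same value
under every additive function. -/
theorem AddFun.val_permFun_eq_of_marks (X Y : Type) [MulAction G X] [MulAction G Y]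
    [Fintype X] [Fintype Y] [DecidableEq X] [DecidableEq Y]
    (hXY : ∀ g : G, (Finset.univ.filter (fun x : X => g • x = x)).card =
      (Finset.univ.filter (fun y : Y => g • y = y)).card) :
    ψ.val (permFun (ZMod p) G X) = ψ.val (permFun (ZMod p) G Y) := by
  obtain ⟨F, F', m, hm, hF, hF', hFF', hF'F⟩ := exists_integral_maps (G := G) hXY
  obtain ⟨eX, heX⟩ := exists_modP_permFun_equiv p (G := G) X
  obtain ⟨eY, heY⟩ := exists_modP_permFun_equiv p (G := G) Y
  have hp0 : (p : ℤ) ≠ 0 := by exact_mod_cast hp.out.ne_zero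
  have htf : ∀ (Z : Type) (x : Z → ℤ), (p : ℤ) • x = 0 → x = 0 := by
    intro Z x hx
    funext z
    have := congrFun hx z
    simpa [hp.out.ne_zero] using this
  rw [← ψ.iso eX heX, ← ψ.iso eY heY]
  exact ψ.val_modP_eq (htf X) (htf Y) _ _ F F' hF hF' m hm hFF' hF'F

end Marks

end Fermat.Agent.W56.ArtinInd0
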