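import Fermat.Agent.W56.ArtinInd0D

/-!
# Programme W56, item (EC-3): modular Artin induction, part E

The marks identity behind Artin's induction theorem (`exists_marks_identity`): there are integers
`c_B`, supported on the cyclic subgroups `B` of the finite group `G`, with
`∑_B c_B · #(G/B)^g = #G` for every `g ∈ G`; proof by Möbius inversion (a recursion) on the poset
of cyclic subgroups.  Consequence for additive functions (`AddFun.exists_artin_relation`):
`#G · ψ(F_p) = ∑_B c_B · ψ(F_p[G/B])`.
-/

namespace Fermat.Agent.W56.ArtinInd0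

open Representation

section Moebius

open scoped Classical in
/-- On a finite partial order with a distinguished subset `S` there is an integer function
supported on `S` whose sums over the upper cones of the elements of `S` are `1`. -/
theorem exists_upper_sum_eq_one (P : Type*) [PartialOrder P] [Fintype P] (S : P → Prop) :
    ∃ b : P → ℤ, (∀ B, ¬ S B → b B = 0) ∧
      ∀ E : P, S E → ∑ B ∈ Finset.univ.filter (fun B => E ≤ B), b B = 1 := by
  have : WellFoundedGT P := inferInstance
  let F : (E : P) → ((B : P) → E < B → ℤ) → ℤ := fun E rec =>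
    if S E then
      1 - ∑ B ∈ (Finset.univ.filter (fun B => E < B)).attach, rec B.1 (Finset.mem_filter.1 B.2).2
    else 0
  let b : P → ℤ := (wellFounded_gt (α := P)).fix F
  have hb : ∀ E, b E = if S E then 1 - ∑ B ∈ Finset.univ.filter (fun B => E < B), b B else 0 := by
    intro E
    have h1 : b E = F E (fun B _ => b B) := (wellFounded_gt (α := P)).fix_eq F E
    rw [h1]
    simp only [F]
    rw [Finset.sum_attach (Finset.univ.filter (fun B => E < B)) b]
  refine ⟨b, fun B hB => by rw [hb B, if_neg hB], fun E hE => ?_⟩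
  have h2 : Finset.univ.filter (fun B => E ≤ B) =
      insert E (Finset.univ.filter (fun B => E < B)) := by
    ext B
    simp only [Finset.mem_filter, Finset.mem_univ, true_and, Finset.mem_insert]
    rw [le_iff_eq_or_lt]
    exact or_congr eq_comm Iff.rfl
  rw [h2, Finset.sum_insert (by simp), hb E, if_pos hE]
  ring

end Moebius

section Cyclic

variable {G : Type*} [Group G] [Fintype (Subgroup G)]

open scoped Classical in
/-- Integer coefficients on the cyclic subgroups of `G` such that, for every `z : G`, the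
coefficients of the subgroups containing `z` add up to `1`. -/
theorem exists_cyclic_coeff : ∃ b : Subgroup G → ℤ, (∀ B : Subgroup G, ¬ IsCyclic B → b B = 0) ∧
    ∀ z : G, ∑ B ∈ Finset.univ.filter (fun B : Subgroup G => z ∈ B), b B = 1 := by
  obtain ⟨b, hb0, hb1⟩ := exists_upper_sum_eq_one (Subgroup G) (fun B : Subgroup G => IsCyclic B)
  refine ⟨b, hb0, fun z => ?_⟩
  rw [← hb1 (Subgroup.zpowers z) (Subgroup.isCyclic_zpowers z)]
  refine Finset.sum_congr ?_ (fun _ _ => rfl)
  ext B
  simp only [Finset.mem_filter, Finset.mem_univ, true_and, Subgroup.zpowers_le]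

end Cyclic

section Sigma

variable {p : ℕ} [NeZero p] {G : Type} [Group G] (ψ : AddFun p G) {I : Type} [Fintype I]
  [DecidableEq I] (X : I → Type) [∀ i, MulAction G (X i)] [∀ i, Finite (X i)]

/-- Functions on `Σ i, X i` supported over `s ⊆ I`. -/
def supportedOn (s : Finset I) : Submodule (ZMod p) ((Σ i, X i) → ZMod p) where
  carrier := {h | ∀ a : Σ i, X i, a.1 ∉ s → h a = 0}
  add_mem' := fun {h h'} hh hh' a ha => by rw [Pi.add_apply, hh a ha, hh' a ha, add_zero]
  zero_mem' := fun _ _ => rfl
  smul_mem' := fun c h hh a ha => by rw [Pi.smul_apply, hh a ha, smul_zero]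

omit [NeZero p] [Fintype I] [DecidableEq I] [∀ i, Finite (X i)] in
theorem supportedOn_le_comap (s : Finset I) (g : G) :
    supportedOn (p := p) X s ≤ (supportedOn X s).comap (permFun (ZMod p) G (Σ i, X i) g) := by
  intro h hh a ha
  rw [permFun_apply]
  exact hh _ ha

theorem AddFun.val_supportedOn (s : Finset I) :
    ψ.val ((permFun (ZMod p) G (Σ i, X i)).subrepresentation (supportedOn X s)
      (supportedOn_le_comap X s)) = ∑ i ∈ s, ψ.val (permFun (ZMod p) G (X i)) := by
  induction s using Finset.induction_on with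
  | empty =>
    rw [Finset.sum_empty]
    have : Subsingleton (supportedOn (p := p) X ∅) :=
      ⟨fun h h' => Subtype.ext (funext fun a => by
        rw [h.2 a (Finset.notMem_empty _), h'.2 a (Finset.notMem_empty _)])⟩
    exact ψ.eq_zero_of_subsingleton _
  | insert i₀ s hi₀ ih =>
    rw [Finset.sum_insert hi₀, ← ih, add_comm]
    have hle : supportedOn (p := p) X s ≤ supportedOn X (insert i₀ s) := by
      intro h hh a ha
      exact hh a (fun h' => ha (Finset.mem_insert_of_mem h'))
    let ev : supportedOn (p := p) X (insert i₀ s) →ₗ[ZMod p] (X i₀ → ZMod p) :=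
      (LinearMap.funLeft (ZMod p) (ZMod p) (Sigma.mk i₀)).comp (Submodule.subtype _)
    refine ψ.add (Submodule.inclusion hle) ev (fun g a => rfl) (fun g b => ?_)
      (Submodule.inclusion_injective hle) (fun w => ?_) (fun b => ?_)
    · funext x
      rfl
    · refine ⟨⟨fun a => if hi : a.1 = i₀ then w (hi ▸ a.2) else 0, fun a ha => ?_⟩, ?_⟩
      · change (if hi : a.1 = i₀ then w (hi ▸ a.2) else 0) = 0
        rw [dif_neg]
        intro h'
        exact ha (h' ▸ Finset.mem_insert_self _ _)
      · funext x
        change (if hi : i₀ = i₀ then w (hi ▸ x) else 0) = w x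
        rw [dif_pos rfl]
    · constructor
      · intro hb
        refine ⟨⟨b.1, fun a ha => ?_⟩, rfl⟩
        by_cases h' : a.1 = i₀
        · obtain ⟨i, x⟩ := a
          subst h'
          exact congrFun hb x
        · exact b.2 a (fun h'' => by
            rcases Finset.mem_insert.1 h'' with h3 | h3
            · exact h' h3
            · exact ha h3)
      · rintro ⟨a, rfl⟩
        funext x
        exact a.2 ⟨i₀, x⟩ hi₀

/-- Additivity of additive functions on permutation modules of disjoint unions. -/
theorem AddFun.val_permFun_sigma :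
    ψ.val (permFun (ZMod p) G (Σ i, X i)) = ∑ i, ψ.val (permFun (ZMod p) G (X i)) := by
  rw [← ψ.val_supportedOn X Finset.univ]
  have htop : supportedOn (p := p) X Finset.univ = ⊤ := by
    rw [eq_top_iff]
    intro h _ a ha
    exact absurd (Finset.mem_univ _) ha
  symm
  refine ψ.iso ((LinearEquiv.ofEq _ _ htop).trans Submodule.topEquiv) (fun g v => rfl)

end Sigma

section Family

variable {p : ℕ} [hp : Fact p.Prime] {G : Type} [Group G] [Finite G] (ψ : AddFun p G)

/-- `val_permFun_eq_of_marks` with the marks written as `Nat.card` of fixed-point sets. -/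
theorem AddFun.val_permFun_eq_of_card_fixed (X Y : Type) [MulAction G X] [MulAction G Y]
    [Finite X] [Finite Y]
    (h : ∀ g : G, Nat.card {x : X // g • x = x} = Nat.card {y : Y // g • y = y}) :
    ψ.val (permFun (ZMod p) G X) = ψ.val (permFun (ZMod p) G Y) := by
  classical
  let _ : Fintype X := Fintype.ofFinite X
  let _ : Fintype Y := Fintype.ofFinite Y
  refine ψ.val_permFun_eq_of_marks X Y (fun g => ?_)
  have := h g
  rwa [Nat.card_eq_fintype_card, Nat.card_eq_fintype_card, Fintype.card_subtype,
    Fintype.card_subtype] at this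

omit [Finite G] in
/-- Fixed points of a disjoint union. -/
theorem card_fixed_sigma {I : Type} [Finite I] (X : I → Type) [∀ i, MulAction G (X i)]
    [∀ i, Finite (X i)] (g : G) :
    Nat.card {a : Σ i, X i // g • a = a} = ∑ᶠ i, Nat.card {x : X i // g • x = x} := by
  classical
  let _ : Fintype I := Fintype.ofFinite I
  rw [finsum_eq_sum_of_fintype, ← Nat.card_sigma]
  refine Nat.card_congr ⟨fun a => ⟨a.1.1, ⟨a.1.2, ?_⟩⟩, fun b => ⟨⟨b.1, b.2.1⟩, ?_⟩, ?_, ?_⟩
  · obtain ⟨⟨i, x⟩, ha⟩ := a
    rw [Sigma.smul_mk, Sigma.mk.inj_iff] at ha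
    exact eq_of_heq ha.2
  · rw [Sigma.smul_mk, b.2.2]
  · rintro ⟨⟨i, x⟩, ha⟩
    rfl
  · rintro ⟨i, x, hx⟩
    rfl

/-- Two finite families of finite `G`-sets with the same total marks have the same total value. -/
theorem AddFun.sum_val_permFun_eq {I J : Type} [Fintype I] [Fintype J]
    (X : I → Type) [∀ i, MulAction G (X i)] [∀ i, Finite (X i)]
    (Y : J → Type) [∀ j, MulAction G (Y j)] [∀ j, Finite (Y j)]
    (h : ∀ g : G, ∑ i, Nat.card {x : X i // g • x = x} = ∑ j, Nat.card {y : Y j // g • y = y}) :
    ∑ i, ψ.val (permFun (ZMod p) G (X i)) = ∑ j, ψ.val (permFun (ZMod p) G (Y j)) := by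
  classical
  have : NeZero p := ⟨hp.out.ne_zero⟩
  rw [← ψ.val_permFun_sigma X, ← ψ.val_permFun_sigma Y]
  refine ψ.val_permFun_eq_of_card_fixed _ _ (fun g => ?_)
  rw [card_fixed_sigma X g, card_fixed_sigma Y g, finsum_eq_sum_of_fintype,
    finsum_eq_sum_of_fintype, h g]

/-- An integral relation between the marks of the coset spaces `G ⧸ B` gives the same relation
between the values of an additive function on the permutation modules `F_p[G ⧸ B]`. -/
theorem AddFun.sum_mul_val_permFun_eq_zero [Fintype (Subgroup G)] (c : Subgroup G → ℤ)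
    (h : ∀ g : G, ∑ B : Subgroup G, c B * (Nat.card {q : G ⧸ B // g • q = q} : ℤ) = 0) :
    ∑ B : Subgroup G, c B * ψ.val (permFun (ZMod p) G (G ⧸ B)) = 0 := by
  classical
  let F : Subgroup G → ℤ := fun B => ψ.val (permFun (ZMod p) G (G ⧸ B))
  have h2 : ∀ B : Subgroup G, c B = ((c B).toNat : ℤ) - ((-c B).toNat : ℤ) :=
    fun B => (Int.toNat_sub_toNat_neg (c B)).symm
  have key : ∑ i : (Σ B : Subgroup G, Fin (c B).toNat), F i.1 =
      ∑ j : (Σ B : Subgroup G, Fin (-c B).toNat), F j.1 := by
    refine ψ.sum_val_permFun_eq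
      (I := Σ B : Subgroup G, Fin (c B).toNat) (J := Σ B : Subgroup G, Fin (-c B).toNat)
      (fun i => G ⧸ i.1) (fun j => G ⧸ j.1) (fun g => ?_)
    let M : Subgroup G → ℕ := fun B => Nat.card {q : G ⧸ B // g • q = q}
    change ∑ i : (Σ B : Subgroup G, Fin (c B).toNat), M i.1 =
      ∑ j : (Σ B : Subgroup G, Fin (-c B).toNat), M j.1
    rw [Fintype.sum_sigma, Fintype.sum_sigma]
    dsimp only
    simp only [Finset.sum_const, Finset.card_univ, Fintype.card_fin, smul_eq_mul]
    have h1 : ∑ B : Subgroup G, c B * (M B : ℤ) = 0 := h g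
    have h3 : ∑ B : Subgroup G, ((c B).toNat : ℤ) * (M B : ℤ) -
        ∑ B : Subgroup G, ((-c B).toNat : ℤ) * (M B : ℤ) = 0 := by
      rw [← Finset.sum_sub_distrib, ← h1]
      refine Finset.sum_congr rfl (fun B _ => ?_)
      rw [← sub_mul, ← h2 B]
    rw [sub_eq_zero] at h3
    exact_mod_cast h3
  rw [Fintype.sum_sigma, Fintype.sum_sigma] at key
  dsimp only at key
  simp only [Finset.sum_const, Finset.card_univ, Fintype.card_fin, nsmul_eq_mul] at key
  calc ∑ B : Subgroup G, c B * F B
      = ∑ B : Subgroup G, ((c B).toNat : ℤ) * F B -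
        ∑ B : Subgroup G, ((-c B).toNat : ℤ) * F B := by
        rw [← Finset.sum_sub_distrib]
        refine Finset.sum_congr rfl (fun B _ => ?_)
        rw [← sub_mul, ← h2 B]
    _ = 0 := by
        rw [sub_eq_zero]
        exact_mod_cast key

end Family

section MarksIdentity

variable {G : Type} [Group G] [Finite G]

omit [Finite G] in
/-- The fixed cosets of `g` on `G ⧸ B`, counted through the elements `x` with `x⁻¹ g x ∈ B`. -/
theorem card_mul_card_fixed (B : Subgroup G) (g : G) :
    Nat.card B * Nat.card {q : G ⧸ B // g • q = q} = Nat.card {x : G // x⁻¹ * g * x ∈ B} := by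
  rw [← Nat.card_prod]
  refine (Nat.card_congr (Equiv.trans ?_
    (QuotientGroup.preimageMkEquivSubgroupProdSet B {q : G ⧸ B | g • q = q}))).symm
  refine Equiv.subtypeEquivRight (fun x => ?_)
  rw [Set.mem_preimage, Set.mem_ofPred_eq, MulAction.Quotient.smul_mk, QuotientGroup.eq,
    smul_eq_mul, mul_inv_rev]
  constructor
  · intro h
    have := B.inv_mem h
    simpa [mul_assoc] using this
  · intro h
    have := B.inv_mem h
    simpa [mul_assoc] using this

/-- **The marks identity of Artin's induction theorem.** -/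
theorem exists_marks_identity [Fintype (Subgroup G)] :
    ∃ c : Subgroup G → ℤ, (∀ B : Subgroup G, ¬ IsCyclic B → c B = 0) ∧
      ∀ g : G, ∑ B : Subgroup G, c B * (Nat.card {q : G ⧸ B // g • q = q} : ℤ) = Nat.card G := by
  classical
  let _ : Fintype G := Fintype.ofFinite G
  obtain ⟨b, hb0, hb1⟩ := exists_cyclic_coeff (G := G)
  refine ⟨fun B => b B * Nat.card B, fun B hB => by simp only [hb0 B hB, zero_mul], fun g => ?_⟩
  have h1 : ∀ B : Subgroup G, b B * (Nat.card B : ℤ) * (Nat.card {q : G ⧸ B // g • q = q} : ℤ) =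
      ∑ x : G, if x⁻¹ * g * x ∈ B then b B else 0 := by
    intro B
    rw [mul_assoc, ← Nat.cast_mul, card_mul_card_fixed, Nat.card_eq_fintype_card,
      Fintype.card_subtype, Finset.sum_ite, Finset.sum_const_zero, add_zero, Finset.sum_const,
      nsmul_eq_mul, mul_comm]
  simp only [h1]
  rw [Finset.sum_comm]
  have h2 : ∀ x : G, ∑ B : Subgroup G, (if x⁻¹ * g * x ∈ B then b B else 0) = 1 := by
    intro x
    rw [← Finset.sum_filter]
    exact hb1 _
  simp only [h2]
  simp [Nat.card_eq_fintype_card]

end MarksIdentity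

section Relation

variable {p : ℕ} [hp : Fact p.Prime] {G : Type} [Group G] [Finite G] (ψ : AddFun p G)

/-- **Artin's relation for additive functions**: `#G · ψ(F_p) = ∑_B c_B · ψ(F_p[G/B])` with
integers `c_B` supported on the cyclic subgroups (`F_p` being realised as `F_p[G/G]`). -/
theorem AddFun.exists_artin_relation [Fintype (Subgroup G)] :
    ∃ c : Subgroup G → ℤ, (∀ B : Subgroup G, ¬ IsCyclic B → c B = 0) ∧
      ∑ B : Subgroup G, c B * ψ.val (permFun (ZMod p) G (G ⧸ B)) =
        (Nat.card G : ℤ) * ψ.val (permFun (ZMod p) G (G ⧸ (⊤ : Subgroup G))) := by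
  classical
  obtain ⟨c, hc0, hc1⟩ := exists_marks_identity (G := G)
  refine ⟨c, hc0, ?_⟩
  have htop : ∀ g : G, Nat.card {q : G ⧸ (⊤ : Subgroup G) // g • q = q} = 1 := by
    intro g
    have : Subsingleton (G ⧸ (⊤ : Subgroup G)) := QuotientGroup.subsingleton_quotient_top
    have : Unique {q : G ⧸ (⊤ : Subgroup G) // g • q = q} :=
      ⟨⟨⟨((1 : G) : G ⧸ (⊤ : Subgroup G)), Subsingleton.elim _ _⟩⟩,
        fun a => Subtype.ext (Subsingleton.elim _ _)⟩
    exact Nat.card_unique
  have key := ψ.sum_mul_val_permFun_eq_zero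
    (fun B => c B - if B = ⊤ then (Nat.card G : ℤ) else 0) (fun g => ?_)
  · simp only [sub_mul, Finset.sum_sub_distrib, ite_mul, zero_mul, Finset.sum_ite_eq',
      Finset.mem_univ, if_true] at key
    exact sub_eq_zero.1 key
  · simp only [sub_mul, Finset.sum_sub_distrib, ite_mul, zero_mul, Finset.sum_ite_eq',
      Finset.mem_univ, if_true]
    rw [hc1 g, htop g]
    simp

end Relation

end Fermat.Agent.W56.ArtinInd0
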