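/-
Programme W56 (target S56), stage 2, chapter (EC-5), helper4: **the `p`-torsion of `H²` along a short
exact sequence, with operators** ((U2), formal part).

`0 → A → B → C → 0` an exact sequence of discrete `ℤ[G]`-modules with a compatible action of a finite
group `Q` of order prime to `p` (commuting with `G`).  If every element of `H¹(G; C)` has finite
order prime to `p` and `H²(G;B)[p] → H²(G;C)[p]` is onto, then

`0 → H²(G;A)[p] → H²(G;B)[p] → H²(G;C)[p] → 0`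

is an exact sequence of `𝔽_p[Q]`-modules, hence `μ_P(H²(B)[p]) = μ_P(H²(A)[p]) + μ_P(H²(C)[p])`
(`muP_tors_exact`).  `muP_tors_W` is the instance `A, B, C = W(E), W(I), W(C)` with `Q = G ⧸ H` acting
by `star`.
-/
import Mathlib
import Fermat.Agent.W56.KummerStar4
import Fermat.Agent.W56.CoindStar4
import Fermat.Agent.W56.TraceOpen8
import Fermat.Agent.W56.BaseContracts4

set_option autoImplicit false
set_option linter.unusedSectionVars false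
set_option linter.style.haveILetI false

open CategoryTheory groupCohomology

namespace Fermat.Agent.W56.BrauerStar4

open Fermat.Agent.PT.PRO Fermat.Agent.PT.PRO.LevelCoh28 Fermat.Agent.PT.PRO.LevelCohRes28
  Fermat.Agent.PT.PRO.SmoothCoind28 Fermat.Agent.PT.GLUE.Objects21
  Fermat.Agent.W56.IntRes4 Fermat.Agent.W56.MuP4 Fermat.Agent.W56.TorsSnake4
  Fermat.Agent.W56.KummerStar4 Fermat.Agent.W56.CoindStar4 Fermat.Agent.W56.BaseContracts4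

/-- prefer the module structure carried by a `Rep ℤ G`. -/
local instance (priority := 10000) repModZ'' {G : Type} [Group G] (E : Rep.{0} ℤ G) :
    Module ℤ E := E.hV2

/-! ### The abstract statement -/

section Abstract

variable {G : Type} [Group G] (𝓑 : LevelBasis G) (p : ℕ) [Fact p.Prime]
  {A B C : Rep.{0} ℤ G} (φ : A →ₗ[ℤ] B) (hφ : ∀ g a, φ (A.ρ g a) = B.ρ g (φ a))
  (ψ : B →ₗ[ℤ] C) (hψ : ∀ g b, ψ (B.ρ g b) = C.ρ g (ψ b))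
  (hinj : Function.Injective φ) (hsurj : Function.Surjective ψ)
  (hex : ∀ b, ψ b = 0 ↔ ∃ a, φ a = b) (hB : IsDiscrete 𝓑.sets B)
  {Q : Type*} [Group Q]
  (τA : Representation ℤ Q A) (hτA : ∀ q g a, τA q (A.ρ g a) = A.ρ g (τA q a))
  (τB : Representation ℤ Q B) (hτB : ∀ q g b, τB q (B.ρ g b) = B.ρ g (τB q b))
  (τC : Representation ℤ Q C) (hτC : ∀ q g c, τC q (C.ρ g c) = C.ρ g (τC q c))
  (hφQ : ∀ q a, φ (τA q a) = τB q (φ a)) (hψQ : ∀ q b, ψ (τB q b) = τC q (ψ b))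

/-- `H²(A)[p] → H²(B)[p]`. -/
noncomputable def tφ : torsP p (H2 𝓑 A) →ₗ[ZMod p] torsP p (H2 𝓑 B) :=
  torsMap p (mapH2 (𝓑 := 𝓑) φ hφ).toAddMonoidHom

/-- `H²(B)[p] → H²(C)[p]`. -/
noncomputable def tψ : torsP p (H2 𝓑 B) →ₗ[ZMod p] torsP p (H2 𝓑 C) :=
  torsMap p (mapH2 (𝓑 := 𝓑) ψ hψ).toAddMonoidHom

theorem coe_tφ (x : torsP p (H2 𝓑 A)) :
    ((tφ 𝓑 p φ hφ x : torsP p (H2 𝓑 B)) : H2 𝓑 B) = mapH2 (𝓑 := 𝓑) φ hφ x.1 := rfl

theorem coe_tψ (x : torsP p (H2 𝓑 B)) :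
    ((tψ 𝓑 p ψ hψ x : torsP p (H2 𝓑 C)) : H2 𝓑 C) = mapH2 (𝓑 := 𝓑) ψ hψ x.1 := rfl

include hφQ in
theorem tφ_equivariant (q : Q) (x : torsP p (H2 𝓑 A)) :
    tφ 𝓑 p φ hφ (torsRep p (canonRep (opH2 𝓑 A τA hτA)) q x) =
      torsRep p (canonRep (opH2 𝓑 B τB hτB)) q (tφ 𝓑 p φ hφ x) := by
  apply Subtype.ext
  show mapH2 (𝓑 := 𝓑) φ hφ (mapH2 (𝓑 := 𝓑) (τA q) (hτA q) x.1) =
    mapH2 (𝓑 := 𝓑) (τB q) (hτB q) (mapH2 (𝓑 := 𝓑) φ hφ x.1)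
  obtain ⟨c, hc⟩ := H2mk_surjective 𝓑 A x.1
  rw [← hc, mapH2_mk, mapH2_mk, mapH2_mk, mapH2_mk]
  congr 1
  apply Subtype.ext
  funext g
  exact hφQ q _

include hψQ in
theorem tψ_equivariant (q : Q) (x : torsP p (H2 𝓑 B)) :
    tψ 𝓑 p ψ hψ (torsRep p (canonRep (opH2 𝓑 B τB hτB)) q x) =
      torsRep p (canonRep (opH2 𝓑 C τC hτC)) q (tψ 𝓑 p ψ hψ x) := by
  apply Subtype.ext
  show mapH2 (𝓑 := 𝓑) ψ hψ (mapH2 (𝓑 := 𝓑) (τB q) (hτB q) x.1) =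
    mapH2 (𝓑 := 𝓑) (τC q) (hτC q) (mapH2 (𝓑 := 𝓑) ψ hψ x.1)
  obtain ⟨c, hc⟩ := H2mk_surjective 𝓑 B x.1
  rw [← hc, mapH2_mk, mapH2_mk, mapH2_mk, mapH2_mk]
  congr 1
  apply Subtype.ext
  funext g
  exact hψQ q _

variable (tor : ∀ x : H1 𝓑 C, ∃ m : ℕ, ¬ p ∣ m ∧ m • x = 0)

/-- an element killed by `p` and by some `m` prime to `p` is zero. -/
theorem eq_zero_of_coprime {X : Type*} [AddCommGroup X] {x : X} {m : ℕ} (hm : ¬ p ∣ m)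
    (h1 : p • x = 0) (h2 : m • x = 0) : x = 0 := by
  have hp : p.Prime := Fact.out
  have hcop : Nat.Coprime p m := (Nat.Prime.coprime_iff_not_dvd hp).2 hm
  have h3 : ((p : ℤ) * Nat.gcdA p m + (m : ℤ) * Nat.gcdB p m) • x = x := by
    rw [← Nat.gcd_eq_gcd_ab, hcop.gcd_eq_one, Nat.cast_one, one_smul]
  rw [← h3, add_smul, mul_comm, mul_smul, mul_comm, mul_smul, natCast_zsmul, natCast_zsmul, h1, h2,
    smul_zero, smul_zero, add_zero]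

include hψ hinj hsurj hex hB tor in
theorem tφ_injective : Function.Injective (tφ 𝓑 p φ hφ) := by
  rw [injective_iff_map_eq_zero]
  intro x hx
  have h0 : mapH2 (𝓑 := 𝓑) φ hφ x.1 = 0 := congrArg Subtype.val hx
  have h1 := SetLike.ext_iff.1 (ker_mapH2 (𝓑 := 𝓑) φ hφ ψ hψ hinj hsurj hex hB) x.1
  obtain ⟨a, ha⟩ := h1.1 h0
  obtain ⟨m, hm, hma⟩ := tor a
  apply Subtype.ext
  refine eq_zero_of_coprime p hm ((mem_torsP p).1 x.2) ?_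
  rw [← ha, ← map_nsmul, hma, map_zero]

include hinj hsurj hex hB tor in
theorem tψ_exact (b : torsP p (H2 𝓑 B)) :
    tψ 𝓑 p ψ hψ b = 0 ↔ ∃ a, tφ 𝓑 p φ hφ a = b := by
  have hp : p.Prime := Fact.out
  constructor
  · intro hb
    have h0 : mapH2 (𝓑 := 𝓑) ψ hψ b.1 = 0 := congrArg Subtype.val hb
    have h1 := SetLike.ext_iff.1 (ker_mapH2' (𝓑 := 𝓑) φ hφ ψ hψ hinj hsurj hex hB) b.1
    obtain ⟨x₀, hx₀⟩ := h1.1 h0
    -- `p x₀` dies in `H²(B)`, so it comes from `H¹(C)`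
    have h2 : mapH2 (𝓑 := 𝓑) φ hφ (p • x₀) = 0 := by
      rw [map_nsmul, hx₀]
      exact (mem_torsP p).1 b.2
    have h3 := SetLike.ext_iff.1 (ker_mapH2 (𝓑 := 𝓑) φ hφ ψ hψ hinj hsurj hex hB) (p • x₀)
    obtain ⟨a, ha⟩ := h3.1 h2
    obtain ⟨m, hm, hma⟩ := tor a
    have h4 : m • (p • x₀) = 0 := by rw [← ha, ← map_nsmul, hma, map_zero]
    -- `r m ≡ 1 (mod p)`
    have hcop : Nat.Coprime m p := ((Nat.Prime.coprime_iff_not_dvd hp).2 hm).symm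
    obtain ⟨r, -, hr⟩ := Nat.exists_mul_mod_eq_one_of_coprime hcop hp.one_lt
    have h5 : p • ((m * r) • x₀) = 0 := by
      rw [mul_smul, smul_comm m r, ← mul_smul p, mul_comm p r, mul_smul, smul_comm p m, h4,
        smul_zero]
    refine ⟨⟨(m * r) • x₀, h5⟩, Subtype.ext ?_⟩
    rw [coe_tφ]
    show mapH2 (𝓑 := 𝓑) φ hφ ((m * r) • x₀) = b.1
    rw [map_nsmul, hx₀]
    -- `(m r) • b = b` as `p • b = 0`
    have h6 : m * r = p * (m * r / p) + 1 := by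
      have := Nat.div_add_mod (m * r) p
      rw [hr] at this
      exact this.symm
    rw [h6, add_smul, mul_comm p, mul_smul, (mem_torsP p).1 b.2, smul_zero, zero_add, one_smul]
  · rintro ⟨a, rfl⟩
    apply Subtype.ext
    rw [coe_tψ, coe_tφ]
    have h1 := SetLike.ext_iff.1 (ker_mapH2' (𝓑 := 𝓑) φ hφ ψ hψ hinj hsurj hex hB)
      (mapH2 (𝓑 := 𝓑) φ hφ a.1)
    exact h1.2 ⟨a.1, rfl⟩

variable (onto : ∀ y : H2 𝓑 C, p • y = 0 →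
    ∃ x : H2 𝓑 B, p • x = 0 ∧ mapH2 (𝓑 := 𝓑) ψ hψ x = y)

include onto in
theorem tψ_surjective : Function.Surjective (tψ 𝓑 p ψ hψ) := by
  intro y
  obtain ⟨x, hx, hxy⟩ := onto y.1 ((mem_torsP p).1 y.2)
  exact ⟨⟨x, hx⟩, Subtype.ext hxy⟩

variable [Fintype Q] [Invertible (Fintype.card Q : ZMod p)]
  {P : Type*} [AddCommGroup P] [Module (ZMod p) P] [FiniteDimensional (ZMod p) P]
  (ρP : Representation (ZMod p) Q P)

include hφ hψ hinj hsurj hex hB tor onto hφQ hψQ in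
/-- **(U2), formal part.** -/
theorem muP_tors_exact [Finite (torsP p (H2 𝓑 B))] :
    muP ρP (torsRep p (canonRep (opH2 𝓑 B τB hτB))) =
      muP ρP (torsRep p (canonRep (opH2 𝓑 A τA hτA))) +
        muP ρP (torsRep p (canonRep (opH2 𝓑 C τC hτC))) := by
  haveI : Module.Finite (ZMod p) (torsP p (H2 𝓑 B)) := Module.Finite.of_finite
  exact muP_add ρP _ _ _ (tφ 𝓑 p φ hφ) (tψ 𝓑 p ψ hψ)
    (tφ_equivariant 𝓑 p φ hφ τA hτA τB hτB hφQ) (tψ_equivariant 𝓑 p ψ hψ τB hτB τC hτC hψQ)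
    (tφ_injective 𝓑 p φ hφ ψ hψ hinj hsurj hex hB tor) (tψ_surjective 𝓑 p ψ hψ onto)
    (tψ_exact 𝓑 p φ hφ ψ hψ hinj hsurj hex hB tor)

end Abstract

/-! ### The instance `W(E) → W(I) → W(C)` -/

section WInst

variable {G : Type} [Group G] (𝓑 : LevelBasis G) (H : Subgroup G) [hH : H.Normal]
  (p : ℕ) [Fact p.Prime]
  {E I C : Rep.{0} ℤ G} (φ : E →ₗ[ℤ] I) (hφ : ∀ g a, φ (E.ρ g a) = I.ρ g (φ a))
  (ψ : I →ₗ[ℤ] C) (hψ : ∀ g b, ψ (I.ρ g b) = C.ρ g (ψ b))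
  (hinj : Function.Injective φ) (hsurj : Function.Surjective ψ)
  (hex : ∀ b, ψ b = 0 ↔ ∃ a, φ a = b) (hI : IsDiscrete 𝓑.sets I)

include hinj in
theorem Wmap_injective : Function.Injective (Wmap 𝓑 H φ hφ) :=
  scoindMap_injective H.subtype 𝓑 _ _ hinj

include hinj hex in
theorem Wmap_exact (F : W 𝓑 H I) :
    Wmap 𝓑 H ψ hψ F = 0 ↔ ∃ F', Wmap 𝓑 H φ hφ F' = F :=
  scoindMap_exact H.subtype 𝓑 (resL φ H) (resL_equivariant φ hφ H) hinj (resL ψ H)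
    (resL_equivariant ψ hψ H) hex F

include hsurj hI in
theorem Wmap_surjective : Function.Surjective (Wmap 𝓑 H ψ hψ) :=
  scoindMap_surjective H.subtype 𝓑 (comapBasis H.subtype 𝓑) (TraceOpen8.hind_subtype 𝓑 H)
    (resL ψ H) (resL_equivariant ψ hψ H) (TraceOpen8.isDiscrete_resV 𝓑 I H hI) hsurj

variable [Fintype (G ⧸ H)] [Invertible (Fintype.card (G ⧸ H) : ZMod p)]
  {P : Type*} [AddCommGroup P] [Module (ZMod p) P] [FiniteDimensional (ZMod p) P]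
  (ρP : Representation (ZMod p) (G ⧸ H) P)

include hφ hψ hinj hsurj hex hI in
/-- **(U2) for coinduced coefficients.** -/
theorem muP_tors_W
    (tor : ∀ x : H1 𝓑 (W 𝓑 H C), ∃ m : ℕ, ¬ p ∣ m ∧ m • x = 0)
    (onto : ∀ y : H2 𝓑 (W 𝓑 H C), p • y = 0 →
      ∃ x : H2 𝓑 (W 𝓑 H I), p • x = 0 ∧
        mapH2 (𝓑 := 𝓑) (Wmap 𝓑 H ψ hψ) (Wmap_equivariant 𝓑 H ψ hψ) x = y)
    [Finite (torsP p (H2 𝓑 (W 𝓑 H I)))] :
    muP ρP (torsRep p (canonRep (opH2 𝓑 (W 𝓑 H I) (star 𝓑 H I) (star_comm 𝓑 H I)))) =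
      muP ρP (torsRep p (canonRep (opH2 𝓑 (W 𝓑 H E) (star 𝓑 H E) (star_comm 𝓑 H E)))) +
        muP ρP (torsRep p (canonRep (opH2 𝓑 (W 𝓑 H C) (star 𝓑 H C) (star_comm 𝓑 H C)))) :=
  muP_tors_exact 𝓑 p (Wmap 𝓑 H φ hφ) (Wmap_equivariant 𝓑 H φ hφ) (Wmap 𝓑 H ψ hψ)
    (Wmap_equivariant 𝓑 H ψ hψ) (Wmap_injective 𝓑 H φ hφ hinj)
    (Wmap_surjective 𝓑 H ψ hψ hsurj hI) (Wmap_exact 𝓑 H φ hφ ψ hψ hinj hex)
    (isDiscrete_scoind H.subtype 𝓑 _)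
    (star 𝓑 H E) (star_comm 𝓑 H E) (star 𝓑 H I) (star_comm 𝓑 H I) (star 𝓑 H C)
    (star_comm 𝓑 H C) (fun q F => Wmap_star 𝓑 H φ hφ q F) (fun q F => Wmap_star 𝓑 H ψ hψ q F)
    tor onto ρP

end WInst

end Fermat.Agent.W56.BrauerStar4
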