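/-
Programme W56 (target S56), stage 2, chapter (EC-5), helper4: **the Kummer count for coinduced
coefficients**.

`G` a group with level basis `𝓑`, `H ◁ G` open with finite quotient `Q = G ⧸ H` of order prime to
`p`; `Z` an `𝔽_p[G]`-module, `E` a discrete `p`-divisible `ℤ[G]`-module, `j : Z → E` an equivariant
injection onto `E[p]`.  Then `W(Z) → W(E)` (`W = Coind_H^G Res_H`, `CoindStar4.W`) is again such a
datum, compatible with the action `star` of `Q`, and `KummerStar4.kummer_count` gives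

`μ_P(H⁰(G;WZ)) − μ_P(H¹(G;WZ)) + μ_P(H²(G;WZ)) = −h_P(H⁰(G;WE)) + h_P(H¹(G;WE)) + μ_P(H²(G;WE)[p])`.
-/
import Mathlib
import Fermat.Agent.W56.KummerStar4
import Fermat.Agent.W56.CoindStar4
import Fermat.Agent.W56.TraceOpen8

set_option autoImplicit false
set_option linter.unusedSectionVars false
set_option linter.style.haveILetI false

open CategoryTheory groupCohomology

namespace Fermat.Agent.W56.KummerW4

open Fermat.Agent.PT.PRO Fermat.Agent.PT.PRO.LevelCoh28 Fermat.Agent.PT.PRO.LevelCohRes28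
  Fermat.Agent.PT.PRO.SmoothCoind28 Fermat.Agent.PT.GLUE.Objects21
  Fermat.Agent.W56.IntRes4 Fermat.Agent.W56.MuP4 Fermat.Agent.W56.TorsSnake4
  Fermat.Agent.W56.KummerStar4 Fermat.Agent.W56.CoindStar4

/-- prefer the module structure carried by a `Rep ℤ G`. -/
local instance (priority := 10000) repModZ' {G : Type} [Group G] (E : Rep.{0} ℤ G) : Module ℤ E :=
  E.hV2

variable {G : Type} [Group G] (𝓑 : LevelBasis G) (H : Subgroup G) [hH : H.Normal]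
  (p : ℕ) [Fact p.Prime]
  (Z : Rep.{0} (ZMod p) G) (E : Rep.{0} ℤ G)
  (j : Z →+ E) (hjG : ∀ g z, j (Z.ρ g z) = E.ρ g (j z))
  (hjinj : Function.Injective j) (hjp : ∀ e : E, p • e = 0 ↔ ∃ z, j z = e)
  (hdiv : ∀ e : E, ∃ e', p • e' = e)

/-- `W(j) : W(Z) → W(E)`, `F ↦ j ∘ F`. -/
noncomputable def jW : W 𝓑 H Z →+ W 𝓑 H E where
  toFun F := mkW 𝓑 H E (fun x => j (val 𝓑 H Z F x))
    (fun h hh x => by
      show j (val 𝓑 H Z F (h * x)) = E.ρ h (j (val 𝓑 H Z F x))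
      rw [val_equivariant 𝓑 H Z F hh, hjG])
    (by
      obtain ⟨U, hU, hF⟩ := val_isLevel 𝓑 H Z F
      exact ⟨U, hU, fun x s hs => by
        show j (val 𝓑 H Z F (x * s)) = j (val 𝓑 H Z F x)
        rw [hF x s hs]⟩)
  map_zero' := W_ext 𝓑 H E fun x => by
    show j (val 𝓑 H Z 0 x) = 0
    exact map_zero j
  map_add' F F' := W_ext 𝓑 H E fun x => by
    show j (val 𝓑 H Z (F + F') x) = j (val 𝓑 H Z F x) + j (val 𝓑 H Z F' x)
    rw [val_add, map_add]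

theorem val_jW (F : W 𝓑 H Z) (x : G) :
    val 𝓑 H E (jW 𝓑 H p Z E j hjG F) x = j (val 𝓑 H Z F x) := rfl

theorem jW_equivariant (g : G) (F : W 𝓑 H Z) :
    jW 𝓑 H p Z E j hjG ((W 𝓑 H Z).ρ g F) = (W 𝓑 H E).ρ g (jW 𝓑 H p Z E j hjG F) :=
  W_ext 𝓑 H E fun x => by
    rw [val_jW, val_ρ, val_ρ, val_jW]

include hjinj in
theorem jW_injective : Function.Injective (jW 𝓑 H p Z E j hjG) := by
  intro F F' h
  refine W_ext 𝓑 H Z fun x => hjinj ?_
  have := congrArg (fun F'' => val 𝓑 H E F'' x) h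
  exact this

theorem val_nsmul (n : ℕ) (F : W 𝓑 H E) (x : G) :
    val 𝓑 H E (n • F) x = n • val 𝓑 H E F x := by
  induction n with
  | zero => rw [zero_smul, zero_smul]; rfl
  | succ n ih => rw [succ_nsmul, succ_nsmul, val_add, ih]

include hjinj hjp in
theorem jW_torsion (F : W 𝓑 H E) : p • F = 0 ↔ ∃ F₀, jW 𝓑 H p Z E j hjG F₀ = F := by
  constructor
  · intro hF
    have h0 : ∀ x, ∃ z, j z = val 𝓑 H E F x := fun x => by
      apply (hjp _).1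
      rw [← val_nsmul, hF]
      rfl
    choose f₀ hf₀ using h0
    refine ⟨mkW 𝓑 H Z f₀ (fun h hh x => hjinj ?_) ?_, W_ext 𝓑 H E fun x => hf₀ x⟩
    · rw [hf₀, hjG, hf₀, val_equivariant 𝓑 H E F hh]
    · obtain ⟨U, hU, hFl⟩ := val_isLevel 𝓑 H E F
      exact ⟨U, hU, fun x s hs => hjinj (by rw [hf₀, hf₀, hFl x s hs])⟩
  · rintro ⟨F₀, rfl⟩
    refine W_ext 𝓑 H E fun x => ?_
    rw [val_nsmul, val_jW]
    exact (hjp _).2 ⟨_, rfl⟩

variable (hE : IsDiscrete 𝓑.sets E)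

include hE hdiv in
theorem W_divisible (F : W 𝓑 H E) : ∃ F', p • F' = F := by
  obtain ⟨F', hF'⟩ := scoindMap_surjective H.subtype 𝓑 (comapBasis H.subtype 𝓑)
    (TraceOpen8.hind_subtype 𝓑 H) (psi p (Rep.res H.subtype E))
    (psi_equivariant p (Rep.res H.subtype E)) (TraceOpen8.isDiscrete_resV 𝓑 E H hE)
    (psi_surjective p (Rep.res H.subtype E) hdiv) F
  refine ⟨(show W 𝓑 H E from F'), W_ext 𝓑 H E fun x => ?_⟩
  rw [val_nsmul 𝓑 H E p (show W 𝓑 H E from F') x]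
  exact congrArg (fun F'' => val 𝓑 H E F'' x) hF'

theorem jW_star (q : G ⧸ H) (F : W 𝓑 H Z) :
    jW 𝓑 H p Z E j hjG (star 𝓑 H Z q F) = star 𝓑 H E q (jW 𝓑 H p Z E j hjG F) := by
  induction q using QuotientGroup.induction_on with
  | H c =>
    refine W_ext 𝓑 H E fun x => ?_
    rw [star_mk, star_mk, starG_apply, val_jW, starG_apply, val_jW, hjG]

variable [Fintype (G ⧸ H)] [Invertible (Fintype.card (G ⧸ H) : ZMod p)]
  {P : Type*} [AddCommGroup P] [Module (ZMod p) P] [FiniteDimensional (ZMod p) P]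
  (ρP : Representation (ZMod p) (G ⧸ H) P)

include hjG hjinj hjp hdiv hE in
/-- **The Kummer count for `W(Z) → W(E)`.** -/
theorem kummer_count_W [Finite (H1 𝓑 (W 𝓑 H Z))] [Finite (H2 𝓑 (W 𝓑 H Z))] :
    (muP ρP (opH0 (W 𝓑 H Z) (star 𝓑 H Z) (star_comm 𝓑 H Z)) : ℤ) -
        muP ρP (opH1 𝓑 (W 𝓑 H Z) (star 𝓑 H Z) (star_comm 𝓑 H Z)) +
        muP ρP (opH2 𝓑 (W 𝓑 H Z) (star 𝓑 H Z) (star_comm 𝓑 H Z)) =
      - hP p ρP (canonRep (opH0 (W 𝓑 H E) (star 𝓑 H E) (star_comm 𝓑 H E))) +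
        hP p ρP (canonRep (opH1 𝓑 (W 𝓑 H E) (star 𝓑 H E) (star_comm 𝓑 H E))) +
        muP ρP (torsRep p (canonRep (opH2 𝓑 (W 𝓑 H E) (star 𝓑 H E) (star_comm 𝓑 H E)))) :=
  kummer_count 𝓑 p (W 𝓑 H Z) (W 𝓑 H E) (isDiscrete_scoind H.subtype 𝓑 _)
    (jW 𝓑 H p Z E j hjG) (jW_equivariant 𝓑 H p Z E j hjG) (jW_injective 𝓑 H p Z E j hjG hjinj)
    (jW_torsion 𝓑 H p Z E j hjG hjinj hjp) (W_divisible 𝓑 H p E hdiv hE)
    (star 𝓑 H Z) (star_comm 𝓑 H Z) (star 𝓑 H E) (star_comm 𝓑 H E)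
    (jW_star 𝓑 H p Z E j hjG) ρP

end Fermat.Agent.W56.KummerW4
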