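/-
Programme W56 (target S56), stage 2, chapter (EC-5), helper4: **the base case
`EulerSkel4.BaseCase` from the glue contracts** (`baseCase_of`).

`U ◁ Γ` open in `G_T` fixing `ζ_p`, `C ≤ Γ ⧸ U` of order prime to `p`, `Ĉ = pre U C`, `H = U ∩ Ĉ`,
`Q = Ĉ ⧸ H ≃ C` (`BaseQ4.eQ`), `σ` a finite `𝔽_p[C]`-module, `τ = σ^∨(ω)` (`tauQ`):

  `χ(Ĉ, σ) = μ_τ(H⁰(W μ_p)) − μ_τ(H¹(W μ_p)) + μ_τ(H²(W μ_p))`            (`TwistW4`)
  `        = −h_τ(H⁰(W E_T)) + h_τ(H¹(W E_T)) + μ_τ(H²(W E_T)[p])`          (`KummerW4`)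
  `h_τ(H¹(W E_T)) = 0`                                                     (`FinH1WE`)
  `μ_τ(H²(W I_T)[p]) = μ_τ(H²(W E_T)[p]) + μ_τ(H²(W C_T)[p])`              (`BrauerStar4`)
  `μ_τ(H²(W C_T)[p]) = μ_τ(𝔽_p)`, `μ_τ(H²(W I_T)[p]) = μ_τ(𝔽_p[XT])`        (`TrivWCS`, `ISCount`, `ISSum`)
  `h_τ(H⁰(W E_T)) = μ_τ(𝔽_p[XT]) + μ_τ(𝔽_p[(Γ/U)/⟨c̄⟩]) − μ_τ(𝔽_p)`          (`PullH0`, `Bridge`)
  `arch = μ_τ(𝔽_p[(Γ/U)/⟨c̄⟩])`                                              (`ArchSide5`)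

and the sum is `0`.
-/
import Mathlib
import Fermat.Agent.W56.EulerSkel4
import Fermat.Agent.W56.BaseGlue4
import Fermat.Agent.W56.KummerW4
import Fermat.Agent.W56.TwistW4
import Fermat.Agent.W56.BrauerStar4
import Fermat.Agent.W56.ArchSide5
import Fermat.Agent.W56.QuotGal0
import Fermat.Agent.W56.Bridge0
import Fermat.Agent.PT.PRO.KerIsoGal7
import Fermat.Agent.PT.GLUE.ESDivisible27

set_option autoImplicit false
set_option linter.unusedSectionVars false
set_option linter.style.haveILetI false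

open CategoryTheory ExtCitation

namespace Fermat.Agent.W56.BaseCase4

open Fermat.Agent.PT.PRO Fermat.Agent.PT.BR Fermat.Agent.PT.PRO.LevelCoh28
  Fermat.Agent.PT.PRO.LevelCohRes28 Fermat.Agent.PT.PRO.SmoothCoind28
  Fermat.Agent.PT.GLUE.Objects21
  Fermat.Agent.W56.Mackey2 Fermat.Agent.W56.MuP4 Fermat.Agent.W56.TorsSnake4
  Fermat.Agent.W56.EquivUnits0 Fermat.Agent.W56.KummerStar4 Fermat.Agent.W56.IntRes4
  Fermat.Agent.W56.CoindStar4 Fermat.Agent.W56.BaseDefs4 Fermat.Agent.W56.BaseContracts4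
  Fermat.Agent.W56.BaseQ4 Fermat.Agent.W56.InflCoind4 Fermat.Agent.W56.BaseGlue4
  Fermat.Agent.W56.ChiLev4 Fermat.Agent.W56.ChiArch4 Fermat.Agent.W56.TwistW4
  Fermat.Agent.W56.QuotGal0
open Fermat.Agent.S14.Fields (zeta)

local notation "Γ" => (AlgebraicClosure ℚ ≃ₐ[ℚ] AlgebraicClosure ℚ)

/-- prefer the module structure carried by a `Rep ℤ G`. -/
local instance (priority := 10000) repModZb {G : Type} [Group G] (E : Rep.{0} ℤ G) : Module ℤ E :=
  E.hV2

section Ctx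

variable (p : ℕ) [Fact p.Prime] (T : Finset Nat.Primes)
  (U : Subgroup Γ) [U.Normal] (C : Subgroup (Γ ⧸ U))

/-- the mod `p` cyclotomic character on `Ĉ`. -/
noncomputable def omC : ↥(pre U C) →* (ZMod p)ˣ := (cycloChar p).comp (pre U C).subtype

theorem omC_apply (h : ↥(pre U C)) : omC p U C h = cycloChar p (h : Γ) := rfl

theorem omC_eq_one (hζ : ∀ u ∈ U, u (zeta p) = zeta p) (h : ↥(pre U C))
    (hh : h ∈ U.subgroupOf (pre U C)) : omC p U C h = 1 :=
  ArchSide5.cycloChar_eq_one_of_fix p (hζ _ hh)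

theorem finite_quot (hU : U ∈ (levelS T).sets) : Finite (Γ ⧸ U) := by
  have : U.FiniteIndex := (levelS T).isBasis.finiteIndex U hU
  exact Subgroup.finite_quotient_of_finiteIndex

theorem hHo (hU : U ∈ (levelS T).sets) :
    ∃ V ∈ (comapBasis (pre U C).subtype (levelS T)).sets, V ≤ U.subgroupOf (pre U C) :=
  ⟨_, ⟨U, hU, rfl⟩, le_refl _⟩

section Kummer

variable (hpT : pPrime p ∈ T)

/-- `μ_p → E_T` over `Ĉ`. -/
noncomputable def jK : muRep p (omC p U C) →+ Rep.res (pre U C).subtype (ES T) :=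
  (KerIsoGal7.muES p T hpT).j

theorem jK_equivariant (g : ↥(pre U C)) (z : muRep p (omC p U C)) :
    jK p T U C hpT ((muRep p (omC p U C)).ρ g z) =
      (Rep.res (pre U C).subtype (ES T)).ρ g (jK p T U C hpT z) :=
  ((KerIsoGal7.muES p T hpT).equiv (g : Γ) z).symm

theorem jK_injective : Function.Injective (jK p T U C hpT) := (KerIsoGal7.muES p T hpT).inj

theorem jK_torsion (e : Rep.res (pre U C).subtype (ES T)) :
    p • e = 0 ↔ ∃ z, jK p T U C hpT z = e := by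
  constructor
  · intro h
    exact (KerIsoGal7.muES p T hpT).surj e h
  · rintro ⟨z, rfl⟩
    have h1 : p • jK p T U C hpT z = jK p T U C hpT (p • z) := (map_nsmul _ _ _).symm
    rw [h1]
    have h2 : p • z = 0 := by
      have h3 : ∀ z' : ZMod p, p • z' = 0 := fun z' => by
        rw [nsmul_eq_mul, ZMod.natCast_self, zero_mul]
      exact h3 z
    rw [h2, map_zero]

include hpT in
theorem ES_divisible (e : Rep.res (pre U C).subtype (ES T)) :
    ∃ e' : Rep.res (pre U C).subtype (ES T), p • e' = e :=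
  Fermat.Agent.PT.GLUE.ESDivisible27.exists_nsmul_eq (Fact.out : p.Prime) hpT e

end Kummer

variable {N : Type} [AddCommGroup N] [Module (ZMod p) N] (σ : Representation (ZMod p) ↥C N)

/-- `σ` on `Q`. -/
noncomputable def sigQ : Representation (ZMod p) (↥(pre U C) ⧸ U.subgroupOf (pre U C)) N :=
  σ.comp (eQ U C : (↥(pre U C) ⧸ U.subgroupOf (pre U C)) →* ↥C)

theorem chiLev_step1 :
    chiLev (LevelBridge13.pullBasisS (pre U C).subtype T) (inflSub U C σ) =
      chiLev (comapBasis (pre U C).subtype (levelS T))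
        (inflQ p (U.subgroupOf (pre U C)) N (sigQ p U C σ)) := by
  rw [pullBasisS_eq_comap]
  exact chiLev_congr (𝓑 := comapBasis (pre U C).subtype (levelS T)) (A := inflSub U C σ)
    (B := inflQ p (U.subgroupOf (pre U C)) N (sigQ p U C σ)) LinearMap.id (fun g a => rfl)
    Function.bijective_id

/-- the twist on `Q` is the transport of the twist on `C`. -/
theorem tau_eq (hζ : ∀ u ∈ U, u (zeta p) = zeta p) (ω : (Γ ⧸ U) →* (ZMod p)ˣ)
    (hω : ∀ g : Γ, ω (QuotientGroup.mk g) = cycloChar p g) :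
    dualTwQ p (omegaBar p (U.subgroupOf (pre U C)) (omC p U C) (omC_eq_one p U C hζ))
        (sigQ p U C σ) =
      reE (eQ U C) (MackeyArch0.dualTw ω C σ) := by
  refine MonoidHom.ext fun q => ?_
  induction q using QuotientGroup.induction_on with
  | H h =>
    refine LinearMap.ext fun f => LinearMap.ext fun n => ?_
    rw [dualTwQ_apply, reE_apply, MackeyArch0.dualTw_apply, omegaBar_mk, omC_apply, coe_eQ_mk, hω]
    rfl


/-- the twisted dual `N^∨(ω)` as a representation of `Q`. -/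
noncomputable def tauQ (hζ : ∀ u ∈ U, u (zeta p) = zeta p) :
    Representation (ZMod p) (↥(pre U C) ⧸ U.subgroupOf (pre U C)) (Module.Dual (ZMod p) N) :=
  dualTwQ p (omegaBar p (U.subgroupOf (pre U C)) (omC p U C) (omC_eq_one p U C hζ)) (sigQ p U C σ)

theorem tauQ_eq (hζ : ∀ u ∈ U, u (zeta p) = zeta p) (ω : (Γ ⧸ U) →* (ZMod p)ˣ)
    (hω : ∀ g : Γ, ω (QuotientGroup.mk g) = cycloChar p g) :
    tauQ p U C σ hζ = reE (eQ U C) (MackeyArch0.dualTw ω C σ) := tau_eq p U C σ hζ ω hω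

local notation "𝓑c" => comapBasis (Subgroup.subtype (pre U C)) (levelS T)
local notation "Hc" => Subgroup.subgroupOf U (pre U C)
local notation "Ec" => Rep.res (Subgroup.subtype (pre U C)) (ES T)
local notation "Ic" => Rep.res (Subgroup.subtype (pre U C)) (IS T)
local notation "Cc" => Rep.res (Subgroup.subtype (pre U C)) (CS T)

section Steps

variable (hp2 : p ≠ 2) (hpT : pPrime p ∈ T) (hU' : U ∈ (levelS T).sets)
  (hζ : ∀ u ∈ U, u (zeta p) = zeta p)
  [Fintype (↥(pre U C) ⧸ U.subgroupOf (pre U C))]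
  [Invertible (Fintype.card (↥(pre U C) ⧸ U.subgroupOf (pre U C)) : ZMod p)]
  [Finite N]

set_option maxHeartbeats 1000000 in
include hp2 hpT hU' in
/-- (i)+(ii): `χ` through `μ_p` and the Kummer count. -/
theorem chi_kummer (hFinW : FinW) :
    chiLev (LevelBridge13.pullBasisS (pre U C).subtype T) (inflSub U C σ) =
      - hP p (tauQ p U C σ hζ) (canonRep (opH0 (W 𝓑c Hc Ec) (CoindStar4.star 𝓑c Hc Ec)
          (star_comm 𝓑c Hc Ec))) +
        hP p (tauQ p U C σ hζ) (canonRep (opH1 𝓑c (W 𝓑c Hc Ec) (CoindStar4.star 𝓑c Hc Ec)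
          (star_comm 𝓑c Hc Ec))) +
        muP (tauQ p U C σ hζ) (torsRep p (canonRep (opH2 𝓑c (W 𝓑c Hc Ec)
          (CoindStar4.star 𝓑c Hc Ec) (star_comm 𝓑c Hc Ec)))) := by
  have hUC : U ≤ pre U C := le_pre U C
  have hHo' := hHo T U C hU'
  have hωH := omC_eq_one p U C hζ
  haveI : Module.Finite (ZMod p) N := Module.Finite.of_finite
  unfold tauQ
  rw [chiLev_step1 p T U C σ,
    chiLev_eq_muP_W p (comapBasis (pre U C).subtype (levelS T)) (U.subgroupOf (pre U C))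
      (omC p U C) hωH N (sigQ p U C σ) hHo']
  haveI : Finite (muRep p (omC p U C)) := inferInstanceAs (Finite (ZMod p))
  have hD := isDiscrete_muRep_of p (comapBasis (pre U C).subtype (levelS T))
    (U.subgroupOf (pre U C)) (omC p U C) hωH hHo'
  have hFin0 := hFinW p hp2 T hpT U (pre U C) hU' hUC
  have hFin1 := hFin0 (muRep p (omC p U C))
  obtain ⟨hF1, hF2⟩ := hFin1 hD
  exact KummerW4.kummer_count_W (comapBasis (pre U C).subtype (levelS T))
    (U.subgroupOf (pre U C)) p (muRep p (omC p U C)) (Rep.res (pre U C).subtype (ES T))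
    (jK p T U C hpT) (jK_equivariant p T U C hpT) (jK_injective p T U C hpT)
    (jK_torsion p T U C hpT) (ES_divisible p T U C hpT)
    (TraceOpen8.isDiscrete_resV (levelS T) (ES T) (pre U C) (isDiscrete_ES T))
    (dualTwQ p (omegaBar p (U.subgroupOf (pre U C)) (omC p U C) hωH) (sigQ p U C σ))

include hU' in
/-- (iii): `h_P(H¹(W E)) = 0`. -/
theorem hP_H1_eq_zero (hFinH1 : FinH1WE) :
    hP p (tauQ p U C σ hζ) (canonRep (opH1 𝓑c (W 𝓑c Hc Ec) (CoindStar4.star 𝓑c Hc Ec)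
      (star_comm 𝓑c Hc Ec))) = 0 := by
  haveI := hFinH1 T U (pre U C) hU' (le_pre U C)
  haveI : Module.Finite (ZMod p) N := Module.Finite.of_finite
  exact hP_eq_zero_of_finite _ _ _ _

include hp2 hpT hU' in
/-- (iv): the `p`-torsion of `H²` along `W(E) → W(I) → W(C)`. -/
theorem tors_split (hTor : TorWCS) (hOnto : OntoW) (hFinTors : FinTorsWIS) :
    muP (tauQ p U C σ hζ) (torsRep p (canonRep (opH2 𝓑c (W 𝓑c Hc Ic)
        (CoindStar4.star 𝓑c Hc Ic) (star_comm 𝓑c Hc Ic)))) =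
      muP (tauQ p U C σ hζ) (torsRep p (canonRep (opH2 𝓑c (W 𝓑c Hc Ec)
        (CoindStar4.star 𝓑c Hc Ec) (star_comm 𝓑c Hc Ec)))) +
      muP (tauQ p U C σ hζ) (torsRep p (canonRep (opH2 𝓑c (W 𝓑c Hc Cc)
        (CoindStar4.star 𝓑c Hc Cc) (star_comm 𝓑c Hc Cc)))) := by
  have hUC : U ≤ pre U C := le_pre U C
  haveI : Module.Finite (ZMod p) N := Module.Finite.of_finite
  haveI := hFinTors p hp2 T hpT U (pre U C) hU' hUC
  exact BrauerStar4.muP_tors_W (comapBasis (pre U C).subtype (levelS T))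
    (U.subgroupOf (pre U C)) p
    (resL (A := ES T) (B := IS T) (diag T) (pre U C))
    (resL_equivariant (A := ES T) (B := IS T) (diag T) (diag_ρ T) (pre U C))
    (resL (A := IS T) (B := CS T) (toCS T) (pre U C))
    (resL_equivariant (A := IS T) (B := CS T) (toCS T) (toCS_ρ T) (pre U C))
    (diag_injective T ⟨_, hpT⟩) (toCS_surjective T) (toCS_eq_zero_iff T)
    (TraceOpen8.isDiscrete_resV (levelS T) (IS T) (pre U C) (isDiscrete_IS T))
    (tauQ p U C σ hζ)
    (hTor p hp2 T hpT U (pre U C) hU' hUC) (hOnto p hp2 T hpT U (pre U C) hU' hUC)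

end Steps

section CSide

variable (hU : U ∈ (LevelBridge13.globalBasis T).sets) (hU' : U ∈ (levelS T).sets)
  (hζ : ∀ u ∈ U, u (zeta p) = zeta p)
  [Fintype (↥(pre U C) ⧸ U.subgroupOf (pre U C))]
  [Invertible (Fintype.card (↥(pre U C) ⧸ U.subgroupOf (pre U C)) : ZMod p)]
  [Fintype ↥C] [Invertible (Fintype.card ↥C : ZMod p)]
  [Finite N]
  (ω : (Γ ⧸ U) →* (ZMod p)ˣ) (hω : ∀ g : Γ, ω (QuotientGroup.mk g) = cycloChar p g)

include hU hU' hω in
/-- (vii): `h_P(H⁰(W E))` through the bridge. -/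
theorem hP_H0_eq (hPull : PullH0) (hBridge : BaseDefs4.Bridge) :
    hP p (tauQ p U C σ hζ) (canonRep (opH0 (W 𝓑c Hc Ec) (CoindStar4.star 𝓑c Hc Ec)
        (star_comm 𝓑c Hc Ec))) =
      (muP (MackeyArch0.dualTw ω C σ) (funPerm (ZMod p) ↥C (XT T U)) : ℤ) +
        muP (MackeyArch0.dualTw ω C σ) (funPerm (ZMod p) ↥C
          ((Γ ⧸ U) ⧸ Subgroup.zpowers (QuotientGroup.mk complexConjugation : Γ ⧸ U))) -
        muP (MackeyArch0.dualTw ω C σ) (funPerm (ZMod p) ↥C PUnit.{1}) := by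
  haveI : Module.Finite (ZMod p) N := Module.Finite.of_finite
  obtain ⟨f, hf⟩ := hPull T U hU' C
  have h6 : hP p (tauQ p U C σ hζ)
      (canonRep (opH0 (W 𝓑c Hc Ec) (CoindStar4.star 𝓑c Hc Ec) (star_comm 𝓑c Hc Ec))) =
      hP p (tauQ p U C σ hζ) (reE (eQ U C) (canonRep ((invRep T U).comp C.subtype))) := by
    refine hP_congr p _ _ _ f (fun q x => ?_)
    induction q using QuotientGroup.induction_on with
    | H h => exact hf h x
  rw [h6, tauQ_eq p U C σ hζ ω hω, hP_reE]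
  exact hBridge p T U hU C (Module.Dual (ZMod p) N) (MackeyArch0.dualTw ω C σ)

theorem reE_symm_reE {k : Type*} [CommRing k] {C₁ C₂ : Type*} [Group C₁] [Group C₂] (e : C₁ ≃* C₂)
    {P : Type*} [AddCommGroup P] [Module k P] (ρ : Representation k C₂ P) :
    reE e.symm (reE e ρ) = ρ := by
  ext c x
  simp [reE_apply]

include hω in
/-- the multiplicity in `𝔽_p[XT]`: from `Q` to `C`. -/
theorem muP_XT_eq :
    muP (tauQ p U C σ hζ) (@funPerm (ZMod p) _ (↥(pre U C) ⧸ U.subgroupOf (pre U C)) _ (XT T U)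
        (MulAction.compHom (XT T U) (qIncl U (pre U C)))) =
      muP (MackeyArch0.dualTw ω C σ) (funPerm (ZMod p) ↥C (XT T U)) := by
  letI : MulAction (↥(pre U C) ⧸ U.subgroupOf (pre U C)) (XT T U) :=
    MulAction.compHom (XT T U) (qIncl U (pre U C))
  have h := Bridge0.muP_funPerm_of_equiv (k := ZMod p) (eQ U C) (tauQ p U C σ hζ)
    (Y := XT T U) (Y' := XT T U) (Equiv.refl _) (fun c y => by
      show qIncl U (pre U C) c • y = ((eQ U C c : ↥C) : Γ ⧸ U) • y
      rw [coe_eQ])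
  rw [← h, tauQ_eq p U C σ hζ ω hω, reE_symm_reE]

include hω in
/-- the multiplicity in `𝔽_p[pt]`: from `Q` to `C`. -/
theorem muP_pt_eq :
    muP (tauQ p U C σ hζ) (funPerm (ZMod p) (↥(pre U C) ⧸ U.subgroupOf (pre U C)) PUnit.{1}) =
      muP (MackeyArch0.dualTw ω C σ) (funPerm (ZMod p) ↥C PUnit.{1}) := by
  have h := Bridge0.muP_funPerm_of_equiv (k := ZMod p) (eQ U C) (tauQ p U C σ hζ)
    (Y := PUnit.{1}) (Y' := PUnit.{1}) (Equiv.refl _) (fun c y => rfl)
  rw [← h, tauQ_eq p U C σ hζ ω hω, reE_symm_reE]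

end CSide

end Ctx

set_option maxHeartbeats 2000000 in
/-- **The base case from the glue contracts.** -/
theorem baseCase_of (hBridge : BaseDefs4.Bridge) (hIS : ISCount) (hFinW : FinW)
    (hFinH1 : FinH1WE) (hTor : TorWCS) (hOnto : OntoW) (hFinTors : FinTorsWIS) (hTriv : TrivWCS)
    (hSum : ISSum) (hPull : PullH0) : EulerSkel4.BaseCase := by
  intro p _ hp2 T hpT U _ hU hζ C hC hCp N _ _ _ σ
  have hU' : U ∈ (levelS T).sets := by
    rw [← Fermat.Agent.PT.GLUE.BasisCompare13.globalBasis_eq]; exact hU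
  have hUC : U ≤ pre U C := le_pre U C
  haveI : Finite (Γ ⧸ U) := finite_quot T U hU'
  haveI : Fintype ↥C := Fintype.ofFinite _
  haveI : Fintype (↥(pre U C) ⧸ U.subgroupOf (pre U C)) :=
    Fintype.ofEquiv ↥C (eQ U C).symm.toEquiv
  have hcardC : ((Fintype.card ↥C : ℕ) : ZMod p) ≠ 0 := by
    intro h0
    rw [ZMod.natCast_eq_zero_iff, ← Nat.card_eq_fintype_card] at h0
    have h1 : p ∣ Nat.gcd (Nat.card ↥C) p := Nat.dvd_gcd h0 dvd_rfl
    rw [Nat.Coprime] at hCp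
    rw [hCp] at h1
    exact (Fact.out : p.Prime).one_lt.ne' (Nat.dvd_one.1 h1)
  have hcardQ : ((Fintype.card (↥(pre U C) ⧸ U.subgroupOf (pre U C)) : ℕ) : ZMod p) ≠ 0 := by
    rw [Fintype.card_congr (eQ U C).toEquiv]
    exact hcardC
  haveI : Invertible ((Fintype.card ↥C : ℕ) : ZMod p) := invertibleOfNonzero hcardC
  haveI : Invertible ((Fintype.card (↥(pre U C) ⧸ U.subgroupOf (pre U C)) : ℕ) : ZMod p) :=
    invertibleOfNonzero hcardQ
  haveI : Module.Finite (ZMod p) N := Module.Finite.of_finite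
  obtain ⟨ω, hω, hArch⟩ := ArchSide5.arch_side p hp2 T U hU hζ C N σ
  have e1 := chi_kummer p T U C σ hp2 hpT hU' hζ hFinW
  have e2 := hP_H1_eq_zero p T U C σ hU' hζ hFinH1
  have e3 := tors_split p T U C σ hp2 hpT hU' hζ hTor hOnto hFinTors
  have e4 := hTriv p hp2 T hpT U (pre U C) hU' hUC (Module.Dual (ZMod p) N) (tauQ p U C σ hζ)
  have e5 := hIS p hp2 T hpT U (pre U C) hU' hUC (Module.Dual (ZMod p) N) (tauQ p U C σ hζ)
  have e6 := hSum p T U (pre U C) hU' hUC (Module.Dual (ZMod p) N) (tauQ p U C σ hζ)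
  have e7 := hP_H0_eq p T U C σ hU hU' hζ ω hω hPull hBridge
  have e8 := muP_XT_eq p T U C σ hζ ω hω
  have e9 := muP_pt_eq p U C σ hζ ω hω
  rw [e1, e2, hArch, e7]
  rw [e5, e6, e8] at e3
  rw [e4, e9] at e3
  omega

end Fermat.Agent.W56.BaseCase4
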