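/-
Programme W56 (target S56), chapter (F) FLAT (helper6): **base change of a function-model Hopf order
from `R` to the inertia-fixed ring `W₀ A`.**

If `H ⊆ (M → ℚ̄)` is a Hopf order over `R` for the action of `Iner A` and `R` maps into `W₀ A`, then
`baseChange A H = W₀[H]` is a Hopf order over `W₀ A` containing `H` (`isHopfOrder_baseChange`).
-/
import Mathlib
import Fermat.Agent.FF.SubOrd1
import Fermat.Agent.FF.InertiaWire8

set_option autoImplicit false

namespace Fermat.Agent.W56.BaseChg6

open Fermat.Agent.FF.HopfOrderB Fermat.Agent.FF.HopfOrderC Fermat.Agent.FF.SubOrd1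
  Fermat.Agent.FF.InertiaWire8

variable (A : ValuationSubring Qb)
variable {M : Type*} [AddCommGroup M] [DistribMulAction (Iner A) M]
variable {R : Type*} [CommRing R] [Algebra R Qb]

/-- the `W₀`-algebra generated by an order. -/
noncomputable def baseChange (H : Subalgebra R (M → Qb)) : Subalgebra (W0 A) (M → Qb) :=
  Algebra.adjoin (W0 A) (H : Set (M → Qb))

variable {A}
variable {H : Subalgebra R (M → Qb)}

theorem le_baseChange {h : M → Qb} (hh : h ∈ H) : h ∈ baseChange A H :=
  Algebra.subset_adjoin hh

omit [DistribMulAction (Iner A) M] in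
theorem smul_eq_smul (hRW : ∀ r : R, algebraMap R Qb r ∈ W0 A) (r : R) (x : M → Qb) :
    r • x = (⟨algebraMap R Qb r, hRW r⟩ : W0 A) • x := by
  funext z
  rw [Pi.smul_apply, Pi.smul_apply, Algebra.smul_def]
  rfl

theorem isHopfOrder_baseChange (hRW : ∀ r : R, algebraMap R Qb r ∈ W0 A)
    (hH : IsHopfOrder (Iner A) H) : IsHopfOrder (Iner A) (baseChange A H) := by
  haveI := hH.finite
  refine ⟨?_, ?_, ?_, ?_⟩
  · -- finiteness: generated by the `R`-module generators of `H`, which are integral
    obtain ⟨T, hT⟩ := (Module.Finite.fg_top : (⊤ : Submodule R H).FG)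
    set T' : Set (M → Qb) := (fun x : H => (x : M → Qb)) '' (T : Set H) with hT'
    have hfin : T'.Finite := (T.finite_toSet).image _
    have hint : ∀ x ∈ T', IsIntegral (W0 A) x := by
      rintro _ ⟨x, -, rfl⟩
      have h1 : IsIntegral R x := Algebra.IsIntegral.isIntegral x
      have h2 : IsIntegral R ((x : H) : M → Qb) := by
        have := h1.map H.val
        simpa using this
      let φ : R →+* W0 A := (algebraMap R Qb).codRestrict (W0 A) hRW
      exact IsIntegral.map_of_comp_eq φ (RingHom.id (M → Qb)) (by ext r z; rfl) h2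
    have hle : baseChange A H ≤ Algebra.adjoin (W0 A) T' := by
      refine Algebra.adjoin_le ?_
      intro h hh
      -- `h` is an `R`-combination of `T`
      have h1 : (⟨h, hh⟩ : H) ∈ Submodule.span R (T : Set H) := by rw [hT]; trivial
      have h2 : ∀ y : H, y ∈ Submodule.span R (T : Set H) →
          ((y : M → Qb)) ∈ Algebra.adjoin (W0 A) T' := by
        intro y hy
        induction hy using Submodule.span_induction with
        | mem x hx => exact Algebra.subset_adjoin ⟨x, hx, rfl⟩
        | zero => exact Subalgebra.zero_mem _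
        | add x y _ _ hx hy => exact Subalgebra.add_mem _ hx hy
        | smul r x _ hx =>
          have e : ((r • x : H) : M → Qb) = (⟨algebraMap R Qb r, hRW r⟩ : W0 A) • (x : M → Qb) :=
            smul_eq_smul hRW r _
          rw [e]
          exact Subalgebra.smul_mem _ hx _
      exact h2 ⟨h, hh⟩ h1
    have hge : Algebra.adjoin (W0 A) T' ≤ baseChange A H := by
      refine Algebra.adjoin_mono ?_
      rintro _ ⟨x, -, rfl⟩
      exact x.2
    have heq : baseChange A H = Algebra.adjoin (W0 A) T' := le_antisymm hle hge
    rw [heq]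
    exact Algebra.finite_adjoin_of_finite_of_isIntegral hfin hint
  · intro h hh
    unfold baseChange at hh
    induction hh using Algebra.adjoin_induction with
    | mem x hx => exact hH.equivariant x hx
    | algebraMap w =>
      intro σ z
      show (w : Qb) = σ • (w : Qb)
      exact (w.2.2 σ).symm
    | add x y _ _ hx hy =>
      intro σ z
      rw [Pi.add_apply, Pi.add_apply, hx σ z, hy σ z, smul_add]
    | mul x y _ _ hx hy =>
      intro σ z
      rw [Pi.mul_apply, Pi.mul_apply, hx σ z, hy σ z, smul_mul']
  · intro z z' hzz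
    exact hH.separates z z' fun h hh => hzz h (le_baseChange hh)
  · refine ⟨(H : Set (M → Qb)), rfl, fun s hs => ?_⟩
    obtain ⟨S, hS, hΔ⟩ := hH.coprod
    obtain ⟨ι, _, a, b, ha, hb, hab⟩ := hasCoprod_of_adjoin hS hΔ s hs
    exact ⟨ι, inferInstance, a, b, fun i => le_baseChange (ha i), fun i => le_baseChange (hb i),
      hab⟩

end Fermat.Agent.W56.BaseChg6
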