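/-
Programme W56 (target S56), stage 2, chapter (EC-5), helper5: **piece (v) of the base case**: the
`Ĉ ⧸ U`-module `H²(Ĉ; W(C_T|_Ĉ))[p]` is the trivial line,

  `μ_P(H²(Ĉ; W(C_T))[p]) = μ_P(𝔽_p)`        (`muP_tors_W_CS`),

for `U ≤ Ĉ ≤ Γ`, `U` a normal member of `levelS T`, `p` odd, `p ∈ T`, `[Ĉ : U]` prime to `p`:
`MonoTriv5.muP_torsRep_W_triv` at `Y = C_T|_Ĉ`, fed with `BrGlob1.card_pTor_H2_CS` at `V = Ĉ` (a
non-zero class of order `p`) and at `V = U` (through `ShapW6.subOfH2`).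
-/
import Mathlib
import Fermat.Agent.W56.MonoTriv5
import Fermat.Agent.W56.ShapW6
import Fermat.Agent.W56.BrGlob1

set_option autoImplicit false
set_option linter.unusedSectionVars false

open CategoryTheory ExtCitation

namespace Fermat.Agent.W56.MonoCS5

open Fermat.Agent.PT.PRO Fermat.Agent.PT.PRO.LevelCoh28 Fermat.Agent.PT.PRO.InvP4
  Fermat.Agent.PT.GLUE.Objects21 Fermat.Agent.W56.Mackey2 Fermat.Agent.W56.MuP4
  Fermat.Agent.W56.TorsSnake4 Fermat.Agent.W56.EquivUnits0 Fermat.Agent.W56.KummerStar4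
  Fermat.Agent.W56.IntRes4 Fermat.Agent.W56.CoindStar4 Fermat.Agent.W56.TraceOpen8

local notation "Γ" => (AlgebraicClosure ℚ ≃ₐ[ℚ] AlgebraicClosure ℚ)

/-- an additive isomorphism preserves the number of elements of `p`-torsion. -/
theorem card_pTor_congr (p : ℕ) {A B : Type*} [AddCommGroup A] [AddCommGroup B] (e : A ≃+ B) :
    Nat.card ↥(pTor p A) = Nat.card ↥(pTor p B) := by
  refine Nat.card_congr (Equiv.subtypeEquiv e.toEquiv fun a => ?_)
  show p • a = 0 ↔ p • e a = 0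
  rw [← map_nsmul]
  exact ⟨fun h => by rw [h, map_zero], fun h => e.injective (by rw [h, map_zero])⟩

/-- a group with `p ≥ 2` elements of `p`-torsion has a non-zero element of `p`-torsion. -/
theorem exists_ne_zero_of_card (p : ℕ) [hp : Fact p.Prime] {A : Type*} [AddCommGroup A]
    (h : Nat.card ↥(pTor p A) = p) : ∃ x : A, x ≠ 0 ∧ p • x = 0 := by
  have hp2 := hp.out.two_le
  have hfin : Finite ↥(pTor p A) := Nat.finite_of_card_ne_zero (by rw [h]; omega)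
  have hnt : Nontrivial ↥(pTor p A) := by
    rw [← Finite.one_lt_card_iff_nontrivial, h]
    omega
  obtain ⟨x, hx⟩ := exists_ne (0 : ↥(pTor p A))
  exact ⟨x.1, fun h0 => hx (Subtype.ext h0), x.2⟩

variable (p : ℕ) [Fact p.Prime] (hp2 : p ≠ 2) (T : Finset Nat.Primes) (hpT : pPrime p ∈ T)
  (U Ĉ : Subgroup Γ) [U.Normal] (hU : U ∈ (levelS T).sets) (hUC : U ≤ Ĉ)
  [Fintype (↥Ĉ ⧸ U.subgroupOf Ĉ)] [Invertible (Fintype.card (↥Ĉ ⧸ U.subgroupOf Ĉ) : ZMod p)]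

include hp2 hpT hU hUC in
/-- **(v)** `H²(Ĉ; W(C_T|_Ĉ))[p]` is the trivial line. -/
theorem muP_tors_W_CS {P : Type*} [AddCommGroup P] [Module (ZMod p) P]
    (ρP : Representation (ZMod p) (↥Ĉ ⧸ U.subgroupOf Ĉ) P) :
    muP ρP (torsRep p (canonRep (opH2 (comapBasis Ĉ.subtype (levelS T))
        (W (comapBasis Ĉ.subtype (levelS T)) (U.subgroupOf Ĉ) (Rep.res Ĉ.subtype (CS T)))
        (CoindStar4.star (comapBasis Ĉ.subtype (levelS T)) (U.subgroupOf Ĉ)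
          (Rep.res Ĉ.subtype (CS T)))
        (star_comm (comapBasis Ĉ.subtype (levelS T)) (U.subgroupOf Ĉ)
          (Rep.res Ĉ.subtype (CS T)))))) =
      muP ρP (funPerm (ZMod p) (↥Ĉ ⧸ U.subgroupOf Ĉ) PUnit.{1}) := by
  have hp : p.Prime := Fact.out
  have hY : IsDiscrete (comapBasis Ĉ.subtype (levelS T)).sets (Rep.res Ĉ.subtype (CS T)) :=
    isDiscrete_resV (levelS T) (CS T) Ĉ (isDiscrete_CS T)
  have h1 := BrGlob1.card_pTor_H2_CS T p hpT hp2 Ĉ ⟨U, hU, hUC⟩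
  have h2 := BrGlob1.card_pTor_H2_CS T p hpT hp2 U ⟨U, hU, le_rfl⟩
  have h3 : Nat.card ↥(pTor p (H2 (basisV (comapBasis Ĉ.subtype (levelS T)) (U.subgroupOf Ĉ))
      (Rep.res (U.subgroupOf Ĉ).subtype (Rep.res Ĉ.subtype (CS T))))) = p :=
    (card_pTor_congr p (ShapW6.subOfH2 (levelS T) Ĉ U hUC (CS T)).toAddEquiv).trans h2
  have hfin : Finite ↥(pTor p (H2 (basisV (comapBasis Ĉ.subtype (levelS T)) (U.subgroupOf Ĉ))
      (Rep.res (U.subgroupOf Ĉ).subtype (Rep.res Ĉ.subtype (CS T))))) :=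
    Nat.finite_of_card_ne_zero (by rw [h3]; exact hp.ne_zero)
  exact MonoTriv5.muP_torsRep_W_triv (comapBasis Ĉ.subtype (levelS T)) (U.subgroupOf Ĉ) p
    (Rep.res Ĉ.subtype (CS T)) hY (exists_ne_zero_of_card p h1) hfin h3.le ρP

end Fermat.Agent.W56.MonoCS5
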