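/-
Programme W56 (target S56), stage 2, chapter (EC-5), helper5: the glue contract
`BaseGlue4.TrivWCS` (`H²(Ĉ; W C_T)[p]` is the trivial line), verbatim, from `MonoCS5.muP_tors_W_CS`.
-/
import Mathlib
import Fermat.Agent.W56.MonoCS5
import Fermat.Agent.W56.BaseGlue4

set_option autoImplicit false

namespace Fermat.Agent.W56.TrivWCS5

/-- **(triv)** `BaseGlue4.TrivWCS`. -/
theorem trivWCS : BaseGlue4.TrivWCS := by
  intro p _ hp2 T hpT U Ĉ _ hU hUC _ _ P _ _ _ ρP
  exact MonoCS5.muP_tors_W_CS p hp2 T hpT U Ĉ hU hUC ρP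

end Fermat.Agent.W56.TrivWCS5
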