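/-
Programme W56 (target S56), stage 2, chapter (EC-5), helper4: `EulerSkel4.BaseCase` from the THREE
glue inputs still open (`ISCount`, `FinW`, `FinH1WE`), the seven others being discharged
(`Bridge3.bridge`, `TorWCS8.torWCS`, `OntoW3.ontoW`, `FinTorsIS1.finTorsWIS`, `TrivWCS5.trivWCS`,
`ISSum1.isSum`, `PullH0_3.pullH0`).
-/
import Mathlib
import Fermat.Agent.W56.BaseCase4
import Fermat.Agent.W56.Bridge3
import Fermat.Agent.W56.TorWCS8
import Fermat.Agent.W56.OntoW3
import Fermat.Agent.W56.FinTorsIS1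
import Fermat.Agent.W56.TrivWCS5
import Fermat.Agent.W56.ISSum1
import Fermat.Agent.W56.PullH0_3

set_option autoImplicit false

namespace Fermat.Agent.W56.BaseThree4

open Fermat.Agent.W56.BaseGlue4 Fermat.Agent.W56.BaseContracts4

/-- the base case from the three inputs still open. -/
theorem baseCase_of_three (hIS : ISCount) (hFinW : FinW) (hFinH1 : FinH1WE) :
    EulerSkel4.BaseCase :=
  BaseCase4.baseCase_of Bridge3.bridge hIS hFinW hFinH1 TorWCS8.torWCS OntoW3.ontoW
    FinTorsIS1.finTorsWIS TrivWCS5.trivWCS ISSum1.isSum PullH0_3.pullH0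

end Fermat.Agent.W56.BaseThree4
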