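/-
Programme W56 (target S56), stage 2, chapter (EC-5), glue (i) + (viii) + (P8)-instantiation (helper3):
**the Euler characteristic of the base case through `W(μ_p)` and through `W(E_T)`**.

Setting of `EulerSkel4.BaseCase`: `U ◁ Γ` a member of `globalBasis T` fixing `ζ_p`, `C ≤ Γ ⧸ U`,
`Ĉ = pre U C`, `G := ↥Ĉ`, `𝓑 := comapBasis Ĉ.subtype (levelS T)`, `H := U.subgroupOf Ĉ`,
`Q := G ⧸ H ≃* C` (`PullQC0.eQC`), `ωC := cycloChar p` restricted to `Ĉ`.

* (viii) `pullBasisS_eq : pullBasisS r S = comapBasis r (levelS S)`.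
* (i) `chiLev_inflSub`: `χ(Ĉ, σ) = μ_P(H⁰(W μ_p)) − μ_P(H¹(W μ_p)) + μ_P(H²(W μ_p))`,
  `P = dualTwQ ω̄ (σ ∘ eQC)` (`TwistW4.chiLev_eq_muP_W` instantiated); `dualP_eq`: `P` is the transport
  along `eQC` of `MackeyArch0.dualTw (ArchSide5.omegaQ p U hζ) C σ`.
* (P8) `chiLev_inflSub_kummer`: `χ(Ĉ, σ) = −h_P(H⁰(W E_T)) + h_P(H¹(W E_T)) + μ_P(H²(W E_T)[p])`
  (`KummerW4.kummer_count_W` at `Z = 𝔽_p(ωC)`, `E = E_T|_Ĉ`, `j = ζ^(·)` of `KerIsoGal7.muES`).
-/
import Mathlib
import Fermat.Agent.W56.EulerSkel4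
import Fermat.Agent.W56.TwistW4
import Fermat.Agent.W56.KummerW4
import Fermat.Agent.W56.PullQC0
import Fermat.Agent.W56.ArchSide5
import Fermat.Agent.PT.GLUE.BasisCompare13
import Fermat.Agent.PT.PRO.KerIsoGal7

set_option autoImplicit false
set_option linter.unusedSectionVars false
set_option linter.style.haveILetI false

open CategoryTheory ExtCitation

namespace Fermat.Agent.W56.ChiInst3

open Fermat.Agent.PT.PRO Fermat.Agent.PT.BR Fermat.Agent.PT.PRO.LevelCoh28
  Fermat.Agent.PT.PRO.LevelCohRes28 Fermat.Agent.PT.PRO.SmoothCoind28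
  Fermat.Agent.PT.GLUE.Objects21
  Fermat.Agent.W56.MuP4 Fermat.Agent.W56.TorsSnake4 Fermat.Agent.W56.EquivUnits0
  Fermat.Agent.W56.QuotGal0 Fermat.Agent.W56.KummerStar4
  Fermat.Agent.W56.CoindStar4 Fermat.Agent.W56.IntRes4 Fermat.Agent.W56.InflCoind4
  Fermat.Agent.W56.ChiLev4 Fermat.Agent.W56.ChiArch4 Fermat.Agent.W56.PullQC0
  Fermat.Agent.W56.TwistW4
open Fermat.Agent.S14.Fields (zeta)

local notation "Γ" => (AlgebraicClosure ℚ ≃ₐ[ℚ] AlgebraicClosure ℚ)

/-! ### (viii) the bases -/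

/-- the basis of `EulerSkel4.BaseCase` is the pulled-back basis of `levelS`. -/
theorem pullBasisS_eq {G : Type} [Group G] (r : G →* Γ) (S : Finset Nat.Primes) :
    LevelBridge13.pullBasisS r S = comapBasis r (levelS S) := by
  apply Fermat.Agent.PT.GLUE.BasisCompare13.levelBasis_ext
  ext V
  constructor
  · rintro ⟨F, hF, rfl⟩
    exact ⟨_, ⟨F, hF, rfl⟩, rfl⟩
  · rintro ⟨_, ⟨F, hF, rfl⟩, rfl⟩
    exact ⟨F, hF, rfl⟩

/-- the same with `globalBasis`. -/
theorem pullBasisS_eq_global {G : Type} [Group G] (r : G →* Γ) (S : Finset Nat.Primes) :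
    LevelBridge13.pullBasisS r S = comapBasis r (LevelBridge13.globalBasis S) := by
  rw [Fermat.Agent.PT.GLUE.BasisCompare13.globalBasis_eq, pullBasisS_eq]

/-! ### the data of the base case -/

section Data

variable (p : ℕ) [Fact p.Prime] (T : Finset Nat.Primes) (U : Subgroup Γ) [hUn : U.Normal]
  (C : Subgroup (Γ ⧸ U))

/-- the basis of `G = ↥Ĉ`. -/
noncomputable abbrev basC : LevelBasis ↥(pre U C) := comapBasis (pre U C).subtype (levelS T)

/-- the cyclotomic character on `Ĉ`. -/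
noncomputable def omegaC : ↥(pre U C) →* (ZMod p)ˣ := (cycloChar p).comp (pre U C).subtype

theorem omegaC_apply (c : ↥(pre U C)) : omegaC p U C c = cycloChar p (c : Γ) := rfl

variable (hζ : ∀ u ∈ U, u (zeta p) = zeta p)

include hζ in
theorem omegaC_of_mem (h : ↥(pre U C)) (hh : h ∈ U.subgroupOf (pre U C)) : omegaC p U C h = 1 :=
  ArchSide5.cycloChar_eq_one_of_fix p (hζ _ (Subgroup.mem_subgroupOf.1 hh))

/-- `U ∩ Ĉ` is a member of the basis. -/
theorem subgroupOf_mem (hU : U ∈ (LevelBridge13.globalBasis T).sets) :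
    U.subgroupOf (pre U C) ∈ (basC T U C).sets := by
  obtain ⟨F, hF, rfl⟩ := hU
  exact ⟨_, ⟨F, hF, rfl⟩, rfl⟩

theorem exists_le_subgroupOf (hU : U ∈ (LevelBridge13.globalBasis T).sets) :
    ∃ V ∈ (basC T U C).sets, V ≤ U.subgroupOf (pre U C) :=
  ⟨_, subgroupOf_mem T U C hU, le_rfl⟩

/-- `ω̄` on `Q` is the pull-back of `ω` on `Γ ⧸ U`. -/
theorem omegaBar_eq (q : ↥(pre U C) ⧸ U.subgroupOf (pre U C)) :
    omegaBar p (U.subgroupOf (pre U C)) (omegaC p U C) (omegaC_of_mem p U C hζ) q =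
      ArchSide5.omegaQ p U hζ ((eQC U C q : ↥C) : Γ ⧸ U) := by
  induction q using QuotientGroup.induction_on with
  | H c => rfl

variable {N : Type} [AddCommGroup N] [Module (ZMod p) N] (σ : Representation (ZMod p) ↥C N)

/-- the module `P = N^∨(ω)` over `Q`. -/
noncomputable abbrev dualP : Representation (ZMod p) (↥(pre U C) ⧸ U.subgroupOf (pre U C))
    (Module.Dual (ZMod p) N) :=
  dualTwQ p (omegaBar p (U.subgroupOf (pre U C)) (omegaC p U C) (omegaC_of_mem p U C hζ))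
    (reE (eQC U C) σ)

/-- `P` is the transport along `Q ≃* C` of the module `N^∨(ω)` of the archimedean side. -/
theorem dualP_eq :
    dualP p U C hζ σ = reE (eQC U C) (MackeyArch0.dualTw (ArchSide5.omegaQ p U hζ) C σ) :=
  dualTwQ_reE C (eQC U C) (ArchSide5.omegaQ p U hζ) _ (omegaBar_eq p U C hζ) σ

theorem reE_symm_dualP :
    reE (eQC U C).symm (dualP p U C hζ σ) = MackeyArch0.dualTw (ArchSide5.omegaQ p U hζ) C σ :=
  reE_symm_dualTwQ C (eQC U C) (ArchSide5.omegaQ p U hζ) _ (omegaBar_eq p U C hζ) σ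

/-- the inflation of `σ ∘ eQC` from `Q` to `Ĉ` is the inflation of `σ` from `C`. -/
theorem inflQ_eq :
    inflQ p (U.subgroupOf (pre U C)) N (reE (eQC U C) σ) = inflSub U C σ := rfl

end Data

/-! ### (i) the Euler characteristic through `W(μ_p)` -/

section Chi

variable (p : ℕ) [Fact p.Prime] (T : Finset Nat.Primes) (U : Subgroup Γ) [hUn : U.Normal]
  (hU : U ∈ (LevelBridge13.globalBasis T).sets) (hζ : ∀ u ∈ U, u (zeta p) = zeta p)
  (C : Subgroup (Γ ⧸ U))
  [Fintype (↥(pre U C) ⧸ U.subgroupOf (pre U C))]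
  [Invertible (Fintype.card (↥(pre U C) ⧸ U.subgroupOf (pre U C)) : ZMod p)]
  (N : Type) [AddCommGroup N] [Module (ZMod p) N] [Finite N] (σ : Representation (ZMod p) ↥C N)

include hU in
/-- **(i)**: `χ(Ĉ, σ) = μ_P(H⁰(W μ_p)) − μ_P(H¹(W μ_p)) + μ_P(H²(W μ_p))`. -/
theorem chiLev_inflSub :
    chiLev (LevelBridge13.pullBasisS (pre U C).subtype T) (inflSub U C σ) =
      (muP (dualP p U C hζ σ)
          (opH0 (W (basC T U C) (U.subgroupOf (pre U C)) (muRep p (omegaC p U C)))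
            (star (basC T U C) (U.subgroupOf (pre U C)) (muRep p (omegaC p U C)))
            (star_comm (basC T U C) (U.subgroupOf (pre U C)) (muRep p (omegaC p U C)))) : ℤ) -
        muP (dualP p U C hζ σ)
          (opH1 (basC T U C) (W (basC T U C) (U.subgroupOf (pre U C)) (muRep p (omegaC p U C)))
            (star (basC T U C) (U.subgroupOf (pre U C)) (muRep p (omegaC p U C)))
            (star_comm (basC T U C) (U.subgroupOf (pre U C)) (muRep p (omegaC p U C)))) +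
        muP (dualP p U C hζ σ)
          (opH2 (basC T U C) (W (basC T U C) (U.subgroupOf (pre U C)) (muRep p (omegaC p U C)))
            (star (basC T U C) (U.subgroupOf (pre U C)) (muRep p (omegaC p U C)))
            (star_comm (basC T U C) (U.subgroupOf (pre U C)) (muRep p (omegaC p U C)))) := by
  rw [pullBasisS_eq, ← inflQ_eq p U C σ]
  exact chiLev_eq_muP_W p (basC T U C) (U.subgroupOf (pre U C)) (omegaC p U C)
    (omegaC_of_mem p U C hζ) N (reE (eQC U C) σ) (exists_le_subgroupOf T U C hU)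

end Chi

end Fermat.Agent.W56.ChiInst3
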