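/-
Programme W56 (target S56), stage 2, chapter (EC-4), helper4: **Shapiro's lemma for the Euler
characteristic of level cohomology**: `chiLev 𝓑G (Coind^sm X) = chiLev 𝓑H X` for `i : H →* G`
continuous with induced basis (degrees 1, 2: `PT/PRO/ShapiroLevel28`; degree 0: the invariants of
the smooth coinduced module are the constant functions with invariant value).
-/
import Mathlib
import Fermat.Agent.PT.PRO.ShapiroLevel28
import Fermat.Agent.W56.ChiLev4

set_option autoImplicit false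
set_option linter.unusedSectionVars false

universe u

open CategoryTheory groupCohomology

namespace Fermat.Agent.W56.ChiShapiro4

open Fermat.Agent.PT.PRO.LevelCoh28 Fermat.Agent.PT.PRO.LevelCohRes28
  Fermat.Agent.PT.PRO.SmoothCoind28 Fermat.Agent.PT.PRO.ShapiroLevel28 Fermat.Agent.W56.ChiLev4

variable {k G H : Type u} [Field k] [Group G] [Group H]
  (i : H →* G) (𝓑G : LevelBasis G) (𝓑H : LevelBasis H) (X : Rep.{u} k H)

/-- Shapiro in degree 0: `(Coind^sm X)^G ≃ X^H`. -/
noncomputable def sh0Equiv : ↥(scoind i 𝓑G X).ρ.invariants ≃ₗ[k] ↥X.ρ.invariants where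
  toFun f := ⟨ev i 𝓑G X f.1, ev_mem_invariants i 𝓑G X f.2⟩
  map_add' _ _ := rfl
  map_smul' _ _ := rfl
  invFun x := ⟨constFun i 𝓑G X x.1 x.2, constFun_mem_invariants i 𝓑G X x.1 x.2⟩
  left_inv f := Subtype.ext (eq_constFun_of_mem_invariants i 𝓑G X f.2).symm
  right_inv _ := rfl

variable (hcont : IsLevelHom i 𝓑H.sets 𝓑G.sets)
  (hind : ∀ V ∈ 𝓑H.sets, ∃ U ∈ 𝓑G.sets, U.comap i ≤ V) (hX : IsDiscrete 𝓑H.sets X)

include hcont hind hX in
/-- **Shapiro's lemma for the Euler characteristic.** -/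
theorem chiLev_scoind : chiLev 𝓑G (scoind i 𝓑G X) = chiLev 𝓑H X := by
  unfold chiLev
  rw [(sh0Equiv i 𝓑G X).finrank_eq, (sh1Equiv i 𝓑G 𝓑H hcont hind X hX).finrank_eq,
    (sh2Equiv i 𝓑G 𝓑H hcont hind X hX).finrank_eq]

end Fermat.Agent.W56.ChiShapiro4
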