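/-
Programme W56 (target S56), chapter (F) FLAT (helper6): **linear algebra over the dual numbers for the
connected part of a flat lift** (abstract form; Mathlib only).

`V` a vector space over a field `k`, `r : G →* End_k V`, `c : G → End_k V` a cocycle
(`c (σ τ) = r σ ∘ c τ ∘ r σ⁻¹ + c σ`).  The lift `(1 + ε c) r` to `k[ε]` is modelled on `V × V`
(`(v, w) = v + ε w`) by `act r c σ (v, w) = (r σ v, r σ w + c σ (r σ v))`.
If `L ≤ V × V` is a subgroup with
* `act σ x - x ∈ L` for `σ ∈ I`, and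
* RIGIDITY: `T ≤ S ≤ L`, `act σ x - x ∈ T` for all `σ ∈ I`, `x ∈ S` implies `S ≤ T`,
then (`exists_conj`) there is `X : End_k V` such that the cohomologous cocycle
`c' σ = c σ + r σ ∘ X ∘ r σ⁻¹ - X` satisfies, with `ℓ = line r I = (I - 1) V`:
* `c' σ V ⊆ ℓ` for `σ ∈ I`;
* `c' τ ℓ ⊆ ℓ` for `τ` in any subgroup `N` normalising `I`.
-/
import Mathlib

set_option autoImplicit false

namespace Fermat.Agent.W56.ConnDual6

variable {k : Type*} [Field k] {V : Type*} [AddCommGroup V] [Module k V] {G : Type*} [Group G]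

/-- the action of `(1 + ε c σ) r σ` on `V ⊕ ε V`. -/
def act (r : G →* Module.End k V) (c : G → Module.End k V) (σ : G) : V × V →ₗ[k] V × V where
  toFun x := (r σ x.1, r σ x.2 + c σ (r σ x.1))
  map_add' x y := by
    ext
    · simp
    · simp only [Prod.fst_add, Prod.snd_add, map_add]; abel
  map_smul' t x := by
    ext <;> simp

@[simp] theorem act_apply (r : G →* Module.End k V) (c : G → Module.End k V) (σ : G) (x : V × V) :
    act r c σ x = (r σ x.1, r σ x.2 + c σ (r σ x.1)) := rfl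

theorem r_inv_apply (r : G →* Module.End k V) (σ : G) (v : V) : r σ⁻¹ (r σ v) = v := by
  rw [← Module.End.mul_apply, ← map_mul, inv_mul_cancel, map_one, Module.End.one_apply]

theorem r_apply_inv (r : G →* Module.End k V) (σ : G) (v : V) : r σ (r σ⁻¹ v) = v := by
  rw [← Module.End.mul_apply, ← map_mul, mul_inv_cancel, map_one, Module.End.one_apply]

theorem act_mul (r : G →* Module.End k V) (c : G → Module.End k V)
    (hc : ∀ σ τ, c (σ * τ) = r σ * c τ * r σ⁻¹ + c σ) (σ τ : G) (x : V × V) :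
    act r c (σ * τ) x = act r c σ (act r c τ x) := by
  ext
  · simp [map_mul]
  · simp only [act_apply, map_mul, Module.End.mul_apply, hc, LinearMap.add_apply, map_add,
      r_inv_apply]
    abel

/-- `(I - 1) V`. -/
def line (r : G →* Module.End k V) (I : Subgroup G) : Submodule k V :=
  Submodule.span k {x | ∃ σ ∈ I, ∃ v : V, x = r σ v - v}

theorem sub_mem_line (r : G →* Module.End k V) (I : Subgroup G) {σ : G} (hσ : σ ∈ I) (v : V) :
    r σ v - v ∈ line r I :=
  Submodule.subset_span ⟨σ, hσ, v, rfl⟩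

theorem apply_mem_line (r : G →* Module.End k V) {I N : Subgroup G}
    (hIN : ∀ τ ∈ N, ∀ σ ∈ I, τ * σ * τ⁻¹ ∈ I) {τ : G} (hτ : τ ∈ N) {v : V}
    (hv : v ∈ line r I) : r τ v ∈ line r I := by
  refine Submodule.span_induction ?_ ?_ ?_ ?_ hv
  · rintro x ⟨σ, hσ, w, rfl⟩
    have e : r τ (r σ w - w) = r (τ * σ * τ⁻¹) (r τ w) - r τ w := by
      rw [map_sub, map_mul, map_mul, Module.End.mul_apply, Module.End.mul_apply, r_inv_apply]
    rw [e]
    exact sub_mem_line r I (hIN τ hτ σ hσ) _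
  · rw [map_zero]; exact Submodule.zero_mem _
  · intro x y _ _ hx hy
    rw [map_add]; exact Submodule.add_mem _ hx hy
  · intro t x _ hx
    rw [map_smul]; exact Submodule.smul_mem _ t hx

section Main

variable (r : G →* Module.End k V) (c : G → Module.End k V)
  (hc : ∀ σ τ, c (σ * τ) = r σ * c τ * r σ⁻¹ + c σ)
  (I : Subgroup G) (L : AddSubgroup (V × V))
  (h2 : ∀ σ ∈ I, ∀ x : V × V, act r c σ x - x ∈ L)
  (h3 : ∀ S T : AddSubgroup (V × V), T ≤ S → S ≤ L →
    (∀ σ ∈ I, ∀ x ∈ S, act r c σ x - x ∈ T) → S ≤ T)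

include h2 h3

/-- `L` is generated by the `act σ y - y`. -/
theorem eq_closure :
    L = AddSubgroup.closure {x : V × V | ∃ σ ∈ I, ∃ y : V × V, x = act r c σ y - y} := by
  have hle : AddSubgroup.closure {x : V × V | ∃ σ ∈ I, ∃ y : V × V, x = act r c σ y - y} ≤ L := by
    rw [AddSubgroup.closure_le]
    rintro x ⟨σ, hσ, y, rfl⟩
    exact h2 σ hσ y
  refine le_antisymm (h3 L _ hle le_rfl ?_) hle
  intro σ hσ y _
  exact AddSubgroup.subset_closure ⟨σ, hσ, y, rfl⟩

/-- `L` is stable under every additive endomorphism commuting with the action of `I`. -/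
theorem map_mem (f : V × V →+ V × V) (hf : ∀ σ ∈ I, ∀ y, f (act r c σ y) = act r c σ (f y))
    {x : V × V} (hx : x ∈ L) : f x ∈ L := by
  rw [eq_closure r c I L h2 h3] at hx
  refine AddSubgroup.closure_induction ?_ ?_ ?_ ?_ hx
  · rintro x ⟨σ, hσ, y, rfl⟩
    rw [map_sub, hf σ hσ]
    exact h2 σ hσ _
  · rw [map_zero]; exact L.zero_mem
  · intro x y _ _ hx hy
    rw [map_add]; exact L.add_mem hx hy
  · intro x _ hx
    rw [map_neg]; exact L.neg_mem hx

theorem smul_mem (t : k) {x : V × V} (hx : x ∈ L) : t • x ∈ L := by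
  have := map_mem r c I L h2 h3 (DistribSMul.toAddMonoidHom (V × V) t)
    (fun σ _ y => ((act r c σ).map_smul t y).symm) hx
  exact this

/-- multiplication by `ε`. -/
def eps : V × V →+ V × V where
  toFun x := (0, x.1)
  map_zero' := rfl
  map_add' x y := by ext <;> simp

omit h2 h3 in
@[simp] theorem eps_apply (x : V × V) : (eps x : V × V) = (0, x.1) := rfl

theorem eps_mem {x : V × V} (hx : x ∈ L) : ((0, x.1) : V × V) ∈ L := by
  have := map_mem r c I L h2 h3 (eps (V := V)) (fun σ _ y => by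
    ext <;> simp) hx
  exact this

theorem fst_mem_line {x : V × V} (hx : x ∈ L) : x.1 ∈ line r I := by
  rw [eq_closure r c I L h2 h3] at hx
  refine AddSubgroup.closure_induction ?_ ?_ ?_ ?_ hx
  · rintro x ⟨σ, hσ, y, rfl⟩
    exact sub_mem_line r I hσ y.1
  · exact Submodule.zero_mem _
  · intro x y _ _ hx hy
    exact Submodule.add_mem _ hx hy
  · intro x _ hx
    exact Submodule.neg_mem _ hx

theorem exists_mem_fst_eq {v : V} (hv : v ∈ line r I) : ∃ x ∈ L, x.1 = v := by
  refine Submodule.span_induction ?_ ?_ ?_ ?_ hv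
  · rintro x ⟨σ, hσ, w, rfl⟩
    exact ⟨act r c σ (w, 0) - (w, 0), h2 σ hσ _, by simp⟩
  · exact ⟨0, L.zero_mem, rfl⟩
  · rintro x y _ _ ⟨x', hx', rfl⟩ ⟨y', hy', rfl⟩
    exact ⟨x' + y', L.add_mem hx' hy', rfl⟩
  · rintro t x _ ⟨x', hx', rfl⟩
    exact ⟨t • x', smul_mem r c I L h2 h3 t hx', rfl⟩

/-- `L ∩ ε V = ε (I - 1) V`. -/
theorem zero_mk_mem_iff (w : V) : ((0, w) : V × V) ∈ L ↔ w ∈ line r I := by
  have hback : ∀ w : V, w ∈ line r I → ((0, w) : V × V) ∈ L := by
    intro w hw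
    obtain ⟨x, hx, rfl⟩ := exists_mem_fst_eq r c I L h2 h3 hw
    exact eps_mem r c I L h2 h3 hx
  refine ⟨fun hw => ?_, hback w⟩
  let S : AddSubgroup (V × V) := L ⊓ (AddMonoidHom.fst V V).ker
  let T : AddSubgroup (V × V) := (line r I).toAddSubgroup.map (AddMonoidHom.inr V V)
  have hTS : T ≤ S := by
    rintro x ⟨w', hw', rfl⟩
    exact ⟨hback w' hw', rfl⟩
  have hST : S ≤ T := by
    refine h3 S T hTS inf_le_left ?_
    rintro σ hσ x ⟨_, hx0⟩
    have hx0' : x.1 = 0 := hx0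
    refine ⟨r σ x.2 - x.2, sub_mem_line r I hσ _, ?_⟩
    ext <;> simp [hx0']
  obtain ⟨w', hw', e⟩ := hST (show ((0, w) : V × V) ∈ S from ⟨hw, rfl⟩)
  have e2 : w' = w := congrArg Prod.snd e
  rw [← e2]
  exact hw'

/-- `L` as a `k`-subspace. -/
def Lsub : Submodule k (V × V) where
  carrier := L
  add_mem' := L.add_mem
  zero_mem' := L.zero_mem
  smul_mem' t _ hx := smul_mem r c I L h2 h3 t hx

/-- there is `X` with `(v, X v) ∈ L` for all `v ∈ (I - 1) V`. -/
theorem exists_section : ∃ X : Module.End k V, ∀ v ∈ line r I, ((v, X v) : V × V) ∈ L := by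
  let L' : Submodule k (V × V) := Lsub r c I L h2 h3
  let f : ↥L' →ₗ[k] ↥(line r I) :=
    ((LinearMap.fst k V V).comp L'.subtype).codRestrict (line r I)
      (fun x => fst_mem_line r c I L h2 h3 x.2)
  have hf : Function.Surjective f := by
    rintro ⟨v, hv⟩
    obtain ⟨x, hx, rfl⟩ := exists_mem_fst_eq r c I L h2 h3 hv
    exact ⟨⟨x, hx⟩, rfl⟩
  obtain ⟨s, hs⟩ := f.exists_rightInverse_of_surjective (LinearMap.range_eq_top.2 hf)
  let X0 : ↥(line r I) →ₗ[k] V := ((LinearMap.snd k V V).comp L'.subtype).comp s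
  obtain ⟨X, hX⟩ := X0.exists_extend
  refine ⟨X, fun v hv => ?_⟩
  have h1 : X v = X0 ⟨v, hv⟩ := by
    rw [← hX]; rfl
  have h4 : f (s ⟨v, hv⟩) = ⟨v, hv⟩ := by
    have := congrArg (fun g : ↥(line r I) →ₗ[k] ↥(line r I) => g ⟨v, hv⟩) hs
    exact this
  have h5 : ((s ⟨v, hv⟩ : ↥L') : V × V).1 = v := congrArg Subtype.val h4
  have h6 : ((v, X v) : V × V) = ((s ⟨v, hv⟩ : ↥L') : V × V) := by
    ext
    · exact h5.symm
    · rw [h1]; rfl
  rw [h6]
  exact (s ⟨v, hv⟩).2

include hc in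
/-- **the cocycle of a lift whose `(I - 1) W` is rigid is cohomologous to a Borel-valued one.** -/
theorem exists_conj (N : Subgroup G) (hIN : ∀ τ ∈ N, ∀ σ ∈ I, τ * σ * τ⁻¹ ∈ I) :
    ∃ X : Module.End k V,
      (∀ σ ∈ I, ∀ v : V, (c σ + r σ * X * r σ⁻¹ - X) v ∈ line r I) ∧
      (∀ τ ∈ N, ∀ v ∈ line r I, (c τ + r τ * X * r τ⁻¹ - X) v ∈ line r I) := by
  obtain ⟨X, hX⟩ := exists_section r c I L h2 h3
  have hmem : ∀ v w : V, ((v, w) : V × V) ∈ L → w - X v ∈ line r I := by
    intro v w h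
    have hv : v ∈ line r I := fst_mem_line r c I L h2 h3 h
    have h1 : ((0, w - X v) : V × V) = (v, w) - (v, X v) := by
      ext <;> simp
    rw [← zero_mk_mem_iff r c I L h2 h3, h1]
    exact L.sub_mem h (hX v hv)
  refine ⟨X, fun σ hσ v => ?_, fun τ hτ v hv => ?_⟩
  · have h1 := h2 σ hσ ((r σ⁻¹ v, X (r σ⁻¹ v)) : V × V)
    have h4 := hmem _ _ h1
    simp only [act_apply, r_apply_inv, map_sub] at h4
    have e : (c σ + r σ * X * r σ⁻¹ - X) v =
        r σ (X (r σ⁻¹ v)) + c σ v - X (r σ⁻¹ v) - (X v - X (r σ⁻¹ v)) := by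
      simp only [LinearMap.sub_apply, LinearMap.add_apply, Module.End.mul_apply]
      abel
    rw [e]
    exact h4
  · -- `L` is stable under `act τ`
    have hinv : τ⁻¹ ∈ N := N.inv_mem hτ
    have hu : r τ⁻¹ v ∈ line r I := apply_mem_line r hIN hinv hv
    have hstab : ∀ x ∈ L, act r c τ x ∈ L := by
      intro x hx
      rw [eq_closure r c I L h2 h3] at hx
      refine AddSubgroup.closure_induction ?_ ?_ ?_ ?_ hx
      · rintro x ⟨σ, hσ, y, rfl⟩
        have e : act r c τ (act r c σ y - y) =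
            act r c (τ * σ * τ⁻¹) (act r c τ y) - act r c τ y := by
          rw [map_sub, ← act_mul r c hc, ← act_mul r c hc, inv_mul_cancel_right]
        rw [e]
        exact h2 _ (hIN τ hτ σ hσ) _
      · rw [map_zero]; exact L.zero_mem
      · intro x y _ _ hx hy
        rw [map_add]; exact L.add_mem hx hy
      · intro x _ hx
        rw [map_neg]; exact L.neg_mem hx
    have h1 := hstab _ (hX _ hu)
    have h4 := hmem _ _ h1
    simp only [r_apply_inv] at h4
    have e : (c τ + r τ * X * r τ⁻¹ - X) v = r τ (X (r τ⁻¹ v)) + c τ v - X v := by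
      simp only [LinearMap.sub_apply, LinearMap.add_apply, Module.End.mul_apply]
      abel
    rw [e]
    exact h4

end Main

end Fermat.Agent.W56.ConnDual6
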