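/-
Programme W56 (target S56), chapter (F) FLAT (helper6): **the connected part of an arbitrary
function-model Hopf order** (the connected–étale sequence in function language).

`A` a valuation subring of `ℚ̄`, `I = Iner A`, `M` a finite abelian group killed by `n ≠ 0` with an
action of `I`, `H ⊆ (M → ℚ̄)` a Hopf order over `R` (`IsHopfOrder I H`, values of `R` in `A`).

`connPart hH hRA hn hM = {z | ∀ h ∈ H, h z - h 0 ∈ 𝔪_A}` is a subgroup of `M`, stable under inertia
(`smul_mem_connPart`), inertia acts trivially on the quotient (`smul_sub_mem_connPart`: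
`σ • z - z ∈ M⁰`), and `M⁰` carries a CONNECTED Hopf order (`hasConnOrder_connPart`), so the
Oort–Tate rigidity `T33/WZero2.subquotient_eq_zero` applies to it.
-/
import Mathlib
import Fermat.Agent.FF.SubOrd1
import Fermat.Agent.FF.InertiaWire8
import Fermat.Agent.T33.ConnOrd2
import Fermat.Agent.S05.Inertia

set_option autoImplicit false

namespace Fermat.Agent.W56.ConnPart6

open Fermat.Agent.FF.HopfOrderB Fermat.Agent.FF.HopfOrderC Fermat.Agent.FF.SubOrd1
  Fermat.Agent.FF.InertiaWire8 Fermat.Agent.T33.ConnOrd2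

variable {A : ValuationSubring Qb}

theorem neg_mem_nonunits {x : Qb} (hx : x ∈ A.nonunits) : -x ∈ A.nonunits := by
  rw [ValuationSubring.mem_nonunits_iff] at *
  rwa [Valuation.map_neg]

theorem sum_mem_nonunits {ι : Type*} (s : Finset ι) (f : ι → Qb)
    (hf : ∀ i ∈ s, f i ∈ A.nonunits) : ∑ i ∈ s, f i ∈ A.nonunits := by
  classical
  induction s using Finset.induction_on with
  | empty => simpa using zero_mem_nonunits (A := A)
  | insert j s hj ih =>
    rw [Finset.sum_insert hj]
    exact add_mem_nonunits (hf j (Finset.mem_insert_self j s))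
      (ih fun i hi => hf i (Finset.mem_insert_of_mem hi))

theorem mul_mem_nonunits_right {a x : Qb} (hx : x ∈ A.nonunits) (ha : a ∈ A) :
    x * a ∈ A.nonunits := by
  rw [mul_comm]; exact mul_mem_nonunits_of_mem ha hx

/-- inertia preserves the maximal ideal. -/
theorem smul_mem_nonunits (σ : Iner A) {x : Qb} (hx : x ∈ A.nonunits) : σ • x ∈ A.nonunits := by
  rw [ValuationSubring.mem_nonunits_iff] at *
  have h : A.valuation ((σ : GQ) x) = A.valuation x :=
    Fermat.Agent.S05.Inertia.valuation_apply_rat σ.2 x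
  exact h ▸ hx

/-- inertia moves integral elements by elements of the maximal ideal. -/
theorem smul_sub_mem_nonunits (σ : Iner A) {x : Qb} (hx : x ∈ A) : σ • x - x ∈ A.nonunits :=
  Fermat.Agent.S05.Inertia.apply_sub_mem_nonunits σ.2 hx

variable {M : Type*} [AddCommGroup M] [DistribMulAction (Iner A) M]
variable {R : Type*} [CommRing R] [Algebra R Qb]
variable {H : Subalgebra R (M → Qb)}

section Facts

variable (hH : IsHopfOrder (Iner A) H) (hRA : ∀ r : R, algebraMap R Qb r ∈ A)
include hH hRA

theorem apply_mem (h : M → Qb) (hh : h ∈ H) (z : M) : h z ∈ A :=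
  haveI := hH.finite
  apply_mem_of_finite hRA hh z

omit hRA in
theorem hasCoprod (h : M → Qb) (hh : h ∈ H) : HasCoprod H h := by
  obtain ⟨S, hS, hΔ⟩ := hH.coprod
  exact hasCoprod_of_adjoin hS hΔ h hh

end Facts

/-- **the connected part** of a Hopf order. -/
def connPart (hH : IsHopfOrder (Iner A) H) (hRA : ∀ r : R, algebraMap R Qb r ∈ A) {n : ℕ}
    (hn : n ≠ 0) (hM : ∀ z : M, n • z = 0) : AddSubgroup M where
  carrier := {z | ∀ h ∈ H, h z - h 0 ∈ A.nonunits}
  zero_mem' := by
    intro h _
    rw [sub_self]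
    exact zero_mem_nonunits
  add_mem' := by
    intro z z' hz hz' h hh
    obtain ⟨ι, _, a, b, ha, hb, hab⟩ := hasCoprod hH h hh
    have e : h (z + z') - h 0 =
        ∑ i, (a i z * (b i z' - b i 0) + (a i z - a i 0) * b i 0) := by
      have h0 : h 0 = ∑ i, a i 0 * b i 0 := by
        have := hab 0 0
        rwa [add_zero] at this
      rw [hab, h0, ← Finset.sum_sub_distrib]
      exact Finset.sum_congr rfl fun i _ => by ring
    rw [e]
    refine sum_mem_nonunits _ _ fun i _ => add_mem_nonunits ?_ ?_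
    · exact mul_mem_nonunits_of_mem (apply_mem hH hRA _ (ha i) z) (hz' _ (hb i))
    · exact mul_mem_nonunits_right (hz _ (ha i)) (apply_mem hH hRA _ (hb i) 0)
  neg_mem' := by
    intro z hz h hh
    have h1 := comp_neg_mem (hasCoprod hH) hn hM h hh
    have h2 := hz _ h1
    simpa using h2

variable {hH : IsHopfOrder (Iner A) H} {hRA : ∀ r : R, algebraMap R Qb r ∈ A} {n : ℕ}
  {hn : n ≠ 0} {hM : ∀ z : M, n • z = 0}

theorem mem_connPart {z : M} :
    z ∈ connPart hH hRA hn hM ↔ ∀ h ∈ H, h z - h 0 ∈ A.nonunits := Iff.rfl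

/-- the connected part is stable under inertia. -/
theorem smul_mem_connPart (σ : Iner A) {z : M} (hz : z ∈ connPart hH hRA hn hM) :
    σ • z ∈ connPart hH hRA hn hM := by
  intro h hh
  have h1 : h (σ • z) = σ • h z := hH.equivariant h hh σ z
  have h2 : h 0 = σ • h 0 := by
    have := hH.equivariant h hh σ 0
    rwa [smul_zero] at this
  have e : h (σ • z) - h 0 = σ • (h z - h 0) := by
    rw [smul_sub, ← h1, ← h2]
  rw [e]
  exact smul_mem_nonunits σ (hz h hh)

/-- **inertia acts trivially on `M / M⁰`.** -/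
theorem smul_sub_mem_connPart (σ : Iner A) (z : M) : σ • z - z ∈ connPart hH hRA hn hM := by
  intro h hh
  obtain ⟨ι, _, a, b, ha, hb, hab⟩ := hasCoprod hH h hh
  have e : h (σ • z - z) - h 0 = ∑ i, (σ • a i z - a i z) * b i (-z) := by
    have h0 : h 0 = ∑ i, a i z * b i (-z) := by
      have := hab z (-z)
      rwa [add_neg_cancel] at this
    rw [sub_eq_add_neg (σ • z) z, hab, h0, ← Finset.sum_sub_distrib]
    refine Finset.sum_congr rfl fun i _ => ?_
    rw [hH.equivariant _ (ha i) σ z]
    ring
  rw [e]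
  refine sum_mem_nonunits _ _ fun i _ => ?_
  exact mul_mem_nonunits_right (smul_sub_mem_nonunits σ (apply_mem hH hRA _ (ha i) z))
    (apply_mem hH hRA _ (hb i) (-z))

/-- the action of inertia on the connected part. -/
@[instance_reducible]
noncomputable def connDMA (hH : IsHopfOrder (Iner A) H) (hRA : ∀ r : R, algebraMap R Qb r ∈ A) {n : ℕ}
    (hn : n ≠ 0) (hM : ∀ z : M, n • z = 0) :
    DistribMulAction (Iner A) ↥(connPart hH hRA hn hM) where
  smul σ z := ⟨σ • (z : M), smul_mem_connPart σ z.2⟩
  one_smul z := Subtype.ext (one_smul _ (z : M))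
  mul_smul σ τ z := Subtype.ext (mul_smul σ τ (z : M))
  smul_zero σ := Subtype.ext (smul_zero σ)
  smul_add σ z z' := Subtype.ext (smul_add σ (z : M) (z' : M))

/-- **the connected part carries a connected Hopf order.** -/
theorem hasConnOrder_connPart :
    letI := connDMA hH hRA hn hM
    HasConnOrder R (Iner A) A ↥(connPart hH hRA hn hM) := by
  letI := connDMA hH hRA hn hM
  refine ⟨comapOrder H ((connPart hH hRA hn hM).subtype : ↥(connPart hH hRA hn hM) → M),
    hH.comap (connPart hH hRA hn hM).subtype Subtype.val_injective (fun σ z => rfl), ?_⟩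
  rintro _ ⟨h, hh, rfl⟩ z
  show h (z : M) - h ((0 : ↥(connPart hH hRA hn hM)) : M) ∈ A.nonunits
  rw [AddSubgroup.coe_zero]
  exact z.2 h hh

end Fermat.Agent.W56.ConnPart6
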