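/-
Programme W56 (target S56), chapter (F) FLAT (helper6): **from an abstract finite flat Hopf algebra
with a points bijection (the Prelude's `IsFlatAt`) to a function-model Hopf order.**

`H` a Hopf algebra over `R`, `e : WithConv (H →ₐ[R] K̄) ≃ M` additive and `Γ`-equivariant.  Then
`ev h z := (e.symm z) h` is an algebra homomorphism `H →ₐ[R] (M → K̄)` whose range `pointsOrder e`
is a Hopf order in the sense of `FF/SubOrd1` (`isHopfOrder_pointsOrder`).
-/
import Mathlib
import Fermat.Agent.FF.SubOrd1

set_option autoImplicit false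

namespace Fermat.Agent.W56.FlatBridge6

open Fermat.Agent.FF.HopfOrderB Fermat.Agent.FF.HopfOrderC Fermat.Agent.FF.SubOrd1
open scoped TensorProduct

section Abstract

variable {R : Type*} [CommRing R] {Kbar : Type*} [Field Kbar] [Algebra R Kbar]
variable {Γ : Type*} [Group Γ] [MulSemiringAction Γ Kbar]
variable {M : Type*} [AddCommGroup M] [DistribMulAction Γ M]
variable {H : Type*} [CommRing H] [HopfAlgebra R H]
variable (e : WithConv (H →ₐ[R] Kbar) ≃ M)

/-- evaluation of the elements of `H` at the points. -/
noncomputable def evHom : H →ₐ[R] (M → Kbar) :=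
  Pi.algHom R (fun _ : M => Kbar) (fun z => (e.symm z).ofConv)

theorem evHom_apply (h : H) (z : M) : evHom e h z = (e.symm z).ofConv h := rfl

/-- the function-model order attached to a points bijection. -/
noncomputable def pointsOrder : Subalgebra R (M → Kbar) := (evHom e).range

theorem mem_pointsOrder {s : M → Kbar} : s ∈ pointsOrder e ↔ ∃ h : H, evHom e h = s := Iff.rfl

/-- a tensor as a finite sum of functions of two variables. -/
theorem exists_decomp (t : H ⊗[R] H) :
    ∃ (ι : Type) (_ : Fintype ι) (a b : ι → M → Kbar), (∀ i, a i ∈ pointsOrder e) ∧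
      (∀ i, b i ∈ pointsOrder e) ∧ ∀ z z' : M,
        Algebra.TensorProduct.lift (e.symm z).ofConv (e.symm z').ofConv
          (fun _ _ => Commute.all _ _) t = ∑ i, a i z * b i z' := by
  induction t using TensorProduct.induction_on with
  | zero =>
    exact ⟨Empty, inferInstance, fun i => i.elim, fun i => i.elim, fun i => i.elim,
      fun i => i.elim, fun z z' => by simp⟩
  | tmul x y =>
    refine ⟨Unit, inferInstance, fun _ => evHom e x, fun _ => evHom e y, fun _ => ⟨x, rfl⟩,
      fun _ => ⟨y, rfl⟩, fun z z' => ?_⟩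
    rw [Algebra.TensorProduct.lift_tmul]
    simp [evHom_apply]
  | add s t hs ht =>
    obtain ⟨ι, _, a, b, ha, hb, hab⟩ := hs
    obtain ⟨κ, _, c, d, hc, hd, hcd⟩ := ht
    refine ⟨ι ⊕ κ, inferInstance, Sum.elim a c, Sum.elim b d, ?_, ?_, fun z z' => ?_⟩
    · rintro (i | j)
      · exact ha i
      · exact hc j
    · rintro (i | j)
      · exact hb i
      · exact hd j
    · rw [map_add, hab, hcd, Fintype.sum_sum_type]
      rfl

variable (he : ∀ f g : WithConv (H →ₐ[R] Kbar), e (f * g) = e f + e g)
include he

theorem symm_add (z z' : M) : e.symm (z + z') = e.symm z * e.symm z' := by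
  apply e.injective
  rw [he, e.apply_symm_apply, e.apply_symm_apply, e.apply_symm_apply]

theorem hasCoprod_pointsOrder {s : M → Kbar} (hs : s ∈ pointsOrder e) :
    HasCoprod (pointsOrder e) s := by
  obtain ⟨h, rfl⟩ := hs
  obtain ⟨ι, _, a, b, ha, hb, hab⟩ := exists_decomp e (Coalgebra.comul (R := R) h)
  refine ⟨ι, inferInstance, a, b, ha, hb, fun z z' => ?_⟩
  show evHom e h (z + z') = ∑ i, a i z * b i z'
  rw [evHom_apply, symm_add e he, ← hab]
  exact AlgHom.convMul_apply (e.symm z) (e.symm z') h

variable (hΓR : ∀ (σ : Γ) (r : R), σ • algebraMap R Kbar r = algebraMap R Kbar r)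
  (hσ : ∀ (σ : Γ) (f g : WithConv (H →ₐ[R] Kbar)),
    (∀ h : H, g.ofConv h = σ • f.ofConv h) → e g = σ • e f)
include hΓR hσ

omit he in
theorem evHom_smul (h : H) (σ : Γ) (z : M) : evHom e h (σ • z) = σ • evHom e h z := by
  set f := e.symm z with hf
  let g : H →ₐ[R] Kbar :=
    { toFun := fun x => σ • f.ofConv x
      map_one' := by rw [map_one, smul_one]
      map_mul' := fun x y => by rw [map_mul, smul_mul']
      map_zero' := by rw [map_zero, smul_zero]
      map_add' := fun x y => by rw [map_add, smul_add]
      commutes' := fun r => by rw [AlgHom.commutes, hΓR] }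
  have h1 : e (WithConv.toConv g) = σ • e f := hσ σ f (WithConv.toConv g) (fun x => rfl)
  rw [hf, e.apply_symm_apply] at h1
  have h2 : e.symm (σ • z) = WithConv.toConv g := by
    rw [← h1, e.symm_apply_apply]
  rw [evHom_apply, h2]
  rfl

/-- **the order of a finite Hopf algebra with a points bijection is a Hopf order.** -/
theorem isHopfOrder_pointsOrder [Module.Finite R H] : IsHopfOrder Γ (pointsOrder e) := by
  refine ⟨?_, ?_, ?_, ?_⟩
  · have hsurj : Function.Surjective (evHom e).rangeRestrict :=
      AlgHom.rangeRestrict_surjective _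
    exact Module.Finite.of_surjective (evHom e).rangeRestrict.toLinearMap hsurj
  · rintro _ ⟨h, rfl⟩ σ z
    exact evHom_smul e hΓR hσ h σ z
  · intro z z' hzz
    apply e.symm.injective
    apply WithConv.ext
    refine AlgHom.ext fun h => ?_
    exact hzz _ ⟨h, rfl⟩
  · refine ⟨(pointsOrder e : Set (M → Kbar)), (Algebra.adjoin_eq _).symm, fun s hs => ?_⟩
    exact hasCoprod_pointsOrder e he hs

end Abstract

end Fermat.Agent.W56.FlatBridge6
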