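/-
Programme W56 (target S56), chapter (F) FLAT (helper6): **a flat deformation satisfies Fontaine's
property.**

For `ρ : GaloisRepAdic A'` flat at `p` (the Prelude's `IsFlatAt`), an ideal `I` of finite index with
`p • (V/IV) = 0`, a place `A` of `ℚ̄` over `p`, and `Γ ≤ Iner A` the kernel of the inertia action on
`V/IV`: `FontaineProp A p Γ` (`fontaineProp_of_isFlatAt`).  Special case `I = ⊥` for a finite
coefficient ring killed by `p` (`fontaineProp_of_isFlatAt_bot`): `Γ = {σ ∈ Iner A | ρ σ = 1}`.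
-/
import Mathlib
import Fermat.Prelude.Def_GaloisRep_Flat
import Fermat.Agent.IG.VAL.Zl13
import Fermat.Agent.S05.Inertia
import Fermat.Agent.W56.FlatBridge6
import Fermat.Agent.W56.Lift6F

set_option autoImplicit false

namespace Fermat.Agent.W56.FlatFont6

open Fermat.Agent.FF.HopfOrderB Fermat.Agent.FF.HopfOrderC Fermat.Agent.FF.SubOrd1
  Fermat.Agent.FF.InertiaWire8 Fermat.Agent.W56.FontDef6 Fermat.Agent.W56.FlatBridge6

theorem fixed_mem_range (x : Qb) (hx : ∀ σ : GQ, σ • x = x) :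
    x ∈ (algebraMap ℚ Qb).range := by
  have h1 : IsAlgClosure ℚ (AlgebraicClosure ℚ) :=
    ⟨inferInstance, Fermat.Agent.S05.Inertia.isAlgebraic_rat⟩
  have h2 : IsGalois ℚ (AlgebraicClosure ℚ) := IsAlgClosure.isGalois ℚ (AlgebraicClosure ℚ)
  exact (InfiniteGalois.mem_range_algebraMap_iff_fixed (k := ℚ) (K := AlgebraicClosure ℚ) x).2 hx

variable {A' : Type} [CommRing A'] [IsLocalRing A']

/-- the action of `G_ℚ` on `V / I V`. -/
@[instance_reducible]
noncomputable def levelDMA (ρ : GaloisRepAdic A') (I : Ideal A') :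
    DistribMulAction GQ (ρ.V ⧸ (I • (⊤ : Submodule A' ρ.V))) where
  smul σ m := ρ.levelAction I σ m
  one_smul m := by
    show ρ.levelAction I 1 m = m
    induction m using Submodule.Quotient.induction_on with
    | H v =>
      show Submodule.mapQ _ _ (ρ.ρ 1) _ (Submodule.Quotient.mk v) = _
      rw [Submodule.mapQ_apply, map_one, Module.End.one_apply]
  mul_smul σ τ m := by
    show ρ.levelAction I (σ * τ) m = ρ.levelAction I σ (ρ.levelAction I τ m)
    induction m using Submodule.Quotient.induction_on with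
    | H v =>
      show Submodule.mapQ _ _ (ρ.ρ (σ * τ)) _ (Submodule.Quotient.mk v) =
        Submodule.mapQ _ _ (ρ.ρ σ) _ (Submodule.mapQ _ _ (ρ.ρ τ) _ (Submodule.Quotient.mk v))
      rw [Submodule.mapQ_apply, Submodule.mapQ_apply, Submodule.mapQ_apply, map_mul,
        Module.End.mul_apply]
  smul_zero σ := map_zero _
  smul_add σ := map_add _

theorem levelDMA_smul (ρ : GaloisRepAdic A') (I : Ideal A') (σ : GQ)
    (m : ρ.V ⧸ (I • (⊤ : Submodule A' ρ.V))) :
    letI := levelDMA ρ I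
    σ • m = ρ.levelAction I σ m := rfl

section Main

variable (p : ℕ) [hp : Fact p.Prime]

theorem algebraMap_mem_W0 {A : ValuationSubring Qb} (hA : A.LiesOverPrime p)
    (r : GaloisRep.ratLocalizedAt p) : algebraMap (GaloisRep.ratLocalizedAt p) Qb r ∈ W0 A := by
  have e : algebraMap (GaloisRep.ratLocalizedAt p) Qb r = (((r : ℚ) : ℚ) : Qb) := by
    rw [IsScalarTower.algebraMap_apply (GaloisRep.ratLocalizedAt p) ℚ Qb, eq_ratCast]
    rfl
  rw [e]
  refine ⟨?_, fun σ => ?_⟩
  · rw [← A.valuation_le_one_iff]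
    refine Fermat.Agent.S05.Inertia.valuation_ratCast_le_one hp.out hA _ ?_
    have h1 : (r : ℚ).den.Coprime p := r.2
    exact (Nat.Prime.coprime_iff_not_dvd hp.out).1 h1.symm
  · exact map_ratCast (σ : GQ) _

/-- **a flat deformation satisfies Fontaine's property** (level `I`). -/
theorem fontaineProp_of_isFlatAt (ρ : GaloisRepAdic A') (hflat : ρ.IsFlatAt p) (I : Ideal A')
    (hI : Finite (A' ⧸ I))
    (hpI : ∀ m : ρ.V ⧸ (I • (⊤ : Submodule A' ρ.V)), p • m = 0)
    {A : ValuationSubring Qb} (hA : A.LiesOverPrime p) {Γ : Subgroup GQ} (hΓI : Γ ≤ Iner A)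
    (hΓ : ∀ σ ∈ Iner A, σ ∈ Γ ↔ ∀ m, ρ.levelAction I σ m = m) : FontaineProp A p Γ := by
  obtain ⟨-, hfl⟩ := hflat
  obtain ⟨H, iR, iH, hfin, -, -, e, he, hσ⟩ := hfl I hI
  letI := levelDMA ρ I
  haveI : Finite (ρ.V ⧸ (I • (⊤ : Submodule A' ρ.V))) := Module.finite_of_finite (A' ⧸ I)
  have hΓR : ∀ (σ : GQ) (r : GaloisRep.ratLocalizedAt p),
      σ • algebraMap (GaloisRep.ratLocalizedAt p) Qb r =
        algebraMap (GaloisRep.ratLocalizedAt p) Qb r := by
    intro σ r
    rw [IsScalarTower.algebraMap_apply (GaloisRep.ratLocalizedAt p) ℚ Qb]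
    exact σ.commutes _
  have hH : IsHopfOrder GQ (pointsOrder e) :=
    isHopfOrder_pointsOrder e he hΓR (fun σ f g h => hσ σ f g h)
  have hH' : IsHopfOrder (Iner A) (pointsOrder e) :=
    ⟨hH.finite, fun h hh σ z => hH.equivariant h hh (σ : GQ) z, hH.separates, hH.coprod⟩
  haveI := hH.finite
  obtain ⟨n, bH, -, hli⟩ := exists_basis_card_le (R := GaloisRep.ratLocalizedAt p) (K := ℚ)
    (Kbar := Qb) (Γ := GQ) fixed_mem_range hH.equivariant
  exact Fermat.Agent.W56.Lift6F.fontaineProp_of_isHopfOrder hp.out hA hpI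
    (algebraMap_mem_W0 p hA) hH' bH hli hΓI (fun σ => hΓ σ σ.2)

/-- the kernel of `ρ` on the inertia group of `A`. -/
noncomputable def kerInertia (ρ : GaloisRepAdic A') (A : ValuationSubring Qb) : Subgroup GQ :=
  Iner A ⊓ ρ.ρ.ker

omit hp in
theorem mem_kerInertia {ρ : GaloisRepAdic A'} {A : ValuationSubring Qb} {σ : GQ} :
    σ ∈ kerInertia ρ A ↔ σ ∈ Iner A ∧ ρ.ρ σ = 1 := by
  rw [kerInertia, Subgroup.mem_inf, MonoidHom.mem_ker]

/-- **a flat deformation over a finite ring killed by `p` satisfies Fontaine's property** for the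
kernel of `ρ` on inertia. -/
theorem fontaineProp_of_isFlatAt_bot [Finite A'] (ρ : GaloisRepAdic A') (hflat : ρ.IsFlatAt p)
    (hpV : ∀ v : ρ.V, p • v = 0) {A : ValuationSubring Qb} (hA : A.LiesOverPrime p) :
    FontaineProp A p (kerInertia ρ A) := by
  have hbot : (⊥ : Ideal A') • (⊤ : Submodule A' ρ.V) = ⊥ := Submodule.bot_smul _
  have hfin : Finite (A' ⧸ (⊥ : Ideal A')) :=
    Finite.of_surjective (Ideal.Quotient.mk (⊥ : Ideal A')) Ideal.Quotient.mk_surjective
  refine fontaineProp_of_isFlatAt p ρ hflat ⊥ hfin ?_ hA inf_le_left ?_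
  · intro m
    induction m using Submodule.Quotient.induction_on with
    | H v => rw [← Submodule.Quotient.mk_smul, hpV, Submodule.Quotient.mk_zero]
  · intro σ hσ
    rw [mem_kerInertia]
    constructor
    · rintro ⟨-, h1⟩ m
      induction m using Submodule.Quotient.induction_on with
      | H v =>
        show Submodule.mapQ _ _ (ρ.ρ σ) _ (Submodule.Quotient.mk v) = _
        rw [Submodule.mapQ_apply, h1, Module.End.one_apply]
    · intro h
      refine ⟨hσ, LinearMap.ext fun v => ?_⟩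
      have h1 := h (Submodule.Quotient.mk v)
      have h2 : Submodule.Quotient.mk (p := (⊥ : Ideal A') • (⊤ : Submodule A' ρ.V)) (ρ.ρ σ v) =
          Submodule.Quotient.mk v := h1
      rw [Submodule.Quotient.eq, hbot, Submodule.mem_bot, sub_eq_zero] at h2
      rw [h2, Module.End.one_apply]

end Main

end Fermat.Agent.W56.FlatFont6
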