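/-
Programme W56 (target S56), chapter (F) FLAT (helper6): **the connected–étale sequence of a flat
deformation, in Galois-module form.**

For `ρ : GaloisRepAdic A'` flat at the odd prime `p`, `A'` finite, `p • V = 0`, and a place `A` of `ℚ̄`
over `p` (`exists_connPart`): there is a subgroup `L ≤ ρ.V` (the points of the connected part) with
* `L` stable under the inertia group `Iner A`;
* inertia acts trivially on `V / L` (`ρ σ v - v ∈ L`);
* RIGIDITY: `L` has no non-zero sub-quotient with trivial inertia action: if `T ≤ S ≤ L` are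
  subgroups with `ρ σ v - v ∈ T` for all `σ ∈ Iner A`, `v ∈ S`, then `S ≤ T`.
In particular `L = (I - 1) V` (`connPart_eq_closure`).
-/
import Mathlib
import Fermat.Agent.T33.WZero2
import Fermat.Agent.W56.FlatFont6
import Fermat.Agent.W56.BaseChg6
import Fermat.Agent.W56.ConnPart6

set_option autoImplicit false
set_option linter.style.haveILetI false

namespace Fermat.Agent.W56.ConnFlat6

open Fermat.Agent.FF.HopfOrderB Fermat.Agent.FF.HopfOrderC Fermat.Agent.FF.SubOrd1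
  Fermat.Agent.FF.InertiaWire8 Fermat.Agent.T33.ConnOrd2 Fermat.Agent.W56.FlatBridge6
  Fermat.Agent.W56.FlatFont6 Fermat.Agent.W56.BaseChg6 Fermat.Agent.W56.ConnPart6

variable {A' : Type} [CommRing A'] [IsLocalRing A']

/-- the action of `G_ℚ` on `ρ.V`. -/
@[instance_reducible]
noncomputable def rhoDMA (ρ : GaloisRepAdic A') : DistribMulAction GQ ρ.V where
  smul σ v := ρ.ρ σ v
  one_smul v := by
    show ρ.ρ 1 v = v
    rw [map_one, Module.End.one_apply]
  mul_smul σ τ v := by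
    show ρ.ρ (σ * τ) v = ρ.ρ σ (ρ.ρ τ v)
    rw [map_mul, Module.End.mul_apply]
  smul_zero σ := map_zero _
  smul_add σ := map_add _

variable (p : ℕ) [hp : Fact p.Prime]

/-- a flat `ρ` over a finite ring carries a Hopf order over `ℤ_(p)` on `ρ.V` itself. -/
theorem exists_isHopfOrder [Finite A'] (ρ : GaloisRepAdic A') (hflat : ρ.IsFlatAt p) :
    letI := rhoDMA ρ
    ∃ H : Subalgebra (GaloisRep.ratLocalizedAt p) (ρ.V → Qb), IsHopfOrder GQ H := by
  letI := rhoDMA ρ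
  obtain ⟨-, hfl⟩ := hflat
  have hfin : Finite (A' ⧸ (⊥ : Ideal A')) :=
    Finite.of_surjective (Ideal.Quotient.mk (⊥ : Ideal A')) Ideal.Quotient.mk_surjective
  obtain ⟨H, iR, iH, hfinH, -, -, e, he, hσ⟩ := hfl ⊥ hfin
  letI := levelDMA ρ (⊥ : Ideal A')
  have hΓR : ∀ (σ : GQ) (r : GaloisRep.ratLocalizedAt p),
      σ • algebraMap (GaloisRep.ratLocalizedAt p) Qb r =
        algebraMap (GaloisRep.ratLocalizedAt p) Qb r := by
    intro σ r
    rw [IsScalarTower.algebraMap_apply (GaloisRep.ratLocalizedAt p) ℚ Qb]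
    exact σ.commutes _
  have hH : IsHopfOrder GQ (pointsOrder e) :=
    isHopfOrder_pointsOrder e he hΓR (fun σ f g h => hσ σ f g h)
  have hbot : (⊥ : Ideal A') • (⊤ : Submodule A' ρ.V) = ⊥ := Submodule.bot_smul _
  let ι : ρ.V →+ ρ.V ⧸ ((⊥ : Ideal A') • (⊤ : Submodule A' ρ.V)) :=
    (Submodule.mkQ _).toAddMonoidHom
  have hinj : Function.Injective ι := by
    intro v w hvw
    have h1 : Submodule.Quotient.mk (p := (⊥ : Ideal A') • (⊤ : Submodule A' ρ.V)) v =
        Submodule.Quotient.mk w := hvw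
    rw [Submodule.Quotient.eq, hbot, Submodule.mem_bot, sub_eq_zero] at h1
    exact h1
  exact ⟨_, hH.comap ι hinj (fun σ v => rfl)⟩

/-- **the connected–étale sequence of a flat deformation.** -/
theorem exists_connPart (hp2 : p ≠ 2) [Finite A'] (ρ : GaloisRepAdic A') (hflat : ρ.IsFlatAt p)
    (hpV : ∀ v : ρ.V, p • v = 0) {A : ValuationSubring Qb} (hA : A.LiesOverPrime p) :
    ∃ L : AddSubgroup ρ.V,
      (∀ σ ∈ Iner A, ∀ v ∈ L, ρ.ρ σ v ∈ L) ∧
      (∀ σ ∈ Iner A, ∀ v : ρ.V, ρ.ρ σ v - v ∈ L) ∧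
      ∀ S T : AddSubgroup ρ.V, T ≤ S → S ≤ L →
        (∀ σ ∈ Iner A, ∀ v ∈ S, ρ.ρ σ v - v ∈ T) → S ≤ T := by
  letI := rhoDMA ρ
  haveI : Finite ρ.V := Module.finite_of_finite A'
  obtain ⟨H0, hH0⟩ := exists_isHopfOrder p ρ hflat
  -- restrict to inertia and extend scalars to `W₀`
  have hH0' : IsHopfOrder (Iner A) H0 :=
    ⟨hH0.finite, fun h hh σ z => hH0.equivariant h hh (σ : GQ) z, hH0.separates, hH0.coprod⟩
  have hH : IsHopfOrder (Iner A) (baseChange A H0) :=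
    isHopfOrder_baseChange (algebraMap_mem_W0 p hA) hH0'
  have hRA : ∀ r : W0 A, algebraMap (W0 A) Qb r ∈ A := fun r => r.2.1
  have hn : p ≠ 0 := hp.out.ne_zero
  set L : AddSubgroup ρ.V := connPart hH hRA hn hpV with hL
  letI := connDMA hH hRA hn hpV
  have hG : HasConnOrder (W0 A) (Iner A) A ↥L := hasConnOrder_connPart
  refine ⟨L, fun σ hσ v hv => smul_mem_connPart ⟨σ, hσ⟩ hv,
    fun σ hσ v => smul_sub_mem_connPart ⟨σ, hσ⟩ v, ?_⟩
  intro S T hTS hSL htriv
  -- the action on `S`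
  have hSst : ∀ (σ : Iner A) (v : ρ.V), v ∈ S → ρ.ρ (σ : GQ) v ∈ S := by
    intro σ v hv
    have e : ρ.ρ (σ : GQ) v = (ρ.ρ (σ : GQ) v - v) + v := by abel
    rw [e]
    exact S.add_mem (hTS (htriv σ σ.2 v hv)) hv
  letI iS : DistribMulAction (Iner A) ↥S :=
    { smul := fun σ s => ⟨ρ.ρ (σ : GQ) (s : ρ.V), hSst σ s s.2⟩
      one_smul := fun s => Subtype.ext (one_smul (Iner A) (s : ρ.V))
      mul_smul := fun σ τ s => Subtype.ext (mul_smul σ τ (s : ρ.V))
      smul_zero := fun σ => Subtype.ext (smul_zero σ)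
      smul_add := fun σ s s' => Subtype.ext (smul_add σ (s : ρ.V) (s' : ρ.V)) }
  -- the embedding `S ↪ L^Unit`
  let j : ↥S →+ (Unit → ↥L) :=
    { toFun := fun s _ => ⟨(s : ρ.V), hSL s.2⟩
      map_zero' := rfl
      map_add' := fun _ _ => rfl }
  have hj : Function.Injective j := by
    intro s s' h
    have := congrFun h ()
    exact Subtype.ext (congrArg (fun x : ↥L => (x : ρ.V)) this)
  have hjΓ : ∀ (σ : Iner A) (s : ↥S), j (σ • s) = σ • j s := fun σ s => rfl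
  -- the quotient `S / T` with the trivial action
  let T' : AddSubgroup ↥S := T.addSubgroupOf S
  letI iQ : DistribMulAction (Iner A) (↥S ⧸ T') :=
    { smul := fun _ y => y
      one_smul := fun _ => rfl
      mul_smul := fun _ _ _ => rfl
      smul_zero := fun _ => rfl
      smul_add := fun _ _ _ => rfl }
  let q : ↥S →+ (↥S ⧸ T') := QuotientAddGroup.mk' T'
  have hq : Function.Surjective q := QuotientAddGroup.mk'_surjective T'
  have hqΓ : ∀ (σ : Iner A) (s : ↥S), q (σ • s) = σ • q s := by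
    intro σ s
    show q (σ • s) = q s
    rw [← sub_eq_zero, ← map_sub]
    exact (QuotientAddGroup.eq_zero_iff _).2 (htriv σ σ.2 s s.2)
  have hQ : ∀ y : ↥S ⧸ T', ∃ n : ℕ, p ^ n • y = 0 := by
    intro y
    obtain ⟨s, rfl⟩ := hq y
    refine ⟨1, ?_⟩
    rw [pow_one, ← map_nsmul]
    have : p • s = 0 := Subtype.ext (hpV (s : ρ.V))
    rw [this, map_zero]
  have hzero := Fermat.Agent.T33.WZero2.subquotient_eq_zero hp.out hp2 hA hG Unit j hj hjΓ q hq hqΓ
    hQ (fun _ _ => rfl)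
  intro v hv
  have h1 : q ⟨v, hv⟩ = 0 := hzero (q ⟨v, hv⟩)
  have h2 : (⟨v, hv⟩ : ↥S) ∈ T' := (QuotientAddGroup.eq_zero_iff (⟨v, hv⟩ : ↥S)).1 h1
  exact AddSubgroup.mem_addSubgroupOf.1 h2

omit hp in
/-- a subgroup `L` with trivial inertia action on `V / L` and the rigidity property is `(I - 1) V`. -/
theorem connPart_eq_closure (ρ : GaloisRepAdic A') {A : ValuationSubring Qb} (L : AddSubgroup ρ.V)
    (h2 : ∀ σ ∈ Iner A, ∀ v : ρ.V, ρ.ρ σ v - v ∈ L)
    (h3 : ∀ S T : AddSubgroup ρ.V, T ≤ S → S ≤ L →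
        (∀ σ ∈ Iner A, ∀ v ∈ S, ρ.ρ σ v - v ∈ T) → S ≤ T) :
    L = AddSubgroup.closure {x : ρ.V | ∃ σ ∈ Iner A, ∃ v : ρ.V, x = ρ.ρ σ v - v} := by
  have hle : AddSubgroup.closure {x : ρ.V | ∃ σ ∈ Iner A, ∃ v : ρ.V, x = ρ.ρ σ v - v} ≤ L := by
    rw [AddSubgroup.closure_le]
    rintro x ⟨σ, hσ, v, rfl⟩
    exact h2 σ hσ v
  refine le_antisymm (h3 L _ hle le_rfl ?_) hle
  intro σ hσ v _
  exact AddSubgroup.subset_closure ⟨σ, hσ, v, rfl⟩

end Fermat.Agent.W56.ConnFlat6
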