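/-
Programme W56 (target S56), chapter (F) FLAT, the counts (helper3): **the level condition is linear,
and it follows from the Kummer level theorem**.

* `IsLev S i f` : all Kummer characters `gfun p f b = tr_{k/𝔽_p}(b f ·)` of `f : N → k` have level
  `≥ i`; closed under `0`, `+`, `k`-scalars (`IsLev.zero/add/smul`);
* `klev_of_kl` : an additive character `g : N → ZMod p` of finite level all of whose Kummer
  generators are `≡ 1 mod p` up to `p`-th powers (the conclusion of helper7's `kummer_level`) has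
  level `≥ (p-1) m`.
-/
import Mathlib
import Fermat.Agent.W56.LevelCountB3

set_option autoImplicit false

namespace Fermat.Agent.W56.LevSub3

open Fermat.Agent.W56.KummerGen3 Fermat.Agent.W56.UnitLevel3 Fermat.Agent.W56.KLevel3
  Fermat.Agent.W56.LevelCount3 Fermat.Agent.W56.LevelCountB3

variable {A : ValuationSubring Qb} {N : Subgroup GQ} {p : ℕ} {ζ π₀ : Qb} {m : ℕ}
  {k : Type*} [Field k] [Algebra (ZMod p) k]

/-- all Kummer characters of `f` have level `≥ i`. -/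
def IsLev (A : ValuationSubring Qb) (N : Subgroup GQ) (p : ℕ) [Algebra (ZMod p) k] (ζ π₀ : Qb)
    (i : ℕ) (f : ↥N → k) : Prop :=
  ∀ b : k, ∃ a : Qb, KLev A N p ζ π₀ (gfun p f b) i a

variable (S : Setting A.valuation ↥N p ζ π₀ m)
include S

theorem IsLev.zero (i : ℕ) : IsLev A N p ζ π₀ i (fun _ => (0 : k)) := by
  intro b
  refine ⟨0, KLev.congr (KLev.zero S i) fun τ => ?_⟩
  simp only [gfun, mul_zero, map_zero]

theorem IsLev.add {i : ℕ} (hi : 1 ≤ i) {f f' : ↥N → k} (hf : IsLev A N p ζ π₀ i f)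
    (hf' : IsLev A N p ζ π₀ i f') : IsLev A N p ζ π₀ i (fun τ => f τ + f' τ) := by
  intro b
  obtain ⟨a, ha⟩ := hf b
  obtain ⟨a', ha'⟩ := hf' b
  have hv : A.valuation (a + a') ≤ 1 :=
    le_trans (Valuation.map_add _ _ _) (max_le (KLev.val_le ha) (KLev.val_le ha'))
  refine ⟨a + a', KLev.congr (KLev.add S hi ha ha' hv) fun τ => ?_⟩
  simp only [gfun, mul_add, map_add]

omit S in
theorem IsLev.smul {i : ℕ} (c : k) {f : ↥N → k} (hf : IsLev A N p ζ π₀ i f) :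
    IsLev A N p ζ π₀ i (fun τ => c * f τ) := by
  intro b
  obtain ⟨a, ha⟩ := hf (b * c)
  refine ⟨a, KLev.congr ha fun τ => ?_⟩
  simp only [gfun, mul_assoc]

/-- **the base level from the Kummer level theorem.** -/
theorem klev_of_kl (g : ↥N → ZMod p) (hgadd : ∀ σ τ : ↥N, g (σ * τ) = g σ + g τ)
    (L : IntermediateField ℚ Qb) [FiniteDimensional ℚ L]
    (hL : ∀ σ : ↥N, (∀ x ∈ L, (σ : GQ) x = x) → g σ = 0)
    (hkl : ∀ α θ : Qb, α ≠ 0 → (∀ σ ∈ N, σ α = α) → θ ^ p = α →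
      (∀ σ : ↥N, g σ = 0 → (σ : GQ) θ = θ) →
      ∃ β u : Qb, β ≠ 0 ∧ (∀ σ ∈ N, σ β = β) ∧ α = β ^ p * u ∧ (u - 1) / (p : Qb) ∈ A) :
    ∃ a : Qb, KLev A N p ζ π₀ g ((p - 1) * m) a := by
  have hS := S
  obtain ⟨θ, hθ0, hθ⟩ := exists_radical hS.hp N ζ hS.hζ (fun σ hσ => hS.hζfix ⟨σ, hσ⟩)
    g hgadd L hL
  have hmem : θ ^ p ∈ L0 (F := Qb) ↥N := KLev.pow_mem hS.hζ.pow_eq_one hθ
  obtain ⟨β, u, hβ0, hβ, hαe, hu⟩ := hkl (θ ^ p) θ (pow_ne_zero p hθ0)
    (fun σ hσ => hmem ⟨σ, hσ⟩) rfl (fun σ hσ => by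
      rw [hθ σ, hσ, ZMod.val_zero, pow_zero, one_mul])
  have hp0 : (p : Qb) ≠ 0 := hS.vp_ne_zero
  have hvx : A.valuation (u - 1) ≤ A.valuation π₀ ^ ((p - 1) * m) := by
    rw [← hS.hpv]
    have h1 : u - 1 = (p : Qb) * ((u - 1) / p) := by field_simp
    rw [h1, map_mul]
    exact mul_le_of_le_one_right zero_le ((ValuationSubring.valuation_le_one_iff A _).2 hu)
  have hπe : π₀ ^ ((p - 1) * m) ≠ 0 := pow_ne_zero _ hS.hπ0
  refine ⟨(u - 1) / π₀ ^ ((p - 1) * m), θ / β, div_ne_zero hθ0 hβ0, fun σ => ?_, ?_⟩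
  · rw [map_div₀, hθ σ, hβ σ σ.2, mul_div_assoc]
  · refine ⟨1, u - 1, one_mem _, one_ne_zero, ?_, ?_, ?_⟩
    · rw [div_pow, hαe, one_pow, one_mul, mul_div_cancel_left₀ _ (pow_ne_zero p hβ0)]
      ring
    · rw [map_div₀, map_pow]
      exact div_le_one_of_le₀ hvx zero_le
    · rw [div_mul_cancel₀ _ hπe, sub_self, map_zero]
      exact hS.pow_pos' _

end Fermat.Agent.W56.LevSub3
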