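/-
Programme W56 (target S56), chapter (F) FLAT, the counts (helper3): **the count in the reducible
case (R)**, abstract form.

`N` a subgroup of the inertia group on which `ρ̄ = (1 x; 0 1)`, `ψ = ψ₁/ψ₂` the ratio of the diagonal
characters, `w = ψ₂(φ)/ψ₁(φ)`.  The `(0,1)`-entry `h = z₀₁|N` of a Borel-valued cocycle `z` is
equivariant under inertia for `ψ`, and under Frobenius up to the class `x` of `ρ̄`:
`h(φ⁻¹ τ φ) = w (h τ - 2 a x τ)`, `a = z(φ)₀₀` (`IsR`).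

* `IsR.sub`, `IsR.sub_smul`, `IsR.isHL` : linearity;
* **`card_R_le`** : if `x ≠ 0` (and `x` itself has level `≥ (p-1) m`) the functions `h` with `IsR h a`
  for some `a` and `h τ₀ = 0` (`x τ₀ ≠ 0`) number at most `#k`.
-/
import Mathlib
import Fermat.Agent.W56.AllowedT3
import Fermat.Agent.W56.LevSub3

set_option autoImplicit false

namespace Fermat.Agent.W56.CountR3

open Fermat.Agent.W56.KummerGen3 Fermat.Agent.W56.UnitLevel3 Fermat.Agent.W56.KLevel3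
  Fermat.Agent.W56.LevelCount3 Fermat.Agent.W56.LevelCountB3 Fermat.Agent.W56.AllowedT3
  Fermat.Agent.W56.LevSub3

variable {A : ValuationSubring Qb} {N : Subgroup GQ} {p : ℕ} {ζ π₀ : Qb} {m : ℕ}
  {χ : ↥(A.inertiaSubgroupIn ℚ) → ZMod p} {φ : GQ} {cφ : ZMod p}
  {k : Type*} [Field k] [Algebra (ZMod p) k]

/-- the conditions on the `(0,1)`-entry `h` of a Borel-valued cocycle with diagonal defect `a`. -/
structure IsR (D : CountData A N p ζ π₀ m χ φ cφ p) (ψ : ↥(A.inertiaSubgroupIn ℚ) →* kˣ)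
    (w : k) (x : ↥N → k) (h : ↥N → k) (a : k) : Prop where
  lev : IsLev A N p ζ π₀ ((p - 1) * m) h
  equivI : ∀ (s : ↥(A.inertiaSubgroupIn ℚ)) (τ : ↥N),
    h ⟨(s : GQ)⁻¹ * τ * s, D.hnorm s s.2 τ τ.2⟩ = ((ψ s)⁻¹ : kˣ) * h τ
  equivφ : ∀ τ : ↥N, h ⟨φ⁻¹ * τ * φ, D.hφN τ τ.2⟩ = w * (h τ - 2 * a * x τ)

variable {D : CountData A N p ζ π₀ m χ φ cφ p} {ψ : ↥(A.inertiaSubgroupIn ℚ) →* kˣ} {w : k}
  {x : ↥N → k}

theorem IsR.isHL {h : ↥N → k} (hh : IsR D ψ w x h 0) : IsHL D ψ w ((p - 1) * m) h :=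
  ⟨⟨hh.equivI, fun τ => by rw [hh.equivφ τ, mul_zero, zero_mul, sub_zero]⟩, hh.lev⟩

theorem isR_of_isHL {h : ↥N → k} (hh : IsHL D ψ w ((p - 1) * m) h) : IsR D ψ w x h 0 :=
  ⟨hh.2, hh.1.equivI, fun τ => by rw [hh.1.equivφ τ, mul_zero, zero_mul, sub_zero]⟩

theorem one_le_e0 (D : CountData A N p ζ π₀ m χ φ cφ p) : 1 ≤ (p - 1) * m :=
  Nat.succ_le_of_lt (Nat.mul_pos (Nat.sub_pos_of_lt D.S.hp.one_lt) D.S.hm)

theorem IsR.sub {h h' : ↥N → k} {a a' : k} (hh : IsR D ψ w x h a) (hh' : IsR D ψ w x h' a') :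
    IsR D ψ w x (fun τ => h τ - h' τ) (a - a') := by
  refine ⟨?_, fun s τ => ?_, fun τ => ?_⟩
  · have h1 : IsLev A N p ζ π₀ ((p - 1) * m) (fun τ => (-1 : k) * h' τ) := IsLev.smul (-1) hh'.lev
    have h2 := IsLev.add D.S (one_le_e0 D) hh.lev h1
    have e : (fun τ => h τ - h' τ) = fun τ => h τ + (-1 : k) * h' τ := by
      funext τ; ring
    rw [e]
    exact h2
  · show h _ - h' _ = _
    rw [hh.equivI s τ, hh'.equivI s τ]
    ring
  · show h _ - h' _ = _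
    rw [hh.equivφ τ, hh'.equivφ τ]
    ring

theorem IsR.sub_smul {h : ↥N → k} {a : k} (hh : IsR D ψ w x h a)
    (hx : IsHL D ψ w ((p - 1) * m) x) (c : k) :
    IsR D ψ w x (fun τ => h τ - c * x τ) a := by
  refine ⟨?_, fun s τ => ?_, fun τ => ?_⟩
  · have h1 : IsLev A N p ζ π₀ ((p - 1) * m) (fun τ => (-c : k) * x τ) := IsLev.smul (-c) hx.2
    have h2 := IsLev.add D.S (one_le_e0 D) hh.lev h1
    have e : (fun τ => h τ - c * x τ) = fun τ => h τ + (-c : k) * x τ := by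
      funext τ; ring
    rw [e]
    exact h2
  · show h _ - c * x _ = _
    rw [hh.equivI s τ, hx.1.equivI s τ]
    ring
  · show h _ - c * x _ = _
    rw [hh.equivφ τ, hx.1.equivφ τ]
    ring

theorem isHL_smul {f : ↥N → k} (hf : IsHL D ψ w ((p - 1) * m) f) (c : k) :
    IsHL D ψ w ((p - 1) * m) (fun τ => c * f τ) := by
  refine ⟨⟨fun s τ => ?_, fun τ => ?_⟩, IsLev.smul c hf.2⟩
  · show c * f _ = _
    rw [hf.1.equivI s τ]
    ring
  · show c * f _ = _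
    rw [hf.1.equivφ τ]
    ring

variable [Fact p.Prime] [CharP k p] [Finite k]

/-- **THE COUNT (R)**, case `x ≠ 0`. -/
theorem card_R_le (hA : A.LiesOverPrime p) (H : TData D)
    (hψN : ∀ s : ↥(A.inertiaSubgroupIn ℚ), (s : GQ) ∈ N → ψ s = 1)
    (hψφ : ∀ s : ↥(A.inertiaSubgroupIn ℚ), ψ ⟨φ * s * φ⁻¹, phi_conj_mem D s.2⟩ = ψ s)
    (hw : w ≠ 0) (hcφ : cφ ≠ 0) (hx : IsHL D ψ w ((p - 1) * m) x) {τ₀ : ↥N} (hτ₀ : x τ₀ ≠ 0) :
    Finite {h : ↥N → k // (∃ a, IsR D ψ w x h a) ∧ h τ₀ = 0} ∧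
      Nat.card {h : ↥N → k // (∃ a, IsR D ψ w x h a) ∧ h τ₀ = 0} ≤ Nat.card k := by
  classical
  obtain ⟨hfin, hcard⟩ := card_le_card_p (ψ := ψ) (w := w) hA H hψN hψφ hw hcφ
  haveI := hfin
  -- every element of `E` is a multiple of `x`
  let ι : k → {f : ↥N → k // IsHL D ψ w ((p - 1) * m) f} := fun t => ⟨_, isHL_smul hx t⟩
  have hι : Function.Injective ι := by
    intro t t' htt
    have h1 := congrFun (congrArg Subtype.val htt) τ₀
    exact mul_right_cancel₀ hτ₀ h1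
  have hιs : Function.Surjective ι := by
    have hb : Function.Bijective ι :=
      (Nat.bijective_iff_injective_and_card ι).2
        ⟨hι, le_antisymm (Nat.card_le_card_of_injective ι hι) hcard⟩
    exact hb.2
  have hmul : ∀ f : ↥N → k, IsHL D ψ w ((p - 1) * m) f → ∃ t : k, ∀ τ, f τ = t * x τ := by
    intro f hf
    obtain ⟨t, ht⟩ := hιs ⟨f, hf⟩
    exact ⟨t, fun τ => (congrFun (congrArg Subtype.val ht) τ).symm⟩
  -- the injection into `k`
  let α : {h : ↥N → k // (∃ a, IsR D ψ w x h a) ∧ h τ₀ = 0} → k := fun h => h.2.1.choose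
  have hα : ∀ h : {h : ↥N → k // (∃ a, IsR D ψ w x h a) ∧ h τ₀ = 0},
      IsR D ψ w x h.1 (α h) := fun h => h.2.1.choose_spec
  have hinj : Function.Injective α := by
    intro h h' hhh
    have h1 := (hα h).sub (hα h')
    rw [hhh, sub_self] at h1
    obtain ⟨t, ht⟩ := hmul _ h1.isHL
    have h2 := ht τ₀
    rw [h.2.2, h'.2.2, sub_self] at h2
    have ht0 : t = 0 := (mul_eq_zero.1 h2.symm).resolve_right hτ₀
    apply Subtype.ext
    funext τ
    have h3 := ht τ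
    rw [ht0, zero_mul] at h3
    exact sub_eq_zero.1 h3
  exact ⟨Finite.of_injective α hinj, Nat.card_le_card_of_injective α hinj⟩

end Fermat.Agent.W56.CountR3
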