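/-
Programme W56 (S56, Taylor–Wiles primes), chapter (E1)/(C3)/(D3): local duality, helper1.

`CupSymm1`: GRADED COMMUTATIVITY of the `(1,1)` Ext-pairing of `PT/PRO/ExtPairing4`, and its
consequence "right kernel of the dual ⟹ left kernel".

Setting: `P` resolves `A`, `Q` resolves `M`, `ev : A × M → X` an equivariant bilinear map.
* `kapL : M → Hom(P₀, X)`, `m ↦ (x ↦ ev (π x) m)`;  `kapR : A → Hom(Q₀, X)`, `a ↦ (y ↦ ev a (π y))`;
* `hzL m`, `hzR a` : the hyper-1-cocycles `(κ ∘ m, 0)` of `K(P; X)`, `(κ ∘ a, 0)` of `K(Q; X)`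
  attached to level 1-cocycles `m : G → M`, `a : G → A`;
* `pair11_symm` : `⟨(κ∘m, 0), [a]⟩_P + ⟨(κ∘a, 0), [m]⟩_Q = 0` in `H²_lev(X)`
  (cochain identity: `ev (g a_h) m_g + ev a_g (g m_h) = - d¹(g ↦ ev a_g m_g)`);
* `left_kernel_of_right_kernel` : if every class of `ℍ¹(K(P;X))` is some `(κ∘m, 0)`, every class of
  `ℍ¹(K(Q;X))` is some `(κ∘a, 0)`, and the `Q`-pairing has trivial RIGHT kernel, then the
  `P`-pairing has trivial LEFT kernel.
-/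
import Mathlib
import Fermat.Agent.PT.PRO.HyperLevel25
import Fermat.Agent.PT.PRO.Resolved4
import Fermat.Agent.PT.PRO.ExtPairing4
import Fermat.Agent.PT.PRO.ExtPairingB4
import Fermat.Agent.PT.PRO.HyperCompare25
import Fermat.Agent.PT.PRO.HomCx29

set_option autoImplicit false
set_option linter.unusedSectionVars false

namespace Fermat.Agent.W56.CupSymm1

open Function Fermat.Agent.PT.PRO Fermat.Agent.PT.PRO.HyperLevel25 Fermat.Agent.PT.PRO.Resolved4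
  Fermat.Agent.PT.PRO.ExtPairing4 Fermat.Agent.PT.PRO.ExtPairingB4

variable {k G : Type*} [CommRing k] [Group G] {𝒰 : Set (Subgroup G)}
variable {P1 P0 A Q1 Q0 M X : Type*}
  [AddCommGroup P1] [Module k P1] [AddCommGroup P0] [Module k P0] [AddCommGroup A] [Module k A]
  [AddCommGroup Q1] [Module k Q1] [AddCommGroup Q0] [Module k Q0] [AddCommGroup M] [Module k M]
  [AddCommGroup X] [Module k X]

/-- An equivariant bilinear map `A × M → X` between the modules resolved by `P` and `Q`. -/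
structure EvData (P : Resolved k 𝒰 P1 P0 A) (Q : Resolved k 𝒰 Q1 Q0 M)
    (ρX : Representation k G X) where
  ev : A →ₗ[k] M →ₗ[k] X
  equiv : ∀ g a m, ev (P.ρM g a) (Q.ρM g m) = ρX g (ev a m)

variable {P : Resolved k 𝒰 P1 P0 A} {Q : Resolved k 𝒰 Q1 Q0 M} {ρX : Representation k G X}

namespace EvData

variable (E : EvData P Q ρX)

/-- `κ_P : M → Hom(P₀, X)`, `m ↦ (x ↦ ev (π x) m)`. -/
def kapL : M →ₗ[k] (P0 →ₗ[k] X) := (LinearMap.lcomp k X P.π).comp E.ev.flip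

/-- `κ_Q : A → Hom(Q₀, X)`, `a ↦ (y ↦ ev a (π y))`. -/
def kapR : A →ₗ[k] (Q0 →ₗ[k] X) := (LinearMap.lcomp k X Q.π).comp E.ev

@[simp] lemma kapL_apply (m : M) (x : P0) : E.kapL m x = E.ev (P.π x) m := rfl

@[simp] lemma kapR_apply (a : A) (y : Q0) : E.kapR a y = E.ev a (Q.π y) := rfl

lemma ev_inv_left (g : G) (a : A) (m : M) :
    ρX g (E.ev (P.ρM g⁻¹ a) m) = E.ev a (Q.ρM g m) := by
  rw [← E.equiv, Representation.self_inv_apply]

lemma ev_inv_right (g : G) (a : A) (m : M) :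
    ρX g (E.ev a (Q.ρM g⁻¹ m)) = E.ev (P.ρM g a) m := by
  rw [← E.equiv, Representation.self_inv_apply]

/-- Equivariance of `κ_P`. -/
lemma kapL_equivariant (g : G) (m : M) :
    E.kapL (Q.ρM g m) = Representation.linHom P.ρ0 ρX g (E.kapL m) := by
  ext x
  rw [Representation.linHom_apply]
  simp only [LinearMap.comp_apply, kapL_apply, P.π_comm]
  rw [E.ev_inv_left]

/-- Equivariance of `κ_Q`. -/
lemma kapR_equivariant (g : G) (a : A) :
    E.kapR (P.ρM g a) = Representation.linHom Q.ρ0 ρX g (E.kapR a) := by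
  ext y
  rw [Representation.linHom_apply]
  simp only [LinearMap.comp_apply, kapR_apply, Q.π_comm]
  rw [E.ev_inv_right]

/-- `κ_P m` vanishes on `ι P₁`. -/
lemma lcomp_kapL (m : M) : LinearMap.lcomp k X P.ι (E.kapL m) = 0 := by
  ext y
  rw [LinearMap.lcomp_apply', LinearMap.comp_apply, kapL_apply, P.π_ι, map_zero,
    LinearMap.zero_apply, LinearMap.zero_apply]

/-- `κ_Q a` vanishes on `ι Q₁`. -/
lemma lcomp_kapR (a : A) : LinearMap.lcomp k X Q.ι (E.kapR a) = 0 := by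
  ext y
  rw [LinearMap.lcomp_apply', LinearMap.comp_apply, kapR_apply, Q.π_ι, map_zero,
    LinearMap.zero_apply]

end EvData

/-! ### The hyper-1-cocycles `(κ ∘ m, 0)` and `(κ ∘ a, 0)` -/

section HZ

variable [Module.Finite k P0] [Module.Finite k P1] [Module.Finite k Q0] [Module.Finite k Q1]
variable (E : EvData P Q ρX) (h𝒰 : IsLevelBasis 𝒰) (hX : IsDiscrete 𝒰 ρX)

/-- The hyper-1-cocycle `(κ_P ∘ m, 0)` of `K(P; X)` attached to a level 1-cocycle `m : G → M`. -/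
def hzL (m : G → M) (hl : IsLevel₁ 𝒰 m) (hc : dOne Q.ρM m = 0) : HZ1 (P.K h𝒰 ρX hX) where
  c := fun g => E.kapL (m g)
  e := 0
  lev := hl.comp _
  hc g h := by
    have h1 := congrFun (comp_dOne Q.ρM (Representation.linHom P.ρ0 ρX) E.kapL
      E.kapL_equivariant m) (g, h)
    rw [Function.comp_apply, hc, Pi.zero_apply, map_zero] at h1
    exact h1.symm
  he g := by
    show LinearMap.lcomp k X P.ι (E.kapL (m g)) = dZero (Representation.linHom P.ρ1 ρX) 0 g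
    rw [E.lcomp_kapL, map_zero]
    rfl

/-- The hyper-1-cocycle `(κ_Q ∘ a, 0)` of `K(Q; X)` attached to a level 1-cocycle `a : G → A`. -/
def hzR (a : G → A) (hl : IsLevel₁ 𝒰 a) (hc : dOne P.ρM a = 0) : HZ1 (Q.K h𝒰 ρX hX) where
  c := fun g => E.kapR (a g)
  e := 0
  lev := hl.comp _
  hc g h := by
    have h1 := congrFun (comp_dOne P.ρM (Representation.linHom Q.ρ0 ρX) E.kapR
      E.kapR_equivariant a) (g, h)
    rw [Function.comp_apply, hc, Pi.zero_apply, map_zero] at h1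
    exact h1.symm
  he g := by
    show LinearMap.lcomp k X Q.ι (E.kapR (a g)) = dZero (Representation.linHom Q.ρ1 ρX) 0 g
    rw [E.lcomp_kapR, map_zero]
    rfl

/-- The cocycle relation, solved for `c (g h)`. -/
lemma cocycle_mul {Y : Type*} [AddCommGroup Y] [Module k Y] {ρ : Representation k G Y}
    {c : G → Y} (hc : dOne ρ c = 0) (g h : G) : c (g * h) = ρ g (c h) + c g := by
  have h1 := congrFun hc (g, h)
  rw [dOne_apply, Pi.zero_apply, sub_add_eq_add_sub, sub_eq_zero] at h1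
  exact h1.symm

/-- **The cochain identity behind graded commutativity.** -/
theorem p11_add_p11 (m : G → M) (hlm : IsLevel₁ 𝒰 m) (hcm : dOne Q.ρM m = 0)
    (a : G → A) (hla : IsLevel₁ 𝒰 a) (hca : dOne P.ρM a = 0)
    (La : Lift1 P) (hLa : La.Lifts a) (Lm : Lift1 Q) (hLm : Lm.Lifts m) :
    (evalPairing P h𝒰 ρX hX).p11 (hzL E h𝒰 hX m hlm hcm).c (hzL E h𝒰 hX m hlm hcm).e La.xt La.y' +
      (evalPairing Q h𝒰 ρX hX).p11 (hzR E h𝒰 hX a hla hca).c (hzR E h𝒰 hX a hla hca).e Lm.xt Lm.y' =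
      dOne ρX (fun g => - E.ev (a g) (m g)) := by
  funext ⟨g, h⟩
  have e1 : P.π (P.ρ0 g (La.xt h)) = P.ρM g (a h) := by rw [P.π_comm, hLa h]
  have e2 : Q.π (Q.ρ0 g (Lm.xt h)) = Q.ρM g (m h) := by rw [Q.π_comm, hLm h]
  simp only [Pairing.p11, hzL, hzR, evalPairing_β0, evalPairing_β1, EvData.kapL_apply,
    EvData.kapR_apply, LinearMap.zero_apply, add_zero, Pi.add_apply, dOne_apply, e1, e2,
    cocycle_mul hcm g h, cocycle_mul hca g h, map_add, LinearMap.add_apply, map_neg, E.equiv]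
  abel

/-- **Graded commutativity of the `(1,1)` pairing**:
`⟨(κ_P ∘ m, 0), [a]⟩_P + ⟨(κ_Q ∘ a, 0), [m]⟩_Q = 0` in `H²_lev(X)`. -/
theorem pair11_symm (m : G → M) (hlm : IsLevel₁ 𝒰 m) (hcm : dOne Q.ρM m = 0)
    (a : G → A) (hla : IsLevel₁ 𝒰 a) (hca : dOne P.ρM a = 0) :
    pair11 (evalPairing P h𝒰 ρX hX) h𝒰 hX ((hzL E h𝒰 hX m hlm hcm).cls h𝒰)
        (cl1 h𝒰 P.ρM P.discM a hla hca) +
      pair11 (evalPairing Q h𝒰 ρX hX) h𝒰 hX ((hzR E h𝒰 hX a hla hca).cls h𝒰)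
        (cl1 h𝒰 Q.ρM Q.discM m hlm hcm) = 0 := by
  obtain ⟨La, hLa⟩ := Lift1.exists_lift (P := P) hla hca
  obtain ⟨Lm, hLm⟩ := Lift1.exists_lift (P := Q) hlm hcm
  rw [pair11_cl1 _ h𝒰 hX _ a hla hca La hLa, pair11_cl1 _ h𝒰 hX _ m hlm hcm Lm hLm]
  unfold cls11
  have hlev : IsLevel₁ 𝒰 (fun g => - E.ev (a g) (m g)) := by
    obtain ⟨U, hU, h1⟩ := hla
    obtain ⟨V, hV, h2⟩ := hlm
    obtain ⟨W, hW, hle⟩ := h𝒰.inf U hU V hV
    exact ⟨W, hW, fun g s hs => by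
      show - E.ev (a (g * s)) (m (g * s)) = - E.ev (a g) (m g)
      rw [h1 g s (hle hs).1, h2 g s (hle hs).2]⟩
  have hsum := p11_add_p11 E h𝒰 hX m hlm hcm a hla hca La hLa Lm hLm
  rw [← cl2_add (hl'' := by rw [hsum]; exact h𝒰.isLevel₂_dOne hX hlev)
    (hc'' := by rw [hsum]; exact dTwo_dOne ρX _)]
  rw [cl2_eq_zero_iff]
  exact ⟨_, hlev, hsum.symm⟩

/-- **Right kernel of the dual ⟹ left kernel.**  If every class of `ℍ¹(K(P; X))` is of the form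
`(κ_P ∘ m, 0)`, every class of `ℍ¹(K(Q; X))` is of the form `(κ_Q ∘ a, 0)`, and the pairing
`ℍ¹(K(Q; X)) × H¹(M) → H²(X)` has trivial right kernel, then the pairing
`ℍ¹(K(P; X)) × H¹(A) → H²(X)` has trivial left kernel. -/
theorem left_kernel_of_right_kernel
    (hsurjP : ∀ ξ : (P.K h𝒰 ρX hX).ℍ1 h𝒰, ∃ (m : G → M) (hl : IsLevel₁ 𝒰 m)
      (hc : dOne Q.ρM m = 0), (hzL E h𝒰 hX m hl hc).cls h𝒰 = ξ)
    (hsurjQ : ∀ η : (Q.K h𝒰 ρX hX).ℍ1 h𝒰, ∃ (a : G → A) (hl : IsLevel₁ 𝒰 a)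
      (hc : dOne P.ρM a = 0), (hzR E h𝒰 hX a hl hc).cls h𝒰 = η)
    (hRK : ∀ x : Hlev1 h𝒰 Q.ρM Q.discM,
      (∀ η, pair11 (evalPairing Q h𝒰 ρX hX) h𝒰 hX η x = 0) → x = 0)
    (ξ : (P.K h𝒰 ρX hX).ℍ1 h𝒰)
    (h : ∀ x, pair11 (evalPairing P h𝒰 ρX hX) h𝒰 hX ξ x = 0) : ξ = 0 := by
  obtain ⟨m, hlm, hcm, rfl⟩ := hsurjP ξ
  have hm0 : cl1 h𝒰 Q.ρM Q.discM m hlm hcm = 0 := by
    apply hRK
    intro η
    obtain ⟨a, hla, hca, rfl⟩ := hsurjQ η
    have h1 := pair11_symm E h𝒰 hX m hlm hcm a hla hca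
    rw [h _, zero_add] at h1
    exact h1
  obtain ⟨y, hy⟩ := (cl1_eq_zero_iff hlm hcm).1 hm0
  -- `(κ ∘ d⁰ y, 0) = D⁰ (κ y)`
  unfold HZ1.cls
  rw [Cpx.π1_eq_zero_iff]
  refine ⟨E.kapL y, Subtype.ext ?_⟩
  show (P.K h𝒰 ρX hX).D0 (E.kapL y) = ((fun g => E.kapL (m g)), (0 : P1 →ₗ[k] X))
  rw [Cx.D0_apply]
  refine Prod.ext ?_ ?_
  · show dZero (Representation.linHom P.ρ0 ρX) (E.kapL y) = fun g => E.kapL (m g)
    rw [← comp_dZero Q.ρM (Representation.linHom P.ρ0 ρX) E.kapL E.kapL_equivariant y, hy]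
    rfl
  · exact E.lcomp_kapL y

/-- Comparison `H¹(G, M) ≅ ℍ¹(K(P; X))` in raw form: if `κ_P` identifies `M` with the kernel of
`Hom(P₀, X) → Hom(P₁, X)` and the latter map is onto, every class of `ℍ¹(K(P; X))` is the class of
some `(κ_P ∘ m, 0)`. -/
theorem exists_hzL (hinj : Injective E.kapL)
    (hker : ∀ b : P0 →ₗ[k] X, LinearMap.lcomp k X P.ι b = 0 → ∃ m, E.kapL m = b)
    (hsurj : Surjective (LinearMap.lcomp k X P.ι)) (ξ : (P.K h𝒰 ρX hX).ℍ1 h𝒰) :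
    ∃ (m : G → M) (hl : IsLevel₁ 𝒰 m) (hc : dOne Q.ρM m = 0),
      (hzL E h𝒰 hX m hl hc).cls h𝒰 = ξ := by
  have hb := HyperCompare25.bijective_incl1 (P.K h𝒰 ρX hX) h𝒰 Q.discM E.kapL
    E.kapL_equivariant E.lcomp_kapL hinj hker hsurj
  obtain ⟨w, rfl⟩ := hb.2 ξ
  obtain ⟨z, rfl⟩ := (HyperCompare25.plainCpx h𝒰 Q.ρM Q.discM).π1_surjective w
  exact ⟨z.1.1, z.1.2, (HyperCompare25.mem_plain_Z1_iff h𝒰 Q.ρM Q.discM z.1).1 z.2, rfl⟩

/-- The same for `Q`. -/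
theorem exists_hzR (hinj : Injective E.kapR)
    (hker : ∀ b : Q0 →ₗ[k] X, LinearMap.lcomp k X Q.ι b = 0 → ∃ a, E.kapR a = b)
    (hsurj : Surjective (LinearMap.lcomp k X Q.ι)) (η : (Q.K h𝒰 ρX hX).ℍ1 h𝒰) :
    ∃ (a : G → A) (hl : IsLevel₁ 𝒰 a) (hc : dOne P.ρM a = 0),
      (hzR E h𝒰 hX a hl hc).cls h𝒰 = η := by
  have hb := HyperCompare25.bijective_incl1 (Q.K h𝒰 ρX hX) h𝒰 P.discM E.kapR
    E.kapR_equivariant E.lcomp_kapR hinj hker hsurj
  obtain ⟨w, rfl⟩ := hb.2 η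
  obtain ⟨z, rfl⟩ := (HyperCompare25.plainCpx h𝒰 P.ρM P.discM).π1_surjective w
  exact ⟨z.1.1, z.1.2, (HyperCompare25.mem_plain_Z1_iff h𝒰 P.ρM P.discM z.1).1 z.2, rfl⟩

/-- The evaluation pairing is perfect: it identifies `M` with `Hom(A, X)` and `A` with
`Hom(M, X)`. -/
structure IsPerfectEv (E : EvData P Q ρX) : Prop where
  sepL : ∀ a, (∀ m, E.ev a m = 0) → a = 0
  sepR : ∀ m, (∀ a, E.ev a m = 0) → m = 0
  repL : ∀ φ : A →ₗ[k] X, ∃ m, ∀ a, E.ev a m = φ a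
  repR : ∀ φ : M →ₗ[k] X, ∃ a, ∀ m, E.ev a m = φ m

omit [Module.Finite k P0] [Module.Finite k P1] [Module.Finite k Q0] [Module.Finite k Q1] in
theorem IsPerfectEv.kapL_injective {E : EvData P Q ρX} (hE : IsPerfectEv E) :
    Injective E.kapL := by
  rw [injective_iff_map_eq_zero]
  intro m hm
  apply hE.sepR
  intro a
  obtain ⟨x, rfl⟩ := P.π_surj a
  exact LinearMap.congr_fun hm x

omit [Module.Finite k P0] [Module.Finite k P1] [Module.Finite k Q0] [Module.Finite k Q1] in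
theorem IsPerfectEv.kapR_injective {E : EvData P Q ρX} (hE : IsPerfectEv E) :
    Injective E.kapR := by
  rw [injective_iff_map_eq_zero]
  intro a ha
  apply hE.sepL
  intro m
  obtain ⟨y, rfl⟩ := Q.π_surj m
  exact LinearMap.congr_fun ha y

omit [Module.Finite k P0] [Module.Finite k P1] [Module.Finite k Q0] [Module.Finite k Q1] in
theorem IsPerfectEv.exists_kapL_eq {E : EvData P Q ρX} (hE : IsPerfectEv E)
    (b : P0 →ₗ[k] X) (hb : LinearMap.lcomp k X P.ι b = 0) : ∃ m, E.kapL m = b := by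
  obtain ⟨φ, hφ⟩ := (HomCx29.kerLcompEquiv (X := X) P.ι P.π P.π_surj P.exact).surjective
    ⟨b, LinearMap.mem_ker.2 hb⟩
  have hφ' : φ ∘ₗ P.π = b := congrArg Subtype.val hφ
  obtain ⟨m, hm⟩ := hE.repL φ
  refine ⟨m, ?_⟩
  ext x
  rw [EvData.kapL_apply, hm, ← hφ']
  rfl

omit [Module.Finite k P0] [Module.Finite k P1] [Module.Finite k Q0] [Module.Finite k Q1] in
theorem IsPerfectEv.exists_kapR_eq {E : EvData P Q ρX} (hE : IsPerfectEv E)
    (b : Q0 →ₗ[k] X) (hb : LinearMap.lcomp k X Q.ι b = 0) : ∃ a, E.kapR a = b := by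
  obtain ⟨φ, hφ⟩ := (HomCx29.kerLcompEquiv (X := X) Q.ι Q.π Q.π_surj Q.exact).surjective
    ⟨b, LinearMap.mem_ker.2 hb⟩
  have hφ' : φ ∘ₗ Q.π = b := congrArg Subtype.val hφ
  obtain ⟨a, ha⟩ := hE.repR φ
  refine ⟨a, ?_⟩
  ext y
  rw [EvData.kapR_apply, ha, ← hφ']
  rfl

/-- **Left kernel from the right kernel of the dual**, for a perfect evaluation pairing and
divisible coefficients (`Hom(P₀, X) → Hom(P₁, X)` and `Hom(Q₀, X) → Hom(Q₁, X)` onto). -/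
theorem left_kernel_of_perfect {E : EvData P Q ρX} (hE : IsPerfectEv E)
    (hsP : Surjective (LinearMap.lcomp k X P.ι)) (hsQ : Surjective (LinearMap.lcomp k X Q.ι))
    (hRK : ∀ x : Hlev1 h𝒰 Q.ρM Q.discM,
      (∀ η, pair11 (evalPairing Q h𝒰 ρX hX) h𝒰 hX η x = 0) → x = 0)
    (ξ : (P.K h𝒰 ρX hX).ℍ1 h𝒰)
    (h : ∀ x, pair11 (evalPairing P h𝒰 ρX hX) h𝒰 hX ξ x = 0) : ξ = 0 :=
  left_kernel_of_right_kernel E h𝒰 hX
    (exists_hzL E h𝒰 hX hE.kapL_injective hE.exists_kapL_eq hsP)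
    (exists_hzR E h𝒰 hX hE.kapR_injective hE.exists_kapR_eq hsQ) hRK ξ h

end HZ

end Fermat.Agent.W56.CupSymm1
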