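/-
Programme W56 (target S56), chapter (B) DICTIONARY, part 3 (helper9): from a deformation ring
`DQ` (of a type containing "determinant cyclotomic, unramified outside `T`") to the Selmer group:
every `𝒪`-algebra homomorphism `φ : DQ.R → k[ε]` gives a strict lift `r_φ` of the matrix of `ρ̄` in a
suitable basis, hence a level cocycle with values in `ad⁰ρ̄`; `φ ↦ class` is injective
(`DQ.universal`).
-/
import Mathlib
import Fermat.Agent.W56.Lift9
import Fermat.Agent.W56.BaseChange9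
import Fermat.Agent.S53.Tangent
import Fermat.Agent.S53.Universal

set_option autoImplicit false
set_option linter.unusedSectionVars false
set_option linter.unnecessarySeqFocus false
set_option linter.style.haveILetI false

open CategoryTheory groupCohomology IsLocalRing ExtCitation

namespace Fermat.Agent.W56.Dict9

open Fermat.Agent.S53 Fermat.Agent.S53.MatrixModel Fermat.Agent.W56.Defs9 Fermat.Agent.W56.Lift9
  Fermat.Agent.PT.PRO Fermat.Agent.PT.BR

local notation "Qbar" => AlgebraicClosure ℚ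
local notation "Γ" => (AlgebraicClosure ℚ ≃ₐ[ℚ] AlgebraicClosure ℚ)

noncomputable section

/-! ### The cyclotomic exponent -/

section Cyclo

variable (p : ℕ) [Fact p.Prime]

/-- `σ` raises every `p`-th root of unity to the power `cycloExp p σ`. -/
theorem apply_eq_pow_cycloExp' (σ : Γ) (t : Qbar) (ht : t ^ p ^ 1 = 1) :
    σ t = t ^ cycloExp p σ := by
  haveI : NeZero p := ⟨(Fact.out : p.Prime).ne_zero⟩
  rw [pow_one] at ht
  have htu : IsUnit t := IsUnit.of_pow_eq_one ht (NeZero.ne p)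
  obtain ⟨u, rfl⟩ := htu
  have hu : u ∈ rootsOfUnity p Qbar := by
    rw [mem_rootsOfUnity]
    exact Units.ext (by simpa using ht)
  exact modularCyclotomicCharacter.spec Qbar (card_rootsOfUnity_eq_self p)
    (σ : Qbar ≃+* Qbar) hu

/-- In a ring where `p = 0`, a cyclotomic determinant is the cyclotomic exponent. -/
theorem det_eq_cycloExp {A : Type} [CommRing A] [IsLocalRing A] (ρ : GaloisRepAdic A)
    (hp0 : (p : A) = 0) (h : ρ.DetIsCyclotomic p) (σ : Γ) :
    LinearMap.det (ρ.ρ σ) = (cycloExp p σ : A) := by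
  have h1 := h.2 1 σ (cycloExp p σ) (apply_eq_pow_cycloExp' p σ)
  rw [pow_one, hp0, Ideal.mem_span_singleton, zero_dvd_iff, sub_eq_zero] at h1
  exact h1

end Cyclo

/-! ### Matrices of a representation in a basis -/

section MatrixFacts

variable {A : Type} [CommRing A] [IsLocalRing A] (ρ : GaloisRepAdic A)
  (b : Module.Basis (Fin 2) A ρ.V)

theorem det_matrixOf (σ : Γ) : (matrixOf ρ b σ).det = LinearMap.det (ρ.ρ σ) := by
  rw [matrixOf_apply, LinearMap.det_toMatrix]

theorem charpoly_matrixOf (σ : Γ) :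
    (matrixOf ρ b σ).charpoly = LinearMap.charpoly (ρ.ρ σ) := by
  rw [matrixOf_apply, LinearMap.charpoly_toMatrix]

theorem matrixOf_eq_one {σ : Γ} (h : ρ.ρ σ = 1) : matrixOf ρ b σ = 1 := by
  rw [matrixOf_apply, h, LinearMap.toMatrix_one]

theorem matrixOf_one_zero {σ : Γ} (h : ρ.ρ σ (b 0) ∈ Submodule.span A {b 0}) :
    matrixOf ρ b σ 1 0 = 0 := by
  obtain ⟨a, ha⟩ := Submodule.mem_span_singleton.1 h
  rw [matrixOf_apply, LinearMap.toMatrix_apply, ← ha, map_smul, Finsupp.smul_apply,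
    Module.Basis.repr_self, Finsupp.single_apply]
  simp

theorem matrixOf_zero_zero {σ : Γ} {x : A} (h : ρ.ρ σ (b 0) = x • b 0) :
    matrixOf ρ b σ 0 0 = x := by
  rw [matrixOf_apply, LinearMap.toMatrix_apply, h, map_smul, Finsupp.smul_apply,
    Module.Basis.repr_self, Finsupp.single_apply]
  simp

theorem matrixOf_one_one {σ : Γ} {z : A}
    (h : ρ.ρ σ (b 1) - z • b 1 ∈ Submodule.span A {b 0}) :
    matrixOf ρ b σ 1 1 = z := by
  obtain ⟨a, ha⟩ := Submodule.mem_span_singleton.1 h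
  have h1 : ρ.ρ σ (b 1) = a • b 0 + z • b 1 := by rw [ha]; abel
  rw [matrixOf_apply, LinearMap.toMatrix_apply, h1, map_add, map_smul, map_smul,
    Finsupp.add_apply, Finsupp.smul_apply, Finsupp.smul_apply, Module.Basis.repr_self,
    Module.Basis.repr_self, Finsupp.single_apply, Finsupp.single_apply]
  simp

end MatrixFacts

/-! ### A homomorphism with open kernel, trivial on inertia outside `T`, has level `T` -/

section Level

local instance isAlgClosureQbarD9 : IsAlgClosure ℚ Qbar := ⟨inferInstance, inferInstance⟩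
local instance normalQbarD9 : Normal ℚ Qbar := IsAlgClosure.normal ℚ Qbar
local instance isGaloisQbarD9 : IsGalois ℚ Qbar := IsAlgClosure.isGalois ℚ Qbar

theorem exists_isUnramifiedOutside_forall_eq_one {X : Type*} [Monoid X] (f : Γ →* X)
    (T : Finset Nat.Primes)
    (hfin : ∃ F : IntermediateField ℚ Qbar, FiniteDimensional ℚ F ∧
      ∀ s ∈ F.fixingSubgroup, f s = 1)
    (hur : ∀ q : Nat.Primes, q ∉ T → ∀ A : ValuationSubring Qbar,
      A.LiesOverPrime (q : ℕ) → ∀ g ∈ A.inertiaSubgroupIn ℚ, f g = 1) :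
    ∃ L : IntermediateField ℚ Qbar, L.IsUnramifiedOutside T ∧
      ∀ s ∈ L.fixingSubgroup, f s = 1 := by
  obtain ⟨F, hFfin, hF⟩ := hfin
  let N : Subgroup Γ := MonoidHom.ker f
  have hFN : F.fixingSubgroup ≤ N := fun s hs => hF s hs
  have hNopen : IsOpen (N : Set Γ) := Subgroup.isOpen_mono hFN F.fixingSubgroup_isOpen
  have hNclosed : IsClosed (N : Set Γ) := Subgroup.isClosed_of_isOpen N hNopen
  let Nc : ClosedSubgroup Γ := ⟨N, hNclosed⟩
  have hfix : (IntermediateField.fixedField N).fixingSubgroup = N :=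
    InfiniteGalois.fixingSubgroup_fixedField Nc
  have hle : IntermediateField.fixedField N ≤ F := by
    have h1 := IntermediateField.fixedField_antitone hFN
    rwa [InfiniteGalois.fixedField_fixingSubgroup] at h1
  refine ⟨IntermediateField.fixedField N, ⟨?_, fun q hq A hA g hg => ?_⟩, fun s hs => ?_⟩
  · exact FiniteDimensional.of_injective (IntermediateField.inclusion hle).toLinearMap
      (IntermediateField.inclusion_injective hle)
  · rw [hfix]
    exact hur q hq A hA g hg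
  · rw [hfix] at hs
    exact hs

end Level

/-! ### Tangent homomorphisms -/

section Tangent

attribute [local instance] dualNumberAlgebra

variable {𝒪 : Type} [CommRing 𝒪] [IsLocalRing 𝒪] [Finite (ResidueField 𝒪)]
  {R : Type} [CommRing R] [IsLocalRing R] [Algebra 𝒪 R]

theorem isLocalHom_tangent (φ : R →ₐ[𝒪] DualNumber (ResidueField 𝒪)) :
    IsLocalHom (φ : R →+* DualNumber (ResidueField 𝒪)) :=
  up_isLocalHom_of_algHom (test_dualNumber (𝒪 := 𝒪)).isLocalHom
    (test_dualNumber (𝒪 := 𝒪)).residue_surjective φ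

theorem fst_tangent_of_mem (φ : R →ₐ[𝒪] DualNumber (ResidueField 𝒪)) {x : R}
    (hx : x ∈ maximalIdeal R) : (φ x).fst = 0 := by
  by_contra hne
  have hu : IsUnit (φ x) := by
    rw [TrivSqZeroExt.isUnit_iff_isUnit_fst]
    exact isUnit_iff_ne_zero.mpr hne
  exact (mem_maximalIdeal x).mp hx ((isLocalHom_tangent φ).map_nonunit x hu)

theorem map_fst_tangent [IsLocalHom (algebraMap 𝒪 R)]
    (hsurj : Function.Surjective (residue R ∘ algebraMap 𝒪 R))
    (φ : R →ₐ[𝒪] DualNumber (ResidueField 𝒪)) (x : R) :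
    ResidueField.map (algebraMap 𝒪 R) ((φ x).fst) = residue R x := by
  obtain ⟨c, hc⟩ := hsurj (residue R x)
  have hm : x - algebraMap 𝒪 R c ∈ maximalIdeal R := by
    rw [← residue_eq_zero_iff, map_sub, sub_eq_zero]
    exact hc.symm
  have h1 : (φ x).fst = residue 𝒪 c := by
    have h2 : φ x = φ (algebraMap 𝒪 R c) + φ (x - algebraMap 𝒪 R c) := by
      rw [← map_add]; congr 1; ring
    rw [h2, TrivSqZeroExt.fst_add, fst_tangent_of_mem φ hm, add_zero, φ.commutes,
      algebraMap_dualNumber_apply, TrivSqZeroExt.fst_inl]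
  rw [h1, ResidueField.map_residue]
  exact hc

end Tangent

/-! ### A basis of `V̄` in which the universal matrices are strict lifts -/

section Basis

variable {k : Type} [Field k]

/-- A residual representation equivalent to a matrix representation has a basis with these
matrices. -/
theorem exists_basis_of_isEquiv (ρbar : ResidualGaloisRep k) {r : Γ →* M2 k}
    (hr : GaloisFactorsThroughFiniteLevel r) (h : ρbar.IsEquiv (ofMatrixRes r hr)) :
    ∃ b : Module.Basis (Fin 2) k ρbar.V, rbarOf ρbar b = r := by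
  obtain ⟨E⟩ := h
  let e : ρbar.V ≃ₗ[k] (Fin 2 → k) := E.toLinearEquiv
  refine ⟨Module.Basis.ofEquivFun e, ?_⟩
  ext σ i j
  rw [matrixOfBasisRes_apply, LinearMap.toMatrix_apply, Module.Basis.coe_ofEquivFun,
    Module.Basis.ofEquivFun_repr_apply]
  show e (ρbar.ρ σ (e.symm (Pi.single j 1))) i = r σ i j
  have h1 : e (ρbar.ρ σ (e.symm (Pi.single j 1))) =
      (r σ).mulVec (e (e.symm (Pi.single j 1))) := E.map_apply σ _
  rw [h1, LinearEquiv.apply_symm_apply, Matrix.mulVec_single_one]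
  rfl

end Basis

/-! ### The class of a strict lift and the local conditions -/

section StrictLift

variable {k : Type} [Field k] (ρbar : ResidualGaloisRep k) (b : Module.Basis (Fin 2) k ρbar.V)
  {r : Γ →* M2 (DualNumber k)} (T : Finset Nat.Primes)

/-- The level cocycle of a strict lift (existential form of `Lift9.coc0Z`). -/
def cocZ (hred : redM r = rbarOf ρbar b)
    (hdet : ∀ σ, (r σ).det = TrivSqZeroExt.inl (redM r σ).det)
    (hlev : ∃ L : IntermediateField ℚ Qbar, L.IsUnramifiedOutside T ∧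
      ∀ s ∈ L.fixingSubgroup, r s = 1) :
    ↥(LevelCoh28.Z1 (LevelBridge13.globalBasis T) (ad0 ρbar)) :=
  ⟨coc0 ρbar b hdet, coc0_mem_cocycles₁ ρbar b hred hdet, by
    obtain ⟨L, hL, ht⟩ := hlev
    exact isLevel₁_coc0 ρbar b T hdet hL ht⟩

variable (hred : redM r = rbarOf ρbar b)
  (hdet : ∀ σ, (r σ).det = TrivSqZeroExt.inl (redM r σ).det)
  (hlev : ∃ L : IntermediateField ℚ Qbar, L.IsUnramifiedOutside T ∧
    ∀ s ∈ L.fixingSubgroup, r s = 1)

theorem coe_cocZ :
    ((cocZ ρbar b T hred hdet hlev : ↥(LevelCoh28.Z1 (LevelBridge13.globalBasis T) (ad0 ρbar))) :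
      Γ → ad0 ρbar) = coc0 ρbar b hdet := rfl

/-- The class of a strict lift. -/
def classOf : H1g T (ad0 ρbar) :=
  LevelCoh28.H1mk (LevelBridge13.globalBasis T) (ad0 ρbar) (cocZ ρbar b T hred hdet hlev)

/-- Two strict lifts with the same class are equivalent. -/
theorem isEquiv_of_classOf_eq {r' : Γ →* M2 (DualNumber k)} (hr : MatCont r) (hr' : MatCont r')
    (hred' : redM r' = rbarOf ρbar b)
    (hdet' : ∀ σ, (r' σ).det = TrivSqZeroExt.inl (redM r' σ).det)
    (hlev' : ∃ L : IntermediateField ℚ Qbar, L.IsUnramifiedOutside T ∧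
      ∀ s ∈ L.fixingSubgroup, r' s = 1)
    (h : classOf ρbar b T hred hdet hlev = classOf ρbar b T hred' hdet' hlev') :
    (ofMatrix r hr).IsEquiv (ofMatrix r' hr') := by
  rw [classOf, classOf, ← sub_eq_zero, ← map_sub, LevelCoh28.H1mk_eq_zero_iff] at h
  exact isEquiv_of_sub_mem_coboundaries ρbar b hr hr' hred hred' hdet hdet' h

/-- The inertia condition at `q`: if the cocycle is a coboundary on the inertia group of the place
`primeLocalPlace q`, the class restricts to zero on `inertia q`. -/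
theorem resI_classOf_eq_zero (q : Nat.Primes) (X : Module.End k ρbar.V)
    (hX0 : LinearMap.trace k ρbar.V X = 0)
    (hX : ∀ σ ∈ (primeLocalPlace q).inertiaSubgroupIn ℚ,
      cocEnd ρbar b r σ = ρbar.ρ σ * X * ρbar.ρ σ⁻¹ - X) :
    resI T (ad0 ρbar) q (classOf ρbar b T hred hdet hlev) = 0 := by
  rw [classOf, resI, ShaBridge13.resH1_mk, LevelCoh28.H1mk_eq_zero_iff]
  let X' : ↥(sl ρbar) := ⟨X, (mem_sl_iff ρbar X).2 hX0⟩
  refine ⟨X', ?_⟩
  funext τ
  apply Subtype.ext
  show ρbar.ρ (locI q τ) * X * ρbar.ρ (locI q τ)⁻¹ - X = cocEnd ρbar b r (locI q τ)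
  rw [hX _ (locI_mem q τ)]

/-- The condition at `pp`: if the cocycle takes values in `W0 ρ̄ ℓ` on the image of
`Gal(ℚ̄_pp/ℚ_pp)`, the class restricts into `LpSO ρ̄ ℓ pp`. -/
theorem resD_classOf_mem_LpSO (pp : Nat.Primes) (ℓ : Submodule k ρbar.V)
    (hW : ∀ τ : primeLocalGaloisGroup pp,
      LinearMap.range (cocEnd ρbar b r (locD pp τ)) ≤ ℓ ∧
        ℓ ≤ LinearMap.ker (cocEnd ρbar b r (locD pp τ))) :
    resD T (ad0 ρbar) pp (classOf ρbar b T hred hdet hlev) ∈ LpSO ρbar ℓ pp := by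
  rw [classOf, resD, ShaBridge13.resH1_mk, LpSO, Submodule.mem_map]
  refine ⟨_, ?_, rfl⟩
  intro τ
  exact hW τ

end StrictLift

/-! ### The universal matrix representation and its tangent specialisations -/

section Universal

attribute [local instance] dualNumberAlgebra

variable {𝒪 : Type} [CommRing 𝒪] [IsDomain 𝒪] [IsDiscreteValuationRing 𝒪]
  [IsAdicComplete (maximalIdeal 𝒪) 𝒪] [Finite (ResidueField 𝒪)]
  {ρbar : ResidualGaloisRep (ResidueField 𝒪)}
  {𝒟 : ∀ ⦃A : Type⦄ [CommRing A] [IsLocalRing A] [Algebra 𝒪 A], GaloisRepAdic A → Prop}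
  (DQ : GaloisRep.DeformationRingData 𝒪 ρbar 𝒟)

/-- The matrices of the tangent specialisation `φ` of the universal representation in the
basis `b'`. -/
def rOf (b' : Module.Basis (Fin 2) DQ.R DQ.ρ.V) (φ : DQ.R →ₐ[𝒪] DualNumber (ResidueField 𝒪)) :
    Γ →* M2 (DualNumber (ResidueField 𝒪)) :=
  mapMat (φ : DQ.R →+* DualNumber (ResidueField 𝒪)) (matrixOf DQ.ρ b')

theorem rOf_apply (b' : Module.Basis (Fin 2) DQ.R DQ.ρ.V)
    (φ : DQ.R →ₐ[𝒪] DualNumber (ResidueField 𝒪)) (σ : Γ) (i j : Fin 2) :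
    rOf DQ b' φ σ i j = φ (matrixOf DQ.ρ b' σ i j) := by
  simp [rOf]

theorem matCont_rOf (b' : Module.Basis (Fin 2) DQ.R DQ.ρ.V)
    (φ : DQ.R →ₐ[𝒪] DualNumber (ResidueField 𝒪)) : MatCont (rOf DQ b' φ) :=
  matCont_mapMat (matCont_matrixOf DQ.ρ b') _ (isLocalHom_tangent φ)

/-- **There is a basis of `V̄` in which all tangent specialisations of the universal matrices are
strict lifts of the matrices of `ρ̄`.** -/
theorem exists_basis_strict (b' : Module.Basis (Fin 2) DQ.R DQ.ρ.V) :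
    ∃ b : Module.Basis (Fin 2) (ResidueField 𝒪) ρbar.V,
      (∃ π : DQ.R →+* ResidueField 𝒪, rbarOf ρbar b = mapMat π (matrixOf DQ.ρ b')) ∧
      ∀ φ : DQ.R →ₐ[𝒪] DualNumber (ResidueField 𝒪), redM (rOf DQ b' φ) = rbarOf ρbar b := by
  let ι : ResidueField 𝒪 →+* ResidueField DQ.R := ResidueField.map (algebraMap 𝒪 DQ.R)
  have hι : Function.Bijective ι := by
    refine ⟨ι.injective, fun x => ?_⟩
    obtain ⟨a, rfl⟩ := IsLocalRing.residue_surjective x
    obtain ⟨c, hc⟩ := DQ.residue_surjective (residue DQ.R a)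
    exact ⟨residue 𝒪 c, by rw [ResidueField.map_residue]; exact hc⟩
  let e : ResidueField 𝒪 ≃+* ResidueField DQ.R := RingEquiv.ofBijective ι hι
  let π : DQ.R →+* ResidueField 𝒪 :=
    (e.symm : ResidueField DQ.R →+* ResidueField 𝒪).comp (residue DQ.R)
  let Ru := matrixOf DQ.ρ b'
  have hcont : MatCont Ru := matCont_matrixOf DQ.ρ b'
  have hfac : GaloisFactorsThroughFiniteLevel (mapMat (residue DQ.R) Ru) :=
    factors_of_matCont_residue hcont
  have ha : DQ.ρ.residual.IsEquiv (ofMatrixRes (mapMat (residue DQ.R) Ru) hfac) :=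
    residual_isEquiv_ofMatrixRes DQ.ρ b' _ _ fun σ => rfl
  let b₁ := stdB ρbar
  have hfac₁ := matrixOfBasisRes_factors ρbar b₁
  have hb : (ρbar.baseChangeAlong ι).IsEquiv
      (ofMatrixRes (mapMat ι (rbarOf ρbar b₁)) (factors_mapMat ι hfac₁)) :=
    res_baseChangeAlong_isEquiv_ofMatrixRes ι ρbar b₁ _ _ fun σ => rfl
  have h1 := resIsEquiv_trans (resIsEquiv_symm ha) (resIsEquiv_trans DQ.residual_isEquiv hb)
  obtain ⟨gbar, hg⟩ := (ofMatrixRes_isEquiv_iff _ _).1 h1
  -- descend to `k`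
  have hπ : ∀ x : DQ.R, ι (π x) = residue DQ.R x := fun x => e.apply_symm_apply _
  have hfacu : GaloisFactorsThroughFiniteLevel (mapMat π Ru) := by
    obtain ⟨L, hL, h⟩ := hfac
    refine ⟨L, hL, fun σ hσ => ?_⟩
    have h2 := h σ hσ
    ext i j
    have h3 := congrFun (congrFun h2 i) j
    rw [mapMat_apply] at h3 ⊢
    apply ι.injective
    rw [hπ, h3]
    by_cases hij : i = j
    · subst hij; simp
    · simp [Matrix.one_apply_ne hij]
  let f : M2 (ResidueField DQ.R) →* M2 (ResidueField 𝒪) :=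
    ((e.symm : ResidueField DQ.R →+* ResidueField 𝒪).mapMatrix (m := Fin 2)).toMonoidHom
  let g : (M2 (ResidueField 𝒪))ˣ := Units.map f gbar
  have hgu : ∀ σ, (g : M2 (ResidueField 𝒪)) * mapMat π Ru σ = rbarOf ρbar b₁ σ * g := by
    intro σ
    have h2 := congrArg f (hg σ)
    rw [map_mul, map_mul] at h2
    have h3 : f (mapMat (residue DQ.R) Ru σ) = mapMat π Ru σ := by
      ext i j
      simp [f, π, mapMat]
    have h4 : f (mapMat ι (rbarOf ρbar b₁) σ) = rbarOf ρbar b₁ σ := by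
      ext i j
      simp only [f, mapMat_apply, RingHom.toMonoidHom_eq_coe, MonoidHom.coe_coe,
        RingHom.mapMatrix_apply, Matrix.map_apply]
      exact e.symm_apply_apply _
    rw [h3, h4] at h2
    exact h2
  have hE : ρbar.IsEquiv (ofMatrixRes (mapMat π Ru) hfacu) := by
    refine resIsEquiv_trans ⟨resEquivOfMatrixOfBasis ρbar b₁ (rbarOf ρbar b₁) hfac₁ fun _ => rfl⟩
      ((ofMatrixRes_isEquiv_iff _ _).2 ⟨g⁻¹, fun σ => ?_⟩)
    have h2 := hgu σ
    calc ((g⁻¹ : (M2 (ResidueField 𝒪))ˣ) : M2 (ResidueField 𝒪)) * rbarOf ρbar b₁ σ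
        = (g⁻¹ : (M2 (ResidueField 𝒪))ˣ) * (rbarOf ρbar b₁ σ * g) * (g⁻¹ : (M2 (ResidueField 𝒪))ˣ) := by
          rw [mul_assoc, mul_assoc, Units.mul_inv, mul_one]
      _ = (g⁻¹ : (M2 (ResidueField 𝒪))ˣ) * (g * mapMat π Ru σ) * (g⁻¹ : (M2 (ResidueField 𝒪))ˣ) := by
          rw [h2]
      _ = mapMat π Ru σ * (g⁻¹ : (M2 (ResidueField 𝒪))ˣ) := by
          rw [← mul_assoc, Units.inv_mul, one_mul]
  obtain ⟨b, hb⟩ := exists_basis_of_isEquiv ρbar hfacu hE
  refine ⟨b, ⟨π, hb⟩, fun φ => ?_⟩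
  rw [hb]
  ext σ i j
  rw [redM_apply, fstM_apply, rOf_apply, mapMat_apply]
  apply ι.injective
  rw [hπ]
  exact map_fst_tangent DQ.residue_surjective φ _

end Universal

/-! ### Dual numbers: small facts -/

section DualNumberFacts

variable {k : Type} [Field k]

theorem mem_maximalIdeal_dualNumber_iff (x : DualNumber k) :
    x ∈ maximalIdeal (DualNumber k) ↔ x.fst = 0 := by
  rw [mem_maximalIdeal, mem_nonunits_iff, TrivSqZeroExt.isUnit_iff_isUnit_fst, isUnit_iff_ne_zero,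
    not_not]

theorem maximalIdeal_dualNumber_sq : maximalIdeal (DualNumber k) ^ 2 = ⊥ := by
  rw [eq_bot_iff, pow_two, Ideal.mul_le]
  intro x hx y hy
  rw [mem_maximalIdeal_dualNumber_iff] at hx hy
  rw [Ideal.mem_bot]
  apply TrivSqZeroExt.ext
  · simp [hx]
  · simp [hx, hy]

theorem factors_of_matCont_dualNumber {r : Γ →* M2 (DualNumber k)} (h : MatCont r) :
    GaloisFactorsThroughFiniteLevel r := by
  obtain ⟨L, hL, h1⟩ := h 2
  refine ⟨L, hL, fun σ hσ => ?_⟩
  apply Matrix.ext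
  intro i j
  have h2 := h1 σ hσ i j
  rw [maximalIdeal_dualNumber_sq, Ideal.mem_bot, Matrix.sub_apply, sub_eq_zero] at h2
  exact h2

end DualNumberFacts

/-! ### The tangent classes of a deformation ring -/

section Main

attribute [local instance] dualNumberAlgebra

variable {𝒪 : Type} [CommRing 𝒪] [IsDomain 𝒪] [IsDiscreteValuationRing 𝒪]
  [IsAdicComplete (maximalIdeal 𝒪) 𝒪] [Finite (ResidueField 𝒪)]
  (p : ℕ) [Fact p.Prime] (hp𝒪 : (p : 𝒪) ∈ maximalIdeal 𝒪)
  {ρbar : ResidualGaloisRep (ResidueField 𝒪)}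
  (hdetbar : (GaloisRepAdic.ofResidualGaloisRep ρbar).DetIsCyclotomic p)
  {𝒟 : ∀ ⦃A : Type⦄ [CommRing A] [IsLocalRing A] [Algebra 𝒪 A], GaloisRepAdic A → Prop}
  (DQ : GaloisRep.DeformationRingData 𝒪 ρbar 𝒟)
  (b' : Module.Basis (Fin 2) DQ.R DQ.ρ.V)
  (b : Module.Basis (Fin 2) (ResidueField 𝒪) ρbar.V)
  (hb : ∀ φ : DQ.R →ₐ[𝒪] DualNumber (ResidueField 𝒪), redM (rOf DQ b' φ) = rbarOf ρbar b)
  (T : Finset ℕ) (hD : DQ.ρ.DetIsCyclotomic p)
  (hU : ∀ q : ℕ, q.Prime → q ∉ T → DQ.ρ.IsUnramifiedAt q)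

include hp𝒪 in
theorem natCast_p_residueField : ((p : ℕ) : ResidueField 𝒪) = 0 := by
  have h : residue 𝒪 (p : 𝒪) = 0 := (residue_eq_zero_iff _).2 hp𝒪
  rwa [map_natCast] at h

include hp𝒪 in
theorem natCast_p_dualNumber : ((p : ℕ) : DualNumber (ResidueField 𝒪)) = 0 := by
  have h : algebraMap 𝒪 (DualNumber (ResidueField 𝒪)) (p : 𝒪) = 0 := by
    rw [algebraMap_dualNumber_apply, (residue_eq_zero_iff _).2 hp𝒪, TrivSqZeroExt.inl_zero]
  rwa [map_natCast] at h

include hp𝒪 hdetbar hb hD in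
theorem det_rOf (φ : DQ.R →ₐ[𝒪] DualNumber (ResidueField 𝒪)) (σ : Γ) :
    (rOf DQ b' φ σ).det = TrivSqZeroExt.inl (redM (rOf DQ b' φ) σ).det := by
  have h1 : (rOf DQ b' φ σ).det = φ ((matrixOf DQ.ρ b' σ).det) := by
    rw [rOf, mapMat_apply']
    exact (RingHom.map_det (φ : DQ.R →+* DualNumber (ResidueField 𝒪)) _).symm
  have h2 := hD.2 1 σ (cycloExp p σ) (apply_eq_pow_cycloExp' p σ)
  rw [← det_matrixOf DQ.ρ b'] at h2
  have h3 := BaseChange9.map_mem_span_natCast (φ : DQ.R →+* DualNumber (ResidueField 𝒪)) h2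
  rw [pow_one, natCast_p_dualNumber p hp𝒪, Ideal.mem_span_singleton, zero_dvd_iff, map_sub,
    sub_eq_zero, map_natCast] at h3
  have h4 : (redM (rOf DQ b' φ) σ).det = (cycloExp p σ : ResidueField 𝒪) := by
    rw [hb φ, matrixOfBasisRes_apply, LinearMap.det_toMatrix]
    exact det_eq_cycloExp p (GaloisRepAdic.ofResidualGaloisRep ρbar)
      (natCast_p_residueField p hp𝒪) hdetbar σ
  rw [h1, h4]
  change (φ : DQ.R →+* DualNumber (ResidueField 𝒪)) _ = _
  rw [h3]
  exact (map_natCast (TrivSqZeroExt.inlHom (ResidueField 𝒪) (ResidueField 𝒪)) _).symm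

include hU in
theorem lev_rOf (φ : DQ.R →ₐ[𝒪] DualNumber (ResidueField 𝒪)) :
    ∃ L : IntermediateField ℚ Qbar, L.IsUnramifiedOutside (primesOf T) ∧
      ∀ s ∈ L.fixingSubgroup, rOf DQ b' φ s = 1 := by
  refine exists_isUnramifiedOutside_forall_eq_one (rOf DQ b' φ) (primesOf T) ?_ ?_
  · obtain ⟨L, hL, h⟩ := factors_of_matCont_dualNumber (matCont_rOf DQ b' φ)
    exact ⟨L, hL, fun s hs => h s fun x hx => (IntermediateField.mem_fixingSubgroup_iff _ _).1 hs x hx⟩
  · intro q hq A hA g hg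
    have hq' : (q : ℕ) ∉ T := fun h => hq (mem_primesOf.2 h)
    have h1 := hU q q.2 hq' A hA g hg
    rw [rOf, mapMat_apply', matrixOf_eq_one DQ.ρ b' h1]
    exact Matrix.map_one _ (map_zero _) (map_one _)

/-- **The class in `H¹(G_T, ad⁰ρ̄)` of a tangent homomorphism.** -/
def tangentClass (φ : DQ.R →ₐ[𝒪] DualNumber (ResidueField 𝒪)) : H1g (primesOf T) (ad0 ρbar) :=
  classOf ρbar b (primesOf T) (hb φ) (det_rOf p hp𝒪 hdetbar DQ b' b hb hD φ)
    (lev_rOf DQ b' T hU φ)

/-- Every tangent specialisation of the universal representation is equivalent to its matrix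
model `rOf`. -/
theorem baseChangeAlong_isEquiv_rOf (φ : DQ.R →ₐ[𝒪] DualNumber (ResidueField 𝒪)) :
    (DQ.ρ.baseChangeAlong (φ : DQ.R →+* DualNumber (ResidueField 𝒪))
      (isLocalHom_tangent φ)).IsEquiv (ofMatrix (rOf DQ b' φ) (matCont_rOf DQ b' φ)) :=
  adicIsEquiv_trans
    (adicIsEquiv_baseChangeAlong _ (isLocalHom_tangent φ) (isEquiv_ofMatrix_matrixOf DQ.ρ b'))
    (baseChangeAlong_ofMatrix _ (isLocalHom_tangent φ) _ (matCont_matrixOf DQ.ρ b'))

include hb in
theorem isStrictLift_rOf (φ : DQ.R →ₐ[𝒪] DualNumber (ResidueField 𝒪)) :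
    IsStrictLift (rbarOf ρbar b) (rOf DQ b' φ) := by
  intro σ i j a ha
  rw [mem_maximalIdeal_dualNumber_iff, TrivSqZeroExt.fst_sub, algebraMap_dualNumber_apply,
    TrivSqZeroExt.fst_inl, ha, ← hb φ, redM_apply, fstM_apply, sub_self]

include hb in
theorem residual_baseChangeAlong_isEquiv (φ : DQ.R →ₐ[𝒪] DualNumber (ResidueField 𝒪)) :
    haveI := (test_dualNumber (𝒪 := 𝒪)).isLocalHom
    (DQ.ρ.baseChangeAlong (φ : DQ.R →+* DualNumber (ResidueField 𝒪))
      (isLocalHom_tangent φ)).residual.IsEquiv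
      (ρbar.baseChangeAlong
        (ResidueField.map (algebraMap 𝒪 (DualNumber (ResidueField 𝒪))))) := by
  haveI := (test_dualNumber (𝒪 := 𝒪)).isLocalHom
  have hfac := matrixOfBasisRes_factors ρbar b
  have hρ : ρbar.IsEquiv (ofMatrixRes (rbarOf ρbar b) hfac) :=
    ⟨resEquivOfMatrixOfBasis ρbar b (rbarOf ρbar b) hfac fun _ => rfl⟩
  exact resIsEquiv_trans (adicIsEquiv_residual (baseChangeAlong_isEquiv_rOf DQ b' φ))
    (residual_isEquiv_of_isStrictLift ρbar hfac hρ (matCont_rOf DQ b' φ)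
      (isStrictLift_rOf DQ b' b hb φ))

include hp𝒪 hdetbar hb hD hU in
/-- **Injectivity of the tangent class** (on the homomorphisms whose specialisation is of
type `𝒟`). -/
theorem eq_of_tangentClass_eq (φ ψ : DQ.R →ₐ[𝒪] DualNumber (ResidueField 𝒪))
    (h : tangentClass p hp𝒪 hdetbar DQ b' b hb T hD hU φ =
      tangentClass p hp𝒪 hdetbar DQ b' b hb T hD hU ψ)
    (h𝒟 : 𝒟 (DQ.ρ.baseChangeAlong (ψ : DQ.R →+* DualNumber (ResidueField 𝒪))
      (isLocalHom_tangent ψ))) : φ = ψ := by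
  haveI := (test_dualNumber (𝒪 := 𝒪)).isLocalHom
  haveI : Finite (DualNumber (ResidueField 𝒪)) :=
    inferInstanceAs (Finite (ResidueField 𝒪 × ResidueField 𝒪))
  have h1 : (ofMatrix (rOf DQ b' φ) (matCont_rOf DQ b' φ)).IsEquiv
      (ofMatrix (rOf DQ b' ψ) (matCont_rOf DQ b' ψ)) :=
    isEquiv_of_classOf_eq ρbar b (primesOf T) (hb φ) _ _ (matCont_rOf DQ b' φ)
      (matCont_rOf DQ b' ψ) (hb ψ) _ _ h
  have h2 : (DQ.ρ.baseChangeAlong (φ : DQ.R →+* DualNumber (ResidueField 𝒪))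
      (isLocalHom_tangent φ)).IsEquiv
      (DQ.ρ.baseChangeAlong (ψ : DQ.R →+* DualNumber (ResidueField 𝒪))
        (isLocalHom_tangent ψ)) :=
    adicIsEquiv_trans (baseChangeAlong_isEquiv_rOf DQ b' φ)
      (adicIsEquiv_trans h1 (adicIsEquiv_symm (baseChangeAlong_isEquiv_rOf DQ b' ψ)))
  obtain ⟨χ, -, huniq⟩ := DQ.universal (DualNumber (ResidueField 𝒪))
    (test_dualNumber (𝒪 := 𝒪)).residue_surjective _ h𝒟
    (residual_baseChangeAlong_isEquiv DQ b' b hb ψ)
  rw [huniq φ ⟨isLocalHom_tangent φ, h2⟩, huniq ψ ⟨isLocalHom_tangent ψ, adicIsEquiv_refl _⟩]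

end Main

end

end Fermat.Agent.W56.Dict9
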