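/-
Programme W56 (target S56), helper8: **discharge of two contracts of `Contracts9`** (chapter (H)).

* `lpSOBound : Contracts9.LpSOBound` — UNCONDITIONAL (chapter (D2): `StrictOrdFinal8.card_LpSO_le`);
* `twH2Bound_of_LH2 : GWContracts4.LocalH2Bound → Contracts9.TwH2Bound` (`TwH0Bound8`).
-/
import Mathlib
import Fermat.Agent.W56.Contracts9
import Fermat.Agent.W56.StrictOrdFinal8
import Fermat.Agent.W56.TwH0Bound8

set_option autoImplicit false

namespace Fermat.Agent.W56.Discharge8

open Fermat.Agent.W56.Defs9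

/-- The contract (D2) holds. -/
theorem lpSOBound : Fermat.Agent.W56.Contracts9.LpSOBound :=
  fun _k _ _ p _ _ hp2 _ρbar b h =>
    Fermat.Agent.W56.StrictOrdFinal8.card_LpSO_le hp2 (ExtCitation.pPrime p) rfl b h

/-- The contract (TW-H2) follows from the contract (LH2). -/
theorem twH2Bound_of_LH2 (hLH2 : Fermat.Agent.W56.GWContracts4.LocalH2Bound) :
    Fermat.Agent.W56.Contracts9.TwH2Bound :=
  fun _k _ _ p _ _ hp2 ρbar q hqp hq1 _ hF =>
    Fermat.Agent.W56.TwH0Bound8.card_H2D_le_of_LH2 ρbar p hLH2 hp2 q hqp hq1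
      (fun φ hφ => hF _ (Fermat.Agent.W56.UnipSel8.liesOverPrime_primeLocalPlace q) φ hφ)

end Fermat.Agent.W56.Discharge8
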