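/-
Programme W56 (S56), chapter (E1)/(C3)/(D3): local duality, helper1.

`FinDual1` (pure algebra, Mathlib only): Pontryagin duality for a finite abelian group `A` killed by
a prime `p` with values in an abelian group `X` whose `p`-torsion is cyclic of order `p`
(generated by `ζ`):

* `exists_hom_apply_ne_zero` : `Hom_ℤ(A, X)` separates the points of `A`;
* `exists_eval_eq`           : every additive map `Hom_ℤ(A, X) → X` is evaluation at some `a ∈ A`;
* `finite_hom`               : `Hom_ℤ(A, X)` is finite;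
* `nsmul_hom_eq_zero`        : `p` kills `Hom_ℤ(A, X)`.
-/
import Mathlib

set_option autoImplicit false
set_option linter.unusedSectionVars false
set_option linter.style.haveILetI false

namespace Fermat.Agent.W56.FinDual1

open Function

variable {p : ℕ} [hp : Fact p.Prime]
variable {A X : Type*} [AddCommGroup A] [AddCommGroup X]

/-- `X[p]` is cyclic of order `p`, generated by `ζ`. -/
structure IsMuGen (p : ℕ) (ζ : X) : Prop where
  nsmul : p • ζ = 0
  ne_zero : ζ ≠ 0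
  gen : ∀ x : X, p • x = 0 → ∃ i : ℕ, x = i • ζ

variable {ζ : X}

/-- `j : 𝔽_p → X`, `i ↦ i • ζ`. -/
noncomputable def jHom (hζ : IsMuGen p ζ) : ZMod p →+ X :=
  ZMod.lift p ⟨(zmultiplesHom X ζ), by
    show (p : ℤ) • ζ = 0
    rw [natCast_zsmul]; exact hζ.nsmul⟩

theorem jHom_natCast (hζ : IsMuGen p ζ) (i : ℕ) : jHom hζ (i : ZMod p) = i • ζ := by
  have h := ZMod.lift_coe p (⟨(zmultiplesHom X ζ), by
    show (p : ℤ) • ζ = 0
    rw [natCast_zsmul]; exact hζ.nsmul⟩ : {f : ℤ →+ X // f p = 0}) (i : ℤ)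
  rw [Int.cast_natCast] at h
  rw [jHom, h]
  show (i : ℤ) • ζ = i • ζ
  rw [natCast_zsmul]

theorem jHom_injective (hζ : IsMuGen p ζ) : Injective (jHom hζ) := by
  rw [injective_iff_map_eq_zero]
  intro a ha
  by_contra h0
  -- `a` is a unit, so `ζ = a⁻¹ • (a • ζ) = 0`
  obtain ⟨b, hb⟩ : ∃ b : ZMod p, b * a = 1 := ⟨a⁻¹, inv_mul_cancel₀ h0⟩
  have h1 : jHom hζ (b * a) = 0 := by
    have : b * a = b.val • a := by rw [nsmul_eq_mul, ZMod.natCast_zmod_val]
    rw [this, map_nsmul, ha, smul_zero]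
  rw [hb] at h1
  have h2 : jHom hζ (1 : ZMod p) = ζ := by
    have := jHom_natCast hζ 1
    rwa [Nat.cast_one, one_smul] at this
  exact hζ.ne_zero (h2 ▸ h1)

theorem jHom_surjective (hζ : IsMuGen p ζ) (x : X) (hx : p • x = 0) : ∃ a, jHom hζ a = x := by
  obtain ⟨i, rfl⟩ := hζ.gen x hx
  exact ⟨(i : ZMod p), jHom_natCast hζ i⟩

theorem nsmul_jHom (hζ : IsMuGen p ζ) (a : ZMod p) : p • jHom hζ a = 0 := by
  rw [← map_nsmul, nsmul_eq_mul, ZMod.natCast_self, zero_mul, map_zero]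

variable (hpA : ∀ a : A, p • a = 0)

include hpA in
/-- `p` kills `Hom_ℤ(A, X)`. -/
theorem nsmul_hom_eq_zero [Module ℤ A] [Module ℤ X] (f : A →ₗ[ℤ] X) (a : A) : p • f a = 0 := by
  rw [← map_nsmul, hpA, map_zero]

/-- The `ℤ`-linear map `j ∘ ψ` attached to an `𝔽_p`-linear form `ψ` on `A`. -/
noncomputable def ofDual [Module ℤ A] [Module ℤ X] [Module (ZMod p) A] (hζ : IsMuGen p ζ)
    (ψ : Module.Dual (ZMod p) A) : A →ₗ[ℤ] X where
  toFun a := jHom hζ (ψ a)
  map_add' a b := by rw [map_add, map_add]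
  map_smul' n a := by
    have h := map_intCast_smul ((jHom hζ).comp ψ.toAddMonoidHom) ℤ ℤ n a
    simpa using h

@[simp] theorem ofDual_apply [Module ℤ A] [Module ℤ X] [Module (ZMod p) A] (hζ : IsMuGen p ζ)
    (ψ : Module.Dual (ZMod p) A) (a : A) : ofDual hζ ψ a = jHom hζ (ψ a) := rfl

include hpA in
/-- Every `f ∈ Hom_ℤ(A, X)` is `j ∘ ψ`. -/
theorem exists_ofDual_eq [Module ℤ A] [Module ℤ X] [Module (ZMod p) A] (hζ : IsMuGen p ζ)
    (f : A →ₗ[ℤ] X) : ∃ ψ : Module.Dual (ZMod p) A, ofDual hζ ψ = f := by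
  choose c hc using fun a => jHom_surjective hζ (f a) (nsmul_hom_eq_zero hpA f a)
  let ψ₀ : A →+ ZMod p :=
    { toFun := c
      map_zero' := jHom_injective hζ (by rw [hc, map_zero, map_zero])
      map_add' := fun a b => jHom_injective hζ (by rw [hc, map_add, map_add, hc, hc]) }
  refine ⟨AddMonoidHom.toZModLinearMap p ψ₀, ?_⟩
  ext a
  exact hc a

theorem exists_hom_apply_ne_zero_aux [Module ℤ A] [Module ℤ X] [Module (ZMod p) A]
    (hζ : IsMuGen p ζ) (a : A) (ha : a ≠ 0) : ∃ f : A →ₗ[ℤ] X, f a ≠ 0 := by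
  by_contra hcon
  apply ha
  rw [← Module.forall_dual_apply_eq_zero_iff (ZMod p)]
  intro ψ
  apply jHom_injective hζ
  rw [map_zero]
  by_contra h
  exact hcon ⟨ofDual hζ ψ, h⟩

include hpA in
/-- **`Hom_ℤ(A, X)` separates points.** -/
theorem exists_hom_apply_ne_zero [Module ℤ A] [Module ℤ X] (hζ : IsMuGen p ζ) (a : A)
    (ha : a ≠ 0) : ∃ f : A →ₗ[ℤ] X, f a ≠ 0 :=
  letI : Module (ZMod p) A := AddCommGroup.zmodModule hpA
  exists_hom_apply_ne_zero_aux hζ a ha

include hpA in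
theorem exists_eval_eq_aux [Finite A] [Module ℤ A] [Module ℤ X] [Module (ZMod p) A]
    (hζ : IsMuGen p ζ) (φ : (A →ₗ[ℤ] X) →+ X) : ∃ a : A, ∀ f : A →ₗ[ℤ] X, φ f = f a := by
  haveI : Module.Finite (ZMod p) A := Module.Finite.of_finite
  -- `φ (j ∘ ψ)` is `p`-torsion
  have hφ : ∀ ψ : Module.Dual (ZMod p) A, p • φ (ofDual hζ ψ) = 0 := by
    intro ψ
    rw [← map_nsmul]
    have : p • ofDual hζ ψ = 0 := by
      ext a
      rw [LinearMap.smul_apply, ofDual_apply, nsmul_jHom, LinearMap.zero_apply]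
    rw [this, map_zero]
  choose c hc using fun ψ => jHom_surjective hζ (φ (ofDual hζ ψ)) (hφ ψ)
  have hadd : ∀ ψ ψ' : Module.Dual (ZMod p) A, ofDual hζ (ψ + ψ') = ofDual hζ ψ + ofDual hζ ψ' := by
    intro ψ ψ'
    ext a
    simp only [ofDual_apply, LinearMap.add_apply, map_add]
  let Φ₀ : Module.Dual (ZMod p) A →+ ZMod p :=
    { toFun := c
      map_zero' := jHom_injective hζ (by
        rw [hc, map_zero]
        have : ofDual hζ (0 : Module.Dual (ZMod p) A) = 0 := by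
          ext a
          simp only [ofDual_apply, LinearMap.zero_apply, map_zero]
        rw [this, map_zero])
      map_add' := fun ψ ψ' => jHom_injective hζ (by
        rw [hc, hadd, map_add, map_add, hc, hc]) }
  obtain ⟨a, ha⟩ := (Module.evalEquiv (ZMod p) A).surjective (AddMonoidHom.toZModLinearMap p Φ₀)
  refine ⟨a, fun f => ?_⟩
  obtain ⟨ψ, rfl⟩ := exists_ofDual_eq hpA hζ f
  rw [← hc ψ, ofDual_apply]
  congr 1
  have := LinearMap.congr_fun ha ψ
  rw [Module.evalEquiv_apply, Module.Dual.eval_apply] at this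
  exact this.symm

include hpA in
/-- **Double duality**: every additive map `Hom_ℤ(A, X) → X` is evaluation at a point of `A`. -/
theorem exists_eval_eq [Finite A] [Module ℤ A] [Module ℤ X]
    (hζ : IsMuGen p ζ) (φ : (A →ₗ[ℤ] X) →+ X) : ∃ a : A, ∀ f : A →ₗ[ℤ] X, φ f = f a :=
  letI : Module (ZMod p) A := AddCommGroup.zmodModule hpA
  exists_eval_eq_aux hpA hζ φ

include hpA in
/-- **`Hom_ℤ(A, X)` is finite.** -/
theorem finite_hom [Finite A] [Module ℤ A] [Module ℤ X] (hζ : IsMuGen p ζ) :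
    Finite (A →ₗ[ℤ] X) := by
  haveI : Finite {x : X // p • x = 0} := by
    refine Finite.of_surjective (fun a : ZMod p => (⟨jHom hζ a, nsmul_jHom hζ a⟩ :
      {x : X // p • x = 0})) ?_
    rintro ⟨x, hx⟩
    obtain ⟨a, ha⟩ := jHom_surjective hζ x hx
    exact ⟨a, Subtype.ext ha⟩
  refine Finite.of_injective (fun f : A →ₗ[ℤ] X => fun a : A =>
    (⟨f a, nsmul_hom_eq_zero hpA f a⟩ : {x : X // p • x = 0})) ?_
  intro f g h
  ext a
  exact congrArg Subtype.val (congrFun h a)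

end Fermat.Agent.W56.FinDual1
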