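/-
Programme W56 (target S56), stage 2, chapter (EC-5), helper5 (spare): **`BaseGlue4.FinW` verbatim**:
`H¹` and `H²` of `W(Z)` are finite for a finite discrete `𝔽_p[Ĉ]`-module `Z`.

One Shapiro step from `Ĉ` up to `Γ` (helper2's route): `X = Coind_Ĉ^Γ W(Z)` is a finite discrete
`𝔽_p[G_T]`-module (`finite_scoind`), `H^r(Γ; X) ≃ H^r(Ĉ; W(Z))` (`ShapiroLevel28.sh1Equiv`,
`sh2Equiv`), and `H^r(G_T; X)` is finite (`FinH1g0.finite_H1g`, `FinH2g4.finiteH2p`).
-/
import Mathlib
import Fermat.Agent.W56.BaseGlue4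
import Fermat.Agent.W56.FinH1g0
import Fermat.Agent.W56.FinH2g4

set_option autoImplicit false
set_option linter.unusedSectionVars false

open CategoryTheory ExtCitation

namespace Fermat.Agent.W56.FinW5

open Fermat.Agent.PT.PRO Fermat.Agent.PT.PRO.LevelCoh28 Fermat.Agent.PT.PRO.SmoothCoind28
  Fermat.Agent.PT.PRO.ShapiroLevel28 Fermat.Agent.PT.GLUE.Objects21 Fermat.Agent.PT.BR
  Fermat.Agent.W56.CoindStar4 Fermat.Agent.W56.TraceOpen8

local notation "Γ" => (AlgebraicClosure ℚ ≃ₐ[ℚ] AlgebraicClosure ℚ)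

/-! ### a smooth coinduced module of a finite module along a finite-index map is finite -/

section Fin

variable {k G H : Type} [CommRing k] [Group G] [Group H] (i : H →* G) (𝓑G : LevelBasis G)
  (X : Rep.{0} k H)

/-- `Coind_i X` is finite when `X` is finite and `i(H)` has finite index. -/
theorem finite_scoind [Finite X] (hfin : Finite (G ⧸ i.range)) : Finite (scoind i 𝓑G X) := by
  have hfinR : Finite (Quotient (QuotientGroup.rightRel i.range)) :=
    Finite.of_equiv _ (QuotientGroup.quotientRightRelEquivQuotientLeftRel i.range).symm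
  let Ψ : scoind i 𝓑G X → (Quotient (QuotientGroup.rightRel i.range) → X) := fun f c => f.1 c.out
  refine Finite.of_injective Ψ fun f f' hff' => Subtype.ext (funext fun x => ?_)
  have h1 : (QuotientGroup.rightRel i.range).r
      (Quotient.mk (QuotientGroup.rightRel i.range) x).out x := Quotient.mk_out x
  rw [QuotientGroup.rightRel_apply] at h1
  obtain ⟨h, hh⟩ := h1
  have h2 : x = i h * (Quotient.mk (QuotientGroup.rightRel i.range) x).out := by
    rw [hh]; group
  have h3 := congrFun hff' (Quotient.mk (QuotientGroup.rightRel i.range) x)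
  rw [h2, f.2.1, f'.2.1]
  exact congrArg _ h3

end Fin

/-- **(F-W)** `H¹` and `H²` of `W(Z)` are finite. -/
theorem finW : BaseGlue4.FinW := by
  intro p _ hp2 T hpT U Ĉ _ hU hUC Z _ hZ
  -- finite indices
  have hUfin : U.FiniteIndex := (levelS T).isBasis.finiteIndex U hU
  have hĈfin : Ĉ.FiniteIndex := Subgroup.finiteIndex_of_le hUC
  have hHfin : (U.subgroupOf Ĉ).FiniteIndex := inferInstance
  have h1 : Finite (↥Ĉ ⧸ (U.subgroupOf Ĉ).subtype.range) := by
    rw [Subgroup.range_subtype]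
    exact Subgroup.finite_quotient_of_finiteIndex
  have h2 : Finite (Γ ⧸ Ĉ.subtype.range) := by
    rw [Subgroup.range_subtype]
    exact Subgroup.finite_quotient_of_finiteIndex
  -- `W(Z)` and `X = Coind W(Z)` are finite
  have hZres : Finite (resH (U.subgroupOf Ĉ) Z) := ‹Finite Z›
  have hWfin : Finite (W (comapBasis Ĉ.subtype (levelS T)) (U.subgroupOf Ĉ) Z) :=
    finite_scoind (U.subgroupOf Ĉ).subtype (comapBasis Ĉ.subtype (levelS T))
      (resH (U.subgroupOf Ĉ) Z) h1
  have hWdisc : IsDiscrete (comapBasis Ĉ.subtype (levelS T)).sets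
      (W (comapBasis Ĉ.subtype (levelS T)) (U.subgroupOf Ĉ) Z) :=
    isDiscrete_scoind _ _ _
  have hXfin : Finite (scoind Ĉ.subtype (levelS T)
      (W (comapBasis Ĉ.subtype (levelS T)) (U.subgroupOf Ĉ) Z)) :=
    finite_scoind Ĉ.subtype (levelS T) _ h2
  have hXdisc : IsDiscrete (LevelBridge13.globalBasis T).sets (scoind Ĉ.subtype (levelS T)
      (W (comapBasis Ĉ.subtype (levelS T)) (U.subgroupOf Ĉ) Z)) := by
    rw [Fermat.Agent.PT.GLUE.BasisCompare13.globalBasis_eq T]
    exact isDiscrete_scoind _ _ _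
  have hXmf : Module.Finite (ZMod p) (scoind Ĉ.subtype (levelS T)
      (W (comapBasis Ĉ.subtype (levelS T)) (U.subgroupOf Ĉ) Z)) := Module.Finite.of_finite
  have hF1 := FinH1g0.finite_H1g (k := ZMod p) (p := p) T hpT _ hXdisc
  have hF2 := FinH2g4.finiteH2p p hp2 T hpT _ hXdisc
  unfold Defs9.H1g at hF1
  unfold GWCount4.H2g at hF2
  rw [Fermat.Agent.PT.GLUE.BasisCompare13.globalBasis_eq T] at hF1 hF2
  exact ⟨Finite.of_equiv _ (sh1Equiv Ĉ.subtype (levelS T) (comapBasis Ĉ.subtype (levelS T))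
      (isLevelHom_subtype (levelS T) Ĉ) (hind_subtype (levelS T) Ĉ)
      (W (comapBasis Ĉ.subtype (levelS T)) (U.subgroupOf Ĉ) Z) hWdisc).toEquiv,
    Finite.of_equiv _ (sh2Equiv Ĉ.subtype (levelS T) (comapBasis Ĉ.subtype (levelS T))
      (isLevelHom_subtype (levelS T) Ĉ) (hind_subtype (levelS T) Ĉ)
      (W (comapBasis Ĉ.subtype (levelS T)) (U.subgroupOf Ĉ) Z) hWdisc).toEquiv⟩

end Fermat.Agent.W56.FinW5
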