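/-
Programme W56 (target S56), chapter (F) FLAT (helper6): **a flat lift of `ρ̄` to `k[ε]` has a
Borel-valued cocycle (up to a coboundary)** — the output of the connected–étale sequence in the
COCYCLE form asked for by helper3 (board 673 (1), (i) and (ii)).

For a finite field `k` of odd characteristic `p`, a level cocycle `c` with values in `ad⁰ρ̄` such that
`Lift9.liftOf ρ̄ c` is flat at `p`, and a place `A` of `ℚ̄` over `p` (`exists_borel`): there is
`X : End_k V̄` such that `c' σ := c σ + ρ̄ σ ∘ X ∘ ρ̄ σ⁻¹ - X` satisfies, with `ℓ̄ := (I_A - 1) V̄`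
(`= ConnDual6.line ρ̄.ρ (Iner A)`):
* `c' σ V̄ ⊆ ℓ̄` for every `σ` in the inertia group of `A`;
* `c' τ ℓ̄ ⊆ ℓ̄` for every `τ` in the decomposition group of `A`.
Also `liftOf_apply_eq_one_iff : (liftOf ρ̄ c).ρ σ = 1 ↔ ρ̄ σ = 1 ∧ c σ = 0`.
-/
import Mathlib
import Fermat.Agent.W56.ConnFlat6
import Fermat.Agent.W56.ConnDual6
import Fermat.Agent.W56.Lift9

set_option autoImplicit false

namespace Fermat.Agent.W56.FlatBorel6

open Fermat.Agent.S53 Fermat.Agent.W56.Defs9 Fermat.Agent.W56.Lift9 Fermat.Agent.W56.ConnDual6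
  Fermat.Agent.FF.InertiaWire8 Fermat.Agent.PT.PRO Fermat.Agent.PT.BR

local notation "Γ" => (AlgebraicClosure ℚ ≃ₐ[ℚ] AlgebraicClosure ℚ)

variable {k : Type} [Field k]

/-! ### coordinates -/

theorem equivFun_symm_mulVec {V : Type*} [AddCommGroup V] [Module k V]
    (b : Module.Basis (Fin 2) k V) (f : Module.End k V) (x : Fin 2 → k) :
    b.equivFun.symm ((LinearMap.toMatrix b b f).mulVec x) = f (b.equivFun.symm x) := by
  have h := LinearMap.toMatrix_mulVec_repr b b f (b.equivFun.symm x)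
  have h2 : (⇑(b.repr (b.equivFun.symm x)) : Fin 2 → k) = x := b.equivFun.apply_symm_apply x
  rw [h2] at h
  rw [h]
  exact b.equivFun.symm_apply_apply _

theorem fst_dn_mulVec (M N : M2 k) (w : Fin 2 → DualNumber k) :
    (fun i => ((dn M N).mulVec w i).fst) = M.mulVec (fun j => (w j).fst) := by
  ext i
  simp [Matrix.mulVec, dotProduct, Fin.sum_univ_two]

theorem snd_dn_mulVec (M N : M2 k) (w : Fin 2 → DualNumber k) :
    (fun i => ((dn M N).mulVec w i).snd) =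
      M.mulVec (fun j => (w j).snd) + N.mulVec (fun j => (w j).fst) := by
  ext i
  simp only [Matrix.mulVec, dotProduct, Fin.sum_univ_two, dn_apply, Pi.add_apply,
    TrivSqZeroExt.snd_add, TrivSqZeroExt.snd_mul, TrivSqZeroExt.fst_add, TrivSqZeroExt.fst_inl,
    TrivSqZeroExt.fst_inr, TrivSqZeroExt.snd_inl, TrivSqZeroExt.snd_inr, smul_eq_mul,
    MulOpposite.smul_eq_mul_unop, MulOpposite.unop_op, add_zero, zero_add]
  ring

variable (ρbar : ResidualGaloisRep k)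

/-- `k[ε]² ≃ V̄ ⊕ ε V̄` through the basis `stdB ρ̄`. -/
noncomputable def Phi : (Fin 2 → DualNumber k) ≃+ ρbar.V × ρbar.V where
  toFun w := ((stdB ρbar).equivFun.symm (fun i => (w i).fst),
    (stdB ρbar).equivFun.symm (fun i => (w i).snd))
  invFun x := fun i => TrivSqZeroExt.inl ((stdB ρbar).equivFun x.1 i) +
    TrivSqZeroExt.inr ((stdB ρbar).equivFun x.2 i)
  left_inv w := by
    funext i
    ext
    · simp only [TrivSqZeroExt.fst_add, TrivSqZeroExt.fst_inl, TrivSqZeroExt.fst_inr, add_zero,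
        LinearEquiv.apply_symm_apply]
    · simp only [TrivSqZeroExt.snd_add, TrivSqZeroExt.snd_inl, TrivSqZeroExt.snd_inr, zero_add,
        LinearEquiv.apply_symm_apply]
  right_inv x := by
    ext
    · simp only [TrivSqZeroExt.fst_add, TrivSqZeroExt.fst_inl, TrivSqZeroExt.fst_inr, add_zero]
      exact (stdB ρbar).equivFun.symm_apply_apply x.1
    · simp only [TrivSqZeroExt.snd_add, TrivSqZeroExt.snd_inl, TrivSqZeroExt.snd_inr, zero_add]
      exact (stdB ρbar).equivFun.symm_apply_apply x.2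
  map_add' w w' := by
    have h1 : (fun i => ((w + w') i).fst) = (fun i => (w i).fst) + (fun i => (w' i).fst) := by
      ext i; simp
    have h2 : (fun i => ((w + w') i).snd) = (fun i => (w i).snd) + (fun i => (w' i).snd) := by
      ext i; simp
    ext
    · show (stdB ρbar).equivFun.symm (fun i => ((w + w') i).fst) = _
      rw [h1, map_add]; rfl
    · show (stdB ρbar).equivFun.symm (fun i => ((w + w') i).snd) = _
      rw [h2, map_add]; rfl

variable {T : Finset Nat.Primes}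
  (c : ↥(LevelCoh28.Z1 (LevelBridge13.globalBasis T) (ad0 ρbar)))

/-- the action of `liftOf ρ̄ c` in the coordinates `Phi`. -/
theorem Phi_liftOf (σ : Γ) (w : Fin 2 → DualNumber k) :
    Phi ρbar ((liftOf ρbar c).ρ σ w) = act ρbar.ρ (cEnd ρbar c) σ (Phi ρbar w) := by
  have h0 : (liftOf ρbar c).ρ σ w = (liftMat ρbar (stdB ρbar) c σ).mulVec w := rfl
  rw [h0, liftMat_apply]
  ext
  · show (stdB ρbar).equivFun.symm (fun i => ((dn _ _).mulVec w i).fst) = _
    rw [fst_dn_mulVec, matrixOfBasisRes_apply, equivFun_symm_mulVec]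
    rfl
  · show (stdB ρbar).equivFun.symm (fun i => ((dn _ _).mulVec w i).snd) = _
    rw [snd_dn_mulVec, map_add, ← Matrix.mulVec_mulVec, matrixOfBasisRes_apply, cMat,
      equivFun_symm_mulVec, equivFun_symm_mulVec, equivFun_symm_mulVec]
    rfl

/-- `liftOf ρ̄ c` is trivial at `σ` iff `ρ̄ σ = 1` and `c σ = 0`. -/
theorem liftOf_apply_eq_one_iff (σ : Γ) :
    (liftOf ρbar c).ρ σ = 1 ↔ ρbar.ρ σ = 1 ∧ cEnd ρbar c σ = 0 := by
  constructor
  · intro h
    have h1 : ∀ x : ρbar.V × ρbar.V, act ρbar.ρ (cEnd ρbar c) σ x = x := by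
      intro x
      obtain ⟨w, rfl⟩ := (Phi ρbar).surjective x
      rw [← Phi_liftOf, h, Module.End.one_apply]
    have h2 : ρbar.ρ σ = 1 := by
      ext v
      have := congrArg Prod.fst (h1 (v, 0))
      simpa using this
    refine ⟨h2, ?_⟩
    ext v
    have := congrArg Prod.snd (h1 (v, 0))
    simpa [h2] using this
  · rintro ⟨h1, h2⟩
    ext w : 1
    apply (Phi ρbar).injective
    rw [Phi_liftOf, Module.End.one_apply]
    ext <;> simp [h1, h2]

/-! ### the main theorem -/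

theorem conj_mem_iner {A : ValuationSubring Qb} {τ σ : Γ} (hτ : τ ∈ A.decompositionSubgroup ℚ)
    (hσ : σ ∈ Iner A) : τ * σ * τ⁻¹ ∈ Iner A := by
  obtain ⟨σ', hσ', rfl⟩ := hσ
  have hn : (A.inertiaSubgroup ℚ).Normal := MonoidHom.normal_ker _
  have h := hn.conj_mem σ' hσ' ⟨τ, hτ⟩
  exact ⟨_, h, by simp⟩

theorem nsmul_eq_zero_dualNumber (p : ℕ) [CharP k p] (x : DualNumber k) : p • x = 0 := by
  ext
  · rw [TrivSqZeroExt.fst_smul, nsmul_eq_mul, CharP.cast_eq_zero, zero_mul, TrivSqZeroExt.fst_zero]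
  · rw [TrivSqZeroExt.snd_smul, nsmul_eq_mul, CharP.cast_eq_zero, zero_mul, TrivSqZeroExt.snd_zero]

/-- **a flat lift has a Borel-valued cocycle.** -/
theorem exists_borel [Finite k] (p : ℕ) [hp : Fact p.Prime] [CharP k p] (hp2 : p ≠ 2)
    (hflat : (liftOf ρbar c).IsFlatAt p) {A : ValuationSubring Qb} (hA : A.LiesOverPrime p) :
    ∃ X : Module.End k ρbar.V,
      (∀ σ ∈ Iner A, ∀ v : ρbar.V,
        (cEnd ρbar c σ + ρbar.ρ σ * X * ρbar.ρ σ⁻¹ - X) v ∈ line ρbar.ρ (Iner A)) ∧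
      (∀ τ ∈ A.decompositionSubgroup ℚ, ∀ v ∈ line ρbar.ρ (Iner A),
        (cEnd ρbar c τ + ρbar.ρ τ * X * ρbar.ρ τ⁻¹ - X) v ∈ line ρbar.ρ (Iner A)) := by
  haveI : Finite (DualNumber k) := inferInstanceAs (Finite (k × k))
  have hpV : ∀ v : (liftOf ρbar c).V, p • v = 0 := by
    intro v
    funext i
    exact nsmul_eq_zero_dualNumber p (v i)
  obtain ⟨LW, -, h2, h3⟩ := ConnFlat6.exists_connPart p hp2 (liftOf ρbar c) hflat hpV hA
  let Φ : (liftOf ρbar c).V ≃+ ρbar.V × ρbar.V := Phi ρbar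
  have hΦ : ∀ (σ : Γ) (w : (liftOf ρbar c).V),
      Φ ((liftOf ρbar c).ρ σ w - w) = act ρbar.ρ (cEnd ρbar c) σ (Φ w) - Φ w := by
    intro σ w
    rw [map_sub]
    exact congrArg (· - Φ w) (Phi_liftOf ρbar c σ w)
  refine exists_conj ρbar.ρ (cEnd ρbar c) (cEnd_mul ρbar c) (Iner A)
    (LW.map Φ.toAddMonoidHom) ?_ ?_ (A.decompositionSubgroup ℚ)
    (fun τ hτ σ hσ => conj_mem_iner hτ hσ)
  · intro σ hσ x
    obtain ⟨w, rfl⟩ := Φ.surjective x
    rw [← hΦ]
    exact ⟨_, h2 σ hσ w, rfl⟩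
  · intro S T' hTS hSL htriv
    have key : S.comap Φ.toAddMonoidHom ≤ T'.comap Φ.toAddMonoidHom := by
      refine h3 _ _ (AddSubgroup.comap_mono hTS) ?_ ?_
      · intro w hw
        obtain ⟨w', hw', e⟩ := hSL hw
        have : w' = w := Φ.injective e
        rwa [← this]
      · intro σ hσ w hw
        show Φ ((liftOf ρbar c).ρ σ w - w) ∈ T'
        rw [hΦ]
        exact htriv σ hσ _ hw
    intro x hx
    obtain ⟨w, rfl⟩ := Φ.surjective x
    exact key hx

/-- an endomorphism of trace zero with image in a line `ℓ` kills `ℓ`. -/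
theorem apply_eq_zero_of_trace_eq_zero {V : Type*} [AddCommGroup V] [Module k V]
    [FiniteDimensional k V] (ℓ : Submodule k V) (hℓ : Module.finrank k ↥ℓ = 1)
    (f : Module.End k V) (hf : ∀ x, f x ∈ ℓ) (htr : LinearMap.trace k V f = 0) :
    ∀ v ∈ ℓ, f v = 0 := by
  have h1 := LinearMap.trace_restrict_eq_of_forall_mem ℓ f hf
  rw [htr] at h1
  obtain ⟨e, he, hspan⟩ := finrank_eq_one_iff'.1 hℓ
  obtain ⟨t, ht⟩ := hspan (f.restrict (fun x _ => hf x) e)
  have h2 : f.restrict (fun x _ => hf x) = t • (LinearMap.id : ↥ℓ →ₗ[k] ↥ℓ) := by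
    ext x : 1
    obtain ⟨s, rfl⟩ := hspan x
    rw [map_smul, ← ht, LinearMap.smul_apply, LinearMap.id_apply, smul_comm]
  rw [h2, map_smul, LinearMap.trace_id, hℓ, Nat.cast_one, smul_eq_mul, mul_one] at h1
  intro v hv
  have h3 := congrArg (fun g : ↥ℓ →ₗ[k] ↥ℓ => ((g ⟨v, hv⟩ : ↥ℓ) : V)) h2
  simp only [h1, zero_smul, LinearMap.zero_apply, Submodule.coe_zero] at h3
  exact h3

/-- **a flat lift has a Borel-valued cocycle**, with `X` of trace zero and the nilpotency clause. -/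
theorem exists_borel_sl [Finite k] (p : ℕ) [hp : Fact p.Prime] [CharP k p] (hp2 : p ≠ 2)
    (hflat : (liftOf ρbar c).IsFlatAt p) {A : ValuationSubring Qb} (hA : A.LiesOverPrime p) :
    ∃ X : ↥(sl ρbar),
      (∀ σ ∈ Iner A, ∀ v : ρbar.V,
        (cEnd ρbar c σ + ρbar.ρ σ * (X : Module.End k ρbar.V) * ρbar.ρ σ⁻¹ -
          (X : Module.End k ρbar.V)) v ∈ line ρbar.ρ (Iner A)) ∧
      (∀ τ ∈ A.decompositionSubgroup ℚ, ∀ v ∈ line ρbar.ρ (Iner A),
        (cEnd ρbar c τ + ρbar.ρ τ * (X : Module.End k ρbar.V) * ρbar.ρ τ⁻¹ -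
          (X : Module.End k ρbar.V)) v ∈ line ρbar.ρ (Iner A)) ∧
      (Module.finrank k ↥(line ρbar.ρ (Iner A)) = 1 → ∀ σ ∈ Iner A, ∀ v ∈ line ρbar.ρ (Iner A),
        (cEnd ρbar c σ + ρbar.ρ σ * (X : Module.End k ρbar.V) * ρbar.ρ σ⁻¹ -
          (X : Module.End k ρbar.V)) v = 0) := by
  obtain ⟨X, hX1, hX2⟩ := exists_borel ρbar c p hp2 hflat hA
  haveI : FiniteDimensional k ρbar.V := Module.finite_of_finrank_pos (by rw [ρbar.finrank_eq]; norm_num)
  have h2 : (2 : k) ≠ 0 := by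
    intro h
    have h3 : ((2 : ℕ) : k) = 0 := by exact_mod_cast h
    rw [CharP.cast_eq_zero_iff k p] at h3
    exact hp2 ((Nat.prime_dvd_prime_iff_eq hp.out Nat.prime_two).1 h3)
  let t : k := LinearMap.trace k ρbar.V X / 2
  have hX' : X - t • (1 : Module.End k ρbar.V) ∈ sl ρbar := by
    rw [mem_sl_iff, map_sub, map_smul, LinearMap.trace_one, ρbar.finrank_eq, smul_eq_mul]
    show _ - LinearMap.trace k ρbar.V X / 2 * ((2 : ℕ) : k) = 0
    rw [Nat.cast_ofNat, div_mul_cancel₀ _ h2, sub_self]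
  have e : ∀ σ : Γ, cEnd ρbar c σ + ρbar.ρ σ * (X - t • (1 : Module.End k ρbar.V)) * ρbar.ρ σ⁻¹ -
      (X - t • (1 : Module.End k ρbar.V)) = cEnd ρbar c σ + ρbar.ρ σ * X * ρbar.ρ σ⁻¹ - X := by
    intro σ
    rw [mul_sub, sub_mul, mul_smul_comm, smul_mul_assoc, mul_one, rho_mul_inv]
    abel
  refine ⟨⟨X - t • (1 : Module.End k ρbar.V), hX'⟩, ?_, ?_, ?_⟩
  · intro σ hσ v
    show (cEnd ρbar c σ + ρbar.ρ σ * (X - t • (1 : Module.End k ρbar.V)) * ρbar.ρ σ⁻¹ -
      (X - t • (1 : Module.End k ρbar.V))) v ∈ _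
    rw [e]; exact hX1 σ hσ v
  · intro τ hτ v hv
    show (cEnd ρbar c τ + ρbar.ρ τ * (X - t • (1 : Module.End k ρbar.V)) * ρbar.ρ τ⁻¹ -
      (X - t • (1 : Module.End k ρbar.V))) v ∈ _
    rw [e]; exact hX2 τ hτ v hv
  · intro hfr σ hσ v hv
    show (cEnd ρbar c σ + ρbar.ρ σ * (X - t • (1 : Module.End k ρbar.V)) * ρbar.ρ σ⁻¹ -
      (X - t • (1 : Module.End k ρbar.V))) v = 0
    rw [e]
    refine apply_eq_zero_of_trace_eq_zero _ hfr _ (hX1 σ hσ) ?_ v hv
    rw [map_sub, map_add, (mem_sl_iff ρbar _).1 (cEnd_mem_sl ρbar c σ), zero_add,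
      LinearMap.trace_mul_comm, ← mul_assoc, rho_inv_mul, one_mul, sub_self]

end Fermat.Agent.W56.FlatBorel6
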