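/-
Programme W56 (target S56), chapter (F) FLAT (helper6): **the Borel-valued cocycle of a flat lift in
MATRIX form** (helper3's literal target, board 704 (3)).

`ρ̄` a residual representation over a finite field `k` of odd characteristic `p`, `A` a place of `ℚ̄`
over `p`, `ρ̄` ramified at `A`, and `ℓ₀` a line of `V̄` such that inertia acts trivially on `ℓ₀` OR on
`V̄ / ℓ₀`.  If `Lift9.liftOf ρ̄ c` is flat at `p` (`exists_borel_mat`) there are a basis `b` of `V̄` and a
trace-zero matrix `Y` such that, with `rb = rbarOf ρ̄ b`, `cM = cMat ρ̄ b c` and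
`c' σ = cM σ + Y - rb σ * Y * rb σ⁻¹`:
* `rb σ 1 0 = 0` on the decomposition group, `rb σ 1 1 = 1` on inertia;
* `c' σ 1 0 = 0` on the decomposition group; `c' σ 1 0 = c' σ 0 0 = c' σ 1 1 = 0` on inertia;
* `span {b 0} = (I - 1) V̄`.
Abstract ingredients: `inf_line_eq_bot` (a subspace with trivial inertia action meets `(I - 1) V̄`
trivially), `finrank_line_eq_one`.
-/
import Mathlib
import Fermat.Agent.W56.FlatBorel6

set_option autoImplicit false

namespace Fermat.Agent.W56.FlatBorelMat6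

open Fermat.Agent.S53 Fermat.Agent.W56.Defs9 Fermat.Agent.W56.Lift9 Fermat.Agent.W56.ConnDual6
  Fermat.Agent.FF.InertiaWire8 Fermat.Agent.PT.PRO Fermat.Agent.PT.BR

local notation "Γ" => (AlgebraicClosure ℚ ≃ₐ[ℚ] AlgebraicClosure ℚ)

/-! ### abstract complements to `ConnDual6` -/

section Abstract

variable {k : Type*} [Field k] {V : Type*} [AddCommGroup V] [Module k V] {G : Type*} [Group G]
  (r : G →* Module.End k V) (c : G → Module.End k V)
  (I : Subgroup G) (L : AddSubgroup (V × V))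
  (h2 : ∀ σ ∈ I, ∀ x : V × V, act r c σ x - x ∈ L)
  (h3 : ∀ S T : AddSubgroup (V × V), T ≤ S → S ≤ L →
    (∀ σ ∈ I, ∀ x ∈ S, act r c σ x - x ∈ T) → S ≤ T)

include h2 h3 in
/-- a subspace on which `I` acts trivially meets `(I - 1) V` trivially. -/
theorem inf_line_eq_bot (ℓ₀ : Submodule k V) (htriv : ∀ σ ∈ I, ∀ v ∈ ℓ₀, r σ v = v) :
    ℓ₀ ⊓ line r I = ⊥ := by
  rw [eq_bot_iff]
  intro w hw
  let S : AddSubgroup (V × V) := (ℓ₀ ⊓ line r I).toAddSubgroup.map (AddMonoidHom.inr V V)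
  have hSL : S ≤ L := by
    rintro x ⟨w', hw', rfl⟩
    exact (zero_mk_mem_iff r c I L h2 h3 w').2 hw'.2
  have hS : S ≤ ⊥ := by
    refine h3 S ⊥ bot_le hSL ?_
    rintro σ hσ x ⟨w', hw', rfl⟩
    rw [AddSubgroup.mem_bot]
    have := htriv σ hσ w' hw'.1
    ext <;> simp [this]
  have h1 : ((0, w) : V × V) ∈ S := ⟨w, hw, rfl⟩
  have h4 := hS h1
  rw [AddSubgroup.mem_bot] at h4
  exact congrArg Prod.snd h4

include h2 h3 in
/-- `(I - 1) V` is a line as soon as `I` acts non-trivially and trivially on a line `ℓ₀` or on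
`V / ℓ₀` (`dim V = 2`). -/
theorem finrank_line_eq_one (hV : Module.finrank k V = 2) (hram : ∃ σ ∈ I, r σ ≠ 1)
    (ℓ₀ : Submodule k V) (hℓ₀ : Module.finrank k ↥ℓ₀ = 1)
    (hdiag : (∀ σ ∈ I, ∀ v ∈ ℓ₀, r σ v = v) ∨ (∀ σ ∈ I, ∀ v : V, r σ v - v ∈ ℓ₀)) :
    Module.finrank k ↥(line r I) = 1 := by
  haveI : FiniteDimensional k V := Module.finite_of_finrank_pos (by rw [hV]; norm_num)
  have hne : line r I ≠ ⊥ := by
    obtain ⟨σ, hσ, hne⟩ := hram
    intro hbot
    apply hne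
    ext v
    have h1 : r σ v - v ∈ line r I := sub_mem_line r I hσ v
    rw [hbot, Submodule.mem_bot, sub_eq_zero] at h1
    rw [h1, Module.End.one_apply]
  have hpos : Module.finrank k ↥(line r I) ≠ 0 := by
    intro h0
    exact hne (Submodule.finrank_eq_zero.1 h0)
  rcases hdiag with htriv | hquot
  · have hinf := inf_line_eq_bot r c I L h2 h3 ℓ₀ htriv
    have h1 := Submodule.finrank_sup_add_finrank_inf_eq ℓ₀ (line r I)
    rw [hinf, finrank_bot, add_zero, hℓ₀] at h1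
    have h4 : Module.finrank k ↥(ℓ₀ ⊔ line r I) ≤ 2 := by
      rw [← hV]; exact Submodule.finrank_le _
    omega
  · have hle : line r I ≤ ℓ₀ := by
      refine Submodule.span_le.2 ?_
      rintro x ⟨σ, hσ, v, rfl⟩
      exact hquot σ hσ v
    have h1 := Submodule.finrank_mono hle
    omega

end Abstract

/-! ### matrix entries in a basis adapted to a line -/

section Entries

variable {k : Type} [Field k] {V : Type} [AddCommGroup V] [Module k V]
  (b : Module.Basis (Fin 2) k V)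

theorem toMatrix_one_zero_of_mem (f : Module.End k V) (h : f (b 0) ∈ Submodule.span k {b 0}) :
    LinearMap.toMatrix b b f 1 0 = 0 := by
  obtain ⟨t, ht⟩ := Submodule.mem_span_singleton.1 h
  rw [LinearMap.toMatrix_apply, ← ht, map_smul, Module.Basis.repr_self]
  simp

theorem toMatrix_one_one_of_mem (f : Module.End k V) (h : f (b 1) ∈ Submodule.span k {b 0}) :
    LinearMap.toMatrix b b f 1 1 = 0 := by
  obtain ⟨t, ht⟩ := Submodule.mem_span_singleton.1 h
  rw [LinearMap.toMatrix_apply, ← ht, map_smul, Module.Basis.repr_self]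
  simp

theorem toMatrix_one_one_of_sub_mem (f : Module.End k V)
    (h : f (b 1) - b 1 ∈ Submodule.span k {b 0}) : LinearMap.toMatrix b b f 1 1 = 1 := by
  obtain ⟨t, ht⟩ := Submodule.mem_span_singleton.1 h
  have e : f (b 1) = t • b 0 + b 1 := by rw [ht]; abel
  rw [LinearMap.toMatrix_apply, e, map_add, map_smul, Module.Basis.repr_self,
    Module.Basis.repr_self]
  simp

theorem toMatrix_col_zero_of_eq_zero (f : Module.End k V) (h : f (b 0) = 0) (i : Fin 2) :
    LinearMap.toMatrix b b f i 0 = 0 := by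
  rw [LinearMap.toMatrix_apply, h, map_zero]
  rfl

end Entries

/-! ### the theorem -/

variable {k : Type} [Field k] (ρbar : ResidualGaloisRep k) {T : Finset Nat.Primes}
  (c : ↥(LevelCoh28.Z1 (LevelBridge13.globalBasis T) (ad0 ρbar)))

/-- a basis of `V̄` whose first vector spans a given line. -/
theorem exists_basis_of_line (ℓ : Submodule k ρbar.V) (hℓ : Module.finrank k ↥ℓ = 1) :
    ∃ b : Module.Basis (Fin 2) k ρbar.V, Submodule.span k {b 0} = ℓ := by
  haveI : FiniteDimensional k ρbar.V :=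
    Module.finite_of_finrank_pos (by rw [ρbar.finrank_eq]; norm_num)
  obtain ⟨e', he', hspan⟩ := finrank_eq_one_iff'.1 hℓ
  have he : (e' : ρbar.V) ≠ 0 := fun h => he' (Subtype.ext h)
  have hℓe : ℓ = Submodule.span k {(e' : ρbar.V)} := by
    apply le_antisymm
    · intro x hx
      obtain ⟨t, ht⟩ := hspan ⟨x, hx⟩
      rw [Submodule.mem_span_singleton]
      exact ⟨t, congrArg Subtype.val ht⟩
    · rw [Submodule.span_le, Set.singleton_subset_iff]
      exact e'.2
  have hlt : ℓ < ⊤ := by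
    refine lt_of_le_of_ne le_top ?_
    intro h
    have h1 : Module.finrank k ↥ℓ = 2 := by
      rw [h, finrank_top, ρbar.finrank_eq]
    omega
  obtain ⟨e₂, -, he₂⟩ := SetLike.exists_of_lt hlt
  have hli : LinearIndependent k ![(e' : ρbar.V), e₂] := by
    rw [LinearIndependent.pair_iff]
    intro s t hst
    have ht : t = 0 := by
      by_contra ht
      apply he₂
      have e : e₂ = (-(t⁻¹ * s)) • (e' : ρbar.V) := by
        have h1 : t • e₂ = -(s • (e' : ρbar.V)) := by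
          rw [eq_neg_iff_add_eq_zero, add_comm]; exact hst
        have h3 : e₂ = t⁻¹ • (t • e₂) := by rw [smul_smul, inv_mul_cancel₀ ht, one_smul]
        rw [h3, h1, smul_neg, smul_smul, neg_smul]
      rw [e]
      exact ℓ.smul_mem _ e'.2
    rw [ht, zero_smul, add_zero] at hst
    exact ⟨(smul_eq_zero.1 hst).resolve_right he, ht⟩
  let b : Module.Basis (Fin 2) k ρbar.V :=
    basisOfLinearIndependentOfCardEqFinrank hli (by rw [ρbar.finrank_eq]; simp)
  have hb0 : b 0 = (e' : ρbar.V) := by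
    show (basisOfLinearIndependentOfCardEqFinrank hli _) 0 = _
    rw [coe_basisOfLinearIndependentOfCardEqFinrank]
    rfl
  exact ⟨b, by rw [hb0]; exact hℓe.symm⟩

/-- **the Borel-valued cocycle of a flat lift, matrix form.** -/
theorem exists_borel_mat [Finite k] (p : ℕ) [hp : Fact p.Prime] [CharP k p] (hp2 : p ≠ 2)
    (hflat : (liftOf ρbar c).IsFlatAt p) {A : ValuationSubring Qb} (hA : A.LiesOverPrime p)
    (hram : ∃ σ ∈ Iner A, ρbar.ρ σ ≠ 1)
    (ℓ₀ : Submodule k ρbar.V) (hℓ₀ : Module.finrank k ↥ℓ₀ = 1)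
    (hdiag : (∀ σ ∈ Iner A, ∀ v ∈ ℓ₀, ρbar.ρ σ v = v) ∨
      (∀ σ ∈ Iner A, ∀ v : ρbar.V, ρbar.ρ σ v - v ∈ ℓ₀)) :
    ∃ (b : Module.Basis (Fin 2) k ρbar.V) (Y : M2 k), Y.trace = 0 ∧
      (∀ σ ∈ A.decompositionSubgroup ℚ, rbarOf ρbar b σ 1 0 = 0) ∧
      (∀ σ ∈ Iner A, rbarOf ρbar b σ 1 1 = 1) ∧
      (∀ σ : Γ,
        (σ ∈ A.decompositionSubgroup ℚ →
          (cMat ρbar b c σ + Y - rbarOf ρbar b σ * Y * rbarOf ρbar b σ⁻¹) 1 0 = 0) ∧
        (σ ∈ Iner A →
          (cMat ρbar b c σ + Y - rbarOf ρbar b σ * Y * rbarOf ρbar b σ⁻¹) 1 0 = 0 ∧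
          (cMat ρbar b c σ + Y - rbarOf ρbar b σ * Y * rbarOf ρbar b σ⁻¹) 0 0 = 0 ∧
          (cMat ρbar b c σ + Y - rbarOf ρbar b σ * Y * rbarOf ρbar b σ⁻¹) 1 1 = 0)) ∧
      Submodule.span k {b 0} = line ρbar.ρ (Iner A) := by
  -- the rigid subgroup, in coordinates
  haveI : Finite (DualNumber k) := inferInstanceAs (Finite (k × k))
  have hpV : ∀ v : (liftOf ρbar c).V, p • v = 0 := by
    intro v
    funext i
    exact FlatBorel6.nsmul_eq_zero_dualNumber p (v i)
  obtain ⟨LW, -, h2, h3⟩ := ConnFlat6.exists_connPart p hp2 (liftOf ρbar c) hflat hpV hA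
  let Φ : (liftOf ρbar c).V ≃+ ρbar.V × ρbar.V := FlatBorel6.Phi ρbar
  have hΦ : ∀ (σ : Γ) (w : (liftOf ρbar c).V),
      Φ ((liftOf ρbar c).ρ σ w - w) = act ρbar.ρ (cEnd ρbar c) σ (Φ w) - Φ w := by
    intro σ w
    rw [map_sub]
    exact congrArg (· - Φ w) (FlatBorel6.Phi_liftOf ρbar c σ w)
  have h2' : ∀ σ ∈ Iner A, ∀ x : ρbar.V × ρbar.V,
      act ρbar.ρ (cEnd ρbar c) σ x - x ∈ LW.map Φ.toAddMonoidHom := by
    intro σ hσ x
    obtain ⟨w, rfl⟩ := Φ.surjective x
    rw [← hΦ]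
    exact ⟨_, h2 σ hσ w, rfl⟩
  have h3' : ∀ S T' : AddSubgroup (ρbar.V × ρbar.V), T' ≤ S → S ≤ LW.map Φ.toAddMonoidHom →
      (∀ σ ∈ Iner A, ∀ x ∈ S, act ρbar.ρ (cEnd ρbar c) σ x - x ∈ T') → S ≤ T' := by
    intro S T' hTS hSL htriv
    have key : S.comap Φ.toAddMonoidHom ≤ T'.comap Φ.toAddMonoidHom := by
      refine h3 _ _ (AddSubgroup.comap_mono hTS) ?_ ?_
      · intro w hw
        obtain ⟨w', hw', e⟩ := hSL hw
        have : w' = w := Φ.injective e
        rwa [← this]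
      · intro σ hσ w hw
        show Φ ((liftOf ρbar c).ρ σ w - w) ∈ T'
        rw [hΦ]
        exact htriv σ hσ _ hw
    intro x hx
    obtain ⟨w, rfl⟩ := Φ.surjective x
    exact key hx
  -- the line
  have hline : Module.finrank k ↥(line ρbar.ρ (Iner A)) = 1 :=
    finrank_line_eq_one ρbar.ρ (cEnd ρbar c) (Iner A) _ h2' h3' ρbar.finrank_eq hram ℓ₀ hℓ₀ hdiag
  obtain ⟨X, hX1, hX2, hX3⟩ := FlatBorel6.exists_borel_sl ρbar c p hp2 hflat hA
  have hX3' := hX3 hline
  obtain ⟨b, hb⟩ := exists_basis_of_line ρbar _ hline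
  have hb0 : b 0 ∈ line ρbar.ρ (Iner A) := by
    rw [← hb]; exact Submodule.mem_span_singleton_self _
  -- the matrix of `c'`
  have hmat : ∀ σ : Γ, LinearMap.toMatrix b b
      (cEnd ρbar c σ + ρbar.ρ σ * (X : Module.End k ρbar.V) * ρbar.ρ σ⁻¹ -
        (X : Module.End k ρbar.V)) =
      cMat ρbar b c σ + (-(LinearMap.toMatrix b b (X : Module.End k ρbar.V))) -
        rbarOf ρbar b σ * (-(LinearMap.toMatrix b b (X : Module.End k ρbar.V))) *
          rbarOf ρbar b σ⁻¹ := by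
    intro σ
    rw [map_sub, map_add, LinearMap.toMatrix_mul, LinearMap.toMatrix_mul, matrixOfBasisRes_apply,
      matrixOfBasisRes_apply, cMat, mul_neg, neg_mul]
    abel
  refine ⟨b, -(LinearMap.toMatrix b b (X : Module.End k ρbar.V)), ?_, ?_, ?_, ?_, hb⟩
  · rw [Matrix.trace_neg, ← LinearMap.trace_eq_matrix_trace k b, (mem_sl_iff ρbar _).1 X.2,
      neg_zero]
  · intro σ hσ
    rw [matrixOfBasisRes_apply]
    apply toMatrix_one_zero_of_mem
    rw [hb]
    exact apply_mem_line ρbar.ρ (fun τ hτ σ hσ => FlatBorel6.conj_mem_iner hτ hσ) hσ hb0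
  · intro σ hσ
    rw [matrixOfBasisRes_apply]
    apply toMatrix_one_one_of_sub_mem
    rw [hb]
    exact sub_mem_line ρbar.ρ (Iner A) hσ _
  · intro σ
    rw [← hmat σ]
    refine ⟨fun hσ => ?_, fun hσ => ⟨?_, ?_, ?_⟩⟩
    · apply toMatrix_one_zero_of_mem
      rw [hb]
      exact hX2 σ hσ _ hb0
    · exact toMatrix_col_zero_of_eq_zero b _ (hX3' σ hσ _ hb0) 1
    · exact toMatrix_col_zero_of_eq_zero b _ (hX3' σ hσ _ hb0) 0
    · apply toMatrix_one_one_of_mem
      rw [hb]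
      exact hX1 σ hσ _

end Fermat.Agent.W56.FlatBorelMat6
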