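/-
Programme W56 (target S56), chapter (F) FLAT (helper7): **the Kummer level theorem for a flat
representation** = `KummerLevel7.kummer_level` ∘ `FlatFont6.fontaineProp_of_isFlatAt_bot`.

`ρ : GaloisRepAdic A'` flat at `p` over a finite local ring `A'`, `p • V = 0`; `A` a place of `ℚ̄` over
`p`; `Γ = kerInertia ρ A = {σ ∈ Iner A | ρ σ = 1}`; `Γ ≤ Γ₀ ≤ Iner A` with `ζ_p` fixed by `Γ₀`.
Then every `α ≠ 0` fixed by `Γ₀` with a `p`-th root fixed by `Γ` is `β ^ p * u`, `β`, `u` fixed by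
`Γ₀`, `(u - 1) / p ∈ A`  (`kummer_level_of_isFlatAt`).

Also: `kerInertia ρ A` is normalised by `Iner A` and of finite index in it (`adm_kerInertia`).
-/
import Mathlib
import Fermat.Agent.W56.KummerLevel7
import Fermat.Agent.W56.FlatFont6

set_option autoImplicit false
set_option linter.style.haveILetI false

namespace Fermat.Agent.W56.FlatKL7

open Fermat.Agent.FF.InertiaWire8 Fermat.Agent.W56.FontDef6 Fermat.Agent.W56.FlatFont6
  Fermat.Agent.W56.KummerLevel7

variable {A' : Type} [CommRing A'] [IsLocalRing A']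

theorem kerInertia_le (ρ : GaloisRepAdic A') (A : ValuationSubring Qb) :
    kerInertia ρ A ≤ Iner A := inf_le_left

theorem kerInertia_conj (ρ : GaloisRepAdic A') (A : ValuationSubring Qb) :
    ∀ σ ∈ Iner A, ∀ γ ∈ kerInertia ρ A, σ * γ * σ⁻¹ ∈ kerInertia ρ A := by
  intro σ hσ γ hγ
  rw [mem_kerInertia] at hγ ⊢
  refine ⟨(Iner A).mul_mem ((Iner A).mul_mem hσ hγ.1) ((Iner A).inv_mem hσ), ?_⟩
  rw [map_mul, map_mul, hγ.2, mul_one, ← map_mul, mul_inv_cancel, map_one]

theorem kerInertia_index_ne_zero [Finite A'] (ρ : GaloisRepAdic A') (A : ValuationSubring Qb) :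
    ((kerInertia ρ A).subgroupOf (Iner A)).index ≠ 0 := by
  haveI : Finite ρ.V := Module.finite_of_finite A'
  haveI : Finite (Module.End A' ρ.V) :=
    Finite.of_injective (fun f : Module.End A' ρ.V => (f : ρ.V → ρ.V)) DFunLike.coe_injective
  -- the restriction of `ρ` to the inertia group
  let f : ↥(Iner A) →* Module.End A' ρ.V := ρ.ρ.comp (Iner A).subtype
  have hker : (kerInertia ρ A).subgroupOf (Iner A) = f.ker := by
    ext σ
    rw [Subgroup.mem_subgroupOf, mem_kerInertia, MonoidHom.mem_ker]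
    exact ⟨fun h => h.2, fun h => ⟨σ.2, h⟩⟩
  rw [hker]
  haveI : Finite (↥(Iner A) ⧸ f.ker) := by
    let g : ↥(Iner A) ⧸ f.ker → Module.End A' ρ.V :=
      Quotient.lift (fun σ : ↥(Iner A) => f σ) (by
        intro a b hab
        have h1 : a⁻¹ * b ∈ f.ker := QuotientGroup.leftRel_apply.mp hab
        rw [MonoidHom.mem_ker, map_mul] at h1
        have h2 : f a * (f a⁻¹ * f b) = f a * 1 := by rw [h1]
        rw [← mul_assoc, ← map_mul, mul_inv_cancel, map_one, one_mul, mul_one] at h2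
        exact h2.symm)
    refine Finite.of_injective g ?_
    intro x y hxy
    induction x using QuotientGroup.induction_on with
    | H a =>
      induction y using QuotientGroup.induction_on with
      | H b =>
        have h1 : f a = f b := hxy
        rw [QuotientGroup.eq, MonoidHom.mem_ker, map_mul]
        have h2 : f a⁻¹ * f a = 1 := by rw [← map_mul, inv_mul_cancel, map_one]
        rw [← h1, h2]
  exact Subgroup.index_ne_zero_of_finite

/-- `kerInertia ρ A` is admissible: contained in, normalised by, and of finite index in `Iner A`. -/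
theorem adm_kerInertia [Finite A'] (ρ : GaloisRepAdic A') (A : ValuationSubring Qb) :
    Fermat.Agent.W56.RamInstA7.Adm A (kerInertia ρ A) :=
  ⟨kerInertia_le ρ A, kerInertia_conj ρ A, kerInertia_index_ne_zero ρ A⟩

/-- **The Kummer level theorem for a flat representation killed by `p`.** -/
theorem kummer_level_of_isFlatAt (p : ℕ) [hp : Fact p.Prime] [Finite A'] (ρ : GaloisRepAdic A')
    (hflat : ρ.IsFlatAt p) (hpV : ∀ v : ρ.V, p • v = 0) {A : ValuationSubring Qb}
    (hA : A.LiesOverPrime p) {Γ₀ : Subgroup GQ} (hle : kerInertia ρ A ≤ Γ₀) (hΓ₀ : Γ₀ ≤ Iner A)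
    {ζ : Qb} (hζ : IsPrimitiveRoot ζ p) (hζΓ₀ : ∀ σ ∈ Γ₀, σ ζ = ζ) {α θ : Qb} (hα0 : α ≠ 0)
    (hαΓ₀ : ∀ σ ∈ Γ₀, σ α = α) (hθ : θ ^ p = α) (hθΓ : ∀ σ ∈ kerInertia ρ A, σ θ = θ) :
    ∃ β u : Qb, β ≠ 0 ∧ (∀ σ ∈ Γ₀, σ β = β) ∧ (∀ σ ∈ Γ₀, σ u = u) ∧ α = β ^ p * u ∧
      (u - 1) / (p : Qb) ∈ A :=
  kummer_level hp.out hA hle hΓ₀ (kerInertia_conj ρ A) (kerInertia_index_ne_zero ρ A) hζ hζΓ₀
    (fontaineProp_of_isFlatAt_bot p ρ hflat hpV hA) hα0 hαΓ₀ hθ hθΓ

end Fermat.Agent.W56.FlatKL7
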