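/-
Programme W56 (target S56), chapter (F) FLAT, the counts (helper3): **the cohomological wrapper**.

* `card_range_le` (pure algebra): for linear maps `f : Z → P`, `g : Z → Q` and a submodule `S ≤ P`
  with `g z = 0 → f z ∈ S`, `#range f ≤ #S · #range g`;
* `mem_H1ur_of_vanish` : a level cocycle of `Gal(ℚ̄_q/ℚ_q)` that vanishes on a subgroup of the
  inertia group of index invertible in `k` has an unramified class (inflation–restriction by hand,
  with helper5's `GrpCoh5.isCob_of_restrict`);
* `pre`, `resN` : restriction of the level cocycles of `Gal(ℚ̄_q/ℚ_q)` to a subgroup `N` of the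
  inertia group of the place `primeLocalPlace q` of `ℚ̄` (a subgroup of `Gal(ℚ̄/ℚ)`), through the
  surjection `Gal(ℚ̄_q/ℚ_q) → D_q` of `DecompOnto0`; the descended cocycle `desc z` on `D_q`, its
  cocycle identity, level, and the equivariance of `resN z`;
* **`card_map_le`** : for a submodule `Z` of the level cocycles, the classes of `Z` number at most
  `#H⁰(Γ_q, M) · #(resN Z)`.
-/
import Mathlib
import Fermat.Agent.W56.Defs9
import Fermat.Agent.W56.H1urCard8
import Fermat.Agent.W56.GrpCoh5
import Fermat.Agent.W56.DecompOnto0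

set_option autoImplicit false

open CategoryTheory ExtCitation

namespace Fermat.Agent.W56.FlatLp3

open Fermat.Agent.PT.PRO Fermat.Agent.PT.BR Fermat.Agent.W56.Defs9

local notation "Qb" => AlgebraicClosure ℚ
local notation "Γ" => (AlgebraicClosure ℚ ≃ₐ[ℚ] AlgebraicClosure ℚ)

/-! ### a counting lemma -/

section count

variable {k : Type*} [Ring k] {Z P Q : Type*} [AddCommGroup Z] [Module k Z] [AddCommGroup P]
  [Module k P] [AddCommGroup Q] [Module k Q]

theorem card_range_le (f : Z →ₗ[k] P) (g : Z →ₗ[k] Q) (S : Submodule k P) [Finite S]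
    [Finite (LinearMap.range g)] (h : ∀ z, g z = 0 → f z ∈ S) :
    Finite (LinearMap.range f) ∧
      Nat.card (LinearMap.range f) ≤ Nat.card S * Nat.card (LinearMap.range g) := by
  classical
  -- representatives
  have hx : ∀ x : LinearMap.range f, ∃ z, f z = x := fun x => x.2
  have hy : ∀ y : LinearMap.range g, ∃ z, g z = y := fun y => y.2
  choose zx hzx using hx
  choose zy hzy using hy
  let gy : LinearMap.range f → LinearMap.range g := fun x => ⟨g (zx x), zx x, rfl⟩
  have hmem : ∀ x : LinearMap.range f, f (zx x - zy (gy x)) ∈ S := by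
    intro x
    apply h
    rw [map_sub, hzy]
    exact sub_self _
  let Φ : LinearMap.range f → S × LinearMap.range g := fun x => (⟨_, hmem x⟩, gy x)
  have hΦ : Function.Injective Φ := by
    intro x x' hxx
    have h1 : gy x = gy x' := congrArg Prod.snd hxx
    have h2 : f (zx x - zy (gy x)) = f (zx x' - zy (gy x')) :=
      congrArg (fun w : S × LinearMap.range g => (w.1 : P)) hxx
    rw [h1, map_sub, map_sub, hzx, hzx] at h2
    exact Subtype.ext (sub_left_injective h2)
  have hfin : Finite (LinearMap.range f) := Finite.of_injective Φ hΦ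
  refine ⟨hfin, ?_⟩
  calc Nat.card (LinearMap.range f) ≤ Nat.card (S × LinearMap.range g) :=
        Nat.card_le_card_of_injective Φ hΦ
    _ = Nat.card S * Nat.card (LinearMap.range g) := Nat.card_prod _ _

end count

/-! ### unramified classes -/

section unram

variable {k : Type} [Field k] (q : Nat.Primes) (M : Rep k Γ)

/-- the level cocycles of `Gal(ℚ̄_q/ℚ_q)` with values in `M`. -/
abbrev Z1D : Type :=
  ↥(LevelCoh28.Z1 (LevelBridge13.pullBasis (locD q)) (Rep.res (locD q) M))

/-- the class map `Z¹ → H¹`. -/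
noncomputable abbrev mkD : Z1D q M →ₗ[k] H1D M q :=
  LevelCoh28.H1mk (LevelBridge13.pullBasis (locD q)) (Rep.res (locD q) M)

theorem cocycle_apply (z : Z1D q M) (g h : primeLocalGaloisGroup q) :
    (z : primeLocalGaloisGroup q → M) (g * h) =
      M.ρ (locD q g) ((z : primeLocalGaloisGroup q → M) h) +
        (z : primeLocalGaloisGroup q → M) g :=
  (groupCohomology.mem_cocycles₁_iff (A := Rep.res (locD q) M)
    (z : primeLocalGaloisGroup q → M)).1 ((LevelCoh28.mem_Z1_iff _ _ _).1 z.2).1 g h

/-- **a cocycle vanishing on a subgroup of inertia of invertible index is unramified.** -/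
theorem mem_H1ur_of_vanish (N₀ : Subgroup ↥(inertia q)) [Finite (↥(inertia q) ⧸ N₀)]
    (hidx : (Nat.card (↥(inertia q) ⧸ N₀) : k) ≠ 0) (z : Z1D q M)
    (h0 : ∀ n ∈ N₀, (z : primeLocalGaloisGroup q → M) ((n : ↥(inertia q)) : primeLocalGaloisGroup q)
      = 0) : mkD q M z ∈ H1ur M q := by
  classical
  have := Fintype.ofFinite (↥(inertia q) ⧸ N₀)
  -- the restricted cocycle, in plain language
  set ρI : Representation k ↥(inertia q) M := (Rep.res (locI q) M).ρ with hρI
  set c : ↥(inertia q) → M := fun s => (z : primeLocalGaloisGroup q → M) (s : primeLocalGaloisGroup q)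
    with hc
  have hcoc : GrpCoh5.IsCoc ρI c := by
    intro s t
    show (z : primeLocalGaloisGroup q → M) ((s * t : ↥(inertia q)) : primeLocalGaloisGroup q) = _
    rw [Subgroup.coe_mul, cocycle_apply, add_comm]
    rfl
  have hidx' : (Fintype.card (↥(inertia q) ⧸ N₀) : k) ≠ 0 := by
    rwa [← Nat.card_eq_fintype_card]
  obtain ⟨a, ha⟩ := GrpCoh5.isCob_of_restrict N₀ hcoc hidx'
    ⟨0, fun n hn => by rw [map_zero, sub_zero]; exact h0 n hn⟩
  -- conclude
  show resDI M q (mkD q M z) = 0
  unfold resDI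
  rw [LevelCohRes28.ppH1_mk, LevelCoh28.H1mk_eq_zero_iff]
  refine ⟨a, ?_⟩
  funext s
  rw [groupCohomology.d₀₁_hom_apply]
  exact (ha s).symm

end unram

/-! ### restriction to a subgroup of the inertia group of `ℚ̄` -/

section resN

variable {k : Type} [Field k] (q : Nat.Primes) (M : Rep k Γ)

/-- level cocycles are constant on the fibres of `Gal(ℚ̄_q/ℚ_q) → Gal(ℚ̄/ℚ)`. -/
theorem apply_eq_of_locD_eq (z : Z1D q M) {g g' : primeLocalGaloisGroup q}
    (h : locD q g = locD q g') :
    (z : primeLocalGaloisGroup q → M) g = (z : primeLocalGaloisGroup q → M) g' := by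
  obtain ⟨U, ⟨F, hF, rfl⟩, hinv⟩ := ((LevelCoh28.mem_Z1_iff _ _ _).1 z.2).2
  have hmem : g⁻¹ * g' ∈ F.fixingSubgroup.comap (locD q) := by
    show locD q (g⁻¹ * g') ∈ F.fixingSubgroup
    rw [map_mul, map_inv, h, inv_mul_cancel]
    exact Subgroup.one_mem _
  have := hinv g (g⁻¹ * g') hmem
  rw [mul_inv_cancel_left] at this
  exact this.symm

open Classical in
/-- **the descended cochain** on `Gal(ℚ̄/ℚ)` (zero outside the decomposition group). -/
noncomputable def desc (z : Z1D q M) (σ : Γ) : M :=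
  if h : ∃ g : primeLocalGaloisGroup q, locD q g = σ
  then (z : primeLocalGaloisGroup q → M) h.choose else 0

theorem desc_locD (z : Z1D q M) (g : primeLocalGaloisGroup q) :
    desc q M z (locD q g) = (z : primeLocalGaloisGroup q → M) g := by
  have h : ∃ g' : primeLocalGaloisGroup q, locD q g' = locD q g := ⟨g, rfl⟩
  unfold desc
  rw [dif_pos h]
  exact apply_eq_of_locD_eq q M z h.choose_spec

theorem desc_add (z z' : Z1D q M) (σ : Γ) :
    desc q M (z + z') σ = desc q M z σ + desc q M z' σ := by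
  unfold desc
  by_cases h : ∃ g : primeLocalGaloisGroup q, locD q g = σ
  · rw [dif_pos h, dif_pos h, dif_pos h]
    rfl
  · rw [dif_neg h, dif_neg h, dif_neg h, add_zero]

theorem desc_smul (a : k) (z : Z1D q M) (σ : Γ) :
    desc q M (a • z) σ = a • desc q M z σ := by
  unfold desc
  by_cases h : ∃ g : primeLocalGaloisGroup q, locD q g = σ
  · rw [dif_pos h, dif_pos h]
    rfl
  · rw [dif_neg h, dif_neg h, smul_zero]

/-- the descent as a linear map. -/
noncomputable def descL : Z1D q M →ₗ[k] (Γ → M) where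
  toFun z := desc q M z
  map_add' z z' := funext fun σ => desc_add q M z z' σ
  map_smul' a z := funext fun σ => desc_smul q M a z σ

theorem descL_apply (z : Z1D q M) (σ : Γ) : descL q M z σ = desc q M z σ := rfl

theorem exists_of_mem_decomp {σ : Γ} (hσ : σ ∈ (primeLocalPlace q).decompositionSubgroup ℚ) :
    ∃ g : primeLocalGaloisGroup q, locD q g = σ :=
  DecompOnto0.exists_primeLocalToGlobal_eq q hσ

/-- **the cocycle identity on the decomposition group.** -/
theorem desc_mul (z : Z1D q M) {σ τ : Γ}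
    (hσ : σ ∈ (primeLocalPlace q).decompositionSubgroup ℚ)
    (hτ : τ ∈ (primeLocalPlace q).decompositionSubgroup ℚ) :
    desc q M z (σ * τ) = M.ρ σ (desc q M z τ) + desc q M z σ := by
  obtain ⟨g, rfl⟩ := exists_of_mem_decomp q hσ
  obtain ⟨h, rfl⟩ := exists_of_mem_decomp q hτ
  rw [← map_mul, desc_locD, desc_locD, desc_locD, cocycle_apply]

theorem desc_one (z : Z1D q M) : desc q M z 1 = 0 := by
  have h := desc_mul q M z (Subgroup.one_mem _) (Subgroup.one_mem _)
  rw [mul_one, map_one, Module.End.one_apply] at h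
  exact left_eq_add.mp h

/-- **the level of the descended cochain.** -/
theorem exists_level (z : Z1D q M) :
    ∃ F : IntermediateField ℚ Qb, FiniteDimensional ℚ F ∧
      ∀ σ ∈ (primeLocalPlace q).decompositionSubgroup ℚ,
        ∀ γ ∈ (primeLocalPlace q).decompositionSubgroup ℚ, γ ∈ F.fixingSubgroup →
          desc q M z (σ * γ) = desc q M z σ := by
  obtain ⟨U, ⟨F, hF, rfl⟩, hinv⟩ := ((LevelCoh28.mem_Z1_iff _ _ _).1 z.2).2
  refine ⟨F, hF, fun σ hσ γ hγ hγF => ?_⟩
  obtain ⟨g, rfl⟩ := exists_of_mem_decomp q hσ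
  obtain ⟨h, rfl⟩ := exists_of_mem_decomp q hγ
  rw [← map_mul, desc_locD, desc_locD]
  exact hinv g h hγF

/-- **conjugation**: for `τ` acting trivially on `M`, `c (d⁻¹ τ d) = d⁻¹ • c τ`. -/
theorem desc_conj (z : Z1D q M) {d τ : Γ}
    (hd : d ∈ (primeLocalPlace q).decompositionSubgroup ℚ)
    (hτ : τ ∈ (primeLocalPlace q).decompositionSubgroup ℚ) (hτM : M.ρ τ = 1) :
    desc q M z (d⁻¹ * τ * d) = M.ρ d⁻¹ (desc q M z τ) := by
  have hdi := Subgroup.inv_mem _ hd
  have h1 := desc_mul q M z (Subgroup.mul_mem _ hdi hτ) hd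
  have h2 := desc_mul q M z hdi hτ
  have h3 := desc_mul q M z hdi hd
  rw [inv_mul_cancel, desc_one] at h3
  rw [h1, h2, map_mul, hτM, mul_one]
  have h4 : M.ρ d⁻¹ (desc q M z d) = -desc q M z d⁻¹ := by
    rw [eq_neg_iff_add_eq_zero]
    exact h3.symm
  rw [h4]
  abel

/-- on elements acting trivially the descended cochain is additive. -/
theorem desc_mul_of_trivial (z : Z1D q M) {σ τ : Γ}
    (hσ : σ ∈ (primeLocalPlace q).decompositionSubgroup ℚ)
    (hτ : τ ∈ (primeLocalPlace q).decompositionSubgroup ℚ) (hσM : M.ρ σ = 1) :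
    desc q M z (σ * τ) = desc q M z σ + desc q M z τ := by
  rw [desc_mul q M z hσ hτ, hσM, Module.End.one_apply, add_comm]

/-- the descended cochain of the localisation of a global cocycle. -/
theorem desc_ppZ1 (T : Finset Nat.Primes)
    (c : ↥(LevelCoh28.Z1 (LevelBridge13.globalBasis T) M)) {σ : Γ}
    (hσ : σ ∈ (primeLocalPlace q).decompositionSubgroup ℚ) :
    desc q M (LevelCohRes28.ppZ1 (𝓑G := LevelBridge13.pullBasis (locD q))
      (𝓑H := LevelBridge13.globalBasis T) (locD q)
      (LinearMap.id : M →ₗ[k] Rep.res (locD q) M) (fun _ _ => rfl)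
      (ShaBridge13.isLevelHom_pull T (locD q)) c) σ = (c : Γ → M) σ := by
  obtain ⟨g, rfl⟩ := exists_of_mem_decomp q hσ
  rw [desc_locD]
  rfl

end resN

/-! ### the count of the classes of a space of cocycles -/

section card

variable {k : Type} [Field k] (q : Nat.Primes) (M : Rep k Γ)

/-- restriction of the level cocycles of `Gal(ℚ̄_q/ℚ_q)` to a subgroup `N` of `Gal(ℚ̄/ℚ)`. -/
noncomputable def resN (N : Subgroup Γ) : Z1D q M →ₗ[k] (↥N → M) :=
  (LinearMap.funLeft k M (fun τ : ↥N => (τ : Γ))).comp (descL q M)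

theorem resN_apply (N : Subgroup Γ) (z : Z1D q M) (τ : ↥N) :
    resN q M N z τ = desc q M z (τ : Γ) := rfl

/-- the map `I_q → I` induced by `Gal(ℚ̄_q/ℚ_q) → Gal(ℚ̄/ℚ)`. -/
noncomputable def locII : ↥(inertia q) →* ↥((primeLocalPlace q).inertiaSubgroupIn ℚ) where
  toFun s := ⟨locD q s, s.2⟩
  map_one' := Subtype.ext (map_one _)
  map_mul' s t := Subtype.ext (map_mul _ _ _)

theorem locII_surjective : Function.Surjective (locII q) := by
  rintro ⟨σ, hσ⟩
  obtain ⟨g, hg⟩ := DecompOnto0.exists_primeLocalToGlobal_eq_of_mem_inertia q hσ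
  have hg' : locD q g = σ := hg
  refine ⟨⟨g, ?_⟩, Subtype.ext hg'⟩
  show locD q g ∈ (primeLocalPlace q).inertiaSubgroupIn ℚ
  rw [hg']
  exact hσ

variable [Finite M]

/-- **THE WRAPPER**: the classes of a space `Z` of level cocycles number at most
`#H⁰(Γ_q, M) · #(restrictions of Z to N)`, for `N ≤ I` of index invertible in `k`. -/
theorem card_map_le
    (hM : LevelCoh28.IsDiscrete (LevelBridge13.pullSets (locD q)) (Rep.res (locD q) M))
    [Finite (H1D M q)] (N : Subgroup Γ)
    (hidx : ((N.subgroupOf ((primeLocalPlace q).inertiaSubgroupIn ℚ)).index : k) ≠ 0)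
    (Z : Submodule k (Z1D q M)) [Finite ↥(Z.map (resN q M N))] :
    Nat.card ↥(Z.map (mkD q M)) ≤
      Nat.card ↥(Rep.res (locD q) M).ρ.invariants * Nat.card ↥(Z.map (resN q M N)) := by
  classical
  set f : ↥Z →ₗ[k] H1D M q := (mkD q M).domRestrict Z with hf
  set g : ↥Z →ₗ[k] (↥N → M) := (resN q M N).domRestrict Z with hg
  have hrf : LinearMap.range f = Z.map (mkD q M) := LinearMap.range_domRestrict Z _
  have hrg : LinearMap.range g = Z.map (resN q M N) := LinearMap.range_domRestrict Z _
  have : Finite (LinearMap.range g) := by rw [hrg]; infer_instance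
  have : Finite ↥(H1ur M q) := Finite.of_injective (fun x : ↥(H1ur M q) => (x : H1D M q))
    Subtype.val_injective
  -- the subgroup of `I_q` over `N`
  set N₀ : Subgroup ↥(inertia q) :=
    (N.subgroupOf ((primeLocalPlace q).inertiaSubgroupIn ℚ)).comap (locII q) with hN₀
  have hindex : N₀.index = (N.subgroupOf ((primeLocalPlace q).inertiaSubgroupIn ℚ)).index :=
    Subgroup.index_comap_of_surjective _ (locII_surjective q)
  have hidx0 : N₀.index ≠ 0 := by
    rw [hindex]
    intro h0
    rw [h0, Nat.cast_zero] at hidx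
    exact hidx rfl
  have : N₀.FiniteIndex := ⟨hidx0⟩
  have : Finite (↥(inertia q) ⧸ N₀) := Subgroup.finite_quotient_of_finiteIndex
  have hidx' : (Nat.card (↥(inertia q) ⧸ N₀) : k) ≠ 0 := by
    rw [← Subgroup.index_eq_card, hindex]
    exact hidx
  have hkey : ∀ z : ↥Z, g z = 0 → f z ∈ H1ur M q := by
    intro z hz
    refine mem_H1ur_of_vanish q M N₀ hidx' z.1 fun n hn => ?_
    have hn' : locD q (n : primeLocalGaloisGroup q) ∈ N := hn
    have h1 := congrFun hz ⟨locD q (n : primeLocalGaloisGroup q), hn'⟩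
    rw [hg, LinearMap.domRestrict_apply, resN_apply, desc_locD] at h1
    exact h1
  have h1 := @card_range_le k _ ↥Z (H1D M q) (↥N → M) _ _ _ _ _ _ f g (H1ur M q) _ _ hkey
  have h2 := H1urCard8.card_H1ur_le' q M hM
  calc Nat.card ↥(Z.map (mkD q M)) = Nat.card (LinearMap.range f) := by rw [hrf]
    _ ≤ Nat.card ↥(H1ur M q) * Nat.card (LinearMap.range g) := h1.2
    _ ≤ Nat.card ↥(Rep.res (locD q) M).ρ.invariants * Nat.card (LinearMap.range g) :=
        Nat.mul_le_mul_right _ h2
    _ = _ := by rw [hrg]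

/-- **variant of the wrapper**: any linear map `g` on `Z` whose kernel consists of cocycles with
unramified classes. -/
theorem card_map_le_of
    (hM : LevelCoh28.IsDiscrete (LevelBridge13.pullSets (locD q)) (Rep.res (locD q) M))
    [Finite (H1D M q)] (Z : Submodule k (Z1D q M))
    {Q : Type*} [AddCommGroup Q] [Module k Q] (g : ↥Z →ₗ[k] Q) [Finite (LinearMap.range g)]
    (hkey : ∀ z : ↥Z, g z = 0 → mkD q M z.1 ∈ H1ur M q) :
    Nat.card ↥(Z.map (mkD q M)) ≤
      Nat.card ↥(Rep.res (locD q) M).ρ.invariants * Nat.card (LinearMap.range g) := by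
  classical
  set f : ↥Z →ₗ[k] H1D M q := (mkD q M).domRestrict Z with hf
  have hrf : LinearMap.range f = Z.map (mkD q M) := LinearMap.range_domRestrict Z _
  have : Finite ↥(H1ur M q) := Finite.of_injective (fun x : ↥(H1ur M q) => (x : H1D M q))
    Subtype.val_injective
  have h1 := @card_range_le k _ ↥Z (H1D M q) Q _ _ _ _ _ _ f g (H1ur M q) _ _ hkey
  have h2 := H1urCard8.card_H1ur_le' q M hM
  calc Nat.card ↥(Z.map (mkD q M)) = Nat.card (LinearMap.range f) := by rw [hrf]
    _ ≤ Nat.card ↥(H1ur M q) * Nat.card (LinearMap.range g) := h1.2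
    _ ≤ Nat.card ↥(Rep.res (locD q) M).ρ.invariants * Nat.card (LinearMap.range g) :=
        Nat.mul_le_mul_right _ h2

/-- a cocycle vanishing on `N ≤ I` of index invertible in `k` has an unramified class. -/
theorem mem_H1ur_of_resN_eq_zero (N : Subgroup Γ)
    (hidx : ((N.subgroupOf ((primeLocalPlace q).inertiaSubgroupIn ℚ)).index : k) ≠ 0)
    (z : Z1D q M) (hz : resN q M N z = 0) : mkD q M z ∈ H1ur M q := by
  classical
  set N₀ : Subgroup ↥(inertia q) :=
    (N.subgroupOf ((primeLocalPlace q).inertiaSubgroupIn ℚ)).comap (locII q) with hN₀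
  have hindex : N₀.index = (N.subgroupOf ((primeLocalPlace q).inertiaSubgroupIn ℚ)).index :=
    Subgroup.index_comap_of_surjective _ (locII_surjective q)
  have hidx0 : N₀.index ≠ 0 := by
    rw [hindex]
    intro h0
    rw [h0, Nat.cast_zero] at hidx
    exact hidx rfl
  have : N₀.FiniteIndex := ⟨hidx0⟩
  have : Finite (↥(inertia q) ⧸ N₀) := Subgroup.finite_quotient_of_finiteIndex
  have hidx' : (Nat.card (↥(inertia q) ⧸ N₀) : k) ≠ 0 := by
    rw [← Subgroup.index_eq_card, hindex]
    exact hidx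
  refine mem_H1ur_of_vanish q M N₀ hidx' z fun n hn => ?_
  have hn' : locD q (n : primeLocalGaloisGroup q) ∈ N := hn
  have h1 := congrFun hz ⟨locD q (n : primeLocalGaloisGroup q), hn'⟩
  rw [resN_apply, desc_locD] at h1
  exact h1

end card

end Fermat.Agent.W56.FlatLp3
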