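/-
Programme W56 (target S56), chapter (F) FLAT, the counts (helper3): **local cocycles with values in
`ad⁰ρ̄` in matrix form, and the level condition of a flat lift**.

* `dEnd`, `dMat b z σ` : the descended local cocycle `desc z` of `FlatLp3` as an endomorphism / as a
  `2 × 2` matrix in a basis `b`; linear in `z` (`dMatL`); the cocycle identity `dMat_mul` and the
  conjugation formula `dMat_conj` on the decomposition group; `dMat_ppZ1` (localisation of a global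
  cocycle = `Lift9.cMat`);
* `cobZ X` : the coboundary of `X ∈ ad⁰ρ̄` as a level cocycle, `mkD_add_cobZ`, `dMat_cobZ`;
* `slOfMat b Y` : the trace-zero endomorphism with matrix `Y`;
* **`isLev_of_flat`** : for a flat lift `Lift9.liftOf ρ̄ c`, every additive `f : N → k` of finite level
  vanishing on `{σ ∈ I | ρ̄ σ = 1, c σ = 0}` has all its Kummer characters of level `≥ (p-1) m`
  (helper7's `FlatKL7.kummer_level_of_isFlatAt` + `LevSub3.klev_of_kl`).
-/
import Mathlib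
import Fermat.Agent.W56.FlatLp3
import Fermat.Agent.W56.LevSub3
import Fermat.Agent.W56.FlatKL7
import Fermat.Agent.W56.FlatBorel6
import Fermat.Agent.W56.Ad0Facts9

set_option autoImplicit false

open CategoryTheory ExtCitation

namespace Fermat.Agent.W56.FlatCore3

open Fermat.Agent.PT.PRO Fermat.Agent.PT.BR Fermat.Agent.W56.Defs9
  Fermat.Agent.W56.Lift9 Fermat.Agent.W56.FlatLp3 Fermat.Agent.W56.KummerGen3
  Fermat.Agent.W56.UnitLevel3 Fermat.Agent.W56.KLevel3 Fermat.Agent.W56.LevelCount3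
  Fermat.Agent.W56.LevSub3

open Fermat.Agent.S53 hiding GQ

local notation "Γ" => (AlgebraicClosure ℚ ≃ₐ[ℚ] AlgebraicClosure ℚ)

theorem iner_le_decomp (A : ValuationSubring Qb) :
    A.inertiaSubgroupIn ℚ ≤ A.decompositionSubgroup ℚ := by
  rintro σ ⟨σ', -, rfl⟩
  exact σ'.2

/-! ### matrix form of the local cocycles -/

section Mat

variable {k : Type} [Field k] (ρbar : ResidualGaloisRep k) (q : Nat.Primes)
  (b : Module.Basis (Fin 2) k ρbar.V)

/-- the descended local cocycle, as an endomorphism of `V̄`. -/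
noncomputable def dEnd (z : Z1D q (ad0 ρbar)) (σ : Γ) : Module.End k ρbar.V :=
  ((show ↥(sl ρbar) from desc q (ad0 ρbar) z σ) : Module.End k ρbar.V)

/-- the descended local cocycle, as a matrix. -/
noncomputable def dMat (z : Z1D q (ad0 ρbar)) (σ : Γ) : M2 k :=
  LinearMap.toMatrix b b (dEnd ρbar q z σ)

theorem dEnd_add (z z' : Z1D q (ad0 ρbar)) (σ : Γ) :
    dEnd ρbar q (z + z') σ = dEnd ρbar q z σ + dEnd ρbar q z' σ := by
  unfold dEnd
  rw [desc_add]
  rfl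

theorem dEnd_smul (a : k) (z : Z1D q (ad0 ρbar)) (σ : Γ) :
    dEnd ρbar q (a • z) σ = a • dEnd ρbar q z σ := by
  unfold dEnd
  rw [desc_smul]
  rfl

/-- `dMat` as a linear map in the cocycle. -/
noncomputable def dMatL (σ : Γ) : Z1D q (ad0 ρbar) →ₗ[k] M2 k where
  toFun z := dMat ρbar q b z σ
  map_add' z z' := by
    show LinearMap.toMatrix b b _ = _
    rw [dEnd_add, map_add]
    rfl
  map_smul' a z := by
    show LinearMap.toMatrix b b _ = _
    rw [dEnd_smul, map_smul]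
    rfl

theorem dMatL_apply (σ : Γ) (z : Z1D q (ad0 ρbar)) : dMatL ρbar q b σ z = dMat ρbar q b z σ := rfl

theorem dMat_add (z z' : Z1D q (ad0 ρbar)) (σ : Γ) :
    dMat ρbar q b (z + z') σ = dMat ρbar q b z σ + dMat ρbar q b z' σ :=
  map_add (dMatL ρbar q b σ) z z'

theorem dMat_sub (z z' : Z1D q (ad0 ρbar)) (σ : Γ) :
    dMat ρbar q b (z - z') σ = dMat ρbar q b z σ - dMat ρbar q b z' σ :=
  map_sub (dMatL ρbar q b σ) z z'

theorem dMat_smul (a : k) (z : Z1D q (ad0 ρbar)) (σ : Γ) :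
    dMat ρbar q b (a • z) σ = a • dMat ρbar q b z σ :=
  map_smul (dMatL ρbar q b σ) a z

theorem trace_dMat (z : Z1D q (ad0 ρbar)) (σ : Γ) : (dMat ρbar q b z σ).trace = 0 := by
  rw [dMat, ← LinearMap.trace_eq_matrix_trace k b]
  exact (mem_sl_iff ρbar _).1 (show ↥(sl ρbar) from desc q (ad0 ρbar) z σ).2

theorem dMat_one_one (z : Z1D q (ad0 ρbar)) (σ : Γ) :
    dMat ρbar q b z σ 1 1 = -dMat ρbar q b z σ 0 0 := by
  have h := trace_dMat ρbar q b z σ
  rw [Matrix.trace_fin_two] at h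
  exact eq_neg_of_add_eq_zero_right h

/-- the cocycle identity, endomorphism form. -/
theorem dEnd_mul (z : Z1D q (ad0 ρbar)) {σ τ : Γ}
    (hσ : σ ∈ (primeLocalPlace q).decompositionSubgroup ℚ)
    (hτ : τ ∈ (primeLocalPlace q).decompositionSubgroup ℚ) :
    dEnd ρbar q z (σ * τ) =
      ρbar.ρ σ * dEnd ρbar q z τ * ρbar.ρ σ⁻¹ + dEnd ρbar q z σ := by
  have h := desc_mul q (ad0 ρbar) z hσ hτ
  exact congrArg (fun x : ↥(sl ρbar) => (x : Module.End k ρbar.V)) h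

/-- the cocycle identity, matrix form. -/
theorem dMat_mul (z : Z1D q (ad0 ρbar)) {σ τ : Γ}
    (hσ : σ ∈ (primeLocalPlace q).decompositionSubgroup ℚ)
    (hτ : τ ∈ (primeLocalPlace q).decompositionSubgroup ℚ) :
    dMat ρbar q b z (σ * τ) =
      rbarOf ρbar b σ * dMat ρbar q b z τ * rbarOf ρbar b σ⁻¹ + dMat ρbar q b z σ := by
  rw [dMat, dEnd_mul ρbar q z hσ hτ, map_add, Module.End.mul_eq_comp, Module.End.mul_eq_comp,
    LinearMap.toMatrix_comp b b b, LinearMap.toMatrix_comp b b b]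
  rfl

theorem dMat_one (z : Z1D q (ad0 ρbar)) : dMat ρbar q b z 1 = 0 := by
  have h : dEnd ρbar q z 1 = 0 := by
    unfold dEnd
    rw [desc_one]
    rfl
  rw [dMat, h, map_zero]

/-- the localisation of a global cocycle. -/
noncomputable def locZ (T : Finset Nat.Primes)
    (c : ↥(LevelCoh28.Z1 (LevelBridge13.globalBasis T) (ad0 ρbar))) : Z1D q (ad0 ρbar) :=
  LevelCohRes28.ppZ1 (𝓑G := LevelBridge13.pullBasis (locD q))
    (𝓑H := LevelBridge13.globalBasis T) (locD q)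
    (LinearMap.id : (ad0 ρbar) →ₗ[k] Rep.res (locD q) (ad0 ρbar)) (fun _ _ => rfl)
    (ShaBridge13.isLevelHom_pull T (locD q)) c

theorem resD_mk (T : Finset Nat.Primes)
    (c : ↥(LevelCoh28.Z1 (LevelBridge13.globalBasis T) (ad0 ρbar))) :
    resD T (ad0 ρbar) q (LevelCoh28.H1mk (LevelBridge13.globalBasis T) (ad0 ρbar) c) =
      mkD q (ad0 ρbar) (locZ ρbar q T c) := rfl

theorem dMat_locZ (T : Finset Nat.Primes)
    (c : ↥(LevelCoh28.Z1 (LevelBridge13.globalBasis T) (ad0 ρbar))) {σ : Γ}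
    (hσ : σ ∈ (primeLocalPlace q).decompositionSubgroup ℚ) :
    dMat ρbar q b (locZ ρbar q T c) σ = cMat ρbar b c σ := by
  unfold dMat dEnd cMat cEnd locZ
  rw [desc_ppZ1 q (ad0 ρbar) T c hσ]

/-- the value at an inverse. -/
theorem dMat_inv (z : Z1D q (ad0 ρbar)) {d : Γ}
    (hd : d ∈ (primeLocalPlace q).decompositionSubgroup ℚ) :
    dMat ρbar q b z d⁻¹ = -(rbarOf ρbar b d⁻¹ * dMat ρbar q b z d * rbarOf ρbar b d) := by
  have h := dMat_mul ρbar q b z (Subgroup.inv_mem _ hd) hd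
  rw [inv_mul_cancel, dMat_one, inv_inv] at h
  exact eq_neg_of_add_eq_zero_right h.symm

/-- **the conjugation formula.** -/
theorem dMat_conj (z : Z1D q (ad0 ρbar)) {d τ : Γ}
    (hd : d ∈ (primeLocalPlace q).decompositionSubgroup ℚ)
    (hτ : τ ∈ (primeLocalPlace q).decompositionSubgroup ℚ) :
    dMat ρbar q b z (d⁻¹ * τ * d) =
      rbarOf ρbar b d⁻¹ * (dMat ρbar q b z τ +
        (rbarOf ρbar b τ * dMat ρbar q b z d * rbarOf ρbar b τ⁻¹ - dMat ρbar q b z d)) *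
        rbarOf ρbar b d := by
  have hdi := Subgroup.inv_mem _ hd
  rw [mul_assoc, dMat_mul ρbar q b z hdi (Subgroup.mul_mem _ hτ hd), dMat_mul ρbar q b z hτ hd,
    dMat_inv ρbar q b z hd, inv_inv]
  simp only [mul_add, add_mul, mul_sub, sub_mul, mul_assoc]
  abel

/-- on elements acting trivially on `V̄`, conjugation acts by the adjoint action. -/
theorem dMat_conj_of_trivial (z : Z1D q (ad0 ρbar)) {d τ : Γ}
    (hd : d ∈ (primeLocalPlace q).decompositionSubgroup ℚ)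
    (hτ : τ ∈ (primeLocalPlace q).decompositionSubgroup ℚ) (hτ1 : rbarOf ρbar b τ = 1) :
    dMat ρbar q b z (d⁻¹ * τ * d) =
      rbarOf ρbar b d⁻¹ * dMat ρbar q b z τ * rbarOf ρbar b d := by
  have hτi : rbarOf ρbar b τ⁻¹ = 1 := by
    have h := rbarOf_inv_mul ρbar b τ
    rwa [hτ1, mul_one] at h
  rw [dMat_conj ρbar q b z hd hτ, hτ1, hτi, one_mul, mul_one, sub_self, add_zero]

/-- additivity on elements acting trivially. -/
theorem dMat_mul_of_trivial (z : Z1D q (ad0 ρbar)) {σ τ : Γ}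
    (hσ : σ ∈ (primeLocalPlace q).decompositionSubgroup ℚ)
    (hτ : τ ∈ (primeLocalPlace q).decompositionSubgroup ℚ) (hσ1 : rbarOf ρbar b σ = 1) :
    dMat ρbar q b z (σ * τ) = dMat ρbar q b z σ + dMat ρbar q b z τ := by
  have hσi : rbarOf ρbar b σ⁻¹ = 1 := by
    have h := rbarOf_inv_mul ρbar b σ
    rwa [hσ1, mul_one] at h
  rw [dMat_mul ρbar q b z hσ hτ, hσ1, hσi, one_mul, mul_one, add_comm]

/-- `rbarOf` is trivial iff `ρ̄` is. -/
theorem rbarOf_eq_one_iff (σ : Γ) : rbarOf ρbar b σ = 1 ↔ ρbar.ρ σ = 1 := by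
  constructor
  · intro h
    rw [← toLin_rbarOf ρbar b σ, h, Matrix.toLin_one]
    rfl
  · intro h
    rw [matrixOfBasisRes_apply, h, LinearMap.toMatrix_one]

/-! ### coboundaries -/

theorem isDiscrete_ad0 :
    LevelCoh28.IsDiscrete (LevelBridge13.pullSets (locD q)) (Rep.res (locD q) (ad0 ρbar)) := by
  haveI := Ad0Facts9.moduleFinite_ad0 ρbar
  exact LevelBridge13.isDiscrete_pullSets (ad0 ρbar) (locD q) (Ad0Facts9.isSmooth_ad0 ρbar)

/-- the coboundary of `X ∈ ad⁰ρ̄`, as a level cocycle of `Gal(ℚ̄_q/ℚ_q)`. -/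
noncomputable def cobZ (X : ad0 ρbar) : Z1D q (ad0 ρbar) :=
  ⟨(groupCohomology.d₀₁ (Rep.res (locD q) (ad0 ρbar))).hom X,
    LevelCoh28.coboundaries₁_le_Z1 (isDiscrete_ad0 ρbar q) ⟨X, rfl⟩⟩

theorem mkD_cobZ (X : ad0 ρbar) : mkD q (ad0 ρbar) (cobZ ρbar q X) = 0 := by
  rw [LevelCoh28.H1mk_eq_zero_iff]
  exact ⟨X, rfl⟩

theorem mkD_add_cobZ (z : Z1D q (ad0 ρbar)) (X : ad0 ρbar) :
    mkD q (ad0 ρbar) (z + cobZ ρbar q X) = mkD q (ad0 ρbar) z := by
  rw [map_add, mkD_cobZ, add_zero]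

theorem mkD_sub_cobZ (z : Z1D q (ad0 ρbar)) (X : ad0 ρbar) :
    mkD q (ad0 ρbar) (z - cobZ ρbar q X) = mkD q (ad0 ρbar) z := by
  rw [map_sub, mkD_cobZ, sub_zero]

/-- the trace-zero endomorphism with matrix `Y`. -/
noncomputable def slOfMat (Y : M2 k) (hY : Y.trace = 0) : ad0 ρbar :=
  (⟨Matrix.toLin b b Y, by
    rw [mem_sl_iff, LinearMap.trace_eq_matrix_trace k b, LinearMap.toMatrix_toLin, hY]⟩ :
    ↥(sl ρbar))

theorem dMat_cobZ (Y : M2 k) (hY : Y.trace = 0) {σ : Γ}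
    (hσ : σ ∈ (primeLocalPlace q).decompositionSubgroup ℚ) :
    dMat ρbar q b (cobZ ρbar q (slOfMat ρbar b Y hY)) σ =
      rbarOf ρbar b σ * Y * rbarOf ρbar b σ⁻¹ - Y := by
  obtain ⟨g, rfl⟩ := exists_of_mem_decomp q hσ
  unfold dMat dEnd
  rw [desc_locD]
  show LinearMap.toMatrix b b
    ((ρbar.ρ (locD q g) * Matrix.toLin b b Y * ρbar.ρ (locD q g)⁻¹ - Matrix.toLin b b Y :
      Module.End k ρbar.V)) = _
  rw [map_sub, LinearMap.toMatrix_mul, LinearMap.toMatrix_mul, LinearMap.toMatrix_toLin]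
  rfl

end Mat

/-! ### the level condition of a flat lift -/

section Flat

variable {k : Type} [Field k] [Finite k] (p : ℕ) [Fact p.Prime] [CharP k p] [Algebra (ZMod p) k]
  (ρbar : ResidualGaloisRep k) {T : Finset Nat.Primes}
  (c : ↥(LevelCoh28.Z1 (LevelBridge13.globalBasis T) (ad0 ρbar)))
  {A : ValuationSubring Qb} {N : Subgroup GQ} {ζ π₀ : Qb} {m : ℕ}

/-- **flat ⟹ level `≥ (p-1) m`** for every additive function of finite level on `N` that vanishes
on the kernel of the lift. -/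
theorem isLev_of_flat (hflat : (liftOf ρbar c).IsFlatAt p) (hA : A.LiesOverPrime p)
    (S : Setting A.valuation ↥N p ζ π₀ m) (hNI : N ≤ A.inertiaSubgroupIn ℚ)
    (hN : ∀ σ ∈ A.inertiaSubgroupIn ℚ, ρbar.ρ σ = 1 → σ ∈ N)
    (f : ↥N → k) (hadd : ∀ σ τ : ↥N, f (σ * τ) = f σ + f τ)
    (hker : ∀ σ : ↥N, ρbar.ρ (σ : GQ) = 1 → cEnd ρbar c (σ : GQ) = 0 → f σ = 0)
    (L : IntermediateField ℚ Qb) [FiniteDimensional ℚ L]
    (hL : ∀ σ : ↥N, (∀ x ∈ L, (σ : GQ) x = x) → f σ = 0) :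
    IsLev A N p ζ π₀ ((p - 1) * m) f := by
  intro b'
  haveI : Finite (DualNumber k) := inferInstanceAs (Finite (k × k))
  have hpV : ∀ v : (liftOf ρbar c).V, p • v = 0 := by
    intro v
    funext i
    exact FlatBorel6.nsmul_eq_zero_dualNumber p (v i)
  have hle : FlatFont6.kerInertia (liftOf ρbar c) A ≤ N := by
    intro σ hσ
    rw [FlatFont6.mem_kerInertia] at hσ
    exact hN σ hσ.1 ((FlatBorel6.liftOf_apply_eq_one_iff ρbar c σ).1 hσ.2).1
  refine klev_of_kl S (gfun p f b') (fun σ τ => ?_) L (fun σ hσ => ?_) ?_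
  · simp only [gfun, hadd, mul_add, map_add]
  · simp only [gfun, hL σ hσ, mul_zero, map_zero]
  · intro α θ hα0 hαN hθ hθg
    obtain ⟨β, u, hβ0, hβ, -, hαe, huA⟩ := FlatKL7.kummer_level_of_isFlatAt p (liftOf ρbar c)
      hflat hpV hA hle hNI S.hζ (fun σ hσ => S.hζfix ⟨σ, hσ⟩) hα0 hαN hθ (fun σ hσ => by
        have hσN : σ ∈ N := hle hσ
        rw [FlatFont6.mem_kerInertia] at hσ
        obtain ⟨h1, h2⟩ := (FlatBorel6.liftOf_apply_eq_one_iff ρbar c σ).1 hσ.2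
        refine hθg ⟨σ, hσN⟩ ?_
        simp only [gfun, hker ⟨σ, hσN⟩ h1 h2, mul_zero, map_zero])
    exact ⟨β, u, hβ0, hβ, hαe, huA⟩

/-- the cocycle of a global class vanishes beyond a finite level. -/
theorem exists_level_cEnd : ∃ L : IntermediateField ℚ Qb, FiniteDimensional ℚ L ∧
    ∀ σ : GQ, (∀ x ∈ L, σ x = x) → ρbar.ρ σ = 1 ∧ cEnd ρbar c σ = 0 := by
  obtain ⟨U, ⟨L, hL, rfl⟩, hinv⟩ := c.2.2
  obtain ⟨F, hF, hF1⟩ := ρbar.factorsThroughFiniteLevel
  have := hL.1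
  refine ⟨L ⊔ F, IntermediateField.finiteDimensional_sup L F, fun σ hσ => ?_⟩
  have hσL : σ ∈ L.fixingSubgroup := by
    rw [IntermediateField.mem_fixingSubgroup_iff]
    exact fun x hx => hσ x (le_sup_left (a := L) (b := F) hx)
  refine ⟨hF1 σ fun x hx => hσ x (le_sup_right (a := L) (b := F) hx), ?_⟩
  have h1 : (c : Γ → ad0 ρbar) σ = (c : Γ → ad0 ρbar) 1 := by
    have := hinv 1 σ hσL
    rwa [one_mul] at this
  rw [← cEnd_one ρbar c]
  exact congrArg (fun x : ↥(sl ρbar) => (x : Module.End k ρbar.V)) h1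

end Flat

end Fermat.Agent.W56.FlatCore3
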