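/-
Programme W56 (target S56), chapter (F) FLAT, the counts (helper3): **the tame package**.

`ρ̄|I_p` of order prime to `p`, `N = ker ρ̄|I_p`, tame data `(π₀, m)` for `N`.

* `matOf b`, `entL b N i j` : matrix entries of the restriction to `N` of a local cocycle;
* `ZT` : the level subspace of the local cocycles (all entries of `z|N` have Kummer characters of
  level `≥ (p-1) m`), `LpT := mkD (ZT)`;
* `mem_ZT_of_flat` : the localisation of a global cocycle with flat lift lies in `ZT`;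
* `card_LpT_le` : `#LpT ≤ #k · #H⁰` as soon as the triples of entries `(z₀₀, z₀₁, z₁₀)|N`, `z ∈ ZT`,
  lie in a set with at most `#k` elements;
* the equivariance of the entries under inertia and Frobenius (`ent_conj`).
-/
import Mathlib
import Fermat.Agent.W56.FlatCore3
import Fermat.Agent.W56.AllowedT3
import Fermat.Agent.W56.GWContracts4
import Fermat.Agent.W56.FinH1D1

set_option autoImplicit false

open CategoryTheory ExtCitation

namespace Fermat.Agent.W56.FlatT3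

open Fermat.Agent.PT.PRO Fermat.Agent.PT.BR Fermat.Agent.W56.Defs9
  Fermat.Agent.W56.Lift9 Fermat.Agent.W56.FlatLp3 Fermat.Agent.W56.KummerGen3
  Fermat.Agent.W56.UnitLevel3 Fermat.Agent.W56.KLevel3 Fermat.Agent.W56.LevelCount3
  Fermat.Agent.W56.LevSub3 Fermat.Agent.W56.FlatCore3

open Fermat.Agent.S53 hiding GQ

local notation "Γ" => (AlgebraicClosure ℚ ≃ₐ[ℚ] AlgebraicClosure ℚ)

/-! ### matrix entries -/

section Entries

variable {k : Type} [Field k] (ρbar : ResidualGaloisRep k) (pp : Nat.Primes)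
  (b : Module.Basis (Fin 2) k ρbar.V)

/-- the matrix of an element of `ad⁰ρ̄`. -/
noncomputable def matOf : ad0 ρbar →ₗ[k] M2 k :=
  ((LinearMap.toMatrix b b : Module.End k ρbar.V ≃ₗ[k] M2 k) : Module.End k ρbar.V →ₗ[k] M2 k).comp
    (sl ρbar).subtype

theorem matOf_injective : Function.Injective (matOf ρbar b) := by
  intro x y h
  have h1 : ((show ↥(sl ρbar) from x) : Module.End k ρbar.V) = (show ↥(sl ρbar) from y) :=
    (LinearMap.toMatrix b b).injective h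
  exact Subtype.ext h1

theorem matOf_desc (z : Z1D pp (ad0 ρbar)) (σ : Γ) :
    matOf ρbar b (desc pp (ad0 ρbar) z σ) = dMat ρbar pp b z σ := rfl

theorem trace_matOf (x : ad0 ρbar) : (matOf ρbar b x).trace = 0 := by
  show (LinearMap.toMatrix b b ((show ↥(sl ρbar) from x) : Module.End k ρbar.V)).trace = 0
  rw [← LinearMap.trace_eq_matrix_trace k b]
  exact (mem_sl_iff ρbar _).1 (show ↥(sl ρbar) from x).2

/-- an element of `ad⁰ρ̄` is determined by three entries. -/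
theorem eq_of_entries {x y : ad0 ρbar} (h00 : matOf ρbar b x 0 0 = matOf ρbar b y 0 0)
    (h01 : matOf ρbar b x 0 1 = matOf ρbar b y 0 1)
    (h10 : matOf ρbar b x 1 0 = matOf ρbar b y 1 0) : x = y := by
  apply matOf_injective ρbar b
  have hx := trace_matOf ρbar b x
  have hy := trace_matOf ρbar b y
  rw [Matrix.trace_fin_two] at hx hy
  ext i j
  fin_cases i <;> fin_cases j
  · exact h00
  · exact h01
  · exact h10
  · show matOf ρbar b x 1 1 = matOf ρbar b y 1 1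
    rw [eq_neg_of_add_eq_zero_right hx, eq_neg_of_add_eq_zero_right hy, h00]

/-- the `(i, j)` entry of the restriction to `N`, linear in the cocycle. -/
noncomputable def entL (N : Subgroup GQ) (i j : Fin 2) : Z1D pp (ad0 ρbar) →ₗ[k] (↥N → k) where
  toFun z := fun τ => dMat ρbar pp b z (τ : GQ) i j
  map_add' z z' := by
    funext τ
    show dMat ρbar pp b (z + z') (τ : GQ) i j = _
    rw [dMat_add]
    rfl
  map_smul' a z := by
    funext τ
    show dMat ρbar pp b (a • z) (τ : GQ) i j = _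
    rw [dMat_smul]
    rfl

theorem entL_apply (N : Subgroup GQ) (i j : Fin 2) (z : Z1D pp (ad0 ρbar)) (τ : ↥N) :
    entL ρbar pp b N i j z τ = dMat ρbar pp b z (τ : GQ) i j := rfl

theorem entL_eq_matOf_resN (N : Subgroup GQ) (i j : Fin 2) (z : Z1D pp (ad0 ρbar)) (τ : ↥N) :
    entL ρbar pp b N i j z τ = matOf ρbar b (resN pp (ad0 ρbar) N z τ) i j := rfl

end Entries

/-! ### the level subspace -/

section Level

variable {k : Type} [Field k] [Finite k] {p : ℕ} [Fact p.Prime] [CharP k p] [Algebra (ZMod p) k]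
  (ρbar : ResidualGaloisRep k) (pp : Nat.Primes) (b : Module.Basis (Fin 2) k ρbar.V)
  {N : Subgroup GQ} {ζ π₀ : Qb} {m : ℕ}

omit [Finite k] [Fact p.Prime] [CharP k p] in
theorem one_le_e0 (S : Setting (primeLocalPlace pp).valuation ↥N p ζ π₀ m) :
    1 ≤ (p - 1) * m :=
  Nat.succ_le_of_lt (Nat.mul_pos (Nat.sub_pos_of_lt S.hp.one_lt) S.hm)

/-- **the level subspace** of the local cocycles: all entries of `z|N` have Kummer characters of
level `≥ (p-1) m`. -/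
noncomputable def ZT (S : Setting (primeLocalPlace pp).valuation ↥N p ζ π₀ m) :
    Submodule k (Z1D pp (ad0 ρbar)) where
  carrier := {z | ∀ i j : Fin 2,
    IsLev (primeLocalPlace pp) N p ζ π₀ ((p - 1) * m) (entL ρbar pp b N i j z)}
  zero_mem' := by
    intro i j
    rw [map_zero]
    exact IsLev.zero S _
  add_mem' := by
    intro z z' hz hz' i j
    rw [map_add]
    exact IsLev.add S (one_le_e0 pp S) (hz i j) (hz' i j)
  smul_mem' := by
    intro a z hz i j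
    rw [map_smul]
    exact IsLev.smul a (hz i j)

theorem mem_ZT (S : Setting (primeLocalPlace pp).valuation ↥N p ζ π₀ m) (z : Z1D pp (ad0 ρbar)) :
    z ∈ ZT ρbar pp b S ↔ ∀ i j : Fin 2,
      IsLev (primeLocalPlace pp) N p ζ π₀ ((p - 1) * m) (entL ρbar pp b N i j z) := Iff.rfl

/-- **membership**: the localisation of a global cocycle with flat lift. -/
theorem mem_ZT_of_flat (S : Setting (primeLocalPlace pp).valuation ↥N p ζ π₀ m)
    (hA : (primeLocalPlace pp).LiesOverPrime p)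
    (hNI : N ≤ (primeLocalPlace pp).inertiaSubgroupIn ℚ)
    (hN : ∀ σ ∈ (primeLocalPlace pp).inertiaSubgroupIn ℚ, ρbar.ρ σ = 1 → σ ∈ N)
    (hNρ : ∀ σ ∈ N, ρbar.ρ σ = 1) {T : Finset Nat.Primes}
    (c : ↥(LevelCoh28.Z1 (LevelBridge13.globalBasis T) (ad0 ρbar)))
    (hflat : (liftOf ρbar c).IsFlatAt p) : locZ ρbar pp T c ∈ ZT ρbar pp b S := by
  intro i j
  have hND : ∀ σ : ↥N, (σ : GQ) ∈ (primeLocalPlace pp).decompositionSubgroup ℚ :=
    fun σ => iner_le_decomp _ (hNI σ.2)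
  obtain ⟨L, hLfin, hL⟩ := exists_level_cEnd ρbar c
  refine isLev_of_flat p ρbar c hflat hA S hNI hN _ (fun σ τ => ?_) (fun σ _ h0 => ?_) L
    (fun σ hσ => ?_)
  · rw [entL_apply, entL_apply, entL_apply, Subgroup.coe_mul,
      dMat_mul_of_trivial ρbar pp b _ (hND σ) (hND τ)
        ((rbarOf_eq_one_iff ρbar b _).2 (hNρ σ σ.2))]
    rfl
  · rw [entL_apply, dMat_locZ ρbar pp b T c (hND σ), cMat, h0, map_zero]
    rfl
  · rw [entL_apply, dMat_locZ ρbar pp b T c (hND σ), cMat, (hL σ hσ).2, map_zero]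
    rfl

end Level

/-! ### the generic count -/

section Count

variable {k : Type} [Field k] [Finite k]
  (ρbar : ResidualGaloisRep k) (pp : Nat.Primes) (b : Module.Basis (Fin 2) k ρbar.V)
  (N : Subgroup GQ)

theorem finite_ad0' : Finite (ad0 ρbar) := by
  haveI := Ad0Facts9.moduleFinite_ad0 ρbar
  exact (Module.finite_of_finite k : Finite ↥(sl ρbar))

omit [Finite k] in
theorem nsmul_ad0 (p : ℕ) [CharP k p] (x : ad0 ρbar) : p • x = 0 := by
  rw [← Nat.cast_smul_eq_nsmul k, CharP.cast_eq_zero, zero_smul]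

theorem finite_Z1D' (p : ℕ) [Fact p.Prime] [CharP k p] : Finite (Z1D pp (ad0 ρbar)) := by
  haveI := finite_ad0' ρbar
  exact FinH1D1.finite_Z1D (ad0 ρbar) p (nsmul_ad0 ρbar p) (Ad0Facts9.isSmooth_ad0 ρbar) pp

theorem finite_H1D' (p : ℕ) [Fact p.Prime] [CharP k p] : Finite (H1D (ad0 ρbar) pp) := by
  haveI := finite_ad0' ρbar
  exact FinH1D1.finite_H1D (ad0 ρbar) p (nsmul_ad0 ρbar p) (Ad0Facts9.isSmooth_ad0 ρbar) pp

/-- **the generic count**: if the triples of entries of `z|N`, `z ∈ Z`, lie in a set with at most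
`#k` elements, then the classes of `Z` number at most `#k · #H⁰`. -/
theorem card_mkD_le_of_triples (p : ℕ) [Fact p.Prime] [CharP k p]
    (hidx : ((N.subgroupOf ((primeLocalPlace pp).inertiaSubgroupIn ℚ)).index : k) ≠ 0)
    (Z : Submodule k (Z1D pp (ad0 ρbar)))
    (P : ((↥N → k) × (↥N → k) × (↥N → k)) → Prop)
    (hP : Finite {t // P t} ∧ Nat.card {t // P t} ≤ Nat.card k)
    (hZP : ∀ z ∈ Z, P (entL ρbar pp b N 0 0 z, entL ρbar pp b N 0 1 z, entL ρbar pp b N 1 0 z)) :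
    Nat.card ↥(Z.map (mkD pp (ad0 ρbar))) ≤
      Nat.card k * GWContracts4.d0 (ad0 ρbar) pp := by
  classical
  haveI := finite_ad0' ρbar
  haveI := finite_H1D' ρbar pp p
  haveI := finite_Z1D' ρbar pp p
  haveI := hP.1
  haveI : Finite ↥(Z.map (resN pp (ad0 ρbar) N)) := by
    have : Finite ↥Z := inferInstance
    exact Finite.of_surjective (fun z : ↥Z => (⟨resN pp (ad0 ρbar) N z.1, z.1, z.2, rfl⟩ :
      ↥(Z.map (resN pp (ad0 ρbar) N)))) (by
        rintro ⟨r, z, hz, rfl⟩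
        exact ⟨⟨z, hz⟩, rfl⟩)
  -- the injection into the triples
  have hmem : ∀ r : ↥(Z.map (resN pp (ad0 ρbar) N)),
      P (fun τ => matOf ρbar b (r.1 τ) 0 0, fun τ => matOf ρbar b (r.1 τ) 0 1,
        fun τ => matOf ρbar b (r.1 τ) 1 0) := by
    rintro ⟨r, z, hz, rfl⟩
    exact hZP z hz
  let Ψ : ↥(Z.map (resN pp (ad0 ρbar) N)) → {t // P t} := fun r => ⟨_, hmem r⟩
  have hΨ : Function.Injective Ψ := by
    intro r r' h
    have h1 := congrArg Subtype.val h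
    have h00 := congrArg Prod.fst h1
    have h01 := congrArg (fun t => t.2.1) h1
    have h10 := congrArg (fun t => t.2.2) h1
    apply Subtype.ext
    funext τ
    exact eq_of_entries ρbar b (congrFun h00 τ) (congrFun h01 τ) (congrFun h10 τ)
  have hcard : Nat.card ↥(Z.map (resN pp (ad0 ρbar) N)) ≤ Nat.card k :=
    le_trans (Nat.card_le_card_of_injective Ψ hΨ) hP.2
  have h1 := card_map_le pp (ad0 ρbar) (isDiscrete_ad0 ρbar pp) N hidx Z
  calc Nat.card ↥(Z.map (mkD pp (ad0 ρbar)))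
      ≤ Nat.card ↥(Rep.res (locD pp) (ad0 ρbar)).ρ.invariants *
          Nat.card ↥(Z.map (resN pp (ad0 ρbar) N)) := h1
    _ ≤ Nat.card ↥(Rep.res (locD pp) (ad0 ρbar)).ρ.invariants * Nat.card k :=
        Nat.mul_le_mul_left _ hcard
    _ = Nat.card k * GWContracts4.d0 (ad0 ρbar) pp := by
        rw [mul_comm]; rfl

end Count

/-! ### conjugation of the entries -/

section Conj

variable {k : Type} [Field k]

theorem eq_of_mul_eq_one {M M' M'' : M2 k} (h : M * M' = 1) (h' : M'' * M = 1) : M' = M'' := by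
  calc M' = (M'' * M) * M' := by rw [h', one_mul]
    _ = M'' := by rw [mul_assoc, h, mul_one]

theorem antidiag_conj (M : M2 k) (u v : k) (hu : u ≠ 0) (hv : v ≠ 0) :
    (!![0, v⁻¹; u⁻¹, 0] * M * !![0, u; v, 0]) 0 0 = M 1 1 ∧
    (!![0, v⁻¹; u⁻¹, 0] * M * !![0, u; v, 0]) 0 1 = u / v * M 1 0 ∧
    (!![0, v⁻¹; u⁻¹, 0] * M * !![0, u; v, 0]) 1 0 = v / u * M 0 1 := by
  refine ⟨?_, ?_, ?_⟩
  · rw [Matrix.mul_apply, Fin.sum_univ_two, Matrix.mul_apply, Matrix.mul_apply, Fin.sum_univ_two,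
      Fin.sum_univ_two]
    simp only [Matrix.of_apply, Matrix.cons_val', Matrix.cons_val_zero, Matrix.cons_val_one,
      Matrix.cons_val_fin_one]
    field_simp
    ring
  · rw [Matrix.mul_apply, Fin.sum_univ_two, Matrix.mul_apply, Matrix.mul_apply, Fin.sum_univ_two,
      Fin.sum_univ_two]
    simp only [Matrix.of_apply, Matrix.cons_val', Matrix.cons_val_zero, Matrix.cons_val_one,
      Matrix.cons_val_fin_one]
    field_simp
    ring
  · rw [Matrix.mul_apply, Fin.sum_univ_two, Matrix.mul_apply, Matrix.mul_apply, Fin.sum_univ_two,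
      Fin.sum_univ_two]
    simp only [Matrix.of_apply, Matrix.cons_val', Matrix.cons_val_zero, Matrix.cons_val_one,
      Matrix.cons_val_fin_one]
    field_simp
    ring

variable (ρbar : ResidualGaloisRep k) (pp : Nat.Primes) (b : Module.Basis (Fin 2) k ρbar.V)

theorem rbarOf_inv_of_diag {σ : Γ} {a d : k} (ha : a ≠ 0) (hd : d ≠ 0)
    (h : rbarOf ρbar b σ = Matrix.diagonal ![a, d]) :
    rbarOf ρbar b σ⁻¹ = Matrix.diagonal ![a⁻¹, d⁻¹] := by
  refine eq_of_mul_eq_one (rbarOf_mul_inv ρbar b σ) ?_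
  rw [h, Matrix.diagonal_mul_diagonal]
  ext i j
  fin_cases i <;> fin_cases j <;> simp [ha, hd]

theorem rbarOf_inv_of_antidiag {σ : Γ} {u v : k} (hu : u ≠ 0) (hv : v ≠ 0)
    (h : rbarOf ρbar b σ = !![0, u; v, 0]) :
    rbarOf ρbar b σ⁻¹ = !![0, v⁻¹; u⁻¹, 0] := by
  refine eq_of_mul_eq_one (rbarOf_mul_inv ρbar b σ) ?_
  rw [h]
  ext i j
  fin_cases i <;> fin_cases j <;> simp [Matrix.mul_apply, Fin.sum_univ_two, hu, hv]

/-- conjugation by a diagonal element. -/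
theorem dMat_conj_diag (z : Z1D pp (ad0 ρbar)) {d τ : Γ}
    (hd : d ∈ (primeLocalPlace pp).decompositionSubgroup ℚ)
    (hτ : τ ∈ (primeLocalPlace pp).decompositionSubgroup ℚ) (hτ1 : ρbar.ρ τ = 1)
    {a e : k} (ha : a ≠ 0) (he : e ≠ 0) (h : rbarOf ρbar b d = Matrix.diagonal ![a, e])
    (i j : Fin 2) :
    dMat ρbar pp b z (d⁻¹ * τ * d) i j = ![a⁻¹, e⁻¹] i * dMat ρbar pp b z τ i j * ![a, e] j := by
  rw [dMat_conj_of_trivial ρbar pp b z hd hτ ((rbarOf_eq_one_iff ρbar b τ).2 hτ1),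
    rbarOf_inv_of_diag ρbar b ha he h, h, Matrix.mul_diagonal, Matrix.diagonal_mul]

/-- conjugation by an antidiagonal element. -/
theorem dMat_conj_antidiag (z : Z1D pp (ad0 ρbar)) {d τ : Γ}
    (hd : d ∈ (primeLocalPlace pp).decompositionSubgroup ℚ)
    (hτ : τ ∈ (primeLocalPlace pp).decompositionSubgroup ℚ) (hτ1 : ρbar.ρ τ = 1)
    {u v : k} (hu : u ≠ 0) (hv : v ≠ 0) (h : rbarOf ρbar b d = !![0, u; v, 0]) :
    dMat ρbar pp b z (d⁻¹ * τ * d) 0 0 = dMat ρbar pp b z τ 1 1 ∧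
    dMat ρbar pp b z (d⁻¹ * τ * d) 0 1 = u / v * dMat ρbar pp b z τ 1 0 ∧
    dMat ρbar pp b z (d⁻¹ * τ * d) 1 0 = v / u * dMat ρbar pp b z τ 0 1 := by
  rw [dMat_conj_of_trivial ρbar pp b z hd hτ ((rbarOf_eq_one_iff ρbar b τ).2 hτ1),
    rbarOf_inv_of_antidiag ρbar b hu hv h, h]
  exact antidiag_conj _ u v hu hv

end Conj

/-! ### the three tame cases -/

section Cases

open Fermat.Agent.W56.LevelCountB3 Fermat.Agent.W56.CountS3 Fermat.Agent.W56.AllowedT3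

variable {k : Type} [Field k] [Finite k] {p : ℕ} [Fact p.Prime] [CharP k p] [Algebra (ZMod p) k]
  (ρbar : ResidualGaloisRep k) (pp : Nat.Primes) (b : Module.Basis (Fin 2) k ρbar.V)
  {N : Subgroup GQ} {ζ π₀ : Qb} {m : ℕ}
  {χ : ↥((primeLocalPlace pp).inertiaSubgroupIn ℚ) → ZMod p} {φ : GQ} {cφ : ZMod p}
  (D : CountData (primeLocalPlace pp) N p ζ π₀ m χ φ cφ p)
  {ω₁ ω₂ : ↥((primeLocalPlace pp).inertiaSubgroupIn ℚ) →* kˣ}
  (hNI : N ≤ (primeLocalPlace pp).inertiaSubgroupIn ℚ)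
  (hNρ : ∀ σ ∈ N, ρbar.ρ σ = 1)
  (hdiag : ∀ s : ↥((primeLocalPlace pp).inertiaSubgroupIn ℚ),
    rbarOf ρbar b (s : GQ) = Matrix.diagonal ![((ω₁ s : kˣ) : k), ((ω₂ s : kˣ) : k)])

include hNI hNρ hdiag in
omit [Finite k] [Fact p.Prime] [CharP k p] in
/-- the equivariance of the entries under inertia. -/
theorem ent_conjI (z : Z1D pp (ad0 ρbar)) (s : ↥((primeLocalPlace pp).inertiaSubgroupIn ℚ))
    (τ : ↥N) (i j : Fin 2) :
    entL ρbar pp b N i j z ⟨(s : GQ)⁻¹ * τ * s, D.hnorm s s.2 τ τ.2⟩ =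
      ![((ω₁ s : kˣ) : k)⁻¹, ((ω₂ s : kˣ) : k)⁻¹] i * entL ρbar pp b N i j z τ *
        ![((ω₁ s : kˣ) : k), ((ω₂ s : kˣ) : k)] j :=
  dMat_conj_diag ρbar pp b z (iner_le_decomp _ s.2) (iner_le_decomp _ (hNI τ.2)) (hNρ τ τ.2)
    (Units.ne_zero _) (Units.ne_zero _) (hdiag s) i j

include hNI hNρ hdiag in
omit [Finite k] [Fact p.Prime] [CharP k p] in
/-- the diagonal entries are invariant under inertia. -/
theorem ent_conjI_diag (z : Z1D pp (ad0 ρbar)) (s : ↥((primeLocalPlace pp).inertiaSubgroupIn ℚ))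
    (τ : ↥N) :
    entL ρbar pp b N 0 0 z ⟨(s : GQ)⁻¹ * τ * s, D.hnorm s s.2 τ τ.2⟩ =
      (((1 : ↥((primeLocalPlace pp).inertiaSubgroupIn ℚ) →* kˣ) s)⁻¹ : kˣ) *
        entL ρbar pp b N 0 0 z τ := by
  rw [ent_conjI ρbar pp b D hNI hNρ hdiag z s τ 0 0]
  simp only [Matrix.cons_val_zero, MonoidHom.one_apply, inv_one, Units.val_one, one_mul]
  rw [mul_comm, ← mul_assoc, mul_inv_cancel₀ (Units.ne_zero _), one_mul]

include hNI hNρ hdiag in
omit [Finite k] [Fact p.Prime] [CharP k p] in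
theorem ent_conjI_01 (z : Z1D pp (ad0 ρbar)) (s : ↥((primeLocalPlace pp).inertiaSubgroupIn ℚ))
    (τ : ↥N) :
    entL ρbar pp b N 0 1 z ⟨(s : GQ)⁻¹ * τ * s, D.hnorm s s.2 τ τ.2⟩ =
      (((ω₁ / ω₂) s)⁻¹ : kˣ) * entL ρbar pp b N 0 1 z τ := by
  rw [ent_conjI ρbar pp b D hNI hNρ hdiag z s τ 0 1]
  simp only [Matrix.cons_val_zero, Matrix.cons_val_one, MonoidHom.div_apply, inv_div,
    Units.val_div_eq_div_val]
  field_simp

include hNI hNρ hdiag in
omit [Finite k] [Fact p.Prime] [CharP k p] in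
theorem ent_conjI_10 (z : Z1D pp (ad0 ρbar)) (s : ↥((primeLocalPlace pp).inertiaSubgroupIn ℚ))
    (τ : ↥N) :
    entL ρbar pp b N 1 0 z ⟨(s : GQ)⁻¹ * τ * s, D.hnorm s s.2 τ τ.2⟩ =
      (((ω₂ / ω₁) s)⁻¹ : kˣ) * entL ρbar pp b N 1 0 z τ := by
  rw [ent_conjI ρbar pp b D hNI hNρ hdiag z s τ 1 0]
  simp only [Matrix.cons_val_zero, Matrix.cons_val_one, MonoidHom.div_apply, inv_div,
    Units.val_div_eq_div_val]
  field_simp

include hNI hNρ hdiag in
omit [Finite k] [CharP k p] in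
/-- **(T1)**: Frobenius antidiagonal — the triples of entries satisfy `CountS3.IsFS`. -/
theorem isFS_of_mem_ZT {u v : k} (hu : u ≠ 0) (hv : v ≠ 0)
    (hφ : rbarOf ρbar b φ = !![0, u; v, 0]) {z : Z1D pp (ad0 ρbar)}
    (hz : z ∈ ZT ρbar pp b D.S) :
    IsFS D ω₁ ω₂ (u / v) (v / u)
      (entL ρbar pp b N 0 0 z, entL ρbar pp b N 0 1 z, entL ρbar pp b N 1 0 z) := by
  have hφD := phi_mem_decomp D
  have hND : ∀ τ : ↥N, (τ : GQ) ∈ (primeLocalPlace pp).decompositionSubgroup ℚ :=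
    fun τ => iner_le_decomp _ (hNI τ.2)
  refine ⟨⟨fun s τ => ent_conjI_diag ρbar pp b D hNI hNρ hdiag z s τ, fun τ => ?_⟩, hz 0 0,
    fun s τ => ent_conjI_01 ρbar pp b D hNI hNρ hdiag z s τ, fun τ => ?_, fun τ => ?_, hz 0 1⟩
  · show dMat ρbar pp b z (φ⁻¹ * τ * φ) 0 0 = -1 * dMat ρbar pp b z τ 0 0
    rw [(dMat_conj_antidiag ρbar pp b z hφD (hND τ) (hNρ τ τ.2) hu hv hφ).1, dMat_one_one]
    ring
  · exact (dMat_conj_antidiag ρbar pp b z hφD (hND τ) (hNρ τ τ.2) hu hv hφ).2.1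
  · exact (dMat_conj_antidiag ρbar pp b z hφD (hND τ) (hNρ τ τ.2) hu hv hφ).2.2

include hNI hNρ hdiag in
omit [CharP k p] in
/-- **(T0)**: `ρ̄|I` scalar — all entries of `z|N` vanish. -/
theorem ent_eq_zero_of_scalar (H : TData D) (hscal : ∀ s, ω₁ s = ω₂ s)
    {z : Z1D pp (ad0 ρbar)} (hz : z ∈ ZT ρbar pp b D.S) (i j : Fin 2) (τ : ↥N) :
    entL ρbar pp b N i j z τ = 0 := by
  refine eq_zero_of_equivI D 1 _ (fun s τ => ?_) (hz i j)
    (fun i₀ h1 h2 _ => not_allowed_one H h1 h2) τ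
  rw [ent_conjI ρbar pp b D hNI hNρ hdiag z s τ i j, hscal s]
  simp only [MonoidHom.one_apply, inv_one, Units.val_one, one_mul]
  have ha : ((ω₂ s : kˣ) : k) ≠ 0 := Units.ne_zero _
  fin_cases i <;> fin_cases j <;> simp <;> field_simp

/-- the conditions on the triples in the case of a diagonal Frobenius. -/
def PT2 (D : CountData (primeLocalPlace pp) N p ζ π₀ m χ φ cφ p)
    (ω₁ ω₂ : ↥((primeLocalPlace pp).inertiaSubgroupIn ℚ) →* kˣ) (u v : k)
    (t : (↥N → k) × (↥N → k) × (↥N → k)) : Prop :=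
  IsHL D (1 : ↥((primeLocalPlace pp).inertiaSubgroupIn ℚ) →* kˣ) 1 ((p - 1) * m) t.1 ∧
    IsHL D (ω₁ / ω₂) (v / u) ((p - 1) * m) t.2.1 ∧ IsHL D (ω₂ / ω₁) (u / v) ((p - 1) * m) t.2.2

include hNI hNρ hdiag in
omit [Finite k] [CharP k p] in
/-- **(T2)**: Frobenius diagonal — the triples of entries satisfy `PT2`. -/
theorem isPT2_of_mem_ZT {u v : k} (hu : u ≠ 0) (hv : v ≠ 0)
    (hφ : rbarOf ρbar b φ = !![u, 0; 0, v]) {z : Z1D pp (ad0 ρbar)}
    (hz : z ∈ ZT ρbar pp b D.S) :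
    PT2 pp D ω₁ ω₂ u v
      (entL ρbar pp b N 0 0 z, entL ρbar pp b N 0 1 z, entL ρbar pp b N 1 0 z) := by
  have hφD := phi_mem_decomp D
  have hND : ∀ τ : ↥N, (τ : GQ) ∈ (primeLocalPlace pp).decompositionSubgroup ℚ :=
    fun τ => iner_le_decomp _ (hNI τ.2)
  have hφ' : rbarOf ρbar b φ = Matrix.diagonal ![u, v] := by
    rw [hφ]
    ext i j
    fin_cases i <;> fin_cases j <;> simp
  refine ⟨⟨⟨fun s τ => ent_conjI_diag ρbar pp b D hNI hNρ hdiag z s τ, fun τ => ?_⟩, hz 0 0⟩,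
    ⟨⟨fun s τ => ent_conjI_01 ρbar pp b D hNI hNρ hdiag z s τ, fun τ => ?_⟩, hz 0 1⟩,
    ⟨⟨fun s τ => ent_conjI_10 ρbar pp b D hNI hNρ hdiag z s τ, fun τ => ?_⟩, hz 1 0⟩⟩
  · show dMat ρbar pp b z (φ⁻¹ * τ * φ) 0 0 = 1 * dMat ρbar pp b z τ 0 0
    rw [dMat_conj_diag ρbar pp b z hφD (hND τ) (hNρ τ τ.2) hu hv hφ' 0 0]
    simp only [Matrix.cons_val_zero]
    field_simp
  · show dMat ρbar pp b z (φ⁻¹ * τ * φ) 0 1 = v / u * dMat ρbar pp b z τ 0 1
    rw [dMat_conj_diag ρbar pp b z hφD (hND τ) (hNρ τ τ.2) hu hv hφ' 0 1]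
    simp only [Matrix.cons_val_zero, Matrix.cons_val_one]
    field_simp
  · show dMat ρbar pp b z (φ⁻¹ * τ * φ) 1 0 = u / v * dMat ρbar pp b z τ 1 0
    rw [dMat_conj_diag ρbar pp b z hφD (hND τ) (hNρ τ τ.2) hu hv hφ' 1 0]
    simp only [Matrix.cons_val_zero, Matrix.cons_val_one]
    field_simp

omit [CharP k p] in
/-- a function satisfying `IsHL` for a character without allowed level vanishes. -/
theorem isHL_eq_zero {ψ : ↥((primeLocalPlace pp).inertiaSubgroupIn ℚ) →* kˣ} {w : k}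
    (hno : ∀ i, (p - 1) * m ≤ i → i < p * m → ¬ p ∣ i →
      ¬ Allowed (primeLocalPlace pp) π₀ χ ψ i) {f : ↥N → k}
    (hf : IsHL D ψ w ((p - 1) * m) f) : f = fun _ => 0 :=
  funext fun τ => IsHL.eq_zero D (one_le_e0 pp D.S) hno hf τ

/-- **the count of the triples, Frobenius diagonal**, when one of the two off-diagonal characters
has no allowed level. -/
theorem card_PT2_le (hA : (primeLocalPlace pp).LiesOverPrime p) (H : TData D)
    (hωN : ∀ s : ↥((primeLocalPlace pp).inertiaSubgroupIn ℚ), (s : GQ) ∈ N → ω₁ s = 1 ∧ ω₂ s = 1)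
    (hωφ : ∀ s : ↥((primeLocalPlace pp).inertiaSubgroupIn ℚ),
      ω₁ ⟨φ * s * φ⁻¹, phi_conj_mem D s.2⟩ = ω₁ s ∧ ω₂ ⟨φ * s * φ⁻¹, phi_conj_mem D s.2⟩ = ω₂ s)
    {u v : k} (hu : u ≠ 0) (hv : v ≠ 0) (hcφ : cφ ≠ 0)
    (hno : (∀ i, (p - 1) * m ≤ i → i < p * m → ¬ p ∣ i →
        ¬ Allowed (primeLocalPlace pp) π₀ χ (ω₁ / ω₂) i) ∨
      (∀ i, (p - 1) * m ≤ i → i < p * m → ¬ p ∣ i →
        ¬ Allowed (primeLocalPlace pp) π₀ χ (ω₂ / ω₁) i)) :
    Finite {t // PT2 pp D ω₁ ω₂ u v t} ∧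
      Nat.card {t // PT2 pp D ω₁ ω₂ u v t} ≤ Nat.card k := by
  have h00 : ∀ t : {t // PT2 pp D ω₁ ω₂ u v t}, t.1.1 = fun _ => 0 := fun t =>
    isHL_eq_zero pp D (fun i h1 h2 _ => not_allowed_one H h1 h2) t.2.1
  rcases hno with hno | hno
  · -- only the `(1,0)` entry survives
    have h01 : ∀ t : {t // PT2 pp D ω₁ ω₂ u v t}, t.1.2.1 = fun _ => 0 := fun t =>
      isHL_eq_zero pp D hno t.2.2.1
    have hc := card_le_card_p (ψ := ω₂ / ω₁) (w := u / v) hA H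
      (fun s hs => by rw [MonoidHom.div_apply, (hωN s hs).1, (hωN s hs).2, div_one])
      (fun s => by rw [MonoidHom.div_apply, MonoidHom.div_apply, (hωφ s).1, (hωφ s).2])
      (div_ne_zero hu hv) hcφ
    haveI := hc.1
    let Ψ : {t // PT2 pp D ω₁ ω₂ u v t} → {f : ↥N → k // IsHL D (ω₂ / ω₁) (u / v) ((p - 1) * m) f} :=
      fun t => ⟨t.1.2.2, t.2.2.2⟩
    have hΨ : Function.Injective Ψ := by
      intro t t' h
      have h1 : t.1.2.2 = t'.1.2.2 := congrArg Subtype.val h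
      apply Subtype.ext
      refine Prod.ext ?_ (Prod.ext ?_ h1)
      · rw [h00 t, h00 t']
      · rw [h01 t, h01 t']
    exact ⟨Finite.of_injective Ψ hΨ, le_trans (Nat.card_le_card_of_injective Ψ hΨ) hc.2⟩
  · -- only the `(0,1)` entry survives
    have h10 : ∀ t : {t // PT2 pp D ω₁ ω₂ u v t}, t.1.2.2 = fun _ => 0 := fun t =>
      isHL_eq_zero pp D hno t.2.2.2
    have hc := card_le_card_p (ψ := ω₁ / ω₂) (w := v / u) hA H
      (fun s hs => by rw [MonoidHom.div_apply, (hωN s hs).1, (hωN s hs).2, div_one])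
      (fun s => by rw [MonoidHom.div_apply, MonoidHom.div_apply, (hωφ s).1, (hωφ s).2])
      (div_ne_zero hv hu) hcφ
    haveI := hc.1
    let Ψ : {t // PT2 pp D ω₁ ω₂ u v t} → {f : ↥N → k // IsHL D (ω₁ / ω₂) (v / u) ((p - 1) * m) f} :=
      fun t => ⟨t.1.2.1, t.2.2.1⟩
    have hΨ : Function.Injective Ψ := by
      intro t t' h
      have h1 : t.1.2.1 = t'.1.2.1 := congrArg Subtype.val h
      apply Subtype.ext
      refine Prod.ext ?_ (Prod.ext h1 ?_)
      · rw [h00 t, h00 t']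
      · rw [h10 t, h10 t']
    exact ⟨Finite.of_injective Ψ hΨ, le_trans (Nat.card_le_card_of_injective Ψ hΨ) hc.2⟩

end Cases

end Fermat.Agent.W56.FlatT3
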