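/-
Programme W56 (target S56), chapter (F) FLAT, the counts (helper3): **the reducible package**.

`b` a basis of `V̄` in which the decomposition group at `p` is upper triangular, `ψ₁, ψ₂` the diagonal
characters on inertia, `N = ker (ψ₁, ψ₂)|I`, tame data for `N`, `x = ρ̄₀₁|N`.

* `ZR` : the local cocycles `z` with `z(D) ⊆ b⁰` (upper triangular), `z(I) ⊆ W⁰` (strictly upper
  triangular) and `z₀₁|N` of level `≥ (p-1) m`; `LpR := mkD (ZR)`;
* `isR_ent` : for `z ∈ ZR` the entry `z₀₁|N` satisfies `CountR3.IsR` with defect `z(φ)₀₀`;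
* **`card_LpR_le`** : `#LpR ≤ #k · #H⁰(Γ_p, ad⁰ρ̄)`;
* **`mem_LpR_of_flat`** : the class of a global cocycle `c` with flat lift lies in `LpR` as soon as `c`
  has the Borel form up to a coboundary (helper6's `exists_borel_mat`, helper9's `BorelRam9`);
* `isLev_x_of_flat` : if a flat lift exists, `x` has level `≥ (p-1) m` (`ρ̄` is peu ramifié).
-/
import Mathlib
import Fermat.Agent.W56.FlatT3
import Fermat.Agent.W56.CountR3
import Fermat.Agent.W56.UpperCoc3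

set_option autoImplicit false

open CategoryTheory ExtCitation

namespace Fermat.Agent.W56.FlatR3

open Fermat.Agent.PT.PRO Fermat.Agent.PT.BR Fermat.Agent.W56.Defs9
  Fermat.Agent.W56.Lift9 Fermat.Agent.W56.FlatLp3 Fermat.Agent.W56.KummerGen3
  Fermat.Agent.W56.UnitLevel3 Fermat.Agent.W56.KLevel3 Fermat.Agent.W56.LevelCount3
  Fermat.Agent.W56.LevSub3 Fermat.Agent.W56.FlatCore3 Fermat.Agent.W56.FlatT3
  Fermat.Agent.W56.LevelCountB3 Fermat.Agent.W56.AllowedT3 Fermat.Agent.W56.CountR3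
  Fermat.Agent.W56.BorelRam9 Fermat.Agent.W56.UpperCoc3

open Fermat.Agent.S53 hiding GQ

local notation "Γ" => (AlgebraicClosure ℚ ≃ₐ[ℚ] AlgebraicClosure ℚ)

section Package

variable {k : Type} [Field k] [Finite k] {p : ℕ} [Fact p.Prime] [CharP k p] [Algebra (ZMod p) k]
  (ρbar : ResidualGaloisRep k) (pp : Nat.Primes) (b : Module.Basis (Fin 2) k ρbar.V)
  {N : Subgroup GQ} {ζ π₀ : Qb} {m : ℕ}
  {χ : ↥((primeLocalPlace pp).inertiaSubgroupIn ℚ) → ZMod p} {φ : GQ} {cφ : ZMod p}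

/-- the class of `ρ̄` on `N`. -/
noncomputable def xN (N : Subgroup GQ) : ↥N → k := fun τ => rbarOf ρbar b (τ : GQ) 0 1

/-- **the Borel level subspace** of the local cocycles. -/
noncomputable def ZR (S : Setting (primeLocalPlace pp).valuation ↥N p ζ π₀ m) :
    Submodule k (Z1D pp (ad0 ρbar)) where
  carrier := {z |
    (∀ σ ∈ (primeLocalPlace pp).decompositionSubgroup ℚ, dMat ρbar pp b z σ 1 0 = 0) ∧
    (∀ σ ∈ (primeLocalPlace pp).inertiaSubgroupIn ℚ, dMat ρbar pp b z σ 0 0 = 0) ∧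
    IsLev (primeLocalPlace pp) N p ζ π₀ ((p - 1) * m) (entL ρbar pp b N 0 1 z)}
  zero_mem' := by
    refine ⟨fun σ _ => ?_, fun σ _ => ?_, ?_⟩
    · rw [← dMatL_apply, map_zero]; rfl
    · rw [← dMatL_apply, map_zero]; rfl
    · rw [map_zero]
      exact IsLev.zero S _
  add_mem' := by
    rintro z z' ⟨h1, h2, h3⟩ ⟨h1', h2', h3'⟩
    refine ⟨fun σ hσ => ?_, fun σ hσ => ?_, ?_⟩
    · rw [dMat_add, Matrix.add_apply, h1 σ hσ, h1' σ hσ, add_zero]
    · rw [dMat_add, Matrix.add_apply, h2 σ hσ, h2' σ hσ, add_zero]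
    · rw [map_add]
      exact IsLev.add S (FlatT3.one_le_e0 pp S) h3 h3'
  smul_mem' := by
    rintro a z ⟨h1, h2, h3⟩
    refine ⟨fun σ hσ => ?_, fun σ hσ => ?_, ?_⟩
    · rw [dMat_smul, Matrix.smul_apply, h1 σ hσ, smul_zero]
    · rw [dMat_smul, Matrix.smul_apply, h2 σ hσ, smul_zero]
    · rw [map_smul]
      exact IsLev.smul a h3

variable (D : CountData (primeLocalPlace pp) N p ζ π₀ m χ φ cφ p)
  (hup : ∀ σ ∈ (primeLocalPlace pp).decompositionSubgroup ℚ, rbarOf ρbar b σ 1 0 = 0)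
  (hNI : N ≤ (primeLocalPlace pp).inertiaSubgroupIn ℚ)
  (hN1 : ∀ σ ∈ N, rbarOf ρbar b σ 0 0 = 1 ∧ rbarOf ρbar b σ 1 1 = 1)
  {ψ₁ ψ₂ : ↥((primeLocalPlace pp).inertiaSubgroupIn ℚ) →* kˣ}
  (hψ : ∀ s : ↥((primeLocalPlace pp).inertiaSubgroupIn ℚ),
    rbarOf ρbar b (s : GQ) 0 0 = ((ψ₁ s : kˣ) : k) ∧ rbarOf ρbar b (s : GQ) 1 1 = ((ψ₂ s : kˣ) : k))

include hψ in
omit [Finite k] [Fact p.Prime] [CharP k p] [Algebra (ZMod p) k] in
theorem chi_eq (s : ↥((primeLocalPlace pp).inertiaSubgroupIn ℚ)) :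
    ((((ψ₁ / ψ₂) s)⁻¹ : kˣ) : k) = chi (rbarOf ρbar b) (s : GQ) := by
  rw [chi, (hψ s).1, (hψ s).2, MonoidHom.div_apply, inv_div, Units.val_div_eq_div_val]

omit [Finite k] [Fact p.Prime] [CharP k p] [Algebra (ZMod p) k] in
/-- the cocycle identity in the form of `BorelRam9`. -/
theorem hz_dMat (z : Z1D pp (ad0 ρbar)) :
    ∀ σ ∈ (primeLocalPlace pp).decompositionSubgroup ℚ,
      ∀ τ ∈ (primeLocalPlace pp).decompositionSubgroup ℚ,
        dMat ρbar pp b z (σ * τ) =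
          rbarOf ρbar b σ * dMat ρbar pp b z τ * rbarOf ρbar b σ⁻¹ + dMat ρbar pp b z σ :=
  fun _ hσ _ hτ => dMat_mul ρbar pp b z hσ hτ

include hup hNI hN1 hψ in
omit [Finite k] [CharP k p] in
/-- the class `x` of `ρ̄` is equivariant. -/
theorem isHL_x (hx : IsLev (primeLocalPlace pp) N p ζ π₀ ((p - 1) * m) (xN ρbar b N)) :
    IsHL D (ψ₁ / ψ₂) (chi (rbarOf ρbar b) φ) ((p - 1) * m) (xN ρbar b N) := by
  have hND : ∀ τ : ↥N, (τ : GQ) ∈ (primeLocalPlace pp).decompositionSubgroup ℚ :=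
    fun τ => iner_le_decomp _ (hNI τ.2)
  refine ⟨⟨fun s τ => ?_, fun τ => ?_⟩, hx⟩
  · rw [chi_eq ρbar pp b hψ s]
    exact unip_conj01 hup (iner_le_decomp _ s.2) (hND τ) (hN1 τ τ.2).1 (hN1 τ τ.2).2
  · exact unip_conj01 hup (phi_mem_decomp D) (hND τ) (hN1 τ τ.2).1 (hN1 τ τ.2).2

include hup hNI hN1 hψ in
omit [Finite k] [CharP k p] in
/-- **the `(0,1)`-entry of a cocycle of `ZR`.** -/
theorem isR_ent {z : Z1D pp (ad0 ρbar)} (hz : z ∈ ZR ρbar pp b D.S) :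
    IsR D (ψ₁ / ψ₂) (chi (rbarOf ρbar b) φ) (xN ρbar b N) (entL ρbar pp b N 0 1 z)
      (dMat ρbar pp b z φ 0 0) := by
  obtain ⟨h1, h2, h3⟩ := hz
  have hND : ∀ τ : ↥N, (τ : GQ) ∈ (primeLocalPlace pp).decompositionSubgroup ℚ :=
    fun τ => iner_le_decomp _ (hNI τ.2)
  have h11 : ∀ τ : ↥N, dMat ρbar pp b z (τ : GQ) 1 1 = 0 := fun τ => by
    rw [dMat_one_one, h2 _ (hNI τ.2), neg_zero]
  refine ⟨h3, fun s τ => ?_, fun τ => ?_⟩
  · have hs := iner_le_decomp _ s.2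
    have h := coc_conj01 hup (hz_dMat ρbar pp b z) hs (hND τ) (hN1 τ τ.2).1 (hN1 τ τ.2).2
      (h1 _ hs) (dMat_one_one ρbar pp b z _) (h1 _ (hND τ)) (h2 _ (hNI τ.2)) (h11 τ)
    rw [h2 _ s.2, mul_zero, zero_mul, sub_zero] at h
    rw [chi_eq ρbar pp b hψ s]
    exact h
  · have hφ := phi_mem_decomp D
    exact coc_conj01 hup (hz_dMat ρbar pp b z) hφ (hND τ) (hN1 τ τ.2).1 (hN1 τ τ.2).2
      (h1 _ hφ) (dMat_one_one ρbar pp b z _) (h1 _ (hND τ)) (h2 _ (hNI τ.2)) (h11 τ)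

omit [Finite k] [Fact p.Prime] [CharP k p] [Algebra (ZMod p) k] in
/-- a cocycle whose entries vanish on `N` restricts to `0` on `N`. -/
theorem resN_eq_zero_of_entries (z : Z1D pp (ad0 ρbar))
    (h00 : ∀ τ : ↥N, dMat ρbar pp b z (τ : GQ) 0 0 = 0)
    (h01 : ∀ τ : ↥N, dMat ρbar pp b z (τ : GQ) 0 1 = 0)
    (h10 : ∀ τ : ↥N, dMat ρbar pp b z (τ : GQ) 1 0 = 0) :
    resN pp (ad0 ρbar) N z = 0 := by
  funext τ
  refine eq_of_entries ρbar b ?_ ?_ ?_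
  · rw [Pi.zero_apply, map_zero]; exact h00 τ
  · rw [Pi.zero_apply, map_zero]; exact h01 τ
  · rw [Pi.zero_apply, map_zero]; exact h10 τ

include hup hNI hN1 hψ in
/-- **THE COUNT (R).** -/
theorem card_LpR_le (hA : (primeLocalPlace pp).LiesOverPrime p) (H : TData D) (hp2 : p ≠ 2)
    (hidx : ((N.subgroupOf ((primeLocalPlace pp).inertiaSubgroupIn ℚ)).index : k) ≠ 0)
    (hx : IsLev (primeLocalPlace pp) N p ζ π₀ ((p - 1) * m) (xN ρbar b N)) (hcφ : cφ ≠ 0) :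
    Nat.card ↥((ZR ρbar pp b D.S).map (mkD pp (ad0 ρbar))) ≤
      Nat.card k * GWContracts4.d0 (ad0 ρbar) pp := by
  classical
  haveI := finite_ad0' ρbar
  haveI := finite_H1D' ρbar pp p
  haveI := finite_Z1D' ρbar pp p
  have hφD := phi_mem_decomp D
  have hw : chi (rbarOf ρbar b) φ ≠ 0 := chi_ne hup hφD
  have hND : ∀ τ : ↥N, (τ : GQ) ∈ (primeLocalPlace pp).decompositionSubgroup ℚ :=
    fun τ => iner_le_decomp _ (hNI τ.2)
  -- the character `ψ₁ / ψ₂`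
  have hψN : ∀ s : ↥((primeLocalPlace pp).inertiaSubgroupIn ℚ), (s : GQ) ∈ N →
      (ψ₁ / ψ₂) s = 1 := by
    intro s hs
    have h1 : ψ₁ s = 1 := Units.ext (by rw [← (hψ s).1, (hN1 _ hs).1, Units.val_one])
    have h2 : ψ₂ s = 1 := Units.ext (by rw [← (hψ s).2, (hN1 _ hs).2, Units.val_one])
    rw [MonoidHom.div_apply, h1, h2, div_one]
  have hψφ : ∀ s : ↥((primeLocalPlace pp).inertiaSubgroupIn ℚ),
      (ψ₁ / ψ₂) ⟨φ * s * φ⁻¹, phi_conj_mem D s.2⟩ = (ψ₁ / ψ₂) s := by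
    intro s
    have hsD := iner_le_decomp _ s.2
    have e1 : ψ₁ ⟨φ * s * φ⁻¹, phi_conj_mem D s.2⟩ = ψ₁ s := by
      apply Units.ext
      rw [← (hψ _).1, ← (hψ s).1]
      show rbarOf ρbar b (φ * s * φ⁻¹) 0 0 = _
      rw [psi1_mul' hup (Subgroup.inv_mem _ hφD), psi1_mul' hup hsD]
      have := psi1_inv hup hφD
      linear_combination rbarOf ρbar b (s : GQ) 0 0 * this
    have e2 : ψ₂ ⟨φ * s * φ⁻¹, phi_conj_mem D s.2⟩ = ψ₂ s := by
      apply Units.ext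
      rw [← (hψ _).2, ← (hψ s).2]
      show rbarOf ρbar b (φ * s * φ⁻¹) 1 1 = _
      rw [psi2_mul' hup (Subgroup.mul_mem _ hφD hsD), psi2_mul' hup hφD]
      have := psi2_inv hup hφD
      linear_combination rbarOf ρbar b (s : GQ) 1 1 * this
    rw [MonoidHom.div_apply, MonoidHom.div_apply, e1, e2]
  have h2k : (2 : k) ≠ 0 := by
    intro h2
    have h3 : ((2 : ℕ) : k) = 0 := by exact_mod_cast h2
    have h4 := (CharP.cast_eq_zero_iff k p 2).1 h3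
    have hp := (Fact.out : p.Prime)
    exact hp2 ((Nat.prime_dvd_prime_iff_eq hp Nat.prime_two).1 h4)
  set Z := ZR ρbar pp b D.S with hZ
  have hfinal : ∀ {Q : Type} [AddCommGroup Q] [Module k Q] (g : ↥Z →ₗ[k] Q)
      [Finite (LinearMap.range g)], Nat.card (LinearMap.range g) ≤ Nat.card k →
      (∀ z : ↥Z, g z = 0 → mkD pp (ad0 ρbar) z.1 ∈ H1ur (ad0 ρbar) pp) →
      Nat.card ↥(Z.map (mkD pp (ad0 ρbar))) ≤ Nat.card k * GWContracts4.d0 (ad0 ρbar) pp := by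
    intro Q _ _ g _ hcard hkey
    have h1 := card_map_le_of pp (ad0 ρbar) (isDiscrete_ad0 ρbar pp) Z g hkey
    calc Nat.card ↥(Z.map (mkD pp (ad0 ρbar)))
        ≤ Nat.card ↥(Rep.res (locD pp) (ad0 ρbar)).ρ.invariants *
            Nat.card (LinearMap.range g) := h1
      _ ≤ Nat.card ↥(Rep.res (locD pp) (ad0 ρbar)).ρ.invariants * Nat.card k :=
          Nat.mul_le_mul_left _ hcard
      _ = Nat.card k * GWContracts4.d0 (ad0 ρbar) pp := by rw [mul_comm]; rfl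
  by_cases hx0 : ∀ τ : ↥N, xN ρbar b N τ = 0
  · -- `x = 0`
    set g : ↥Z →ₗ[k] (↥N → k) := (entL ρbar pp b N 0 1).domRestrict Z with hg
    have hrange : ∀ z : ↥Z, IsHL D (ψ₁ / ψ₂) (chi (rbarOf ρbar b) φ) ((p - 1) * m) (g z) := by
      intro z
      have h := isR_ent ρbar pp b D hup hNI hN1 hψ z.2
      refine ⟨⟨h.equivI, fun τ => ?_⟩, h.lev⟩
      rw [hg, LinearMap.domRestrict_apply, h.equivφ τ, hx0 τ, mul_zero, sub_zero]
    haveI : Finite (LinearMap.range g) :=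
      Finite.of_surjective g.rangeRestrict g.surjective_rangeRestrict
    obtain ⟨hfin, hcard⟩ := card_le_card_p (ψ := ψ₁ / ψ₂) (w := chi (rbarOf ρbar b) φ) hA H
      hψN hψφ hw hcφ
    haveI := hfin
    let Ψ : LinearMap.range g → {f : ↥N → k //
        IsHL D (ψ₁ / ψ₂) (chi (rbarOf ρbar b) φ) ((p - 1) * m) f} := fun r =>
      ⟨r.1, by obtain ⟨z, hz⟩ := r.2; rw [← hz]; exact hrange z⟩
    have hΨ : Function.Injective Ψ := fun r r' h =>
      Subtype.ext (show r.1 = r'.1 from congrArg (fun t => t.1) h)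
    refine hfinal g (le_trans (Nat.card_le_card_of_injective Ψ hΨ) hcard) fun z hz0 => ?_
    obtain ⟨h1, h2, -⟩ := z.2
    refine mem_H1ur_of_resN_eq_zero pp (ad0 ρbar) N hidx z.1
      (resN_eq_zero_of_entries ρbar pp b z.1 (fun τ => h2 _ (hNI τ.2)) (fun τ => ?_)
        (fun τ => h1 _ (hND τ)))
    exact congrFun hz0 τ
  · -- `x ≠ 0`
    push Not at hx0
    obtain ⟨τ₀, hτ₀⟩ := hx0
    have hxHL := isHL_x ρbar pp b D hup hNI hN1 hψ hx
    let g : ↥Z →ₗ[k] (↥N → k) :=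
      { toFun := fun z τ => entL ρbar pp b N 0 1 z.1 τ -
          entL ρbar pp b N 0 1 z.1 τ₀ / xN ρbar b N τ₀ * xN ρbar b N τ
        map_add' := fun z z' => by
          funext τ
          simp only [Submodule.coe_add, map_add, Pi.add_apply]
          ring
        map_smul' := fun a z => by
          funext τ
          simp only [Submodule.coe_smul, map_smul, Pi.smul_apply, smul_eq_mul, RingHom.id_apply]
          ring }
    have hgapp : ∀ (z : ↥Z) (τ : ↥N), g z τ = entL ρbar pp b N 0 1 z.1 τ -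
        entL ρbar pp b N 0 1 z.1 τ₀ / xN ρbar b N τ₀ * xN ρbar b N τ := fun _ _ => rfl
    have hrange : ∀ z : ↥Z, (∃ a, IsR D (ψ₁ / ψ₂) (chi (rbarOf ρbar b) φ) (xN ρbar b N) (g z) a) ∧
        g z τ₀ = 0 := by
      intro z
      refine ⟨⟨_, (isR_ent ρbar pp b D hup hNI hN1 hψ z.2).sub_smul hxHL _⟩, ?_⟩
      rw [hgapp]
      field_simp
      ring
    haveI : Finite (LinearMap.range g) :=
      Finite.of_surjective g.rangeRestrict g.surjective_rangeRestrict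
    obtain ⟨hfin, hcard⟩ := card_R_le (D := D) (ψ := ψ₁ / ψ₂) (w := chi (rbarOf ρbar b) φ) hA H
      hψN hψφ hw hcφ hxHL hτ₀
    haveI := hfin
    let Ψ : LinearMap.range g → {h : ↥N → k //
        (∃ a, IsR D (ψ₁ / ψ₂) (chi (rbarOf ρbar b) φ) (xN ρbar b N) h a) ∧ h τ₀ = 0} := fun r =>
      ⟨r.1, by obtain ⟨z, hz⟩ := r.2; rw [← hz]; exact hrange z⟩
    have hΨ : Function.Injective Ψ := fun r r' h =>
      Subtype.ext (show r.1 = r'.1 from congrArg (fun t => t.1) h)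
    refine hfinal g (le_trans (Nat.card_le_card_of_injective Ψ hΨ) hcard) fun z hz0 => ?_
    obtain ⟨h1, h2, -⟩ := z.2
    -- subtract the coboundary of a diagonal matrix
    set t : k := entL ρbar pp b N 0 1 z.1 τ₀ / xN ρbar b N τ₀ with ht
    have hft : ∀ τ : ↥N, dMat ρbar pp b z.1 (τ : GQ) 0 1 = t * xN ρbar b N τ := by
      intro τ
      have h3 := congrFun hz0 τ
      rw [hgapp, Pi.zero_apply, sub_eq_zero] at h3
      exact h3
    have hY : (!![t / 2, 0; 0, -(t / 2)] : M2 k).trace = 0 := by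
      rw [Matrix.trace_fin_two]
      simp
    set z' : Z1D pp (ad0 ρbar) := z.1 + cobZ ρbar pp (slOfMat ρbar b _ hY) with hz'
    have hmk : mkD pp (ad0 ρbar) z' = mkD pp (ad0 ρbar) z.1 := mkD_add_cobZ ρbar pp z.1 _
    rw [← hmk]
    have hcob := fun (τ : ↥N) => cob_diag hup (hND τ) (t / 2)
    refine mem_H1ur_of_resN_eq_zero pp (ad0 ρbar) N hidx z'
      (resN_eq_zero_of_entries ρbar pp b z' (fun τ => ?_) (fun τ => ?_) (fun τ => ?_))
    · rw [hz', dMat_add, dMat_cobZ ρbar pp b _ hY (hND τ), Matrix.add_apply, (hcob τ).2.1,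
        h2 _ (hNI τ.2), add_zero]
    · rw [hz', dMat_add, dMat_cobZ ρbar pp b _ hY (hND τ), Matrix.add_apply, (hcob τ).2.2.2,
        hft τ, (hN1 τ τ.2).2]
      show t * rbarOf ρbar b (τ : GQ) 0 1 + _ = 0
      field_simp
      ring
    · rw [hz', dMat_add, dMat_cobZ ρbar pp b _ hY (hND τ), Matrix.add_apply, (hcob τ).1,
        h1 _ (hND τ), add_zero]

omit [Finite k] [Fact p.Prime] [CharP k p] [Algebra (ZMod p) k] in
/-- elements of `I` acting trivially have trivial matrix. -/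
theorem rb_eq_one {σ : Γ} (h : ρbar.ρ σ = 1) :
    rbarOf ρbar b σ = 1 ∧ rbarOf ρbar b σ⁻¹ = 1 := by
  have h1 := (rbarOf_eq_one_iff ρbar b σ).2 h
  refine ⟨h1, ?_⟩
  have h2 := rbarOf_inv_mul ρbar b σ
  rwa [h1, mul_one] at h2

include D hup hNI hN1 in
/-- **if a flat lift exists, `ρ̄` is peu ramifié**: `x` has level `≥ (p-1) m`. -/
theorem isLev_x_of_flat (hA : (primeLocalPlace pp).LiesOverPrime p)
    (hN : ∀ σ ∈ (primeLocalPlace pp).inertiaSubgroupIn ℚ, ρbar.ρ σ = 1 → σ ∈ N)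
    {T : Finset Nat.Primes} (c : ↥(LevelCoh28.Z1 (LevelBridge13.globalBasis T) (ad0 ρbar)))
    (hflat : (liftOf ρbar c).IsFlatAt p) :
    IsLev (primeLocalPlace pp) N p ζ π₀ ((p - 1) * m) (xN ρbar b N) := by
  have hND : ∀ τ : ↥N, (τ : GQ) ∈ (primeLocalPlace pp).decompositionSubgroup ℚ :=
    fun τ => iner_le_decomp _ (hNI τ.2)
  obtain ⟨L, hLfin, hL⟩ := exists_level_cEnd ρbar c
  refine isLev_of_flat p ρbar c hflat hA D.S hNI hN _ (fun σ τ => ?_) (fun σ h1 _ => ?_) L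
    (fun σ hσ => ?_)
  · exact unip_mul01 hup (hND τ) (hN1 σ σ.2).1 (hN1 τ τ.2).2
  · show rbarOf ρbar b (σ : GQ) 0 1 = 0
    rw [(rb_eq_one ρbar b h1).1, Matrix.one_apply_ne (by decide : (0 : Fin 2) ≠ 1)]
  · show rbarOf ρbar b (σ : GQ) 0 1 = 0
    rw [(rb_eq_one ρbar b (hL σ hσ).1).1, Matrix.one_apply_ne (by decide : (0 : Fin 2) ≠ 1)]

include D hup hNI hN1 in
/-- **membership**: the class of a global cocycle with flat lift and Borel form. -/
theorem mem_LpR_of_flat (hA : (primeLocalPlace pp).LiesOverPrime p)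
    (hN : ∀ σ ∈ (primeLocalPlace pp).inertiaSubgroupIn ℚ, ρbar.ρ σ = 1 → σ ∈ N)
    {T : Finset Nat.Primes} (c : ↥(LevelCoh28.Z1 (LevelBridge13.globalBasis T) (ad0 ρbar)))
    (hflat : (liftOf ρbar c).IsFlatAt p) (Y : M2 k) (hY : Y.trace = 0)
    (hB : ∀ σ : Γ,
      (σ ∈ (primeLocalPlace pp).decompositionSubgroup ℚ →
        (cMat ρbar b c σ + Y - rbarOf ρbar b σ * Y * rbarOf ρbar b σ⁻¹) 1 0 = 0) ∧
      (σ ∈ (primeLocalPlace pp).inertiaSubgroupIn ℚ →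
        (cMat ρbar b c σ + Y - rbarOf ρbar b σ * Y * rbarOf ρbar b σ⁻¹) 1 0 = 0 ∧
        (cMat ρbar b c σ + Y - rbarOf ρbar b σ * Y * rbarOf ρbar b σ⁻¹) 0 0 = 0 ∧
        (cMat ρbar b c σ + Y - rbarOf ρbar b σ * Y * rbarOf ρbar b σ⁻¹) 1 1 = 0)) :
    resD T (ad0 ρbar) pp (LevelCoh28.H1mk (LevelBridge13.globalBasis T) (ad0 ρbar) c) ∈
      (ZR ρbar pp b D.S).map (mkD pp (ad0 ρbar)) := by
  have hND : ∀ τ : ↥N, (τ : GQ) ∈ (primeLocalPlace pp).decompositionSubgroup ℚ :=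
    fun τ => iner_le_decomp _ (hNI τ.2)
  set z : Z1D pp (ad0 ρbar) := locZ ρbar pp T c - cobZ ρbar pp (slOfMat ρbar b Y hY) with hz
  have hzmat : ∀ σ ∈ (primeLocalPlace pp).decompositionSubgroup ℚ,
      dMat ρbar pp b z σ = cMat ρbar b c σ + Y - rbarOf ρbar b σ * Y * rbarOf ρbar b σ⁻¹ := by
    intro σ hσ
    rw [hz, dMat_sub, dMat_locZ ρbar pp b T c hσ, dMat_cobZ ρbar pp b Y hY hσ]
    abel
  have hmk : mkD pp (ad0 ρbar) z =
      resD T (ad0 ρbar) pp (LevelCoh28.H1mk (LevelBridge13.globalBasis T) (ad0 ρbar) c) := by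
    rw [hz, mkD_sub_cobZ, resD_mk]
  rw [← hmk]
  refine Submodule.mem_map_of_mem ⟨fun σ hσ => ?_, fun σ hσ => ?_, ?_⟩
  · rw [hzmat σ hσ]
    exact (hB σ).1 hσ
  · rw [hzmat σ (iner_le_decomp _ hσ)]
    exact ((hB σ).2 hσ).2.1
  · -- the level condition
    have h10 : ∀ τ : ↥N, dMat ρbar pp b z (τ : GQ) 1 0 = 0 := fun τ => by
      rw [hzmat _ (hND τ)]; exact ((hB _).2 (hNI τ.2)).1
    have h00 : ∀ τ : ↥N, dMat ρbar pp b z (τ : GQ) 0 0 = 0 := fun τ => by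
      rw [hzmat _ (hND τ)]; exact ((hB _).2 (hNI τ.2)).2.1
    have h11 : ∀ τ : ↥N, dMat ρbar pp b z (τ : GQ) 1 1 = 0 := fun τ => by
      rw [hzmat _ (hND τ)]; exact ((hB _).2 (hNI τ.2)).2.2
    have hzero : ∀ σ : ↥N, ρbar.ρ (σ : GQ) = 1 → cEnd ρbar c (σ : GQ) = 0 →
        dMat ρbar pp b z (σ : GQ) = 0 := by
      intro σ h1 h2
      rw [hzmat _ (hND σ), cMat, h2, map_zero, (rb_eq_one ρbar b h1).1, (rb_eq_one ρbar b h1).2,
        one_mul, mul_one, zero_add, sub_self]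
    obtain ⟨L, hLfin, hL⟩ := exists_level_cEnd ρbar c
    refine isLev_of_flat p ρbar c hflat hA D.S hNI hN _ (fun σ τ => ?_) (fun σ h1 h2 => ?_) L
      (fun σ hσ => ?_)
    · exact coc01_add hup (hz_dMat ρbar pp b z) (hND σ) (hND τ) (hN1 σ σ.2).1 (hN1 σ σ.2).2
        (h10 τ) (h00 τ) (h11 τ)
    · show dMat ρbar pp b z (σ : GQ) 0 1 = 0
      rw [hzero σ h1 h2]
      rfl
    · show dMat ρbar pp b z (σ : GQ) 0 1 = 0
      rw [hzero σ (hL σ hσ).1 (hL σ hσ).2]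
      rfl

end Package

end Fermat.Agent.W56.FlatR3
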