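/-
Programme W56 (target S56), chapter (F) FLAT, DELEGATION D of helper3 (lead): the instantiation of
`LevelCount3.CountData` and `AllowedT3.TData` from helper8's `TameData8.exists_tame_data` and a
Frobenius element.
-/
import Mathlib
import Fermat.Agent.W56.AllowedT3
import Fermat.Agent.W56.TameData8
import Fermat.Agent.W56.Dict9
import Fermat.Agent.ES.J.CycloChar8

set_option autoImplicit false
set_option linter.unusedSectionVars false

namespace Fermat.Agent.W56.TameInst0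

open Fermat.Agent.W56.KummerGen3 Fermat.Agent.W56.UnitLevel3 Fermat.Agent.W56.KLevel3
  Fermat.Agent.W56.LevelCount3 Fermat.Agent.W56.LevelCountB3 ExtCitation

/-- `σ ζ = ζ ^ (cycloExp σ mod p)` in the `ZMod p`-valued form used by `CountData`. -/
theorem apply_zeta_eq {p : ℕ} [Fact p.Prime] {ζ : Qb} (hζ : IsPrimitiveRoot ζ p) (σ : GQ) :
    σ ζ = ζ ^ (((cycloExp p σ : ℕ) : ZMod p)).val := by
  have hζp : ζ ^ p = 1 := hζ.pow_eq_one
  rw [ZMod.val_natCast, pow_mod_eq hζp]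
  exact Fermat.Agent.W56.Dict9.apply_eq_pow_cycloExp' p σ ζ (by rw [pow_one]; exact hζp)

theorem exists_countData {p : ℕ} [Fact p.Prime] (hp2 : p ≠ 2) {A : ValuationSubring Qb}
    (hA : A.LiesOverPrime p) {φ : GQ} (hφ : A.IsFrobeniusAt φ p)
    {H : Type*} [Group H] [Finite H] (f : ↥(A.inertiaSubgroupIn ℚ) →* H)
    (hcop : ¬ p ∣ Nat.card ↥f.range)
    (L : IntermediateField ℚ Qb) [FiniteDimensional ℚ L]
    (hfL : ∀ σ : ↥(A.inertiaSubgroupIn ℚ), (∀ x ∈ L, (σ : GQ) x = x) → f σ = 1)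
    {ζ : Qb} (hζ : IsPrimitiveRoot ζ p)
    (hζf : ∀ σ : ↥(A.inertiaSubgroupIn ℚ), f σ = 1 → (σ : GQ) ζ = ζ)
    (hφf : ∀ σ : ↥(A.inertiaSubgroupIn ℚ), f σ = 1 →
      ∀ h : φ⁻¹ * (σ : GQ) * φ ∈ A.inertiaSubgroupIn ℚ, f ⟨φ⁻¹ * σ * φ, h⟩ = 1) :
    ∃ (π₀ : Qb) (m : ℕ)
      (D : LevelCount3.CountData A (TameData8.kerG f) p ζ π₀ m
        (fun s => ((cycloExp p (s : GQ) : ℕ) : ZMod p)) φ ((cycloExp p φ : ℕ) : ZMod p) p),
      AllowedT3.TData D ∧ ((cycloExp p φ : ℕ) : ZMod p) ≠ 0 := by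
  have hp : p.Prime := Fact.out
  obtain ⟨π₀, m, hπ0, hm, hπ1, hπfix, hζv, hpv, hval, hT1, hT4⟩ :=
    TameData8.exists_tame_data hp hp2 hA f hcop L hfL hζ hζf
  -- membership in `N = kerG f`
  have hmemN : ∀ σ ∈ TameData8.kerG f, ∃ h : σ ∈ A.inertiaSubgroupIn ℚ, f ⟨σ, h⟩ = 1 :=
    fun σ hσ => TameData8.mem_kerG.1 hσ
  have hζN : ∀ σ ∈ TameData8.kerG f, σ ζ = ζ := by
    intro σ hσ
    obtain ⟨h, hf⟩ := hmemN σ hσ
    exact hζf ⟨σ, h⟩ hf
  have hπN : ∀ σ ∈ TameData8.kerG f, σ π₀ = π₀ := by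
    intro σ hσ
    obtain ⟨h, hf⟩ := hmemN σ hσ
    exact hπfix ⟨σ, h⟩ hf
  have hvalN : ∀ x : Qb, (∀ σ ∈ TameData8.kerG f, σ x = x) → x ≠ 0 →
      ∃ n : ℤ, A.valuation x = A.valuation π₀ ^ n := by
    intro x hx hx0
    exact hval x hx0 fun σ hσ => hx _ ((TameData8.coe_mem_kerG σ).2 hσ)
  have S : Setting A.valuation ↥(TameData8.kerG f) p ζ π₀ m :=
    KLevel3.setting hp hp2 hA (TameData8.kerG_le f) hζ hζN hπN hπ1 hπ0 hm hζv hpv hvalN
  have hφD : φ ∈ A.decompositionSubgroup ℚ := hφ.mem_decompositionSubgroup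
  have hφinvD : φ⁻¹ ∈ A.decompositionSubgroup ℚ := Subgroup.inv_mem _ hφD
  have D : LevelCount3.CountData A (TameData8.kerG f) p ζ π₀ m
      (fun s => ((cycloExp p (s : GQ) : ℕ) : ZMod p)) φ ((cycloExp p φ : ℕ) : ZMod p) p :=
    { S := S
      hnorm := by
        intro s hs τ hτ
        obtain ⟨hτI, hfτ⟩ := hmemN τ hτ
        have hmem : s⁻¹ * τ * s ∈ A.inertiaSubgroupIn ℚ :=
          Subgroup.mul_mem _ (Subgroup.mul_mem _ (Subgroup.inv_mem _ hs) hτI) hs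
        refine TameData8.mem_kerG.2 ⟨hmem, ?_⟩
        have h1 : (⟨s⁻¹ * τ * s, hmem⟩ : ↥(A.inertiaSubgroupIn ℚ)) =
            (⟨s, hs⟩ : ↥(A.inertiaSubgroupIn ℚ))⁻¹ * ⟨τ, hτI⟩ * ⟨s, hs⟩ := rfl
        rw [h1, map_mul, map_mul, hfτ, map_inv, mul_one, inv_mul_cancel]
      hχ := fun s => apply_zeta_eq hζ (s : GQ)
      hφN := by
        intro τ hτ
        obtain ⟨hτI, hfτ⟩ := hmemN τ hτ
        have hmem : φ⁻¹ * τ * φ ∈ A.inertiaSubgroupIn ℚ := by
          have := Fermat.Agent.ES.FROB.FrobFacts12.conj_mem_inertiaSubgroupIn (A := A)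
            hφinvD hτI
          rwa [inv_inv] at this
        exact TameData8.mem_kerG.2 ⟨hmem, hφf ⟨τ, hτI⟩ hfτ hmem⟩
      hφζ := apply_zeta_eq hζ φ
      hφv := fun x => Fermat.Agent.U44.LocInst1.valuation_apply_eq hφD x
      hφres := by
        intro x hx
        have hxA : x ∈ A := (ValuationSubring.valuation_le_one_iff A x).1 hx
        exact (ValuationSubring.mem_nonunits_iff A).1
          (Fermat.Agent.ES.J.CycloChar8.frob_apply_sub_pow_mem_nonunits hφ hxA) }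
  refine ⟨π₀, m, D, ⟨?_, ?_⟩, ?_⟩
  · -- (T1)
    intro s hs
    rw [th, res_eq_one_iff (val_tq D s.2).le] at hs
    exact (TameData8.coe_mem_kerG s).2 (hT1 s hs)
  · -- (T4)
    intro d hd
    refine hT4 d fun s => ?_
    have h1 := hd s
    rw [← res_tq_pow D s.2 d] at h1
    have hv : A.valuation (((s : GQ) π₀ / π₀) ^ d) ≤ 1 := by
      rw [map_pow, val_tq D s.2, one_pow]
    exact (res_eq_one_iff hv).1 h1
  · -- `cφ ≠ 0`
    intro h0
    have h1 := apply_zeta_eq hζ φ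
    rw [h0, ZMod.val_zero, pow_zero] at h1
    have h2 : ζ = 1 := by
      have : φ ζ = φ 1 := by rw [h1, map_one]
      exact φ.injective this
    exact hζ.ne_one hp.one_lt h2

end Fermat.Agent.W56.TameInst0
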