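/-
Programme W56 (target S56), chapter (F) FLAT, the counts (helper3): **complements for the assembly**.

* `upper_of_span_eq_line`, `exists_borel_mat_of_basis` : helper6's Borel form (`FlatBorel6.exists_borel_sl`)
  in a GIVEN basis `b` with `span {b 0} = (I - 1) V̄`;
* `hdiag_of_triv` : helper6's hypothesis "inertia acts trivially on `ℓ₀` or on `V̄ / ℓ₀`" for
  `ℓ₀ = span {b 0}`, from the matrices;
* `exists_diag_chars` : the diagonal characters of an upper triangular basis;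
* `zeta_fixed_of_det`, `det_rbarOf` : the determinant is the cyclotomic character;
* `index_ne_zero_of_range` : the index of the kernel of `f` is invertible in `k`.
-/
import Mathlib
import Fermat.Agent.W56.FlatR3
import Fermat.Agent.W56.FlatBorelMat6
import Fermat.Agent.W56.TameData8
import Fermat.Agent.W56.TameDich8
import Fermat.Agent.W56.TameInst0
import Fermat.Agent.W56.Ad0Facts9

set_option autoImplicit false

open CategoryTheory ExtCitation

namespace Fermat.Agent.W56.FlatA3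

open Fermat.Agent.PT.PRO Fermat.Agent.PT.BR Fermat.Agent.W56.Defs9
  Fermat.Agent.W56.Lift9 Fermat.Agent.W56.FlatLp3 Fermat.Agent.W56.KummerGen3
  Fermat.Agent.W56.FlatCore3 Fermat.Agent.W56.FlatT3 Fermat.Agent.W56.ConnDual6
  Fermat.Agent.W56.FlatBorelMat6 Fermat.Agent.W56.BorelRam9 Fermat.Agent.W56.UpperCoc3

open Fermat.Agent.S53 hiding GQ

local notation "Γ" => (AlgebraicClosure ℚ ≃ₐ[ℚ] AlgebraicClosure ℚ)

section Borel

variable {k : Type} [Field k] (ρbar : ResidualGaloisRep k) {T : Finset Nat.Primes}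
  (c : ↥(LevelCoh28.Z1 (LevelBridge13.globalBasis T) (ad0 ρbar)))
  {A : ValuationSubring Qb} (b : Module.Basis (Fin 2) k ρbar.V)
  (hb : Submodule.span k {b 0} = line ρbar.ρ (A.inertiaSubgroupIn ℚ))

include hb in
/-- a basis adapted to `(I - 1) V̄` is upper triangular on the decomposition group, with trivial
second diagonal character on inertia. -/
theorem upper_of_span_eq_line :
    (∀ σ ∈ A.decompositionSubgroup ℚ, rbarOf ρbar b σ 1 0 = 0) ∧
      (∀ σ ∈ A.inertiaSubgroupIn ℚ, rbarOf ρbar b σ 1 1 = 1) := by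
  have hb0 : b 0 ∈ line ρbar.ρ (A.inertiaSubgroupIn ℚ) := by
    rw [← hb]; exact Submodule.mem_span_singleton_self _
  refine ⟨fun σ hσ => ?_, fun σ hσ => ?_⟩
  · rw [matrixOfBasisRes_apply]
    apply toMatrix_one_zero_of_mem
    rw [hb]
    exact apply_mem_line ρbar.ρ (fun τ hτ σ hσ => FlatBorel6.conj_mem_iner hτ hσ) hσ hb0
  · rw [matrixOfBasisRes_apply]
    apply toMatrix_one_one_of_sub_mem
    rw [hb]
    exact sub_mem_line ρbar.ρ (A.inertiaSubgroupIn ℚ) hσ _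

include hb in
/-- **the Borel form of a flat lift in a given basis adapted to `(I - 1) V̄`.** -/
theorem exists_borel_mat_of_basis [Finite k] (p : ℕ) [hp : Fact p.Prime] [CharP k p] (hp2 : p ≠ 2)
    (hflat : (liftOf ρbar c).IsFlatAt p) (hA : A.LiesOverPrime p) :
    ∃ Y : M2 k, Y.trace = 0 ∧
      ∀ σ : Γ,
        (σ ∈ A.decompositionSubgroup ℚ →
          (cMat ρbar b c σ + Y - rbarOf ρbar b σ * Y * rbarOf ρbar b σ⁻¹) 1 0 = 0) ∧
        (σ ∈ A.inertiaSubgroupIn ℚ →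
          (cMat ρbar b c σ + Y - rbarOf ρbar b σ * Y * rbarOf ρbar b σ⁻¹) 1 0 = 0 ∧
          (cMat ρbar b c σ + Y - rbarOf ρbar b σ * Y * rbarOf ρbar b σ⁻¹) 0 0 = 0 ∧
          (cMat ρbar b c σ + Y - rbarOf ρbar b σ * Y * rbarOf ρbar b σ⁻¹) 1 1 = 0) := by
  have hline : Module.finrank k ↥(line ρbar.ρ (A.inertiaSubgroupIn ℚ)) = 1 := by
    rw [← hb]
    exact finrank_span_singleton (b.ne_zero 0)
  obtain ⟨X, hX1, hX2, hX3⟩ := FlatBorel6.exists_borel_sl ρbar c p hp2 hflat hA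
  have hX3' := hX3 hline
  have hb0 : b 0 ∈ line ρbar.ρ (A.inertiaSubgroupIn ℚ) := by
    rw [← hb]; exact Submodule.mem_span_singleton_self _
  have hmat : ∀ σ : Γ, LinearMap.toMatrix b b
      (cEnd ρbar c σ + ρbar.ρ σ * (X : Module.End k ρbar.V) * ρbar.ρ σ⁻¹ -
        (X : Module.End k ρbar.V)) =
      cMat ρbar b c σ + (-(LinearMap.toMatrix b b (X : Module.End k ρbar.V))) -
        rbarOf ρbar b σ * (-(LinearMap.toMatrix b b (X : Module.End k ρbar.V))) *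
          rbarOf ρbar b σ⁻¹ := by
    intro σ
    rw [map_sub, map_add, LinearMap.toMatrix_mul, LinearMap.toMatrix_mul, matrixOfBasisRes_apply,
      matrixOfBasisRes_apply, cMat, mul_neg, neg_mul]
    abel
  refine ⟨-(LinearMap.toMatrix b b (X : Module.End k ρbar.V)), ?_, ?_⟩
  · rw [Matrix.trace_neg, ← LinearMap.trace_eq_matrix_trace k b, (mem_sl_iff ρbar _).1 X.2,
      neg_zero]
  · intro σ
    rw [← hmat σ]
    refine ⟨fun hσ => ?_, fun hσ => ⟨?_, ?_, ?_⟩⟩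
    · apply toMatrix_one_zero_of_mem
      rw [hb]
      exact hX2 σ hσ _ hb0
    · exact toMatrix_col_zero_of_eq_zero b _ (hX3' σ hσ _ hb0) 1
    · exact toMatrix_col_zero_of_eq_zero b _ (hX3' σ hσ _ hb0) 0
    · apply toMatrix_one_one_of_mem
      rw [hb]
      exact hX1 σ hσ _

omit hb in
/-- helper6's hypothesis on `ℓ₀ = span {b 0}` from the matrices. -/
theorem hdiag_of_triv (I : Subgroup Γ) (h10 : ∀ σ ∈ I, rbarOf ρbar b σ 1 0 = 0)
    (h : (∀ σ ∈ I, rbarOf ρbar b σ 0 0 = 1) ∨ (∀ σ ∈ I, rbarOf ρbar b σ 1 1 = 1)) :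
    Module.finrank k ↥(Submodule.span k {b 0}) = 1 ∧
    ((∀ σ ∈ I, ∀ v ∈ Submodule.span k {b 0}, ρbar.ρ σ v = v) ∨
      (∀ σ ∈ I, ∀ v : ρbar.V, ρbar.ρ σ v - v ∈ Submodule.span k {b 0})) := by
  refine ⟨finrank_span_singleton (b.ne_zero 0), ?_⟩
  have hcol : ∀ (σ : Γ) (j : Fin 2), ρbar.ρ σ (b j) =
      rbarOf ρbar b σ 0 j • b 0 + rbarOf ρbar b σ 1 j • b 1 := by
    intro σ j
    conv_lhs => rw [← b.sum_repr (ρbar.ρ σ (b j))]
    rw [Fin.sum_univ_two, matrixOfBasisRes_apply, LinearMap.toMatrix_apply,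
      LinearMap.toMatrix_apply]
  rcases h with h | h
  · left
    intro σ hσ v hv
    obtain ⟨t, rfl⟩ := Submodule.mem_span_singleton.1 hv
    rw [map_smul, hcol σ 0, h σ hσ, h10 σ hσ, one_smul, zero_smul, add_zero]
  · right
    intro σ hσ v
    rw [Submodule.mem_span_singleton]
    have hv := b.sum_repr v
    rw [Fin.sum_univ_two] at hv
    refine ⟨b.repr v 0 * (rbarOf ρbar b σ 0 0 - 1) + b.repr v 1 * rbarOf ρbar b σ 0 1, ?_⟩
    conv_rhs => rw [← hv]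
    rw [map_add, map_smul, map_smul, hcol σ 0, hcol σ 1, h σ hσ, h10 σ hσ, zero_smul, add_zero,
      one_smul]
    module

end Borel

/-! ### the determinant -/

section Det

variable {k : Type} [Field k] (ρbar : ResidualGaloisRep k) (p : ℕ) [Fact p.Prime] [CharP k p]

/-- the determinant of the matrix of `ρ̄ σ` is the cyclotomic exponent. -/
theorem det_rbarOf (hdet : (GaloisRepAdic.ofResidualGaloisRep ρbar).DetIsCyclotomic p)
    (b : Module.Basis (Fin 2) k ρbar.V) (σ : Γ) :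
    (rbarOf ρbar b σ).det = ((cycloExp p σ : ℕ) : k) := by
  rw [matrixOfBasisRes_apply, LinearMap.det_toMatrix, Ad0Facts9.det_eq_cycloK ρbar p hdet σ,
    Ad0Facts9.coe_cycloK]

omit [CharP k p] in
/-- an element whose cyclotomic exponent is `1` in `k` fixes the `p`-th roots of unity. -/
theorem zeta_fixed [CharP k p] {ζ : Qb} (hζ : IsPrimitiveRoot ζ p) (σ : Γ)
    (h : ((cycloExp p σ : ℕ) : k) = 1) : σ ζ = ζ := by
  have hζp : ζ ^ p = 1 := hζ.pow_eq_one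
  rw [Dict9.apply_eq_pow_cycloExp' p σ ζ (by rw [pow_one]; exact hζp)]
  have h1 : ((cycloExp p σ : ℕ) : k) = ((1 : ℕ) : k) := by rw [h, Nat.cast_one]
  have h2 : cycloExp p σ ≡ 1 [MOD p] := (CharP.natCast_eq_natCast k p).1 h1
  conv_rhs => rw [← pow_one ζ]
  rw [← KLevel3.pow_mod_eq hζp (cycloExp p σ), ← KLevel3.pow_mod_eq hζp 1]
  exact congrArg (fun n => ζ ^ n) h2

end Det

/-! ### the tame data of a homomorphism of order prime to `p` killing `ker ρ̄` -/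

section Tame

open Fermat.Agent.W56.LevelCount3 Fermat.Agent.W56.AllowedT3

variable {k : Type} [Field k] [Finite k] (ρbar : ResidualGaloisRep k) (p : ℕ) [Fact p.Prime]
  [CharP k p]

omit [Finite k] [Fact p.Prime] in
/-- the index of the kernel is invertible in `k`. -/
theorem index_ne_zero {A : ValuationSubring Qb} {H : Type*} [Group H]
    (f : ↥(A.inertiaSubgroupIn ℚ) →* H) (hcop : ¬ p ∣ Nat.card ↥f.range) :
    ((((TameData8.kerG f).subgroupOf (A.inertiaSubgroupIn ℚ)).index : ℕ) : k) ≠ 0 := by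
  rw [TameData8.subgroupOf_kerG, Subgroup.index_ker, Ne, CharP.cast_eq_zero_iff k p]
  exact hcop

/-- **the tame data of `f`.** -/
theorem exists_tame_of_hom (hp2 : p ≠ 2)
    (hdet : (GaloisRepAdic.ofResidualGaloisRep ρbar).DetIsCyclotomic p)
    {A : ValuationSubring Qb} (hA : A.LiesOverPrime p) {φ : GQ} (hφ : A.IsFrobeniusAt φ p)
    {ζ : Qb} (hζ : IsPrimitiveRoot ζ p)
    {H : Type*} [Group H] [Finite H] (f : ↥(A.inertiaSubgroupIn ℚ) →* H)
    (hcop : ¬ p ∣ Nat.card ↥f.range)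
    (hfρ : ∀ σ : ↥(A.inertiaSubgroupIn ℚ), ρbar.ρ (σ : GQ) = 1 → f σ = 1)
    (hfdet : ∀ σ : ↥(A.inertiaSubgroupIn ℚ), f σ = 1 → LinearMap.det (ρbar.ρ (σ : GQ)) = 1)
    (hφf : ∀ σ : ↥(A.inertiaSubgroupIn ℚ), f σ = 1 →
      ∀ h : φ⁻¹ * (σ : GQ) * φ ∈ A.inertiaSubgroupIn ℚ, f ⟨φ⁻¹ * σ * φ, h⟩ = 1) :
    ∃ (N : Subgroup GQ) (π₀ : Qb) (m : ℕ)
      (D : CountData A N p ζ π₀ m (fun s => ((cycloExp p (s : GQ) : ℕ) : ZMod p)) φ
        ((cycloExp p φ : ℕ) : ZMod p) p),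
      TData D ∧ ((cycloExp p φ : ℕ) : ZMod p) ≠ 0 ∧ N ≤ A.inertiaSubgroupIn ℚ ∧
      (∀ s : ↥(A.inertiaSubgroupIn ℚ), (s : GQ) ∈ N ↔ f s = 1) ∧
      (((N.subgroupOf (A.inertiaSubgroupIn ℚ)).index : ℕ) : k) ≠ 0 := by
  obtain ⟨L, hL, hρ⟩ := ρbar.factorsThroughFiniteLevel
  have := hL
  have hζf : ∀ σ : ↥(A.inertiaSubgroupIn ℚ), f σ = 1 → (σ : GQ) ζ = ζ := by
    intro σ hσ
    refine zeta_fixed (k := k) p hζ σ ?_
    rw [← Ad0Facts9.coe_cycloK, ← Ad0Facts9.det_eq_cycloK ρbar p hdet]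
    exact hfdet σ hσ
  obtain ⟨π₀, m, D, H, hcφ⟩ := TameInst0.exists_countData hp2 hA hφ f hcop L
    (fun σ hσ => hfρ σ (hρ (σ : GQ) hσ)) hζ hζf hφf
  exact ⟨TameData8.kerG f, π₀, m, D, H, hcφ, TameData8.kerG_le f,
    fun s => TameData8.coe_mem_kerG s, index_ne_zero p f hcop⟩

end Tame

/-! ### the two instances -/

section Instances

open Fermat.Agent.W56.LevelCount3 Fermat.Agent.W56.AllowedT3

variable {k : Type} [Field k] [Finite k] (ρbar : ResidualGaloisRep k) (p : ℕ) [Fact p.Prime]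
  [CharP k p]

omit [Finite k] in
theorem rho_conj_eq_one {σ φ : Γ} (h : ρbar.ρ σ = 1) : ρbar.ρ (φ⁻¹ * σ * φ) = 1 := by
  rw [map_mul, map_mul, h, mul_one, ← map_mul, inv_mul_cancel, map_one]

/-- **the tame data of `ρ̄|I`** when its image has order prime to `p`. -/
theorem exists_tame_tame (hp2 : p ≠ 2)
    (hdet : (GaloisRepAdic.ofResidualGaloisRep ρbar).DetIsCyclotomic p)
    {A : ValuationSubring Qb} (hA : A.LiesOverPrime p) {φ : GQ} (hφ : A.IsFrobeniusAt φ p)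
    {ζ : Qb} (hζ : IsPrimitiveRoot ζ p)
    (hT : ¬ p ∣ Nat.card ↥(TameDich8.rhoI ρbar A).range) :
    ∃ (N : Subgroup GQ) (π₀ : Qb) (m : ℕ)
      (D : CountData A N p ζ π₀ m (fun s => ((cycloExp p (s : GQ) : ℕ) : ZMod p)) φ
        ((cycloExp p φ : ℕ) : ZMod p) p),
      TData D ∧ ((cycloExp p φ : ℕ) : ZMod p) ≠ 0 ∧ N ≤ A.inertiaSubgroupIn ℚ ∧
      (∀ σ ∈ A.inertiaSubgroupIn ℚ, ρbar.ρ σ = 1 → σ ∈ N) ∧ (∀ σ ∈ N, ρbar.ρ σ = 1) ∧
      (((N.subgroupOf (A.inertiaSubgroupIn ℚ)).index : ℕ) : k) ≠ 0 := by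
  have hone : ∀ σ : ↥(A.inertiaSubgroupIn ℚ), TameDich8.rhoI ρbar A σ = 1 ↔ ρbar.ρ (σ : GQ) = 1 := by
    intro σ
    rw [Units.ext_iff, TameDich8.coe_rhoI, Units.val_one]
  obtain ⟨N, π₀, m, D, H, hcφ, hNI, hN, hidx⟩ := exists_tame_of_hom ρbar p hp2 hdet hA hφ hζ
    (TameDich8.rhoI ρbar A) hT (fun σ h => (hone σ).2 h)
    (fun σ h => by rw [(hone σ).1 h, map_one])
    (fun σ h hmem => (hone _).2 (rho_conj_eq_one ρbar ((hone σ).1 h)))
  refine ⟨N, π₀, m, D, H, hcφ, hNI, fun σ hσ h => ?_, fun σ hσ => ?_, hidx⟩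
  · exact (hN ⟨σ, hσ⟩).2 ((hone _).2 h)
  · exact (hone ⟨σ, hNI hσ⟩).1 ((hN ⟨σ, hNI hσ⟩).1 hσ)

omit [Fact p.Prime] in
/-- subgroups of `kˣ × kˣ` have order prime to `p`. -/
theorem not_dvd_card_range (hp : p.Prime) {G' : Type*} [Group G'] (f : G' →* kˣ × kˣ) :
    ¬ p ∣ Nat.card ↥f.range := by
  intro h
  have h1 : Nat.card ↥f.range ∣ Nat.card (kˣ × kˣ) := Subgroup.card_subgroup_dvd_card _
  rw [Nat.card_prod, Nat.card_units] at h1
  have h2 : p ∣ (Nat.card k - 1) * (Nat.card k - 1) := dvd_trans h h1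
  have h3 : p ∣ Nat.card k - 1 := by
    rcases (Nat.Prime.dvd_mul hp).1 h2 with h | h <;> exact h
  have h4 : p ∣ Nat.card k := by
    haveI := Fintype.ofFinite k
    rw [← CharP.cast_eq_zero_iff k p, Nat.card_eq_fintype_card]
    exact Nat.cast_card_eq_zero k
  have h5 : 0 < Nat.card k := Nat.card_pos
  have h6 : p ∣ 1 := by
    have := Nat.dvd_sub h4 h3
    rwa [Nat.sub_sub_self h5] at this
  exact hp.one_lt.ne' (Nat.dvd_one.1 h6)

/-- **the tame data of the diagonal characters** of an upper triangular basis. -/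
theorem exists_diag_tame (hp2 : p ≠ 2)
    (hdet : (GaloisRepAdic.ofResidualGaloisRep ρbar).DetIsCyclotomic p)
    {A : ValuationSubring Qb} (hA : A.LiesOverPrime p) {φ : GQ} (hφ : A.IsFrobeniusAt φ p)
    {ζ : Qb} (hζ : IsPrimitiveRoot ζ p) (b : Module.Basis (Fin 2) k ρbar.V)
    (hup : ∀ σ ∈ A.decompositionSubgroup ℚ, rbarOf ρbar b σ 1 0 = 0) :
    ∃ (ψ₁ ψ₂ : ↥(A.inertiaSubgroupIn ℚ) →* kˣ) (N : Subgroup GQ) (π₀ : Qb) (m : ℕ)
      (D : CountData A N p ζ π₀ m (fun s => ((cycloExp p (s : GQ) : ℕ) : ZMod p)) φ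
        ((cycloExp p φ : ℕ) : ZMod p) p),
      TData D ∧ ((cycloExp p φ : ℕ) : ZMod p) ≠ 0 ∧
      (∀ s : ↥(A.inertiaSubgroupIn ℚ), rbarOf ρbar b (s : GQ) 0 0 = ((ψ₁ s : kˣ) : k) ∧
        rbarOf ρbar b (s : GQ) 1 1 = ((ψ₂ s : kˣ) : k)) ∧
      N ≤ A.inertiaSubgroupIn ℚ ∧
      (∀ s : ↥(A.inertiaSubgroupIn ℚ), (s : GQ) ∈ N ↔ ψ₁ s = 1 ∧ ψ₂ s = 1) ∧
      (((N.subgroupOf (A.inertiaSubgroupIn ℚ)).index : ℕ) : k) ≠ 0 := by
  have hID : ∀ s : ↥(A.inertiaSubgroupIn ℚ), (s : GQ) ∈ A.decompositionSubgroup ℚ :=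
    fun s => iner_le_decomp _ s.2
  have hφD : φ ∈ A.decompositionSubgroup ℚ := hφ.mem_decompositionSubgroup
  let d₁ : ↥(A.inertiaSubgroupIn ℚ) →* k :=
    { toFun := fun s => rbarOf ρbar b (s : GQ) 0 0
      map_one' := by rw [Subgroup.coe_one, map_one, Matrix.one_apply_eq]
      map_mul' := fun s t => by rw [Subgroup.coe_mul]; exact psi1_mul' hup (hID t) }
  let d₂ : ↥(A.inertiaSubgroupIn ℚ) →* k :=
    { toFun := fun s => rbarOf ρbar b (s : GQ) 1 1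
      map_one' := by rw [Subgroup.coe_one, map_one, Matrix.one_apply_eq]
      map_mul' := fun s t => by rw [Subgroup.coe_mul]; exact psi2_mul' hup (hID s) }
  have hψ : ∀ s : ↥(A.inertiaSubgroupIn ℚ),
      rbarOf ρbar b (s : GQ) 0 0 = ((d₁.toHomUnits s : kˣ) : k) ∧
        rbarOf ρbar b (s : GQ) 1 1 = ((d₂.toHomUnits s : kˣ) : k) := fun s => ⟨rfl, rfl⟩
  have hone : ∀ s : ↥(A.inertiaSubgroupIn ℚ), (d₁.toHomUnits.prod d₂.toHomUnits) s = 1 ↔
      rbarOf ρbar b (s : GQ) 0 0 = 1 ∧ rbarOf ρbar b (s : GQ) 1 1 = 1 := by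
    intro s
    rw [MonoidHom.prod_apply, Prod.mk_eq_one, Units.ext_iff, Units.ext_iff, Units.val_one,
      ← (hψ s).1, ← (hψ s).2]
  obtain ⟨N, π₀, m, D, H, hcφ, hNI, hN, hidx⟩ := exists_tame_of_hom ρbar p hp2 hdet hA hφ hζ
    (d₁.toHomUnits.prod d₂.toHomUnits) (not_dvd_card_range p Fact.out _)
    (fun σ h => by
      rw [hone, (rbarOf_eq_one_iff ρbar b _).2 h]
      exact ⟨Matrix.one_apply_eq _, Matrix.one_apply_eq _⟩)
    (fun σ h => by
      obtain ⟨h1, h2⟩ := (hone σ).1 h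
      rw [← LinearMap.det_toMatrix b, ← matrixOfBasisRes_apply, Matrix.det_fin_two, h1, h2,
        hup _ (hID σ), mul_zero, mul_one, sub_zero])
    (fun σ h hmem => by
      obtain ⟨h1, h2⟩ := (hone σ).1 h
      rw [hone]
      refine ⟨?_, ?_⟩
      · show rbarOf ρbar b (φ⁻¹ * (σ : GQ) * φ) 0 0 = 1
        rw [psi1_mul' hup hφD, psi1_mul' hup (hID σ), h1, mul_one]
        have := psi1_inv hup (Subgroup.inv_mem _ hφD)
        rwa [inv_inv] at this
      · show rbarOf ρbar b (φ⁻¹ * (σ : GQ) * φ) 1 1 = 1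
        rw [psi2_mul' hup (Subgroup.mul_mem _ (Subgroup.inv_mem _ hφD) (hID σ)),
          psi2_mul' hup (Subgroup.inv_mem _ hφD), h2, mul_one]
        have := psi2_inv hup (Subgroup.inv_mem _ hφD)
        rwa [inv_inv] at this)
  refine ⟨d₁.toHomUnits, d₂.toHomUnits, N, π₀, m, D, H, hcφ, hψ, hNI, fun s => ?_, hidx⟩
  rw [hN, MonoidHom.prod_apply, Prod.mk_eq_one]

end Instances

end Fermat.Agent.W56.FlatA3
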