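/-
Programme W56 (target S56), chapter (F) FLAT (helper3): **the flat local condition (K-F)**.

`exists_LpFlat` : for a residual representation `ρ̄` over a finite field `k` of odd characteristic `p`
with cyclotomic determinant all of whose characteristic polynomials split, there is a subspace
`Lp ≤ H¹(Γ_p, ad⁰ρ̄)` with `#Lp ≤ #k · #H⁰(Γ_p, ad⁰ρ̄)` containing the local class of every cocycle
whose lift to `k[ε]` is flat at `p` — the contract `AssemblyFlat9.LpFlatBound`.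

The proof assembles: helper8's dichotomy `TameDich8.tame_or_wild`, the tame data `TameInst0` (lead,
on helper8's `TameData8`), the level bound `FlatCore3.isLev_of_flat` (on helper7's `FlatKL7`), the
three tame counts of `FlatT3`, the reducible package `FlatR3`, and the Borel forms `BorelRam9`
(helper9) and `FlatBorel6` (helper6).
-/
import Mathlib
import Fermat.Agent.W56.FlatA3

set_option autoImplicit false

open CategoryTheory ExtCitation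

namespace Fermat.Agent.W56.FlatKF3

open Fermat.Agent.PT.PRO Fermat.Agent.PT.BR Fermat.Agent.W56.Defs9
  Fermat.Agent.W56.Lift9 Fermat.Agent.W56.FlatLp3 Fermat.Agent.W56.KummerGen3
  Fermat.Agent.W56.UnitLevel3 Fermat.Agent.W56.KLevel3 Fermat.Agent.W56.LevelCount3
  Fermat.Agent.W56.LevSub3 Fermat.Agent.W56.FlatCore3 Fermat.Agent.W56.FlatT3
  Fermat.Agent.W56.LevelCountB3 Fermat.Agent.W56.AllowedT3 Fermat.Agent.W56.CountR3
  Fermat.Agent.W56.CountS3 Fermat.Agent.W56.BorelRam9 Fermat.Agent.W56.UpperCoc3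
  Fermat.Agent.W56.FlatR3 Fermat.Agent.W56.FlatA3

open Fermat.Agent.S53 hiding GQ

local notation "Γ" => (AlgebraicClosure ℚ ≃ₐ[ℚ] AlgebraicClosure ℚ)

/-- the conclusion of (K-F) at the place `pp`. -/
def Concl {k : Type} [Field k] (ρbar : ResidualGaloisRep k) (pp : Nat.Primes) (p : ℕ) : Prop :=
  ∃ Lp : Submodule k (H1D (ad0 ρbar) pp),
    Nat.card ↥Lp ≤ Nat.card k * GWContracts4.d0 (ad0 ρbar) pp ∧
    ∀ (T : Finset Nat.Primes) (c : ↥(LevelCoh28.Z1 (LevelBridge13.globalBasis T) (ad0 ρbar))),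
      (liftOf ρbar c).IsFlatAt p →
        resD T (ad0 ρbar) pp (LevelCoh28.H1mk (LevelBridge13.globalBasis T) (ad0 ρbar) c) ∈ Lp

/-- the Borel form of a cocycle in the basis `b`. -/
def BorelForm {k : Type} [Field k] (ρbar : ResidualGaloisRep k) (pp : Nat.Primes)
    (b : Module.Basis (Fin 2) k ρbar.V) {T : Finset Nat.Primes}
    (c : ↥(LevelCoh28.Z1 (LevelBridge13.globalBasis T) (ad0 ρbar))) : Prop :=
  ∃ Y : M2 k, Y.trace = 0 ∧ ∀ σ : Γ,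
    (σ ∈ (primeLocalPlace pp).decompositionSubgroup ℚ →
      (cMat ρbar b c σ + Y - rbarOf ρbar b σ * Y * rbarOf ρbar b σ⁻¹) 1 0 = 0) ∧
    (σ ∈ (primeLocalPlace pp).inertiaSubgroupIn ℚ →
      (cMat ρbar b c σ + Y - rbarOf ρbar b σ * Y * rbarOf ρbar b σ⁻¹) 1 0 = 0 ∧
      (cMat ρbar b c σ + Y - rbarOf ρbar b σ * Y * rbarOf ρbar b σ⁻¹) 0 0 = 0 ∧
      (cMat ρbar b c σ + Y - rbarOf ρbar b σ * Y * rbarOf ρbar b σ⁻¹) 1 1 = 0)

section Packages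

variable {k : Type} [Field k] [Finite k] {p : ℕ} [Fact p.Prime] [CharP k p] [Algebra (ZMod p) k]
  (ρbar : ResidualGaloisRep k) (pp : Nat.Primes) (b : Module.Basis (Fin 2) k ρbar.V)
  {N : Subgroup GQ} {ζ π₀ : Qb} {m : ℕ}
  {χ : ↥((primeLocalPlace pp).inertiaSubgroupIn ℚ) → ZMod p} {φ : GQ} {cφ : ZMod p}
  (D : CountData (primeLocalPlace pp) N p ζ π₀ m χ φ cφ p)
  {ψ₁ ψ₂ : ↥((primeLocalPlace pp).inertiaSubgroupIn ℚ) →* kˣ}

omit [Finite k] [Fact p.Prime] [CharP k p] [Algebra (ZMod p) k] in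
/-- consequences of the description of `N` by the diagonal characters. -/
theorem diag_facts
    (hψ : ∀ s : ↥((primeLocalPlace pp).inertiaSubgroupIn ℚ),
      rbarOf ρbar b (s : GQ) 0 0 = ((ψ₁ s : kˣ) : k) ∧ rbarOf ρbar b (s : GQ) 1 1 = ((ψ₂ s : kˣ) : k))
    (hNI : N ≤ (primeLocalPlace pp).inertiaSubgroupIn ℚ)
    (hNψ : ∀ s : ↥((primeLocalPlace pp).inertiaSubgroupIn ℚ), (s : GQ) ∈ N ↔ ψ₁ s = 1 ∧ ψ₂ s = 1) :
    (∀ σ ∈ N, rbarOf ρbar b σ 0 0 = 1 ∧ rbarOf ρbar b σ 1 1 = 1) ∧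
    (∀ σ ∈ (primeLocalPlace pp).inertiaSubgroupIn ℚ, ρbar.ρ σ = 1 → σ ∈ N) ∧
    (∀ σ ∈ (primeLocalPlace pp).inertiaSubgroupIn ℚ,
      σ ∈ N ↔ rbarOf ρbar b σ 0 0 = 1 ∧ rbarOf ρbar b σ 1 1 = 1) := by
  have key : ∀ σ (hσ : σ ∈ (primeLocalPlace pp).inertiaSubgroupIn ℚ),
      σ ∈ N ↔ rbarOf ρbar b σ 0 0 = 1 ∧ rbarOf ρbar b σ 1 1 = 1 := by
    intro σ hσ
    have h := hNψ ⟨σ, hσ⟩
    rw [Units.ext_iff, Units.ext_iff, Units.val_one, ← (hψ ⟨σ, hσ⟩).1, ← (hψ ⟨σ, hσ⟩).2] at h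
    exact h
  refine ⟨fun σ hσ => (key σ (hNI hσ)).1 hσ, fun σ hσ h => ?_, key⟩
  rw [key σ hσ, (rb_eq_one ρbar b h).1]
  exact ⟨Matrix.one_apply_eq _, Matrix.one_apply_eq _⟩

/-- **the reducible package**: count and membership from the Borel forms. -/
theorem concl_of_borel (hA : (primeLocalPlace pp).LiesOverPrime p) (H : TData D) (hp2 : p ≠ 2)
    (hcφ : cφ ≠ 0)
    (hup : ∀ σ ∈ (primeLocalPlace pp).decompositionSubgroup ℚ, rbarOf ρbar b σ 1 0 = 0)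
    (hψ : ∀ s : ↥((primeLocalPlace pp).inertiaSubgroupIn ℚ),
      rbarOf ρbar b (s : GQ) 0 0 = ((ψ₁ s : kˣ) : k) ∧ rbarOf ρbar b (s : GQ) 1 1 = ((ψ₂ s : kˣ) : k))
    (hNI : N ≤ (primeLocalPlace pp).inertiaSubgroupIn ℚ)
    (hNψ : ∀ s : ↥((primeLocalPlace pp).inertiaSubgroupIn ℚ), (s : GQ) ∈ N ↔ ψ₁ s = 1 ∧ ψ₂ s = 1)
    (hidx : ((N.subgroupOf ((primeLocalPlace pp).inertiaSubgroupIn ℚ)).index : k) ≠ 0)
    {T₀ : Finset Nat.Primes} (c₀ : ↥(LevelCoh28.Z1 (LevelBridge13.globalBasis T₀) (ad0 ρbar)))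
    (hflat₀ : (liftOf ρbar c₀).IsFlatAt p)
    (hB : ∀ (T : Finset Nat.Primes)
      (c : ↥(LevelCoh28.Z1 (LevelBridge13.globalBasis T) (ad0 ρbar))),
      (liftOf ρbar c).IsFlatAt p → BorelForm ρbar pp b c) :
    Concl ρbar pp p := by
  obtain ⟨hN1, hNρ, -⟩ := diag_facts ρbar pp b hψ hNI hNψ
  refine ⟨(ZR ρbar pp b D.S).map (mkD pp (ad0 ρbar)),
    card_LpR_le ρbar pp b D hup hNI hN1 hψ hA H hp2 hidx
      (isLev_x_of_flat ρbar pp b D hup hNI hN1 hA hNρ c₀ hflat₀) hcφ, fun T c hflat => ?_⟩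
  obtain ⟨Y, hY, hYB⟩ := hB T c hflat
  exact mem_LpR_of_flat ρbar pp b D hup hNI hN1 hA hNρ c hflat Y hY hYB

end Packages

section Diag

variable {k : Type} [Field k] [Finite k] {p : ℕ} [Fact p.Prime] [CharP k p] [Algebra (ZMod p) k]
  (ρbar : ResidualGaloisRep k) (pp : Nat.Primes)

/-- **the ordinary package**: inertia acts trivially on a line or on the quotient by it. -/
theorem concl_of_diag (hp2 : p ≠ 2)
    (hdet : (GaloisRepAdic.ofResidualGaloisRep ρbar).DetIsCyclotomic p)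
    (hA : (primeLocalPlace pp).LiesOverPrime p) {φ : GQ}
    (hφ : (primeLocalPlace pp).IsFrobeniusAt φ p) {ζ : Qb} (hζ : IsPrimitiveRoot ζ p)
    (hram : ∃ σ ∈ (primeLocalPlace pp).inertiaSubgroupIn ℚ, ρbar.ρ σ ≠ 1)
    (ℓ₀ : Submodule k ρbar.V) (hℓ₀ : Module.finrank k ↥ℓ₀ = 1)
    (hdiag : (∀ σ ∈ (primeLocalPlace pp).inertiaSubgroupIn ℚ, ∀ v ∈ ℓ₀, ρbar.ρ σ v = v) ∨
      (∀ σ ∈ (primeLocalPlace pp).inertiaSubgroupIn ℚ, ∀ v : ρbar.V, ρbar.ρ σ v - v ∈ ℓ₀))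
    {T₀ : Finset Nat.Primes} (c₀ : ↥(LevelCoh28.Z1 (LevelBridge13.globalBasis T₀) (ad0 ρbar)))
    (hflat₀ : (liftOf ρbar c₀).IsFlatAt p) : Concl ρbar pp p := by
  obtain ⟨b, -, -, hup, -, -, hb⟩ :=
    FlatBorelMat6.exists_borel_mat ρbar c₀ p hp2 hflat₀ hA hram ℓ₀ hℓ₀ hdiag
  obtain ⟨ψ₁, ψ₂, N, π₀, m, D, H, hcφ, hψ, hNI, hNψ, hidx⟩ :=
    exists_diag_tame ρbar p hp2 hdet hA hφ hζ b hup
  exact concl_of_borel ρbar pp b D hA H hp2 hcφ hup hψ hNI hNψ hidx c₀ hflat₀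
    (fun T c hflat => exists_borel_mat_of_basis ρbar c b hb p hp2 hflat hA)

variable (b : Module.Basis (Fin 2) k ρbar.V)
  {N : Subgroup GQ} {ζ π₀ : Qb} {m : ℕ}
  {χ : ↥((primeLocalPlace pp).inertiaSubgroupIn ℚ) → ZMod p} {φ : GQ} {cφ : ZMod p}
  (D : CountData (primeLocalPlace pp) N p ζ π₀ m χ φ cφ p)
  {ψ₁ ψ₂ : ↥((primeLocalPlace pp).inertiaSubgroupIn ℚ) →* kˣ}

/-- **levels allowed for `ψ₁/ψ₂` and for `ψ₂/ψ₁`**: one of the characters is trivial, and the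
ordinary package applies. -/
theorem concl_of_pair (hp2 : p ≠ 2)
    (hdet : (GaloisRepAdic.ofResidualGaloisRep ρbar).DetIsCyclotomic p)
    (hA : (primeLocalPlace pp).LiesOverPrime p)
    (hφ : (primeLocalPlace pp).IsFrobeniusAt φ p) (hζ : IsPrimitiveRoot ζ p) (H : TData D)
    (hψ : ∀ s : ↥((primeLocalPlace pp).inertiaSubgroupIn ℚ),
      rbarOf ρbar b (s : GQ) 0 0 = ((ψ₁ s : kˣ) : k) ∧ rbarOf ρbar b (s : GQ) 1 1 = ((ψ₂ s : kˣ) : k))
    (h10 : ∀ σ ∈ (primeLocalPlace pp).inertiaSubgroupIn ℚ, rbarOf ρbar b σ 1 0 = 0)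
    (hNψ : ∀ s : ↥((primeLocalPlace pp).inertiaSubgroupIn ℚ), (s : GQ) ∈ N ↔ ψ₁ s = 1 ∧ ψ₂ s = 1)
    (hdetψ : ∀ s : ↥((primeLocalPlace pp).inertiaSubgroupIn ℚ),
      ((ψ₁ s : kˣ) : k) * ((ψ₂ s : kˣ) : k) = algebraMap (ZMod p) k (χ s))
    (hψφ : ∀ s : ↥((primeLocalPlace pp).inertiaSubgroupIn ℚ),
      (ψ₁ / ψ₂) ⟨φ * s * φ⁻¹, phi_conj_mem D s.2⟩ = (ψ₁ / ψ₂) s)
    (hram : ∃ σ ∈ (primeLocalPlace pp).inertiaSubgroupIn ℚ, ρbar.ρ σ ≠ 1)
    {i i' : ℕ} (hi1 : (p - 1) * m ≤ i) (hi2 : i < p * m) (hi1' : (p - 1) * m ≤ i')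
    (hi2' : i' < p * m) (hall : Allowed (primeLocalPlace pp) π₀ χ (ψ₁ / ψ₂) i)
    (hall' : Allowed (primeLocalPlace pp) π₀ χ (ψ₂ / ψ₁) i')
    {T₀ : Finset Nat.Primes} (c₀ : ↥(LevelCoh28.Z1 (LevelBridge13.globalBasis T₀) (ad0 ρbar)))
    (hflat₀ : (liftOf ρbar c₀).IsFlatAt p) : Concl ρbar pp p := by
  have hψN : ∀ s : ↥((primeLocalPlace pp).inertiaSubgroupIn ℚ), (s : GQ) ∈ N →
      (ψ₁ / ψ₂) s = 1 := by
    intro s hs
    obtain ⟨e1, e2⟩ := (hNψ s).1 hs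
    rw [MonoidHom.div_apply, e1, e2, div_one]
  have hcv := cval_pow_p (k := k) H hψN hψφ
  have hpair := allowed_pair hA H (ψ := ψ₁ / ψ₂) (ψ' := ψ₂ / ψ₁)
    (fun s => by rw [MonoidHom.div_apply, MonoidHom.div_apply, inv_div]) hcv hi1 hi2 hi1' hi2'
    hall hall'
  have h1 : ∀ s, ψ₁ s ^ 2 = 1 := by
    intro s
    have h := (hpair s).2
    simp only [cval, MonoidHom.div_apply, inv_div, Units.val_div_eq_div_val] at h
    rw [← hdetψ s] at h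
    apply Units.ext
    rw [Units.val_pow_eq_pow_val, Units.val_one]
    have hne : ((ψ₂ s : kˣ) : k) ≠ 0 := Units.ne_zero _
    field_simp at h
    linear_combination h
  have h2 : ∀ s, ψ₂ s ^ 2 = 1 := by
    intro s
    have h := (hpair s).1
    simp only [cval, MonoidHom.div_apply, inv_div, Units.val_div_eq_div_val] at h
    rw [← hdetψ s] at h
    apply Units.ext
    rw [Units.val_pow_eq_pow_val, Units.val_one]
    have hne : ((ψ₁ s : kˣ) : k) ≠ 0 := Units.ne_zero _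
    field_simp at h
    linear_combination h
  have htriv := triv_of_pair H hNψ hdetψ h1 h2
  have htriv' : (∀ σ ∈ (primeLocalPlace pp).inertiaSubgroupIn ℚ, rbarOf ρbar b σ 0 0 = 1) ∨
      (∀ σ ∈ (primeLocalPlace pp).inertiaSubgroupIn ℚ, rbarOf ρbar b σ 1 1 = 1) := by
    rcases htriv with h | h
    · left
      intro σ hσ
      rw [(hψ ⟨σ, hσ⟩).1, h, Units.val_one]
    · right
      intro σ hσ
      rw [(hψ ⟨σ, hσ⟩).2, h, Units.val_one]
  obtain ⟨hℓ₀, hdiag⟩ := hdiag_of_triv ρbar b _ h10 htriv'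
  exact concl_of_diag ρbar pp hp2 hdet hA hφ hζ hram _ hℓ₀ hdiag c₀ hflat₀

end Diag

section Wild

variable {k : Type} [Field k] [Finite k] {p : ℕ} [Fact p.Prime] [CharP k p] [Algebra (ZMod p) k]
  (ρbar : ResidualGaloisRep k) (pp : Nat.Primes) (b : Module.Basis (Fin 2) k ρbar.V)
  {N : Subgroup GQ} {ζ π₀ : Qb} {m : ℕ}
  {χ : ↥((primeLocalPlace pp).inertiaSubgroupIn ℚ) → ZMod p} {φ : GQ} {cφ : ZMod p}
  (D : CountData (primeLocalPlace pp) N p ζ π₀ m χ φ cφ p)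
  {ψ₁ ψ₂ : ↥((primeLocalPlace pp).inertiaSubgroupIn ℚ) →* kˣ}
  (hup : ∀ σ ∈ (primeLocalPlace pp).decompositionSubgroup ℚ, rbarOf ρbar b σ 1 0 = 0)
  (hψ : ∀ s : ↥((primeLocalPlace pp).inertiaSubgroupIn ℚ),
    rbarOf ρbar b (s : GQ) 0 0 = ((ψ₁ s : kˣ) : k) ∧ rbarOf ρbar b (s : GQ) 1 1 = ((ψ₂ s : kˣ) : k))

include hup hψ in
omit [Finite k] [Fact p.Prime] [CharP k p] [Algebra (ZMod p) k] in
/-- the diagonal characters are invariant under conjugation by the decomposition group. -/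
theorem psi_conj_upper {d : GQ} (hd : d ∈ (primeLocalPlace pp).decompositionSubgroup ℚ)
    (s : ↥((primeLocalPlace pp).inertiaSubgroupIn ℚ))
    (h : d * s * d⁻¹ ∈ (primeLocalPlace pp).inertiaSubgroupIn ℚ) :
    ψ₁ ⟨d * s * d⁻¹, h⟩ = ψ₁ s ∧ ψ₂ ⟨d * s * d⁻¹, h⟩ = ψ₂ s := by
  have hsD := iner_le_decomp _ s.2
  refine ⟨?_, ?_⟩
  · apply Units.ext
    rw [← (hψ _).1, ← (hψ s).1]
    show rbarOf ρbar b (d * s * d⁻¹) 0 0 = _
    rw [psi1_mul' hup (Subgroup.inv_mem _ hd), psi1_mul' hup hsD]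
    have := psi1_inv hup hd
    linear_combination rbarOf ρbar b (s : GQ) 0 0 * this
  · apply Units.ext
    rw [← (hψ _).2, ← (hψ s).2]
    show rbarOf ρbar b (d * s * d⁻¹) 1 1 = _
    rw [psi2_mul' hup (Subgroup.mul_mem _ hd hsD), psi2_mul' hup hd]
    have := psi2_inv hup hd
    linear_combination rbarOf ρbar b (s : GQ) 1 1 * this

include hup hψ in
/-- **the Borel form from the vanishing** (helper9's `BorelRam9`), when `ψ₂/ψ₁` has no allowed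
level. -/
theorem borelForm_of_noallowed (hA : (primeLocalPlace pp).LiesOverPrime p) (H : TData D)
    (hNI : N ≤ (primeLocalPlace pp).inertiaSubgroupIn ℚ)
    (hNψ : ∀ s : ↥((primeLocalPlace pp).inertiaSubgroupIn ℚ), (s : GQ) ∈ N ↔ ψ₁ s = 1 ∧ ψ₂ s = 1)
    (hidx : ((N.subgroupOf ((primeLocalPlace pp).inertiaSubgroupIn ℚ)).index : k) ≠ 0)
    (hno : ∀ i, (p - 1) * m ≤ i → i < p * m → ¬ p ∣ i →
      ¬ Allowed (primeLocalPlace pp) π₀ χ (ψ₂ / ψ₁) i)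
    (hne : ∃ s ∈ (primeLocalPlace pp).inertiaSubgroupIn ℚ,
      rbarOf ρbar b s 0 0 ≠ rbarOf ρbar b s 1 1)
    {T : Finset Nat.Primes} (c : ↥(LevelCoh28.Z1 (LevelBridge13.globalBasis T) (ad0 ρbar)))
    (hflat : (liftOf ρbar c).IsFlatAt p) : BorelForm ρbar pp b c := by
  obtain ⟨hN1, hNρ, hNdef⟩ := diag_facts ρbar pp b hψ hNI hNψ
  obtain ⟨L, hLfin, hL⟩ := exists_level_cEnd ρbar c
  have htr : ∀ σ : Γ, (cMat ρbar b c σ).trace = 0 := by
    intro σ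
    rw [cMat, ← LinearMap.trace_eq_matrix_trace k b]
    exact (mem_sl_iff ρbar _).1 (cEnd_mem_sl ρbar c σ)
  have hgood : ∀ (Y : M2 k) (i j : Fin 2),
      (∀ σ τ : ↥N, cTw (rbarOf ρbar b) (cMat ρbar b c) Y ((σ * τ : ↥N) : Γ) i j =
        cTw (rbarOf ρbar b) (cMat ρbar b c) Y σ i j + cTw (rbarOf ρbar b) (cMat ρbar b c) Y τ i j) →
      IsLev (primeLocalPlace pp) N p ζ π₀ ((p - 1) * m)
        (fun τ : ↥N => cTw (rbarOf ρbar b) (cMat ρbar b c) Y (τ : Γ) i j) := by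
    intro Y i j hadd
    have hzero : ∀ σ : ↥N, ρbar.ρ (σ : GQ) = 1 → cEnd ρbar c (σ : GQ) = 0 →
        cTw (rbarOf ρbar b) (cMat ρbar b c) Y (σ : Γ) = 0 := by
      intro σ h1 h2
      rw [cTw, cMat, h2, map_zero, (rb_eq_one ρbar b h1).1, (rb_eq_one ρbar b h1).2, one_mul,
        mul_one, zero_add, sub_self]
    refine isLev_of_flat p ρbar c hflat hA D.S hNI hNρ _ hadd (fun σ h1 h2 => ?_) L
      (fun σ hσ => ?_)
    · show cTw (rbarOf ρbar b) (cMat ρbar b c) Y (σ : Γ) i j = 0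
      rw [hzero σ h1 h2]
      rfl
    · show cTw (rbarOf ρbar b) (cMat ρbar b c) Y (σ : Γ) i j = 0
      rw [hzero σ (hL σ hσ).1 (hL σ hσ).2]
      rfl
  have h10 : ∀ f : ↥N → k, IsLev (primeLocalPlace pp) N p ζ π₀ ((p - 1) * m) f →
      (∀ σ τ, f (σ * τ) = f σ + f τ) →
      (∀ (s : Γ) (hs : s ∈ (primeLocalPlace pp).inertiaSubgroupIn ℚ) (τ : ↥N),
        f ⟨s⁻¹ * τ * s, D.hnorm s hs τ τ.2⟩ =
          rbarOf ρbar b s 0 0 / rbarOf ρbar b s 1 1 * f τ) → f = 0 := by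
    intro f hf _ hI
    funext τ
    refine eq_zero_of_equivI D (ψ₂ / ψ₁) f (fun s τ => ?_) hf hno τ
    rw [hI s s.2 τ, (hψ s).1, (hψ s).2, MonoidHom.div_apply, inv_div, Units.val_div_eq_div_val]
  have h00 : ∀ f : ↥N → k, IsLev (primeLocalPlace pp) N p ζ π₀ ((p - 1) * m) f →
      (∀ σ τ, f (σ * τ) = f σ + f τ) →
      (∀ (s : Γ) (hs : s ∈ (primeLocalPlace pp).inertiaSubgroupIn ℚ) (τ : ↥N),
        f ⟨s⁻¹ * τ * s, D.hnorm s hs τ τ.2⟩ = f τ) → f = 0 := by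
    intro f hf _ hI
    funext τ
    refine eq_zero_of_equivI D 1 f (fun s τ => ?_) hf
      (fun i h1 h2 _ => not_allowed_one H h1 h2) τ
    rw [hI s s.2 τ, MonoidHom.one_apply, inv_one, Units.val_one, one_mul]
  obtain ⟨Y, hY, hYB⟩ := exists_borel_of_vanishing
    ((primeLocalPlace pp).decompositionSubgroup ℚ) ((primeLocalPlace pp).inertiaSubgroupIn ℚ) N
    (iner_le_decomp _) hNI
    (fun d hd s hs => by
      have := FlatBorel6.conj_mem_iner (Subgroup.inv_mem _ hd) hs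
      rwa [inv_inv] at this)
    D.hnorm hidx (rbarOf ρbar b) hup hNdef hne (cMat ρbar b c)
    (fun σ _ τ _ => cMat_mul ρbar b c σ τ) htr
    (IsLev (primeLocalPlace pp) N p ζ π₀ ((p - 1) * m)) hgood h10 h00
  exact ⟨Y, hY, hYB⟩

end Wild

section WildCase

variable {k : Type} [Field k] [Finite k] {p : ℕ} [Fact p.Prime] [CharP k p] [Algebra (ZMod p) k]
  (ρbar : ResidualGaloisRep k) (pp : Nat.Primes)

/-- **the wild case.** -/
theorem concl_wild (hp2 : p ≠ 2)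
    (hdet : (GaloisRepAdic.ofResidualGaloisRep ρbar).DetIsCyclotomic p)
    (hA : (primeLocalPlace pp).LiesOverPrime p) {φ : GQ}
    (hφ : (primeLocalPlace pp).IsFrobeniusAt φ p) {ζ : Qb} (hζ : IsPrimitiveRoot ζ p)
    (b : Module.Basis (Fin 2) k ρbar.V)
    (hup : ∀ σ ∈ (primeLocalPlace pp).decompositionSubgroup ℚ, rbarOf ρbar b σ 1 0 = 0)
    {τ : GQ} (hτI : τ ∈ (primeLocalPlace pp).inertiaSubgroupIn ℚ)
    (h00 : rbarOf ρbar b τ 0 0 = 1) (h11 : rbarOf ρbar b τ 1 1 = 1)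
    (h01 : rbarOf ρbar b τ 0 1 ≠ 0)
    {T₀ : Finset Nat.Primes} (c₀ : ↥(LevelCoh28.Z1 (LevelBridge13.globalBasis T₀) (ad0 ρbar)))
    (hflat₀ : (liftOf ρbar c₀).IsFlatAt p) : Concl ρbar pp p := by
  obtain ⟨ψ₁, ψ₂, N, π₀, m, D, H, hcφ, hψ, hNI, hNψ, hidx⟩ :=
    exists_diag_tame ρbar p hp2 hdet hA hφ hζ b hup
  obtain ⟨hN1, hNρ, hNdef⟩ := diag_facts ρbar pp b hψ hNI hNψ
  have hτN : τ ∈ N := (hNdef τ hτI).2 ⟨h00, h11⟩
  have hx := isLev_x_of_flat ρbar pp b D hup hNI hN1 hA hNρ c₀ hflat₀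
  have hxHL := isHL_x ρbar pp b D hup hNI hN1 hψ hx
  -- an allowed level for `ψ₁/ψ₂`
  have hex : ∃ i, (p - 1) * m ≤ i ∧ i < p * m ∧ ¬ p ∣ i ∧
      Allowed (primeLocalPlace pp) π₀
        (fun s : ↥((primeLocalPlace pp).inertiaSubgroupIn ℚ) =>
          ((cycloExp p (s : GQ) : ℕ) : ZMod p)) (ψ₁ / ψ₂) i := by
    by_contra hcon
    push Not at hcon
    exact h01 (IsHL.eq_zero D (one_le_e0 pp D.S) hcon hxHL ⟨τ, hτN⟩)
  obtain ⟨i, hi1, hi2, hi3, hall⟩ := hex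
  have hram : ∃ σ ∈ (primeLocalPlace pp).inertiaSubgroupIn ℚ, ρbar.ρ σ ≠ 1 :=
    ⟨τ, hτI, fun h => h01 (by
      rw [(rb_eq_one ρbar b h).1]
      exact Matrix.one_apply_ne (by decide))⟩
  by_cases hno : ∀ i, (p - 1) * m ≤ i → i < p * m → ¬ p ∣ i →
      ¬ Allowed (primeLocalPlace pp) π₀
        (fun s : ↥((primeLocalPlace pp).inertiaSubgroupIn ℚ) =>
          ((cycloExp p (s : GQ) : ℕ) : ZMod p)) (ψ₂ / ψ₁) i
  · have hne : ∃ s ∈ (primeLocalPlace pp).inertiaSubgroupIn ℚ,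
        rbarOf ρbar b s 0 0 ≠ rbarOf ρbar b s 1 1 := by
      by_contra hcon
      push Not at hcon
      have h1 : ψ₁ / ψ₂ = 1 := by
        refine MonoidHom.ext fun s => ?_
        rw [MonoidHom.div_apply, MonoidHom.one_apply, div_eq_one]
        apply Units.ext
        rw [← (hψ s).1, ← (hψ s).2]
        exact hcon s s.2
      rw [h1] at hall
      exact not_allowed_one H hi1 hi2 hall
    exact concl_of_borel ρbar pp b D hA H hp2 hcφ hup hψ hNI hNψ hidx c₀ hflat₀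
      (fun T c hflat => borelForm_of_noallowed ρbar pp b D hup hψ hA H hNI hNψ hidx hno hne c
        hflat)
  · push Not at hno
    obtain ⟨i', hi1', hi2', -, hall'⟩ := hno
    have hφD : φ ∈ (primeLocalPlace pp).decompositionSubgroup ℚ := hφ.mem_decompositionSubgroup
    refine concl_of_pair ρbar pp b D hp2 hdet hA hφ hζ H hψ
      (fun σ hσ => hup σ (iner_le_decomp _ hσ)) hNψ (fun s => ?_) (fun s => ?_) hram hi1 hi2
      hi1' hi2' hall hall' c₀ hflat₀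
    · rw [map_natCast, ← det_rbarOf ρbar p hdet b (s : GQ), Matrix.det_fin_two,
        hup _ (iner_le_decomp _ s.2), mul_zero, sub_zero, (hψ s).1, (hψ s).2]
    · obtain ⟨e1, e2⟩ := psi_conj_upper ρbar pp b hup hψ hφD s (phi_conj_mem D s.2)
      rw [MonoidHom.div_apply, MonoidHom.div_apply, e1, e2]

end WildCase

section TameCase

variable {k : Type} [Field k]

theorem conj_antidiag_diag (a d u v : k) (hu : u ≠ 0) (hv : v ≠ 0) :
    !![0, u; v, 0] * Matrix.diagonal ![a, d] * !![0, v⁻¹; u⁻¹, 0] = Matrix.diagonal ![d, a] := by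
  ext i j
  rw [Matrix.mul_apply, Fin.sum_univ_two, Matrix.mul_diagonal, Matrix.mul_diagonal]
  fin_cases i <;> fin_cases j <;> simp [hu, hv] <;> field_simp

theorem conj_diag_diag (a d u v : k) (hu : u ≠ 0) (hv : v ≠ 0) :
    Matrix.diagonal ![u, v] * Matrix.diagonal ![a, d] * Matrix.diagonal ![u⁻¹, v⁻¹] =
      Matrix.diagonal ![a, d] := by
  rw [Matrix.diagonal_mul_diagonal, Matrix.diagonal_mul_diagonal]
  congr 1
  funext i
  fin_cases i <;> simp <;> field_simp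

variable [Finite k] {p : ℕ} [Fact p.Prime] [CharP k p] [Algebra (ZMod p) k]
  (ρbar : ResidualGaloisRep k) (pp : Nat.Primes) (b : Module.Basis (Fin 2) k ρbar.V)
  {N : Subgroup GQ} {ζ π₀ : Qb} {m : ℕ}
  {χ : ↥((primeLocalPlace pp).inertiaSubgroupIn ℚ) → ZMod p} {φ : GQ} {cφ : ZMod p}
  (D : CountData (primeLocalPlace pp) N p ζ π₀ m χ φ cφ p)
  {ω₁ ω₂ : ↥((primeLocalPlace pp).inertiaSubgroupIn ℚ) →* kˣ}
  (hdiag : ∀ s : ↥((primeLocalPlace pp).inertiaSubgroupIn ℚ),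
    rbarOf ρbar b (s : GQ) = Matrix.diagonal ![((ω₁ s : kˣ) : k), ((ω₂ s : kˣ) : k)])

include hdiag in
omit [Finite k] [Fact p.Prime] [CharP k p] [Algebra (ZMod p) k] in
theorem omega_facts (hNρ' : ∀ σ ∈ (primeLocalPlace pp).inertiaSubgroupIn ℚ, ρbar.ρ σ = 1 → σ ∈ N)
    (hNρ : ∀ σ ∈ N, ρbar.ρ σ = 1) :
    (∀ s : ↥((primeLocalPlace pp).inertiaSubgroupIn ℚ),
      rbarOf ρbar b (s : GQ) 0 0 = ((ω₁ s : kˣ) : k) ∧
        rbarOf ρbar b (s : GQ) 1 1 = ((ω₂ s : kˣ) : k)) ∧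
    (∀ σ ∈ (primeLocalPlace pp).inertiaSubgroupIn ℚ, rbarOf ρbar b σ 1 0 = 0) ∧
    (∀ s : ↥((primeLocalPlace pp).inertiaSubgroupIn ℚ), (s : GQ) ∈ N ↔ ω₁ s = 1 ∧ ω₂ s = 1) := by
  have h1 : ∀ s : ↥((primeLocalPlace pp).inertiaSubgroupIn ℚ),
      rbarOf ρbar b (s : GQ) 0 0 = ((ω₁ s : kˣ) : k) ∧
        rbarOf ρbar b (s : GQ) 1 1 = ((ω₂ s : kˣ) : k) := by
    intro s
    rw [hdiag s, Matrix.diagonal_apply_eq, Matrix.diagonal_apply_eq]
    exact ⟨rfl, rfl⟩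
  refine ⟨h1, fun σ hσ => ?_, fun s => ⟨fun hs => ?_, fun hs => ?_⟩⟩
  · rw [hdiag ⟨σ, hσ⟩]
    exact Matrix.diagonal_apply_ne _ (by decide)
  · have h := (rb_eq_one ρbar b (hNρ _ hs)).1
    refine ⟨Units.ext ?_, Units.ext ?_⟩
    · rw [← (h1 s).1, h, Units.val_one, Matrix.one_apply_eq]
    · rw [← (h1 s).2, h, Units.val_one, Matrix.one_apply_eq]
  · refine hNρ' _ s.2 ((rbarOf_eq_one_iff ρbar b _).1 ?_)
    rw [hdiag s, hs.1, hs.2, Units.val_one]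
    ext i j
    fin_cases i <;> fin_cases j <;> simp

omit [Finite k] [Fact p.Prime] [CharP k p] [Algebra (ZMod p) k] in
include hdiag in
theorem omega_conj_antidiag {u v : k} (hu : u ≠ 0) (hv : v ≠ 0)
    (hφ : rbarOf ρbar b φ = !![0, u; v, 0])
    (s : ↥((primeLocalPlace pp).inertiaSubgroupIn ℚ))
    (h : φ * s * φ⁻¹ ∈ (primeLocalPlace pp).inertiaSubgroupIn ℚ) :
    ω₁ ⟨φ * s * φ⁻¹, h⟩ = ω₂ s ∧ ω₂ ⟨φ * s * φ⁻¹, h⟩ = ω₁ s := by
  have e : rbarOf ρbar b (φ * s * φ⁻¹) =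
      Matrix.diagonal ![((ω₂ s : kˣ) : k), ((ω₁ s : kˣ) : k)] := by
    rw [map_mul, map_mul, hφ, rbarOf_inv_of_antidiag ρbar b hu hv hφ, hdiag s]
    exact conj_antidiag_diag _ _ u v hu hv
  have e' := (hdiag ⟨φ * s * φ⁻¹, h⟩).symm.trans e
  have e'' := Matrix.diagonal_injective e'
  exact ⟨Units.ext (congrFun e'' 0), Units.ext (congrFun e'' 1)⟩

omit [Finite k] [Fact p.Prime] [CharP k p] [Algebra (ZMod p) k] in
include hdiag in
theorem omega_conj_diag {u v : k} (hu : u ≠ 0) (hv : v ≠ 0)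
    (hφ : rbarOf ρbar b φ = !![u, 0; 0, v])
    (s : ↥((primeLocalPlace pp).inertiaSubgroupIn ℚ))
    (h : φ * s * φ⁻¹ ∈ (primeLocalPlace pp).inertiaSubgroupIn ℚ) :
    ω₁ ⟨φ * s * φ⁻¹, h⟩ = ω₁ s ∧ ω₂ ⟨φ * s * φ⁻¹, h⟩ = ω₂ s := by
  have hφ' : rbarOf ρbar b φ = Matrix.diagonal ![u, v] := by
    rw [hφ]
    ext i j
    fin_cases i <;> fin_cases j <;> simp
  have e : rbarOf ρbar b (φ * s * φ⁻¹) =
      Matrix.diagonal ![((ω₁ s : kˣ) : k), ((ω₂ s : kˣ) : k)] := by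
    rw [map_mul, map_mul, rbarOf_inv_of_diag ρbar b hu hv hφ', hφ', hdiag s]
    exact conj_diag_diag _ _ u v hu hv
  have e' := (hdiag ⟨φ * s * φ⁻¹, h⟩).symm.trans e
  have e'' := Matrix.diagonal_injective e'
  exact ⟨Units.ext (congrFun e'' 0), Units.ext (congrFun e'' 1)⟩

/-- **the tame package**: count and membership from a bound on the triples of entries. -/
theorem concl_of_triples (hA : (primeLocalPlace pp).LiesOverPrime p)
    (hNI : N ≤ (primeLocalPlace pp).inertiaSubgroupIn ℚ)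
    (hNρ' : ∀ σ ∈ (primeLocalPlace pp).inertiaSubgroupIn ℚ, ρbar.ρ σ = 1 → σ ∈ N)
    (hNρ : ∀ σ ∈ N, ρbar.ρ σ = 1)
    (hidx : ((N.subgroupOf ((primeLocalPlace pp).inertiaSubgroupIn ℚ)).index : k) ≠ 0)
    (P : ((↥N → k) × (↥N → k) × (↥N → k)) → Prop)
    (hP : Finite {t // P t} ∧ Nat.card {t // P t} ≤ Nat.card k)
    (hZP : ∀ z ∈ ZT ρbar pp b D.S,
      P (entL ρbar pp b N 0 0 z, entL ρbar pp b N 0 1 z, entL ρbar pp b N 1 0 z)) :
    Concl ρbar pp p := by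
  refine ⟨(ZT ρbar pp b D.S).map (mkD pp (ad0 ρbar)),
    card_mkD_le_of_triples ρbar pp b N p hidx _ P hP hZP, fun T c hflat => ?_⟩
  rw [resD_mk]
  exact Submodule.mem_map_of_mem (mem_ZT_of_flat ρbar pp b D.S hA hNI hNρ' hNρ c hflat)

end TameCase

section TameMain

variable {k : Type} [Field k] [Finite k] {p : ℕ} [Fact p.Prime] [CharP k p] [Algebra (ZMod p) k]
  (ρbar : ResidualGaloisRep k) (pp : Nat.Primes)

/-- **the tame case.** -/
theorem concl_tame (hp2 : p ≠ 2)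
    (hdet : (GaloisRepAdic.ofResidualGaloisRep ρbar).DetIsCyclotomic p)
    (hA : (primeLocalPlace pp).LiesOverPrime p) {φ : GQ}
    (hφ : (primeLocalPlace pp).IsFrobeniusAt φ p) {ζ : Qb} (hζ : IsPrimitiveRoot ζ p)
    (hT : ¬ p ∣ Nat.card ↥(TameDich8.rhoI ρbar (primeLocalPlace pp)).range)
    (b : Module.Basis (Fin 2) k ρbar.V)
    (ω₁ ω₂ : ↥((primeLocalPlace pp).inertiaSubgroupIn ℚ) →* kˣ)
    (hdiag : ∀ s : ↥((primeLocalPlace pp).inertiaSubgroupIn ℚ),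
      rbarOf ρbar b (s : GQ) = Matrix.diagonal ![((ω₁ s : kˣ) : k), ((ω₂ s : kˣ) : k)])
    (hφcase : (∃ s, ω₁ s ≠ ω₂ s) → ∃ u v : k, u ≠ 0 ∧ v ≠ 0 ∧
      (rbarOf ρbar b φ = !![0, u; v, 0] ∨ rbarOf ρbar b φ = !![u, 0; 0, v]))
    {T₀ : Finset Nat.Primes} (c₀ : ↥(LevelCoh28.Z1 (LevelBridge13.globalBasis T₀) (ad0 ρbar)))
    (hflat₀ : (liftOf ρbar c₀).IsFlatAt p) : Concl ρbar pp p := by
  obtain ⟨N, π₀, m, D, H, hcφ, hNI, hNρ', hNρ, hidx⟩ :=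
    exists_tame_tame ρbar p hp2 hdet hA hφ hζ hT
  obtain ⟨hψ, h10, hNω⟩ := omega_facts ρbar pp b hdiag hNρ' hNρ
  by_cases hscal : ∀ s, ω₁ s = ω₂ s
  · -- (T0) scalar on inertia
    refine concl_of_triples ρbar pp b D hA hNI hNρ' hNρ hidx
      (fun t => t = (fun _ => 0, fun _ => 0, fun _ => 0)) ?_ (fun z hz => ?_)
    · haveI : Subsingleton {t : (↥N → k) × (↥N → k) × (↥N → k) //
          t = (fun _ => 0, fun _ => 0, fun _ => 0)} :=
        ⟨fun a b => Subtype.ext (a.2.trans b.2.symm)⟩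
      exact ⟨inferInstance, le_trans (Finite.card_le_one_iff_subsingleton.2 inferInstance)
        (Nat.one_le_iff_ne_zero.2 Nat.card_pos.ne')⟩
    · have h0 := ent_eq_zero_of_scalar ρbar pp b D hNI hNρ hdiag H hscal hz
      exact Prod.ext (funext fun τ => h0 0 0 τ)
        (Prod.ext (funext fun τ => h0 0 1 τ) (funext fun τ => h0 1 0 τ))
  · push Not at hscal
    obtain ⟨u, v, hu, hv, hcase⟩ := hφcase hscal
    have hdetω : ∀ s : ↥((primeLocalPlace pp).inertiaSubgroupIn ℚ),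
        ((ω₁ s : kˣ) : k) * ((ω₂ s : kˣ) : k) =
          algebraMap (ZMod p) k ((cycloExp p (s : GQ) : ℕ) : ZMod p) := by
      intro s
      rw [map_natCast, ← det_rbarOf ρbar p hdet b (s : GQ), Matrix.det_fin_two,
        h10 _ s.2, mul_zero, sub_zero, (hψ s).1, (hψ s).2]
    rcases hcase with hanti | hd
    · -- (T1) Frobenius antidiagonal
      have HS : SData D ω₁ ω₂ :=
        { hT1 := H.hT1
          hT4 := H.hT4
          hN := hNω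
          hdet := hdetω
          hφ12 := fun s =>
            (omega_conj_antidiag ρbar pp b hdiag hu hv hanti s (phi_conj_mem D s.2)).1
          hφ21 := fun s =>
            (omega_conj_antidiag ρbar pp b hdiag hu hv hanti s (phi_conj_mem D s.2)).2
          hne := hscal }
      exact concl_of_triples ρbar pp b D hA hNI hNρ' hNρ hidx
        (IsFS D ω₁ ω₂ (u / v) (v / u))
        (card_FS_le hA HS (div_ne_zero hu hv) (div_ne_zero hv hu) hcφ)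
        (fun z hz => isFS_of_mem_ZT ρbar pp b D hNI hNρ hdiag hu hv hanti hz)
    · -- (T2) Frobenius diagonal
      have hωφ : ∀ s : ↥((primeLocalPlace pp).inertiaSubgroupIn ℚ),
          ω₁ ⟨φ * s * φ⁻¹, phi_conj_mem D s.2⟩ = ω₁ s ∧
            ω₂ ⟨φ * s * φ⁻¹, phi_conj_mem D s.2⟩ = ω₂ s :=
        fun s => omega_conj_diag ρbar pp b hdiag hu hv hd s (phi_conj_mem D s.2)
      by_cases hno : (∀ i, (p - 1) * m ≤ i → i < p * m → ¬ p ∣ i →
          ¬ Allowed (primeLocalPlace pp) π₀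
            (fun s : ↥((primeLocalPlace pp).inertiaSubgroupIn ℚ) =>
              ((cycloExp p (s : GQ) : ℕ) : ZMod p)) (ω₁ / ω₂) i) ∨
        (∀ i, (p - 1) * m ≤ i → i < p * m → ¬ p ∣ i →
          ¬ Allowed (primeLocalPlace pp) π₀
            (fun s : ↥((primeLocalPlace pp).inertiaSubgroupIn ℚ) =>
              ((cycloExp p (s : GQ) : ℕ) : ZMod p)) (ω₂ / ω₁) i)
      · exact concl_of_triples ρbar pp b D hA hNI hNρ' hNρ hidx (PT2 pp D ω₁ ω₂ u v)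
          (card_PT2_le pp D hA H (fun s hs => (hNω s).1 hs) hωφ hu hv hcφ hno)
          (fun z hz => isPT2_of_mem_ZT ρbar pp b D hNI hNρ hdiag hu hv hd hz)
      · rw [not_or] at hno
        obtain ⟨hno1, hno2⟩ := hno
        push Not at hno1 hno2
        obtain ⟨i, hi1, hi2, -, hall⟩ := hno1
        obtain ⟨i', hi1', hi2', -, hall'⟩ := hno2
        obtain ⟨s₀, hs₀⟩ := hscal
        refine concl_of_pair ρbar pp b D hp2 hdet hA hφ hζ H hψ h10 hNω hdetω (fun s => ?_)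
          ⟨s₀, s₀.2, fun h => hs₀ ?_⟩ hi1 hi2 hi1' hi2' hall hall' c₀ hflat₀
        · rw [MonoidHom.div_apply, MonoidHom.div_apply, (hωφ s).1, (hωφ s).2]
        · obtain ⟨e1, e2⟩ := (hNω s₀).1 (hNρ' _ s₀.2 h)
          rw [e1, e2]

end TameMain

/-! ### the theorem -/

section Main

open Polynomial

variable {k : Type} [Field k] [Finite k] (p : ℕ) [Fact p.Prime] [CharP k p]

/-- **(K-F): the flat local condition at `p`.** -/
theorem exists_LpFlat (hp2 : p ≠ 2) (ρbar : ResidualGaloisRep k)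
    (hdet : (GaloisRepAdic.ofResidualGaloisRep ρbar).DetIsCyclotomic p)
    (hsplit : ∀ σ : Γ, ∃ α β : k, LinearMap.charpoly (ρbar.ρ σ) = (X - C α) * (X - C β)) :
    ∃ Lp : Submodule k (H1D (ad0 ρbar) (pPrime p)),
      Nat.card ↥Lp ≤ Nat.card k * GWContracts4.d0 (ad0 ρbar) (pPrime p) ∧
      ∀ (T : Finset Nat.Primes)
        (c : ↥(LevelCoh28.Z1 (LevelBridge13.globalBasis T) (ad0 ρbar))),
        (liftOf ρbar c).IsFlatAt p →
          resD T (ad0 ρbar) (pPrime p)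
            (LevelCoh28.H1mk (LevelBridge13.globalBasis T) (ad0 ρbar) c) ∈ Lp := by
  letI : Algebra (ZMod p) k := ZMod.algebra k p
  show Concl ρbar (pPrime p) p
  by_cases hex : ∃ (T₀ : Finset Nat.Primes)
      (c₀ : ↥(LevelCoh28.Z1 (LevelBridge13.globalBasis T₀) (ad0 ρbar))),
      (liftOf ρbar c₀).IsFlatAt p
  · obtain ⟨T₀, c₀, hflat₀⟩ := hex
    have hp : p.Prime := Fact.out
    have hA : (primeLocalPlace (pPrime p)).LiesOverPrime p :=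
      UnipSel8.liesOverPrime_primeLocalPlace (pPrime p)
    obtain ⟨φ, hφ⟩ := FrobGen8.exists_isFrobeniusAt hp hA
    haveI : NeZero (p : Qb) := ⟨Nat.cast_ne_zero.2 hp.ne_zero⟩
    obtain ⟨ζ, hζ⟩ := HasEnoughRootsOfUnity.exists_primitiveRoot Qb p
    rcases TameDich8.tame_or_wild p hsplit hA hφ with
      ⟨hT, b, ω₁, ω₂, hdiag, hφcase⟩ | ⟨-, b, hup, τ, hτI, h00, h11, h01⟩
    · exact concl_tame ρbar (pPrime p) hp2 hdet hA hφ hζ hT b ω₁ ω₂ hdiag hφcase c₀ hflat₀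
    · exact concl_wild ρbar (pPrime p) hp2 hdet hA hφ hζ b hup hτI h00 h11 h01 c₀ hflat₀
  · refine ⟨⊥, ?_, fun T c hflat => absurd ⟨T, c, hflat⟩ hex⟩
    haveI := finite_ad0' ρbar
    rw [Nat.card_unique]
    have h2 : 0 < GWContracts4.d0 (ad0 ρbar) (pPrime p) :=
      (Nat.card_pos : 0 < Nat.card ↥(Rep.res (locD (pPrime p)) (ad0 ρbar)).ρ.invariants)
    exact Nat.one_le_iff_ne_zero.2 (Nat.mul_ne_zero Nat.card_pos.ne' h2.ne')

end Main

end Fermat.Agent.W56.FlatKF3
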