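/-
Programme W56 (S56), chapter (E1) "PT-mid", helper2.

`Funct2`: small functoriality lemmas missing from `PT/PRO/HyperLevel25`, `HyperRes25`:
* `mapℍ1_mapℍ1_eq_self`, `mapℍ1_mapℍ1_eq_zero` : `ψ_* ∘ φ_*` on `ℍ¹` when `ψ ∘ φ` is the identity,
  resp. zero, termwise;
* `ppℍ1_mapℍ1_mapℍ1` : `(sh ∘ prj ∘ φ)_* = sh_* ∘ prj_* ∘ φ_*` on `ℍ¹` (the `ℍ¹` companion of
  `StarBlock25.locPHom_ppℍ2`);
* `pTorMap` : the map induced on `p`-torsion subgroups (`InvP4.pTor`);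
* `rank_of_rankLeOne` : `InvP4.RankLeOne p T` in the `ZMod p`-form on `pTor p T`.
-/
import Mathlib
import Fermat.Agent.PT.PRO.HyperLevel25
import Fermat.Agent.PT.PRO.HyperRes25
import Fermat.Agent.PT.PRO.InvP4
import Fermat.Agent.PT.PRO.StarBlock25

set_option autoImplicit false

namespace Fermat.Agent.W56.Funct2

open Function Fermat.Agent.PT.PRO.HyperLevel25 Fermat.Agent.PT.PRO.HyperRes25
  Fermat.Agent.PT.PRO.InvP4

section Cx

variable {k G : Type*} [CommRing k] [Group G] {𝒰 : Set (Subgroup G)}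
variable {A0 A1 B0 B1 C0 C1 : Type*}
  [AddCommGroup A0] [Module k A0] [AddCommGroup A1] [Module k A1]
  [AddCommGroup B0] [Module k B0] [AddCommGroup B1] [Module k B1]
  [AddCommGroup C0] [Module k C0] [AddCommGroup C1] [Module k C1]
variable {A : Cx k 𝒰 A0 A1} {B : Cx k 𝒰 B0 B1} {C : Cx k 𝒰 C0 C1}

/-- `ψ_* ∘ φ_* = id` on `ℍ¹` if `ψ ∘ φ = id` termwise. -/
theorem mapℍ1_mapℍ1_eq_self (φ : Cx.Hom A B) (ψ : Cx.Hom B A) (h𝒰 : IsLevelBasis 𝒰)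
    (h0 : ∀ a, ψ.φ0 (φ.φ0 a) = a) (h1 : ∀ a, ψ.φ1 (φ.φ1 a) = a) (x : A.ℍ1 h𝒰) :
    ψ.mapℍ1 h𝒰 (φ.mapℍ1 h𝒰 x) = x := by
  obtain ⟨z, rfl⟩ := (A.tot h𝒰).π1_surjective x
  unfold Cx.Hom.mapℍ1
  rw [Cpx.Hom.mapH1_π1, Cpx.Hom.mapH1_π1]
  congr 1
  apply Subtype.ext
  apply Subtype.ext
  refine Prod.ext ?_ ?_
  · funext g
    exact h0 _
  · exact h1 _

/-- `ψ_* ∘ φ_* = 0` on `ℍ¹` if `ψ ∘ φ = 0` termwise. -/
theorem mapℍ1_mapℍ1_eq_zero (φ : Cx.Hom A B) (ψ : Cx.Hom B C) (h𝒰 : IsLevelBasis 𝒰)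
    (h0 : ∀ a, ψ.φ0 (φ.φ0 a) = 0) (h1 : ∀ a, ψ.φ1 (φ.φ1 a) = 0) (x : A.ℍ1 h𝒰) :
    ψ.mapℍ1 h𝒰 (φ.mapℍ1 h𝒰 x) = 0 := by
  obtain ⟨z, rfl⟩ := (A.tot h𝒰).π1_surjective x
  unfold Cx.Hom.mapℍ1
  rw [Cpx.Hom.mapH1_π1, Cpx.Hom.mapH1_π1]
  have : (ψ.tot h𝒰).mapZ1 ((φ.tot h𝒰).mapZ1 z) = 0 := by
    apply Subtype.ext
    apply Subtype.ext
    refine Prod.ext ?_ ?_
    · funext g
      exact h0 _
    · exact h1 _
  rw [this, map_zero]

end Cx

section PTor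

variable (p : ℕ) {X Y : Type*} [AddCommGroup X] [AddCommGroup Y]

/-- The map induced on `p`-torsion subgroups. -/
def pTorMap (f : X →+ Y) : pTor p X →+ pTor p Y where
  toFun x := ⟨f (x : X), by
    show p • f (x : X) = 0
    rw [← map_nsmul, (x.2 : p • (x : X) = 0), map_zero]⟩
  map_zero' := Subtype.ext (map_zero f)
  map_add' a b := Subtype.ext (map_add f (a : X) (b : X))

@[simp] lemma coe_pTorMap (f : X →+ Y) (x : pTor p X) :
    ((pTorMap p f x : pTor p Y) : Y) = f (x : X) := rfl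

lemma pTorMap_injective (f : X →+ Y) (hf : ∀ x : X, p • x = 0 → f x = 0 → x = 0) :
    Injective (pTorMap p f) := by
  rw [injective_iff_map_eq_zero]
  intro x hx
  apply Subtype.ext
  exact hf (x : X) x.2 (congrArg Subtype.val hx)

lemma nsmul_pTor (x : pTor p X) : p • x = 0 :=
  Subtype.ext (by rw [AddSubgroup.coe_nsmul]; exact x.2)

variable {p}

/-- `RankLeOne p T` in the `ZMod p`-form on `T[p]`. -/
theorem rank_of_rankLeOne [Fact p.Prime] (h : RankLeOne p X) (x y : pTor p X) :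
    ∃ a b : ZMod p, (a ≠ 0 ∨ b ≠ 0) ∧ a.val • x + b.val • y = 0 := by
  obtain ⟨a, b, hab, hrel⟩ := h (x : X) (y : X) x.2 y.2
  refine ⟨(a : ZMod p), (b : ZMod p), ?_, ?_⟩
  · by_contra hcon
    rw [not_or, not_not, not_not] at hcon
    exact hab ⟨(ZMod.intCast_zmod_eq_zero_iff_dvd a p).1 hcon.1,
      (ZMod.intCast_zmod_eq_zero_iff_dvd b p).1 hcon.2⟩
  · -- `a.val ≡ a mod p` and `p` kills `x`
    have key : ∀ (c : ℤ) (z : pTor p X), ((c : ZMod p).val) • z = c • z := by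
      intro c z
      have hz : ∀ m : ℤ, ((p : ℤ) * m) • z = 0 := fun m => by
        rw [mul_comm, mul_smul, natCast_zsmul, nsmul_pTor, smul_zero]
      have h1 : (((c : ZMod p).val : ℕ) : ℤ) = c % p := by
        rw [ZMod.val_intCast]
      have h2 : c = (p : ℤ) * (c / p) + c % p := (Int.mul_ediv_add_emod c p).symm
      rw [← natCast_zsmul, h1]
      conv_rhs => rw [h2, add_smul, hz, zero_add]
    rw [key, key]
    apply Subtype.ext
    rw [AddSubgroup.coe_add, AddSubgroup.coe_zsmul, AddSubgroup.coe_zsmul]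
    exact hrel

end PTor

end Fermat.Agent.W56.Funct2
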