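/-
Programme W56 (S56), shared package "class formation over an open subgroup", helper1.

`FundSub1`:
* `isFundClass_resSub` : the class-formation hypotheses `Interface8.IsFundClass p C u` on a
  group `Q` restrict to every subgroup `N ≤ Q` (with the restricted class);
* `isFundClass_of_injective` : transport along an injective group homomorphism;
* `exists_isFundClass_openSub` : for a normal `W ≤ V ≤ G`, a fundamental class of
  `(G ⧸ W, Y^W)` gives one of `(V ⧸ (W ∩ V), Y^{W ∩ V})` (the finite layer of the subgroup `V`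
  regarded as a group of its own, with the restricted action).
-/
import Mathlib
import Fermat.Agent.PT.FG.Interface8
import Fermat.Agent.PT.FG.FundClassTransferB2
import Fermat.Agent.PT.FG.FundClassSub2
import Fermat.Agent.PT.PRO.FundRaw18
import Fermat.Agent.PT.PRO.FundHyp12

set_option autoImplicit false
set_option linter.unusedSectionVars false
set_option linter.unusedVariables false
set_option linter.style.haveILetI false

open CategoryTheory groupCohomology Rep

namespace Fermat.Agent.W56.FundSub1

open Fermat.Agent.PT.FG.Interface8 Fermat.Agent.PT.FG.FundClassTransferB2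
  Fermat.Agent.PT.FG.FundClassSub2
open Fermat.Agent.PT.PRO.HyperColim18 Fermat.Agent.PT.PRO.FundRaw18

section Generic

variable {Q : Type} [Group Q] {k : Type} [CommRing k]

/-- The image in `Q` of a subgroup of a subgroup, with the group isomorphism. -/
noncomputable abbrev imSub (N : Subgroup Q) (K : Subgroup N) : K ≃* K.map N.subtype :=
  Subgroup.equivMapOfInjective K N.subtype N.subtype_injective

/-- The identity, as an isomorphism between the two ways of restricting `C` to `K ≤ N ≤ Q`. -/
noncomputable def idIso (C : Rep.{0} k Q) (N : Subgroup Q) (K : Subgroup N) :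
    res (imSub N K).toMonoidHom (res (K.map N.subtype).subtype C) ≅
      res K.subtype (res N.subtype C) where
  hom := Rep.ofHom ⟨LinearMap.id, fun g => rfl⟩
  inv := Rep.ofHom ⟨LinearMap.id, fun g => rfl⟩
  hom_inv_id := rfl
  inv_hom_id := rfl

/-- The comparison `Hⁿ(K', C) → Hⁿ(K, C|_N)`, `K' = image of K` in `Q`, is bijective. -/
theorem map_imSub_bijective (C : Rep.{0} k Q) (N : Subgroup Q) (K : Subgroup N) (n : ℕ) :
    Function.Bijective (groupCohomology.map (imSub N K).toMonoidHom
      (idIso C N K).hom n).hom :=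
  map_equiv_bijective (imSub N K) (res (K.map N.subtype).subtype C)
    (res K.subtype (res N.subtype C)) (idIso C N K) n

/-- Restriction in two steps `Q ≥ N ≥ K` = restriction to the image of `K`, then the
comparison. -/
lemma res_res_comm (C : Rep.{0} k Q) (N : Subgroup Q) (K : Subgroup N) (n : ℕ) :
    groupCohomology.map N.subtype (𝟙 (res N.subtype C)) n ≫
        groupCohomology.map K.subtype (𝟙 (res K.subtype (res N.subtype C))) n =
      groupCohomology.map (K.map N.subtype).subtype (𝟙 (res (K.map N.subtype).subtype C)) n ≫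
        groupCohomology.map (imSub N K).toMonoidHom (idIso C N K).hom n := by
  rw [← groupCohomology.map_comp, ← groupCohomology.map_comp]
  exact groupCohomology.map_congr rfl rfl n

end Generic

section Finite

variable {Q : Type} [Group Q]

/-- **The class-formation hypotheses restrict to subgroups.** -/
theorem isFundClass_resSub (p : ℕ) [Fact p.Prime] (C : Rep ℤ Q) (u : H2 C)
    (hu : IsFundClass p C u) (N : Subgroup Q) :
    IsFundClass p (resSub N C) (resMap N C 2 u) := by
  have hP : ∀ K : Subgroup N, IsPGroup p K → IsPGroup p (K.map N.subtype) :=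
    fun K hK => hK.map _
  have hcard : ∀ K : Subgroup N, Nat.card (K.map N.subtype) = Nat.card K :=
    fun K => (Nat.card_congr (imSub N K).toEquiv).symm
  refine ⟨fun K hK => ?_, fun K hK => ?_, fun K hK => ?_⟩
  · have := hu.h1 _ (hP K hK)
    exact (map_imSub_bijective C N K 1).2.subsingleton
  · rw [← hcard K, ← hu.card _ (hP K hK)]
    exact (Nat.card_congr (Equiv.ofBijective _ (map_imSub_bijective C N K 2))).symm
  · rw [← hcard K, ← hu.order _ (hP K hK)]
    have hnat := congrArg (fun f => f.hom u) (res_res_comm C N K 2)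
    simp only [ModuleCat.hom_comp, LinearMap.coe_comp, Function.comp_apply] at hnat
    show addOrderOf ((groupCohomology.map K.subtype (𝟙 (res K.subtype (res N.subtype C))) 2).hom
      ((groupCohomology.map N.subtype (𝟙 (res N.subtype C)) 2).hom u)) = _
    rw [hnat]
    exact addOrderOf_injective
      (groupCohomology.map (imSub N K).toMonoidHom (idIso C N K).hom 2).hom.toAddMonoidHom
      (map_imSub_bijective C N K 2).1 _

end Finite

section Generic2
variable {G G' : Type} [Group G] [Group G'] {k : Type} [CommRing k]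

/-- The identity, as an isomorphism `Res_e (Res_{range ι} C) ≅ Res_ι C`. -/
noncomputable def rangeIso (ι : G' →* G) (hι : Function.Injective ι) (C : Rep.{0} k G) :
    res (MonoidHom.ofInjective hι).toMonoidHom (res ι.range.subtype C) ≅ res ι C where
  hom := Rep.ofHom ⟨LinearMap.id, fun g => rfl⟩
  inv := Rep.ofHom ⟨LinearMap.id, fun g => rfl⟩
  hom_inv_id := rfl
  inv_hom_id := rfl

lemma map_range_comm (ι : G' →* G) (hι : Function.Injective ι) (C : Rep.{0} k G)
    (C' : Rep.{0} k G') (φ : res ι C ⟶ C') (n : ℕ) :
    groupCohomology.map ι.range.subtype (𝟙 (res ι.range.subtype C)) n ≫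
        groupCohomology.map (MonoidHom.ofInjective hι).toMonoidHom
          ((rangeIso ι hι C).hom ≫ φ) n =
      groupCohomology.map ι φ n := by
  rw [← groupCohomology.map_comp]
  exact groupCohomology.map_congr rfl rfl n

end Generic2

theorem isFundClass_of_injective (p : ℕ) [Fact p.Prime] {G G' : Type} [Group G] [Group G']
    (ι : G' →* G) (hι : Function.Injective ι) (C : Rep ℤ G) (C' : Rep ℤ G')
    (φ : Rep.res ι C ≅ C') (u : H2 C) (hu : IsFundClass p C u) :
    IsFundClass p C' (groupCohomology.map ι φ.hom 2 u) := by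
  have h1 := isFundClass_resSub p C u hu ι.range
  have h2 := isFundClass_of_equiv p (MonoidHom.ofInjective hι) (resSub ι.range C) C'
    (rangeIso ι hι C ≪≫ φ) _ h1
  have hnat := congrArg (fun f => f.hom u) (map_range_comm ι hι C C' φ.hom 2)
  simp only [ModuleCat.hom_comp, LinearMap.coe_comp, Function.comp_apply] at hnat
  rw [← hnat]
  exact h2

section Open
variable {G : Type} [Group G] {k : Type} [CommRing k] {C : Type} [AddCommGroup C] [Module k C]

/-- The injection `V ⧸ (W ∩ V) → G ⧸ W`. -/
noncomputable def quotIncl (V W : Subgroup G) [W.Normal] :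
    (↥V ⧸ W.subgroupOf V) →* G ⧸ W :=
  QuotientGroup.map (W.subgroupOf V) W V.subtype (le_refl _)

@[simp] lemma quotIncl_mk (V W : Subgroup G) [W.Normal] (v : V) :
    quotIncl V W (v : ↥V ⧸ W.subgroupOf V) = ((v : G) : G ⧸ W) := rfl

lemma quotIncl_injective (V W : Subgroup G) [W.Normal] : Function.Injective (quotIncl V W) := by
  rw [injective_iff_map_eq_one]
  intro x hx
  induction x using QuotientGroup.induction_on with
  | H v =>
    rw [quotIncl_mk, QuotientGroup.eq_one_iff] at hx
    exact (QuotientGroup.eq_one_iff v).2 (Subgroup.mem_subgroupOf.2 hx)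

/-- `C^W = C^{W ∩ V}` for `W ≤ V` (the second for the restricted action of `V`). -/
noncomputable def fixedEquiv (ρ : Representation k G C) (V W : Subgroup G) (hWV : W ≤ V) :
    fixedSub W ρ ≃ₗ[k] fixedSub (W.subgroupOf V) (ρ.comp V.subtype) where
  toFun y := ⟨y.1, fun s hs => y.2 (s : G) (Subgroup.mem_subgroupOf.1 hs)⟩
  invFun y := ⟨y.1, fun s hs => y.2 ⟨s, hWV hs⟩ (Subgroup.mem_subgroupOf.2 hs)⟩
  map_add' _ _ := rfl
  map_smul' _ _ := rfl
  left_inv _ := rfl
  right_inv _ := rfl

/-- The comparison isomorphism of `V ⧸ (W ∩ V)`-modules. -/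
noncomputable def fixedIso (ρ : Representation k G C) (V W : Subgroup G) [W.Normal]
    (hWV : W ≤ V) :
    Rep.res (quotIncl V W) (fixedObj W ρ) ≅ fixedObj (W.subgroupOf V) (ρ.comp V.subtype) where
  hom := Rep.ofHom ⟨(fixedEquiv ρ V W hWV).toLinearMap, fun g => by
    induction g using QuotientGroup.induction_on with
    | H v => ext y; rfl⟩
  inv := Rep.ofHom ⟨(fixedEquiv ρ V W hWV).symm.toLinearMap, fun g => by
    induction g using QuotientGroup.induction_on with
    | H v => ext y; rfl⟩
  hom_inv_id := rfl
  inv_hom_id := rfl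

end Open

theorem exists_isFundClass_openSub {G : Type} [Group G] {C : Type} [AddCommGroup C] [Module ℤ C]
    (ρ : Representation ℤ G C) (p : ℕ) [Fact p.Prime] (V W : Subgroup G) [W.Normal] (hWV : W ≤ V)
    (u : H2 (fixedObj W ρ)) (hu : IsFundClass p (fixedObj W ρ) u) :
    ∃ u', IsFundClass p (fixedObj (W.subgroupOf V) (ρ.comp V.subtype)) u' :=
  ⟨_, isFundClass_of_injective p (quotIncl V W) (quotIncl_injective V W) (fixedObj W ρ) _
    (fixedIso ρ V W hWV) u hu⟩

/-- **`FundFixed` passes to a subgroup `V`** (regarded as a group of its own, with the restricted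
action), on the cofinal family of the `W ∩ V`, `W ∈ 𝒰` normal in `G` and contained in `V`. -/
theorem fundFixed_openSub {G : Type} [Group G] {C : Type} [AddCommGroup C] [Module ℤ C]
    (ρ : Representation ℤ G C) (𝒰 : Set (Subgroup G)) (p : ℕ) [Fact p.Prime] (V : Subgroup G)
    (hfund : Fermat.Agent.PT.PRO.FundHyp12.FundFixed ρ 𝒰 p) :
    Fermat.Agent.PT.PRO.FundHyp12.FundFixed (ρ.comp V.subtype)
      {W' | ∃ W ∈ 𝒰, W.Normal ∧ W ≤ V ∧ W' = W.subgroupOf V} p := by
  rintro W' ⟨W, hW, hn, hWV, rfl⟩ hn'
  haveI := hn
  obtain ⟨u, hu⟩ := hfund W hW hn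
  exact exists_isFundClass_openSub ρ p V W hWV u hu

/-- The literal hypothesis shape used by the exhaustion files (`PK-2`, `PK-5`). -/
theorem fundFixed_openSub' {G : Type} [Group G] {C : Type} [AddCommGroup C] [Module ℤ C]
    (ρ : Representation ℤ G C) (𝒰 : Set (Subgroup G)) (p : ℕ) [Fact p.Prime] (V : Subgroup G)
    (hfund : Fermat.Agent.PT.PRO.FundHyp12.FundFixed ρ 𝒰 p) :
    ∀ W ∈ 𝒰, ∀ hn : W.Normal, W ≤ V → haveI := hn;
      ∃ u' : groupCohomology.H2 (fixedObj (W.subgroupOf V) (ρ.comp V.subtype)),
        IsFundClass p (fixedObj (W.subgroupOf V) (ρ.comp V.subtype)) u' := by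
  intro W hW hn hWV
  haveI := hn
  obtain ⟨u, hu⟩ := hfund W hW hn
  exact exists_isFundClass_openSub ρ p V W hWV u hu

end Fermat.Agent.W56.FundSub1
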