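/-
Programme W56 (target S56), item (EC-2) Ω4 = local `H³` (helper6), part (H3a):
**`FG.Interface8.H3Vanishing` is a theorem.**  For a finite group `G`, a `G`-module `C` with a class
`u ∈ H²(G, C)` satisfying the class-formation hypotheses at `p` (`IsFundClass p C u`), the group
`H³(G, C)` has no `p`-primary torsion.

Proof: for a `p`-subgroup `P`, the splitting module `C(σ)` is cohomologically trivial on `P`
(`SplitCoh8.isCohTrivial_res_split`) and `H²(P, I_G) = 0` (`SplitCoh8.subsingleton_H2_aug`), so the
long exact sequence of `0 → C → C(σ) → I_G → 0` gives `H³(P, C) = 0` (`isZero_H3_res`); conclude by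
the Sylow reduction `Transfer2.eq_zero_of_isZero_sylow`.
-/
import Mathlib
import Fermat.Agent.PT.FG.Interface8
import Fermat.Agent.PT.FG.SplitCoh8
import Fermat.Agent.PT.FG.TensorCohTriv9
import Fermat.Agent.PT.FG.Transfer2

set_option autoImplicit false

open CategoryTheory groupCohomology

namespace Fermat.Agent.W56.H3Van6

open Fermat.Agent.PT.FG Fermat.Agent.PT.FG.Interface8 Fermat.Agent.PT.FG.SplitModule8

noncomputable section

variable {G : Type} [Group G] {C : Rep.{0} ℤ G}

/-- `H³(P, C) = 0` for every `p`-subgroup `P` of `G`. -/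
theorem isZero_H3_res [Finite G] {p : ℕ} [Fact p.Prime] (σ : cocycles₂ C)
    (h : IsFundClass p C (H2π C σ)) (P : Subgroup G) (hP : IsPGroup p P) :
    Limits.IsZero (groupCohomology (Rep.res P.subtype C) 3) := by
  let _ : Fintype P := Fintype.ofFinite P
  have hE := splitSeqRes_shortExact P.subtype σ
  have hex := mapShortComplex₁_exact hE (i := 2) (j := 3) rfl
  -- `H³(P, C(σ)) = 0`
  have h1 := SplitCoh8.isCohTrivial_res_split σ h P hP
  have h2 := TensorCohTriv9.isZero_tate_of_isCohTrivial h1 ((2 + 1 : ℕ) : ℤ)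
  have h3 : Limits.IsZero (groupCohomology (Rep.res P.subtype (split σ)) 3) :=
    h2.of_iso ((TateCohomology.isoGroupCohomology (2 + 1)).app _).symm
  -- `H²(P, I_G) = 0`
  have haug : Subsingleton (H2 (Rep.res P.subtype (augRep ℤ G))) := SplitCoh8.subsingleton_H2_aug P
  rw [ModuleCat.isZero_iff_subsingleton]
  refine subsingleton_of_forall_eq 0 fun z => ?_
  have hz : (mapShortComplex₁ hE (i := 2) (j := 3) rfl).g z = 0 :=
    (ModuleCat.subsingleton_of_isZero h3).elim _ _
  obtain ⟨w, hw⟩ := (ShortComplex.moduleCat_exact_iff _).1 hex z hz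
  have hw0 : w = 0 := haug.elim _ _
  rw [← hw, hw0]
  exact map_zero _

/-- **(H3)** `H³(G, C)` has no `p`-torsion for a class formation at `p`. -/
theorem h3Vanishing : H3Vanishing := by
  intro G _ _ p _ C u hu x hx
  obtain ⟨σ, rfl⟩ : ∃ σ : cocycles₂ C, H2π C σ = u := by
    induction u using H2_induction_on with | @h σ => exact ⟨σ, rfl⟩
  obtain ⟨P⟩ : Nonempty (Sylow p G) := inferInstance
  exact Transfer2.eq_zero_of_isZero_sylow C P 3
    (isZero_H3_res σ hu (P : Subgroup G) P.isPGroup') x hx

end

end Fermat.Agent.W56.H3Van6
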