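/-
Programme W56 (target S56), item (EC-2) Ω4 = local `H³` (helper6), part (H3b):
**bridge between Mathlib's `groupCohomology A 3` and explicit cochains `G × G × G → A`.**

* `cochainsIso₄`, `d₃₄` (the explicit third differential
  `(d f)(g,h,j,l) = g • f(h,j,l) - f(gh,j,l) + f(g,hj,l) - f(g,h,jl) + f(g,h,j)`), `comp_d₃₄_eq`
  (continuing Mathlib's `cochainsIso₃`, `d₂₃`, `comp_d₂₃_eq`);
* `exists_eq_d₂₃`: if `H³(G, A)` has no `p`-primary torsion, then every explicit 3-cocycle `f`
  (`d₃₄ f = 0`) with `p ^ n • f = d₂₃ e` is a coboundary `f = d₂₃ e'`;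
* `exists_eq_d₂₃_of_isFundClass`: the same for a class formation at `p` (`H3Van6.h3Vanishing`),
  in raw formulas.
-/
import Mathlib
import Fermat.Agent.W56.H3Van6

set_option autoImplicit false

open CategoryTheory groupCohomology

namespace Fermat.Agent.W56.H3Bridge6

noncomputable section

universe u

variable {k G : Type u} [CommRing k] [Group G] (A : Rep k G)

/-- `G⁴` as tuples. -/
def e₄ : (Fin 4 → G) ≃ G × G × G × G :=
  (Fin.consEquiv _).symm.trans ((Equiv.refl G).prodCongr
    ((Fin.consEquiv _).symm.trans ((Equiv.refl G).prodCongr (piFinTwoEquiv fun _ => G))))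

/-- The 4th object in the complex of inhomogeneous cochains is `Fun(G⁴, A)`. -/
def cochainsIso₄ : (inhomogeneousCochains A).X 4 ≅ ModuleCat.of k (G × G × G × G → A) :=
  (LinearEquiv.funCongrLeft k A (e₄ (G := G))).toModuleIso.symm

/-- The 3rd differential on explicit cochains. -/
def d₃₄ : ModuleCat.of k (G × G × G → A) ⟶ ModuleCat.of k (G × G × G × G → A) :=
  ModuleCat.ofHom
  { toFun f g := A.ρ g.1 (f (g.2.1, g.2.2.1, g.2.2.2)) - f (g.1 * g.2.1, g.2.2.1, g.2.2.2) +
      f (g.1, g.2.1 * g.2.2.1, g.2.2.2) - f (g.1, g.2.1, g.2.2.1 * g.2.2.2) +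
      f (g.1, g.2.1, g.2.2.1)
    map_add' x y := funext fun g => by
      simp only [Pi.add_apply, map_add]; abel
    map_smul' r x := funext fun g => by
      simp only [Pi.smul_apply, map_smul, RingHom.id_apply, smul_add, smul_sub] }

theorem d₃₄_apply (f : G × G × G → A) (g h j l : G) :
    (d₃₄ A).hom f (g, h, j, l) =
      A.ρ g (f (h, j, l)) - f (g * h, j, l) + f (g, h * j, l) - f (g, h, j * l) + f (g, h, j) :=
  rfl

theorem comp_d₃₄_eq :
    (cochainsIso₃ A).hom ≫ d₃₄ A =
      (inhomogeneousCochains A).d 3 4 ≫ (cochainsIso₄ A).hom := by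
  ext x y
  change A.ρ y.1 (x _) - x _ + x _ - x _ + x _ = _ + _
  dsimp
  rw [Fin.sum_univ_four]
  simp only [sub_eq_add_neg, add_assoc, Fin.val_zero, zero_add, pow_one, neg_smul,
    one_smul, Fin.val_one, Fin.val_two, pow_succ' (-1 : k) 2, neg_sq, Nat.one_add,
    one_pow, mul_one]
  have h3 : ((3 : Fin 4) : ℕ) = 3 := rfl
  have h4 : ((-1 : k)) ^ (3 + 1) = 1 := by norm_num
  rw [h3, h4, one_smul]
  rcongr i <;> fin_cases i <;> rfl

/-- **the bridge**: no `p`-primary torsion in `H³` ⟹ explicit 3-cocycles which are `p`-power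
torsion modulo coboundaries are coboundaries. -/
theorem exists_eq_d₂₃ {p : ℕ}
    (hH3 : ∀ x : groupCohomology A 3, (∃ n : ℕ, p ^ n • x = 0) → x = 0)
    (f : G × G × G → A) (hf : (d₃₄ A).hom f = 0) (n : ℕ) (e : G × G → A)
    (he : p ^ n • f = (d₂₃ A).hom e) : ∃ e' : G × G → A, f = (d₂₃ A).hom e' := by
  set x : (inhomogeneousCochains A).X 3 := (cochainsIso₃ A).inv f with hx
  have hxf : (cochainsIso₃ A).hom x = f := by
    rw [hx]; exact Iso.inv_hom_id_apply (cochainsIso₃ A) f
  -- `x` is a cocycle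
  have hdx : (inhomogeneousCochains A).d 3 4 x = 0 := by
    have h1 := congr($(comp_d₃₄_eq A) x)
    simp only [ModuleCat.hom_comp, LinearMap.coe_comp, Function.comp_apply] at h1
    rw [hxf, hf] at h1
    have h2 : (cochainsIso₄ A).inv ((cochainsIso₄ A).hom ((inhomogeneousCochains A).d 3 4 x)) =
        (inhomogeneousCochains A).d 3 4 x := Iso.hom_inv_id_apply (cochainsIso₄ A) _
    rw [← h2, ← h1, map_zero]
  have hdx' : inhomogeneousCochains.d A 3 x = 0 := by
    have : (inhomogeneousCochains A).d 3 (3 + 1) = inhomogeneousCochains.d A 3 :=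
      CochainComplex.of_d _ _ 3
    rw [← this]; exact hdx
  set z : cocycles A 3 := cocyclesMk x hdx' with hz
  have hzi : iCocycles A 3 z = x := iCocycles_mk x hdx'
  -- `p ^ n • z` is a coboundary
  have hpz : p ^ n • z = toCocycles A 2 3 ((cochainsIso₂ A).inv e) := by
    have hmono : Function.Injective (iCocycles A 3) :=
      (ModuleCat.mono_iff_injective _).1 inferInstance
    apply hmono
    rw [map_nsmul, hzi]
    have h1 : iCocycles A 3 (toCocycles A 2 3 ((cochainsIso₂ A).inv e)) =
        (inhomogeneousCochains A).d 2 3 ((cochainsIso₂ A).inv e) := by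
      have := (inhomogeneousCochains A).toCycles_i 2 3
      exact congr($this ((cochainsIso₂ A).inv e))
    rw [h1]
    have h2 := congr($(eq_d₂₃_comp_inv A) e)
    simp only [ModuleCat.hom_comp, LinearMap.coe_comp, Function.comp_apply] at h2
    rw [h2, ← he, map_nsmul]
  have hc : π A 3 z = 0 := by
    apply hH3
    refine ⟨n, ?_⟩
    rw [← map_nsmul, hpz]
    have := (inhomogeneousCochains A).toCycles_comp_homologyπ 2 3
    exact congr($this ((cochainsIso₂ A).inv e))
  -- exactness
  have hex : (ShortComplex.mk (toCocycles A 2 3) (π A 3)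
      ((inhomogeneousCochains A).toCycles_comp_homologyπ 2 3)).Exact :=
    ShortComplex.exact_of_g_is_cokernel _
      ((inhomogeneousCochains A).homologyIsCokernel 2 3 (by simp))
  obtain ⟨y, hy⟩ := (ShortComplex.moduleCat_exact_iff _).1 hex z hc
  have hy' : toCocycles A 2 3 y = z := hy
  refine ⟨(cochainsIso₂ A).hom y, ?_⟩
  have h1 : (inhomogeneousCochains A).d 2 3 y = x := by
    rw [← hzi, ← hy']
    have := (inhomogeneousCochains A).toCycles_i 2 3
    exact congr($this y).symm
  have h2 := congr($(comp_d₂₃_eq A) y)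
  simp only [ModuleCat.hom_comp, LinearMap.coe_comp, Function.comp_apply] at h2
  rw [h2, h1, hxf]

end

/-! ### raw form for a class formation -/

section Raw

open Fermat.Agent.PT.FG.Interface8

variable {G : Type} [Group G] [Finite G]

/-- For a class formation `(C, u)` at `p` over a finite group: an explicit 3-cocycle whose
`p ^ n`-multiple is a coboundary is a coboundary. -/
theorem exists_eq_d₂₃_of_isFundClass {p : ℕ} [Fact p.Prime] (C : Rep.{0} ℤ G) (u : H2 C)
    (hu : IsFundClass p C u) (f : G × G × G → C)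
    (hf : ∀ g h j l : G,
      C.ρ g (f (h, j, l)) - f (g * h, j, l) + f (g, h * j, l) - f (g, h, j * l) + f (g, h, j) = 0)
    (n : ℕ) (e : G × G → C)
    (he : ∀ g h j : G, p ^ n • f (g, h, j) =
      C.ρ g (e (h, j)) - e (g * h, j) + e (g, h * j) - e (g, h)) :
    ∃ e' : G × G → C, ∀ g h j : G,
      f (g, h, j) = C.ρ g (e' (h, j)) - e' (g * h, j) + e' (g, h * j) - e' (g, h) := by
  have hH3 : ∀ x : groupCohomology C 3, (∃ n : ℕ, p ^ n • x = 0) → x = 0 :=
    fun x hx => H3Van6.h3Vanishing G p C u hu x hx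
  obtain ⟨e', he'⟩ := exists_eq_d₂₃ C hH3 f (funext fun ⟨g, h, j, l⟩ => hf g h j l) n e
    (funext fun ⟨g, h, j⟩ => by
      rw [Pi.smul_apply, he g h j]
      rfl)
  refine ⟨e', fun g h j => ?_⟩
  rw [he']
  rfl

end Raw

end Fermat.Agent.W56.H3Bridge6
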