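/-
Programme W56 (S56), chapter (EC-5), helper2.

`ISDecomp2`: the decomposition of the `Ĉ`-module `I_T|_Ĉ` (`Ĉ ≤ Γ` open) into the Mackey components
`S_{q,w} = Coind_{j_w}(A'_q|_{L_w})`, `q ∈ T`, `w ∈ Γ_q \ Γ / Ĉ`:

* `Rg_Eg`, `Rg_Eg_of_not`: orthogonality of the Mackey maps;
* `Comp T Ĉ x`, `Rx`, `Ex` (`x = ⟨q, w⟩`), their equivariance, `Rx_Ex`, `Rx_Ex_ne`, `sum_Ex_Rx`.
-/
import Mathlib
import Fermat.Agent.W56.LGInj2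
import Fermat.Agent.W56.Mackey2

set_option autoImplicit false
set_option linter.unusedSectionVars false
set_option linter.style.haveILetI false

open CategoryTheory groupCohomology

namespace Fermat.Agent.W56.ISDecomp2

open Fermat.Agent.PT.PRO Fermat.Agent.PT.GLUE
open Fermat.Agent.PT.PRO.LevelCoh28 Fermat.Agent.PT.PRO.LevelCohRes28
open Fermat.Agent.PT.PRO.SmoothCoind28
open Fermat.Agent.PT.GLUE.Objects21 Fermat.Agent.PT.BR.InfLocal13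
open Fermat.Agent.W56.Mackey2 Fermat.Agent.W56.LocalDatum2 Fermat.Agent.W56.LGInj2
open ExtCitation

local notation "Γ" => (AlgebraicClosure ℚ ≃ₐ[ℚ] AlgebraicClosure ℚ)

/-! ### Orthogonality of the Mackey maps -/

section Orth

variable {k G H : Type} [CommRing k] [Group G] [Group H]
variable (i : H →* G) (𝓑G : LevelBasis G) (Y : Rep.{0} k H) (V : Subgroup G)
  (hV : ∃ U₀ ∈ 𝓑G.sets, U₀ ≤ V)

theorem Rg_Eg (g : G) (φ : Sg i 𝓑G Y V g) :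
    Rg i 𝓑G Y V g (Eg i 𝓑G Y V hV g φ) = φ := by
  refine Subtype.ext (funext fun v => ?_)
  show EgFun i 𝓑G Y V g φ (g * v) = φ.1 v
  have h := EgFun_apply i 𝓑G Y V g φ 1 v
  rw [map_one, one_mul, map_one] at h
  exact h

theorem Rg_Eg_of_not {g g' : G} (h : ¬ InDC i V g g') (φ : Sg i 𝓑G Y V g) :
    Rg i 𝓑G Y V g' (Eg i 𝓑G Y V hV g φ) = 0 := by
  refine Subtype.ext (funext fun v => ?_)
  show EgFun i 𝓑G Y V g φ (g' * v) = 0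
  exact EgFun_of_not i 𝓑G Y V φ fun h' => h ((inDC_mul_right i V v).1 h')

theorem not_inDC_out {D D' : DC i V} (h : D ≠ D') : ¬ InDC i V D.out D'.out := fun h' =>
  h (((inDC_out_iff i V D D'.out).1 h').symm.trans (Quotient.out_eq D'))

end Orth

/-! ### The components of `I_T|_Ĉ` -/

section Comp

variable (T : Finset Nat.Primes) (Ĉ : Subgroup Γ) (hĈ : ∃ U₀ ∈ (levelS T).sets, U₀ ≤ Ĉ)

/-- The index set: pairs `(q, w)`, `q ∈ T`, `w ∈ Γ_q \ Γ / Ĉ`. -/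
abbrev Idx : Type := Σ q : ↥T, DC (localGaloisToGlobal ((q : Nat.Primes) : ℕ)) Ĉ

/-- The component `S_{q,w} = Coind_{j_w}(A'_q|_{L_w})`. -/
noncomputable abbrev Comp (x : Idx T Ĉ) : Rep.{0} ℤ ↥Ĉ :=
  Sg (localGaloisToGlobal ((x.1 : Nat.Primes) : ℕ)) (levelS T) (AQ T ((x.1 : Nat.Primes) : ℕ)) Ĉ
    x.2.out

/-- `I_T → I_{T,q} ≃ Coind A'_q`, as a map of `Ĉ`-modules. -/
noncomputable def toXV (q : ↥T) : Lin (Rep.res Ĉ.subtype (IS T))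
    (XV (localGaloisToGlobal ((q : Nat.Primes) : ℕ)) (levelS T) (AQ T ((q : Nat.Primes) : ℕ)) Ĉ) :=
  (phiQ T ((q : Nat.Primes) : ℕ)).symm.toLinearMap ∘ₗ ProdDict10.ISproj T q

/-- `Coind A'_q ≃ I_{T,q} → I_T`, as a map of `Ĉ`-modules. -/
noncomputable def ofXV (q : ↥T) : Lin
    (XV (localGaloisToGlobal ((q : Nat.Primes) : ℕ)) (levelS T) (AQ T ((q : Nat.Primes) : ℕ)) Ĉ)
    (Rep.res Ĉ.subtype (IS T)) :=
  LevelTheta21.inclq T q ∘ₗ (phiQ T ((q : Nat.Primes) : ℕ)).toLinearMap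

theorem toXV_apply (q : ↥T) (a : Rep.res Ĉ.subtype (IS T)) :
    toXV T Ĉ q a = (phiQ T ((q : Nat.Primes) : ℕ)).symm (ProdDict10.ISproj T q a) := rfl

theorem ofXV_apply (q : ↥T)
    (f : XV (localGaloisToGlobal ((q : Nat.Primes) : ℕ)) (levelS T)
      (AQ T ((q : Nat.Primes) : ℕ)) Ĉ) :
    ofXV T Ĉ q f = LevelTheta21.inclq T q (phiQ T ((q : Nat.Primes) : ℕ) f) := rfl

theorem phiQ_symm_ρ (q : ℕ) [Fact q.Prime] (g : Γ) (y : ISq T q) :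
    (phiQ T q).symm ((ISq T q).ρ g y) =
      (scoind (localGaloisToGlobal q) (levelS T) (AQ T q)).ρ g ((phiQ T q).symm y) := by
  apply (phiQ T q).injective
  rw [phiQ_ρ, LinearEquiv.apply_symm_apply, LinearEquiv.apply_symm_apply]

theorem toXV_ρ (q : ↥T) (c : ↥Ĉ) (a : Rep.res Ĉ.subtype (IS T)) :
    toXV T Ĉ q ((Rep.res Ĉ.subtype (IS T)).ρ c a) =
      (XV (localGaloisToGlobal ((q : Nat.Primes) : ℕ)) (levelS T)
        (AQ T ((q : Nat.Primes) : ℕ)) Ĉ).ρ c (toXV T Ĉ q a) := by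
  show (phiQ T ((q : Nat.Primes) : ℕ)).symm (ProdDict10.ISproj T q ((IS T).ρ (c : Γ) a)) = _
  rw [ProdDict10.ISproj_ρ, phiQ_symm_ρ]
  rfl

theorem ofXV_ρ (q : ↥T) (c : ↥Ĉ)
    (f : XV (localGaloisToGlobal ((q : Nat.Primes) : ℕ)) (levelS T)
      (AQ T ((q : Nat.Primes) : ℕ)) Ĉ) :
    ofXV T Ĉ q ((XV (localGaloisToGlobal ((q : Nat.Primes) : ℕ)) (levelS T)
        (AQ T ((q : Nat.Primes) : ℕ)) Ĉ).ρ c f) =
      (Rep.res Ĉ.subtype (IS T)).ρ c (ofXV T Ĉ q f) := by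
  show LevelTheta21.inclq T q (phiQ T ((q : Nat.Primes) : ℕ)
    ((scoind (localGaloisToGlobal ((q : Nat.Primes) : ℕ)) (levelS T)
      (AQ T ((q : Nat.Primes) : ℕ))).ρ (c : Γ) f)) = _
  rw [phiQ_ρ, LevelTheta21.inclq_ρ]
  rfl

theorem toXV_ofXV (q : ↥T)
    (f : XV (localGaloisToGlobal ((q : Nat.Primes) : ℕ)) (levelS T)
      (AQ T ((q : Nat.Primes) : ℕ)) Ĉ) : toXV T Ĉ q (ofXV T Ĉ q f) = f := by
  show (phiQ T ((q : Nat.Primes) : ℕ)).symm (ProdDict10.ISproj T q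
    (LevelTheta21.inclq T q (phiQ T ((q : Nat.Primes) : ℕ) f))) = f
  rw [ProdDict10.ISproj_apply, LocalGlobalInst27.ISequiv_inclq_same,
    LinearEquiv.symm_apply_apply]

theorem toXV_ofXV_ne {q q' : ↥T} (h : q ≠ q')
    (f : XV (localGaloisToGlobal ((q' : Nat.Primes) : ℕ)) (levelS T)
      (AQ T ((q' : Nat.Primes) : ℕ)) Ĉ) : toXV T Ĉ q (ofXV T Ĉ q' f) = 0 := by
  show (phiQ T ((q : Nat.Primes) : ℕ)).symm (ProdDict10.ISproj T q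
    (LevelTheta21.inclq T q' (phiQ T ((q' : Nat.Primes) : ℕ) f))) = 0
  rw [ProdDict10.ISproj_apply, LocalGlobalInst27.ISequiv_inclq_ne T q' _ q h, map_zero]

theorem sum_ofXV_toXV (a : Rep.res Ĉ.subtype (IS T)) :
    ∑ q : ↥T, ofXV T Ĉ q (toXV T Ĉ q a) = a := by
  have h := GlobalCore2.sum_inclq_ISproj T a
  refine Eq.trans (Finset.sum_congr rfl fun q _ => ?_) h
  rw [ofXV_apply, toXV_apply, LinearEquiv.apply_symm_apply]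

/-- The projection onto the component `(q, w)`. -/
noncomputable def Rx (x : Idx T Ĉ) : Lin (Rep.res Ĉ.subtype (IS T)) (Comp T Ĉ x) :=
  Rg (localGaloisToGlobal ((x.1 : Nat.Primes) : ℕ)) (levelS T) (AQ T ((x.1 : Nat.Primes) : ℕ)) Ĉ
    x.2.out ∘ₗ toXV T Ĉ x.1

include hĈ in
/-- The injection of the component `(q, w)`. -/
noncomputable def Ex (x : Idx T Ĉ) : Lin (Comp T Ĉ x) (Rep.res Ĉ.subtype (IS T)) :=
  ofXV T Ĉ x.1 ∘ₗ Eg (localGaloisToGlobal ((x.1 : Nat.Primes) : ℕ)) (levelS T)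
    (AQ T ((x.1 : Nat.Primes) : ℕ)) Ĉ hĈ x.2.out

theorem Rx_ρ (x : Idx T Ĉ) (c : ↥Ĉ) (a : Rep.res Ĉ.subtype (IS T)) :
    Rx T Ĉ x ((Rep.res Ĉ.subtype (IS T)).ρ c a) = (Comp T Ĉ x).ρ c (Rx T Ĉ x a) := by
  show Rg _ _ _ _ _ (toXV T Ĉ x.1 _) = _
  rw [toXV_ρ, Rg_equivariant]
  rfl

theorem Ex_ρ (x : Idx T Ĉ) (c : ↥Ĉ) (b : Comp T Ĉ x) :
    Ex T Ĉ hĈ x ((Comp T Ĉ x).ρ c b) = (Rep.res Ĉ.subtype (IS T)).ρ c (Ex T Ĉ hĈ x b) := by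
  show ofXV T Ĉ x.1 (Eg _ _ _ _ hĈ _ _) = _
  rw [Eg_equivariant, ofXV_ρ]
  rfl

theorem Rx_Ex (x : Idx T Ĉ) (b : Comp T Ĉ x) : Rx T Ĉ x (Ex T Ĉ hĈ x b) = b := by
  show Rg _ _ _ _ _ (toXV T Ĉ x.1 (ofXV T Ĉ x.1 (Eg _ _ _ _ hĈ _ b))) = b
  rw [toXV_ofXV, Rg_Eg]

theorem Rx_Ex_ne (x y : Idx T Ĉ) (h : x ≠ y) (b : Comp T Ĉ y) :
    Rx T Ĉ x (Ex T Ĉ hĈ y b) = 0 := by
  obtain ⟨q, w⟩ := x
  obtain ⟨q', w'⟩ := y
  by_cases hq : q = q'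
  · subst hq
    have hw : w ≠ w' := fun hw => h (by rw [hw])
    show Rg _ _ _ _ _ (toXV T Ĉ q (ofXV T Ĉ q (Eg _ _ _ _ hĈ _ b))) = 0
    rw [toXV_ofXV]
    exact Rg_Eg_of_not _ _ _ _ hĈ (not_inDC_out _ _ (Ne.symm hw)) b
  · show Rg _ _ _ _ _ (toXV T Ĉ q (ofXV T Ĉ q' (Eg _ _ _ _ hĈ _ b))) = 0
    rw [toXV_ofXV_ne T Ĉ hq, map_zero]

theorem sum_Ex_Rx
    [∀ q : ↥T, Fintype (DC (localGaloisToGlobal ((q : Nat.Primes) : ℕ)) Ĉ)]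
    (a : Rep.res Ĉ.subtype (IS T)) :
    ∑ x : Idx T Ĉ, Ex T Ĉ hĈ x (Rx T Ĉ x a) = a := by
  have h1 : ∑ x : Idx T Ĉ, Ex T Ĉ hĈ x (Rx T Ĉ x a) =
      ∑ q : ↥T, ∑ w : DC (localGaloisToGlobal ((q : Nat.Primes) : ℕ)) Ĉ,
        Ex T Ĉ hĈ ⟨q, w⟩ (Rx T Ĉ ⟨q, w⟩ a) := by
    exact Fintype.sum_sigma _
  rw [h1]
  refine Eq.trans (Finset.sum_congr rfl fun q _ => ?_) (sum_ofXV_toXV T Ĉ a)
  show ∑ w : DC (localGaloisToGlobal ((q : Nat.Primes) : ℕ)) Ĉ,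
    ofXV T Ĉ q (Eg _ _ _ _ hĈ w.out (Rg _ _ _ _ w.out (toXV T Ĉ q a))) = _
  rw [← map_sum, sum_Eg_Rg]

end Comp

end Fermat.Agent.W56.ISDecomp2
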