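/-
Programme W56 (S56), chapter (EC-5), helper2.

`NestH2_2`: transport of level `H²` along group isomorphisms, and the case of nested subgroups.

* `ppH2_bijective`: for `ε : G ≃* H` bicontinuous and `φ : A ≃ B` compatible, `ppH2 ε φ` is bijective;
* `nestEquiv`: for `K ≤ L ≤ G` (`K : Subgroup ↥L`), `K' = K.map L.subtype`:
  `H²(K; (A|_L)|_K) ≃ H²(K'; A|_{K'})` (induced bases);
* `pTorEquiv`, `card_pTor_congr`, `finite_pTor_congr`: `p`-torsion along an additive equivalence;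
* `isLevelHom_of_cofinal`, `hind_of_cofinal`, `cofinal_comap`: bookkeeping of cofinal bases.
-/
import Mathlib
import Fermat.Agent.W56.Cofinal2
import Fermat.Agent.W56.ResInj2
import Fermat.Agent.PT.PRO.InvP4
import Fermat.Agent.PT.PRO.LevelCohRes28

set_option autoImplicit false
set_option linter.unusedSectionVars false

open CategoryTheory groupCohomology

namespace Fermat.Agent.W56.NestH2_2

open Fermat.Agent.PT.PRO Fermat.Agent.PT.PRO.LevelCoh28 Fermat.Agent.PT.PRO.LevelCohRes28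
  Fermat.Agent.PT.PRO.InvP4 Fermat.Agent.PT.GLUE.Objects21

/-! ### Transport along a group isomorphism -/

section Equiv

variable {k G H : Type} [CommRing k] [Group G] [Group H] (ε : G ≃* H)
  {𝓑G : LevelBasis G} {𝓑H : LevelBasis H}
  {A : Rep.{0} k H} {B : Rep.{0} k G} (φ : A ≃ₗ[k] B)
  (hφ : ∀ (g : G) (a : A), φ.toLinearMap (A.ρ (ε.toMonoidHom g) a) = B.ρ g (φ.toLinearMap a))
  (hf : IsLevelHom ε.toMonoidHom 𝓑G.sets 𝓑H.sets)
  (hf' : IsLevelHom ε.symm.toMonoidHom 𝓑H.sets 𝓑G.sets)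

include hφ in
theorem symm_equivariant (h : H) (b : B) :
    φ.symm.toLinearMap (B.ρ (ε.symm.toMonoidHom h) b) = A.ρ h (φ.symm.toLinearMap b) := by
  apply φ.injective
  have h1 := hφ (ε.symm h) (φ.symm b)
  simp only [LinearEquiv.coe_coe, MulEquiv.toMonoidHom_eq_coe, MonoidHom.coe_coe,
    MulEquiv.apply_symm_apply, LinearEquiv.apply_symm_apply] at h1 ⊢
  rw [h1]

include hf' in
theorem ppH2_bijective : Function.Bijective (ppH2 ε.toMonoidHom φ.toLinearMap hφ hf) := by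
  have hinv := symm_equivariant ε φ hφ
  refine Function.bijective_iff_has_inverse.2
    ⟨ppH2 ε.symm.toMonoidHom φ.symm.toLinearMap hinv hf', fun x => ?_, fun y => ?_⟩
  · obtain ⟨c, rfl⟩ := H2mk_surjective 𝓑H A x
    rw [ppH2_mk, ppH2_mk]
    congr 1
    apply Subtype.ext
    funext ⟨a, b⟩
    simp
  · obtain ⟨c, rfl⟩ := H2mk_surjective 𝓑G B y
    rw [ppH2_mk, ppH2_mk]
    congr 1
    apply Subtype.ext
    funext ⟨a, b⟩
    simp

/-- The transport isomorphism. -/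
noncomputable def ppEquiv : H2 𝓑H A ≃ₗ[k] H2 𝓑G B :=
  LinearEquiv.ofBijective (ppH2 ε.toMonoidHom φ.toLinearMap hφ hf) (ppH2_bijective ε φ hφ hf hf')

end Equiv

/-! ### Nested subgroups -/

section Nest

variable {k G : Type} [CommRing k] [Group G] (𝓑 : LevelBasis G) (A : Rep.{0} k G)
  (L : Subgroup G) (K : Subgroup ↥L)

/-- `K ≃* K.map L.subtype`. -/
noncomputable def nestMul : ↥K ≃* ↥(K.map L.subtype) :=
  K.equivMapOfInjective L.subtype L.subtype_injective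

theorem coe_nestMul (x : ↥K) : ((nestMul L K x : ↥(K.map L.subtype)) : G) = ((x : ↥L) : G) := rfl

theorem coe_nestMul_symm (y : ↥(K.map L.subtype)) :
    ((((nestMul L K).symm y : ↥K) : ↥L) : G) = (y : G) := by
  conv_rhs => rw [← (nestMul L K).apply_symm_apply y]
  rfl

theorem isLevelHom_nestMul :
    IsLevelHom (nestMul L K).toMonoidHom (comapBasis K.subtype (comapBasis L.subtype 𝓑)).sets
      (comapBasis (K.map L.subtype).subtype 𝓑).sets := by
  rintro _ ⟨U, hU, rfl⟩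
  exact ⟨_, ⟨_, ⟨U, hU, rfl⟩, rfl⟩, fun x hx => hx⟩

theorem isLevelHom_nestMul_symm :
    IsLevelHom (nestMul L K).symm.toMonoidHom (comapBasis (K.map L.subtype).subtype 𝓑).sets
      (comapBasis K.subtype (comapBasis L.subtype 𝓑)).sets := by
  rintro _ ⟨_, ⟨U, hU, rfl⟩, rfl⟩
  refine ⟨_, ⟨U, hU, rfl⟩, fun y hy => ?_⟩
  show ((((nestMul L K).symm y : ↥K) : ↥L) : G) ∈ U
  rw [coe_nestMul_symm]
  exact hy

/-- **Nested subgroups**: `H²(K'; A|_{K'}) ≃ H²(K; (A|_L)|_K)`, `K' = K.map L.subtype`. -/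
noncomputable def nestEquiv :
    H2 (comapBasis (K.map L.subtype).subtype 𝓑) (Rep.res (K.map L.subtype).subtype A) ≃ₗ[k]
      H2 (comapBasis K.subtype (comapBasis L.subtype 𝓑))
        (Rep.res K.subtype (Rep.res L.subtype A)) :=
  ppEquiv (nestMul L K) (A := Rep.res (K.map L.subtype).subtype A)
    (B := Rep.res K.subtype (Rep.res L.subtype A)) (LinearEquiv.refl k A)
    (fun _ _ => rfl) (isLevelHom_nestMul 𝓑 L K) (isLevelHom_nestMul_symm 𝓑 L K)

end Nest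

/-! ### `p`-torsion along an additive equivalence -/

section PTor

variable (p : ℕ) {X X' : Type*} [AddCommGroup X] [AddCommGroup X'] (e : X ≃+ X')

/-- `X[p] ≃ X'[p]`. -/
def pTorEquiv : ↥(pTor p X) ≃ ↥(pTor p X') where
  toFun x := ⟨e x.1, by
    show p • e x.1 = 0
    rw [← map_nsmul, (show p • x.1 = 0 from x.2), map_zero]⟩
  invFun y := ⟨e.symm y.1, by
    show p • e.symm y.1 = 0
    rw [← map_nsmul, (show p • y.1 = 0 from y.2), map_zero]⟩
  left_inv x := Subtype.ext (e.symm_apply_apply x.1)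
  right_inv y := Subtype.ext (e.apply_symm_apply y.1)

include e in
theorem card_pTor_congr : Nat.card ↥(pTor p X) = Nat.card ↥(pTor p X') :=
  Nat.card_congr (pTorEquiv p e)

include e in
theorem finite_pTor_congr [Finite ↥(pTor p X')] : Finite ↥(pTor p X) :=
  Finite.of_equiv _ (pTorEquiv p e).symm

include e in
theorem exists_ne_zero_congr (h : ∃ x : X', x ≠ 0 ∧ p • x = 0) : ∃ x : X, x ≠ 0 ∧ p • x = 0 := by
  obtain ⟨x, hx0, hpx⟩ := h
  refine ⟨e.symm x, fun h0 => hx0 ?_, by rw [← map_nsmul, hpx, map_zero]⟩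
  rw [← e.apply_symm_apply x, h0, map_zero]

end PTor

/-! ### Cofinal bases -/

section Cofinal

variable {G H : Type} [Group G] [Group H] (f : G →* H)
  {𝓤 𝓤' : Set (Subgroup G)} {𝓥 : Set (Subgroup H)}

theorem isLevelHom_of_cofinal (h12 : ∀ U ∈ 𝓤, ∃ U' ∈ 𝓤', U' ≤ U) (hf : IsLevelHom f 𝓤 𝓥) :
    IsLevelHom f 𝓤' 𝓥 := by
  intro V hV
  obtain ⟨U, hU, hUV⟩ := hf V hV
  obtain ⟨U', hU', hU'U⟩ := h12 U hU
  exact ⟨U', hU', hU'U.trans hUV⟩

theorem hind_of_cofinal (h21 : ∀ U' ∈ 𝓤', ∃ U ∈ 𝓤, U ≤ U')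
    (hind : ∀ W ∈ 𝓤, ∃ V ∈ 𝓥, V.comap f ≤ W) : ∀ W ∈ 𝓤', ∃ V ∈ 𝓥, V.comap f ≤ W := by
  intro W hW
  obtain ⟨U, hU, hUW⟩ := h21 W hW
  obtain ⟨V, hV, hVU⟩ := hind U hU
  exact ⟨V, hV, hVU.trans hUW⟩

theorem cofinal_comap {𝓑 𝓑' : LevelBasis H} (h : ∀ U ∈ 𝓑.sets, ∃ U' ∈ 𝓑'.sets, U' ≤ U) :
    ∀ U ∈ (comapBasis f 𝓑).sets, ∃ U' ∈ (comapBasis f 𝓑').sets, U' ≤ U := by
  rintro _ ⟨U, hU, rfl⟩
  obtain ⟨U', hU', hle⟩ := h U hU
  exact ⟨_, ⟨U', hU', rfl⟩, Subgroup.comap_mono hle⟩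

end Cofinal

end Fermat.Agent.W56.NestH2_2
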