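/-
Programme W56 (S56), chapter (EC-5), helper2.

`PhiAdd2`: additivity of the multiplicity `μ_P(H²(G; W(Y))[p])` (`W = Coind_H^G Res_H`, with the
action `star` of `Q = G ⧸ H`) over a finite decomposition of the `G`-module `Y`:

* `dimInv_decomp`, `muP_decomp`: `μ_P` is additive over a finite decomposition by equivariant
  projections / injections;
* `mapH2_mapH2_congr`, `mapH2_mapH2_id`, `mapH2_mapH2_zero`, `sum_mapH2_mapH2`: calculus of `mapH2`;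
* `Phi`, `hmap`, `Phi_decomp`: the additivity statement consumed by `ISCount2`.
-/
import Mathlib
import Fermat.Agent.W56.BaseContracts4

set_option autoImplicit false
set_option linter.unusedSectionVars false
set_option linter.style.haveILetI false

open CategoryTheory

namespace Fermat.Agent.W56.PhiAdd2

open Fermat.Agent.PT.PRO Fermat.Agent.PT.PRO.LevelCoh28
  Fermat.Agent.W56.MuP4 Fermat.Agent.W56.TorsSnake4 Fermat.Agent.W56.KummerStar4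
  Fermat.Agent.W56.IntRes4 Fermat.Agent.W56.CoindStar4 Fermat.Agent.W56.BaseContracts4

/-- prefer the module structure carried by a `Rep ℤ G`. -/
local instance (priority := 10000) repModZ {G : Type} [Group G] (E : Rep.{0} ℤ G) : Module ℤ E :=
  E.hV2

/-! ### `μ_P` over a finite decomposition -/

section Mu

variable {k : Type*} [Field k] {C : Type*} [Group C] [Fintype C] [Invertible (Fintype.card C : k)]

theorem dimInv_decomp {ι : Type*} [Fintype ι] {A : Type*} [AddCommGroup A] [Module k A]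
    (ρA : Representation k C A) (A' : ι → Type*) [∀ i, AddCommGroup (A' i)]
    [∀ i, Module k (A' i)] [∀ i, FiniteDimensional k (A' i)]
    (ρ' : ∀ i, Representation k C (A' i))
    (r : ∀ i, A →ₗ[k] A' i) (e : ∀ i, A' i →ₗ[k] A)
    (hr : ∀ i c a, r i (ρA c a) = ρ' i c (r i a)) (he : ∀ i c a, e i (ρ' i c a) = ρA c (e i a))
    (hre : ∀ i a, r i (e i a) = a) (hre0 : ∀ i j, i ≠ j → ∀ a, r i (e j a) = 0)
    (hsum : ∀ a, ∑ i, e i (r i a) = a) :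
    dimInv ρA = ∑ i, dimInv (ρ' i) := by
  classical
  unfold dimInv
  rw [← Module.finrank_pi_fintype k (M := fun i => ↥(ρ' i).invariants)]
  refine LinearEquiv.finrank_eq
    { toFun := fun a i => invMapC ρA (ρ' i) (r i) (hr i) a
      map_add' := fun a b => funext fun i => map_add _ a b
      map_smul' := fun c a => funext fun i => map_smul _ c a
      invFun := fun x => ⟨∑ i, e i (x i).1, fun c => by
        rw [map_sum]
        exact Finset.sum_congr rfl fun i _ => by rw [← he, (x i).2 c]⟩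
      left_inv := fun a => Subtype.ext (hsum a.1)
      right_inv := fun x => funext fun i => Subtype.ext (by
        show r i (∑ j, e j (x j).1) = (x i).1
        rw [map_sum, Finset.sum_eq_single i]
        · exact hre i _
        · intro j _ hj
          exact hre0 i j (Ne.symm hj) _
        · intro h
          exact absurd (Finset.mem_univ i) h) }

theorem muP_decomp {ι : Type*} [Fintype ι] {P : Type*} [AddCommGroup P] [Module k P]
    [FiniteDimensional k P] (ρP : Representation k C P)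
    {A : Type*} [AddCommGroup A] [Module k A]
    (ρA : Representation k C A) (A' : ι → Type*) [∀ i, AddCommGroup (A' i)]
    [∀ i, Module k (A' i)] [∀ i, FiniteDimensional k (A' i)]
    (ρ' : ∀ i, Representation k C (A' i))
    (r : ∀ i, A →ₗ[k] A' i) (e : ∀ i, A' i →ₗ[k] A)
    (hr : ∀ i c a, r i (ρA c a) = ρ' i c (r i a)) (he : ∀ i c a, e i (ρ' i c a) = ρA c (e i a))
    (hre : ∀ i a, r i (e i a) = a) (hre0 : ∀ i j, i ≠ j → ∀ a, r i (e j a) = 0)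
    (hsum : ∀ a, ∑ i, e i (r i a) = a) :
    muP ρP ρA = ∑ i, muP ρP (ρ' i) := by
  unfold muP
  refine dimInv_decomp (Representation.linHom ρP ρA) (fun i => P →ₗ[k] A' i)
    (fun i => Representation.linHom ρP (ρ' i))
    (fun i => LinearMap.compRight (M := P) k (r i)) (fun i => LinearMap.compRight (M := P) k (e i))
    ?_ ?_ ?_ ?_ ?_
  · intro i c f
    ext x
    simp only [LinearMap.compRight_apply, Representation.linHom_apply, LinearMap.coe_comp,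
      Function.comp_apply]
    exact hr i c _
  · intro i c f
    ext x
    simp only [LinearMap.compRight_apply, Representation.linHom_apply, LinearMap.coe_comp,
      Function.comp_apply]
    exact he i c _
  · intro i f
    ext x
    exact hre i _
  · intro i j hij f
    ext x
    exact hre0 i j hij _
  · intro f
    ext x
    simp only [LinearMap.compRight_apply, LinearMap.sum_apply, LinearMap.coe_comp,
      Function.comp_apply]
    exact hsum _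

end Mu

/-! ### Calculus of `mapH2` -/

section MapH2

variable {k G : Type} [CommRing k] [Group G] {𝓑 : LevelBasis G}

theorem mapH2_mapH2_congr {A B B' D : Rep.{0} k G}
    (φ : A →ₗ[k] B) (hφ : ∀ g a, φ (A.ρ g a) = B.ρ g (φ a))
    (ψ : B →ₗ[k] D) (hψ : ∀ g a, ψ (B.ρ g a) = D.ρ g (ψ a))
    (φ' : A →ₗ[k] B') (hφ' : ∀ g a, φ' (A.ρ g a) = B'.ρ g (φ' a))
    (ψ' : B' →ₗ[k] D) (hψ' : ∀ g a, ψ' (B'.ρ g a) = D.ρ g (ψ' a))
    (h : ∀ a, ψ (φ a) = ψ' (φ' a)) (y : H2 𝓑 A) :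
    mapH2 (𝓑 := 𝓑) ψ hψ (mapH2 (𝓑 := 𝓑) φ hφ y) =
      mapH2 (𝓑 := 𝓑) ψ' hψ' (mapH2 (𝓑 := 𝓑) φ' hφ' y) := by
  obtain ⟨c, rfl⟩ := H2mk_surjective 𝓑 A y
  rw [mapH2_mk, mapH2_mk, mapH2_mk, mapH2_mk]
  congr 1
  apply Subtype.ext
  funext x
  exact h _

theorem mapH2_mapH2_id {A B : Rep.{0} k G}
    (φ : A →ₗ[k] B) (hφ : ∀ g a, φ (A.ρ g a) = B.ρ g (φ a))
    (ψ : B →ₗ[k] A) (hψ : ∀ g a, ψ (B.ρ g a) = A.ρ g (ψ a))
    (h : ∀ a, ψ (φ a) = a) (y : H2 𝓑 A) :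
    mapH2 (𝓑 := 𝓑) ψ hψ (mapH2 (𝓑 := 𝓑) φ hφ y) = y := by
  obtain ⟨c, rfl⟩ := H2mk_surjective 𝓑 A y
  rw [mapH2_mk, mapH2_mk]
  congr 1
  apply Subtype.ext
  funext x
  exact h _

theorem mapH2_mapH2_zero {A B D : Rep.{0} k G}
    (φ : A →ₗ[k] B) (hφ : ∀ g a, φ (A.ρ g a) = B.ρ g (φ a))
    (ψ : B →ₗ[k] D) (hψ : ∀ g a, ψ (B.ρ g a) = D.ρ g (ψ a))
    (h : ∀ a, ψ (φ a) = 0) (y : H2 𝓑 A) :
    mapH2 (𝓑 := 𝓑) ψ hψ (mapH2 (𝓑 := 𝓑) φ hφ y) = 0 := by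
  obtain ⟨c, rfl⟩ := H2mk_surjective 𝓑 A y
  rw [mapH2_mk, mapH2_mk]
  have : mapZ2 (𝓑 := 𝓑) ψ hψ (mapZ2 (𝓑 := 𝓑) φ hφ c) = 0 := by
    apply Subtype.ext
    funext x
    exact h _
  rw [this, map_zero]

theorem sum_mapH2_mapH2 {ι : Type*} [Fintype ι] {A : Rep.{0} k G} (B : ι → Rep.{0} k G)
    (φ : ∀ i, A →ₗ[k] B i) (hφ : ∀ i g a, φ i (A.ρ g a) = (B i).ρ g (φ i a))
    (ψ : ∀ i, B i →ₗ[k] A) (hψ : ∀ i g a, ψ i ((B i).ρ g a) = A.ρ g (ψ i a))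
    (h : ∀ a, ∑ i, ψ i (φ i a) = a) (y : H2 𝓑 A) :
    ∑ i, mapH2 (𝓑 := 𝓑) (ψ i) (hψ i) (mapH2 (𝓑 := 𝓑) (φ i) (hφ i) y) = y := by
  obtain ⟨c, rfl⟩ := H2mk_surjective 𝓑 A y
  simp only [mapH2_mk]
  rw [← map_sum]
  congr 1
  apply Subtype.ext
  funext x
  rw [Submodule.coe_sum, Finset.sum_apply]
  exact h _

end MapH2

/-! ### The multiplicity `Φ(Y) = μ_P(H²(G; W(Y))[p])` -/

section Phi

variable {G : Type} [Group G] (𝓑 : LevelBasis G) (H : Subgroup G) [hHn : H.Normal]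
  (p : ℕ) [Fact p.Prime]

/-- The action of `G ⧸ H` on `H²(G; W(Y))[p]`. -/
noncomputable abbrev torsW (Y : Rep.{0} ℤ G) :
    Representation (ZMod p) (G ⧸ H) (torsP p (H2 𝓑 (W 𝓑 H Y))) :=
  torsRep p (canonRep (opH2 𝓑 (W 𝓑 H Y) (CoindStar4.star 𝓑 H Y) (star_comm 𝓑 H Y)))

/-- The map induced on `H²(G; W(·))[p]` by an equivariant map. -/
noncomputable def hmap {A B : Rep.{0} ℤ G} (φ : A →ₗ[ℤ] B)
    (hφ : ∀ g a, φ (A.ρ g a) = B.ρ g (φ a)) :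
    torsP p (H2 𝓑 (W 𝓑 H A)) →ₗ[ZMod p] torsP p (H2 𝓑 (W 𝓑 H B)) :=
  torsMap p (mapH2 (𝓑 := 𝓑) (Wmap 𝓑 H φ hφ) (Wmap_equivariant 𝓑 H φ hφ)).toAddMonoidHom

theorem coe_hmap {A B : Rep.{0} ℤ G} (φ : A →ₗ[ℤ] B)
    (hφ : ∀ g a, φ (A.ρ g a) = B.ρ g (φ a)) (x : torsP p (H2 𝓑 (W 𝓑 H A))) :
    ((hmap 𝓑 H p φ hφ x : torsP p (H2 𝓑 (W 𝓑 H B))) : H2 𝓑 (W 𝓑 H B)) =
      mapH2 (𝓑 := 𝓑) (Wmap 𝓑 H φ hφ) (Wmap_equivariant 𝓑 H φ hφ) x.1 := rfl

theorem coe_torsW (Y : Rep.{0} ℤ G) (q : G ⧸ H) (x : torsP p (H2 𝓑 (W 𝓑 H Y))) :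
    ((torsW 𝓑 H p Y q x : torsP p (H2 𝓑 (W 𝓑 H Y))) : H2 𝓑 (W 𝓑 H Y)) =
      mapH2 (𝓑 := 𝓑) (CoindStar4.star 𝓑 H Y q) (star_comm 𝓑 H Y q) x.1 := rfl

theorem hmap_equivariant {A B : Rep.{0} ℤ G} (φ : A →ₗ[ℤ] B)
    (hφ : ∀ g a, φ (A.ρ g a) = B.ρ g (φ a)) (q : G ⧸ H) (x : torsP p (H2 𝓑 (W 𝓑 H A))) :
    hmap 𝓑 H p φ hφ (torsW 𝓑 H p A q x) = torsW 𝓑 H p B q (hmap 𝓑 H p φ hφ x) := by
  apply Subtype.ext
  rw [coe_hmap, coe_torsW, coe_torsW, coe_hmap]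
  exact mapH2_mapH2_congr _ _ _ _ _ _ _ _ (fun F => Wmap_star 𝓑 H φ hφ q F) x.1

variable [Fintype (G ⧸ H)] [Invertible (Fintype.card (G ⧸ H) : ZMod p)]
  {P : Type} [AddCommGroup P] [Module (ZMod p) P] [FiniteDimensional (ZMod p) P]
  (ρP : Representation (ZMod p) (G ⧸ H) P)

/-- `Φ(Y) = μ_P(H²(G; W(Y))[p])`. -/
noncomputable def Phi (Y : Rep.{0} ℤ G) : ℕ := muP ρP (torsW 𝓑 H p Y)

theorem Phi_def (Y : Rep.{0} ℤ G) :
    Phi 𝓑 H p ρP Y = muP ρP (torsRep p (canonRep (opH2 𝓑 (W 𝓑 H Y) (CoindStar4.star 𝓑 H Y)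
      (star_comm 𝓑 H Y)))) := rfl

/-- **Additivity of `Φ`** over a finite decomposition of the coefficients. -/
theorem Phi_decomp {ι : Type} [Fintype ι] (Y : Rep.{0} ℤ G) (B : ι → Rep.{0} ℤ G)
    [∀ i, Finite (torsP p (H2 𝓑 (W 𝓑 H (B i))))]
    (R : ∀ i, Y →ₗ[ℤ] B i) (hR : ∀ i g a, R i (Y.ρ g a) = (B i).ρ g (R i a))
    (E : ∀ i, B i →ₗ[ℤ] Y) (hE : ∀ i g a, E i ((B i).ρ g a) = Y.ρ g (E i a))
    (hRE : ∀ i a, R i (E i a) = a) (hRE0 : ∀ i j, i ≠ j → ∀ a, R i (E j a) = 0)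
    (hsum : ∀ a, ∑ i, E i (R i a) = a) :
    Phi 𝓑 H p ρP Y = ∑ i, Phi 𝓑 H p ρP (B i) := by
  classical
  unfold Phi
  haveI : ∀ i, FiniteDimensional (ZMod p) (torsP p (H2 𝓑 (W 𝓑 H (B i)))) := fun i =>
    Module.Finite.of_finite
  refine muP_decomp ρP (torsW 𝓑 H p Y) (fun i => torsP p (H2 𝓑 (W 𝓑 H (B i))))
    (fun i => torsW 𝓑 H p (B i)) (fun i => hmap 𝓑 H p (R i) (hR i))
    (fun i => hmap 𝓑 H p (E i) (hE i)) ?_ ?_ ?_ ?_ ?_
  · intro i q x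
    exact hmap_equivariant 𝓑 H p (R i) (hR i) q x
  · intro i q x
    exact hmap_equivariant 𝓑 H p (E i) (hE i) q x
  · intro i x
    apply Subtype.ext
    rw [coe_hmap, coe_hmap]
    exact mapH2_mapH2_id _ _ _ _ (fun F => W_ext 𝓑 H (B i) fun x => by
      rw [val_Wmap, val_Wmap, hRE]) x.1
  · intro i j hij x
    apply Subtype.ext
    rw [coe_hmap, coe_hmap]
    exact mapH2_mapH2_zero _ _ _ _ (fun F => W_ext 𝓑 H (B i) fun x => by
      rw [val_Wmap, val_Wmap, hRE0 i j hij]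
      rfl) x.1
  · intro x
    apply Subtype.ext
    rw [AddSubmonoidClass.coe_finsetSum]
    simp only [coe_hmap]
    exact sum_mapH2_mapH2 (fun i => W 𝓑 H (B i)) _ _ _ _ (fun F => W_ext 𝓑 H Y fun x => by
      have : val 𝓑 H Y (∑ i, Wmap 𝓑 H (E i) (hE i) (Wmap 𝓑 H (R i) (hR i) F)) x =
          ∑ i, val 𝓑 H Y (Wmap 𝓑 H (E i) (hE i) (Wmap 𝓑 H (R i) (hR i) F)) x := by
        induction (Finset.univ : Finset ι) using Finset.induction_on with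
        | empty => rfl
        | insert i s hi ih => rw [Finset.sum_insert hi, Finset.sum_insert hi, val_add, ih]
      rw [this]
      simp only [val_Wmap]
      exact hsum _) x.1

end Phi

end Fermat.Agent.W56.PhiAdd2
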