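/-
Programme W56 (S56), chapter (EC-5), helper2.

`MonoHyp2`: the hypotheses of helper4's monomial theorem `BaseContracts4.MonoW` for a Mackey
component `S = Sg i 𝓑₀ Y V g₀ = Coind_{j}(Y|_L)` (`L = i⁻¹(g₀ V g₀⁻¹)`, `j = g₀⁻¹ i(·) g₀ : L → V`) of a
coinduced module, from statements about the open subgroups of the source group `Hloc` of `i`:

* `shB`: Shapiro for `S` with the subgroup basis of `L`; `exists_ne_zero_Sg` (hypothesis (a));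
* `shK`, `eK`: Shapiro for the Mackey components of `S|_H` (`H ≤ V` open) and the transport to the
  subgroup `K' = (Hg j H g).map L.subtype` of `Hloc`; `card_pTor_nested` (hypothesis (b));
* `finite_pTor_of_decomp`, `finite_torsP_W`: finiteness of `H²(V; W(S))[p]`.
-/
import Mathlib
import Fermat.Agent.W56.NestH2_2
import Fermat.Agent.W56.MackeyInst2
import Fermat.Agent.W56.PhiAdd2
import Fermat.Agent.W56.TraceOpen8

set_option autoImplicit false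
set_option linter.unusedSectionVars false
set_option linter.style.haveILetI false

open CategoryTheory groupCohomology

namespace Fermat.Agent.W56.MonoHyp2

open Fermat.Agent.PT.PRO Fermat.Agent.PT.PRO.LevelCoh28 Fermat.Agent.PT.PRO.LevelCohRes28
  Fermat.Agent.PT.PRO.SmoothCoind28 Fermat.Agent.PT.PRO.ShapiroLevel28
  Fermat.Agent.PT.PRO.InvP4 Fermat.Agent.PT.GLUE.Objects21
  Fermat.Agent.W56.Mackey2 Fermat.Agent.W56.MackeyInst2 Fermat.Agent.W56.Cofinal2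
  Fermat.Agent.W56.NestH2_2 Fermat.Agent.W56.PhiAdd2

/-! ### First level: Shapiro for a Mackey component, subgroup basis -/

section First

variable {k G₀ Hloc : Type} [CommRing k] [Group G₀] [Group Hloc]
variable (i : Hloc →* G₀) (𝓑₀ : LevelBasis G₀) (Y : Rep.{0} k Hloc) (V : Subgroup G₀)
  (g₀ : G₀)

theorem hcontB : IsLevelHom (jg i V g₀) (basisB i 𝓑₀ V g₀).sets (basisV 𝓑₀ V).sets :=
  isLevelHom_of_cofinal (jg i V g₀) (cofinal_AB i 𝓑₀ V g₀) (hcont_jg i 𝓑₀ V g₀)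

theorem hindB : ∀ W ∈ (basisB i 𝓑₀ V g₀).sets,
    ∃ U ∈ (basisV 𝓑₀ V).sets, U.comap (jg i V g₀) ≤ W :=
  hind_of_cofinal (jg i V g₀) (cofinal_BA i 𝓑₀ V g₀) (hind_jg i 𝓑₀ V g₀)

variable (hY : IsDiscrete (basisH i 𝓑₀).sets Y)

include hY in
theorem isDiscrete_YgB : IsDiscrete (basisB i 𝓑₀ V g₀).sets (Yg i Y V g₀) :=
  ResInj2.isDiscrete_res (basisH i 𝓑₀) Y (Hg i V g₀) hY

/-- Shapiro for the Mackey component, with the subgroup basis on `L = Hg i V g₀`. -/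
noncomputable def shB :
    H2 (basisV 𝓑₀ V) (Sg i 𝓑₀ Y V g₀) ≃ₗ[k] H2 (basisB i 𝓑₀ V g₀) (Yg i Y V g₀) :=
  sh2Equiv (jg i V g₀) (basisV 𝓑₀ V) (basisB i 𝓑₀ V g₀) (hcontB i 𝓑₀ V g₀) (hindB i 𝓑₀ V g₀)
    (Yg i Y V g₀) (isDiscrete_YgB i 𝓑₀ Y V g₀ hY)

include hY in
/-- Hypothesis (a) of `MonoW` from the local statement at `L`. -/
theorem exists_ne_zero_Sg (p : ℕ)
    (h : ∃ x : H2 (comapBasis (Hg i V g₀).subtype (basisH i 𝓑₀))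
      (Rep.res (Hg i V g₀).subtype Y), x ≠ 0 ∧ p • x = 0) :
    ∃ x : H2 (basisV 𝓑₀ V) (Sg i 𝓑₀ Y V g₀), x ≠ 0 ∧ p • x = 0 :=
  exists_ne_zero_congr p (shB i 𝓑₀ Y V g₀ hY).toAddEquiv h

end First

/-! ### Second level -/

section Second

variable {k G₀ Hloc : Type} [CommRing k] [Group G₀] [Group Hloc]
variable (i : Hloc →* G₀) (𝓑₀ : LevelBasis G₀) (Y : Rep.{0} k Hloc) (V : Subgroup G₀)
  (hV : ∃ U₀ ∈ 𝓑₀.sets, U₀ ≤ V) (hY : IsDiscrete (basisH i 𝓑₀).sets Y) (g₀ : G₀)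
  (H : Subgroup ↥V) (hH : ∃ U ∈ (basisV 𝓑₀ V).sets, U ≤ H) (g : ↥V)

/-- The nested subgroup `K = Hg j H g ≤ L`. -/
abbrev Kn : Subgroup ↥(Hg i V g₀) := Hg (jg i V g₀) H g

/-- Its image `K' ≤ Hloc`. -/
abbrev Kn' : Subgroup Hloc := (Kn i V g₀ H g).map (Hg i V g₀).subtype

/-- The subgroup basis of `K` induced from `Hloc`. -/
abbrev basisK : LevelBasis ↥(Kn i V g₀ H g) :=
  comapBasis (Kn i V g₀ H g).subtype (basisB i 𝓑₀ V g₀)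

theorem hcontK : IsLevelHom (jg (jg i V g₀) H g) (basisK i 𝓑₀ V g₀ H g).sets
    (basisV (basisV 𝓑₀ V) H).sets :=
  isLevelHom_of_cofinal _ (cofinal_comap (Kn i V g₀ H g).subtype (cofinal_AB i 𝓑₀ V g₀))
    (hcontB (jg i V g₀) (basisV 𝓑₀ V) H g)

theorem hindK : ∀ W ∈ (basisK i 𝓑₀ V g₀ H g).sets,
    ∃ U ∈ (basisV (basisV 𝓑₀ V) H).sets, U.comap (jg (jg i V g₀) H g) ≤ W :=
  hind_of_cofinal _ (cofinal_comap (Kn i V g₀ H g).subtype (cofinal_BA i 𝓑₀ V g₀))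
    (hindB (jg i V g₀) (basisV 𝓑₀ V) H g)

include hY in
theorem isDiscrete_YgK :
    IsDiscrete (basisK i 𝓑₀ V g₀ H g).sets (Yg (jg i V g₀) (Yg i Y V g₀) H g) :=
  ResInj2.isDiscrete_res (basisB i 𝓑₀ V g₀) (Yg i Y V g₀) (Kn i V g₀ H g)
    (isDiscrete_YgB i 𝓑₀ Y V g₀ hY)

/-- Shapiro for the Mackey components of `S|_H`, with the basis of `K` induced from `Hloc`. -/
noncomputable def shK :
    H2 (basisV (basisV 𝓑₀ V) H) (Sg (jg i V g₀) (basisV 𝓑₀ V) (Yg i Y V g₀) H g) ≃ₗ[k]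
      H2 (basisK i 𝓑₀ V g₀ H g) (Yg (jg i V g₀) (Yg i Y V g₀) H g) :=
  sh2Equiv (jg (jg i V g₀) H g) (basisV (basisV 𝓑₀ V) H) (basisK i 𝓑₀ V g₀ H g)
    (hcontK i 𝓑₀ V g₀ H g) (hindK i 𝓑₀ V g₀ H g) (Yg (jg i V g₀) (Yg i Y V g₀) H g)
    (isDiscrete_YgK i 𝓑₀ Y V hY g₀ H g)

/-- Shapiro + transport to the subgroup `K'` of `Hloc`. -/
noncomputable def eK :
    H2 (basisV (basisV 𝓑₀ V) H) (Sg (jg i V g₀) (basisV 𝓑₀ V) (Yg i Y V g₀) H g) ≃ₗ[k]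
      H2 (comapBasis (Kn' i V g₀ H g).subtype (basisH i 𝓑₀))
        (Rep.res (Kn' i V g₀ H g).subtype Y) :=
  (shK i 𝓑₀ Y V hY g₀ H g).trans
    (nestEquiv (basisH i 𝓑₀) Y (Hg i V g₀) (Kn i V g₀ H g)).symm

include hV hH in
/-- `K'` is open in `Hloc`. -/
theorem open_Kn' : ∃ U ∈ (basisH i 𝓑₀).sets, U ≤ Kn' i V g₀ H g := by
  obtain ⟨U, hU, hUK⟩ := open_Hg (jg i V g₀) (basisV 𝓑₀ V) H hH g
  obtain ⟨U', ⟨W, hW, rfl⟩, hU'U⟩ := cofinal_AB i 𝓑₀ V g₀ U hU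
  obtain ⟨W₀, hW₀, hW₀L⟩ := open_Hg i 𝓑₀ V hV g₀
  obtain ⟨W₁, hW₁, hle⟩ := (basisH i 𝓑₀).isBasis.directed W hW W₀ hW₀
  refine ⟨W₁, hW₁, fun h hh => ?_⟩
  have hL : h ∈ Hg i V g₀ := hW₀L (hle hh).2
  refine ⟨⟨h, hL⟩, hUK (hU'U ?_), rfl⟩
  exact (hle hh).1

include hV hH hY in
/-- Hypothesis (b) of `MonoW`, from the local statement for all open subgroups of `Hloc`. -/
theorem card_pTor_nested (p : ℕ)
    (hloc : ∀ H' : Subgroup Hloc, (∃ U ∈ (basisH i 𝓑₀).sets, U ≤ H') →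
      Nat.card ↥(pTor p (H2 (comapBasis H'.subtype (basisH i 𝓑₀)) (Rep.res H'.subtype Y))) = p) :
    Nat.card ↥(pTor p (H2 (basisV (basisV 𝓑₀ V) H)
      (Sg (jg i V g₀) (basisV 𝓑₀ V) (Yg i Y V g₀) H g))) = p := by
  rw [card_pTor_congr p (eK i 𝓑₀ Y V hY g₀ H g).toAddEquiv]
  exact hloc _ (open_Kn' i 𝓑₀ V hV g₀ H hH g)

end Second

/-! ### Finiteness -/

section Third

variable {k G : Type} [CommRing k] [Group G] {𝓑 : LevelBasis G}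

/-- `H²(A)[p]` is finite if `A` is a finite direct sum of modules with finite `H²[p]`. -/
theorem finite_pTor_of_decomp (p : ℕ) {ι : Type*} [Fintype ι] (A : Rep.{0} k G)
    (B : ι → Rep.{0} k G)
    (R : ∀ i, A →ₗ[k] B i) (hR : ∀ i g a, R i (A.ρ g a) = (B i).ρ g (R i a))
    (E : ∀ i, B i →ₗ[k] A) (hE : ∀ i g a, E i ((B i).ρ g a) = A.ρ g (E i a))
    (hsum : ∀ a, ∑ i, E i (R i a) = a)
    (hfin : ∀ i, Finite ↥(pTor p (H2 𝓑 (B i)))) : Finite ↥(pTor p (H2 𝓑 A)) := by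
  haveI := hfin
  let f : ↥(pTor p (H2 𝓑 A)) → ∀ i, ↥(pTor p (H2 𝓑 (B i))) := fun x i =>
    ⟨mapH2 (𝓑 := 𝓑) (R i) (hR i) x.1, by
      show p • mapH2 (𝓑 := 𝓑) (R i) (hR i) x.1 = 0
      rw [← map_nsmul, (show p • x.1 = 0 from x.2), map_zero]⟩
  refine Finite.of_injective f fun x y hxy => Subtype.ext ?_
  have hx := sum_mapH2_mapH2 (𝓑 := 𝓑) B R hR E hE hsum x.1
  have hy := sum_mapH2_mapH2 (𝓑 := 𝓑) B R hR E hE hsum y.1
  have h1 : ∀ i, mapH2 (𝓑 := 𝓑) (R i) (hR i) x.1 = mapH2 (𝓑 := 𝓑) (R i) (hR i) y.1 := fun i =>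
    congrArg (fun z => ((z i : ↥(pTor p (H2 𝓑 (B i)))) : H2 𝓑 (B i))) hxy
  calc x.1 = ∑ i, mapH2 (𝓑 := 𝓑) (E i) (hE i) (mapH2 (𝓑 := 𝓑) (R i) (hR i) x.1) := hx.symm
    _ = ∑ i, mapH2 (𝓑 := 𝓑) (E i) (hE i) (mapH2 (𝓑 := 𝓑) (R i) (hR i) y.1) :=
        Finset.sum_congr rfl fun i _ => by rw [h1 i]
    _ = y.1 := hy

end Third

section Fourth

variable {k G₀ Hloc : Type} [CommRing k] [Group G₀] [Group Hloc]
variable (i : Hloc →* G₀) (𝓑₀ : LevelBasis G₀) (Y : Rep.{0} k Hloc) (V : Subgroup G₀)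
  (hV : ∃ U₀ ∈ 𝓑₀.sets, U₀ ≤ V) (hY : IsDiscrete (basisH i 𝓑₀).sets Y) (g₀ : G₀)
  (H : Subgroup ↥V) (hH : ∃ U ∈ (basisV 𝓑₀ V).sets, U ≤ H)

include hV hH hY in
/-- `H²(H; S|_H)[p]` is finite for a Mackey component `S`. -/
theorem finite_pTor_XV (p : ℕ) (hp : p ≠ 0)
    (hloc : ∀ H' : Subgroup Hloc, (∃ U ∈ (basisH i 𝓑₀).sets, U ≤ H') →
      Nat.card ↥(pTor p (H2 (comapBasis H'.subtype (basisH i 𝓑₀)) (Rep.res H'.subtype Y))) = p) :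
    Finite ↥(pTor p (H2 (basisV (basisV 𝓑₀ V) H)
      (XV (jg i V g₀) (basisV 𝓑₀ V) (Yg i Y V g₀) H))) := by
  haveI := finite_DC (jg i V g₀) (basisV 𝓑₀ V) H hH
  haveI := Fintype.ofFinite (DC (jg i V g₀) H)
  have hsum := sum_Eg_Rg (jg i V g₀) (basisV 𝓑₀ V) (Yg i Y V g₀) H hH
  have hfin : ∀ D : DC (jg i V g₀) H, Finite ↥(pTor p (H2 (basisV (basisV 𝓑₀ V) H)
      (Sg (jg i V g₀) (basisV 𝓑₀ V) (Yg i Y V g₀) H D.out))) := fun D =>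
    Nat.finite_of_card_ne_zero (by
      rw [card_pTor_nested i 𝓑₀ Y V hV hY g₀ H hH D.out p hloc]
      exact hp)
  exact finite_pTor_of_decomp (𝓑 := basisV (basisV 𝓑₀ V) H) p
    (XV (jg i V g₀) (basisV 𝓑₀ V) (Yg i Y V g₀) H)
    (fun D : DC (jg i V g₀) H => Sg (jg i V g₀) (basisV 𝓑₀ V) (Yg i Y V g₀) H D.out)
    (fun D => Rg (jg i V g₀) (basisV 𝓑₀ V) (Yg i Y V g₀) H D.out)
    (fun D => Rg_equivariant (jg i V g₀) (basisV 𝓑₀ V) (Yg i Y V g₀) H D.out)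
    (fun D => Eg (jg i V g₀) (basisV 𝓑₀ V) (Yg i Y V g₀) H hH D.out)
    (fun D => Eg_equivariant (jg i V g₀) (basisV 𝓑₀ V) (Yg i Y V g₀) H hH D.out)
    hsum hfin

include hV hH hY in
/-- **Finiteness of `H²(V; W(S))[p]`** for a Mackey component `S`. -/
theorem finite_torsP_W (p : ℕ) (hp : p ≠ 0)
    (hloc : ∀ H' : Subgroup Hloc, (∃ U ∈ (basisH i 𝓑₀).sets, U ≤ H') →
      Nat.card ↥(pTor p (H2 (comapBasis H'.subtype (basisH i 𝓑₀)) (Rep.res H'.subtype Y))) = p) :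
    Finite ↥(TorsSnake4.torsP p (H2 (basisV 𝓑₀ V)
      (CoindStar4.W (basisV 𝓑₀ V) H (Sg i 𝓑₀ Y V g₀)))) := by
  haveI := finite_pTor_XV i 𝓑₀ Y V hV hY g₀ H hH p hp hloc
  haveI : Finite ↥(pTor p (H2 (basisV 𝓑₀ V)
      (CoindStar4.W (basisV 𝓑₀ V) H (Sg i 𝓑₀ Y V g₀)))) :=
    finite_pTor_congr p (TraceOpen8.shV (basisV 𝓑₀ V) (Sg i 𝓑₀ Y V g₀) H
      (isDiscrete_scoind (jg i V g₀) (basisV 𝓑₀ V) (Yg i Y V g₀))).toAddEquiv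
  exact Finite.of_injective
    (fun x : ↥(TorsSnake4.torsP p (H2 (basisV 𝓑₀ V)
      (CoindStar4.W (basisV 𝓑₀ V) H (Sg i 𝓑₀ Y V g₀)))) =>
      (⟨x.1, x.2⟩ : ↥(pTor p (H2 (basisV 𝓑₀ V)
        (CoindStar4.W (basisV 𝓑₀ V) H (Sg i 𝓑₀ Y V g₀))))))
    (fun x y h => Subtype.ext (congrArg Subtype.val h))

end Fourth

end Fermat.Agent.W56.MonoHyp2
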