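/-
Programme W56 (S56), chapter (EC-5), helper2.

`ISCount2`: helper4's contract `BaseContracts4.ISCount` (the `Q`-structure of `H²(Ĉ; W(I_T))[p]`)
from the monomial theorem `BaseContracts4.MonoWp`:

  `μ_P(H²(Ĉ; W(I_T|_Ĉ))[p]) = ∑_{q ∈ T} ∑_{w ∈ Γ_q\Γ/Ĉ} μ_P(𝔽_p[j_w(L_w) \ Ĉ / U])`.

Decomposition `I_T|_Ĉ = ⊕_{(q,w)} S_{q,w}` (`ISDecomp2`), additivity of `Φ` (`PhiAdd2`), hypotheses of
`MonoWp` for `S_{q,w}` (`MonoHyp2`) from helper1's local count `BrLocS1.card_pTor_H2_AQ`.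
-/
import Mathlib
import Fermat.Agent.W56.ISDecomp2
import Fermat.Agent.W56.MonoHyp2
import Fermat.Agent.W56.BrLocS1

set_option autoImplicit false
set_option linter.unusedSectionVars false
set_option linter.style.haveILetI false

open CategoryTheory groupCohomology

namespace Fermat.Agent.W56.ISCount2

open Fermat.Agent.PT.PRO Fermat.Agent.PT.GLUE
open Fermat.Agent.PT.PRO.LevelCoh28 Fermat.Agent.PT.PRO.LevelCohRes28
open Fermat.Agent.PT.PRO.SmoothCoind28 Fermat.Agent.PT.PRO.InvP4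
open Fermat.Agent.PT.GLUE.Objects21 Fermat.Agent.PT.BR.InfLocal13
open Fermat.Agent.W56.Mackey2 Fermat.Agent.W56.MackeyInst2 Fermat.Agent.W56.LocalDatum2
  Fermat.Agent.W56.MuP4 Fermat.Agent.W56.TorsSnake4 Fermat.Agent.W56.EquivUnits0
  Fermat.Agent.W56.KummerStar4 Fermat.Agent.W56.IntRes4 Fermat.Agent.W56.CoindStar4
  Fermat.Agent.W56.BaseDefs4 Fermat.Agent.W56.BaseContracts4
  Fermat.Agent.W56.PhiAdd2 Fermat.Agent.W56.ISDecomp2 Fermat.Agent.W56.MonoHyp2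
open ExtCitation

local notation "Γ" => (AlgebraicClosure ℚ ≃ₐ[ℚ] AlgebraicClosure ℚ)

/-- A non-zero `p`-torsion element from `#X[p] = p`. -/
theorem exists_ne_zero_of_card {X : Type*} [AddCommGroup X] (p : ℕ) (hp : 1 < p)
    (h : Nat.card ↥(pTor p X) = p) : ∃ x : X, x ≠ 0 ∧ p • x = 0 := by
  haveI : Finite ↥(pTor p X) := Nat.finite_of_card_ne_zero (by omega)
  have h1 : 1 < Nat.card ↥(pTor p X) := by omega
  haveI : Nontrivial ↥(pTor p X) := Finite.one_lt_card_iff_nontrivial.1 h1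
  obtain ⟨x, hx⟩ := exists_ne (0 : ↥(pTor p X))
  exact ⟨x.1, fun h0 => hx (Subtype.ext h0), x.2⟩

section Main

variable (p : ℕ) [hp : Fact p.Prime] (T : Finset Nat.Primes) (hpT : pPrime p ∈ T)
  (Ĉ : Subgroup Γ) (hĈ : ∃ U₀ ∈ (levelS T).sets, U₀ ≤ Ĉ)

include hpT in
/-- helper1's local count, in the vocabulary of `MonoHyp2`. -/
theorem hloc (q : ↥T) :
    ∀ H' : Subgroup (PadicAlgCl ((q : Nat.Primes) : ℕ) ≃ₐ[ℚ_[((q : Nat.Primes) : ℕ)]]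
        PadicAlgCl ((q : Nat.Primes) : ℕ)),
      (∃ U ∈ (basisH (localGaloisToGlobal ((q : Nat.Primes) : ℕ)) (levelS T)).sets, U ≤ H') →
      Nat.card ↥(pTor p (H2 (comapBasis H'.subtype
        (basisH (localGaloisToGlobal ((q : Nat.Primes) : ℕ)) (levelS T)))
        (Rep.res H'.subtype (AQ T ((q : Nat.Primes) : ℕ))))) = p :=
  fun H' hH' => BrLocS1.card_pTor_H2_AQ T p hpT ((q : Nat.Primes) : ℕ) H' hH'

variable (U : Subgroup Γ) [hUn : U.Normal] (hU : U ∈ (levelS T).sets) (hUĈ : U ≤ Ĉ)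

include hU in
theorem open_H : ∃ U' ∈ (basisV (levelS T) Ĉ).sets, U' ≤ U.subgroupOf Ĉ :=
  ⟨_, ⟨U, hU, rfl⟩, le_rfl⟩

include hpT hU hUĈ in
/-- Finiteness of `H²(Ĉ; W(S_{q,w}))[p]`. -/
theorem finite_torsP_Comp (x : Idx T Ĉ) :
    Finite ↥(torsP p (H2 (basisV (levelS T) Ĉ)
      (W (basisV (levelS T) Ĉ) (U.subgroupOf Ĉ) (Comp T Ĉ x)))) :=
  finite_torsP_W (localGaloisToGlobal ((x.1 : Nat.Primes) : ℕ)) (levelS T)
    (AQ T ((x.1 : Nat.Primes) : ℕ)) Ĉ ⟨U, hU, hUĈ⟩ (isDiscrete_AQ T ((x.1 : Nat.Primes) : ℕ))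
    x.2.out (U.subgroupOf Ĉ) (open_H T Ĉ U hU) p hp.out.ne_zero (hloc p T hpT x.1)

variable [Fintype (↥Ĉ ⧸ U.subgroupOf Ĉ)] [Invertible (Fintype.card (↥Ĉ ⧸ U.subgroupOf Ĉ) : ZMod p)]
  {P : Type} [AddCommGroup P] [Module (ZMod p) P] [FiniteDimensional (ZMod p) P]
  (ρP : Representation (ZMod p) (↥Ĉ ⧸ U.subgroupOf Ĉ) P)

include hpT hU hUĈ in
/-- The monomial theorem at the component `(q, w)`. -/
theorem Phi_Comp (hMono : MonoWp) (x : Idx T Ĉ) :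
    Phi (basisV (levelS T) Ĉ) (U.subgroupOf Ĉ) p ρP (Comp T Ĉ x) =
      muP ρP (funPerm (ZMod p) (↥Ĉ ⧸ U.subgroupOf Ĉ)
        (DC (jg (localGaloisToGlobal ((x.1 : Nat.Primes) : ℕ)) Ĉ x.2.out) (U.subgroupOf Ĉ))) := by
  have hĈ : ∃ U₀ ∈ (levelS T).sets, U₀ ≤ Ĉ := ⟨U, hU, hUĈ⟩
  refine hMono (basisV (levelS T) Ĉ) (U.subgroupOf Ĉ) (open_H T Ĉ U hU) p
    (jg (localGaloisToGlobal ((x.1 : Nat.Primes) : ℕ)) Ĉ x.2.out)
    (Yg (localGaloisToGlobal ((x.1 : Nat.Primes) : ℕ)) (AQ T ((x.1 : Nat.Primes) : ℕ)) Ĉ x.2.out)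
    ?_ ?_ P ρP
  · exact exists_ne_zero_Sg (localGaloisToGlobal ((x.1 : Nat.Primes) : ℕ)) (levelS T)
      (AQ T ((x.1 : Nat.Primes) : ℕ)) Ĉ x.2.out (isDiscrete_AQ T ((x.1 : Nat.Primes) : ℕ)) p
      (exists_ne_zero_of_card p hp.out.one_lt (hloc p T hpT x.1 _
        (open_Hg (localGaloisToGlobal ((x.1 : Nat.Primes) : ℕ)) (levelS T) Ĉ hĈ x.2.out)))
  · intro g
    exact card_pTor_nested (localGaloisToGlobal ((x.1 : Nat.Primes) : ℕ)) (levelS T)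
      (AQ T ((x.1 : Nat.Primes) : ℕ)) Ĉ hĈ (isDiscrete_AQ T ((x.1 : Nat.Primes) : ℕ))
      x.2.out (U.subgroupOf Ĉ) (open_H T Ĉ U hU) g p (hloc p T hpT x.1)

include hpT hU hUĈ in
/-- `Φ(I_T|_Ĉ)` as a sum over the components. -/
theorem Phi_IS (hMono : MonoWp)
    [∀ q : ↥T, Fintype (DC (localGaloisToGlobal ((q : Nat.Primes) : ℕ)) Ĉ)] :
    Phi (basisV (levelS T) Ĉ) (U.subgroupOf Ĉ) p ρP (Rep.res Ĉ.subtype (IS T)) =
      ∑ q : ↥T, ∑ w : DC (localGaloisToGlobal ((q : Nat.Primes) : ℕ)) Ĉ,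
        muP ρP (funPerm (ZMod p) (↥Ĉ ⧸ U.subgroupOf Ĉ)
          (DC (jg (localGaloisToGlobal ((q : Nat.Primes) : ℕ)) Ĉ w.out) (U.subgroupOf Ĉ))) := by
  have hĈ : ∃ U₀ ∈ (levelS T).sets, U₀ ≤ Ĉ := ⟨U, hU, hUĈ⟩
  haveI : ∀ x : Idx T Ĉ, Finite ↥(torsP p (H2 (basisV (levelS T) Ĉ)
      (W (basisV (levelS T) Ĉ) (U.subgroupOf Ĉ) (Comp T Ĉ x)))) :=
    fun x => finite_torsP_Comp p T hpT Ĉ U hU hUĈ x
  rw [Phi_decomp (basisV (levelS T) Ĉ) (U.subgroupOf Ĉ) p ρP (Rep.res Ĉ.subtype (IS T))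
    (Comp T Ĉ) (Rx T Ĉ) (Rx_ρ T Ĉ) (Ex T Ĉ hĈ) (Ex_ρ T Ĉ hĈ) (Rx_Ex T Ĉ hĈ)
    (fun x y hxy b => Rx_Ex_ne T Ĉ hĈ x y hxy b) (sum_Ex_Rx T Ĉ hĈ)]
  rw [Fintype.sum_sigma]
  refine Finset.sum_congr rfl fun q _ => Finset.sum_congr rfl fun w _ => ?_
  exact Phi_Comp p T hpT Ĉ U hU hUĈ ρP hMono ⟨q, w⟩

end Main

/-- **helper4's contract `BaseContracts4.ISCount`**, from the monomial theorem `MonoWp`. -/
theorem isCount (hMono : MonoWp) : ISCount := by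
  intro p _ hp2 T hpT U Ĉ _ hU hUĈ _ _ P _ _ _ ρP
  have hĈ : ∃ U₀ ∈ (levelS T).sets, U₀ ≤ Ĉ := ⟨U, hU, hUĈ⟩
  haveI : ∀ q : ↥T, Finite (DC (localGaloisToGlobal ((q : Nat.Primes) : ℕ)) Ĉ) := fun q =>
    finite_DC (localGaloisToGlobal ((q : Nat.Primes) : ℕ)) (levelS T) Ĉ hĈ
  haveI : ∀ q : ↥T, Fintype (DC (localGaloisToGlobal ((q : Nat.Primes) : ℕ)) Ĉ) := fun q =>
    Fintype.ofFinite _
  have h := Phi_IS p T hpT Ĉ U hU hUĈ ρP hMono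
  rw [Phi_def] at h
  rw [h]
  refine Finset.sum_congr rfl fun q _ => ?_
  rw [finsum_eq_sum_of_fintype]

end Fermat.Agent.W56.ISCount2
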