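/-
Programme W56 (target S56), stage 2, chapter (EC-5) (helper3): **`BaseContracts4.ISCount`**,
assembled from the landed pieces:

* `PhiAdd5.Phi_add / Phi_congr / finite_tors_of_decomp` (helper5): `Φ(Y) = μ_P(H²(Ĉ; W Y)[p])` is
  additive over finite equivariant direct sums and invariant under equivariant bijections;
* `I_T = ∏_{q ∈ T} I_{T,q}` (`ProdDict10.ISproj`, `LevelTheta21.inclq`, `GlobalCore2.sum_inclq_ISproj`),
  `I_{T,q} ≃ Coind_{Γ_q}^Γ A'_q` (`LGInj2.phiQ`);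
* the Mackey decomposition of `(Coind_{Γ_q}^Γ A'_q)|_Ĉ` (`Mackey2.Rg/Eg/sum_Eg_Rg`) with the
  orthogonality relations `Rg_Eg_self`, `Rg_Eg_ne` proved here;
* the count at one Mackey component `ISComp3.muP_tors_W_Sg` (= `MonoW9.monoWp` at `MonoHyp1`).
-/
import Mathlib
import Fermat.Agent.W56.BaseContracts4
import Fermat.Agent.W56.ISComp3
import Fermat.Agent.W56.PhiAdd5
import Fermat.Agent.W56.GlobalCore2
import Fermat.Agent.W56.LGInj2

set_option autoImplicit false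
set_option linter.unusedSectionVars false
set_option linter.style.haveILetI false

open CategoryTheory ExtCitation

namespace Fermat.Agent.W56.ISCount3

open Fermat.Agent.PT.PRO Fermat.Agent.PT.BR Fermat.Agent.PT.PRO.LevelCoh28
  Fermat.Agent.PT.PRO.LevelCohRes28 Fermat.Agent.PT.PRO.SmoothCoind28
  Fermat.Agent.PT.PRO.InvP4 Fermat.Agent.PT.GLUE
  Fermat.Agent.PT.GLUE.Objects21
  Fermat.Agent.W56.Mackey2 Fermat.Agent.W56.MuP4 Fermat.Agent.W56.TorsSnake4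
  Fermat.Agent.W56.EquivUnits0 Fermat.Agent.W56.KummerStar4 Fermat.Agent.W56.IntRes4
  Fermat.Agent.W56.CoindStar4 Fermat.Agent.W56.BaseDefs4 Fermat.Agent.W56.LocalDatum2

local notation "Γ" => (AlgebraicClosure ℚ ≃ₐ[ℚ] AlgebraicClosure ℚ)

/-! ### Mackey orthogonality -/

section Orth

variable {k G H : Type} [CommRing k] [Group G] [Group H]
variable (i : H →* G) (𝓑G : LevelBasis G) (Y : Rep.{0} k H) (V : Subgroup G)
  (hV : ∃ U₀ ∈ 𝓑G.sets, U₀ ≤ V)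

/-- `R_g ∘ E_g = 1`. -/
theorem Rg_Eg_self (g : G) (φ : Sg i 𝓑G Y V g) :
    Rg i 𝓑G Y V g (Eg i 𝓑G Y V hV g φ) = φ := by
  refine Subtype.ext (funext fun v => ?_)
  show EgFun i 𝓑G Y V g φ (g * v) = φ.1 v
  have h1 : g * (v : G) = i 1 * g * v := by rw [map_one, one_mul]
  rw [h1, EgFun_apply, map_one]
  rfl

/-- `R_g ∘ E_{g'} = 0` for different double cosets. -/
theorem Rg_Eg_of_not (g g' : G) (h : ¬ InDC i V g' g) (φ : Sg i 𝓑G Y V g') :
    Rg i 𝓑G Y V g (Eg i 𝓑G Y V hV g' φ) = 0 := by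
  refine Subtype.ext (funext fun v => ?_)
  show EgFun i 𝓑G Y V g' φ (g * v) = 0
  exact EgFun_of_not i 𝓑G Y V φ fun hx => h ((inDC_mul_right i V v).1 hx)

theorem Rg_Eg_ne (D D' : DC i V) (h : D ≠ D') (φ : Sg i 𝓑G Y V D'.out) :
    Rg i 𝓑G Y V D.out (Eg i 𝓑G Y V hV D'.out φ) = 0 := by
  refine Rg_Eg_of_not i 𝓑G Y V hV D.out D'.out (fun hx => h ?_) φ
  have h1 : (Quotient.mk (dcSetoidV i V) D'.out : DC i V) = Quotient.mk (dcSetoidV i V) D.out :=
    Quotient.sound hx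
  have h2 : (Quotient.mk (dcSetoidV i V) D.out : DC i V) = D := Quotient.out_eq D
  have h3 : (Quotient.mk (dcSetoidV i V) D'.out : DC i V) = D' := Quotient.out_eq D'
  rw [← h2, ← h3, h1]

end Orth

/-! ### The decomposition of the ideles -/

section Ideles

variable (S : Finset Nat.Primes)

theorem ISproj_inclq_self (q : ↥S) (x : ISq S ((q : Nat.Primes) : ℕ)) :
    ProdDict10.ISproj S q (LevelTheta21.inclq S q x) = x := by
  classical
  rw [ProdDict10.ISproj_apply, LevelTheta21.ISequiv_inclq]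
  exact Pi.single_eq_same (M := fun r : ↥S => ISq S ((r : Nat.Primes) : ℕ)) q x

theorem ISproj_inclq_ne (q q' : ↥S) (h : q ≠ q') (x : ISq S ((q' : Nat.Primes) : ℕ)) :
    ProdDict10.ISproj S q (LevelTheta21.inclq S q' x) = 0 := by
  classical
  rw [ProdDict10.ISproj_apply, LevelTheta21.ISequiv_inclq]
  exact Pi.single_eq_of_ne (M := fun r : ↥S => ISq S ((r : Nat.Primes) : ℕ)) h x

end Ideles

/-! ### The count -/

section Count

variable (p : ℕ) [Fact p.Prime] (T : Finset Nat.Primes) (hpT : pPrime p ∈ T)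
  (U Ĉ : Subgroup Γ) [hUn : U.Normal] (hU : U ∈ (levelS T).sets) (hUC : U ≤ Ĉ)
  [Fintype (↥Ĉ ⧸ U.subgroupOf Ĉ)] [Invertible (Fintype.card (↥Ĉ ⧸ U.subgroupOf Ĉ) : ZMod p)]
  (P : Type) [AddCommGroup P] [Module (ZMod p) P] [FiniteDimensional (ZMod p) P]
  (ρP : Representation (ZMod p) (↥Ĉ ⧸ U.subgroupOf Ĉ) P)

/-- `Φ(Y) = μ_P(H²(Ĉ; W Y)[p])`. -/
noncomputable abbrev Phi (Y : Rep.{0} ℤ ↥Ĉ) : ℕ :=
  muP ρP (torsRep p (canonRep (opH2 (comapBasis Ĉ.subtype (levelS T))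
    (W (comapBasis Ĉ.subtype (levelS T)) (U.subgroupOf Ĉ) Y)
    (CoindStar4.star (comapBasis Ĉ.subtype (levelS T)) (U.subgroupOf Ĉ) Y)
    (star_comm (comapBasis Ĉ.subtype (levelS T)) (U.subgroupOf Ĉ) Y))))

include hpT hU hUC in
/-- the count for `(Coind_{Γ_q}^Γ A'_q)|_Ĉ`, with finiteness. -/
theorem Phi_XV (q : ℕ) [Fact q.Prime] [Fintype (DC (localGaloisToGlobal q) Ĉ)] :
    Finite ↥(torsP p (H2 (comapBasis Ĉ.subtype (levelS T))
        (W (comapBasis Ĉ.subtype (levelS T)) (U.subgroupOf Ĉ)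
          (XV (localGaloisToGlobal q) (levelS T) (AQ T q) Ĉ)))) ∧
      Phi p T U Ĉ P ρP (XV (localGaloisToGlobal q) (levelS T) (AQ T q) Ĉ) =
        ∑ w : DC (localGaloisToGlobal q) Ĉ,
          muP ρP (funPerm (ZMod p) (↥Ĉ ⧸ U.subgroupOf Ĉ)
            (DC (jg (localGaloisToGlobal q) Ĉ w.out) (U.subgroupOf Ĉ))) := by
  have hĈ : ∃ U₀ ∈ (levelS T).sets, U₀ ≤ Ĉ := ⟨U, hU, hUC⟩
  have hfin : ∀ w : DC (localGaloisToGlobal q) Ĉ,
      Finite ↥(torsP p (H2 (comapBasis Ĉ.subtype (levelS T))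
        (W (comapBasis Ĉ.subtype (levelS T)) (U.subgroupOf Ĉ)
          (Sg (localGaloisToGlobal q) (levelS T) (AQ T q) Ĉ w.out)))) := fun w =>
    ISComp3.finite_tors_W_Sg p T hpT U Ĉ hU hUC q w.out
  refine ⟨PhiAdd5.finite_tors_of_decomp (comapBasis Ĉ.subtype (levelS T)) (U.subgroupOf Ĉ) p
      (Y := XV (localGaloisToGlobal q) (levelS T) (AQ T q) Ĉ)
      (B := fun w : DC (localGaloisToGlobal q) Ĉ =>
        Sg (localGaloisToGlobal q) (levelS T) (AQ T q) Ĉ w.out)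
      (fun w => Rg (localGaloisToGlobal q) (levelS T) (AQ T q) Ĉ w.out)
      (fun w => Rg_equivariant (localGaloisToGlobal q) (levelS T) (AQ T q) Ĉ w.out)
      (fun w => Eg (localGaloisToGlobal q) (levelS T) (AQ T q) Ĉ hĈ w.out)
      (fun w => Eg_equivariant (localGaloisToGlobal q) (levelS T) (AQ T q) Ĉ hĈ w.out)
      (sum_Eg_Rg (localGaloisToGlobal q) (levelS T) (AQ T q) Ĉ hĈ) hfin, ?_⟩
  refine (PhiAdd5.Phi_add (comapBasis Ĉ.subtype (levelS T)) (U.subgroupOf Ĉ) p ρP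
      (Y := XV (localGaloisToGlobal q) (levelS T) (AQ T q) Ĉ)
      (B := fun w : DC (localGaloisToGlobal q) Ĉ =>
        Sg (localGaloisToGlobal q) (levelS T) (AQ T q) Ĉ w.out)
      (fun w => Rg (localGaloisToGlobal q) (levelS T) (AQ T q) Ĉ w.out)
      (fun w => Rg_equivariant (localGaloisToGlobal q) (levelS T) (AQ T q) Ĉ w.out)
      (fun w => Eg (localGaloisToGlobal q) (levelS T) (AQ T q) Ĉ hĈ w.out)
      (fun w => Eg_equivariant (localGaloisToGlobal q) (levelS T) (AQ T q) Ĉ hĈ w.out)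
      (sum_Eg_Rg (localGaloisToGlobal q) (levelS T) (AQ T q) Ĉ hĈ)
      (fun w φ => Rg_Eg_self (localGaloisToGlobal q) (levelS T) (AQ T q) Ĉ hĈ w.out φ)
      (fun w w' hww' φ => Rg_Eg_ne (localGaloisToGlobal q) (levelS T) (AQ T q) Ĉ hĈ w w' hww' φ)
      hfin).trans ?_
  exact Finset.sum_congr rfl fun w _ =>
    ISComp3.muP_tors_W_Sg p T hpT U Ĉ hU hUC q w.out P ρP

include hpT hU hUC in
/-- the count for `I_{T,q}|_Ĉ`, with finiteness. -/
theorem Phi_ISq (q : ℕ) [Fact q.Prime] [Fintype (DC (localGaloisToGlobal q) Ĉ)] :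
    Finite ↥(torsP p (H2 (comapBasis Ĉ.subtype (levelS T))
        (W (comapBasis Ĉ.subtype (levelS T)) (U.subgroupOf Ĉ)
          (Rep.res Ĉ.subtype (ISq T q))))) ∧
      Phi p T U Ĉ P ρP (Rep.res Ĉ.subtype (ISq T q)) =
        ∑ w : DC (localGaloisToGlobal q) Ĉ,
          muP ρP (funPerm (ZMod p) (↥Ĉ ⧸ U.subgroupOf Ĉ)
            (DC (jg (localGaloisToGlobal q) Ĉ w.out) (U.subgroupOf Ĉ))) := by
  obtain ⟨h1, h2⟩ := Phi_XV p T hpT U Ĉ hU hUC P ρP q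
  -- the equivariant bijection `phiQ`
  let φ : Lin (XV (localGaloisToGlobal q) (levelS T) (AQ T q) Ĉ) (Rep.res Ĉ.subtype (ISq T q)) :=
    (LGInj2.phiQ T q).toLinearMap
  have hφ : ∀ (g : ↥Ĉ) (a : XV (localGaloisToGlobal q) (levelS T) (AQ T q) Ĉ),
      φ ((XV (localGaloisToGlobal q) (levelS T) (AQ T q) Ĉ).ρ g a) =
        (Rep.res Ĉ.subtype (ISq T q)).ρ g (φ a) := fun g a => LGInj2.phiQ_ρ T q (g : Γ) a
  have hbij : Function.Bijective φ := (LGInj2.phiQ T q).bijective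
  refine ⟨?_, ?_⟩
  · refine PhiAdd5.finite_tors_of_decomp (comapBasis Ĉ.subtype (levelS T)) (U.subgroupOf Ĉ) p
      (ι := Unit) (Y := Rep.res Ĉ.subtype (ISq T q))
      (B := fun _ => XV (localGaloisToGlobal q) (levelS T) (AQ T q) Ĉ)
      (fun _ => PhiAdd5.invLin φ hbij) (fun _ => PhiAdd5.invLin_equivariant φ hφ hbij)
      (fun _ => φ) (fun _ => hφ) (fun a => ?_) (fun _ => h1)
    rw [Fintype.sum_unique]
    exact PhiAdd5.apply_invLin φ hbij a
  · exact (PhiAdd5.Phi_congr (comapBasis Ĉ.subtype (levelS T)) (U.subgroupOf Ĉ) p ρP φ hφ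
      hbij).symm.trans h2

end Count

/-- **(IS-count)**: `BaseContracts4.ISCount`. -/
theorem isCount : BaseContracts4.ISCount := by
  intro p _ hp2 T hpT U Ĉ _ hU hUC _ _ P _ _ _ ρP
  classical
  have hĈ : ∃ U₀ ∈ (levelS T).sets, U₀ ≤ Ĉ := ⟨U, hU, hUC⟩
  haveI : ∀ q : ↥T, Finite (DC (localGaloisToGlobal ((q : Nat.Primes) : ℕ)) Ĉ) := fun q =>
    finite_DC (localGaloisToGlobal ((q : Nat.Primes) : ℕ)) (levelS T) Ĉ hĈ
  letI : ∀ q : ↥T, Fintype (DC (localGaloisToGlobal ((q : Nat.Primes) : ℕ)) Ĉ) := fun q =>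
    Fintype.ofFinite _
  have hq : ∀ q : ↥T, _ := fun q =>
    Phi_ISq p T hpT U Ĉ hU hUC P ρP ((q : Nat.Primes) : ℕ)
  refine (PhiAdd5.Phi_add (comapBasis Ĉ.subtype (levelS T)) (U.subgroupOf Ĉ) p ρP
      (Y := Rep.res Ĉ.subtype (IS T))
      (B := fun q : ↥T => Rep.res Ĉ.subtype (ISq T ((q : Nat.Primes) : ℕ)))
      (fun q => ProdDict10.ISproj T q) (fun q v x => ProdDict10.ISproj_ρ T q (v : Γ) x)
      (fun q => LevelTheta21.inclq T q) (fun q v x => LevelTheta21.inclq_ρ T q (v : Γ) x)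
      (GlobalCore2.sum_inclq_ISproj T)
      (fun q x => ISproj_inclq_self T q x)
      (fun q q' hqq' x => ISproj_inclq_ne T q q' hqq' x)
      (fun q => (hq q).1)).trans ?_
  refine Finset.sum_congr rfl fun q _ => ?_
  rw [finsum_eq_sum_of_fintype]
  exact (hq q).2

end Fermat.Agent.W56.ISCount3
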