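/-
Programme W56 (target S56), stage 2, chapter (EC-5), helper5: **orthogonality of the Mackey
components** (`Mackey2`): `R_g ∘ E_g = 1` and `R_g ∘ E_g' = 0` when `g ∉ i(H) g' V`; at the chosen
representatives `D.out` of the double cosets: `R_D ∘ E_D' = δ_{D D'}`.  Together with
`Mackey2.sum_Eg_Rg` this is the input `(R, E, hsum, hself, hne)` of `PhiAdd5.Phi_add` for
`(Coind_i Y)|_V = ⊕_D S_D`.
-/
import Mathlib
import Fermat.Agent.W56.Mackey2

set_option autoImplicit false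
set_option linter.unusedSectionVars false

open CategoryTheory

namespace Fermat.Agent.W56.MackeyOrth5

open Fermat.Agent.PT.PRO.LevelCoh28 Fermat.Agent.PT.PRO.LevelCohRes28
  Fermat.Agent.PT.PRO.SmoothCoind28 Fermat.Agent.PT.GLUE.Objects21 Fermat.Agent.W56.Mackey2

variable {k G H : Type} [CommRing k] [Group G] [Group H]
variable (i : H →* G) (𝓑G : LevelBasis G) (Y : Rep.{0} k H) (V : Subgroup G)
  (hV : ∃ U₀ ∈ 𝓑G.sets, U₀ ≤ V)

/-- `R_g ∘ E_g = 1`. -/
theorem Rg_Eg_self (g : G) (φ : Sg i 𝓑G Y V g) :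
    Rg i 𝓑G Y V g (Eg i 𝓑G Y V hV g φ) = φ := by
  refine Subtype.ext (funext fun v => ?_)
  rw [Rg_apply, Eg_apply]
  have h1 : g * (v : G) = i 1 * g * v := by rw [map_one, one_mul]
  rw [h1, EgFun_apply, map_one]
  rfl

/-- `R_g ∘ E_g' = 0` when `g` is not in the double coset of `g'`. -/
theorem Rg_Eg_of_not (g g' : G) (hgg' : ¬ InDC i V g' g) (φ : Sg i 𝓑G Y V g') :
    Rg i 𝓑G Y V g (Eg i 𝓑G Y V hV g' φ) = 0 := by
  refine Subtype.ext (funext fun v => ?_)
  rw [Rg_apply, Eg_apply]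
  exact EgFun_of_not i 𝓑G Y V φ fun h => hgg' ((inDC_mul_right i V v).1 h)

/-- distinct double cosets have representatives in distinct double cosets. -/
theorem not_inDC_out (D D' : DC i V) (hDD' : D ≠ D') : ¬ InDC i V D'.out D.out := fun h =>
  hDD' (by rw [← (inDC_out_iff i V D' D.out).1 h, Quotient.out_eq])

/-- `R_D ∘ E_D' = 0` for `D ≠ D'`. -/
theorem Rg_Eg_ne (D D' : DC i V) (hDD' : D ≠ D') (φ : Sg i 𝓑G Y V D'.out) :
    Rg i 𝓑G Y V D.out (Eg i 𝓑G Y V hV D'.out φ) = 0 :=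
  Rg_Eg_of_not i 𝓑G Y V hV D.out D'.out (not_inDC_out i V D D' hDD') φ

end Fermat.Agent.W56.MackeyOrth5
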