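/-
Programme W56 (target S56), stage 2, chapter (EC-5), helper5: **the decomposition of
`Φ(I_T|_Ĉ) = μ_P(H²(Ĉ; W(I_T|_Ĉ))[p])` over the places and the double cosets**
(slice (S2) of `BaseContracts4.ISCount`, with the Mackey step):

* `finite_tors_of_bijective`: transport of the finiteness of `H²(G; W(Y))[p]` along an equivariant
  bijection;
* `Phi_XV`: `Φ((Coind_i Y)|_V) = ∑ᶠ_{D ∈ i(L)\G/V} Φ(S_D)` (Mackey, `PhiAdd5.Phi_add` with
  `Mackey2.sum_Eg_Rg`, `MackeyOrth5`), and `finite_tors_XV`;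
* `Phi_IS`: `Φ(I_T|_Ĉ) = ∑_{q ∈ T} ∑ᶠ_{w ∈ Γ_q\Γ/Ĉ} Φ(S_{q,w})` (`I_T = ∏_q I_{T,q}`,
  `I_{T,q} ≅ Coind_{Γ_q}^Γ A'_q` by `LGInj2.phiQ`).
-/
import Mathlib
import Fermat.Agent.W56.PhiAdd5
import Fermat.Agent.W56.MackeyOrth5
import Fermat.Agent.W56.GlobalCore2
import Fermat.Agent.W56.LGInj2

set_option autoImplicit false
set_option linter.unusedSectionVars false

open CategoryTheory ExtCitation

namespace Fermat.Agent.W56.ISProd5

open Fermat.Agent.PT.PRO Fermat.Agent.PT.PRO.LevelCoh28 Fermat.Agent.PT.PRO.LevelCohRes28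
  Fermat.Agent.PT.PRO.SmoothCoind28
  Fermat.Agent.PT.PRO.InvP4 Fermat.Agent.PT.GLUE Fermat.Agent.PT.GLUE.Objects21
  Fermat.Agent.W56.Mackey2
  Fermat.Agent.W56.MuP4 Fermat.Agent.W56.TorsSnake4 Fermat.Agent.W56.EquivUnits0
  Fermat.Agent.W56.KummerStar4 Fermat.Agent.W56.IntRes4 Fermat.Agent.W56.CoindStar4
  Fermat.Agent.W56.BaseContracts4 Fermat.Agent.W56.PhiAdd5 Fermat.Agent.W56.LocalDatum2

local notation "Γ" => (AlgebraicClosure ℚ ≃ₐ[ℚ] AlgebraicClosure ℚ)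

/-! ### transport of finiteness -/

section Bij

variable {G : Type} [Group G] (𝓑 : LevelBasis G) (H : Subgroup G) [hH : H.Normal]
  (p : ℕ) [Fact p.Prime] {Y Y' : Rep.{0} ℤ G}

/-- `H²(G; W(Y'))[p]` is finite when `H²(G; W(Y))[p]` is, for an equivariant bijection
`Y → Y'`. -/
theorem finite_tors_of_bijective (φ : Lin Y Y') (hφ : ∀ g a, φ (Y.ρ g a) = Y'.ρ g (φ a))
    (hbij : Function.Bijective φ) (hfin : Finite ↥(torsP p (H2 𝓑 (W 𝓑 H Y)))) :
    Finite ↥(torsP p (H2 𝓑 (W 𝓑 H Y'))) := by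
  have hψ := invLin_equivariant φ hφ hbij
  refine Finite.of_injective (tW 𝓑 H p (invLin φ hbij) hψ) fun x x' hxx' => ?_
  have h2 : ∀ x, tW 𝓑 H p φ hφ (tW 𝓑 H p (invLin φ hbij) hψ x) = x := fun x => by
    rw [tW_tW 𝓑 H p (invLin φ hbij) hψ φ hφ (idLin Y') (fun _ _ => rfl)
      (fun a => apply_invLin φ hbij a)]
    exact tW_of_id 𝓑 H p _ _ (fun _ => rfl) x
  rw [← h2 x, ← h2 x', hxx']

end Bij

/-! ### the Mackey step -/

section MackeyStep

variable {G L : Type} [Group G] [Group L] (i : L →* G) (𝓑G : LevelBasis G) (Y : Rep.{0} ℤ L)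
  (V : Subgroup G) (hV : ∃ U₀ ∈ 𝓑G.sets, U₀ ≤ V)
  (H : Subgroup ↥V) [hH : H.Normal] [Fintype (↥V ⧸ H)] (p : ℕ) [Fact p.Prime]
  [Invertible (Fintype.card (↥V ⧸ H) : ZMod p)]
  {P : Type*} [AddCommGroup P] [Module (ZMod p) P] (ρP : Representation (ZMod p) (↥V ⧸ H) P)

include hV in
/-- `H²(V; W((Coind_i Y)|_V))[p]` is finite when this holds at every Mackey component. -/
theorem finite_tors_XV
    (hfin : ∀ D : DC i V, Finite ↥(torsP p (H2 (basisV 𝓑G V)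
      (W (basisV 𝓑G V) H (Sg i 𝓑G Y V D.out))))) :
    Finite ↥(torsP p (H2 (basisV 𝓑G V) (W (basisV 𝓑G V) H (XV i 𝓑G Y V)))) := by
  classical
  have := finite_DC i 𝓑G V hV
  let _ : Fintype (DC i V) := Fintype.ofFinite (DC i V)
  exact finite_tors_of_decomp (basisV 𝓑G V) H p
    (B := fun D : DC i V => Sg i 𝓑G Y V D.out)
    (fun D => Rg i 𝓑G Y V D.out) (fun D => Rg_equivariant i 𝓑G Y V D.out)
    (fun D => Eg i 𝓑G Y V hV D.out) (fun D => Eg_equivariant i 𝓑G Y V hV D.out)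
    (sum_Eg_Rg i 𝓑G Y V hV) hfin

include hV in
/-- **the Mackey step**: `Φ((Coind_i Y)|_V) = ∑ᶠ_D Φ(S_D)`. -/
theorem Phi_XV [FiniteDimensional (ZMod p) P]
    (hfin : ∀ D : DC i V, Finite ↥(torsP p (H2 (basisV 𝓑G V)
      (W (basisV 𝓑G V) H (Sg i 𝓑G Y V D.out))))) :
    muP ρP (torsRep p (canonRep (opH2 (basisV 𝓑G V) (W (basisV 𝓑G V) H (XV i 𝓑G Y V))
        (star (basisV 𝓑G V) H (XV i 𝓑G Y V)) (star_comm (basisV 𝓑G V) H (XV i 𝓑G Y V))))) =
      ∑ᶠ D : DC i V, muP ρP (torsRep p (canonRep (opH2 (basisV 𝓑G V)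
        (W (basisV 𝓑G V) H (Sg i 𝓑G Y V D.out))
        (star (basisV 𝓑G V) H (Sg i 𝓑G Y V D.out))
        (star_comm (basisV 𝓑G V) H (Sg i 𝓑G Y V D.out))))) := by
  classical
  have := finite_DC i 𝓑G V hV
  let _ : Fintype (DC i V) := Fintype.ofFinite (DC i V)
  rw [finsum_eq_sum_of_fintype]
  exact Phi_add (basisV 𝓑G V) H p ρP
    (B := fun D : DC i V => Sg i 𝓑G Y V D.out)
    (fun D => Rg i 𝓑G Y V D.out) (fun D => Rg_equivariant i 𝓑G Y V D.out)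
    (fun D => Eg i 𝓑G Y V hV D.out) (fun D => Eg_equivariant i 𝓑G Y V hV D.out)
    (sum_Eg_Rg i 𝓑G Y V hV) (fun D b => MackeyOrth5.Rg_Eg_self i 𝓑G Y V hV D.out b)
    (fun D D' hDD' b => MackeyOrth5.Rg_Eg_ne i 𝓑G Y V hV D D' hDD' b) hfin

end MackeyStep

/-! ### the ideles -/

section IS

variable (T : Finset Nat.Primes) (Ĉ : Subgroup Γ) (hĈ : ∃ U₀ ∈ (levelS T).sets, U₀ ≤ Ĉ)
  (H : Subgroup ↥Ĉ) [hH : H.Normal] [Fintype (↥Ĉ ⧸ H)] (p : ℕ) [Fact p.Prime]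
  [Invertible (Fintype.card (↥Ĉ ⧸ H) : ZMod p)]
  {P : Type*} [AddCommGroup P] [Module (ZMod p) P] (ρP : Representation (ZMod p) (↥Ĉ ⧸ H) P)

include hĈ in
/-- `H²(Ĉ; W(I_{T,q}|_Ĉ))[p]` is finite when this holds at every Mackey component. -/
theorem finite_tors_ISq (q : ℕ) [Fact q.Prime]
    (hfin : ∀ w : DC (localGaloisToGlobal q) Ĉ,
      Finite ↥(torsP p (H2 (comapBasis Ĉ.subtype (levelS T))
        (W (comapBasis Ĉ.subtype (levelS T)) H
          (Sg (localGaloisToGlobal q) (levelS T) (AQ T q) Ĉ w.out))))) :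
    Finite ↥(torsP p (H2 (comapBasis Ĉ.subtype (levelS T))
      (W (comapBasis Ĉ.subtype (levelS T)) H (Rep.res Ĉ.subtype (ISq T q))))) :=
  finite_tors_of_bijective (comapBasis Ĉ.subtype (levelS T)) H p
    (Y := XV (localGaloisToGlobal q) (levelS T) (AQ T q) Ĉ)
    (Y' := Rep.res Ĉ.subtype (ISq T q))
    (LGInj2.phiQ T q).toLinearMap (fun v f => LGInj2.phiQ_ρ T q (v : Γ) f)
    (LGInj2.phiQ T q).bijective
    (finite_tors_XV (localGaloisToGlobal q) (levelS T) (AQ T q) Ĉ hĈ H p hfin)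

include hĈ in
/-- `Φ(I_{T,q}|_Ĉ) = ∑ᶠ_w Φ(S_{q,w})`. -/
theorem Phi_ISq [FiniteDimensional (ZMod p) P] (q : ℕ) [Fact q.Prime]
    (hfin : ∀ w : DC (localGaloisToGlobal q) Ĉ,
      Finite ↥(torsP p (H2 (comapBasis Ĉ.subtype (levelS T))
        (W (comapBasis Ĉ.subtype (levelS T)) H
          (Sg (localGaloisToGlobal q) (levelS T) (AQ T q) Ĉ w.out))))) :
    muP ρP (torsRep p (canonRep (opH2 (comapBasis Ĉ.subtype (levelS T))
        (W (comapBasis Ĉ.subtype (levelS T)) H (Rep.res Ĉ.subtype (ISq T q)))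
        (star (comapBasis Ĉ.subtype (levelS T)) H (Rep.res Ĉ.subtype (ISq T q)))
        (star_comm (comapBasis Ĉ.subtype (levelS T)) H (Rep.res Ĉ.subtype (ISq T q)))))) =
      ∑ᶠ w : DC (localGaloisToGlobal q) Ĉ,
        muP ρP (torsRep p (canonRep (opH2 (comapBasis Ĉ.subtype (levelS T))
          (W (comapBasis Ĉ.subtype (levelS T)) H
            (Sg (localGaloisToGlobal q) (levelS T) (AQ T q) Ĉ w.out))
          (star (comapBasis Ĉ.subtype (levelS T)) H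
            (Sg (localGaloisToGlobal q) (levelS T) (AQ T q) Ĉ w.out))
          (star_comm (comapBasis Ĉ.subtype (levelS T)) H
            (Sg (localGaloisToGlobal q) (levelS T) (AQ T q) Ĉ w.out))))) := by
  rw [← Phi_XV (localGaloisToGlobal q) (levelS T) (AQ T q) Ĉ hĈ H p ρP hfin]
  exact (Phi_congr (comapBasis Ĉ.subtype (levelS T)) H p ρP
    (Y := XV (localGaloisToGlobal q) (levelS T) (AQ T q) Ĉ)
    (Y' := Rep.res Ĉ.subtype (ISq T q))
    (LGInj2.phiQ T q).toLinearMap (fun v f => LGInj2.phiQ_ρ T q (v : Γ) f)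
    (LGInj2.phiQ T q).bijective).symm

include hĈ in
/-- **`Φ(I_T|_Ĉ) = ∑_{q ∈ T} ∑ᶠ_{w ∈ Γ_q\Γ/Ĉ} Φ(S_{q,w})`.** -/
theorem Phi_IS [FiniteDimensional (ZMod p) P]
    (hfin : ∀ (q : ↥T) (w : DC (localGaloisToGlobal ((q : Nat.Primes) : ℕ)) Ĉ),
      Finite ↥(torsP p (H2 (comapBasis Ĉ.subtype (levelS T))
        (W (comapBasis Ĉ.subtype (levelS T)) H
          (Sg (localGaloisToGlobal ((q : Nat.Primes) : ℕ)) (levelS T)
            (AQ T ((q : Nat.Primes) : ℕ)) Ĉ w.out))))) :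
    muP ρP (torsRep p (canonRep (opH2 (comapBasis Ĉ.subtype (levelS T))
        (W (comapBasis Ĉ.subtype (levelS T)) H (Rep.res Ĉ.subtype (IS T)))
        (star (comapBasis Ĉ.subtype (levelS T)) H (Rep.res Ĉ.subtype (IS T)))
        (star_comm (comapBasis Ĉ.subtype (levelS T)) H (Rep.res Ĉ.subtype (IS T)))))) =
      ∑ q : ↥T, ∑ᶠ w : DC (localGaloisToGlobal ((q : Nat.Primes) : ℕ)) Ĉ,
        muP ρP (torsRep p (canonRep (opH2 (comapBasis Ĉ.subtype (levelS T))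
          (W (comapBasis Ĉ.subtype (levelS T)) H
            (Sg (localGaloisToGlobal ((q : Nat.Primes) : ℕ)) (levelS T)
              (AQ T ((q : Nat.Primes) : ℕ)) Ĉ w.out))
          (star (comapBasis Ĉ.subtype (levelS T)) H
            (Sg (localGaloisToGlobal ((q : Nat.Primes) : ℕ)) (levelS T)
              (AQ T ((q : Nat.Primes) : ℕ)) Ĉ w.out))
          (star_comm (comapBasis Ĉ.subtype (levelS T)) H
            (Sg (localGaloisToGlobal ((q : Nat.Primes) : ℕ)) (levelS T)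
              (AQ T ((q : Nat.Primes) : ℕ)) Ĉ w.out))))) := by
  classical
  refine Eq.trans ?_ (Finset.sum_congr rfl fun (q : ↥T) _ =>
    Phi_ISq T Ĉ hĈ H p ρP ((q : Nat.Primes) : ℕ) (hfin q))
  exact Phi_add (comapBasis Ĉ.subtype (levelS T)) H p ρP
    (Y := Rep.res Ĉ.subtype (IS T))
    (B := fun q : ↥T => Rep.res Ĉ.subtype (ISq T ((q : Nat.Primes) : ℕ)))
    (fun q => ProdDict10.ISproj T q) (fun q v x => ProdDict10.ISproj_ρ T q (v : Γ) x)
    (fun q => LevelTheta21.inclq T q) (fun q v x => LevelTheta21.inclq_ρ T q (v : Γ) x)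
    (GlobalCore2.sum_inclq_ISproj T)
    (fun q b => LocalGlobalInst27.ISequiv_inclq_same T q b)
    (fun q q' hqq' b => LocalGlobalInst27.ISequiv_inclq_ne T q' b q hqq')
    (fun q => finite_tors_ISq T Ĉ hĈ H p ((q : Nat.Primes) : ℕ) (hfin q))

end IS

end Fermat.Agent.W56.ISProd5
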