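/-
Programme W56 (target S56), stage 2, chapter (EC-5), helper5: **`BaseContracts4.ISCount`**
(assembly): `ISProd5.Phi_IS` (decomposition of `Φ(I_T|_Ĉ)` over the places and the double cosets)
+ `ISComp3.muP_tors_W_Sg`, `ISComp3.finite_tors_W_Sg` (helper3: the count at one Mackey component,
= `MonoW9.monoWp` + `MonoHyp1`).
-/
import Mathlib
import Fermat.Agent.W56.ISProd5
import Fermat.Agent.W56.ISComp3

set_option autoImplicit false
set_option linter.unusedSectionVars false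

open CategoryTheory ExtCitation

namespace Fermat.Agent.W56.ISCount5

open Fermat.Agent.PT.PRO Fermat.Agent.PT.GLUE.Objects21 Fermat.Agent.W56.Mackey2

local notation "Γ" => (AlgebraicClosure ℚ ≃ₐ[ℚ] AlgebraicClosure ℚ)

/-- **(IS-count)** the `Ĉ ⧸ U`-structure of `H²(Ĉ; W(I_T))[p]`. -/
theorem isCount : BaseContracts4.ISCount := by
  intro p _ _ T hpT U Ĉ _ hU hUC _ _ P _ _ _ ρP
  rw [ISProd5.Phi_IS T Ĉ ⟨U, hU, hUC⟩ (U.subgroupOf Ĉ) p ρP fun q w =>
    ISComp3.finite_tors_W_Sg p T hpT U Ĉ hU hUC ((q : Nat.Primes) : ℕ) w.out]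
  refine Finset.sum_congr rfl fun q _ => finsum_congr fun w => ?_
  exact ISComp3.muP_tors_W_Sg p T hpT U Ĉ hU hUC ((q : Nat.Primes) : ℕ) w.out P ρP

end Fermat.Agent.W56.ISCount5
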