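/-
Programme W56 (target S56), chapter (EC-5), `ISCount`, slice (S3), helper6: **the Mackey
decomposition in `R/E` form with orthogonality**.

Setting of `Mackey2`: `i : H →* G`, `𝓑G` a level basis of `G`, `Y` an `H`-module, `V ≤ G` open.
`X|_V = (Coind_i Y)|_V`, `S_g = Coind_{j_g} (Y|_{H_g})`, `R_g : X|_V → S_g` (restriction to `g V`),
`E_g : S_g → X|_V` (extension by zero from `i(H) g V`).  `Mackey2` has `∑_D E_D R_D = 1`; here:

* `Rg_Eg_self : R_g E_g = 1`;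
* `Rg_Eg_of_not_inDC`, `Rg_Eg_ne : R_D E_{D'} = 0` for `D ≠ D'`;
* the packaged family `RD`, `ED` indexed by `DC i V` with `RD_equivariant`, `ED_equivariant`,
  `sum_ED_RD`, `RD_ED_ne`, `RD_ED_self` (the hypotheses of an "additivity over a finite equivariant
  direct sum" lemma), and `fintypeDC`.
-/
import Mathlib
import Fermat.Agent.W56.Mackey2

set_option autoImplicit false
set_option linter.unusedSectionVars false

open CategoryTheory

namespace Fermat.Agent.W56.ISMackey6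

open Fermat.Agent.PT.PRO.LevelCoh28 Fermat.Agent.PT.PRO.LevelCohRes28
  Fermat.Agent.PT.PRO.SmoothCoind28 Fermat.Agent.PT.GLUE.Objects21
  Fermat.Agent.W56.Mackey2

variable {k G H : Type} [CommRing k] [Group G] [Group H]
variable (i : H →* G) (𝓑G : LevelBasis G) (Y : Rep.{0} k H) (V : Subgroup G)
  (hV : ∃ U₀ ∈ 𝓑G.sets, U₀ ≤ V)

/-- **`R_g ∘ E_g = 1`.** -/
theorem Rg_Eg_self (g : G) (φ : Sg i 𝓑G Y V g) :
    Rg i 𝓑G Y V g (Eg i 𝓑G Y V hV g φ) = φ := by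
  refine Subtype.ext (funext fun v => ?_)
  show (Eg i 𝓑G Y V hV g φ).1 (g * v) = φ.1 v
  rw [Eg_apply]
  have h := EgFun_apply i 𝓑G Y V g φ 1 v
  rw [map_one, one_mul, map_one, Module.End.one_apply] at h
  exact h

/-- **`R_g ∘ E_{g'} = 0`** when `g ∉ i(H) g' V`. -/
theorem Rg_Eg_of_not_inDC (g g' : G) (h : ¬ InDC i V g' g) (φ : Sg i 𝓑G Y V g') :
    Rg i 𝓑G Y V g (Eg i 𝓑G Y V hV g' φ) = 0 := by
  refine Subtype.ext (funext fun v => ?_)
  show (Eg i 𝓑G Y V hV g' φ).1 (g * v) = 0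
  rw [Eg_apply, EgFun_of_not]
  intro hx
  exact h ((inDC_mul_right i V v).1 hx)

/-- Two distinct double cosets: the representative of one does not lie in the other. -/
theorem not_inDC_out_of_ne {D D' : DC i V} (h : D ≠ D') : ¬ InDC i V D'.out D.out := by
  intro hx
  apply h
  have := (inDC_out_iff i V D' D.out).1 hx
  rw [Quotient.out_eq] at this
  exact this

/-- **`R_D ∘ E_{D'} = 0`** for `D ≠ D'`. -/
theorem Rg_Eg_ne (D D' : DC i V) (h : D ≠ D') (φ : Sg i 𝓑G Y V D'.out) :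
    Rg i 𝓑G Y V D.out (Eg i 𝓑G Y V hV D'.out φ) = 0 :=
  Rg_Eg_of_not_inDC i 𝓑G Y V hV D.out D'.out (not_inDC_out_of_ne i V h) φ

/-! ### The packaged family indexed by the double cosets -/

/-- The Mackey component at the double coset `D`. -/
noncomputable abbrev SD (D : DC i V) : Rep.{0} k ↥V := Sg i 𝓑G Y V D.out

/-- `R_D`. -/
noncomputable def RD (D : DC i V) : XV i 𝓑G Y V →ₗ[k] SD i 𝓑G Y V D := Rg i 𝓑G Y V D.out

/-- `E_D`. -/
noncomputable def ED (D : DC i V) : SD i 𝓑G Y V D →ₗ[k] XV i 𝓑G Y V := Eg i 𝓑G Y V hV D.out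

theorem RD_equivariant (D : DC i V) (v₀ : ↥V) (f : XV i 𝓑G Y V) :
    RD i 𝓑G Y V D ((XV i 𝓑G Y V).ρ v₀ f) = (SD i 𝓑G Y V D).ρ v₀ (RD i 𝓑G Y V D f) :=
  Rg_equivariant i 𝓑G Y V D.out v₀ f

theorem ED_equivariant (D : DC i V) (v₀ : ↥V) (φ : SD i 𝓑G Y V D) :
    ED i 𝓑G Y V hV D ((SD i 𝓑G Y V D).ρ v₀ φ) = (XV i 𝓑G Y V).ρ v₀ (ED i 𝓑G Y V hV D φ) :=
  Eg_equivariant i 𝓑G Y V hV D.out v₀ φ

theorem sum_ED_RD [Fintype (DC i V)] (f : XV i 𝓑G Y V) :
    ∑ D : DC i V, ED i 𝓑G Y V hV D (RD i 𝓑G Y V D f) = f :=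
  sum_Eg_Rg i 𝓑G Y V hV f

theorem RD_ED_ne (D D' : DC i V) (b : SD i 𝓑G Y V D') (h : D ≠ D') :
    RD i 𝓑G Y V D (ED i 𝓑G Y V hV D' b) = 0 :=
  Rg_Eg_ne i 𝓑G Y V hV D D' h b

theorem RD_ED_self (D : DC i V) (b : SD i 𝓑G Y V D) :
    RD i 𝓑G Y V D (ED i 𝓑G Y V hV D b) = b :=
  Rg_Eg_self i 𝓑G Y V hV D.out b

/-- `E_D R_D` are orthogonal idempotents (consequence). -/
theorem ED_RD_ED_RD (D D' : DC i V) (f : XV i 𝓑G Y V) [Decidable (D = D')] :
    ED i 𝓑G Y V hV D (RD i 𝓑G Y V D (ED i 𝓑G Y V hV D' (RD i 𝓑G Y V D' f))) =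
      if D = D' then ED i 𝓑G Y V hV D (RD i 𝓑G Y V D f) else 0 := by
  by_cases h : D = D'
  · subst h
    rw [if_pos rfl, RD_ED_self]
  · rw [if_neg h, RD_ED_ne i 𝓑G Y V hV D D' _ h, map_zero]

include hV in
/-- The double cosets form a finite type when `V` is open. -/
noncomputable def fintypeDC : Fintype (DC i V) :=
  haveI := finite_DC i 𝓑G V hV
  Fintype.ofFinite (DC i V)

end Fermat.Agent.W56.ISMackey6
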