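/-
Programme W56 (target S56), stage 2, chapter (EC-5), (P8)-instantiation (helper3):
**the Kummer count of the base case**.

Setting of `ChiInst3`: `G = ↥Ĉ`, `𝓑 = comapBasis Ĉ.subtype (levelS T)`, `H = U.subgroupOf Ĉ`,
`Z = 𝔽_p(ωC)`, `E = E_T|_Ĉ`, `j = ζ^(·) : Z → E` (`KerIsoGal7.muES`).  `KummerW4.kummer_count_W`
gives, for `P = dualP` (`= N^∨(ω)` over `Q = G ⧸ H`):

`χ(Ĉ, σ) = −h_P(H⁰(Ĉ; W E_T)) + h_P(H¹(Ĉ; W E_T)) + μ_P(H²(Ĉ; W E_T)[p])`   (`chiLev_inflSub_kummer`),

under the finiteness of `H¹, H²` of `W(μ_p)`.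
-/
import Mathlib
import Fermat.Agent.W56.ChiInst3
import Fermat.Agent.PT.GLUE.ESDivisible27

set_option autoImplicit false
set_option linter.unusedSectionVars false
set_option linter.style.haveILetI false

open CategoryTheory ExtCitation

namespace Fermat.Agent.W56.KummerInst3

open Fermat.Agent.PT.PRO Fermat.Agent.PT.BR Fermat.Agent.PT.PRO.LevelCoh28
  Fermat.Agent.PT.PRO.LevelCohRes28 Fermat.Agent.PT.PRO.SmoothCoind28
  Fermat.Agent.PT.GLUE.Objects21
  Fermat.Agent.W56.MuP4 Fermat.Agent.W56.TorsSnake4 Fermat.Agent.W56.EquivUnits0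
  Fermat.Agent.W56.QuotGal0 Fermat.Agent.W56.KummerStar4
  Fermat.Agent.W56.CoindStar4 Fermat.Agent.W56.IntRes4 Fermat.Agent.W56.InflCoind4
  Fermat.Agent.W56.ChiLev4 Fermat.Agent.W56.ChiArch4 Fermat.Agent.W56.PullQC0
  Fermat.Agent.W56.TwistW4 Fermat.Agent.W56.ChiInst3
open Fermat.Agent.S14.Fields (zeta)

local notation "Γ" => (AlgebraicClosure ℚ ≃ₐ[ℚ] AlgebraicClosure ℚ)

section Data

variable (p : ℕ) [Fact p.Prime] (T : Finset Nat.Primes) (hpT : pPrime p ∈ T)
  (U : Subgroup Γ) [hUn : U.Normal] (C : Subgroup (Γ ⧸ U))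

/-- `j : μ_p = 𝔽_p(ωC) → E_T|_Ĉ`, `a ↦ ζ^a`. -/
noncomputable def jMu :
    muRep p (omegaC p U C) →+ Rep.res (pre U C).subtype (ES T) :=
  (KerIsoGal7.muES p T hpT).j

theorem jMu_equivariant (g : ↥(pre U C)) (z : muRep p (omegaC p U C)) :
    jMu p T hpT U C ((muRep p (omegaC p U C)).ρ g z) =
      (Rep.res (pre U C).subtype (ES T)).ρ g (jMu p T hpT U C z) :=
  ((KerIsoGal7.muES p T hpT).equiv (g : Γ) z).symm

theorem jMu_injective : Function.Injective (jMu p T hpT U C) :=
  (KerIsoGal7.muES p T hpT).inj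

theorem jMu_torsion (e : Rep.res (pre U C).subtype (ES T)) :
    p • e = 0 ↔ ∃ z, jMu p T hpT U C z = e := by
  constructor
  · intro he
    exact (KerIsoGal7.muES p T hpT).surj e he
  · rintro ⟨z, rfl⟩
    have hz : ∀ a : ZMod p, p • a = 0 := fun a => by
      rw [nsmul_eq_mul, ZMod.natCast_self, zero_mul]
    show p • (KerIsoGal7.muES p T hpT).j z = 0
    rw [← map_nsmul]
    exact (congrArg (KerIsoGal7.muES p T hpT).j (hz z)).trans (map_zero _)

include hpT in
theorem resES_divisible (e : Rep.res (pre U C).subtype (ES T)) :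
    ∃ e' : Rep.res (pre U C).subtype (ES T), p • e' = e :=
  Fermat.Agent.PT.GLUE.ESDivisible27.exists_nsmul_eq (Fact.out : p.Prime) hpT e

theorem isDiscrete_resES :
    IsDiscrete (basC T U C).sets (Rep.res (pre U C).subtype (ES T)) :=
  TraceOpen8.isDiscrete_resV (levelS T) (ES T) (pre U C) (isDiscrete_ES T)

end Data

section Count

variable (p : ℕ) [Fact p.Prime] (T : Finset Nat.Primes) (hpT : pPrime p ∈ T)
  (U : Subgroup Γ) [hUn : U.Normal]
  (hU : U ∈ (LevelBridge13.globalBasis T).sets) (hζ : ∀ u ∈ U, u (zeta p) = zeta p)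
  (C : Subgroup (Γ ⧸ U))
  [Fintype (↥(pre U C) ⧸ U.subgroupOf (pre U C))]
  [Invertible (Fintype.card (↥(pre U C) ⧸ U.subgroupOf (pre U C)) : ZMod p)]

include hpT in
/-- **the Kummer count for `W(μ_p) → W(E_T)` over `Ĉ`**, for any finite dimensional `𝔽_p[Q]`-module
`P`. -/
theorem kummer_count_ES {P : Type*} [AddCommGroup P] [Module (ZMod p) P]
    [FiniteDimensional (ZMod p) P]
    (ρP : Representation (ZMod p) (↥(pre U C) ⧸ U.subgroupOf (pre U C)) P)
    [Finite (H1 (basC T U C)
      (W (basC T U C) (U.subgroupOf (pre U C)) (muRep p (omegaC p U C))))]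
    [Finite (H2 (basC T U C)
      (W (basC T U C) (U.subgroupOf (pre U C)) (muRep p (omegaC p U C))))] :
    (muP ρP
          (opH0 (W (basC T U C) (U.subgroupOf (pre U C)) (muRep p (omegaC p U C)))
            (star (basC T U C) (U.subgroupOf (pre U C)) (muRep p (omegaC p U C)))
            (star_comm (basC T U C) (U.subgroupOf (pre U C)) (muRep p (omegaC p U C)))) : ℤ) -
        muP ρP
          (opH1 (basC T U C) (W (basC T U C) (U.subgroupOf (pre U C)) (muRep p (omegaC p U C)))
            (star (basC T U C) (U.subgroupOf (pre U C)) (muRep p (omegaC p U C)))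
            (star_comm (basC T U C) (U.subgroupOf (pre U C)) (muRep p (omegaC p U C)))) +
        muP ρP
          (opH2 (basC T U C) (W (basC T U C) (U.subgroupOf (pre U C)) (muRep p (omegaC p U C)))
            (star (basC T U C) (U.subgroupOf (pre U C)) (muRep p (omegaC p U C)))
            (star_comm (basC T U C) (U.subgroupOf (pre U C)) (muRep p (omegaC p U C)))) =
      - hP p ρP (canonRep
          (opH0 (W (basC T U C) (U.subgroupOf (pre U C)) (Rep.res (pre U C).subtype (ES T)))
            (star (basC T U C) (U.subgroupOf (pre U C)) (Rep.res (pre U C).subtype (ES T)))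
            (star_comm (basC T U C) (U.subgroupOf (pre U C))
              (Rep.res (pre U C).subtype (ES T))))) +
        hP p ρP (canonRep
          (opH1 (basC T U C)
            (W (basC T U C) (U.subgroupOf (pre U C)) (Rep.res (pre U C).subtype (ES T)))
            (star (basC T U C) (U.subgroupOf (pre U C)) (Rep.res (pre U C).subtype (ES T)))
            (star_comm (basC T U C) (U.subgroupOf (pre U C))
              (Rep.res (pre U C).subtype (ES T))))) +
        muP ρP (torsRep p (canonRep
          (opH2 (basC T U C)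
            (W (basC T U C) (U.subgroupOf (pre U C)) (Rep.res (pre U C).subtype (ES T)))
            (star (basC T U C) (U.subgroupOf (pre U C)) (Rep.res (pre U C).subtype (ES T)))
            (star_comm (basC T U C) (U.subgroupOf (pre U C))
              (Rep.res (pre U C).subtype (ES T)))))) :=
  KummerW4.kummer_count_W (basC T U C) (U.subgroupOf (pre U C)) p (muRep p (omegaC p U C))
    (Rep.res (pre U C).subtype (ES T)) (jMu p T hpT U C) (jMu_equivariant p T hpT U C)
    (jMu_injective p T hpT U C) (jMu_torsion p T hpT U C) (resES_divisible p T hpT U C)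
    (isDiscrete_resES T U C) ρP

variable (N : Type) [AddCommGroup N] [Module (ZMod p) N] [Finite N]
  (σ : Representation (ZMod p) ↥C N)

include hU hpT in
/-- **(i) + (P8)**: `χ(Ĉ, σ) = −h_P(H⁰(W E_T)) + h_P(H¹(W E_T)) + μ_P(H²(W E_T)[p])`,
`P = dualP` (`= N^∨(ω)` over `Q`). -/
theorem chiLev_inflSub_kummer
    [Finite (H1 (basC T U C)
      (W (basC T U C) (U.subgroupOf (pre U C)) (muRep p (omegaC p U C))))]
    [Finite (H2 (basC T U C)
      (W (basC T U C) (U.subgroupOf (pre U C)) (muRep p (omegaC p U C))))] :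
    chiLev (LevelBridge13.pullBasisS (pre U C).subtype T) (inflSub U C σ) =
      - hP p (dualP p U C hζ σ) (canonRep
          (opH0 (W (basC T U C) (U.subgroupOf (pre U C)) (Rep.res (pre U C).subtype (ES T)))
            (star (basC T U C) (U.subgroupOf (pre U C)) (Rep.res (pre U C).subtype (ES T)))
            (star_comm (basC T U C) (U.subgroupOf (pre U C))
              (Rep.res (pre U C).subtype (ES T))))) +
        hP p (dualP p U C hζ σ) (canonRep
          (opH1 (basC T U C)
            (W (basC T U C) (U.subgroupOf (pre U C)) (Rep.res (pre U C).subtype (ES T)))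
            (star (basC T U C) (U.subgroupOf (pre U C)) (Rep.res (pre U C).subtype (ES T)))
            (star_comm (basC T U C) (U.subgroupOf (pre U C))
              (Rep.res (pre U C).subtype (ES T))))) +
        muP (dualP p U C hζ σ) (torsRep p (canonRep
          (opH2 (basC T U C)
            (W (basC T U C) (U.subgroupOf (pre U C)) (Rep.res (pre U C).subtype (ES T)))
            (star (basC T U C) (U.subgroupOf (pre U C)) (Rep.res (pre U C).subtype (ES T)))
            (star_comm (basC T U C) (U.subgroupOf (pre U C))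
              (Rep.res (pre U C).subtype (ES T)))))) := by
  haveI : Module.Finite (ZMod p) N := Module.Finite.of_finite
  haveI : FiniteDimensional (ZMod p) (Module.Dual (ZMod p) N) := inferInstance
  rw [chiLev_inflSub p T U hU hζ C N σ]
  exact kummer_count_ES p T hpT U C (dualP p U C hζ σ)

end Count

end Fermat.Agent.W56.KummerInst3
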