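/-
Programme W56 (target S56), chapter (D4) "local Euler characteristic at `p`", counting layer
(helper9): **multiplicities along filtrations** (Maschke).

`C` a finite group whose order is invertible in the field `k`, `μ_P(X) = dim_k Hom_C(P, X)`
(`MuP4.muP`).  Mathlib's `Representation.subrepresentation` / `Representation.quotient` give the
representations on an invariant subspace and on the quotient by it.

* `muP_le_of_injective`, `muP_le_of_surjective`: monotonicity;
* `muP_sub_add_quot`: `μ_P(X) = μ_P(W) + μ_P(X/W)`;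
* `muP_step`: for invariant `W' ≤ W` and an equivariant surjection `g : W → Y` vanishing on `W'`,
  `μ_P(W') + μ_P(Y) ≤ μ_P(W)`;
* `muP_coker_eq_ker`: for an equivariant `℘ : A → B` with `μ_P(A) = μ_P(B)`,
  `μ_P(coker ℘) = μ_P(ker ℘)`;
* `chain_count`: the numeric induction along a chain.
-/
import Mathlib
import Fermat.Agent.W56.MuP4

set_option autoImplicit false
set_option linter.unusedSectionVars false
set_option linter.unusedVariables false

namespace Fermat.Agent.W56.LecMaschke9

open Fermat.Agent.W56.MuP4 Module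

variable {k : Type*} [Field k] {C : Type*} [Group C] [Fintype C] [Invertible (Fintype.card C : k)]

section Mono

variable {P A B : Type*} [AddCommGroup P] [Module k P] [FiniteDimensional k P]
  [AddCommGroup A] [Module k A] [AddCommGroup B] [Module k B]
  (ρP : Representation k C P) (ρA : Representation k C A) (ρB : Representation k C B)

theorem muP_le_of_injective [FiniteDimensional k B] (φ : A →ₗ[k] B)
    (hφ : ∀ c a, φ (ρA c a) = ρB c (φ a)) (hinj : Function.Injective φ) :
    muP ρP ρA ≤ muP ρP ρB :=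
  LinearMap.finrank_le_finrank_of_injective (homCMap_injective ρP ρA ρB φ hφ hinj)

/-- Only `Hom_C(P, A)` has to be finite-dimensional here (e.g. `A` finite-dimensional). -/
theorem muP_le_of_surjective [Module.Finite k ↥(homC ρP ρA)] (φ : A →ₗ[k] B)
    (hφ : ∀ c a, φ (ρA c a) = ρB c (φ a)) (hsurj : Function.Surjective φ) :
    muP ρP ρB ≤ muP ρP ρA :=
  LinearMap.finrank_le_finrank_of_surjective (homCMap_surjective ρP ρA ρB φ hφ hsurj)

/-- Only `Hom_C(P, B)` has to be finite-dimensional here (e.g. `B` finite-dimensional). -/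
theorem muP_le_of_injective' [Module.Finite k ↥(homC ρP ρB)] (φ : A →ₗ[k] B)
    (hφ : ∀ c a, φ (ρA c a) = ρB c (φ a)) (hinj : Function.Injective φ) :
    muP ρP ρA ≤ muP ρP ρB :=
  LinearMap.finrank_le_finrank_of_injective (homCMap_injective ρP ρA ρB φ hφ hinj)

end Mono

section Step

variable {P X Y : Type*} [AddCommGroup P] [Module k P] [FiniteDimensional k P]
  [AddCommGroup X] [Module k X] [FiniteDimensional k X] [AddCommGroup Y] [Module k Y]
  (ρP : Representation k C P) (ρX : Representation k C X) (ρY : Representation k C Y)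

/-- `μ_P(X) = μ_P(W) + μ_P(X/W)`. -/
theorem muP_sub_add_quot (W : Submodule k X) (hW : ∀ g, W ≤ W.comap (ρX g)) :
    muP ρP ρX = muP ρP (ρX.subrepresentation W hW) + muP ρP (ρX.quotient W hW) := by
  refine muP_add ρP (ρX.subrepresentation W hW) ρX (ρX.quotient W hW) W.subtype W.mkQ
    (fun c a => rfl) (fun c b => rfl) W.injective_subtype (Submodule.mkQ_surjective W) fun b => ?_
  rw [Submodule.mkQ_apply, Submodule.Quotient.mk_eq_zero]
  constructor
  · intro hb
    exact ⟨⟨b, hb⟩, rfl⟩
  · rintro ⟨a, rfl⟩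
    exact a.2

/-- A short exact sequence `0 → ker g → X → Y → 0`. -/
theorem muP_ker_add (g : X →ₗ[k] Y) (hg : ∀ c x, g (ρX c x) = ρY c (g x))
    (hsurj : Function.Surjective g)
    (hK : ∀ c, LinearMap.ker g ≤ (LinearMap.ker g).comap (ρX c)) :
    muP ρP ρX = muP ρP (ρX.subrepresentation (LinearMap.ker g) hK) + muP ρP ρY := by
  refine muP_add ρP (ρX.subrepresentation (LinearMap.ker g) hK) ρX ρY (LinearMap.ker g).subtype g
    (fun c a => rfl) hg (LinearMap.ker g).injective_subtype hsurj fun b => ?_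
  constructor
  · intro hb
    exact ⟨⟨b, hb⟩, rfl⟩
  · rintro ⟨a, rfl⟩
    exact a.2

theorem ker_le_comap (g : X →ₗ[k] Y) (hg : ∀ c x, g (ρX c x) = ρY c (g x)) (c : C) :
    LinearMap.ker g ≤ (LinearMap.ker g).comap (ρX c) := by
  intro x hx
  rw [Submodule.mem_comap, LinearMap.mem_ker, hg, LinearMap.mem_ker.1 hx, map_zero]

/-- **The step along a filtration**: `W' ≤ W` invariant subspaces of `X`, `g : W → Y` an
equivariant surjection vanishing on `W'`; then `μ_P(W') + μ_P(Y) ≤ μ_P(W)`. -/
theorem muP_step (W W' : Submodule k X) (hW : ∀ c, W ≤ W.comap (ρX c))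
    (hW' : ∀ c, W' ≤ W'.comap (ρX c)) (hle : W' ≤ W) (g : ↥W →ₗ[k] Y)
    (hg : ∀ c (x : ↥W), g (ρX.subrepresentation W hW c x) = ρY c (g x))
    (hsurj : Function.Surjective g) (hker : ∀ x : ↥W, (x : X) ∈ W' → g x = 0) :
    muP ρP (ρX.subrepresentation W' hW') + muP ρP ρY ≤ muP ρP (ρX.subrepresentation W hW) := by
  have hK := ker_le_comap (ρX.subrepresentation W hW) ρY g hg
  rw [muP_ker_add ρP (ρX.subrepresentation W hW) ρY g hg hsurj hK]
  refine Nat.add_le_add_right ?_ _
  -- `W'` embeds into `ker g`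
  let ι : ↥W' →ₗ[k] ↥(LinearMap.ker g) :=
    { toFun := fun x => ⟨⟨x.1, hle x.2⟩, hker ⟨x.1, hle x.2⟩ x.2⟩
      map_add' := fun _ _ => rfl
      map_smul' := fun _ _ => rfl }
  refine muP_le_of_injective ρP (ρX.subrepresentation W' hW')
    ((ρX.subrepresentation W hW).subrepresentation (LinearMap.ker g) hK) ι (fun c a => rfl) ?_
  intro a b hab
  exact Subtype.ext (congrArg (fun z : ↥(LinearMap.ker g) => ((z : ↥W) : X)) hab)

/-- Monotonicity along invariant subspaces. -/
theorem muP_sub_mono (W W' : Submodule k X) (hW : ∀ c, W ≤ W.comap (ρX c))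
    (hW' : ∀ c, W' ≤ W'.comap (ρX c)) (hle : W' ≤ W) :
    muP ρP (ρX.subrepresentation W' hW') ≤ muP ρP (ρX.subrepresentation W hW) :=
  muP_le_of_injective ρP _ _ (Submodule.inclusion hle) (fun c a => rfl)
    (Submodule.inclusion_injective hle)

theorem muP_sub_le (W : Submodule k X) (hW : ∀ c, W ≤ W.comap (ρX c)) :
    muP ρP (ρX.subrepresentation W hW) ≤ muP ρP ρX :=
  muP_le_of_injective ρP _ _ W.subtype (fun c a => rfl) W.injective_subtype

end Step

section Coker

variable {P A B : Type*} [AddCommGroup P] [Module k P] [FiniteDimensional k P]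
  [AddCommGroup A] [Module k A] [FiniteDimensional k A]
  [AddCommGroup B] [Module k B] [FiniteDimensional k B]
  (ρP : Representation k C P) (ρA : Representation k C A) (ρB : Representation k C B)

theorem range_le_comap (℘ : A →ₗ[k] B) (h℘ : ∀ c a, ℘ (ρA c a) = ρB c (℘ a)) (c : C) :
    LinearMap.range ℘ ≤ (LinearMap.range ℘).comap (ρB c) := by
  rintro _ ⟨a, rfl⟩
  exact ⟨ρA c a, h℘ c a⟩

/-- **Kernel and cokernel have the same multiplicities** when source and target do. -/
theorem muP_coker_eq_ker (℘ : A →ₗ[k] B) (h℘ : ∀ c a, ℘ (ρA c a) = ρB c (℘ a))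
    (hAB : muP ρP ρA = muP ρP ρB) :
    muP ρP (ρB.quotient (LinearMap.range ℘) (range_le_comap ρA ρB ℘ h℘)) =
      muP ρP (ρA.subrepresentation (LinearMap.ker ℘) (ker_le_comap ρA ρB ℘ h℘)) := by
  have hR := range_le_comap ρA ρB ℘ h℘
  have h1 := muP_sub_add_quot ρP ρB (LinearMap.range ℘) hR
  have h2 := muP_ker_add ρP ρA (ρB.subrepresentation (LinearMap.range ℘) hR)
    (LinearMap.rangeRestrict ℘) (fun c a => Subtype.ext (h℘ c a))
    (LinearMap.surjective_rangeRestrict ℘)
    (by
      intro c x hx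
      rw [Submodule.mem_comap, LinearMap.mem_ker]
      have hx' : ℘ x = 0 := congrArg Subtype.val (LinearMap.mem_ker.1 hx)
      exact Subtype.ext (by
        show ℘ (ρA c x) = 0
        rw [h℘, hx', map_zero]))
  have hk : LinearMap.ker (LinearMap.rangeRestrict ℘) = LinearMap.ker ℘ :=
    LinearMap.ker_rangeRestrict ℘
  have h3 : muP ρP (ρA.subrepresentation (LinearMap.ker (LinearMap.rangeRestrict ℘))
      (by
        intro c x hx
        rw [Submodule.mem_comap, LinearMap.mem_ker]
        have hx' : ℘ x = 0 := congrArg Subtype.val (LinearMap.mem_ker.1 hx)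
        exact Subtype.ext (by
          show ℘ (ρA c x) = 0
          rw [h℘, hx', map_zero]))) =
      muP ρP (ρA.subrepresentation (LinearMap.ker ℘) (ker_le_comap ρA ρB ℘ h℘)) := by
    refine muP_congr ρP _ _ (LinearEquiv.ofEq _ _ hk) (fun c a => rfl)
  rw [h3] at h2
  omega

end Coker

/-- The numeric induction along a chain: if `a (j+1) + ν j ≤ a j` for `j < n` then
`a n + ∑_{j<n} ν j ≤ a 0`. -/
theorem chain_count (a ν : ℕ → ℕ) (n : ℕ) (h : ∀ j < n, a (j + 1) + ν j ≤ a j) :
    a n + ∑ j ∈ Finset.range n, ν j ≤ a 0 := by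
  induction n with
  | zero => simp
  | succ n ih =>
    have h1 := ih fun j hj => h j (Nat.lt_succ_of_lt hj)
    have h2 := h n (Nat.lt_succ_self n)
    rw [Finset.sum_range_succ]
    omega

end Fermat.Agent.W56.LecMaschke9
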