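/-
Programme W56 (target S56), chapter (D4) "local Euler characteristic at `p`", counting layer
(helper9): **twisted residue modules: Frobenius, eigenspaces and Galois descent.**

`G` a finite group of order prime to `p` acting on a finite field `κ` of characteristic `p` by
field automorphisms, `θ : G → κˣ` a crossed homomorphism (`θ (g h) = θ g · g(θ h)`; in the
application `θ g = g π / π mod 𝔪`).  `tw θ m` is `κ` with the `𝔽_p`-linear action
`g ⋆ a = (θ g)^m · g(a)` (`κ⟨m⟩`).  With `μ_P(·) = dim_{𝔽_p} Hom_G(P, ·)` (`MuP4.muP`):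

* `muP_tw_mul_p`: `μ_P(κ⟨p m⟩) = μ_P(κ⟨m⟩)` (Frobenius);
* `finrank_le_sum_muP_tw`: if `θ` is injective on the inertia subgroup `I = ker (G → Aut κ)`, then
  `dim P ≤ ∑_{m ∈ [a, a + #I)} μ_P(κ⟨m⟩)` (eigenspaces of `I` + Galois descent along `κ / κ^G`,
  the latter by Dedekind's independence of characters);
* `sum_not_dvd_eq_sum_Ioc`: the reindexing `{j ≤ pN, p ∤ j} ↔ (N, pN]`, `j ↦ p^a j`;
* `finrank_le_sum_not_dvd`: `dim P ≤ ∑_{0 < j ≤ p e₁, p ∤ j} μ_P(κ⟨j⟩)` when `#I ≤ (p - 1) e₁`;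
* **`muP_units_count`**: the assembled count along the unit filtration of `X = Kˣ/p`:
  `μ_P(𝔽_p) + dim P + μ_P(Yl) ≤ μ_P(X)`;
* `muP_coker_eq_ker_tw`: `μ_P(coker ℘) = μ_P(ker ℘)` for an equivariant `℘ : κ⟨e₁⟩ → κ⟨p e₁⟩`.
-/
import Mathlib
import Fermat.Agent.W56.MuP4
import Fermat.Agent.W56.LecMaschke9

set_option autoImplicit false
set_option linter.unusedSectionVars false
set_option linter.unusedVariables false
set_option linter.style.haveILetI false

namespace Fermat.Agent.W56.LecDescent9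

open Fermat.Agent.W56.MuP4 Module

/-! ### Dedekind's independence, in the form used for descent -/

/-- If `F σ` (`σ` in a finite set of multiplicative maps `κ → κ`) are vectors of a `κ`-vector
space, then each `F τ` lies in the span of the combinations `∑_σ σ(c) • F σ`, `c ∈ κ`. -/
theorem mem_span_of_dedekind {κ V : Type*} [Field κ] [AddCommGroup V] [Module κ V]
    (s : Finset (κ →* κ)) (F : (κ →* κ) → V) (τ : κ →* κ) (hτ : τ ∈ s) :
    F τ ∈ Submodule.span κ (Set.range fun c : κ => ∑ σ ∈ s, σ c • F σ) := by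
  classical
  by_contra h
  obtain ⟨φ, hφ1, hφ2⟩ := Submodule.exists_dual_map_eq_bot_of_notMem h inferInstance
  have h0 : ∀ c : κ, ∑ σ ∈ s, σ c * φ (F σ) = 0 := by
    intro c
    have hmem : φ (∑ σ ∈ s, σ c • F σ) ∈
        (Submodule.span κ (Set.range fun c : κ => ∑ σ ∈ s, σ c • F σ)).map φ :=
      Submodule.mem_map_of_mem (Submodule.subset_span ⟨c, rfl⟩)
    rw [hφ2, Submodule.mem_bot, map_sum] at hmem
    rw [← hmem]
    refine Finset.sum_congr rfl fun σ _ => ?_
    rw [map_smul, smul_eq_mul]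
  have hli := linearIndependent_monoidHom κ κ
  rw [linearIndependent_iff'] at hli
  have h1 := hli s (fun σ => φ (F σ)) (by
    funext c
    rw [Finset.sum_apply, Pi.zero_apply, ← h0 c]
    refine Finset.sum_congr rfl fun σ _ => ?_
    rw [Pi.smul_apply, smul_eq_mul, mul_comm]) τ hτ
  exact hφ1 h1

/-! ### The twisted modules `κ⟨m⟩` -/

section Tw

variable (p : ℕ) [Fact p.Prime] {G : Type*} [Group G]
  {κ : Type*} [Field κ] [Algebra (ZMod p) κ] [MulSemiringAction G κ]

theorem smul_algebraMap_zmod (g : G) (c : ZMod p) :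
    g • (algebraMap (ZMod p) κ c) = algebraMap (ZMod p) κ c := by
  have h : (MulSemiringAction.toRingHom G κ g).comp (algebraMap (ZMod p) κ) =
      algebraMap (ZMod p) κ := Subsingleton.elim _ _
  exact RingHom.congr_fun h c

variable (θ : G → κˣ) (hθ : ∀ g h : G, (θ (g * h) : κ) = θ g * g • (θ h : κ))

include hθ in
theorem theta_one : θ 1 = 1 := by
  have h := hθ 1 1
  rw [mul_one, one_smul] at h
  have h' : θ 1 = θ 1 * θ 1 := Units.ext h
  exact (mul_eq_left.mp h'.symm)

/-- The `𝔽_p`-linear map `a ↦ (θ g)^m · g(a)` of `κ`. -/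
def twMap (m : ℕ) (g : G) : κ →ₗ[ZMod p] κ where
  toFun a := (θ g : κ) ^ m * g • a
  map_add' a b := by rw [smul_add, mul_add]
  map_smul' c a := by
    rw [RingHom.id_apply, Algebra.smul_def, Algebra.smul_def, smul_mul', smul_algebraMap_zmod]
    ring

/-- `κ⟨m⟩`: the field `κ` with the `𝔽_p`-linear action `g ⋆ a = (θ g)^m · g(a)`. -/
def tw (m : ℕ) : Representation (ZMod p) G κ where
  toFun g := twMap p θ m g
  map_one' := by
    ext a
    show (θ 1 : κ) ^ m * (1 : G) • a = a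
    rw [theta_one θ hθ, Units.val_one, one_pow, one_mul, one_smul]
  map_mul' g h := by
    ext a
    show (θ (g * h) : κ) ^ m * (g * h) • a = (θ g : κ) ^ m * g • ((θ h : κ) ^ m * h • a)
    rw [hθ, mul_pow, smul_mul', smul_pow', mul_smul, mul_assoc]

theorem tw_apply (m : ℕ) (g : G) (a : κ) : tw p θ hθ m g a = (θ g : κ) ^ m * g • a := rfl

end Tw

/-! ### The reindexing `{j ≤ pN, p ∤ j} ↔ (N, pN]` -/

theorem sum_not_dvd_eq_sum_Ioc (p : ℕ) (hp : 0 < p) (μ : ℕ → ℕ) (hμ : ∀ m, μ (p * m) = μ m)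
    (N : ℕ) :
    ∑ j ∈ (Finset.Ioc 0 (p * N)).filter (fun j => ¬ p ∣ j), μ j =
      ∑ n ∈ Finset.Ioc N (p * N), μ n := by
  classical
  have h1 := Finset.sum_filter_add_sum_filter_not (Finset.Ioc 0 (p * N)) (fun j => p ∣ j) μ
  have h2 : ∑ j ∈ (Finset.Ioc 0 (p * N)).filter (fun j => p ∣ j), μ j =
      ∑ m ∈ Finset.Ioc 0 N, μ m := by
    have himg : (Finset.Ioc 0 (p * N)).filter (fun j => p ∣ j) =
        (Finset.Ioc 0 N).image (fun m => p * m) := by
      ext j
      simp only [Finset.mem_filter, Finset.mem_Ioc, Finset.mem_image]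
      constructor
      · rintro ⟨⟨h0, hj⟩, m, rfl⟩
        refine ⟨m, ⟨Nat.pos_of_ne_zero ?_, Nat.le_of_mul_le_mul_left hj hp⟩, rfl⟩
        rintro rfl
        simp at h0
      · rintro ⟨m, ⟨hm0, hm⟩, rfl⟩
        exact ⟨⟨Nat.mul_pos hp hm0, Nat.mul_le_mul_left p hm⟩, dvd_mul_right p m⟩
    rw [himg, Finset.sum_image (fun a _ b _ hab => Nat.eq_of_mul_eq_mul_left hp hab)]
    exact Finset.sum_congr rfl fun m _ => hμ m
  have h3 := Finset.sum_Ioc_consecutive μ (Nat.zero_le N) (Nat.le_mul_of_pos_left N hp)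
  rw [h2] at h1
  omega

/-! ### Frobenius: `κ⟨p m⟩ ≅ κ⟨m⟩` -/

section Frob

variable (p : ℕ) [Fact p.Prime] {G : Type*} [Group G] [Fintype G]
  [Invertible (Fintype.card G : ZMod p)]
  {κ : Type*} [Field κ] [Finite κ] [Algebra (ZMod p) κ] [MulSemiringAction G κ]
  (θ : G → κˣ) (hθ : ∀ g h : G, (θ (g * h) : κ) = θ g * g • (θ h : κ))
  {P : Type*} [AddCommGroup P] [Module (ZMod p) P] [FiniteDimensional (ZMod p) P]
  (ρP : Representation (ZMod p) G P)

omit [Finite κ] in
theorem charP_of_algebra_zmod : CharP κ p :=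
  charP_of_injective_algebraMap (algebraMap (ZMod p) κ).injective p

/-- The Frobenius of `κ` as an `𝔽_p`-linear map. -/
def frobLin : κ →ₗ[ZMod p] κ where
  toFun a := a ^ p
  map_add' a b := by
    haveI := charP_of_algebra_zmod p (κ := κ)
    exact add_pow_char a b p
  map_smul' c a := by
    rw [RingHom.id_apply, Algebra.smul_def, Algebra.smul_def, mul_pow, ← map_pow, ZMod.pow_card]

omit [Finite κ] in
theorem frobLin_injective : Function.Injective (frobLin p (κ := κ)) := by
  haveI := charP_of_algebra_zmod p (κ := κ)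
  intro a b hab
  have h : (a - b) ^ p = 0 := by
    rw [sub_pow_char, sub_eq_zero]
    exact hab
  exact sub_eq_zero.mp (pow_eq_zero_iff (Fact.out : p.Prime).ne_zero |>.mp h)

/-- The Frobenius as an `𝔽_p`-linear automorphism of the finite field `κ`. -/
noncomputable def frobEquiv : κ ≃ₗ[ZMod p] κ :=
  LinearEquiv.ofBijective (frobLin p)
    ⟨frobLin_injective p, Finite.injective_iff_surjective.mp (frobLin_injective p)⟩

theorem frobEquiv_apply (a : κ) : frobEquiv p a = a ^ p := rfl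

/-- **Frobenius**: `μ_P(κ⟨p m⟩) = μ_P(κ⟨m⟩)`. -/
theorem muP_tw_mul_p (m : ℕ) :
    muP ρP (tw p θ hθ (p * m)) = muP ρP (tw p θ hθ m) := by
  refine (muP_congr ρP (tw p θ hθ m) (tw p θ hθ (p * m)) (frobEquiv p) fun g a => ?_).symm
  rw [tw_apply, tw_apply, frobEquiv_apply, frobEquiv_apply, mul_pow, smul_pow', ← pow_mul,
    mul_comm m p]

end Frob

/-! ### Eigenspaces of the inertia subgroup and Galois descent -/

/-- The dimension of a finite supremum of subspaces is at most the sum of the dimensions. -/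
theorem finrank_finset_sup_le {K V ι : Type*} [Field K] [AddCommGroup V] [Module K V]
    [FiniteDimensional K V] (s : Finset ι) (S : ι → Submodule K V) :
    finrank K ↥(s.sup S) ≤ ∑ i ∈ s, finrank K ↥(S i) := by
  classical
  induction s using Finset.induction_on with
  | empty => simp
  | insert i s hi ih =>
    rw [Finset.sup_insert, Finset.sum_insert hi]
    exact (Submodule.finrank_add_le_finrank_add_finrank _ _).trans (Nat.add_le_add_left ih _)

/-- A geometric sum over a full period of a non-trivial root of unity vanishes. -/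
theorem sum_Ico_pow_eq_zero {κ : Type*} [Field κ] (ζ : κ) (hζ1 : ζ ≠ 1) (n : ℕ) (hζn : ζ ^ n = 1)
    (a : ℕ) : ∑ m ∈ Finset.Ico a (a + n), ζ ^ m = 0 := by
  rw [Finset.sum_Ico_eq_sum_range, Nat.add_sub_cancel_left]
  have h1 : ∑ i ∈ Finset.range n, ζ ^ (a + i) = ζ ^ a * ∑ i ∈ Finset.range n, ζ ^ i := by
    rw [Finset.mul_sum]
    exact Finset.sum_congr rfl fun i _ => pow_add ζ a i
  have h2 : (∑ i ∈ Finset.range n, ζ ^ i) * (ζ - 1) = 0 := by
    rw [geom_sum_mul, hζn, sub_self]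
  have h3 : ∑ i ∈ Finset.range n, ζ ^ i = 0 :=
    (mul_eq_zero.mp h2).resolve_right (sub_ne_zero.mpr hζ1)
  rw [h1, h3, mul_zero]

section Descent

open Classical

variable (p : ℕ) [Fact p.Prime] {G : Type*} [Group G] [Fintype G]
  [Invertible (Fintype.card G : ZMod p)]
  {κ : Type*} [Field κ] [Finite κ] [Algebra (ZMod p) κ] [MulSemiringAction G κ]
  (θ : G → κˣ) (hθ : ∀ g h : G, (θ (g * h) : κ) = θ g * g • (θ h : κ))
  {P : Type*} [AddCommGroup P] [Module (ZMod p) P] [FiniteDimensional (ZMod p) P]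
  (ρP : Representation (ZMod p) G P)

variable (G κ) in
/-- The inertia subgroup: the kernel of the action of `G` on `κ`. -/
def inertia : Subgroup G where
  carrier := {g | ∀ a : κ, g • a = a}
  one_mem' := fun a => one_smul G a
  mul_mem' := fun {g h} hg hh a => by rw [mul_smul, hh, hg]
  inv_mem' := fun {g} hg a => by rw [inv_smul_eq_iff, hg]

theorem mem_inertia {g : G} : g ∈ inertia G κ ↔ ∀ a : κ, g • a = a := Iff.rfl

include hθ in
theorem theta_mul_of_mem {i : G} (hi : i ∈ inertia G κ) (g : G) : θ (i * g) = θ i * θ g := by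
  apply Units.ext
  rw [hθ, hi, Units.val_mul]

include hθ in
theorem theta_pow_of_mem {i : G} (hi : i ∈ inertia G κ) (n : ℕ) : θ (i ^ n) = θ i ^ n := by
  induction n with
  | zero => rw [pow_zero, pow_zero, theta_one θ hθ]
  | succ n ih => rw [pow_succ', theta_mul_of_mem θ hθ hi, ih, pow_succ']

include hθ in
theorem theta_pow_card_of_mem {i : G} (hi : i ∈ inertia G κ) :
    θ i ^ Nat.card ↥(inertia G κ) = 1 := by
  rw [← theta_pow_of_mem θ hθ hi]
  have h : (⟨i, hi⟩ : ↥(inertia G κ)) ^ Nat.card ↥(inertia G κ) = 1 := pow_card_eq_one'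
  have h' : i ^ Nat.card ↥(inertia G κ) = 1 := by
    have h2 := congrArg Subtype.val h
    rwa [Subgroup.coe_pow, Subgroup.coe_one] at h2
  rw [h', theta_one θ hθ]

/-- The representation of `G` on `Hom_{𝔽_p}(P, κ⟨m⟩)`, as a function. -/
theorem linHom_tw_apply (m : ℕ) (g : G) (f : P →ₗ[ZMod p] κ) (x : P) :
    Representation.linHom ρP (tw p θ hθ m) g f x = (θ g : κ) ^ m * g • f (ρP g⁻¹ x) := rfl

/-- The action on `Hom_{𝔽_p}(P, κ⟨m⟩)` is semilinear for the `κ`-structure. -/
theorem linHom_tw_smul (m : ℕ) (g : G) (c : κ) (f : P →ₗ[ZMod p] κ) :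
    Representation.linHom ρP (tw p θ hθ m) g (c • f) =
      (g • c) • Representation.linHom ρP (tw p θ hθ m) g f := by
  ext x
  rw [LinearMap.smul_apply, linHom_tw_apply, linHom_tw_apply, LinearMap.smul_apply, smul_eq_mul,
    smul_eq_mul, smul_mul']
  ring

/-- On the inertia subgroup the action is `κ`-linear: a scalar times a translate. -/
theorem linHom_tw_of_mem (m : ℕ) {g : G} (hg : g ∈ inertia G κ) (f : P →ₗ[ZMod p] κ) :
    Representation.linHom ρP (tw p θ hθ m) g f = ((θ g : κ) ^ m) • (f ∘ₗ ρP g⁻¹) := by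
  ext x
  rw [linHom_tw_apply, hg, LinearMap.smul_apply, smul_eq_mul, LinearMap.comp_apply]

/-- **Galois descent** (Dedekind): the sum over the inertia subgroup of the translates of any
`f ∈ Hom_{𝔽_p}(P, κ)` lies in the `κ`-span of `Hom_G(P, κ⟨m⟩)`. -/
theorem sum_inertia_mem_span (m : ℕ) (f : P →ₗ[ZMod p] κ) :
    ∑ g ∈ Finset.univ.filter (fun g : G => g ∈ inertia G κ),
        Representation.linHom ρP (tw p θ hθ m) g f ∈
      Submodule.span κ ((homC ρP (tw p θ hθ m) : Submodule (ZMod p) (P →ₗ[ZMod p] κ)) :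
        Set (P →ₗ[ZMod p] κ)) := by
  set L := Representation.linHom ρP (tw p θ hθ m) with hL
  let toMH : G → (κ →* κ) := fun g => MulDistribMulAction.toMonoidHom κ g
  let s : Finset (κ →* κ) := Finset.univ.image toMH
  let F : (κ →* κ) → (P →ₗ[ZMod p] κ) := fun σ =>
    ∑ g ∈ Finset.univ.filter (fun g : G => toMH g = σ), L g f
  have hτ : toMH 1 ∈ s := Finset.mem_image_of_mem _ (Finset.mem_univ _)
  have hmem := mem_span_of_dedekind s F (toMH 1) hτ
  have hF1 : F (toMH 1) = ∑ g ∈ Finset.univ.filter (fun g : G => g ∈ inertia G κ), L g f := by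
    refine Finset.sum_congr ?_ fun _ _ => rfl
    ext g
    simp only [Finset.mem_filter, Finset.mem_univ, true_and]
    rw [mem_inertia]
    constructor
    · intro h a
      have := DFunLike.congr_fun h a
      simpa [toMH] using this
    · intro h
      ext a
      simp [toMH, h a]
  rw [hF1] at hmem
  refine Submodule.span_mono ?_ hmem
  rintro _ ⟨c, rfl⟩
  -- the combination is the norm of `c • f`
  have hsum : ∑ σ ∈ s, σ c • F σ = ∑ g : G, L g (c • f) := by
    have h1 : ∀ σ ∈ s, σ c • F σ =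
        ∑ g ∈ Finset.univ.filter (fun g : G => toMH g = σ), L g (c • f) := by
      intro σ _
      rw [Finset.smul_sum]
      refine Finset.sum_congr rfl fun g hg => ?_
      rw [Finset.mem_filter] at hg
      rw [hL, linHom_tw_smul, ← hg.2]
      rfl
    rw [Finset.sum_congr rfl h1]
    exact Finset.sum_fiberwise_of_maps_to (fun g _ => Finset.mem_image_of_mem _ (Finset.mem_univ g))
      _
  show ∑ σ ∈ s, σ c • F σ ∈ _
  rw [hsum]
  have hnorm : ∑ g : G, L g (c • f) = L.norm (c • f) := by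
    rw [Representation.norm, LinearMap.sum_apply]
  rw [hnorm]
  show L.norm (c • f) ∈ L.invariants
  intro g
  exact Representation.self_norm_apply L g (c • f)

/-- **Orthogonality of the characters `θ^m` of the inertia subgroup.** -/
theorem sum_sum_inertia (hinj : ∀ g ∈ inertia G κ, θ g = 1 → g = 1) (a : ℕ)
    (f : P →ₗ[ZMod p] κ) :
    ∑ m ∈ Finset.Ico a (a + Nat.card ↥(inertia G κ)),
      ∑ g ∈ Finset.univ.filter (fun g : G => g ∈ inertia G κ),
        Representation.linHom ρP (tw p θ hθ m) g f =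
      (Nat.card ↥(inertia G κ) : κ) • f := by
  rw [Finset.sum_comm]
  have h1 : (1 : G) ∈ Finset.univ.filter (fun g : G => g ∈ inertia G κ) := by
    rw [Finset.mem_filter]
    exact ⟨Finset.mem_univ _, Subgroup.one_mem _⟩
  rw [Finset.sum_eq_single_of_mem 1 h1]
  · have h : ∀ m, Representation.linHom ρP (tw p θ hθ m) 1 f = f := fun m => by
      rw [map_one]; rfl
    rw [Finset.sum_congr rfl fun m _ => h m, Finset.sum_const, Nat.card_Ico,
      Nat.add_sub_cancel_left, Nat.cast_smul_eq_nsmul]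
  · intro g hg hg1
    rw [Finset.mem_filter] at hg
    have hgI := hg.2
    rw [Finset.sum_congr rfl fun m _ => linHom_tw_of_mem p θ hθ ρP m hgI f, ← Finset.sum_smul,
      sum_Ico_pow_eq_zero (θ g : κ) ?_ _ ?_, zero_smul]
    · intro h
      exact hg1 (hinj g hgI (Units.ext h))
    · rw [← Units.val_pow_eq_pow_val, theta_pow_card_of_mem θ hθ hgI, Units.val_one]

/-- The `κ`-span of an `𝔽`-subspace has `κ`-dimension at most its `𝔽`-dimension. -/
theorem finrank_span_le_finrank {k₀ K V : Type*} [Field k₀] [Field K] [Algebra k₀ K]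
    [AddCommGroup V] [Module k₀ V] [Module K V] [IsScalarTower k₀ K V] [FiniteDimensional K V]
    (E : Submodule k₀ V) [FiniteDimensional k₀ ↥E] :
    finrank K ↥(Submodule.span K (E : Set V)) ≤ finrank k₀ ↥E := by
  let b := Module.finBasis k₀ ↥E
  let v : Fin (finrank k₀ ↥E) → V := fun i => (b i : V)
  have hle : Submodule.span K (E : Set V) ≤ Submodule.span K (Set.range v) := by
    refine Submodule.span_le.2 fun x hx => ?_
    have hx' := b.sum_repr ⟨x, hx⟩
    have hx2 : x = ∑ i, (b.repr ⟨x, hx⟩ i) • v i := by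
      have h3 : ((∑ i, (b.repr ⟨x, hx⟩ i) • b i : ↥E) : V) = x := congrArg Subtype.val hx'
      refine h3.symm.trans ?_
      rw [Submodule.coe_sum]
      exact Finset.sum_congr rfl fun i _ => rfl
    rw [hx2]
    refine Submodule.sum_mem _ fun i _ => ?_
    rw [← algebraMap_smul K (b.repr ⟨x, hx⟩ i) (v i)]
    exact Submodule.smul_mem _ _ (Submodule.subset_span ⟨i, rfl⟩)
  calc finrank K ↥(Submodule.span K (E : Set V))
      ≤ finrank K ↥(Submodule.span K (Set.range v)) := Submodule.finrank_mono hle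
    _ ≤ Fintype.card (Fin (finrank k₀ ↥E)) := finrank_range_le_card v
    _ = finrank k₀ ↥E := Fintype.card_fin _

/-- **Eigenspaces + Galois descent**: if `θ` is injective on the inertia subgroup, then
`dim P ≤ ∑_{m ∈ [a, a + #I)} μ_P(κ⟨m⟩)`. -/
theorem finrank_le_sum_muP_tw (hinj : ∀ g ∈ inertia G κ, θ g = 1 → g = 1) (a : ℕ) :
    finrank (ZMod p) P ≤
      ∑ m ∈ Finset.Ico a (a + Nat.card ↥(inertia G κ)), muP ρP (tw p θ hθ m) := by
  set n := Nat.card ↥(inertia G κ) with hn
  haveI := charP_of_algebra_zmod p (κ := κ)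
  have hn0 : (n : κ) ≠ 0 := by
    rw [Ne, CharP.cast_eq_zero_iff κ p]
    intro hpn
    have hdvd : n ∣ Fintype.card G := by
      rw [hn, ← Nat.card_eq_fintype_card]
      exact Subgroup.card_subgroup_dvd_card _
    have h0 : (Fintype.card G : ZMod p) = 0 := (ZMod.natCast_eq_zero_iff _ _).2 (hpn.trans hdvd)
    exact Invertible.ne_zero (Fintype.card G : ZMod p) h0
  -- `Hom_{𝔽_p}(P, κ)` is a `κ`-vector space of dimension `dim P`
  let b := Module.finBasis (ZMod p) P
  let e : (Fin (finrank (ZMod p) P) → κ) ≃ₗ[κ] (P →ₗ[ZMod p] κ) := b.constr κ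
  haveI : FiniteDimensional κ (P →ₗ[ZMod p] κ) := Module.Finite.equiv e
  have hdim : finrank κ (P →ₗ[ZMod p] κ) = finrank (ZMod p) P := by
    rw [← LinearEquiv.finrank_eq e, Module.finrank_fin_fun]
  let S : ℕ → Submodule κ (P →ₗ[ZMod p] κ) := fun m =>
    Submodule.span κ ((homC ρP (tw p θ hθ m) : Submodule (ZMod p) (P →ₗ[ZMod p] κ)) :
      Set (P →ₗ[ZMod p] κ))
  have htop : (⊤ : Submodule κ (P →ₗ[ZMod p] κ)) ≤ (Finset.Ico a (a + n)).sup S := by
    intro f _
    have h1 : (n : κ) • f ∈ (Finset.Ico a (a + n)).sup S := by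
      rw [← sum_sum_inertia p θ hθ ρP hinj a f]
      refine Submodule.sum_mem _ fun m hm => ?_
      exact (Finset.le_sup (f := S) hm) (sum_inertia_mem_span p θ hθ ρP m f)
    have h2 := Submodule.smul_mem _ ((n : κ)⁻¹) h1
    rwa [smul_smul, inv_mul_cancel₀ hn0, one_smul] at h2
  calc finrank (ZMod p) P = finrank κ (P →ₗ[ZMod p] κ) := hdim.symm
    _ = finrank κ ↥(⊤ : Submodule κ (P →ₗ[ZMod p] κ)) := (finrank_top κ _).symm
    _ ≤ finrank κ ↥((Finset.Ico a (a + n)).sup S) := Submodule.finrank_mono htop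
    _ ≤ ∑ m ∈ Finset.Ico a (a + n), finrank κ ↥(S m) := finrank_finset_sup_le _ S
    _ ≤ ∑ m ∈ Finset.Ico a (a + n), muP ρP (tw p θ hθ m) :=
        Finset.sum_le_sum fun m _ => finrank_span_le_finrank _

/-- The same over any interval of length at least `#I`. -/
theorem finrank_le_sum_muP_tw_of_le (hinj : ∀ g ∈ inertia G κ, θ g = 1 → g = 1) (a e : ℕ)
    (he : Nat.card ↥(inertia G κ) ≤ e) :
    finrank (ZMod p) P ≤ ∑ m ∈ Finset.Ico a (a + e), muP ρP (tw p θ hθ m) :=
  (finrank_le_sum_muP_tw p θ hθ ρP hinj a).trans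
    (Finset.sum_le_sum_of_subset (Finset.Ico_subset_Ico le_rfl (Nat.add_le_add_left he a)))

/-- **The middle of the unit filtration**: the sum of `μ_P(κ⟨j⟩)` over `0 < j ≤ p e₁`, `p ∤ j`,
is at least `dim P`, when `#I ≤ (p - 1) e₁`. -/
theorem finrank_le_sum_not_dvd (hinj : ∀ g ∈ inertia G κ, θ g = 1 → g = 1) (e1 : ℕ)
    (he : Nat.card ↥(inertia G κ) ≤ (p - 1) * e1) :
    finrank (ZMod p) P ≤
      ∑ j ∈ (Finset.Ioc 0 (p * e1)).filter (fun j => ¬ p ∣ j), muP ρP (tw p θ hθ j) := by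
  have hp : 0 < p := (Fact.out : p.Prime).pos
  rw [sum_not_dvd_eq_sum_Ioc p hp (fun j => muP ρP (tw p θ hθ j))
    (fun m => muP_tw_mul_p p θ hθ ρP m) e1]
  have h := finrank_le_sum_muP_tw_of_le p θ hθ ρP hinj (e1 + 1) ((p - 1) * e1) he
  have hIco : Finset.Ico (e1 + 1) (e1 + 1 + (p - 1) * e1) = Finset.Ioc e1 (p * e1) := by
    ext j
    simp only [Finset.mem_Ico, Finset.mem_Ioc]
    have : p * e1 = e1 + (p - 1) * e1 := by
      obtain ⟨q, rfl⟩ : ∃ q, p = q + 1 := ⟨p - 1, by omega⟩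
      rw [Nat.add_sub_cancel]
      ring
    omega
  rwa [hIco] at h

end Descent

/-! ### The assembled count along the unit filtration -/

section Count

open Classical

variable (p : ℕ) [Fact p.Prime] {G : Type*} [Group G] [Fintype G]
  [Invertible (Fintype.card G : ZMod p)]
  {κ : Type*} [Field κ] [Finite κ] [Algebra (ZMod p) κ] [MulSemiringAction G κ]
  (θ : G → κˣ) (hθ : ∀ g h : G, (θ (g * h) : κ) = θ g * g • (θ h : κ))
  {P : Type*} [AddCommGroup P] [Module (ZMod p) P] [FiniteDimensional (ZMod p) P]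
  (ρP : Representation (ZMod p) G P)
  {X : Type*} [AddCommGroup X] [Module (ZMod p) X] [FiniteDimensional (ZMod p) X]
  (ρX : Representation (ZMod p) G X)

include hθ in
/-- **The count along the unit filtration.**  `X` a finite-dimensional `𝔽_p[G]`-module with a
decreasing filtration `F j` by invariant subspaces (`F 1` = the units, `F j` = the image of
`U^(j)`);  `v : X → 𝔽_p` an invariant surjection vanishing on `F 1` (the valuation);  for
`0 < j < p e₁`, `p ∤ j`, equivariant surjections `gr j : F j → κ⟨j⟩` vanishing on `F (j+1)`;  an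
equivariant surjection `gl` of `F (p e₁)` onto a module `Yl`.  If `θ` is injective on the inertia
subgroup `I` and `#I ≤ (p - 1) e₁`, then
`μ_P(𝔽_p) + dim P + μ_P(Yl) ≤ μ_P(X)`. -/
theorem muP_units_count (hinj : ∀ g ∈ inertia G κ, θ g = 1 → g = 1) (e1 : ℕ) (he1 : 0 < e1)
    (he : Nat.card ↥(inertia G κ) ≤ (p - 1) * e1)
    (F : ℕ → Submodule (ZMod p) X) (hanti : ∀ j, F (j + 1) ≤ F j)
    (hstab : ∀ j g, F j ≤ (F j).comap (ρX g))
    (v : X →ₗ[ZMod p] ZMod p) (hv : Function.Surjective v) (hvG : ∀ g x, v (ρX g x) = v x)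
    (hv1 : ∀ x ∈ F 1, v x = 0)
    (gr : ∀ j : ℕ, ↥(F j) →ₗ[ZMod p] κ)
    (hgr_surj : ∀ j, 0 < j → j < p * e1 → ¬ p ∣ j → Function.Surjective (gr j))
    (hgr_eq : ∀ j, 0 < j → j < p * e1 → ¬ p ∣ j → ∀ (g : G) (x : ↥(F j)),
      gr j (ρX.subrepresentation (F j) (hstab j) g x) = (θ g : κ) ^ j * g • gr j x)
    (hgr_ker : ∀ j, 0 < j → j < p * e1 → ¬ p ∣ j → ∀ x : ↥(F j), (x : X) ∈ F (j + 1) →
      gr j x = 0)
    {Yl : Type*} [AddCommGroup Yl] [Module (ZMod p) Yl] (ρl : Representation (ZMod p) G Yl)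
    (gl : ↥(F (p * e1)) →ₗ[ZMod p] Yl) (hgl_surj : Function.Surjective gl)
    (hgl_eq : ∀ (g : G) (x : ↥(F (p * e1))),
      gl (ρX.subrepresentation (F (p * e1)) (hstab _) g x) = ρl g (gl x)) :
    muP ρP (Representation.trivial (ZMod p) G (ZMod p)) + finrank (ZMod p) P + muP ρP ρl ≤
      muP ρP ρX := by
  have hp : 0 < p := (Fact.out : p.Prime).pos
  -- `a j = μ_P(F j)`
  set a : ℕ → ℕ := fun j => muP ρP (ρX.subrepresentation (F j) (hstab j)) with ha
  set ν : ℕ → ℕ := fun j => if p ∣ j then 0 else muP ρP (tw p θ hθ j) with hν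
  -- top
  have htop : muP ρP (Representation.trivial (ZMod p) G (ZMod p)) + a 1 ≤ muP ρP ρX := by
    have hK := LecMaschke9.ker_le_comap ρX (Representation.trivial (ZMod p) G (ZMod p)) v
      (fun c x => by rw [hvG]; rfl)
    rw [LecMaschke9.muP_ker_add ρP ρX (Representation.trivial (ZMod p) G (ZMod p)) v
      (fun c x => by rw [hvG]; rfl) hv hK, add_comm]
    refine Nat.add_le_add_right ?_ _
    exact LecMaschke9.muP_sub_mono ρP ρX _ _ hK (hstab 1) (fun x hx => hv1 x hx)
  -- middle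
  have hstep : ∀ j, 0 < j → j < p * e1 → a (j + 1) + ν j ≤ a j := by
    intro j hj0 hj
    by_cases hpj : p ∣ j
    · simp only [hν, if_pos hpj, add_zero]
      exact LecMaschke9.muP_sub_mono ρP ρX _ _ (hstab j) (hstab (j + 1)) (hanti j)
    · simp only [hν, if_neg hpj]
      exact LecMaschke9.muP_step ρP ρX (tw p θ hθ j) (F j) (F (j + 1)) (hstab j) (hstab (j + 1))
        (hanti j) (gr j) (hgr_eq j hj0 hj hpj) (hgr_surj j hj0 hj hpj) (hgr_ker j hj0 hj hpj)
  have hchain := LecMaschke9.chain_count (fun i => a (i + 1)) (fun i => ν (i + 1)) (p * e1 - 1)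
    (fun i hi => hstep (i + 1) (Nat.succ_pos i) (by omega))
  have hpe : p * e1 - 1 + 1 = p * e1 := Nat.sub_add_cancel (Nat.mul_pos hp he1)
  simp only [hpe, zero_add] at hchain
  -- the sum of the `ν`
  have hsum : ∑ i ∈ Finset.range (p * e1 - 1), ν (i + 1) =
      ∑ j ∈ (Finset.Ioc 0 (p * e1)).filter (fun j => ¬ p ∣ j), muP ρP (tw p θ hθ j) := by
    rw [Finset.sum_filter]
    have h1 : ∑ i ∈ Finset.range (p * e1 - 1), ν (i + 1) = ∑ j ∈ Finset.Ioc 0 (p * e1 - 1), ν j := by
      rw [Finset.range_eq_Ico, Finset.sum_Ico_add' (fun j => ν j) 0 (p * e1 - 1) 1]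
      refine Finset.sum_congr ?_ fun _ _ => rfl
      ext j
      simp only [Finset.mem_Ico, Finset.mem_Ioc]
      omega
    have h2 : Finset.Ioc 0 (p * e1) = insert (p * e1) (Finset.Ioc 0 (p * e1 - 1)) := by
      ext j
      simp only [Finset.mem_Ioc, Finset.mem_insert]
      omega
    rw [h1, h2, Finset.sum_insert (by simp), if_neg (by simp), zero_add]
    refine Finset.sum_congr rfl fun j _ => ?_
    simp only [hν]
    by_cases hpj : p ∣ j
    · rw [if_pos hpj, if_neg (not_not.2 hpj)]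
    · rw [if_neg hpj, if_pos hpj]
  have hmid := finrank_le_sum_not_dvd p θ hθ ρP hinj e1 he
  rw [← hsum] at hmid
  -- last
  have hlast : muP ρP ρl ≤ a (p * e1) :=
    LecMaschke9.muP_le_of_surjective ρP _ ρl gl hgl_eq hgl_surj
  omega

/-- **The last piece of the unit filtration**: for an equivariant `℘ : κ⟨e₁⟩ → κ⟨p e₁⟩`
(in the application `℘ b = b^p + ε b`), the cokernel and the kernel have the same multiplicities
(Frobenius: `μ_P(κ⟨e₁⟩) = μ_P(κ⟨p e₁⟩)`). -/
theorem muP_coker_eq_ker_tw (e1 : ℕ) (℘ : κ →ₗ[ZMod p] κ)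
    (h℘ : ∀ (g : G) (b : κ), ℘ (tw p θ hθ e1 g b) = tw p θ hθ (p * e1) g (℘ b)) :
    muP ρP ((tw p θ hθ (p * e1)).quotient (LinearMap.range ℘)
        (LecMaschke9.range_le_comap (tw p θ hθ e1) (tw p θ hθ (p * e1)) ℘ h℘)) =
      muP ρP ((tw p θ hθ e1).subrepresentation (LinearMap.ker ℘)
        (LecMaschke9.ker_le_comap (tw p θ hθ e1) (tw p θ hθ (p * e1)) ℘ h℘)) := by
  exact LecMaschke9.muP_coker_eq_ker ρP (tw p θ hθ e1) (tw p θ hθ (p * e1)) ℘ h℘
    (muP_tw_mul_p p θ hθ ρP e1).symm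

end Count

end Fermat.Agent.W56.LecDescent9
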