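/-
Programme W56 (target S56), chapter (D4) = (LEC-p), helper5: two standalone lemmas for the
instantiation `LecContracts7.UFieldKU` (helper9).

* `mem_of_fixes_KU`, `faithful_KU` : an element of `Γ_q` acting trivially on `KU q U` (`U` open
  normal) lies in `U`; i.e. `Γ_q ⧸ U` acts faithfully on `KU q U` (finite Galois theory in the normal
  closure of a level of `U`);
* `exists_nat_close` : an element of `ℚ̄` fixed by `Γ_q` and integral at the place is congruent to a
  natural number modulo the maximal ideal (density of `ℕ` in `ℤ_q`).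
-/
import Mathlib
import Fermat.Agent.W56.LecField7
import Fermat.Agent.W56.LecLocal5
import Fermat.Agent.PT.BR.LevelBridge13

set_option autoImplicit false
set_option linter.unusedSectionVars false

open ExtCitation

namespace Fermat.Agent.W56.LecFaith5

open Fermat.Agent.W56.Defs9 Fermat.Agent.W56.LecField7 Fermat.Agent.PT.BR

local notation "Qb" => AlgebraicClosure ℚ

/-! ### Faithfulness -/

section Faithful

variable (q : Nat.Primes) (U : Subgroup (primeLocalGaloisGroup q)) [hUn : U.Normal]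

/-- **an element of `Γ_q` fixing `KU q U` pointwise lies in `U`** (`U` open). -/
theorem mem_of_fixes_KU (hopen : ∃ V ∈ LevelBridge13.pullSets (locD q), V ≤ U)
    (g : primeLocalGaloisGroup q) (h : ∀ x ∈ KU q U, locD q g x = x) : g ∈ U := by
  obtain ⟨_, ⟨F, hF, rfl⟩, hVU⟩ := hopen
  have : FiniteDimensional ℚ F := hF
  set L : IntermediateField ℚ Qb := IntermediateField.normalClosure ℚ (↥F) Qb with hL
  have hLn : Normal ℚ L := normalClosure.normal ℚ (↥F) Qb
  have hLfd : FiniteDimensional ℚ L := by rw [hL]; infer_instance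
  have hFL : F ≤ L := IntermediateField.le_normalClosure F
  -- the restriction to `L`
  let r : primeLocalGaloisGroup q →* (L ≃ₐ[ℚ] L) :=
    (AlgEquiv.restrictNormalHom L).comp (locD q)
  have hr : ∀ (s : primeLocalGaloisGroup q) (x : L), ((r s x : L) : Qb) = locD q s (x : Qb) :=
    fun s x => AlgEquiv.restrictNormal_commutes (locD q s) L x
  -- `r g` fixes the fixed field of `r U`
  have hmem : r g ∈ (IntermediateField.fixedField (U.map r)).fixingSubgroup := by
    rw [IntermediateField.mem_fixingSubgroup_iff]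
    intro x hx
    apply Subtype.ext
    rw [hr]
    apply h
    intro u hu
    have h1 := (IntermediateField.mem_fixedField_iff _ _).1 hx (r u) ⟨u, hu, rfl⟩
    have h2 := congrArg (fun z : L => (z : Qb)) h1
    simp only [hr] at h2
    exact h2
  rw [IntermediateField.fixingSubgroup_fixedField] at hmem
  obtain ⟨u, hu, hug⟩ := hmem
  -- `u⁻¹ g` is trivial on `L`, hence in the level
  have h3 : u⁻¹ * g ∈ U := by
    apply hVU
    show locD q (u⁻¹ * g) ∈ F.fixingSubgroup
    rw [IntermediateField.mem_fixingSubgroup_iff]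
    intro x hx
    have h4 : r (u⁻¹ * g) = 1 := by rw [map_mul, map_inv, hug, inv_mul_cancel]
    have h5 := hr (u⁻¹ * g) ⟨x, hFL hx⟩
    rw [h4] at h5
    exact h5.symm
  have h6 : g = u * (u⁻¹ * g) := by group
  rw [h6]
  exact U.mul_mem hu h3

/-- **`Γ_q ⧸ U` acts faithfully on `KU q U`** (helper7's `UField.faithful`). -/
theorem faithful_KU (hopen : ∃ V ∈ LevelBridge13.pullSets (locD q), V ≤ U)
    (σ : primeLocalGaloisGroup q ⧸ U) (h : ∀ x : ↥(KU q U), σ • x = x) : σ = 1 := by
  obtain ⟨g, rfl⟩ := QuotientGroup.mk_surjective σ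
  rw [QuotientGroup.eq_one_iff]
  refine mem_of_fixes_KU q U hopen g fun x hx => ?_
  have h1 := congrArg (fun z : ↥(KU q U) => (z : Qb)) (h ⟨x, hx⟩)
  simpa only [mk_smul_coe] using h1

end Faithful

/-! ### Congruence to a natural number -/

section NatClose

variable (q : ℕ) [hq : Fact q.Prime]

/-- every `q`-adic integer is congruent to a natural number. -/
theorem exists_nat_norm_lt (z : ℚ_[q]) (hz : ‖z‖ ≤ 1) : ∃ n : ℕ, ‖z - (n : ℚ_[q])‖ < 1 := by
  let z' : ℤ_[q] := ⟨z, hz⟩
  refine ⟨(PadicInt.appr z' 1), ?_⟩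
  have h1 := PadicInt.appr_spec 1 z'
  rw [pow_one] at h1
  have h2 : ‖z' - (PadicInt.appr z' 1 : ℤ_[q])‖ < 1 := by
    rw [PadicInt.norm_lt_one_iff_dvd, ← Ideal.mem_span_singleton]
    exact h1
  have h3 : ‖z' - (PadicInt.appr z' 1 : ℤ_[q])‖ = ‖z - ((PadicInt.appr z' 1 : ℕ) : ℚ_[q])‖ := by
    rw [PadicInt.norm_def]
    push_cast
    rfl
  rw [← h3]
  exact h2

/-- **an integral element of `ℚ̄` fixed by `Γ_q` is congruent to a natural number.** -/
theorem exists_nat_close (x : Qb)
    (hfix : ∀ g : (PadicAlgCl q ≃ₐ[ℚ_[q]] PadicAlgCl q), localGaloisToGlobal q g x = x)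
    (hint : ‖padicEmbedding q x‖ ≤ 1) :
    ∃ n : ℕ, ‖padicEmbedding q x - (n : PadicAlgCl q)‖ < 1 := by
  obtain ⟨z, hz⟩ := LecLocal5.exists_padic_of_fixed q x hfix
  have hnorm : ∀ y : ℚ_[q], ‖algebraMap ℚ_[q] (PadicAlgCl q) y‖ = ‖y‖ := fun y =>
    norm_algebraMap' (PadicAlgCl q) y
  rw [hz, hnorm] at hint
  obtain ⟨n, hn⟩ := exists_nat_norm_lt q z hint
  refine ⟨n, ?_⟩
  rw [hz, ← map_natCast (algebraMap ℚ_[q] (PadicAlgCl q)), ← map_sub, hnorm]
  exact hn

end NatClose

end Fermat.Agent.W56.LecFaith5
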