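/-
Programme W56 (target S56), chapter (D4) = (LEC-p), cohomological side (helper5):
**the Euler characteristic inequality `h⁰ − h¹ + h² ≤ −1` for a line**, from the bound (LH2) for
`H²` and a family of eigen-homomorphisms of an open normal subgroup of invertible index
(`LecCores5`).
-/
import Mathlib
import Fermat.Prelude.Def_GroupCohomology_Selmer
import Fermat.Agent.W56.ChiLev4
import Fermat.Agent.W56.LecCores5

set_option autoImplicit false
set_option linter.unusedSectionVars false

universe u

open CategoryTheory groupCohomology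

namespace Fermat.Agent.W56.LecPLine5

open Fermat.Agent.PT.PRO.LevelCoh28 Fermat.Agent.W56.ChiLev4 Fermat.Agent.W56.LecCores5

variable {k G : Type u} [Field k] [Group G] {𝓑 : LevelBasis G}

/-- level homomorphisms `U → k` on which conjugation by `D` acts through `ψ`. -/
structure IsEigenHom (𝓑 : LevelBasis G) {U : Subgroup G} [hUn : U.Normal] (D : Subgroup G)
    (ψ : G → k) (f : ↥U → k) : Prop where
  add : ∀ s t : ↥U, f (s * t) = f s + f t
  level : ∃ V ∈ 𝓑.sets, ∀ s v : ↥U, (v : G) ∈ V → f (s * v) = f s
  eigen : ∀ g ∈ D, ∀ s : ↥U, f ⟨g * s * g⁻¹, hUn.conj_mem s s.2 g⟩ = ψ g * f s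

section Line

open Classical

variable (L : Rep.{u} k G) (e : L) (he : e ≠ 0) (hspan : ∀ s : L, ∃ c : k, s = c • e)
  (ψ : G →* kˣ) (hψ : ∀ g s, L.ρ g s = (ψ g : k) • s)

include he hspan in
theorem finrank_line : Module.finrank k L = 1 := by
  rw [finrank_eq_one_iff_of_nonzero' e he]
  intro s
  obtain ⟨c, hc⟩ := hspan s
  exact ⟨c, hc.symm⟩

include he hspan in
theorem finiteDimensional_line : FiniteDimensional k L :=
  Module.finite_of_finrank_pos (by rw [finrank_line L e he hspan]; exact one_pos)

include he hspan hψ in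
/-- `h⁰` of a line. -/
theorem finrank_invariants_le :
    Module.finrank k ↥L.ρ.invariants ≤ (if ψ = 1 then 1 else 0) := by
  have hfd := finiteDimensional_line L e he hspan
  split_ifs with h1
  · have := Submodule.finrank_le L.ρ.invariants
    rwa [finrank_line L e he hspan] at this
  · have hbot : L.ρ.invariants = ⊥ := by
      rw [eq_bot_iff]
      intro x hx
      rw [Submodule.mem_bot]
      obtain ⟨g, hg⟩ : ∃ g, ψ g ≠ 1 := by
        by_contra hcon
        push Not at hcon
        exact h1 (MonoidHom.ext hcon)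
      obtain ⟨c, rfl⟩ := hspan x
      have h2 : L.ρ g (c • e) = c • e := hx g
      rw [hψ, smul_smul] at h2
      have h3 : ((ψ g : k) * c - c) • e = 0 := by rw [sub_smul, h2, sub_self]
      have h4 : (ψ g : k) * c - c = 0 := (smul_eq_zero.1 h3).resolve_right he
      have h5 : ((ψ g : k) - 1) * c = 0 := by linear_combination h4
      have h6 : (ψ g : k) - 1 ≠ 0 := by
        intro h7
        apply hg
        apply Units.ext
        rw [Units.val_one]
        linear_combination h7
      rw [(mul_eq_zero.1 h5).resolve_left h6, zero_smul]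
    rw [hbot, finrank_bot]

include he hspan hψ in
/-- `h⁰` of the twisted dual of a line. -/
theorem finrank_dualTwist_invariants_le (χ : G →* kˣ) :
    Module.finrank k ↥(L.dualTwist χ).ρ.invariants ≤ (if ψ = χ then 1 else 0) := by
  have hfd := finiteDimensional_line L e he hspan
  split_ifs with h1
  · have h2 : Module.finrank k ↥(L.dualTwist χ).ρ.invariants ≤
        Module.finrank k (Module.Dual k L) := Submodule.finrank_le _
    rwa [Subspace.dual_finrank_eq, finrank_line L e he hspan] at h2
  · have hbot : (L.dualTwist χ).ρ.invariants = ⊥ := by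
      rw [eq_bot_iff]
      intro l hl
      rw [Submodule.mem_bot]
      obtain ⟨g, hg⟩ : ∃ g, ψ g ≠ χ g := by
        by_contra hcon
        push Not at hcon
        exact h1 (MonoidHom.ext hcon)
      have h2 : (L.dualTwist χ).ρ g l = l := hl g
      have h3 := LinearMap.congr_fun h2 (L.ρ g e)
      rw [Rep.dualTwist_ρ_apply, LinearMap.smul_apply, LinearMap.comp_apply,
        ← Module.End.mul_apply, ← map_mul, inv_mul_cancel, map_one, Module.End.one_apply,
        smul_eq_mul, hψ, map_smul, smul_eq_mul] at h3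
      have h4 : ((χ g : k) - (ψ g : k)) * l e = 0 := by linear_combination h3
      have h5 : (χ g : k) - (ψ g : k) ≠ 0 := by
        intro h6
        apply hg
        apply Units.ext
        linear_combination -h6
      have h7 : l e = 0 := (mul_eq_zero.1 h4).resolve_left h5
      apply LinearMap.ext
      intro s
      obtain ⟨c, rfl⟩ := hspan s
      rw [map_smul, h7, smul_zero, LinearMap.zero_apply]
    rw [hbot, finrank_bot]

variable {U : Subgroup G} [hUn : U.Normal] [hUf : U.FiniteIndex]

/-- `f ↦ f • e`. -/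
def smulE : (↥U → k) →ₗ[k] (↥U → L) where
  toFun f s := f s • e
  map_add' f f' := by
    funext s
    simp only [Pi.add_apply, add_smul]
  map_smul' c f := by
    funext s
    simp only [Pi.smul_apply, smul_eq_mul, mul_smul, RingHom.id_apply]

include he in
theorem smulE_injective : Function.Injective (smulE (U := U) L e) := by
  rw [← LinearMap.ker_eq_bot, LinearMap.ker_eq_bot']
  intro f hf
  funext s
  have h1 := congrFun hf s
  exact (smul_eq_zero.1 h1).resolve_right he

include hψ in
theorem smulE_mem_invHom {f : ↥U → k} (hf : IsEigenHom 𝓑 ⊤ (fun g => (ψ g : k)) f) :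
    smulE L e f ∈ invHom 𝓑 L U := by
  rw [mem_invHom]
  obtain ⟨V, hV, hfV⟩ := hf.level
  refine ⟨fun s t => ?_, ⟨V, hV, fun s v hv => ?_⟩, fun g s => ?_⟩
  · show f (s * t) • e = f s • e + f t • e
    rw [hf.add, add_smul]
  · show f (s * v) • e = f s • e
    rw [hfV s v hv]
  · show f _ • e = L.ρ g (f s • e)
    rw [hf.eigen g (Subgroup.mem_top g) s, hψ, smul_smul]

include he hspan hψ in
/-- **the Euler characteristic of a line is at most `-1`**, given enough eigen-homomorphisms. -/
theorem chiLev_line_le (χ : G →* kˣ) [FiniteDimensional k (H1 𝓑 L)]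
    (hH2 : FiniteDimensional k (H2 𝓑 L) ∧
      Module.finrank k (H2 𝓑 L) ≤ Module.finrank k ↥(L.dualTwist χ).ρ.invariants)
    (hUψ : ∀ s ∈ U, ψ s = 1) (hidx : ((U.index : ℕ) : k) ≠ 0) (hU : ∃ V ∈ 𝓑.sets, V ≤ U)
    {m : ℕ} (F : Fin m → (↥U → k)) (hF : LinearIndependent k F)
    (hFe : ∀ i, IsEigenHom 𝓑 ⊤ (fun g => (ψ g : k)) (F i))
    (hm : 1 + (if ψ = 1 then 1 else 0) + (if ψ = χ then 1 else 0) ≤ m) :
    chiLev 𝓑 L ≤ -1 := by
  obtain ⟨hH2fd, hh2⟩ := hH2
  have htriv : ∀ h ∈ U, ∀ n : L, L.ρ h n = n := by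
    intro h hh n
    rw [hψ, hUψ h hh, Units.val_one, one_smul]
  have h0 := finrank_invariants_le L e he hspan ψ hψ
  have hd := finrank_dualTwist_invariants_le L e he hspan ψ hψ χ
  -- the lower bound for `h¹`
  have hinvfd : FiniteDimensional k ↥(invHom 𝓑 L U) :=
    Module.Finite.of_injective (corH1 htriv hidx hU) (corH1_injective htriv hidx hU)
  have hind : LinearIndependent k (fun i => smulE (U := U) L e (F i)) :=
    hF.map' (smulE L e) (LinearMap.ker_eq_bot.2 (smulE_injective L e he))
  have hspanle : Submodule.span k (Set.range fun i => smulE (U := U) L e (F i)) ≤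
      invHom 𝓑 L U := by
    rw [Submodule.span_le]
    rintro _ ⟨i, rfl⟩
    exact smulE_mem_invHom L e ψ hψ (hFe i)
  have h1 : m ≤ Module.finrank k ↥(invHom 𝓑 L U) := by
    have h2 := finrank_span_eq_card hind
    rw [Fintype.card_fin] at h2
    rw [← h2]
    exact Submodule.finrank_mono hspanle
  have h3 := finrank_invHom_le (𝓑 := 𝓑) htriv hidx hU
  unfold chiLev
  have h4 : (m : ℤ) ≤ Module.finrank k (H1 𝓑 L) := by exact_mod_cast h1.trans h3
  have h5 : (Module.finrank k ↥L.ρ.invariants : ℤ) ≤ (if ψ = 1 then 1 else 0 : ℕ) := by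
    exact_mod_cast h0
  have h6 : (Module.finrank k (H2 𝓑 L) : ℤ) ≤ (if ψ = χ then 1 else 0 : ℕ) := by
    exact_mod_cast hh2.trans hd
  have h7 : ((1 + (if ψ = 1 then 1 else 0) + (if ψ = χ then 1 else 0) : ℕ) : ℤ) ≤ m := by
    exact_mod_cast hm
  push_cast at h7
  push_cast at h5 h6
  linarith

end Line

end Fermat.Agent.W56.LecPLine5
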