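/-
Programme W56 (target S56), item (D4) = LEC-p (helper5): **the Artin–Schreier top piece of the units
count** (interface `LecUData7`).

`(K, w, G, κ, red)` with `UField`, `cl : K → X` with `UCl`, `ζ` a primitive `p`-th root of unity,
`lam = ζ - 1`, `e₁ = ord lam` (so `(p - 1) e₁ = ord p`).

* `Fil w p cl j` : the submodule of `X` spanned by the classes of the `x ≠ 0` with `x ≡ 1` modulo
  `π ^ j`; `Fil_anti`, `Fil_stable`, `mem_Fil` (for `1 ≤ j` the span is the set of classes itself);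
* `ge_binom_two`, `ge_binom_prime` : the binomial expansions to second order;
* **`top_step`** : `#Hom_G(P, Fil (p e₁ + 1)) · #Hom_G(P, 𝔽_p(χ)) ≤ #Hom_G(P, Fil (p e₁))`
  (the class of `u₀ = 1 + p lam` spans a copy of `𝔽_p(χ)` in `Fil (p e₁) / Fil (p e₁ + 1)`: it is an
  eigenvector for `χ` modulo `Fil (p e₁ + 1)`, and `u₀ ^ n ∈ U^(p e₁ + 1) · (Kˣ)^p` forces
  `t ^ p - t = -n` in `κ`, hence `n = 0` by Artin–Schreier, `κ^G = 𝔽_p` and `p ∤ #G`).
-/
import Mathlib
import Fermat.Agent.W56.LecUData7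
import Fermat.Agent.W56.LecDescent7

set_option autoImplicit false
set_option linter.unusedSectionVars false

namespace Fermat.Agent.W56.LecTop5

open Fermat.Agent.W56.RamBase7 Fermat.Agent.W56.RamBase7.DVal Fermat.Agent.W56.RamKumA7
  Fermat.Agent.W56.LecStep7 Fermat.Agent.W56.LecUData7

/-! ### the filtration -/

section Fil

variable {K : Type*} [Field K] (w : DVal K) (p : ℕ) {X : Type*} [AddCommGroup X]
  [Module (ZMod p) X] (cl : K → X)

/-- the submodule of `X` spanned by the classes of the principal units of level `j`. -/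
def Fil (j : ℤ) : Submodule (ZMod p) X :=
  Submodule.span (ZMod p) {ξ | ∃ x : K, x ≠ 0 ∧ w.Ge j (x - 1) ∧ cl x = ξ}

variable {w p cl}

theorem cl_mem_Fil {j : ℤ} {x : K} (hx : x ≠ 0) (h : w.Ge j (x - 1)) : cl x ∈ Fil w p cl j :=
  Submodule.subset_span ⟨x, hx, h, rfl⟩

theorem Fil_anti {j j' : ℤ} (h : j ≤ j') : Fil w p cl j' ≤ Fil w p cl j :=
  Submodule.span_mono fun _ ⟨x, hx, hj, hcl⟩ => ⟨x, hx, hj.mono h, hcl⟩

/-- a principal unit of level `≥ 1` is a unit. -/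
theorem unit_of_ge {j : ℤ} (hj : 1 ≤ j) {x : K} (h : w.Ge j (x - 1)) : x ≠ 0 ∧ w.ord x = 0 := by
  have := ord_eq_of_sub_ge (w := w) (x := 1) (y := x) one_ne_zero
    (by rw [w.ord_one]; exact h.mono (by omega))
  rwa [w.ord_one] at this

theorem ge_mul_sub_one {j : ℤ} (hj : 0 ≤ j) {x y : K} (hx : w.Ge j (x - 1)) (hy : w.Ge j (y - 1)) :
    w.Ge j (x * y - 1) := by
  have e : x * y - 1 = (x - 1) * (y - 1) + (x - 1) + (y - 1) := by ring
  rw [e]
  refine Ge.add (Ge.add ?_ hx) hy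
  exact (hx.mul hy).mono (by omega)

theorem ge_pow_sub_one {j : ℤ} (hj : 0 ≤ j) {x : K} (hx : w.Ge j (x - 1)) (n : ℕ) :
    w.Ge j (x ^ n - 1) := by
  induction n with
  | zero => rw [pow_zero, sub_self]; exact Ge.zero j
  | succ n ih => rw [pow_succ]; exact ge_mul_sub_one hj ih hx

theorem ge_inv_sub_one {j : ℤ} (hj : 1 ≤ j) {x : K} (hx : w.Ge j (x - 1)) :
    w.Ge j (x⁻¹ - 1) := by
  obtain ⟨hx0, hxo⟩ := unit_of_ge hj hx
  have e : x⁻¹ - 1 = -(x - 1) * x⁻¹ := by field_simp; ring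
  rw [e]
  have h1 : w.Ge 0 x⁻¹ := Or.inr (by rw [w.ord_inv hx0, hxo, neg_zero])
  have := hx.neg.mul h1
  rwa [add_zero] at this

/-- for `1 ≤ j` the set of classes of the principal units of level `j` is already a submodule. -/
theorem mem_Fil {G : Type*} [Group G] [MulSemiringAction G K] [Fact p.Prime]
    {ρX : Representation (ZMod p) G X} (hcl : UCl p ρX cl) {j : ℤ} (hj : 1 ≤ j) {ξ : X} :
    ξ ∈ Fil w p cl j ↔ ∃ x : K, x ≠ 0 ∧ w.Ge j (x - 1) ∧ cl x = ξ := by
  constructor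
  · intro h
    induction h using Submodule.span_induction with
    | mem ξ hξ => exact hξ
    | zero =>
      refine ⟨1, one_ne_zero, by rw [sub_self]; exact Ge.zero j, ?_⟩
      have := hcl.cl_mul 1 1 one_ne_zero one_ne_zero
      rw [mul_one] at this
      exact left_eq_add.1 this
    | add ξ η _ _ hξ hη =>
      obtain ⟨x, hx0, hx, rfl⟩ := hξ
      obtain ⟨y, hy0, hy, rfl⟩ := hη
      exact ⟨x * y, mul_ne_zero hx0 hy0, ge_mul_sub_one (by omega) hx hy,
        hcl.cl_mul x y hx0 hy0⟩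
    | smul c ξ _ hξ =>
      obtain ⟨x, hx0, hx, rfl⟩ := hξ
      refine ⟨x ^ c.val, pow_ne_zero _ hx0, ge_pow_sub_one (by omega) hx _, ?_⟩
      have key : ∀ n : ℕ, cl (x ^ n) = n • cl x := by
        intro n
        induction n with
        | zero =>
          rw [pow_zero, zero_smul]
          have := hcl.cl_mul 1 1 one_ne_zero one_ne_zero
          rw [mul_one] at this
          exact left_eq_add.1 this
        | succ n ih => rw [pow_succ, hcl.cl_mul _ _ (pow_ne_zero _ hx0) hx0, ih, succ_nsmul]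
      rw [key, ← Nat.cast_smul_eq_nsmul (ZMod p), ZMod.natCast_zmod_val]
  · rintro ⟨x, hx0, hx, rfl⟩
    exact cl_mem_Fil hx0 hx

end Fil

/-! ### the class map -/

section Cl

variable {K : Type*} [Field K] {G : Type*} [Group G] [MulSemiringAction G K] {p : ℕ}
  [Fact p.Prime] {X : Type*} [AddCommGroup X] [Module (ZMod p) X]
  {ρX : Representation (ZMod p) G X} {cl : K → X} (hcl : UCl p ρX cl)
include hcl

theorem cl_one : cl 1 = 0 := by
  have := hcl.cl_mul 1 1 one_ne_zero one_ne_zero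
  rw [mul_one] at this
  exact left_eq_add.1 this

theorem cl_pow {x : K} (hx : x ≠ 0) (n : ℕ) : cl (x ^ n) = n • cl x := by
  induction n with
  | zero => rw [pow_zero, zero_smul, cl_one hcl]
  | succ n ih => rw [pow_succ, hcl.cl_mul _ _ (pow_ne_zero _ hx) hx, ih, succ_nsmul]

theorem cl_zmod_smul {x : K} (hx : x ≠ 0) (c : ZMod p) : c • cl x = cl (x ^ c.val) := by
  rw [cl_pow hcl hx, ← Nat.cast_smul_eq_nsmul (ZMod p), ZMod.natCast_zmod_val]

theorem cl_inv {x : K} (hx : x ≠ 0) : cl x⁻¹ = -cl x := by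
  have := hcl.cl_mul x x⁻¹ hx (inv_ne_zero hx)
  rw [mul_inv_cancel₀ hx, cl_one hcl] at this
  exact eq_neg_of_add_eq_zero_right this.symm

theorem cl_div {x y : K} (hx : x ≠ 0) (hy : y ≠ 0) : cl (x / y) = cl x - cl y := by
  rw [div_eq_mul_inv, hcl.cl_mul x y⁻¹ hx (inv_ne_zero hy), cl_inv hcl hy, sub_eq_add_neg]

end Cl

/-! ### stability of the filtration -/

section Stable

variable {K : Type*} [Field K] {w : DVal K} {G : Type*} [Group G] [MulSemiringAction G K] {p : ℕ}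
  [Fact p.Prime] {X : Type*} [AddCommGroup X] [Module (ZMod p) X]
  {ρX : Representation (ZMod p) G X} {cl : K → X}

theorem ge_smul (hinv : ∀ (σ : G) (x : K), w.ord (σ • x) = w.ord x) (g : G) {j : ℤ} {x : K}
    (hx : w.Ge j x) : w.Ge j (g • x) := by
  rcases hx with rfl | hx
  · rw [smul_zero]; exact Ge.zero j
  · exact Or.inr (by rwa [hinv])

theorem Fil_stable (hinv : ∀ (σ : G) (x : K), w.ord (σ • x) = w.ord x) (hcl : UCl p ρX cl) (j : ℤ)
    (g : G) : ∀ ξ ∈ Fil w p cl j, ρX g ξ ∈ Fil w p cl j := by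
  intro ξ hξ
  induction hξ using Submodule.span_induction with
  | mem ξ hξ =>
    obtain ⟨x, hx0, hx, rfl⟩ := hξ
    rw [← hcl.cl_smul g x hx0]
    refine cl_mem_Fil (smul_ne_zero_iff_ne g |>.2 hx0) ?_
    have := ge_smul hinv g hx
    rwa [smul_sub, smul_one] at this
  | zero => rw [map_zero]; exact Submodule.zero_mem _
  | add ξ η _ _ hξ hη => rw [map_add]; exact Submodule.add_mem _ hξ hη
  | smul c ξ _ hξ => rw [map_smul]; exact Submodule.smul_mem _ c hξ

end Stable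

/-! ### binomial expansions to second order -/

section Binom

variable {K : Type*} [Field K] {w : DVal K} {p : ℕ}

/-- `(1 + δ) ^ c ≡ 1 + c δ` modulo `δ ^ 2`. -/
theorem ge_binom_two {m : ℤ} (hm : 0 ≤ m) {δ : K} (hδ : w.Ge m δ) (c : ℕ) :
    w.Ge (2 * m) ((1 + δ) ^ c - 1 - c * δ) := by
  induction c with
  | zero => simpa using Ge.zero (2 * m)
  | succ c ih =>
    have e : (1 + δ) ^ (c + 1) - 1 - ((c + 1 : ℕ) : K) * δ =
        (1 + δ) * ((1 + δ) ^ c - 1 - c * δ) + (c : K) * (δ * δ) := by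
      push_cast; ring
    rw [e]
    refine Ge.add ?_ ?_
    · have := (Ge.one.add (hδ.mono hm)).mul ih
      rwa [zero_add] at this
    · have := (Ge.natCast (w := w) c).mul (hδ.mul hδ)
      convert this using 1
      ring

/-- `(1 + z) ^ p ≡ 1 + z ^ p + p z` modulo `p z ^ 2`. -/
theorem ge_binom_prime (hp : PrimeHyp w p) {m : ℤ} (hm : 0 ≤ m) {z : K} (hz : w.Ge m z) :
    w.Ge (w.ord (p : K) + 2 * m) ((1 + z) ^ p - 1 - z ^ p - p * z) := by
  classical
  have hpp := hp.prime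
  have h1 := add_pow_prime_eq hpp (1 : K) z
  set f : ℕ → K := fun k => (1 : K) ^ (k - 1) * z ^ (p - k - 1) * ((p.choose k / p : ℕ) : K)
    with hf
  have h2 := hpp.two_le
  have hmem : p - 1 ∈ Finset.Ioo 0 p := by
    rw [Finset.mem_Ioo]; omega
  have hsplit : ∑ k ∈ Finset.Ioo 0 p, f k =
      f (p - 1) + ∑ k ∈ (Finset.Ioo 0 p).erase (p - 1), f k :=
    (Finset.add_sum_erase _ f hmem).symm
  have hf1 : f (p - 1) = 1 := by
    simp only [hf]
    have e1 : p - (p - 1) - 1 = 0 := by omega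
    have e2 : p.choose (p - 1) = p := by
      obtain ⟨n, rfl⟩ : ∃ n, p = n + 1 := ⟨p - 1, by omega⟩
      exact Nat.choose_succ_self_right n
    rw [e1, e2, Nat.div_self hpp.pos, pow_zero, one_pow, one_mul, one_mul, Nat.cast_one]
  have hrest : w.Ge m (∑ k ∈ (Finset.Ioo 0 p).erase (p - 1), f k) := by
    refine Ge.sum fun k hk => ?_
    rw [Finset.mem_erase, Finset.mem_Ioo] at hk
    simp only [hf]
    obtain ⟨n, hn⟩ : ∃ n, p - k - 1 = n + 1 := ⟨p - k - 2, by omega⟩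
    rw [hn, one_pow, one_mul, pow_succ]
    have hz0 : w.Ge 0 z := hz.mono hm
    have h3 : w.Ge (0 + m) (z ^ n * z) := by
      have := (hz0.pow n).mul hz
      rwa [mul_zero] at this
    have := h3.mul (Ge.natCast (w := w) (p.choose k / p))
    rwa [zero_add, add_zero] at this
  have e : (1 + z) ^ p - 1 - z ^ p - p * z =
      (p : K) * (z * ∑ k ∈ (Finset.Ioo 0 p).erase (p - 1), f k) := by
    rw [h1, hsplit, hf1]; ring
  rw [e]
  have := (w.ge_ord (p : K)).mul (hz.mul hrest)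
  convert this using 1
  ring

end Binom

/-! ### the reduction map -/

section Red

variable {K : Type*} [Field K] {w : DVal K} {G : Type*} [Group G] [MulSemiringAction G K] {p : ℕ}
  {κ : Type*} [Field κ] [MulSemiringAction G κ] {red : K → κ} (hU : UField w G p κ red)
include hU

theorem red_zero : red 0 = 0 := (hU.red_eq_zero 0 (Ge.zero 0)).2 (Ge.zero 1)

theorem red_neg {x : K} (hx : w.Ge 0 x) : red (-x) = -red x := by
  have := hU.red_add x (-x) hx hx.neg
  rw [add_neg_cancel, red_zero hU] at this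
  exact eq_neg_of_add_eq_zero_right this.symm

theorem red_sub {x y : K} (hx : w.Ge 0 x) (hy : w.Ge 0 y) : red (x - y) = red x - red y := by
  rw [sub_eq_add_neg, hU.red_add x (-y) hx hy.neg, red_neg hU hy, sub_eq_add_neg]

theorem red_pow {x : K} (hx : w.Ge 0 x) (n : ℕ) : red (x ^ n) = red x ^ n := by
  induction n with
  | zero => rw [pow_zero, pow_zero, hU.red_one]
  | succ n ih =>
    have h1 : w.Ge 0 (x ^ n) := by
      have := hx.pow n
      rwa [mul_zero] at this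
    rw [pow_succ, pow_succ, hU.red_mul _ _ h1 hx, ih]

theorem red_natCast (n : ℕ) : red (n : K) = (n : κ) := by
  induction n with
  | zero => rw [Nat.cast_zero, Nat.cast_zero, red_zero hU]
  | succ n ih => rw [Nat.cast_succ, Nat.cast_succ, hU.red_add _ _ (Ge.natCast n) Ge.one, ih,
      hU.red_one]

theorem red_eq_of_sub_ge {x y : K} (hx : w.Ge 0 x) (hy : w.Ge 0 y) (h : w.Ge 1 (x - y)) :
    red x = red y := by
  have := (hU.red_eq_zero (x - y) (hx.sub hy)).2 h
  rw [red_sub hU hx hy] at this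
  exact sub_eq_zero.1 this

theorem charP_kappa : CharP κ p := by
  have h0 : ((p : ℕ) : κ) = 0 := by
    rw [← red_natCast hU]
    exact (hU.red_eq_zero _ (Ge.natCast p)).2 (Or.inr hU.prime.pos)
  have := CharP.ringChar_of_prime_eq_zero hU.prime.prime h0
  rw [← this]
  exact ringChar.charP κ

end Red

/-! ### the element `u₀ = 1 + p (ζ - 1)` -/

section Top

variable {K : Type*} [Field K] {w : DVal K} {G : Type*} [Group G] [MulSemiringAction G K] {p : ℕ}
  {κ : Type*} [Field κ] [MulSemiringAction G κ] {red : K → κ} (hU : UField w G p κ red)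
  {ζ : K} (hζ : IsPrimitiveRoot ζ p)

/-- the element `u₀ = 1 + p (ζ - 1)`, of level exactly `p e₁`. -/
def uTop (p : ℕ) (ζ : K) : K := 1 + (p : K) * (ζ - 1)

include hU hζ

theorem one_le_e1 : 1 ≤ w.ord (ζ - 1) := by
  obtain ⟨-, h⟩ := ord_zeta_sub_one hU.prime hζ
  have hpos := hU.prime.pos
  have h2 : (2 : ℤ) ≤ p := by exact_mod_cast hU.prime.prime.two_le
  by_contra hcon
  rw [not_le] at hcon
  have : ((p : ℤ) - 1) * w.ord (ζ - 1) ≤ 0 :=
    mul_nonpos_of_nonneg_of_nonpos (by omega) (by omega)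
  omega

theorem ord_p_eq : w.ord (p : K) + w.ord (ζ - 1) = (p : ℤ) * w.ord (ζ - 1) := by
  obtain ⟨-, h⟩ := ord_zeta_sub_one hU.prime hζ
  rw [← h]; ring

theorem ord_p_lam : (p : K) * (ζ - 1) ≠ 0 ∧
    w.ord ((p : K) * (ζ - 1)) = (p : ℤ) * w.ord (ζ - 1) := by
  obtain ⟨h0, -⟩ := ord_zeta_sub_one hU.prime hζ
  exact ⟨mul_ne_zero hU.prime.ne_zero h0, by
    rw [w.ord_mul hU.prime.ne_zero h0, ord_p_eq hU hζ]⟩

theorem ge_lam_pow : w.Ge ((p : ℤ) * w.ord (ζ - 1) + w.ord (ζ - 1))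
    ((ζ - 1) ^ p + (p : K) * (ζ - 1)) := by
  have h1 := ge_binom_prime hU.prime (m := w.ord (ζ - 1)) (by have := one_le_e1 hU hζ; omega)
    (w.ge_ord (ζ - 1))
  rw [add_sub_cancel, hζ.pow_eq_one, sub_self, zero_sub] at h1
  have e : (ζ - 1) ^ p + (p : K) * (ζ - 1) = -(-(ζ - 1) ^ p - (p : K) * (ζ - 1)) := by ring
  rw [e]
  refine h1.neg.mono ?_
  have := ord_p_eq hU hζ
  omega

theorem uTop_ge : w.Ge ((p : ℤ) * w.ord (ζ - 1)) (uTop p ζ - 1) := by
  rw [uTop, add_sub_cancel_left]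
  exact Or.inr (ord_p_lam hU hζ).2.ge

theorem one_le_J : 1 ≤ (p : ℤ) * w.ord (ζ - 1) := by
  have h1 := one_le_e1 hU hζ
  have h2 : (2 : ℤ) ≤ p := by exact_mod_cast hU.prime.prime.two_le
  nlinarith

theorem uTop_unit : uTop p ζ ≠ 0 ∧ w.ord (uTop p ζ) = 0 :=
  unit_of_ge (one_le_J hU hζ) (uTop_ge hU hζ)

/-- **equivariance modulo level `p e₁ + 1`**: `u₀ ^ c / g u₀ ≡ 1` when `g ζ = ζ ^ c`. -/
theorem ge_equiv (g : G) (c : ℕ) (hg : g • ζ = ζ ^ c) :
    w.Ge ((p : ℤ) * w.ord (ζ - 1) + 1) (uTop p ζ ^ c / (g • uTop p ζ) - 1) := by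
  have he1 := one_le_e1 hU hζ
  have hJ := one_le_J hU hζ
  have hgu : g • uTop p ζ = 1 + (p : K) * (ζ ^ c - 1) := by
    show MulSemiringAction.toRingHom G K g (uTop p ζ) = _
    rw [uTop, map_add, map_one, map_mul, map_natCast, map_sub, map_one]
    show 1 + (p : K) * (g • ζ - 1) = _
    rw [hg]
  have hunit : g • uTop p ζ ≠ 0 ∧ w.ord (g • uTop p ζ) = 0 := by
    refine unit_of_ge hJ ?_
    have := ge_smul hU.inv g (uTop_ge hU hζ)
    rwa [smul_sub, smul_one] at this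
  have B2 := ge_binom_two (w := w) (m := w.ord (ζ - 1)) (by omega) (w.ge_ord (ζ - 1)) c
  rw [add_sub_cancel] at B2
  have B3 := ge_binom_two (w := w) (m := (p : ℤ) * w.ord (ζ - 1)) (by omega)
    (Or.inr (ord_p_lam hU hζ).2.ge : w.Ge _ ((p : K) * (ζ - 1))) c
  have hdiff : w.Ge ((p : ℤ) * w.ord (ζ - 1) + 1) (uTop p ζ ^ c - g • uTop p ζ) := by
    have e : uTop p ζ ^ c - g • uTop p ζ =
        ((1 + (p : K) * (ζ - 1)) ^ c - 1 - c * ((p : K) * (ζ - 1))) -
          (p : K) * (ζ ^ c - 1 - c * (ζ - 1)) := by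
      rw [hgu, uTop]; ring
    rw [e]
    refine Ge.sub (B3.mono (by omega)) ?_
    have := (w.ge_ord (p : K)).mul B2
    refine this.mono ?_
    have := ord_p_eq hU hζ
    omega
  have e : uTop p ζ ^ c / (g • uTop p ζ) - 1 =
      (uTop p ζ ^ c - g • uTop p ζ) * (g • uTop p ζ)⁻¹ := by
    have := hunit.1
    field_simp
  rw [e]
  have h1 : w.Ge 0 (g • uTop p ζ)⁻¹ := Or.inr (by rw [w.ord_inv hunit.1, hunit.2, neg_zero])
  have := hdiff.mul h1
  rwa [add_zero] at this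

/-- a `p`-th root of a principal unit of level `p e₁` is a principal unit of level `e₁`. -/
theorem ge_root {y : K} (hy : y ≠ 0) (h : w.Ge ((p : ℤ) * w.ord (ζ - 1)) (y ^ p - 1)) :
    w.Ge (w.ord (ζ - 1)) (y - 1) := by
  have he1 := one_le_e1 hU hζ
  have hJ := one_le_J hU hζ
  have hp0 : (0 : ℤ) < p := by exact_mod_cast hU.prime.prime.pos
  have h2 : (2 : ℤ) ≤ p := by exact_mod_cast hU.prime.prime.two_le
  -- `y` is a unit
  have hyp := unit_of_ge hJ h
  have hyo : w.ord y = 0 := by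
    have := w.ord_pow hy p
    rw [hyp.2] at this
    rcases mul_eq_zero.1 this.symm with h' | h'
    · omega
    · exact h'
  have hy0' : w.Ge 0 y := Or.inr hyo.ge
  have hz0 : w.Ge 0 (y - 1) := hy0'.sub Ge.one
  by_contra hcon
  have hz : y - 1 ≠ 0 := fun h0 => hcon (Or.inl h0)
  have hm : w.ord (y - 1) < w.ord (ζ - 1) := by
    by_contra h'
    exact hcon (Or.inr (not_lt.1 h'))
  have hm0 : 0 ≤ w.ord (y - 1) := (ge_iff hz).1 hz0
  have hrest := ge_one_add_pow hU.prime hz0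
  rw [add_sub_cancel] at hrest
  have hzp : (y - 1) ^ p ≠ 0 := pow_ne_zero _ hz
  have hzpo : w.ord ((y - 1) ^ p) = (p : ℤ) * w.ord (y - 1) := w.ord_pow hz p
  have hpe := ord_p_eq hU hζ
  have := ord_add_eq_of_ge hzp (hrest.mono (by
    rw [hzpo]
    nlinarith))
  rw [add_sub_cancel, hzpo] at this
  have h3 := (ge_iff this.1).1 h
  rw [this.2] at h3
  nlinarith

/-- **injectivity modulo level `p e₁ + 1`**: if `u₀ ^ n` is a principal unit of level `p e₁ + 1`
times a `p`-th power, then `p ∣ n` (Artin–Schreier). -/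
theorem dvd_of_eq [Finite G] (hcop : (Nat.card G).Coprime p) {n : ℕ} {v y : K}
    (hv : w.Ge ((p : ℤ) * w.ord (ζ - 1) + 1) (v - 1)) (h : uTop p ζ ^ n = v * y ^ p) : p ∣ n := by
  classical
  have : Fact p.Prime := ⟨hU.prime.prime⟩
  have : CharP κ p := charP_kappa hU
  let _ : Fintype G := Fintype.ofFinite G
  have he1 := one_le_e1 hU hζ
  have hJ := one_le_J hU hζ
  have hp0 : (0 : ℤ) < p := by exact_mod_cast hU.prime.prime.pos
  have hpe := ord_p_eq hU hζ
  obtain ⟨hl0, -⟩ := ord_zeta_sub_one hU.prime hζ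
  have hu := uTop_unit hU hζ
  have hv1 := unit_of_ge (w := w) (j := (p : ℤ) * w.ord (ζ - 1) + 1) (by omega) hv
  have hy : y ≠ 0 := by
    rintro rfl
    rw [zero_pow hU.prime.prime.ne_zero, mul_zero] at h
    exact pow_ne_zero n hu.1 h
  have hyp : y ^ p = uTop p ζ ^ n * v⁻¹ := by
    rw [h]; field_simp [hv1.1]
  -- `y ^ p ≡ 1` modulo level `p e₁`
  have hvinv := ge_inv_sub_one (w := w) (j := (p : ℤ) * w.ord (ζ - 1) + 1) (by omega) hv
  have hypJ : w.Ge ((p : ℤ) * w.ord (ζ - 1)) (y ^ p - 1) := by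
    rw [hyp]
    exact ge_mul_sub_one (by omega) (ge_pow_sub_one (by omega) (uTop_ge hU hζ) n)
      (hvinv.mono (by omega))
  have hz := ge_root hU hζ hy hypJ
  -- `y = 1 + t lam`
  set t := (y - 1) / (ζ - 1) with ht
  have hzt : y - 1 = t * (ζ - 1) := by rw [ht]; field_simp
  have ht0 : w.Ge 0 t := by
    rcases hz with h0 | h0
    · rw [ht, h0, zero_div]; exact Ge.zero 0
    · rcases eq_or_ne (y - 1) 0 with h1 | h1
      · rw [ht, h1, zero_div]; exact Ge.zero 0
      · exact Or.inr (by rw [ht, w.ord_div h1 hl0]; omega)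
  have htp : w.Ge 0 (t ^ p) := by
    have := ht0.pow p
    rwa [mul_zero] at this
  -- the expansion of `y ^ p`
  have A1 := ge_binom_prime hU.prime (m := w.ord (ζ - 1)) (by omega) hz
  rw [add_sub_cancel] at A1
  have A2 := ge_lam_pow hU hζ
  have hL : w.Ge ((p : ℤ) * w.ord (ζ - 1) + 1) (y ^ p - 1 - (p : K) * (ζ - 1) * (t - t ^ p)) := by
    have e : y ^ p - 1 - (p : K) * (ζ - 1) * (t - t ^ p) =
        (y ^ p - 1 - (y - 1) ^ p - (p : K) * (y - 1)) + t ^ p * ((ζ - 1) ^ p + (p : K) * (ζ - 1)) := by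
      have h1 : (y - 1) ^ p = t ^ p * (ζ - 1) ^ p := by rw [hzt, mul_pow]
      rw [h1, hzt]
      generalize (ζ - 1) ^ p = Lp
      ring
    rw [e]
    refine Ge.add (A1.mono (by omega)) ?_
    have := htp.mul A2
    exact this.mono (by omega)
  -- the expansion of `u₀ ^ n / v`
  have B1 := ge_binom_two (w := w) (m := (p : ℤ) * w.ord (ζ - 1)) (by omega)
    (Or.inr (ord_p_lam hU hζ).2.ge : w.Ge _ ((p : K) * (ζ - 1))) n
  have hR : w.Ge ((p : ℤ) * w.ord (ζ - 1) + 1) (y ^ p - 1 - (n : K) * ((p : K) * (ζ - 1))) := by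
    have e : y ^ p - 1 - (n : K) * ((p : K) * (ζ - 1)) =
        ((1 + (p : K) * (ζ - 1)) ^ n - 1 - (n : K) * ((p : K) * (ζ - 1))) + uTop p ζ ^ n * (v⁻¹ - 1) := by
      rw [hyp, uTop]; ring
    rw [e]
    refine Ge.add (B1.mono (by omega)) ?_
    have h1 : w.Ge 0 (uTop p ζ ^ n) :=
      Or.inr (by rw [w.ord_pow hu.1, hu.2, mul_zero])
    have := h1.mul hvinv
    rwa [zero_add] at this
  -- compare
  have hS : w.Ge 1 (t ^ p - t - (-(n : K))) := by
    have h1 : w.Ge ((p : ℤ) * w.ord (ζ - 1) + 1) ((p : K) * (ζ - 1) * (t ^ p - t - (-(n : K)))) := by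
      have e : (p : K) * (ζ - 1) * (t ^ p - t - (-(n : K))) =
          (y ^ p - 1 - (p : K) * (ζ - 1) * (t - t ^ p)) - (y ^ p - 1 - (n : K) * ((p : K) * (ζ - 1))) := by
        ring
      rw [e]
      exact hL.sub hR
    rcases eq_or_ne (t ^ p - t - (-(n : K))) 0 with h0 | h0
    · exact Or.inl h0
    · have h2 := (ge_iff (mul_ne_zero (ord_p_lam hU hζ).1 h0)).1 h1
      rw [w.ord_mul (ord_p_lam hU hζ).1 h0, (ord_p_lam hU hζ).2] at h2
      exact Or.inr (by omega)
  have hred := red_eq_of_sub_ge hU (htp.sub ht0) (Ge.natCast n).neg hS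
  rw [red_sub hU htp ht0, red_pow hU ht0, red_neg hU (Ge.natCast n), red_natCast hU] at hred
  have hfixn : ∀ g : G, g • (-(n : κ)) = -(n : κ) := by
    intro g
    show MulSemiringAction.toRingHom G κ g (-(n : κ)) = _
    rw [map_neg, map_natCast]
  have hcop' : (Fintype.card G).Coprime p := by rwa [← Nat.card_eq_fintype_card]
  have := LecDescent7.eq_zero_of_artinSchreier hcop' hU.fix hfixn hred
  rw [neg_eq_zero] at this
  exact (CharP.cast_eq_zero_iff κ p n).1 this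

end Top

/-! ### the step -/

section Step

variable {K : Type*} [Field K] {w : DVal K} {G : Type*} [Group G] [Finite G]
  [MulSemiringAction G K] {p : ℕ} [Fact p.Prime] {κ : Type*} [Field κ] [MulSemiringAction G κ]
  {red : K → κ} {X : Type*} [AddCommGroup X] [Module (ZMod p) X]
  {ρX : Representation (ZMod p) G X} {cl : K → X}

/-- **the Artin–Schreier top piece of the units count**:
`#Hom_G(P, Fil (p e₁ + 1)) · #Hom_G(P, 𝔽_p(χ)) ≤ #Hom_G(P, Fil (p e₁))`, `e₁ = ord (ζ - 1)`. -/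
theorem top_step (hU : UField w G p κ red) (hcop : (Nat.card G).Coprime p) (hcl : UCl p ρX cl)
    (χ : G →* (ZMod p)ˣ)
    (hχ : ∀ (g : G) (ζ : K), ζ ^ p = 1 → g • ζ = ζ ^ ((χ g : (ZMod p)ˣ) : ZMod p).val)
    {ζ : K} (hζ : IsPrimitiveRoot ζ p)
    {P : Type*} [AddCommGroup P] [Module (ZMod p) P] (ρP : Representation (ZMod p) G P)
    [Finite ↥(HomGin ρP ρX (Fil w p cl ((p : ℤ) * w.ord (ζ - 1))))] :
    Nat.card ↥(HomGin ρP ρX (Fil w p cl ((p : ℤ) * w.ord (ζ - 1) + 1))) *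
        Nat.card ↥(HomG ρP (chiRep χ)) ≤
      Nat.card ↥(HomGin ρP ρX (Fil w p cl ((p : ℤ) * w.ord (ζ - 1)))) := by
  classical
  let _ : Fintype G := Fintype.ofFinite G
  have hcop' : (Fintype.card G).Coprime p := by rwa [← Nat.card_eq_fintype_card]
  have hJ := one_le_J hU hζ
  have hu := uTop_unit hU hζ
  refine card_mul_le_zmod (ρZ := chiRep χ) hcop' (Fil_anti (by omega))
    (Fil_stable hU.inv hcl _) (Fil_stable hU.inv hcl _) (fun n : ZMod p => n • cl (uTop p ζ))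
    (fun n => Submodule.smul_mem _ n (cl_mem_Fil hu.1 (uTop_ge hU hζ)))
    (fun z z' => ?_) (fun g z => ?_) (fun z hz => ?_)
  · rw [add_smul, add_sub_cancel_left, sub_self]
    exact Submodule.zero_mem _
  · -- equivariance modulo `Fil (p e₁ + 1)`
    have hgu : g • uTop p ζ ≠ 0 := (smul_ne_zero_iff_ne g).2 hu.1
    have e : (chiRep χ g z) • cl (uTop p ζ) - ρX g (z • cl (uTop p ζ)) =
        z • cl (uTop p ζ ^ ((χ g : (ZMod p)ˣ) : ZMod p).val / (g • uTop p ζ)) := by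
      rw [chiRep_apply, map_smul, ← hcl.cl_smul g _ hu.1, cl_div hcl (pow_ne_zero _ hu.1) hgu,
        ← cl_zmod_smul hcl hu.1, smul_sub, smul_smul, mul_comm]
    show (chiRep χ g z) • cl (uTop p ζ) - ρX g (z • cl (uTop p ζ)) ∈ _
    rw [e]
    refine Submodule.smul_mem _ z (cl_mem_Fil (div_ne_zero (pow_ne_zero _ hu.1) hgu) ?_)
    exact ge_equiv hU hζ g _ (hχ g ζ hζ.pow_eq_one)
  · -- injectivity modulo `Fil (p e₁ + 1)`
    have hz' : cl (uTop p ζ ^ z.val) ∈ Fil w p cl ((p : ℤ) * w.ord (ζ - 1) + 1) := by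
      rw [← cl_zmod_smul hcl hu.1]; exact hz
    obtain ⟨v, hv0, hv, hvcl⟩ := (mem_Fil hcl (by omega)).1 hz'
    have h1 : cl (uTop p ζ ^ z.val / v) = 0 := by
      rw [cl_div hcl (pow_ne_zero _ hu.1) hv0, hvcl, sub_self]
    obtain ⟨y, hy⟩ := (hcl.cl_eq_zero _ (div_ne_zero (pow_ne_zero _ hu.1) hv0)).1 h1
    have h2 : uTop p ζ ^ z.val = v * y ^ p := by
      rw [hy]; field_simp
    have h3 := dvd_of_eq hU hζ hcop hv h2
    rw [← ZMod.natCast_zmod_val z]
    exact (ZMod.natCast_eq_zero_iff _ _).2 h3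

/-- the consequence used in the count: `#Hom_G(P, 𝔽_p(χ)) ≤ #Hom_G(P, Fil (p e₁))`. -/
theorem card_chi_le (hU : UField w G p κ red) (hcop : (Nat.card G).Coprime p) (hcl : UCl p ρX cl)
    (χ : G →* (ZMod p)ˣ)
    (hχ : ∀ (g : G) (ζ : K), ζ ^ p = 1 → g • ζ = ζ ^ ((χ g : (ZMod p)ˣ) : ZMod p).val)
    {ζ : K} (hζ : IsPrimitiveRoot ζ p)
    {P : Type*} [AddCommGroup P] [Module (ZMod p) P] (ρP : Representation (ZMod p) G P)
    [Finite ↥(HomGin ρP ρX (Fil w p cl ((p : ℤ) * w.ord (ζ - 1))))] :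
    Nat.card ↥(HomG ρP (chiRep χ)) ≤
      Nat.card ↥(HomGin ρP ρX (Fil w p cl ((p : ℤ) * w.ord (ζ - 1)))) := by
  have h := top_step hU hcop hcl χ hχ hζ ρP
  have : Finite ↥(HomGin ρP ρX (Fil w p cl ((p : ℤ) * w.ord (ζ - 1) + 1))) :=
    finite_HomGin_of_le (Fil_anti (w := w) (p := p) (cl := cl)
      (show (p : ℤ) * w.ord (ζ - 1) ≤ (p : ℤ) * w.ord (ζ - 1) + 1 by omega))
  have h1 := one_le_card_HomGin (ρP := ρP) (ρX := ρX)
    (Fil w p cl ((p : ℤ) * w.ord (ζ - 1) + 1))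
  calc Nat.card ↥(HomG ρP (chiRep χ)) = 1 * Nat.card ↥(HomG ρP (chiRep χ)) := (one_mul _).symm
    _ ≤ _ := Nat.mul_le_mul_right _ h1
    _ ≤ _ := h

end Step

end Fermat.Agent.W56.LecTop5
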