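/-
Programme W56 (S56), chapter (E1)/(C3)/(D3): local duality, helper1.

`LocDual1`: the LEFT kernel of the local `(1,1)` Ext-pairing
  `ℍ¹(K(P; ℚ̄_qˣ)) × H¹(Γ_q, A) → H²(Γ_q, ℚ̄_qˣ)`
for every resolved `p`-torsion `Γ_q`-module `P₁ → P₀ → A` (`P₀` f.g. free), UNCONDITIONALLY:
mirror of `GLUE/LocalHypR11.pair11_right_kernel_local`.

Proof: `M := Hom_ℤ(A, ℚ̄_qˣ)` (the Cartier dual; finite, discrete, killed by `p`), `Q := ℤ[M] → M` its
canonical resolution (`FreeRes29`/`HpAt29.freeRes`), `ev : A × M → ℚ̄_qˣ` evaluation; the pairing is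
perfect (`FinDual1`), `ℚ̄_qˣ` is `p`-divisible (`UnitsLocDiv9`), the right kernel for `Q` is trivial
(`LocalHypR11`), hence the left kernel for `P` is trivial (`CupSymm1.left_kernel_of_perfect`).
-/
import Mathlib
import Fermat.Agent.W56.CupSymm1
import Fermat.Agent.W56.FinDual1
import Fermat.Agent.PT.PRO.HpAt29
import Fermat.Agent.PT.PRO.Setup20
import Fermat.Agent.PT.PRO.FreeRes29
import Fermat.Agent.PT.PRO.UnitsLocDiv9
import Fermat.Agent.PT.GLUE.LocalHypR11

set_option autoImplicit false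
set_option linter.unusedSectionVars false
set_option linter.style.haveILetI false

namespace Fermat.Agent.W56.LocDual1

open Function Fermat.Agent.PT.PRO Fermat.Agent.PT.PRO.HyperLevel25 Fermat.Agent.PT.PRO.Resolved4
  Fermat.Agent.PT.PRO.ExtPairing4 Fermat.Agent.PT.PRO.ExtPairingB4
  Fermat.Agent.PT.GLUE.Objects21 Fermat.Agent.PT.GLUE.LocalHypR11
  Fermat.Agent.W56.CupSymm1 Fermat.Agent.W56.FinDual1

variable (q : ℕ) [Fact q.Prime]

local notation "Γq" => (PadicAlgCl q ≃ₐ[ℚ_[q]] PadicAlgCl q)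

/-- Make instance search find the `ℤ`-module structure carried by the `Rep` (and not
`AddCommGroup.toIntModule`), so that written types agree with inferred ones. -/
noncomputable local instance (priority := 5000) instModuleUnitsLoc : Module ℤ (unitsLoc q).V := (unitsLoc q).hV2

/-- The `p`-torsion of `ℚ̄_qˣ` is cyclic of order `p`, generated by `ζ`. -/
theorem isMuGen_zetaLocA (p : ℕ) [Fact p.Prime] :
    IsMuGen (X := (unitsLoc q).V) p (UnitsLocDiv9.zetaLocA q p) where
  nsmul := UnitsLocDiv9.nsmul_zetaLocA q p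
  ne_zero := by
    intro h
    have h1 : UnitsLocDiv9.zetaLoc q p = 1 :=
      congrArg (Additive.toMul (α := (PadicAlgCl q)ˣ)) h
    have h2 := (UnitsLocDiv9.zetaLoc_spec q p).eq_orderOf
    rw [h1, orderOf_one] at h2
    exact (Fact.out : p.Prime).one_lt.ne' h2
  gen x hx := by
    obtain ⟨i, -, h⟩ := UnitsLocDiv9.eq_nsmul_zetaLoc_of_nsmul_eq_zero q p x hx
    exact ⟨i, h⟩

variable {P1 P0 A : Type} [AddCommGroup P1] [Module ℤ P1] [AddCommGroup P0] [Module ℤ P0]
  [AddCommGroup A] [Module ℤ A]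

section Dual

variable (P : Resolved ℤ (levelLoc q).sets P1 P0 A) [Module.Finite ℤ P0]

include P in
/-- `A` is finitely generated when `P₀` is. -/
theorem finite_A : Module.Finite ℤ A := Module.Finite.of_surjective P.π P.π_surj

/-- The Cartier dual `M = Hom_ℤ(A, ℚ̄_qˣ)` with the conjugation action. -/
noncomputable abbrev dualRep := Representation.linHom P.ρM (unitsLoc q).ρ

theorem isDiscrete_dualRep : IsDiscrete (levelLoc q).sets (dualRep q P) :=
  haveI := finite_A q P
  isDiscrete_linHom (isLevelBasis_levelLoc q) P.discM (isDiscrete_unitsLoc' q)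

/-- The canonical resolution `ℤ[M] → M` of the Cartier dual. -/
noncomputable def dualRes :=
  Setup20.toResolved (𝒰 := (levelLoc q).sets) (HpAt29.freeRes (dualRep q P))
    (FreeRes29.isDiscrete_freeRep (isLevelBasis_levelLoc q) (isDiscrete_dualRep q P))

/-- Evaluation `A × Hom(A, ℚ̄_qˣ) → ℚ̄_qˣ`. -/
noncomputable def evData : EvData P (dualRes q P) (unitsLoc q).ρ where
  ev := LinearMap.applyₗ
  equiv g a f := by
    show (Representation.linHom P.ρM (unitsLoc q).ρ g f) (P.ρM g a) = (unitsLoc q).ρ g (f a)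
    rw [Representation.linHom_apply]
    simp only [LinearMap.comp_apply, Representation.inv_self_apply]

variable (p : ℕ) [Fact p.Prime] (hpA : ∀ a : A, p • a = 0)

include P hpA in
/-- A finitely generated abelian group killed by `p` is finite. -/
theorem finite_of_torsion : Finite A := by
  haveI := finite_A q P
  have key : ∀ (inst : Module ℤ A), @Module.Finite ℤ A _ _ inst → Finite A := by
    intro inst hfin
    have h1 : inst = AddCommGroup.toIntModule A := Subsingleton.elim _ _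
    subst h1
    haveI : AddGroup.FG A := Module.Finite.iff_addGroup_fg.1 hfin
    apply AddCommGroup.finite_of_fg_isAddTorsion
    intro a
    rw [isOfFinAddOrder_iff_nsmul_eq_zero]
    exact ⟨p, (Fact.out : p.Prime).pos, hpA a⟩
  exact key _ inferInstance

include hpA in
/-- The evaluation pairing `A × Hom(A, ℚ̄_qˣ) → ℚ̄_qˣ` is perfect. -/
theorem isPerfectEv_evData : IsPerfectEv (evData q P) where
  sepL a ha := by
    by_contra h0
    obtain ⟨f, hf⟩ := exists_hom_apply_ne_zero hpA (isMuGen_zetaLocA q p) a h0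
    exact hf (ha f)
  sepR m hm := LinearMap.ext hm
  repL φ := ⟨φ, fun _ => rfl⟩
  repR φ := by
    haveI := finite_of_torsion q P p hpA
    obtain ⟨a, ha⟩ := exists_eval_eq hpA (isMuGen_zetaLocA q p) φ.toAddMonoidHom
    exact ⟨a, fun f => (ha f).symm⟩

include hpA in
/-- `p` kills the Cartier dual. -/
theorem nsmul_dual_eq_zero (f : A →ₗ[ℤ] (unitsLoc q).V) : p • f = 0 := by
  ext a
  rw [LinearMap.smul_apply, LinearMap.zero_apply]
  exact nsmul_hom_eq_zero hpA f a

end Dual

section Main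

variable (P : Resolved ℤ (levelLoc q).sets P1 P0 A) [Module.Free ℤ P0] [Module.Finite ℤ P0]
  [Module.Finite ℤ P1] (p : ℕ) [Fact p.Prime] (hpA : ∀ a : A, p • a = 0)

include hpA in
/-- **The local pairing `ℍ¹(K(P; ℚ̄_qˣ)) × H¹(Γ_q, A) → H²(Γ_q, ℚ̄_qˣ)` has trivial LEFT kernel.** -/
theorem pair11_left_kernel_local
    (ξ : (P.K (isLevelBasis_levelLoc q) (unitsLoc q).ρ (isDiscrete_unitsLoc' q)).ℍ1
      (isLevelBasis_levelLoc q))
    (h : ∀ x, pair11 (evalPairing P (isLevelBasis_levelLoc q) (unitsLoc q).ρ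
      (isDiscrete_unitsLoc' q)) (isLevelBasis_levelLoc q) (isDiscrete_unitsLoc' q) ξ x = 0) :
    ξ = 0 := by
  haveI := finite_of_torsion q P p hpA
  haveI : Finite (A →ₗ[ℤ] (unitsLoc q).V) := finite_hom hpA (isMuGen_zetaLocA q p)
  haveI := free_P1 P
  have hp0 : 0 < p := (Fact.out : p.Prime).pos
  refine left_kernel_of_perfect (isLevelBasis_levelLoc q) (isDiscrete_unitsLoc' q)
    (isPerfectEv_evData q P p hpA) ?_ ?_ ?_ ξ h
  · -- `Hom(P₀, X) → Hom(P₁, X)` is onto
    refine UnitsLocDiv9.lcomp_surjective_of_div P.ι P.ι_inj (p : ℤ) (fun x => ?_) (fun x => ?_)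
    · rw [LinearMap.mem_range]
      exact (P.exact _).1 ((LinearMap.map_smul P.π (p : ℤ) x).trans
        ((Nat.cast_smul_eq_nsmul ℤ p (P.π x)).trans (hpA _)))
    · obtain ⟨y, hy⟩ := UnitsLocDiv9.exists_nsmul_eq q hp0 x
      exact ⟨y, (Nat.cast_smul_eq_nsmul ℤ p y).trans hy⟩
  · -- `Hom(Q₀, X) → Hom(Q₁, X)` is onto
    refine FreeRes29.lcomp_relIncl_surjective (p : ℤ)
      (fun f => (Nat.cast_smul_eq_nsmul ℤ p f).trans (nsmul_dual_eq_zero q p hpA f))
      (fun x => ?_)
    obtain ⟨y, hy⟩ := UnitsLocDiv9.exists_nsmul_eq q hp0 x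
    exact ⟨y, (Nat.cast_smul_eq_nsmul ℤ p y).trans hy⟩
  · -- the right kernel for the canonical resolution of the Cartier dual
    intro x hx
    exact pair11_right_kernel_local q (dualRes q P) p (nsmul_dual_eq_zero q p hpA) x hx

end Main

end Fermat.Agent.W56.LocDual1
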