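/-
Programme W56 (target S56), stage 2, chapter (EC-5), helper5: **the abstract algebra half of the
monomial theorem** (`BaseContracts4.MonoWp`).

`Q` a finite group of order prime to `p`, `τ` a representation of `Q` on a finite `𝔽_p`-space `M`,
`D` a finite transitive `Q`-set, `ε_d` (`d ∈ D`) orthogonal linear endomorphisms of `M` with sum `1`
permuted by `Q` (`τ q ∘ ε_d = ε_{q d} ∘ τ q`), `y ≠ 0` a `Q`-invariant element, `#M ≤ p ^ #D`.  Then
`𝔽_p[D] → M`, `δ_d ↦ ε_d y`, is a `Q`-isomorphism:

  `μ_P(M) = μ_P(𝔽_p[D])`        (`muP_eq_funPerm`).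

Also `dc_transitive`: `G ⧸ H` acts transitively on the double cosets `j(L) \ G / H`.
-/
import Mathlib
import Fermat.Agent.W56.BaseDefs4

set_option autoImplicit false
set_option linter.unusedSectionVars false

namespace Fermat.Agent.W56.PermIdem5

open Fermat.Agent.W56.MuP4 Fermat.Agent.W56.TorsSnake4 Fermat.Agent.W56.EquivUnits0
  Fermat.Agent.W56.Mackey2 Fermat.Agent.W56.BaseDefs4

section Abstract

variable {Q : Type*} [Group Q] [Fintype Q] (p : ℕ) [Fact p.Prime]
  [Invertible (Fintype.card Q : ZMod p)] {M : Type*} [AddCommGroup M] [Module (ZMod p) M]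
  (τ : Representation (ZMod p) Q M) {D : Type*} [Fintype D] [MulAction Q D]
  (ε : D → (M →ₗ[ZMod p] M))

/-- `f ↦ ∑_d f d • ε_d y`. -/
noncomputable def Phi (y : M) : (D → ZMod p) →ₗ[ZMod p] M where
  toFun f := ∑ d, f d • ε d y
  map_add' f g := by
    rw [← Finset.sum_add_distrib]
    exact Finset.sum_congr rfl fun d _ => by rw [Pi.add_apply, add_smul]
  map_smul' c f := by
    rw [RingHom.id_apply, Finset.smul_sum]
    exact Finset.sum_congr rfl fun d _ => by rw [Pi.smul_apply, smul_eq_mul, mul_smul]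

theorem Phi_apply (y : M) (f : D → ZMod p) : Phi p ε y f = ∑ d, f d • ε d y := rfl

variable (horth : ∀ d d', d ≠ d' → ∀ m, ε d (ε d' m) = 0) (hsum : ∀ m, ∑ d, ε d m = m)

include horth hsum in
/-- the `ε_d` are idempotent. -/
theorem idem (d : D) (m : M) : ε d (ε d m) = ε d m := by
  classical
  have h := congrArg (ε d) (hsum m)
  rw [map_sum, Finset.sum_eq_single d (fun d' _ hd' => horth d d' hd'.symm m)
    (fun h => absurd (Finset.mem_univ d) h)] at h
  exact h

include horth hsum in
theorem eps_Phi (y : M) (f : D → ZMod p) (d : D) : ε d (Phi p ε y f) = f d • ε d y := by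
  classical
  rw [Phi_apply, map_sum, Finset.sum_eq_single d]
  · rw [map_smul, idem p ε horth hsum]
  · intro d' _ hd'
    rw [map_smul, horth d d' hd'.symm, smul_zero]
  · intro h
    exact absurd (Finset.mem_univ d) h

variable (hcomm : ∀ q d m, τ q (ε d m) = ε (q • d) (τ q m))

include hcomm in
/-- `Φ` is `Q`-equivariant. -/
theorem Phi_equivariant (y : M) (hinv : ∀ q, τ q y = y) (q : Q) (f : D → ZMod p) :
    Phi p ε y (funPerm (ZMod p) Q D q f) = τ q (Phi p ε y f) := by
  rw [Phi_apply, Phi_apply, map_sum]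
  refine (Fintype.sum_equiv (MulAction.toPerm q) _ _ fun d => ?_).symm
  rw [map_smul, hcomm, hinv, MulAction.toPerm_apply, funPerm_apply, inv_smul_smul]

variable (htrans : ∀ d d' : D, ∃ q : Q, q • d = d')

include horth hsum hcomm htrans in
/-- every component of a non-zero invariant element is non-zero. -/
theorem eps_ne_zero (y : M) (hy0 : y ≠ 0) (hinv : ∀ q, τ q y = y) (d : D) : ε d y ≠ 0 := by
  classical
  -- some component is non-zero
  have hex : ∃ d₀, ε d₀ y ≠ 0 := by
    by_contra hcon
    push Not at hcon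
    apply hy0
    rw [← hsum y]
    exact Finset.sum_eq_zero fun d _ => hcon d
  obtain ⟨d₀, hd₀⟩ := hex
  obtain ⟨q, rfl⟩ := htrans d₀ d
  intro h0
  apply hd₀
  have h1 : τ q (ε d₀ y) = 0 := by rw [hcomm, hinv, h0]
  have h2 : τ q⁻¹ (τ q (ε d₀ y)) = ε d₀ y := by
    rw [← Module.End.mul_apply, ← map_mul, inv_mul_cancel, map_one, Module.End.one_apply]
  rw [← h2, h1, map_zero]

include horth hsum hcomm htrans in
theorem Phi_injective (y : M) (hy0 : y ≠ 0) (hinv : ∀ q, τ q y = y) :
    Function.Injective (Phi p ε y) := by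
  rw [← LinearMap.ker_eq_bot, LinearMap.ker_eq_bot']
  intro f hf
  funext d
  have h1 := eps_Phi p ε horth hsum y f d
  rw [hf, map_zero] at h1
  rcases smul_eq_zero.1 h1.symm with h2 | h2
  · exact h2
  · exact absurd h2 (eps_ne_zero p τ ε horth hsum hcomm htrans y hy0 hinv d)

include horth hsum hcomm htrans in
/-- **the abstract monomial theorem.** -/
theorem muP_eq_funPerm [Finite M] (y : M) (hy0 : y ≠ 0) (hinv : ∀ q, τ q y = y)
    (hcard : Nat.card M ≤ p ^ Fintype.card D)
    {P : Type*} [AddCommGroup P] [Module (ZMod p) P] (ρP : Representation (ZMod p) Q P) :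
    muP ρP τ = muP ρP (funPerm (ZMod p) Q D) := by
  have hinj := Phi_injective p τ ε horth hsum hcomm htrans y hy0 hinv
  have hbij : Function.Bijective (Phi p ε y) := by
    refine Function.Injective.bijective_of_nat_card_le hinj ?_
    have h1 : Nat.card (D → ZMod p) = p ^ Fintype.card D := by
      rw [Nat.card_fun, Nat.card_zmod, Nat.card_eq_fintype_card]
    rw [h1]
    exact hcard
  symm
  exact muP_congr ρP _ _ (LinearEquiv.ofBijective (Phi p ε y) hbij) fun q f =>
    Phi_equivariant p τ ε hcomm y hinv q f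

end Abstract

/-! ### the version for the `p`-torsion of an abelian group with operators -/

section Tors

variable {Q : Type*} [Group Q] [Fintype Q] (p : ℕ) [Fact p.Prime]
  [Invertible (Fintype.card Q : ZMod p)] {A : Type*} [AddCommGroup A]
  (ρ : Representation ℤ Q A) {D : Type*} [Fintype D] [MulAction Q D]

/-- **the abstract monomial theorem** for `M = A[p]`, the idempotents being given on `A`. -/
theorem muP_torsRep_eq_funPerm (htrans : ∀ d d' : D, ∃ q : Q, q • d = d') (e : D → (A →+ A))
    (horth : ∀ d d', d ≠ d' → ∀ a, e d (e d' a) = 0) (hsum : ∀ a, ∑ d, e d a = a)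
    (hcomm : ∀ q d a, ρ q (e d a) = e (q • d) (ρ q a))
    (y : A) (hy0 : y ≠ 0) (hpy : p • y = 0) (hinv : ∀ q, ρ q y = y)
    [Finite ↥(torsP p A)] (hcard : Nat.card ↥(torsP p A) ≤ p ^ Fintype.card D)
    {P : Type*} [AddCommGroup P] [Module (ZMod p) P] (ρP : Representation (ZMod p) Q P) :
    muP ρP (torsRep p ρ) = muP ρP (funPerm (ZMod p) Q D) := by
  refine muP_eq_funPerm p (torsRep p ρ) (fun d => torsMap p (e d)) ?_ ?_ ?_ htrans
    ⟨y, (mem_torsP p).2 hpy⟩ (fun h => hy0 (congrArg Subtype.val h)) ?_ hcard ρP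
  · intro d d' hdd' m
    apply Subtype.ext
    show e d (e d' m.1) = 0
    exact horth d d' hdd' m.1
  · intro m
    apply Subtype.ext
    rw [AddSubgroup.val_finsetSum]
    exact hsum m.1
  · intro q d m
    apply Subtype.ext
    show ρ q (e d m.1) = e (q • d) (ρ q m.1)
    exact hcomm q d m.1
  · intro q
    apply Subtype.ext
    show ρ q y = y
    exact hinv q

end Tors

/-! ### transitivity on the double cosets -/

section DC

variable {G L : Type} [Group G] [Group L] (i : L →* G) (V : Subgroup G) [V.Normal]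

/-- `G ⧸ V` acts transitively on `i(L) \ G / V`. -/
theorem dc_transitive (D D' : DC i V) : ∃ q : G ⧸ V, q • D = D' := by
  induction D using Quotient.inductionOn with
  | h x =>
    induction D' using Quotient.inductionOn with
    | h x' =>
      refine ⟨QuotientGroup.mk (x'⁻¹ * x), ?_⟩
      rw [mk_smul_mk]
      congr 1
      group

end DC

end Fermat.Agent.W56.PermIdem5
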