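/-
Programme W56 (target S56), stage 2, chapter (EC-5), helper5: **the monomial theorem**
`BaseContracts4.MonoWp`.

`H ◁ G` open, `Q = G ⧸ H` finite of order prime to `p`, `j : L →* G`, `S = Coind_j A`.  The Mackey
idempotents `e_D` (`D ∈ j(L) \ G / H`, `MackeyTrace6.eDC`: multiplication by the indicator function of
`D`) of `S|_H` induce `G`-endomorphisms `ẽ_D` of `W(S) = Coind_H^G S|_H`, orthogonal with sum `1`, and
`star c ∘ ẽ_D = ẽ_{c • D} ∘ star c`.  With the count `MonoCount5.card_torsP_W_le`, the invariant class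
`MonoTriv5.iotaH2` and the abstract `PermIdem5.muP_torsRep_eq_funPerm` this gives
`H²(G; W(S))[p] ≅ 𝔽_p[j(L) \ G / H]` as `𝔽_p[Q]`-modules.
-/
import Mathlib
import Fermat.Agent.W56.MonoCount5
import Fermat.Agent.W56.PermIdem5
import Fermat.Agent.W56.MackeyTrace6

set_option autoImplicit false
set_option linter.unusedSectionVars false

open CategoryTheory

namespace Fermat.Agent.W56.MonoW5

open Fermat.Agent.PT.PRO Fermat.Agent.PT.PRO.LevelCoh28 Fermat.Agent.PT.PRO.SmoothCoind28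
  Fermat.Agent.PT.PRO.InvP4 Fermat.Agent.PT.GLUE.Objects21 Fermat.Agent.W56.Mackey2
  Fermat.Agent.W56.MuP4 Fermat.Agent.W56.TorsSnake4 Fermat.Agent.W56.EquivUnits0
  Fermat.Agent.W56.KummerStar4 Fermat.Agent.W56.IntRes4 Fermat.Agent.W56.CoindStar4
  Fermat.Agent.W56.BaseDefs4 Fermat.Agent.W56.MackeyTrace6

variable {G L : Type} [Group G] [Group L] (𝓑 : LevelBasis G) (H : Subgroup G) [hH : H.Normal]
  (hHo : ∃ V ∈ 𝓑.sets, V ≤ H) (j : L →* G) (A : Rep.{0} ℤ L)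

/-! ### the idempotents on `S|_H` -/

/-- `e_D`: multiplication by the indicator function of the double coset `D`. -/
noncomputable def eD (D : DC j H) := eDC j 𝓑 A H hHo D.out

open Classical in
theorem eD_apply (D : DC j H) (f : XV j 𝓑 A H) (x : G) :
    (eD 𝓑 H hHo j A D f).1 x = if Quotient.mk (dcSetoidV j H) x = D then f.1 x else 0 := by
  rw [eD, eDC_apply]
  by_cases h : Quotient.mk (dcSetoidV j H) x = D
  · rw [if_pos h, if_pos ((inDC_out_iff j H D x).2 h)]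
  · rw [if_neg h, if_neg fun h' => h ((inDC_out_iff j H D x).1 h')]

theorem eD_orth (D D' : DC j H) (hDD' : D ≠ D') (f : XV j 𝓑 A H) :
    eD 𝓑 H hHo j A D (eD 𝓑 H hHo j A D' f) = 0 := by
  classical
  refine Subtype.ext (funext fun x => ?_)
  rw [eD_apply]
  by_cases h : Quotient.mk (dcSetoidV j H) x = D
  · rw [if_pos h, eD_apply, if_neg fun h' => hDD' (h.symm.trans h')]
    rfl
  · rw [if_neg h]
    rfl

theorem eD_sum [Fintype (DC j H)] (f : XV j 𝓑 A H) : ∑ D : DC j H, eD 𝓑 H hHo j A D f = f :=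
  sum_Eg_Rg j 𝓑 A H hHo f

/-- the action of `G` on `S` permutes the `e_D`. -/
theorem ρ_eD (c : G) (D : DC j H) (f : scoind j 𝓑 A) :
    (scoind j 𝓑 A).ρ c (eD 𝓑 H hHo j A D f) =
      eD 𝓑 H hHo j A ((QuotientGroup.mk c : G ⧸ H) • D) ((scoind j 𝓑 A).ρ c f) := by
  classical
  refine Subtype.ext (funext fun y => ?_)
  rw [scoind_ρ_apply, eD_apply]
  have h2 := eD_apply 𝓑 H hHo j A ((QuotientGroup.mk c : G ⧸ H) • D) ((scoind j 𝓑 A).ρ c f) y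
  rw [h2]
  have hiff : Quotient.mk (dcSetoidV j H) (y * c) = D ↔
      Quotient.mk (dcSetoidV j H) y = (QuotientGroup.mk c : G ⧸ H) • D := by
    have h1 : (QuotientGroup.mk c : G ⧸ H) • (Quotient.mk (dcSetoidV j H) (y * c) : DC j H) =
        Quotient.mk (dcSetoidV j H) y := by
      rw [mk_smul_mk, mul_inv_cancel_right]
    constructor
    · intro h
      rw [← h, h1]
    · intro h
      rw [← h1] at h
      exact smul_left_cancel _ h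
  by_cases h : Quotient.mk (dcSetoidV j H) (y * c) = D
  · rw [if_pos h, if_pos (hiff.1 h)]
    rfl
  · rw [if_neg h, if_neg fun h' => h (hiff.2 h')]

/-! ### the idempotents on `W(S)` -/

/-- `ẽ_D = Coind(e_D)` on `W(S)`. -/
noncomputable def eW (D : DC j H) :
    @LinearMap ℤ ℤ _ _ (RingHom.id ℤ) (W 𝓑 H (scoind j 𝓑 A)) (W 𝓑 H (scoind j 𝓑 A)) _ _
      (W 𝓑 H (scoind j 𝓑 A)).hV2 (W 𝓑 H (scoind j 𝓑 A)).hV2 :=
  scoindMap H.subtype 𝓑 (eD 𝓑 H hHo j A D) (eDC_equivariant j 𝓑 A H hHo D.out)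

theorem eW_apply (D : DC j H) (F : W 𝓑 H (scoind j 𝓑 A)) (x : G) :
    val 𝓑 H (scoind j 𝓑 A) (eW 𝓑 H hHo j A D F) x =
      eD 𝓑 H hHo j A D (val 𝓑 H (scoind j 𝓑 A) F x) := rfl

theorem eW_equivariant (D : DC j H) (g : G) (F : W 𝓑 H (scoind j 𝓑 A)) :
    eW 𝓑 H hHo j A D ((W 𝓑 H (scoind j 𝓑 A)).ρ g F) =
      (W 𝓑 H (scoind j 𝓑 A)).ρ g (eW 𝓑 H hHo j A D F) := rfl

theorem eW_orth (D D' : DC j H) (hDD' : D ≠ D') (F : W 𝓑 H (scoind j 𝓑 A)) :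
    eW 𝓑 H hHo j A D (eW 𝓑 H hHo j A D' F) = 0 := by
  refine W_ext 𝓑 H (scoind j 𝓑 A) fun x => ?_
  rw [eW_apply, eW_apply]
  exact eD_orth 𝓑 H hHo j A D D' hDD' _

theorem val_sum' {ι : Type*} (s : Finset ι) (f : ι → W 𝓑 H (scoind j 𝓑 A)) (x : G) :
    val 𝓑 H (scoind j 𝓑 A) (∑ i ∈ s, f i) x = ∑ i ∈ s, val 𝓑 H (scoind j 𝓑 A) (f i) x := by
  classical
  induction s using Finset.induction_on with
  | empty => rw [Finset.sum_empty, Finset.sum_empty]; rfl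
  | insert a s ha ih => rw [Finset.sum_insert ha, Finset.sum_insert ha, val_add, ih]

theorem eW_sum [Fintype (DC j H)] (F : W 𝓑 H (scoind j 𝓑 A)) :
    ∑ D : DC j H, eW 𝓑 H hHo j A D F = F := by
  refine W_ext 𝓑 H (scoind j 𝓑 A) fun x => ?_
  rw [val_sum']
  exact eD_sum 𝓑 H hHo j A (val 𝓑 H (scoind j 𝓑 A) F x)

/-- **`star c ∘ ẽ_D = ẽ_{c • D} ∘ star c`.** -/
theorem star_eW (q : G ⧸ H) (D : DC j H) (F : W 𝓑 H (scoind j 𝓑 A)) :
    star 𝓑 H (scoind j 𝓑 A) q (eW 𝓑 H hHo j A D F) =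
      eW 𝓑 H hHo j A (q • D) (star 𝓑 H (scoind j 𝓑 A) q F) := by
  induction q using QuotientGroup.induction_on with
  | H c =>
    refine W_ext 𝓑 H (scoind j 𝓑 A) fun x => ?_
    rw [star_mk, starG_apply, eW_apply, eW_apply, starG_apply]
    exact ρ_eD 𝓑 H hHo j A c D _

/-! ### the idempotents on `H²(G; W(S))` -/

/-- `ε_D = (ẽ_D)_*` on `H²(G; W(S))`. -/
noncomputable def epsH2 (D : DC j H) :=
  mapH2 (𝓑 := 𝓑) (A := W 𝓑 H (scoind j 𝓑 A)) (B := W 𝓑 H (scoind j 𝓑 A))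
    (eW 𝓑 H hHo j A D) (eW_equivariant 𝓑 H hHo j A D)

theorem epsH2_mk (D : DC j H) (z : ↥(Z2 𝓑 (W 𝓑 H (scoind j 𝓑 A)))) :
    epsH2 𝓑 H hHo j A D (H2mk 𝓑 _ z) =
      H2mk 𝓑 _ (mapZ2 (eW 𝓑 H hHo j A D) (eW_equivariant 𝓑 H hHo j A D) z) := rfl

theorem epsH2_orth (D D' : DC j H) (hDD' : D ≠ D') (a : H2 𝓑 (W 𝓑 H (scoind j 𝓑 A))) :
    epsH2 𝓑 H hHo j A D (epsH2 𝓑 H hHo j A D' a) = 0 := by
  obtain ⟨z, rfl⟩ := H2mk_surjective 𝓑 _ a
  rw [epsH2_mk, epsH2_mk]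
  have : mapZ2 (𝓑 := 𝓑) (eW 𝓑 H hHo j A D) (eW_equivariant 𝓑 H hHo j A D)
      (mapZ2 (eW 𝓑 H hHo j A D') (eW_equivariant 𝓑 H hHo j A D') z) = 0 := by
    apply Subtype.ext
    funext y
    exact eW_orth 𝓑 H hHo j A D D' hDD' _
  rw [this, map_zero]

theorem epsH2_sum [Fintype (DC j H)] (a : H2 𝓑 (W 𝓑 H (scoind j 𝓑 A))) :
    ∑ D : DC j H, epsH2 𝓑 H hHo j A D a = a := by
  obtain ⟨z, rfl⟩ := H2mk_surjective 𝓑 _ a
  simp only [epsH2_mk]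
  rw [← map_sum]
  congr 1
  apply Subtype.ext
  funext y
  rw [Submodule.coe_sum, Finset.sum_apply]
  exact eW_sum 𝓑 H hHo j A _

theorem opH2_epsH2 (q : G ⧸ H) (D : DC j H) (a : H2 𝓑 (W 𝓑 H (scoind j 𝓑 A))) :
    opH2 𝓑 (W 𝓑 H (scoind j 𝓑 A)) (star 𝓑 H (scoind j 𝓑 A)) (star_comm 𝓑 H (scoind j 𝓑 A)) q
        (epsH2 𝓑 H hHo j A D a) =
      epsH2 𝓑 H hHo j A (q • D)
        (opH2 𝓑 (W 𝓑 H (scoind j 𝓑 A)) (star 𝓑 H (scoind j 𝓑 A))
          (star_comm 𝓑 H (scoind j 𝓑 A)) q a) := by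
  obtain ⟨z, rfl⟩ := H2mk_surjective 𝓑 _ a
  rw [opH2_apply, opH2_apply, epsH2_mk, mapH2_mk, mapH2_mk, epsH2_mk]
  congr 1
  apply Subtype.ext
  funext y
  exact star_eW 𝓑 H hHo j A q D _

/-! ### the monomial theorem -/

/-- **(T-w) the monomial theorem**, `BaseContracts4.MonoWp` verbatim. -/
theorem monoWp : BaseContracts4.MonoWp := by
  intro G L _ _ 𝓑 H _ hHo _ p _ _ j A hx hb P _ _ _ ρP
  classical
  have hfinDC := finite_DC j 𝓑 H hHo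
  let _ : Fintype (DC j H) := Fintype.ofFinite (DC j H)
  obtain ⟨x, hx0, hpx⟩ := hx
  obtain ⟨hfin, hcard⟩ := MonoCount5.card_torsP_W_le 𝓑 H hHo p j A hb
  have hS : IsDiscrete 𝓑.sets (scoind j 𝓑 A) := isDiscrete_scoind j 𝓑 A
  refine PermIdem5.muP_torsRep_eq_funPerm p
    (canonRep (opH2 𝓑 (W 𝓑 H (scoind j 𝓑 A)) (star 𝓑 H (scoind j 𝓑 A))
      (star_comm 𝓑 H (scoind j 𝓑 A))))
    (PermIdem5.dc_transitive j H)
    (fun D => (epsH2 𝓑 H hHo j A D).toAddMonoidHom)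
    (fun D D' hDD' a => epsH2_orth 𝓑 H hHo j A D D' hDD' a)
    (fun a => epsH2_sum 𝓑 H hHo j A a)
    (fun q D a => ?_)
    (MonoTriv5.iotaH2 𝓑 H (scoind j 𝓑 A) hS x)
    (MonoTriv5.iotaH2_ne_zero 𝓑 H p (scoind j 𝓑 A) hS hx0 hpx) ?_ (fun q => ?_) ?_ ρP
  · rw [canonRep_apply, canonRep_apply]
    exact opH2_epsH2 𝓑 H hHo j A q D a
  · rw [← map_nsmul, hpx]
    exact map_zero _
  · rw [canonRep_apply]
    exact MonoTriv5.opH2_iotaH2 𝓑 H (scoind j 𝓑 A) hS q x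
  · rw [← Nat.card_eq_fintype_card]
    exact hcard

end Fermat.Agent.W56.MonoW5
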