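/-
Programme W56 (S56), chapter (E1) "PT-mid", helper2.

`PTChase2`: the abstract diagram chase behind

  (PT-mid-onto)  "dual Selmer group = 0  ⟹  H¹(G_S; A) → ∏_{v ∈ T} H¹(Γ_v; A) / L_v is ONTO",

as a statement about abstract abelian groups and additive maps (pure algebra, Mathlib only; the
style is that of `PT/PRO/LocalGlobal20`).  Dictionary (`q ∈ S`, `P → A` a resolution):

* `H1 = H¹(Γ; A)`, `H1q q = H¹(Γ_q; A)`, `res q` the localisation;
* `PE = ℍ¹(Γ; K(P; E_S))`, `PI = ℍ¹(Γ; K(P; I_S))`, `PC = ℍ¹(Γ; K(P; C_S))`, `d`, `t` induced by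
  `E_S → I_S → C_S` (exact in the middle);
* `PIq q = ℍ¹(Γ; K(P; I_{S,q}))`, `incl q`, `proj q`; `Eq q = ℍ¹(Γ_q; K(P; ℚ̄_qˣ))`, `sh1 q` =
  Shapiro ∘ inflation (surjective);
* `BI = H²(Γ; I_S)[p]`, `BIq q = H²(Γ; I_{S,q})[p]`, `Bq q = H²(Γ_q; ℚ̄_qˣ)[p]`, `BC = H²(Γ; C_S)[p]`,
  `inclB q`, `sh2 q`, `τ = (toCS)_*`;
* `j : BC → 𝔽_p`, `lam q : Bq q → 𝔽_p` injective with `lam q ∘ sh2 q = j ∘ τ ∘ inclB q`
  (see `exists_compatible_inv` for the choice of `lam q`);
* `pC`, `pI`, `pIq q`, `pq q` the `(1,1)`-pairings, natural for the maps above;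
* `hLK`: the GLOBAL pairing `pC` has trivial LEFT kernel; `hRK`: the LOCAL pairings `pq q` have
  trivial RIGHT kernel.  No local left kernel and no reciprocity law are used.
-/
import Mathlib
import Fermat.Agent.PT.PRO.PerfectPairing29

set_option autoImplicit false
set_option linter.style.haveILetI false

namespace Fermat.Agent.W56.PTChase2

open Function

/-! ### A functional separating a point from a subgroup of a finite group killed by `p` -/

section Separate

variable {p : ℕ} [Fact p.Prime] {V : Type*} [AddCommGroup V]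

/-- In a group killed by `p`, a point outside a subgroup is separated from it by a homomorphism
to `ℤ/p`. -/
theorem exists_hom_of_notMem (hV : ∀ v : V, p • v = 0) (U : AddSubgroup V) {v₀ : V}
    (hv₀ : v₀ ∉ U) : ∃ f : V →+ ZMod p, f v₀ ≠ 0 ∧ ∀ u ∈ U, f u = 0 := by
  letI : Module (ZMod p) V := AddCommGroup.zmodModule (n := p) hV
  let U' : Submodule (ZMod p) V := AddSubgroup.toZModSubmodule p U
  have hv₀' : v₀ ∉ U' := hv₀
  obtain ⟨f, hf, hfU⟩ := Submodule.exists_dual_map_eq_bot_of_notMem hv₀' inferInstance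
  refine ⟨f.toAddMonoidHom, hf, fun u hu => ?_⟩
  have : f u ∈ U'.map f := Submodule.mem_map_of_mem (show u ∈ U' from hu)
  rw [hfU] at this
  exact this

end Separate

/-! ### The choice of the local invariants -/

section Inv

variable {p : ℕ} [Fact p.Prime] {B' B : Type*} [AddCommGroup B'] [AddCommGroup B]

/-- Let `σ : B' → B` be injective, `B` killed by `p` of rank `≤ 1` (any two elements are
dependent over `𝔽_p`), and `φ : B' → ℤ/p` injective.  Then there is an injective `lam : B → ℤ/p`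
with `lam ∘ σ = φ`. -/
theorem exists_compatible_inv (hB : ∀ b : B, p • b = 0)
    (hrank : ∀ x y : B, ∃ a b : ZMod p, (a ≠ 0 ∨ b ≠ 0) ∧ a.val • x + b.val • y = 0)
    (σ : B' →+ B) (hσ : Injective σ) (φ : B' →+ ZMod p) (hφ : Injective φ) :
    ∃ lam : B →+ ZMod p, Injective lam ∧ ∀ b', lam (σ b') = φ b' := by
  classical
  letI : Module (ZMod p) B := AddCommGroup.zmodModule (n := p) hB
  have hsm : ∀ (a : ZMod p) (x : B), a • x = a.val • x := fun a x => by
    conv_lhs => rw [← ZMod.natCast_zmod_val a]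
    exact Nat.cast_smul_eq_nsmul (ZMod p) a.val x
  -- an injective `lam₀` on `B`
  have hex : ∃ lam₀ : B →+ ZMod p, Injective lam₀ := by
    by_cases hB0 : ∀ x : B, x = 0
    · exact ⟨0, fun x y _ => (hB0 x).trans (hB0 y).symm⟩
    · obtain ⟨x₀, hx₀⟩ := not_forall.1 hB0
      -- every element is a multiple of `x₀`
      have hmul : ∀ y : B, ∃ c : ZMod p, y = c • x₀ := by
        intro y
        obtain ⟨a, b, hab, h⟩ := hrank x₀ y
        rw [← hsm, ← hsm] at h
        have hb : b ≠ 0 := by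
          rintro rfl
          rw [zero_smul, add_zero] at h
          rcases hab with ha | hb
          · exact hx₀ ((smul_eq_zero.1 h).resolve_left ha)
          · exact hb rfl
        refine ⟨-(b⁻¹ * a), ?_⟩
        have h2 : b • y = -(a • x₀) := eq_neg_of_add_eq_zero_right h
        calc y = b⁻¹ • (b • y) := by rw [smul_smul, inv_mul_cancel₀ hb, one_smul]
          _ = -(b⁻¹ * a) • x₀ := by rw [h2, smul_neg, smul_smul, neg_smul]
      obtain ⟨f, hf⟩ := Submodule.exists_dual_map_eq_bot_of_notMem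
        (show x₀ ∉ (⊥ : Submodule (ZMod p) B) from hx₀) inferInstance
      refine ⟨f.toAddMonoidHom, (injective_iff_map_eq_zero _).2 fun y hy => ?_⟩
      obtain ⟨c, rfl⟩ := hmul y
      have hy' : c * f x₀ = 0 := by
        have : f (c • x₀) = 0 := hy
        rwa [map_smul, smul_eq_mul] at this
      rcases mul_eq_zero.1 hy' with hc | hfx
      · rw [hc, zero_smul]
      · exact absurd hfx hf.1
  obtain ⟨lam₀, hlam₀⟩ := hex
  by_cases hB'0 : ∀ x : B', x = 0
  · refine ⟨lam₀, hlam₀, fun b' => ?_⟩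
    rw [hB'0 b', map_zero, map_zero, map_zero]
  · obtain ⟨b₀, hb₀⟩ := not_forall.1 hB'0
    have hσb₀ : σ b₀ ≠ 0 := fun h => hb₀ (hσ (h.trans (map_zero σ).symm))
    have hc : lam₀ (σ b₀) ≠ 0 := fun h => hσb₀ (hlam₀ (h.trans (map_zero lam₀).symm))
    have hd : φ b₀ ≠ 0 := fun h => hb₀ (hφ (h.trans (map_zero φ).symm))
    -- rescale `lam₀`
    let u : ZMod p := φ b₀ * (lam₀ (σ b₀))⁻¹
    have hu : u ≠ 0 := mul_ne_zero hd (inv_ne_zero hc)
    let lam : B →+ ZMod p := (AddMonoidHom.mulLeft u).comp lam₀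
    have hlam : ∀ x, lam x = u * lam₀ x := fun _ => rfl
    have hinj : Injective lam := (injective_iff_map_eq_zero _).2 fun y hy => by
      rw [hlam] at hy
      exact hlam₀ (((mul_eq_zero.1 hy).resolve_left hu).trans (map_zero lam₀).symm)
    refine ⟨lam, hinj, fun b' => ?_⟩
    -- `σ b'` is a multiple of `σ b₀`
    obtain ⟨a, b, hab, h⟩ := hrank (σ b₀) (σ b')
    have hb : b ≠ 0 := by
      rintro rfl
      rw [ZMod.val_zero, zero_smul, add_zero] at h
      rcases hab with ha | hb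
      · rw [← hsm] at h
        exact hσb₀ ((smul_eq_zero.1 h).resolve_left ha)
      · exact hb rfl
    -- apply `lam` and `φ` to the relation
    have h1 : a * lam (σ b₀) + b * lam (σ b') = 0 := by
      have := congrArg lam h
      rwa [map_add, map_nsmul, map_nsmul, map_zero, nsmul_eq_mul, nsmul_eq_mul,
        ZMod.natCast_zmod_val, ZMod.natCast_zmod_val] at this
    have h2 : a * φ b₀ + b * φ b' = 0 := by
      have h' : σ (a.val • b₀ + b.val • b') = 0 := by rw [map_add, map_nsmul, map_nsmul, h]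
      have h'' : a.val • b₀ + b.val • b' = 0 := hσ (h'.trans (map_zero σ).symm)
      have := congrArg φ h''
      rwa [map_add, map_nsmul, map_nsmul, map_zero, nsmul_eq_mul, nsmul_eq_mul,
        ZMod.natCast_zmod_val, ZMod.natCast_zmod_val] at this
    have h3 : lam (σ b₀) = φ b₀ := by
      rw [hlam]
      show φ b₀ * (lam₀ (σ b₀))⁻¹ * lam₀ (σ b₀) = φ b₀
      rw [mul_assoc, inv_mul_cancel₀ hc, mul_one]
    rw [h3] at h1
    have h4 : b * lam (σ b') = b * φ b' := by
      rw [eq_neg_of_add_eq_zero_right h1, eq_neg_of_add_eq_zero_right h2]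
    exact mul_left_cancel₀ hb h4

end Inv

/-! ### The chase -/

section Chase

variable {ι : Type*} [Finite ι] (T : ι → Prop) {p : ℕ} [Fact p.Prime]
variable {H1 PE PI PC BI BC : Type*} [AddCommGroup H1] [AddCommGroup PE] [AddCommGroup PI]
  [AddCommGroup PC] [AddCommGroup BI] [AddCommGroup BC]
variable {H1q PIq Eq BIq Bq : ι → Type*} [∀ q, AddCommGroup (H1q q)] [∀ q, AddCommGroup (PIq q)]
  [∀ q, AddCommGroup (Eq q)] [∀ q, AddCommGroup (BIq q)] [∀ q, AddCommGroup (Bq q)]

/-- **(PT-mid-onto), abstract form.**  If every class `e ∈ ℍ¹(K(P; E_S))` whose localisations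
vanish outside `T` and are orthogonal to `L q` for `q ∈ T` has trivial localisations on `T`
("the dual Selmer group vanishes"), then `H¹(Γ; A) → ∏_{q ∈ T} H¹(Γ_q; A) / L_q` is onto. -/
theorem onto_of_dual
    (res : ∀ q, H1 →+ H1q q)
    (d : PE →+ PI) (t : PI →+ PC) (hex : ∀ y, t y = 0 → ∃ e, d e = y)
    (incl : ∀ q, PIq q →+ PI) (proj : ∀ q, PI →+ PIq q)
    (hpi : ∀ q y, proj q (incl q y) = y)
    (hpi' : ∀ q q', q ≠ q' → ∀ y, proj q (incl q' y) = 0)
    (sh1 : ∀ q, PIq q →+ Eq q) (hsh1 : ∀ q, Surjective (sh1 q))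
    (inclB : ∀ q, BIq q →+ BI) (sh2 : ∀ q, BIq q →+ Bq q)
    (τ : BI →+ BC) (j : BC →+ ZMod p) (hj : Injective j)
    (lam : ∀ q, Bq q →+ ZMod p) (hlam : ∀ q, Injective (lam q))
    (hcompat : ∀ q b, lam q (sh2 q b) = j (τ (inclB q b)))
    (pC : PC →+ H1 →+ BC) (pI : PI →+ H1 →+ BI) (pIq : ∀ q, PIq q →+ H1 →+ BIq q)
    (pq : ∀ q, Eq q →+ H1q q →+ Bq q)
    (hpC : ∀ y h, pC (t y) h = τ (pI y h))
    (hincl : ∀ q y h, pI (incl q y) h = inclB q (pIq q y h))
    (hN2 : ∀ q y h, sh2 q (pIq q y h) = pq q (sh1 q y) (res q h))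
    (hLK : ∀ ξ : PC, (∀ h, pC ξ h = 0) → ξ = 0)
    (hRK : ∀ q x, (∀ z, pq q z x = 0) → x = 0)
    (hp : ∀ q (x : H1q q), p • x = 0)
    (hfin : ∀ q, T q → Finite (H1q q))
    (L : ∀ q, AddSubgroup (H1q q))
    (hdual : ∀ e : PE, (∀ q, ¬ T q → sh1 q (proj q (d e)) = 0) →
      (∀ q, T q → ∀ w ∈ L q, pq q (sh1 q (proj q (d e))) w = 0) →
      ∀ q, T q → sh1 q (proj q (d e)) = 0)
    (w : ∀ q, H1q q) : ∃ x : H1, ∀ q, T q → res q x - w q ∈ L q := by
  classical
  haveI : Fintype ι := Fintype.ofFinite ι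
  -- the ambient group `V = ∏_{q ∈ T} H¹(Γ_q; A)` and the subgroup `U = im(res) + L`
  let ιT := {q : ι // T q}
  let V := ∀ q : ιT, H1q q.1
  let U : AddSubgroup V :=
    { carrier := {v | ∃ x : H1, ∀ q : ιT, res q.1 x - v q ∈ L q.1}
      zero_mem' := ⟨0, fun q => by
        show res q.1 0 - (0 : H1q q.1) ∈ L q.1
        rw [map_zero, sub_zero]
        exact (L q.1).zero_mem⟩
      add_mem' := by
        rintro v v' ⟨x, hx⟩ ⟨x', hx'⟩
        refine ⟨x + x', fun q => ?_⟩
        have : res q.1 (x + x') - (v + v') q =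
            (res q.1 x - v q) + (res q.1 x' - v' q) := by
          rw [map_add, Pi.add_apply]
          abel
        rw [this]
        exact (L q.1).add_mem (hx q) (hx' q)
      neg_mem' := by
        rintro v ⟨x, hx⟩
        refine ⟨-x, fun q => ?_⟩
        have : res q.1 (-x) - (-v) q = -(res q.1 x - v q) := by
          rw [map_neg, Pi.neg_apply]
          abel
        rw [this]
        exact (L q.1).neg_mem (hx q) }
  have hVp : ∀ v : V, p • v = 0 := fun v => funext fun q => hp q.1 (v q)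
  let v₀ : V := fun q => w q.1
  by_cases hv₀ : v₀ ∈ U
  · obtain ⟨x, hx⟩ := hv₀
    exact ⟨x, fun q hq => hx ⟨q, hq⟩⟩
  exfalso
  obtain ⟨f, hfv₀, hfU⟩ := exists_hom_of_notMem hVp U hv₀
  -- the components of `f`
  let fq : ∀ q : ιT, H1q q.1 →+ ZMod p := fun q => f.comp (AddMonoidHom.single (fun q : ιT => H1q q.1) q)
  have hfsum : ∀ v : V, f v = ∑ q : ιT, fq q (v q) := by
    intro v
    conv_lhs => rw [← Finset.univ_sum_single v]
    rw [map_sum]
    rfl
  -- representation of the components by local classes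
  have hrep : ∀ q : ιT, ∃ z : Eq q.1, ∀ x, lam q.1 (pq q.1 z x) = fq q x := by
    intro q
    haveI := hfin q.1 q.2
    have hs := Fermat.Agent.PT.PRO.PerfectPairing29.surjective_of_right_kernel (pq q.1) (lam q.1)
      (fun b _ hb => hlam q.1 (hb.trans (map_zero _).symm)) (hp q.1) (hRK q.1)
    obtain ⟨z, hz⟩ := hs (fq q)
    exact ⟨z, fun x => DFunLike.congr_fun hz x⟩
  choose zT hzT using hrep
  let z : ∀ q, Eq q := fun q => if h : T q then zT ⟨q, h⟩ else 0
  have hzT' : ∀ q : ιT, z q.1 = zT q := fun q => by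
    show (if h : T q.1 then zT ⟨q.1, h⟩ else (0 : Eq q.1)) = zT q
    rw [dif_pos q.2]
  have hz0 : ∀ q, ¬ T q → z q = 0 := fun q hq => by
    show (if h : T q then zT ⟨q, h⟩ else (0 : Eq q)) = 0
    rw [dif_neg hq]
  -- lift to `ℍ¹(K(P; I_{S,q}))` and sum
  choose yq hyq using fun q => hsh1 q (z q)
  let y : PI := ∑ q, incl q (yq q)
  have hproj : ∀ q, proj q y = yq q := by
    intro q
    simp only [y, map_sum]
    rw [Finset.sum_eq_single q]
    · exact hpi q (yq q)
    · intro q' _ hq'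
      exact hpi' q q' (Ne.symm hq') (yq q')
    · intro h
      exact absurd (Finset.mem_univ q) h
  -- the global pairing of `t y` with `h`
  have hpair : ∀ h : H1, j (pC (t y) h) = ∑ q, lam q (pq q (z q) (res q h)) := by
    intro h
    rw [hpC]
    simp only [y, map_sum, AddMonoidHom.finsetSum_apply]
    refine Finset.sum_congr rfl fun q _ => ?_
    rw [hincl, ← hcompat, hN2, hyq]
  have hsumT : ∀ h : H1, (∑ q, lam q (pq q (z q) (res q h))) = f (fun q : ιT => res q.1 h) := by
    intro h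
    rw [hfsum]
    have h1 : (∑ q, lam q (pq q (z q) (res q h))) =
        ∑ q : ιT, lam q.1 (pq q.1 (z q.1) (res q.1 h)) := by
      rw [← Finset.sum_filter_of_ne (p := T) (fun q _ hq => by
        by_contra hT
        exact hq (by rw [hz0 q hT, map_zero, AddMonoidHom.zero_apply, map_zero]))]
      exact Finset.sum_subtype _ (fun q => by simp) _
    rw [h1]
    refine Finset.sum_congr rfl fun q _ => ?_
    rw [hzT' q, hzT q]
  -- `t y` is orthogonal to everything, hence `y` comes from `ℍ¹(K(P; E_S))`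
  have hty : t y = 0 := by
    apply hLK
    intro h
    apply hj
    rw [map_zero, hpair, hsumT]
    exact hfU _ ⟨h, fun q => by
      simp only [sub_self]
      exact (L q.1).zero_mem⟩
  obtain ⟨e, he⟩ := hex y hty
  have hloc : ∀ q, sh1 q (proj q (d e)) = z q := fun q => by rw [he, hproj, hyq]
  -- `e` lies in the dual Selmer group
  have hz : ∀ q, T q → z q = 0 := by
    intro q hq
    rw [← hloc q]
    refine hdual e (fun q hq => by rw [hloc, hz0 q hq]) (fun q hq w' hw' => ?_) q hq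
    rw [hloc]
    apply hlam q
    rw [map_zero, hzT' ⟨q, hq⟩, hzT ⟨q, hq⟩]
    refine hfU _ ⟨0, fun q' => ?_⟩
    rw [map_zero, zero_sub]
    apply (L q'.1).neg_mem
    by_cases hqq : q' = ⟨q, hq⟩
    · subst hqq
      rw [AddMonoidHom.single_apply, Pi.single_eq_same]
      exact hw'
    · rw [AddMonoidHom.single_apply, Pi.single_eq_of_ne hqq]
      exact (L q'.1).zero_mem
  -- hence `f = 0`
  apply hfv₀
  rw [hfsum]
  refine Finset.sum_eq_zero fun q _ => ?_
  rw [← hzT q, ← hzT' q, hz q.1 q.2, map_zero, AddMonoidHom.zero_apply, map_zero]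

end Chase

end Fermat.Agent.W56.PTChase2
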