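/-
Programme W56 (S56), chapter (E1) "PT-mid", helper2.

`PTGeneric2`: **(PT-mid-onto), generic form** (generic ring `k`, in the vocabulary of
`PT/PRO/MainGeneric20`, `HK20`, `StarBlock25`).

Data: a resolved module `P → A` over `(G, 𝒰)` (`p A = 0`, `P₀, P₁` finite projective), an exact
sequence `0 → E → I → C → 0` of discrete `G`-modules (`= E_S → I_S → C_S`), `I = ∏ I_q` (only
`prj q ∘ inc q' = δ` is used), local groups `r q : G_q → G` with coefficient modules `W q`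
(`= ℚ̄_qˣ`) and `ev q : I_q → W q` over `r q`.

Inputs: the invariant `τ` on `H²_lev(C)[p]` and the LEFT kernel of the global `pair11` for
`K(P; C)`; (S1), (S2), (LG), the local RIGHT kernels (RK); `H²_lev(G_q; W q)[p]` of rank `≤ 1`;
finiteness of the local `H¹_lev(G_q; A)` for `q ∈ T`.

Output: if every `e ∈ ℍ¹(K(P; E))` whose localisations `loc q e ∈ ℍ¹(G_q; K(P; W q))` vanish for
`q ∉ T` and are orthogonal to `L q` for `q ∈ T` has `loc q e = 0` for `q ∈ T`, then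
`H¹_lev(G; A) → ∏_{q ∈ T} H¹_lev(G_q; A) / L q` is onto.
-/
import Mathlib
import Fermat.Agent.PT.PRO.MainGeneric20
import Fermat.Agent.PT.PRO.StarBlock25
import Fermat.Agent.W56.PTChase2
import Fermat.Agent.W56.Funct2

set_option autoImplicit false

namespace Fermat.Agent.W56.PTGeneric2

open Function
open Fermat.Agent.PT.PRO.HyperLevel25 Fermat.Agent.PT.PRO.Resolved4
open Fermat.Agent.PT.PRO.ExtPairing4 Fermat.Agent.PT.PRO.ExtPairingB4
open Fermat.Agent.PT.PRO.HyperRes25 Fermat.Agent.PT.PRO.PairingRes1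
open Fermat.Agent.PT.PRO.InvP4 Fermat.Agent.PT.PRO.PairP4
open Fermat.Agent.PT.PRO.HK20 Fermat.Agent.PT.PRO.StarBlock25
open Fermat.Agent.W56.Funct2

variable {k G : Type*} [CommRing k] [Group G] {𝒰 : Set (Subgroup G)}
variable {P1 P0 A : Type*} [AddCommGroup P1] [Module k P1] [AddCommGroup P0] [Module k P0]
  [AddCommGroup A] [Module k A]
variable {ι : Type*} {Gq : ι → Type*} [∀ q, Group (Gq q)] {𝒰q : ∀ q, Set (Subgroup (Gq q))}
variable {E I C : Type*} [AddCommGroup E] [Module k E] [AddCommGroup I] [Module k I]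
  [AddCommGroup C] [Module k C]
variable {Iq W : ι → Type*} [∀ q, AddCommGroup (Iq q)] [∀ q, Module k (Iq q)]
  [∀ q, AddCommGroup (W q)] [∀ q, Module k (W q)]

variable (P : Resolved k 𝒰 P1 P0 A) [Module.Finite k P0] [Module.Finite k P1]
  (h𝒰 : IsLevelBasis 𝒰) (h𝒰q : ∀ q, IsLevelBasis (𝒰q q))
  (r : ∀ q, Gq q →* G) (hr : ∀ q, IsLevelHom (r q) (𝒰q q) 𝒰)
  {ρE : Representation k G E} (hE : IsDiscrete 𝒰 ρE)
  {ρI : Representation k G I} (hI : IsDiscrete 𝒰 ρI)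
  {ρC : Representation k G C} (hC : IsDiscrete 𝒰 ρC)
  {ρIq : ∀ q, Representation k G (Iq q)} (hIq : ∀ q, IsDiscrete 𝒰 (ρIq q))
  {ρW : ∀ q, Representation k (Gq q) (W q)} (hW : ∀ q, IsDiscrete (𝒰q q) (ρW q))
  (d : E →ₗ[k] I) (hd : ∀ g x, d (ρE g x) = ρI g (d x))
  (t : I →ₗ[k] C) (ht : ∀ g x, t (ρI g x) = ρC g (t x))
  (inc : ∀ q, Iq q →ₗ[k] I) (hinc : ∀ q g x, inc q (ρIq q g x) = ρI g (inc q x))
  (prj : ∀ q, I →ₗ[k] Iq q) (hprj : ∀ q g x, prj q (ρI g x) = ρIq q g (prj q x))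
  (ev : ∀ q, Iq q →ₗ[k] W q) (hev : ∀ q g x, ev q (ρIq q (r q g) x) = ρW q g (ev q x))

/-- The localisation `ℍ¹(G; K(P; E)) → ℍ¹(G_q; K(P; W q))`:
`(Shapiro ∘ inflation) ∘ (prj q)_* ∘ d_*`. -/
noncomputable def loc (q : ι) :
    (P.K h𝒰 ρE hE).ℍ1 h𝒰 →ₗ[k]
      ((comapResolved (r q) (hr q) P).K (h𝒰q q) (ρW q) (hW q)).ℍ1 (h𝒰q q) :=
  ((KPHom (hr q) h𝒰 (h𝒰q q) (hIq q) (hW q) P (ev q) (hev q)).ppℍ1 (hr q) h𝒰 (h𝒰q q)) ∘ₗ
    ((coefHom P h𝒰 hI (hIq q) (prj q) (hprj q)).mapℍ1 h𝒰) ∘ₗ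
      ((coefHom P h𝒰 hE hI d hd).mapℍ1 h𝒰)

/-- The restriction `H¹_lev(G; A) → H¹_lev(G_q; A)`. -/
noncomputable def res (q : ι) :
    Hlev1 h𝒰 P.ρM P.discM →ₗ[k]
      Hlev1 (h𝒰q q) (comapResolved (r q) (hr q) P).ρM (comapResolved (r q) (hr q) P).discM :=
  resH1 (hr q) h𝒰 (h𝒰q q) P.discM (comapResolved (r q) (hr q) P).discM LinearMap.id
    (fun _ _ => rfl)

/-- **(PT-mid-onto), generic form.** -/
theorem ptMid_onto_generic [Finite ι] [Module.Projective k P0] [Module.Projective k P1]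
    (p : ℕ) [Fact p.Prime] (hpA : ∀ m : A, p • m = 0)
    (hdinj : Injective d) (htsurj : Surjective t) (hex : Function.Exact d t)
    (hpi : ∀ q x, prj q (inc q x) = x) (hpi' : ∀ q q', q ≠ q' → ∀ x, prj q (inc q' x) = 0)
    -- the invariant on `H²_lev(C)[p]`
    (τ : pTor p (Hlev2 h𝒰 ρC hC) →+ ZMod p) (hτ : Injective τ)
    -- global duality: LEFT kernel of `pair11` for `K(P; C)`
    (hL : ∀ ξ : (P.K h𝒰 ρC hC).ℍ1 h𝒰,
      (∀ x, pair11 (evalPairing P h𝒰 ρC hC) h𝒰 hC ξ x = 0) → ξ = 0)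
    -- (S1), (S2), (LG), (RK): as in `HK20`
    (hS1 : ∀ q, Surjective ((KPHom (hr q) h𝒰 (h𝒰q q) (hIq q) (hW q) P (ev q) (hev q)).ppℍ1
      (hr q) h𝒰 (h𝒰q q)))
    (hS2 : ∀ q, Injective (resH2 (hr q) h𝒰 (h𝒰q q) (hIq q) (hW q) (ev q) (hev q)))
    (hLG : ∀ q (w : Hlev2 h𝒰 (ρIq q) (hIq q)), p • w = 0 →
      (lvlHom h𝒰 hI hC t ht).mapH2 ((lvlHom h𝒰 (hIq q) hI (inc q) (hinc q)).mapH2 w) = 0 → w = 0)
    (hRK : ∀ q (x : Hlev1 (h𝒰q q) (comapResolved (r q) (hr q) P).ρM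
        (comapResolved (r q) (hr q) P).discM),
      (∀ z, pair11 (evalPairing (comapResolved (r q) (hr q) P) (h𝒰q q) (ρW q) (hW q)) (h𝒰q q)
        (hW q) z x = 0) → x = 0)
    -- the local `H²[p]` have rank `≤ 1`
    (hrank : ∀ q, RankLeOne p (Hlev2 (h𝒰q q) (ρW q) (hW q)))
    -- the local conditions
    (T : ι → Prop)
    (hfin : ∀ q, T q → Finite (Hlev1 (h𝒰q q) (comapResolved (r q) (hr q) P).ρM
      (comapResolved (r q) (hr q) P).discM))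
    (L : ∀ q, AddSubgroup (Hlev1 (h𝒰q q) (comapResolved (r q) (hr q) P).ρM
      (comapResolved (r q) (hr q) P).discM))
    -- the dual Selmer group vanishes
    (hdual : ∀ e : (P.K h𝒰 ρE hE).ℍ1 h𝒰,
      (∀ q, ¬ T q → loc P h𝒰 h𝒰q r hr hE hI hIq hW d hd prj hprj ev hev q e = 0) →
      (∀ q, T q → ∀ w ∈ L q,
        pair11 (evalPairing (comapResolved (r q) (hr q) P) (h𝒰q q) (ρW q) (hW q)) (h𝒰q q) (hW q)
          (loc P h𝒰 h𝒰q r hr hE hI hIq hW d hd prj hprj ev hev q e) w = 0) →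
      ∀ q, T q → loc P h𝒰 h𝒰q r hr hE hI hIq hW d hd prj hprj ev hev q e = 0)
    (w : ∀ q, Hlev1 (h𝒰q q) (comapResolved (r q) (hr q) P).ρM
      (comapResolved (r q) (hr q) P).discM) :
    ∃ x : Hlev1 h𝒰 P.ρM P.discM, ∀ q, T q → res P h𝒰 h𝒰q r hr q x - w q ∈ L q := by
  classical
  -- the maps on `p`-torsion of `H²`
  let inclB : ∀ q, pTor p (Hlev2 h𝒰 (ρIq q) (hIq q)) →+ pTor p (Hlev2 h𝒰 ρI hI) := fun q =>
    pTorMap p ((lvlHom h𝒰 (hIq q) hI (inc q) (hinc q)).mapH2).toAddMonoidHom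
  let sh2 : ∀ q, pTor p (Hlev2 h𝒰 (ρIq q) (hIq q)) →+ pTor p (Hlev2 (h𝒰q q) (ρW q) (hW q)) :=
    fun q => pTorMap p (resH2 (hr q) h𝒰 (h𝒰q q) (hIq q) (hW q) (ev q) (hev q)).toAddMonoidHom
  let τB : pTor p (Hlev2 h𝒰 ρI hI) →+ pTor p (Hlev2 h𝒰 ρC hC) :=
    pTorMap p ((lvlHom h𝒰 hI hC t ht).mapH2).toAddMonoidHom
  have hsh2 : ∀ q, Injective (sh2 q) := fun q =>
    pTorMap_injective p _ (fun x _ hx => hS2 q (hx.trans (map_zero _).symm))
  -- the local invariants, compatible with `τ`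
  have hlam : ∀ q, ∃ lam : pTor p (Hlev2 (h𝒰q q) (ρW q) (hW q)) →+ ZMod p, Injective lam ∧
      ∀ b, lam (sh2 q b) = τ (τB (inclB q b)) := by
    intro q
    have hφ : Injective ((τ.comp τB).comp (inclB q)) := by
      rw [injective_iff_map_eq_zero]
      intro b hb
      have h1 : τB (inclB q b) = 0 := hτ (hb.trans (map_zero τ).symm)
      apply Subtype.ext
      exact hLG q (b : Hlev2 h𝒰 (ρIq q) (hIq q)) b.2 (congrArg Subtype.val h1)
    exact PTChase2.exists_compatible_inv (nsmul_pTor p) (rank_of_rankLeOne (hrank q)) (sh2 q)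
      (hsh2 q) _ hφ
  choose lam hlaminj hlamcompat using hlam
  -- the short exact sequence of complexes
  have hse := coefHom_shortExact P h𝒰 hE hI hC d hd t ht hdinj htsurj hex
  -- the pairings
  refine PTChase2.onto_of_dual T
    (res := fun q => (res P h𝒰 h𝒰q r hr q).toAddMonoidHom)
    (d := ((coefHom P h𝒰 hE hI d hd).mapℍ1 h𝒰).toAddMonoidHom)
    (t := ((coefHom P h𝒰 hI hC t ht).mapℍ1 h𝒰).toAddMonoidHom)
    (fun y hy => ((Cx.Hom.exact_mapℍ1_mapℍ1 hse h𝒰) y).1 hy)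
    (incl := fun q => ((coefHom P h𝒰 (hIq q) hI (inc q) (hinc q)).mapℍ1 h𝒰).toAddMonoidHom)
    (proj := fun q => ((coefHom P h𝒰 hI (hIq q) (prj q) (hprj q)).mapℍ1 h𝒰).toAddMonoidHom)
    (fun q y => mapℍ1_mapℍ1_eq_self _ _ h𝒰
      (fun a => LinearMap.ext fun x => hpi q (a x)) (fun a => LinearMap.ext fun x => hpi q (a x)) y)
    (fun q q' hqq' y => mapℍ1_mapℍ1_eq_zero _ _ h𝒰
      (fun a => LinearMap.ext fun x => hpi' q q' hqq' (a x))
      (fun a => LinearMap.ext fun x => hpi' q q' hqq' (a x)) y)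
    (sh1 := fun q => ((KPHom (hr q) h𝒰 (h𝒰q q) (hIq q) (hW q) P (ev q) (hev q)).ppℍ1
      (hr q) h𝒰 (h𝒰q q)).toAddMonoidHom)
    hS1 inclB sh2 τB τ hτ lam hlaminj hlamcompat
    (pC := pair11P (evalPairing P h𝒰 ρC hC) h𝒰 hC hpA)
    (pI := pair11P (evalPairing P h𝒰 ρI hI) h𝒰 hI hpA)
    (pIq := fun q => pair11P (evalPairing P h𝒰 (ρIq q) (hIq q)) h𝒰 (hIq q) hpA)
    (pq := fun q => pair11P (evalPairing (comapResolved (r q) (hr q) P) (h𝒰q q) (ρW q) (hW q))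
      (h𝒰q q) (hW q) hpA)
    ?_ ?_ ?_ ?_ ?_ ?_ hfin L ?_ w
  · -- hpC
    intro y h
    apply Subtype.ext
    exact pair11_coefHom P h𝒰 hI hC t ht y h
  · -- hincl
    intro q y h
    apply Subtype.ext
    exact pair11_coefHom P h𝒰 (hIq q) hI (inc q) (hinc q) y h
  · -- hN2
    intro q y h
    apply Subtype.ext
    exact (pair11_res_eval (hr q) h𝒰 (h𝒰q q) (hIq q) (hW q) P (ev q) (hev q) y h).symm
  · -- hLK
    intro ξ hξ
    exact hL ξ fun x => (pair11P_eq_zero_iff _ h𝒰 hC hpA ξ x).1 (hξ x)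
  · -- hRK
    intro q x hx
    exact hRK q x fun z => (pair11P_eq_zero_iff _ (h𝒰q q) (hW q) hpA z x).1 (hx z)
  · -- hp
    intro q x
    exact Fermat.Agent.PT.PRO.DualityAdapter29.nsmul_Hlev1_eq_zero (h𝒰q q) _ _ p hpA x
  · -- hdual
    intro e h1 h2
    exact hdual e h1 (fun q hq w hw =>
      (pair11P_eq_zero_iff _ (h𝒰q q) (hW q) hpA _ w).1 (h2 q hq w hw))

end Fermat.Agent.W56.PTGeneric2
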