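/-
Programme W56 (S56), chapter (E1) "PT-mid", helper2.

`PTMu2`: **(PT-mid-onto) in `H¹(·, M)`-form** (`k`-generic, `hk : IntSurj k`, in the vocabulary of
`PRO/StarS55_7.starAt_of_muData`, `MainWrap20`).

`M` a finite-dimensional `𝔽_p`-representation of `G` (the DUAL-Selmer side), `A = M' =
Module.Dual (ZMod p) M` with the `χ`-twisted action (the SELMER side), `R` a resolution of `A`.
The dual Selmer group is expressed through plain level cohomology `Hp1 (intRep hk ρM)` and the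
local pairings

  `locPair q : H¹(G_q; M) × H¹(G_q; A) → H²(G_q; W q)`,  `(y, w) ↦ pair11 (compare1 y) w`

(`KerIso7.compare1 : H¹(G_q; M) ≅ ℍ¹(G_q; K(P; W q))`).
-/
import Mathlib
import Fermat.Agent.PT.PRO.StarS55_7
import Fermat.Agent.W56.PTGeneric2

set_option autoImplicit false
set_option linter.unusedSectionVars false

namespace Fermat.Agent.W56.PTMu2

open Function
open Fermat.Agent.PT.PRO.HyperLevel25 Fermat.Agent.PT.PRO.HyperCompare25
open Fermat.Agent.PT.PRO.HyperRes25 Fermat.Agent.PT.PRO.IndRes20 Fermat.Agent.PT.PRO.Resolved4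
open Fermat.Agent.PT.PRO.Setup20 Fermat.Agent.PT.PRO.Objects20 Fermat.Agent.PT.PRO.KerIso7
open Fermat.Agent.PT.PRO.PairingRes1 Fermat.Agent.PT.PRO.ExtPairing4
open Fermat.Agent.PT.PRO.ExtPairingB4 Fermat.Agent.PT.PRO.InvP4
open Fermat.Agent.PT.PRO

section LocPair

variable {k : Type} [CommRing k] (hk : IntSurj k)
variable {p : ℕ} [Fact p.Prime] {G G' : Type} [Group G] [Group G']
variable {𝒰 : Set (Subgroup G)} {𝒰' : Set (Subgroup G')}
variable {M : Type} [AddCommGroup M] [Module (ZMod p) M] [Module k M]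
  [FiniteDimensional (ZMod p) M] [Module k (Module.Dual (ZMod p) M)]
variable {P0 P1 : Type} [AddCommGroup P0] [Module k P0] [AddCommGroup P1] [Module k P1]
  [Module.Finite k P0] [Module.Finite k P1]
variable {W : Type} [AddCommGroup W] [Module k W]

variable (R : Res k G P1 P0 (Module.Dual (ZMod p) M)) (h0 : IsDiscrete 𝒰 R.ρ0)
  (h𝒰' : IsLevelBasis 𝒰')
  (ρM : Representation (ZMod p) G M) (hM : IsDiscrete 𝒰 ρM) (χ : G →* (ZMod p)ˣ)
  (hA : ∀ g a, R.ρM g a = (χ g : ZMod p) • (a ∘ₗ ρM g⁻¹))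
  (f : G' →* G) (hf : IsLevelHom f 𝒰' 𝒰)
  {ρW : Representation k G' W} (hW : IsDiscrete 𝒰' ρW) (D' : MuData (χ.comp f) ρW)

/-- The local pairing `H¹(G'; M) × H¹(G'; M') → H²(G'; W)`, `(y, w) ↦ ⟨Φ¹ y, w⟩₁₁`. -/
noncomputable def locPair :
    Hp1 h𝒰' (intRep hk (ρM.comp f)) (isDiscrete_intRep hk (IsLevelHom.isDiscrete hf hM)) →ₗ[k]
      Hlev1 h𝒰' (toResolved (R.comap f) (comap_disc0 R h0 f hf)).ρM
        (toResolved (R.comap f) (comap_disc0 R h0 f hf)).discM →ₗ[k] Hlev2 h𝒰' ρW hW :=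
  (pair11 (evP (R.comap f) (comap_disc0 R h0 f hf) h𝒰' ρW hW) h𝒰' hW) ∘ₗ
    (compare1 hk h𝒰' (toResolved (R.comap f) (comap_disc0 R h0 f hf)) (ρM.comp f)
      (IsLevelHom.isDiscrete hf hM) (χ.comp f) (KerIsoMain7.hA_comap R ρM χ hA f) hW D')

end LocPair

section Generic

variable {k : Type} [CommRing k] (hk : IntSurj k)
variable {p : ℕ} [Fact p.Prime] {G : Type} [Group G] {𝒰 : Set (Subgroup G)}
variable {M : Type} [AddCommGroup M] [Module (ZMod p) M] [Module k M]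
  [FiniteDimensional (ZMod p) M] [Module k (Module.Dual (ZMod p) M)]
variable {P0 P1 : Type} [AddCommGroup P0] [Module k P0] [AddCommGroup P1] [Module k P1]
  [Module.Finite k P0] [Module.Finite k P1] [Module.Projective k P0] [Module.Projective k P1]
variable {E I C : Type} [AddCommGroup E] [Module k E] [AddCommGroup I] [Module k I]
  [AddCommGroup C] [Module k C]
variable {Q : Type} [Finite Q] {Gq : Q → Type} [∀ q, Group (Gq q)] {𝒰q : ∀ q, Set (Subgroup (Gq q))}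
variable {Iq W : Q → Type} [∀ q, AddCommGroup (Iq q)] [∀ q, Module k (Iq q)]
  [∀ q, AddCommGroup (W q)] [∀ q, Module k (W q)]

variable (R : Res k G P1 P0 (Module.Dual (ZMod p) M)) (h0 : IsDiscrete 𝒰 R.ρ0)
  (h𝒰 : IsLevelBasis 𝒰) (h𝒰q : ∀ q, IsLevelBasis (𝒰q q))
  (r : ∀ q, Gq q →* G) (hr : ∀ q, IsLevelHom (r q) (𝒰q q) 𝒰)
  (ρM : Representation (ZMod p) G M) (hM : IsDiscrete 𝒰 ρM) (χ : G →* (ZMod p)ˣ)
  (hA : ∀ g a, R.ρM g a = (χ g : ZMod p) • (a ∘ₗ ρM g⁻¹))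
  {ρE : Representation k G E} (hE : IsDiscrete 𝒰 ρE)
  {ρI : Representation k G I} (hI : IsDiscrete 𝒰 ρI)
  {ρC : Representation k G C} (hC : IsDiscrete 𝒰 ρC)
  {ρIq : ∀ q, Representation k G (Iq q)} (hIq : ∀ q, IsDiscrete 𝒰 (ρIq q))
  {ρW : ∀ q, Representation k (Gq q) (W q)} (hW : ∀ q, IsDiscrete (𝒰q q) (ρW q))
  (d : E →ₗ[k] I) (hd : ∀ g x, d (ρE g x) = ρI g (d x))
  (t : I →ₗ[k] C) (ht : ∀ g x, t (ρI g x) = ρC g (t x))
  (hdinj : Injective d) (htsurj : Surjective t) (hex : Function.Exact d t)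
  (inc : ∀ q, Iq q →ₗ[k] I) (hinc : ∀ q g x, inc q (ρIq q g x) = ρI g (inc q x))
  (prj : ∀ q, I →ₗ[k] Iq q) (hprj : ∀ q g x, prj q (ρI g x) = ρIq q g (prj q x))
  (hpi : ∀ q x, prj q (inc q x) = x) (hpi' : ∀ q q', q ≠ q' → ∀ x, prj q (inc q' x) = 0)
  (ev : ∀ q, Iq q →ₗ[k] W q) (hev : ∀ q g x, ev q (ρIq q (r q g) x) = ρW q g (ev q x))
  (D : MuData χ ρE) (D' : ∀ q, MuData (χ.comp (r q)) (ρW q))
  (hDD' : ∀ q a, ev q (prj q (d (D.j a))) = (D' q).j a)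
  (hdivE : ∀ x : E, ∃ y : E, (p : k) • y = x)
  (hdivW : ∀ q (x : W q), ∃ y : W q, (p : k) • y = x)

/-- The restriction `H¹(G; M) → H¹(G_q; M)` on plain level cohomology. -/
noncomputable def resM (q : Q) :
    Hp1 h𝒰 (intRep hk ρM) (isDiscrete_intRep hk hM) →ₗ[k]
      Hp1 (h𝒰q q) (intRep hk (ρM.comp (r q)))
        (isDiscrete_intRep hk (IsLevelHom.isDiscrete (hr q) hM)) :=
  (KerIsoMain7.resPlain hk h𝒰 (h𝒰q q) ρM hM (r q) (hr q)).mapH1

/-- The restriction `H¹(G; A) → H¹(G_q; A)` on level cohomology (`A = M'`). -/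
noncomputable def resA (q : Q) :
    Hlev1 h𝒰 (toResolved R h0).ρM (toResolved R h0).discM →ₗ[k]
      Hlev1 (h𝒰q q) (toResolved (R.comap (r q)) (comap_disc0 R h0 (r q) (hr q))).ρM
        (toResolved (R.comap (r q)) (comap_disc0 R h0 (r q) (hr q))).discM :=
  resH1 (hr q) h𝒰 (h𝒰q q) (toResolved R h0).discM
    (toResolved (R.comap (r q)) (comap_disc0 R h0 (r q) (hr q))).discM LinearMap.id
    (fun _ _ => rfl)

include hA hE hd hprj hdinj htsurj hex hpi hpi' hDD' hdivE hdivW in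
/-- **(PT-mid-onto), `H¹(·, M)`-form** (`k`-generic). -/
theorem ptMid_onto_of_muData
    (hpA : ∀ a : Module.Dual (ZMod p) M, p • a = 0)
    (hpkg : Fermat.Agent.PT.PRO.InvFund18.AlphaPackage R h0 h𝒰 ρC hC p hpA)
    (hS1 : ∀ q, Fermat.Agent.PT.PRO.MainWrap20.S1At R h0 h𝒰 (h𝒰q q) (r q) (hr q) (hIq q) (hW q)
      (ev q) (hev q))
    (hS2 : ∀ q, Injective (resH2 (hr q) h𝒰 (h𝒰q q) (hIq q) (hW q) (ev q) (hev q)))
    (hLG : ∀ q (w : Hlev2 h𝒰 (ρIq q) (hIq q)), p • w = 0 →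
      (lvlHom h𝒰 hI hC t ht).mapH2 ((lvlHom h𝒰 (hIq q) hI (inc q) (hinc q)).mapH2 w) = 0 → w = 0)
    (hRK : ∀ q, Fermat.Agent.PT.PRO.MainWrap20.RKAt (R.comap (r q))
      (comap_disc0 R h0 (r q) (hr q)) (h𝒰q q) (ρW q) (hW q))
    (hrank : ∀ q, RankLeOne p (Hlev2 (h𝒰q q) (ρW q) (hW q)))
    (T : Q → Prop)
    (hfin : ∀ q, T q → Finite (Hlev1 (h𝒰q q)
      (toResolved (R.comap (r q)) (comap_disc0 R h0 (r q) (hr q))).ρM
      (toResolved (R.comap (r q)) (comap_disc0 R h0 (r q) (hr q))).discM))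
    (L : ∀ q, AddSubgroup (Hlev1 (h𝒰q q)
      (toResolved (R.comap (r q)) (comap_disc0 R h0 (r q) (hr q))).ρM
      (toResolved (R.comap (r q)) (comap_disc0 R h0 (r q) (hr q))).discM))
    (hdual : ∀ y : Hp1 h𝒰 (intRep hk ρM) (isDiscrete_intRep hk hM),
      (∀ q, ¬ T q → resM hk h𝒰 h𝒰q r hr ρM hM q y = 0) →
      (∀ q, T q → ∀ w ∈ L q,
        locPair hk R h0 (h𝒰q q) ρM hM χ hA (r q) (hr q) (hW q) (D' q)
          (resM hk h𝒰 h𝒰q r hr ρM hM q y) w = 0) →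
      ∀ q, T q → resM hk h𝒰 h𝒰q r hr ρM hM q y = 0)
    (w : ∀ q, Hlev1 (h𝒰q q)
      (toResolved (R.comap (r q)) (comap_disc0 R h0 (r q) (hr q))).ρM
      (toResolved (R.comap (r q)) (comap_disc0 R h0 (r q) (hr q))).discM) :
    ∃ x : Hlev1 h𝒰 (toResolved R h0).ρM (toResolved R h0).discM,
      ∀ q, T q → resA R h0 h𝒰 h𝒰q r hr q x - w q ∈ L q := by
  obtain ⟨τ, hτ, -, -, -⟩ := id hpkg
  -- the key square: `loc q ∘ Φ¹ = Φ¹_q ∘ res_q`
  have hsq : ∀ q (y : Hp1 h𝒰 (intRep hk ρM) (isDiscrete_intRep hk hM)),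
      PTGeneric2.loc (toResolved R h0) h𝒰 h𝒰q r hr hE hI hIq hW d hd prj hprj ev hev q
          (compare1 hk h𝒰 (toResolved R h0) ρM hM χ hA hE D y) =
        compare1 hk (h𝒰q q) (toResolved (R.comap (r q)) (comap_disc0 R h0 (r q) (hr q)))
          (ρM.comp (r q)) (IsLevelHom.isDiscrete (hr q) hM) (χ.comp (r q))
          (KerIsoMain7.hA_comap R ρM χ hA (r q)) (hW q) (D' q)
          (resM hk h𝒰 h𝒰q r hr ρM hM q y) := by
    intro q y
    have h1 := KerIsoMain7.compare1_natural hk R h0 h𝒰 (h𝒰q q) ρM hM χ hA hE D (r q) (hr q)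
      (hW q) (D' q) ((ev q) ∘ₗ (prj q) ∘ₗ d)
      (fun g x => by
        simp only [LinearMap.comp_apply]
        rw [hd, hprj, hev])
      (fun a => hDD' q a) y
    refine Eq.trans ?_ h1.symm
    obtain ⟨z, rfl⟩ := (plainCpx h𝒰 (intRep hk ρM) (isDiscrete_intRep hk hM)).π1_surjective y
    rfl
  have hbij := compare1_bijective hk h𝒰 (toResolved R h0) ρM hM χ hA hE D hdivE
  have hbijq := fun q => compare1_bijective hk (h𝒰q q)
    (toResolved (R.comap (r q)) (comap_disc0 R h0 (r q) (hr q))) (ρM.comp (r q))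
    (IsLevelHom.isDiscrete (hr q) hM) (χ.comp (r q)) (KerIsoMain7.hA_comap R ρM χ hA (r q))
    (hW q) (D' q) (hdivW q)
  refine PTGeneric2.ptMid_onto_generic (toResolved R h0) h𝒰 h𝒰q r hr hE hI hC hIq hW d hd t ht
    inc hinc prj hprj ev hev p hpA hdinj htsurj hex hpi hpi' τ hτ
    (Fermat.Agent.PT.PRO.MainWrap20.lkAt_of_alphaPackage hpkg) hS1 hS2 hLG hRK hrank T hfin L
    ?_ w
  intro e h1 h2
  obtain ⟨y, rfl⟩ := hbij.2 e
  have key : ∀ q, T q → resM hk h𝒰 h𝒰q r hr ρM hM q y = 0 := by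
    refine hdual y (fun q hq => ?_) (fun q hq w hw => ?_)
    · apply (hbijq q).1
      rw [map_zero, ← hsq q y]
      exact h1 q hq
    · have := h2 q hq w hw
      rw [hsq q y] at this
      exact this
  intro q hq
  rw [hsq q y, key q hq]
  exact map_zero _

end Generic

end Fermat.Agent.W56.PTMu2
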