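/-
Programme W56 (S56), chapter (E1) "PT-mid", helper2.

`PTMid2`: **(PT-mid-onto) at the S55 objects** (`k = ℤ`, `G = Γ = Gal(ℚ̄/ℚ)`, `𝒰 = levelS S`,
`Q = ↥S`, `G_q = Γ_q`, `E/I/C = ES/IS/CS S`, `W_q = unitsLoc q`), mirror of `PRO/MainFinal4.main`.

`M` = the DUAL-Selmer-side module, `A = M.dualTwist (cycloChar p)` = the SELMER-side module.
If every class `y ∈ H¹(G_S; M)` with `res_q y = 0` for `q ∉ T` and `⟨res_q y, L q⟩_q = 0` for
`q ∈ T` has `res_q y = 0` for `q ∈ T`, then `H¹(G_S; A) → ∏_{q ∈ T} H¹(Γ_q; A) / L q` is onto.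
-/
import Fermat.Agent.PT.PRO.MainFinal4
import Fermat.Agent.PT.GLUE.LocalRK11
import Fermat.Agent.PT.GLUE.LocHyperFinal13
import Fermat.Agent.PT.GLOB.LocalInjMain14
import Fermat.Agent.W56.PTMu2

set_option autoImplicit false
open CategoryTheory Module groupCohomology ExtCitation
open Fermat.Agent.PT Fermat.Agent.PT.PRO Fermat.Agent.PT.GLUE Fermat.Agent.PT.GLUE.Objects21
open Fermat.Agent.PT.PRO.HyperLevel25 Fermat.Agent.PT.PRO.Resolved4
open Fermat.Agent.PT.PRO.HyperRes25 Fermat.Agent.PT.PRO.PairingRes1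
open Fermat.Agent.PT.PRO.IntRep20 Fermat.Agent.PT.PRO.LevelEquiv29
open Fermat.Agent.PT.PRO.ProdDict10 Fermat.Agent.PT.GLUE.LocS2_29
open Fermat.Agent.PT.GLUE.LevelTheta21
open Fermat.Agent.PT.PRO.IndRes20 Fermat.Agent.PT.PRO.Setup20 Fermat.Agent.PT.PRO.Objects20
open Fermat.Agent.PT.PRO.InvP4 Fermat.Agent.PT.PRO.KerIso7 Fermat.Agent.PT.PRO.KerIsoGal7

namespace Fermat.Agent.W56.PTMid2

local notation "Γ" => (AlgebraicClosure ℚ ≃ₐ[ℚ] AlgebraicClosure ℚ)

/-- `H²(Γ_q; ℚ̄_qˣ)[p]` has rank `≤ 1` (local fundamental classes at the finite levels). -/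
theorem rankLeOne_local (q : ℕ) [Fact q.Prime] (p : ℕ) [Fact p.Prime] :
    RankLeOne p (Hlev2 (basis (levelLoc q)) (unitsLoc q).ρ (isDiscrete_unitsLoc q)) :=
  rankLeOne_Hlev2 (basis (levelLoc q)) (unitsLoc q).ρ (isDiscrete_unitsLoc q) p
    (InvFund18.normalLevels_sub _) (InvFund18.normalLevels_normal _)
    (InvFund18.normalLevels_cofinal (basis (levelLoc q)))
    (fun V hV => by
      have := hV.2
      have := LocalSide11.finite_quotient_of_mem_levelLoc q hV.1
      obtain ⟨u, hu⟩ := LocalSide11.exists_isFundClass_of_mem_levelLoc q hV.1 p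
      exact InvFund18.finRankLeOneAt_of_isFundClass (unitsLoc q).ρ V u hu)

variable {p : ℕ} [Fact p.Prime]

section Main

variable (S : Finset Nat.Primes) (M : Rep.{0} (ZMod p) Γ) [FiniteDimensional (ZMod p) M]

/-- The free resolution of the Selmer-side module `A = M.dualTwist (cycloChar p)`. -/
noncomputable abbrev RA := HpAt29.freeRes (IntRep20.intRep (M.dualTwist (cycloChar p)))

end Main

/-- **(PT-mid-onto) at the S55 objects.** -/
theorem ptMid_onto_dual (hp2 : p ≠ 2) (S : Finset Nat.Primes) (hpS : pPrime p ∈ S)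
    (M : Rep.{0} (ZMod p) Γ) [FiniteDimensional (ZMod p) M] [Finite (M.dualTwist (cycloChar p))]
    (h0 : IsDiscrete (levelS S).sets (RA M).ρ0)
    (hM : IsDiscrete (levelS S).sets (IntRep20.intRep M))
    (T : ↥S → Prop)
    (hfin : ∀ q : ↥S, T q → Finite (Hlev1 (basis (levelLoc ((q : Nat.Primes) : ℕ)))
      (toResolved ((RA M).comap (localGaloisToGlobal ((q : Nat.Primes) : ℕ)))
        (comap_disc0 (RA M) h0 _ (isLevelHom_loc S ((q : Nat.Primes) : ℕ)))).ρM
      (toResolved ((RA M).comap (localGaloisToGlobal ((q : Nat.Primes) : ℕ)))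
        (comap_disc0 (RA M) h0 _ (isLevelHom_loc S ((q : Nat.Primes) : ℕ)))).discM))
    (L : ∀ q : ↥S, AddSubgroup (Hlev1 (basis (levelLoc ((q : Nat.Primes) : ℕ)))
      (toResolved ((RA M).comap (localGaloisToGlobal ((q : Nat.Primes) : ℕ)))
        (comap_disc0 (RA M) h0 _ (isLevelHom_loc S ((q : Nat.Primes) : ℕ)))).ρM
      (toResolved ((RA M).comap (localGaloisToGlobal ((q : Nat.Primes) : ℕ)))
        (comap_disc0 (RA M) h0 _ (isLevelHom_loc S ((q : Nat.Primes) : ℕ)))).discM))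
    (hdual : ∀ y : HyperCompare25.Hp1 (basis (levelS S)) (KerIso7.intRep intSurj_int M.ρ)
        (isDiscrete_intRep intSurj_int hM),
      (∀ q : ↥S, ¬ T q → PTMu2.resM intSurj_int (basis (levelS S))
        (fun q : ↥S => basis (levelLoc ((q : Nat.Primes) : ℕ)))
        (fun q : ↥S => localGaloisToGlobal ((q : Nat.Primes) : ℕ))
        (fun q : ↥S => isLevelHom_loc S ((q : Nat.Primes) : ℕ)) M.ρ hM q y = 0) →
      (∀ q : ↥S, T q → ∀ w ∈ L q,
        PTMu2.locPair intSurj_int (RA M) h0 (basis (levelLoc ((q : Nat.Primes) : ℕ))) M.ρ hM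
          (cycloChar p) (KerIsoMain7.hA_freeRes M (cycloChar p))
          (localGaloisToGlobal ((q : Nat.Primes) : ℕ)) (isLevelHom_loc S ((q : Nat.Primes) : ℕ))
          (isDiscrete_unitsLoc ((q : Nat.Primes) : ℕ)) (muLoc p ((q : Nat.Primes) : ℕ))
          (PTMu2.resM intSurj_int (basis (levelS S))
            (fun q : ↥S => basis (levelLoc ((q : Nat.Primes) : ℕ)))
            (fun q : ↥S => localGaloisToGlobal ((q : Nat.Primes) : ℕ))
            (fun q : ↥S => isLevelHom_loc S ((q : Nat.Primes) : ℕ)) M.ρ hM q y) w = 0) →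
      ∀ q : ↥S, T q → PTMu2.resM intSurj_int (basis (levelS S))
        (fun q : ↥S => basis (levelLoc ((q : Nat.Primes) : ℕ)))
        (fun q : ↥S => localGaloisToGlobal ((q : Nat.Primes) : ℕ))
        (fun q : ↥S => isLevelHom_loc S ((q : Nat.Primes) : ℕ)) M.ρ hM q y = 0)
    (w : ∀ q : ↥S, Hlev1 (basis (levelLoc ((q : Nat.Primes) : ℕ)))
      (toResolved ((RA M).comap (localGaloisToGlobal ((q : Nat.Primes) : ℕ)))
        (comap_disc0 (RA M) h0 _ (isLevelHom_loc S ((q : Nat.Primes) : ℕ)))).ρM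
      (toResolved ((RA M).comap (localGaloisToGlobal ((q : Nat.Primes) : ℕ)))
        (comap_disc0 (RA M) h0 _ (isLevelHom_loc S ((q : Nat.Primes) : ℕ)))).discM) :
    ∃ x : Hlev1 (basis (levelS S)) (toResolved (RA M) h0).ρM (toResolved (RA M) h0).discM,
      ∀ q : ↥S, T q → PTMu2.resA (RA M) h0 (basis (levelS S))
        (fun q : ↥S => basis (levelLoc ((q : Nat.Primes) : ℕ)))
        (fun q : ↥S => localGaloisToGlobal ((q : Nat.Primes) : ℕ))
        (fun q : ↥S => isLevelHom_loc S ((q : Nat.Primes) : ℕ)) q x - w q ∈ L q := by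
  classical
  have hp : p.Prime := Fact.out
  have hpS' : ∃ q ∈ S, (q : ℕ) = p := ⟨pPrime p, hpS, rfl⟩
  have hGCF := GLOB.FundClassExists6.fundClassExists p S
  have hfund := GLUE.FundLevel2.fundFixed_CS p hp2 hpS hGCF
  have hgex := GLUE.GexNormFinal15.gexNormLevel (S := S) hp hp2 hpS
  have hL1 := GLOB.LocalInjMain14.localInjectivity p S
  have hpA : ∀ m : Module.Dual (ZMod p) M, p • m = 0 := fun m => by
    rw [← Nat.cast_smul_eq_nsmul (ZMod p), ZMod.natCast_self, zero_smul]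
  have hpkg : InvFund18.AlphaPackage (RA M) h0 (basis (levelS S)) (CS S).ρ (isDiscrete_CS S) p
      hpA :=
    InvFund18.alphaPackage_of_isFundClass _ (CS S).ρ (basis (levelS S)) h0 hpA (isDiscrete_CS S)
      (GlobalHypP8.trivFam_sub _ _) (GlobalHypP8.trivFam_normal _ _)
      (GlobalHypP8.trivFam_cofinal _ (basis (levelS S)) h0) (GlobalHypP8.trivFam_triv0 _ _)
      hfund (GlobalHypP8.gexNorm_trivFam _ hgex)
  exact PTMu2.ptMid_onto_of_muData intSurj_int (RA M) h0 (basis (levelS S))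
    (fun q : ↥S => basis (levelLoc ((q : Nat.Primes) : ℕ)))
    (fun q : ↥S => localGaloisToGlobal ((q : Nat.Primes) : ℕ))
    (fun q : ↥S => isLevelHom_loc S ((q : Nat.Primes) : ℕ))
    M.ρ hM (cycloChar p) (KerIsoMain7.hA_freeRes M (cycloChar p))
    (isDiscrete_ES S) (isDiscrete_IS' S) (isDiscrete_CS S) (isDiscrete_ISq' S)
    (fun q : ↥S => isDiscrete_unitsLoc ((q : Nat.Primes) : ℕ))
    (diag S) (diag_ρ S) (toCS S) (toCS_ρ S)
    (Objects21.diag_injective S ⟨pPrime p, hpS⟩) (toCS_surjective S)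
    (StarS55_7.exact_diag_toCS S)
    (inclq S) (inclq_ρ S) (ISproj S) (ISproj_ρ S)
    (fun q x => LocalGlobalInst27.ISequiv_inclq_same S q x)
    (fun q q' hqq' x => LocalGlobalInst27.ISequiv_inclq_ne S q' x q hqq')
    (fun q : ↥S => evq S ((q : Nat.Primes) : ℕ)) (fun q : ↥S => evq_ρ S ((q : Nat.Primes) : ℕ))
    (muES p S hpS) (fun q : ↥S => muLoc p ((q : Nat.Primes) : ℕ))
    (StarS55_7.evq_ISproj_diag_muES p S hpS)
    (ESDivisible27.exists_zsmul_eq (Fact.out) hpS)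
    (fun q : ↥S => exists_zsmul_eq_unitsLoc p ((q : Nat.Primes) : ℕ))
    hpA hpkg
    (fun q => LocHyperFinal13.s1At S _ _ _ _ _ _ _ h0)
    (fun q : ↥S => LocS2_29.resH2_injective S ((q : Nat.Primes) : ℕ))
    (LocalGlobalInst27.hLG_inclq S p hp hp2 hpS' hL1 (basis (levelS S)) (isDiscrete_ISq' S)
      (isDiscrete_IS' S) (isDiscrete_CS S))
    (fun q : ↥S => LocalRK11.rkAt_local_comap ((q : Nat.Primes) : ℕ) (RA M) h0
      (localGaloisToGlobal ((q : Nat.Primes) : ℕ)) (isLevelHom_loc S ((q : Nat.Primes) : ℕ))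
      (basis (levelLoc ((q : Nat.Primes) : ℕ))) (isDiscrete_unitsLoc ((q : Nat.Primes) : ℕ)) p hpA)
    (fun q : ↥S => rankLeOne_local ((q : Nat.Primes) : ℕ) p)
    T hfin L hdual w

end Fermat.Agent.W56.PTMid2
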