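/-
Programme W56 (S56), chapter (D2), arithmetic part, helper1.

`QpModP1`: for an odd prime `p`, the group `ℚ_pˣ / (ℚ_pˣ)^p` has at most `p²` elements, in the form
of a set of representatives `Y` with `Y.card ≤ p ^ 2`.  (Mathlib only: Hensel's lemma for
`X^p - w`, `w ≡ 1 mod p³`, and the cyclicity of `(ℤ/p³)ˣ`.)
-/
import Mathlib

set_option autoImplicit false
set_option linter.style.haveILetI false

namespace Fermat.Agent.W56.QpModP1

open Polynomial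

variable (p : ℕ) [hp : Fact p.Prime]

/-- `w ≡ 1 mod p³` is a `p`-th power in `ℤ_p` (Hensel). -/
theorem exists_pow_eq_of_norm_le (w : ℤ_[p]) (hw : ‖w - 1‖ ≤ (p : ℝ) ^ (-3 : ℤ)) :
    ∃ v : ℤ_[p], v ^ p = w := by
  have hp1 : (1 : ℝ) < p := by exact_mod_cast hp.out.one_lt
  have hp0 : (0 : ℝ) < p := by linarith
  set F : Polynomial ℤ_[p] := X ^ p - C w with hF
  have hev : ∀ z : ℤ_[p], F.aeval z = z ^ p - w := by
    intro z
    simp [hF]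
  have hder : F.derivative.aeval (1 : ℤ_[p]) = (p : ℤ_[p]) := by
    simp [hF, Polynomial.derivative_X_pow]
  have hnorm : ‖F.aeval (1 : ℤ_[p])‖ < ‖F.derivative.aeval (1 : ℤ_[p])‖ ^ 2 := by
    rw [hev, hder, one_pow, PadicInt.norm_p, ← norm_neg, neg_sub]
    refine lt_of_le_of_lt hw ?_
    rw [← zpow_natCast, ← zpow_neg_one, ← zpow_mul]
    exact zpow_lt_zpow_right₀ hp1 (by norm_num)
  obtain ⟨z, hz, -⟩ := hensels_lemma hnorm
  refine ⟨z, ?_⟩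
  rw [hev] at hz
  exact sub_eq_zero.mp hz

/-- reduction of units mod `p³` -/
noncomputable def red3 : ℤ_[p]ˣ →* (ZMod (p ^ 3))ˣ :=
  Units.map ((PadicInt.toZModPow 3 : ℤ_[p] →+* ZMod (p ^ 3)) : ℤ_[p] →* ZMod (p ^ 3))

theorem norm_le_of_red3_eq_one (u : ℤ_[p]ˣ) (hu : red3 p u = 1) :
    ‖(u : ℤ_[p]) - 1‖ ≤ (p : ℝ) ^ (-3 : ℤ) := by
  have h1 : PadicInt.toZModPow 3 (u : ℤ_[p]) = 1 := by
    have := congrArg (fun z : (ZMod (p ^ 3))ˣ => (z : ZMod (p ^ 3))) hu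
    simpa [red3] using this
  have h2 : (u : ℤ_[p]) - 1 ∈ RingHom.ker (PadicInt.toZModPow 3 : ℤ_[p] →+* ZMod (p ^ 3)) := by
    rw [RingHom.mem_ker, map_sub, h1, map_one, sub_self]
  rw [PadicInt.ker_toZModPow] at h2
  have := (PadicInt.norm_le_pow_iff_mem_span_pow ((u : ℤ_[p]) - 1) 3).2 h2
  simpa using this

/-- a unit congruent to `1` mod `p³` is a `p`-th power of a unit -/
theorem exists_unit_pow_eq (u : ℤ_[p]ˣ) (hu : red3 p u = 1) : ∃ v : ℤ_[p]ˣ, v ^ p = u := by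
  obtain ⟨v, hv⟩ := exists_pow_eq_of_norm_le p (u : ℤ_[p]) (norm_le_of_red3_eq_one p u hu)
  have hvu : IsUnit v := by
    have : IsUnit (v ^ p) := by rw [hv]; exact u.isUnit
    exact (isUnit_pow_iff hp.out.ne_zero).1 this
  refine ⟨hvu.unit, ?_⟩
  apply Units.ext
  rw [Units.val_pow_eq_pow_val, IsUnit.unit_spec, hv]

/-- **`ℤ_pˣ/(ℤ_pˣ)^p` is generated by one element** (`p` odd). -/
theorem exists_unit_gen (hp2 : p ≠ 2) :
    ∃ g₀ : ℤ_[p]ˣ, ∀ u : ℤ_[p]ˣ, ∃ (r : ℕ) (v : ℤ_[p]ˣ), r < p ∧ u = g₀ ^ r * v ^ p := by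
  haveI : IsCyclic (ZMod (p ^ 3))ˣ := ZMod.isCyclic_units_of_prime_pow p hp.out hp2 3
  haveI : IsCyclic (red3 p).range := inferInstance
  obtain ⟨⟨h, g₀, rfl⟩, hgen⟩ := IsCyclic.exists_generator (α := (red3 p).range)
  refine ⟨g₀, fun u => ?_⟩
  obtain ⟨n, hn⟩ := hgen ⟨red3 p u, u, rfl⟩
  have hn' : red3 p g₀ ^ n = red3 p u := by
    have := congrArg (fun z : (red3 p).range => (z : (ZMod (p ^ 3))ˣ)) hn
    simpa using this
  have hp0 : (0 : ℤ) < p := by exact_mod_cast hp.out.pos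
  have hk : red3 p (u * (g₀ ^ n)⁻¹) = 1 := by
    rw [map_mul, map_inv, map_zpow, hn', mul_inv_cancel]
  obtain ⟨v, hv⟩ := exists_unit_pow_eq p _ hk
  have hr0 : 0 ≤ n % p := Int.emod_nonneg _ hp0.ne'
  have hrp : n % p < p := Int.emod_lt_of_pos _ hp0
  refine ⟨(n % p).toNat, v * g₀ ^ (n / p), ?_, ?_⟩
  · have : ((n % p).toNat : ℤ) < p := by rw [Int.toNat_of_nonneg hr0]; exact hrp
    exact_mod_cast this
  · have h1 : u = g₀ ^ n * v ^ p := by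
      rw [hv, mul_comm u, ← mul_assoc, mul_inv_cancel, one_mul]
    have h2 : (g₀ ^ (n % p).toNat : ℤ_[p]ˣ) = g₀ ^ (n % p) := by
      rw [← zpow_natCast, Int.toNat_of_nonneg hr0]
    have h3 : n = (n / p) * p + n % p := by
      rw [mul_comm]; exact (Int.mul_ediv_add_emod n p).symm
    rw [h2, mul_pow, ← zpow_natCast (g₀ ^ (n / p)), ← zpow_mul, mul_comm (v ^ p), ← mul_assoc,
      ← zpow_add, add_comm, ← h3]
    exact h1

/-- every nonzero `p`-adic number is `p^n` times a unit -/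
theorem exists_zpow_mul_unit (x : ℚ_[p]ˣ) :
    ∃ (n : ℤ) (u : ℤ_[p]ˣ), (x : ℚ_[p]) = (p : ℚ_[p]) ^ n * ((u : ℤ_[p]) : ℚ_[p]) := by
  have hx : (x : ℚ_[p]) ≠ 0 := x.ne_zero
  have hp0 : (p : ℚ_[p]) ≠ 0 := by exact_mod_cast hp.out.ne_zero
  set n : ℤ := (x : ℚ_[p]).valuation with hn
  have hnorm : ‖(x : ℚ_[p]) * (p : ℚ_[p]) ^ (-n)‖ = 1 := by
    rw [norm_mul, Padic.norm_eq_zpow_neg_valuation hx, norm_zpow, Padic.norm_p, ← hn,
      inv_zpow', neg_neg, ← zpow_add₀ (by exact_mod_cast hp.out.ne_zero), neg_add_cancel,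
      zpow_zero]
  refine ⟨n, PadicInt.mkUnits hnorm, ?_⟩
  rw [PadicInt.mkUnits_eq, mul_comm, mul_assoc, ← zpow_add₀ hp0, neg_add_cancel, zpow_zero,
    mul_one]

/-- `p` as a unit of `ℚ_p` -/
noncomputable def pU : ℚ_[p]ˣ := Units.mk0 (p : ℚ_[p]) (by exact_mod_cast hp.out.ne_zero)

/-- `ℤ_pˣ → ℚ_pˣ` -/
noncomputable def unitsCoe : ℤ_[p]ˣ →* ℚ_[p]ˣ :=
  Units.map ((PadicInt.Coe.ringHom : ℤ_[p] →+* ℚ_[p]) : ℤ_[p] →* ℚ_[p])

theorem coe_unitsCoe (u : ℤ_[p]ˣ) : ((unitsCoe p u : ℚ_[p]ˣ) : ℚ_[p]) = ((u : ℤ_[p]) : ℚ_[p]) :=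
  rfl

/-- **`#ℚ_pˣ/(ℚ_pˣ)^p ≤ p²`** for `p` odd: a set of at most `p²` representatives. -/
theorem exists_finset_card_le (hp2 : p ≠ 2) :
    ∃ Y : Finset ℚ_[p]ˣ, Y.card ≤ p ^ 2 ∧ ∀ x : ℚ_[p]ˣ, ∃ y ∈ Y, ∃ g : ℚ_[p]ˣ, x = y * g ^ p := by
  classical
  obtain ⟨g₀, hg₀⟩ := exists_unit_gen p hp2
  refine ⟨(Finset.univ : Finset (Fin p × Fin p)).image
    (fun ab => pU p ^ (ab.1 : ℕ) * unitsCoe p g₀ ^ (ab.2 : ℕ)), ?_, fun x => ?_⟩
  · refine Finset.card_image_le.trans ?_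
    simp [sq]
  · obtain ⟨n, u, hnu⟩ := exists_zpow_mul_unit p x
    obtain ⟨r, v, hr, huv⟩ := hg₀ u
    have hp0 : (0 : ℤ) < p := by exact_mod_cast hp.out.pos
    have hr0 : 0 ≤ n % p := Int.emod_nonneg _ hp0.ne'
    have hrp : n % p < p := Int.emod_lt_of_pos _ hp0
    have hrt : (n % p).toNat < p := by
      have : ((n % p).toNat : ℤ) < p := by rw [Int.toNat_of_nonneg hr0]; exact hrp
      exact_mod_cast this
    refine ⟨_, Finset.mem_image.2 ⟨(⟨(n % p).toNat, hrt⟩, ⟨r, hr⟩), Finset.mem_univ _, rfl⟩,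
      pU p ^ (n / p) * unitsCoe p v, ?_⟩
    have hx : x = pU p ^ n * unitsCoe p u := by
      apply Units.ext
      rw [Units.val_mul, Units.val_zpow_eq_zpow_val, coe_unitsCoe]
      exact hnu
    have h2 : (pU p ^ (n % p).toNat : ℚ_[p]ˣ) = pU p ^ (n % p) := by
      rw [← zpow_natCast, Int.toNat_of_nonneg hr0]
    have h3 : n = n % p + (n / p) * p := by
      rw [mul_comm, add_comm]; exact (Int.mul_ediv_add_emod n p).symm
    show x = pU p ^ (n % p).toNat * unitsCoe p g₀ ^ r * (pU p ^ (n / p) * unitsCoe p v) ^ p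
    rw [hx, huv, map_mul, map_pow, map_pow, h2, mul_pow, ← zpow_natCast (pU p ^ (n / p)),
      ← zpow_mul]
    nth_rewrite 1 [h3]
    rw [zpow_add]
    simp only [mul_assoc, mul_comm, mul_left_comm]

end Fermat.Agent.W56.QpModP1
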