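/-
Programme W56 (target S56), item (AR3), local/FG half (helper6): **restriction on the `p`-primary part
of `H²` of a class formation at `p`, finite level** (Mathlib group cohomology).

`Q` a finite group, `(C, u)` with `Interface8.IsFundClass p C u`, `|Q| = p^b n'` (`p ∤ n'`):
* `cyclic_primary`: `n' • u` has order `p^b` and generates the `p`-primary part of `H²(Q, C)`
  (lifted out of helper8's `PDiv8.exists_nsmul_eq_of_isFundClass`);
* for an injective `ι : Q' →* Q` and `φ : Res_ι C ≅ C'`: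
  `exists_map_eq`: `map ι φ.hom 2 : H²(Q, C) → H²(Q', C')` is ONTO on `p`-primary classes;
  `map_eq_zero_of_nsmul`: it kills the `p`-primary classes killed by `|Q| / |Q'|`.
-/
import Mathlib
import Fermat.Agent.W56.FundSub8
import Fermat.Agent.PT.FG.Transfer2

set_option autoImplicit false

open CategoryTheory groupCohomology

namespace Fermat.Agent.W56.ResFin6

open Fermat.Agent.PT.FG Fermat.Agent.PT.FG.Interface8

section Abstract

variable {A : Type*} [AddCommGroup A]

/-- Bezout: `s t + r N = 1` and `N z = 0` give `(s t) z = z`. -/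
theorem bezout_zsmul (z : A) (t N : ℕ) (s r : ℤ) (h : s * (t : ℤ) + r * (N : ℤ) = 1)
    (hz : N • z = 0) : (s * (t : ℤ)) • z = z := by
  have h1 : s * (t : ℤ) = 1 - r * (N : ℤ) := by linarith
  rw [h1, sub_zsmul, one_zsmul, mul_zsmul, natCast_zsmul, hz, zsmul_zero, neg_zero, add_zero]

theorem lift_zsmul (u' : A) (n' n'' t N : ℕ) (m s r : ℤ) (ht : n' = n'' * t)
    (h : s * (t : ℤ) + r * (N : ℤ) = 1) (hz : N • (n'' • u') = 0) :
    (m * s) • (n' • u') = m • (n'' • u') := by
  have h1 := bezout_zsmul (n'' • u') t N s r h hz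
  rw [ht, mul_comm n'' t, mul_nsmul', ← natCast_zsmul (n'' • u') t, mul_zsmul,
    ← mul_zsmul (n'' • u') s, h1]

theorem zsmul_nsmul_eq_zero_of_dvd (u' : A) (n' N' : ℕ) (m : ℤ) (hN : N' • u' = 0)
    (h : (N' : ℤ) ∣ m * (n' : ℤ)) : m • (n' • u') = 0 := by
  obtain ⟨c, hc⟩ := h
  rw [← natCast_zsmul u' n', ← mul_zsmul, hc, mul_comm, mul_zsmul, natCast_zsmul, hN, zsmul_zero]

end Abstract

section Cyclic

variable {Q : Type} [Group Q] [Finite Q]

/-- **The `p`-primary part of `H²(Q, C)` is cyclic of order `|Q|_p`, generated by `n' • u`.** -/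
theorem cyclic_primary {p : ℕ} [Fact p.Prime] {C : Rep ℤ Q} {u : H2 C}
    (hu : IsFundClass p C u) :
    addOrderOf ((Nat.card Q / p ^ (Nat.card Q).factorization p) • u) =
        p ^ (Nat.card Q).factorization p ∧
      AddSubgroup.zmultiples ((Nat.card Q / p ^ (Nat.card Q).factorization p) • u) =
        Transfer2.primaryTorsion (groupCohomology C 2) p := by
  classical
  have hp : p.Prime := Fact.out
  obtain ⟨P⟩ : Nonempty (Sylow p Q) := inferInstance
  have hN0 : Nat.card Q ≠ 0 := Nat.card_pos.ne'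
  set b := (Nat.card Q).factorization p with hb
  have hPcard : Nat.card (P : Subgroup Q) = p ^ b := P.card_eq_multiplicity
  set n' := Nat.card Q / p ^ b with hn'
  have hNeq : p ^ b * n' = Nat.card Q := Nat.ordProj_mul_ordCompl_eq_self (Nat.card Q) p
  have hcop : Nat.Coprime p n' := Nat.coprime_ordCompl hp hN0
  have hcard := hu.card P P.isPGroup'
  rw [hPcard] at hcard
  have hfin : Finite (groupCohomology (Rep.res (P : Subgroup Q).subtype C) 2) :=
    Nat.finite_of_card_ne_zero (by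
      show Nat.card (H2 (resSub (P : Subgroup Q) C)) ≠ 0
      rw [hcard]
      exact (pow_pos hp.pos b).ne')
  obtain ⟨hTfin, hTdvd⟩ := Transfer2.card_primaryTorsion_dvd_sylow (B := C) P 2
  have hTdvd' : Nat.card (Transfer2.primaryTorsion (groupCohomology C 2) p) ∣ p ^ b := by
    have : Nat.card (groupCohomology (Rep.res (P : Subgroup Q).subtype C) 2) = p ^ b := hcard
    rwa [this] at hTdvd
  set u' : H2 C := n' • u with hu'
  have hu'T : p ^ b • u' = 0 := by
    rw [hu', smul_smul, hNeq]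
    exact Transfer2.card_nsmul_eq_zero C 1 u
  have hord : addOrderOf u' = p ^ b := by
    apply Nat.dvd_antisymm (addOrderOf_dvd_of_nsmul_eq_zero hu'T)
    have h1 : addOrderOf (resMap (P : Subgroup Q) C 2 u') = p ^ b := by
      have h2 : resMap (P : Subgroup Q) C 2 u' = n' • resMap (P : Subgroup Q) C 2 u := by
        rw [hu', map_nsmul]
      rw [h2]
      have h3 := hu.order P P.isPGroup'
      rw [hPcard] at h3
      have h4 : (addOrderOf (resMap (P : Subgroup Q) C 2 u)).Coprime n' := by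
        rw [h3]
        exact Nat.Coprime.pow_left b hcop
      rw [h4.addOrderOf_nsmul, h3]
    rw [← h1]
    exact addOrderOf_map_dvd (resMap (P : Subgroup Q) C 2).hom.toAddMonoidHom u'
  refine ⟨hord, ?_⟩
  have hle : AddSubgroup.zmultiples u' ≤ Transfer2.primaryTorsion (groupCohomology C 2) p := by
    rw [AddSubgroup.zmultiples_le]
    exact ⟨b, hu'T⟩
  apply AddSubgroup.eq_of_le_of_card_ge hle
  rw [Nat.card_zmultiples, hord]
  exact Nat.le_of_dvd (pow_pos hp.pos b) hTdvd'

/-- every `p`-primary class is a multiple of `n' • u`. -/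
theorem exists_zsmul_eq {p : ℕ} [Fact p.Prime] {C : Rep ℤ Q} {u : H2 C}
    (hu : IsFundClass p C u) (x : H2 C) (hx : IsPPrimary p x) :
    ∃ m : ℤ, m • ((Nat.card Q / p ^ (Nat.card Q).factorization p) • u) = x := by
  obtain ⟨a, ha⟩ := hx
  have hxT : x ∈ Transfer2.primaryTorsion (groupCohomology C 2) p := ⟨a, ha⟩
  rw [← (cyclic_primary hu).2] at hxT
  exact AddSubgroup.mem_zmultiples_iff.1 hxT

end Cyclic

section Inj

variable {Q Q' : Type} [Group Q] [Group Q'] [Finite Q] {p : ℕ} [Fact p.Prime]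
  (ι : Q' →* Q) (hι : Function.Injective ι) (C : Rep ℤ Q) (C' : Rep ℤ Q')
  (φ : Rep.res ι C ≅ C') (u : H2 C) (hu : IsFundClass p C u)

include hι hu in
/-- **Restriction is onto on `p`-primary classes.** -/
theorem exists_map_eq (x' : H2 C') (hx' : IsPPrimary p x') :
    ∃ x : H2 C, IsPPrimary p x ∧ (groupCohomology.map ι φ.hom 2).hom x = x' := by
  have hp : p.Prime := Fact.out
  have : Finite Q' := Finite.of_injective ι hι
  have hu' := FundSub8.isFundClass_of_injective p ι hι C C' φ u hu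
  set u' : H2 C' := (groupCohomology.map ι φ.hom 2).hom u with hu'def
  have hN0 : Nat.card Q ≠ 0 := Nat.card_pos.ne'
  have hN0' : Nat.card Q' ≠ 0 := Nat.card_pos.ne'
  have hdvd : Nat.card Q' ∣ Nat.card Q := Subgroup.card_dvd_of_injective ι hι
  set b := (Nat.card Q).factorization p with hb
  set n' := Nat.card Q / p ^ b with hn'
  set b' := (Nat.card Q').factorization p with hb'
  set n'' := Nat.card Q' / p ^ b' with hn''
  have hNeq : p ^ b * n' = Nat.card Q := Nat.ordProj_mul_ordCompl_eq_self (Nat.card Q) p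
  have hNeq' : p ^ b' * n'' = Nat.card Q' := Nat.ordProj_mul_ordCompl_eq_self (Nat.card Q') p
  have hcop : Nat.Coprime p n' := Nat.coprime_ordCompl hp hN0
  have hn''n' : n'' ∣ n' := Nat.ordCompl_dvd_ordCompl_of_dvd hdvd p
  obtain ⟨t, ht⟩ := hn''n'
  have hcopt : Nat.Coprime t (p ^ b') := by
    apply Nat.Coprime.pow_right
    have : Nat.Coprime p t := Nat.Coprime.coprime_dvd_right ⟨n'', by rw [ht, mul_comm]⟩ hcop
    exact this.symm
  -- Bezout
  have hbez : IsCoprime (t : ℤ) ((p ^ b' : ℕ) : ℤ) := Nat.isCoprime_iff_coprime.2 hcopt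
  obtain ⟨s, r, hsr⟩ := hbez
  obtain ⟨m, hm⟩ := exists_zsmul_eq hu' x' hx'
  have hzT : (p ^ b') • (n'' • u') = 0 := by
    rw [smul_smul, hNeq']
    exact Transfer2.card_nsmul_eq_zero C' 1 u'
  refine ⟨(m * s) • (n' • u), ⟨b, ?_⟩, ?_⟩
  · have h0 : p ^ b • (n' • u) = 0 := by
      rw [smul_smul, hNeq]
      exact Transfer2.card_nsmul_eq_zero C 1 u
    rw [← natCast_zsmul, zsmul_comm, natCast_zsmul, h0, zsmul_zero]
  · rw [map_zsmul, map_nsmul, ← hu'def,
      lift_zsmul u' n' n'' t (p ^ b') m s r ht hsr hzT, hm]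

include hι hu in
/-- **The kernel of restriction on `p`-primary classes contains the `|Q|/|Q'|`-torsion.** -/
theorem map_eq_zero_of_nsmul (x : H2 C) (hx : IsPPrimary p x)
    (hidx : (Nat.card Q / Nat.card Q') • x = 0) :
    (groupCohomology.map ι φ.hom 2).hom x = 0 := by
  have hp : p.Prime := Fact.out
  have : Finite Q' := Finite.of_injective ι hι
  set u' : H2 C' := (groupCohomology.map ι φ.hom 2).hom u with hu'def
  have hN0' : Nat.card Q' ≠ 0 := Nat.card_pos.ne'
  have hdvd : Nat.card Q' ∣ Nat.card Q := Subgroup.card_dvd_of_injective ι hι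
  set b := (Nat.card Q).factorization p with hb
  set n' := Nat.card Q / p ^ b with hn'
  have hNeq : p ^ b * n' = Nat.card Q := Nat.ordProj_mul_ordCompl_eq_self (Nat.card Q) p
  set idx := Nat.card Q / Nat.card Q' with hidxdef
  have hidxeq : idx * Nat.card Q' = Nat.card Q := Nat.div_mul_cancel hdvd
  have hidx0 : idx ≠ 0 := by
    intro h0
    rw [h0, zero_mul] at hidxeq
    exact Nat.card_pos.ne' hidxeq.symm
  obtain ⟨m, hm⟩ := exists_zsmul_eq hu x hx
  have hord := (cyclic_primary hu).1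
  have h5 : ((idx : ℤ) * m) • (n' • u) = 0 := by
    rw [mul_smul, hm, natCast_zsmul, hidx]
  have h6 : ((p ^ b : ℕ) : ℤ) ∣ (idx : ℤ) * m := by
    rw [← hord]
    exact (addOrderOf_dvd_iff_zsmul_eq_zero).2 h5
  -- `|Q'| ∣ m n'`
  have h7 : ((Nat.card Q' : ℕ) : ℤ) ∣ m * (n' : ℤ) := by
    obtain ⟨c, hc⟩ := h6
    have h8 : (idx : ℤ) * (m * (n' : ℤ)) = (idx : ℤ) * (((Nat.card Q' : ℕ) : ℤ) * c) := by
      have h9 : ((idx * Nat.card Q' : ℕ) : ℤ) = ((p ^ b * n' : ℕ) : ℤ) := by
        rw [hidxeq, hNeq]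
      push_cast at h9
      calc (idx : ℤ) * (m * (n' : ℤ)) = ((idx : ℤ) * m) * (n' : ℤ) := by ring
        _ = (((p ^ b : ℕ) : ℤ) * c) * (n' : ℤ) := by rw [hc]
        _ = ((p : ℤ) ^ b * (n' : ℤ)) * c := by push_cast; ring
        _ = ((idx : ℤ) * ((Nat.card Q' : ℕ) : ℤ)) * c := by rw [h9]
        _ = (idx : ℤ) * (((Nat.card Q' : ℕ) : ℤ) * c) := by ring
    have hidx0' : (idx : ℤ) ≠ 0 := by exact_mod_cast hidx0
    exact ⟨c, mul_left_cancel₀ hidx0' h8⟩
  rw [← hm, map_zsmul, map_nsmul, ← hu'def]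
  exact zsmul_nsmul_eq_zero_of_dvd u' n' (Nat.card Q') m (Transfer2.card_nsmul_eq_zero C' 1 u') h7

end Inj

end Fermat.Agent.W56.ResFin6
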