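/-
Programme W56 (target S56), item (AR3), local/FG half (helper6): **restriction to an open subgroup on
the `p`-primary part of `H²_lev` of a datum with fundamental classes at all finite levels.**

`(G, 𝓑, Y)` with `FundFixed`, `V ≤ G` open, `res_V : H²_lev(G; Y) → H²_lev(V; Y)` the restriction of
level cochains (`LevelCohRes28.ppH2 V.subtype id`):
* (R1) `exists_resV_eq`: `res_V` is ONTO on `p`-primary classes;
* (R2) `resV_eq_zero_of_index_nsmul`: a `p`-primary class killed by `[G : V]` restricts to `0`;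
* (R3) `eq_zero_of_trace_eq_zero`: any additive `N : H²_lev(V; Y) → H²_lev(G; Y)` with
  `N ∘ res_V = [G : V]` is INJECTIVE on `p`-primary classes (the trace / corestriction).

Finite level: `ResFin6` (cyclic structure of `H²(Q, C)(p)`); finite layers of `V`: helper8's
`OpenSub8` (`quotMap`, `fixedIso`, `famV`).
-/
import Mathlib
import Fermat.Agent.W56.ResFin6
import Fermat.Agent.W56.LevExh8
import Fermat.Agent.PT.PRO.LevelCohRes28
import Fermat.Agent.PT.PRO.LevelCompare13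
import Fermat.Agent.PT.GLUE.LocalFund11
import Fermat.Agent.PT.GLUE.LocalHypR11

set_option autoImplicit false
set_option linter.unusedSectionVars false

open CategoryTheory groupCohomology

namespace Fermat.Agent.W56.ResOpen6

open Fermat.Agent.PT.PRO Fermat.Agent.PT.PRO.HyperLevel25 Fermat.Agent.PT.PRO.HyperColim18
  Fermat.Agent.PT.PRO.GlobalDuality20 Fermat.Agent.PT.PRO.FundRaw18 Fermat.Agent.PT.PRO.InvP4
  Fermat.Agent.PT.FG Fermat.Agent.PT.FG.Interface8 Fermat.Agent.PT.GLUE.Objects21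
  Fermat.Agent.W56.OpenSub8 Fermat.Agent.W56.LevExh8

/-! ### raw finite-level statements -/

section Raw

variable {k : Type*} [CommRing k] {Q Q' : Type*} [Group Q] [Group Q']
  {X X' : Type*} [AddCommGroup X] [Module k X] [AddCommGroup X'] [Module k X']

/-- RAW: restriction along `ι` (with coefficient map `e`) is onto on `p`-primary classes. -/
def FinResSurj (ρ : Representation k Q X) (ρ' : Representation k Q' X') (ι : Q' →* Q)
    (e : X → X') (p : ℕ) : Prop :=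
  ∀ φ' : Q' × Q' → X', dTwo ρ' φ' = 0 → ∀ (a : ℕ) (v' : Q' → X'), p ^ a • φ' = dOne ρ' v' →
    ∃ (φ : Q × Q → X) (m : ℕ) (v : Q → X) (w' : Q' → X'), dTwo ρ φ = 0 ∧
      p ^ m • φ = dOne ρ v ∧ (fun q : Q' × Q' => e (φ (ι q.1, ι q.2))) = φ' + dOne ρ' w'

/-- RAW: a `p`-primary class killed by `idx` restricts to `0`. -/
def FinResKer (ρ : Representation k Q X) (ρ' : Representation k Q' X') (ι : Q' →* Q)
    (e : X → X') (p idx : ℕ) : Prop :=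
  ∀ φ : Q × Q → X, dTwo ρ φ = 0 → ∀ (m : ℕ) (v : Q → X), p ^ m • φ = dOne ρ v →
    ∀ v₂ : Q → X, idx • φ = dOne ρ v₂ →
    ∃ w' : Q' → X', (fun q : Q' × Q' => e (φ (ι q.1, ι q.2))) = dOne ρ' w'

end Raw

/-! ### from Mathlib's `H²` to raw cochains -/

section Bridge

variable {k : Type} [CommRing k] {Q Q' : Type} [Group Q] [Group Q'] (ι : Q' →* Q)
  (C : Rep.{0} k Q) (C' : Rep.{0} k Q') (f : Rep.res ι C ⟶ C')

lemma dTwo_eq_zero_of_mem {ψ : Q × Q → C.V} (h : ψ ∈ cocycles₂ C) : dTwo C.ρ ψ = 0 := by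
  rw [mem_cocycles₂_iff] at h
  funext ⟨g, h', j⟩
  have := h g h' j
  rw [dTwo_apply, Pi.zero_apply, ← sub_eq_zero.2 this.symm]
  abel

lemma map_H2π (z : cocycles₂ C) :
    (groupCohomology.map ι f 2).hom (H2π C z) = H2π C' (mapCocycles₂ ι f z) :=
  H2π_comp_map_apply ι f z

lemma coe_mapCocycles₂_apply (z : cocycles₂ C) (q : Q' × Q') :
    (mapCocycles₂ ι f z : Q' × Q' → C'.V) q = f.hom ((z : Q × Q → C.V) (ι q.1, ι q.2)) := rfl

lemma pow_nsmul_H2π (p a : ℕ) {φ : Q × Q → C.V} (hφ : φ ∈ cocycles₂ C) :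
    p ^ a • H2π C ⟨φ, hφ⟩ = H2π C ⟨p ^ a • φ, (cocycles₂ C).nsmul_mem hφ _⟩ := by
  rw [← map_nsmul]
  rfl

theorem finResSurj_of_H2 (p : ℕ)
    (h : ∀ x' : H2 C', IsPPrimary p x' →
      ∃ x : H2 C, IsPPrimary p x ∧ (groupCohomology.map ι f 2).hom x = x') :
    FinResSurj C.ρ C'.ρ ι (fun c => f.hom c) p := by
  intro φ' hφ' a v' hv'
  have hφ'c := mem_cocycles₂_of_dTwo C' hφ'
  have hx' : IsPPrimary p (H2π C' ⟨φ', hφ'c⟩) := by
    refine ⟨a, ?_⟩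
    rw [pow_nsmul_H2π]
    exact H2π_eq_zero_of_dOne C' _ hv'
  obtain ⟨x, ⟨m, hxm⟩, hx⟩ := h _ hx'
  induction x using H2_induction_on with
  | h z =>
    obtain ⟨φ, hφ⟩ := z
    rw [pow_nsmul_H2π] at hxm
    obtain ⟨v, hv⟩ := exists_dOne_of_H2π_eq_zero C _ hxm
    rw [map_H2π] at hx
    have hmem : (mapCocycles₂ ι f ⟨φ, hφ⟩ : Q' × Q' → C'.V) - φ' ∈ cocycles₂ C' :=
      (cocycles₂ C').sub_mem (mapCocycles₂ ι f ⟨φ, hφ⟩).2 hφ'c
    have h0 : H2π C' ⟨(mapCocycles₂ ι f ⟨φ, hφ⟩ : Q' × Q' → C'.V) - φ', hmem⟩ = 0 := by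
      have e1 : (⟨(mapCocycles₂ ι f ⟨φ, hφ⟩ : Q' × Q' → C'.V) - φ', hmem⟩ : cocycles₂ C') =
          mapCocycles₂ ι f ⟨φ, hφ⟩ - ⟨φ', hφ'c⟩ := rfl
      rw [e1, map_sub, hx, sub_self]
    obtain ⟨w', hw'⟩ := exists_dOne_of_H2π_eq_zero C' hmem h0
    refine ⟨φ, m, v, w', dTwo_eq_zero_of_mem C hφ, hv, ?_⟩
    rw [← hw']
    funext q
    simp only [Pi.add_apply, Pi.sub_apply]
    rw [coe_mapCocycles₂_apply]
    abel

theorem finResKer_of_H2 (p idx : ℕ)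
    (h : ∀ x : H2 C, IsPPrimary p x → idx • x = 0 → (groupCohomology.map ι f 2).hom x = 0) :
    FinResKer C.ρ C'.ρ ι (fun c => f.hom c) p idx := by
  intro φ hφ m v hv v₂ hv₂
  have hφc := mem_cocycles₂_of_dTwo C hφ
  have h1 : IsPPrimary p (H2π C ⟨φ, hφc⟩) := by
    refine ⟨m, ?_⟩
    rw [pow_nsmul_H2π]
    exact H2π_eq_zero_of_dOne C _ hv
  have h2 : idx • H2π C ⟨φ, hφc⟩ = 0 := by
    rw [← map_nsmul]
    exact H2π_eq_zero_of_dOne C ((cocycles₂ C).nsmul_mem hφc _) hv₂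
  have h3 := h _ h1 h2
  rw [map_H2π] at h3
  obtain ⟨w', hw'⟩ := exists_dOne_of_H2π_eq_zero C' (mapCocycles₂ ι f ⟨φ, hφc⟩).2 h3
  exact ⟨w', hw'⟩

end Bridge

/-! ### exhaustion: restriction to an open subgroup, raw cochains -/

section Exh

variable {k : Type} [CommRing k] {G : Type} [Group G] {𝒰 : Set (Subgroup G)}
variable {Y : Type} [AddCommGroup Y] [Module k Y]

lemma infl₂_nsmul {W : Subgroup G} {ρ : Representation k G Y} (n : ℕ)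
    (φ : (G ⧸ W) × (G ⧸ W) → fixedSub W ρ) : infl₂ (n • φ) = n • infl₂ φ := by
  funext q
  simp only [infl₂, Pi.smul_apply, Submodule.coe_smul_of_tower]

lemma desc₂_nsmul_eq {W : Subgroup G} [W.Normal] {ρ : Representation k G Y} (n : ℕ)
    {φ : G × G → Y} (hφ : IsLevelAt₂ ρ W φ) {v : G → Y} (hv : IsLevelAt₁ ρ W v)
    (h : n • φ = dOne ρ v) : n • desc₂ φ hφ = dOne (fixedRep W ρ) (desc₁ v hv) := by
  apply infl₂_injective
  rw [infl₂_dOne, infl₁_desc₁, infl₂_nsmul, infl₂_desc₂, h]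

variable (h𝒰 : IsLevelBasis 𝒰) (ρ : Representation k G Y) (hρ : IsDiscrete 𝒰 ρ)
  (V : Subgroup G) (hV : ∃ U ∈ 𝒰, U ≤ V)

include h𝒰 hρ hV in
/-- **(R1), raw form**: every level 2-cocycle of `V` whose `p ^ a`-multiple is a level coboundary
is, modulo a level coboundary, the restriction of a level 2-cocycle of `G` with the same
property. -/
theorem exists_res_eq_raw (p : ℕ)
    (hfin : ∀ W ∈ 𝒰, ∀ hn : W.Normal, ∀ hWV : W ≤ V, haveI := hn;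
      FinResSurj (fixedRep W ρ) (fixedRep (W.subgroupOf V) (ρ.comp V.subtype)) (quotMap V W)
        (fixedEquiv ρ V W hWV) p)
    (φ' : ↥V × ↥V → Y) (hφ'l : IsLevel₂ (comapSet V.subtype 𝒰) φ')
    (hφ'c : dTwo (ρ.comp V.subtype) φ' = 0) (a : ℕ) (v' : ↥V → Y)
    (hv'l : IsLevel₁ (comapSet V.subtype 𝒰) v') (hv' : p ^ a • φ' = dOne (ρ.comp V.subtype) v') :
    ∃ (φ : G × G → Y) (m : ℕ) (v : G → Y) (w' : ↥V → Y), IsLevel₂ 𝒰 φ ∧ dTwo ρ φ = 0 ∧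
      IsLevel₁ 𝒰 v ∧ p ^ m • φ = dOne ρ v ∧ IsLevel₁ (comapSet V.subtype 𝒰) w' ∧
      (fun q : ↥V × ↥V => φ ((q.1 : G), (q.2 : G))) = φ' + dOne (ρ.comp V.subtype) w' := by
  obtain ⟨W', hW', hφ'W, -, hv'W, -⟩ := exists_common_level (isLevelBasis_comap h𝒰 V)
    (ρ.comp V.subtype) (isDiscrete_comap hρ V) (famV_cofinal h𝒰 hV) hφ'l hφ'l hv'l hv'l
  obtain ⟨W, hW, hn, hWV, rfl⟩ := hW'
  haveI := hn
  obtain ⟨φb, m, vb, wb, hφb, hvb, hrel⟩ := hfin W hW hn hWV (desc₂ φ' hφ'W)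
    (dTwo_desc₂ _ _ hφ'W hφ'c) a (desc₁ v' hv'W) (desc₂_nsmul_eq _ hφ'W hv'W hv')
  refine ⟨infl₂ φb, m, infl₁ vb, infl₁ wb, (isLevelAt₂_infl₂ φb).isLevel₂ hW, ?_,
    (isLevelAt₁_infl₁ vb).isLevel₁ hW, ?_,
    (isLevelAt₁_infl₁ wb).isLevel₁ (famV_sub 𝒰 V ⟨W, hW, hn, hWV, rfl⟩), ?_⟩
  · rw [← infl₃_dTwo, hφb]
    rfl
  · rw [← infl₂_dOne, ← hvb, infl₂_nsmul]
  · funext ⟨x, y⟩
    have h1 := congrFun hrel ((x : ↥V ⧸ W.subgroupOf V), (y : ↥V ⧸ W.subgroupOf V))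
    have h2 := congrArg (fun z : fixedSub (W.subgroupOf V) (ρ.comp V.subtype) => (z : Y)) h1
    simp only [coe_fixedEquiv, quotMap_mk, Pi.add_apply, Submodule.coe_add] at h2
    have h3 := congrFun (infl₂_desc₂ φ' hφ'W) (x, y)
    have h4 := congrFun (infl₂_dOne (W.subgroupOf V) (ρ.comp V.subtype) wb) (x, y)
    rw [infl₂_apply] at h3 h4
    show ((φb (((x : G) : G ⧸ W), ((y : G) : G ⧸ W)) : fixedSub W ρ) : Y) =
      φ' (x, y) + dOne (ρ.comp V.subtype) (infl₁ wb) (x, y)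
    rw [h2, h3, h4]

include h𝒰 hρ hV in
/-- **(R2), raw form**: a level 2-cocycle of `G` whose `p ^ m`-multiple and `idx`-multiple are
level coboundaries restricts to a level coboundary of `V`. -/
theorem res_eq_dOne_raw (p idx : ℕ)
    (hfin : ∀ W ∈ 𝒰, ∀ hn : W.Normal, ∀ hWV : W ≤ V, haveI := hn;
      FinResKer (fixedRep W ρ) (fixedRep (W.subgroupOf V) (ρ.comp V.subtype)) (quotMap V W)
        (fixedEquiv ρ V W hWV) p idx)
    (φ : G × G → Y) (hφl : IsLevel₂ 𝒰 φ) (hφc : dTwo ρ φ = 0) (m : ℕ) (v : G → Y)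
    (hvl : IsLevel₁ 𝒰 v) (hv : p ^ m • φ = dOne ρ v) (v₂ : G → Y) (hv₂l : IsLevel₁ 𝒰 v₂)
    (hv₂ : idx • φ = dOne ρ v₂) :
    ∃ w' : ↥V → Y, IsLevel₁ (comapSet V.subtype 𝒰) w' ∧
      (fun q : ↥V × ↥V => φ ((q.1 : G), (q.2 : G))) = dOne (ρ.comp V.subtype) w' := by
  have hcof : ∀ U ∈ 𝒰, ∃ W ∈ {W | W ∈ 𝒰 ∧ W.Normal ∧ W ≤ V}, W ≤ U := by
    intro U hU
    obtain ⟨U₀, hU₀, hU₀V⟩ := hV
    obtain ⟨W₁, hW₁, hW₁le⟩ := h𝒰.inf U hU U₀ hU₀
    obtain ⟨W, hW, hWle, hWn⟩ := h𝒰.normal W₁ hW₁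
    exact ⟨W, ⟨hW, hWn, (hWle.trans (hW₁le.trans inf_le_right)).trans hU₀V⟩,
      hWle.trans (hW₁le.trans inf_le_left)⟩
  obtain ⟨W, ⟨hW, hn, hWV⟩, hφW, -, hvW, hv₂W⟩ :=
    exists_common_level h𝒰 ρ hρ hcof hφl hφl hvl hv₂l
  haveI := hn
  obtain ⟨wb, hwb⟩ := hfin W hW hn hWV (desc₂ φ hφW) (dTwo_desc₂ _ _ hφW hφc) m (desc₁ v hvW)
    (desc₂_nsmul_eq _ hφW hvW hv) (desc₁ v₂ hv₂W) (desc₂_nsmul_eq _ hφW hv₂W hv₂)
  refine ⟨infl₁ wb, (isLevelAt₁_infl₁ wb).isLevel₁ (famV_sub 𝒰 V ⟨W, hW, hn, hWV, rfl⟩), ?_⟩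
  funext ⟨x, y⟩
  have h1 := congrFun hwb ((x : ↥V ⧸ W.subgroupOf V), (y : ↥V ⧸ W.subgroupOf V))
  have h2 := congrArg (fun z : fixedSub (W.subgroupOf V) (ρ.comp V.subtype) => (z : Y)) h1
  simp only [coe_fixedEquiv, quotMap_mk] at h2
  have h3 := congrFun (infl₂_desc₂ φ hφW) ((x : G), (y : G))
  have h4 := congrFun (infl₂_dOne (W.subgroupOf V) (ρ.comp V.subtype) wb) (x, y)
  rw [infl₂_apply] at h3 h4
  show φ ((x : G), (y : G)) = dOne (ρ.comp V.subtype) (infl₁ wb) (x, y)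
  rw [← h3, h2, h4]

end Exh

/-! ### a datum with fundamental classes at all finite levels, raw form -/

section OpenInt

variable {G : Type} [Group G] {C : Type} [AddCommGroup C] [Module ℤ C]
  (ρ : Representation ℤ G C) {𝒰 : Set (Subgroup G)} (h𝒰 : IsLevelBasis 𝒰) (hC : IsDiscrete 𝒰 ρ)
  {p : ℕ} [Fact p.Prime] (hfund : FundHyp12.FundFixed ρ 𝒰 p)
  (V : Subgroup G) (hV : ∃ U ∈ 𝒰, U ≤ V)

include h𝒰 hC hfund hV in
/-- **(R1)** for `(G, 𝒰, ρ)` with `FundFixed`, raw cochains. -/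
theorem exists_res_eq_open
    (φ' : ↥V × ↥V → C) (hφ'l : IsLevel₂ (comapSet V.subtype 𝒰) φ')
    (hφ'c : dTwo (ρ.comp V.subtype) φ' = 0) (a : ℕ) (v' : ↥V → C)
    (hv'l : IsLevel₁ (comapSet V.subtype 𝒰) v') (hv' : p ^ a • φ' = dOne (ρ.comp V.subtype) v') :
    ∃ (φ : G × G → C) (m : ℕ) (v : G → C) (w' : ↥V → C), IsLevel₂ 𝒰 φ ∧ dTwo ρ φ = 0 ∧
      IsLevel₁ 𝒰 v ∧ p ^ m • φ = dOne ρ v ∧ IsLevel₁ (comapSet V.subtype 𝒰) w' ∧
      (fun q : ↥V × ↥V => φ ((q.1 : G), (q.2 : G))) = φ' + dOne (ρ.comp V.subtype) w' := by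
  refine exists_res_eq_raw h𝒰 ρ hC V hV p (fun W hW hn hWV => ?_) φ' hφ'l hφ'c a v' hv'l hv'
  have := hn
  have := h𝒰.finiteIndex W hW
  have : Finite (G ⧸ W) := Subgroup.finite_quotient_of_finiteIndex
  obtain ⟨u, hu⟩ := hfund W hW hn
  exact finResSurj_of_H2 (quotMap V W) (fixedObj W ρ)
    (fixedObj (W.subgroupOf V) (ρ.comp V.subtype)) (fixedIso ρ V W hWV).hom p
    (fun x' hx' => ResFin6.exists_map_eq (quotMap V W) (quotMap_injective V W) _ _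
      (fixedIso ρ V W hWV) u hu x' hx')

include h𝒰 hC hfund hV in
/-- **(R2)** for `(G, 𝒰, ρ)` with `FundFixed`, raw cochains. -/
theorem res_eq_dOne_open
    (φ : G × G → C) (hφl : IsLevel₂ 𝒰 φ) (hφc : dTwo ρ φ = 0) (m : ℕ) (v : G → C)
    (hvl : IsLevel₁ 𝒰 v) (hv : p ^ m • φ = dOne ρ v) (v₂ : G → C) (hv₂l : IsLevel₁ 𝒰 v₂)
    (hv₂ : V.index • φ = dOne ρ v₂) :
    ∃ w' : ↥V → C, IsLevel₁ (comapSet V.subtype 𝒰) w' ∧
      (fun q : ↥V × ↥V => φ ((q.1 : G), (q.2 : G))) = dOne (ρ.comp V.subtype) w' := by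
  refine res_eq_dOne_raw h𝒰 ρ hC V hV p V.index (fun W hW hn hWV => ?_) φ hφl hφc m v hvl hv
    v₂ hv₂l hv₂
  have := hn
  have := h𝒰.finiteIndex W hW
  have hfQ : Finite (G ⧸ W) := Subgroup.finite_quotient_of_finiteIndex
  have hfQ' : Finite (↥V ⧸ W.subgroupOf V) := Finite.of_injective _ (quotMap_injective V W)
  obtain ⟨u, hu⟩ := hfund W hW hn
  have hidx : Nat.card (G ⧸ W) / Nat.card (↥V ⧸ W.subgroupOf V) = V.index := by
    have h1 : W.relIndex V * V.index = W.index := Subgroup.relIndex_mul_index hWV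
    have h2 : Nat.card (G ⧸ W) = Nat.card (↥V ⧸ W.subgroupOf V) * V.index := h1.symm
    rw [h2]
    exact Nat.mul_div_cancel_left _ Nat.card_pos
  exact finResKer_of_H2 (quotMap V W) (fixedObj W ρ)
    (fixedObj (W.subgroupOf V) (ρ.comp V.subtype)) (fixedIso ρ V W hWV).hom p V.index
    (fun x hx hx0 => ResFin6.map_eq_zero_of_nsmul (quotMap V W) (quotMap_injective V W) _ _
      (fixedIso ρ V W hWV) u hu x hx (by rw [hidx]; exact hx0))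

end OpenInt

/-! ### `LevelCoh28` vocabulary -/

section RepGen

open Fermat.Agent.PT.PRO.LevelCoh28

variable {k : Type} [CommRing k] {G : Type} [Group G] (𝓑 : LevelCoh28.LevelBasis G)
  (Y : Rep.{0} k G) (V : Subgroup G)

theorem isLevelHom_subtype :
    LevelCohRes28.IsLevelHom V.subtype (comapBasis V.subtype 𝓑).sets 𝓑.sets :=
  fun U hU => ⟨U.comap V.subtype, ⟨U, hU, rfl⟩, le_rfl⟩

/-- **Restriction `H²_lev(G; Y) → H²_lev(V; Y)`** (restriction of level cochains). -/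
noncomputable def resV :
    LevelCoh28.H2 𝓑 Y →ₗ[k] LevelCoh28.H2 (comapBasis V.subtype 𝓑) (Rep.res V.subtype Y) :=
  LevelCohRes28.ppH2 V.subtype (LinearMap.id : Y.V →ₗ[k] (Rep.res V.subtype Y).V)
    (fun _ _ => rfl) (isLevelHom_subtype 𝓑 V)

/-- the restriction of a level 2-cocycle. -/
noncomputable def resZ2 :
    ↥(Z2 𝓑 Y) →ₗ[k] ↥(Z2 (comapBasis V.subtype 𝓑) (Rep.res V.subtype Y)) :=
  LevelCohRes28.ppZ2 V.subtype (LinearMap.id : Y.V →ₗ[k] (Rep.res V.subtype Y).V)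
    (fun _ _ => rfl) (isLevelHom_subtype 𝓑 V)

theorem resV_mk (z : ↥(Z2 𝓑 Y)) :
    resV 𝓑 Y V (H2mk 𝓑 Y z) = H2mk _ _ (resZ2 𝓑 Y V z) := rfl

theorem coe_resZ2 (z : ↥(Z2 𝓑 Y)) :
    ((resZ2 𝓑 Y V z : ↥(Z2 (comapBasis V.subtype 𝓑) (Rep.res V.subtype Y))) : ↥V × ↥V → Y.V) =
      fun q => (z : G × G → Y.V) ((q.1 : G), (q.2 : G)) := rfl

/-- (R1) from its raw form. -/
theorem exists_resV_eq_of_raw (p : ℕ)
    (hraw : ∀ (φ' : ↥V × ↥V → Y.V), HyperLevel25.IsLevel₂ (comapSet V.subtype 𝓑.sets) φ' →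
      dTwo (Y.ρ.comp V.subtype) φ' = 0 → ∀ (a : ℕ) (v' : ↥V → Y.V),
      HyperLevel25.IsLevel₁ (comapSet V.subtype 𝓑.sets) v' →
      p ^ a • φ' = dOne (Y.ρ.comp V.subtype) v' →
      ∃ (φ : G × G → Y.V) (m : ℕ) (v : G → Y.V) (w' : ↥V → Y.V),
        HyperLevel25.IsLevel₂ 𝓑.sets φ ∧ dTwo Y.ρ φ = 0 ∧ HyperLevel25.IsLevel₁ 𝓑.sets v ∧
        p ^ m • φ = dOne Y.ρ v ∧ HyperLevel25.IsLevel₁ (comapSet V.subtype 𝓑.sets) w' ∧
        (fun q : ↥V × ↥V => φ ((q.1 : G), (q.2 : G))) = φ' + dOne (Y.ρ.comp V.subtype) w')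
    (x : LevelCoh28.H2 (comapBasis V.subtype 𝓑) (Rep.res V.subtype Y)) (a : ℕ)
    (hx : p ^ a • x = 0) :
    ∃ y : LevelCoh28.H2 𝓑 Y, (∃ m : ℕ, p ^ m • y = 0) ∧ resV 𝓑 Y V y = x := by
  obtain ⟨z', rfl⟩ := H2mk_surjective _ _ x
  have hz' := (mem_Z2_iff _ _ _).1 z'.2
  rw [← map_nsmul, H2mk_eq_zero_iff, mem_B2_iff] at hx
  obtain ⟨v', hv'l, hv'⟩ := hx
  obtain ⟨φ, m, v, w', hφl, hφc, hvl, hv, hw'l, hrel⟩ := hraw (z' : ↥V × ↥V → Y.V)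
    ((LevelCompare13.isLevel₂_iff _).1 hz'.2)
    ((LevelCompare13.mem_cocycles₂_iff (Rep.res V.subtype Y) _).1 hz'.1) a v'
    ((LevelCompare13.isLevel₁_iff _).1 hv'l)
    (by
      have := LevelCompare13.dOne_eq (Rep.res V.subtype Y) v'
      rw [hv'] at this
      exact this.symm)
  have hφZ : φ ∈ Z2 𝓑 Y :=
    ⟨(LevelCompare13.mem_cocycles₂_iff Y φ).2 hφc, (LevelCompare13.isLevel₂_iff φ).2 hφl⟩
  refine ⟨H2mk 𝓑 Y ⟨φ, hφZ⟩, ⟨m, ?_⟩, ?_⟩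
  · rw [← map_nsmul, H2mk_eq_zero_iff, mem_B2_iff]
    refine ⟨v, (LevelCompare13.isLevel₁_iff v).2 hvl, ?_⟩
    rw [← LevelCompare13.dOne_eq Y v, ← hv]
    rfl
  · rw [resV_mk, ← sub_eq_zero, ← map_sub, H2mk_eq_zero_iff, mem_B2_iff]
    refine ⟨w', (LevelCompare13.isLevel₁_iff w').2 hw'l, ?_⟩
    rw [← LevelCompare13.dOne_eq (Rep.res V.subtype Y) w']
    have h1 : ((resZ2 𝓑 Y V ⟨φ, hφZ⟩ - z' :
        ↥(Z2 (comapBasis V.subtype 𝓑) (Rep.res V.subtype Y))) : ↥V × ↥V → Y.V) =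
        (fun q : ↥V × ↥V => φ ((q.1 : G), (q.2 : G))) - (z' : ↥V × ↥V → Y.V) := rfl
    rw [h1, hrel]
    show dOne (Y.ρ.comp V.subtype) w' = _
    abel

/-- (R2) from its raw form. -/
theorem resV_eq_zero_of_raw (p idx : ℕ)
    (hraw : ∀ (φ : G × G → Y.V), HyperLevel25.IsLevel₂ 𝓑.sets φ → dTwo Y.ρ φ = 0 →
      ∀ (m : ℕ) (v : G → Y.V), HyperLevel25.IsLevel₁ 𝓑.sets v → p ^ m • φ = dOne Y.ρ v →
      ∀ v₂ : G → Y.V, HyperLevel25.IsLevel₁ 𝓑.sets v₂ → idx • φ = dOne Y.ρ v₂ →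
      ∃ w' : ↥V → Y.V, HyperLevel25.IsLevel₁ (comapSet V.subtype 𝓑.sets) w' ∧
        (fun q : ↥V × ↥V => φ ((q.1 : G), (q.2 : G))) = dOne (Y.ρ.comp V.subtype) w')
    (y : LevelCoh28.H2 𝓑 Y) (m : ℕ) (hy : p ^ m • y = 0) (hidx : idx • y = 0) :
    resV 𝓑 Y V y = 0 := by
  obtain ⟨z, rfl⟩ := H2mk_surjective _ _ y
  have hz := (mem_Z2_iff _ _ _).1 z.2
  rw [← map_nsmul, H2mk_eq_zero_iff, mem_B2_iff] at hy hidx
  obtain ⟨v, hvl, hv⟩ := hy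
  obtain ⟨v₂, hv₂l, hv₂⟩ := hidx
  obtain ⟨w', hw'l, hrel⟩ := hraw (z : G × G → Y.V) ((LevelCompare13.isLevel₂_iff _).1 hz.2)
    ((LevelCompare13.mem_cocycles₂_iff Y _).1 hz.1) m v ((LevelCompare13.isLevel₁_iff _).1 hvl)
    (by
      have := LevelCompare13.dOne_eq Y v
      rw [hv] at this
      exact this.symm)
    v₂ ((LevelCompare13.isLevel₁_iff _).1 hv₂l)
    (by
      have := LevelCompare13.dOne_eq Y v₂
      rw [hv₂] at this
      exact this.symm)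
  rw [resV_mk, H2mk_eq_zero_iff, mem_B2_iff]
  refine ⟨w', (LevelCompare13.isLevel₁_iff w').2 hw'l, ?_⟩
  rw [← LevelCompare13.dOne_eq (Rep.res V.subtype Y) w', coe_resZ2, hrel]

end RepGen

/-! ### the theorems -/

section OpenRep

variable {G : Type} [Group G] (𝓑 : LevelCoh28.LevelBasis G) (Y : Rep.{0} ℤ G)
  (hY : LevelCoh28.IsDiscrete 𝓑.sets Y) {p : ℕ} [Fact p.Prime]
  (hfund : FundFixedRep 𝓑 Y p) (V : Subgroup G) (hV : ∃ U ∈ 𝓑.sets, U ≤ V)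

include hY hfund hV in
/-- **(R1)**: restriction to an open subgroup is ONTO on `p`-primary classes of `H²_lev`. -/
theorem exists_resV_eq
    (x : LevelCoh28.H2 (comapBasis V.subtype 𝓑) (Rep.res V.subtype Y)) (a : ℕ)
    (hx : p ^ a • x = 0) :
    ∃ y : LevelCoh28.H2 𝓑 Y, (∃ m : ℕ, p ^ m • y = 0) ∧ resV 𝓑 Y V y = x :=
  exists_resV_eq_of_raw 𝓑 Y V p (fun φ' h1 h2 a v' h3 h4 =>
    @exists_res_eq_open G _ Y.V _ Y.hV2 Y.ρ 𝓑.sets (LevelEquiv29.basis 𝓑) hY p _ hfund V hV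
      φ' h1 h2 a v' h3 h4) x a hx

include hY hfund hV in
/-- **(R2)**: a `p`-primary class of `H²_lev(G; Y)` killed by `[G : V]` restricts to `0`. -/
theorem resV_eq_zero_of_index_nsmul (y : LevelCoh28.H2 𝓑 Y) (m : ℕ) (hy : p ^ m • y = 0)
    (hidx : V.index • y = 0) : resV 𝓑 Y V y = 0 :=
  resV_eq_zero_of_raw 𝓑 Y V p V.index (fun φ h1 h2 m v h3 h4 v₂ h5 h6 =>
    @res_eq_dOne_open G _ Y.V _ Y.hV2 Y.ρ 𝓑.sets (LevelEquiv29.basis 𝓑) hY p _ hfund V hV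
      φ h1 h2 m v h3 h4 v₂ h5 h6) y m hy hidx

include hY hfund hV in
/-- **(R3)**: an additive map `N : H²_lev(V; Y) → H²_lev(G; Y)` with `N ∘ res_V = [G : V]` (the
trace / corestriction) kills no non-zero `p`-primary class. -/
theorem eq_zero_of_trace_eq_zero
    (N : LevelCoh28.H2 (comapBasis V.subtype 𝓑) (Rep.res V.subtype Y) →+ LevelCoh28.H2 𝓑 Y)
    (hN : ∀ y, N (resV 𝓑 Y V y) = V.index • y)
    (x : LevelCoh28.H2 (comapBasis V.subtype 𝓑) (Rep.res V.subtype Y)) (a : ℕ)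
    (hx : p ^ a • x = 0) (hNx : N x = 0) : x = 0 := by
  obtain ⟨y, ⟨m, hy⟩, rfl⟩ := exists_resV_eq 𝓑 Y hY hfund V hV x a hx
  exact resV_eq_zero_of_index_nsmul 𝓑 Y hY hfund V hV y m hy (by rw [← hN, hNx])

include hY hfund hV in
/-- (R3), injectivity form on `p`-primary classes. -/
theorem trace_injOn_pPrimary
    (N : LevelCoh28.H2 (comapBasis V.subtype 𝓑) (Rep.res V.subtype Y) →+ LevelCoh28.H2 𝓑 Y)
    (hN : ∀ y, N (resV 𝓑 Y V y) = V.index • y)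
    (x x' : LevelCoh28.H2 (comapBasis V.subtype 𝓑) (Rep.res V.subtype Y)) (a a' : ℕ)
    (hx : p ^ a • x = 0) (hx' : p ^ a' • x' = 0) (h : N x = N x') : x = x' := by
  rw [← sub_eq_zero]
  refine eq_zero_of_trace_eq_zero 𝓑 Y hY hfund V hV N hN (x - x') (a + a') ?_
    (by rw [map_sub, h, sub_self])
  have h1 : p ^ (a + a') • x = 0 := by rw [pow_add, mul_comm, mul_smul, hx, smul_zero]
  have h2 : p ^ (a + a') • x' = 0 := by rw [pow_add, mul_smul, hx', smul_zero]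
  rw [smul_sub, h1, h2, sub_self]

end OpenRep

/-! ### the local datum -/

section Local

open Fermat.Agent.PT.GLUE.LocalHypR11

variable (q : ℕ) [Fact q.Prime]

local notation "Γq" => (PadicAlgCl q ≃ₐ[ℚ_[q]] PadicAlgCl q)

theorem fundFixedRep_unitsLoc (p : ℕ) : FundFixedRep (levelLoc q) (unitsLoc q) p :=
  Fermat.Agent.PT.GLUE.LocalFund11.fundFixed_unitsLoc q p

/-- **Local corestriction is injective on the `p`-primary part of the Brauer group**: for an open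
subgroup `V ≤ Γ_q`, an additive `N : H²_lev(V; ℚ̄_qˣ) → H²_lev(Γ_q; ℚ̄_qˣ)` with
`N ∘ res_V = [Γ_q : V]` kills no non-zero `p`-primary class. -/
theorem eq_zero_of_trace_eq_zero_local (p : ℕ) [Fact p.Prime] (V : Subgroup Γq)
    (hV : ∃ U ∈ (levelLoc q).sets, U ≤ V)
    (N : LevelCoh28.H2 (comapBasis V.subtype (levelLoc q)) (Rep.res V.subtype (unitsLoc q)) →+
      LevelCoh28.H2 (levelLoc q) (unitsLoc q))
    (hN : ∀ y, N (resV (levelLoc q) (unitsLoc q) V y) = V.index • y)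
    (x : LevelCoh28.H2 (comapBasis V.subtype (levelLoc q)) (Rep.res V.subtype (unitsLoc q)))
    (a : ℕ) (hx : p ^ a • x = 0) (hNx : N x = 0) : x = 0 :=
  eq_zero_of_trace_eq_zero (levelLoc q) (unitsLoc q) (isDiscrete_unitsLoc q)
    (fundFixedRep_unitsLoc q p) V hV N hN x a hx hNx

end Local

end Fermat.Agent.W56.ResOpen6
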