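/-
Programme W56 (target S56), chapter (EC-5), helper6: **nested double cosets** = helper4's contract
`BaseDefs4.SplitDC` (pure group theory).

For `i : L →* G`, `V ≤ Ch ≤ G`, `V ◁ G`: the `Ch ⧸ V`-set `i(L) \ G / V` is the disjoint union over
`w ∈ i(L) \ G / Ch` of the `j_w(L_w) \ Ch / V` (`L_w = i⁻¹(g_w Ch g_w⁻¹)`, `j_w = g_w⁻¹ i(·) g_w`,
`g_w = w.out`).
-/
import Mathlib
import Fermat.Agent.W56.BaseDefs4

set_option autoImplicit false

namespace Fermat.Agent.W56.SplitDC6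

open Fermat.Agent.W56.Mackey2 Fermat.Agent.W56.BaseDefs4

variable {G L : Type} [Group G] [Group L] (i : L →* G) (V Ch : Subgroup G) [hVn : V.Normal]
  (hVC : V ≤ Ch)

/-- The projection `i(L) \ G / V → i(L) \ G / Ch`. -/
def proj (hVC : V ≤ Ch) : DC i V → DC i Ch :=
  Quotient.lift (fun x => Quotient.mk (dcSetoidV i Ch) x) (by
    rintro x x' ⟨h, v, e⟩
    exact Quotient.sound ⟨h, ⟨v, hVC v.2⟩, e⟩)

theorem proj_mk (x : G) :
    proj i V Ch hVC (Quotient.mk (dcSetoidV i V) x) = Quotient.mk (dcSetoidV i Ch) x := rfl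

/-- `D.out ∈ i(L) · (proj D).out · Ch`. -/
theorem inDC_out (D : DC i V) : InDC i Ch (proj i V Ch hVC D).out D.out := by
  rw [inDC_out_iff, ← proj_mk i V Ch hVC, Quotient.out_eq]

/-- The `Ch`-component of a representative of `D`. -/
noncomputable def cOf (D : DC i V) : ↥Ch := (inDC_out i V Ch hVC D).choose_spec.choose

theorem out_eq (D : DC i V) :
    D.out = i (inDC_out i V Ch hVC D).choose * (proj i V Ch hVC D).out * (cOf i V Ch hVC D : G) :=
  (inDC_out i V Ch hVC D).choose_spec.choose_spec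

/-- The bijection, forward direction. -/
noncomputable def fwd (D : DC i V) : Σ w : DC i Ch, DC (jg i Ch w.out) (V.subgroupOf Ch) :=
  ⟨proj i V Ch hVC D, Quotient.mk _ (cOf i V Ch hVC D)⟩

/-- **Characterisation of `fwd`** on any representative and any decomposition of it. -/
theorem fwd_eq (x : G) (w : DC i Ch) (hw : Quotient.mk (dcSetoidV i Ch) x = w) (h : L) (c : ↥Ch)
    (hx : x = i h * w.out * (c : G)) :
    fwd i V Ch hVC (Quotient.mk (dcSetoidV i V) x) =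
      ⟨w, Quotient.mk (dcSetoidV (jg i Ch w.out) (V.subgroupOf Ch)) c⟩ := by
  subst hw
  set D : DC i V := Quotient.mk (dcSetoidV i V) x with hD
  have hpr : proj i V Ch hVC D = Quotient.mk (dcSetoidV i Ch) x := rfl
  -- `D.out ~ x`
  have h1 : (dcSetoidV i V).r x D.out := Quotient.exact (by rw [Quotient.out_eq])
  obtain ⟨h₀, v, hv⟩ := h1
  have h2 := out_eq i V Ch hVC D
  set h' := (inDC_out i V Ch hVC D).choose with hh'
  set c' := cOf i V Ch hVC D with hc'
  show (⟨proj i V Ch hVC D, Quotient.mk _ c'⟩ :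
      Σ w : DC i Ch, DC (jg i Ch w.out) (V.subgroupOf Ch)) = _
  have key : ∀ (g : G) (c' : ↥Ch), i h' * g * (c' : G) = i h₀ * (i h * g * (c : G)) * (v : G) →
      (Quotient.mk (dcSetoidV (jg i Ch g) (V.subgroupOf Ch)) c' : DC (jg i Ch g) _) =
        Quotient.mk _ c := by
    intro g c' e
    symm
    apply Quotient.sound
    -- `c' = jg t * c * v`, `t = h'⁻¹ h₀ h`
    have e1 : g⁻¹ * i (h'⁻¹ * h₀ * h) * g = (c' : G) * (v : G)⁻¹ * (c : G)⁻¹ := by
      have : i h' * g * (c' : G) * (v : G)⁻¹ * (c : G)⁻¹ = i h₀ * i h * g := by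
        rw [e]; group
      have e2 : g * ((c' : G) * (v : G)⁻¹ * (c : G)⁻¹) = (i h')⁻¹ * i h₀ * i h * g := by
        have : g * ((c' : G) * (v : G)⁻¹ * (c : G)⁻¹) =
            (i h')⁻¹ * (i h' * g * (c' : G) * (v : G)⁻¹ * (c : G)⁻¹) := by group
        rw [this, ‹i h' * g * (c' : G) * (v : G)⁻¹ * (c : G)⁻¹ = i h₀ * i h * g›]
        group
      rw [map_mul, map_mul, map_inv]
      have : g⁻¹ * ((i h')⁻¹ * i h₀ * i h) * g = g⁻¹ * ((i h')⁻¹ * i h₀ * i h * g) := by group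
      rw [this, ← e2]
      group
    have hvC : (v : G) ∈ Ch := hVC v.2
    have ht : h'⁻¹ * h₀ * h ∈ Hg i Ch g := by
      rw [mem_Hg, e1]
      exact Ch.mul_mem (Ch.mul_mem c'.2 (Ch.inv_mem hvC)) (Ch.inv_mem c.2)
    refine ⟨⟨h'⁻¹ * h₀ * h, ht⟩, ⟨⟨(v : G), hvC⟩, Subgroup.mem_subgroupOf.2 v.2⟩, ?_⟩
    apply Subtype.ext
    show (c' : G) = g⁻¹ * i (h'⁻¹ * h₀ * h) * g * (c : G) * (v : G)
    rw [e1]
    group
  rw [hpr] at h2 ⊢
  have e : i h' * (Quotient.mk (dcSetoidV i Ch) x).out * (c' : G) =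
      i h₀ * (i h * (Quotient.mk (dcSetoidV i Ch) x).out * (c : G)) * (v : G) := by
    rw [← h2, hv, ← hx]
  exact Sigma.ext rfl (heq_of_eq (key _ c' e))

/-- The inverse direction. -/
noncomputable def bwd : (Σ w : DC i Ch, DC (jg i Ch w.out) (V.subgroupOf Ch)) → DC i V := fun p =>
  Quotient.liftOn p.2 (fun c => Quotient.mk (dcSetoidV i V) (p.1.out * (c : G))) (by
    rintro c c' ⟨t, v', rfl⟩
    apply Quotient.sound
    refine ⟨(t : L), ⟨((v' : ↥Ch) : G), Subgroup.mem_subgroupOf.1 v'.2⟩, ?_⟩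
    show p.1.out * (((jg i Ch p.1.out t * c * (v' : ↥Ch) : ↥Ch)) : G) =
      i (t : L) * (p.1.out * (c : G)) * ((v' : ↥Ch) : G)
    simp only [Subgroup.coe_mul, coe_jg]
    group)

theorem bwd_mk (w : DC i Ch) (c : ↥Ch) :
    bwd i V Ch ⟨w, Quotient.mk _ c⟩ = Quotient.mk (dcSetoidV i V) (w.out * (c : G)) := rfl

/-- **The bijection.** -/
noncomputable def equiv : DC i V ≃ Σ w : DC i Ch, DC (jg i Ch w.out) (V.subgroupOf Ch) where
  toFun := fwd i V Ch hVC
  invFun := bwd i V Ch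
  left_inv D := by
    show bwd i V Ch ⟨proj i V Ch hVC D, Quotient.mk _ (cOf i V Ch hVC D)⟩ = D
    rw [bwd_mk]
    conv_rhs => rw [← Quotient.out_eq D]
    apply Quotient.sound
    have h := out_eq i V Ch hVC D
    refine ⟨(inDC_out i V Ch hVC D).choose, 1, ?_⟩
    show D.out = i _ * ((proj i V Ch hVC D).out * (cOf i V Ch hVC D : G)) * ((1 : ↥V) : G)
    rw [Subgroup.coe_one, mul_one, ← mul_assoc]
    exact h
  right_inv := by
    rintro ⟨w, d⟩
    induction d using Quotient.inductionOn with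
    | h c =>
      rw [bwd_mk]
      refine fwd_eq i V Ch hVC (w.out * (c : G)) w ?_ 1 c (by simp)
      have : Quotient.mk (dcSetoidV i Ch) (w.out * (c : G)) = Quotient.mk (dcSetoidV i Ch) w.out :=
        (Quotient.sound ⟨1, c, by simp⟩ : Quotient.mk (dcSetoidV i Ch) w.out = _).symm
      rw [this, Quotient.out_eq]

/-- **`BaseDefs4.SplitDC`.** -/
theorem splitDC : BaseDefs4.SplitDC := by
  intro G L _ _ i V Ch hVn hVC
  refine ⟨equiv i V Ch hVC, fun c₀ D => ?_⟩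
  induction D using Quotient.inductionOn with
  | h x =>
    set w : DC i Ch := Quotient.mk (dcSetoidV i Ch) x with hw
    obtain ⟨h, c, hx⟩ : InDC i Ch w.out x := (inDC_out_iff i Ch w x).2 rfl
    have h1 : equiv i V Ch hVC (Quotient.mk (dcSetoidV i V) x) =
        ⟨w, Quotient.mk (dcSetoidV (jg i Ch w.out) (V.subgroupOf Ch)) c⟩ :=
      fwd_eq i V Ch hVC x w rfl h c hx
    have h2 : equiv i V Ch hVC (Quotient.mk (dcSetoidV i V) (x * (c₀ : G)⁻¹)) =
        ⟨w, Quotient.mk (dcSetoidV (jg i Ch w.out) (V.subgroupOf Ch)) (c * c₀⁻¹)⟩ := by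
      refine fwd_eq i V Ch hVC (x * (c₀ : G)⁻¹) w ?_ h (c * c₀⁻¹) ?_
      · exact (Quotient.sound ⟨1, c₀⁻¹, by simp⟩ :
          Quotient.mk (dcSetoidV i Ch) x = _).symm
      · rw [hx]
        simp [mul_assoc]
    rw [mk_smul_mk, h2, h1]
    rfl

end Fermat.Agent.W56.SplitDC6
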