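/-
Programme W56 (target S56), stage 2, chapter (EC-5), helper4: **descent along `ι : Y → W(Y)` on
`p`-torsion, and the trivial-action lemma**.

`G`, `𝓑`, `H ◁ G` open, `Q = G ⧸ H` finite of order prime to `p`, `Y` a discrete `ℤ[G]`-module,
`W(Y) = Coind_H^G Res_H Y` with the action `star` of `Q`.

* `piW : W(Y) → Y`, `F ↦ Σ_q (q ⋆ F)(1)`, is `G`-equivariant and `piW ∘ ι = |Q|`.
* `iotaH2 : H²(G;Y) → H²(G;W Y)` has `Q`-invariant image and is injective on `p`-torsion.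
* `muP_tors_W_trivial` ("`Q` acts trivially on `H²(H;Y)[p]`"): if `H²(G;Y)[p] ≠ 0` and
  `#H²(H;Y)[p] ≤ p` then `H²(G;W Y)[p] ≅ 𝔽_p` with the trivial action of `Q`.
-/
import Mathlib
import Fermat.Agent.W56.KummerStar4
import Fermat.Agent.W56.CoindStar4
import Fermat.Agent.W56.TraceOpen8
import Fermat.Agent.W56.BrauerStar4
import Fermat.Agent.W56.EquivUnits0C
import Fermat.Agent.PT.PRO.InvP4

set_option autoImplicit false
set_option linter.unusedSectionVars false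
set_option linter.style.haveILetI false

open CategoryTheory groupCohomology

namespace Fermat.Agent.W56.StarDescent4

open Fermat.Agent.PT.PRO Fermat.Agent.PT.PRO.LevelCoh28 Fermat.Agent.PT.PRO.LevelCohRes28
  Fermat.Agent.PT.PRO.SmoothCoind28 Fermat.Agent.PT.PRO.ShapiroLevel28
  Fermat.Agent.PT.PRO.InvP4 Fermat.Agent.PT.GLUE.Objects21
  Fermat.Agent.W56.IntRes4 Fermat.Agent.W56.MuP4 Fermat.Agent.W56.TorsSnake4
  Fermat.Agent.W56.KummerStar4 Fermat.Agent.W56.CoindStar4 Fermat.Agent.W56.EquivUnits0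

/-- prefer the module structure carried by a `Rep ℤ G`. -/
local instance (priority := 10000) repModZ3 {G : Type} [Group G] (E : Rep.{0} ℤ G) :
    Module ℤ E := E.hV2

variable {G : Type} [Group G] (𝓑 : LevelBasis G) (H : Subgroup G) [hH : H.Normal]
  (Y : Rep.{0} ℤ G) (hY : IsDiscrete 𝓑.sets Y) [Fintype (G ⧸ H)]

/-! ### The retraction up to `|Q|` -/

/-- `F ↦ Σ_q (q ⋆ F)(1)`, additive. -/
noncomputable def piWAdd : W 𝓑 H Y →+ Y where
  toFun F := ∑ q : G ⧸ H, val 𝓑 H Y (star 𝓑 H Y q F) 1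
  map_zero' := by
    refine Finset.sum_eq_zero fun q _ => ?_
    rw [map_zero]
    rfl
  map_add' F F' := by
    rw [← Finset.sum_add_distrib]
    refine Finset.sum_congr rfl fun q _ => ?_
    rw [map_add, val_add]

/-- `F ↦ Σ_q (q ⋆ F)(1)`. -/
noncomputable def piW : @LinearMap ℤ ℤ _ _ (RingHom.id ℤ) (W 𝓑 H Y) Y _ _ (W 𝓑 H Y).hV2 Y.hV2 :=
  @LinearMap.mk ℤ ℤ _ _ (RingHom.id ℤ) (W 𝓑 H Y) Y _ _ (W 𝓑 H Y).hV2 Y.hV2
    (AddHom.mk (fun F : W 𝓑 H Y => piWAdd 𝓑 H Y F) (map_add (piWAdd 𝓑 H Y)))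
    (fun n F => by
      show piWAdd 𝓑 H Y (@SMul.smul ℤ (W 𝓑 H Y) (W 𝓑 H Y).hV2.toSMul n F) =
        @SMul.smul ℤ Y Y.hV2.toSMul n (piWAdd 𝓑 H Y F)
      rw [int_smul_eq_zsmul (W 𝓑 H Y).hV2, int_smul_eq_zsmul Y.hV2, map_zsmul])

theorem piW_apply (F : W 𝓑 H Y) :
    piW 𝓑 H Y F = ∑ q : G ⧸ H, val 𝓑 H Y (star 𝓑 H Y q F) 1 := rfl

/-- the `⋆`-norm. -/
noncomputable def normW (F : W 𝓑 H Y) : W 𝓑 H Y := ∑ q : G ⧸ H, star 𝓑 H Y q F

theorem val_sum {ι : Type*} (s : Finset ι) (f : ι → W 𝓑 H Y) (x : G) :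
    val 𝓑 H Y (∑ i ∈ s, f i) x = ∑ i ∈ s, val 𝓑 H Y (f i) x := by
  classical
  induction s using Finset.induction_on with
  | empty => simp only [Finset.sum_empty]; rfl
  | insert i s hi ih => rw [Finset.sum_insert hi, Finset.sum_insert hi, val_add, ih]

theorem piW_eq_val_normW (F : W 𝓑 H Y) : piW 𝓑 H Y F = val 𝓑 H Y (normW 𝓑 H Y F) 1 := by
  rw [piW_apply, normW, val_sum]

theorem normW_mem_invariants (F : W 𝓑 H Y) : normW 𝓑 H Y F ∈ (star 𝓑 H Y).invariants := by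
  intro q
  unfold normW
  rw [map_sum]
  refine (Finset.sum_equiv (Equiv.mulLeft q) (by simp) fun q' _ => ?_)
  rw [Equiv.coe_mulLeft, map_mul]
  rfl

include hY in
theorem iota_piW (F : W 𝓑 H Y) : iota 𝓑 H Y hY (piW 𝓑 H Y F) = normW 𝓑 H Y F := by
  obtain ⟨y, hy⟩ := (mem_invariants_star_iff 𝓑 H Y hY _).1 (normW_mem_invariants 𝓑 H Y F)
  rw [piW_eq_val_normW, ← hy, iota_apply, map_one, Module.End.one_apply]

theorem normW_ρ (g : G) (F : W 𝓑 H Y) :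
    normW 𝓑 H Y ((W 𝓑 H Y).ρ g F) = (W 𝓑 H Y).ρ g (normW 𝓑 H Y F) := by
  unfold normW
  rw [map_sum]
  exact Finset.sum_congr rfl fun q _ => star_comm 𝓑 H Y q g F

include hY in
theorem piW_equivariant (g : G) (F : W 𝓑 H Y) :
    piW 𝓑 H Y ((W 𝓑 H Y).ρ g F) = Y.ρ g (piW 𝓑 H Y F) := by
  apply iota_injective 𝓑 H Y hY
  rw [iota_piW, normW_ρ, iota_equivariant, iota_piW]

include hY in
theorem piW_iota (y : Y) : piW 𝓑 H Y (iota 𝓑 H Y hY y) = Fintype.card (G ⧸ H) • y := by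
  rw [piW_apply]
  have h : ∀ q : G ⧸ H, val 𝓑 H Y (star 𝓑 H Y q (iota 𝓑 H Y hY y)) 1 = y := fun q => by
    rw [(mem_invariants_star_iff 𝓑 H Y hY _).2 ⟨y, rfl⟩ q, iota_apply, map_one,
      Module.End.one_apply]
  rw [Finset.sum_congr rfl fun q _ => h q, Finset.sum_const, Finset.card_univ]

/-! ### `ι` on `H²` -/

/-- `H²(G; Y) → H²(G; W Y)`. -/
noncomputable def iotaH2 :=
  mapH2 (𝓑 := 𝓑) (iota 𝓑 H Y hY) (iota_equivariant 𝓑 H Y hY)

theorem opH2_iotaH2 (q : G ⧸ H) (x : H2 𝓑 Y) :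
    opH2 𝓑 (W 𝓑 H Y) (star 𝓑 H Y) (star_comm 𝓑 H Y) q (iotaH2 𝓑 H Y hY x) =
      iotaH2 𝓑 H Y hY x := by
  obtain ⟨c, rfl⟩ := H2mk_surjective 𝓑 Y x
  rw [opH2_apply, iotaH2, mapH2_mk, mapH2_mk]
  congr 1
  apply Subtype.ext
  funext g
  exact (mem_invariants_star_iff 𝓑 H Y hY _).2 ⟨_, rfl⟩ q

theorem piH2_iotaH2 (x : H2 𝓑 Y) :
    mapH2 (𝓑 := 𝓑) (piW 𝓑 H Y) (piW_equivariant 𝓑 H Y hY) (iotaH2 𝓑 H Y hY x) =
      Fintype.card (G ⧸ H) • x := by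
  obtain ⟨c, rfl⟩ := H2mk_surjective 𝓑 Y x
  rw [iotaH2, mapH2_mk, mapH2_mk, ← map_nsmul]
  congr 1
  apply Subtype.ext
  funext g
  exact piW_iota 𝓑 H Y hY _

variable (p : ℕ) [Fact p.Prime] [Invertible (Fintype.card (G ⧸ H) : ZMod p)]

theorem not_dvd_card : ¬ p ∣ Fintype.card (G ⧸ H) := by
  intro h
  have h0 : (Fintype.card (G ⧸ H) : ZMod p) = 0 := (ZMod.natCast_eq_zero_iff _ _).2 h
  exact Invertible.ne_zero (Fintype.card (G ⧸ H) : ZMod p) h0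

/-- `ι_*` is injective on `p`-torsion. -/
theorem eq_zero_of_iotaH2_eq_zero {x : H2 𝓑 Y} (hx : p • x = 0)
    (h : iotaH2 𝓑 H Y hY x = 0) : x = 0 := by
  have h1 := piH2_iotaH2 𝓑 H Y hY x
  rw [h, map_zero] at h1
  exact BrauerStar4.eq_zero_of_coprime p (not_dvd_card H p) hx h1.symm

/-! ### The trivial-action lemma -/

variable (hHo : ∃ V ∈ 𝓑.sets, V ≤ H)
  {P : Type*} [AddCommGroup P] [Module (ZMod p) P] [FiniteDimensional (ZMod p) P]
  (ρP : Representation (ZMod p) (G ⧸ H) P)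

/-- Shapiro: `H²(G; W Y) ≃ H²(H; Y)`. -/
noncomputable def shW :
    H2 𝓑 (W 𝓑 H Y) ≃+ H2 (comapBasis H.subtype 𝓑) (Rep.res H.subtype Y) :=
  AddEquiv.ofBijective
    (sh2 H.subtype 𝓑 (comapBasis H.subtype 𝓑) (TraceOpen8.isLevelHom_subtype 𝓑 H)
          (Rep.res H.subtype Y)).toAddMonoidHom
    (sh2_bijective H.subtype 𝓑 (comapBasis H.subtype 𝓑) (TraceOpen8.isLevelHom_subtype 𝓑 H)
      (TraceOpen8.hind_subtype 𝓑 H) (Rep.res H.subtype Y) (TraceOpen8.isDiscrete_resV 𝓑 Y H hY))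

include hY in
theorem finite_tors
    (hcard : Nat.card ↥(pTor p (H2 (comapBasis H.subtype 𝓑) (Rep.res H.subtype Y))) = p) :
    Finite ↥(torsP p (H2 𝓑 (W 𝓑 H Y))) ∧ Nat.card ↥(torsP p (H2 𝓑 (W 𝓑 H Y))) ≤ p := by
  have hp : p.Prime := Fact.out
  haveI : Finite ↥(pTor p (H2 (comapBasis H.subtype 𝓑) (Rep.res H.subtype Y))) :=
    Nat.finite_of_card_ne_zero (by rw [hcard]; exact hp.ne_zero)
  have hinj : Function.Injective (fun x : ↥(torsP p (H2 𝓑 (W 𝓑 H Y))) =>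
      (⟨shW 𝓑 H Y hY x.1, by
        show p • shW 𝓑 H Y hY x.1 = 0
        rw [← map_nsmul, (mem_torsP p).1 x.2, map_zero]⟩ :
        ↥(pTor p (H2 (comapBasis H.subtype 𝓑) (Rep.res H.subtype Y))))) := by
    intro x x' h
    exact Subtype.ext ((shW 𝓑 H Y hY).injective (congrArg Subtype.val h))
  exact ⟨Finite.of_injective _ hinj, (Nat.card_le_card_of_injective _ hinj).trans hcard.le⟩

include hY in
/-- **The trivial-action lemma**: if `H²(G;Y)[p] ≠ 0` and `#H²(H;Y)[p] = p`, then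
`H²(G;W Y)[p] ≅ 𝔽_p` with the trivial action of `Q = G ⧸ H`. -/
theorem muP_tors_W_trivial
    (hne : ∃ x : H2 𝓑 Y, x ≠ 0 ∧ p • x = 0)
    (hcard : Nat.card ↥(pTor p (H2 (comapBasis H.subtype 𝓑) (Rep.res H.subtype Y))) = p) :
    muP ρP (torsRep p (canonRep (opH2 𝓑 (W 𝓑 H Y) (star 𝓑 H Y) (star_comm 𝓑 H Y)))) =
      muP ρP (funPerm (ZMod p) (G ⧸ H) PUnit.{1}) := by
  have hp : p.Prime := Fact.out
  obtain ⟨hfin, hle⟩ := finite_tors 𝓑 H Y hY p hcard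
  obtain ⟨x, hx0, hxp⟩ := hne
  set M := ↥(torsP p (H2 𝓑 (W 𝓑 H Y))) with hM
  -- the invariant generator
  let y₀ : M := ⟨iotaH2 𝓑 H Y hY x, by
    show p • iotaH2 𝓑 H Y hY x = 0
    rw [← map_nsmul, hxp, map_zero]⟩
  have hy₀ : y₀ ≠ 0 := fun h =>
    hx0 (eq_zero_of_iotaH2_eq_zero 𝓑 H Y hY p hxp (congrArg Subtype.val h))
  have hfix : ∀ q : G ⧸ H,
      torsRep p (canonRep (opH2 𝓑 (W 𝓑 H Y) (star 𝓑 H Y) (star_comm 𝓑 H Y))) q y₀ = y₀ :=
    fun q => Subtype.ext (opH2_iotaH2 𝓑 H Y hY q x)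
  -- `c ↦ c • y₀` is a bijection `𝔽_p → M`
  let f : (PUnit.{1} → ZMod p) →ₗ[ZMod p] M :=
    { toFun := fun a => a PUnit.unit • y₀
      map_add' := fun a b => by rw [Pi.add_apply, add_smul]
      map_smul' := fun r a => by rw [Pi.smul_apply, smul_eq_mul, mul_smul]; rfl }
  have hfinj : Function.Injective f := by
    rw [injective_iff_map_eq_zero]
    intro a ha
    funext u
    cases u
    have h1 : a PUnit.unit • y₀ = 0 := ha
    rcases smul_eq_zero.1 h1 with h | h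
    · exact h
    · exact absurd h hy₀
  have hfsurj : Function.Surjective f := by
    haveI : Finite M := hfin
    have hcardF : Nat.card (PUnit.{1} → ZMod p) = p := by
      rw [Nat.card_eq_fintype_card, Fintype.card_pi]
      simp [ZMod.card]
    have hle' : Nat.card M ≤ Nat.card (PUnit.{1} → ZMod p) := by rw [hcardF]; exact hle
    exact ((Nat.bijective_iff_injective_and_card f).2
      ⟨hfinj, le_antisymm (Nat.card_le_card_of_injective f hfinj) hle'⟩).2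
  have hfeq : ∀ (q : G ⧸ H) (a : PUnit.{1} → ZMod p),
      f (funPerm (ZMod p) (G ⧸ H) PUnit.{1} q a) =
        torsRep p (canonRep (opH2 𝓑 (W 𝓑 H Y) (star 𝓑 H Y) (star_comm 𝓑 H Y))) q (f a) := by
    intro q a
    show (funPerm (ZMod p) (G ⧸ H) PUnit.{1} q a) PUnit.unit • y₀ =
      torsRep p (canonRep (opH2 𝓑 (W 𝓑 H Y) (star 𝓑 H Y) (star_comm 𝓑 H Y))) q
        (a PUnit.unit • y₀)
    rw [map_smul, hfix q]
    rfl
  exact (muP_congr ρP _ _ (LinearEquiv.ofBijective f ⟨hfinj, hfsurj⟩) hfeq).symm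

end Fermat.Agent.W56.StarDescent4
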