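/-
Programme W56 (target S56), item (AR3) (helper6): **the trace `N_* : H²_lev(V; Y) → H²_lev(G; Y)`
of an open subgroup is injective on `p`-primary classes**, for a datum `(G, 𝓑, Y)` with fundamental
classes at all finite levels.

= `ResOpen6.eq_zero_of_trace_eq_zero` applied to helper8's `TraceOpen8.trV` (`trV ∘ resV = [G : V]`).
Local instance: `(Γ_q, levelLoc q, ℚ̄_qˣ)` ("local corestriction is injective on `Br(p)`").
-/
import Mathlib
import Fermat.Agent.W56.ResOpen6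
import Fermat.Agent.W56.TraceOpen8

set_option autoImplicit false

namespace Fermat.Agent.W56.TraceInj6

open Fermat.Agent.PT.PRO Fermat.Agent.PT.GLUE.Objects21 Fermat.Agent.W56.LevExh8
  Fermat.Agent.W56.TraceOpen8

section Gen

variable {G : Type} [Group G] (𝓑 : LevelCoh28.LevelBasis G) (Y : Rep.{0} ℤ G)
  (hY : LevelCoh28.IsDiscrete 𝓑.sets Y) {p : ℕ} [Fact p.Prime]
  (hfund : FundFixedRep 𝓑 Y p) (V : Subgroup G) (hV : ∃ U ∈ 𝓑.sets, U ≤ V) [Fintype (G ⧸ V)]

include hfund hV in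
/-- **The trace kills no non-zero `p`-primary class.** -/
theorem eq_zero_of_trV_eq_zero
    (x : LevelCoh28.H2 (comapBasis V.subtype 𝓑) (Rep.res V.subtype Y)) (a : ℕ)
    (hx : p ^ a • x = 0) (h : trV 𝓑 Y V hY x = 0) : x = 0 :=
  ResOpen6.eq_zero_of_trace_eq_zero 𝓑 Y hY hfund V hV (trVAdd 𝓑 Y V hY)
    (fun y => trVAdd_resV 𝓑 Y V hY y) x a hx h

include hfund hV in
/-- **The trace is injective on `p`-primary classes.** -/
theorem trV_injOn_pPrimary
    (x x' : LevelCoh28.H2 (comapBasis V.subtype 𝓑) (Rep.res V.subtype Y)) (a a' : ℕ)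
    (hx : p ^ a • x = 0) (hx' : p ^ a' • x' = 0) (h : trV 𝓑 Y V hY x = trV 𝓑 Y V hY x') :
    x = x' :=
  ResOpen6.trace_injOn_pPrimary 𝓑 Y hY hfund V hV (trVAdd 𝓑 Y V hY)
    (fun y => trVAdd_resV 𝓑 Y V hY y) x x' a a' hx hx' h

include hY hfund hV in
/-- `res_V` is onto on `p`-primary classes (helper8's `resV`). -/
theorem exists_resV_eq
    (x : LevelCoh28.H2 (comapBasis V.subtype 𝓑) (Rep.res V.subtype Y)) (a : ℕ)
    (hx : p ^ a • x = 0) :
    ∃ y : LevelCoh28.H2 𝓑 Y, (∃ m : ℕ, p ^ m • y = 0) ∧ resV 𝓑 Y V y = x :=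
  ResOpen6.exists_resV_eq 𝓑 Y hY hfund V hV x a hx

end Gen

section Local

open Fermat.Agent.PT.GLUE.LocalHypR11

variable (q : ℕ) [Fact q.Prime]

local notation "Γq" => (PadicAlgCl q ≃ₐ[ℚ_[q]] PadicAlgCl q)

/-- **Local corestriction is injective on the `p`-primary part of the Brauer group**: for an open
subgroup `V ≤ Γ_q`, the trace `H²_lev(V; ℚ̄_qˣ) → H²_lev(Γ_q; ℚ̄_qˣ)` kills no non-zero `p`-primary
class. -/
theorem eq_zero_of_trV_eq_zero_local (p : ℕ) [Fact p.Prime] (V : Subgroup Γq)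
    (hV : ∃ U ∈ (levelLoc q).sets, U ≤ V) [Fintype (Γq ⧸ V)]
    (x : LevelCoh28.H2 (comapBasis V.subtype (levelLoc q)) (Rep.res V.subtype (unitsLoc q)))
    (a : ℕ) (hx : p ^ a • x = 0)
    (h : trV (levelLoc q) (unitsLoc q) V (isDiscrete_unitsLoc q) x = 0) : x = 0 :=
  eq_zero_of_trV_eq_zero (levelLoc q) (unitsLoc q) (isDiscrete_unitsLoc q)
    (ResOpen6.fundFixedRep_unitsLoc q p) V hV x a hx h

end Local

end Fermat.Agent.W56.TraceInj6
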