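/-
Programme W56 (target S56), shared package "class formation over an open subgroup" (helper8):
**compatibility of the trace with Shapiro's lemma.**

`i : H →* G`, `Y` an `H`-module, `X = Coind_H^G Y` (`scoind i 𝓑G Y`), `V ≤ G` open, `V_H = i⁻¹ V`.
The explicit `G`-equivariant map
`phi : Coind_H^G (Coind_{V_H}^H Y|_{V_H}) → Coind_V^G (X|_V)`,
`phi F g x = d⁻¹ • F (x g) d` if `i d * x ∈ V` (and `0` if `x ∉ i(H)⁻¹ V`), satisfies
`trace_X ∘ phi = Coind_H^G (trace_Y)`.  Consequence (`exists_lift_trace`): there is a linear map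
`L : H²_lev(V_H; Y) → H²_lev(V; X)` with `sh2 (trV (L a)) = trV a`, i.e. every local trace is, under
Shapiro's isomorphism, the trace of a class of `V` with values in the coinduced module.
-/
import Mathlib
import Fermat.Agent.W56.TraceOpen8

set_option autoImplicit false
set_option linter.unusedSectionVars false
set_option linter.style.haveILetI false

open CategoryTheory groupCohomology

namespace Fermat.Agent.W56.TraceShap8

open Fermat.Agent.PT.PRO.LevelCoh28 Fermat.Agent.PT.PRO.LevelCohRes28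
  Fermat.Agent.PT.PRO.SmoothCoind28 Fermat.Agent.PT.PRO.ShapiroLevel28
  Fermat.Agent.PT.GLUE.Objects21 Fermat.Agent.W56.Retract2 Fermat.Agent.W56.TraceOpen8

variable {k G H : Type} [CommRing k] [Group G] [Group H]
variable (i : H →* G) (𝓑G : LevelBasis G) (𝓑H : LevelBasis H) (Y : Rep.{0} k H) (V : Subgroup G)

/-- The source `Coind_H^G (Coind_{V_H}^H Y)`. -/
noncomputable abbrev JJ : Rep.{0} k G := scoind i 𝓑G (CoindRes 𝓑H Y (V.comap i))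

/-- The coinduced module `X = Coind_H^G Y`. -/
noncomputable abbrev XX : Rep.{0} k G := scoind i 𝓑G Y

/-- `x ∈ i(H)⁻¹ V`. -/
def InHV (x : G) : Prop := ∃ d : H, i d * x ∈ V

theorem inHV_mul_left (e : H) (x : G) : InHV i V (i e * x) ↔ InHV i V x := by
  constructor
  · rintro ⟨d, hd⟩
    exact ⟨d * e, by rwa [map_mul, mul_assoc]⟩
  · rintro ⟨d, hd⟩
    refine ⟨d * e⁻¹, ?_⟩
    have : i (d * e⁻¹) * (i e * x) = i d * x := by rw [map_mul, map_inv]; group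
    rwa [this]

theorem inHV_mul_right (x : G) {v : G} (hv : v ∈ V) : InHV i V (x * v) ↔ InHV i V x := by
  constructor
  · rintro ⟨d, hd⟩
    refine ⟨d, ?_⟩
    have : i d * x = i d * (x * v) * v⁻¹ := by group
    rw [this]
    exact V.mul_mem hd (V.inv_mem hv)
  · rintro ⟨d, hd⟩
    refine ⟨d, ?_⟩
    rw [← mul_assoc]
    exact V.mul_mem hd hv

open Classical in
/-- The underlying function of `phi`. -/
noncomputable def phiFun (F : JJ i 𝓑G 𝓑H Y V) (g x : G) : Y :=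
  if h : InHV i V x then Y.ρ (h.choose)⁻¹ ((F.1 (x * g)).1 h.choose) else 0

theorem phiFun_of_not (F : JJ i 𝓑G 𝓑H Y V) (g : G) {x : G} (hx : ¬ InHV i V x) :
    phiFun i 𝓑G 𝓑H Y V F g x = 0 := by
  rw [phiFun, dif_neg hx]

theorem phiFun_apply (F : JJ i 𝓑G 𝓑H Y V) (g x : G) (d : H) (hd : i d * x ∈ V) :
    phiFun i 𝓑G 𝓑H Y V F g x = Y.ρ d⁻¹ ((F.1 (x * g)).1 d) := by
  have hx : InHV i V x := ⟨d, hd⟩
  rw [phiFun, dif_pos hx]
  generalize hd' : hx.choose = d'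
  have hd'V : i d' * x ∈ V := hd' ▸ hx.choose_spec
  have hv : d' * d⁻¹ ∈ V.comap i := by
    rw [Subgroup.mem_comap, map_mul, map_inv]
    have : i d' * (i d)⁻¹ = (i d' * x) * (i d * x)⁻¹ := by group
    rw [this]
    exact V.mul_mem hd'V (V.inv_mem hd)
  have e := (F.1 (x * g)).2.1 ⟨d' * d⁻¹, hv⟩ d
  have e' : (F.1 (x * g)).1 d' = Y.ρ (d' * d⁻¹) ((F.1 (x * g)).1 d) := by
    have h0 : d' = (V.comap i).subtype ⟨d' * d⁻¹, hv⟩ * d := by simp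
    conv_lhs => rw [h0]
    exact e
  rw [e', ← Module.End.mul_apply, ← map_mul]
  congr 2
  group

variable (hV : ∃ U₀ ∈ 𝓑G.sets, U₀ ≤ V)

include hV in
theorem phiFun_mem (F : JJ i 𝓑G 𝓑H Y V) (g : G) :
    (fun x => phiFun i 𝓑G 𝓑H Y V F g x) ∈ scoindV i 𝓑G Y := by
  refine ⟨fun e x => ?_, ?_⟩
  · show phiFun i 𝓑G 𝓑H Y V F g (i e * x) = Y.ρ e (phiFun i 𝓑G 𝓑H Y V F g x)
    by_cases hx : InHV i V x
    · obtain ⟨d, hd⟩ := hx
      have hd2 : i (d * e⁻¹) * (i e * x) ∈ V := by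
        have : i (d * e⁻¹) * (i e * x) = i d * x := by rw [map_mul, map_inv]; group
        rwa [this]
      rw [phiFun_apply i 𝓑G 𝓑H Y V F g x d hd, phiFun_apply i 𝓑G 𝓑H Y V F g (i e * x) _ hd2,
        mul_assoc, F.2.1 e (x * g), scoind_ρ_apply, ← Module.End.mul_apply, ← map_mul]
      have h1 : d * e⁻¹ * e = d := by group
      have h2 : (d * e⁻¹)⁻¹ = e * d⁻¹ := by group
      rw [h1, h2]
    · rw [phiFun_of_not i 𝓑G 𝓑H Y V F g hx,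
        phiFun_of_not i 𝓑G 𝓑H Y V F g (fun h => hx ((inHV_mul_left i V e x).1 h)), map_zero]
  · obtain ⟨U, hU, hinv⟩ := F.2.2
    obtain ⟨N, hN, hNU, hn⟩ := 𝓑G.isBasis.normalCore U hU
    obtain ⟨U₀, hU₀, hU₀V⟩ := hV
    obtain ⟨W, hW, hle⟩ := 𝓑G.isBasis.directed N hN U₀ hU₀
    refine ⟨W, hW, fun x s hs => ?_⟩
    have hsV : s ∈ V := hU₀V (hle hs).2
    have hsN : g⁻¹ * s * g ∈ U := hNU (by simpa using hn.conj_mem s (hle hs).1 g⁻¹)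
    have hF : F.1 (x * s * g) = F.1 (x * g) := by
      have : x * s * g = x * g * (g⁻¹ * s * g) := by group
      rw [this]
      exact hinv _ _ hsN
    show phiFun i 𝓑G 𝓑H Y V F g (x * s) = phiFun i 𝓑G 𝓑H Y V F g x
    by_cases hx : InHV i V x
    · obtain ⟨d, hd⟩ := hx
      have hd2 : i d * (x * s) ∈ V := by
        rw [← mul_assoc]
        exact V.mul_mem hd hsV
      rw [phiFun_apply i 𝓑G 𝓑H Y V F g x d hd, phiFun_apply i 𝓑G 𝓑H Y V F g (x * s) d hd2, hF]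
    · rw [phiFun_of_not i 𝓑G 𝓑H Y V F g hx,
        phiFun_of_not i 𝓑G 𝓑H Y V F g (fun h => hx ((inHV_mul_right i V x hsV).1 h))]

/-- `phi F g ∈ X`. -/
noncomputable def phiX (F : JJ i 𝓑G 𝓑H Y V) (g : G) : XX i 𝓑G Y :=
  ⟨fun x => phiFun i 𝓑G 𝓑H Y V F g x, phiFun_mem i 𝓑G 𝓑H Y V hV F g⟩

theorem phiX_apply (F : JJ i 𝓑G 𝓑H Y V) (g x : G) :
    (phiX i 𝓑G 𝓑H Y V hV F g).1 x = phiFun i 𝓑G 𝓑H Y V F g x := rfl

theorem phiX_mem (F : JJ i 𝓑G 𝓑H Y V) :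
    (fun g => phiX i 𝓑G 𝓑H Y V hV F g) ∈
      scoindV V.subtype 𝓑G (Rep.res V.subtype (XX i 𝓑G Y)) := by
  refine ⟨fun v g => Subtype.ext (funext fun x => ?_), ?_⟩
  · show phiFun i 𝓑G 𝓑H Y V F ((v : G) * g) x = phiFun i 𝓑G 𝓑H Y V F g (x * (v : G))
    by_cases hx : InHV i V x
    · obtain ⟨d, hd⟩ := hx
      have hd2 : i d * (x * (v : G)) ∈ V := by
        rw [← mul_assoc]
        exact V.mul_mem hd v.2
      rw [phiFun_apply i 𝓑G 𝓑H Y V F _ x d hd, phiFun_apply i 𝓑G 𝓑H Y V F g _ d hd2, mul_assoc]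
    · rw [phiFun_of_not i 𝓑G 𝓑H Y V F _ hx,
        phiFun_of_not i 𝓑G 𝓑H Y V F g (fun h => hx ((inHV_mul_right i V x v.2).1 h))]
  · obtain ⟨U, hU, hinv⟩ := F.2.2
    refine ⟨U, hU, fun g s hs => Subtype.ext (funext fun x => ?_)⟩
    show phiFun i 𝓑G 𝓑H Y V F (g * s) x = phiFun i 𝓑G 𝓑H Y V F g x
    have hF : F.1 (x * (g * s)) = F.1 (x * g) := by
      rw [← mul_assoc]
      exact hinv _ _ hs
    by_cases hx : InHV i V x
    · obtain ⟨d, hd⟩ := hx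
      rw [phiFun_apply i 𝓑G 𝓑H Y V F _ x d hd, phiFun_apply i 𝓑G 𝓑H Y V F g x d hd, hF]
    · rw [phiFun_of_not i 𝓑G 𝓑H Y V F _ hx, phiFun_of_not i 𝓑G 𝓑H Y V F g hx]

theorem phiFun_add (F F' : JJ i 𝓑G 𝓑H Y V) (g x : G) :
    phiFun i 𝓑G 𝓑H Y V (F + F') g x =
      phiFun i 𝓑G 𝓑H Y V F g x + phiFun i 𝓑G 𝓑H Y V F' g x := by
  by_cases hx : InHV i V x
  · obtain ⟨d, hd⟩ := hx
    rw [phiFun_apply i 𝓑G 𝓑H Y V _ g x d hd, phiFun_apply i 𝓑G 𝓑H Y V _ g x d hd,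
      phiFun_apply i 𝓑G 𝓑H Y V _ g x d hd, ← map_add]
    rfl
  · rw [phiFun_of_not i 𝓑G 𝓑H Y V _ g hx, phiFun_of_not i 𝓑G 𝓑H Y V _ g hx,
      phiFun_of_not i 𝓑G 𝓑H Y V _ g hx, add_zero]

theorem phiFun_smul (c : k) (F : JJ i 𝓑G 𝓑H Y V) (g x : G) :
    phiFun i 𝓑G 𝓑H Y V (c • F) g x = c • phiFun i 𝓑G 𝓑H Y V F g x := by
  by_cases hx : InHV i V x
  · obtain ⟨d, hd⟩ := hx
    rw [phiFun_apply i 𝓑G 𝓑H Y V _ g x d hd, phiFun_apply i 𝓑G 𝓑H Y V _ g x d hd, ← map_smul]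
    rfl
  · rw [phiFun_of_not i 𝓑G 𝓑H Y V _ g hx, phiFun_of_not i 𝓑G 𝓑H Y V _ g hx, smul_zero]

/-- **The comparison map** `Coind_H^G Coind_{V_H}^H Y → Coind_V^G (Coind_H^G Y)|_V`. -/
noncomputable def phi : JJ i 𝓑G 𝓑H Y V →ₗ[k] CoindRes 𝓑G (XX i 𝓑G Y) V where
  toFun F := ⟨fun g => phiX i 𝓑G 𝓑H Y V hV F g, phiX_mem i 𝓑G 𝓑H Y V hV F⟩
  map_add' F F' := Subtype.ext (funext fun g => Subtype.ext (funext fun x =>
    phiFun_add i 𝓑G 𝓑H Y V F F' g x))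
  map_smul' c F := Subtype.ext (funext fun g => Subtype.ext (funext fun x =>
    phiFun_smul i 𝓑G 𝓑H Y V c F g x))

theorem phi_apply (F : JJ i 𝓑G 𝓑H Y V) (g x : G) :
    ((phi i 𝓑G 𝓑H Y V hV F).1 g).1 x = phiFun i 𝓑G 𝓑H Y V F g x := rfl

theorem phi_equivariant (g₀ : G) (F : JJ i 𝓑G 𝓑H Y V) :
    phi i 𝓑G 𝓑H Y V hV ((JJ i 𝓑G 𝓑H Y V).ρ g₀ F) =
      (CoindRes 𝓑G (XX i 𝓑G Y) V).ρ g₀ (phi i 𝓑G 𝓑H Y V hV F) := by
  refine Subtype.ext (funext fun g => Subtype.ext (funext fun x => ?_))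
  show phiFun i 𝓑G 𝓑H Y V ((JJ i 𝓑G 𝓑H Y V).ρ g₀ F) g x = phiFun i 𝓑G 𝓑H Y V F (g * g₀) x
  by_cases hx : InHV i V x
  · obtain ⟨d, hd⟩ := hx
    rw [phiFun_apply i 𝓑G 𝓑H Y V _ g x d hd, phiFun_apply i 𝓑G 𝓑H Y V _ _ x d hd,
      scoind_ρ_apply, mul_assoc]
  · rw [phiFun_of_not i 𝓑G 𝓑H Y V _ g hx, phiFun_of_not i 𝓑G 𝓑H Y V _ _ hx]

/-! ### The trace identity -/

/-- `e V_H ↦ x⁻¹ i(e) V`. -/
def iotaQ (x : G) : H ⧸ V.comap i → G ⧸ V :=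
  Quotient.map' (fun e => x⁻¹ * i e) (by
    intro a b hab
    rw [QuotientGroup.leftRel_apply] at hab ⊢
    have : (x⁻¹ * i a)⁻¹ * (x⁻¹ * i b) = i (a⁻¹ * b) := by rw [map_mul, map_inv]; group
    rw [this]
    exact hab)

theorem iotaQ_mk (x : G) (e : H) :
    iotaQ i V x (QuotientGroup.mk e) = QuotientGroup.mk (x⁻¹ * i e) := rfl

theorem iotaQ_injective (x : G) : Function.Injective (iotaQ i V x) := by
  intro a b hab
  induction a using QuotientGroup.induction_on with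
  | H a =>
    induction b using QuotientGroup.induction_on with
    | H b =>
      rw [iotaQ_mk, iotaQ_mk, QuotientGroup.eq] at hab
      rw [QuotientGroup.eq, Subgroup.mem_comap]
      have : (x⁻¹ * i a)⁻¹ * (x⁻¹ * i b) = i (a⁻¹ * b) := by rw [map_mul, map_inv]; group
      rwa [this] at hab

variable [Fintype (G ⧸ V)] [Fintype (H ⧸ V.comap i)]

/-- **`trace_X ∘ phi = Coind_H^G (trace_Y)`.** -/
theorem trace_phi (F : JJ i 𝓑G 𝓑H Y V) :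
    trace 𝓑G (XX i 𝓑G Y) V (phi i 𝓑G 𝓑H Y V hV F) =
      scoindMap i 𝓑G (trace 𝓑H Y (V.comap i)) (trace_equivariant 𝓑H Y (V.comap i)) F := by
  refine Subtype.ext (funext fun x => ?_)
  rw [scoindMap_apply, trace_apply, trace_apply]
  have h1 : ((∑ c : G ⧸ V, traceTerm 𝓑G (XX i 𝓑G Y) V (phi i 𝓑G 𝓑H Y V hV F) c :
      XX i 𝓑G Y) : ↥(scoindV i 𝓑G Y)).1 x =
      ∑ c : G ⧸ V, (traceTerm 𝓑G (XX i 𝓑G Y) V (phi i 𝓑G 𝓑H Y V hV F) c).1 x := by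
    have h0 := congrFun (Submodule.coe_sum (scoindV i 𝓑G Y)
      (fun c : G ⧸ V => traceTerm 𝓑G (XX i 𝓑G Y) V (phi i 𝓑G 𝓑H Y V hV F) c) Finset.univ) x
    rw [Finset.sum_apply] at h0
    exact h0
  rw [h1]
  symm
  refine Fintype.sum_of_injective (iotaQ i V x) (iotaQ_injective i V x) _ _ ?_ ?_
  · intro c hc
    induction c using QuotientGroup.induction_on with
    | H g =>
      rw [traceTerm_mk, scoind_ρ_apply, phi_apply]
      refine phiFun_of_not i 𝓑G 𝓑H Y V F _ ?_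
      rintro ⟨d, hd⟩
      apply hc
      refine ⟨QuotientGroup.mk d⁻¹, ?_⟩
      rw [iotaQ_mk, QuotientGroup.eq]
      have : (x⁻¹ * i d⁻¹)⁻¹ * g = i d * (x * g) := by rw [map_inv]; group
      rw [this]
      exact hd
  · intro c'
    induction c' using QuotientGroup.induction_on with
    | H e =>
      rw [iotaQ_mk, traceTerm_mk, traceTerm_mk, scoind_ρ_apply, phi_apply]
      have hd : i e⁻¹ * (x * (x⁻¹ * i e)) ∈ V := by
        have : i e⁻¹ * (x * (x⁻¹ * i e)) = 1 := by rw [map_inv]; group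
        rw [this]
        exact V.one_mem
      rw [phiFun_apply i 𝓑G 𝓑H Y V F _ _ e⁻¹ hd, inv_inv]
      have : x * (x⁻¹ * i e) * (x⁻¹ * i e)⁻¹ = x := by group
      rw [this]

/-! ### The lift of local classes -/

variable (hcont : IsLevelHom i 𝓑H.sets 𝓑G.sets)
  (hind : ∀ W ∈ 𝓑H.sets, ∃ U ∈ 𝓑G.sets, U.comap i ≤ W)

/-- **The lift** `H²_lev(V_H; Y|_{V_H}) → H²_lev(V; (Coind_H^G Y)|_V)` (extension by zero from the
double coset of `1`, at the level of cohomology). -/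
noncomputable def liftV (hY : IsDiscrete 𝓑H.sets Y) :
    H2 (comapBasis (V.comap i).subtype 𝓑H) (Rep.res (V.comap i).subtype Y) →ₗ[k]
      H2 (comapBasis V.subtype 𝓑G) (Rep.res V.subtype (XX i 𝓑G Y)) :=
  (shV 𝓑G (XX i 𝓑G Y) V (isDiscrete_scoind i 𝓑G Y)).toLinearMap ∘ₗ
    mapH2 (phi i 𝓑G 𝓑H Y V hV) (phi_equivariant i 𝓑G 𝓑H Y V hV) ∘ₗ
    (sh2Equiv i 𝓑G 𝓑H hcont hind (CoindRes 𝓑H Y (V.comap i))
      (isDiscrete_scoind _ _ _)).symm.toLinearMap ∘ₗ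
    (shV 𝓑H Y (V.comap i) hY).symm.toLinearMap

/-- **Shapiro of the trace of the lift is the local trace.** -/
theorem sh2_trV_liftV (hY : IsDiscrete 𝓑H.sets Y)
    (a : H2 (comapBasis (V.comap i).subtype 𝓑H) (Rep.res (V.comap i).subtype Y)) :
    sh2 i 𝓑G 𝓑H hcont Y (trV 𝓑G (XX i 𝓑G Y) V (isDiscrete_scoind i 𝓑G Y)
      (liftV i 𝓑G 𝓑H Y V hV hcont hind hY a)) = trV 𝓑H Y (V.comap i) hY a := by
  set z := (sh2Equiv i 𝓑G 𝓑H hcont hind (CoindRes 𝓑H Y (V.comap i))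
      (isDiscrete_scoind _ _ _)).symm ((shV 𝓑H Y (V.comap i) hY).symm a) with hz
  have hz' : sh2 i 𝓑G 𝓑H hcont (CoindRes 𝓑H Y (V.comap i)) z = (shV 𝓑H Y (V.comap i) hY).symm a :=
    (sh2Equiv i 𝓑G 𝓑H hcont hind (CoindRes 𝓑H Y (V.comap i))
      (isDiscrete_scoind _ _ _)).apply_symm_apply _
  have h1 : liftV i 𝓑G 𝓑H Y V hV hcont hind hY a =
      shV 𝓑G (XX i 𝓑G Y) V (isDiscrete_scoind i 𝓑G Y)
        (mapH2 (phi i 𝓑G 𝓑H Y V hV) (phi_equivariant i 𝓑G 𝓑H Y V hV) z) := rfl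
  rw [h1, trV_shV]
  have h2 : mapH2 (trace 𝓑G (XX i 𝓑G Y) V) (trace_equivariant 𝓑G (XX i 𝓑G Y) V)
      (mapH2 (phi i 𝓑G 𝓑H Y V hV) (phi_equivariant i 𝓑G 𝓑H Y V hV) z) =
      mapH2 (scoindMap i 𝓑G (trace 𝓑H Y (V.comap i)) (trace_equivariant 𝓑H Y (V.comap i)))
        (scoindMap_equivariant i 𝓑G _ _) z := by
    obtain ⟨w, hw⟩ := H2mk_surjective 𝓑G _ z
    rw [← hw, mapH2_mk, mapH2_mk, mapH2_mk]
    congr 1
    apply Subtype.ext
    funext x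
    exact trace_phi i 𝓑G 𝓑H Y V hV _
  rw [h2, sh2_natural, hz']
  rfl

include hV hind in
/-- Existence form. -/
theorem exists_lift_trace (hY : IsDiscrete 𝓑H.sets Y) :
    ∃ L : H2 (comapBasis (V.comap i).subtype 𝓑H) (Rep.res (V.comap i).subtype Y) →ₗ[k]
        H2 (comapBasis V.subtype 𝓑G) (Rep.res V.subtype (scoind i 𝓑G Y)),
      ∀ a, sh2 i 𝓑G 𝓑H hcont Y (trV 𝓑G (scoind i 𝓑G Y) V (isDiscrete_scoind i 𝓑G Y) (L a)) =
        trV 𝓑H Y (V.comap i) hY a :=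
  ⟨liftV i 𝓑G 𝓑H Y V hV hcont hind hY, sh2_trV_liftV i 𝓑G 𝓑H Y V hV hcont hind hY⟩

end Fermat.Agent.W56.TraceShap8
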