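/-
Programme W56 (target S56), chapter (F) FLAT, the counts (helper3): **the `(0,1)`-entry of a
Borel-valued cocycle** (complements to helper9's `BorelRam9`, Mathlib only).

`rb : G →* M₂(k)` upper triangular on `D ≤ G`, `z : G → M₂(k)` a cocycle on `D` for the adjoint
action.  For `τ ∈ D` with `rb τ = (1 x; 0 1)`:
* `unip_mul01`, `unip_conj01` : `x` is additive and `x(d⁻¹ τ d) = χ(d) x(τ)`, `χ = ψ₂/ψ₁`;
* `coc01_add` : `z₀₁` is additive on such `τ` with `z τ` strictly upper triangular;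
* `coc_conj01` : `z(d⁻¹ τ d)₀₁ = χ(d) (z τ₀₁ - 2 z(d)₀₀ x(τ))` when `z d` is upper triangular of trace `0`
  and `z τ` strictly upper triangular;
* `cob_diag` : the coboundary of `diag(y, -y)`.
-/
import Mathlib
import Fermat.Agent.W56.BorelRam9

set_option autoImplicit false

namespace Fermat.Agent.W56.UpperCoc3

open Matrix Fermat.Agent.W56.BorelRam9

local notation "M2" => Matrix (Fin 2) (Fin 2)

variable {k : Type} [Field k] {G : Type*} [Group G] {rb : G →* M2 k} {D : Subgroup G}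
  (hrb : ∀ σ ∈ D, rb σ 1 0 = 0)

include hrb

theorem rb_inv11 {σ : G} (hσ : σ ∈ D) : rb σ⁻¹ 1 1 = (rb σ 1 1)⁻¹ :=
  eq_inv_of_mul_eq_one_right (psi2_inv hrb hσ)

/-- the `(0,1)`-entry of a product. -/
theorem mul01 {σ τ : G} (hτ : τ ∈ D) :
    rb (σ * τ) 0 1 = rb σ 0 0 * rb τ 0 1 + rb σ 0 1 * rb τ 1 1 := by
  rw [map_mul, Matrix.mul_apply, Fin.sum_univ_two]

/-- additivity of `x` on unipotent elements. -/
theorem unip_mul01 {σ τ : G} (hτ : τ ∈ D) (hσ0 : rb σ 0 0 = 1) (hτ1 : rb τ 1 1 = 1) :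
    rb (σ * τ) 0 1 = rb σ 0 1 + rb τ 0 1 := by
  rw [mul01 hrb hτ, hσ0, hτ1, one_mul, mul_one, add_comm]

/-- the `(0,1)`-entry of the inverse. -/
theorem inv01 {σ : G} (hσ : σ ∈ D) :
    rb σ⁻¹ 0 1 = -(rb σ 0 1) / (rb σ 0 0 * rb σ 1 1) := by
  have h := mul01 hrb (σ := σ) (τ := σ⁻¹) (D.inv_mem hσ)
  rw [mul_inv_cancel, map_one, Matrix.one_apply_ne (by decide : (0 : Fin 2) ≠ 1),
    rb_inv11 hrb hσ] at h
  have h0 := psi1_ne hrb hσ
  have h1 := psi2_ne hrb hσ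
  field_simp
  field_simp at h
  linear_combination -h

/-- conjugation of a unipotent element. -/
theorem unip_conj01 {d τ : G} (hd : d ∈ D) (hτ : τ ∈ D) (hτ0 : rb τ 0 0 = 1)
    (hτ1 : rb τ 1 1 = 1) : rb (d⁻¹ * τ * d) 0 1 = chi rb d * rb τ 0 1 := by
  have hdi := D.inv_mem hd
  rw [mul01 hrb hd, mul01 hrb hτ, psi1_mul' hrb hτ, hτ0, hτ1, rb_inv00 hrb hd, inv01 hrb hd, chi]
  have h0 := psi1_ne hrb hd
  have h1 := psi2_ne hrb hd
  field_simp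
  ring

/-- conjugation of a strictly upper triangular matrix. -/
theorem conj01_strict {σ : G} (hσ : σ ∈ D) (X : M2 k) (h10 : X 1 0 = 0) (h00 : X 0 0 = 0)
    (h11 : X 1 1 = 0) : (rb σ * X * rb σ⁻¹) 0 1 = (chi rb σ)⁻¹ * X 0 1 := by
  simp only [Matrix.mul_apply, Fin.sum_univ_two, h10, h00, h11, hrb σ hσ,
    hrb σ⁻¹ (D.inv_mem hσ)]
  rw [rb_inv11 hrb hσ, chi]
  have h0 := psi1_ne hrb hσ
  have h1 := psi2_ne hrb hσ
  field_simp
  ring

/-- conjugation of an upper triangular matrix by a unipotent element. -/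
theorem conj01_unip {τ : G} (hτ : τ ∈ D) (hτ0 : rb τ 0 0 = 1) (hτ1 : rb τ 1 1 = 1) (B : M2 k)
    (h10 : B 1 0 = 0) : (rb τ * B * rb τ⁻¹) 0 1 = B 0 1 + (B 1 1 - B 0 0) * rb τ 0 1 := by
  have e1 : rb τ⁻¹ 1 1 = 1 := by rw [rb_inv11 hrb hτ, hτ1, inv_one]
  have e2 : rb τ⁻¹ 0 1 = -(rb τ 0 1) := by rw [inv01 hrb hτ, hτ0, hτ1, mul_one, div_one]
  simp only [Matrix.mul_apply, Fin.sum_univ_two, h10, hrb τ hτ, hrb τ⁻¹ (D.inv_mem hτ), hτ0, hτ1,
    e1, e2]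
  ring

/-- the coboundary of `diag(y, -y)`. -/
theorem cob_diag {σ : G} (hσ : σ ∈ D) (y : k) :
    (rb σ * !![y, 0; 0, -y] * rb σ⁻¹ - !![y, 0; 0, -y]) 1 0 = 0 ∧
    (rb σ * !![y, 0; 0, -y] * rb σ⁻¹ - !![y, 0; 0, -y]) 0 0 = 0 ∧
    (rb σ * !![y, 0; 0, -y] * rb σ⁻¹ - !![y, 0; 0, -y]) 1 1 = 0 ∧
    (rb σ * !![y, 0; 0, -y] * rb σ⁻¹ - !![y, 0; 0, -y]) 0 1 = -2 * y * rb σ 0 1 / rb σ 1 1 := by
  have h0 := psi1_ne hrb hσ
  have h1 := psi2_ne hrb hσ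
  have e0 := psi1_inv hrb hσ
  have e1 := psi2_inv hrb hσ
  have e2 := inv01 hrb hσ
  have e3 := rb_inv11 hrb hσ
  refine ⟨?_, ?_, ?_, ?_⟩
  · simp only [Matrix.sub_apply, Matrix.mul_apply, Fin.sum_univ_two, hrb σ hσ,
      hrb σ⁻¹ (D.inv_mem hσ), Matrix.of_apply, Matrix.cons_val', Matrix.cons_val_zero,
      Matrix.cons_val_one, Matrix.cons_val_fin_one]
    ring
  · simp only [Matrix.sub_apply, Matrix.mul_apply, Fin.sum_univ_two, hrb σ hσ,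
      hrb σ⁻¹ (D.inv_mem hσ), Matrix.of_apply, Matrix.cons_val', Matrix.cons_val_zero,
      Matrix.cons_val_one, Matrix.cons_val_fin_one]
    linear_combination y * e0
  · simp only [Matrix.sub_apply, Matrix.mul_apply, Fin.sum_univ_two, hrb σ hσ,
      hrb σ⁻¹ (D.inv_mem hσ), Matrix.of_apply, Matrix.cons_val', Matrix.cons_val_zero,
      Matrix.cons_val_one, Matrix.cons_val_fin_one]
    linear_combination -y * e1
  · simp only [Matrix.sub_apply, Matrix.mul_apply, Fin.sum_univ_two, hrb σ hσ,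
      hrb σ⁻¹ (D.inv_mem hσ), Matrix.of_apply, Matrix.cons_val', Matrix.cons_val_zero,
      Matrix.cons_val_one, Matrix.cons_val_fin_one]
    rw [e2, e3]
    field_simp
    ring

/-! ### cocycles -/

variable {z : G → M2 k} (hz : ∀ σ ∈ D, ∀ τ ∈ D, z (σ * τ) = rb σ * z τ * rb σ⁻¹ + z σ)

include hz

/-- additivity of `z₀₁` on unipotent elements with strictly upper triangular values. -/
theorem coc01_add {σ τ : G} (hσ : σ ∈ D) (hτ : τ ∈ D) (hσ0 : rb σ 0 0 = 1) (hσ1 : rb σ 1 1 = 1)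
    (h10 : z τ 1 0 = 0) (h00 : z τ 0 0 = 0) (h11 : z τ 1 1 = 0) :
    z (σ * τ) 0 1 = z σ 0 1 + z τ 0 1 := by
  rw [hz σ hσ τ hτ, Matrix.add_apply, conj01_strict hrb hσ _ h10 h00 h11, chi, hσ0, hσ1, div_one,
    inv_one, one_mul, add_comm]

/-- the value at an inverse. -/
theorem coc_inv {d : G} (hd : d ∈ D) : z d⁻¹ = -(rb d⁻¹ * z d * rb d) := by
  have h := hz d⁻¹ (D.inv_mem hd) d hd
  rw [inv_mul_cancel, coc_one hz, inv_inv] at h
  exact eq_neg_of_add_eq_zero_right h.symm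

/-- the conjugation formula. -/
theorem coc_conj {d τ : G} (hd : d ∈ D) (hτ : τ ∈ D) :
    z (d⁻¹ * τ * d) = rb d⁻¹ * (z τ + (rb τ * z d * rb τ⁻¹ - z d)) * rb d := by
  have hdi := D.inv_mem hd
  rw [mul_assoc, hz d⁻¹ hdi (τ * d) (D.mul_mem hτ hd), hz τ hτ d hd, coc_inv hrb hz hd, inv_inv]
  simp only [mul_add, add_mul, mul_sub, sub_mul, Matrix.mul_assoc]
  abel

/-- **the `(0,1)`-entry of a conjugate.** -/
theorem coc_conj01 {d τ : G} (hd : d ∈ D) (hτ : τ ∈ D) (hτ0 : rb τ 0 0 = 1) (hτ1 : rb τ 1 1 = 1)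
    (hd10 : z d 1 0 = 0) (hdtr : z d 1 1 = -z d 0 0)
    (h10 : z τ 1 0 = 0) (h00 : z τ 0 0 = 0) (h11 : z τ 1 1 = 0) :
    z (d⁻¹ * τ * d) 0 1 = chi rb d * (z τ 0 1 - 2 * z d 0 0 * rb τ 0 1) := by
  have hdi := D.inv_mem hd
  -- the inner matrix is strictly upper triangular
  set X : M2 k := z τ + (rb τ * z d * rb τ⁻¹ - z d) with hX
  have hX10 : X 1 0 = 0 := by
    rw [hX, Matrix.add_apply, Matrix.sub_apply, conj10' hrb hτ, h10, hd10]
    ring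
  have hX00 : X 0 0 = 0 := by
    rw [hX, Matrix.add_apply, Matrix.sub_apply, conj00 hrb hτ _ hd10, h00]
    ring
  have hX11 : X 1 1 = 0 := by
    have e1 : rb τ⁻¹ 1 1 = 1 := by rw [rb_inv11 hrb hτ, hτ1, inv_one]
    rw [hX, Matrix.add_apply, Matrix.sub_apply, h11]
    simp only [Matrix.mul_apply, Fin.sum_univ_two, hd10, hrb τ hτ, hτ1, e1]
    ring
  have hX01 : X 0 1 = z τ 0 1 - 2 * z d 0 0 * rb τ 0 1 := by
    rw [hX, Matrix.add_apply, Matrix.sub_apply, conj01_unip hrb hτ hτ0 hτ1 _ hd10, hdtr]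
    ring
  rw [coc_conj hrb hz hd hτ]
  have h := conj01_strict hrb hdi X hX10 hX00 hX11
  rw [inv_inv] at h
  rw [h, chi_inv hrb hd, inv_inv, hX01]

end Fermat.Agent.W56.UpperCoc3
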